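import Mathlib
import Fermat.Prelude.Def_AlgebraicCurve_Repartitions

/-!
# S27, module A2: weak Riemann–Roch for the repartition genus (helper3372)

`K` is a field, `F/K` a field extension whose places (discrete valuation subrings containing
`K`) all have residue field `K`.  Everything is stated in the language of the frozen Prelude:
`repartitions`, `repartitionsOf D` (`= A(D)`), `principalRepartitions`, `H1 D`,
`riemannRochSpace D` (`= L(D)`), `genusFF`.

Main results (hypothesis-passing: `HasPrincipalDivisors`, residue fields `= K`, degrees `= 1`,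
one place exists, and `RiemannData` = the classical lower bound `n (l+1) ≤ ℓ(l B + C)`):

* `mem_repartitions_iff`: an adele is a function with finitely many poles.
* `step_exists`, `single_mem`, `single_not_mem`: `A(D + v) = A(D) ⊕ K · ι_v(π^(-D v - 1))`.
* `finite_riemannRochSpace`, `finrank_riemannRochSpace_zero`.
* `finite_H1`, `weak_riemann_roch`: `ℓ(D) - h¹(D) = deg D + 1 - g`.
* `exists_forall_top`: `A(D) + F = A` as soon as `deg D ≥ c`.
-/

set_option autoImplicit false

namespace Fermat.Agent.S27.helper3372

open AlgebraicCurve WithZero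

universe u v

variable {K : Type u} {F : Type v} [Field K] [Field F] [Algebra K F]

/-! ## Valuation lemmas for a place -/

section Val

variable (v : Place K F)

theorem mem_of_adicValuation_le_one {f : F} (hf : v.adicValuation f ≤ 1) :
    f ∈ v.toValuationSubring := by
  rcases eq_or_ne f 0 with rfl | hf0
  · exact zero_mem _
  have hord : 0 ≤ v.ord f := by
    rcases v.adicValuation_le_one_iff.mp hf with h | h
    · exact absurd h hf0
    · exact h
  obtain ⟨π, hπ⟩ := IsDiscreteValuationRing.exists_irreducible v.toValuationSubring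
  obtain ⟨u, hu⟩ := v.exists_unit_mul_zpow hf0 hπ
  rw [hu]
  obtain ⟨n, hn⟩ := Int.eq_ofNat_of_zero_le hord
  rw [hn, zpow_natCast]
  exact mul_mem (u : v.toValuationSubring).2 (pow_mem π.2 n)

theorem adicValuation_le_one_iff_mem {f : F} :
    v.adicValuation f ≤ 1 ↔ f ∈ v.toValuationSubring :=
  ⟨mem_of_adicValuation_le_one v, v.adicValuation_le_one_of_mem⟩

/-- A uniformizer. -/
theorem exists_uniformizer : ∃ π : F, v.adicValuation π = exp (-1 : ℤ) := by
  obtain ⟨π, hπ⟩ := IsDiscreteValuationRing.exists_irreducible v.toValuationSubring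
  exact ⟨π, v.adicValuation_coe_irreducible hπ⟩

theorem adicValuation_lt_one_iff_le {f : F} :
    v.adicValuation f < 1 ↔ v.adicValuation f ≤ exp (-1 : ℤ) := by
  rcases eq_or_ne f 0 with rfl | hf
  · simp
  · rw [v.adicValuation_eq_exp_neg_ord hf, ← exp_zero, exp_lt_exp, exp_le_exp]
    omega

/-- Residue: an integral element is congruent to a constant. -/
theorem exists_const_sub_lt (hres : Function.Surjective (algebraMap K v.ResidueField))
    {f : F} (hf : v.adicValuation f ≤ 1) :
    ∃ c : K, v.adicValuation (f - algebraMap K F c) ≤ exp (-1 : ℤ) := by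
  have hmem := mem_of_adicValuation_le_one v hf
  obtain ⟨c, hc⟩ := hres (IsLocalRing.residue v.toValuationSubring ⟨f, hmem⟩)
  refine ⟨c, ?_⟩
  rw [← adicValuation_lt_one_iff_le]
  have hmem2 : (⟨f, hmem⟩ - algebraMap K v.toValuationSubring c : v.toValuationSubring)
      ∈ v.heightOneSpectrum.asIdeal := by
    rw [Place.heightOneSpectrum_asIdeal, ← IsLocalRing.residue_eq_zero_iff, map_sub, sub_eq_zero]
    rw [← hc]
    rfl
  have := (IsDedekindDomain.HeightOneSpectrum.valuation_lt_one_iff_mem (K := F)
      v.heightOneSpectrum _).mpr hmem2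
  simpa [Place.adicValuation] using this

end Val

/-! ## Adeles -/

section Adele

theorem finite_poles_const (hP : HasPrincipalDivisors K F) (f : F) :
    {v : Place K F | ¬ v.adicValuation f ≤ 1}.Finite := by
  rcases eq_or_ne f 0 with rfl | hf
  · simp
  obtain ⟨D, hD, -⟩ := hP.exists_divisor f hf
  refine D.support.finite_toSet.subset fun v hv => ?_
  rw [Set.mem_ofPred_eq, v.not_adicValuation_le_one_iff] at hv
  rw [Finset.mem_coe, Finsupp.mem_support_iff, hD v]
  omega

/-- An adele is a family with finitely many poles. -/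
theorem mem_repartitions_iff (hP : HasPrincipalDivisors K F) {α : Place K F → F} :
    α ∈ repartitions K F ↔ {v : Place K F | ¬ v.adicValuation (α v) ≤ 1}.Finite := by
  constructor
  · intro h
    unfold repartitions at h
    induction h using Algebra.adjoin_induction with
    | mem x hx => exact hx
    | algebraMap r => exact finite_poles_const hP r
    | add x y _ _ hx hy =>
      refine (hx.union hy).subset fun v hv => ?_
      by_contra hcon
      simp only [Set.mem_union, Set.mem_ofPred_eq, not_or, not_not] at hcon
      exact hv ((Valuation.map_add _ _ _).trans (max_le hcon.1 hcon.2))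
    | mul x y _ _ hx hy =>
      refine (hx.union hy).subset fun v hv => ?_
      by_contra hcon
      simp only [Set.mem_union, Set.mem_ofPred_eq, not_or, not_not] at hcon
      apply hv
      show v.adicValuation (x v * y v) ≤ 1
      rw [map_mul]
      exact mul_le_one' hcon.1 hcon.2
  · exact mem_repartitions_of_finite

open Classical in
/-- The adele with component `f` at `v` and `0` elsewhere. -/
noncomputable def single (v : Place K F) (f : F) : ↥(repartitions K F) :=
  ⟨Pi.single v f, mem_repartitions_of_finite <| (Set.finite_singleton v).subset fun w hw => by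
    by_contra hne
    apply hw
    rw [Pi.single_eq_of_ne hne]
    simp⟩

@[simp]
theorem single_apply_same (v : Place K F) (f : F) :
    (single v f : Place K F → F) v = f := by
  classical
  simp [single]

theorem single_apply_ne {v w : Place K F} (h : w ≠ v) (f : F) :
    (single v f : Place K F → F) w = 0 := by
  classical
  simp [single, Pi.single_eq_of_ne h]

theorem coe_smul_apply (c : K) (α : ↥(repartitions K F)) (w : Place K F) :
    ((c • α : ↥(repartitions K F)) : Place K F → F) w
      = algebraMap K F c * (α : Place K F → F) w := by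
  show c • (α : Place K F → F) w = _
  rw [Algebra.smul_def]

theorem coe_sub_apply (α β : ↥(repartitions K F)) (w : Place K F) :
    ((α - β : ↥(repartitions K F)) : Place K F → F) w
      = (α : Place K F → F) w - (β : Place K F → F) w := rfl

theorem coe_add_apply (α β : ↥(repartitions K F)) (w : Place K F) :
    ((α + β : ↥(repartitions K F)) : Place K F → F) w
      = (α : Place K F → F) w + (β : Place K F → F) w := rfl

theorem adicValuation_zpow_uniformizer (v : Place K F) {π : F}
    (hπ : v.adicValuation π = exp (-1 : ℤ)) (n : ℤ) :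
    v.adicValuation (π ^ n) = exp (-n) := by
  rw [map_zpow₀, hπ, ← exp_zsmul]
  simp

/-- `ι_v(π^(-D v - 1))` lies in `A(D + v)`. -/
theorem single_mem (D : Divisor K F) (v : Place K F) {π : F}
    (hπ : v.adicValuation π = exp (-1 : ℤ)) :
    single v (π ^ (-(D v) - 1)) ∈ repartitionsOf (D + Finsupp.single v 1) := by
  intro w
  by_cases hw : w = v
  · subst hw
    rw [single_apply_same, adicValuation_zpow_uniformizer w hπ, exp_le_exp,
      Finsupp.add_apply, Finsupp.single_eq_same]
    omega
  · rw [single_apply_ne hw]
    simp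

/-- `ι_v(π^(-D v - 1))` does not lie in `A(D)`. -/
theorem single_not_mem (D : Divisor K F) (v : Place K F) {π : F}
    (hπ : v.adicValuation π = exp (-1 : ℤ)) :
    single v (π ^ (-(D v) - 1)) ∉ repartitionsOf D := by
  intro h
  have := h v
  rw [single_apply_same, adicValuation_zpow_uniformizer v hπ, exp_le_exp] at this
  omega

/-- One-step decomposition: `A(D + v) = A(D) + K · ι_v(π^(-D v - 1))`. -/
theorem step_exists (D : Divisor K F) (v : Place K F) {π : F}
    (hπ : v.adicValuation π = exp (-1 : ℤ))
    (hres : Function.Surjective (algebraMap K v.ResidueField))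
    {α : ↥(repartitions K F)} (hα : α ∈ repartitionsOf (D + Finsupp.single v 1)) :
    ∃ c : K, α - c • single v (π ^ (-(D v) - 1)) ∈ repartitionsOf D := by
  have hπ0 : π ≠ 0 := by
    rintro rfl
    rw [map_zero] at hπ
    exact WithZero.exp_ne_zero hπ.symm
  have hαv := hα v
  simp only [Finsupp.add_apply, Finsupp.single_eq_same] at hαv
  have hu : v.adicValuation ((α : Place K F → F) v * π ^ (D v + 1)) ≤ 1 := by
    rw [map_mul, adicValuation_zpow_uniformizer v hπ]
    calc v.adicValuation ((α : Place K F → F) v) * exp (-(D v + 1))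
        ≤ exp (D v + 1) * exp (-(D v + 1)) := by gcongr
      _ = 1 := by rw [← exp_add]; simp
  obtain ⟨c, hc⟩ := exists_const_sub_lt v hres hu
  refine ⟨c, fun w => ?_⟩
  by_cases hw : w = v
  · subst hw
    rw [coe_sub_apply, coe_smul_apply, single_apply_same]
    have heq : (α : Place K F → F) w - algebraMap K F c * π ^ (-(D w) - 1)
        = ((α : Place K F → F) w * π ^ (D w + 1) - algebraMap K F c) * π ^ (-(D w) - 1) := by
      rw [sub_mul, mul_assoc, ← zpow_add₀ hπ0]
      have : D w + 1 + (-(D w) - 1) = 0 := by ring
      rw [this, zpow_zero, mul_one]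
    rw [heq, map_mul, adicValuation_zpow_uniformizer w hπ]
    calc w.adicValuation ((α : Place K F → F) w * π ^ (D w + 1) - algebraMap K F c)
          * exp (-(-(D w) - 1))
        ≤ exp (-1 : ℤ) * exp (-(-(D w) - 1)) := by gcongr
      _ = exp (D w) := by rw [← exp_add]; congr 1; ring
  · rw [coe_sub_apply, coe_smul_apply, single_apply_ne hw, mul_zero, sub_zero]
    have := hα w
    simpa [Finsupp.single_eq_of_ne hw] using this

end Adele

/-! ## Constant adeles, `L(D)`, and `N(D) = A(D) + F` -/

section Lattice

variable (K) in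
/-- The constant (principal) adele of `f`. -/
noncomputable def const (f : F) : ↥(repartitions K F) := algebraMap F ↥(repartitions K F) f

@[simp]
theorem coe_const_apply (f : F) (w : Place K F) : ((const K f : ↥(repartitions K F)) : Place K F → F) w = f := rfl

theorem const_add (f g : F) : const K (f + g) = const K f + const K g := map_add _ _ _

theorem const_sub (f g : F) : const K (f - g) = const K f - const K g := map_sub _ _ _

theorem const_smul (c : K) (f : F) : const K (c • f) = c • const K f := by
  apply Subtype.ext
  funext w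
  rw [coe_const_apply, coe_smul_apply, coe_const_apply, Algebra.smul_def]

theorem const_mul (f : F) (α : ↥(repartitions K F)) (w : Place K F) :
    ((const K f * α : ↥(repartitions K F)) : Place K F → F) w = f * (α : Place K F → F) w := rfl

theorem const_mem_principal (f : F) : const K f ∈ principalRepartitions K F :=
  mem_principalRepartitions_iff.mpr ⟨f, rfl⟩

theorem mem_principal_iff {α : ↥(repartitions K F)} :
    α ∈ principalRepartitions K F ↔ ∃ f : F, α = const K f := by
  rw [mem_principalRepartitions_iff]
  constructor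
  · rintro ⟨f, hf⟩
    exact ⟨f, Subtype.ext hf⟩
  · rintro ⟨f, rfl⟩
    exact ⟨f, rfl⟩

theorem const_mem_repartitionsOf_iff {D : Divisor K F} {f : F} :
    const K f ∈ repartitionsOf D ↔ f ∈ riemannRochSpace D := Iff.rfl

theorem riemannRochSpace_mono {D D' : Divisor K F} (h : D ≤ D') :
    riemannRochSpace D ≤ riemannRochSpace D' := fun _ hf v =>
  (hf v).trans (exp_le_exp.mpr (Finsupp.le_def.mp h v))

variable (K F) in
/-- `N(D) = A(D) + F`, so that `H1 D = A / N(D)`. -/
noncomputable def NN (D : Divisor K F) : Submodule K ↥(repartitions K F) :=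
  repartitionsOf D ⊔ principalRepartitions K F

theorem NN_mono {D D' : Divisor K F} (h : D ≤ D') : NN K F D ≤ NN K F D' :=
  sup_le_sup_right (repartitionsOf_mono h) _

theorem mem_NN_iff {D : Divisor K F} {α : ↥(repartitions K F)} :
    α ∈ NN K F D ↔ ∃ β ∈ repartitionsOf D, ∃ f : F, α = β + const K f := by
  unfold NN
  rw [Submodule.mem_sup]
  constructor
  · rintro ⟨β, hβ, γ, hγ, rfl⟩
    obtain ⟨f, rfl⟩ := mem_principal_iff.mp hγ
    exact ⟨β, hβ, f, rfl⟩
  · rintro ⟨β, hβ, f, rfl⟩
    exact ⟨β, hβ, const K f, const_mem_principal f, rfl⟩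

theorem le_add_single (D : Divisor K F) (v : Place K F) : D ≤ D + Finsupp.single v 1 := by
  intro w
  rw [Finsupp.add_apply]
  by_cases hw : w = v
  · subst hw; simp
  · simp [Finsupp.single_eq_of_ne hw]

/-- `A(D + v) = A(D) ⊔ K ∙ α₀`. -/
theorem repartitionsOf_add_single (D : Divisor K F) (v : Place K F) {π : F}
    (hπ : v.adicValuation π = exp (-1 : ℤ))
    (hres : Function.Surjective (algebraMap K v.ResidueField)) :
    repartitionsOf (D + Finsupp.single v 1)
      = repartitionsOf D ⊔ Submodule.span K {single v (π ^ (-(D v) - 1))} := by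
  apply le_antisymm
  · intro α hα
    obtain ⟨c, hc⟩ := step_exists D v hπ hres hα
    rw [Submodule.mem_sup]
    refine ⟨_, hc, c • single v (π ^ (-(D v) - 1)), ?_, by abel⟩
    exact Submodule.smul_mem _ _ (Submodule.mem_span_singleton_self _)
  · refine sup_le (repartitionsOf_mono (le_add_single D v)) ?_
    rw [Submodule.span_le, Set.singleton_subset_iff]
    exact single_mem D v hπ

/-- `N(D + v) = N(D) ⊔ K ∙ α₀`. -/
theorem NN_add_single (D : Divisor K F) (v : Place K F) {π : F}
    (hπ : v.adicValuation π = exp (-1 : ℤ))
    (hres : Function.Surjective (algebraMap K v.ResidueField)) :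
    NN K F (D + Finsupp.single v 1)
      = NN K F D ⊔ Submodule.span K {single v (π ^ (-(D v) - 1))} := by
  unfold NN
  rw [repartitionsOf_add_single D v hπ hres, sup_assoc, sup_assoc,
    sup_comm (Submodule.span K _) (principalRepartitions K F)]

/-- Case I of the one-step dichotomy: if `α₀ ∈ N(D)` then `L(D + v) = L(D) ⊕ K f`. -/
theorem exists_riemannRochSpace_add_single (D : Divisor K F) (v : Place K F) {π : F}
    (hπ : v.adicValuation π = exp (-1 : ℤ))
    (hres : Function.Surjective (algebraMap K v.ResidueField))
    (h : single v (π ^ (-(D v) - 1)) ∈ NN K F D) :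
    ∃ f : F, f ∉ riemannRochSpace D ∧
      riemannRochSpace (D + Finsupp.single v 1) = riemannRochSpace D ⊔ Submodule.span K {f} := by
  obtain ⟨β, hβ, f, hf⟩ := mem_NN_iff.mp h
  have hfmem : f ∈ riemannRochSpace (D + Finsupp.single v 1) := by
    rw [← const_mem_repartitionsOf_iff]
    have : const K f = single v (π ^ (-(D v) - 1)) - β := by rw [hf]; abel
    rw [this]
    exact Submodule.sub_mem _ (single_mem D v hπ) (repartitionsOf_mono (le_add_single D v) hβ)
  refine ⟨f, fun hfD => single_not_mem D v hπ ?_, le_antisymm ?_ ?_⟩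
  · rw [hf]
    exact Submodule.add_mem _ hβ (const_mem_repartitionsOf_iff.mpr hfD)
  · intro g hg
    obtain ⟨c, hc⟩ := step_exists D v hπ hres (const_mem_repartitionsOf_iff.mpr hg)
    rw [Submodule.mem_sup]
    refine ⟨g - c • f, ?_, c • f, Submodule.smul_mem _ _ (Submodule.mem_span_singleton_self _),
      by abel⟩
    rw [← const_mem_repartitionsOf_iff]
    have : const K (g - c • f)
        = (const K g - c • single v (π ^ (-(D v) - 1))) + c • β := by
      rw [const_sub, const_smul, hf, smul_add]
      abel
    rw [this]
    exact Submodule.add_mem _ hc (Submodule.smul_mem _ _ hβ)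
  · refine sup_le (riemannRochSpace_mono (le_add_single D v)) ?_
    rw [Submodule.span_le, Set.singleton_subset_iff]
    exact hfmem

/-- Case II of the one-step dichotomy: if `α₀ ∉ N(D)` then `L(D + v) = L(D)`. -/
theorem riemannRochSpace_add_single_eq (D : Divisor K F) (v : Place K F) {π : F}
    (hπ : v.adicValuation π = exp (-1 : ℤ))
    (hres : Function.Surjective (algebraMap K v.ResidueField))
    (h : single v (π ^ (-(D v) - 1)) ∉ NN K F D) :
    riemannRochSpace (D + Finsupp.single v 1) = riemannRochSpace D := by
  apply le_antisymm _ (riemannRochSpace_mono (le_add_single D v))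
  intro g hg
  obtain ⟨c, hc⟩ := step_exists D v hπ hres (const_mem_repartitionsOf_iff.mpr hg)
  rcases eq_or_ne c 0 with rfl | hc0
  · rw [zero_smul, sub_zero] at hc
    exact const_mem_repartitionsOf_iff.mp hc
  · exfalso
    apply h
    rw [mem_NN_iff]
    refine ⟨-(c⁻¹ • (const K g - c • single v (π ^ (-(D v) - 1)))),
      Submodule.neg_mem _ (Submodule.smul_mem _ _ hc), c⁻¹ • g, ?_⟩
    rw [const_smul, smul_sub, smul_smul, inv_mul_cancel₀ hc0, one_smul]
    abel

end Lattice

/-! ## Degrees (all places of degree one) -/

section Degree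

variable (hdeg : ∀ v : Place K F, v.deg = 1)
include hdeg

theorem degree_add_single (D : Divisor K F) (v : Place K F) :
    Divisor.degree (D + Finsupp.single v 1) = Divisor.degree D + 1 := by
  rw [map_add, Divisor.degree_single, hdeg]
  simp

theorem degree_eq_sum (D : Divisor K F) : Divisor.degree D = D.sum fun _ n => n := by
  rw [Divisor.degree, Finsupp.liftAddHom_apply]
  apply Finsupp.sum_congr
  intro v _
  simp [hdeg]

theorem degree_nonneg {E : Divisor K F} (hE : 0 ≤ E) : 0 ≤ Divisor.degree E := by
  rw [degree_eq_sum hdeg]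
  exact Finset.sum_nonneg fun v _ => Finsupp.le_def.mp hE v

theorem degree_mono {D D' : Divisor K F} (h : D ≤ D') :
    Divisor.degree D ≤ Divisor.degree D' := by
  have h1 : (0 : Divisor K F) ≤ D' - D := by
    rw [Finsupp.le_def]
    intro w
    rw [Finsupp.sub_apply]
    exact sub_nonneg.mpr (Finsupp.le_def.mp h w)
  have := degree_nonneg hdeg h1
  rw [map_sub] at this
  linarith

omit hdeg in
theorem exists_pos_of_ne_zero {E : Divisor K F} (hE : 0 ≤ E) (hne : E ≠ 0) : ∃ v, 0 < E v := by
  by_contra hcon
  simp only [not_exists, not_lt] at hcon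
  apply hne
  ext v
  exact le_antisymm (hcon v) (Finsupp.le_def.mp hE v)

theorem eq_zero_of_degree_eq_zero {E : Divisor K F} (hE : 0 ≤ E) (h : Divisor.degree E = 0) :
    E = 0 := by
  by_contra hne
  obtain ⟨v, hv⟩ := exists_pos_of_ne_zero hE hne
  have h1 : (0 : Divisor K F) ≤ E - Finsupp.single v 1 := by
    rw [Finsupp.le_def]
    intro w
    rw [Finsupp.sub_apply]
    by_cases hw : w = v
    · subst hw
      simp only [Finsupp.coe_zero, Pi.zero_apply, Finsupp.single_eq_same]
      omega
    · rw [Finsupp.single_eq_of_ne hw, sub_zero]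
      exact Finsupp.le_def.mp hE w
  have := degree_nonneg hdeg h1
  rw [map_sub, Divisor.degree_single, hdeg, h] at this
  simp at this

/-- Induction along `D ↦ D + v` above a base divisor. -/
theorem divisor_induction {P : Divisor K F → Prop} (Db : Divisor K F) (h0 : P Db)
    (hstep : ∀ D', Db ≤ D' → P D' → ∀ v, P (D' + Finsupp.single v 1)) :
    ∀ D', Db ≤ D' → P D' := by
  have hnn : ∀ D', Db ≤ D' → (0 : Divisor K F) ≤ D' - Db := by
    intro D' hle
    rw [Finsupp.le_def]
    intro w
    rw [Finsupp.sub_apply]
    exact sub_nonneg.mpr (Finsupp.le_def.mp hle w)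
  have key : ∀ n : ℕ, ∀ D', Db ≤ D' → Divisor.degree (D' - Db) = n → P D' := by
    intro n
    induction n with
    | zero =>
      intro D' hle hd
      have := eq_zero_of_degree_eq_zero hdeg (hnn D' hle) (by simpa using hd)
      rw [sub_eq_zero] at this
      rw [this]
      exact h0
    | succ n ih =>
      intro D' hle hd
      have hne : D' - Db ≠ 0 := by
        intro h
        rw [h, map_zero] at hd
        push_cast at hd
        omega
      obtain ⟨v, hv⟩ := exists_pos_of_ne_zero (hnn D' hle) hne
      rw [Finsupp.sub_apply] at hv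
      have hle' : Db ≤ D' - Finsupp.single v 1 := by
        rw [Finsupp.le_def]
        intro w
        rw [Finsupp.sub_apply]
        by_cases hw : w = v
        · subst hw
          rw [Finsupp.single_eq_same]
          omega
        · rw [Finsupp.single_eq_of_ne hw, sub_zero]
          exact Finsupp.le_def.mp hle w
      have hd' : Divisor.degree (D' - Finsupp.single v 1 - Db) = n := by
        have : D' - Finsupp.single v 1 - Db = (D' - Db) - Finsupp.single v 1 := by abel
        rw [this, map_sub, hd, Divisor.degree_single, hdeg]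
        push_cast
        ring
      have h2 := hstep _ hle' (ih _ hle' hd') v
      rwa [sub_add_cancel] at h2
  intro D' hle
  exact key _ D' hle (Int.toNat_of_nonneg (degree_nonneg hdeg (hnn D' hle))).symm

end Degree

/-! ## Dimension bookkeeping -/

section Bookkeeping

theorem finrank_sup_span_singleton {V : Type*} [AddCommGroup V] [Module K V]
    (S : Submodule K V) [Module.Finite K S] {a : V} (ha : a ∉ S) :
    Module.Finite K ↥(S ⊔ Submodule.span K {a}) ∧
      Module.finrank K ↥(S ⊔ Submodule.span K {a}) = Module.finrank K S + 1 := by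
  have ha0 : a ≠ 0 := fun h => ha (h ▸ S.zero_mem)
  refine ⟨inferInstance, ?_⟩
  have h1 := Submodule.finrank_sup_add_finrank_inf_eq S (Submodule.span K {a})
  have h2 : S ⊓ Submodule.span K {a} = ⊥ :=
    disjoint_iff.mp ((Submodule.disjoint_span_singleton' ha0).mpr ha)
  rw [h2, finrank_bot, add_zero, finrank_span_singleton ha0] at h1
  exact h1

variable (K F) in
/-- The image of `N(D')` in `A / N(Db)`. -/
noncomputable def MM (Db D' : Divisor K F) : Submodule K (↥(repartitions K F) ⧸ NN K F Db) :=
  (NN K F D').map (NN K F Db).mkQ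

theorem MM_self (Db : Divisor K F) : MM K F Db Db = ⊥ := by
  unfold MM
  exact Submodule.mkQ_map_self _

theorem mkQ_mem_MM_iff {Db D' : Divisor K F} (hle : Db ≤ D') {α : ↥(repartitions K F)} :
    (NN K F Db).mkQ α ∈ MM K F Db D' ↔ α ∈ NN K F D' := by
  constructor
  · rintro ⟨y, hy, hyα⟩
    have h1 : y - α ∈ NN K F Db := by
      rw [← Submodule.Quotient.mk_eq_zero, Submodule.Quotient.mk_sub]
      exact sub_eq_zero.mpr hyα
    have h2 : α = y - (y - α) := by abel
    rw [h2]
    exact Submodule.sub_mem _ hy (NN_mono hle h1)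
  · intro h
    exact Submodule.mem_map_of_mem h

theorem MM_eq_top_iff {Db D' : Divisor K F} (hle : Db ≤ D') :
    MM K F Db D' = ⊤ ↔ NN K F D' = ⊤ := by
  constructor
  · intro h
    rw [eq_top_iff]
    intro α _
    rw [← mkQ_mem_MM_iff hle, h]
    exact Submodule.mem_top
  · intro h
    unfold MM
    rw [h, Submodule.map_top, Submodule.range_mkQ]

/-- The bookkeeping invariant along a chain above `Db`. -/
def Good (Db D' : Divisor K F) : Prop :=
  Module.Finite K (riemannRochSpace D') ∧ Module.Finite K (MM K F Db D') ∧
    (Module.finrank K (MM K F Db D') : ℤ) + Module.finrank K (riemannRochSpace D')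
        - Divisor.degree D'
      = Module.finrank K (riemannRochSpace Db) - Divisor.degree Db

theorem Good.step (hres : ∀ v : Place K F, Function.Surjective (algebraMap K v.ResidueField))
    (hdeg : ∀ v : Place K F, v.deg = 1) {Db D' : Divisor K F} (hle : Db ≤ D')
    (h : Good Db D') (v : Place K F) : Good Db (D' + Finsupp.single v 1) := by
  obtain ⟨π, hπ⟩ := exists_uniformizer v
  obtain ⟨hL, hM, heq⟩ := h
  have hNN := NN_add_single D' v hπ (hres v)
  have hMM : MM K F Db (D' + Finsupp.single v 1)
      = MM K F Db D' ⊔ Submodule.span K {(NN K F Db).mkQ (single v (π ^ (-(D' v) - 1)))} := by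
    unfold MM
    rw [hNN, Submodule.map_sup, Submodule.map_span, Set.image_singleton]
  by_cases hα : single v (π ^ (-(D' v) - 1)) ∈ NN K F D'
  · obtain ⟨f, hf, hLeq⟩ := exists_riemannRochSpace_add_single D' v hπ (hres v) hα
    have hMM' : MM K F Db (D' + Finsupp.single v 1) = MM K F Db D' := by
      rw [hMM]
      apply sup_eq_left.mpr
      rw [Submodule.span_le, Set.singleton_subset_iff]
      exact (mkQ_mem_MM_iff hle).mpr hα
    obtain ⟨hfin, hrk⟩ := finrank_sup_span_singleton (riemannRochSpace D') hf
    refine ⟨by rw [hLeq]; exact hfin, by rw [hMM']; exact hM, ?_⟩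
    rw [hMM', hLeq, hrk, degree_add_single hdeg]
    push_cast
    linarith
  · have hLeq := riemannRochSpace_add_single_eq D' v hπ (hres v) hα
    have hnot : (NN K F Db).mkQ (single v (π ^ (-(D' v) - 1))) ∉ MM K F Db D' :=
      fun h => hα ((mkQ_mem_MM_iff hle).mp h)
    obtain ⟨hfin, hrk⟩ := finrank_sup_span_singleton (MM K F Db D') hnot
    refine ⟨by rw [hLeq]; exact hL, by rw [hMM]; exact hfin, ?_⟩
    rw [hMM, hrk, hLeq, degree_add_single hdeg]
    push_cast
    linarith

theorem good_of_le (hres : ∀ v : Place K F, Function.Surjective (algebraMap K v.ResidueField))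
    (hdeg : ∀ v : Place K F, v.deg = 1) {Db : Divisor K F}
    (hfin : Module.Finite K (riemannRochSpace Db)) : ∀ D', Db ≤ D' → Good Db D' := by
  refine divisor_induction hdeg Db ⟨hfin, ?_, ?_⟩ (fun D' hle h v => h.step hres hdeg hle v)
  · rw [MM_self]
    infer_instance
  · rw [MM_self]
    simp

end Bookkeeping

end Fermat.Agent.S27.helper3372
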