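/-
S27 / A2 (second file): weak Riemann–Roch for the Prelude repartition genus.
Hypothesis-passing, characteristic-free, universe-polymorphic.
-/
import Fermat.Agent.S27.helper3372_WeakRR

set_option autoImplicit false

namespace Fermat.Agent.S27.helper3372

open AlgebraicCurve WithZero

universe u v

variable {K : Type u} {F : Type v} [Field K] [Field F] [Algebra K F]

/-! ## Finiteness of `L(D)` -/

section Finiteness

theorem riemannRochSpace_eq_bot (hP : HasPrincipalDivisors K F)
    (hdeg : ∀ v : Place K F, v.deg = 1) {D : Divisor K F} (h : Divisor.degree D < 0) :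
    riemannRochSpace D = ⊥ := by
  rw [eq_bot_iff]
  intro f hf
  rw [Submodule.mem_bot]
  by_contra hf0
  obtain ⟨E, hE, hE0⟩ := hP.exists_divisor f hf0
  have h1 : (0 : Divisor K F) ≤ E + D := by
    rw [Finsupp.le_def]
    intro v
    rw [Finsupp.add_apply, hE]
    have := (mem_riemannRochSpace_iff.mp hf v).resolve_left hf0
    simp only [Finsupp.coe_zero, Pi.zero_apply]
    linarith
  have := degree_nonneg hdeg h1
  rw [map_add, hE0] at this
  linarith

theorem sub_single_le (D : Divisor K F) (v₀ : Place K F) (m : ℕ) :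
    D - Finsupp.single v₀ (m : ℤ) ≤ D := by
  rw [Finsupp.le_def]
  intro w
  rw [Finsupp.sub_apply]
  by_cases hw : w = v₀
  · subst hw
    rw [Finsupp.single_eq_same]
    omega
  · rw [Finsupp.single_eq_of_ne hw, sub_zero]

/-- Every `L(D)` is finite-dimensional, of dimension at most `max 0 (deg D + 1)`. -/
theorem finite_riemannRochSpace_and_le (hP : HasPrincipalDivisors K F)
    (hres : ∀ v : Place K F, Function.Surjective (algebraMap K v.ResidueField))
    (hdeg : ∀ v : Place K F, v.deg = 1) (hne : Nonempty (Place K F)) (D : Divisor K F) :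
    Module.Finite K (riemannRochSpace D) ∧
      (Module.finrank K (riemannRochSpace D) : ℤ) ≤ max 0 (Divisor.degree D + 1) := by
  obtain ⟨v₀⟩ := hne
  set m : ℕ := (Divisor.degree D + 1).toNat with hm
  have hle : D - Finsupp.single v₀ (m : ℤ) ≤ D := sub_single_le D v₀ m
  have hd : Divisor.degree (D - Finsupp.single v₀ (m : ℤ)) < 0 := by
    rw [map_sub, Divisor.degree_single, hdeg]
    push_cast
    omega
  have hbot := riemannRochSpace_eq_bot hP hdeg hd
  have hfin : Module.Finite K (riemannRochSpace (D - Finsupp.single v₀ (m : ℤ))) := by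
    rw [hbot]
    infer_instance
  obtain ⟨h1, -, h3⟩ := good_of_le hres hdeg hfin D hle
  refine ⟨h1, ?_⟩
  rw [hbot, finrank_bot, map_sub, Divisor.degree_single, hdeg] at h3
  push_cast at h3
  have : (0 : ℤ) ≤ Module.finrank K (MM K F (D - Finsupp.single v₀ (m : ℤ)) D) := by positivity
  omega

theorem finite_riemannRochSpace (hP : HasPrincipalDivisors K F)
    (hres : ∀ v : Place K F, Function.Surjective (algebraMap K v.ResidueField))
    (hdeg : ∀ v : Place K F, v.deg = 1) (hne : Nonempty (Place K F)) (D : Divisor K F) :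
    Module.Finite K (riemannRochSpace D) :=
  (finite_riemannRochSpace_and_le hP hres hdeg hne D).1

theorem one_mem_riemannRochSpace_zero : (1 : F) ∈ riemannRochSpace (0 : Divisor K F) := by
  intro v
  simp

theorem finrank_riemannRochSpace_zero (hP : HasPrincipalDivisors K F)
    (hres : ∀ v : Place K F, Function.Surjective (algebraMap K v.ResidueField))
    (hdeg : ∀ v : Place K F, v.deg = 1) (hne : Nonempty (Place K F)) :
    Module.finrank K (riemannRochSpace (0 : Divisor K F)) = 1 := by
  obtain ⟨hfin, hle⟩ := finite_riemannRochSpace_and_le hP hres hdeg hne (0 : Divisor K F)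
  rw [map_zero] at hle
  have hpos : 0 < Module.finrank K (riemannRochSpace (0 : Divisor K F)) := by
    rw [Module.finrank_pos_iff_exists_ne_zero]
    refine ⟨⟨1, one_mem_riemannRochSpace_zero⟩, ?_⟩
    intro h
    have := congrArg Subtype.val h
    simp at this
  have : (Module.finrank K (riemannRochSpace (0 : Divisor K F)) : ℤ) ≤ 1 := by simpa using hle
  omega

/-- Monotonicity of the defect `deg D - l(D)`. -/
theorem defect_mono (hP : HasPrincipalDivisors K F)
    (hres : ∀ v : Place K F, Function.Surjective (algebraMap K v.ResidueField))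
    (hdeg : ∀ v : Place K F, v.deg = 1) (hne : Nonempty (Place K F)) {D D' : Divisor K F}
    (hle : D ≤ D') :
    Divisor.degree D - Module.finrank K (riemannRochSpace D)
      ≤ Divisor.degree D' - Module.finrank K (riemannRochSpace D') := by
  obtain ⟨-, -, h3⟩ := good_of_le hres hdeg (finite_riemannRochSpace hP hres hdeg hne D) D' hle
  have : (0 : ℤ) ≤ Module.finrank K (MM K F D D') := by positivity
  omega

end Finiteness

/-! ## Multiplication by a function -/

section Mul

theorem mul_mem_riemannRochSpace {D D' : Divisor K F} {f z : F} (hf : f ∈ riemannRochSpace D)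
    (hz : z ≠ 0) (h : ∀ v : Place K F, D' v = D v - v.ord z) : f * z ∈ riemannRochSpace D' := by
  rw [mem_riemannRochSpace_iff] at hf ⊢
  intro v
  rcases eq_or_ne f 0 with rfl | hf0
  · left
    simp
  · right
    rw [v.ord_mul hf0 hz, h]
    have := (hf v).resolve_left hf0
    linarith

/-- `L(D) ≃ L(D - div z)` by multiplication with `z`. -/
noncomputable def mulEquiv {D D' : Divisor K F} {z : F} (hz : z ≠ 0)
    (h : ∀ v : Place K F, D' v = D v - v.ord z) :
    riemannRochSpace D ≃ₗ[K] riemannRochSpace D' where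
  toFun f := ⟨f.1 * z, mul_mem_riemannRochSpace f.2 hz h⟩
  invFun g := ⟨g.1 * z⁻¹, mul_mem_riemannRochSpace g.2 (inv_ne_zero hz)
    (fun v => by rw [h, v.ord_inv]; ring)⟩
  map_add' f g := by
    ext
    simp [add_mul]
  map_smul' c f := by
    ext
    simp
  left_inv f := by
    ext
    simp [hz]
  right_inv g := by
    ext
    simp [hz]

theorem finrank_eq_of_ord {D D' : Divisor K F} {z : F} (hz : z ≠ 0)
    (h : ∀ v : Place K F, D' v = D v - v.ord z) :
    Module.finrank K (riemannRochSpace D') = Module.finrank K (riemannRochSpace D) :=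
  (mulEquiv hz h).finrank_eq.symm

theorem coe_fsmul_apply (z : F) (α : ↥(repartitions K F)) (w : Place K F) :
    ((z • α : ↥(repartitions K F)) : Place K F → F) w = z * (α : Place K F → F) w := rfl

theorem fsmul_mem_repartitionsOf {D D' : Divisor K F} {z : F} (hz : z ≠ 0)
    (h : ∀ v : Place K F, D v - v.ord z ≤ D' v) {α : ↥(repartitions K F)}
    (hα : α ∈ repartitionsOf D) : z • α ∈ repartitionsOf D' := by
  rw [mem_repartitionsOf_iff] at hα ⊢
  intro v
  rw [coe_fsmul_apply]
  rcases eq_or_ne ((α : Place K F → F) v) 0 with h0 | h0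
  · left
    rw [h0, mul_zero]
  · right
    rw [v.ord_mul hz h0]
    have := (hα v).resolve_left h0
    have := h v
    linarith

theorem fsmul_const (z f : F) : z • const K f = const K (z * f) := by
  apply Subtype.ext
  funext w
  rw [coe_fsmul_apply, coe_const_apply, coe_const_apply]

/-- If `N(D₁) = ⊤` and `0 ≠ z ∈ L(D - D₁)`, then `N(D) = ⊤`. -/
theorem NN_eq_top_of_mem {D₁ D : Divisor K F} (h1 : NN K F D₁ = ⊤) {z : F} (hz : z ≠ 0)
    (hzm : z ∈ riemannRochSpace (D - D₁)) : NN K F D = ⊤ := by
  rw [eq_top_iff]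
  intro α _
  have hmem : z⁻¹ • α ∈ NN K F D₁ := by
    rw [h1]
    exact Submodule.mem_top
  obtain ⟨β, hβ, f, hf⟩ := mem_NN_iff.mp hmem
  have hzord : ∀ v : Place K F, D₁ v - v.ord z ≤ D v := by
    intro v
    have := (mem_riemannRochSpace_iff.mp hzm v).resolve_left hz
    rw [Finsupp.sub_apply] at this
    linarith
  rw [mem_NN_iff]
  refine ⟨z • β, fsmul_mem_repartitionsOf hz hzord hβ, z * f, ?_⟩
  have hα : α = z • (z⁻¹ • α) := by rw [smul_smul, mul_inv_cancel₀ hz, one_smul]
  rw [hα, hf, smul_add, fsmul_const]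

end Mul

/-! ## Riemann's theorem -/

section Riemann

variable (K F) in
/-- The input of Riemann's theorem: a positive divisor `B` whose multiples carry many
functions (produced from a finite map to the projective line). -/
def RiemannData : Prop :=
  ∃ (B C : Divisor K F) (n : ℕ), 0 < n ∧ 0 ≤ B ∧ 0 ≤ C ∧ Divisor.degree B ≤ n ∧
    ∀ l : ℕ, n * (l + 1) ≤ Module.finrank K (riemannRochSpace (l • B + C))

/-- Riemann's theorem: the defect `deg D - l(D)` is bounded above. -/
theorem exists_defect_bound (hP : HasPrincipalDivisors K F)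
    (hres : ∀ v : Place K F, Function.Surjective (algebraMap K v.ResidueField))
    (hdeg : ∀ v : Place K F, v.deg = 1) (hne : Nonempty (Place K F)) (hR : RiemannData K F) :
    ∃ γ : ℤ, ∀ D : Divisor K F,
      Divisor.degree D - Module.finrank K (riemannRochSpace D) ≤ γ := by
  obtain ⟨B, C, n, hn, hB, hC, hBn, hl⟩ := hR
  refine ⟨Divisor.degree C - n, fun D => ?_⟩
  set Dp : Divisor K F := D ⊔ 0 with hDp
  have hDp0 : (0 : Divisor K F) ≤ Dp := le_sup_right
  have hDpD : D ≤ Dp := le_sup_left
  have hdegDp := degree_nonneg hdeg hDp0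
  set l : ℕ := (Divisor.degree Dp).toNat with hl'
  have hlDp : Divisor.degree Dp = l := by
    rw [hl']
    exact (Int.toNat_of_nonneg hdegDp).symm
  have hT'le : l • B + C - Dp ≤ l • B + C := sub_le_self _ hDp0
  have hT'le2 : l • B + C - Dp ≤ l • B + C - D := sub_le_sub_left hDpD _
  have hdef1 := defect_mono hP hres hdeg hne hT'le
  have hfinT := finite_riemannRochSpace hP hres hdeg hne (l • B + C - D)
  have hmono : Module.finrank K (riemannRochSpace (l • B + C - Dp))
      ≤ Module.finrank K (riemannRochSpace (l • B + C - D)) :=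
    Submodule.finrank_mono (riemannRochSpace_mono hT'le2)
  have h1 : ((n * (l + 1) : ℕ) : ℤ) ≤ Module.finrank K (riemannRochSpace (l • B + C)) := by
    exact_mod_cast hl l
  have hn1 : (1 : ℤ) ≤ n := by exact_mod_cast hn
  have hpos : 0 < Module.finrank K (riemannRochSpace (l • B + C - D)) := by
    rw [map_sub, hlDp] at hdef1
    push_cast at h1
    have h3 : (l : ℤ) < n * (l + 1) := by nlinarith
    have h4 : (0 : ℤ) < Module.finrank K (riemannRochSpace (l • B + C - Dp)) := by linarith
    have h5 : 0 < Module.finrank K (riemannRochSpace (l • B + C - Dp)) := by exact_mod_cast h4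
    omega
  obtain ⟨⟨z, hzm⟩, hz0⟩ := Module.finrank_pos_iff_exists_ne_zero.mp hpos
  have hz : z ≠ 0 := fun h => hz0 (Subtype.ext h)
  obtain ⟨E, hE, hE0⟩ := hP.exists_divisor z hz
  have hD'le : D - E ≤ l • B + C := by
    rw [Finsupp.le_def]
    intro v
    have := (mem_riemannRochSpace_iff.mp hzm v).resolve_left hz
    rw [Finsupp.sub_apply] at this ⊢
    rw [hE]
    linarith
  have hfr : Module.finrank K (riemannRochSpace (D - E))
      = Module.finrank K (riemannRochSpace D) :=
    finrank_eq_of_ord hz (fun v => by rw [Finsupp.sub_apply, hE])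
  have hdef2 := defect_mono hP hres hdeg hne hD'le
  rw [map_sub, hE0, sub_zero, hfr, map_add, map_nsmul, nsmul_eq_mul] at hdef2
  push_cast at h1
  nlinarith

end Riemann

/-! ## The first cohomology `H1 D = A / (A(D) + F)` -/

section Cohomology

/-- Every adele lies in `A(E)` for some effective `E`. -/
theorem exists_divisor_mem (hP : HasPrincipalDivisors K F) (α : ↥(repartitions K F)) :
    ∃ E : Divisor K F, 0 ≤ E ∧ α ∈ repartitionsOf E := by
  classical
  have hfin := (mem_repartitions_iff hP).mp α.2
  let g : Place K F → ℤ := fun v => max 0 (-(v.ord ((α : Place K F → F) v)))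
  have hsupp : (Function.support g).Finite := by
    apply hfin.subset
    intro v hv
    rw [Function.mem_support] at hv
    rw [Set.mem_ofPred_eq, v.not_adicValuation_le_one_iff]
    by_contra hcon
    apply hv
    show max 0 (-(v.ord ((α : Place K F → F) v))) = 0
    rw [max_eq_left]
    omega
  refine ⟨Finsupp.ofSupportFinite g hsupp, ?_, ?_⟩
  · rw [Finsupp.le_def]
    intro v
    exact le_max_left _ _
  · rw [mem_repartitionsOf_iff]
    intro v
    right
    show -(max 0 (-(v.ord ((α : Place K F → F) v)))) ≤ _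
    have := le_max_right 0 (-(v.ord ((α : Place K F → F) v)))
    omega

/-- There is an effective `D₁` with `A = A(D₁) + F`. -/
theorem exists_NN_eq_top (hP : HasPrincipalDivisors K F)
    (hres : ∀ v : Place K F, Function.Surjective (algebraMap K v.ResidueField))
    (hdeg : ∀ v : Place K F, v.deg = 1) (hne : Nonempty (Place K F)) (hR : RiemannData K F) :
    ∃ D₁ : Divisor K F, 0 ≤ D₁ ∧ NN K F D₁ = ⊤ := by
  obtain ⟨γ, hγ⟩ := exists_defect_bound hP hres hdeg hne hR
  have h0fin := finite_riemannRochSpace hP hres hdeg hne (0 : Divisor K F)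
  have hgood := good_of_le hres hdeg h0fin
  have hl0 := finrank_riemannRochSpace_zero hP hres hdeg hne
  have hbound : ∀ D', (0 : Divisor K F) ≤ D' →
      (Module.finrank K (MM K F 0 D') : ℤ) ≤ 1 + γ := by
    intro D' hD'
    obtain ⟨-, -, h3⟩ := hgood D' hD'
    rw [hl0, map_zero] at h3
    have := hγ D'
    push_cast at h3
    linarith
  let s : Set ℕ := {m | ∃ D', (0 : Divisor K F) ≤ D' ∧ Module.finrank K (MM K F 0 D') = m}
  have hs_ne : s.Nonempty := ⟨_, 0, le_rfl, rfl⟩
  have hs_bdd : BddAbove s := ⟨(1 + γ).toNat, by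
    rintro m ⟨D', hD', rfl⟩
    have := hbound D' hD'
    omega⟩
  obtain ⟨D₁, hD₁, hD₁max⟩ := Nat.sSup_mem hs_ne hs_bdd
  refine ⟨D₁, hD₁, ?_⟩
  rw [← MM_eq_top_iff hD₁, eq_top_iff]
  rintro x -
  obtain ⟨α, rfl⟩ := Submodule.mkQ_surjective _ x
  obtain ⟨E, hE, hαE⟩ := exists_divisor_mem hP α
  have hle : D₁ ≤ D₁ + E := le_add_of_nonneg_right hE
  have hle0 : (0 : Divisor K F) ≤ D₁ + E := add_nonneg hD₁ hE
  have hMle : MM K F 0 D₁ ≤ MM K F 0 (D₁ + E) := Submodule.map_mono (NN_mono hle)
  have hfinM := (hgood (D₁ + E) hle0).2.1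
  have hfr : Module.finrank K (MM K F 0 (D₁ + E)) ≤ Module.finrank K (MM K F 0 D₁) := by
    rw [hD₁max]
    exact le_csSup hs_bdd ⟨D₁ + E, hle0, rfl⟩
  have heq : MM K F 0 D₁ = MM K F 0 (D₁ + E) := Submodule.eq_of_le_of_finrank_le hMle hfr
  rw [heq]
  apply Submodule.mem_map_of_mem
  exact Submodule.mem_sup_left (repartitionsOf_mono (le_add_of_nonneg_left hD₁) hαE)

theorem finite_of_eq_top {V : Type*} [AddCommGroup V] [Module K V] {S : Submodule K V}
    (hS : S = ⊤) (hfin : Module.Finite K S) :
    Module.Finite K V ∧ Module.finrank K V = Module.finrank K S := by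
  subst hS
  exact ⟨Module.Finite.equiv Submodule.topEquiv, (finrank_top K V).symm⟩

/-- If `A = A(D₂) + F` and `D ≤ D₂` then `H1 D` is finite-dimensional, with the expected
dimension. -/
theorem finite_H1_of_NN_eq_top (hP : HasPrincipalDivisors K F)
    (hres : ∀ v : Place K F, Function.Surjective (algebraMap K v.ResidueField))
    (hdeg : ∀ v : Place K F, v.deg = 1) (hne : Nonempty (Place K F)) {D D₂ : Divisor K F}
    (hle : D ≤ D₂) (htop : NN K F D₂ = ⊤) :
    Module.Finite K (H1 D) ∧
      (Module.finrank K (H1 D) : ℤ) + Module.finrank K (riemannRochSpace D₂)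
          - Divisor.degree D₂
        = Module.finrank K (riemannRochSpace D) - Divisor.degree D := by
  obtain ⟨-, h2, h3⟩ :=
    good_of_le hres hdeg (finite_riemannRochSpace hP hres hdeg hne D) D₂ hle
  obtain ⟨h4, h5⟩ := finite_of_eq_top ((MM_eq_top_iff hle).mpr htop) h2
  refine ⟨h4, ?_⟩
  rw [← h5] at h3
  exact h3

theorem finite_H1 (hP : HasPrincipalDivisors K F)
    (hres : ∀ v : Place K F, Function.Surjective (algebraMap K v.ResidueField))
    (hdeg : ∀ v : Place K F, v.deg = 1) (hne : Nonempty (Place K F)) (hR : RiemannData K F)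
    (D : Divisor K F) : Module.Finite K (H1 D) := by
  obtain ⟨D₁, hD₁, htop⟩ := exists_NN_eq_top hP hres hdeg hne hR
  have htop2 : NN K F (D ⊔ D₁) = ⊤ := top_le_iff.mp (htop ▸ NN_mono le_sup_right)
  exact (finite_H1_of_NN_eq_top hP hres hdeg hne le_sup_left htop2).1

/-- Weak Riemann–Roch: `l(D) - h¹(D) = deg D + 1 - g`. -/
theorem weak_rr (hP : HasPrincipalDivisors K F)
    (hres : ∀ v : Place K F, Function.Surjective (algebraMap K v.ResidueField))
    (hdeg : ∀ v : Place K F, v.deg = 1) (hne : Nonempty (Place K F)) (hR : RiemannData K F)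
    (D : Divisor K F) :
    (Module.finrank K (riemannRochSpace D) : ℤ) - Module.finrank K (H1 D)
      = Divisor.degree D + 1 - genusFF K F := by
  obtain ⟨D₁, hD₁, htop⟩ := exists_NN_eq_top hP hres hdeg hne hR
  have htop2 : NN K F (D ⊔ D₁) = ⊤ := top_le_iff.mp (htop ▸ NN_mono le_sup_right)
  have h1 := (finite_H1_of_NN_eq_top hP hres hdeg hne le_sup_left htop2).2
  have h0 : (0 : Divisor K F) ≤ D ⊔ D₁ := hD₁.trans le_sup_right
  have h2 := (finite_H1_of_NN_eq_top hP hres hdeg hne h0 htop2).2
  rw [finrank_riemannRochSpace_zero hP hres hdeg hne, map_zero] at h2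
  have hg : genusFF K F = Module.finrank K (H1 (0 : Divisor K F)) := rfl
  rw [hg]
  push_cast at h2
  linarith

/-- Riemann's inequality. -/
theorem riemann_inequality (hP : HasPrincipalDivisors K F)
    (hres : ∀ v : Place K F, Function.Surjective (algebraMap K v.ResidueField))
    (hdeg : ∀ v : Place K F, v.deg = 1) (hne : Nonempty (Place K F)) (hR : RiemannData K F)
    (D : Divisor K F) :
    Divisor.degree D + 1 - genusFF K F ≤ Module.finrank K (riemannRochSpace D) := by
  have h := weak_rr hP hres hdeg hne hR D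
  have : (0 : ℤ) ≤ Module.finrank K (H1 D) := by positivity
  linarith

theorem exists_ne_zero_mem (hP : HasPrincipalDivisors K F)
    (hres : ∀ v : Place K F, Function.Surjective (algebraMap K v.ResidueField))
    (hdeg : ∀ v : Place K F, v.deg = 1) (hne : Nonempty (Place K F)) (hR : RiemannData K F)
    {D : Divisor K F} (hD : (genusFF K F : ℤ) ≤ Divisor.degree D) :
    ∃ f : F, f ≠ 0 ∧ f ∈ riemannRochSpace D := by
  have h := riemann_inequality hP hres hdeg hne hR D
  have hfin := finite_riemannRochSpace hP hres hdeg hne D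
  have hpos : 0 < Module.finrank K (riemannRochSpace D) := by
    have : (0 : ℤ) < Module.finrank K (riemannRochSpace D) := by linarith
    exact_mod_cast this
  obtain ⟨⟨z, hzm⟩, hz0⟩ := Module.finrank_pos_iff_exists_ne_zero.mp hpos
  exact ⟨z, fun h => hz0 (Subtype.ext h), hzm⟩

/-- `H1 D` vanishes for divisors of large degree. -/
theorem exists_NN_eq_top_of_le (hP : HasPrincipalDivisors K F)
    (hres : ∀ v : Place K F, Function.Surjective (algebraMap K v.ResidueField))
    (hdeg : ∀ v : Place K F, v.deg = 1) (hne : Nonempty (Place K F)) (hR : RiemannData K F) :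
    ∃ c : ℤ, ∀ D : Divisor K F, c ≤ Divisor.degree D → NN K F D = ⊤ := by
  obtain ⟨D₁, hD₁, htop⟩ := exists_NN_eq_top hP hres hdeg hne hR
  refine ⟨Divisor.degree D₁ + genusFF K F, fun D hD => ?_⟩
  have hD' : (genusFF K F : ℤ) ≤ Divisor.degree (D - D₁) := by
    rw [map_sub]
    linarith
  obtain ⟨z, hz, hzm⟩ := exists_ne_zero_mem hP hres hdeg hne hR hD'
  exact NN_eq_top_of_mem htop hz hzm

theorem exists_H1_subsingleton (hP : HasPrincipalDivisors K F)
    (hres : ∀ v : Place K F, Function.Surjective (algebraMap K v.ResidueField))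
    (hdeg : ∀ v : Place K F, v.deg = 1) (hne : Nonempty (Place K F)) (hR : RiemannData K F) :
    ∃ c : ℤ, ∀ D : Divisor K F, c ≤ Divisor.degree D → Subsingleton (H1 D) := by
  obtain ⟨c, hc⟩ := exists_NN_eq_top_of_le hP hres hdeg hne hR
  exact ⟨c, fun D hD => Submodule.Quotient.subsingleton_iff.mpr (hc D hD)⟩

/-- Weak Riemann–Roch, bundled: finiteness of `L(D)` and `H1 D`, the Euler characteristic
formula, and vanishing of `H1` in large degree. -/
theorem weak_riemann_roch (hP : HasPrincipalDivisors K F)
    (hres : ∀ v : Place K F, Function.Surjective (algebraMap K v.ResidueField))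
    (hdeg : ∀ v : Place K F, v.deg = 1) (hne : Nonempty (Place K F)) (hR : RiemannData K F) :
    (∀ D : Divisor K F, Module.Finite K (riemannRochSpace D)) ∧
      (∀ D : Divisor K F, Module.Finite K (H1 D)) ∧
      (∀ D : Divisor K F, (Module.finrank K (riemannRochSpace D) : ℤ) - Module.finrank K (H1 D)
        = Divisor.degree D + 1 - genusFF K F) ∧
      ∃ c : ℤ, ∀ D : Divisor K F, c ≤ Divisor.degree D → Subsingleton (H1 D) :=
  ⟨finite_riemannRochSpace hP hres hdeg hne, finite_H1 hP hres hdeg hne hR,
    weak_rr hP hres hdeg hne hR, exists_H1_subsingleton hP hres hdeg hne hR⟩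

end Cohomology

end Fermat.Agent.S27.helper3372
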