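import Mathlib
import Fermat.Prelude.Def_AlgebraicCurve_Repartitions

/-!
# S27 (algebraic track): Riemann–Roch with duality in the Prelude repartition language

`K` a field, `F/K` a field extension, in the vocabulary of the frozen Prelude
(`Place`, `Divisor`, `repartitions`, `repartitionsOf D = A(D)`, `principalRepartitions`,
`H1 D = A / (A(D) + F)`, `riemannRochSpace D = L(D)`, `genusFF = dim H1 0`).

Input (hypothesis-passing): the *weak* Riemann–Roch package `WeakRR K F`
(finite-dimensionality, `ℓ(D) - h¹(D) = deg D + 1 - g`, `h¹(D) = 0` for `deg D ≥ c`).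

Output: Weil differentials, their divisors, the duality theorem `h¹(D) = ℓ(W - D)`,
`deg W = 2g - 2` and the full Riemann–Roch formula
`ℓ(D) = deg D + 1 - g + ℓ(W - D)` (`exists_canonical`, `stmt_RRD`).

No assumption on the characteristic, no algebraic closedness: only
`HasPrincipalDivisors K F`, positivity of the degrees of places and one place.
(Stichtenoth, *Algebraic function fields and codes*, §1.5.)
-/

set_option autoImplicit false

namespace Fermat.Agent.S27.helper9330

open AlgebraicCurve WithZero Module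

universe u v

variable {K : Type u} {F : Type v} [Field K] [Field F] [Algebra K F]

/-! ## Adeles: elementary API -/

/-- The adele ring `A` of the Prelude. -/
abbrev Rep (K : Type u) (F : Type v) [Field K] [Field F] [Algebra K F] : Type v :=
  ↥(repartitions K F)

theorem coe_smulF (x : F) (α : Rep K F) (w : Place K F) :
    ((x • α : Rep K F) : Place K F → F) w = x * (α : Place K F → F) w := rfl

theorem coe_add (α β : Rep K F) (w : Place K F) :
    ((α + β : Rep K F) : Place K F → F) w
      = (α : Place K F → F) w + (β : Place K F → F) w := rfl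

theorem coe_sub (α β : Rep K F) (w : Place K F) :
    ((α - β : Rep K F) : Place K F → F) w
      = (α : Place K F → F) w - (β : Place K F → F) w := rfl

theorem mem_repartitionsOf {D : Divisor K F} {α : Rep K F} :
    α ∈ repartitionsOf D ↔
      ∀ v : Place K F, v.adicValuation ((α : Place K F → F) v) ≤ exp (D v) := Iff.rfl

theorem mem_L {D : Divisor K F} {f : F} :
    f ∈ riemannRochSpace D ↔ ∀ v : Place K F, v.adicValuation f ≤ exp (D v) := Iff.rfl

open Classical in
/-- The adele with component `f` at `v` and `0` elsewhere. -/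
noncomputable def single (v : Place K F) (f : F) : Rep K F :=
  ⟨Pi.single v f, mem_repartitions_of_finite <| (Set.finite_singleton v).subset fun w hw => by
    by_contra hne
    apply hw
    have hne' : w ≠ v := hne
    rw [Pi.single_eq_of_ne hne']
    simp⟩

theorem single_apply_same (v : Place K F) (f : F) :
    (single v f : Place K F → F) v = f := by
  classical
  simp [single]

theorem single_apply_ne {v w : Place K F} (h : w ≠ v) (f : F) :
    (single v f : Place K F → F) w = 0 := by
  classical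
  simp [single, Pi.single_eq_of_ne h]

/-- `N(D) = A(D) + F`, the submodule whose quotient is `H1 D`. -/
abbrev NN (D : Divisor K F) : Submodule K (Rep K F) :=
  repartitionsOf D ⊔ principalRepartitions K F

theorem NN_mono {D D' : Divisor K F} (h : D ≤ D') : NN D ≤ NN D' :=
  sup_le_sup_right (repartitionsOf_mono h) _

theorem smul_mem_repartitionsOf {D E : Divisor K F} {x : F} (hx : x ∈ riemannRochSpace E)
    {α : Rep K F} (hα : α ∈ repartitionsOf D) : x • α ∈ repartitionsOf (D + E) := by
  intro v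
  show v.adicValuation (x * (α : Place K F → F) v) ≤ exp ((D + E) v)
  rw [map_mul, Finsupp.add_apply, add_comm, WithZero.exp_add]
  exact mul_le_mul' (hx v) (hα v)

theorem smul_mem_principal (x : F) {α : Rep K F} (hα : α ∈ principalRepartitions K F) :
    x • α ∈ principalRepartitions K F := by
  rw [mem_principalRepartitions_iff] at hα ⊢
  obtain ⟨f, hf⟩ := hα
  refine ⟨x * f, ?_⟩
  funext w
  rw [coe_smulF, hf]

theorem smul_mem_NN {D E : Divisor K F} {x : F} (hx : x ∈ riemannRochSpace E)
    {α : Rep K F} (hα : α ∈ NN D) : x • α ∈ NN (D + E) := by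
  obtain ⟨a, ha, p, hp, rfl⟩ := Submodule.mem_sup.mp hα
  rw [smul_add]
  exact Submodule.add_mem_sup (smul_mem_repartitionsOf hx ha) (smul_mem_principal x hp)

/-! ## Weil differentials -/

/-- Multiplication by `x : F` on adeles, as a `K`-linear map. -/
def mulLin (x : F) : Rep K F →ₗ[K] Rep K F where
  toFun α := x • α
  map_add' := smul_add x
  map_smul' c α := smul_comm x c α

@[simp] theorem mulLin_apply (x : F) (α : Rep K F) : mulLin (K := K) x α = x • α := rfl

/-- The `F`-action on `K`-linear functionals of the adele ring: `(x • ω)(α) = ω(x α)`. -/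
def smulW (x : F) (ω : Dual K (Rep K F)) : Dual K (Rep K F) := ω.comp (mulLin x)

@[simp] theorem smulW_apply (x : F) (ω : Dual K (Rep K F)) (α : Rep K F) :
    smulW x ω α = ω (x • α) := rfl

theorem smulW_one (ω : Dual K (Rep K F)) : smulW (1 : F) ω = ω := by
  ext α; simp

theorem smulW_zero (ω : Dual K (Rep K F)) : smulW (0 : F) ω = 0 := by
  ext α; simp

theorem smulW_smulW (x y : F) (ω : Dual K (Rep K F)) :
    smulW x (smulW y ω) = smulW (x * y) ω := by
  ext α
  simp only [smulW_apply]
  rw [smul_smul, mul_comm]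

theorem smulW_add_left (x y : F) (ω : Dual K (Rep K F)) :
    smulW (x + y) ω = smulW x ω + smulW y ω := by
  ext α
  simp only [smulW_apply, LinearMap.add_apply]
  rw [add_smul, map_add]

theorem smulW_add_right (x : F) (ω ω' : Dual K (Rep K F)) :
    smulW x (ω + ω') = smulW x ω + smulW x ω' := by
  ext α; simp

theorem smulW_neg_right (x : F) (ω : Dual K (Rep K F)) :
    smulW x (-ω) = -smulW x ω := by
  ext α; simp

theorem smulW_zero_right (x : F) : smulW x (0 : Dual K (Rep K F)) = 0 := by
  ext α; simp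

theorem smulW_smul_left (c : K) (x : F) (ω : Dual K (Rep K F)) :
    smulW (c • x) ω = c • smulW x ω := by
  ext α
  simp only [smulW_apply, LinearMap.smul_apply]
  rw [smul_assoc, map_smul]

/-- `x ↦ x • ω` as a `K`-linear map `F → Dual`. -/
def smulWLin (ω : Dual K (Rep K F)) : F →ₗ[K] Dual K (Rep K F) where
  toFun x := smulW x ω
  map_add' x y := smulW_add_left x y ω
  map_smul' c x := smulW_smul_left c x ω

@[simp] theorem smulWLin_apply (ω : Dual K (Rep K F)) (x : F) : smulWLin ω x = smulW x ω := rfl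

theorem smulW_eq_zero_iff {x : F} (hx : x ≠ 0) (ω : Dual K (Rep K F)) :
    smulW x ω = 0 ↔ ω = 0 := by
  constructor
  · intro h
    have := congrArg (smulW x⁻¹) h
    rwa [smulW_smulW, inv_mul_cancel₀ hx, smulW_one, smulW_zero_right] at this
  · rintro rfl; exact smulW_zero_right x

/-- `Ω(D)`: the functionals vanishing on `A(D) + F`. -/
abbrev Om (D : Divisor K F) : Submodule K (Dual K (Rep K F)) := (NN D).dualAnnihilator

theorem mem_Om {D : Divisor K F} {ω : Dual K (Rep K F)} :
    ω ∈ Om D ↔ ∀ α ∈ NN D, ω α = 0 := Submodule.mem_dualAnnihilator ω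

theorem Om_anti {D D' : Divisor K F} (h : D ≤ D') : Om D' ≤ Om D :=
  Submodule.dualAnnihilator_anti (NN_mono h)

theorem smulW_mem_Om {D E : Divisor K F} {x : F} (hx : x ∈ riemannRochSpace E)
    {ω : Dual K (Rep K F)} (hω : ω ∈ Om D) : smulW x ω ∈ Om (D - E) := by
  rw [mem_Om] at hω ⊢
  intro α hα
  have h := smul_mem_NN hx hα
  rw [sub_add_cancel] at h
  exact hω _ h

/-- `Ω(D)` is the dual of `H1 D`. -/
noncomputable def omEquiv (D : Divisor K F) : Dual K (H1 D) ≃ₗ[K] ↥(Om D) :=
  Submodule.dualQuotEquivDualAnnihilator (NN D)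

theorem finrank_Om (D : Divisor K F) : finrank K ↥(Om D) = finrank K (H1 D) := by
  rw [← (omEquiv D).finrank_eq, Subspace.dual_finrank_eq]

theorem finite_Om (D : Divisor K F) [Module.Finite K (H1 D)] : Module.Finite K ↥(Om D) :=
  Module.Finite.equiv (omEquiv D)

theorem Om_eq_bot_of_subsingleton (D : Divisor K F) [Subsingleton (H1 D)] : Om D = ⊥ := by
  rw [eq_bot_iff]
  intro ω hω
  rw [mem_Om] at hω
  rw [Submodule.mem_bot]
  ext α
  have h : NN D = ⊤ := Submodule.Quotient.subsingleton_iff.mp ‹_›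
  exact hω α (h ▸ Submodule.mem_top)

/-! ## Divisors and degrees -/

theorem degree_eq_sum (D : Divisor K F) :
    Divisor.degree D = D.sum fun v n => n * (v.deg : ℤ) := by
  simp [Divisor.degree, Finsupp.liftAddHom_apply]

theorem degree_nonneg {E : Divisor K F} (hE : 0 ≤ E) : 0 ≤ Divisor.degree E := by
  rw [degree_eq_sum]
  refine Finsupp.sum_nonneg' fun v => ?_
  have h : (0 : ℤ) ≤ E v := hE v
  positivity

theorem degree_mono {D D' : Divisor K F} (h : D ≤ D') :
    Divisor.degree D ≤ Divisor.degree D' := by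
  have h0 : (0 : Divisor K F) ≤ D' - D := sub_nonneg.mpr h
  have := degree_nonneg h0
  rw [map_sub] at this
  linarith

/-- The divisor of a nonzero function. -/
theorem exists_div [HasPrincipalDivisors K F] {x : F} (hx : x ≠ 0) :
    ∃ D : Divisor K F, (∀ v : Place K F, D v = v.ord x) ∧ Divisor.degree D = 0 :=
  HasPrincipalDivisors.exists_divisor x hx

theorem mem_L_neg_div {x : F} (hx : x ≠ 0) {D : Divisor K F}
    (hD : ∀ v : Place K F, D v = v.ord x) : x ∈ riemannRochSpace (-D) := by
  intro v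
  rw [v.adicValuation_eq_exp_neg_ord hx, Finsupp.neg_apply, hD v]

theorem inv_mem_L_div {x : F} (hx : x ≠ 0) {D : Divisor K F}
    (hD : ∀ v : Place K F, D v = v.ord x) : x⁻¹ ∈ riemannRochSpace D := by
  intro v
  rw [v.adicValuation_eq_exp_neg_ord (inv_ne_zero hx), v.ord_inv, neg_neg, hD v]

/-- `L(D) = 0` when `deg D < 0`. -/
theorem L_eq_bot_of_degree_neg [HasPrincipalDivisors K F] {D : Divisor K F}
    (hD : Divisor.degree D < 0) : riemannRochSpace D = ⊥ := by
  rw [eq_bot_iff]
  intro f hf
  rw [Submodule.mem_bot]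
  by_contra hf0
  obtain ⟨E, hE, hE0⟩ := exists_div (K := K) hf0
  have hle : (0 : Divisor K F) ≤ D + E := by
    intro v
    have h1 := (mem_riemannRochSpace_iff.mp hf v).resolve_left hf0
    show (0 : ℤ) ≤ (D + E) v
    rw [Finsupp.add_apply, hE v]
    linarith
  have := degree_nonneg hle
  rw [map_add, hE0, add_zero] at this
  linarith

theorem finrank_L_eq_zero_of_degree_neg [HasPrincipalDivisors K F] {D : Divisor K F}
    (hD : Divisor.degree D < 0) : finrank K ↥(riemannRochSpace D) = 0 := by
  rw [L_eq_bot_of_degree_neg hD]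
  exact finrank_bot K F

/-! ## The weak Riemann–Roch package (input) -/

/-- The weak Riemann–Roch package (module A2 of S27), as a `Prop`-valued structure. -/
structure WeakRR (K : Type u) (F : Type v) [Field K] [Field F] [Algebra K F] : Prop where
  finite_L : ∀ D : Divisor K F, Module.Finite K ↥(riemannRochSpace D)
  finite_H1 : ∀ D : Divisor K F, Module.Finite K (H1 D)
  rr : ∀ D : Divisor K F,
    (finrank K ↥(riemannRochSpace D) : ℤ) - (finrank K (H1 D) : ℤ)
      = Divisor.degree D + 1 - (genusFF K F : ℤ)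
  vanish : ∃ c : ℤ, ∀ D : Divisor K F, c ≤ Divisor.degree D → Subsingleton (H1 D)

/-! ## The space of Weil differentials has `F`-dimension at most one -/

theorem exists_smulW_eq [HasPrincipalDivisors K F] (h : WeakRR K F) (P0 : Place K F)
    (hP0 : 0 < P0.deg) {A1 A2 : Divisor K F} {ω1 ω2 : Dual K (Rep K F)}
    (h1 : ω1 ∈ Om A1) (h2 : ω2 ∈ Om A2) (hne : ω1 ≠ 0) :
    ∃ x : F, ω2 = smulW x ω1 := by
  by_contra hcon
  push Not at hcon
  -- the auxiliary divisor `B = n P0`
  set g : ℤ := (genusFF K F : ℤ) with hg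
  set n : ℕ := (max 0 (3 * g - 3 - Divisor.degree A1 - Divisor.degree A2)).toNat + 1 with hn
  set B : Divisor K F := Finsupp.single P0 (n : ℤ) with hB
  have hdegB : Divisor.degree B = (n : ℤ) * (P0.deg : ℤ) := Divisor.degree_single P0 n
  have hP0' : (1 : ℤ) ≤ (P0.deg : ℤ) := by exact_mod_cast hP0
  have hn1 : (1 : ℤ) ≤ (n : ℤ) := by rw [hn]; push_cast; omega
  have hnbig : 3 * g - 3 - Divisor.degree A1 - Divisor.degree A2 < (n : ℤ) := by
    rw [hn]; push_cast
    have := Int.self_le_toNat (max 0 (3 * g - 3 - Divisor.degree A1 - Divisor.degree A2))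
    have := le_max_right 0 (3 * g - 3 - Divisor.degree A1 - Divisor.degree A2)
    omega
  have hdegB_ge : (n : ℤ) ≤ Divisor.degree B := by
    rw [hdegB]; nlinarith
  -- the linear map
  have := h.finite_L (A1 + B)
  have := h.finite_L (A2 + B)
  have := h.finite_H1 (-B)
  have := finite_Om (K := K) (-B)
  let Φ : (↥(riemannRochSpace (A1 + B)) × ↥(riemannRochSpace (A2 + B))) →ₗ[K]
      Dual K (Rep K F) :=
    ((smulWLin ω1).domRestrict (riemannRochSpace (A1 + B))).coprod
      ((smulWLin ω2).domRestrict (riemannRochSpace (A2 + B)))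
  have hΦ : ∀ z, Φ z ∈ Om (-B) := by
    rintro ⟨x1, x2⟩
    have e1 := smulW_mem_Om x1.2 h1
    have e2 := smulW_mem_Om x2.2 h2
    rw [show A1 - (A1 + B) = -B by abel] at e1
    rw [show A2 - (A2 + B) = -B by abel] at e2
    exact Submodule.add_mem _ e1 e2
  let Ψ : (↥(riemannRochSpace (A1 + B)) × ↥(riemannRochSpace (A2 + B))) →ₗ[K] ↥(Om (-B)) :=
    Φ.codRestrict (Om (-B)) hΦ
  have hinj : Function.Injective Ψ := by
    refine (injective_iff_map_eq_zero Ψ).mpr ?_
    rintro ⟨x1, x2⟩ hz
    have hz' : smulW (x1 : F) ω1 + smulW (x2 : F) ω2 = 0 := by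
      have := congrArg Subtype.val hz
      simpa [Ψ, Φ] using this
    have hx2 : (x2 : F) = 0 := by
      by_contra hx2
      apply hcon (-((x2 : F)⁻¹ * (x1 : F)))
      have e : smulW (x2 : F) ω2 = -smulW (x1 : F) ω1 := eq_neg_of_add_eq_zero_right hz'
      have e' := congrArg (smulW (x2 : F)⁻¹) e
      rw [smulW_smulW, inv_mul_cancel₀ hx2, smulW_one, smulW_neg_right, smulW_smulW] at e'
      rw [e']
      have := (smulWLin ω1).map_neg ((x2 : F)⁻¹ * (x1 : F))
      simpa using this.symm
    have hx1 : (x1 : F) = 0 := by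
      by_contra hx1
      rw [hx2, smulW_zero, add_zero] at hz'
      exact hne ((smulW_eq_zero_iff hx1 ω1).mp hz')
    exact Prod.ext (Subtype.ext hx1) (Subtype.ext hx2)
  have hle := LinearMap.finrank_le_finrank_of_injective hinj
  rw [Module.finrank_prod, finrank_Om] at hle
  have hle' : (finrank K ↥(riemannRochSpace (A1 + B)) : ℤ)
      + (finrank K ↥(riemannRochSpace (A2 + B)) : ℤ) ≤ (finrank K (H1 (-B)) : ℤ) := by
    exact_mod_cast hle
  -- numerics
  have r1 := h.rr (A1 + B)
  have r2 := h.rr (A2 + B)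
  have r3 := h.rr (-B)
  have hneg : Divisor.degree (-B) < 0 := by rw [map_neg]; linarith
  rw [finrank_L_eq_zero_of_degree_neg hneg] at r3
  rw [map_add] at r1 r2
  rw [map_neg] at r3
  have p1 : (0 : ℤ) ≤ (finrank K (H1 (A1 + B)) : ℤ) := Int.natCast_nonneg _
  have p2 : (0 : ℤ) ≤ (finrank K (H1 (A2 + B)) : ℤ) := Int.natCast_nonneg _
  push_cast at r3
  linarith

/-! ## The divisor of a Weil differential -/

/-- `W` is the divisor of the Weil differential `ω`: the largest `D` with `ω ∈ Ω(D)`. -/
def IsDivisorOf (ω : Dual K (Rep K F)) (W : Divisor K F) : Prop :=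
  ω ∈ Om W ∧ ∀ D : Divisor K F, ω ∈ Om D → D ≤ W

theorem IsDivisorOf.mem_iff {ω : Dual K (Rep K F)} {W : Divisor K F} (hW : IsDivisorOf ω W)
    (D : Divisor K F) : ω ∈ Om D ↔ D ≤ W :=
  ⟨hW.2 D, fun h => Om_anti h hW.1⟩

/-- Local splitting: if `ω` vanishes on `A(W) + F` and on `A(D)`, and `W Q < D Q`, then `ω`
vanishes on `A(W + Q) + F`. -/
theorem mem_Om_add_single {ω : Dual K (Rep K F)} {W D : Divisor K F}
    (hW : ω ∈ Om W) (hD : ω ∈ Om D) {Q : Place K F} (hQ : W Q < D Q) :
    ω ∈ Om (W + Finsupp.single Q 1) := by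
  rw [mem_Om] at hW hD ⊢
  intro α hα
  obtain ⟨a, ha, p, hp, rfl⟩ := Submodule.mem_sup.mp hα
  rw [map_add, hW p (Submodule.mem_sup_right hp), add_zero]
  have hsplit : a = single Q ((a : Place K F → F) Q) + (a - single Q ((a : Place K F → F) Q)) := by
    abel
  rw [hsplit, map_add]
  have e1 : single Q ((a : Place K F → F) Q) ∈ repartitionsOf D := by
    intro v
    by_cases hv : v = Q
    · subst hv
      rw [single_apply_same]
      refine (ha v).trans (exp_le_exp.mpr ?_)
      rw [Finsupp.add_apply, Finsupp.single_eq_same]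
      omega
    · rw [single_apply_ne hv]
      simp
  have e2 : a - single Q ((a : Place K F → F) Q) ∈ repartitionsOf W := by
    intro v
    by_cases hv : v = Q
    · subst hv
      rw [coe_sub, single_apply_same, sub_self]
      simp
    · rw [coe_sub, single_apply_ne hv, sub_zero]
      have := ha v
      rwa [Finsupp.add_apply, Finsupp.single_eq_of_ne hv, add_zero] at this
  rw [hD _ (Submodule.mem_sup_left e1), hW _ (Submodule.mem_sup_left e2), add_zero]

theorem exists_isDivisorOf (h : WeakRR K F) (hdeg : ∀ v : Place K F, 0 < v.deg)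
    {ω : Dual K (Rep K F)} (hω : ω ≠ 0) {D0 : Divisor K F} (h0 : ω ∈ Om D0) :
    ∃ W : Divisor K F, IsDivisorOf ω W := by
  obtain ⟨c, hc⟩ := h.vanish
  have hbdd : ∃ b : ℤ, ∀ z : ℤ, (∃ D : Divisor K F, ω ∈ Om D ∧ Divisor.degree D = z) → z ≤ b := by
    refine ⟨c, ?_⟩
    rintro z ⟨D, hD, rfl⟩
    by_contra hlt
    have hsub := hc D (le_of_lt (not_le.mp hlt))
    have : Om D = ⊥ := Om_eq_bot_of_subsingleton D
    rw [this, Submodule.mem_bot] at hD
    exact hω hD
  obtain ⟨d, ⟨W, hW, rfl⟩, hmax⟩ :=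
    Int.exists_greatest_of_bdd hbdd ⟨Divisor.degree D0, D0, h0, rfl⟩
  refine ⟨W, hW, fun D hD => ?_⟩
  by_contra hle
  obtain ⟨Q, hQ⟩ : ∃ Q : Place K F, W Q < D Q := by
    by_contra hcon
    push Not at hcon
    exact hle (fun v => hcon v)
  have hmem := mem_Om_add_single hW hD hQ
  have := hmax _ ⟨_, hmem, rfl⟩
  rw [map_add, Divisor.degree_single, one_mul] at this
  have hpos : (0 : ℤ) < (Q.deg : ℤ) := by exact_mod_cast hdeg Q
  linarith

theorem mem_L_of_smulW_mem_Om [HasPrincipalDivisors K F] {ω : Dual K (Rep K F)}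
    {W : Divisor K F} (hW : IsDivisorOf ω W) {x : F} (hx : x ≠ 0) {D : Divisor K F}
    (h : smulW x ω ∈ Om D) : x ∈ riemannRochSpace (W - D) := by
  obtain ⟨E, hE, -⟩ := exists_div (K := K) hx
  have h' := smulW_mem_Om (inv_mem_L_div hx hE) h
  rw [smulW_smulW, inv_mul_cancel₀ hx, smulW_one] at h'
  have hle := hW.2 _ h'
  rw [mem_riemannRochSpace_iff]
  intro v
  right
  have hv : (D - E) v ≤ W v := hle v
  rw [Finsupp.sub_apply, hE v] at hv
  rw [Finsupp.sub_apply]
  linarith

/-! ## Duality -/

/-- The duality theorem: `h¹(D) = ℓ(W - D)` for `W` the divisor of a nonzero Weil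
differential. -/
theorem finrank_H1_eq [HasPrincipalDivisors K F] (h : WeakRR K F) (P0 : Place K F)
    (hP0 : 0 < P0.deg) {ω : Dual K (Rep K F)} (hω : ω ≠ 0) {W : Divisor K F}
    (hW : IsDivisorOf ω W) (D : Divisor K F) :
    finrank K (H1 D) = finrank K ↥(riemannRochSpace (W - D)) := by
  have hmem : ∀ x : ↥(riemannRochSpace (W - D)),
      ((smulWLin ω).domRestrict (riemannRochSpace (W - D))) x ∈ Om D := by
    intro x
    have := smulW_mem_Om x.2 hW.1
    rwa [sub_sub_cancel] at this
  let μ : ↥(riemannRochSpace (W - D)) →ₗ[K] ↥(Om D) :=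
    ((smulWLin ω).domRestrict (riemannRochSpace (W - D))).codRestrict (Om D) hmem
  have hinj : Function.Injective μ := by
    refine (injective_iff_map_eq_zero μ).mpr ?_
    intro x hx
    have hx' : smulW (x : F) ω = 0 := by
      have := congrArg Subtype.val hx
      simpa [μ] using this
    by_contra hne
    have hne' : (x : F) ≠ 0 := fun h0 => hne (Subtype.ext h0)
    exact hω ((smulW_eq_zero_iff hne' ω).mp hx')
  have hsurj : Function.Surjective μ := by
    intro ω1
    obtain ⟨x, hx⟩ := exists_smulW_eq h P0 hP0 hW.1 ω1.2 hω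
    by_cases hx0 : x = 0
    · refine ⟨0, ?_⟩
      rw [map_zero]
      apply Subtype.ext
      rw [hx, hx0, smulW_zero]
      rfl
    · have hxL : x ∈ riemannRochSpace (W - D) :=
        mem_L_of_smulW_mem_Om hW hx0 (hx ▸ ω1.2)
      refine ⟨⟨x, hxL⟩, ?_⟩
      apply Subtype.ext
      rw [hx]
      rfl
  rw [← finrank_Om]
  exact ((LinearEquiv.ofBijective μ ⟨hinj, hsurj⟩).finrank_eq).symm

/-! ## Existence of a nonzero Weil differential and the canonical divisor -/

theorem exists_weilDiff_ne_zero [HasPrincipalDivisors K F] (h : WeakRR K F) (P0 : Place K F)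
    (hP0 : 0 < P0.deg) :
    ∃ (ω : Dual K (Rep K F)) (D0 : Divisor K F), ω ≠ 0 ∧ ω ∈ Om D0 := by
  set D0 : Divisor K F := Finsupp.single P0 (-2 : ℤ) with hD0
  have hdeg0 : Divisor.degree D0 = -2 * (P0.deg : ℤ) := Divisor.degree_single P0 (-2)
  have hP0' : (1 : ℤ) ≤ (P0.deg : ℤ) := by exact_mod_cast hP0
  have r := h.rr D0
  have hl : (0 : ℤ) ≤ (finrank K ↥(riemannRochSpace D0) : ℤ) := Int.natCast_nonneg _
  have hg : (0 : ℤ) ≤ (genusFF K F : ℤ) := Int.natCast_nonneg _
  have hpos : 0 < finrank K ↥(Om D0) := by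
    rw [finrank_Om]
    have : (0 : ℤ) < (finrank K (H1 D0) : ℤ) := by rw [hdeg0] at r; linarith
    exact_mod_cast this
  have hex : ∃ ω : ↥(Om D0), ω ≠ 0 := by
    by_contra hcon
    push Not at hcon
    have : Subsingleton ↥(Om D0) := ⟨fun a b => by rw [hcon a, hcon b]⟩
    rw [Module.finrank_zero_of_subsingleton] at hpos
    exact lt_irrefl _ hpos
  obtain ⟨ω, hω⟩ := hex
  exact ⟨ω, D0, fun h0 => hω (Subtype.ext h0), ω.2⟩

/-- **Riemann–Roch with duality** (canonical divisor form). -/
theorem exists_canonical [HasPrincipalDivisors K F] (h : WeakRR K F)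
    (hdeg : ∀ v : Place K F, 0 < v.deg) (P0 : Place K F) :
    ∃ W : Divisor K F,
      (∀ D : Divisor K F, finrank K (H1 D) = finrank K ↥(riemannRochSpace (W - D))) ∧
      Divisor.degree W = 2 * (genusFF K F : ℤ) - 2 ∧
      finrank K ↥(riemannRochSpace W) = genusFF K F ∧
      finrank K ↥(riemannRochSpace (0 : Divisor K F)) = 1 ∧
      ∀ D : Divisor K F, (finrank K ↥(riemannRochSpace D) : ℤ)
        = Divisor.degree D + 1 - (genusFF K F : ℤ)
          + (finrank K ↥(riemannRochSpace (W - D)) : ℤ) := by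
  obtain ⟨ω, D0, hω, h0⟩ := exists_weilDiff_ne_zero h P0 (hdeg P0)
  obtain ⟨W, hW⟩ := exists_isDivisorOf h hdeg hω h0
  have dual : ∀ D : Divisor K F, finrank K (H1 D) = finrank K ↥(riemannRochSpace (W - D)) :=
    finrank_H1_eq h P0 (hdeg P0) hω hW
  have rrd : ∀ D : Divisor K F, (finrank K ↥(riemannRochSpace D) : ℤ)
      = Divisor.degree D + 1 - (genusFF K F : ℤ)
        + (finrank K ↥(riemannRochSpace (W - D)) : ℤ) := by
    intro D
    have r := h.rr D
    rw [dual D] at r
    linarith
  -- `ℓ(0) = 1`, `ℓ(W) = g`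
  have hgen : (finrank K (H1 (0 : Divisor K F)) : ℤ) = (genusFF K F : ℤ) := rfl
  have r0 := h.rr 0
  rw [map_zero, hgen] at r0
  have hl0 : (finrank K ↥(riemannRochSpace (0 : Divisor K F)) : ℤ) = 1 := by linarith
  have hlW : (finrank K ↥(riemannRochSpace W) : ℤ) = (genusFF K F : ℤ) := by
    have := dual 0
    rw [sub_zero] at this
    rw [← this]
    rfl
  have rW := rrd W
  rw [sub_self, hl0, hlW] at rW
  refine ⟨W, dual, by linarith, by exact_mod_cast hlW, by exact_mod_cast hl0, rrd⟩

/-- `Stmt_RRD`-shape: there is a divisor `W` of degree `2g - 2` with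
`ℓ(D) = deg D + 1 - g + ℓ(W - D)` for every divisor `D`. -/
theorem stmt_RRD [HasPrincipalDivisors K F] (h : WeakRR K F)
    (hdeg : ∀ v : Place K F, 0 < v.deg) (P0 : Place K F) :
    ∃ W : Divisor K F, Divisor.degree W = 2 * (genusFF K F : ℤ) - 2 ∧
      ∀ D : Divisor K F, (finrank K ↥(riemannRochSpace D) : ℤ)
        = Divisor.degree D + 1 - (genusFF K F : ℤ)
          + (finrank K ↥(riemannRochSpace (W - D)) : ℤ) := by
  obtain ⟨W, -, hW, -, -, hrr⟩ := exists_canonical h hdeg P0
  exact ⟨W, hW, hrr⟩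

end Fermat.Agent.S27.helper9330
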