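/-
S27 leaf A1-APPROX (helper1070): weak approximation for places of a function field and the
moving lemma.  Mathlib + Prelude only; `K` is an arbitrary field, `F` any field over `K`
(only the valuation theory of finitely many distinct discrete valuation rings of `F` is used).

Main results (namespace `Fermat.Agent.S27.helper1070`):
* `mem_toValuationSubring_iff` : `x ∈ v.toValuationSubring ↔ v.adicValuation x ≤ 1`
* `exists_lt_one_one_lt`       : distinct places are separated by an element
* `exists_small_large`         : `u` small at `v`, large at every place of a finite set `T ∌ v`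
* `exists_near_idempotent`     : `e` close to `1` at `v` and close to `0` on `T`
* `exists_approx_val`, `exists_approx` : weak approximation theorem
* `exists_ord_eq`              : prescribed orders at finitely many places
* `exists_principal_shift`, `pic0_exists_rep_off` : moving lemma for divisors / `Pic0` classes
-/
import Mathlib
import Fermat.Prelude.Def_AlgebraicCurve_DivisorClassGroup
import Fermat.Prelude.Def_AlgebraicCurve_Repartitions

set_option autoImplicit false

open WithZero AlgebraicCurve

namespace Fermat.Agent.S27.helper1070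

variable {K F : Type*} [Field K] [Field F] [Algebra K F]

/-! ### Basic dictionary between `adicValuation`, `ord` and membership -/

theorem mem_toValuationSubring_iff (v : Place K F) (x : F) :
    x ∈ v.toValuationSubring ↔ v.adicValuation x ≤ 1 := by
  refine ⟨v.adicValuation_le_one_of_mem, fun h => ?_⟩
  by_contra hx
  have hxi : x⁻¹ ∈ v.toValuationSubring :=
    (v.toValuationSubring.mem_or_inv_mem x).resolve_left hx
  have hx0 : x ≠ 0 := fun h0 => hx (h0 ▸ v.toValuationSubring.zero_mem)
  have h1 : v.adicValuation x⁻¹ ≤ 1 := v.adicValuation_le_one_of_mem hxi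
  have h2 : v.adicValuation x⁻¹ = 1 := by
    refine le_antisymm h1 ?_
    rw [map_inv₀]
    exact (one_le_inv₀ (zero_lt_iff.mpr (v.adicValuation_ne_zero hx0))).mpr h
  have h3 : IsUnit (⟨x⁻¹, hxi⟩ : v.toValuationSubring) :=
    (v.adicValuation_coe_eq_one_iff ⟨x⁻¹, hxi⟩).mp h2
  obtain ⟨b, hb⟩ := isUnit_iff_exists_inv.mp h3
  have hb' : x⁻¹ * (b : F) = 1 := congrArg Subtype.val hb
  have hbx : (b : F) = x := by rw [eq_inv_of_mul_eq_one_right hb', inv_inv]
  exact hx (hbx ▸ b.2)

theorem val_lt_one_iff (v : Place K F) {f : F} (hf : f ≠ 0) :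
    v.adicValuation f < 1 ↔ 0 < v.ord f := by
  rw [v.adicValuation_eq_exp_neg_ord hf, ← exp_zero, exp_lt_exp]
  constructor <;> intro h <;> linarith

theorem one_lt_val_iff (v : Place K F) {f : F} :
    1 < v.adicValuation f ↔ v.ord f < 0 := by
  rw [← not_le, v.not_adicValuation_le_one_iff]

theorem ne_zero_of_one_lt_val (v : Place K F) {f : F} (h : 1 < v.adicValuation f) : f ≠ 0 := by
  rintro rfl
  simp at h

theorem ord_pow (v : Place K F) (f : F) (r : ℕ) : v.ord (f ^ r) = r * v.ord f := by
  have := v.ord_zpow f (r : ℤ)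
  rwa [zpow_natCast] at this

/-! ### Separating distinct places -/

/-- If `v ≠ w` there is an element integral at `v` and with a pole at `w`. -/
theorem exists_le_one_one_lt {v w : Place K F} (h : v ≠ w) :
    ∃ y : F, v.adicValuation y ≤ 1 ∧ 1 < w.adicValuation y := by
  by_contra hcon
  push Not at hcon
  have hle : ∀ x : F, w.adicValuation x ≤ 1 → v.adicValuation x ≤ 1 := by
    intro x hxw
    by_contra hxv
    obtain ⟨π, hπ⟩ := IsDiscreteValuationRing.exists_irreducible v.toValuationSubring
    have hπ0 : (π : F) ≠ 0 := by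
      simpa [ne_eq, ZeroMemClass.coe_eq_zero] using hπ.ne_zero
    have hordx : v.ord x < 0 := v.not_adicValuation_le_one_iff.mp hxv
    have hx0 : x ≠ 0 := by
      rintro rfl
      simp at hordx
    -- c = x⁻¹ π⁻¹ is integral at v
    have hc : v.adicValuation (x⁻¹ * (π : F)⁻¹) ≤ 1 := by
      rw [v.adicValuation_le_one_iff]
      right
      rw [v.ord_mul (inv_ne_zero hx0) (inv_ne_zero hπ0), v.ord_inv, v.ord_inv,
        v.ord_coe_irreducible hπ]
      omega
    have hcw : w.adicValuation (x⁻¹ * (π : F)⁻¹) ≤ 1 := hcon _ hc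
    have hπinv : w.adicValuation (π : F)⁻¹ ≤ 1 := by
      have hx : (π : F)⁻¹ = x * (x⁻¹ * (π : F)⁻¹) := by
        field_simp
      rw [hx, map_mul]
      exact mul_le_one' hxw hcw
    have hπw : w.adicValuation (π : F) ≤ 1 := hcon _ (v.adicValuation_le_one_of_mem π.2)
    have hπw1 : w.adicValuation (π : F) = 1 := by
      refine le_antisymm hπw ?_
      rw [map_inv₀] at hπinv
      exact (inv_le_one₀ (zero_lt_iff.mpr (w.adicValuation_ne_zero hπ0))).mp hπinv
    apply w.ne_top'
    refine SetLike.ext fun f => ⟨fun _ => ValuationSubring.mem_top f, fun _ => ?_⟩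
    rcases eq_or_ne f 0 with rfl | hf
    · exact w.toValuationSubring.zero_mem
    obtain ⟨u, hu⟩ := v.exists_unit_mul_zpow hf hπ
    rw [mem_toValuationSubring_iff, hu, map_mul, map_zpow₀, hπw1, one_zpow, mul_one]
    exact hcon _ (v.adicValuation_le_one_of_mem (u : v.toValuationSubring).2)
  apply h
  apply Place.ext
  ext x
  rw [mem_toValuationSubring_iff, mem_toValuationSubring_iff]
  exact ⟨hcon x, hle x⟩

/-- If `v ≠ w` there is an element with a zero at `v` and a pole at `w`. -/
theorem exists_lt_one_one_lt {v w : Place K F} (h : v ≠ w) :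
    ∃ u : F, v.adicValuation u < 1 ∧ 1 < w.adicValuation u := by
  obtain ⟨y₁, h1v, h1w⟩ := exists_le_one_one_lt h
  obtain ⟨y₂, h2w, h2v⟩ := exists_le_one_one_lt h.symm
  have hy2 : y₂ ≠ 0 := ne_zero_of_one_lt_val v h2v
  refine ⟨y₁ * y₂⁻¹, ?_, ?_⟩
  · rw [map_mul, map_inv₀, mul_inv_lt_iff₀ (zero_lt_iff.mpr (v.adicValuation_ne_zero hy2)),
      one_mul]
    exact lt_of_le_of_lt h1v h2v
  · rw [map_mul, map_inv₀, lt_mul_inv_iff₀ (zero_lt_iff.mpr (w.adicValuation_ne_zero hy2)),
      one_mul]
    exact lt_of_le_of_lt h2w h1w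

/-- Given a place `v` and a finite set `T` of other places there is `u ≠ 0` with a zero at `v`
and a pole at every place of `T`. -/
theorem exists_small_large (v : Place K F) (T : Finset (Place K F)) (hv : v ∉ T) :
    ∃ u : F, u ≠ 0 ∧ v.adicValuation u < 1 ∧ ∀ w ∈ T, 1 < w.adicValuation u := by
  classical
  revert hv
  induction T using Finset.induction_on with
  | empty =>
    intro _
    obtain ⟨π, hπ⟩ := IsDiscreteValuationRing.exists_irreducible v.toValuationSubring
    have hπ0 : (π : F) ≠ 0 := by
      simpa [ne_eq, ZeroMemClass.coe_eq_zero] using hπ.ne_zero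
    refine ⟨(π : F), hπ0, ?_, by simp⟩
    rw [val_lt_one_iff v hπ0, v.ord_coe_irreducible hπ]
    exact one_pos
  | insert w T hw ih =>
    intro hv
    rw [Finset.mem_insert, not_or] at hv
    obtain ⟨u, hu0, huv, huT⟩ := ih hv.2
    by_cases hwu : 1 < w.adicValuation u
    · refine ⟨u, hu0, huv, fun z hz => ?_⟩
      rcases Finset.mem_insert.mp hz with rfl | hz
      · exact hwu
      · exact huT z hz
    · rw [not_lt] at hwu
      obtain ⟨y, hyv, hyw⟩ := exists_lt_one_one_lt hv.1
      have hy0 : y ≠ 0 := ne_zero_of_one_lt_val w hyw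
      set r : ℕ := 1 + ∑ z ∈ T, (z.ord u).natAbs with hr
      have hr0 : r ≠ 0 := by omega
      have hyrw : 1 < w.adicValuation (y ^ r) := by
        rw [map_pow]; exact one_lt_pow₀ hyw hr0
      have hw' : 1 < w.adicValuation (u + y ^ r) := by
        rw [Valuation.map_add_eq_of_lt_right _ (lt_of_le_of_lt hwu hyrw)]
        exact hyrw
      refine ⟨u + y ^ r, ne_zero_of_one_lt_val w hw', ?_, fun z hz => ?_⟩
      · refine Valuation.map_add_lt _ huv ?_
        rw [map_pow]
        exact pow_lt_one₀ zero_le hyv hr0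
      · rcases Finset.mem_insert.mp hz with rfl | hz
        · exact hw'
        · have hzu : 1 < z.adicValuation u := huT z hz
          have hordu : z.ord u < 0 := (one_lt_val_iff z).mp hzu
          have hne : z.adicValuation u ≠ z.adicValuation (y ^ r) := by
            intro heq
            rw [z.adicValuation_eq_exp_neg_ord hu0,
              z.adicValuation_eq_exp_neg_ord (pow_ne_zero r hy0), exp_inj, ord_pow] at heq
            have heq' : z.ord u = (r : ℤ) * z.ord y := by linarith
            have hle : (z.ord u).natAbs ≤ ∑ z ∈ T, (z.ord u).natAbs :=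
              Finset.single_le_sum (f := fun z : Place K F => (z.ord u).natAbs)
                (fun _ _ => Nat.zero_le _) hz
            have hnat : (z.ord u).natAbs = r * (z.ord y).natAbs := by
              rw [heq', Int.natAbs_mul, Int.natAbs_natCast]
            rcases Nat.eq_zero_or_pos (z.ord y).natAbs with h0 | hpos
            · rw [h0, mul_zero, Int.natAbs_eq_zero] at hnat
              omega
            · have : r ≤ r * (z.ord y).natAbs := Nat.le_mul_of_pos_right r hpos
              omega
          rw [Valuation.map_add_of_distinct_val _ hne]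
          exact lt_of_lt_of_le hzu (le_max_left _ _)

/-- Approximate idempotents: `e` is `exp (-N)`-close to `1` at `v` and to `0` on `T`. -/
theorem exists_near_idempotent (v : Place K F) (T : Finset (Place K F)) (hv : v ∉ T) (N : ℤ) :
    ∃ e : F, v.adicValuation (e - 1) ≤ exp (-N) ∧ ∀ w ∈ T, w.adicValuation e ≤ exp (-N) := by
  obtain ⟨u, hu0, huv, huT⟩ := exists_small_large v T hv
  set m : ℕ := N.toNat + 1 with hm
  have hm0 : m ≠ 0 := by omega
  have hmN : N ≤ (m : ℤ) := by
    have := Int.self_le_toNat N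
    push_cast [hm]
    omega
  have hm1 : (1 : ℤ) ≤ (m : ℤ) := by
    push_cast [hm]
    omega
  have hum0 : u ^ m ≠ 0 := pow_ne_zero m hu0
  have hsmall : v.adicValuation (u ^ m) < 1 := by
    rw [map_pow]; exact pow_lt_one₀ zero_le huv hm0
  have hone : v.adicValuation (1 + u ^ m) = 1 := Valuation.map_one_add_of_lt _ hsmall
  have hne : (1 + u ^ m) ≠ 0 := by
    intro h0
    rw [h0, map_zero] at hone
    exact zero_ne_one hone
  refine ⟨(1 + u ^ m)⁻¹, ?_, fun w hw => ?_⟩
  · have hrw : (1 + u ^ m)⁻¹ - 1 = -(u ^ m) * (1 + u ^ m)⁻¹ := by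
      field_simp
      ring
    rw [hrw, map_mul, Valuation.map_neg, map_inv₀, hone, inv_one, mul_one,
      v.adicValuation_eq_exp_neg_ord hum0, exp_le_exp, ord_pow]
    have hord : 0 < v.ord u := (val_lt_one_iff v hu0).mp huv
    nlinarith
  · have hwu : 1 < w.adicValuation u := huT w hw
    have hord : w.ord u < 0 := (one_lt_val_iff w).mp hwu
    have hbig : 1 < w.adicValuation (u ^ m) := by
      rw [map_pow]; exact one_lt_pow₀ hwu hm0
    have hval : w.adicValuation (1 + u ^ m) = w.adicValuation (u ^ m) := by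
      refine Valuation.map_add_eq_of_lt_right _ ?_
      rw [map_one]; exact hbig
    rw [map_inv₀, hval, w.adicValuation_eq_exp_neg_ord hum0, ← exp_neg, exp_le_exp, ord_pow]
    nlinarith

/-! ### Weak approximation -/

/-- **Weak approximation theorem** (valuation form): finitely many places, arbitrary targets. -/
theorem exists_approx_val (S : Finset (Place K F)) (a : Place K F → F) (N : ℤ) :
    ∃ f : F, ∀ v ∈ S, v.adicValuation (f - a v) ≤ exp (-N) := by
  classical
  obtain ⟨M, hM⟩ : ∃ M : ℤ, ∀ v ∈ S, ∀ w ∈ S, v.adicValuation (a w) ≤ exp M := by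
    let g : Place K F → Place K F → ℤ := fun v w => |log (v.adicValuation (a w))|
    have hg : ∀ v w, 0 ≤ g v w := fun v w => abs_nonneg _
    refine ⟨∑ v ∈ S, ∑ w ∈ S, g v w, fun v hv w hw => ?_⟩
    rcases eq_or_ne (v.adicValuation (a w)) 0 with h0 | h0
    · rw [h0]; exact zero_le
    · have h1 : log (v.adicValuation (a w)) ≤ g v w := le_abs_self _
      have h2 : g v w ≤ ∑ w ∈ S, g v w :=
        Finset.single_le_sum (f := fun w => g v w) (fun w _ => hg v w) hw
      have h3 : ∑ w ∈ S, g v w ≤ ∑ v ∈ S, ∑ w ∈ S, g v w :=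
        Finset.single_le_sum (f := fun v => ∑ w ∈ S, g v w)
          (fun v _ => Finset.sum_nonneg fun w _ => hg v w) hv
      have h4 : log (v.adicValuation (a w)) ≤ ∑ v ∈ S, ∑ w ∈ S, g v w := by linarith
      calc v.adicValuation (a w) = exp (log (v.adicValuation (a w))) := (exp_log h0).symm
        _ ≤ exp (∑ v ∈ S, ∑ w ∈ S, g v w) := exp_le_exp.mpr h4
  have hC : ∀ w : Place K F, ∃ e : F, w.adicValuation (e - 1) ≤ exp (-(N + M)) ∧
      ∀ z ∈ S.erase w, z.adicValuation e ≤ exp (-(N + M)) :=
    fun w => exists_near_idempotent w (S.erase w) (Finset.notMem_erase w S) (N + M)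
  choose e he1 he2 using hC
  have hexp : exp (-(N + M)) * exp M = exp (-N) := by
    rw [← exp_add]; congr 1; ring
  refine ⟨∑ w ∈ S, e w * a w, fun v hv => ?_⟩
  have hsplit : ∑ w ∈ S, e w * a w - a v
      = (e v - 1) * a v + ∑ w ∈ S.erase v, e w * a w := by
    rw [← Finset.add_sum_erase S (fun w => e w * a w) hv]
    ring
  rw [hsplit]
  refine Valuation.map_add_le _ ?_ (Valuation.map_sum_le _ fun w hw => ?_)
  · rw [map_mul, ← hexp]
    exact mul_le_mul' (he1 v) (hM v hv v hv)
  · rw [map_mul, ← hexp]
    have hwS : w ∈ S := Finset.mem_of_mem_erase hw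
    have hvw : v ∈ S.erase w := Finset.mem_erase.mpr ⟨(Finset.ne_of_mem_erase hw).symm, hv⟩
    exact mul_le_mul' (he2 w v hvw) (hM v hv w hwS)

/-- **Weak approximation theorem** (order form). -/
theorem exists_approx (S : Finset (Place K F)) (a : Place K F → F) (N : ℤ) :
    ∃ f : F, ∀ v ∈ S, f = a v ∨ N ≤ v.ord (f - a v) := by
  obtain ⟨f, hf⟩ := exists_approx_val S a N
  refine ⟨f, fun v hv => ?_⟩
  have h := (v.adicValuation_le_exp_iff).mp (hf v hv)
  rcases h with h | h
  · exact Or.inl (sub_eq_zero.mp h)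
  · exact Or.inr (by simpa using h)

/-- Prescribed orders at finitely many places. -/
theorem exists_ord_eq (S : Finset (Place K F)) (n : Place K F → ℤ) :
    ∃ f : F, f ≠ 0 ∧ ∀ v ∈ S, v.ord f = n v := by
  classical
  rcases S.eq_empty_or_nonempty with rfl | ⟨v₀, hv₀⟩
  · exact ⟨1, one_ne_zero, by simp⟩
  have hπ : ∀ v : Place K F, ∃ π : v.toValuationSubring, Irreducible π :=
    fun v => IsDiscreteValuationRing.exists_irreducible v.toValuationSubring
  choose π hπ using hπ
  have hπ0 : ∀ v : Place K F, ((π v : v.toValuationSubring) : F) ≠ 0 := fun v => by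
    simpa [ne_eq, ZeroMemClass.coe_eq_zero] using (hπ v).ne_zero
  set a : Place K F → F := fun v => ((π v : v.toValuationSubring) : F) ^ (n v) with ha
  have ha0 : ∀ v, a v ≠ 0 := fun v => zpow_ne_zero _ (hπ0 v)
  have haord : ∀ v : Place K F, v.ord (a v) = n v := fun v => by
    rw [ha]
    simp only
    rw [v.ord_zpow, v.ord_coe_irreducible (hπ v), mul_one]
  set N : ℤ := 1 + ∑ v ∈ S, |n v| with hN
  obtain ⟨f, hf⟩ := exists_approx_val S a N
  have hval : ∀ v ∈ S, v.adicValuation f = exp (-n v) := by
    intro v hv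
    have hlt : v.adicValuation (f - a v) < v.adicValuation (a v) := by
      refine lt_of_le_of_lt (hf v hv) ?_
      rw [v.adicValuation_eq_exp_neg_ord (ha0 v), haord v, exp_lt_exp]
      have h1 : n v ≤ |n v| := le_abs_self _
      have h2 : |n v| ≤ ∑ v ∈ S, |n v| :=
        Finset.single_le_sum (f := fun v : Place K F => |n v|) (fun _ _ => abs_nonneg _) hv
      linarith
    have hsum : f = a v + (f - a v) := by ring
    rw [hsum, Valuation.map_add_eq_of_lt_left _ hlt, v.adicValuation_eq_exp_neg_ord (ha0 v),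
      haord v]
  refine ⟨f, ?_, fun v hv => ?_⟩
  · rintro rfl
    have := hval v₀ hv₀
    rw [map_zero] at this
    exact exp_ne_zero this.symm
  · rw [Place.ord, hval v hv, log_exp, neg_neg]

/-! ### Moving lemma -/

/-- **Moving lemma**: any divisor can be moved off a finite set of places by a principal
divisor (of degree `0`). -/
theorem exists_principal_shift [HasPrincipalDivisors K F] (D : Divisor K F)
    (S : Finset (Place K F)) :
    ∃ E : Divisor K F, E ∈ Divisor.principal (K := K) (F := F) ∧ Divisor.degree E = 0 ∧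
      ∀ v ∈ S, (D + E) v = 0 := by
  obtain ⟨f, hf0, hf⟩ := exists_ord_eq S (fun v => -D v)
  obtain ⟨E, hE, hdeg⟩ := HasPrincipalDivisors.exists_divisor (K := K) f hf0
  refine ⟨E, ⟨f, hf0, hE⟩, hdeg, fun v hv => ?_⟩
  rw [Finsupp.add_apply, hE v, hf v hv]
  ring

/-- **Moving lemma** for `Pic0`: every class has a representative supported off a given finite
set of places. -/
theorem pic0_exists_rep_off [HasPrincipalDivisors K F] (S : Finset (Place K F))
    (x : Pic0 K F) :
    ∃ D : Divisor.degZero (K := K) (F := F), Pic0.mk D = x ∧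
      ∀ v ∈ S, (D : Divisor K F) v = 0 := by
  obtain ⟨D₀, rfl⟩ := Pic0.mk_surjective x
  obtain ⟨E, hEp, hEdeg, hE⟩ := exists_principal_shift (D₀ : Divisor K F) S
  have hE0 : E ∈ Divisor.degZero (K := K) (F := F) := Divisor.mem_degZero.mpr hEdeg
  refine ⟨D₀ + ⟨E, hE0⟩, ?_, fun v hv => hE v hv⟩
  rw [Pic0.mk_add]
  have : Pic0.mk (⟨E, hE0⟩ : Divisor.degZero (K := K) (F := F)) = 0 := by
    rw [Pic0.mk, QuotientAddGroup.eq_zero_iff]
    exact AddSubgroup.mem_addSubgroupOf.mpr hEp
  rw [this, add_zero]

end Fermat.Agent.S27.helper1070
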