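import Fermat.Statements.S27

/-!
# S27 specification file (architect helper6247)

`#Pic⁰(F)[n] = n^(2g)` for a function field `F` of one variable over an algebraically closed
field `K` of characteristic zero, `g = genusFF K F`.

Route (findings #1765, #1968): transcendental, but with NO Riemann surface API, NO fundamental
group, NO Jacobian variety.  Everything analytic happens in `ℂ` and `ℂ^g`.

Every intermediate result is a `Prop`-valued definition `Stmt_*` below; workers prove
implications between them in hypothesis-passing style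
(`theorem foo (h1 : Stmt_A) (h2 : Stmt_B) : Stmt_C`), one file per seat and topic:
`Fermat/Agent/S27/<seat>_<Topic>.lean`, namespace `Fermat.Agent.S27.<seat>`.

## Vocabulary

* `ev P f`         value of `f` at the place `P` (junk `0` at a pole)
* `rsingle P f`    the repartition equal to `f` at `P` and `0` elsewhere
* `pp P f`         its class in `H¹(0) = A / (A(0) + F)`  ("principal part")
* `pt P`, `sumDiv` the divisors `P` and `∑ i, P i`
* `cls D`          class of a divisor in `Pic0` (junk `0` if `deg D ≠ 0`)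
* `IsNonspecial D` `A = A(D) + F`, i.e. `H¹(D) = 0`
* `IsChart u Q r`  analytic chart: `Q s` (`‖s‖ < r`) is a place at which `u - s` is a uniformizer,
                   and functions regular at `Q s₀` are regular and analytic along `Q` near `s₀`
* `chartCoef e u Q s` the class of the principal part `1/(u - s)` at `Q s`, in coordinates
                   `e : H¹(0) ≃ ℂ^g`.  Morally: the vector `(ω_1/du, …, ω_g/du)(Q s)`.
* `IsIntChart e u Q r J`  a chart together with the primitive `J` (`J 0 = 0`) of `chartCoef`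
                   ("abelian integral along the chart").

## Dependency graph (who needs whom)

```
S24 modules on main (FundId, ResidueK, Center, PrincipalDegZero)      Mathlib
        |                                                            |
  Ev, Riemann (M2) ---- SimplePoint, SepCoord, GenericUnram (M1) ----+
        |                        |                                   |
  NonspecialBasis, GoodTuple, ExtendTuple (M2); WeilCoeff (M3)   ChartExists, LocalFibre (M5)
        |                        |                                   |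
        +------------ ChartCoefAnalytic, IntChartExists -------------+
                                 |                          Compact, Connected (M5)
                       GLS (M6: infinitesimal Abel)                   |
                                 |                                    |
                               Key (M6) ------------------------- Complex (M6)
  Reduce (M0)      Transfer (M4: Lefschetz)                           |
        +----------------+--------------------------------------- result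
```
-/

set_option autoImplicit false

open AlgebraicCurve IntermediateField Polynomial
open scoped Polynomial.Bivariate Topology

namespace Fermat.Agent.S27.helper6247

noncomputable section

/-! ## Definitions over an arbitrary base field -/

section Defs

variable {K : Type*} {F : Type*} [Field K] [Field F] [Algebra K F]

open Classical in
/-- Value of `f` at the place `P`: the `c : K` with `f - c` in the maximal ideal of `P`
(unique if it exists; junk value `0` if there is none, e.g. at a pole of `f`). -/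
def ev (P : Place K F) (f : F) : K :=
  if h : ∃ c : K, P.adicValuation (f - algebraMap K F c) < 1 then h.choose else 0

open Classical in
/-- The repartition with value `f` at `P` and `0` at all other places. -/
def rsingle (P : Place K F) (f : F) : ↥(repartitions K F) :=
  ⟨fun Q => if Q = P then f else 0, mem_repartitions_of_finite_ord <|
    (Set.finite_singleton P).subset fun Q hQ => by
      by_contra hne
      have hne' : ¬ Q = P := hne
      have hQ' : Q.ord (if Q = P then f else 0) < 0 := hQ
      rw [if_neg hne', Place.ord_zero] at hQ'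
      exact lt_irrefl _ hQ'⟩

/-- The class of `rsingle P f` in `H¹(0) = A / (A(0) + F)`. -/
def pp (P : Place K F) (f : F) : H1 (0 : Divisor K F) :=
  Submodule.Quotient.mk (rsingle P f)

/-- The point divisor `P`. -/
def pt (P : Place K F) : Divisor K F := Finsupp.single P 1

/-- The effective divisor `∑ i, P i`. -/
def sumDiv {ι : Type*} [Fintype ι] (P : ι → Place K F) : Divisor K F := ∑ i, pt (P i)

/-- `D` is nonspecial in the sense `H¹(D) = 0`, i.e. `A = A(D) + F`. -/
def IsNonspecial (D : Divisor K F) : Prop :=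
  repartitionsOf D ⊔ principalRepartitions K F = ⊤

open Classical in
/-- The class in `Pic0` of a divisor (junk value `0` if the degree is not zero). -/
def cls (D : Divisor K F) : Pic0 K F :=
  if h : D ∈ Divisor.degZero (K := K) (F := F) then Pic0.mk ⟨D, h⟩ else 0

end Defs

/-! ## Analytic definitions (`K = ℂ`) -/

section Charts

variable {F : Type*} [Field F] [Algebra ℂ F]

/-- `(u, Q, r)` is an analytic chart of the curve: for `‖s‖ < r`, `Q s` is a place at which
`u - s` is a uniformizer (so `u` is a local coordinate with value `s` at `Q s`), and every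
`f : F` regular at `Q s₀` is regular at `Q s` for `s` near `s₀`, with `s ↦ f(Q s)` analytic
at `s₀`.  The chart is centred at `Q 0`. -/
structure IsChart (u : F) (Q : ℂ → Place ℂ F) (r : ℝ) : Prop where
  pos : 0 < r
  unif : ∀ s ∈ Metric.ball (0 : ℂ) r, (Q s).ord (u - algebraMap ℂ F s) = 1
  analytic : ∀ (f : F) (s₀ : ℂ), s₀ ∈ Metric.ball (0 : ℂ) r → 0 ≤ (Q s₀).ord f →
    (∀ᶠ s in 𝓝 s₀, 0 ≤ (Q s).ord f) ∧ AnalyticAt ℂ (fun s => ev (Q s) f) s₀

/-- The integrand of the abelian integrals along a chart, in coordinates `e : H¹(0) ≃ ℂ^g`: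
the class of the principal part `1/(u - s)` at the place `Q s`. -/
def chartCoef (e : H1 (0 : Divisor ℂ F) ≃ₗ[ℂ] (Fin (genusFF ℂ F) → ℂ)) (u : F)
    (Q : ℂ → Place ℂ F) (s : ℂ) : Fin (genusFF ℂ F) → ℂ :=
  e (pp (Q s) (u - algebraMap ℂ F s)⁻¹)

/-- A chart together with the primitive `J` of `chartCoef` normalised by `J 0 = 0`. -/
structure IsIntChart (e : H1 (0 : Divisor ℂ F) ≃ₗ[ℂ] (Fin (genusFF ℂ F) → ℂ)) (u : F)
    (Q : ℂ → Place ℂ F) (r : ℝ) (J : ℂ → Fin (genusFF ℂ F) → ℂ) : Prop where
  chart : IsChart u Q r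
  zero : J 0 = 0
  deriv : ∀ s ∈ Metric.ball (0 : ℂ) r, HasDerivAt J (chartCoef e u Q s) s

end Charts

/-! ## Generic function field statements

`K` algebraically closed of characteristic `0`, `x : F` transcendental over `K`,
`F` finite over `K⟮x⟯`.  Universe polymorphic (the Lefschetz module M4 needs them for
arbitrary `K`, `F`).  The S24 statements `Stmt_FundId`, `Stmt_ResidueK`, `Stmt_Center`,
`Stmt_PrincipalDegZero` (module `Fermat.Agent.S24.helper24_Spec`, proved on main, universe `0`;
their proofs rest on universe polymorphic lemmas in `helper483_PlacesFF`, `helper204_Places`,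
`helper1370_PlaceBasics`, `helper24_FundId`) may be imported by any leaf. -/

/-- Ev. `ev P` is a `K`-algebra homomorphism from the valuation ring of `P` onto `K`
whose kernel is the maximal ideal. -/
def Stmt_Ev.{u, v} : Prop :=
  ∀ (K : Type u) (F : Type v) [Field K] [Field F] [Algebra K F] [IsAlgClosed K] [CharZero K]
    (x : F), Transcendental K x → ∀ [FiniteDimensional K⟮x⟯ F] (P : Place K F),
    (∀ c : K, ev P (algebraMap K F c) = c) ∧
    (∀ f g : F, 0 ≤ P.ord f → 0 ≤ P.ord g →
      ev P (f + g) = ev P f + ev P g ∧ ev P (f * g) = ev P f * ev P g) ∧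
    (∀ f : F, 0 ≤ P.ord f → (ev P f = 0 ↔ f = 0 ∨ 0 < P.ord f)) ∧
    (∀ (f : F) (c : K), 0 < P.ord (f - algebraMap K F c) → ev P f = c)

/-- M2. Riemann's theorem in the repartition language of the Prelude:
`H¹(D)` and `L(D)` are finite dimensional, `ℓ(D) - h¹(D) = deg D + 1 - g`, and
`h¹(D) = 0` as soon as `deg D` is large.  (No duality, no differentials.) -/
def Stmt_Riemann.{u, v} : Prop :=
  ∀ (K : Type u) (F : Type v) [Field K] [Field F] [Algebra K F] [IsAlgClosed K] [CharZero K]
    (x : F), Transcendental K x → ∀ [FiniteDimensional K⟮x⟯ F],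
    (∀ D : Divisor K F, Module.Finite K (H1 D) ∧ Module.Finite K (riemannRochSpace D)) ∧
    (∀ D : Divisor K F,
      (Module.finrank K (riemannRochSpace D) : ℤ) - (Module.finrank K (H1 D) : ℤ)
        = Divisor.degree D + 1 - (genusFF K F : ℤ)) ∧
    (∃ c : ℤ, ∀ D : Divisor K F, c ≤ Divisor.degree D → IsNonspecial D)

/-- M1a. A simple point `(τ, β)` of a plane model `χ(u, y) = 0` of `F` carries exactly one
place; `u - τ` is a uniformizer there, and the valuation ring is the local ring of the plane
curve at the point (every regular function is a quotient of polynomials in `u, y` with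
denominator not vanishing at the point).  `χ` generates the ideal of relations of `(u, y)`. -/
def Stmt_SimplePoint.{u, v} : Prop :=
  ∀ (K : Type u) (F : Type v) [Field K] [Field F] [Algebra K F] [IsAlgClosed K] [CharZero K]
    (u y : F) (χ : K[X][Y]) (τ β : K), Transcendental K u →
    IntermediateField.adjoin K {u, y} = ⊤ →
    aevalAeval u y χ = 0 → (∀ G : K[X][Y], aevalAeval u y G = 0 → χ ∣ G) →
    χ.evalEval τ β = 0 → (derivative χ).evalEval τ β ≠ 0 →
    ∃ P : Place K F, P.ord (u - algebraMap K F τ) = 1 ∧ 0 ≤ P.ord y ∧ ev P y = β ∧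
      (∀ P' : Place K F, 0 < P'.ord (u - algebraMap K F τ) → 0 ≤ P'.ord y → ev P' y = β →
        P' = P) ∧
      (∀ f : F, 0 ≤ P.ord f → ∃ N M : K[X][Y], M.evalEval τ β ≠ 0 ∧
        f * aevalAeval u y M = aevalAeval u y N)

/-- M1b. Separating coordinate: if `u` is a uniformizer at `P`, there is `y`, integral over
`K[u]` and generating `F` over `K(u)`, such that `P` is a simple point of the plane model
`(u, y)`: the (monic in `Y`) generator `χ` of the relations has `χ_Y(0, y(P)) ≠ 0`. -/
def Stmt_SepCoord.{u, v} : Prop :=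
  ∀ (K : Type u) (F : Type v) [Field K] [Field F] [Algebra K F] [IsAlgClosed K] [CharZero K]
    (x : F), Transcendental K x → ∀ [FiniteDimensional K⟮x⟯ F] (P : Place K F) (u : F),
    P.ord u = 1 →
    ∃ (y : F) (χ : K[X][Y]), χ.Monic ∧ IntermediateField.adjoin K {u, y} = ⊤ ∧
      aevalAeval u y χ = 0 ∧ (∀ G : K[X][Y], aevalAeval u y G = 0 → χ ∣ G) ∧
      0 ≤ P.ord y ∧ χ.evalEval 0 (ev P y) = 0 ∧ (derivative χ).evalEval 0 (ev P y) ≠ 0

/-- M1c. A transcendental `u` is a local coordinate (`u - c` a uniformizer for some `c`) at all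
but finitely many places (the exceptions are the poles and the ramification points of `u`). -/
def Stmt_GenericUnram.{u, v} : Prop :=
  ∀ (K : Type u) (F : Type v) [Field K] [Field F] [Algebra K F] [IsAlgClosed K] [CharZero K]
    (x : F), Transcendental K x → ∀ [FiniteDimensional K⟮x⟯ F] (u : F), Transcendental K u →
    {P : Place K F | ¬ ∃ c : K, P.ord (u - algebraMap K F c) = 1}.Finite

/-- M3. Weil differentials are `φ du`: for a linear form `lam` on `H¹(0) = A/(A(0)+F)`
(a holomorphic Weil differential) and a transcendental `u` there is `φ : F`, regular at every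
place where `u` is a local coordinate, whose value there is `lam` of the principal part
`1/(u - c)`.  (Euler's trace-dual formula; proof: apply `lam` to the function
`χ(τ, y) / ((y - β)(u - τ))` for a simple point `(τ, β)` of a monic plane model.) -/
def Stmt_WeilCoeff.{u, v} : Prop :=
  ∀ (K : Type u) (F : Type v) [Field K] [Field F] [Algebra K F] [IsAlgClosed K] [CharZero K]
    (x : F), Transcendental K x → ∀ [FiniteDimensional K⟮x⟯ F]
    (lam : Module.Dual K (H1 (0 : Divisor K F))) (u : F), Transcendental K u →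
    ∃ φ : F, ∀ (P : Place K F) (c : K), P.ord (u - algebraMap K F c) = 1 →
      0 ≤ P.ord φ ∧ lam (pp P (u - algebraMap K F c)⁻¹) = ev P φ

/-- M2b. For a nonspecial reduced divisor `A_1 + … + A_g` the principal parts `1/t_i` at `A_i`
(`t_i` a uniformizer at `A_i`) are linearly independent in `H¹(0)` (hence a basis).
(They span `A(D)/A(0)`, and `A = A(D) + F`; `dim H¹(0) = g` by definition + `Stmt_Riemann`.) -/
def Stmt_NonspecialBasis.{u, v} : Prop :=
  ∀ (K : Type u) (F : Type v) [Field K] [Field F] [Algebra K F] [IsAlgClosed K] [CharZero K]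
    (x : F), Transcendental K x → ∀ [FiniteDimensional K⟮x⟯ F]
    (A : Fin (genusFF K F) → Place K F) (t : Fin (genusFF K F) → F), Function.Injective A →
    (∀ i, (A i).ord (t i) = 1) → IsNonspecial (sumDiv A) →
    LinearIndependent K (fun i => pp (A i) (t i)⁻¹)

/-- M2c. Good base tuples: nonspecial reduced `A_1 + … + A_g` avoiding a given finite set,
with pairwise distinct `x`-values `c_i`, all fibres `x = c_i` unramified.
(From `Stmt_Riemann` only: if `h¹(D) > 0` then `ℓ(D + P) = ℓ(D)`, i.e. `h¹(D + P) = h¹(D) - 1`,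
for all but finitely many `P`; otherwise `ℓ(D + P_1 + … + P_N) ≥ ℓ(D) + N` forces `h¹(D) = 0`.
Add `g` generic points to `D = 0`.  Unramified fibres: `Stmt_GenericUnram`.) -/
def Stmt_GoodTuple.{u, v} : Prop :=
  ∀ (K : Type u) (F : Type v) [Field K] [Field F] [Algebra K F] [IsAlgClosed K] [CharZero K]
    (x : F), Transcendental K x → ∀ [FiniteDimensional K⟮x⟯ F] (S : Set (Place K F)), S.Finite →
    ∃ (A : Fin (genusFF K F) → Place K F) (c : Fin (genusFF K F) → K),
      Function.Injective c ∧ (∀ i, A i ∉ S) ∧ IsNonspecial (sumDiv A) ∧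
      (∀ i, (A i).ord (x - algebraMap K F (c i)) = 1) ∧
      (∀ i (P : Place K F), 0 < P.ord (x - algebraMap K F (c i)) →
        P.ord (x - algebraMap K F (c i)) = 1)

/-- M2d. Every place `R` is a member of a nonspecial reduced tuple whose other members avoid
a given finite set (needs `g ≥ 1`, encoded by the index `i₀`).  (First `h¹(R) = g - 1`: otherwise
there is `f` with a single simple pole, `ℓ(kR) ≥ k + 1` for all `k`, so `g = 0`.  Then add
generic points as in `Stmt_GoodTuple`.) -/
def Stmt_ExtendTuple.{u, v} : Prop :=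
  ∀ (K : Type u) (F : Type v) [Field K] [Field F] [Algebra K F] [IsAlgClosed K] [CharZero K]
    (x : F), Transcendental K x → ∀ [FiniteDimensional K⟮x⟯ F] (S : Set (Place K F)), S.Finite →
    ∀ (R : Place K F) (i₀ : Fin (genusFF K F)),
    ∃ B : Fin (genusFF K F) → Place K F, Function.Injective B ∧ B i₀ = R ∧
      (∀ j, j ≠ i₀ → B j ∉ S) ∧ IsNonspecial (sumDiv B)

/-! ## Analytic statements (`K = ℂ`) -/

/-- M5a. Charts exist at every place, for every uniformizer.  (Proof: `Stmt_SepCoord` gives a
plane model `(u, y)` in which the place is a simple point; the implicit function theorem gives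
the branch `y = b(s)`; `Q s` := the place at the simple point `(s, b(s))` (`Stmt_SimplePoint`);
regular functions are quotients `N(u,y)/M(u,y)`, evaluated as `N(s,b s)/M(s,b s)`.) -/
def Stmt_ChartExists : Prop :=
  ∀ (F : Type) [Field F] [Algebra ℂ F] (x : F), Transcendental ℂ x →
    ∀ [FiniteDimensional ℂ⟮x⟯ F] (P : Place ℂ F) (u : F), P.ord u = 1 →
    ∃ (Q : ℂ → Place ℂ F) (r : ℝ), IsChart u Q r ∧ Q 0 = P

/-- M5b. Local structure of fibres ("properness"): given charts centred at all zeros of `f`,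
every zero of `f - t`, `t` small, lies in one of the charts, as close to the centre as we like.
(Proof: along the chart at a zero of order `e`, `f = s^e g(s)`, so `f = t` has `e` solutions
near `0` (`e`-th root); they are simple zeros of `f - t` at distinct places; the total `∑ e` is
the degree `[F : ℂ(f)]`, which bounds the number of zeros of `f - t` by `Stmt_FundId`.) -/
def Stmt_LocalFibre : Prop :=
  ∀ (F : Type) [Field F] [Algebra ℂ F] (x : F), Transcendental ℂ x →
    ∀ [FiniteDimensional ℂ⟮x⟯ F] (f : F), Transcendental ℂ f →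
    ∀ (m : ℕ) (u : Fin m → F) (Q : Fin m → ℂ → Place ℂ F) (r ρ : Fin m → ℝ),
    (∀ k, IsChart (u k) (Q k) (r k)) → (∀ k, 0 < ρ k) →
    (∀ v : Place ℂ F, 0 < v.ord f → ∃ k, v = Q k 0) →
    ∃ δ > 0, ∀ t : ℂ, ‖t‖ < δ → ∀ v : Place ℂ F, 0 < v.ord (f - algebraMap ℂ F t) →
      ∃ k s, ‖s‖ < ρ k ∧ ‖s‖ < r k ∧ v = Q k s

/-- M5c. Compactness: the curve is covered by finitely many closed chart discs. -/
def Stmt_Compact : Prop :=
  ∀ (F : Type) [Field F] [Algebra ℂ F] (x : F), Transcendental ℂ x →
    ∀ [FiniteDimensional ℂ⟮x⟯ F],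
    ∃ (m : ℕ) (u : Fin m → F) (Q : Fin m → ℂ → Place ℂ F) (r ρ : Fin m → ℝ),
      (∀ k, IsChart (u k) (Q k) (r k)) ∧ (∀ k, ρ k < r k) ∧
      ∀ P : Place ℂ F, ∃ k s, ‖s‖ ≤ ρ k ∧ P = Q k s

/-- M5d. Connectedness: a nonempty set of places that is saturated under all charts is
everything.  (Proof: take `f` with a single pole `P₁ ∈ S` (Riemann); the set of values of `f` on
the complement of `S` is clopen in `ℂ` (open mapping theorem, `Stmt_LocalFibre`) and misses a
neighbourhood of `∞` (`Stmt_LocalFibre` for `1/f`), hence empty.) -/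
def Stmt_Connected : Prop :=
  ∀ (F : Type) [Field F] [Algebra ℂ F] (x : F), Transcendental ℂ x →
    ∀ [FiniteDimensional ℂ⟮x⟯ F] (S : Set (Place ℂ F)), S.Nonempty →
    (∀ (u : F) (Q : ℂ → Place ℂ F) (r : ℝ), IsChart u Q r →
      ∀ s ∈ Metric.ball (0 : ℂ) r, (Q 0 ∈ S ↔ Q s ∈ S)) →
    S = Set.univ

/-- M5e. The integrand `chartCoef` is analytic along every chart
(`Stmt_WeilCoeff` + the chart property). -/
def Stmt_ChartCoefAnalytic : Prop :=
  ∀ (F : Type) [Field F] [Algebra ℂ F] (x : F), Transcendental ℂ x →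
    ∀ [FiniteDimensional ℂ⟮x⟯ F] (e : H1 (0 : Divisor ℂ F) ≃ₗ[ℂ] (Fin (genusFF ℂ F) → ℂ))
    (u : F) (Q : ℂ → Place ℂ F) (r : ℝ), IsChart u Q r →
    ∀ s ∈ Metric.ball (0 : ℂ) r, AnalyticAt ℂ (chartCoef e u Q) s

/-- M5f. Every chart has an abelian integral (primitives on discs). -/
def Stmt_IntChartExists : Prop :=
  ∀ (F : Type) [Field F] [Algebra ℂ F] (x : F), Transcendental ℂ x →
    ∀ [FiniteDimensional ℂ⟮x⟯ F] (e : H1 (0 : Divisor ℂ F) ≃ₗ[ℂ] (Fin (genusFF ℂ F) → ℂ))
    (u : F) (Q : ℂ → Place ℂ F) (r : ℝ), IsChart u Q r →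
    ∃ J : ℂ → Fin (genusFF ℂ F) → ℂ, IsIntChart e u Q r J

/-- M6a. KEY LEMMA (local Abel theorem for pairs of bases, via the infinitesimal Abel theorem).
`A⁰ = (Q i 0)` is a nonspecial reduced base whose charts have coordinates `x₀ - c i` with
pairwise distinct `c i` and unramified fibres `x₀ = c i`; `B⁰ = (Q' j 0)` is any nonspecial
reduced base with arbitrary charts, disjoint from the fibres `x₀ = c i`.  Then for divisors
`A(s) = ∑ Q i (s i)`, `A(s')` near `A⁰` and `B(σ) = ∑ Q' j (σ j)` near `B⁰`:
equal abelian sums imply linear equivalence `A(s) - A(s') ~ B(σ) - B⁰`. -/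
def Stmt_GLS : Prop :=
  ∀ (F : Type) [Field F] [Algebra ℂ F] (x : F), Transcendental ℂ x →
    ∀ [FiniteDimensional ℂ⟮x⟯ F] (e : H1 (0 : Divisor ℂ F) ≃ₗ[ℂ] (Fin (genusFF ℂ F) → ℂ))
    (x₀ : F) (c : Fin (genusFF ℂ F) → ℂ) (u' : Fin (genusFF ℂ F) → F)
    (Q Q' : Fin (genusFF ℂ F) → ℂ → Place ℂ F) (r r' : Fin (genusFF ℂ F) → ℝ)
    (J J' : Fin (genusFF ℂ F) → ℂ → Fin (genusFF ℂ F) → ℂ),
    Function.Injective c →
    (∀ i, IsIntChart e (x₀ - algebraMap ℂ F (c i)) (Q i) (r i) (J i)) →
    (∀ j, IsIntChart e (u' j) (Q' j) (r' j) (J' j)) →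
    (∀ i (P : Place ℂ F), 0 < P.ord (x₀ - algebraMap ℂ F (c i)) →
      P.ord (x₀ - algebraMap ℂ F (c i)) = 1) →
    Function.Injective (fun j => Q' j 0) →
    IsNonspecial (sumDiv fun i => Q i 0) → IsNonspecial (sumDiv fun j => Q' j 0) →
    (∀ i j, (Q' j 0).ord (x₀ - algebraMap ℂ F (c i)) ≤ 0) →
    ∃ ε > 0, ∀ s s' σ : Fin (genusFF ℂ F) → ℂ,
      (∀ i, ‖s i‖ < ε) → (∀ i, ‖s' i‖ < ε) → (∀ j, ‖σ j‖ < ε) →
      ∑ j, J' j (σ j) = ∑ i, (J i (s i) - J i (s' i)) →
      sumDiv (fun i => Q i (s i)) - sumDiv (fun i => Q i (s' i))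
        - sumDiv (fun j => Q' j (σ j)) + sumDiv (fun j => Q' j 0)
        ∈ Divisor.principal (K := ℂ) (F := F)

/-- M6b. The Abel–Jacobi homomorphism `E : ℂ^g → Pic⁰`: it sends the abelian integral along any
chart to the class of the difference of the end points, and its kernel is discrete. -/
def Stmt_Key : Prop :=
  ∀ (F : Type) [Field F] [Algebra ℂ F] (x : F), Transcendental ℂ x →
    ∀ [FiniteDimensional ℂ⟮x⟯ F] (e : H1 (0 : Divisor ℂ F) ≃ₗ[ℂ] (Fin (genusFF ℂ F) → ℂ)),
    ∃ E : (Fin (genusFF ℂ F) → ℂ) →+ Pic0 ℂ F,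
      (∀ (u : F) (Q : ℂ → Place ℂ F) (r : ℝ) (J : ℂ → Fin (genusFF ℂ F) → ℂ),
        IsIntChart e u Q r J → ∀ s ∈ Metric.ball (0 : ℂ) r,
          cls (pt (Q s) - pt (Q 0)) = E (J s)) ∧
      (∃ ε > 0, ∀ w : Fin (genusFF ℂ F) → ℂ, E w = 0 → ‖w‖ < ε → w = 0)

/-- M6c. Pure lattice lemma: a surjective homomorphism `ℂ^g → A` with discrete kernel and a
bounded fundamental set has exactly `n^(2g)` points of order dividing `n` in its image.
(Kernel is a `ℤ`-lattice of full rank by `ZLattice.rank`.) -/
def Stmt_LatticeCount : Prop :=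
  ∀ (g n : ℕ) (A : Type) [AddCommGroup A] (E : (Fin g → ℂ) →+ A), Function.Surjective E →
    (∃ ε > 0, ∀ w : Fin g → ℂ, E w = 0 → ‖w‖ < ε → w = 0) →
    (∃ B : ℝ, ∀ w : Fin g → ℂ, ∃ w' : Fin g → ℂ, E w' = E w ∧ ‖w'‖ ≤ B) → 0 < n →
    Nat.card ((Submodule.torsionBy ℤ A (n : ℤ)).toAddSubgroup) = n ^ (2 * g)

/-- M5b'. Unramified special case of `Stmt_LocalFibre` (enough for `Stmt_GLS`): if all zeros
of `f` are centres of charts with coordinate `f` itself, then for small `t` the zeros of `f - t`
are exactly the chart points `Q k t`.  (Proof: the `Q k t` are pairwise distinct simple zeros of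
`f - t`, as many as `[F : ℂ(f)]`; `Stmt_FundId`.) -/
def Stmt_FibreUnram : Prop :=
  ∀ (F : Type) [Field F] [Algebra ℂ F] (x : F), Transcendental ℂ x →
    ∀ [FiniteDimensional ℂ⟮x⟯ F] (f : F) (m : ℕ) (Q : Fin m → ℂ → Place ℂ F) (r : Fin m → ℝ),
    (∀ k, IsChart f (Q k) (r k)) → (∀ v : Place ℂ F, 0 < v.ord f → ∃ k, v = Q k 0) →
    ∃ δ > 0, ∀ t : ℂ, ‖t‖ < δ → ∀ v : Place ℂ F, 0 < v.ord (f - algebraMap ℂ F t) →
      ∃ k, v = Q k t

/-- M6a'. LOCAL ABEL THEOREM for a linear system with FIXED base — the PRIMARY form of the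
core lemma (proposed independently by helper9142, helper1561, helper2178, helper2260, helper4683).
`P_i = Q i 0` (`i < m`, any `m`) are distinct places with arbitrary integral charts; `B⁰ = (Q' k 0)`
is a nonspecial reduced `g`-tuple disjoint from them, with arbitrary integral charts.  Then the
points `P_i` can be moved freely to nearby `Q i (a i)`, compensated by a unique nearby move of
`B⁰`, inside one linear equivalence class and with abelian sum zero.

Proof: `Δ⁰ := ∑ P_i + B⁰`; `ℓ(Δ⁰) ≥ m + 1` (Riemann) and the functions of `L(Δ⁰)` regular at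
all `P_i` are constants (`ℓ(B⁰) = 1`), so there are `w_1 … w_m ∈ L(Δ⁰)` with residue matrix
`(ev (P_i) (u_i w_r)) = 1`.  Put `g_z := 1 + ∑ z_r w_r`.  Along each of the `m + g` charts
`G_ν(t; z) := ev (Q_ν t) (u_ν g_z) = t + ∑ z_r W_νr(t)` is analytic with `∂G/∂t = 1` at `0`:
IFT with parameters gives its unique small zero `θ_ν(z)`.  Degree count:
`div g_z = ∑ pt (Q_ν (θ_ν z)) - Δ⁰` exactly.  Along `τ ↦ τ z` the element
`ξ := (∑ z_r w_r) / g_{τz}` of `F` is regular except for at most simple poles at the moving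
zeros, `ξ ≡ -θ_ν' / (u_ν - θ_ν)` there (implicit differentiation of `G_ν`); the constant
repartition `ξ` is zero in `H¹(0)`, which is `d/dτ ∑ J_ν(θ_ν(τ z)) = 0`.  Finally solve the
`m` LINEAR equations `G_i(a_i; z) = 0` for `z` (matrix `= 1` at `a = 0`).
No Cramer with moving conditions, no unramified fibres, no several-variable IFT. -/
def Stmt_LocalAbel : Prop :=
  ∀ (F : Type) [Field F] [Algebra ℂ F] (x : F), Transcendental ℂ x →
    ∀ [FiniteDimensional ℂ⟮x⟯ F] (e : H1 (0 : Divisor ℂ F) ≃ₗ[ℂ] (Fin (genusFF ℂ F) → ℂ))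
    (m : ℕ) (u : Fin m → F) (Q : Fin m → ℂ → Place ℂ F) (r : Fin m → ℝ)
    (J : Fin m → ℂ → Fin (genusFF ℂ F) → ℂ)
    (u' : Fin (genusFF ℂ F) → F) (Q' : Fin (genusFF ℂ F) → ℂ → Place ℂ F)
    (r' : Fin (genusFF ℂ F) → ℝ) (J' : Fin (genusFF ℂ F) → ℂ → Fin (genusFF ℂ F) → ℂ),
    (∀ i, IsIntChart e (u i) (Q i) (r i) (J i)) →
    (∀ k, IsIntChart e (u' k) (Q' k) (r' k) (J' k)) →
    Function.Injective (fun i => Q i 0) → Function.Injective (fun k => Q' k 0) →
    (∀ i k, Q i 0 ≠ Q' k 0) →
    IsNonspecial (sumDiv fun k => Q' k 0) →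
    ∀ ε > 0, ∃ δ > 0, ∀ a : Fin m → ℂ, (∀ i, ‖a i‖ < δ) →
      ∃ c : Fin (genusFF ℂ F) → ℂ, (∀ k, ‖c k‖ < ε) ∧
        (sumDiv (fun i => Q i (a i)) - sumDiv (fun i => Q i 0))
          + (sumDiv (fun k => Q' k (c k)) - sumDiv (fun k => Q' k 0))
          ∈ Divisor.principal (K := ℂ) (F := F) ∧
        ∑ i, J i (a i) + ∑ k, J' k (c k) = 0

/-- CORE INTERFACE (what the endgame consumes; both cores A = `Stmt_Key` (abelian integrals +
infinitesimal Abel) and B (analytic group chunk + logarithm, helper27/helper3813) must deliver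
exactly this): a homomorphism `E : ℂ^g → Pic⁰` with discrete kernel such that along every chart
the class `[Q s - Q 0]` is `E` of a continuous function of `s`. -/
def Stmt_AJ : Prop :=
  ∀ (F : Type) [Field F] [Algebra ℂ F] (x : F), Transcendental ℂ x →
    ∀ [FiniteDimensional ℂ⟮x⟯ F],
    ∃ E : (Fin (genusFF ℂ F) → ℂ) →+ Pic0 ℂ F,
      (∀ (u : F) (Q : ℂ → Place ℂ F) (r : ℝ), IsChart u Q r →
        ∃ G : ℂ → Fin (genusFF ℂ F) → ℂ, ContinuousOn G (Metric.ball (0 : ℂ) r) ∧
          ∀ s ∈ Metric.ball (0 : ℂ) r, cls (pt (Q s) - pt (Q 0)) = E (G s)) ∧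
      (∃ ε > 0, ∀ w : Fin (genusFF ℂ F) → ℂ, E w = 0 → ‖w‖ < ε → w = 0)

/-- Core A delivers the core interface. -/
theorem aj_of_key (hR : Stmt_Riemann.{0, 0}) (hI : Stmt_IntChartExists) (hK : Stmt_Key) :
    Stmt_AJ := by
  intro F _ _ x hx _
  have : Module.Finite ℂ (H1 (0 : Divisor ℂ F)) := ((hR ℂ F x hx).1 0).1
  have e : H1 (0 : Divisor ℂ F) ≃ₗ[ℂ] (Fin (genusFF ℂ F) → ℂ) :=
    LinearEquiv.ofFinrankEq _ _ (by rw [Module.finrank_fin_fun]; rfl)
  obtain ⟨E, hE, hker⟩ := hK F x hx e
  refine ⟨E, fun u Q r hc => ?_, hker⟩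
  obtain ⟨J, hJ⟩ := hI F x hx e u Q r hc
  exact ⟨J, fun s hs => (hJ.deriv s hs).continuousAt.continuousWithinAt,
    fun s hs => hE u Q r J hJ s hs⟩

/-! ## Top level -/

/-- M0. A curve in the sense of the frozen statement is a finite extension of `K(x)`. -/
def Stmt_Reduce.{u, v} : Prop :=
  ∀ (K : Type u) (F : Type v) [Field K] [Field F] [Algebra K F] [IsAlgClosed K] [CharZero K]
    [IsCurveOver K F] [Algebra.EssFiniteType K F],
    ∃ x : F, Transcendental K x ∧ FiniteDimensional K⟮x⟯ F

/-- The complex case. -/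
def Stmt_Complex : Prop :=
  ∀ (F : Type) [Field F] [Algebra ℂ F] (x : F), Transcendental ℂ x →
    ∀ [FiniteDimensional ℂ⟮x⟯ F] (n : ℕ), 0 < n →
    Nat.card (Pic0.torsion ℂ F n) = n ^ (2 * genusFF ℂ F)

/-- M4. Lefschetz transfer: the complex case implies the general case. -/
def Stmt_Transfer.{u, v} : Prop :=
  Stmt_Complex →
  ∀ (K : Type u) (F : Type v) [Field K] [Field F] [Algebra K F] [IsAlgClosed K] [CharZero K]
    (x : F), Transcendental K x → ∀ [FiniteDimensional K⟮x⟯ F] (n : ℕ), 0 < n →
    Nat.card (Pic0.torsion K F n) = n ^ (2 * genusFF K F)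

/-- The final statement (= frozen statement S27). -/
def Stmt_S27.{u, v} : Prop :=
  ∀ (K : Type u) (F : Type v) [Field K] [Field F] [Algebra K F] [IsAlgClosed K] [CharZero K]
    [IsCurveOver K F] [Algebra.EssFiniteType K F] (ℓ : ℕ) [Fact ℓ.Prime] (k : ℕ),
    Nat.card (Pic0.torsion K F (ℓ ^ k)) = ℓ ^ (2 * genusFF K F * k)

theorem s27_of.{u, v} (h0 : Stmt_Reduce.{u, v}) (hC : Stmt_Complex) (hT : Stmt_Transfer.{u, v}) :
    Stmt_S27.{u, v} := by
  intro K F _ _ _ _ _ _ _ ℓ hℓ k
  obtain ⟨x, hx, hfin⟩ := h0 K F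
  have h := hT hC K F x hx (ℓ ^ k) (pow_pos hℓ.out.pos k)
  rw [h, ← pow_mul]
  congr 1
  ring

end

end Fermat.Agent.S27.helper6247
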