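import Fermat.Agent.S27.helper6247_Spec
import Fermat.Agent.S24.helper489_Residue

/-!
# S27, Spec leaf `Stmt_Ev` (helper4586, board row 1025)

`helper6247.ev P f` is the value of `f` at the place `P`.  This file proves the Spec statement
`helper6247.Stmt_Ev` unconditionally (`stmt_ev`), and exports the pointwise API that the consumers
of `ev` need, as lemmas with explicit hypotheses.

## Contents

* `IsVal P f c`  : `f` takes the value `c` at `P`, i.e. `f - c` lies in the maximal ideal of `P`
  (this is exactly the condition inside the definition of `ev`).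
* `adicValuation_lt_one_iff`, `adicValuation_le_one_iff` : translation to `Place.ord`.
* `isVal_iff` : `IsVal P f c ↔ f = c ∨ 0 < P.ord (f - c)`.
* `IsVal.unique`, `IsVal.ev_eq` : values are unique and computed by `ev` (no hypothesis on `F`).
* `IsVal.add`, `IsVal.mul`, `IsVal.neg`, `IsVal.sub`, `IsVal.pow`, `IsVal.sum`, `IsVal.prod`,
  `isVal_algebraMap`, `IsVal.inv` (`c ≠ 0`), `IsVal.div`, `IsVal.aeval`.
* `ev_algebraMap`, `ev_zero`, `ev_one`, `ev_eq_of_ord_pos`, `ev_eq_zero_of_ord_pos` :
  hypothesis-free computation rules.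
* `HasValues P` : every `f` regular at `P` has a value (residue field `= K`);
  `hasValues_of_finite` proves it in the Spec setting (`K` algebraically closed, `F` finite over
  `K⟮x⟯`), from the landed S24 lemma `helper489.exists_const_sub_ord_pos`.
* under `HasValues P`: `isVal_ev`, `ev_add`, `ev_mul`, `ev_neg`, `ev_sub`, `ev_pow`, `ev_sum`,
  `ev_prod`, `ev_eq_zero_iff`, `ev_inv`, `ev_div`, `ev_aeval`, `ord_sub_ev_pos`, `evalRingHom`-free
  packaging `evHom : P.toValuationSubring →ₐ[K] K` with `evHom_apply`, `evHom_surjective`,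
  `ker_evHom`.
* `stmt_ev : helper6247.Stmt_Ev`.
-/

set_option autoImplicit false

open AlgebraicCurve IntermediateField Polynomial

namespace Fermat.Agent.S27.helper4586

open Fermat.Agent.S27.helper6247

section General

variable {K : Type*} {F : Type*} [Field K] [Field F] [Algebra K F]

/-! ### Valuation versus order -/

/-- `v(g) < 1` iff `g = 0` or `g` has positive order. -/
theorem adicValuation_lt_one_iff (P : Place K F) (g : F) :
    P.adicValuation g < 1 ↔ g = 0 ∨ 0 < P.ord g := by
  rcases eq_or_ne g 0 with rfl | hg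
  · simp
  · have hv : P.adicValuation g ≠ 0 := P.adicValuation_ne_zero hg
    have h1 : WithZero.log (P.adicValuation g) < 0 ↔ P.adicValuation g < 1 := by
      rw [← WithZero.log_one, WithZero.log_lt_log hv one_ne_zero]
    rw [← h1]
    simp only [Place.ord, hg, false_or]
    omega

/-- `v(g) ≤ 1` iff `g` has nonnegative order (recall `ord 0 = 0`). -/
theorem adicValuation_le_one_iff (P : Place K F) (g : F) :
    P.adicValuation g ≤ 1 ↔ 0 ≤ P.ord g := by
  rcases eq_or_ne g 0 with rfl | hg
  · simp
  · have hv : P.adicValuation g ≠ 0 := P.adicValuation_ne_zero hg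
    have h1 : WithZero.log (P.adicValuation g) ≤ 0 ↔ P.adicValuation g ≤ 1 := by
      rw [← WithZero.log_one, WithZero.log_le_log hv one_ne_zero]
    rw [← h1]
    simp only [Place.ord]
    omega

/-- Nonzero constants are units at every place. -/
theorem adicValuation_algebraMap (P : Place K F) {a : K} (ha : a ≠ 0) :
    P.adicValuation (algebraMap K F a) = 1 := by
  have hu : IsUnit (algebraMap K P.toValuationSubring a) :=
    (IsUnit.mk0 a ha).map (algebraMap K P.toValuationSubring)
  have := (P.adicValuation_coe_eq_one_iff (algebraMap K P.toValuationSubring a)).mpr hu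
  simpa using this

theorem adicValuation_algebraMap_le (P : Place K F) (a : K) :
    P.adicValuation (algebraMap K F a) ≤ 1 := by
  rcases eq_or_ne a 0 with rfl | ha
  · simp
  · exact (adicValuation_algebraMap P ha).le

/-! ### The predicate "`f` has the value `c` at `P`" -/

/-- `f` takes the value `c` at the place `P`: `f - c` lies in the maximal ideal of `P`.
This is verbatim the condition in the definition of `helper6247.ev`. -/
def IsVal (P : Place K F) (f : F) (c : K) : Prop :=
  P.adicValuation (f - algebraMap K F c) < 1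

theorem isVal_iff (P : Place K F) (f : F) (c : K) :
    IsVal P f c ↔ f = algebraMap K F c ∨ 0 < P.ord (f - algebraMap K F c) := by
  rw [IsVal, adicValuation_lt_one_iff, sub_eq_zero]

theorem isVal_of_ord_pos {P : Place K F} {f : F} {c : K}
    (h : 0 < P.ord (f - algebraMap K F c)) : IsVal P f c :=
  (isVal_iff P f c).mpr (Or.inr h)

theorem isVal_algebraMap (P : Place K F) (c : K) : IsVal P (algebraMap K F c) c := by
  simp [IsVal]

theorem isVal_zero (P : Place K F) : IsVal P (0 : F) (0 : K) := by
  simp [IsVal]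

theorem isVal_one (P : Place K F) : IsVal P (1 : F) (1 : K) := by
  simp [IsVal]

/-- `f` has the value `0` at `P` iff `f = 0` or `f` vanishes at `P`. -/
theorem isVal_zero_iff (P : Place K F) (f : F) : IsVal P f 0 ↔ f = 0 ∨ 0 < P.ord f := by
  rw [isVal_iff]; simp

namespace IsVal

variable {P : Place K F} {f g : F} {a b : K}

/-- A function with a value is regular (valuation form). -/
theorem adicValuation_le (h : IsVal P f a) : P.adicValuation f ≤ 1 := by
  have h2 : f = (f - algebraMap K F a) + algebraMap K F a := by ring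
  rw [h2]
  exact (P.adicValuation.map_add _ _).trans
    (max_le (le_of_lt h) (adicValuation_algebraMap_le P a))

/-- A function with a value is regular. -/
theorem ord_nonneg (h : IsVal P f a) : 0 ≤ P.ord f :=
  (adicValuation_le_one_iff P f).mp h.adicValuation_le

/-- The value of a function at a place is unique. -/
theorem unique (h₁ : IsVal P f a) (h₂ : IsVal P f b) : a = b := by
  by_contra hab
  have hne : a - b ≠ 0 := sub_ne_zero.mpr hab
  have h3 : algebraMap K F (a - b) = (f - algebraMap K F b) - (f - algebraMap K F a) := by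
    rw [map_sub]; ring
  have h4 : P.adicValuation (algebraMap K F (a - b)) < 1 := by
    rw [h3]
    exact lt_of_le_of_lt (P.adicValuation.map_sub _ _) (max_lt h₂ h₁)
  rw [adicValuation_algebraMap P hne] at h4
  exact lt_irrefl _ h4

/-- `ev` computes the value. -/
theorem ev_eq (h : IsVal P f a) : ev P f = a := by
  have hex : ∃ c : K, P.adicValuation (f - algebraMap K F c) < 1 := ⟨a, h⟩
  have hch : IsVal P f hex.choose := hex.choose_spec
  rw [ev, dif_pos hex]
  exact hch.unique h

theorem add (h₁ : IsVal P f a) (h₂ : IsVal P g b) : IsVal P (f + g) (a + b) := by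
  have h3 : f + g - algebraMap K F (a + b)
      = (f - algebraMap K F a) + (g - algebraMap K F b) := by
    rw [map_add]; ring
  rw [IsVal, h3]
  exact lt_of_le_of_lt (P.adicValuation.map_add _ _) (max_lt h₁ h₂)

theorem neg (h : IsVal P f a) : IsVal P (-f) (-a) := by
  have h3 : -f - algebraMap K F (-a) = -(f - algebraMap K F a) := by
    rw [map_neg]; ring
  rw [IsVal, h3, Valuation.map_neg]
  exact h

theorem sub (h₁ : IsVal P f a) (h₂ : IsVal P g b) : IsVal P (f - g) (a - b) := by
  rw [sub_eq_add_neg, sub_eq_add_neg]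
  exact h₁.add h₂.neg

theorem mul (h₁ : IsVal P f a) (h₂ : IsVal P g b) : IsVal P (f * g) (a * b) := by
  have h3 : f * g - algebraMap K F (a * b)
      = (f - algebraMap K F a) * g + algebraMap K F a * (g - algebraMap K F b) := by
    rw [map_mul]; ring
  rw [IsVal, h3]
  refine lt_of_le_of_lt (P.adicValuation.map_add _ _) (max_lt ?_ ?_)
  · rw [map_mul]
    calc P.adicValuation (f - algebraMap K F a) * P.adicValuation g
        ≤ P.adicValuation (f - algebraMap K F a) * 1 :=
          mul_le_mul_of_nonneg_left h₂.adicValuation_le zero_le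
      _ < 1 := by rw [mul_one]; exact h₁
  · rw [map_mul]
    calc P.adicValuation (algebraMap K F a) * P.adicValuation (g - algebraMap K F b)
        ≤ 1 * P.adicValuation (g - algebraMap K F b) :=
          mul_le_mul_of_nonneg_right (adicValuation_algebraMap_le P a) zero_le
      _ < 1 := by rw [one_mul]; exact h₂

theorem const_mul (c : K) (h : IsVal P f a) : IsVal P (algebraMap K F c * f) (c * a) :=
  (isVal_algebraMap P c).mul h

theorem smul (c : K) (h : IsVal P f a) : IsVal P (c • f) (c * a) := by
  rw [Algebra.smul_def]; exact h.const_mul c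

theorem pow (h : IsVal P f a) (n : ℕ) : IsVal P (f ^ n) (a ^ n) := by
  induction n with
  | zero => simpa using isVal_one P
  | succ n ih => rw [pow_succ, pow_succ]; exact ih.mul h

theorem sum {ι : Type*} (s : Finset ι) {f : ι → F} {a : ι → K}
    (h : ∀ i ∈ s, IsVal P (f i) (a i)) : IsVal P (∑ i ∈ s, f i) (∑ i ∈ s, a i) := by
  classical
  induction s using Finset.induction_on with
  | empty => simpa using isVal_zero P
  | insert i s hi ih =>
    rw [Finset.sum_insert hi, Finset.sum_insert hi]
    exact (h i (Finset.mem_insert_self i s)).add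
      (ih fun j hj => h j (Finset.mem_insert_of_mem hj))

theorem prod {ι : Type*} (s : Finset ι) {f : ι → F} {a : ι → K}
    (h : ∀ i ∈ s, IsVal P (f i) (a i)) : IsVal P (∏ i ∈ s, f i) (∏ i ∈ s, a i) := by
  classical
  induction s using Finset.induction_on with
  | empty => simpa using isVal_one P
  | insert i s hi ih =>
    rw [Finset.prod_insert hi, Finset.prod_insert hi]
    exact (h i (Finset.mem_insert_self i s)).mul
      (ih fun j hj => h j (Finset.mem_insert_of_mem hj))

/-- A function with a nonzero value is a unit at the place. -/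
theorem adicValuation_eq_one (h : IsVal P f a) (ha : a ≠ 0) : P.adicValuation f = 1 := by
  have h2 : f = (f - algebraMap K F a) + algebraMap K F a := by ring
  have h3 : P.adicValuation (f - algebraMap K F a) < P.adicValuation (algebraMap K F a) := by
    rw [adicValuation_algebraMap P ha]; exact h
  rw [h2, Valuation.map_add_eq_of_lt_right _ h3, adicValuation_algebraMap P ha]

theorem ne_zero (h : IsVal P f a) (ha : a ≠ 0) : f ≠ 0 := by
  rintro rfl
  have := h.adicValuation_eq_one ha
  simp at this

/-- A function with a nonzero value has order zero. -/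
theorem ord_eq_zero (h : IsVal P f a) (ha : a ≠ 0) : P.ord f = 0 := by
  simp [Place.ord, h.adicValuation_eq_one ha]

theorem inv (h : IsVal P f a) (ha : a ≠ 0) : IsVal P f⁻¹ a⁻¹ := by
  have hf : f ≠ 0 := h.ne_zero ha
  have haF : algebraMap K F a ≠ 0 := by simpa using ha
  have h3 : f⁻¹ - algebraMap K F a⁻¹
      = -((f - algebraMap K F a) * (f⁻¹ * algebraMap K F a⁻¹)) := by
    rw [map_inv₀]; field_simp; ring
  have h' : P.adicValuation (f - algebraMap K F a) < 1 := h
  rw [IsVal, h3, Valuation.map_neg, map_mul, map_mul, map_inv₀, h.adicValuation_eq_one ha,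
    adicValuation_algebraMap P (inv_ne_zero ha)]
  simpa using h'

theorem div (h₁ : IsVal P f a) (h₂ : IsVal P g b) (hb : b ≠ 0) : IsVal P (f / g) (a / b) := by
  rw [div_eq_mul_inv, div_eq_mul_inv]
  exact h₁.mul (h₂.inv hb)

/-- Values commute with polynomial evaluation. -/
theorem aeval (h : IsVal P f a) (p : K[X]) : IsVal P (Polynomial.aeval f p) (p.eval a) := by
  rw [Polynomial.aeval_eq_sum_range, Polynomial.eval_eq_sum_range]
  refine IsVal.sum _ fun i _ => ?_
  exact (h.pow i).smul (p.coeff i)

end IsVal

/-! ### Hypothesis-free rules for `ev` -/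

@[simp]
theorem ev_algebraMap (P : Place K F) (c : K) : ev P (algebraMap K F c) = c :=
  (isVal_algebraMap P c).ev_eq

@[simp]
theorem ev_zero (P : Place K F) : ev P (0 : F) = 0 := (isVal_zero P).ev_eq

@[simp]
theorem ev_one (P : Place K F) : ev P (1 : F) = 1 := (isVal_one P).ev_eq

/-- If `f - c` vanishes at `P` then `ev P f = c`. -/
theorem ev_eq_of_ord_pos {P : Place K F} {f : F} {c : K}
    (h : 0 < P.ord (f - algebraMap K F c)) : ev P f = c :=
  (isVal_of_ord_pos h).ev_eq

/-- If `f` vanishes at `P` then `ev P f = 0`. -/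
theorem ev_eq_zero_of_ord_pos {P : Place K F} {f : F} (h : 0 < P.ord f) : ev P f = 0 :=
  ((isVal_zero_iff P f).mpr (Or.inr h)).ev_eq

/-- `ev P f` is a value of `f` as soon as `f` has some value. -/
theorem isVal_ev_of_exists {P : Place K F} {f : F} (h : ∃ c : K, IsVal P f c) :
    IsVal P f (ev P f) := by
  obtain ⟨c, hc⟩ := h
  rw [hc.ev_eq]; exact hc

/-- If `f` has no value at `P` (e.g. at a pole) then `ev P f = 0` (junk value). -/
theorem ev_eq_zero_of_not_exists {P : Place K F} {f : F} (h : ¬ ∃ c : K, IsVal P f c) :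
    ev P f = 0 := by
  unfold ev
  exact dif_neg h

/-- At a pole the value is the junk value `0`. -/
theorem ev_eq_zero_of_ord_neg {P : Place K F} {f : F} (h : P.ord f < 0) : ev P f = 0 :=
  ev_eq_zero_of_not_exists fun ⟨_, hc⟩ => absurd hc.ord_nonneg (not_le.mpr h)

/-! ### Places all of whose regular functions have values (residue field `K`) -/

/-- Every function regular at `P` has a value in `K` at `P` (i.e. the residue field is `K`). -/
def HasValues (P : Place K F) : Prop :=
  ∀ f : F, 0 ≤ P.ord f → ∃ c : K, IsVal P f c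

section HasValues

variable {P : Place K F} (hP : HasValues P)
include hP

theorem isVal_ev {f : F} (hf : 0 ≤ P.ord f) : IsVal P f (ev P f) :=
  isVal_ev_of_exists (hP f hf)

theorem isVal_iff_ev_eq {f : F} (hf : 0 ≤ P.ord f) {c : K} : IsVal P f c ↔ ev P f = c :=
  ⟨fun h => h.ev_eq, fun h => h ▸ isVal_ev hP hf⟩

/-- `f - f(P)` is zero or vanishes at `P`. -/
theorem eq_or_ord_sub_ev_pos {f : F} (hf : 0 ≤ P.ord f) :
    f = algebraMap K F (ev P f) ∨ 0 < P.ord (f - algebraMap K F (ev P f)) :=
  (isVal_iff P f _).mp (isVal_ev hP hf)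

theorem ev_add {f g : F} (hf : 0 ≤ P.ord f) (hg : 0 ≤ P.ord g) :
    ev P (f + g) = ev P f + ev P g :=
  ((isVal_ev hP hf).add (isVal_ev hP hg)).ev_eq

theorem ev_mul {f g : F} (hf : 0 ≤ P.ord f) (hg : 0 ≤ P.ord g) :
    ev P (f * g) = ev P f * ev P g :=
  ((isVal_ev hP hf).mul (isVal_ev hP hg)).ev_eq

theorem ev_neg {f : F} (hf : 0 ≤ P.ord f) : ev P (-f) = -ev P f :=
  (isVal_ev hP hf).neg.ev_eq

theorem ev_sub {f g : F} (hf : 0 ≤ P.ord f) (hg : 0 ≤ P.ord g) :
    ev P (f - g) = ev P f - ev P g :=
  ((isVal_ev hP hf).sub (isVal_ev hP hg)).ev_eq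

theorem ev_const_mul (c : K) {f : F} (hf : 0 ≤ P.ord f) :
    ev P (algebraMap K F c * f) = c * ev P f :=
  ((isVal_ev hP hf).const_mul c).ev_eq

theorem ev_smul (c : K) {f : F} (hf : 0 ≤ P.ord f) : ev P (c • f) = c * ev P f :=
  ((isVal_ev hP hf).smul c).ev_eq

theorem ev_pow {f : F} (hf : 0 ≤ P.ord f) (n : ℕ) : ev P (f ^ n) = ev P f ^ n :=
  ((isVal_ev hP hf).pow n).ev_eq

theorem ev_sum {ι : Type*} (s : Finset ι) {f : ι → F} (hf : ∀ i ∈ s, 0 ≤ P.ord (f i)) :
    ev P (∑ i ∈ s, f i) = ∑ i ∈ s, ev P (f i) :=
  (IsVal.sum s fun i hi => isVal_ev hP (hf i hi)).ev_eq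

theorem ev_prod {ι : Type*} (s : Finset ι) {f : ι → F} (hf : ∀ i ∈ s, 0 ≤ P.ord (f i)) :
    ev P (∏ i ∈ s, f i) = ∏ i ∈ s, ev P (f i) :=
  (IsVal.prod s fun i hi => isVal_ev hP (hf i hi)).ev_eq

theorem ev_aeval {f : F} (hf : 0 ≤ P.ord f) (p : K[X]) :
    ev P (Polynomial.aeval f p) = p.eval (ev P f) :=
  ((isVal_ev hP hf).aeval p).ev_eq

/-- `ev P f = 0` iff `f = 0` or `f` vanishes at `P` (for `f` regular at `P`). -/
theorem ev_eq_zero_iff {f : F} (hf : 0 ≤ P.ord f) : ev P f = 0 ↔ f = 0 ∨ 0 < P.ord f := by
  rw [← isVal_iff_ev_eq hP hf, isVal_zero_iff]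

/-- A regular function with nonzero value is a unit at `P`. -/
theorem ord_eq_zero_of_ev_ne_zero {f : F} (hf : 0 ≤ P.ord f) (h : ev P f ≠ 0) : P.ord f = 0 :=
  (isVal_ev hP hf).ord_eq_zero h

theorem ev_ne_zero_iff {f : F} (hf : 0 ≤ P.ord f) : ev P f ≠ 0 ↔ f ≠ 0 ∧ P.ord f = 0 := by
  rw [Ne, ev_eq_zero_iff hP hf]
  constructor
  · intro h
    push Not at h
    exact ⟨h.1, le_antisymm h.2 hf⟩
  · rintro ⟨h1, h2⟩ (h | h)
    · exact h1 h
    · omega

theorem ev_inv {f : F} (hf : P.ord f = 0) : ev P f⁻¹ = (ev P f)⁻¹ := by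
  rcases eq_or_ne f 0 with rfl | hf0
  · simp
  · have h0 : ev P f ≠ 0 := (ev_ne_zero_iff hP hf.ge).mpr ⟨hf0, hf⟩
    exact ((isVal_ev hP hf.ge).inv h0).ev_eq

theorem ev_div {f g : F} (hf : 0 ≤ P.ord f) (hg : P.ord g = 0) :
    ev P (f / g) = ev P f / ev P g := by
  rcases eq_or_ne g 0 with rfl | hg0
  · simp
  · have h0 : ev P g ≠ 0 := (ev_ne_zero_iff hP hg.ge).mpr ⟨hg0, hg⟩
    exact ((isVal_ev hP hf).div (isVal_ev hP hg.ge) h0).ev_eq

/-- Evaluation at `P` as a `K`-algebra homomorphism from the valuation ring of `P`. -/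
noncomputable def evHom : P.toValuationSubring →ₐ[K] K :=
  have hmem : ∀ a : P.toValuationSubring, 0 ≤ P.ord (a : F) := fun a =>
    (adicValuation_le_one_iff P _).mp
      ((P.adicValuation_coe a).le.trans (P.heightOneSpectrum.intValuation_le_one a))
  { toFun := fun a => ev P (a : F)
    map_one' := by simp
    map_mul' := fun a b => by
      simpa using ev_mul hP (hmem a) (hmem b)
    map_zero' := by simp
    map_add' := fun a b => by
      simpa using ev_add hP (hmem a) (hmem b)
    commutes' := fun c => by simp }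

@[simp]
theorem evHom_apply (a : P.toValuationSubring) : evHom hP a = ev P (a : F) := rfl

theorem evHom_surjective : Function.Surjective (evHom hP) := fun c =>
  ⟨algebraMap K P.toValuationSubring c, by simp⟩

end HasValues

/-- Elements of the valuation ring of `P` are regular at `P`. -/
theorem ord_coe_nonneg (P : Place K F) (a : P.toValuationSubring) : 0 ≤ P.ord (a : F) :=
  (adicValuation_le_one_iff P _).mp
    ((P.adicValuation_coe a).le.trans (P.heightOneSpectrum.intValuation_le_one a))

/-- Functions regular at `P` lie in the valuation ring of `P`. -/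
theorem mem_of_ord_nonneg (P : Place K F) {f : F} (hf : 0 ≤ P.ord f) :
    f ∈ P.toValuationSubring := by
  rcases eq_or_ne f 0 with rfl | hf0
  · exact zero_mem _
  · exact Fermat.Agent.S24.helper489.mem_of_ord_nonneg P hf0 hf

theorem ord_nonneg_iff_mem (P : Place K F) {f : F} : 0 ≤ P.ord f ↔ f ∈ P.toValuationSubring :=
  ⟨mem_of_ord_nonneg P, fun h => ord_coe_nonneg P ⟨f, h⟩⟩

/-- The kernel of `evHom` is the maximal ideal. -/
theorem evHom_eq_zero_iff {P : Place K F} (hP : HasValues P) (a : P.toValuationSubring) :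
    evHom hP a = 0 ↔ a ∈ IsLocalRing.maximalIdeal P.toValuationSubring := by
  rw [evHom_apply, ← isVal_iff_ev_eq hP (ord_coe_nonneg P a), IsVal, map_zero, sub_zero,
    P.adicValuation_coe, IsDedekindDomain.HeightOneSpectrum.intValuation_lt_one_iff_mem,
    Place.heightOneSpectrum_asIdeal]

theorem ker_evHom {P : Place K F} (hP : HasValues P) :
    RingHom.ker (evHom hP : P.toValuationSubring →+* K)
      = IsLocalRing.maximalIdeal P.toValuationSubring := by
  ext a
  rw [RingHom.mem_ker]
  exact evHom_eq_zero_iff hP a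

/-- `HasValues` from surjectivity of `K → residue field` (the shape of S24 `Stmt_ResidueK`). -/
theorem hasValues_of_residue_surjective (P : Place K F)
    (h : Function.Surjective (algebraMap K P.ResidueField)) : HasValues P := by
  intro f hf
  obtain ⟨c, hc⟩ := h (IsLocalRing.residue P.toValuationSubring ⟨f, mem_of_ord_nonneg P hf⟩)
  refine ⟨c, ?_⟩
  have h1 : IsLocalRing.residue P.toValuationSubring
      ((⟨f, mem_of_ord_nonneg P hf⟩ : P.toValuationSubring)
        - algebraMap K P.toValuationSubring c) = 0 := by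
    rw [map_sub, sub_eq_zero, ← hc,
      IsScalarTower.algebraMap_apply K P.toValuationSubring P.ResidueField,
      IsLocalRing.ResidueField.algebraMap_eq]
  rw [IsLocalRing.residue_eq_zero_iff, ← Place.heightOneSpectrum_asIdeal,
    ← IsDedekindDomain.HeightOneSpectrum.intValuation_lt_one_iff_mem, ← P.adicValuation_coe] at h1
  exact h1

end General

/-! ### The Spec setting: `K` algebraically closed, `F` finite over `K⟮x⟯` -/

section Finite

variable {K : Type*} {F : Type*} [Field K] [Field F] [Algebra K F] [IsAlgClosed K]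

/-- In a function field of one variable over an algebraically closed field every regular
function has a value at every place (S24 `helper489.exists_const_sub_ord_pos`). -/
theorem hasValues_of_isAlgebraic
    (halg : ∀ u : F, Transcendental K u → Algebra.IsAlgebraic K⟮u⟯ F) (P : Place K F) :
    HasValues P := by
  intro f hf
  obtain ⟨c, hc⟩ := Fermat.Agent.S24.helper489.exists_const_sub_ord_pos P halg f
    (mem_of_ord_nonneg P hf)
  exact ⟨c, (isVal_iff P f c).mpr hc⟩

/-- `HasValues` in the Spec setting (no characteristic hypothesis needed). -/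
theorem hasValues_of_finite (x : F) [FiniteDimensional K⟮x⟯ F] (P : Place K F) :
    HasValues P :=
  hasValues_of_isAlgebraic
    (fun u hu => Fermat.Agent.S24.helper2549.exchange_isAlgebraic x u hu) P

end Finite

/-- **Spec leaf `Stmt_Ev`** (unconditional). -/
theorem stmt_ev.{u, v} : Stmt_Ev.{u, v} := by
  intro K F _ _ _ _ _ x _ _ P
  have hP : HasValues P := hasValues_of_finite x P
  refine ⟨fun c => ev_algebraMap P c, fun f g hf hg => ⟨ev_add hP hf hg, ev_mul hP hf hg⟩,
    fun f hf => ev_eq_zero_iff hP hf, fun f c h => ev_eq_of_ord_pos h⟩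

end Fermat.Agent.S27.helper4586
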