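import Fermat.Agent.S27.helper6247_Spec
import Fermat.Agent.S24.helper204_Places

/-!
# S27, Spec leaves M2b / M2c / M2d (helper1423)

Pure algebra on top of Riemann's theorem (`Stmt_Riemann` of `helper6247_Spec`):

* `nonspecialBasis`      : `Stmt_NonspecialBasis` (no hypothesis needed);
* `goodTuple_of`         : `Stmt_Riemann → Stmt_GenericUnram → Stmt_GoodTuple`;
* `extendTuple_of`       : `Stmt_Riemann → Stmt_ExtendTuple`.

The core is char-free and hypothesis-passing (section `Core`): for a divisor `D` with
`h¹(D) > 0`, all but finitely many places `P` satisfy `h¹(D + P) = h¹(D) - 1`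
(`finite_bad`, `h1_add_pt_of_not_bad`).
-/

set_option autoImplicit false

open AlgebraicCurve IntermediateField

namespace Fermat.Agent.S27.helper1423

open Fermat.Agent.S27.helper6247

noncomputable section

/-! ## Generic lemmas on `pt`, `sumDiv`, `rsingle`, `L(D)` and `H¹(D)` -/

section Generic

variable {K : Type*} {F : Type*} [Field K] [Field F] [Algebra K F]

theorem pt_apply_self (P : Place K F) : (pt P : Divisor K F) P = 1 := by
  unfold pt
  exact Finsupp.single_eq_same

theorem pt_apply_of_ne {P Q : Place K F} (h : Q ≠ P) : (pt P : Divisor K F) Q = 0 := by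
  unfold pt
  exact Finsupp.single_eq_of_ne h

theorem pt_nonneg (P : Place K F) : (0 : Divisor K F) ≤ pt P := by
  classical
  intro Q
  by_cases h : Q = P
  · subst h
    rw [pt_apply_self]
    exact zero_le_one
  · rw [pt_apply_of_ne h]
    exact le_refl _

theorem le_add_pt (D : Divisor K F) (P : Place K F) : D ≤ D + pt P :=
  le_add_of_nonneg_right (pt_nonneg P)

theorem degree_pt (P : Place K F) (hP : P.deg = 1) :
    Divisor.degree (pt P : Divisor K F) = 1 := by
  unfold pt
  rw [Divisor.degree_single, hP]
  norm_num

theorem sumDiv_apply_of_forall_ne {ι : Type*} [Fintype ι] (A : ι → Place K F) (v : Place K F)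
    (h : ∀ i, v ≠ A i) : (sumDiv A : Divisor K F) v = 0 := by
  unfold sumDiv
  rw [Finsupp.finsetSum_apply]
  exact Finset.sum_eq_zero fun i _ => pt_apply_of_ne (h i)

theorem sumDiv_apply_of_injective {ι : Type*} [Fintype ι] (A : ι → Place K F)
    (hA : Function.Injective A) (j : ι) : (sumDiv A : Divisor K F) (A j) = 1 := by
  classical
  unfold sumDiv
  rw [Finsupp.finsetSum_apply, Finset.sum_eq_single j]
  · exact pt_apply_self _
  · intro i _ hij
    exact pt_apply_of_ne fun h => hij (hA h).symm
  · intro h
    exact absurd (Finset.mem_univ j) h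

theorem sumDiv_cons {n : ℕ} (P : Place K F) (A : Fin n → Place K F) :
    (sumDiv (Fin.cons P A : Fin (n + 1) → Place K F) : Divisor K F) = sumDiv A + pt P := by
  unfold sumDiv
  rw [Fin.sum_univ_succ]
  simp only [Fin.cons_zero, Fin.cons_succ]
  exact add_comm _ _

theorem sumDiv_comp_equiv {ι κ : Type*} [Fintype ι] [Fintype κ] (e : ι ≃ κ)
    (A : κ → Place K F) : (sumDiv (A ∘ e) : Divisor K F) = sumDiv A := by
  unfold sumDiv
  exact Equiv.sum_comp e fun k => pt (A k)

theorem sumDiv_empty (A : Fin 0 → Place K F) : (sumDiv A : Divisor K F) = 0 := by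
  unfold sumDiv
  simp

theorem rsingle_apply_self (P : Place K F) (f : F) :
    ((rsingle P f : ↥(repartitions K F)) : Place K F → F) P = f := by
  simp [rsingle]

theorem rsingle_apply_of_ne {P Q : Place K F} (h : Q ≠ P) (f : F) :
    ((rsingle P f : ↥(repartitions K F)) : Place K F → F) Q = 0 := by
  simp [rsingle, h]

theorem riemannRochSpace_mono {D D' : Divisor K F} (h : D ≤ D') :
    riemannRochSpace D ≤ riemannRochSpace D' := by
  intro f hf
  rw [mem_riemannRochSpace_iff] at hf ⊢
  intro v
  rcases hf v with h0 | h1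
  · exact Or.inl h0
  · right
    have := Finsupp.le_def.mp h v
    omega

/-- The canonical surjection `H¹(D) → H¹(D')` for `D ≤ D'`. -/
def h1Map {D D' : Divisor K F} (h : D ≤ D') : H1 D →ₗ[K] H1 D' :=
  Submodule.mapQ _ _ LinearMap.id
    (by
      rw [Submodule.comap_id]
      exact sup_le_sup_right (repartitionsOf_mono h) _)

theorem h1Map_surjective {D D' : Divisor K F} (h : D ≤ D') :
    Function.Surjective (h1Map h) := by
  intro y
  induction y using Submodule.Quotient.induction_on with
  | _ α => exact ⟨Submodule.Quotient.mk α, rfl⟩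

theorem finrank_h1_mono {D D' : Divisor K F} (h : D ≤ D') [Module.Finite K (H1 D)] :
    Module.finrank K (H1 D') ≤ Module.finrank K (H1 D) :=
  LinearMap.finrank_le_finrank_of_surjective (h1Map_surjective h)

theorem isNonspecial_iff_finrank {D : Divisor K F} [Module.Finite K (H1 D)] :
    IsNonspecial D ↔ Module.finrank K (H1 D) = 0 := by
  unfold IsNonspecial
  rw [Module.finrank_zero_iff, Submodule.Quotient.subsingleton_iff]

theorem finrank_rr_mono {D D' : Divisor K F} (h : D ≤ D')
    [Module.Finite K (riemannRochSpace D')] :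
    Module.finrank K (riemannRochSpace D) ≤ Module.finrank K (riemannRochSpace D') :=
  LinearMap.finrank_le_finrank_of_injective
    (f := Submodule.inclusion (riemannRochSpace_mono h)) (Submodule.inclusion_injective _)

end Generic

/-! ## The core: generic points lower `h¹` -/

section Core

variable {K : Type*} {F : Type*} [Field K] [Field F] [Algebra K F]

/-- Riemann's theorem for a fixed function field, in the shape delivered by `Stmt_Riemann`,
together with "all places have degree one".  Char-free. -/
structure RiemannPkg (K : Type*) (F : Type*) [Field K] [Field F] [Algebra K F] : Prop where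
  finH : ∀ D : Divisor K F, Module.Finite K (H1 D)
  finL : ∀ D : Divisor K F, Module.Finite K (riemannRochSpace D)
  rr : ∀ D : Divisor K F,
    (Module.finrank K (riemannRochSpace D) : ℤ) - (Module.finrank K (H1 D) : ℤ)
      = Divisor.degree D + 1 - (genusFF K F : ℤ)
  van : ∃ c : ℤ, ∀ D : Divisor K F, c ≤ Divisor.degree D → IsNonspecial D
  deg : ∀ v : Place K F, v.deg = 1

/-- The places `P` at which `L(D + P)` is strictly bigger than `L(D)`. -/
def Bad (D : Divisor K F) : Set (Place K F) :=
  {P | ¬ riemannRochSpace (D + pt P) ≤ riemannRochSpace D}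

theorem rr_add_pt (hp : RiemannPkg K F) (D : Divisor K F) (P : Place K F) :
    (Module.finrank K (riemannRochSpace (D + pt P)) : ℤ)
        - (Module.finrank K (H1 (D + pt P)) : ℤ)
      = (Module.finrank K (riemannRochSpace D) : ℤ) - (Module.finrank K (H1 D) : ℤ) + 1 := by
  have h1 := hp.rr D
  have h2 := hp.rr (D + pt P)
  rw [map_add, degree_pt P (hp.deg P)] at h2
  omega

/-- At a point outside `Bad D` the dimension of `H¹` drops by one. -/
theorem h1_add_pt_of_not_bad (hp : RiemannPkg K F) {D : Divisor K F} {P : Place K F}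
    (hP : P ∉ Bad D) :
    Module.finrank K (H1 (D + pt P)) + 1 = Module.finrank K (H1 D) := by
  have hle : riemannRochSpace (D + pt P) ≤ riemannRochSpace D := not_not.mp hP
  have heq : riemannRochSpace (D + pt P) = riemannRochSpace D :=
    le_antisymm hle (riemannRochSpace_mono (le_add_pt D P))
  have h := rr_add_pt hp D P
  rw [heq] at h
  omega

/-- At a point of `Bad D` the dimension of `H¹` does not change. -/
theorem h1_add_pt_of_bad (hp : RiemannPkg K F) {D : Divisor K F} {P : Place K F}
    (hP : P ∈ Bad D) :
    Module.finrank K (H1 (D + pt P)) = Module.finrank K (H1 D) := by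
  have hlt : riemannRochSpace D < riemannRochSpace (D + pt P) :=
    lt_of_le_not_ge (riemannRochSpace_mono (le_add_pt D P)) hP
  have := hp.finL (D + pt P)
  have := hp.finH D
  have h1 := Submodule.finrank_lt_finrank_of_lt hlt
  have h2 := finrank_h1_mono (le_add_pt D P)
  have h := rr_add_pt hp D P
  omega

/-- `Bad D` only grows (away from `Q`) when a point `Q` is added to `D`. -/
theorem bad_add_pt {D : Divisor K F} {P Q : Place K F} (hP : P ∈ Bad D) (hne : Q ≠ P) :
    P ∈ Bad (D + pt Q) := by
  intro hle
  apply hP
  intro f hf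
  have hf2 : f ∈ riemannRochSpace (D + pt Q) := by
    apply hle
    have hmono : D + pt P ≤ D + pt Q + pt P := by
      rw [add_right_comm]
      exact le_add_pt _ _
    exact riemannRochSpace_mono hmono hf
  rw [mem_riemannRochSpace_iff] at hf hf2 ⊢
  intro v
  by_cases hv : v = P
  · subst hv
    rcases hf2 v with h0 | h1
    · exact Or.inl h0
    · right
      rw [Finsupp.add_apply, pt_apply_of_ne hne.symm] at h1
      omega
  · rcases hf v with h0 | h1
    · exact Or.inl h0
    · right
      rw [Finsupp.add_apply, pt_apply_of_ne hv] at h1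
      omega

/-- **Generic point lemma.** If `h¹(D) > 0`, all but finitely many places `P` satisfy
`L(D + P) = L(D)`, i.e. `h¹(D + P) = h¹(D) - 1`. -/
theorem finite_bad (hp : RiemannPkg K F) {D : Divisor K F}
    (h : 0 < Module.finrank K (H1 D)) : (Bad D).Finite := by
  by_contra hinf
  have hinf : (Bad D).Infinite := hinf
  have key : ∀ N : ℕ, ∃ D' : Divisor K F, Divisor.degree D' = Divisor.degree D + N ∧
      Module.finrank K (H1 D') = Module.finrank K (H1 D) ∧ (Bad D').Infinite := by
    intro N
    induction N with
    | zero => exact ⟨D, by simp, rfl, hinf⟩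
    | succ N ih =>
      obtain ⟨D', hd, hh, hi⟩ := ih
      obtain ⟨Q, hQ⟩ := hi.nonempty
      refine ⟨D' + pt Q, ?_, ?_, ?_⟩
      · rw [map_add, degree_pt Q (hp.deg Q), hd]
        push_cast
        ring
      · rw [h1_add_pt_of_bad hp hQ, hh]
      · refine (hi.sdiff (Set.finite_singleton Q)).mono ?_
        intro P hP
        exact bad_add_pt hP.1 (fun hQP => hP.2 (by rw [Set.mem_singleton_iff]; exact hQP.symm))
  obtain ⟨c, hc⟩ := hp.van
  obtain ⟨D', hd, hh, -⟩ := key (c - Divisor.degree D).toNat
  have hns : IsNonspecial D' := by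
    apply hc
    rw [hd]
    have := Int.self_le_toNat (c - Divisor.degree D)
    omega
  have := hp.finH D'
  rw [isNonspecial_iff_finrank] at hns
  omega

/-- A place which is not in `Bad 0`: there is no function with a single simple pole
(when the genus is positive). -/
theorem not_bad_zero (hp : RiemannPkg K F) (hg : 0 < genusFF K F) (R : Place K F) :
    R ∉ Bad (0 : Divisor K F) := by
  intro hbad
  obtain ⟨f, hf1, hf0⟩ := SetLike.not_le_iff_exists.mp hbad
  rw [mem_riemannRochSpace_iff] at hf1 hf0
  push Not at hf0
  obtain ⟨w, hfne, hw⟩ := hf0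
  -- the pole is at `R`, of order exactly one
  have hwR : w = R := by
    by_contra hne
    rcases hf1 w with h0 | h1
    · exact hfne h0
    · rw [Finsupp.add_apply, pt_apply_of_ne hne] at h1
      simp only [Finsupp.coe_zero, Pi.zero_apply, add_zero, neg_zero] at h1 hw
      omega
  subst hwR
  have hordR : w.ord f = -1 := by
    rcases hf1 w with h0 | h1
    · exact absurd h0 hfne
    · rw [Finsupp.add_apply, pt_apply_self] at h1
      simp only [Finsupp.coe_zero, Pi.zero_apply, zero_add, neg_zero] at h1 hw
      omega
  have hord : ∀ v : Place K F, v ≠ w → 0 ≤ v.ord f := by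
    intro v hv
    rcases hf1 v with h0 | h1
    · exact absurd h0 hfne
    · rw [Finsupp.add_apply, pt_apply_of_ne hv] at h1
      simp only [Finsupp.coe_zero, Pi.zero_apply, add_zero, neg_zero] at h1
      exact h1
  have hpow : ∀ (v : Place K F) (k : ℕ), v.ord (f ^ k) = (k : ℤ) * v.ord f := by
    intro v k
    rw [← zpow_natCast, v.ord_zpow]
  -- `w` is a bad point of `k • w` for every `k`
  have hbadk : ∀ k : ℕ, w ∈ Bad (Finsupp.single w (k : ℤ) : Divisor K F) := by
    intro k hle
    have hmem : f ^ (k + 1) ∈ riemannRochSpace ((Finsupp.single w (k : ℤ) : Divisor K F) + pt w) := by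
      rw [mem_riemannRochSpace_iff]
      intro v
      right
      by_cases hv : v = w
      · subst hv
        rw [Finsupp.add_apply, pt_apply_self, Finsupp.single_eq_same, hpow, hordR]
        push_cast
        omega
      · rw [Finsupp.add_apply, pt_apply_of_ne hv, Finsupp.single_eq_of_ne hv, hpow]
        have := mul_nonneg (Int.natCast_nonneg (k + 1)) (hord v hv)
        omega
    have hmem' := hle hmem
    rw [mem_riemannRochSpace_iff] at hmem'
    rcases hmem' w with h0 | h1
    · exact pow_ne_zero _ hfne h0
    · rw [Finsupp.single_eq_same, hpow, hordR] at h1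
      push_cast at h1
      omega
  have hall : ∀ k : ℕ, Module.finrank K (H1 (Finsupp.single w (k : ℤ) : Divisor K F))
      = genusFF K F := by
    intro k
    induction k with
    | zero =>
      rw [Nat.cast_zero, Finsupp.single_zero]
      rfl
    | succ k ih =>
      have h := h1_add_pt_of_bad hp (hbadk k)
      have hs : (Finsupp.single w (k : ℤ) : Divisor K F) + pt w
          = Finsupp.single w ((k + 1 : ℕ) : ℤ) := by
        unfold pt
        rw [← Finsupp.single_add]
        push_cast
        rfl
      rw [hs] at h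
      rw [h, ih]
  obtain ⟨c, hc⟩ := hp.van
  have hns : IsNonspecial (Finsupp.single w ((c.toNat : ℕ) : ℤ) : Divisor K F) := by
    apply hc
    rw [Divisor.degree_single, hp.deg w]
    have := Int.self_le_toNat c
    simp only [Nat.cast_one, mul_one]
    exact this
  have := hp.finH (Finsupp.single w ((c.toNat : ℕ) : ℤ) : Divisor K F)
  rw [isNonspecial_iff_finrank, hall] at hns
  omega

end Core

/-! ## Tuples of generic points -/

section Tuples

variable {K : Type*} {F : Type*} [Field K] [Field F] [Algebra K F]

/-- Avoiding finitely many places by the choice of an `x`-value. -/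
theorem exists_fibre_avoiding [Infinite K] (x : F)
    (huniq : ∀ (P : Place K F) (c c' : K), 0 < P.ord (x - algebraMap K F c) →
      0 < P.ord (x - algebraMap K F c') → c = c')
    (T : Set (Place K F)) (hT : T.Finite) (V0 : Set K) (hV0 : V0.Finite) :
    ∃ c : K, c ∉ V0 ∧ ∀ P : Place K F, 0 < P.ord (x - algebraMap K F c) → P ∉ T := by
  have hV : (⋃ P ∈ T, {c : K | 0 < P.ord (x - algebraMap K F c)}).Finite :=
    hT.biUnion fun P _ => Set.Subsingleton.finite fun c hc c' hc' => huniq P c c' hc hc'
  obtain ⟨c, hc⟩ := (hV.union hV0).exists_notMem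
  refine ⟨c, fun h => hc (Or.inr h), fun P hP hPT => hc (Or.inl ?_)⟩
  exact Set.mem_biUnion hPT hP

/-- Inductive construction behind `Stmt_GoodTuple`. -/
theorem exists_goodTuple_aux [Infinite K] (hp : RiemannPkg K F) (x : F)
    (hzero : ∀ c : K, ∃ P : Place K F, 0 < P.ord (x - algebraMap K F c))
    (huniq : ∀ (P : Place K F) (c c' : K), 0 < P.ord (x - algebraMap K F c) →
      0 < P.ord (x - algebraMap K F c') → c = c')
    (hunr : {P : Place K F | ¬ ∃ c : K, P.ord (x - algebraMap K F c) = 1}.Finite)
    (S : Set (Place K F)) (hS : S.Finite) :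
    ∀ k : ℕ, k ≤ genusFF K F →
      ∃ (A : Fin k → Place K F) (c : Fin k → K), Function.Injective c ∧ (∀ i, A i ∉ S) ∧
        (∀ i, (A i).ord (x - algebraMap K F (c i)) = 1) ∧
        (∀ i (P : Place K F), 0 < P.ord (x - algebraMap K F (c i)) →
          P.ord (x - algebraMap K F (c i)) = 1) ∧
        Module.finrank K (H1 (sumDiv A)) + k = genusFF K F := by
  intro k
  induction k with
  | zero =>
    intro _
    refine ⟨fun i => i.elim0, fun i => i.elim0, fun i => i.elim0, fun i => i.elim0,
      fun i => i.elim0, fun i => i.elim0, ?_⟩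
    rw [sumDiv_empty]
    rfl
  | succ k ih =>
    intro hk
    obtain ⟨A, c, hc, hAS, hA1, hfib, hh⟩ := ih (by omega)
    have hpos : 0 < Module.finrank K (H1 (sumDiv A : Divisor K F)) := by omega
    have hbad := finite_bad hp hpos
    obtain ⟨c', hc'V, hc'T⟩ := exists_fibre_avoiding x huniq
      (S ∪ Bad (sumDiv A : Divisor K F) ∪ {P : Place K F | ¬ ∃ c : K, P.ord (x - algebraMap K F c) = 1})
      ((hS.union hbad).union hunr) (Set.range c) (Set.finite_range c)
    -- every place over `c'` is unramified
    have hone : ∀ P : Place K F, 0 < P.ord (x - algebraMap K F c') →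
        P.ord (x - algebraMap K F c') = 1 := by
      intro P hP
      have hPT := hc'T P hP
      have hE : ∃ c : K, P.ord (x - algebraMap K F c) = 1 := by
        by_contra hno
        exact hPT (Or.inr hno)
      obtain ⟨c'', hc''⟩ := hE
      have : c'' = c' := huniq P c'' c' (by omega) hP
      rw [← this]
      exact hc''
    obtain ⟨P, hP⟩ := hzero c'
    have hPT := hc'T P hP
    have hPS : P ∉ S := fun h => hPT (Or.inl (Or.inl h))
    have hPB : P ∉ Bad (sumDiv A : Divisor K F) := fun h => hPT (Or.inl (Or.inr h))
    refine ⟨Fin.cons P A, Fin.cons c' c, ?_, ?_, ?_, ?_, ?_⟩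
    · rw [Fin.cons_injective_iff]
      exact ⟨hc'V, hc⟩
    · intro i
      refine Fin.cases ?_ (fun j => ?_) i
      · rw [Fin.cons_zero]
        exact hPS
      · rw [Fin.cons_succ]
        exact hAS j
    · intro i
      refine Fin.cases ?_ (fun j => ?_) i
      · rw [Fin.cons_zero, Fin.cons_zero]
        exact hone P hP
      · rw [Fin.cons_succ, Fin.cons_succ]
        exact hA1 j
    · intro i
      refine Fin.cases ?_ (fun j => ?_) i
      · rw [Fin.cons_zero]
        exact hone
      · rw [Fin.cons_succ]
        exact hfib j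
    · rw [sumDiv_cons]
      have := h1_add_pt_of_not_bad hp hPB
      omega

/-- Inductive construction behind `Stmt_ExtendTuple`. -/
theorem exists_extend_aux (hp : RiemannPkg K F)
    (hinf : ∀ T : Set (Place K F), T.Finite → ∃ P : Place K F, P ∉ T)
    (S : Set (Place K F)) (hS : S.Finite) (R : Place K F)
    (hR : R ∉ Bad (0 : Divisor K F)) :
    ∀ k : ℕ, k + 1 ≤ genusFF K F →
      ∃ B : Fin k → Place K F, Function.Injective B ∧ (∀ j, B j ∉ S) ∧ (∀ j, B j ≠ R) ∧
        Module.finrank K (H1 (pt R + sumDiv B)) + (k + 1) = genusFF K F := by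
  intro k
  induction k with
  | zero =>
    intro _
    refine ⟨fun i => i.elim0, fun i => i.elim0, fun i => i.elim0, fun i => i.elim0, ?_⟩
    rw [sumDiv_empty, add_zero]
    have h := h1_add_pt_of_not_bad hp hR
    rw [zero_add] at h
    rw [h]
    rfl
  | succ k ih =>
    intro hk
    obtain ⟨B, hB, hBS, hBR, hh⟩ := ih (by omega)
    have hpos : 0 < Module.finrank K (H1 (pt R + sumDiv B : Divisor K F)) := by omega
    have hbad := finite_bad hp hpos
    obtain ⟨P, hP⟩ := hinf (S ∪ {R} ∪ Set.range B ∪ Bad (pt R + sumDiv B : Divisor K F))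
      (((hS.union (Set.finite_singleton R)).union (Set.finite_range B)).union hbad)
    have hPS : P ∉ S := fun h => hP (Or.inl (Or.inl (Or.inl h)))
    have hPR : P ≠ R := fun h => hP (Or.inl (Or.inl (Or.inr h)))
    have hPB : P ∉ Set.range B := fun h => hP (Or.inl (Or.inr h))
    have hPbad : P ∉ Bad (pt R + sumDiv B : Divisor K F) := fun h => hP (Or.inr h)
    refine ⟨Fin.cons P B, ?_, ?_, ?_, ?_⟩
    · rw [Fin.cons_injective_iff]
      exact ⟨hPB, hB⟩
    · intro i
      refine Fin.cases ?_ (fun j => ?_) i
      · rw [Fin.cons_zero]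
        exact hPS
      · rw [Fin.cons_succ]
        exact hBS j
    · intro i
      refine Fin.cases ?_ (fun j => ?_) i
      · rw [Fin.cons_zero]
        exact hPR
      · rw [Fin.cons_succ]
        exact hBR j
    · have hs : (pt R + sumDiv (Fin.cons P B : Fin (k + 1) → Place K F) : Divisor K F)
          = (pt R + sumDiv B) + pt P := by
        rw [sumDiv_cons, add_assoc]
      rw [hs]
      have := h1_add_pt_of_not_bad hp hPbad
      omega

end Tuples

/-! ## The Spec leaves -/

section Spec

open Fermat.Agent.S24

/-- The Riemann package from `Stmt_Riemann` and the landed S24 place library. -/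
theorem riemannPkg_of.{u, v} (hR : Stmt_Riemann.{u, v}) (K : Type u) (F : Type v) [Field K]
    [Field F] [Algebra K F] [IsAlgClosed K] [CharZero K] (x : F) (hx : Transcendental K x)
    [FiniteDimensional K⟮x⟯ F] : RiemannPkg K F := by
  obtain ⟨hfin, hrr, hvan⟩ := hR K F x hx
  exact ⟨fun D => (hfin D).1, fun D => (hfin D).2, hrr, hvan,
    fun v => helper204.place_deg_eq_one x hx v⟩

theorem center_unique {K : Type*} {F : Type*} [Field K] [Field F] [Algebra K F] (x : F)
    (P : Place K F) (c c' : K) (hc : 0 < P.ord (x - algebraMap K F c))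
    (hc' : 0 < P.ord (x - algebraMap K F c')) : c = c' := by
  by_contra hne
  have hsub : (x - algebraMap K F c) - (x - algebraMap K F c') = algebraMap K F (c' - c) := by
    rw [map_sub]
    ring
  have hne' : (x - algebraMap K F c) - (x - algebraMap K F c') ≠ 0 := by
    rw [hsub, Ne, map_eq_zero, sub_eq_zero]
    exact fun h => hne h.symm
  have := helper204.ord_sub_pos P hc hc' hne'
  rw [hsub, helper204.ord_algebraMap_eq_zero] at this
  exact lt_irrefl _ this

theorem exists_zero {K : Type*} {F : Type*} [Field K] [Field F] [Algebra K F] [IsAlgClosed K]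
    [CharZero K] (x : F) (hx : Transcendental K x) [FiniteDimensional K⟮x⟯ F] (c : K) :
    ∃ P : Place K F, 0 < P.ord (x - algebraMap K F c) := by
  obtain ⟨s, hs1, hs2⟩ := helper204.exists_finset_zeros (x := x) hx c
  have hpos : 0 < Module.finrank K⟮x⟯ F := Module.finrank_pos
  have hne : s.Nonempty := by
    by_contra hemp
    rw [Finset.not_nonempty_iff_eq_empty] at hemp
    rw [hemp, Finset.sum_empty] at hs2
    omega
  obtain ⟨P, hP⟩ := hne
  exact ⟨P, (hs1 P).mp hP⟩

/-- **M2c.** `Stmt_GoodTuple` from Riemann's theorem and generic unramifiedness. -/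
theorem goodTuple_of.{u, v} (hR : Stmt_Riemann.{u, v}) (hU : Stmt_GenericUnram.{u, v}) :
    Stmt_GoodTuple.{u, v} := by
  intro K F _ _ _ _ _ x hx _ S hS
  have hp := riemannPkg_of hR K F x hx
  obtain ⟨A, c, hc, hAS, hA1, hfib, hh⟩ := exists_goodTuple_aux hp x (exists_zero x hx)
    (center_unique x) (hU K F x hx x hx) S hS (genusFF K F) le_rfl
  refine ⟨A, c, hc, hAS, ?_, hA1, hfib⟩
  have := hp.finH (sumDiv A)
  rw [isNonspecial_iff_finrank]
  omega

/-- **M2d.** `Stmt_ExtendTuple` from Riemann's theorem. -/
theorem extendTuple_of.{u, v} (hR : Stmt_Riemann.{u, v}) : Stmt_ExtendTuple.{u, v} := by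
  intro K F _ _ _ _ _ x hx _ S hS R i₀
  have hp := riemannPkg_of hR K F x hx
  have hg : 0 < genusFF K F := i₀.pos
  have hinf : ∀ T : Set (Place K F), T.Finite → ∃ P : Place K F, P ∉ T := by
    intro T hT
    obtain ⟨c, -, hc⟩ := exists_fibre_avoiding x (center_unique x) T hT ∅ Set.finite_empty
    obtain ⟨P, hP⟩ := exists_zero x hx c
    exact ⟨P, hc P hP⟩
  obtain ⟨k, hk⟩ : ∃ k : ℕ, genusFF K F = k + 1 := ⟨genusFF K F - 1, by omega⟩
  obtain ⟨B, hB, hBS, hBR, hh⟩ := exists_extend_aux hp hinf S hS R (not_bad_zero hp hg R) k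
    (by omega)
  -- reindex so that `R` sits at `i₀`
  let e : Fin (genusFF K F) ≃ Fin (k + 1) :=
    (finCongr hk).trans (Equiv.swap (finCongr hk i₀) 0)
  have he0 : e i₀ = 0 := by
    show Equiv.swap (finCongr hk i₀) 0 (finCongr hk i₀) = 0
    exact Equiv.swap_apply_left _ _
  have hinj : Function.Injective (Fin.cons R B : Fin (k + 1) → Place K F) := by
    rw [Fin.cons_injective_iff]
    exact ⟨fun ⟨j, hj⟩ => hBR j hj, hB⟩
  refine ⟨(Fin.cons R B : Fin (k + 1) → Place K F) ∘ e, hinj.comp e.injective, ?_, ?_, ?_⟩
  · show (Fin.cons R B : Fin (k + 1) → Place K F) (e i₀) = R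
    rw [he0, Fin.cons_zero]
  · intro j hj
    have hej : e j ≠ 0 := fun h => hj (e.injective (h.trans he0.symm))
    obtain ⟨m, hm⟩ := Fin.exists_succ_eq_of_ne_zero hej
    show (Fin.cons R B : Fin (k + 1) → Place K F) (e j) ∉ S
    rw [← hm, Fin.cons_succ]
    exact hBS m
  · rw [sumDiv_comp_equiv, sumDiv_cons, add_comm]
    have := hp.finH (pt R + sumDiv B)
    rw [isNonspecial_iff_finrank]
    omega

/-- Residue field `= K` in elementary form, from `deg = 1`. -/
theorem exists_const_sub {K : Type*} {F : Type*} [Field K] [Field F] [Algebra K F]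
    (v : Place K F) (hdeg : v.deg = 1) {b : F} (hb : 0 ≤ v.ord b) :
    ∃ c : K, b - algebraMap K F c = 0 ∨ 0 < v.ord (b - algebraMap K F c) := by
  have hbm : b ∈ v.toValuationSubring := helper204.mem_of_ord_nonneg v hb
  have h1 : Module.finrank K v.ResidueField = 1 := hdeg
  have htop : (⊥ : Subalgebra K v.ResidueField) = ⊤ :=
    Subalgebra.bot_eq_top_of_finrank_eq_one h1
  have hr : IsLocalRing.residue v.toValuationSubring ⟨b, hbm⟩
      ∈ (⊥ : Subalgebra K v.ResidueField) := htop ▸ Algebra.mem_top
  obtain ⟨c, hc⟩ := Algebra.mem_bot.mp hr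
  refine ⟨c, ?_⟩
  by_cases h0 : b - algebraMap K F c = 0
  · exact Or.inl h0
  right
  rw [helper204.ord_pos_iff]
  refine ⟨h0, sub_mem hbm (v.algebraMap_mem' c), ?_⟩
  have hmem : (⟨b, hbm⟩ : v.toValuationSubring) - algebraMap K v.toValuationSubring c
      ∈ IsLocalRing.maximalIdeal v.toValuationSubring := by
    rw [← IsLocalRing.residue_eq_zero_iff, map_sub, sub_eq_zero, ← hc]
    rfl
  exact hmem

/-- Core of `Stmt_NonspecialBasis`: the principal parts `1/t_i` at the points of a nonspecial
reduced divisor of degree `g` span `H¹(0)` (hence form a basis). -/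
theorem linearIndependent_pp {K : Type*} {F : Type*} [Field K] [Field F] [Algebra K F]
    (hdeg : ∀ v : Place K F, v.deg = 1)
    (A : Fin (genusFF K F) → Place K F) (t : Fin (genusFF K F) → F)
    (hA : Function.Injective A) (ht : ∀ i, (A i).ord (t i) = 1)
    (hns : IsNonspecial (sumDiv A)) :
    LinearIndependent K (fun i => pp (A i) (t i)⁻¹) := by
  classical
  apply linearIndependent_of_top_le_span_of_card_eq_finrank
  · intro y _
    induction y using Submodule.Quotient.induction_on with
    | _ α =>
    have hα : α ∈ repartitionsOf (sumDiv A) ⊔ principalRepartitions K F := by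
      unfold IsNonspecial at hns
      rw [hns]
      exact Submodule.mem_top
    obtain ⟨β, hβ, φ, hφ, rfl⟩ := Submodule.mem_sup.mp hα
    rw [mem_repartitionsOf_iff] at hβ
    have ht0 : ∀ i, t i ≠ 0 := by
      intro i h0
      have := ht i
      rw [h0, Place.ord_zero] at this
      omega
    -- the residues of `β` at the `A i`
    have hreg : ∀ i, 0 ≤ (A i).ord ((β : Place K F → F) (A i) * t i) := by
      intro i
      rcases hβ (A i) with h0 | h1
      · rw [h0, zero_mul, Place.ord_zero]
      · by_cases hb0 : (β : Place K F → F) (A i) = 0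
        · rw [hb0, zero_mul, Place.ord_zero]
        · rw [(A i).ord_mul hb0 (ht0 i), ht i]
          rw [sumDiv_apply_of_injective A hA i] at h1
          omega
    choose c hc using fun i => exists_const_sub (A i) (hdeg (A i)) (hreg i)
    -- the corrected repartition is integral everywhere
    have hγ : β - ∑ i, c i • rsingle (A i) (t i)⁻¹ ∈ repartitionsOf (0 : Divisor K F) := by
      rw [mem_repartitionsOf_iff]
      intro v
      have hval : ((β - ∑ i, c i • rsingle (A i) (t i)⁻¹ : ↥(repartitions K F)) :
          Place K F → F) v = (β : Place K F → F) v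
            - ∑ i, c i • ((rsingle (A i) (t i)⁻¹ : ↥(repartitions K F)) : Place K F → F) v := by
        simp
      rw [hval]
      by_cases hv : ∃ j, v = A j
      · obtain ⟨j, rfl⟩ := hv
        rw [Finset.sum_eq_single j]
        · rw [rsingle_apply_self]
          have hrew : (β : Place K F → F) (A j) - c j • (t j)⁻¹
              = ((β : Place K F → F) (A j) * t j - algebraMap K F (c j)) * (t j)⁻¹ := by
            rw [Algebra.smul_def]
            field_simp [ht0 j]
          rw [hrew]
          rcases hc j with h0 | h1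
          · left
            rw [h0, zero_mul]
          · right
            have hne : (β : Place K F → F) (A j) * t j - algebraMap K F (c j) ≠ 0 := by
              intro h0
              rw [h0, Place.ord_zero] at h1
              exact lt_irrefl _ h1
            rw [(A j).ord_mul hne (inv_ne_zero (ht0 j)), Place.ord_inv, ht j]
            simp only [Finsupp.coe_zero, Pi.zero_apply, neg_zero]
            omega
        · intro i _ hij
          rw [rsingle_apply_of_ne (fun h => hij (hA h).symm), smul_zero]
        · intro h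
          exact absurd (Finset.mem_univ j) h
      · have hv' : ∀ i, v ≠ A i := fun i h => hv ⟨i, h⟩
        rw [Finset.sum_eq_zero (fun i _ => by rw [rsingle_apply_of_ne (hv' i), smul_zero]),
          sub_zero]
        rcases hβ v with h0 | h1
        · exact Or.inl h0
        · right
          rw [sumDiv_apply_of_forall_ne A v hv'] at h1
          simpa using h1
    have hφ0 : (Submodule.Quotient.mk φ : H1 (0 : Divisor K F)) = 0 := by
      rw [Submodule.Quotient.mk_eq_zero]
      exact Submodule.mem_sup_right hφ
    have hγ0 : (Submodule.Quotient.mk (β - ∑ i, c i • rsingle (A i) (t i)⁻¹) :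
        H1 (0 : Divisor K F)) = 0 := by
      rw [Submodule.Quotient.mk_eq_zero]
      exact Submodule.mem_sup_left hγ
    have hβeq : (Submodule.Quotient.mk β : H1 (0 : Divisor K F))
        = ∑ i, c i • pp (A i) (t i)⁻¹ := by
      rw [Submodule.Quotient.mk_sub, sub_eq_zero] at hγ0
      rw [hγ0]
      exact map_sum (Submodule.mkQ (repartitionsOf (0 : Divisor K F) ⊔ principalRepartitions K F))
        (fun i => c i • rsingle (A i) (t i)⁻¹) Finset.univ
    rw [Submodule.Quotient.mk_add, hφ0, add_zero, hβeq]
    exact Submodule.sum_mem _ fun i _ =>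
      Submodule.smul_mem _ _ (Submodule.subset_span ⟨i, rfl⟩)
  · rw [Fintype.card_fin]
    rfl

/-- **M2b.** `Stmt_NonspecialBasis` (unconditional: only the landed S24 place library). -/
theorem nonspecialBasis.{u, v} : Stmt_NonspecialBasis.{u, v} := by
  intro K F _ _ _ _ _ x hx _ A t hA ht hns
  exact linearIndependent_pp (fun v => helper204.place_deg_eq_one x hx v) A t hA ht hns

/-- `Stmt_NonspecialBasis` in the hypothesis-passing shape of the Spec dependency graph. -/
theorem nonspecialBasis_of.{u, v} (_hR : Stmt_Riemann.{u, v}) (_hEv : Stmt_Ev.{u, v}) :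
    Stmt_NonspecialBasis.{u, v} :=
  nonspecialBasis

end Spec

end

end Fermat.Agent.S27.helper1423
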