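/-
S27 / A2 wrapper: the Spec statement `helper6247.Stmt_Riemann` from the abstract weak
Riemann–Roch core (`helper3372_WeakRRMain`) and the S24 place library.
-/
import Fermat.Agent.S27.helper6247_Spec
import Fermat.Agent.S27.helper3372_WeakRRMain
import Fermat.Agent.S24.helper204_Places
import Fermat.Agent.S24.helper483_PlacesFF

set_option autoImplicit false

namespace Fermat.Agent.S27.helper3372

open AlgebraicCurve IntermediateField

universe u v

/-- The Riemann data for a finite extension of `K(x)` (leaf S27-A2-RD). -/
def Stmt_RiemannData.{w, z} : Prop :=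
  ∀ (K : Type w) (F : Type z) [Field K] [Field F] [Algebra K F] [IsAlgClosed K] [CharZero K]
    (x : F), Transcendental K x → ∀ [FiniteDimensional K⟮x⟯ F], RiemannData K F

section Hyps

variable {K : Type u} {F : Type v} [Field K] [Field F] [Algebra K F] [IsAlgClosed K]

/-- Residue fields of places are `K`. -/
theorem residue_surjective_of_finite (x : F) [FiniteDimensional K⟮x⟯ F] (v : Place K F) :
    Function.Surjective (algebraMap K v.ResidueField) :=
  Fermat.Agent.S24.helper483.algebraMap_residueField_surjective x v

/-- There is at least one place. -/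
theorem nonempty_place_of_finite [CharZero K] (x : F) (hx : Transcendental K x)
    [FiniteDimensional K⟮x⟯ F] : Nonempty (Place K F) := by
  obtain ⟨s, -, hs2⟩ := Fermat.Agent.S24.helper204.exists_finset_poles x hx
  have hpos : 0 < Module.finrank K⟮x⟯ F := Module.finrank_pos
  by_contra hemp
  rw [not_nonempty_iff] at hemp
  have hs : s = ∅ := Finset.eq_empty_of_isEmpty s
  rw [hs, Finset.sum_empty] at hs2
  omega

end Hyps

/-- The Spec statement `Stmt_Riemann` from the Riemann data. -/
theorem stmt_Riemann_of (hRD : Stmt_RiemannData.{u, v}) :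
    Fermat.Agent.S27.helper6247.Stmt_Riemann.{u, v} := by
  intro K F _ _ _ _ _ x hx _
  have hP : HasPrincipalDivisors K F := Fermat.Agent.S24.helper204.hasPrincipalDivisors x hx
  have hdeg : ∀ v : Place K F, v.deg = 1 :=
    fun v => Fermat.Agent.S24.helper204.place_deg_eq_one x hx v
  have hres : ∀ v : Place K F, Function.Surjective (algebraMap K v.ResidueField) :=
    fun v => residue_surjective_of_finite x v
  have hne : Nonempty (Place K F) := nonempty_place_of_finite x hx
  have hR : RiemannData K F := hRD K F x hx
  obtain ⟨c, hc⟩ := exists_NN_eq_top_of_le hP hres hdeg hne hR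
  exact ⟨fun D => ⟨finite_H1 hP hres hdeg hne hR D, finite_riemannRochSpace hP hres hdeg hne D⟩,
    weak_rr hP hres hdeg hne hR, c, hc⟩

end Fermat.Agent.S27.helper3372
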