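import Mathlib
import Fermat.Prelude.Def_AlgebraicCurve_Repartitions
import Fermat.Agent.S24.helper204_Places

/-!
# S27, module A2-RD (backup): Riemann data for the weak Riemann–Roch theorem (helper4996)

`K` a field, `F/K` a field extension, `x : F` transcendental over `K` with `F` finite over `K(x)`,
`n = [F : K(x)]`.  Let `B = (x)_∞` be the pole divisor of `x`.  Then there is an effective
divisor `C` such that `ℓ(l B + C) ≥ n (l + 1)` for all `l`.

The proof uses no integrality: take an arbitrary `K(x)`-basis `u_1, …, u_n` of `F`, let `C` be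
the sum of the pole divisors of the `u_i`; the `n (l + 1)` functions `x^j u_i` (`j ≤ l`) lie in
`L(l B + C)` and are `K`-linearly independent.

* `exists_poleDivisor`: pole divisors exist (from `HasPrincipalDivisors`).
* `exists_indep_family`: the family, characteristic free.
* `le_finrank_riemannRochSpace`: the bound `n (l + 1) ≤ ℓ(l B + C)` given finiteness of `L`.
* `riemannData_of_finite`: `K` algebraically closed of characteristic zero: the full Riemann
  data (with `deg B ≤ n`), from the S24 place library.
-/

set_option autoImplicit false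

namespace Fermat.Agent.S27.helper4996

open AlgebraicCurve IntermediateField Polynomial

universe u v

variable {K : Type u} {F : Type v} [Field K] [Field F] [Algebra K F]

/-- The pole divisor of a function exists. -/
theorem exists_poleDivisor (hP : HasPrincipalDivisors K F) (f : F) :
    ∃ P : Divisor K F, ∀ v : Place K F, P v = max 0 (-(v.ord f)) := by
  rcases eq_or_ne f 0 with rfl | hf
  · exact ⟨0, fun v => by simp⟩
  obtain ⟨D, hD, -⟩ := hP.exists_divisor f hf
  refine ⟨D.mapRange (fun m : ℤ => max 0 (-m)) (by simp), fun v => ?_⟩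
  rw [Finsupp.mapRange_apply, hD v]

/-- The powers of a transcendental element are linearly independent. -/
theorem linearIndependent_pow_of_transcendental {S : Type*} [CommRing S] [Algebra K S] {g : S}
    (hg : Transcendental K g) : LinearIndependent K (fun j : ℕ => g ^ j) := by
  have h1 : LinearIndependent K (fun j : ℕ => (Polynomial.monomial j (1 : K))) := by
    have := (Polynomial.basisMonomials K).linearIndependent
    simpa using this
  have h2 := h1.map' (Polynomial.aeval g).toLinearMap
    (LinearMap.ker_eq_bot.mpr (transcendental_iff_injective.mp hg))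
  have h3 : ((Polynomial.aeval g).toLinearMap ∘ fun j : ℕ => (Polynomial.monomial j (1 : K)))
      = fun j : ℕ => g ^ j := by
    funext j
    simp [Polynomial.aeval_monomial]
  rwa [h3] at h2

theorem ord_pow (v : Place K F) (f : F) (j : ℕ) : v.ord (f ^ j) = j * v.ord f := by
  rw [← zpow_natCast, v.ord_zpow]

/-- **Riemann data, characteristic free.**  With `B` the pole divisor of `x` there is an
effective `C` such that `L(l B + C)` contains `[F : K(x)] * (l + 1)` linearly independent
functions, for every `l`. -/
theorem exists_indep_family (hP : HasPrincipalDivisors K F) (x : F) (hx : Transcendental K x)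
    [FiniteDimensional K⟮x⟯ F] :
    ∃ B C : Divisor K F, 0 ≤ B ∧ 0 ≤ C ∧ (∀ v : Place K F, B v = max 0 (-(v.ord x))) ∧
      ∀ l : ℕ, ∃ s : Fin (l + 1) × Fin (Module.finrank K⟮x⟯ F) → F,
        LinearIndependent K s ∧ ∀ p, s p ∈ riemannRochSpace (l • B + C) := by
  classical
  obtain ⟨B, hB⟩ := exists_poleDivisor hP x
  let ub := Module.finBasis K⟮x⟯ F
  choose P hPd using fun i => exists_poleDivisor hP (ub i)
  have hx0 : x ≠ 0 := fun h => hx (h ▸ isAlgebraic_zero)
  have hPnn : ∀ i (v : Place K F), 0 ≤ P i v := fun i v => by rw [hPd i v]; exact le_max_left _ _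
  have hCv : ∀ v : Place K F, (∑ i, P i) v = ∑ i, P i v := fun v => by
    rw [Finsupp.finsetSum_apply]
  refine ⟨B, ∑ i, P i, ?_, ?_, hB, fun l => ?_⟩
  · rw [Finsupp.le_def]
    intro v
    rw [hB v]
    exact le_max_left _ _
  · rw [Finsupp.le_def]
    intro v
    rw [hCv v]
    exact Finset.sum_nonneg fun i _ => hPnn i v
  · refine ⟨fun p => x ^ (p.1 : ℕ) * ub p.2, ?_, ?_⟩
    · have hg : Transcendental K (AdjoinSimple.gen K x) := by
        rw [← transcendental_algebraMap_iff (FaithfulSMul.algebraMap_injective K⟮x⟯ F)]
        exact hx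
      have hb : LinearIndependent K (fun j : Fin (l + 1) => (AdjoinSimple.gen K x) ^ (j : ℕ)) :=
        (linearIndependent_pow_of_transcendental hg).comp _ Fin.val_injective
      have h := linearIndependent_smul hb ub.linearIndependent
      have heq : (fun p : Fin (l + 1) × Fin (Module.finrank K⟮x⟯ F) =>
          (AdjoinSimple.gen K x) ^ (p.1 : ℕ) • ub p.2)
          = fun p => x ^ (p.1 : ℕ) * ub p.2 := by
        funext p
        rw [Algebra.smul_def, map_pow]
        rfl
      rwa [heq] at h
    · intro p
      rw [mem_riemannRochSpace_iff]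
      intro v
      right
      have hu0 : ub p.2 ≠ 0 := ub.ne_zero p.2
      rw [v.ord_mul (pow_ne_zero _ hx0) hu0, ord_pow, Finsupp.add_apply, Finsupp.smul_apply,
        hCv v, nsmul_eq_mul]
      have h1 : -(B v) ≤ v.ord x := by rw [hB v]; have := le_max_right 0 (-(v.ord x)); omega
      have h2 : 0 ≤ B v := by rw [hB v]; exact le_max_left _ _
      have h3 : -(P p.2 v) ≤ v.ord (ub p.2) := by
        rw [hPd p.2 v]; have := le_max_right 0 (-(v.ord (ub p.2))); omega
      have h4 : P p.2 v ≤ ∑ i, P i v :=
        Finset.single_le_sum (fun i _ => hPnn i v) (Finset.mem_univ p.2)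
      have h5 : ((p.1 : ℕ) : ℤ) ≤ (l : ℤ) := by
        have := p.1.2
        omega
      have h6 : (0 : ℤ) ≤ ((p.1 : ℕ) : ℤ) := Int.natCast_nonneg _
      nlinarith [mul_le_mul_of_nonneg_right h5 h2, mul_le_mul_of_nonneg_left h1 h6]

/-- The bound `n (l + 1) ≤ ℓ(l B + C)` once `L(l B + C)` is known to be finite dimensional. -/
theorem le_finrank_of_indep_family {n m : ℕ} {D : Divisor K F}
    [Module.Finite K (riemannRochSpace D)] (s : Fin m × Fin n → F)
    (hs : LinearIndependent K s) (hmem : ∀ p, s p ∈ riemannRochSpace D) :
    n * m ≤ Module.finrank K (riemannRochSpace D) := by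
  have hli : LinearIndependent K (fun p => (⟨s p, hmem p⟩ : riemannRochSpace D)) := by
    apply LinearIndependent.of_comp (riemannRochSpace D).subtype
    exact hs
  have h := hli.fintype_card_le_finrank
  simpa [Fintype.card_prod, mul_comm] using h

/-- **Riemann data** (the body of `helper3372.RiemannData`), for `K` algebraically closed of
characteristic zero, `x` transcendental and `F` finite over `K(x)`; `hfin` is the finiteness of
the Riemann–Roch spaces. -/
theorem riemannData_of_finite [IsAlgClosed K] [CharZero K] (x : F) (hx : Transcendental K x)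
    [FiniteDimensional K⟮x⟯ F]
    (hfin : ∀ D : Divisor K F, Module.Finite K (riemannRochSpace D)) :
    ∃ (B C : Divisor K F) (n : ℕ), 0 < n ∧ 0 ≤ B ∧ 0 ≤ C ∧ Divisor.degree B ≤ n ∧
      ∀ l : ℕ, n * (l + 1) ≤ Module.finrank K (riemannRochSpace (l • B + C)) := by
  classical
  have hP : HasPrincipalDivisors K F := Fermat.Agent.S24.helper204.hasPrincipalDivisors x hx
  obtain ⟨B, C, hB0, hC0, hB, hfam⟩ := exists_indep_family hP x hx
  refine ⟨B, C, Module.finrank K⟮x⟯ F, Module.finrank_pos, hB0, hC0, ?_, fun l => ?_⟩
  · obtain ⟨s, hs, hsum⟩ := Fermat.Agent.S24.helper204.exists_finset_poles x hx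
    have hdeg : ∀ v : Place K F, v.deg = 1 := Fermat.Agent.S24.helper204.place_deg_eq_one x hx
    have hsupp : B.support = s := by
      ext v
      rw [Finsupp.mem_support_iff, hB v, hs v]
      constructor
      · intro h
        by_contra hcon
        exact h (max_eq_left (by omega))
      · intro h
        have := le_max_right 0 (-(v.ord x))
        omega
    have hdegB : Divisor.degree B = ∑ v ∈ s, -(v.ord x) := by
      rw [Divisor.degree, Finsupp.liftAddHom_apply, Finsupp.sum, hsupp]
      apply Finset.sum_congr rfl
      intro v hv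
      have hv' := (hs v).mp hv
      rw [AddMonoidHom.coe_mulRight, hdeg v, hB v, max_eq_right (by omega)]
      simp
    rw [hdegB, hsum]
  · obtain ⟨s, hs, hmem⟩ := hfam l
    have := hfin (l • B + C)
    exact le_finrank_of_indep_family s hs hmem

end Fermat.Agent.S27.helper4996
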