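import Fermat.Agent.S27.helper3372_Riemann
import Fermat.Agent.S27.helper4996_RiemannData

/-!
# S27, Spec node `Stmt_Riemann` (M2), unconditional (helper4996)

`helper3372.stmt_Riemann_of` (weak Riemann–Roch for the repartition genus, by helper3372)
applied to the Riemann data of `helper4996_RiemannData`.
-/

set_option autoImplicit false

namespace Fermat.Agent.S27.helper4996

open AlgebraicCurve IntermediateField

universe u v

/-- The Riemann data hypothesis of `helper3372.stmt_Riemann_of`. -/
theorem riemannData : Fermat.Agent.S27.helper3372.Stmt_RiemannData.{u, v} := by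
  intro K F _ _ _ _ _ x hx _
  have hP : HasPrincipalDivisors K F := Fermat.Agent.S24.helper204.hasPrincipalDivisors x hx
  have hdeg : ∀ v : Place K F, v.deg = 1 :=
    fun v => Fermat.Agent.S24.helper204.place_deg_eq_one x hx v
  have hres : ∀ v : Place K F, Function.Surjective (algebraMap K v.ResidueField) :=
    fun v => Fermat.Agent.S27.helper3372.residue_surjective_of_finite x v
  have hne : Nonempty (Place K F) := Fermat.Agent.S27.helper3372.nonempty_place_of_finite x hx
  exact riemannData_of_finite x hx
    (fun D => Fermat.Agent.S27.helper3372.finite_riemannRochSpace hP hres hdeg hne D)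

/-- **Spec node M2** `Stmt_Riemann` of `helper6247_Spec`, without hypotheses. -/
theorem stmt_Riemann : Fermat.Agent.S27.helper6247.Stmt_Riemann.{u, v} :=
  Fermat.Agent.S27.helper3372.stmt_Riemann_of riemannData

end Fermat.Agent.S27.helper4996
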