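import Fermat.Agent.S27.helper6247_Spec
import Fermat.Agent.S24.helper483_PlacesFF
import Fermat.Agent.S24.helper1370_PlaceBasics

/-!
# S27-GOODCOORD (helper3093): good coordinates at every place

`K` algebraically closed of characteristic `0`, `F` finite over `K(x)`.

For every place `P`, every place `Pinf ≠ P` and every finite set `T` of places with `P ∉ T`
there is `t : F` with

* `t` transcendental, `ord_P t = 1`;
* ALL zeros of `t` are simple (the fibre `t = 0` is unramified);
* no zero of `t` lies in `T`;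
* the only pole of `t` is `Pinf` (`t ∈ L(N * Pinf)`).

Proof (pencil argument).  `D = N * Pinf`, `N` large.  `t₁ ∈ L(D - P) \ L(D - 2P)`,
`t₂ ∈ L(D - 2P)` outside `L(D - 3P)` and outside `L(D - 2P - Q)` for the other zeros `Q` of `t₁`
(a vector space over an infinite field is not a finite union of proper subspaces).  For
`t = t₁ + c t₂`, `c ≠ 0`: `ord_P t = 1`; a zero `Q ≠ P` of `t` is not a zero of `t₁`, hence
`ord_Q t₂ = ord_Q t₁ ≤ 0` and `Q` is a zero of `f + c`, `f = t₁ / t₂`; off the finite set of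
places where `f` is not a local coordinate (`Stmt_GenericUnram`) this zero is simple, so
`ord_Q t = ord_Q t₂ + 1 ≤ 1`.  Each of the finitely many excluded places is a zero of `t₁ + c t₂`
for at most one `c ≠ 0`.

Main results: `exists_goodCoord_core` (explicit hypotheses), `Stmt_GoodCoord`,
`goodCoord_of : Stmt_Riemann → Stmt_GenericUnram → Stmt_GoodCoord`; family version
`exists_goodCoord_family_core`, `Stmt_GoodCoordFamily`, `goodCoordFamily_of_goodCoord`,
`goodCoordFamily_of`.
-/

set_option autoImplicit false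

open AlgebraicCurve IntermediateField

namespace Fermat.Agent.S27.helper3093

open Fermat.Agent.S24 Fermat.Agent.S27.helper6247

universe u v

/-! ## Linear algebra: avoiding finitely many subspaces inside a subspace -/

/-- Over an infinite field, a subspace `V` contains a vector lying in none of finitely many
subspaces `W`, provided no `W` contains `V`. -/
theorem exists_mem_forall_notMem {k E : Type*} [Field k] [Infinite k] [AddCommGroup E]
    [Module k E] (V : Submodule k E) (s : Finset (Submodule k E)) (hs : ∀ W ∈ s, ¬ V ≤ W) :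
    ∃ w ∈ V, ∀ W ∈ s, w ∉ W := by
  classical
  let s' : Finset (Submodule k V) := s.image (fun W => W.comap V.subtype)
  have hs' : (⊤ : Submodule k V) ∉ s' := by
    intro h
    obtain ⟨W, hW, hWt⟩ := Finset.mem_image.mp h
    apply hs W hW
    intro w hw
    have h1 : (⟨w, hw⟩ : V) ∈ W.comap V.subtype := by
      rw [hWt]
      exact Submodule.mem_top
    exact h1
  have h := Subspace.biUnion_ne_univ_of_top_notMem hs'
  obtain ⟨w, hw⟩ := (Set.ne_univ_iff_exists_notMem _).mp h
  refine ⟨w, w.2, fun W hW hwW => hw ?_⟩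
  simp only [Set.mem_iUnion]
  exact ⟨W.comap V.subtype, Finset.mem_image_of_mem _ hW, hwW⟩

section Core

variable {K : Type u} {F : Type v} [Field K] [Field F] [Algebra K F]

/-- An element of `L(D)` not in `L(D - Q)` is nonzero and has order exactly `-D(Q)` at `Q`. -/
theorem ord_eq_of_mem_of_notMem {D : Divisor K F} {Q : Place K F} {f : F}
    (hf : f ∈ riemannRochSpace D) (hf' : f ∉ riemannRochSpace (D - Finsupp.single Q 1)) :
    f ≠ 0 ∧ Q.ord f = -D Q := by
  classical
  have hf0 : f ≠ 0 := by
    rintro rfl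
    exact hf' (Submodule.zero_mem _)
  refine ⟨hf0, ?_⟩
  rw [mem_riemannRochSpace_iff] at hf hf'
  push Not at hf'
  obtain ⟨w, -, hw⟩ := hf'
  have h1 := (hf w).resolve_left hf0
  by_cases hwQ : w = Q
  · subst hwQ
    rw [Finsupp.sub_apply, Finsupp.single_eq_same] at hw
    omega
  · rw [Finsupp.sub_apply, Finsupp.single_apply, if_neg (fun h => hwQ h.symm)] at hw
    omega

/-- **Good coordinates, core form** (all inputs as explicit hypotheses). -/
theorem exists_goodCoord_core [Infinite K]
    (hZ : ∀ f : F, f ≠ 0 → {Q : Place K F | 0 < Q.ord f}.Finite)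
    (hdeg : ∀ w : Place K F, w.deg = 1)
    (c₀ : ℤ)
    (hstrict : ∀ (D : Divisor K F) (Q : Place K F), c₀ ≤ Divisor.degree D →
      ∃ f ∈ riemannRochSpace D, f ∉ riemannRochSpace (D - Finsupp.single Q 1))
    (hU : ∀ f : F, Transcendental K f →
      {Q : Place K F | ¬ ∃ c : K, Q.ord (f - algebraMap K F c) = 1}.Finite)
    (P Pinf : Place K F) (T : Set (Place K F)) (hT : T.Finite) (hPT : P ∉ T) (hne : Pinf ≠ P) :
    ∃ t : F, Transcendental K t ∧ P.ord t = 1 ∧
      (∀ Q : Place K F, 0 < Q.ord t → Q.ord t = 1) ∧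
      (∀ Q ∈ T, Q.ord t ≤ 0) ∧ (∀ Q : Place K F, Q ≠ Pinf → 0 ≤ Q.ord t) := by
  classical
  -- the divisors `D = N Pinf`, `D1 = D - P`, `D2 = D - 2P`
  obtain ⟨N, hN0, hNc⟩ : ∃ N : ℤ, 0 ≤ N ∧ c₀ + 3 ≤ N :=
    ⟨max c₀ 0 + 3, by have := le_max_right c₀ 0; omega, by have := le_max_left c₀ 0; omega⟩
  have hsP : ∀ Q : Place K F, Q ≠ P → (Finsupp.single P (1 : ℤ) : Divisor K F) Q = 0 := by
    intro Q hQ
    rw [Finsupp.single_apply, if_neg (fun h => hQ h.symm)]
  set D : Divisor K F := Finsupp.single Pinf N with hD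
  set D1 : Divisor K F := D - Finsupp.single P 1 with hD1
  set D2 : Divisor K F := D1 - Finsupp.single P 1 with hD2
  have hdegD : Divisor.degree D = N := by
    rw [hD, Divisor.degree_single, hdeg]
    simp
  have hdegD1 : Divisor.degree D1 = N - 1 := by
    rw [hD1, map_sub, hdegD, Divisor.degree_single, hdeg]
    simp
  have hdegD2 : Divisor.degree D2 = N - 2 := by
    rw [hD2, map_sub, hdegD1, Divisor.degree_single, hdeg]
    simp
    ring
  have hDP : D P = 0 := by
    rw [hD, Finsupp.single_apply, if_neg hne]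
  have hD_nonneg : ∀ Q : Place K F, 0 ≤ D Q := by
    intro Q
    rw [hD, Finsupp.single_apply]
    split_ifs
    · exact hN0
    · exact le_refl _
  have hDQ0 : ∀ Q : Place K F, Q ≠ Pinf → D Q = 0 := by
    intro Q hQ
    rw [hD, Finsupp.single_apply, if_neg (fun h => hQ h.symm)]
  have hD1P : D1 P = -1 := by
    rw [hD1, Finsupp.sub_apply, hDP, Finsupp.single_eq_same]
    ring
  have hD2P : D2 P = -2 := by
    rw [hD2, Finsupp.sub_apply, hD1P, Finsupp.single_eq_same]
    ring
  have hD1Q : ∀ Q : Place K F, Q ≠ P → D1 Q = D Q := by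
    intro Q hQ
    rw [hD1, Finsupp.sub_apply, hsP Q hQ, sub_zero]
  have hD2Q : ∀ Q : Place K F, Q ≠ P → D2 Q = D Q := by
    intro Q hQ
    rw [hD2, Finsupp.sub_apply, hsP Q hQ, sub_zero, hD1Q Q hQ]
  -- `t1`
  obtain ⟨t1, ht1m, ht1n⟩ := hstrict D1 P (by rw [hdegD1]; omega)
  obtain ⟨ht10, ht1P⟩ := ord_eq_of_mem_of_notMem ht1m ht1n
  rw [hD1P, neg_neg] at ht1P
  have hZ1 := hZ t1 ht10
  -- `t2`
  let s : Finset (Submodule K F) :=
    insert (riemannRochSpace (D2 - Finsupp.single P 1))
      ((hZ1.toFinset.erase P).image fun Q => riemannRochSpace (D2 - Finsupp.single Q 1))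
  have hs : ∀ W ∈ s, ¬ riemannRochSpace D2 ≤ W := by
    intro W hW hle
    have hex : ∃ Q : Place K F, W = riemannRochSpace (D2 - Finsupp.single Q 1) := by
      rcases Finset.mem_insert.mp hW with h | h
      · exact ⟨P, h⟩
      · obtain ⟨Q, -, hQ⟩ := Finset.mem_image.mp h
        exact ⟨Q, hQ.symm⟩
    obtain ⟨Q, rfl⟩ := hex
    obtain ⟨f, hf, hf'⟩ := hstrict D2 Q (by rw [hdegD2]; omega)
    exact hf' (hle hf)
  obtain ⟨t2, ht2m, ht2s⟩ := exists_mem_forall_notMem (riemannRochSpace D2) s hs
  obtain ⟨ht20, ht2P⟩ := ord_eq_of_mem_of_notMem ht2m (ht2s _ (Finset.mem_insert_self _ _))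
  rw [hD2P, neg_neg] at ht2P
  have ht2Z : ∀ Q : Place K F, Q ≠ P → 0 < Q.ord t1 → Q.ord t2 ≤ 0 := by
    intro Q hQP hQ
    have hmem : riemannRochSpace (D2 - Finsupp.single Q 1) ∈ s := by
      apply Finset.mem_insert_of_mem
      apply Finset.mem_image_of_mem
      rw [Finset.mem_erase]
      exact ⟨hQP, hZ1.mem_toFinset.mpr hQ⟩
    obtain ⟨-, h⟩ := ord_eq_of_mem_of_notMem ht2m (ht2s _ hmem)
    rw [h, hD2Q Q hQP]
    have := hD_nonneg Q
    omega
  -- the pencil `t1 + c t2`
  have hpencil : ∀ c : K, c ≠ 0 → ∀ Q : Place K F, Q ≠ P →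
      0 < Q.ord (t1 + algebraMap K F c * t2) → Q.ord t1 ≤ 0 ∧ Q.ord t2 = Q.ord t1 := by
    intro c hc Q hQP hQ
    have hc2 : Q.ord (algebraMap K F c * t2) = Q.ord t2 := helper1370.ord_algebraMap_mul Q hc t2
    have hct2 : algebraMap K F c * t2 ≠ 0 := mul_ne_zero ((map_ne_zero _).mpr hc) ht20
    have h1 : Q.ord t1 ≤ 0 := by
      by_contra hcon
      have hpos : 0 < Q.ord t1 := by omega
      have h2 := ht2Z Q hQP hpos
      have h3 := helper1370.ord_add_eq_of_lt' Q (f := t1) (g := algebraMap K F c * t2) hct2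
        (by rw [hc2]; omega)
      rw [h3, hc2] at hQ
      omega
    refine ⟨h1, ?_⟩
    have h4 : algebraMap K F c * t2 = (t1 + algebraMap K F c * t2) + (-t1) := by ring
    have h5 := helper1370.ord_add_eq_of_lt' Q (f := t1 + algebraMap K F c * t2) (g := -t1)
      (neg_ne_zero.mpr ht10) (by rw [helper1370.ord_neg]; omega)
    rw [← h4, hc2, helper1370.ord_neg] at h5
    exact h5
  -- the function `f = t1 / t2`
  set f : F := t1 / t2 with hf
  have hfP : P.ord f = -1 := by
    rw [hf, helper1370.ord_div P ht10 ht20, ht1P, ht2P]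
    ring
  have hftr : Transcendental K f :=
    helper1370.transcendental_of_ord_ne_zero P (by rw [hfP]; omega)
  have hR := hU f hftr
  -- the finite set of excluded parameters
  set RT : Set (Place K F) :=
    {Q : Place K F | ¬ ∃ c : K, Q.ord (f - algebraMap K F c) = 1} ∪ T with hRT
  have hRTfin : RT.Finite := hR.union hT
  let C : Place K F → Set K := fun Q =>
    {c : K | c ≠ 0 ∧ Q ≠ P ∧ 0 < Q.ord (t1 + algebraMap K F c * t2)}
  have hCsub : ∀ Q : Place K F, (C Q).Subsingleton := by
    intro Q c hc c' hc'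
    by_contra hcc
    obtain ⟨hc0, hQP, hcQ⟩ := hc
    obtain ⟨hc0', -, hcQ'⟩ := hc'
    obtain ⟨h1, h2⟩ := hpencil c hc0 Q hQP hcQ
    have hsub : (t1 + algebraMap K F c * t2) - (t1 + algebraMap K F c' * t2)
        = algebraMap K F (c - c') * t2 := by
      rw [map_sub]
      ring
    have hcc' : c - c' ≠ 0 := sub_ne_zero.mpr hcc
    have hne0 : algebraMap K F (c - c') * t2 ≠ 0 := mul_ne_zero ((map_ne_zero _).mpr hcc') ht20
    have h3 := helper1370.ord_sub_ge Q (f := t1 + algebraMap K F c * t2)
      (g := t1 + algebraMap K F c' * t2) (by rw [hsub]; exact hne0)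
    rw [hsub, helper1370.ord_algebraMap_mul Q hcc'] at h3
    have h4 := lt_min hcQ hcQ'
    omega
  have hBfin : (({0} : Set K) ∪ ⋃ Q ∈ RT, C Q).Finite :=
    (Set.finite_singleton 0).union (hRTfin.biUnion fun Q _ => (hCsub Q).finite)
  obtain ⟨c, hc⟩ := hBfin.exists_notMem
  have hc0 : c ≠ 0 := by
    intro h
    exact hc (Or.inl (by rw [h]; rfl))
  have hcRT : ∀ Q ∈ RT, Q ≠ P → ¬ 0 < Q.ord (t1 + algebraMap K F c * t2) := by
    intro Q hQ hQP hpos
    apply hc
    refine Or.inr ?_
    simp only [Set.mem_iUnion]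
    exact ⟨Q, hQ, hc0, hQP, hpos⟩
  -- the coordinate
  set t : F := t1 + algebraMap K F c * t2 with ht
  have hct2 : algebraMap K F c * t2 ≠ 0 := mul_ne_zero ((map_ne_zero _).mpr hc0) ht20
  have htP : P.ord t = 1 := by
    rw [ht, helper1370.ord_add_eq_of_lt P ht10
      (by rw [helper1370.ord_algebraMap_mul P hc0, ht1P, ht2P]; norm_num), ht1P]
  have htm : t ∈ riemannRochSpace D1 := by
    rw [ht]
    refine Submodule.add_mem _ ht1m ?_
    rw [← Algebra.smul_def]
    refine Submodule.smul_mem _ c ?_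
    have hle : D2 ≤ D1 := by
      intro Q
      rw [hD2, Finsupp.sub_apply]
      have : (0 : ℤ) ≤ (Finsupp.single P (1 : ℤ)) Q := by
        rw [Finsupp.single_apply]
        split_ifs <;> norm_num
      omega
    rw [mem_riemannRochSpace_iff] at ht2m ⊢
    intro w
    rcases ht2m w with h | h
    · exact Or.inl h
    · refine Or.inr ?_
      have := hle w
      omega
  refine ⟨t, helper1370.transcendental_of_ord_ne_zero P (by rw [htP]; norm_num), htP, ?_, ?_, ?_⟩
  · -- all zeros are simple
    intro Q hQ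
    by_cases hQP : Q = P
    · rw [hQP]
      exact htP
    have hQR : ∃ c₁ : K, Q.ord (f - algebraMap K F c₁) = 1 := by
      by_contra hcon
      exact hcRT Q (Or.inl hcon) hQP hQ
    obtain ⟨c₁, hc₁⟩ := hQR
    obtain ⟨h1, h2⟩ := hpencil c hc0 Q hQP hQ
    have ht0 : t ≠ 0 := by
      intro h
      rw [h, Place.ord_zero] at hQ
      exact lt_irrefl _ hQ
    have hfac : t = t2 * (f - algebraMap K F (-c)) := by
      rw [ht, hf, map_neg]
      field_simp
      ring
    have hfc : f - algebraMap K F (-c) ≠ 0 := by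
      intro h
      rw [h, mul_zero] at hfac
      exact ht0 hfac
    have hord : Q.ord t = Q.ord t2 + Q.ord (f - algebraMap K F (-c)) := by
      rw [hfac, Q.ord_mul ht20 hfc]
    have hpos : 0 < Q.ord (f - algebraMap K F (-c)) := by omega
    have hcc : -c = c₁ := helper1370.eq_of_ord_sub_algebraMap_pos Q hpos (by rw [hc₁]; norm_num)
    rw [hcc, hc₁] at hord
    omega
  · -- no zero in `T`
    intro Q hQT
    have hQP : Q ≠ P := fun h => hPT (h ▸ hQT)
    have := hcRT Q (Or.inr hQT) hQP
    omega
  · -- the only pole is `Pinf`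
    intro Q hQ
    by_cases hQP : Q = P
    · rw [hQP, htP]
      norm_num
    rw [mem_riemannRochSpace_iff] at htm
    rcases htm Q with h | h
    · rw [h, Place.ord_zero]
    · rw [hD1Q Q hQP, hDQ0 Q hQ] at h
      omega

end Core

/-! ## Spec-level statement -/

/-- **Good coordinates.**  For every place `P`, every place `Pinf ≠ P` and every finite set `T`
of places not containing `P` there is a transcendental `t` with a simple zero at `P`, all of
whose zeros are simple and outside `T`, and whose only pole is `Pinf`. -/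
def Stmt_GoodCoord.{w, z} : Prop :=
  ∀ (K : Type w) (F : Type z) [Field K] [Field F] [Algebra K F] [IsAlgClosed K] [CharZero K]
    (x : F), Transcendental K x → ∀ [FiniteDimensional K⟮x⟯ F] (P Pinf : Place K F)
    (T : Set (Place K F)), T.Finite → P ∉ T → Pinf ≠ P →
    ∃ t : F, Transcendental K t ∧ P.ord t = 1 ∧
      (∀ Q : Place K F, 0 < Q.ord t → Q.ord t = 1) ∧
      (∀ Q ∈ T, Q.ord t ≤ 0) ∧ (∀ Q : Place K F, Q ≠ Pinf → 0 ≤ Q.ord t)

section Riemann

variable {K : Type u} {F : Type v} [Field K] [Field F] [Algebra K F]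

/-- A nonspecial divisor has `H¹ = 0`. -/
theorem finrank_H1_eq_zero_of_isNonspecial {D : Divisor K F} (h : IsNonspecial D) :
    Module.finrank K (H1 D) = 0 := by
  have hsub : Subsingleton (H1 D) := Submodule.Quotient.subsingleton_iff.mpr h
  exact Module.finrank_zero_of_subsingleton

/-- From `Stmt_Riemann`: in large degree, `L(D - Q)` is a proper subspace of `L(D)`. -/
theorem exists_strict_of_riemann [IsAlgClosed K] [CharZero K] (hR : Stmt_Riemann.{u, v})
    (x : F) (hx : Transcendental K x) [FiniteDimensional K⟮x⟯ F] :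
    ∃ c₀ : ℤ, ∀ (D : Divisor K F) (Q : Place K F), c₀ ≤ Divisor.degree D →
      ∃ f ∈ riemannRochSpace D, f ∉ riemannRochSpace (D - Finsupp.single Q 1) := by
  obtain ⟨hfin, hrr, c, hc⟩ := hR K F x hx
  refine ⟨c + 1, fun D Q hD => ?_⟩
  by_contra hcon
  push Not at hcon
  have hle : riemannRochSpace D ≤ riemannRochSpace (D - Finsupp.single Q 1) := hcon
  have hdegQ : Divisor.degree (D - Finsupp.single Q 1) = Divisor.degree D - 1 := by
    rw [map_sub, Divisor.degree_single, helper483.place_deg_eq_one x hx Q]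
    simp
  have h1 := hrr D
  have h2 := hrr (D - Finsupp.single Q 1)
  rw [finrank_H1_eq_zero_of_isNonspecial (hc D (by omega))] at h1
  rw [finrank_H1_eq_zero_of_isNonspecial (hc _ (by rw [hdegQ]; omega)), hdegQ] at h2
  have : Module.Finite K (riemannRochSpace (D - Finsupp.single Q 1)) := (hfin _).2
  have h3 := Submodule.finrank_mono hle
  push_cast at h1 h2
  omega

end Riemann

/-- **S27-GOODCOORD.** Good coordinates exist at every place
(from Riemann's theorem and generic unramifiedness). -/
theorem goodCoord_of (hR : Stmt_Riemann.{u, v}) (hU : Stmt_GenericUnram.{u, v}) :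
    Stmt_GoodCoord.{u, v} := by
  intro K F _ _ _ _ _ x hx _ P Pinf T hT hPT hne
  obtain ⟨c₀, hstrict⟩ := exists_strict_of_riemann hR x hx
  have hPD : HasPrincipalDivisors K F := helper483.hasPrincipalDivisors x hx
  have hZ : ∀ f : F, f ≠ 0 → {Q : Place K F | 0 < Q.ord f}.Finite := by
    intro f hf
    obtain ⟨D, hD, -⟩ := hPD.exists_divisor f hf
    refine D.support.finite_toSet.subset fun Q hQ => ?_
    rw [Finset.mem_coe, Finsupp.mem_support_iff, hD Q]
    exact ne_of_gt hQ
  exact exists_goodCoord_core hZ (helper483.place_deg_eq_one x hx) c₀ hstrict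
    (fun f hf => hU K F x hx f hf) P Pinf T hT hPT hne

/-! ## Family version

For pairwise distinct places `P k` (`k : Fin r`), a place `Pinf` different from all of them and a
finite set `T` of places containing no `P k`, there are coordinates `t k : F` with: `t k`
transcendental with a simple zero at `P k`; all zeros of `t k` simple and outside `T`; the only
pole of `t k` is `Pinf`; for `k ≠ k'`, `t k` and `t k'` have no common zero.
(Sequential choice from the one-point statement: the zeros of the coordinates already chosen and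
the remaining base points are added to the avoid-set.) -/

section FamilyCore

variable {K : Type u} {F : Type v} [Field K] [Field F] [Algebra K F]

/-- **Good coordinates for a finite family of places, core form.** -/
theorem exists_goodCoord_family_core
    (hZ : ∀ f : F, f ≠ 0 → {Q : Place K F | 0 < Q.ord f}.Finite)
    (hGC : ∀ (P Pinf : Place K F) (T : Set (Place K F)), T.Finite → P ∉ T → Pinf ≠ P →
      ∃ t : F, Transcendental K t ∧ P.ord t = 1 ∧
        (∀ Q : Place K F, 0 < Q.ord t → Q.ord t = 1) ∧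
        (∀ Q ∈ T, Q.ord t ≤ 0) ∧ (∀ Q : Place K F, Q ≠ Pinf → 0 ≤ Q.ord t))
    (Pinf : Place K F) :
    ∀ (r : ℕ) (P : Fin r → Place K F) (T : Set (Place K F)), T.Finite → Function.Injective P →
      (∀ k, P k ∉ T) → (∀ k, P k ≠ Pinf) →
      ∃ t : Fin r → F, (∀ k, Transcendental K (t k)) ∧ (∀ k, (P k).ord (t k) = 1) ∧
        (∀ k (Q : Place K F), 0 < Q.ord (t k) → Q.ord (t k) = 1) ∧
        (∀ k, ∀ Q ∈ T, Q.ord (t k) ≤ 0) ∧
        (∀ k (Q : Place K F), Q ≠ Pinf → 0 ≤ Q.ord (t k)) ∧
        (∀ k k' (Q : Place K F), k ≠ k' → 0 < Q.ord (t k) → Q.ord (t k') ≤ 0) := by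
  intro r
  induction r with
  | zero =>
    intro P T _ _ _ _
    exact ⟨fun k => k.elim0, fun k => k.elim0, fun k => k.elim0, fun k => k.elim0,
      fun k => k.elim0, fun k => k.elim0, fun k => k.elim0⟩
  | succ r ih =>
    intro P T hT hinj hPT hPinf
    set P' : Fin r → Place K F := fun k => P k.castSucc with hP'
    set Pl : Place K F := P (Fin.last r) with hPl
    have hP'l : ∀ k, P' k ≠ Pl := fun k h =>
      (Fin.castSucc_lt_last k).ne (hinj h)
    -- the first `r` coordinates, avoiding `T ∪ {Pl}`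
    obtain ⟨t', h1, h2, h3, h4, h5, h6⟩ := ih P' (T ∪ {Pl}) (hT.union (Set.finite_singleton _))
      (fun a b hab => Fin.castSucc_injective r (hinj hab))
      (fun k hk => hk.elim (hPT _) (fun h => hP'l k h)) (fun k => hPinf _)
    -- the last coordinate, avoiding `T`, the other base points and the zeros already used
    set T'' : Set (Place K F) := T ∪ Set.range P' ∪ ⋃ k, {Q : Place K F | 0 < Q.ord (t' k)}
      with hT''
    have hT''fin : T''.Finite :=
      (hT.union (Set.finite_range P')).union
        (Set.finite_iUnion fun k => hZ (t' k) (fun h0 => (h1 k) (h0 ▸ isAlgebraic_zero)))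
    have hPlT'' : Pl ∉ T'' := by
      rintro ((h | ⟨k, hk⟩) | h)
      · exact hPT _ h
      · exact hP'l k hk
      · obtain ⟨k, hk⟩ := Set.mem_iUnion.mp h
        have hk' : 0 < Pl.ord (t' k) := hk
        have := h4 k Pl (Or.inr rfl)
        omega
    obtain ⟨tl, g1, g2, g3, g4, g5⟩ := hGC Pl Pinf T'' hT''fin hPlT'' (hPinf _).symm
    have hzero : ∀ (k : Fin r) (Q : Place K F), 0 < Q.ord (t' k) → Q.ord tl ≤ 0 := by
      intro k Q hQ
      exact g4 Q (Or.inr (Set.mem_iUnion.mpr ⟨k, hQ⟩))
    refine ⟨Fin.snoc t' tl, ?_, ?_, ?_, ?_, ?_, ?_⟩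
    · intro k
      refine Fin.lastCases ?_ (fun j => ?_) k
      · rw [Fin.snoc_last]
        exact g1
      · rw [Fin.snoc_castSucc]
        exact h1 j
    · intro k
      refine Fin.lastCases ?_ (fun j => ?_) k
      · rw [Fin.snoc_last]
        exact g2
      · rw [Fin.snoc_castSucc]
        exact h2 j
    · intro k
      refine Fin.lastCases ?_ (fun j => ?_) k
      · rw [Fin.snoc_last]
        exact g3
      · rw [Fin.snoc_castSucc]
        exact h3 j
    · intro k
      refine Fin.lastCases ?_ (fun j => ?_) k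
      · rw [Fin.snoc_last]
        exact fun Q hQ => g4 Q (Or.inl (Or.inl hQ))
      · rw [Fin.snoc_castSucc]
        exact fun Q hQ => h4 j Q (Or.inl hQ)
    · intro k
      refine Fin.lastCases ?_ (fun j => ?_) k
      · rw [Fin.snoc_last]
        exact g5
      · rw [Fin.snoc_castSucc]
        exact h5 j
    · intro k k'
      refine Fin.lastCases ?_ (fun j => ?_) k
      · refine Fin.lastCases ?_ (fun j' => ?_) k'
        · intro Q hkk
          exact absurd rfl hkk
        · intro Q _ hQ
          rw [Fin.snoc_last] at hQ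
          rw [Fin.snoc_castSucc]
          by_contra hcon
          have := hzero j' Q (by omega)
          omega
      · refine Fin.lastCases ?_ (fun j' => ?_) k'
        · intro Q _ hQ
          rw [Fin.snoc_castSucc] at hQ
          rw [Fin.snoc_last]
          exact hzero j Q hQ
        · intro Q hkk hQ
          rw [Fin.snoc_castSucc] at hQ ⊢
          exact h6 j j' Q (fun h => hkk (by rw [h])) hQ

end FamilyCore

/-- **Good coordinates for a finite family of places.**  Pairwise distinct places `P k`, a place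
`Pinf` different from all of them, a finite avoid-set `T`: there are transcendental `t k` with a
simple zero at `P k`, all zeros simple and outside `T`, only pole `Pinf`, and no common zero of
`t k`, `t k'` for `k ≠ k'`. -/
def Stmt_GoodCoordFamily.{w, z} : Prop :=
  ∀ (K : Type w) (F : Type z) [Field K] [Field F] [Algebra K F] [IsAlgClosed K] [CharZero K]
    (x : F), Transcendental K x → ∀ [FiniteDimensional K⟮x⟯ F] (r : ℕ) (P : Fin r → Place K F)
    (Pinf : Place K F) (T : Set (Place K F)), T.Finite → Function.Injective P →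
    (∀ k, P k ∉ T) → (∀ k, P k ≠ Pinf) →
    ∃ t : Fin r → F, (∀ k, Transcendental K (t k)) ∧ (∀ k, (P k).ord (t k) = 1) ∧
      (∀ k (Q : Place K F), 0 < Q.ord (t k) → Q.ord (t k) = 1) ∧
      (∀ k, ∀ Q ∈ T, Q.ord (t k) ≤ 0) ∧
      (∀ k (Q : Place K F), Q ≠ Pinf → 0 ≤ Q.ord (t k)) ∧
      (∀ k k' (Q : Place K F), k ≠ k' → 0 < Q.ord (t k) → Q.ord (t k') ≤ 0)

/-- The family version follows from the one-point version. -/
theorem goodCoordFamily_of_goodCoord (h : Stmt_GoodCoord.{u, v}) :
    Stmt_GoodCoordFamily.{u, v} := by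
  intro K F _ _ _ _ _ x hx _ r P Pinf T hT hinj hPT hPinf
  have hPD : HasPrincipalDivisors K F := helper483.hasPrincipalDivisors x hx
  have hZ : ∀ f : F, f ≠ 0 → {Q : Place K F | 0 < Q.ord f}.Finite := by
    intro f hf
    obtain ⟨D, hD, -⟩ := hPD.exists_divisor f hf
    refine D.support.finite_toSet.subset fun Q hQ => ?_
    rw [Finset.mem_coe, Finsupp.mem_support_iff, hD Q]
    exact ne_of_gt hQ
  exact exists_goodCoord_family_core hZ (fun P Pinf T hT hP hne => h K F x hx P Pinf T hT hP hne)
    Pinf r P T hT hinj hPT hPinf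

/-- **S27-GOODCOORD, family version**, from Riemann's theorem and generic unramifiedness. -/
theorem goodCoordFamily_of (hR : Stmt_Riemann.{u, v}) (hU : Stmt_GenericUnram.{u, v}) :
    Stmt_GoodCoordFamily.{u, v} :=
  goodCoordFamily_of_goodCoord (goodCoord_of hR hU)

/-- **Good coordinates for a family indexed by any finite type** (direct consumer form):
pairwise distinct places `P k` (`k : ι`), `Pinf` different from all of them, finite avoid-set
`T`. -/
theorem goodCoordFamily_finite (h : Stmt_GoodCoord.{u, v}) {K : Type u} {F : Type v} [Field K]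
    [Field F] [Algebra K F] [IsAlgClosed K] [CharZero K] (x : F) (hx : Transcendental K x)
    [FiniteDimensional K⟮x⟯ F] {ι : Type*} [Finite ι] (P : ι → Place K F) (Pinf : Place K F)
    (T : Set (Place K F)) (hT : T.Finite) (hinj : Function.Injective P) (hPT : ∀ k, P k ∉ T)
    (hPinf : ∀ k, P k ≠ Pinf) :
    ∃ t : ι → F, (∀ k, Transcendental K (t k)) ∧ (∀ k, (P k).ord (t k) = 1) ∧
      (∀ k (Q : Place K F), 0 < Q.ord (t k) → Q.ord (t k) = 1) ∧
      (∀ k, ∀ Q ∈ T, Q.ord (t k) ≤ 0) ∧
      (∀ k (Q : Place K F), Q ≠ Pinf → 0 ≤ Q.ord (t k)) ∧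
      (∀ k k' (Q : Place K F), k ≠ k' → 0 < Q.ord (t k) → Q.ord (t k') ≤ 0) := by
  have e : ι ≃ Fin (Nat.card ι) := Finite.equivFin ι
  obtain ⟨t, h1, h2, h3, h4, h5, h6⟩ := goodCoordFamily_of_goodCoord h K F x hx (Nat.card ι)
    (fun j => P (e.symm j)) Pinf T hT (fun a b hab => e.symm.injective (hinj hab))
    (fun j => hPT _) (fun j => hPinf _)
  refine ⟨fun k => t (e k), fun k => h1 (e k), fun k => ?_, fun k => h3 (e k),
    fun k => h4 (e k), fun k => h5 (e k), fun k k' Q hkk => h6 (e k) (e k') Q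
      (fun hh => hkk (e.injective hh))⟩
  have := h2 (e k)
  rwa [e.symm_apply_apply] at this

end Fermat.Agent.S27.helper3093
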