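import Fermat.Agent.S27.helper6247_Spec
import Fermat.Agent.S24.helper483_PlacesFF

/-!
# S27: the Spec leaves `Stmt_Ev` and `Stmt_GenericUnram` (helper6634)

* `stmt_Ev : helper6247.Stmt_Ev` — the value map `ev P` is a `K`-algebra homomorphism from the
  valuation ring of `P` onto `K` with kernel the maximal ideal.
* `stmt_GenericUnram : helper6247.Stmt_GenericUnram` — a transcendental `u` is a local
  coordinate at all but finitely many places (the exceptions are the poles of `u` and the
  places dividing the different of the integral closure of `K[u]`).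

Both are unconditional and universe polymorphic.
-/

set_option autoImplicit false

open AlgebraicCurve IsDedekindDomain IntermediateField Polynomial

namespace Fermat.Agent.S27.helper6634

open Fermat.Agent.S27.helper6247 Fermat.Agent.S24.helper483

section Ev

variable {K F : Type*} [Field K] [Field F] [Algebra K F]

/-- The value of a function at a place is unique. -/
theorem value_unique (P : Place K F) {f : F} {c c' : K}
    (hc : P.adicValuation (f - algebraMap K F c) < 1)
    (hc' : P.adicValuation (f - algebraMap K F c') < 1) : c = c' := by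
  by_contra hne
  have h1 : P.adicValuation (algebraMap K F (c' - c)) = 1 :=
    adicValuation_algebraMap P (sub_ne_zero.mpr (Ne.symm hne))
  have h2 : algebraMap K F (c' - c) = (f - algebraMap K F c) - (f - algebraMap K F c') := by
    rw [map_sub]; ring
  rw [h2] at h1
  have h3 := Valuation.map_sub P.adicValuation (f - algebraMap K F c) (f - algebraMap K F c')
  rw [h1] at h3
  exact absurd h3 (not_le.mpr (max_lt hc hc'))

/-- `ev P f = c` as soon as `f - c` lies in the maximal ideal of `P`. -/
theorem ev_eq_of_lt (P : Place K F) {f : F} {c : K}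
    (hc : P.adicValuation (f - algebraMap K F c) < 1) : ev P f = c := by
  have h : ∃ c : K, P.adicValuation (f - algebraMap K F c) < 1 := ⟨c, hc⟩
  unfold ev
  rw [dif_pos h]
  exact value_unique P h.choose_spec hc

/-- Every function regular at `P` has a value at `P`. -/
theorem exists_value [IsAlgClosed K] (x : F) [Algebra.IsAlgebraic K⟮x⟯ F] (P : Place K F)
    {f : F} (hf : 0 ≤ P.ord f) : ∃ c : K, P.adicValuation (f - algebraMap K F c) < 1 := by
  have hmem : f ∈ P.toValuationSubring := mem_of_ord_nonneg P hf
  by_cases hz : Transcendental K f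
  · have := isAlgebraic_adjoin_simple_of_transcendental x hz
    exact exists_adicValuation_sub_lt_one P hmem
  · rw [Transcendental, not_not] at hz
    obtain ⟨c, hc⟩ := exists_algebraMap_eq_of_isAlgebraic hz
    exact ⟨c, by rw [hc, sub_self, map_zero]; exact zero_lt_one⟩

theorem ev_spec [IsAlgClosed K] (x : F) [Algebra.IsAlgebraic K⟮x⟯ F] (P : Place K F)
    {f : F} (hf : 0 ≤ P.ord f) : P.adicValuation (f - algebraMap K F (ev P f)) < 1 := by
  obtain ⟨c, hc⟩ := exists_value x P hf
  rw [ev_eq_of_lt P hc]
  exact hc

theorem ev_algebraMap (P : Place K F) (c : K) : ev P (algebraMap K F c) = c :=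
  ev_eq_of_lt P (by rw [sub_self, map_zero]; exact zero_lt_one)

theorem ev_add [IsAlgClosed K] (x : F) [Algebra.IsAlgebraic K⟮x⟯ F] (P : Place K F)
    {f g : F} (hf : 0 ≤ P.ord f) (hg : 0 ≤ P.ord g) : ev P (f + g) = ev P f + ev P g := by
  apply ev_eq_of_lt
  have h : f + g - algebraMap K F (ev P f + ev P g)
      = (f - algebraMap K F (ev P f)) + (g - algebraMap K F (ev P g)) := by
    rw [map_add]; ring
  rw [h]
  exact lt_of_le_of_lt (Valuation.map_add _ _ _) (max_lt (ev_spec x P hf) (ev_spec x P hg))

theorem ev_mul [IsAlgClosed K] (x : F) [Algebra.IsAlgebraic K⟮x⟯ F] (P : Place K F)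
    {f g : F} (hf : 0 ≤ P.ord f) (hg : 0 ≤ P.ord g) : ev P (f * g) = ev P f * ev P g := by
  apply ev_eq_of_lt
  have h : f * g - algebraMap K F (ev P f * ev P g)
      = (f - algebraMap K F (ev P f)) * g
        + algebraMap K F (ev P f) * (g - algebraMap K F (ev P g)) := by
    rw [map_mul]; ring
  rw [h]
  refine lt_of_le_of_lt (Valuation.map_add _ _ _) (max_lt ?_ ?_)
  · rw [map_mul]
    exact lt_of_le_of_lt
      (mul_le_of_le_one_right' (adicValuation_le_one_of_mem P (mem_of_ord_nonneg P hg)))
      (ev_spec x P hf)
  · rw [map_mul]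
    exact lt_of_le_of_lt
      (mul_le_of_le_one_left' (adicValuation_le_one_of_mem P (P.algebraMap_mem' _)))
      (ev_spec x P hg)

theorem ev_eq_zero_iff [IsAlgClosed K] (x : F) [Algebra.IsAlgebraic K⟮x⟯ F] (P : Place K F)
    {f : F} (hf : 0 ≤ P.ord f) : ev P f = 0 ↔ f = 0 ∨ 0 < P.ord f := by
  constructor
  · intro h
    have h1 := ev_spec x P hf
    rw [h, map_zero, sub_zero] at h1
    by_cases h0 : f = 0
    · exact Or.inl h0
    · exact Or.inr ((ord_pos_iff_adicValuation_lt_one P h0).mpr h1)
  · rintro (rfl | hpos)
    · simpa using ev_algebraMap P (0 : K)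
    · have h0 : f ≠ 0 := by rintro rfl; simp at hpos
      exact ev_eq_of_lt P (by
        rw [map_zero, sub_zero]; exact (ord_pos_iff_adicValuation_lt_one P h0).mp hpos)

theorem ev_eq_of_ord_pos (P : Place K F) {f : F} {c : K}
    (hc : 0 < P.ord (f - algebraMap K F c)) : ev P f = c := by
  have h0 : f - algebraMap K F c ≠ 0 := by intro h; rw [h] at hc; simp at hc
  exact ev_eq_of_lt P ((ord_pos_iff_adicValuation_lt_one P h0).mp hc)

/-- **Spec leaf `Stmt_Ev`.** -/
theorem stmt_Ev.{u, v} : Stmt_Ev.{u, v} := by
  intro K F _ _ _ _ _ x _ _ P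
  exact ⟨fun c => ev_algebraMap P c, fun f g hf hg => ⟨ev_add x P hf hg, ev_mul x P hf hg⟩,
    fun f hf => ev_eq_zero_iff x P hf, fun f c hc => ev_eq_of_ord_pos P hc⟩

end Ev

section Unram

attribute [local instance] FractionRing.liftAlgebra FractionRing.isScalarTower_liftAlgebra

variable {K F : Type*} [Field K] [Field F] [Algebra K F]

/-- **Core.** `F` a `K`-algebra field, finite over a fraction field `L` of `K[X]`; with `u` the
image of `X`: only finitely many places have `ord (u - c) ≥ 2` for some `c` (they divide the
different of the integral closure of `K[X]` in `F`). -/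
theorem core_ramified_finite [IsAlgClosed K] [CharZero K]
    (L : Type*) [Field L] [Algebra K[X] L] [IsFractionRing K[X] L] [Algebra L F]
    [Algebra K[X] F] [IsScalarTower K[X] L F] [IsScalarTower K K[X] F] [FiniteDimensional L F] :
    {v : Place K F | ∃ c : K, 2 ≤ v.ord (algebraMap K[X] F (X - C c))}.Finite := by
  classical
  have : CharZero L := charZero_of_isFractionRing_polynomial K L
  have : Algebra.IsSeparable L F := inferInstance
  have hDed : IsDedekindDomain (integralClosure K[X] F) :=
    integralClosure.isDedekindDomain K[X] L F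
  have hFrac : IsFractionRing (integralClosure K[X] F) F :=
    integralClosure.isFractionRing_of_finite_extension L F
  have hFin : Module.Finite K[X] (integralClosure K[X] F) :=
    IsIntegralClosure.finite K[X] L F (integralClosure K[X] F)
  have hinjF : Function.Injective (algebraMap K[X] F) := by
    rw [IsScalarTower.algebraMap_eq K[X] L F]
    exact (algebraMap L F).injective.comp (IsFractionRing.injective K[X] L)
  have hTF : Module.IsTorsionFree K[X] F := Module.isTorsionFree_iff_algebraMap_injective.mpr hinjF
  have hTFB : Module.IsTorsionFree K[X] (integralClosure K[X] F) := inferInstance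
  have hFS : FaithfulSMul K[X] (integralClosure K[X] F) := inferInstance
  have hsep : Algebra.IsSeparable (FractionRing K[X]) (FractionRing (integralClosure K[X] F)) :=
    inferInstance
  have hD : differentIdeal K[X] (integralClosure K[X] F) ≠ ⊥ := differentIdeal_ne_bot
  have hfin := Ideal.finite_factors hD
  refine (hfin.image (plc K)).subset ?_
  rintro v ⟨c, hc⟩
  have hXc : algebraMap K[X] F (X - C c) ∈ v.toValuationSubring :=
    mem_of_ord_nonneg v (by omega)
  have hCc : algebraMap K[X] F (C c) = algebraMap K F c := by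
    rw [← Polynomial.algebraMap_eq, ← IsScalarTower.algebraMap_apply]
  have hXmem : algebraMap K[X] F X ∈ v.toValuationSubring := by
    have h := add_mem hXc (v.algebraMap_mem' c)
    rwa [map_sub, hCc, sub_add_cancel] at h
  have hB : ∀ b : integralClosure K[X] F,
      algebraMap (integralClosure K[X] F) F b ∈ v.toValuationSubring := fun b =>
    integral_mem_of_mem v (algebraMap_polynomial_mem v hXmem) b.2
  obtain ⟨Q, hQ⟩ := exists_plc_eq v hB
  refine ⟨Q, ?_, hQ⟩
  have hne0 : algebraMap K[X] F (X - C c) ≠ 0 := by
    rw [Ne, map_eq_zero_iff _ hinjF]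
    exact Polynomial.X_sub_C_ne_zero c
  have hval : Q.valuation F (algebraMap K[X] F (X - C c)) ≤ WithZero.exp (-((2 : ℕ) : ℤ)) := by
    rw [← adicValuation_plc (K := K), hQ, v.adicValuation_le_exp_iff]
    right
    simpa using hc
  have hmem2 : algebraMap K[X] (integralClosure K[X] F) (X - C c) ∈ Q.asIdeal ^ 2 := by
    rw [IsScalarTower.algebraMap_apply K[X] (integralClosure K[X] F) F,
      HeightOneSpectrum.valuation_of_algebraMap] at hval
    exact (HeightOneSpectrum.intValuation_le_pow_iff_mem _ _ _).mp hval
  have hdvd : Q.asIdeal ^ 2 ∣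
      (Ideal.span {(X - C c : K[X])}).map (algebraMap K[X] (integralClosure K[X] F)) := by
    rw [Ideal.dvd_iff_le, Ideal.map_span, Set.image_singleton, Ideal.span_singleton_le_iff_mem]
    exact hmem2
  have hmax : (Ideal.span {(X - C c : K[X])}).IsMaximal :=
    PrincipalIdealRing.isMaximal_of_irreducible (Polynomial.irreducible_X_sub_C c)
  have hne : Ideal.span {(X - C c : K[X])} ≠ ⊥ := by
    rw [Ne, Ideal.span_singleton_eq_bot]
    exact Polynomial.X_sub_C_ne_zero c
  have h := pow_sub_one_dvd_differentIdeal K[X] Q.asIdeal 2 hne hdvd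
  simpa using h

/-- For a transcendental `u` with `F` finite over `K(u)`: only finitely many places have
`ord (u - c) ≥ 2` for some `c : K`. -/
theorem ramified_finite_self [IsAlgClosed K] [CharZero K] (u : F) (hu : Transcendental K u)
    [FiniteDimensional K⟮u⟯ F] :
    {v : Place K F | ∃ c : K, 2 ≤ v.ord (u - algebraMap K F c)}.Finite := by
  let algF : Algebra K[X] F := (Polynomial.aeval u).toRingHom.toAlgebra
  have hF : ∀ p : K[X], algebraMap K[X] F p = Polynomial.aeval u p := fun p => rfl
  have : IsScalarTower K K[X] F := IsScalarTower.of_algebraMap_eq (fun c => by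
    rw [hF, Polynomial.algebraMap_apply, Polynomial.aeval_C]; simp)
  let algL : Algebra K[X] K⟮u⟯ := (Polynomial.aeval (AdjoinSimple.gen K u)).toRingHom.toAlgebra
  have hL : ∀ p : K[X], algebraMap K[X] K⟮u⟯ p = Polynomial.aeval (AdjoinSimple.gen K u) p :=
    fun p => rfl
  have hcoe : ∀ p : K[X], ((Polynomial.aeval (AdjoinSimple.gen K u) p : K⟮u⟯) : F) =
      Polynomial.aeval u p := by
    intro p
    exact (IntermediateField.aeval_coe K⟮u⟯ (AdjoinSimple.gen K u) p).symm
  have : IsScalarTower K[X] K⟮u⟯ F := IsScalarTower.of_algebraMap_eq (fun p => by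
    rw [hF, hL]; exact (hcoe p).symm)
  have hinj : Function.Injective (algebraMap K[X] K⟮u⟯) := by
    intro p q hpq
    have h1 := congrArg (fun w : K⟮u⟯ => (w : F)) hpq
    simp only [hL, hcoe] at h1
    exact (transcendental_iff_injective.mp hu) h1
  have : FaithfulSMul K[X] K⟮u⟯ := (faithfulSMul_iff_algebraMap_injective _ _).mpr hinj
  have : IsFractionRing K[X] K⟮u⟯ := IsFractionRing.of_field K[X] K⟮u⟯ (fun z => by
    obtain ⟨r, s, hrs⟩ := (IntermediateField.mem_adjoin_simple_iff K (z : F)).mp z.2
    refine ⟨r, s, Subtype.ext ?_⟩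
    rw [hrs]
    push_cast
    rw [hL, hL, hcoe, hcoe])
  have h := core_ramified_finite (K := K) (F := F) K⟮u⟯
  have hXc : ∀ c : K, algebraMap K[X] F (X - C c) = u - algebraMap K F c := fun c => by
    rw [hF, map_sub, Polynomial.aeval_X, Polynomial.aeval_C]
  simpa only [hXc] using h

/-- A transcendental `u` is a local coordinate (`u - c` a uniformizer for some `c`) at all but
finitely many places. -/
theorem genericUnram [IsAlgClosed K] [CharZero K] (x : F) [FiniteDimensional K⟮x⟯ F]
    (u : F) (hu : Transcendental K u) :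
    {P : Place K F | ¬ ∃ c : K, P.ord (u - algebraMap K F c) = 1}.Finite := by
  have hfin : FiniteDimensional K⟮u⟯ F := finiteDimensional_adjoin_simple_of_transcendental x hu
  obtain ⟨s, hs, -⟩ := exists_finset_poles u hu
  refine (s.finite_toSet.union (ramified_finite_self u hu)).subset ?_
  intro P hP
  by_cases hpole : P.ord u < 0
  · exact Or.inl ((hs P).mpr hpole)
  · right
    rcases place_center u hu P with h | ⟨c, hc, -⟩
    · exact absurd h hpole
    · refine ⟨c, ?_⟩
      have hne : P.ord (u - algebraMap K F c) ≠ 1 := fun h1 => hP ⟨c, h1⟩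
      omega

/-- **Spec leaf `Stmt_GenericUnram`.** -/
theorem stmt_GenericUnram.{u, v} : Stmt_GenericUnram.{u, v} := by
  intro K F _ _ _ _ _ x _ _ u hu
  exact genericUnram x u hu

end Unram

end Fermat.Agent.S27.helper6634
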