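import Mathlib
import Fermat.Prelude.Def_AlgebraicCurve_DivisorClassGroup
import Fermat.Prelude.Def_AlgebraicCurve_IsCurveOver
import Fermat.Prelude.Def_AlgebraicCurve_Repartitions

/-!
# S27, algebraic route: specification file (architect helper3351)

`#Pic⁰(F)[ℓ^k] = ℓ^(2gk)` for a function field `F` of genus `g` over an algebraically closed
field `K` of characteristic `0`.

Route (findings row #1957): encode the curve by a *Weierstrass normal form at one place*
(a finite table of structure constants), express "the number of `n`-torsion classes is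
`n^(2g)`" as a first-order sentence in the language of rings, prove it over the algebraic
closure of every finite field (zeta function), and transfer to characteristic `0` with
Mathlib's Lefschetz principle.

This file contains ONLY definitions, the three top-level interfaces `Spec_FO`, `Spec_Fp`,
`Spec_W`, and the (proved) assembly `S27_of_specs`.  Hypothesis-passing style: every module
proves one of the `Spec_*` propositions (or a sub-interface of its own sub-spec file).

## The encoding

* A type `τ = (m; ρ)`: `m` = pole order of `x` at the chosen place `P`, `ρ i` = the smallest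
  pole order at `P` of a function regular elsewhere that is `≡ i mod m` (`ρ 0 = 0`).
* `B = ⋃ L(tP) = ⊕_i K[x] ω_i`; a table `T` is the list of coefficients of the structure
  constants `c i j k ∈ K[x]`, `ω_i ω_j = ∑_k c i j k ω_k`.
* `Elt τ K = Fin m → K[X]` are the elements of `B`; `BElt τ K d` are coefficient tuples
  (elements whose components have degree `≤ d`): all quantifiers in `Valid` and `Count`
  range over tuples of elements of `K` only.
-/

set_option autoImplicit false

open Polynomial FirstOrder AlgebraicCurve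

namespace Fermat.Agent.S27.helper3351

/-- A Weierstrass type. -/
structure WType where
  /-- pole order of `x` -/
  m : ℕ
  /-- minimal pole orders in each residue class modulo `m` -/
  ρ : Fin m → ℕ

namespace WType

variable (τ : WType)

/-- Sanity conditions on a type. -/
def Good : Prop :=
  0 < τ.m ∧ ∀ i : Fin τ.m, τ.ρ i % τ.m = (i : ℕ) ∧ ((i : ℕ) = 0 → τ.ρ i = 0)

/-- The number of gaps, i.e. the genus. -/
def genus : ℕ := ∑ i : Fin τ.m, τ.ρ i / τ.m

/-- A crude bound for the degrees of all structure constants. -/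
def D : ℕ := 2 * ∑ i : Fin τ.m, τ.ρ i

end WType

/-- A table of structure constants: `T i j k e` is the coefficient of `x^e` in `c i j k`. -/
abbrev Tab (τ : WType) (K : Type*) : Type _ :=
  Fin τ.m → Fin τ.m → Fin τ.m → Fin (τ.D + 1) → K

/-- Elements of the algebra `B = ⊕_i K[x] ω_i`. -/
abbrev Elt (τ : WType) (K : Type*) [Semiring K] : Type _ := Fin τ.m → K[X]

/-- Coefficient tuples: elements of `B` all of whose components have degree `≤ d`. -/
abbrev BElt (τ : WType) (K : Type*) (d : ℕ) : Type _ := Fin τ.m → Fin (d + 1) → K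

section Defs

variable {τ : WType} {K : Type*} [CommRing K]

/-- The polynomial with given coefficient tuple. -/
noncomputable def polyOf {d : ℕ} (a : Fin (d + 1) → K) : K[X] :=
  ∑ e : Fin (d + 1), C (a e) * X ^ (e : ℕ)

/-- The element of `B` with given coefficient tuple. -/
noncomputable def BElt.toElt {d : ℕ} (b : BElt τ K d) : Elt τ K := fun i => polyOf (b i)

/-- The unit `ω_0` of `B`. -/
noncomputable def Elt.one : Elt τ K := fun i => if (i : ℕ) = 0 then 1 else 0

/-- The basis vector `ω_i`. -/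
noncomputable def Elt.e (i : Fin τ.m) : Elt τ K := fun j => if j = i then 1 else 0

/-- `wt a ≤ t`, where `wt (∑ a_i ω_i) = max (m deg a_i + ρ i)` is the pole order at `P`. -/
def wtLE (a : Elt τ K) (t : ℕ) : Prop :=
  ∀ i, a i ≠ 0 → τ.m * (a i).natDegree + τ.ρ i ≤ t

/-- Generators of the maximal ideal of the point `(x₀, ψ)`: `x - x₀` and `ω_j - ψ j`. -/
noncomputable def genElt (x₀ : K) (ψ : Fin τ.m → K) : Option (Fin τ.m) → Elt τ K
  | none => fun i => if (i : ℕ) = 0 then X - C x₀ else 0
  | some j => fun i => (if i = j then 1 else 0) - (if (i : ℕ) = 0 then C (ψ j) else 0)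

namespace Tab

variable (T : Tab τ K)

/-- The structure constant `c i j k ∈ K[x]`. -/
noncomputable def c (i j k : Fin τ.m) : K[X] := polyOf (T i j k)

/-- Multiplication of `B`. -/
noncomputable def mul (a b : Elt τ K) : Elt τ K :=
  fun k => ∑ i, ∑ j, a i * b j * T.c i j k

/-- Powers in `B`. -/
noncomputable def npow (a : Elt τ K) : ℕ → Elt τ K
  | 0 => Elt.one
  | n + 1 => T.mul (npow a n) a

/-- Product of a list (left fold). -/
noncomputable def lprod (l : List (Elt τ K)) : Elt τ K := l.foldl T.mul Elt.one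

/-- `(x₀, ψ)` is a `K`-point of `Spec B`: the `K`-algebra map `x ↦ x₀, ω_i ↦ ψ i`. -/
def IsPoint (x₀ : K) (ψ : Fin τ.m → K) : Prop :=
  (∀ i : Fin τ.m, (i : ℕ) = 0 → ψ i = 1) ∧
    ∀ i j, ψ i * ψ j = ∑ k, (T.c i j k).eval x₀ * ψ k

/-- The product of the generators indexed by `a`. -/
noncomputable def prodGen (x₀ : K) (ψ : Fin τ.m → K) {j : ℕ}
    (a : Fin j → Option (Fin τ.m)) : Elt τ K :=
  T.lprod (List.ofFn fun s => genElt x₀ ψ (a s))

/-- `h ∈ 𝔪^j`, where `𝔪` is the maximal ideal of the point `(x₀, ψ)`; computed modulo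
`(x - x₀)^j B ⊆ 𝔪^j`, so that only bounded coefficient tuples are quantified. -/
def OrdGE (x₀ : K) (ψ : Fin τ.m → K) (h : Elt τ K) (j : ℕ) : Prop :=
  ∃ b : (Fin j → Option (Fin τ.m)) → BElt τ K j,
    ∀ i, (X - C x₀) ^ j ∣ (h - ∑ a, T.mul (T.prodGen x₀ ψ a) (b a).toElt) i

/-- The point `(x₀, ψ)` is regular: `𝔪 = π B + 𝔪²` for some `π` in the `K`-span of the
generators (computed modulo `(x - x₀)² B ⊆ 𝔪²`). -/
def RegularAt (x₀ : K) (ψ : Fin τ.m → K) : Prop :=
  ∃ lam : Option (Fin τ.m) → K,
    ∀ a : Option (Fin τ.m),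
      ∃ (b : BElt τ K 1) (b2 : Option (Fin τ.m) → Option (Fin τ.m) → BElt τ K 1),
        ∀ i, (X - C x₀) ^ 2 ∣
          (genElt x₀ ψ a
            - T.mul (fun i' => ∑ a', C (lam a') * genElt x₀ ψ a' i') b.toElt
            - ∑ a', ∑ a'', T.mul (T.mul (genElt x₀ ψ a') (genElt x₀ ψ a'')) (b2 a' a'').toElt) i

/-- A valid table: the table of a Dedekind domain `B` with exactly one place at infinity
(for algebraically closed `K`). -/
structure Valid : Prop where
  good : τ.Good
  one_mul : ∀ j, T.mul Elt.one (Elt.e j) = Elt.e j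
  comm : ∀ i j k, T.c i j k = T.c j i k
  assoc : ∀ i j k,
    T.mul (T.mul (Elt.e i) (Elt.e j)) (Elt.e k) = T.mul (Elt.e i) (T.mul (Elt.e j) (Elt.e k))
  wt : ∀ i j k, T.c i j k ≠ 0 → τ.m * (T.c i j k).natDegree + τ.ρ k ≤ τ.ρ i + τ.ρ j
  lead : ∀ i j k : Fin τ.m, ((i : ℕ) + j) % τ.m = k →
    T.c i j k ≠ 0 ∧ τ.m * (T.c i j k).natDegree + τ.ρ k = τ.ρ i + τ.ρ j
  regular : ∀ (x₀ : K) (ψ : Fin τ.m → K), T.IsPoint x₀ ψ → T.RegularAt x₀ ψ

/-- `h` is a nonzero element of `B` of weight `≤ n g` all of whose zeros have multiplicity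
divisible by `n` (so `h B = I^n`, and `[I]` is an `n`-torsion class). -/
def InH (n : ℕ) (h : BElt τ K (n * τ.genus)) : Prop :=
  h.toElt ≠ 0 ∧ wtLE h.toElt (n * τ.genus) ∧
    ∀ (x₀ : K) (ψ : Fin τ.m → K), T.IsPoint x₀ ψ →
      ∃ j : ℕ, j ≤ n * τ.genus ∧ n ∣ j ∧
        T.OrdGE x₀ ψ h.toElt j ∧ ¬ T.OrdGE x₀ ψ h.toElt (j + 1)

/-- `h` and `h'` define the same ideal class: `h h'^(n-1)` is an `n`-th power in `B`. -/
def Equiv (n : ℕ) (h h' : BElt τ K (n * τ.genus)) : Prop :=
  ∃ u : BElt τ K (n * τ.genus),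
    T.npow u.toElt n = T.mul h.toElt (T.npow h'.toElt (n - 1))

/-- There are exactly `n^(2g)` classes of `n`-torsion. -/
def Count (n : ℕ) : Prop :=
  ∃ hs : Fin (n ^ (2 * τ.genus)) → BElt τ K (n * τ.genus),
    (∀ a, T.InH n (hs a)) ∧ (∀ a b, a ≠ b → ¬ T.Equiv n (hs a) (hs b)) ∧
      ∀ h, T.InH n h → ∃ a, T.Equiv n h (hs a)

end Tab

end Defs

/-! ## The three top-level interfaces -/

universe u u₁ u₂

/-- **FO** ("definable by construction"): for every type and every `n` the statement
"every valid table has exactly `n^(2g)` classes" is a first-order sentence in the language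
of rings (the same sentence in universes `u` and `0`). -/
def Spec_FO : Prop :=
  ∀ (τ : WType) (n : ℕ), ∃ φ : Language.ring.Sentence,
    (∀ (K : Type u) [Field K] [Ring.CompatibleRing K],
      K ⊨ φ ↔ ∀ T : Tab τ K, T.Valid → T.Count n) ∧
    (∀ (K : Type) [Field K] [Ring.CompatibleRing K],
      K ⊨ φ ↔ ∀ T : Tab τ K, T.Valid → T.Count n)

/-- **Fp** (zeta function route): the count holds over the algebraic closure of `𝔽_p`
for every prime `ℓ ≠ p`. -/
def Spec_Fp : Prop :=
  ∀ (p : ℕ) [Fact p.Prime] (τ : WType) (ℓ : ℕ) [Fact ℓ.Prime] (k : ℕ), ℓ ≠ p →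
    ∀ T : Tab τ (AlgebraicClosure (ZMod p)), T.Valid → T.Count (ℓ ^ k)

/-- **W** (dictionary in characteristic `0`): every function field as in S27 has a valid table
whose type has the right genus and whose count computes the torsion of `Pic⁰`. -/
def Spec_W : Prop :=
  ∀ (K : Type u₁) (F : Type u₂) [Field K] [Field F] [Algebra K F] [IsAlgClosed K] [CharZero K]
    [IsCurveOver K F] [Algebra.EssFiniteType K F],
    ∃ (τ : WType) (T : Tab τ K), T.Valid ∧ τ.genus = genusFF K F ∧
      ∀ n : ℕ, 0 < n → T.Count n → Nat.card (Pic0.torsion K F n) = n ^ (2 * τ.genus)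

/-! ## Assembly -/

/-- Lefschetz transfer: from `Spec_FO` and `Spec_Fp`, the count holds for every valid table
over every algebraically closed field of characteristic `0`. -/
theorem count_of_charZero (hFO : Spec_FO.{u}) (hFp : Spec_Fp)
    (K : Type u) [Field K] [IsAlgClosed K] [CharZero K]
    (τ : WType) (ℓ : ℕ) [hℓ : Fact ℓ.Prime] (k : ℕ) (T : Tab τ K) (hT : T.Valid) :
    T.Count (ℓ ^ k) := by
  obtain ⟨φ, hφu, hφ0⟩ := hFO τ (ℓ ^ k)
  let _ := Ring.compatibleRingOfRing K
  have : CharP K 0 := CharP.ofCharZero K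
  have key : Language.Theory.ACF 0 ⊨ᵇ φ := by
    rw [Field.ACF_zero_realize_iff_infinite_ACF_prime_realize]
    have hsub : {p : Nat.Primes | (p : ℕ) ≠ ℓ} ⊆ {p : Nat.Primes | Language.Theory.ACF p ⊨ᵇ φ} := by
      intro p hp
      have : Fact (p : ℕ).Prime := ⟨p.2⟩
      let _ := Ring.compatibleRingOfRing (AlgebraicClosure (ZMod p))
      have h1 : AlgebraicClosure (ZMod p) ⊨ φ :=
        (hφ0 (AlgebraicClosure (ZMod p))).2 fun T hT => hFp p τ ℓ k (Ne.symm hp) T hT
      exact ((Field.ACF_isComplete (Or.inl p.2)).realize_sentence_iff φ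
        (AlgebraicClosure (ZMod p))).1 h1
    refine Set.Infinite.mono hsub ?_
    have hinf : Set.Infinite (Set.univ : Set Nat.Primes) := Set.infinite_univ
    have hfin : Set.Finite {p : Nat.Primes | (p : ℕ) = ℓ} :=
      Set.Finite.subset (Set.finite_singleton (⟨ℓ, hℓ.out⟩ : Nat.Primes)) (by
        intro p hp
        exact Subtype.ext hp)
    have : {p : Nat.Primes | (p : ℕ) ≠ ℓ} = Set.univ \ {p : Nat.Primes | (p : ℕ) = ℓ} := by
      ext p
      simp
    rw [this]
    exact hinf.sdiff hfin
  exact (hφu K).1 (key.realize_sentence K) T hT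

/-- **Assembly**: the statement of S27 from the three interfaces. -/
theorem S27_of_specs (hFO : Spec_FO.{u₁}) (hFp : Spec_Fp) (hW : Spec_W.{u₁, u₂})
    (K : Type u₁) (F : Type u₂) [Field K] [Field F] [Algebra K F] [IsAlgClosed K] [CharZero K]
    [IsCurveOver K F] [Algebra.EssFiniteType K F]
    (ℓ : ℕ) [Fact ℓ.Prime] (k : ℕ) :
    Nat.card (Pic0.torsion K F (ℓ ^ k)) = ℓ ^ (2 * genusFF K F * k) := by
  obtain ⟨τ, T, hT, hg, hcount⟩ := hW K F
  have hpos : 0 < ℓ ^ k := pow_pos (Fact.out : ℓ.Prime).pos k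
  rw [hcount (ℓ ^ k) hpos (count_of_charZero hFO hFp K τ ℓ k T hT), hg, ← pow_mul]
  congr 1
  ring

end Fermat.Agent.S27.helper3351
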