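import Mathlib
import Fermat.Agent.S27.helper3351_AlgSpec

/-!
# S27, algebraic route: Weierstrass pole-order basis ==> valid table (abstract core of W0)

`B` is a commutative `K`-algebra and a domain, with an abstract "pole order at one rational
place" `wt : B → ℕ` (only its values on nonzero elements matter).  From the properties

* `wt (a * b) = wt a + wt b`,
* `wt (a + b) ≤ max (wt a) (wt b)`,
* residue field `K`: if `wt a = wt b` then `a = c • b` or `wt (a - c • b) < wt a` for some `c : K`,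
* an element `x` of positive weight `m`, and every residue class modulo `m` contains a weight,

we construct the Weierstrass type `(m; ρ)`, the basis `ω i` of `B` over `K[x]`, the structure
constants and the table of `helper3351_AlgSpec`, and prove all fields of `Tab.Valid`
(`regular` from the hypothesis that every `K`-point of `B` has a one-generator cotangent space).
-/

set_option autoImplicit false

open Polynomial

namespace Fermat.Agent.S27.helper4345

open Fermat.Agent.S27.helper3351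

/-- An abstract pole-order function on a `K`-algebra `B` (only the values of `wt` on nonzero
elements are used). -/
structure PoleWeight (K B : Type*) [Field K] [CommRing B] [IsDomain B] [Algebra K B] where
  /-- the pole order -/
  wt : B → ℕ
  wt_mul : ∀ a b : B, a ≠ 0 → b ≠ 0 → wt (a * b) = wt a + wt b
  wt_add : ∀ a b : B, a ≠ 0 → b ≠ 0 → a + b ≠ 0 → wt (a + b) ≤ max (wt a) (wt b)
  exists_sub : ∀ a b : B, a ≠ 0 → b ≠ 0 → wt a = wt b →
    ∃ c : K, a = c • b ∨ wt (a - c • b) < wt a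
  /-- an element of positive weight -/
  x : B
  x_ne : x ≠ 0
  x_pos : 0 < wt x
  exists_mod : ∀ i : ℕ, i < wt x → ∃ b : B, b ≠ 0 ∧ wt b % wt x = i

namespace PoleWeight

variable {K B : Type*} [Field K] [CommRing B] [IsDomain B] [Algebra K B] (P : PoleWeight K B)

/-- The weight of `x`. -/
abbrev m : ℕ := P.wt P.x

open Classical in
/-- The weight with values in `WithBot ℕ` (`⊥` at `0`). -/
noncomputable def wd (b : B) : WithBot ℕ := if b = 0 then ⊥ else (P.wt b : WithBot ℕ)

@[simp] theorem wd_zero : P.wd 0 = ⊥ := by simp [wd]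

theorem wd_of_ne {b : B} (hb : b ≠ 0) : P.wd b = (P.wt b : WithBot ℕ) := by simp [wd, hb]

theorem wd_eq_bot {b : B} : P.wd b = ⊥ ↔ b = 0 := by
  by_cases hb : b = 0
  · simp [hb]
  · simp [wd, hb]

theorem bot_lt_wd {b : B} (hb : b ≠ 0) : ⊥ < P.wd b := by
  rw [bot_lt_iff_ne_bot, ne_eq, wd_eq_bot]; exact hb

theorem wd_mul (a b : B) : P.wd (a * b) = P.wd a + P.wd b := by
  by_cases ha : a = 0
  · simp [ha]
  by_cases hb : b = 0
  · simp [hb]
  rw [P.wd_of_ne ha, P.wd_of_ne hb, P.wd_of_ne (mul_ne_zero ha hb), P.wt_mul a b ha hb]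
  rfl

theorem wd_add_le (a b : B) : P.wd (a + b) ≤ max (P.wd a) (P.wd b) := by
  by_cases ha : a = 0
  · simp [ha]
  by_cases hb : b = 0
  · simp [hb]
  by_cases hab : a + b = 0
  · simp [hab]
  rw [P.wd_of_ne ha, P.wd_of_ne hb, P.wd_of_ne hab]
  rcases le_max_iff.mp (P.wt_add a b ha hb hab) with h | h
  · exact le_max_of_le_left (WithBot.coe_le_coe.mpr h)
  · exact le_max_of_le_right (WithBot.coe_le_coe.mpr h)

theorem wt_one : P.wt 1 = 0 := by
  have h := P.wt_mul 1 1 one_ne_zero one_ne_zero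
  rw [mul_one] at h
  omega

@[simp] theorem wd_one : P.wd 1 = 0 := by
  rw [P.wd_of_ne one_ne_zero, P.wt_one]; rfl

theorem wt_neg_one : P.wt (-1) = 0 := by
  have h := P.wt_mul (-1) (-1) (neg_ne_zero.mpr one_ne_zero) (neg_ne_zero.mpr one_ne_zero)
  rw [neg_mul_neg, mul_one, P.wt_one] at h
  omega

theorem wd_neg (a : B) : P.wd (-a) = P.wd a := by
  have h : -a = (-1) * a := by ring
  rw [h, wd_mul, P.wd_of_ne (neg_ne_zero.mpr one_ne_zero), P.wt_neg_one]
  simp

theorem wd_sub_le (a b : B) : P.wd (a - b) ≤ max (P.wd a) (P.wd b) := by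
  rw [sub_eq_add_neg]
  exact (P.wd_add_le a (-b)).trans (by rw [wd_neg])

theorem wt_algebraMap {c : K} (hc : c ≠ 0) : P.wt (algebraMap K B c) = 0 := by
  have h1 : algebraMap K B c ≠ 0 := by
    rwa [ne_eq, map_eq_zero_iff _ (algebraMap K B).injective]
  have h2 : algebraMap K B c⁻¹ ≠ 0 := by
    rw [ne_eq, map_eq_zero_iff _ (algebraMap K B).injective]
    exact inv_ne_zero hc
  have h := P.wt_mul _ _ h1 h2
  rw [← map_mul, mul_inv_cancel₀ hc, map_one, P.wt_one] at h
  omega

theorem wd_algebraMap {c : K} (hc : c ≠ 0) : P.wd (algebraMap K B c) = 0 := by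
  have h1 : algebraMap K B c ≠ 0 := by
    rwa [ne_eq, map_eq_zero_iff _ (algebraMap K B).injective]
  rw [P.wd_of_ne h1, P.wt_algebraMap hc]; rfl

theorem wd_smul {c : K} (hc : c ≠ 0) (b : B) : P.wd (c • b) = P.wd b := by
  rw [Algebra.smul_def, wd_mul, P.wd_algebraMap hc, zero_add]

theorem wd_smul_le (c : K) (b : B) : P.wd (c • b) ≤ P.wd b := by
  by_cases hc : c = 0
  · simp [hc]
  · exact (P.wd_smul hc b).le

theorem wd_sum_lt {ι : Type*} (s : Finset ι) (f : ι → B) {w : WithBot ℕ} (hw : ⊥ < w)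
    (h : ∀ j ∈ s, P.wd (f j) < w) : P.wd (∑ j ∈ s, f j) < w := by
  classical
  induction s using Finset.induction_on with
  | empty => simpa using hw
  | insert a s ha ih =>
    rw [Finset.sum_insert ha]
    refine (P.wd_add_le _ _).trans_lt (max_lt (h a (Finset.mem_insert_self a s)) ?_)
    exact ih fun j hj => h j (Finset.mem_insert_of_mem hj)

theorem wd_add_eq_of_lt {a b : B} (h : P.wd b < P.wd a) : P.wd (a + b) = P.wd a := by
  refine le_antisymm ((P.wd_add_le a b).trans (max_le le_rfl h.le)) ?_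
  by_contra hlt
  rw [not_le] at hlt
  have h1 : P.wd a ≤ max (P.wd (a + b)) (P.wd b) := by
    have := P.wd_sub_le (a + b) b
    rwa [add_sub_cancel_right] at this
  exact absurd h1 (not_le.mpr (max_lt hlt h))

/-- Dominant term: if one term has strictly larger weight than all the others, the sum has
its weight. -/
theorem wd_sum_eq {ι : Type*} (s : Finset ι) (f : ι → B) (j₀ : ι) (hj₀ : j₀ ∈ s)
    (hne : f j₀ ≠ 0) (h : ∀ j ∈ s, j ≠ j₀ → P.wd (f j) < P.wd (f j₀)) :
    P.wd (∑ j ∈ s, f j) = P.wd (f j₀) := by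
  classical
  rw [← Finset.add_sum_erase s f hj₀]
  apply P.wd_add_eq_of_lt
  apply P.wd_sum_lt _ _ (P.bot_lt_wd hne)
  intro j hj
  exact h j (Finset.mem_of_mem_erase hj) (Finset.ne_of_mem_erase hj)

theorem wd_x_pow (e : ℕ) : P.wd (P.x ^ e) = ((P.m * e : ℕ) : WithBot ℕ) := by
  induction e with
  | zero => simp
  | succ n ih =>
    rw [pow_succ, wd_mul, ih, P.wd_of_ne P.x_ne]
    norm_cast

theorem wd_aeval {p : K[X]} (hp : p ≠ 0) :
    P.wd (aeval P.x p) = ((P.m * p.natDegree : ℕ) : WithBot ℕ) := by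
  rw [aeval_eq_sum_range]
  have hx : ∀ e : ℕ, P.x ^ e ≠ 0 := fun e => pow_ne_zero e P.x_ne
  have hlc : p.coeff p.natDegree ≠ 0 := by
    rwa [coeff_natDegree, ne_eq, leadingCoeff_eq_zero]
  rw [P.wd_sum_eq _ _ p.natDegree (Finset.self_mem_range_succ _)
    (smul_ne_zero hlc (hx _))]
  · rw [P.wd_smul hlc, wd_x_pow]
  · intro j hj hjne
    rw [P.wd_smul hlc, wd_x_pow]
    have hjlt : j < p.natDegree := lt_of_le_of_ne (Nat.lt_succ_iff.mp (Finset.mem_range.mp hj)) hjne
    refine (P.wd_smul_le _ _).trans_lt ?_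
    rw [wd_x_pow]
    exact_mod_cast Nat.mul_lt_mul_of_pos_left hjlt P.x_pos

theorem wt_of_wd {b : B} {n : ℕ} (h : P.wd b = (n : WithBot ℕ)) : b ≠ 0 ∧ P.wt b = n := by
  have hb : b ≠ 0 := by
    intro h0
    rw [h0, wd_zero] at h
    exact WithBot.bot_ne_coe h
  rw [P.wd_of_ne hb] at h
  exact ⟨hb, WithBot.coe_injective h⟩

theorem aeval_ne_zero {p : K[X]} (hp : p ≠ 0) : aeval P.x p ≠ 0 :=
  (P.wt_of_wd (P.wd_aeval hp)).1

/-! ### The minimal weights `ρ i` and the basis `ω i` -/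

/-- The set of weights in the residue class `i` modulo `m`. -/
def wtSet (i : ℕ) : Set ℕ := {s | ∃ b : B, b ≠ 0 ∧ P.wt b = s ∧ s % P.m = i}

theorem wtSet_nonempty (i : Fin P.m) : (P.wtSet i).Nonempty := by
  obtain ⟨b, hb, hbi⟩ := P.exists_mod i i.2
  exact ⟨P.wt b, b, hb, rfl, hbi⟩

/-- The least weight in the residue class `i` modulo `m`. -/
noncomputable def rho (i : Fin P.m) : ℕ := sInf (P.wtSet i)

theorem rho_mem (i : Fin P.m) : P.rho i ∈ P.wtSet i := Nat.sInf_mem (P.wtSet_nonempty i)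

theorem rho_mod (i : Fin P.m) : P.rho i % P.m = i := by
  obtain ⟨b, _, _, h⟩ := P.rho_mem i
  exact h

theorem rho_le (i : Fin P.m) {b : B} (hb : b ≠ 0) (h : P.wt b % P.m = i) :
    P.rho i ≤ P.wt b :=
  Nat.sInf_le ⟨b, hb, rfl, h⟩

theorem rho_zero (i : Fin P.m) (hi : (i : ℕ) = 0) : P.rho i = 0 := by
  have h := P.rho_le i one_ne_zero (by rw [P.wt_one, hi, Nat.zero_mod])
  rw [P.wt_one] at h
  omega

open Classical in
/-- The basis element of weight `ρ i` (with `ω 0 = 1`). -/
noncomputable def omega (i : Fin P.m) : B :=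
  if (i : ℕ) = 0 then 1 else (P.rho_mem i).choose

theorem omega_zero (i : Fin P.m) (hi : (i : ℕ) = 0) : P.omega i = 1 := by
  simp [omega, hi]

theorem omega_ne_zero (i : Fin P.m) : P.omega i ≠ 0 := by
  by_cases hi : (i : ℕ) = 0
  · rw [P.omega_zero i hi]; exact one_ne_zero
  · simp only [omega, hi, if_false]
    exact (P.rho_mem i).choose_spec.1

theorem wt_omega (i : Fin P.m) : P.wt (P.omega i) = P.rho i := by
  by_cases hi : (i : ℕ) = 0
  · rw [P.omega_zero i hi, P.wt_one, P.rho_zero i hi]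
  · simp only [omega, hi, if_false]
    exact (P.rho_mem i).choose_spec.2.1

theorem wd_omega (i : Fin P.m) : P.wd (P.omega i) = (P.rho i : WithBot ℕ) := by
  rw [P.wd_of_ne (P.omega_ne_zero i), P.wt_omega]

/-! ### The coordinate map `φ` -/

/-- `φ a = ∑ i, a i (x) * ω i`. -/
noncomputable def phi : (Fin P.m → K[X]) →ₗ[K] B where
  toFun a := ∑ i, aeval P.x (a i) * P.omega i
  map_add' a b := by
    simp only [Pi.add_apply, map_add, add_mul, Finset.sum_add_distrib]
  map_smul' c a := by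
    simp only [Pi.smul_apply, map_smul, smul_mul_assoc, Finset.smul_sum, RingHom.id_apply]

theorem phi_apply (a : Fin P.m → K[X]) : P.phi a = ∑ i, aeval P.x (a i) * P.omega i := rfl

theorem phi_single (i : Fin P.m) (p : K[X]) :
    P.phi (Pi.single i p) = aeval P.x p * P.omega i := by
  classical
  rw [phi_apply, Finset.sum_eq_single i]
  · rw [Pi.single_eq_same]
  · intro j _ hj
    rw [Pi.single_eq_of_ne hj, map_zero, zero_mul]
  · intro h
    exact absurd (Finset.mem_univ i) h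

theorem phi_smul (p : K[X]) (a : Fin P.m → K[X]) :
    P.phi (p • a) = aeval P.x p * P.phi a := by
  simp only [phi_apply, Pi.smul_apply, smul_eq_mul, map_mul, Finset.mul_sum, mul_assoc]

theorem wd_term {a : Fin P.m → K[X]} {i : Fin P.m} (h : a i ≠ 0) :
    P.wd (aeval P.x (a i) * P.omega i)
      = ((P.m * (a i).natDegree + P.rho i : ℕ) : WithBot ℕ) := by
  rw [wd_mul, P.wd_aeval h, wd_omega]
  rfl

theorem exists_max_term {a : Fin P.m → K[X]} (ha : a ≠ 0) :
    ∃ i₀, a i₀ ≠ 0 ∧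
      P.wd (P.phi a) = ((P.m * (a i₀).natDegree + P.rho i₀ : ℕ) : WithBot ℕ) ∧
      ∀ i, a i ≠ 0 → P.m * (a i).natDegree + P.rho i ≤ P.m * (a i₀).natDegree + P.rho i₀ := by
  classical
  have hne : (Finset.univ.filter fun i => a i ≠ 0).Nonempty := by
    by_contra h
    rw [Finset.not_nonempty_iff_eq_empty, Finset.filter_eq_empty_iff] at h
    exact ha (funext fun i => by simpa using h (Finset.mem_univ i))
  obtain ⟨i₀, hi₀, hmax⟩ :=
    Finset.exists_max_image _ (fun i => P.m * (a i).natDegree + P.rho i) hne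
  rw [Finset.mem_filter] at hi₀
  refine ⟨i₀, hi₀.2, ?_, fun i hi => hmax i (Finset.mem_filter.mpr ⟨Finset.mem_univ _, hi⟩)⟩
  rw [phi_apply, P.wd_sum_eq _ _ i₀ (Finset.mem_univ _)
    (mul_ne_zero (P.aeval_ne_zero hi₀.2) (P.omega_ne_zero i₀)), P.wd_term hi₀.2]
  intro j _ hj
  by_cases haj : a j = 0
  · rw [haj, map_zero, zero_mul, wd_zero]
    exact P.bot_lt_wd (mul_ne_zero (P.aeval_ne_zero hi₀.2) (P.omega_ne_zero i₀))
  · rw [P.wd_term haj, P.wd_term hi₀.2]
    have h1 := hmax j (Finset.mem_filter.mpr ⟨Finset.mem_univ _, haj⟩)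
    have h2 : P.m * (a j).natDegree + P.rho j ≠ P.m * (a i₀).natDegree + P.rho i₀ := by
      intro h
      have h3 := congrArg (· % P.m) h
      simp only [Nat.mul_add_mod, P.rho_mod] at h3
      exact hj (Fin.ext h3)
    exact WithBot.coe_lt_coe.mpr (lt_of_le_of_ne h1 h2)

theorem phi_ne_zero {a : Fin P.m → K[X]} (ha : a ≠ 0) : P.phi a ≠ 0 := by
  obtain ⟨_, _, h, _⟩ := P.exists_max_term ha
  exact (P.wt_of_wd h).1

theorem phi_injective : Function.Injective P.phi :=
  (injective_iff_map_eq_zero _).mpr fun _ h => by_contra fun ha => P.phi_ne_zero ha h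

/-- The weight of `φ a` is the largest `m * deg (a i) + ρ i`. -/
theorem wt_phi {a : Fin P.m → K[X]} (ha : a ≠ 0) :
    ∃ i₀, a i₀ ≠ 0 ∧ P.wt (P.phi a) = P.m * (a i₀).natDegree + P.rho i₀ ∧
      ∀ i, a i ≠ 0 → P.m * (a i).natDegree + P.rho i ≤ P.wt (P.phi a) := by
  obtain ⟨i₀, h0, h, hmax⟩ := P.exists_max_term ha
  have hw := (P.wt_of_wd h).2
  exact ⟨i₀, h0, hw, fun i hi => hw ▸ hmax i hi⟩

theorem wt_x_pow_mul_omega (e : ℕ) (i : Fin P.m) :
    P.x ^ e * P.omega i ≠ 0 ∧ P.wt (P.x ^ e * P.omega i) = P.m * e + P.rho i := by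
  apply P.wt_of_wd
  rw [wd_mul, wd_x_pow, wd_omega]
  rfl

theorem phi_surjective : Function.Surjective P.phi := by
  have key : ∀ n : ℕ, ∀ b : B, b ≠ 0 → P.wt b = n → ∃ a, P.phi a = b := by
    intro n
    induction n using Nat.strong_induction_on with
    | _ n ih =>
      intro b hb hn
      obtain ⟨i, hi⟩ : ∃ i : Fin P.m, (i : ℕ) = P.wt b % P.m :=
        ⟨⟨P.wt b % P.m, Nat.mod_lt _ P.x_pos⟩, rfl⟩
      have hle := P.rho_le i hb hi.symm
      have hmod : P.rho i % P.m = P.wt b % P.m := (P.rho_mod i).trans hi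
      obtain ⟨e, he⟩ : ∃ e, P.wt b = P.m * e + P.rho i := by
        obtain ⟨e, he⟩ := (Nat.modEq_iff_dvd' hle).mp hmod
        exact ⟨e, by omega⟩
      obtain ⟨hu0, hwu⟩ := P.wt_x_pow_mul_omega e i
      have hsingle : ∀ c : K, P.phi (Pi.single i (C c * X ^ e))
          = c • (P.x ^ e * P.omega i) := by
        intro c
        rw [phi_single, map_mul, aeval_C, map_pow, aeval_X, Algebra.smul_def, mul_assoc]
      obtain ⟨c, hc | hc⟩ := P.exists_sub b _ hb hu0 (by rw [hwu, ← he])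
      · exact ⟨_, (hsingle c).trans hc.symm⟩
      · by_cases h0 : b - c • (P.x ^ e * P.omega i) = 0
        · exact ⟨_, (hsingle c).trans (sub_eq_zero.mp h0).symm⟩
        · obtain ⟨a', ha'⟩ := ih _ (hn ▸ hc) _ h0 rfl
          refine ⟨a' + Pi.single i (C c * X ^ e), ?_⟩
          rw [map_add, ha', hsingle]
          ring
  intro b
  by_cases hb : b = 0
  · exact ⟨0, by rw [hb, map_zero]⟩
  · exact key _ b hb rfl

/-- `φ` as a `K`-linear equivalence. -/
noncomputable def phiEquiv : (Fin P.m → K[X]) ≃ₗ[K] B :=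
  LinearEquiv.ofBijective P.phi ⟨P.phi_injective, P.phi_surjective⟩

@[simp] theorem phiEquiv_apply (a : Fin P.m → K[X]) : P.phiEquiv a = P.phi a := rfl

@[simp] theorem phi_phiEquiv_symm (b : B) : P.phi (P.phiEquiv.symm b) = b :=
  P.phiEquiv.apply_symm_apply b

@[simp] theorem phiEquiv_symm_phi (a : Fin P.m → K[X]) : P.phiEquiv.symm (P.phi a) = a :=
  P.phiEquiv.symm_apply_apply a

/-! ### Structure constants and the table -/

/-- The structure constants: `ω i * ω j = ∑ k, c i j k (x) * ω k`. -/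
noncomputable def cst (i j k : Fin P.m) : K[X] := P.phiEquiv.symm (P.omega i * P.omega j) k

theorem omega_mul (i j : Fin P.m) :
    P.omega i * P.omega j = ∑ k, aeval P.x (P.cst i j k) * P.omega k :=
  (P.phi_phiEquiv_symm (P.omega i * P.omega j)).symm

theorem cst_comm (i j k : Fin P.m) : P.cst i j k = P.cst j i k := by
  unfold cst
  rw [mul_comm]

theorem phi_mulElt (a b : Fin P.m → K[X]) :
    P.phi (fun k => ∑ i, ∑ j, a i * b j * P.cst i j k) = P.phi a * P.phi b := by
  calc P.phi (fun k => ∑ i, ∑ j, a i * b j * P.cst i j k)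
      = ∑ k, ∑ i, ∑ j, aeval P.x (a i) * aeval P.x (b j) *
          (aeval P.x (P.cst i j k) * P.omega k) := by
        simp only [phi_apply, map_sum, map_mul, Finset.sum_mul, mul_assoc]
    _ = ∑ i, ∑ j, aeval P.x (a i) * aeval P.x (b j) *
          ∑ k, aeval P.x (P.cst i j k) * P.omega k := by
        rw [Finset.sum_comm]
        refine Finset.sum_congr rfl fun i _ => ?_
        rw [Finset.sum_comm]
        refine Finset.sum_congr rfl fun j _ => ?_
        rw [Finset.mul_sum]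
    _ = ∑ i, ∑ j, aeval P.x (a i) * aeval P.x (b j) * (P.omega i * P.omega j) := by
        simp only [← omega_mul]
    _ = P.phi a * P.phi b := by
        rw [phi_apply, phi_apply, Finset.sum_mul_sum]
        refine Finset.sum_congr rfl fun i _ => Finset.sum_congr rfl fun j _ => ?_
        ring

theorem cst_spec (i j : Fin P.m) :
    ∃ k₀, P.cst i j k₀ ≠ 0 ∧
      P.rho i + P.rho j = P.m * (P.cst i j k₀).natDegree + P.rho k₀ ∧
      ∀ k, P.cst i j k ≠ 0 → P.m * (P.cst i j k).natDegree + P.rho k ≤ P.rho i + P.rho j := by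
  have hne : P.omega i * P.omega j ≠ 0 := mul_ne_zero (P.omega_ne_zero i) (P.omega_ne_zero j)
  have ha : P.phiEquiv.symm (P.omega i * P.omega j) ≠ 0 := by
    intro h
    apply hne
    have := P.phi_phiEquiv_symm (P.omega i * P.omega j)
    rw [h, map_zero] at this
    exact this.symm
  obtain ⟨k₀, h0, hw, hmax⟩ := P.wt_phi ha
  rw [P.phi_phiEquiv_symm, P.wt_mul _ _ (P.omega_ne_zero i) (P.omega_ne_zero j),
    P.wt_omega, P.wt_omega] at hw hmax
  exact ⟨k₀, h0, hw, hmax⟩

theorem cst_wt (i j k : Fin P.m) (h : P.cst i j k ≠ 0) :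
    P.m * (P.cst i j k).natDegree + P.rho k ≤ P.rho i + P.rho j := by
  obtain ⟨_, _, _, hmax⟩ := P.cst_spec i j
  exact hmax k h

theorem cst_lead (i j k : Fin P.m) (h : ((i : ℕ) + j) % P.m = k) :
    P.cst i j k ≠ 0 ∧ P.m * (P.cst i j k).natDegree + P.rho k = P.rho i + P.rho j := by
  obtain ⟨k₀, h0, hw, _⟩ := P.cst_spec i j
  have hk : k₀ = k := by
    apply Fin.ext
    have h3 := congrArg (· % P.m) hw
    simp only [Nat.mul_add_mod, P.rho_mod] at h3
    rw [← h3, ← h, Nat.add_mod, P.rho_mod, P.rho_mod]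
  subst hk
  exact ⟨h0, hw.symm⟩

/-- The Weierstrass type `(m; ρ)`. -/
@[reducible] noncomputable def wtype : WType := ⟨P.m, P.rho⟩

theorem wtype_good : P.wtype.Good :=
  ⟨P.x_pos, fun i => ⟨P.rho_mod i, P.rho_zero i⟩⟩

theorem natDegree_cst_le (i j k : Fin P.m) : (P.cst i j k).natDegree ≤ P.wtype.D := by
  by_cases h : P.cst i j k = 0
  · rw [h, natDegree_zero]; exact Nat.zero_le _
  have h1 := P.cst_wt i j k h
  have hi : P.rho i ≤ ∑ l, P.rho l :=
    Finset.single_le_sum (fun _ _ => Nat.zero_le _) (Finset.mem_univ i)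
  have hj : P.rho j ≤ ∑ l, P.rho l :=
    Finset.single_le_sum (fun _ _ => Nat.zero_le _) (Finset.mem_univ j)
  have h2 : (P.cst i j k).natDegree ≤ P.m * (P.cst i j k).natDegree :=
    Nat.le_mul_of_pos_left _ P.x_pos
  show _ ≤ 2 * ∑ l : Fin P.m, P.rho l
  omega

/-- The table of structure constants. -/
noncomputable def table : Tab P.wtype K := fun i j k e => (P.cst i j k).coeff e

theorem table_c (i j k : Fin P.m) : P.table.c i j k = P.cst i j k := by
  unfold Tab.c polyOf table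
  rw [Fin.sum_univ_eq_sum_range (fun e => C ((P.cst i j k).coeff e) * X ^ e) (P.wtype.D + 1)]
  exact (as_sum_range_C_mul_X_pow' _ (Nat.lt_succ_of_le (P.natDegree_cst_le i j k))).symm

theorem table_mul (a b : Elt P.wtype K) :
    P.table.mul a b = fun k => ∑ i, ∑ j, a i * b j * P.cst i j k := by
  funext k
  simp only [Tab.mul, table_c]

/-- `φ` is multiplicative for the multiplication of the table. -/
theorem phi_mul (a b : Elt P.wtype K) : P.phi (P.table.mul a b) = P.phi a * P.phi b := by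
  rw [table_mul]
  exact P.phi_mulElt a b

theorem phi_ite_zero (p : K[X]) :
    P.phi (fun i : Fin P.m => if (i : ℕ) = 0 then p else 0) = aeval P.x p := by
  rw [phi_apply, Finset.sum_eq_single (⟨0, P.x_pos⟩ : Fin P.m)]
  · rw [if_pos rfl, P.omega_zero _ rfl, mul_one]
  · intro j _ hj
    have : (j : ℕ) ≠ 0 := fun h => hj (Fin.ext h)
    rw [if_neg this, map_zero, zero_mul]
  · intro h
    exact absurd (Finset.mem_univ _) h

theorem phi_ite_eq (j : Fin P.m) (p : K[X]) :
    P.phi (fun i : Fin P.m => if i = j then p else 0) = aeval P.x p * P.omega j := by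
  rw [phi_apply, Finset.sum_eq_single j]
  · rw [if_pos rfl]
  · intro i _ hi
    rw [if_neg hi, map_zero, zero_mul]
  · intro h
    exact absurd (Finset.mem_univ _) h

theorem phi_one : P.phi (Elt.one : Elt P.wtype K) = 1 := by
  have h := P.phi_ite_zero 1
  rw [map_one] at h
  exact h

theorem phi_e (j : Fin P.m) : P.phi (Elt.e j : Elt P.wtype K) = P.omega j := by
  have h := P.phi_ite_eq j 1
  rw [map_one, one_mul] at h
  exact h

theorem table_one_mul (j : Fin P.m) :
    P.table.mul Elt.one (Elt.e j) = (Elt.e j : Elt P.wtype K) :=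
  P.phi_injective (by rw [phi_mul, phi_one, one_mul])

theorem table_comm (i j k : Fin P.m) : P.table.c i j k = P.table.c j i k := by
  rw [table_c, table_c, cst_comm]

theorem table_assoc (i j k : Fin P.m) :
    P.table.mul (P.table.mul (Elt.e i) (Elt.e j)) (Elt.e k)
      = P.table.mul (Elt.e i) (P.table.mul (Elt.e j) (Elt.e k)) :=
  P.phi_injective (by simp only [phi_mul, mul_assoc])

theorem table_wt (i j k : Fin P.m) (h : P.table.c i j k ≠ 0) :
    P.wtype.m * (P.table.c i j k).natDegree + P.wtype.ρ k ≤ P.wtype.ρ i + P.wtype.ρ j := by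
  rw [table_c] at h ⊢
  exact P.cst_wt i j k h

theorem table_lead (i j k : Fin P.m) (h : ((i : ℕ) + j) % P.wtype.m = k) :
    P.table.c i j k ≠ 0 ∧
      P.wtype.m * (P.table.c i j k).natDegree + P.wtype.ρ k = P.wtype.ρ i + P.wtype.ρ j := by
  rw [table_c]
  exact P.cst_lead i j k h

/-- The weight of `φ a` in the form of `wtLE` of the specification. -/
theorem wt_phi_le_iff {a : Elt P.wtype K} (ha : a ≠ 0) (t : ℕ) :
    P.wt (P.phi a) ≤ t ↔ wtLE a t := by
  obtain ⟨i₀, h0, hw, hmax⟩ := P.wt_phi ha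
  constructor
  · intro h i hi
    exact (hmax i hi).trans h
  · intro h
    rw [hw]
    exact h i₀ h0

/-! ### Points and regularity -/

/-- Evaluation of coordinates at a point `(x₀, ψ)`. -/
noncomputable def evCoord (x₀ : K) (ψ : Fin P.m → K) : (Fin P.m → K[X]) →ₗ[K] K where
  toFun a := ∑ i, (a i).eval x₀ * ψ i
  map_add' a b := by
    simp only [Pi.add_apply, eval_add, add_mul, Finset.sum_add_distrib]
  map_smul' c a := by
    simp only [Pi.smul_apply, eval_smul, smul_eq_mul, Finset.mul_sum, mul_assoc,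
      RingHom.id_apply]

/-- The linear form `b ↦ ∑ i, a i (x₀) * ψ i` for `b = φ a`. -/
noncomputable def ptLin (x₀ : K) (ψ : Fin P.m → K) : B →ₗ[K] K :=
  (P.evCoord x₀ ψ).comp P.phiEquiv.symm.toLinearMap

theorem ptLin_phi (x₀ : K) (ψ : Fin P.m → K) (a : Fin P.m → K[X]) :
    P.ptLin x₀ ψ (P.phi a) = ∑ i, (a i).eval x₀ * ψ i := by
  simp only [ptLin, LinearMap.comp_apply, LinearEquiv.coe_coe, phiEquiv_symm_phi]
  rfl

theorem ptLin_one {x₀ : K} {ψ : Fin P.m → K} (h : P.table.IsPoint x₀ ψ) :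
    P.ptLin x₀ ψ 1 = 1 := by
  rw [← P.phi_one, ptLin_phi, Finset.sum_eq_single (⟨0, P.x_pos⟩ : Fin P.m)]
  · have := h.1 ⟨0, P.x_pos⟩ rfl
    simp only [Elt.one, if_pos, eval_one, one_mul]
    exact this
  · intro j _ hj
    have : (j : ℕ) ≠ 0 := fun h => hj (Fin.ext h)
    simp only [Elt.one, if_neg this, eval_zero, zero_mul]
  · intro h
    exact absurd (Finset.mem_univ _) h

theorem ptLin_mul {x₀ : K} {ψ : Fin P.m → K} (h : P.table.IsPoint x₀ ψ) (b b' : B) :
    P.ptLin x₀ ψ (b * b') = P.ptLin x₀ ψ b * P.ptLin x₀ ψ b' := by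
  obtain ⟨a, rfl⟩ := P.phi_surjective b
  obtain ⟨a', rfl⟩ := P.phi_surjective b'
  have hc : ∀ i j, ψ i * ψ j = ∑ k, (P.cst i j k).eval x₀ * ψ k := by
    intro i j
    have := h.2 i j
    simp only [table_c] at this
    exact this
  rw [← P.phi_mulElt, ptLin_phi, ptLin_phi, ptLin_phi]
  calc ∑ k, (∑ i, ∑ j, a i * a' j * P.cst i j k).eval x₀ * ψ k
      = ∑ k, ∑ i, ∑ j, (a i).eval x₀ * (a' j).eval x₀ * ((P.cst i j k).eval x₀ * ψ k) := by
        simp only [eval_finsetSum, eval_mul, Finset.sum_mul, mul_assoc]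
    _ = ∑ i, ∑ j, (a i).eval x₀ * (a' j).eval x₀ * ∑ k, (P.cst i j k).eval x₀ * ψ k := by
        rw [Finset.sum_comm]
        refine Finset.sum_congr rfl fun i _ => ?_
        rw [Finset.sum_comm]
        refine Finset.sum_congr rfl fun j _ => ?_
        rw [Finset.mul_sum]
    _ = ∑ i, ∑ j, (a i).eval x₀ * (a' j).eval x₀ * (ψ i * ψ j) := by
        simp only [← hc]
    _ = (∑ i, (a i).eval x₀ * ψ i) * ∑ j, (a' j).eval x₀ * ψ j := by
        rw [Finset.sum_mul_sum]
        refine Finset.sum_congr rfl fun i _ => Finset.sum_congr rfl fun j _ => ?_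
        ring

/-- The `K`-algebra homomorphism `B → K` attached to a point of the table. -/
noncomputable def pointHom (x₀ : K) (ψ : Fin P.m → K) (h : P.table.IsPoint x₀ ψ) : B →ₐ[K] K :=
  AlgHom.ofLinearMap (P.ptLin x₀ ψ) (P.ptLin_one h) (P.ptLin_mul h)

theorem pointHom_phi (x₀ : K) (ψ : Fin P.m → K) (h : P.table.IsPoint x₀ ψ)
    (a : Fin P.m → K[X]) : P.pointHom x₀ ψ h (P.phi a) = ∑ i, (a i).eval x₀ * ψ i :=
  P.ptLin_phi x₀ ψ a

theorem phi_genElt_none (x₀ : K) (ψ : Fin P.m → K) :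
    P.phi (genElt (τ := P.wtype) x₀ ψ none) = P.x - algebraMap K B x₀ := by
  have h := P.phi_ite_zero (X - C x₀)
  rw [map_sub, aeval_X, aeval_C] at h
  exact h

theorem phi_genElt_some (x₀ : K) (ψ : Fin P.m → K) (j : Fin P.m) :
    P.phi (genElt (τ := P.wtype) x₀ ψ (some j)) = P.omega j - algebraMap K B (ψ j) := by
  have h1 := P.phi_ite_eq j 1
  have h2 := P.phi_ite_zero (C (ψ j))
  rw [map_one, one_mul] at h1
  rw [aeval_C] at h2
  rw [← h1, ← h2, ← map_sub]
  rfl

theorem pointHom_x (x₀ : K) (ψ : Fin P.m → K) (h : P.table.IsPoint x₀ ψ) :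
    P.pointHom x₀ ψ h P.x = x₀ := by
  have h1 := P.phi_ite_zero X
  rw [aeval_X] at h1
  rw [← h1, pointHom_phi, Finset.sum_eq_single (⟨0, P.x_pos⟩ : Fin P.m)]
  · rw [if_pos rfl, eval_X, h.1 ⟨0, P.x_pos⟩ rfl, mul_one]
  · intro j _ hj
    have : (j : ℕ) ≠ 0 := fun h => hj (Fin.ext h)
    rw [if_neg this, eval_zero, zero_mul]
  · intro h
    exact absurd (Finset.mem_univ _) h

theorem pointHom_omega (x₀ : K) (ψ : Fin P.m → K) (h : P.table.IsPoint x₀ ψ) (j : Fin P.m) :
    P.pointHom x₀ ψ h (P.omega j) = ψ j := by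
  have h1 := P.phi_ite_eq j 1
  rw [map_one, one_mul] at h1
  rw [← h1, pointHom_phi, Finset.sum_eq_single j]
  · rw [if_pos rfl, eval_one, one_mul]
  · intro i _ hi
    rw [if_neg hi, eval_zero, zero_mul]
  · intro h
    exact absurd (Finset.mem_univ _) h


/-- The kernel of a point is generated by the images of the generators `genElt`. -/
theorem exists_eq_sum_gen (x₀ : K) (ψ : Fin P.m → K) (h : P.table.IsPoint x₀ ψ) (b : B)
    (hb : P.pointHom x₀ ψ h b = 0) :
    ∃ β : Option (Fin P.m) → B,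
      b = ∑ a, β a * P.phi (genElt (τ := P.wtype) x₀ ψ a) := by
  obtain ⟨a, rfl⟩ := P.phi_surjective b
  rw [pointHom_phi] at hb
  refine ⟨fun o => match o with
    | none => P.phi fun i => a i /ₘ (X - C x₀)
    | some i => algebraMap K B ((a i).eval x₀), ?_⟩
  rw [Fintype.sum_option]
  simp only [P.phi_genElt_none, P.phi_genElt_some]
  have hdiv : ∀ i, a i = (X - C x₀) * (a i /ₘ (X - C x₀)) + C ((a i).eval x₀) := by
    intro i
    have := modByMonic_add_div (a i) (X - C x₀)
    rw [modByMonic_X_sub_C_eq_C_eval] at this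
    rw [add_comm]
    exact this.symm
  have h1 : P.phi a = (P.x - algebraMap K B x₀) * P.phi (fun i => a i /ₘ (X - C x₀))
      + ∑ i, algebraMap K B ((a i).eval x₀) * P.omega i := by
    have h2 : a = (X - C x₀) • (fun i => a i /ₘ (X - C x₀)) + fun i => C ((a i).eval x₀) := by
      funext i
      exact hdiv i
    conv_lhs => rw [h2]
    rw [map_add, phi_smul, map_sub, aeval_X, aeval_C]
    congr 1
    rw [phi_apply]
    simp only [aeval_C]
  rw [h1]
  have h3 : ∑ i, algebraMap K B ((a i).eval x₀) * P.omega i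
      = ∑ i, algebraMap K B ((a i).eval x₀) * (P.omega i - algebraMap K B (ψ i)) := by
    have : ∑ i, algebraMap K B ((a i).eval x₀) * (P.omega i - algebraMap K B (ψ i))
        = ∑ i, algebraMap K B ((a i).eval x₀) * P.omega i
          - algebraMap K B (∑ i, (a i).eval x₀ * ψ i) := by
      simp only [mul_sub, Finset.sum_sub_distrib, map_sum, map_mul]
    rw [this, hb, map_zero, sub_zero]
  rw [h3]
  ring

/-- Truncation of the coordinates modulo `(X - x₀)^2`. -/
theorem exists_trunc (τ : WType) (x₀ : K) (r : Elt τ K) :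
    ∃ (b : BElt τ K 1) (s : Elt τ K), r = b.toElt + (X - C x₀) ^ 2 • s := by
  have hq : ((X - C x₀) ^ 2 : K[X]).Monic := (monic_X_sub_C x₀).pow 2
  have hq1 : ((X - C x₀) ^ 2 : K[X]) ≠ 1 := by
    intro h
    have := congrArg natDegree h
    rw [natDegree_pow, natDegree_X_sub_C, natDegree_one] at this
    omega
  refine ⟨fun i e => ((r i) %ₘ (X - C x₀) ^ 2).coeff e, fun i => (r i) /ₘ (X - C x₀) ^ 2, ?_⟩
  funext i
  have hdeg : ((r i) %ₘ (X - C x₀) ^ 2).natDegree < 1 + 1 := by
    have := natDegree_modByMonic_lt (r i) hq hq1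
    rwa [natDegree_pow, natDegree_X_sub_C] at this
  simp only [Pi.add_apply, Pi.smul_apply, smul_eq_mul, BElt.toElt, polyOf]
  rw [Fin.sum_univ_eq_sum_range (fun e => C (((r i) %ₘ (X - C x₀) ^ 2).coeff e) * X ^ e) (1 + 1),
    ← as_sum_range_C_mul_X_pow' _ hdeg]
  exact (modByMonic_add_div (r i) _).symm

/-- A constant as a bounded coefficient tuple. -/
theorem exists_const (τ : WType) (μ : K) :
    ∃ b : BElt τ K 1, b.toElt = fun i : Fin τ.m => if (i : ℕ) = 0 then C μ else 0 := by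
  refine ⟨fun i e => if (i : ℕ) = 0 ∧ (e : ℕ) = 0 then μ else 0, ?_⟩
  funext i
  simp only [BElt.toElt, polyOf]
  by_cases hi : (i : ℕ) = 0
  · simp [hi, Fin.sum_univ_two]
  · simp [hi]

/-- Regularity of the table at a point, from a one-generator cotangent space. -/
theorem table_regularAt (x₀ : K) (ψ : Fin P.m → K) (hpt : P.table.IsPoint x₀ ψ)
    (hreg : ∃ π ∈ RingHom.ker (P.pointHom x₀ ψ hpt),
      RingHom.ker (P.pointHom x₀ ψ hpt) ≤
        Ideal.span {π} ⊔ RingHom.ker (P.pointHom x₀ ψ hpt) ^ 2) :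
    P.table.RegularAt x₀ ψ := by
  classical
  obtain ⟨π, hπ, hle⟩ := hreg
  have hχ : ∀ b : B, b ∈ RingHom.ker (P.pointHom x₀ ψ hpt) ↔ P.pointHom x₀ ψ hpt b = 0 :=
    fun b => RingHom.mem_ker
  -- the generators
  have hγn : ∀ a, P.phi (genElt (τ := P.wtype) x₀ ψ a) ∈ RingHom.ker (P.pointHom x₀ ψ hpt) := by
    intro a
    rw [hχ]
    cases a with
    | none => rw [P.phi_genElt_none, map_sub, P.pointHom_x, AlgHom.commutes]; simp
    | some j => rw [P.phi_genElt_some, map_sub, P.pointHom_omega, AlgHom.commutes]; simp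
  have hspan : RingHom.ker (P.pointHom x₀ ψ hpt)
      ≤ Ideal.span (Set.range fun a => P.phi (genElt (τ := P.wtype) x₀ ψ a)) := by
    intro b hb
    obtain ⟨β, hβ⟩ := P.exists_eq_sum_gen x₀ ψ hpt b ((hχ b).mp hb)
    exact Ideal.mem_span_range_iff_exists_fun.mpr ⟨β, hβ.symm⟩
  have hsq : RingHom.ker (P.pointHom x₀ ψ hpt) ^ 2 ≤
      Ideal.span (Set.range fun p : Option (Fin P.m) × Option (Fin P.m) =>
        P.phi (genElt (τ := P.wtype) x₀ ψ p.1) * P.phi (genElt (τ := P.wtype) x₀ ψ p.2)) := by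
    rw [sq]
    refine (Ideal.mul_mono hspan hspan).trans ?_
    rw [Ideal.span_mul_span']
    apply Ideal.span_mono
    rintro _ ⟨_, ⟨a, rfl⟩, _, ⟨a', rfl⟩, rfl⟩
    exact ⟨(a, a'), rfl⟩
  -- modulo the square, every element of the kernel is a multiple of `π`
  have h1 : ∀ b ∈ RingHom.ker (P.pointHom x₀ ψ hpt),
      ∃ μ : K, b - μ • π ∈ RingHom.ker (P.pointHom x₀ ψ hpt) ^ 2 := by
    intro b hb
    obtain ⟨r, n₂, hn₂, rfl⟩ := Ideal.mem_span_singleton_sup.mp (hle hb)
    refine ⟨P.pointHom x₀ ψ hpt r, ?_⟩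
    have h2 : r * π + n₂ - P.pointHom x₀ ψ hpt r • π
        = (r - algebraMap K B (P.pointHom x₀ ψ hpt r)) * π + n₂ := by
      rw [Algebra.smul_def]
      ring
    rw [h2]
    refine Ideal.add_mem _ ?_ hn₂
    rw [sq]
    refine Ideal.mul_mem_mul ?_ hπ
    rw [hχ, map_sub, AlgHom.commutes]
    simp
  -- choice of `lam`
  have h2 : ∃ lam : Option (Fin P.m) → K, ∀ b ∈ RingHom.ker (P.pointHom x₀ ψ hpt),
      ∃ μ : K, b - μ • (∑ a, lam a • P.phi (genElt (τ := P.wtype) x₀ ψ a))
        ∈ RingHom.ker (P.pointHom x₀ ψ hpt) ^ 2 := by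
    by_cases hall : ∀ a, P.phi (genElt (τ := P.wtype) x₀ ψ a)
        ∈ RingHom.ker (P.pointHom x₀ ψ hpt) ^ 2
    · refine ⟨0, fun b hb => ⟨0, ?_⟩⟩
      rw [zero_smul, sub_zero]
      have : Ideal.span (Set.range fun a => P.phi (genElt (τ := P.wtype) x₀ ψ a))
          ≤ RingHom.ker (P.pointHom x₀ ψ hpt) ^ 2 := by
        rw [Ideal.span_le]
        rintro _ ⟨a, rfl⟩
        exact hall a
      exact this (hspan hb)
    · obtain ⟨a₀, ha₀⟩ := not_forall.mp hall
      obtain ⟨μ₀, hμ₀⟩ := h1 _ (hγn a₀)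
      have hμ₀ne : μ₀ ≠ 0 := by
        rintro rfl
        rw [zero_smul, sub_zero] at hμ₀
        exact ha₀ hμ₀
      refine ⟨Pi.single a₀ 1, fun b hb => ?_⟩
      obtain ⟨μ, hμ⟩ := h1 b hb
      refine ⟨μ / μ₀, ?_⟩
      have hsum : ∑ a, (Pi.single a₀ (1 : K) : Option (Fin P.m) → K) a
          • P.phi (genElt (τ := P.wtype) x₀ ψ a) = P.phi (genElt (τ := P.wtype) x₀ ψ a₀) := by
        rw [Finset.sum_eq_single a₀]
        · rw [Pi.single_eq_same, one_smul]
        · intro a _ ha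
          rw [Pi.single_eq_of_ne ha, zero_smul]
        · intro h
          exact absurd (Finset.mem_univ _) h
      rw [hsum]
      have h3 : b - (μ / μ₀) • P.phi (genElt (τ := P.wtype) x₀ ψ a₀)
          = (b - μ • π) - algebraMap K B (μ / μ₀)
            * (P.phi (genElt (τ := P.wtype) x₀ ψ a₀) - μ₀ • π) := by
        have h4 : algebraMap K B (μ / μ₀) * (μ₀ • π) = μ • π := by
          rw [Algebra.smul_def, Algebra.smul_def, ← mul_assoc, ← map_mul, div_mul_cancel₀ _ hμ₀ne]
        rw [mul_sub, h4, Algebra.smul_def]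
        ring
      rw [h3]
      exact Ideal.sub_mem _ hμ (Ideal.mul_mem_left _ _ hμ₀)
  obtain ⟨lam, hlam⟩ := h2
  refine ⟨lam, fun a => ?_⟩
  obtain ⟨μ, hμ⟩ := hlam _ (hγn a)
  obtain ⟨c, hc⟩ := Ideal.mem_span_range_iff_exists_fun.mp (hsq hμ)
  choose b2 s2 hb2 using fun p : Option (Fin P.m) × Option (Fin P.m) =>
    exists_trunc P.wtype x₀ (P.phiEquiv.symm (c p))
  have hphib2 : ∀ p, P.phi (b2 p).toElt = c p - aeval P.x ((X - C x₀) ^ 2) * P.phi (s2 p) := by
    intro p
    have h := congrArg P.phi (hb2 p)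
    rw [P.phi_phiEquiv_symm, map_add, P.phi_smul] at h
    rw [h]
    ring
  -- the constant `μ`
  obtain ⟨bμ, hbμ⟩ := exists_const P.wtype μ
  have hlamsum : (fun i' => ∑ a', C (lam a') * genElt (τ := P.wtype) x₀ ψ a' i')
      = ∑ a', C (lam a') • genElt (τ := P.wtype) x₀ ψ a' := by
    funext i'
    simp only [Finset.sum_apply, Pi.smul_apply, smul_eq_mul]
  refine ⟨bμ, fun a' a'' => b2 (a', a''), ?_⟩
  have hE : genElt (τ := P.wtype) x₀ ψ a
      - P.table.mul (fun i' => ∑ a', C (lam a') * genElt (τ := P.wtype) x₀ ψ a' i') bμ.toElt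
      - ∑ a', ∑ a'', P.table.mul
          (P.table.mul (genElt (τ := P.wtype) x₀ ψ a') (genElt (τ := P.wtype) x₀ ψ a''))
          (b2 (a', a'')).toElt
      = (X - C x₀) ^ 2 • P.phiEquiv.symm (∑ p : Option (Fin P.m) × Option (Fin P.m),
          P.phi (genElt (τ := P.wtype) x₀ ψ p.1) * P.phi (genElt (τ := P.wtype) x₀ ψ p.2)
            * P.phi (s2 p)) := by
    apply P.phi_injective
    rw [map_sub, map_sub, P.phi_mul, P.phi_smul, P.phi_phiEquiv_symm, hbμ, P.phi_ite_zero,
      aeval_C, hlamsum, map_sum, map_sum]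
    simp only [map_sum, P.phi_mul, P.phi_smul, aeval_C, hphib2]
    rw [← Fintype.sum_prod_type'
      (f := fun a' a'' => P.phi (genElt (τ := P.wtype) x₀ ψ a')
        * P.phi (genElt (τ := P.wtype) x₀ ψ a'')
        * (c (a', a'') - aeval P.x ((X - C x₀) ^ 2) * P.phi (s2 (a', a''))))]
    have hc' : P.phi (genElt (τ := P.wtype) x₀ ψ a)
        = μ • ∑ a', lam a' • P.phi (genElt (τ := P.wtype) x₀ ψ a')
          + ∑ p : Option (Fin P.m) × Option (Fin P.m), c p *
            (P.phi (genElt (τ := P.wtype) x₀ ψ p.1) * P.phi (genElt (τ := P.wtype) x₀ ψ p.2)) := by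
      rw [hc]
      ring
    rw [hc']
    have e1 : μ • ∑ a', lam a' • P.phi (genElt (τ := P.wtype) x₀ ψ a')
        = (∑ x, algebraMap K B (lam x) * P.phi (genElt (τ := P.wtype) x₀ ψ x))
          * algebraMap K B μ := by
      simp only [Algebra.smul_def]
      ring
    rw [e1, add_sub_cancel_left, ← Finset.sum_sub_distrib, Finset.mul_sum]
    refine Finset.sum_congr rfl fun p _ => ?_
    simp only [Prod.mk.eta]
    ring
  intro i
  have := congrFun hE i
  rw [this]
  exact Dvd.intro _ rfl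

/-- **The table of a pole-order datum is valid**, provided every `K`-point of `B` has a
one-generator cotangent space. -/
theorem table_valid
    (hreg : ∀ χ : B →ₐ[K] K, ∃ π ∈ RingHom.ker χ,
      RingHom.ker χ ≤ Ideal.span {π} ⊔ RingHom.ker χ ^ 2) :
    P.table.Valid where
  good := P.wtype_good
  one_mul := P.table_one_mul
  comm := P.table_comm
  assoc := P.table_assoc
  wt := P.table_wt
  lead := P.table_lead
  regular := fun x₀ ψ hpt => P.table_regularAt x₀ ψ hpt (hreg _)

/-- In a Dedekind domain every `K`-point has a one-generator cotangent space. -/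
theorem exists_generator_of_isDedekindDomain {K B : Type*} [Field K] [CommRing B]
    [IsDedekindDomain B] [Algebra K B] (χ : B →ₐ[K] K) :
    ∃ π ∈ RingHom.ker χ, RingHom.ker χ ≤ Ideal.span {π} ⊔ RingHom.ker χ ^ 2 := by
  have hsurj : Function.Surjective χ := fun c => ⟨algebraMap K B c, χ.commutes c⟩
  have hmax : (RingHom.ker χ).IsMaximal := RingHom.ker_isMaximal_of_surjective χ hsurj
  have hprime : (RingHom.ker χ).IsPrime := hmax.isPrime
  by_cases hbot : RingHom.ker χ = ⊥
  · exact ⟨0, Ideal.zero_mem _, by rw [hbot]; exact bot_le⟩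
  · obtain ⟨π, hπ, hπ2⟩ := SetLike.exists_of_lt (Ideal.pow_succ_lt_pow hbot 1)
    rw [pow_one] at hπ
    refine ⟨π, hπ, ?_⟩
    have hlt : RingHom.ker χ ^ (1 + 1) < Ideal.span {π} ⊔ RingHom.ker χ ^ 2 := by
      refine lt_of_le_of_ne le_sup_right ?_
      intro h
      apply hπ2
      rw [h]
      exact Ideal.mem_sup_left (Ideal.mem_span_singleton_self π)
    have hle : Ideal.span {π} ⊔ RingHom.ker χ ^ 2 ≤ RingHom.ker χ ^ 1 := by
      rw [pow_one]
      refine sup_le ?_ (Ideal.pow_le_self two_ne_zero)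
      rw [Ideal.span_le]
      intro y hy
      rw [Set.mem_singleton_iff] at hy
      rw [hy]
      exact hπ
    have := Ideal.eq_prime_pow_of_succ_lt_of_le hbot hlt hle
    rw [this, pow_one]

/-- The table is valid when `B` is a Dedekind domain. -/
theorem table_valid_of_isDedekindDomain [IsDedekindDomain B] : P.table.Valid :=
  P.table_valid fun χ => exists_generator_of_isDedekindDomain χ

/-! ### Points of the table and `K`-points of `B` -/

/-- Every `K`-point of `B` is a point of the table. -/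
theorem isPoint_of_algHom (χ : B →ₐ[K] K) :
    P.table.IsPoint (χ P.x) (fun i => χ (P.omega i)) := by
  refine ⟨fun i hi => ?_, fun i j => ?_⟩
  · show χ (P.omega i) = 1
    rw [P.omega_zero i hi, map_one]
  · show χ (P.omega i) * χ (P.omega j) = ∑ k, (P.table.c i j k).eval (χ P.x) * χ (P.omega k)
    rw [← map_mul, P.omega_mul, map_sum]
    refine Finset.sum_congr rfl fun k _ => ?_
    rw [map_mul, table_c, ← aeval_algHom_apply, ← coe_aeval_eq_eval]

theorem pointHom_of_algHom (χ : B →ₐ[K] K) :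
    P.pointHom (χ P.x) (fun i => χ (P.omega i)) (P.isPoint_of_algHom χ) = χ := by
  apply AlgHom.ext
  intro b
  obtain ⟨a, rfl⟩ := P.phi_surjective b
  rw [pointHom_phi, phi_apply, map_sum]
  refine Finset.sum_congr rfl fun i _ => ?_
  rw [map_mul, ← aeval_algHom_apply, ← coe_aeval_eq_eval]

/-! ### Powers and products -/

theorem phi_npow (a : Elt P.wtype K) (n : ℕ) : P.phi (P.table.npow a n) = P.phi a ^ n := by
  induction n with
  | zero => rw [pow_zero]; exact P.phi_one
  | succ n ih =>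
    rw [pow_succ, ← ih, ← P.phi_mul]
    rfl

theorem phi_foldl (l : List (Elt P.wtype K)) (init : Elt P.wtype K) :
    P.phi (l.foldl P.table.mul init) = P.phi init * (l.map P.phi).prod := by
  induction l generalizing init with
  | nil => simp
  | cons a l ih =>
    rw [List.foldl_cons, ih, P.phi_mul, List.map_cons, List.prod_cons, mul_assoc]

theorem phi_lprod (l : List (Elt P.wtype K)) :
    P.phi (P.table.lprod l) = (l.map P.phi).prod := by
  unfold Tab.lprod
  rw [phi_foldl, P.phi_one, one_mul]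

theorem phi_prodGen (x₀ : K) (ψ : Fin P.m → K) {j : ℕ} (a : Fin j → Option (Fin P.m)) :
    P.phi (P.table.prodGen x₀ ψ a) = ∏ s, P.phi (genElt (τ := P.wtype) x₀ ψ (a s)) := by
  unfold Tab.prodGen
  rw [phi_lprod, List.map_ofFn, List.prod_ofFn]
  rfl

/-! ### The gap count -/

/-- `t` is a weight iff it is at least the least weight of its residue class. -/
theorem exists_wt_eq_iff (t : ℕ) (i : Fin P.m) (hi : t % P.m = i) :
    (∃ b : B, b ≠ 0 ∧ P.wt b = t) ↔ P.rho i ≤ t := by
  constructor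
  · rintro ⟨b, hb, rfl⟩
    exact P.rho_le i hb hi
  · intro hle
    have hmod : P.rho i % P.m = t % P.m := (P.rho_mod i).trans hi.symm
    obtain ⟨e, he⟩ := (Nat.modEq_iff_dvd' hle).mp hmod
    obtain ⟨h0, hw⟩ := P.wt_x_pow_mul_omega e i
    exact ⟨_, h0, by rw [hw]; omega⟩

/-- The number of gaps (non-weights) is the genus of the Weierstrass type. -/
theorem ncard_gaps :
    {t : ℕ | ∀ b : B, b ≠ 0 → P.wt b ≠ t}.ncard = P.wtype.genus := by
  classical
  have hm : 0 < P.m := P.x_pos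
  -- the gaps as a finset
  have hgap : ∀ t : ℕ, (∀ b : B, b ≠ 0 → P.wt b ≠ t) ↔
      t < P.rho ⟨t % P.m, Nat.mod_lt _ hm⟩ := by
    intro t
    rw [← not_le, ← P.exists_wt_eq_iff t ⟨t % P.m, Nat.mod_lt _ hm⟩ rfl]
    constructor
    · rintro h ⟨b, hb, hbt⟩
      exact h b hb hbt
    · intro h b hb hbt
      exact h ⟨b, hb, hbt⟩
  have hset : {t : ℕ | ∀ b : B, b ≠ 0 → P.wt b ≠ t}
      = ↑((Finset.range (∑ i, P.rho i + 1)).filter
          fun t => t < P.rho ⟨t % P.m, Nat.mod_lt _ hm⟩) := by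
    ext t
    rw [Finset.mem_coe, Finset.mem_filter, Finset.mem_range]
    constructor
    · intro h
      have h' := (hgap t).mp h
      refine ⟨?_, h'⟩
      have : P.rho ⟨t % P.m, Nat.mod_lt _ hm⟩ ≤ ∑ i, P.rho i :=
        Finset.single_le_sum (fun _ _ => Nat.zero_le _) (Finset.mem_univ _)
      omega
    · exact fun h => (hgap t).mpr h.2
  rw [hset, Set.ncard_coe_finset]
  have hcard : P.wtype.genus
      = ((Finset.univ : Finset (Fin P.m)).sigma fun i => Finset.range (P.rho i / P.m)).card := by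
    rw [Finset.card_sigma]
    simp only [Finset.card_range]
    rfl
  rw [hcard]
  symm
  refine Finset.card_bij (fun p _ => (p.1 : ℕ) + P.m * p.2) ?_ ?_ ?_
  · rintro ⟨i, e⟩ hp
    rw [Finset.mem_sigma, Finset.mem_range] at hp
    have he : e < P.rho i / P.m := hp.2
    have hmod : ((i : ℕ) + P.m * e) % P.m = i := by
      rw [Nat.add_mul_mod_self_left, Nat.mod_eq_of_lt i.2]
    have hidx : (⟨((i : ℕ) + P.m * e) % P.m, Nat.mod_lt _ hm⟩ : Fin P.m) = i := Fin.ext hmod
    have h1 : P.m * (e + 1) ≤ P.rho i := by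
      calc P.m * (e + 1) ≤ P.m * (P.rho i / P.m) := Nat.mul_le_mul_left _ he
        _ ≤ P.rho i := Nat.mul_div_le _ _
    have h2 : P.rho i % P.m = i := P.rho_mod i
    have h3 : P.m * (P.rho i / P.m) + P.rho i % P.m = P.rho i := Nat.div_add_mod _ _
    have h4 : P.m * (e + 1) ≤ P.m * (P.rho i / P.m) := Nat.mul_le_mul_left _ he
    have hlt : (i : ℕ) + P.m * e < P.rho i := by
      have : P.m * (e + 1) = P.m * e + P.m := by ring
      have hi := i.2
      omega
    show (i : ℕ) + P.m * e ∈ _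
    rw [Finset.mem_filter, Finset.mem_range, hidx]
    refine ⟨?_, hlt⟩
    have : P.rho i ≤ ∑ i, P.rho i :=
      Finset.single_le_sum (fun _ _ => Nat.zero_le _) (Finset.mem_univ _)
    omega
  · rintro ⟨i, e⟩ _ ⟨i', e'⟩ _ h
    have h' : (i : ℕ) + P.m * e = (i' : ℕ) + P.m * e' := h
    have h1 := congrArg (· % P.m) h'
    simp only [Nat.add_mul_mod_self_left, Nat.mod_eq_of_lt i.2, Nat.mod_eq_of_lt i'.2] at h1
    have hi : i = i' := Fin.ext h1
    subst hi
    have h2 : P.m * e = P.m * e' := by omega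
    have h3 : e = e' := Nat.eq_of_mul_eq_mul_left hm h2
    subst h3
    rfl
  · intro t ht
    rw [Finset.mem_filter, Finset.mem_range] at ht
    have hlt := ht.2
    have hmod : P.rho ⟨t % P.m, Nat.mod_lt _ hm⟩ % P.m = t % P.m := P.rho_mod _
    obtain ⟨e, he⟩ := (Nat.modEq_iff_dvd' hlt.le).mp hmod.symm
    have hepos : 0 < e := by
      rcases Nat.eq_zero_or_pos e with h0 | h0
      · rw [h0, mul_zero] at he
        omega
      · exact h0
    have hdiv : t / P.m < P.rho ⟨t % P.m, Nat.mod_lt _ hm⟩ / P.m := by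
      have h5 : P.rho ⟨t % P.m, Nat.mod_lt _ hm⟩ = t + P.m * e := by omega
      rw [h5, Nat.add_mul_div_left _ _ hm]
      omega
    refine ⟨⟨⟨t % P.m, Nat.mod_lt _ hm⟩, t / P.m⟩, ?_, ?_⟩
    · rw [Finset.mem_sigma, Finset.mem_range]
      exact ⟨Finset.mem_univ _, hdiv⟩
    · exact Nat.mod_add_div t P.m

/-- Summary: the Weierstrass table of a pole-order datum. -/
theorem exists_valid_table
    (hreg : ∀ χ : B →ₐ[K] K, ∃ π ∈ RingHom.ker χ,
      RingHom.ker χ ≤ Ideal.span {π} ⊔ RingHom.ker χ ^ 2) :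
    ∃ (τ : WType) (T : Tab τ K) (φ : Elt τ K ≃ₗ[K] B),
      T.Valid ∧ τ.m = P.wt P.x ∧
      τ.genus = {t : ℕ | ∀ b : B, b ≠ 0 → P.wt b ≠ t}.ncard ∧
      φ Elt.one = 1 ∧ (∀ a b, φ (T.mul a b) = φ a * φ b) ∧
      (∀ (p : K[X]) (a : Elt τ K), φ (p • a) = aeval P.x p * φ a) ∧
      (∀ a : Elt τ K, a ≠ 0 → ∀ t, P.wt (φ a) ≤ t ↔ wtLE a t) :=
  ⟨P.wtype, P.table, P.phiEquiv, P.table_valid hreg, rfl, P.ncard_gaps.symm, P.phi_one,
    P.phi_mul, P.phi_smul, fun _ ha t => P.wt_phi_le_iff ha t⟩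

end PoleWeight

end Fermat.Agent.S27.helper4345
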