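import Mathlib
import Fermat.Prelude.Def_AlgebraicCurve_DivisorClassGroup
import Fermat.Prelude.Def_AlgebraicCurve_IsCurveOver
import Fermat.Prelude.Def_AlgebraicCurve_Repartitions

/-!
# S27, algebraic track: the abstract one-point dictionary (helper751)

Setting: a field `F` over `K` (Prelude places), a Dedekind domain `B` with fraction field `F`,
one distinguished place `Pinf`, and a parametrisation `pl` of all other places by the maximal
ideals of `B`, compatible with valuations.  Output:

* `OnePoint.pic0Equiv : Pic0 K F ≃+ Additive (ClassGroup B)`;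
* `OnePoint.natCard_torsion : Nat.card (Pic0.torsion K F n) = Nat.card {c : ClassGroup B // c ^ n = 1}`.
-/

set_option autoImplicit false

open IsDedekindDomain AlgebraicCurve WithZero
open scoped nonZeroDivisors

namespace Fermat.Agent.S27.helper751

noncomputable section

variable {K F : Type*} [Field K] [Field F] [Algebra K F]
variable (B : Type*) [CommRing B] [IsDedekindDomain B] [Algebra B F] [IsFractionRing B F]

/-- "The places of `F/K` are the maximal ideals of the Dedekind domain `B` plus one place". -/
structure OnePoint (Pinf : Place K F) (pl : HeightOneSpectrum B → Place K F) : Prop where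
  ne_inf : ∀ m, pl m ≠ Pinf
  surj : ∀ P : Place K F, P ≠ Pinf → ∃ m, pl m = P
  val : ∀ (m : HeightOneSpectrum B) (f : F), (pl m).adicValuation f = m.valuation F f

/-! ### Fractional ideals: counts of principal ideals, the factorisation isomorphism -/

section Ideals

variable {B}

/-- `count` of a principal fractional ideal is minus the logarithm of the valuation. -/
theorem count_spanSingleton (m : HeightOneSpectrum B) {f : F} (hf : f ≠ 0) :
    FractionalIdeal.count F m (FractionalIdeal.spanSingleton B⁰ f)
      = -(WithZero.log (m.valuation F f)) := by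
  obtain ⟨n, d, rfl⟩ := IsLocalization.exists_mk'_eq B⁰ f
  have hn : n ≠ 0 := by
    rintro rfl
    simp at hf
  have hd : (d : B) ≠ 0 := nonZeroDivisors.ne_zero d.2
  have hspan : FractionalIdeal.spanSingleton B⁰ (IsLocalization.mk' F n d)
      = FractionalIdeal.spanSingleton B⁰ ((algebraMap B F (d : B))⁻¹)
        * ((Ideal.span {n} : Ideal B) : FractionalIdeal B⁰ F) := by
    rw [FractionalIdeal.coeIdeal_span_singleton, FractionalIdeal.spanSingleton_mul_spanSingleton]
    congr 1
    rw [IsFractionRing.mk'_eq_div, div_eq_inv_mul]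
  have hne : FractionalIdeal.spanSingleton B⁰ (IsLocalization.mk' F n d) ≠ 0 := by
    rw [Ne, FractionalIdeal.spanSingleton_eq_zero_iff]
    exact hf
  rw [FractionalIdeal.count_well_defined F m hne hspan, m.valuation_of_mk',
    m.intValuation_if_neg hn, m.intValuation_if_neg hd, ← WithZero.exp_sub, WithZero.log_exp]
  ring

/-- Two nonzero fractional ideals with the same counts are equal. -/
theorem fractionalIdeal_eq_of_count_eq {I J : FractionalIdeal B⁰ F} (hI : I ≠ 0) (hJ : J ≠ 0)
    (h : ∀ m : HeightOneSpectrum B, FractionalIdeal.count F m I = FractionalIdeal.count F m J) :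
    I = J := by
  rw [← FractionalIdeal.finprod_heightOneSpectrum_factorization' F hI,
    ← FractionalIdeal.finprod_heightOneSpectrum_factorization' F hJ]
  exact finprod_congr fun m => by rw [h m]

variable (F) in
/-- The unit fractional ideal of a maximal ideal. -/
def primeUnit (m : HeightOneSpectrum B) : (FractionalIdeal B⁰ F)ˣ :=
  Units.mk0 (m.asIdeal : FractionalIdeal B⁰ F) (FractionalIdeal.coeIdeal_ne_zero.mpr m.ne_bot)

variable (F) in
/-- The fractional ideal `∏ m ^ (E m)`. -/
def idealFun (E : HeightOneSpectrum B →₀ ℤ) : (FractionalIdeal B⁰ F)ˣ :=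
  E.prod fun m n => primeUnit F m ^ n

theorem idealFun_add (E E' : HeightOneSpectrum B →₀ ℤ) :
    idealFun F (E + E') = idealFun F E * idealFun F E' := by
  unfold idealFun
  exact Finsupp.prod_add_index' (fun m => zpow_zero _) (fun m n n' => zpow_add _ _ _)

theorem coe_idealFun (E : HeightOneSpectrum B →₀ ℤ) :
    ((idealFun F E : (FractionalIdeal B⁰ F)ˣ) : FractionalIdeal B⁰ F)
      = E.prod fun m n => (m.asIdeal : FractionalIdeal B⁰ F) ^ n := by
  unfold idealFun Finsupp.prod
  rw [Units.coe_prod]
  refine Finset.prod_congr rfl fun m _ => ?_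
  rw [Units.val_zpow_eq_zpow_val]
  rfl

theorem count_idealFun (m : HeightOneSpectrum B) (E : HeightOneSpectrum B →₀ ℤ) :
    FractionalIdeal.count F m (idealFun F E : FractionalIdeal B⁰ F) = E m := by
  rw [coe_idealFun]
  exact FractionalIdeal.count_finsuppProd F m E

theorem idealFun_injective : Function.Injective (idealFun (B := B) F) := by
  intro E E' hEE
  ext m
  rw [← count_idealFun (F := F) m E, ← count_idealFun (F := F) m E', hEE]

theorem idealFun_surjective : Function.Surjective (idealFun (B := B) F) := by
  intro I
  have hfin : (Function.support fun m : HeightOneSpectrum B =>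
      FractionalIdeal.count F m (I : FractionalIdeal B⁰ F)).Finite :=
    Filter.eventually_cofinite.mp (FractionalIdeal.finite_factors (I : FractionalIdeal B⁰ F))
  let E : HeightOneSpectrum B →₀ ℤ := Finsupp.ofSupportFinite _ hfin
  refine ⟨E, Units.ext ?_⟩
  refine fractionalIdeal_eq_of_count_eq (Units.ne_zero _) (Units.ne_zero _) fun m => ?_
  rw [count_idealFun]
  rfl

end Ideals

/-! ### The divisor side -/

namespace OnePoint

variable {B} {Pinf : Place K F} {pl : HeightOneSpectrum B → Place K F}

theorem pl_injective (h : OnePoint B Pinf pl) : Function.Injective pl := by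
  intro m m' hmm
  apply HeightOneSpectrum.eq_of_valuation_isEquiv_valuation (K := F)
  have : m.valuation F = m'.valuation F := by
    ext f
    rw [← h.val m f, ← h.val m' f, hmm]
  rw [this]

theorem ord_pl (h : OnePoint B Pinf pl) (m : HeightOneSpectrum B) (f : F) :
    (pl m).ord f = -(WithZero.log (m.valuation F f)) := by
  unfold Place.ord
  rw [h.val]

/-- Restriction of a divisor to the places coming from `B`. -/
def res (h : OnePoint B Pinf pl) : Divisor K F →+ (HeightOneSpectrum B →₀ ℤ) :=
  Finsupp.comapDomain.addMonoidHom h.pl_injective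

@[simp]
theorem res_apply (h : OnePoint B Pinf pl) (D : Divisor K F) (m : HeightOneSpectrum B) :
    h.res D m = D (pl m) := rfl

/-- A divisor is determined by its restriction and its degree. -/
theorem eq_of_res_eq (h : OnePoint B Pinf pl) (hdeg : Pinf.deg ≠ 0) {D D' : Divisor K F}
    (hres : h.res D = h.res D') (hd : Divisor.degree D = Divisor.degree D') : D = D' := by
  have hX : D - D' = Finsupp.single Pinf ((D - D') Pinf) := by
    ext P
    by_cases hP : P = Pinf
    · subst hP
      simp
    · obtain ⟨m, rfl⟩ := h.surj P hP
      have h1 : D (pl m) = D' (pl m) := by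
        rw [← h.res_apply D m, ← h.res_apply D' m, hres]
      rw [Finsupp.single_eq_of_ne (h.ne_inf m), Finsupp.sub_apply, h1, sub_self]
  have hdegX : Divisor.degree (D - D') = 0 := by
    rw [map_sub, hd, sub_self]
  rw [hX, Divisor.degree_single] at hdegX
  have h0 : (D - D') Pinf = 0 := by
    rcases mul_eq_zero.mp hdegX with h0 | h0
    · exact h0
    · exact absurd (by exact_mod_cast h0) hdeg
  rw [h0, Finsupp.single_zero] at hX
  exact sub_eq_zero.mp hX

/-- Every finitely supported function on the maximal ideals is the restriction of a divisor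
of degree zero. -/
theorem exists_degree_zero_res_eq (h : OnePoint B Pinf pl) (hdeg : ∀ P : Place K F, P.deg = 1)
    (E : HeightOneSpectrum B →₀ ℤ) :
    ∃ D : Divisor K F, Divisor.degree D = 0 ∧ h.res D = E := by
  refine ⟨E.mapDomain pl - Finsupp.single Pinf (E.sum fun _ n => n), ?_, ?_⟩
  · rw [map_sub, Divisor.degree_single, hdeg Pinf, Nat.cast_one, mul_one, Finsupp.mapDomain,
      map_finsuppSum, sub_eq_zero]
    refine Finsupp.sum_congr fun m _ => ?_
    rw [Divisor.degree_single, hdeg (pl m), Nat.cast_one, mul_one]
  · ext m
    rw [res_apply, Finsupp.sub_apply, Finsupp.mapDomain_apply h.pl_injective,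
      Finsupp.single_eq_of_ne (h.ne_inf m), sub_zero]

/-- The fractional ideal of the divisor of a function is the principal ideal. -/
theorem idealFun_res_of_ord (h : OnePoint B Pinf pl) {D : Divisor K F} {f : F} (hf : f ≠ 0)
    (hD : ∀ v : Place K F, D v = v.ord f) :
    (idealFun F (h.res D) : FractionalIdeal B⁰ F) = FractionalIdeal.spanSingleton B⁰ f := by
  refine fractionalIdeal_eq_of_count_eq (Units.ne_zero _) ?_ fun m => ?_
  · rw [Ne, FractionalIdeal.spanSingleton_eq_zero_iff]
    exact hf
  · rw [count_idealFun, count_spanSingleton m hf, res_apply, hD, h.ord_pl]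

/-- The class map from divisors of degree zero to the class group of `B`. -/
def toClass (h : OnePoint B Pinf pl) :
    Divisor.degZero (K := K) (F := F) →+ Additive (ClassGroup B) where
  toFun D := Additive.ofMul (ClassGroup.mk F (idealFun F (h.res (D : Divisor K F))))
  map_zero' := by
    rw [AddSubgroup.coe_zero, map_zero]
    simp [idealFun]
  map_add' D D' := by
    rw [AddSubgroup.coe_add, map_add, idealFun_add, map_mul, ofMul_mul]

theorem toClass_apply (h : OnePoint B Pinf pl) (D : Divisor.degZero (K := K) (F := F)) :
    h.toClass D = Additive.ofMul (ClassGroup.mk F (idealFun F (h.res (D : Divisor K F)))) := rfl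

theorem toClass_surjective (h : OnePoint B Pinf pl) (hdeg : ∀ P : Place K F, P.deg = 1) :
    Function.Surjective h.toClass := by
  intro x
  have key : ∀ c : ClassGroup B, ∃ D, h.toClass D = Additive.ofMul c := by
    intro c
    refine ClassGroup.induction F (P := fun c => ∃ D, h.toClass D = Additive.ofMul c)
      (fun I => ?_) c
    obtain ⟨E, rfl⟩ := idealFun_surjective (F := F) I
    obtain ⟨D, hD0, hDE⟩ := h.exists_degree_zero_res_eq hdeg E
    exact ⟨⟨D, hD0⟩, by rw [toClass_apply, hDE]⟩
  exact key (Additive.toMul x)

theorem toClass_ker (h : OnePoint B Pinf pl) [HasPrincipalDivisors K F]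
    (hdeg : Pinf.deg ≠ 0) :
    h.toClass.ker = (Divisor.principal (K := K) (F := F)).addSubgroupOf Divisor.degZero := by
  ext D
  rw [AddMonoidHom.mem_ker, AddSubgroup.mem_addSubgroupOf, Divisor.mem_principal, toClass_apply]
  constructor
  · intro hD
    have hD1 : ClassGroup.mk F (idealFun F (h.res (D : Divisor K F))) = 1 := hD
    rw [ClassGroup.mk_eq_one_iff] at hD1
    obtain ⟨x, hx⟩ := hD1.principal
    have hx' : (idealFun F (h.res (D : Divisor K F)) : FractionalIdeal B⁰ F)
        = FractionalIdeal.spanSingleton B⁰ x := by
      apply Subtype.coe_injective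
      simp only [FractionalIdeal.val_eq_coe, hx, FractionalIdeal.coe_spanSingleton]
    have hx0 : x ≠ 0 := by
      rintro rfl
      rw [FractionalIdeal.spanSingleton_zero] at hx'
      exact Units.ne_zero _ hx'
    obtain ⟨D', hD', hdeg'⟩ := HasPrincipalDivisors.exists_divisor (K := K) x hx0
    have hres : h.res (D : Divisor K F) = h.res D' := by
      apply idealFun_injective (F := F)
      apply Units.ext
      rw [hx', h.idealFun_res_of_ord hx0 hD']
    have hDD' : (D : Divisor K F) = D' :=
      h.eq_of_res_eq hdeg hres (by rw [hdeg']; exact D.2)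
    exact ⟨x, hx0, fun v => by rw [hDD', hD' v]⟩
  · rintro ⟨f, hf, hD⟩
    have h1 := h.idealFun_res_of_ord hf hD
    have : ClassGroup.mk F (idealFun F (h.res (D : Divisor K F))) = 1 := by
      rw [ClassGroup.mk_eq_one_iff]
      exact ⟨⟨f, by rw [h1, FractionalIdeal.coe_spanSingleton]⟩⟩
    rw [this]
    rfl

/-- **One-point dictionary**: `Pic⁰` of the function field is the class group of `B`. -/
def pic0Equiv (h : OnePoint B Pinf pl) [HasPrincipalDivisors K F]
    (hdeg : ∀ P : Place K F, P.deg = 1) : Pic0 K F ≃+ Additive (ClassGroup B) :=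
  (QuotientAddGroup.quotientAddEquivOfEq
      (h.toClass_ker (by rw [hdeg Pinf]; exact one_ne_zero)).symm).trans
    (QuotientAddGroup.quotientKerEquivOfSurjective h.toClass (h.toClass_surjective hdeg))

theorem pic0Equiv_mk (h : OnePoint B Pinf pl) [HasPrincipalDivisors K F]
    (hdeg : ∀ P : Place K F, P.deg = 1) (D : Divisor.degZero (K := K) (F := F)) :
    h.pic0Equiv hdeg (Pic0.mk D)
      = Additive.ofMul (ClassGroup.mk F (idealFun F (h.res (D : Divisor K F)))) := rfl

/-- The torsion counts agree. -/
theorem natCard_torsion (h : OnePoint B Pinf pl) [HasPrincipalDivisors K F]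
    (hdeg : ∀ P : Place K F, P.deg = 1) (n : ℕ) :
    Nat.card (Pic0.torsion K F n) = Nat.card {c : ClassGroup B // c ^ n = 1} := by
  refine Nat.card_congr (Equiv.subtypeEquiv ((h.pic0Equiv hdeg).toEquiv.trans Additive.toMul)
    fun x => ?_)
  rw [Pic0.mem_torsion]
  simp only [Equiv.trans_apply]
  rw [← (h.pic0Equiv hdeg).injective.eq_iff, map_zsmul, map_zero, natCast_zsmul]
  constructor
  · intro hx
    have := congrArg Additive.toMul hx
    simpa using this
  · intro hx
    apply Additive.toMul.injective
    simpa using hx

end OnePoint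

end

end Fermat.Agent.S27.helper751
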