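/-
S27 — automorphism rigidity kit for the Lefschetz / transfer step (helper1618).

`K ⊆ U` fields, `U` algebraically closed.
* `exists_algEquiv_apply_eq_add`: a transcendental `c : U` can be moved to `c + a` (`a : K`)
  by a `K`-automorphism of `U`.
* `infinite_orbit_of_transcendental`: over an infinite `K`, a transcendental element has an
  infinite `Aut(U/K)`-orbit.
* `mem_range_algebraMap_of_finite_orbit`: if `K` is algebraically closed, an element with
  finitely many `Aut(U/K)`-conjugates lies in `K`.
Mathlib only.
-/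
import Mathlib

set_option autoImplicit false

namespace Fermat.Agent.S27.helper1618

open MvPolynomial

section Shift

variable {K : Type*} [Field K] {ι : Type*} [DecidableEq ι]

/-- The `K`-algebra endomorphism of `K[X_i]` with `X_{i₀} ↦ X_{i₀} + a`, other variables fixed. -/
noncomputable def shiftHom (i₀ : ι) (a : K) : MvPolynomial ι K →ₐ[K] MvPolynomial ι K :=
  aeval (fun i => if i = i₀ then X i + C a else X i)

@[simp] theorem shiftHom_X_self (i₀ : ι) (a : K) : shiftHom i₀ a (X i₀) = X i₀ + C a := by
  simp [shiftHom]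

theorem shiftHom_X_of_ne (i₀ : ι) (a : K) {i : ι} (h : i ≠ i₀) : shiftHom i₀ a (X i) = X i := by
  simp [shiftHom, h]

@[simp] theorem shiftHom_C (i₀ : ι) (a b : K) : shiftHom i₀ a (C b) = C b := by
  simp [shiftHom]

theorem shiftHom_comp (i₀ : ι) (a b : K) :
    (shiftHom i₀ a).comp (shiftHom i₀ b) = shiftHom i₀ (a + b) := by
  refine MvPolynomial.algHom_ext fun i => ?_
  by_cases h : i = i₀
  · subst h
    simp only [AlgHom.comp_apply, shiftHom_X_self, map_add, shiftHom_C]
    ring
  · simp only [AlgHom.comp_apply, shiftHom_X_of_ne _ _ h]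

theorem shiftHom_zero (i₀ : ι) : shiftHom i₀ (0 : K) = AlgHom.id K (MvPolynomial ι K) := by
  refine MvPolynomial.algHom_ext fun i => ?_
  by_cases h : i = i₀
  · subst h; simp
  · simp [shiftHom_X_of_ne _ _ h]

/-- The shift as an algebra automorphism. -/
noncomputable def shiftEquiv (i₀ : ι) (a : K) : MvPolynomial ι K ≃ₐ[K] MvPolynomial ι K :=
  AlgEquiv.ofAlgHom (shiftHom i₀ a) (shiftHom i₀ (-a))
    (by rw [shiftHom_comp, add_neg_cancel, shiftHom_zero])
    (by rw [shiftHom_comp, neg_add_cancel, shiftHom_zero])

@[simp] theorem shiftEquiv_apply (i₀ : ι) (a : K) (p : MvPolynomial ι K) :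
    shiftEquiv i₀ a p = shiftHom i₀ a p := rfl

end Shift

section Aut

variable {K U : Type*} [Field K] [Field U] [Algebra K U] [IsAlgClosed U]

/-- A transcendental element of an algebraically closed extension can be translated by any
element of the base field by an automorphism over the base field. -/
theorem exists_algEquiv_apply_eq_add (c : U) (hc : Transcendental K c) (a : K) :
    ∃ σ : U ≃ₐ[K] U, σ c = c + algebraMap K U a := by
  classical
  -- a transcendence basis through `c`
  have hs : AlgebraicIndepOn K id ({c} : Set U) := by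
    show AlgebraicIndependent K (fun x : ({c} : Set U) => id (x : U))
    let _ : Unique ({c} : Set U) := Set.uniqueSingleton c
    rw [algebraicIndependent_unique_type_iff]
    simpa using hc
  obtain ⟨t, hct, ht⟩ := exists_isTranscendenceBasis_superset hs
  have hcmem : c ∈ t := hct (Set.mem_singleton c)
  set v : t → U := ((↑) : t → U) with hv
  set i₀ : t := ⟨c, hcmem⟩ with hi₀
  have : IsAlgClosure (Algebra.adjoin K (Set.range v)) U :=
    IsAlgClosed.isAlgClosure_of_transcendence_basis v ht
  -- the automorphism of the polynomial subalgebra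
  let e : Algebra.adjoin K (Set.range v) ≃ₐ[K] Algebra.adjoin K (Set.range v) :=
    (ht.1.aevalEquiv.symm.trans (shiftEquiv i₀ a)).trans ht.1.aevalEquiv
  let σ₀ : U ≃+* U := IsAlgClosure.equivOfEquiv U U e.toRingEquiv
  have hσ₀ : ∀ s : Algebra.adjoin K (Set.range v),
      σ₀ (algebraMap _ U s) = algebraMap _ U (e s) := fun s =>
    IsAlgClosure.equivOfEquiv_algebraMap U U e.toRingEquiv s
  have hcomm : ∀ k : K, σ₀ (algebraMap K U k) = algebraMap K U k := by
    intro k
    have h1 : algebraMap K U k
        = algebraMap (Algebra.adjoin K (Set.range v)) U (algebraMap K _ k) := rfl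
    rw [h1, hσ₀, AlgEquiv.commutes]
  refine ⟨AlgEquiv.ofRingEquiv (f := σ₀) hcomm, ?_⟩
  show σ₀ c = c + algebraMap K U a
  have hc1 : c = algebraMap (Algebra.adjoin K (Set.range v)) U (ht.1.aevalEquiv (X i₀)) := by
    rw [AlgebraicIndependent.algebraMap_aevalEquiv, aeval_X]
  have he : e (ht.1.aevalEquiv (X i₀)) = ht.1.aevalEquiv (X i₀ + C a) := by
    show ht.1.aevalEquiv (shiftEquiv i₀ a (ht.1.aevalEquiv.symm (ht.1.aevalEquiv (X i₀)))) = _
    rw [AlgEquiv.symm_apply_apply, shiftEquiv_apply, shiftHom_X_self]
  conv_lhs => rw [hc1]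
  rw [hσ₀, he, AlgebraicIndependent.algebraMap_aevalEquiv, map_add, aeval_X, aeval_C]

/-- Over an infinite base field, a transcendental element of an algebraically closed extension
has infinitely many conjugates under the automorphism group. -/
theorem infinite_orbit_of_transcendental [Infinite K] (c : U) (hc : Transcendental K c) :
    (Set.range fun σ : U ≃ₐ[K] U => σ c).Infinite := by
  have hinj : Function.Injective (fun a : K => c + algebraMap K U a) := by
    intro a b hab
    exact (algebraMap K U).injective (add_left_cancel hab)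
  refine Set.Infinite.mono ?_ (Set.infinite_range_of_injective hinj)
  rintro _ ⟨a, rfl⟩
  obtain ⟨σ, hσ⟩ := exists_algEquiv_apply_eq_add c hc a
  exact ⟨σ, hσ⟩

/-- If the base field is algebraically closed in `U` (every element of `U` algebraic over `K`
lies in `K`), an element with finitely many `Aut(U/K)`-conjugates lies in `K`. -/
theorem mem_range_algebraMap_of_finite_orbit' [Infinite K]
    (hK : ∀ x : U, IsAlgebraic K x → x ∈ Set.range (algebraMap K U)) (c : U)
    (h : (Set.range fun σ : U ≃ₐ[K] U => σ c).Finite) : c ∈ Set.range (algebraMap K U) := by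
  by_contra hc
  have htr : Transcendental K c := fun halg => hc (hK c halg)
  exact infinite_orbit_of_transcendental c htr h

/-- If the base field is algebraically closed, an element of an algebraically closed extension
with finitely many `Aut(U/K)`-conjugates lies in `K`. -/
theorem mem_range_algebraMap_of_finite_orbit [IsAlgClosed K] (c : U)
    (h : (Set.range fun σ : U ≃ₐ[K] U => σ c).Finite) : c ∈ Set.range (algebraMap K U) := by
  refine mem_range_algebraMap_of_finite_orbit' (fun x hx => ?_) c h
  have hint : IsIntegral K x := hx.isIntegral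
  exact minpoly.mem_range_of_degree_eq_one K x
    (IsAlgClosed.degree_eq_one_of_irreducible K (minpoly.irreducible hint))

/-- Tuple form: a family with finitely many `Aut(U/K)`-conjugates is defined over `K`. -/
theorem forall_mem_range_algebraMap_of_finite_orbit [IsAlgClosed K] {ι : Type*} (v : ι → U)
    (h : (Set.range fun σ : U ≃ₐ[K] U => fun i => σ (v i)).Finite) (i : ι) :
    v i ∈ Set.range (algebraMap K U) := by
  refine mem_range_algebraMap_of_finite_orbit (v i) ?_
  refine (h.image (fun w : ι → U => w i)).subset ?_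
  rintro _ ⟨σ, rfl⟩
  exact ⟨_, ⟨σ, rfl⟩, rfl⟩

/-- Finite-index form: an element fixed by a finite-index subgroup of `Aut(U/K)` lies in `K`
(`K` algebraically closed). -/
theorem mem_range_algebraMap_of_finiteIndex [IsAlgClosed K] (H : Subgroup (U ≃ₐ[K] U))
    [H.FiniteIndex] (c : U) (hH : ∀ σ ∈ H, σ c = c) : c ∈ Set.range (algebraMap K U) := by
  refine mem_range_algebraMap_of_finite_orbit c ?_
  have : Finite ((U ≃ₐ[K] U) ⧸ H) := Subgroup.finite_quotient_of_finiteIndex
  let f : (U ≃ₐ[K] U) ⧸ H → U := Quotient.lift (fun σ : U ≃ₐ[K] U => σ c) (by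
    intro σ τ hστ
    have hmem : σ⁻¹ * τ ∈ H := QuotientGroup.leftRel_apply.mp hστ
    have h1 := hH _ hmem
    have h2 : τ c = σ ((σ⁻¹ * τ) c) := by
      simp [AlgEquiv.mul_apply, AlgEquiv.aut_inv]
    show σ c = τ c
    rw [h2, h1])
  refine (Set.finite_range f).subset ?_
  rintro _ ⟨σ, rfl⟩
  exact ⟨QuotientGroup.mk σ, rfl⟩

/-- General base field of characteristic zero: an element of the algebraically closed extension
`U` outside `K` is moved by some `K`-automorphism of `U`. -/
theorem exists_algEquiv_apply_ne [CharZero K] (c : U) (hc : c ∉ Set.range (algebraMap K U)) :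
    ∃ σ : U ≃ₐ[K] U, σ c ≠ c := by
  classical
  by_cases halg : IsAlgebraic K c
  · have hcKa : c ∈ algebraicClosure K U := mem_algebraicClosure_iff.mpr halg
    have hc' : (⟨c, hcKa⟩ : algebraicClosure K U)
        ∉ Set.range (algebraMap K (algebraicClosure K U)) := by
      rintro ⟨k, hk⟩
      exact hc ⟨k, congrArg Subtype.val hk⟩
    rw [InfiniteGalois.mem_range_algebraMap_iff_fixed] at hc'
    rw [not_forall] at hc'
    obtain ⟨τ, hτ⟩ := hc'
    obtain ⟨ι, v, hv⟩ := exists_isTranscendenceBasis' (algebraicClosure K U) U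
    have : IsAlgClosure (Algebra.adjoin (algebraicClosure K U) (Set.range v)) U :=
      IsAlgClosed.isAlgClosure_of_transcendence_basis v hv
    let e : Algebra.adjoin (algebraicClosure K U) (Set.range v) ≃+*
        Algebra.adjoin (algebraicClosure K U) (Set.range v) :=
      (hv.1.aevalEquiv.symm.toRingEquiv.trans (MvPolynomial.mapEquiv ι τ.toRingEquiv)).trans
        hv.1.aevalEquiv.toRingEquiv
    let σ₀ : U ≃+* U := IsAlgClosure.equivOfEquiv U U e
    have hσ₀ : ∀ s : Algebra.adjoin (algebraicClosure K U) (Set.range v),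
        σ₀ (algebraMap _ U s) = algebraMap _ U (e s) := fun s =>
      IsAlgClosure.equivOfEquiv_algebraMap U U e s
    have key : ∀ x : algebraicClosure K U, σ₀ (x : U) = (τ x : U) := by
      intro x
      have h1 : (x : U) = algebraMap (Algebra.adjoin (algebraicClosure K U) (Set.range v)) U
          (hv.1.aevalEquiv (C x)) := by
        rw [AlgebraicIndependent.algebraMap_aevalEquiv, aeval_C]; rfl
      have he : e (hv.1.aevalEquiv (C x)) = hv.1.aevalEquiv (C (τ x)) := by
        show hv.1.aevalEquiv (MvPolynomial.map _ (hv.1.aevalEquiv.symm (hv.1.aevalEquiv (C x)))) = _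
        rw [AlgEquiv.symm_apply_apply, map_C]; rfl
      rw [h1, hσ₀, he, AlgebraicIndependent.algebraMap_aevalEquiv, aeval_C]; rfl
    refine ⟨AlgEquiv.ofRingEquiv (f := σ₀) (fun k => ?_), ?_⟩
    · have h := key (algebraMap K (algebraicClosure K U) k)
      rw [τ.commutes] at h
      exact h
    · show σ₀ c ≠ c
      have h := key ⟨c, hcKa⟩
      intro h'
      exact hτ (Subtype.ext (by rw [← h]; exact h'))
  · obtain ⟨σ, hσ⟩ := exists_algEquiv_apply_eq_add c halg 1
    exact ⟨σ, by rw [hσ]; simp⟩

/-- The fixed points of `Aut(U/K)` are exactly `K` (characteristic zero, `U` algebraically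
closed). -/
theorem mem_range_algebraMap_iff_forall_fixed [CharZero K] (c : U) :
    c ∈ Set.range (algebraMap K U) ↔ ∀ σ : U ≃ₐ[K] U, σ c = c := by
  constructor
  · rintro ⟨k, rfl⟩ σ
    exact σ.commutes k
  · intro h
    by_contra hc
    obtain ⟨σ, hσ⟩ := exists_algEquiv_apply_ne c hc
    exact hσ (h σ)

end Aut

end Fermat.Agent.S27.helper1618
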