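/-
S27 — C4 by `Aut(K'/K₀)`-descent (helper2390).

Pure-algebra core of the constant-field-extension comparison: a finite-dimensional
`K'`-subspace of `F' = K'·F₀` that is stable under the semilinear automorphisms induced by
`Aut(K'/K₀)` is spanned by its `F₀`-points.
-/
import Mathlib

set_option autoImplicit false

namespace Fermat.Agent.S27.helper2390

open Module

section CoordinateDescent

variable {K₀ : Type*} {K' : Type*} [Field K₀] [Field K'] [Algebra K₀ K'] {ι : Type*}

/-- The coordinatewise action of `σ` on finitely supported vectors. -/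
noncomputable abbrev coordMap (σ : K' ≃ₐ[K₀] K') (w : ι →₀ K') : ι →₀ K' :=
  Finsupp.mapRange σ (map_zero σ) w

/-- Base change of a finitely supported `K₀`-vector to `K'`. -/
noncomputable abbrev ofRat (c : ι →₀ K₀) : ι →₀ K' :=
  Finsupp.mapRange (algebraMap K₀ K') (map_zero _) c

/-- A vector fixed by the coordinatewise action of `Aut(K'/K₀)` is `K₀`-rational. -/
theorem exists_ofRat_of_fixed
    (hfix : ∀ c : K', (∀ σ : K' ≃ₐ[K₀] K', σ c = c) → c ∈ Set.range (algebraMap K₀ K'))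
    (v : ι →₀ K') (hv : ∀ σ : K' ≃ₐ[K₀] K', coordMap σ v = v) :
    ∃ c : ι →₀ K₀, v = ofRat c := by
  classical
  have h : ∀ i, ∃ k : K₀, algebraMap K₀ K' k = v i := fun i =>
    hfix (v i) (fun σ => by simpa using DFunLike.congr_fun (hv σ) i)
  choose g hg using h
  refine ⟨Finsupp.onFinset v.support g ?_, ?_⟩
  · intro i hi
    rw [Finsupp.mem_support_iff]
    intro h0
    apply hi
    have h1 := hg i
    rw [h0] at h1
    exact (map_eq_zero_iff _ (algebraMap K₀ K').injective).mp h1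
  · ext i
    simp [hg]

/-- **Coordinate descent.** A `K'`-subspace of `ι →₀ K'` stable under the coordinatewise action
of `Aut(K'/K₀)` (whose fixed field is `K₀`) is spanned by its `K₀`-rational vectors. -/
theorem mem_span_ofRat
    (hfix : ∀ c : K', (∀ σ : K' ≃ₐ[K₀] K', σ c = c) → c ∈ Set.range (algebraMap K₀ K'))
    (W : Submodule K' (ι →₀ K'))
    (hW : ∀ (σ : K' ≃ₐ[K₀] K'), ∀ w ∈ W, coordMap σ w ∈ W)
    {w : ι →₀ K'} (hw : w ∈ W) :
    w ∈ Submodule.span K' {v | v ∈ W ∧ ∃ c : ι →₀ K₀, v = ofRat c} := by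
  classical
  induction' hn : w.support.card using Nat.strong_induction_on with n ih generalizing w
  by_cases hw0 : w = 0
  · rw [hw0]; exact Submodule.zero_mem _
  let P : ℕ → Prop := fun m => ∃ v ∈ W, v ≠ 0 ∧ v.support ⊆ w.support ∧ v.support.card = m
  have hP : ∃ m, P m := ⟨_, w, hw, hw0, subset_rfl, rfl⟩
  obtain ⟨v, hvW, hv0, hvs, hvm⟩ := Nat.find_spec hP
  have hmin : ∀ u ∈ W, u ≠ 0 → u.support ⊆ w.support → v.support.card ≤ u.support.card := by
    intro u hu hu0 hus
    rw [hvm]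
    exact Nat.find_min' hP ⟨u, hu, hu0, hus, rfl⟩
  obtain ⟨i₀, hi₀⟩ : ∃ i₀, i₀ ∈ v.support := Finsupp.support_nonempty_iff.mpr hv0
  have hvi₀ : v i₀ ≠ 0 := Finsupp.mem_support_iff.mp hi₀
  set v' : ι →₀ K' := (v i₀)⁻¹ • v with hv'
  have hv'W : v' ∈ W := W.smul_mem _ hvW
  have hv'i₀ : v' i₀ = 1 := by simp [hv', hvi₀]
  have hv's : v'.support ⊆ v.support := Finsupp.support_smul
  have hfixv : ∀ σ : K' ≃ₐ[K₀] K', coordMap σ v' = v' := by
    intro σ
    by_contra hne
    set u := coordMap σ v' - v' with hu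
    have huW : u ∈ W := W.sub_mem (hW σ v' hv'W) hv'W
    have hu0 : u ≠ 0 := sub_ne_zero.mpr hne
    have hus : u.support ⊆ v.support.erase i₀ := by
      intro i hi
      rw [Finsupp.mem_support_iff] at hi
      rw [Finset.mem_erase]
      constructor
      · rintro rfl
        apply hi
        simp [hu, hv'i₀]
      · by_contra hiv
        apply hi
        have h0 : v' i = 0 := by
          by_contra h
          exact hiv (hv's (Finsupp.mem_support_iff.mpr h))
        simp [hu, h0]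
    have hcard : u.support.card < v.support.card :=
      (Finset.card_le_card hus).trans_lt (Finset.card_erase_lt_of_mem hi₀)
    exact absurd (hmin u huW hu0 (hus.trans ((Finset.erase_subset _ _).trans hvs)))
      (not_le.mpr hcard)
  obtain ⟨c, hc⟩ := exists_ofRat_of_fixed hfix v' hfixv
  set w' := w - w i₀ • v' with hw'
  have hw'W : w' ∈ W := W.sub_mem hw (W.smul_mem _ hv'W)
  have hw's : w'.support ⊆ w.support.erase i₀ := by
    intro i hi
    rw [Finsupp.mem_support_iff] at hi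
    rw [Finset.mem_erase]
    constructor
    · rintro rfl
      apply hi
      simp [hw', hv'i₀]
    · by_contra hiw
      apply hi
      have h1 : w i = 0 := by simpa using hiw
      have h2 : v' i = 0 := by
        by_contra h
        exact hiw (hvs (hv's (Finsupp.mem_support_iff.mpr h)))
      simp [hw', h1, h2]
  have hcard : w'.support.card < n := by
    rw [← hn]
    exact (Finset.card_le_card hw's).trans_lt (Finset.card_erase_lt_of_mem (hvs hi₀))
  have h1 := ih _ hcard hw'W rfl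
  have h2 : w i₀ • v' ∈ Submodule.span K' {v | v ∈ W ∧ ∃ c : ι →₀ K₀, v = ofRat c} :=
    Submodule.smul_mem _ _ (Submodule.subset_span ⟨hv'W, c, hc⟩)
  have h3 : w = w' + w i₀ • v' := by simp [hw']
  rw [h3]
  exact Submodule.add_mem _ h1 h2

end CoordinateDescent

section Descent

universe u₀ u₁ u₂ u₃

variable {K₀ : Type u₀} {K' : Type u₁} (F₀ : Type u₂) {F' : Type u₃}
  [Field K₀] [Field K'] [Field F₀] [Field F']
  [Algebra K₀ K'] [Algebra K' F'] [Algebra F₀ F']

/-- `τ` is a semilinear extension of `σ ∈ Aut(K'/K₀)` to `F'` that fixes `F₀` pointwise. -/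
def IsExt (σ : K' ≃ₐ[K₀] K') (τ : F' ≃+* F') : Prop :=
  (∀ u : F₀, τ (algebraMap F₀ F' u) = algebraMap F₀ F' u) ∧
    ∀ a : K', τ (algebraMap K' F' a) = algebraMap K' F' (σ a)

variable {F₀}

theorem IsExt.symm {σ : K' ≃ₐ[K₀] K'} {τ : F' ≃+* F'} (h : IsExt F₀ σ τ) :
    IsExt F₀ σ.symm τ.symm := by
  refine ⟨fun u => ?_, fun a => ?_⟩
  · rw [RingEquiv.symm_apply_eq, h.1]
  · rw [RingEquiv.symm_apply_eq, h.2, AlgEquiv.apply_symm_apply]

variable (K' F₀ F')

/-- The `K'`-subalgebra `K'[F₀]` of `F'` generated by the image of `F₀`. -/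
abbrev compAlg : Subalgebra K' F' := Algebra.adjoin K' (Set.range (algebraMap F₀ F'))

variable {F₀}

/-- The `K'`-linear combination map attached to the image in `F'` of a family of `F₀`. -/
noncomputable abbrev compLC {κ : Type*} (b : κ → F₀) : (κ →₀ K') →ₗ[K'] F' :=
  Finsupp.linearCombination K' (fun j => algebraMap F₀ F' (b j))

variable {K' F'}

theorem IsExt.map_mem_compAlg {σ : K' ≃ₐ[K₀] K'} {τ : F' ≃+* F'} (h : IsExt F₀ σ τ) {t : F'}
    (ht : t ∈ compAlg K' F₀ F') : τ t ∈ compAlg K' F₀ F' := by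
  induction ht using Algebra.adjoin_induction with
  | mem x hx =>
    obtain ⟨u, rfl⟩ := hx
    rw [h.1]
    exact Algebra.subset_adjoin ⟨u, rfl⟩
  | algebraMap r =>
    rw [h.2]
    exact Subalgebra.algebraMap_mem _ _
  | add x y _ _ hx hy =>
    rw [map_add]
    exact add_mem hx hy
  | mul x y _ _ hx hy =>
    rw [map_mul]
    exact mul_mem hx hy

theorem IsExt.map_compLC {σ : K' ≃ₐ[K₀] K'} {τ : F' ≃+* F'} (h : IsExt F₀ σ τ) {κ : Type*}
    (b : κ → F₀) (c : κ →₀ K') :
    τ (compLC K' F' b c) = compLC K' F' b (coordMap σ c) := by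
  induction c using Finsupp.induction_linear with
  | zero => simp
  | add c d hc hd =>
    rw [map_add, map_add, hc, hd, coordMap, coordMap, coordMap,
      Finsupp.mapRange_add (map_add σ), map_add]
  | single j a =>
    simp [Finsupp.mapRange_single, Algebra.smul_def, h.1, h.2]

variable [Algebra K₀ F₀] [Algebra K₀ F'] [IsScalarTower K₀ K' F'] [IsScalarTower K₀ F₀ F']

theorem compLC_ofRat {κ : Type*} (b : κ → F₀) (c : κ →₀ K₀) :
    compLC K' F' b (ofRat c) = algebraMap F₀ F' (Finsupp.linearCombination K₀ b c) := by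
  induction c using Finsupp.induction_linear with
  | zero => simp
  | add c d hc hd =>
    rw [ofRat, Finsupp.mapRange_add (map_add (algebraMap K₀ K')), map_add, map_add, map_add]
    rw [ofRat] at hc hd
    rw [hc, hd]
  | single j k =>
    simp only [Finsupp.mapRange_single, Finsupp.linearCombination_single, Algebra.smul_def,
      map_mul]
    rw [← IsScalarTower.algebraMap_apply K₀ K' F', ← IsScalarTower.algebraMap_apply K₀ F₀ F']

theorem mem_compAlg_iff_range {ι : Type*} (e : Basis ι K₀ F₀) (t : F') :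
    t ∈ compAlg K' F₀ F' ↔ t ∈ LinearMap.range (compLC K' F' e) := by
  constructor
  · intro ht
    have h1 : Submonoid.closure (Set.range (algebraMap F₀ F')) =
        MonoidHom.mrange ((algebraMap F₀ F' : F₀ →+* F') : F₀ →* F') := by
      rw [← Submonoid.closure_eq (MonoidHom.mrange ((algebraMap F₀ F' : F₀ →+* F') : F₀ →* F'))]
      rfl
    have ht' : t ∈ Subalgebra.toSubmodule (Algebra.adjoin K' (Set.range (algebraMap F₀ F'))) := ht
    rw [Algebra.adjoin_eq_span, h1] at ht'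
    refine Submodule.span_le.mpr ?_ ht'
    rintro _ ⟨u, rfl⟩
    exact ⟨ofRat (e.repr u), by rw [compLC_ofRat, e.linearCombination_repr]; rfl⟩
  · rintro ⟨c, rfl⟩
    rw [Finsupp.linearCombination_apply]
    exact Subalgebra.sum_mem _ fun i _ =>
      Subalgebra.smul_mem _ (Algebra.subset_adjoin (Set.mem_range_self (e i))) _

/-- **Step 1.** A finite-dimensional `K'`-subspace of `F'` that is stable under the semilinear
extensions of `Aut(K'/K₀)` lies in `K'[F₀]`. -/
theorem mem_compAlg_of_stable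
    (hfix : ∀ c : K', (∀ σ : K' ≃ₐ[K₀] K', σ c = c) → c ∈ Set.range (algebraMap K₀ K'))
    (hld : ∀ (κ : Type u₂) (b : κ → F₀), LinearIndependent K₀ b →
      LinearIndependent K' (fun j => algebraMap F₀ F' (b j)))
    (hgen : IntermediateField.adjoin K' (Set.range (algebraMap F₀ F')) = ⊤)
    (hext : ∀ σ : K' ≃ₐ[K₀] K', ∃ τ : F' ≃+* F', IsExt F₀ σ τ)
    (V : Submodule K' F') [Module.Finite K' V]
    (hV : ∀ (σ : K' ≃ₐ[K₀] K') (τ : F' ≃+* F'), IsExt F₀ σ τ → ∀ f ∈ V, τ f ∈ V) :
    ∀ f ∈ V, f ∈ compAlg K' F₀ F' := by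
  classical
  set T := compAlg K' F₀ F' with hT
  let e := Basis.ofVectorSpace K₀ F₀
  have hΦinj : Function.Injective (compLC K' F' e) := hld _ e e.linearIndependent
  have hden : ∀ z : F', ∃ t₂ ∈ T, t₂ ≠ 0 ∧ t₂ * z ∈ T := by
    intro z
    have hz : z ∈ IntermediateField.adjoin K' (Set.range (algebraMap F₀ F')) := by
      rw [hgen]; trivial
    obtain ⟨r, hr, s, hs, rfl⟩ := IntermediateField.mem_adjoin_iff_div.mp hz
    by_cases hs0 : s = 0
    · exact ⟨1, one_mem _, one_ne_zero, by simp [hs0, zero_mem]⟩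
    · exact ⟨s, hs, hs0, by rw [mul_div_cancel₀ _ hs0]; exact hr⟩
  choose t₂ ht₂ ht₂0 hmul using hden
  obtain ⟨s, hs⟩ : V.FG := Module.Finite.iff_fg.mp inferInstance
  set b := ∏ f ∈ s, t₂ f with hb
  have hbT : b ∈ T := prod_mem (fun f _ => ht₂ f)
  have hb0 : b ≠ 0 := Finset.prod_ne_zero_iff.mpr (fun f _ => ht₂0 f)
  have hbV : ∀ v ∈ V, b * v ∈ T := by
    intro v hv
    rw [← hs] at hv
    induction hv using Submodule.span_induction with
    | mem f hf =>
      have hf' : f ∈ s := hf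
      rw [hb, ← Finset.mul_prod_erase s t₂ hf', mul_comm (t₂ f), mul_assoc]
      exact mul_mem (prod_mem (fun g _ => ht₂ g)) (hmul f)
    | zero => simp [zero_mem]
    | add x y _ _ hx hy =>
      rw [mul_add]
      exact add_mem hx hy
    | smul a x _ hx =>
      rw [mul_smul_comm]
      exact Subalgebra.smul_mem _ hx a
  let I : Submodule K' F' :=
    { carrier := {b | b ∈ T ∧ ∀ v ∈ V, b * v ∈ T}
      zero_mem' := ⟨zero_mem _, fun v _ => by simp [zero_mem]⟩
      add_mem' := fun {x y} hx hy => ⟨add_mem hx.1 hy.1, fun v hv => by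
        rw [add_mul]
        exact add_mem (hx.2 v hv) (hy.2 v hv)⟩
      smul_mem' := fun a x hx => ⟨Subalgebra.smul_mem _ hx.1 a, fun v hv => by
        rw [smul_mul_assoc]
        exact Subalgebra.smul_mem _ (hx.2 v hv) a⟩ }
  have hIstab : ∀ (σ : K' ≃ₐ[K₀] K') (τ : F' ≃+* F'), IsExt F₀ σ τ → ∀ x ∈ I, τ x ∈ I := by
    intro σ τ h x hx
    refine ⟨h.map_mem_compAlg hx.1, fun v hv => ?_⟩
    have h1 : τ x * v = τ (x * τ.symm v) := by simp
    rw [h1]
    exact h.map_mem_compAlg (hx.2 _ (hV _ _ h.symm v hv))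
  let W : Submodule K' (_ →₀ K') := I.comap (compLC K' F' e)
  have hW : ∀ (σ : K' ≃ₐ[K₀] K'), ∀ w ∈ W, coordMap σ w ∈ W := by
    intro σ w hw
    obtain ⟨τ, hτ⟩ := hext σ
    show compLC K' F' e (coordMap σ w) ∈ I
    rw [← hτ.map_compLC]
    exact hIstab σ τ hτ _ hw
  obtain ⟨cb, hcb⟩ := (mem_compAlg_iff_range e b).mp hbT
  have hcbW : cb ∈ W := by
    show compLC K' F' e cb ∈ I
    rw [hcb]
    exact ⟨hbT, hbV⟩
  have hspan := mem_span_ofRat hfix W hW hcbW
  obtain ⟨c₁, hc₁W, ⟨c₀, rfl⟩, hc₁0⟩ :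
      ∃ c₁, c₁ ∈ W ∧ (∃ c₀ : _ →₀ K₀, c₁ = ofRat c₀) ∧ c₁ ≠ 0 := by
    by_contra hcon
    have hle : Submodule.span K' {v | v ∈ W ∧ ∃ c : _ →₀ K₀, v = ofRat c} ≤ ⊥ := by
      rw [Submodule.span_le]
      rintro v ⟨hvW, hvr⟩
      by_contra hv0
      exact hcon ⟨v, hvW, hvr, fun h => hv0 (by rw [h]; exact Submodule.zero_mem _)⟩
    have hcb0 : cb = 0 := by simpa using hle hspan
    apply hb0
    rw [← hcb, hcb0, map_zero]
  set u := Finsupp.linearCombination K₀ e c₀ with hu
  have hΦ : compLC K' F' e (ofRat c₀) = algebraMap F₀ F' u := compLC_ofRat e c₀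
  have hu0 : u ≠ 0 := by
    intro h0
    apply hc₁0
    apply hΦinj
    rw [hΦ, h0, map_zero, map_zero]
  have huI : algebraMap F₀ F' u ∈ I := by
    rw [← hΦ]
    exact hc₁W
  intro f hf
  have h1 := huI.2 f hf
  have h2 : f = algebraMap F₀ F' u⁻¹ * (algebraMap F₀ F' u * f) := by
    rw [← mul_assoc, ← map_mul, inv_mul_cancel₀ hu0, map_one, one_mul]
  rw [h2]
  exact mul_mem (Algebra.subset_adjoin (Set.mem_range_self _)) h1

/-- The `K₀`-subspace of `F₀`-points of a `K'`-subspace of `F'`. -/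
def ratPoints (V : Submodule K' F') : Submodule K₀ F₀ :=
  (V.restrictScalars K₀).comap (IsScalarTower.toAlgHom K₀ F₀ F').toLinearMap

@[simp]
theorem mem_ratPoints {V : Submodule K' F'} {u : F₀} :
    u ∈ ratPoints (K₀ := K₀) (F₀ := F₀) V ↔ algebraMap F₀ F' u ∈ V := Iff.rfl

/-- **Theorem A (span form).** A finite-dimensional `K'`-subspace of `F'` that is stable under
the semilinear extensions of `Aut(K'/K₀)` is the `K'`-span of its `F₀`-points. -/
theorem eq_span_of_stable
    (hfix : ∀ c : K', (∀ σ : K' ≃ₐ[K₀] K', σ c = c) → c ∈ Set.range (algebraMap K₀ K'))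
    (hld : ∀ (κ : Type u₂) (b : κ → F₀), LinearIndependent K₀ b →
      LinearIndependent K' (fun j => algebraMap F₀ F' (b j)))
    (hgen : IntermediateField.adjoin K' (Set.range (algebraMap F₀ F')) = ⊤)
    (hext : ∀ σ : K' ≃ₐ[K₀] K', ∃ τ : F' ≃+* F', IsExt F₀ σ τ)
    (V : Submodule K' F') [Module.Finite K' V]
    (hV : ∀ (σ : K' ≃ₐ[K₀] K') (τ : F' ≃+* F'), IsExt F₀ σ τ → ∀ f ∈ V, τ f ∈ V) :
    V = Submodule.span K' (algebraMap F₀ F' '' {u : F₀ | algebraMap F₀ F' u ∈ V}) := by
  classical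
  apply le_antisymm
  · intro f hf
    let e := Basis.ofVectorSpace K₀ F₀
    have hfT := mem_compAlg_of_stable hfix hld hgen hext V hV f hf
    obtain ⟨c, rfl⟩ := (mem_compAlg_iff_range e f).mp hfT
    let W : Submodule K' (_ →₀ K') := V.comap (compLC K' F' e)
    have hW : ∀ (σ : K' ≃ₐ[K₀] K'), ∀ w ∈ W, coordMap σ w ∈ W := by
      intro σ w hw
      obtain ⟨τ, hτ⟩ := hext σ
      show compLC K' F' e (coordMap σ w) ∈ V
      rw [← hτ.map_compLC]
      exact hV σ τ hτ _ hw
    have hspan := mem_span_ofRat hfix W hW (show c ∈ W from hf)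
    have h1 := Submodule.mem_map_of_mem (f := compLC K' F' e) hspan
    rw [Submodule.map_span] at h1
    refine Submodule.span_mono ?_ h1
    rintro _ ⟨c', ⟨hc'W, c₀, rfl⟩, rfl⟩
    refine ⟨Finsupp.linearCombination K₀ e c₀, ?_, (compLC_ofRat (K' := K') e c₀).symm⟩
    show algebraMap F₀ F' _ ∈ V
    rw [← compLC_ofRat (K' := K') e c₀]
    exact hc'W
  · rw [Submodule.span_le]
    rintro _ ⟨u, hu, rfl⟩
    exact hu

/-- **Theorem A (dimension form).** -/
theorem finrank_eq_of_stable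
    (hfix : ∀ c : K', (∀ σ : K' ≃ₐ[K₀] K', σ c = c) → c ∈ Set.range (algebraMap K₀ K'))
    (hld : ∀ (κ : Type u₂) (b : κ → F₀), LinearIndependent K₀ b →
      LinearIndependent K' (fun j => algebraMap F₀ F' (b j)))
    (hgen : IntermediateField.adjoin K' (Set.range (algebraMap F₀ F')) = ⊤)
    (hext : ∀ σ : K' ≃ₐ[K₀] K', ∃ τ : F' ≃+* F', IsExt F₀ σ τ)
    (V : Submodule K' F') [Module.Finite K' V]
    (hV : ∀ (σ : K' ≃ₐ[K₀] K') (τ : F' ≃+* F'), IsExt F₀ σ τ → ∀ f ∈ V, τ f ∈ V) :
    Module.finrank K' V = Module.finrank K₀ (ratPoints (K₀ := K₀) (F₀ := F₀) V) := by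
  classical
  let b₀ := Basis.ofVectorSpace K₀ (ratPoints (K₀ := K₀) (F₀ := F₀) V)
  let bF : _ → F₀ := fun j => (b₀ j : F₀)
  have hbF : LinearIndependent K₀ bF :=
    b₀.linearIndependent.map' (ratPoints (K₀ := K₀) (F₀ := F₀) V).subtype
      (Submodule.ker_subtype _)
  have hli := hld _ bF hbF
  have hspan : Submodule.span K' (Set.range fun j => algebraMap F₀ F' (bF j)) = V := by
    apply le_antisymm
    · rw [Submodule.span_le]
      rintro _ ⟨j, rfl⟩
      exact (b₀ j).2
    · have hVeq := eq_span_of_stable hfix hld hgen hext V hV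
      intro f hf
      refine Submodule.span_le.mpr ?_ (hVeq.le hf)
      rintro _ ⟨u, hu, rfl⟩
      have hu' : u ∈ ratPoints (K₀ := K₀) (F₀ := F₀) V := hu
      have h1 : Finsupp.linearCombination K₀ bF (b₀.repr ⟨u, hu'⟩) = u := by
        have h2 := congrArg (ratPoints (K₀ := K₀) (F₀ := F₀) V).subtype
          (b₀.linearCombination_repr ⟨u, hu'⟩)
        rw [LinearMap.map_finsupp_linearCombination] at h2
        exact h2
      rw [← Finsupp.range_linearCombination]
      exact ⟨ofRat (b₀.repr ⟨u, hu'⟩), by rw [compLC_ofRat, h1]⟩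
  have h3 : Module.finrank K' V
      = Module.finrank K' (Submodule.span K' (Set.range fun j => algebraMap F₀ F' (bF j))) := by
    rw [hspan]
  rw [h3, Module.finrank_eq_nat_card_basis (Basis.span hli),
    Module.finrank_eq_nat_card_basis b₀]

open scoped TensorProduct in
/-- Under linear disjointness and generation, every `σ ∈ Aut(K'/K₀)` has a semilinear extension
to `F'` fixing `F₀` (namely `Frac(σ ⊗ id)` on `F' = Frac(K' ⊗[K₀] F₀)`). -/
theorem exists_isExt
    (hld : ∀ (κ : Type u₂) (b : κ → F₀), LinearIndependent K₀ b →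
      LinearIndependent K' (fun j => algebraMap F₀ F' (b j)))
    (hgen : IntermediateField.adjoin K' (Set.range (algebraMap F₀ F')) = ⊤)
    (σ : K' ≃ₐ[K₀] K') : ∃ τ : F' ≃+* F', IsExt F₀ σ τ := by
  classical
  let e := Basis.ofVectorSpace K₀ F₀
  let μ : K' ⊗[K₀] F₀ →ₐ[K₀] F' :=
    Algebra.TensorProduct.productMap (IsScalarTower.toAlgHom K₀ K' F')
      (IsScalarTower.toAlgHom K₀ F₀ F')
  let B := Algebra.TensorProduct.basis K' e
  have hμ : ∀ x, μ x = compLC K' F' e (B.repr x) := by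
    intro x
    induction x using TensorProduct.induction_on with
    | zero => simp
    | tmul a u =>
      rw [Algebra.TensorProduct.productMap_apply_tmul, Algebra.TensorProduct.basis_repr_tmul,
        map_smul]
      have h1 := compLC_ofRat (K' := K') (F' := F') e (e.repr u)
      rw [ofRat] at h1
      rw [h1, e.linearCombination_repr, Algebra.smul_def]
      rfl
    | add x y hx hy => rw [map_add, map_add, map_add, hx, hy]
  have hμinj : Function.Injective μ := by
    rw [injective_iff_map_eq_zero]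
    intro x hx
    rw [hμ] at hx
    have h0 : B.repr x = 0 := (hld _ e e.linearIndependent) (by rw [hx, map_zero])
    simpa using h0
  let _ : Algebra (K' ⊗[K₀] F₀) F' := μ.toRingHom.toAlgebra
  have hfaith : FaithfulSMul (K' ⊗[K₀] F₀) F' :=
    (faithfulSMul_iff_algebraMap_injective _ _).mpr hμinj
  have hfrac : IsFractionRing (K' ⊗[K₀] F₀) F' := by
    apply IsFractionRing.of_field
    intro z
    have hz : z ∈ IntermediateField.adjoin K' (Set.range (algebraMap F₀ F')) := by
      rw [hgen]; trivial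
    obtain ⟨r, hr, s, hs, rfl⟩ := IntermediateField.mem_adjoin_iff_div.mp hz
    obtain ⟨cr, rfl⟩ := (mem_compAlg_iff_range e r).mp hr
    obtain ⟨cs, rfl⟩ := (mem_compAlg_iff_range e s).mp hs
    refine ⟨B.repr.symm cr, B.repr.symm cs, ?_⟩
    show _ = μ _ / μ _
    rw [hμ, hμ, LinearEquiv.apply_symm_apply, LinearEquiv.apply_symm_apply]
  let h : (K' ⊗[K₀] F₀) ≃+* (K' ⊗[K₀] F₀) :=
    (Algebra.TensorProduct.congr σ (AlgEquiv.refl : F₀ ≃ₐ[K₀] F₀)).toRingEquiv
  have h1 : ∀ u : F₀, algebraMap F₀ F' u = algebraMap (K' ⊗[K₀] F₀) F' ((1 : K') ⊗ₜ u) := by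
    intro u
    show _ = μ _
    simp [μ]
  have h2 : ∀ a : K', algebraMap K' F' a = algebraMap (K' ⊗[K₀] F₀) F' (a ⊗ₜ (1 : F₀)) := by
    intro a
    show _ = μ _
    simp [μ]
  refine ⟨IsFractionRing.ringEquivOfRingEquiv (K := F') (L := F') h, fun u => ?_, fun a => ?_⟩
  · rw [h1, IsFractionRing.ringEquivOfRingEquiv_algebraMap]
    have h3 : h ((1 : K') ⊗ₜ[K₀] u) = (1 : K') ⊗ₜ[K₀] u := by simp [h]
    rw [h3]
  · rw [h2, h2, IsFractionRing.ringEquivOfRingEquiv_algebraMap]
    have h3 : h (a ⊗ₜ[K₀] (1 : F₀)) = (σ a) ⊗ₜ[K₀] (1 : F₀) := by simp [h]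
    rw [h3]

/-- **Theorem A.** `F' = K'·F₀` with `F₀`, `K'` linearly disjoint over `K₀` and
`K'^{Aut(K'/K₀)} = K₀`.  A finite-dimensional `K'`-subspace `V` of `F'` that is stable under
every semilinear automorphism of `F'` extending some `σ ∈ Aut(K'/K₀)` and fixing `F₀` is the
`K'`-span of its `F₀`-points, and `dim_{K'} V = dim_{K₀} (V ∩ F₀)`. -/
theorem eq_span_and_finrank_of_stable
    (hfix : ∀ c : K', (∀ σ : K' ≃ₐ[K₀] K', σ c = c) → c ∈ Set.range (algebraMap K₀ K'))
    (hld : ∀ (κ : Type u₂) (b : κ → F₀), LinearIndependent K₀ b →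
      LinearIndependent K' (fun j => algebraMap F₀ F' (b j)))
    (hgen : IntermediateField.adjoin K' (Set.range (algebraMap F₀ F')) = ⊤)
    (V : Submodule K' F') [Module.Finite K' V]
    (hV : ∀ (σ : K' ≃ₐ[K₀] K') (τ : F' ≃+* F'), IsExt F₀ σ τ → ∀ f ∈ V, τ f ∈ V) :
    V = Submodule.span K' (algebraMap F₀ F' '' {u : F₀ | algebraMap F₀ F' u ∈ V}) ∧
      Module.finrank K' V = Module.finrank K₀ (ratPoints (K₀ := K₀) (F₀ := F₀) V) :=
  ⟨eq_span_of_stable hfix hld hgen (exists_isExt hld hgen) V hV,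
    finrank_eq_of_stable hfix hld hgen (exists_isExt hld hgen) V hV⟩

end Descent

end Fermat.Agent.S27.helper2390
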