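/-
S27 — C4 of the constant-field-extension comparison by `Aut(K'/K₀)`-descent (helper2390).

`L'(D') = K'·L(D)` and `dim_{K'} L'(D') = dim_{K₀} L(D)` for a divisor `D'` of `F'/K'` induced
by a divisor `D` of `F₀/K₀`, hypothesis-passing on the extension map of places (only through
`ord`).  No trace duals, no Gauss formula, no local analysis at new places.
-/
import Fermat.Agent.S27.helper2390_AutDescent
import Fermat.Prelude.Def_AlgebraicCurve_Repartitions

set_option autoImplicit false

namespace Fermat.Agent.S27.helper2390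

open AlgebraicCurve

section PlaceComap

variable {K : Type*} {F : Type*} [Field K] [Field F] [Algebra K F]

/-- Membership in the valuation ring of a place in terms of `ord`. -/
theorem mem_toValuationSubring_iff_ord (v : Place K F) (x : F) :
    x ∈ v.toValuationSubring ↔ x = 0 ∨ 0 ≤ v.ord x := by
  constructor
  · intro hx
    exact v.adicValuation_le_one_iff.mp (v.adicValuation_le_one_of_mem hx)
  · rintro (rfl | hx)
    · exact zero_mem _
    · rcases eq_or_ne x 0 with rfl | hx0
      · exact zero_mem _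
      obtain ⟨π, hπ⟩ := IsDiscreteValuationRing.exists_irreducible v.toValuationSubring
      obtain ⟨u, hu⟩ := v.exists_unit_mul_zpow hx0 hπ
      obtain ⟨n, hn⟩ := Int.eq_ofNat_of_zero_le hx
      rw [hu, hn, zpow_natCast]
      exact mul_mem (u : v.toValuationSubring).2 (pow_mem π.2 n)

/-- A place is determined by its order function. -/
theorem place_eq_of_ord_eq {v v' : Place K F} (h : ∀ x : F, v.ord x = v'.ord x) : v = v' := by
  apply Place.ext
  ext x
  rw [mem_toValuationSubring_iff_ord, mem_toValuationSubring_iff_ord, h]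

/-- Every place has an element of non-zero order. -/
theorem exists_ord_ne_zero (v : Place K F) : ∃ x : F, v.ord x ≠ 0 := by
  obtain ⟨π, hπ⟩ := IsDiscreteValuationRing.exists_irreducible v.toValuationSubring
  exact ⟨π, by rw [v.ord_coe_irreducible hπ]; exact one_ne_zero⟩

/-- The ring isomorphism between the pulled-back valuation ring and the original one. -/
noncomputable def comapEquiv (τ : F ≃+* F) (A : ValuationSubring F) :
    ↥(A.comap (τ : F →+* F)) ≃+* ↥A where
  toFun x := ⟨τ x, x.2⟩
  invFun y := ⟨τ.symm y, by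
    show τ (τ.symm y) ∈ A
    rw [RingEquiv.apply_symm_apply]
    exact y.2⟩
  left_inv x := by
    apply Subtype.ext
    simp
  right_inv y := by
    apply Subtype.ext
    simp
  map_mul' x y := by
    apply Subtype.ext
    simp
  map_add' x y := by
    apply Subtype.ext
    simp

@[simp]
theorem comapEquiv_coe (τ : F ≃+* F) (A : ValuationSubring F) (x : ↥(A.comap (τ : F →+* F))) :
    ((comapEquiv τ A x : ↥A) : F) = τ (x : F) := rfl

/-- Pull-back of a place along a ring automorphism of `F` mapping `K` into `K`. -/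
noncomputable def placeComap (τ : F ≃+* F)
    (hτ : ∀ a : K, ∃ a' : K, τ (algebraMap K F a) = algebraMap K F a') (w : Place K F) :
    Place K F where
  toValuationSubring := w.toValuationSubring.comap (τ : F →+* F)
  algebraMap_mem' := fun a => by
    obtain ⟨a', ha'⟩ := hτ a
    show τ (algebraMap K F a) ∈ w.toValuationSubring
    rw [ha']
    exact w.algebraMap_mem' a'
  ne_top' := by
    intro h
    apply w.ne_top'
    ext x
    constructor
    · intro _
      trivial
    · intro _
      have h1 : τ.symm x ∈ w.toValuationSubring.comap (τ : F →+* F) := by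
        rw [h]
        trivial
      have h2 : τ (τ.symm x) ∈ w.toValuationSubring := h1
      rwa [RingEquiv.apply_symm_apply] at h2
  isPrincipalIdealRing' :=
    IsPrincipalIdealRing.of_surjective (comapEquiv τ w.toValuationSubring).symm.toRingHom
      (comapEquiv τ w.toValuationSubring).symm.surjective

theorem placeComap_ord (τ : F ≃+* F)
    (hτ : ∀ a : K, ∃ a' : K, τ (algebraMap K F a) = algebraMap K F a') (w : Place K F) (g : F) :
    (placeComap τ hτ w).ord g = w.ord (τ g) := by
  rcases eq_or_ne g 0 with rfl | hg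
  · simp
  obtain ⟨π, hπ⟩ :=
    IsDiscreteValuationRing.exists_irreducible (placeComap τ hτ w).toValuationSubring
  obtain ⟨u, hu⟩ := (placeComap τ hτ w).exists_unit_mul_zpow hg hπ
  let ρ : ↥((placeComap τ hτ w).toValuationSubring) ≃+* ↥(w.toValuationSubring) :=
    comapEquiv τ w.toValuationSubring
  have hπ' : Irreducible (ρ π) := (MulEquiv.irreducible_iff ρ.toMulEquiv).mpr hπ
  have h := w.ord_unit_smul_zpow (Units.map ρ.toMonoidHom u) hπ' ((placeComap τ hτ w).ord g)
  have h2 : τ g = (((Units.map ρ.toMonoidHom u : (w.toValuationSubring)ˣ) :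
      w.toValuationSubring) : F) * ((ρ π : w.toValuationSubring) : F) ^
        ((placeComap τ hτ w).ord g) := by
    conv_lhs => rw [hu]
    rw [map_mul, map_zpow₀]
    rfl
  rw [h2, h]

end PlaceComap

section C4

universe u₀ u₁ u₂ u₃

variable {K₀ : Type u₀} {K' : Type u₁} {F₀ : Type u₂} {F' : Type u₃}
  [Field K₀] [Field K'] [Field F₀] [Field F']
  [Algebra K' F'] [Algebra F₀ F'] [Algebra K₀ F₀]

/-- A divisor of `F'/K'` that vanishes off the range of an extension map `ext` of places is
invariant under pull-back of places along automorphisms of `F'` fixing `F₀` and preserving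
`K'`. -/
theorem divisor_placeComap_eq
    (ext : Place K₀ F₀ → Place K' F')
    (hext_ord : ∀ v u, (ext v).ord (algebraMap F₀ F' u) = v.ord u)
    (hold : ∀ w : Place K' F', (∃ u : F₀, w.ord (algebraMap F₀ F' u) ≠ 0) → w ∈ Set.range ext)
    (D' : Divisor K' F') (hD₂ : ∀ w, w ∉ Set.range ext → D' w = 0)
    (τ : F' ≃+* F') (hτ : ∀ a : K', ∃ a' : K', τ (algebraMap K' F' a) = algebraMap K' F' a')
    (hτ₀ : ∀ u : F₀, τ (algebraMap F₀ F' u) = algebraMap F₀ F' u) (w : Place K' F') :
    D' (placeComap τ hτ w) = D' w := by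
  have hord : ∀ u : F₀, (placeComap τ hτ w).ord (algebraMap F₀ F' u)
      = w.ord (algebraMap F₀ F' u) := fun u => by rw [placeComap_ord, hτ₀]
  by_cases hw : w ∈ Set.range ext
  · obtain ⟨v, rfl⟩ := hw
    obtain ⟨u, hu⟩ := exists_ord_ne_zero v
    obtain ⟨v', hv'⟩ := hold (placeComap τ hτ (ext v)) ⟨u, by rw [hord, hext_ord]; exact hu⟩
    have hvv' : v' = v := place_eq_of_ord_eq fun x => by
      rw [← hext_ord v' x, hv', hord, hext_ord]
    rw [← hv', hvv']
  · have hw' : placeComap τ hτ w ∉ Set.range ext := by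
      rintro ⟨v', hv'⟩
      obtain ⟨u, hu⟩ := exists_ord_ne_zero v'
      exact hw (hold w ⟨u, by rw [← hord, ← hv', hext_ord]; exact hu⟩)
    rw [hD₂ _ hw', hD₂ _ hw]

/-- `L'(D')` is stable under the automorphisms of `F'` fixing `F₀` and preserving `K'`. -/
theorem map_mem_riemannRochSpace
    (ext : Place K₀ F₀ → Place K' F')
    (hext_ord : ∀ v u, (ext v).ord (algebraMap F₀ F' u) = v.ord u)
    (hold : ∀ w : Place K' F', (∃ u : F₀, w.ord (algebraMap F₀ F' u) ≠ 0) → w ∈ Set.range ext)
    (D' : Divisor K' F') (hD₂ : ∀ w, w ∉ Set.range ext → D' w = 0)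
    (τ : F' ≃+* F') (hτ : ∀ a : K', ∃ a' : K', τ (algebraMap K' F' a) = algebraMap K' F' a')
    (hτ₀ : ∀ u : F₀, τ (algebraMap F₀ F' u) = algebraMap F₀ F' u) {f : F'}
    (hf : f ∈ riemannRochSpace D') : τ f ∈ riemannRochSpace D' := by
  rw [mem_riemannRochSpace_iff] at hf ⊢
  intro w
  rcases eq_or_ne f 0 with rfl | hf0
  · left
    exact map_zero τ
  · right
    have h1 := (hf (placeComap τ hτ w)).resolve_left hf0
    rwa [divisor_placeComap_eq ext hext_ord hold D' hD₂ τ hτ hτ₀ w, placeComap_ord] at h1

variable [Algebra K₀ K'] [Algebra K₀ F'] [IsScalarTower K₀ K' F'] [IsScalarTower K₀ F₀ F']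

/-- The `F₀`-points of `L'(D')` are `L(D)`. -/
theorem ratPoints_riemannRochSpace
    (ext : Place K₀ F₀ → Place K' F')
    (hext_ord : ∀ v u, (ext v).ord (algebraMap F₀ F' u) = v.ord u)
    (hold : ∀ w : Place K' F', (∃ u : F₀, w.ord (algebraMap F₀ F' u) ≠ 0) → w ∈ Set.range ext)
    (D : Divisor K₀ F₀) (D' : Divisor K' F')
    (hD₁ : ∀ v, D' (ext v) = D v) (hD₂ : ∀ w, w ∉ Set.range ext → D' w = 0) :
    ratPoints (K₀ := K₀) (F₀ := F₀) (riemannRochSpace D') = riemannRochSpace D := by
  ext u
  rw [mem_ratPoints, mem_riemannRochSpace_iff, mem_riemannRochSpace_iff]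
  constructor
  · intro h v
    rcases h (ext v) with h0 | h1
    · left
      exact (map_eq_zero_iff _ (algebraMap F₀ F').injective).mp h0
    · right
      rwa [hD₁, hext_ord] at h1
  · intro h w
    by_cases hw : w ∈ Set.range ext
    · obtain ⟨v, rfl⟩ := hw
      rcases h v with rfl | h1
      · left
        exact map_zero _
      · right
        rwa [hD₁, hext_ord]
    · right
      have h0 : w.ord (algebraMap F₀ F' u) = 0 := by
        by_contra hne
        exact hw (hold w ⟨u, hne⟩)
      rw [hD₂ w hw, h0, neg_zero]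

/-- **C4 by `Aut(K'/K₀)`-descent.** `F' = K'·F₀`, `F₀` and `K'` linearly disjoint over `K₀`,
`K'^{Aut(K'/K₀)} = K₀`.  Let `ext` be an extension map of places compatible with `ord` whose
range contains every place of `F'` that is non-trivial on `F₀`, and let `D'` be the divisor
induced by `D`.  If `L'(D')` is finite-dimensional, then `L'(D') = K'·L(D)` and
`dim_{K'} L'(D') = dim_{K₀} L(D)`. -/
theorem riemannRochSpace_eq_span_and_finrank
    (hfix : ∀ c : K', (∀ σ : K' ≃ₐ[K₀] K', σ c = c) → c ∈ Set.range (algebraMap K₀ K'))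
    (hld : ∀ (κ : Type u₂) (b : κ → F₀), LinearIndependent K₀ b →
      LinearIndependent K' (fun j => algebraMap F₀ F' (b j)))
    (hgen : IntermediateField.adjoin K' (Set.range (algebraMap F₀ F')) = ⊤)
    (ext : Place K₀ F₀ → Place K' F')
    (hext_ord : ∀ v u, (ext v).ord (algebraMap F₀ F' u) = v.ord u)
    (hold : ∀ w : Place K' F', (∃ u : F₀, w.ord (algebraMap F₀ F' u) ≠ 0) → w ∈ Set.range ext)
    (D : Divisor K₀ F₀) (D' : Divisor K' F')
    (hD₁ : ∀ v, D' (ext v) = D v) (hD₂ : ∀ w, w ∉ Set.range ext → D' w = 0)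
    [Module.Finite K' (riemannRochSpace D')] :
    riemannRochSpace D'
        = Submodule.span K' (algebraMap F₀ F' '' (riemannRochSpace D : Set F₀)) ∧
      Module.finrank K' (riemannRochSpace D') = Module.finrank K₀ (riemannRochSpace D) := by
  have hV : ∀ (σ : K' ≃ₐ[K₀] K') (τ : F' ≃+* F'), IsExt F₀ σ τ →
      ∀ f ∈ riemannRochSpace D', τ f ∈ riemannRochSpace D' := fun σ τ h f hf =>
    map_mem_riemannRochSpace ext hext_ord hold D' hD₂ τ (fun a => ⟨σ a, h.2 a⟩) h.1 hf
  have hrat := ratPoints_riemannRochSpace (K₀ := K₀) ext hext_ord hold D D' hD₁ hD₂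
  obtain ⟨h1, h2⟩ := eq_span_and_finrank_of_stable hfix hld hgen (riemannRochSpace D') hV
  refine ⟨?_, ?_⟩
  · have h3 : {u : F₀ | algebraMap F₀ F' u ∈ riemannRochSpace D'}
        = (riemannRochSpace D : Set F₀) := by
      rw [← hrat]
      rfl
    rw [← h3]
    exact h1
  · rw [h2, hrat]

end C4

end Fermat.Agent.S27.helper2390
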