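import Mathlib
import Fermat.Prelude.Def_AlgebraicCurve_DivisorClassGroup
import Fermat.Prelude.Def_AlgebraicCurve_IsCurveOver
import Fermat.Prelude.Def_AlgebraicCurve_Repartitions

/-!
# S27, module L (Lefschetz transfer): specification file (helper8094)

Goal of module L (assembled in `helper8094_Lefschetz.lean`):

  S27 for `K = ℂ`  ⟹  S27 for every algebraically closed field of characteristic zero.

Every intermediate result is a `Prop`-valued definition `Stmt_*` below (hypothesis-passing style:
each leaf proves one `Stmt_*`, possibly from other `Stmt_*` given as hypotheses).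

Mathematical plan.
* `(K0, F0) ⊂ (K1, F1)` is a *constant field extension* (`IsConstExt`) when `F0 ⊗[K0] K1 → F1` is
  injective and `F1` is its field of fractions.
* CFE: for a constant field extension of curves over algebraically closed fields, every place of
  `F0` has a unique extension to `F1` (`IsExtOf`), the other places of `F1` are trivial on `F0`,
  Riemann–Roch spaces base-change, `Pic0 F0 → Pic0 F1` is injective and the genus is unchanged.
* DOWN: a curve over a big field `K` has models over subfields `K0 ≅ ℂ` capturing any finite set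
  of places.  UP: a curve over `K` extends to any algebraically closed `K1 ⊇ K`.
* DESC: torsion classes of `F1` descend to `F0` (finiteness + orbits of `Aut(K1/K0)`).
* T: everything is invariant under isomorphisms of pairs `(K, F) ≅ (K', F')`.
-/

set_option autoImplicit false

open AlgebraicCurve TensorProduct
open scoped IntermediateField

namespace Fermat.Agent.S27.helper8094

universe u v u' v'

/-! ## Inputs from the other S27 modules -/

/-- Weak Riemann–Roch: `l(D) = deg D + 1 - g` for all divisors of large degree. -/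
def WeakRR (K : Type u) (F : Type v) [Field K] [Field F] [Algebra K F] : Prop :=
  ∃ c : ℤ, ∀ D : Divisor K F, c ≤ Divisor.degree D →
    (Module.finrank K (riemannRochSpace D) : ℤ) = Divisor.degree D + 1 - (genusFF K F : ℤ)

/-- (A2) Weak Riemann–Roch for every curve over an algebraically closed field of char. 0. -/
def Stmt_WeakRR : Prop :=
  ∀ (K : Type u) (F : Type v) [Field K] [Field F] [Algebra K F] [IsAlgClosed K] [CharZero K]
    [IsCurveOver K F] [Algebra.EssFiniteType K F], WeakRR K F

/-- (A0) A curve is a finite extension of a rational function field. -/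
def Stmt_A0 : Prop :=
  ∀ (K : Type u) (F : Type v) [Field K] [Field F] [Algebra K F] [CharZero K]
    [IsCurveOver K F] [Algebra.EssFiniteType K F],
    ∃ x : F, Transcendental K x ∧ FiniteDimensional K⟮x⟯ F

/-- The statement S27 over the complex numbers, for function fields in universe `v`. -/
def Stmt_Complex : Prop :=
  ∀ (F : Type v) [Field F] [Algebra ℂ F] [IsCurveOver ℂ F] [Algebra.EssFiniteType ℂ F]
    (ℓ : ℕ) [Fact ℓ.Prime] (k : ℕ),
    Nat.card (Pic0.torsion ℂ F (ℓ ^ k)) = ℓ ^ (2 * genusFF ℂ F * k)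

/-- The frozen statement S27 at universes `u, v`. -/
def Stmt_S27 : Prop :=
  ∀ (K : Type u) (F : Type v) [Field K] [Field F] [Algebra K F] [IsAlgClosed K] [CharZero K]
    [IsCurveOver K F] [Algebra.EssFiniteType K F] (ℓ : ℕ) [Fact ℓ.Prime] (k : ℕ),
    Nat.card (Pic0.torsion K F (ℓ ^ k)) = ℓ ^ (2 * genusFF K F * k)

/-! ## (G) generic criterion -/

/-- (G) A finite extension of `K(x)` is a curve. -/
def Stmt_G : Prop :=
  ∀ (K : Type u) (F : Type v) [Field K] [Field F] [Algebra K F] [IsAlgClosed K] [CharZero K]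
    (x : F), Transcendental K x → FiniteDimensional K⟮x⟯ F →
    IsCurveOver K F ∧ Algebra.EssFiniteType K F

/-! ## (T) transport along isomorphisms of pairs -/

/-- An isomorphism of pairs `(K, F) ≅ (K', F')`: ring isomorphisms compatible with the
algebra maps (in general only semilinear). -/
structure PairIso (K : Type u) (F : Type v) (K' : Type u') (F' : Type v')
    [Field K] [Field F] [Algebra K F] [Field K'] [Field F'] [Algebra K' F'] where
  /-- the isomorphism of constant fields -/
  e : K ≃+* K'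
  /-- the isomorphism of function fields -/
  φ : F ≃+* F'
  comm : ∀ a : K, φ (algebraMap K F a) = algebraMap K' F' (e a)

/-- (T1) An isomorphism of pairs induces a bijection on places compatible with `ord`. -/
def Stmt_T1 : Prop :=
  ∀ (K : Type u) (F : Type v) (K' : Type u') (F' : Type v')
    [Field K] [Field F] [Algebra K F] [Field K'] [Field F'] [Algebra K' F']
    (P : PairIso K F K' F'),
    ∃ Φ : Place K F ≃ Place K' F', ∀ (w : Place K F) (f : F), (Φ w).ord (P.φ f) = w.ord f

/-- (T1b) An isomorphism of pairs preserves the number of `n`-torsion classes. -/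
def Stmt_T1b : Prop :=
  ∀ (K : Type u) (F : Type v) (K' : Type u') (F' : Type v')
    [Field K] [Field F] [Algebra K F] [Field K'] [Field F'] [Algebra K' F']
    (_ : PairIso K F K' F') (n : ℕ),
    Nat.card (Pic0.torsion K F n) = Nat.card (Pic0.torsion K' F' n)

/-- (T2) An isomorphism of pairs preserves the genus. -/
def Stmt_T2 : Prop :=
  ∀ (K : Type u) (F : Type v) (K' : Type u') (F' : Type v')
    [Field K] [Field F] [Algebra K F] [Field K'] [Field F'] [Algebra K' F']
    (_ : PairIso K F K' F'), genusFF K F = genusFF K' F'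

/-- (T3) An isomorphism of pairs preserves being a curve. -/
def Stmt_T3 : Prop :=
  ∀ (K : Type u) (F : Type v) (K' : Type u') (F' : Type v')
    [Field K] [Field F] [Algebra K F] [Field K'] [Field F'] [Algebra K' F']
    [IsAlgClosed K] [CharZero K] [IsCurveOver K F] [Algebra.EssFiniteType K F]
    (_ : PairIso K F K' F'), IsCurveOver K' F' ∧ Algebra.EssFiniteType K' F'

/-! ## Constant field extensions -/

section ConstExt

variable (K0 : Type u) (F0 : Type v) (K1 : Type u') (F1 : Type v')
  [Field K0] [Field F0] [Field K1] [Field F1]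
  [Algebra K0 F0] [Algebra K1 F1] [Algebra K0 K1] [Algebra F0 F1] [Algebra K0 F1]
  [IsScalarTower K0 F0 F1] [IsScalarTower K0 K1 F1]

/-- The multiplication map `F0 ⊗[K0] K1 → F1`. -/
noncomputable def mulMap : F0 ⊗[K0] K1 →ₐ[K0] F1 :=
  Algebra.TensorProduct.productMap (IsScalarTower.toAlgHom K0 F0 F1)
    (IsScalarTower.toAlgHom K0 K1 F1)

@[simp]
theorem mulMap_tmul (f : F0) (c : K1) :
    mulMap K0 F0 K1 F1 (f ⊗ₜ[K0] c) = algebraMap F0 F1 f * algebraMap K1 F1 c := by
  simp [mulMap]

/-- `(K1, F1)` is a constant field extension of `(K0, F0)`: `F0` and `K1` are linearly disjoint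
over `K0` inside `F1`, and `F1` is the field of fractions of `F0 ⊗[K0] K1`. -/
structure IsConstExt : Prop where
  inj : Function.Injective (mulMap K0 F0 K1 F1)
  gen : ∀ h : F1, ∃ p q : F0 ⊗[K0] K1,
    mulMap K0 F0 K1 F1 q ≠ 0 ∧ h * mulMap K0 F0 K1 F1 q = mulMap K0 F0 K1 F1 p

end ConstExt

/-- The place `w` of `F1` extends the place `v` of `F0` (with ramification index one). -/
def IsExtOf {K0 : Type u} {F0 : Type v} {K1 : Type u'} {F1 : Type v'}
    [Field K0] [Field F0] [Field K1] [Field F1] [Algebra K0 F0] [Algebra K1 F1] [Algebra F0 F1]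
    (w : Place K1 F1) (v : Place K0 F0) : Prop :=
  ∀ f : F0, w.ord (algebraMap F0 F1 f) = v.ord f

/-- (CFE1) Places of `F0` extend uniquely; a place of `F1` which is nontrivial on `F0` is such an
extension; and the order of `∑ aᵢ cᵢ` (`aᵢ ∈ F0`, `cᵢ ∈ K1` linearly independent over `K0`) at an
extended place is the minimum of the orders of the `aᵢ`. -/
def Stmt_CFE1 : Prop :=
  ∀ (K0 : Type u) (F0 : Type v) (K1 : Type u') (F1 : Type v')
    [Field K0] [Field F0] [Field K1] [Field F1]
    [Algebra K0 F0] [Algebra K1 F1] [Algebra K0 K1] [Algebra F0 F1] [Algebra K0 F1]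
    [IsScalarTower K0 F0 F1] [IsScalarTower K0 K1 F1]
    [IsAlgClosed K0] [CharZero K0] [IsAlgClosed K1] [CharZero K1]
    [IsCurveOver K0 F0] [Algebra.EssFiniteType K0 F0]
    [IsCurveOver K1 F1] [Algebra.EssFiniteType K1 F1],
    IsConstExt K0 F0 K1 F1 →
    (∀ v : Place K0 F0, ∃! w : Place K1 F1, IsExtOf w v) ∧
    (∀ w : Place K1 F1, (∃ f : F0, f ≠ 0 ∧ w.ord (algebraMap F0 F1 f) ≠ 0) →
      ∃ v : Place K0 F0, IsExtOf w v) ∧
    (∀ (v : Place K0 F0) (w : Place K1 F1), IsExtOf w v →
      ∀ (n : ℕ) (a : Fin n → F0) (c : Fin n → K1), LinearIndependent K0 c → ∀ m : ℤ,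
        ((∑ i, algebraMap F0 F1 (a i) * algebraMap K1 F1 (c i) = 0 ∨
            m ≤ w.ord (∑ i, algebraMap F0 F1 (a i) * algebraMap K1 F1 (c i))) ↔
          ∀ i, a i = 0 ∨ m ≤ v.ord (a i)))

/-- (CFE2) An element of `F1` without poles at the places which are trivial on `F0` lies in the
image of `F0 ⊗[K0] K1`. -/
def Stmt_CFE2 : Prop :=
  ∀ (K0 : Type u) (F0 : Type v) (K1 : Type u') (F1 : Type v')
    [Field K0] [Field F0] [Field K1] [Field F1]
    [Algebra K0 F0] [Algebra K1 F1] [Algebra K0 K1] [Algebra F0 F1] [Algebra K0 F1]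
    [IsScalarTower K0 F0 F1] [IsScalarTower K0 K1 F1]
    [IsAlgClosed K0] [CharZero K0] [IsAlgClosed K1] [CharZero K1]
    [IsCurveOver K0 F0] [Algebra.EssFiniteType K0 F0]
    [IsCurveOver K1 F1] [Algebra.EssFiniteType K1 F1],
    IsConstExt K0 F0 K1 F1 →
    ∀ h : F1,
      (∀ w : Place K1 F1, (∀ f : F0, f ≠ 0 → w.ord (algebraMap F0 F1 f) = 0) → 0 ≤ w.ord h) →
      h ∈ Set.range (mulMap K0 F0 K1 F1)

/-- (CFE3) Base change of Riemann–Roch spaces. -/
def Stmt_CFE3 : Prop :=
  ∀ (K0 : Type u) (F0 : Type v) (K1 : Type u') (F1 : Type v')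
    [Field K0] [Field F0] [Field K1] [Field F1]
    [Algebra K0 F0] [Algebra K1 F1] [Algebra K0 K1] [Algebra F0 F1] [Algebra K0 F1]
    [IsScalarTower K0 F0 F1] [IsScalarTower K0 K1 F1]
    [IsAlgClosed K0] [CharZero K0] [IsAlgClosed K1] [CharZero K1]
    [IsCurveOver K0 F0] [Algebra.EssFiniteType K0 F0]
    [IsCurveOver K1 F1] [Algebra.EssFiniteType K1 F1],
    IsConstExt K0 F0 K1 F1 →
    ∀ ι : Place K0 F0 → Place K1 F1, (∀ v, IsExtOf (ι v) v) →
    ∀ E : Divisor K0 F0,
      (∀ h : F1, h ∈ riemannRochSpace (Finsupp.mapDomain ι E) ↔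
        h ∈ Submodule.span K1 (algebraMap F0 F1 '' (riemannRochSpace E : Set F0))) ∧
      Module.finrank K1 (riemannRochSpace (Finsupp.mapDomain ι E)) =
        Module.finrank K0 (riemannRochSpace E)

/-- (CFE4) Divisors: degree, principal divisors, and the genus, under constant field extension. -/
def Stmt_CFE4 : Prop :=
  ∀ (K0 : Type u) (F0 : Type v) (K1 : Type u') (F1 : Type v')
    [Field K0] [Field F0] [Field K1] [Field F1]
    [Algebra K0 F0] [Algebra K1 F1] [Algebra K0 K1] [Algebra F0 F1] [Algebra K0 F1]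
    [IsScalarTower K0 F0 F1] [IsScalarTower K0 K1 F1]
    [IsAlgClosed K0] [CharZero K0] [IsAlgClosed K1] [CharZero K1]
    [IsCurveOver K0 F0] [Algebra.EssFiniteType K0 F0]
    [IsCurveOver K1 F1] [Algebra.EssFiniteType K1 F1],
    IsConstExt K0 F0 K1 F1 →
    ∀ ι : Place K0 F0 → Place K1 F1, (∀ v, IsExtOf (ι v) v) →
      (∀ D : Divisor K0 F0, Divisor.degree (Finsupp.mapDomain ι D) = Divisor.degree D) ∧
      (∀ D : Divisor K0 F0, D ∈ Divisor.principal (K := K0) (F := F0) →
        Finsupp.mapDomain ι D ∈ Divisor.principal (K := K1) (F := F1)) ∧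
      (∀ D : Divisor K0 F0, Divisor.degree D = 0 →
        Finsupp.mapDomain ι D ∈ Divisor.principal (K := K1) (F := F1) →
        D ∈ Divisor.principal (K := K0) (F := F0)) ∧
      (WeakRR K0 F0 → WeakRR K1 F1 → genusFF K0 F0 = genusFF K1 F1)

/-! ## Descent of torsion classes -/

/-- (AUT) An element outside the algebraically closed subfield `K0` has infinitely many
conjugates under `Aut(K1/K0)`. -/
def Stmt_AUT : Prop :=
  ∀ (K0 : Type u) (K1 : Type u') [Field K0] [Field K1] [Algebra K0 K1]
    [IsAlgClosed K0] [IsAlgClosed K1] (a : K1), a ∉ Set.range (algebraMap K0 K1) →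
    Set.Infinite {b : K1 | ∃ σ : K1 ≃ₐ[K0] K1, σ a = b}

/-- (SEMI) Every `K0`-automorphism of `K1` extends to a ring automorphism of `F1` fixing `F0`. -/
def Stmt_SEMI : Prop :=
  ∀ (K0 : Type u) (F0 : Type v) (K1 : Type u') (F1 : Type v')
    [Field K0] [Field F0] [Field K1] [Field F1]
    [Algebra K0 F0] [Algebra K1 F1] [Algebra K0 K1] [Algebra F0 F1] [Algebra K0 F1]
    [IsScalarTower K0 F0 F1] [IsScalarTower K0 K1 F1],
    IsConstExt K0 F0 K1 F1 → ∀ σ : K1 ≃ₐ[K0] K1,
    ∃ τ : F1 ≃+* F1, (∀ c : K1, τ (algebraMap K1 F1 c) = algebraMap K1 F1 (σ c)) ∧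
      ∀ f : F0, τ (algebraMap F0 F1 f) = algebraMap F0 F1 f

/-- (DESC) If `Pic0(F1)[n]` is finite, every `n`-torsion class of `F1` is represented by a
divisor coming from `F0`. -/
def Stmt_DESC : Prop :=
  ∀ (K0 : Type u) (F0 : Type v) (K1 : Type u') (F1 : Type v')
    [Field K0] [Field F0] [Field K1] [Field F1]
    [Algebra K0 F0] [Algebra K1 F1] [Algebra K0 K1] [Algebra F0 F1] [Algebra K0 F1]
    [IsScalarTower K0 F0 F1] [IsScalarTower K0 K1 F1]
    [IsAlgClosed K0] [CharZero K0] [IsAlgClosed K1] [CharZero K1]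
    [IsCurveOver K0 F0] [Algebra.EssFiniteType K0 F0]
    [IsCurveOver K1 F1] [Algebra.EssFiniteType K1 F1],
    IsConstExt K0 F0 K1 F1 → WeakRR K1 F1 →
    ∀ n : ℕ, (Pic0.torsion K1 F1 n : Set (Pic0 K1 F1)).Finite →
    ∀ ι : Place K0 F0 → Place K1 F1, (∀ v, IsExtOf (ι v) v) →
    ∀ D1 : Divisor K1 F1, Divisor.degree D1 = 0 →
      n • D1 ∈ Divisor.principal (K := K1) (F := F1) →
      ∃ D0 : Divisor K0 F0, Divisor.degree D0 = 0 ∧
        D1 - Finsupp.mapDomain ι D0 ∈ Divisor.principal (K := K1) (F := F1)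

/-! ## Models over subfields and extension of constants -/

/-- (DOWN) A curve over a field `K` with at least continuum many elements has a model over an
algebraically closed subfield `K0` of cardinality continuum, on which any given finite set of
places is nontrivial. -/
def Stmt_Down : Prop :=
  ∀ (K : Type u) (F : Type v) [Field K] [Field F] [Algebra K F] [IsAlgClosed K] [CharZero K]
    [IsCurveOver K F] [Algebra.EssFiniteType K F],
    Cardinal.continuum ≤ Cardinal.mk K →
    ∀ P : Finset (Place K F),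
    ∃ (K0 : Type u) (F0 : Type v) (_ : Field K0) (_ : Field F0) (_ : Algebra K0 F0)
      (_ : Algebra K0 K) (_ : Algebra F0 F) (_ : Algebra K0 F)
      (_ : IsScalarTower K0 F0 F) (_ : IsScalarTower K0 K F)
      (_ : IsAlgClosed K0) (_ : IsCurveOver K0 F0) (_ : Algebra.EssFiniteType K0 F0),
      Cardinal.mk K0 = Cardinal.continuum ∧ IsConstExt K0 F0 K F ∧
      ∀ w ∈ P, ∃ f : F0, f ≠ 0 ∧ w.ord (algebraMap F0 F f) ≠ 0

/-- (UP) A curve over `K` extends to a curve over any algebraically closed extension `K1`. -/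
def Stmt_Up : Prop :=
  ∀ (K : Type u) (F : Type v) (K1 : Type u') [Field K] [Field F] [Algebra K F]
    [IsAlgClosed K] [CharZero K] [IsCurveOver K F] [Algebra.EssFiniteType K F]
    [Field K1] [Algebra K K1] [IsAlgClosed K1],
    ∃ (F1 : Type (max v u')) (_ : Field F1) (_ : Algebra K1 F1) (_ : Algebra F F1)
      (_ : Algebra K F1) (_ : IsScalarTower K F F1) (_ : IsScalarTower K K1 F1)
      (_ : IsCurveOver K1 F1) (_ : Algebra.EssFiniteType K1 F1), IsConstExt K F K1 F1

end Fermat.Agent.S27.helper8094
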