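/-
S27, module L — `helper8094.Stmt_CFE3` (base change of Riemann–Roch spaces under constant field
extension) VERBATIM, from `Stmt_CFE1` (existence/uniqueness of place extensions), by
`Aut(K1/K0)`-descent (helper2390).  Also the adapters from `helper8094.IsConstExt` to the
(ld)/(gen) hypotheses of `helper2390_AutDescent`.
-/
import Fermat.Agent.S27.helper2390_C4
import Fermat.Agent.S27.helper8094_LefSpec
import Fermat.Agent.S27.helper6247_Spec
import Fermat.Agent.S27.helper1618_AutFixed

set_option autoImplicit false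

namespace Fermat.Agent.S27.helper2390

open AlgebraicCurve TensorProduct Module
open Fermat.Agent.S27.helper8094

section Adapters

universe u v u' v'

variable {K0 : Type u} {F0 : Type v} {K1 : Type u'} {F1 : Type v'}
  [Field K0] [Field F0] [Field K1] [Field F1]
  [Algebra K0 F0] [Algebra K1 F1] [Algebra K0 K1] [Algebra F0 F1] [Algebra K0 F1]
  [IsScalarTower K0 F0 F1] [IsScalarTower K0 K1 F1]

/-- Linear disjointness in family form from injectivity of `F0 ⊗[K0] K1 → F1`. -/
theorem hld_of_mulMap_injective (hinj : Function.Injective (mulMap K0 F0 K1 F1)) :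
    ∀ (κ : Type v) (b : κ → F0), LinearIndependent K0 b →
      LinearIndependent K1 (fun j => algebraMap F0 F1 (b j)) := by
  classical
  intro κ b hb
  rw [linearIndependent_iff]
  intro c hc
  have hs : LinearIndepOn K0 id (Set.range b) := hb.linearIndepOn_id
  let ℬ := Basis.extend hs
  let j' : κ → ↥(hs.extend (Set.subset_univ _)) := fun j =>
    ⟨b j, Basis.subset_extend hs (Set.mem_range_self j)⟩
  have hj' : Function.Injective j' := fun j₁ j₂ h => hb.injective (congrArg Subtype.val h)
  have hℬ : ∀ j, ℬ (j' j) = b j := fun j => Basis.extend_apply_self hs _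
  have key : ((c.mapDomain j').sum fun i n => ℬ i ⊗ₜ[K0] n) = 0 := by
    apply hinj
    rw [map_zero, Finsupp.sum_mapDomain_index_inj hj', Finsupp.sum, map_sum]
    rw [Finsupp.linearCombination_apply, Finsupp.sum] at hc
    rw [← hc]
    refine Finset.sum_congr rfl fun j _ => ?_
    rw [mulMap_tmul, hℬ, Algebra.smul_def, mul_comm]
  have h0 := TensorProduct.sum_tmul_basis_left_eq_zero ℬ _ key
  exact Finsupp.mapDomain_injective hj' (by rw [h0, Finsupp.mapDomain_zero])

/-- Generation in `IntermediateField.adjoin` form from the fraction form. -/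
theorem hgen_of_isConstExt (h : IsConstExt K0 F0 K1 F1) :
    IntermediateField.adjoin K1 (Set.range (algebraMap F0 F1)) = ⊤ := by
  rw [eq_top_iff]
  intro z _
  obtain ⟨p, q, hq, hz⟩ := h.gen z
  have hmem : ∀ p : F0 ⊗[K0] K1, mulMap K0 F0 K1 F1 p ∈
      IntermediateField.adjoin K1 (Set.range (algebraMap F0 F1)) := by
    intro p
    induction p using TensorProduct.induction_on with
    | zero =>
      rw [map_zero]
      exact zero_mem _
    | tmul f c =>
      rw [mulMap_tmul]
      exact mul_mem (IntermediateField.subset_adjoin _ _ ⟨f, rfl⟩)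
        (IntermediateField.algebraMap_mem _ c)
    | add x y hx hy =>
      rw [map_add]
      exact add_mem hx hy
  have hz' : z = mulMap K0 F0 K1 F1 p / mulMap K0 F0 K1 F1 q := by
    rw [eq_div_iff hq]
    exact hz
  rw [hz']
  exact div_mem (hmem p) (hmem q)

end Adapters

universe u v u' v'

/-- **`Stmt_CFE3` from `Stmt_CFE1`** (only the existence/uniqueness clauses of `Stmt_CFE1` are
used; no Gauss formula).  `Stmt_Reduce` and `Stmt_Riemann` (both unconditional on main) supply
the finite-dimensionality of `L(D')` over `K1`. -/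
theorem stmt_CFE3_of (hRed : helper6247.Stmt_Reduce.{u', v'})
    (hR : helper6247.Stmt_Riemann.{u', v'}) (h1 : Stmt_CFE1.{u, v, u', v'}) :
    Stmt_CFE3.{u, v, u', v'} := by
  intro K0 F0 K1 F1 _ _ _ _ _ _ _ _ _ _ _ _ _ _ _ _ _ _ _ hC ι hι E
  obtain ⟨hex, hnt, -⟩ := h1 K0 F0 K1 F1 hC
  obtain ⟨x, hx, hfin⟩ := hRed K1 F1
  have hfinL : Module.Finite K1 (riemannRochSpace (Finsupp.mapDomain ι E)) :=
    ((hR K1 F1 x hx).1 _).2
  have hfix : ∀ c : K1, (∀ σ : K1 ≃ₐ[K0] K1, σ c = c) → c ∈ Set.range (algebraMap K0 K1) :=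
    fun c hc => (helper1618.mem_range_algebraMap_iff_forall_fixed c).mpr hc
  have hιinj : Function.Injective ι := by
    intro v v' hvv'
    exact place_eq_of_ord_eq fun f => by rw [← hι v f, hvv', hι v' f]
  have hold : ∀ w : Place K1 F1, (∃ u : F0, w.ord (algebraMap F0 F1 u) ≠ 0) →
      w ∈ Set.range ι := by
    rintro w ⟨u, hu⟩
    have hu0 : u ≠ 0 := by
      rintro rfl
      simp at hu
    obtain ⟨v, hv⟩ := hnt w ⟨u, hu0, hu⟩
    exact ⟨v, (hex v).unique (hι v) hv⟩
  have key := riemannRochSpace_eq_span_and_finrank hfix (hld_of_mulMap_injective hC.inj)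
    (hgen_of_isConstExt hC) ι hι hold E (Finsupp.mapDomain ι E)
    (fun v => Finsupp.mapDomain_apply hιinj E v)
    (fun w hw => Finsupp.mapDomain_of_notMem_range E w hw)
  exact ⟨fun h => by rw [key.1], key.2⟩

end Fermat.Agent.S27.helper2390
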