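import Mathlib
import Fermat.Prelude.Def_AlgebraicCurve_DivisorClassGroup
import Fermat.Prelude.Def_AlgebraicCurve_IsCurveOver
import Fermat.Prelude.Def_AlgebraicCurve_Repartitions

/-!
# S27, leaf G0 (helper2950): the genus zero case and the first non-special step

Hypothesis-passing on the weak Riemann-Roch surface of `helper3372_WeakRR` (board 633);
imports Mathlib + Prelude only, characteristic free.

* `isPrincipal_of_degree_zero_of_mem` : a divisor of degree `0` with `L(D) ≠ 0` is principal.
* `subsingleton_pic0_of_genusFF_eq_zero` : Riemann's inequality and `genusFF = 0` give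
  `Subsingleton (Pic0 K F)`; `natCard_torsion_of_genusFF_eq_zero` and
  `natCard_torsion_pow_of_genusFF_eq_zero` are the torsion counts (the frozen S27 conclusion
  for that `(K, F)`).
* `finrank_riemannRochSpace_single_of_one_le_genusFF`,
  `finrank_H1_single_add_one_of_one_le_genusFF` : for `genusFF ≥ 1` every place `Q` has
  `l(Q) = 1` and `h¹(Q) + 1 = genusFF`.
-/

set_option autoImplicit false

open AlgebraicCurve

namespace Fermat.Agent.S27.helper2950

variable {K F : Type*} [Field K] [Field F] [Algebra K F]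

/-- The degree of a divisor as a sum over its support. -/
theorem degree_eq_sum (D : Divisor K F) :
    Divisor.degree D = ∑ v ∈ D.support, D v * (v.deg : ℤ) := by
  simp [Divisor.degree, Finsupp.sum]

/-- An effective divisor of degree `0` is zero (all places of degree one). -/
theorem eq_zero_of_nonneg_of_degree_eq_zero (hdeg : ∀ v : Place K F, v.deg = 1)
    {D : Divisor K F} (h0 : ∀ v, 0 ≤ D v) (hD : Divisor.degree D = 0) : D = 0 := by
  rw [degree_eq_sum] at hD
  have h1 : ∀ v ∈ D.support, D v * (v.deg : ℤ) = 0 :=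
    (Finset.sum_eq_zero_iff_of_nonneg fun v _ => by
      rw [hdeg v]; simpa using h0 v).1 hD
  ext v
  by_cases hv : v ∈ D.support
  · have := h1 v hv
    rw [hdeg v] at this
    simpa using this
  · simpa using Finsupp.notMem_support_iff.1 hv

/-- **(P)** A divisor of degree `0` whose Riemann-Roch space contains a nonzero function is
principal. -/
theorem isPrincipal_of_degree_zero_of_mem (hP : HasPrincipalDivisors K F)
    (hdeg : ∀ v : Place K F, v.deg = 1) {D : Divisor K F} (hD : Divisor.degree D = 0)
    {f : F} (hf0 : f ≠ 0) (hf : f ∈ riemannRochSpace D) :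
    D ∈ Divisor.principal (K := K) (F := F) := by
  obtain ⟨E, hE, hE0⟩ := hP.exists_divisor f hf0
  have hnn : ∀ v, 0 ≤ (D + E) v := by
    intro v
    rcases (mem_riemannRochSpace_iff.1 hf) v with h | h
    · exact absurd h hf0
    · rw [Finsupp.add_apply, hE v]; linarith
  have hsum : D + E = 0 :=
    eq_zero_of_nonneg_of_degree_eq_zero hdeg hnn (by rw [map_add, hD, hE0, add_zero])
  refine ⟨f⁻¹, inv_ne_zero hf0, fun v => ?_⟩
  have := DFunLike.congr_fun hsum v
  rw [Finsupp.add_apply, hE v] at this
  rw [Place.ord_inv]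
  simp only [Finsupp.coe_zero, Pi.zero_apply] at this
  linarith

/-- Under Riemann's inequality, genus zero forces every divisor of degree `0` to be
principal. -/
theorem mem_principal_of_degree_zero_of_genusFF_eq_zero (hP : HasPrincipalDivisors K F)
    (hdeg : ∀ v : Place K F, v.deg = 1)
    (hRI : ∀ D : Divisor K F,
      Divisor.degree D + 1 - (genusFF K F : ℤ) ≤ Module.finrank K (riemannRochSpace D))
    (hg : genusFF K F = 0) {D : Divisor K F} (hD : Divisor.degree D = 0) :
    D ∈ Divisor.principal (K := K) (F := F) := by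
  have h1 : 0 < Module.finrank K (riemannRochSpace D) := by
    have := hRI D
    rw [hD, hg] at this
    simp only [CharP.cast_eq_zero, sub_zero, zero_add] at this
    exact_mod_cast this
  have : Nontrivial (riemannRochSpace D) := Module.nontrivial_of_finrank_pos (R := K) h1
  obtain ⟨f, hf⟩ := exists_ne (0 : riemannRochSpace D)
  exact isPrincipal_of_degree_zero_of_mem hP hdeg hD
    (fun h => hf (Subtype.ext h)) f.2

/-- **(G0)** Riemann's inequality and `genusFF = 0` give a trivial `Pic⁰`. -/
theorem subsingleton_pic0_of_genusFF_eq_zero (hP : HasPrincipalDivisors K F)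
    (hdeg : ∀ v : Place K F, v.deg = 1)
    (hRI : ∀ D : Divisor K F,
      Divisor.degree D + 1 - (genusFF K F : ℤ) ≤ Module.finrank K (riemannRochSpace D))
    (hg : genusFF K F = 0) : Subsingleton (Pic0 K F) := by
  have key : ∀ x : Pic0 K F, x = 0 := by
    intro x
    obtain ⟨D, rfl⟩ := Pic0.mk_surjective x
    refine (QuotientAddGroup.eq_zero_iff _).2 ?_
    rw [AddSubgroup.mem_addSubgroupOf]
    exact mem_principal_of_degree_zero_of_genusFF_eq_zero hP hdeg hRI hg
      (Divisor.mem_degZero.1 D.2)
  exact ⟨fun x y => (key x).trans (key y).symm⟩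

/-- **(G0)** the torsion count in genus zero. -/
theorem natCard_torsion_of_genusFF_eq_zero (hP : HasPrincipalDivisors K F)
    (hdeg : ∀ v : Place K F, v.deg = 1)
    (hRI : ∀ D : Divisor K F,
      Divisor.degree D + 1 - (genusFF K F : ℤ) ≤ Module.finrank K (riemannRochSpace D))
    (hg : genusFF K F = 0) (n : ℕ) : Nat.card (Pic0.torsion K F n) = 1 := by
  have := subsingleton_pic0_of_genusFF_eq_zero hP hdeg hRI hg
  exact Nat.card_unique

/-- **(G0)** the frozen S27 conclusion in genus zero. -/
theorem natCard_torsion_pow_of_genusFF_eq_zero (hP : HasPrincipalDivisors K F)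
    (hdeg : ∀ v : Place K F, v.deg = 1)
    (hRI : ∀ D : Divisor K F,
      Divisor.degree D + 1 - (genusFF K F : ℤ) ≤ Module.finrank K (riemannRochSpace D))
    (hg : genusFF K F = 0) (ℓ k : ℕ) :
    Nat.card (Pic0.torsion K F (ℓ ^ k)) = ℓ ^ (2 * genusFF K F * k) := by
  rw [natCard_torsion_of_genusFF_eq_zero hP hdeg hRI hg, hg]
  simp

/-- **(G0)** for a curve over an algebraically closed field. -/
theorem natCard_torsion_pow_of_isCurveOver_of_genusFF_eq_zero [IsAlgClosed K] [IsCurveOver K F]
    (hRI : ∀ D : Divisor K F,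
      Divisor.degree D + 1 - (genusFF K F : ℤ) ≤ Module.finrank K (riemannRochSpace D))
    (hg : genusFF K F = 0) (ℓ k : ℕ) :
    Nat.card (Pic0.torsion K F (ℓ ^ k)) = ℓ ^ (2 * genusFF K F * k) :=
  natCard_torsion_pow_of_genusFF_eq_zero IsCurveOver.hasPrincipalDivisors
    IsCurveOver.forall_deg_eq_one_of_isAlgClosed hRI hg ℓ k

/-! ## The first non-special step in genus `≥ 1` -/

theorem riemannRochSpace_mono {D D' : Divisor K F} (h : D ≤ D') :
    riemannRochSpace D ≤ riemannRochSpace D' := fun _ hf v =>
  (hf v).trans (WithZero.exp_le_exp.mpr (Finsupp.le_def.mp h v))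

theorem ord_pow (v : Place K F) (f : F) (n : ℕ) : v.ord (f ^ n) = n * v.ord f := by
  have := v.ord_zpow f (n : ℤ)
  rwa [zpow_natCast] at this

/-- A function in `L(Q)` that is not in `L(0)` has a simple pole at `Q` and no other pole. -/
theorem ord_of_mem_single_of_notMem_zero {Q : Place K F} {f : F}
    (hf : f ∈ riemannRochSpace (Finsupp.single Q (1 : ℤ)))
    (hf0 : f ∉ riemannRochSpace (0 : Divisor K F)) :
    f ≠ 0 ∧ Q.ord f = -1 ∧ ∀ v : Place K F, v ≠ Q → 0 ≤ v.ord f := by
  have hne : f ≠ 0 := fun h => hf0 (h ▸ Submodule.zero_mem _)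
  have h1 : ∀ v : Place K F, -(Finsupp.single Q (1 : ℤ)) v ≤ v.ord f := fun v =>
    ((mem_riemannRochSpace_iff.1 hf) v).resolve_left hne
  have hoff : ∀ v : Place K F, v ≠ Q → 0 ≤ v.ord f := by
    intro v hv
    have := h1 v
    rwa [Finsupp.single_eq_of_ne hv, neg_zero] at this
  have hQ : -1 ≤ Q.ord f := by simpa using h1 Q
  refine ⟨hne, ?_, hoff⟩
  by_contra hcon
  apply hf0
  rw [mem_riemannRochSpace_iff]
  intro v
  right
  simp only [Finsupp.coe_zero, Pi.zero_apply, neg_zero]
  by_cases hv : v = Q
  · subst hv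
    omega
  · exact hoff v hv

/-- If `l(Q) ≥ 2` then `l(nQ) ≥ n + 1` for all `n`. -/
theorem succ_le_finrank_single_of_two_le
    (hfin : ∀ D : Divisor K F, Module.Finite K (riemannRochSpace D))
    (hL0 : Module.finrank K (riemannRochSpace (0 : Divisor K F)) = 1) (Q : Place K F)
    (h2 : 2 ≤ Module.finrank K (riemannRochSpace (Finsupp.single Q (1 : ℤ)))) (n : ℕ) :
    n + 1 ≤ Module.finrank K (riemannRochSpace (Finsupp.single Q (n : ℤ))) := by
  have hle : riemannRochSpace (0 : Divisor K F) ≤ riemannRochSpace (Finsupp.single Q (1 : ℤ)) :=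
    riemannRochSpace_mono (by
      rw [Finsupp.le_def]
      intro v
      by_cases hv : v = Q
      · subst hv; simp
      · simp [Finsupp.single_eq_of_ne hv])
  have hex : ∃ f ∈ riemannRochSpace (Finsupp.single Q (1 : ℤ)),
      f ∉ riemannRochSpace (0 : Divisor K F) := by
    by_contra hcon
    have hle' : riemannRochSpace (Finsupp.single Q (1 : ℤ)) ≤ riemannRochSpace (0 : Divisor K F) :=
      fun f hf => by_contra fun hf0 => hcon ⟨f, hf, hf0⟩
    have := hfin (0 : Divisor K F)
    have := Submodule.finrank_mono hle'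
    omega
  obtain ⟨f, hf, hf0⟩ := hex
  obtain ⟨hne, hQ, hoff⟩ := ord_of_mem_single_of_notMem_zero hf hf0
  induction n with
  | zero =>
    rw [Nat.cast_zero, Finsupp.single_zero, zero_add]
    exact hL0.ge
  | succ n ih =>
    have hmem : f ^ (n + 1) ∈ riemannRochSpace (Finsupp.single Q ((n + 1 : ℕ) : ℤ)) := by
      rw [mem_riemannRochSpace_iff]
      intro v
      right
      rw [ord_pow]
      by_cases hv : v = Q
      · subst hv
        rw [Finsupp.single_eq_same, hQ]
        push_cast
        linarith
      · rw [Finsupp.single_eq_of_ne hv, neg_zero]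
        exact mul_nonneg (by positivity) (hoff v hv)
    have hnot : f ^ (n + 1) ∉ riemannRochSpace (Finsupp.single Q (n : ℤ)) := by
      intro hm
      rw [mem_riemannRochSpace_iff] at hm
      rcases hm Q with h | h
      · exact pow_ne_zero _ hne h
      · rw [ord_pow, Finsupp.single_eq_same, hQ] at h
        push_cast at h
        linarith
    have hlt : riemannRochSpace (Finsupp.single Q (n : ℤ)) <
        riemannRochSpace (Finsupp.single Q ((n + 1 : ℕ) : ℤ)) := by
      refine lt_of_le_of_ne (riemannRochSpace_mono ?_) fun h => hnot (h ▸ hmem)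
      rw [Finsupp.le_def]
      intro v
      by_cases hv : v = Q
      · subst hv; simp
      · simp [Finsupp.single_eq_of_ne hv]
    have := hfin (Finsupp.single Q ((n + 1 : ℕ) : ℤ))
    have := Submodule.finrank_lt_finrank_of_lt hlt
    omega

/-- **(G1)** In genus `≥ 1` every place `Q` has `l(Q) = 1` (weak Riemann-Roch surface of
`helper3372_WeakRR` as hypotheses). -/
theorem finrank_riemannRochSpace_single_of_one_le_genusFF
    (hdeg : ∀ v : Place K F, v.deg = 1)
    (hfin : ∀ D : Divisor K F, Module.Finite K (riemannRochSpace D))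
    (hL0 : Module.finrank K (riemannRochSpace (0 : Divisor K F)) = 1)
    (hRR : ∀ D : Divisor K F, (Module.finrank K (riemannRochSpace D) : ℤ)
      - Module.finrank K (H1 D) = Divisor.degree D + 1 - genusFF K F)
    (hvan : ∃ c : ℤ, ∀ D : Divisor K F, c ≤ Divisor.degree D → Subsingleton (H1 D))
    (hg : 1 ≤ genusFF K F) (Q : Place K F) :
    Module.finrank K (riemannRochSpace (Finsupp.single Q (1 : ℤ))) = 1 := by
  have hle : riemannRochSpace (0 : Divisor K F) ≤ riemannRochSpace (Finsupp.single Q (1 : ℤ)) :=
    riemannRochSpace_mono (by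
      rw [Finsupp.le_def]
      intro v
      by_cases hv : v = Q
      · subst hv; simp
      · simp [Finsupp.single_eq_of_ne hv])
  have hge : 1 ≤ Module.finrank K (riemannRochSpace (Finsupp.single Q (1 : ℤ))) := by
    have := hfin (Finsupp.single Q (1 : ℤ))
    have := Submodule.finrank_mono hle
    omega
  by_contra hcon
  have h2 : 2 ≤ Module.finrank K (riemannRochSpace (Finsupp.single Q (1 : ℤ))) := by omega
  obtain ⟨c, hc⟩ := hvan
  set n : ℕ := c.toNat with hn
  have hdegn : Divisor.degree (Finsupp.single Q (n : ℤ)) = n := by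
    rw [Divisor.degree_single, hdeg Q]; simp
  have hsub : Subsingleton (H1 (Finsupp.single Q (n : ℤ))) :=
    hc _ (by rw [hdegn, hn]; exact Int.self_le_toNat c)
  have hH : Module.finrank K (H1 (Finsupp.single Q (n : ℤ))) = 0 :=
    Module.finrank_zero_of_subsingleton
  have h3 := hRR (Finsupp.single Q (n : ℤ))
  rw [hH, hdegn] at h3
  have h4 := succ_le_finrank_single_of_two_le hfin hL0 Q h2 n
  have h5 : ((n : ℤ) + 1) ≤ Module.finrank K (riemannRochSpace (Finsupp.single Q (n : ℤ))) := by
    exact_mod_cast h4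
  have h6 : (1 : ℤ) ≤ genusFF K F := by exact_mod_cast hg
  simp only [CharP.cast_eq_zero, sub_zero] at h3
  linarith

/-- **(G1)** In genus `≥ 1` every place `Q` has `h¹(Q) + 1 = genusFF`. -/
theorem finrank_H1_single_add_one_of_one_le_genusFF
    (hdeg : ∀ v : Place K F, v.deg = 1)
    (hfin : ∀ D : Divisor K F, Module.Finite K (riemannRochSpace D))
    (hL0 : Module.finrank K (riemannRochSpace (0 : Divisor K F)) = 1)
    (hRR : ∀ D : Divisor K F, (Module.finrank K (riemannRochSpace D) : ℤ)
      - Module.finrank K (H1 D) = Divisor.degree D + 1 - genusFF K F)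
    (hvan : ∃ c : ℤ, ∀ D : Divisor K F, c ≤ Divisor.degree D → Subsingleton (H1 D))
    (hg : 1 ≤ genusFF K F) (Q : Place K F) :
    Module.finrank K (H1 (Finsupp.single Q (1 : ℤ))) + 1 = genusFF K F := by
  have h1 := finrank_riemannRochSpace_single_of_one_le_genusFF hdeg hfin hL0 hRR hvan hg Q
  have h2 := hRR (Finsupp.single Q (1 : ℤ))
  rw [h1, Divisor.degree_single, hdeg Q] at h2
  push_cast at h2
  have : (Module.finrank K (H1 (Finsupp.single Q (1 : ℤ))) : ℤ) + 1 = genusFF K F := by linarith
  exact_mod_cast this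

end Fermat.Agent.S27.helper2950
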