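import Mathlib
import Fermat.Prelude.Def_AlgebraicCurve_IsCurveOver

/-!
# S27, module A0/M0 "Reduce" (helper5411)

For a field extension `F / K` in characteristic zero:

* `nonempty_basis_kaehler`: if `b : ι → F` is a transcendence basis of `F / K`, then `Ω[F⁄K]` has an
  `F`-basis indexed by `ι` (so `rank_F Ω[F⁄K] = trdeg_K F`).
* consequently, if `Module.finrank F Ω[F⁄K] = 1` (e.g. `[AlgebraicCurve.IsCurveOver K F]`), then
  * there is a transcendental element (`exists_transcendental`),
  * `F` is algebraic over `K⟮x⟯` for EVERY transcendental `x : F` (`isAlgebraic_adjoin_simple`),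
  * `Algebra.trdeg K F = 1` (`trdeg_eq_one`),
  * and if moreover `[Algebra.EssFiniteType K F]`, then `F` is finite over `K⟮x⟯` for every
    transcendental `x` (`finite_adjoin_simple`), and a primitive element exists
    (`exists_primitive_element`).

Route: `K[ι] → Algebra.adjoin K (range b)` is an isomorphism, `Algebra.adjoin → IntermediateField.adjoin`
is a localization and `IntermediateField.adjoin K (range b) → F` is separable algebraic, so
`K[ι] → F` is formally étale and `Ω[F⁄K] ≃ F ⊗[K[ι]] Ω[K[ι]⁄K]`, which is free on `ι`.
-/

set_option autoImplicit false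
set_option linter.style.haveILetI false

open KaehlerDifferential IntermediateField TensorProduct

namespace Fermat.Agent.S27.helper5411

section Generic

variable {K F : Type*} [Field K] [Field F] [Algebra K F]

/-- `F` as an algebra over the polynomial ring `K[ι]` via `X i ↦ b i`. -/
@[reducible] noncomputable def mvPolyAlgebra {ι : Type*} (b : ι → F) :
    Algebra (MvPolynomial ι K) F :=
  (MvPolynomial.aeval (R := K) b).toRingHom.toAlgebra

theorem mvPolyAlgebra_isScalarTower {ι : Type*} (b : ι → F) :
    letI := mvPolyAlgebra (K := K) b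
    IsScalarTower K (MvPolynomial ι K) F := by
  letI := mvPolyAlgebra (K := K) b
  refine IsScalarTower.of_algebraMap_eq fun a => ?_
  show algebraMap K F a = MvPolynomial.aeval b (algebraMap K (MvPolynomial ι K) a)
  simp

open scoped IntermediateField.algebraAdjoinAdjoin in
/-- In characteristic zero, `F` is formally étale over `K[ι]` along a transcendence basis. -/
theorem formallyEtale_mvPolynomial [CharZero K] {ι : Type*} (b : ι → F)
    (hb : IsTranscendenceBasis K b) :
    letI := mvPolyAlgebra (K := K) b
    Algebra.FormallyEtale (MvPolynomial ι K) F := by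
  letI := mvPolyAlgebra (K := K) b
  -- the three intermediate rings
  let S := Algebra.adjoin K (Set.range b)
  let L := IntermediateField.adjoin K (Set.range b)
  let e : MvPolynomial ι K ≃ₐ[K] S := hb.1.aevalEquiv
  letI algPS : Algebra (MvPolynomial ι K) S := e.toAlgHom.toRingHom.toAlgebra
  have hPS : ∀ p : MvPolynomial ι K, algebraMap (MvPolynomial ι K) S p = e p := fun _ => rfl
  have hPF : ∀ p : MvPolynomial ι K, algebraMap (MvPolynomial ι K) F p = MvPolynomial.aeval b p :=
    fun _ => rfl
  haveI : IsScalarTower (MvPolynomial ι K) S F := IsScalarTower.of_algebraMap_eq fun p => by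
    rw [hPF, hPS]
    exact (hb.1.algebraMap_aevalEquiv p).symm
  -- `K[ι] → S` is an isomorphism
  haveI : Algebra.FormallyEtale (MvPolynomial ι K) S := by
    let e' : MvPolynomial ι K ≃ₐ[MvPolynomial ι K] S :=
      { e.toRingEquiv with commutes' := fun p => rfl }
    exact Algebra.FormallyEtale.of_equiv e'
  -- `S → L` is a localization
  haveI : Algebra.FormallyEtale S L := Algebra.FormallyEtale.of_isLocalization (nonZeroDivisors S)
  -- `L → F` is separable algebraic
  haveI : Algebra.IsAlgebraic L F := hb.isAlgebraic_field
  haveI : Algebra.FormallyEtale L F := Algebra.FormallyEtale.of_isSeparable L F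
  haveI : Algebra.FormallyEtale S F := Algebra.FormallyEtale.comp S L F
  exact Algebra.FormallyEtale.comp (MvPolynomial ι K) S F

/-- **Kähler differentials and transcendence bases** (characteristic zero): if `b : ι → F` is a
transcendence basis of `F / K` then `Ω[F⁄K]` has an `F`-basis indexed by `ι`. -/
theorem nonempty_basis_kaehler [CharZero K] {ι : Type*} (b : ι → F)
    (hb : IsTranscendenceBasis K b) : Nonempty (Module.Basis ι F Ω[F⁄K]) := by
  letI := mvPolyAlgebra (K := K) b
  haveI := mvPolyAlgebra_isScalarTower (K := K) b
  haveI := formallyEtale_mvPolynomial b hb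
  exact ⟨((KaehlerDifferential.mvPolynomialBasis K ι).baseChange F).map
    (KaehlerDifferential.tensorKaehlerEquivOfFormallyEtale K (MvPolynomial ι K) F)⟩

/-- If `Ω[F⁄K]` has rank one, every transcendence basis has exactly one element. -/
theorem natCard_eq_one_of_isTranscendenceBasis [CharZero K] {ι : Type*} (b : ι → F)
    (hb : IsTranscendenceBasis K b) (h1 : Module.finrank F Ω[F⁄K] = 1) : Nat.card ι = 1 := by
  obtain ⟨B⟩ := nonempty_basis_kaehler b hb
  rw [← h1, Module.finrank_eq_nat_card_basis B]

/-- If `Ω[F⁄K]` has rank one (characteristic zero), there is a transcendental element. -/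
theorem exists_transcendental_of_finrank_kaehler [CharZero K]
    (h1 : Module.finrank F Ω[F⁄K] = 1) : ∃ x : F, Transcendental K x := by
  obtain ⟨s, hs⟩ := exists_isTranscendenceBasis K F
  have hc := natCard_eq_one_of_isTranscendenceBasis _ hs h1
  obtain ⟨x⟩ : Nonempty s := (Nat.card_pos_iff.mp (by rw [hc]; exact Nat.one_pos)).1
  exact ⟨x, hs.1.transcendental x⟩

/-- If `Ω[F⁄K]` has rank one (characteristic zero), then `F` is algebraic over `K⟮x⟯` for
every transcendental `x`. -/
theorem isAlgebraic_adjoin_simple_of_finrank_kaehler [CharZero K]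
    (h1 : Module.finrank F Ω[F⁄K] = 1) {x : F} (hx : Transcendental K x) :
    Algebra.IsAlgebraic K⟮x⟯ F := by
  have hind : AlgebraicIndepOn K id ({x} : Set F) := by
    show AlgebraicIndependent K fun i : ({x} : Set F) => id (i : F)
    exact (algebraicIndependent_singleton_iff (⟨x, rfl⟩ : ({x} : Set F))).mpr hx
  obtain ⟨t, hxt, ht⟩ := exists_isTranscendenceBasis_superset hind
  have hc := natCard_eq_one_of_isTranscendenceBasis _ ht h1
  have htx : t = {x} := by
    have hsub : Subsingleton t := (Nat.card_eq_one_iff_unique.mp hc).1
    refine Set.Subset.antisymm (fun y hy => ?_) hxt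
    have := congrArg Subtype.val (Subsingleton.elim (⟨y, hy⟩ : t) ⟨x, hxt rfl⟩)
    exact this
  have halg := ht.isAlgebraic_field
  rw [Subtype.range_coe, htx] at halg
  exact halg

/-- If `Ω[F⁄K]` has rank one (characteristic zero), the transcendence degree is one. -/
theorem trdeg_eq_one_of_finrank_kaehler [CharZero K]
    (h1 : Module.finrank F Ω[F⁄K] = 1) : Algebra.trdeg K F = 1 := by
  obtain ⟨s, hs⟩ := exists_isTranscendenceBasis K F
  have hc := natCard_eq_one_of_isTranscendenceBasis _ hs h1
  rw [← hs.cardinalMk_eq_trdeg]
  obtain ⟨h₁, h₂⟩ := Nat.card_eq_one_iff_unique.mp hc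
  exact Cardinal.eq_one_iff_unique.mpr ⟨h₁, h₂⟩

/-- If `Ω[F⁄K]` has rank one (characteristic zero) and `F / K` is finitely generated, then `F` is
finite over `K⟮x⟯` for every transcendental `x`. -/
theorem finite_adjoin_simple_of_finrank_kaehler [CharZero K] [Algebra.EssFiniteType K F]
    (h1 : Module.finrank F Ω[F⁄K] = 1) {x : F} (hx : Transcendental K x) :
    Module.Finite K⟮x⟯ F := by
  haveI := isAlgebraic_adjoin_simple_of_finrank_kaehler h1 hx
  haveI : Algebra.EssFiniteType K⟮x⟯ F := Algebra.EssFiniteType.of_comp K K⟮x⟯ F
  exact Algebra.finite_of_essFiniteType_of_isAlgebraic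

end Generic

/-! ### The statements for the Prelude's `IsCurveOver` -/

section Curve

open AlgebraicCurve

variable {K F : Type*} [Field K] [Field F] [Algebra K F] [CharZero K] [IsCurveOver K F]

/-- A curve function field in characteristic zero contains a transcendental element. -/
theorem exists_transcendental : ∃ x : F, Transcendental K x :=
  exists_transcendental_of_finrank_kaehler IsCurveOver.finrank_kaehler

/-- A curve function field in characteristic zero is algebraic over `K⟮x⟯` for EVERY
transcendental `x`. -/
theorem isAlgebraic_adjoin_simple {x : F} (hx : Transcendental K x) :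
    Algebra.IsAlgebraic K⟮x⟯ F :=
  isAlgebraic_adjoin_simple_of_finrank_kaehler IsCurveOver.finrank_kaehler hx

/-- A curve function field in characteristic zero has transcendence degree one. -/
theorem trdeg_eq_one : Algebra.trdeg K F = 1 :=
  trdeg_eq_one_of_finrank_kaehler IsCurveOver.finrank_kaehler

/-- Every element of a curve function field (characteristic zero) is algebraic over `K` or
is a "separating variable": `F` is algebraic over `K⟮x⟯`. -/
theorem isAlgebraic_or_isAlgebraic_adjoin_simple (x : F) :
    IsAlgebraic K x ∨ Algebra.IsAlgebraic K⟮x⟯ F := by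
  by_cases hx : IsAlgebraic K x
  · exact Or.inl hx
  · exact Or.inr (isAlgebraic_adjoin_simple hx)

variable [Algebra.EssFiniteType K F]

/-- **A0/M0.** A finitely generated curve function field in characteristic zero is finite over
`K⟮x⟯` for EVERY transcendental `x`. -/
theorem finite_adjoin_simple {x : F} (hx : Transcendental K x) : Module.Finite K⟮x⟯ F :=
  finite_adjoin_simple_of_finrank_kaehler IsCurveOver.finrank_kaehler hx

/-- **A0/M0.** A finitely generated curve function field in characteristic zero is a finite
extension of a rational function field `K⟮x⟯`, `x` transcendental. -/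
theorem exists_transcendental_finite :
    ∃ x : F, Transcendental K x ∧ Module.Finite K⟮x⟯ F := by
  obtain ⟨x, hx⟩ := exists_transcendental (K := K) (F := F)
  exact ⟨x, hx, finite_adjoin_simple hx⟩

/-- Plane model: for every transcendental `x` there is a primitive element `y` of `F / K⟮x⟯`. -/
theorem exists_primitive_element {x : F} (hx : Transcendental K x) :
    ∃ y : F, IsIntegral K⟮x⟯ y ∧ K⟮x⟯⟮y⟯ = ⊤ := by
  haveI := finite_adjoin_simple hx
  obtain ⟨y, hy⟩ := Field.exists_primitive_element K⟮x⟯ F
  exact ⟨y, Algebra.IsIntegral.isIntegral y, hy⟩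

/-- Plane model, absolute form: `F = K(x, y)` with `x` transcendental and `y` integral over
`K⟮x⟯`. -/
theorem exists_plane_model :
    ∃ x y : F, Transcendental K x ∧ Module.Finite K⟮x⟯ F ∧ IsIntegral K⟮x⟯ y ∧
      K⟮x⟯⟮y⟯ = ⊤ ∧ IntermediateField.adjoin K ({x, y} : Set F) = ⊤ := by
  obtain ⟨x, hx⟩ := exists_transcendental (K := K) (F := F)
  obtain ⟨y, hy, hy'⟩ := exists_primitive_element hx
  refine ⟨x, y, hx, finite_adjoin_simple hx, hy, hy', ?_⟩
  have h := IntermediateField.adjoin_adjoin_left K ({x} : Set F) ({y} : Set F)
  rw [hy', IntermediateField.restrictScalars_top] at h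
  rw [Set.insert_eq, ← h]

end Curve

end Fermat.Agent.S27.helper5411
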