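import Fermat.Agent.S27.helper197_ConstExt
import Fermat.Agent.S27.helper8094_LefSpec
import Fermat.Agent.S27.helper2950_GenusZero
import Fermat.Agent.S27.helper5411_Reduce
import Fermat.Agent.S27.helper3372_Riemann
import Fermat.Agent.S27.helper4996_Riemann
import Fermat.Agent.S27.helper2390_CFE3

/-!
# S27-L-CMP, part III: the verbatim wrappers `Stmt_CFE1` and `Stmt_CFE4` of `helper8094_LefSpec`

* `gaussFun_sum_tmul`, `ord_ext_sum`, `gauss_iff`: the Gauss formula for an ARBITRARY finite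
  `K₁`-linearly independent family of `K₂` (basis-free, through the reduction map `rho`).
* `isConstExt_of_helper8094`: adapter from `helper8094.IsConstExt`.
* `stmt_CFE1 : helper8094.Stmt_CFE1` (unconditional).
* `stmt_CFE4_of : helper8094.Stmt_CFE3 → helper8094.Stmt_CFE4`, and the unconditional
  `stmt_CFE3`, `stmt_CFE4`.
-/

set_option autoImplicit false

noncomputable section

open AlgebraicCurve TensorProduct
open scoped Classical

namespace Fermat.Agent.S27.helper197

open Fermat.Agent.S24.helper1370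

section GaussGeneral

variable {K₁ F₁ K₂ : Type*} [Field K₁] [Field F₁] [Field K₂] [Algebra K₁ F₁] [Algebra K₁ K₂]

/-- The Gauss function of `∑ aᵢ ⊗ cᵢ` for a `K₁`-linearly independent family `c` is the minimum
of the orders of the `aᵢ` (here: attained at `i₀`). -/
theorem gaussFun_sum_tmul (v : Place K₁ F₁)
    (hres : Function.Bijective (algebraMap K₁ v.ResidueField)) {n : ℕ} (a : Fin n → F₁)
    (c : Fin n → K₂) (hc : LinearIndependent K₁ c) (i₀ : Fin n) (ha : a i₀ ≠ 0)
    (hmin : ∀ i, a i = 0 ∨ v.ord (a i₀) ≤ v.ord (a i)) :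
    gaussFun K₂ v (∑ i, a i ⊗ₜ[K₁] c i) = ((v.ord (a i₀) : ℤ) : WithTop ℤ) := by
  have hb : ∀ i, a i / a i₀ ∈ v.toValuationSubring := by
    intro i
    by_cases hai : a i = 0
    · rw [hai, zero_div]
      exact zero_mem _
    · rcases hmin i with h0 | h0
      · exact absurd h0 hai
      · apply mem_of_ord_nonneg
        rw [ord_div v hai ha]
        omega
  set x : v.toValuationSubring ⊗[K₁] K₂ :=
    ∑ i, (⟨a i / a i₀, hb i⟩ : v.toValuationSubring) ⊗ₜ[K₁] c i with hx
  have hjx : (a i₀ ⊗ₜ[K₁] (1 : K₂)) * jO K₂ v x = ∑ i, a i ⊗ₜ[K₁] c i := by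
    rw [hx, map_sum, Finset.mul_sum]
    refine Finset.sum_congr rfl fun i _ => ?_
    rw [jO_tmul, Algebra.TensorProduct.tmul_mul_tmul, one_mul]
    congr 1
    show a i₀ * (a i / a i₀) = a i
    field_simp
  have hρ : rho K₂ v hres x ≠ 0 := by
    rw [hx, map_sum]
    simp only [rho_tmul]
    intro h0
    have h1 := (Fintype.linearIndependent_iff.mp hc)
      (fun i => resK v hres ⟨a i / a i₀, hb i⟩) h0 i₀
    have h2 : (⟨a i₀ / a i₀, hb i₀⟩ : v.toValuationSubring) = 1 := Subtype.ext (div_self ha)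
    rw [h2, map_one] at h1
    exact one_ne_zero h1
  rw [← hjx, gaussFun_tmul_one_mul v ha, gaussFun_jO_eq_zero v hres x hρ, add_zero]

theorem exists_min_ord (v : Place K₁ F₁) {n : ℕ} (a : Fin n → F₁) (h : ∃ i, a i ≠ 0) :
    ∃ i₀, a i₀ ≠ 0 ∧ ∀ i, a i = 0 ∨ v.ord (a i₀) ≤ v.ord (a i) := by
  obtain ⟨i₀, hi₀, hmin⟩ := Finset.exists_min_image (Finset.univ.filter fun i => a i ≠ 0)
    (fun i => v.ord (a i)) (by
      obtain ⟨i, hi⟩ := h
      exact ⟨i, by simp [hi]⟩)
  refine ⟨i₀, (Finset.mem_filter.mp hi₀).2, fun i => ?_⟩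
  by_cases hi : a i = 0
  · exact Or.inl hi
  · exact Or.inr (hmin i (by simp [hi]))

end GaussGeneral

section Ext

variable {K₁ F₁ K₂ F₂ : Type*} [Field K₁] [Field F₁] [Field K₂] [Field F₂]
  [Algebra K₁ F₁] [Algebra K₂ F₂] [Algebra K₁ K₂] [Algebra F₁ F₂] [Algebra K₁ F₂]
  [IsScalarTower K₁ K₂ F₂] [IsScalarTower K₁ F₁ F₂]

variable (h : IsConstExt K₁ F₁ K₂ F₂)

/-- **Gauss formula** at an extended place for an arbitrary finite `K₁`-linearly independent
family of constants. -/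
theorem ord_ext_sum (v : Place K₁ F₁) {n : ℕ} (a : Fin n → F₁) (c : Fin n → K₂)
    (hc : LinearIndependent K₁ c) (i₀ : Fin n) (ha : a i₀ ≠ 0)
    (hmin : ∀ i, a i = 0 ∨ v.ord (a i₀) ≤ v.ord (a i)) :
    (∑ i, algebraMap F₁ F₂ (a i) * algebraMap K₂ F₂ (c i)) ≠ 0 ∧
      (ext h v).ord (∑ i, algebraMap F₁ F₂ (a i) * algebraMap K₂ F₂ (c i)) = v.ord (a i₀) := by
  have hg := gaussFun_sum_tmul (K₂ := K₂) v (h.res v) a c hc i₀ ha hmin
  have hsum : (∑ i, algebraMap F₁ F₂ (a i) * algebraMap K₂ F₂ (c i)) =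
      mu K₁ F₁ K₂ F₂ (∑ i, a i ⊗ₜ[K₁] c i) := by
    rw [map_sum]
    exact Finset.sum_congr rfl fun i _ => (mu_tmul _ _).symm
  have ht : (∑ i, a i ⊗ₜ[K₁] c i) ≠ 0 := by
    intro h0
    rw [h0, gaussFun_zero] at hg
    exact WithTop.top_ne_coe hg
  rw [hsum]
  refine ⟨h.mu_ne_zero ht, ?_⟩
  have h1 := ord_ext_mu h v ht
  rw [hg] at h1
  exact_mod_cast h1

/-- **Gauss formula**, iff-form (`= 0 ∨ m ≤ ord` convention). -/
theorem gauss_iff (v : Place K₁ F₁) {n : ℕ} (a : Fin n → F₁) (c : Fin n → K₂)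
    (hc : LinearIndependent K₁ c) (m : ℤ) :
    ((∑ i, algebraMap F₁ F₂ (a i) * algebraMap K₂ F₂ (c i) = 0 ∨
        m ≤ (ext h v).ord (∑ i, algebraMap F₁ F₂ (a i) * algebraMap K₂ F₂ (c i))) ↔
      ∀ i, a i = 0 ∨ m ≤ v.ord (a i)) := by
  by_cases hall : ∀ i, a i = 0
  · simp [hall]
  · push Not at hall
    obtain ⟨i₀, hi₀, hmin⟩ := exists_min_ord v a hall
    obtain ⟨hne, hord⟩ := ord_ext_sum h v a c hc i₀ hi₀ hmin
    rw [hord]
    constructor
    · rintro (h0 | h0)
      · exact absurd h0 hne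
      · intro i
        rcases hmin i with hi | hi
        · exact Or.inl hi
        · exact Or.inr (h0.trans hi)
    · intro hi
      rcases hi i₀ with h0 | h0
      · exact absurd h0 hi₀
      · exact Or.inr h0

end Ext

section Adapter

variable {K0 F0 K1 F1 : Type*} [Field K0] [Field F0] [Field K1] [Field F1]
  [Algebra K0 F0] [Algebra K1 F1] [Algebra K0 K1] [Algebra F0 F1] [Algebra K0 F1]
  [IsScalarTower K0 F0 F1] [IsScalarTower K0 K1 F1]

/-- Residue fields of a curve over an algebraically closed field. -/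
theorem res_of_isAlgClosed [IsAlgClosed K0] [IsCurveOver K0 F0] (v : Place K0 F0) :
    Function.Bijective (algebraMap K0 v.ResidueField) := by
  haveI : Module.Finite K0 v.ResidueField := IsCurveOver.finiteResidue v
  haveI : Algebra.IsIntegral K0 v.ResidueField := Algebra.IsIntegral.of_finite K0 v.ResidueField
  exact IsAlgClosed.algebraMap_bijective_of_isIntegral

/-- Adapter: `helper8094.IsConstExt` gives `helper197.IsConstExt`. -/
theorem isConstExt_of_helper8094 [IsAlgClosed K0] [IsCurveOver K0 F0]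
    (hC : helper8094.IsConstExt K0 F0 K1 F1) : IsConstExt K0 F0 K1 F1 where
  inj := hC.inj
  frac := fun g => by
    obtain ⟨p, q, hq, hg⟩ := hC.gen g
    exact ⟨p, q, fun h0 => hq (by rw [h0, map_zero]), hg⟩
  res := res_of_isAlgClosed

end Adapter

universe u v u' v'

/-- **`helper8094.Stmt_CFE1`, verbatim and unconditional.** -/
theorem stmt_CFE1 : helper8094.Stmt_CFE1.{u, v, u', v'} := by
  intro K0 F0 K1 F1 _ _ _ _ _ _ _ _ _ _ _ _ _ _ _ _ _ _ _ hC
  have h := isConstExt_of_helper8094 hC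
  refine ⟨fun v => ⟨ext h v, fun f => ord_ext_algebraMap h v f, fun w hw => ?_⟩,
    fun w hw => ?_, fun v w hw n a c hc m => ?_⟩
  · exact (ext_eq_of_restrict h v w 1 one_pos (fun f => by rw [one_mul]; exact hw f)).symm
  · obtain ⟨f, -, hf⟩ := hw
    obtain ⟨v, rfl⟩ := (mem_range_ext_iff h w).mpr ⟨f, hf⟩
    exact ⟨v, fun f => ord_ext_algebraMap h v f⟩
  · have hwv : ext h v = w :=
      ext_eq_of_restrict h v w 1 one_pos (fun f => by rw [one_mul]; exact hw f)
    subst hwv
    exact gauss_iff h v a c hc m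

/-- **`helper8094.Stmt_CFE4` from `helper8094.Stmt_CFE3`, verbatim.** -/
theorem stmt_CFE4_of (h3 : helper8094.Stmt_CFE3.{u, v, u', v'}) :
    helper8094.Stmt_CFE4.{u, v, u', v'} := by
  intro K0 F0 K1 F1 _ _ _ _ _ _ _ _ _ _ _ _ _ _ _ _ _ _ _ hC ι hι
  have h := isConstExt_of_helper8094 hC
  have hιeq : ι = ext h := funext fun v =>
    (ext_eq_of_restrict h v (ι v) 1 one_pos (fun f => by rw [one_mul]; exact hι v f)).symm
  have hP0 : HasPrincipalDivisors K0 F0 := IsCurveOver.hasPrincipalDivisors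
  have hdeg0 : ∀ v : Place K0 F0, v.deg = 1 := IsCurveOver.deg_eq_one_of_isAlgClosed
  refine ⟨fun D => ?_, fun D hD => ?_, fun D hD0 hDp => ?_, fun hW0 hW1 => ?_⟩
  · rw [hιeq]
    exact degree_mapDiv h D
  · rw [hιeq]
    exact mapDiv_mem_principal h hD
  · obtain ⟨g, hg0, hg⟩ := hDp
    have hmem : g⁻¹ ∈ riemannRochSpace (Finsupp.mapDomain ι D) := by
      rw [mem_riemannRochSpace_iff]
      intro w
      refine Or.inr ?_
      rw [Place.ord_inv, hg w]
    have hspan := ((h3 K0 F0 K1 F1 hC ι hι D).1 g⁻¹).mp hmem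
    have hex : ∃ f : F0, f ≠ 0 ∧ f ∈ riemannRochSpace D := by
      by_contra hcon
      push Not at hcon
      have hsub : (algebraMap F0 F1 '' (riemannRochSpace D : Set F0)) ⊆ ({0} : Set F1) := by
        rintro _ ⟨f, hf, rfl⟩
        by_cases hf0 : f = 0
        · rw [hf0, map_zero]
          exact Set.mem_singleton 0
        · exact absurd hf (hcon f hf0)
      have h0 : g⁻¹ ∈ Submodule.span K1 ({0} : Set F1) := Submodule.span_mono hsub hspan
      rw [Submodule.span_zero_singleton, Submodule.mem_bot] at h0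
      exact inv_ne_zero hg0 h0
    obtain ⟨f, hf0, hf⟩ := hex
    exact helper2950.isPrincipal_of_degree_zero_of_mem hP0 hdeg0 hD0 hf0 hf
  · obtain ⟨c0, hc0⟩ := hW0
    obtain ⟨c1, hc1⟩ := hW1
    obtain ⟨x, hx, hfin⟩ := helper5411.exists_transcendental_finite (K := K0) (F := F0)
    haveI : FiniteDimensional (IntermediateField.adjoin K0 {x}) F0 := hfin
    obtain ⟨v0⟩ := helper3372.nonempty_place_of_finite x hx
    set D : Divisor K0 F0 := Finsupp.single v0 (max c0 c1) with hD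
    have hdegD : Divisor.degree D = max c0 c1 := by
      rw [hD, Divisor.degree_single, hdeg0 v0]
      simp
    have hdegD' : Divisor.degree (Finsupp.mapDomain ι D) = max c0 c1 := by
      rw [hιeq]
      exact (degree_mapDiv h D).trans hdegD
    have e0 := hc0 D (by rw [hdegD]; exact le_max_left _ _)
    have e1 := hc1 (Finsupp.mapDomain ι D) (by rw [hdegD']; exact le_max_right _ _)
    rw [(h3 K0 F0 K1 F1 hC ι hι D).2, e0, hdegD, hdegD'] at e1
    have e2 : (genusFF K0 F0 : ℤ) = (genusFF K1 F1 : ℤ) := by linarith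
    exact_mod_cast e2

/-- **`helper8094.Stmt_CFE3`, verbatim and unconditional** (helper2390's `Aut`-descent, the
landed `Stmt_Reduce` and `Stmt_Riemann`, and `stmt_CFE1`). -/
theorem stmt_CFE3 : helper8094.Stmt_CFE3.{u, v, u', v'} :=
  helper2390.stmt_CFE3_of (fun _ _ _ _ _ _ _ _ _ => helper5411.exists_transcendental_finite)
    helper4996.stmt_Riemann stmt_CFE1

/-- **`helper8094.Stmt_CFE4`, verbatim and unconditional.** -/
theorem stmt_CFE4 : helper8094.Stmt_CFE4.{u, v, u', v'} :=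
  stmt_CFE4_of stmt_CFE3

end Fermat.Agent.S27.helper197
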