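import Fermat.Agent.S27.helper4586_Ev
import Fermat.Agent.S24.helper204_Places

/-!
# S27: evaluation kit, part 2 (helper4586)

Model-agnostic lemmas on top of `helper4586_Ev`, requested in `team_s27_chat` #218 (G1, G3).

## (G3) bivariate polynomials

* `IsVal.aevalAeval` : `IsVal P u a → IsVal P y b → IsVal P (G.aevalAeval u y) (G.evalEval a b)`.
* `ord_aevalAeval_nonneg` : polynomials in regular functions are regular (no hypothesis on `F`).
* `ev_aevalAeval` : `ev P (G.aevalAeval u y) = G.evalEval (ev P u) (ev P y)` (`HasValues P`).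
* `IsVal.of_mul_eq`, `ev_eq_div_of_mul_eq` : a function `f` with `f * M(u,y) = N(u,y)` and
  `M(a,b) ≠ 0` is regular at `P` with value `N(a,b) / M(a,b)`.

## (G1) zeros and poles (`K` algebraically closed of characteristic `0`, `F` finite over `K⟮x⟯`)

* `finite_ord_ne_zero` : a nonzero function has finitely many zeros and poles.
* `finite_ord_pos`, `finite_ord_neg`, `finite_ord_sub_pos`.
* `exists_ord_sub_pos` : a transcendental `u` takes every value `a : K` at some place.
* `exists_ord_neg` : a transcendental `u` has a pole.
* `infinite_place` : there are infinitely many places.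
* `exists_place_notMem` : a place outside any given finite set.
* `finite_ev_eq` : a transcendental `u` takes each value at finitely many places.
-/

set_option autoImplicit false

open AlgebraicCurve IntermediateField Polynomial
open scoped Polynomial.Bivariate

namespace Fermat.Agent.S27.helper4586

open Fermat.Agent.S27.helper6247

section Bivariate

variable {K : Type*} {F : Type*} [Field K] [Field F] [Algebra K F]

/-- Values commute with evaluation of bivariate polynomials. -/
theorem IsVal.aevalAeval {P : Place K F} {u y : F} {a b : K} (hu : IsVal P u a)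
    (hy : IsVal P y b) (G : K[X][Y]) : IsVal P (G.aevalAeval u y) (G.evalEval a b) := by
  induction G using Polynomial.induction_on with
  | C p =>
    rw [aevalAeval_C, evalEval_C]
    exact hu.aeval p
  | add p q hp hq =>
    rw [map_add, evalEval_add]
    exact hp.add hq
  | monomial n p ih =>
    have h1 : (C p * X ^ (n + 1) : K[X][Y]).aevalAeval u y
        = (C p * X ^ n : K[X][Y]).aevalAeval u y * y := by
      rw [pow_succ, ← mul_assoc, map_mul, aevalAeval_Y]
    have h2 : (C p * X ^ (n + 1) : K[X][Y]).evalEval a b
        = (C p * X ^ n : K[X][Y]).evalEval a b * b := by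
      rw [pow_succ, ← mul_assoc, evalEval_mul, evalEval_X]
    rw [h1, h2]
    exact ih.mul hy

/-- Univariate polynomials in a regular function are regular. -/
theorem ord_aeval_nonneg (P : Place K F) {u : F} (hu : 0 ≤ P.ord u) (p : K[X]) :
    0 ≤ P.ord (Polynomial.aeval u p) := by
  rw [ord_nonneg_iff_mem] at hu ⊢
  let S : Subalgebra K F :=
    { P.toValuationSubring.toSubring with algebraMap_mem' := P.algebraMap_mem' }
  have hmem : ∀ f : F, f ∈ S ↔ f ∈ P.toValuationSubring := fun f => Iff.rfl
  rw [← hmem]
  have hu' : u ∈ S := (hmem u).mpr hu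
  have h1 : Polynomial.aeval u p ∈ Algebra.adjoin K {u} :=
    Polynomial.aeval_mem_adjoin_singleton K u
  have h2 : Algebra.adjoin K {u} ≤ S :=
    Algebra.adjoin_le (Set.singleton_subset_iff.mpr hu')
  exact h2 h1

/-- Bivariate polynomials in regular functions are regular. -/
theorem ord_aevalAeval_nonneg (P : Place K F) {u y : F} (hu : 0 ≤ P.ord u) (hy : 0 ≤ P.ord y)
    (G : K[X][Y]) : 0 ≤ P.ord (G.aevalAeval u y) := by
  have hy' : y ∈ P.toValuationSubring := (ord_nonneg_iff_mem P).mp hy
  induction G using Polynomial.induction_on with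
  | C p =>
    rw [aevalAeval_C]
    exact ord_aeval_nonneg P hu p
  | add p q hp hq =>
    rw [map_add]
    rw [ord_nonneg_iff_mem] at hp hq ⊢
    exact add_mem hp hq
  | monomial n p ih =>
    have h1 : (C p * X ^ (n + 1) : K[X][Y]).aevalAeval u y
        = (C p * X ^ n : K[X][Y]).aevalAeval u y * y := by
      rw [pow_succ, ← mul_assoc, map_mul, aevalAeval_Y]
    rw [h1]
    rw [ord_nonneg_iff_mem] at ih ⊢
    exact mul_mem ih hy'

/-- `ev` commutes with evaluation of bivariate polynomials. -/
theorem ev_aevalAeval {P : Place K F} (hP : HasValues P) {u y : F} (hu : 0 ≤ P.ord u)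
    (hy : 0 ≤ P.ord y) (G : K[X][Y]) :
    ev P (G.aevalAeval u y) = G.evalEval (ev P u) (ev P y) :=
  ((isVal_ev hP hu).aevalAeval (isVal_ev hP hy) G).ev_eq

/-- A quotient of functions with values, the denominator having a nonzero value. -/
theorem IsVal.of_mul_eq {P : Place K F} {f m n : F} {c d : K} (hm : IsVal P m c)
    (hn : IsVal P n d) (hc : c ≠ 0) (h : f * m = n) : IsVal P f (d / c) := by
  have hm0 : m ≠ 0 := hm.ne_zero hc
  have hf : f = n / m := by rw [← h, mul_div_assoc, div_self hm0, mul_one]
  rw [hf]
  exact hn.div hm hc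

/-- Local-ring form: if `f * M(u,y) = N(u,y)` and `M(a,b) ≠ 0` at the point `(a,b)` of `P`, then
`f` is regular at `P` with value `N(a,b) / M(a,b)`. -/
theorem IsVal.of_mul_aevalAeval_eq {P : Place K F} {u y f : F} {a b : K} (hu : IsVal P u a)
    (hy : IsVal P y b) {M N : K[X][Y]} (hM : M.evalEval a b ≠ 0)
    (h : f * M.aevalAeval u y = N.aevalAeval u y) :
    IsVal P f (N.evalEval a b / M.evalEval a b) :=
  (hu.aevalAeval hy M).of_mul_eq (hu.aevalAeval hy N) hM h

theorem ev_eq_div_of_mul_aevalAeval_eq {P : Place K F} {u y f : F} {a b : K} (hu : IsVal P u a)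
    (hy : IsVal P y b) {M N : K[X][Y]} (hM : M.evalEval a b ≠ 0)
    (h : f * M.aevalAeval u y = N.aevalAeval u y) :
    0 ≤ P.ord f ∧ ev P f = N.evalEval a b / M.evalEval a b :=
  ⟨(IsVal.of_mul_aevalAeval_eq hu hy hM h).ord_nonneg,
    (IsVal.of_mul_aevalAeval_eq hu hy hM h).ev_eq⟩

end Bivariate

/-! ### (G1) zeros and poles -/

section ZerosPoles

variable {K : Type*} {F : Type*} [Field K] [Field F] [Algebra K F] [IsAlgClosed K] [CharZero K]

/-- A nonzero function has finitely many zeros and poles. -/
theorem finite_ord_ne_zero (x : F) (hx : Transcendental K x) [FiniteDimensional K⟮x⟯ F]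
    {f : F} (hf : f ≠ 0) : {P : Place K F | P.ord f ≠ 0}.Finite := by
  obtain ⟨D, hD, -⟩ :=
    (Fermat.Agent.S24.helper204.hasPrincipalDivisors x hx).exists_divisor f hf
  refine D.support.finite_toSet.subset fun P hP => ?_
  rw [Finset.mem_coe, Finsupp.mem_support_iff, hD P]
  exact hP

theorem finite_ord_pos (x : F) (hx : Transcendental K x) [FiniteDimensional K⟮x⟯ F]
    (f : F) : {P : Place K F | 0 < P.ord f}.Finite := by
  rcases eq_or_ne f 0 with rfl | hf
  · simp
  · exact (finite_ord_ne_zero x hx hf).subset fun P (hP : 0 < P.ord f) => hP.ne'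

theorem finite_ord_neg (x : F) (hx : Transcendental K x) [FiniteDimensional K⟮x⟯ F]
    (f : F) : {P : Place K F | P.ord f < 0}.Finite := by
  rcases eq_or_ne f 0 with rfl | hf
  · simp
  · exact (finite_ord_ne_zero x hx hf).subset fun P (hP : P.ord f < 0) => hP.ne

/-- Every function takes each value at finitely many places, unless it is that constant. -/
theorem finite_ord_sub_pos (x : F) (hx : Transcendental K x) [FiniteDimensional K⟮x⟯ F]
    (f : F) (a : K) : {P : Place K F | 0 < P.ord (f - algebraMap K F a)}.Finite :=
  finite_ord_pos x hx _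

/-- A transcendental function takes every value `a : K` at some place. -/
theorem exists_ord_sub_pos (x : F) [FiniteDimensional K⟮x⟯ F]
    {u : F} (hu : Transcendental K u) (a : K) :
    ∃ P : Place K F, 0 < P.ord (u - algebraMap K F a) := by
  have : FiniteDimensional K⟮u⟯ F :=
    Fermat.Agent.S24.helper204.finiteDimensional_adjoin_of_transcendental (x := x) hu
  obtain ⟨s, hs, hsum⟩ := Fermat.Agent.S24.helper204.exists_finset_zeros (x := u) hu a
  have hpos : 0 < Module.finrank K⟮u⟯ F := Module.finrank_pos
  have hne : s.Nonempty := by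
    by_contra hemp
    rw [Finset.not_nonempty_iff_eq_empty] at hemp
    rw [hemp, Finset.sum_empty] at hsum
    have : (Module.finrank K⟮u⟯ F : ℤ) = 0 := hsum.symm
    omega
  obtain ⟨P, hP⟩ := hne
  exact ⟨P, (hs P).mp hP⟩

/-- A transcendental function has a pole. -/
theorem exists_ord_neg (x : F) [FiniteDimensional K⟮x⟯ F]
    {u : F} (hu : Transcendental K u) : ∃ P : Place K F, P.ord u < 0 := by
  have hu' : Transcendental K u⁻¹ := Fermat.Agent.S24.helper204.transcendental_inv hu
  obtain ⟨P, hP⟩ := exists_ord_sub_pos x hu' (0 : K)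
  refine ⟨P, ?_⟩
  rw [map_zero, sub_zero, P.ord_inv] at hP
  omega

/-- There are infinitely many places. -/
theorem infinite_place (x : F) (hx : Transcendental K x) [FiniteDimensional K⟮x⟯ F] :
    Infinite (Place K F) := by
  choose Q hQ using fun a : K => exists_ord_sub_pos x hx a
  have hinj : Function.Injective Q := by
    intro a b hab
    have h1 : IsVal (Q a) x a := isVal_of_ord_pos (hQ a)
    have h2 : IsVal (Q a) x b := by rw [hab]; exact isVal_of_ord_pos (hQ b)
    exact h1.unique h2
  exact Infinite.of_injective Q hinj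

/-- A place outside a given finite set. -/
theorem exists_place_notMem (x : F) (hx : Transcendental K x) [FiniteDimensional K⟮x⟯ F]
    {S : Set (Place K F)} (hS : S.Finite) : ∃ P : Place K F, P ∉ S :=
  have := infinite_place x hx
  hS.exists_notMem

/-- A transcendental function takes each value at finitely many places (in `ev` form). -/
theorem finite_ev_eq (x : F) (hx : Transcendental K x) [FiniteDimensional K⟮x⟯ F]
    {u : F} (hu : Transcendental K u) (a : K) :
    {P : Place K F | 0 ≤ P.ord u ∧ ev P u = a}.Finite := by
  refine (finite_ord_sub_pos x hx u a).subset fun P hP => ?_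
  obtain ⟨h1, h2⟩ := hP
  have hP' : HasValues P := hasValues_of_finite x P
  rcases eq_or_ord_sub_ev_pos hP' h1 with h | h
  · exact absurd (h ▸ isAlgebraic_algebraMap _) hu
  · rw [h2] at h
    exact h

end ZerosPoles

end Fermat.Agent.S27.helper4586
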