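import Mathlib
import Fermat.Prelude.Def_AlgebraicCurve_BaseChangeGalois
import Fermat.Agent.S27.helper8094_LefSpec

/-!
# S27, module L: extension of constant-field automorphisms (helper7214)

Setting of `helper8094.IsConstExt K0 F0 K1 F1` (the multiplication map `F0 ⊗[K0] K1 → F1` is
injective and every element of `F1` is a quotient of two elements of its image).

* `isFractionRing hC` : `F1` is a fraction ring of `F0 ⊗[K0] K1` (through `mulMap`).
* `extRing hC : (K1 ≃ₐ[K0] K1) →* (F1 ≃+* F1)` : the extension `σ ↦ Frac (id ⊗ σ)`, a group hom.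
* `extAut hC : (K1 ≃ₐ[K0] K1) →* SemilinearAut K1 F1` : the same, with values in the Prelude
  group of semilinear automorphisms.
* `stmt_SEMI : helper8094.Stmt_SEMI` (verbatim).
-/

set_option autoImplicit false

open AlgebraicCurve TensorProduct

namespace Fermat.Agent.S27.helper7214

universe u v u' v'

section Semi

variable {K0 : Type u} {F0 : Type v} {K1 : Type u'} {F1 : Type v'}
  [Field K0] [Field F0] [Field K1] [Field F1]
  [Algebra K0 F0] [Algebra K1 F1] [Algebra K0 K1] [Algebra F0 F1] [Algebra K0 F1]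
  [IsScalarTower K0 F0 F1] [IsScalarTower K0 K1 F1]

/-- The ring automorphism `id ⊗ σ` of `F0 ⊗[K0] K1`, as a group hom in `σ`. -/
noncomputable def tensorAut : (K1 ≃ₐ[K0] K1) →* ((F0 ⊗[K0] K1) ≃+* (F0 ⊗[K0] K1)) where
  toFun σ := (Algebra.TensorProduct.congr (AlgEquiv.refl : F0 ≃ₐ[K0] F0) σ).toRingEquiv
  map_one' := by
    apply RingEquiv.ext
    intro t
    induction t using TensorProduct.induction_on with
    | zero => simp
    | tmul f c => rfl
    | add a b ha hb => simp only [map_add, ha, hb]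
  map_mul' σ σ' := by
    apply RingEquiv.ext
    intro t
    induction t using TensorProduct.induction_on with
    | zero => simp
    | tmul f c => rfl
    | add a b ha hb => simp only [map_add, ha, hb]

@[simp]
theorem tensorAut_tmul (σ : K1 ≃ₐ[K0] K1) (f : F0) (c : K1) :
    tensorAut (F0 := F0) σ (f ⊗ₜ[K0] c) = f ⊗ₜ[K0] σ c := rfl

/-- Under `IsConstExt`, the field `F1` is a fraction ring of `F0 ⊗[K0] K1` through `mulMap`. -/
theorem isFractionRing (hC : helper8094.IsConstExt K0 F0 K1 F1) :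
    @IsFractionRing (F0 ⊗[K0] K1) _ F1 _ (helper8094.mulMap K0 F0 K1 F1).toRingHom.toAlgebra := by
  let _ : Algebra (F0 ⊗[K0] K1) F1 := (helper8094.mulMap K0 F0 K1 F1).toRingHom.toAlgebra
  have hinj : Function.Injective (algebraMap (F0 ⊗[K0] K1) F1) := hC.inj
  have : FaithfulSMul (F0 ⊗[K0] K1) F1 := (faithfulSMul_iff_algebraMap_injective _ _).mpr hinj
  refine IsFractionRing.of_field (F0 ⊗[K0] K1) F1 fun z => ?_
  obtain ⟨p, q, hq, hpq⟩ := hC.gen z
  exact ⟨p, q, (eq_div_iff hq).mpr hpq⟩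

/-- `F0 ⊗[K0] K1` is a domain under `IsConstExt`. -/
theorem isDomain_tensor (hC : helper8094.IsConstExt K0 F0 K1 F1) : IsDomain (F0 ⊗[K0] K1) :=
  Function.Injective.isDomain (helper8094.mulMap K0 F0 K1 F1).toRingHom hC.inj

/-- The extension of `σ ∈ Aut(K1/K0)` to a ring automorphism of `F1` (`= Frac (id ⊗ σ)`),
as a group homomorphism. -/
noncomputable def extRing (hC : helper8094.IsConstExt K0 F0 K1 F1) :
    (K1 ≃ₐ[K0] K1) →* (F1 ≃+* F1) :=
  letI : Algebra (F0 ⊗[K0] K1) F1 := (helper8094.mulMap K0 F0 K1 F1).toRingHom.toAlgebra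
  haveI := isFractionRing hC
  (IsFractionRing.ringEquivOfRingEquivHom (F0 ⊗[K0] K1) F1).comp tensorAut

theorem extRing_mulMap (hC : helper8094.IsConstExt K0 F0 K1 F1) (σ : K1 ≃ₐ[K0] K1)
    (t : F0 ⊗[K0] K1) :
    extRing hC σ (helper8094.mulMap K0 F0 K1 F1 t) =
      helper8094.mulMap K0 F0 K1 F1 (tensorAut σ t) := by
  let _ : Algebra (F0 ⊗[K0] K1) F1 := (helper8094.mulMap K0 F0 K1 F1).toRingHom.toAlgebra
  have := isFractionRing hC
  exact IsFractionRing.ringEquivOfRingEquiv_algebraMap (K := F1) (L := F1) (tensorAut σ) t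

theorem extRing_mulMap_tmul (hC : helper8094.IsConstExt K0 F0 K1 F1) (σ : K1 ≃ₐ[K0] K1)
    (f : F0) (c : K1) :
    extRing hC σ (algebraMap F0 F1 f * algebraMap K1 F1 c) =
      algebraMap F0 F1 f * algebraMap K1 F1 (σ c) := by
  have h := extRing_mulMap hC σ (f ⊗ₜ[K0] c)
  rwa [tensorAut_tmul, helper8094.mulMap_tmul, helper8094.mulMap_tmul] at h

/-- `extRing hC σ` acts as `σ` on the constants `K1`. -/
theorem extRing_algebraMap_right (hC : helper8094.IsConstExt K0 F0 K1 F1) (σ : K1 ≃ₐ[K0] K1)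
    (c : K1) : extRing hC σ (algebraMap K1 F1 c) = algebraMap K1 F1 (σ c) := by
  have h := extRing_mulMap_tmul hC σ 1 c
  simpa using h

/-- `extRing hC σ` fixes `F0` pointwise. -/
theorem extRing_algebraMap_left (hC : helper8094.IsConstExt K0 F0 K1 F1) (σ : K1 ≃ₐ[K0] K1)
    (f : F0) : extRing hC σ (algebraMap F0 F1 f) = algebraMap F0 F1 f := by
  have h := extRing_mulMap_tmul hC σ f 1
  simpa using h

theorem extRing_symm_apply (hC : helper8094.IsConstExt K0 F0 K1 F1) (σ : K1 ≃ₐ[K0] K1)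
    (z : F1) : (extRing hC σ).symm z = extRing hC σ.symm z := by
  have h : extRing hC σ.symm = (extRing hC σ)⁻¹ := map_inv (extRing hC) σ
  rw [h]
  rfl

/-- The extension of `σ ∈ Aut(K1/K0)` as an element of the Prelude group of semilinear
automorphisms of `F1 / K1`; a group homomorphism. -/
noncomputable def extAut (hC : helper8094.IsConstExt K0 F0 K1 F1) :
    (K1 ≃ₐ[K0] K1) →* SemilinearAut K1 F1 where
  toFun σ := ⟨(extRing hC σ, (σ : K1 ≃+* K1)), fun a => extRing_algebraMap_right hC σ a⟩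
  map_one' := Subtype.ext (Prod.ext (map_one (extRing hC)) rfl)
  map_mul' σ σ' := Subtype.ext (Prod.ext (map_mul (extRing hC) σ σ') rfl)

@[simp]
theorem toRingAut_extAut (hC : helper8094.IsConstExt K0 F0 K1 F1) (σ : K1 ≃ₐ[K0] K1) :
    SemilinearAut.toRingAut (extAut hC σ) = extRing hC σ := rfl

@[simp]
theorem baseAut_extAut (hC : helper8094.IsConstExt K0 F0 K1 F1) (σ : K1 ≃ₐ[K0] K1) :
    SemilinearAut.baseAut (extAut hC σ) = (σ : K1 ≃+* K1) := rfl

theorem baseAut_extAut_apply (hC : helper8094.IsConstExt K0 F0 K1 F1) (σ : K1 ≃ₐ[K0] K1)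
    (c : K1) : SemilinearAut.baseAut (extAut hC σ) c = σ c := rfl

/-- `extAut hC σ` fixes `F0` pointwise (action form). -/
theorem extAut_smul_algebraMap_left (hC : helper8094.IsConstExt K0 F0 K1 F1)
    (σ : K1 ≃ₐ[K0] K1) (f : F0) : extAut hC σ • algebraMap F0 F1 f = algebraMap F0 F1 f :=
  extRing_algebraMap_left hC σ f

/-- `extAut hC σ` acts as `σ` on `K1` (action form). -/
theorem extAut_smul_algebraMap_right (hC : helper8094.IsConstExt K0 F0 K1 F1)
    (σ : K1 ≃ₐ[K0] K1) (c : K1) : extAut hC σ • algebraMap K1 F1 c = algebraMap K1 F1 (σ c) :=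
  extRing_algebraMap_right hC σ c

/-- Every element of the subgroup `(extAut hC).range` fixes `F0` pointwise. -/
theorem smul_algebraMap_left_of_mem_range (hC : helper8094.IsConstExt K0 F0 K1 F1)
    {g : SemilinearAut K1 F1} (hg : g ∈ (extAut hC).range) (f : F0) :
    g • algebraMap F0 F1 f = algebraMap F0 F1 f := by
  obtain ⟨σ, rfl⟩ := hg
  exact extAut_smul_algebraMap_left hC σ f

/-- The `baseAut`-orbit of a constant under `(extAut hC).range` is its `Aut(K1/K0)`-orbit. -/
theorem range_baseAut_eq (hC : helper8094.IsConstExt K0 F0 K1 F1) (a : K1) :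
    (Set.range fun g : (extAut hC).range =>
        SemilinearAut.baseAut (g : SemilinearAut K1 F1) a) =
      {b : K1 | ∃ σ : K1 ≃ₐ[K0] K1, σ a = b} := by
  ext b
  constructor
  · rintro ⟨⟨g, σ, rfl⟩, rfl⟩
    exact ⟨σ, rfl⟩
  · rintro ⟨σ, rfl⟩
    exact ⟨⟨extAut hC σ, σ, rfl⟩, rfl⟩

end Semi

/-- (SEMI) of `helper8094_LefSpec`, verbatim: every `K0`-automorphism of `K1` extends to a ring
automorphism of `F1` fixing `F0`. -/
theorem stmt_SEMI : helper8094.Stmt_SEMI.{u, v, u', v'} := by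
  intro K0 F0 K1 F1 _ _ _ _ _ _ _ _ _ _ _ hC σ
  exact ⟨extRing hC σ, fun c => extRing_algebraMap_right hC σ c,
    fun f => extRing_algebraMap_left hC σ f⟩

end Fermat.Agent.S27.helper7214
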