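import Fermat.Agent.S27.helper8094_Lefschetz
import Fermat.Agent.S27.helper197_CFE
import Fermat.Agent.S27.helper7214_Semi
import Fermat.Agent.S27.helper1618_AutFixed
import Fermat.Agent.S27.helper4586_EvKit

/-!
# Descent of divisor classes under constant field extension, general form (helper1918)

Setting: a constant field extension `(K0, F0) ⊂ (K1, F1)` of curves over algebraically closed
fields of characteristic zero, with `Pic0(F1)[n]` finite.  `descGen`: a degree-zero divisor `D1`
of `F1` such that `n • D1` is linearly equivalent to a divisor coming from `F0` is itself linearly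
equivalent to a divisor coming from `F0`.  (For `E0 = 0` this is `helper8094.Stmt_DESC`, which is
on main as `helper2848.stmt_DESC`; the general form gives the divisibility of `Pic0(F0)` from the
divisibility of `Pic0(F1)`, requested by S17.)

Proof.  Fix a place `v0` of `F0` and its extension `w0`.  For such a divisor `D1` let `N` be
minimal with `L(D1 + N w0) ≠ 0`; then `L(D1 + N w0)` is a line (two functions with the exact pole
order at `w0` differ by a constant, the residue field being `K1`), so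
`E := D1 + N w0 + div f0` is the unique effective divisor of its class.  The group `Aut(K1/K0)`
acts on `F1` fixing `F0` (`helper7214.extAut`), fixes `w0` and all divisors coming from `F0`, so
the conjugates of the class of `D1` differ from it by `n`-torsion: finitely many classes; by
uniqueness the orbit of `E` is finite, so every place of `Supp E` has a finite
orbit.  A place trivial on `F0` has an infinite orbit (the value of a transcendental `x0 ∈ F0` at
it lies outside `K0`, and such constants have infinitely many conjugates, `helper1618`).  Hence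
`Supp E` consists of extended places, `E = ι_* E0`, and `D0 := E0 - N v0` works.
-/

set_option autoImplicit false

open AlgebraicCurve

namespace Fermat.Agent.S27.helper1918

universe u v u' v'

section One

variable {K : Type*} {F : Type*} [Field K] [Field F] [Algebra K F]

/-- An effective divisor has nonnegative degree (all places of degree one). -/
theorem desc_degree_nonneg (hdeg : ∀ v : Place K F, v.deg = 1) {D : Divisor K F}
    (h0 : ∀ v, 0 ≤ D v) : 0 ≤ Divisor.degree D := by
  rw [helper2950.degree_eq_sum]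
  refine Finset.sum_nonneg fun v _ => ?_
  rw [hdeg v]
  simpa using h0 v

/-- If `L(D) ≠ 0` then `deg D ≥ 0`. -/
theorem desc_degree_nonneg_of_mem (hP : HasPrincipalDivisors K F)
    (hdeg : ∀ v : Place K F, v.deg = 1) {D : Divisor K F} {f : F} (hf0 : f ≠ 0)
    (hf : f ∈ riemannRochSpace D) : 0 ≤ Divisor.degree D := by
  obtain ⟨E, hE, hE0⟩ := hP.exists_divisor f hf0
  have h1 : 0 ≤ Divisor.degree (D + E) := desc_degree_nonneg hdeg fun v => by
    rcases (mem_riemannRochSpace_iff.1 hf) v with h | h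
    · exact absurd h hf0
    · rw [Finsupp.add_apply, hE v]
      linarith
  rwa [map_add, hE0, add_zero] at h1

/-- The least `N` with `L(D1 + N w0) ≠ 0`. -/
theorem desc_exists_min (hP : HasPrincipalDivisors K F) (hdeg : ∀ v : Place K F, v.deg = 1)
    (hRR : helper8094.WeakRR K F) (D1 : Divisor K F) (w0 : Place K F) :
    ∃ N : ℤ, (∃ f : F, f ≠ 0 ∧ f ∈ riemannRochSpace (D1 + Finsupp.single w0 N)) ∧
      ∀ N' : ℤ, N' < N → ∀ f : F, f ∈ riemannRochSpace (D1 + Finsupp.single w0 N') → f = 0 := by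
  have hdegN : ∀ N : ℤ,
      Divisor.degree (D1 + Finsupp.single w0 N) = Divisor.degree D1 + N := by
    intro N
    rw [map_add, Divisor.degree_single, hdeg w0]
    simp
  obtain ⟨c, hc⟩ := hRR
  have hbdd : ∃ b : ℤ, ∀ N : ℤ,
      (∃ f : F, f ≠ 0 ∧ f ∈ riemannRochSpace (D1 + Finsupp.single w0 N)) → b ≤ N := by
    refine ⟨-Divisor.degree D1, fun N hN => ?_⟩
    obtain ⟨f, hf0, hf⟩ := hN
    have h1 := desc_degree_nonneg_of_mem hP hdeg hf0 hf
    rw [hdegN] at h1
    linarith
  have hinh : ∃ N : ℤ, ∃ f : F, f ≠ 0 ∧ f ∈ riemannRochSpace (D1 + Finsupp.single w0 N) := by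
    set M : ℤ := max c (genusFF K F : ℤ) - Divisor.degree D1 with hM
    refine ⟨M, ?_⟩
    have hle1 : c ≤ max c (genusFF K F : ℤ) := le_max_left _ _
    have hle2 : (genusFF K F : ℤ) ≤ max c (genusFF K F : ℤ) := le_max_right _ _
    have h1 := hc (D1 + Finsupp.single w0 M) (by rw [hdegN]; linarith)
    rw [hdegN] at h1
    have h2 : 0 < Module.finrank K (riemannRochSpace (D1 + Finsupp.single w0 M)) := by
      have h3 : (0 : ℤ) < (Module.finrank K (riemannRochSpace (D1 + Finsupp.single w0 M)) : ℤ) := by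
        rw [h1]
        linarith
      exact_mod_cast h3
    have : Nontrivial (riemannRochSpace (D1 + Finsupp.single w0 M)) :=
      Module.nontrivial_of_finrank_pos h2
    obtain ⟨⟨f, hf⟩, hne⟩ := exists_ne (0 : riemannRochSpace (D1 + Finsupp.single w0 M))
    exact ⟨f, fun h => hne (Subtype.ext h), hf⟩
  obtain ⟨N, hN, hmin⟩ := Int.exists_least_of_bdd hbdd hinh
  refine ⟨N, hN, fun N' hN' f hf => ?_⟩
  by_contra hf0
  exact absurd (hmin N' ⟨f, hf0, hf⟩) (not_le.mpr hN')

/-- For the minimal `N`, the space `L(D1 + N w0)` is a line. -/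
theorem desc_unique (hval : ∀ P : Place K F, helper4586.HasValues P) (D1 : Divisor K F)
    (w0 : Place K F) (N : ℤ)
    (hmin : ∀ f : F, f ∈ riemannRochSpace (D1 + Finsupp.single w0 (N - 1)) → f = 0)
    {f h : F} (hf0 : f ≠ 0) (hf : f ∈ riemannRochSpace (D1 + Finsupp.single w0 N))
    (hh : h ∈ riemannRochSpace (D1 + Finsupp.single w0 N)) : ∃ c : K, h = c • f := by
  classical
  have hexact : ∀ g : F, g ≠ 0 → g ∈ riemannRochSpace (D1 + Finsupp.single w0 N) →
      w0.ord g = -(D1 w0 + N) := by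
    intro g hg0 hg
    have h1 : -(D1 w0 + N) ≤ w0.ord g := by
      rcases (mem_riemannRochSpace_iff.1 hg) w0 with h | h
      · exact absurd h hg0
      · simpa [Finsupp.add_apply] using h
    by_contra hne
    have hlt : -(D1 w0 + N) < w0.ord g := lt_of_le_of_ne h1 (Ne.symm hne)
    refine hg0 (hmin g (mem_riemannRochSpace_iff.2 fun v => Or.inr ?_))
    by_cases hv : v = w0
    · subst hv
      rw [Finsupp.add_apply, Finsupp.single_eq_same]
      omega
    · rcases (mem_riemannRochSpace_iff.1 hg) v with h | h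
      · exact absurd h hg0
      · rw [Finsupp.add_apply, Finsupp.single_apply, if_neg (Ne.symm hv)] at h ⊢
        exact h
  by_cases hh0 : h = 0
  · exact ⟨0, by rw [hh0, zero_smul]⟩
  have hz : w0.ord (h / f) = 0 := by
    rw [Fermat.Agent.S24.helper1370.ord_div w0 hh0 hf0, hexact f hf0 hf, hexact h hh0 hh]
    ring
  obtain ⟨c, hc⟩ := hval w0 (h / f) hz.ge
  rw [helper4586.isVal_iff] at hc
  refine ⟨c, ?_⟩
  by_contra hne
  have hg0 : h - c • f ≠ 0 := sub_ne_zero.mpr hne
  have hg : h - c • f ∈ riemannRochSpace (D1 + Finsupp.single w0 N) :=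
    Submodule.sub_mem _ hh (Submodule.smul_mem _ c hf)
  have hfac : h - c • f = f * (h / f - algebraMap K F c) := by
    rw [Algebra.smul_def]
    field_simp
  have hzc : h / f - algebraMap K F c ≠ 0 := by
    intro h0
    rw [hfac, h0, mul_zero] at hg0
    exact hg0 rfl
  have hpos : 0 < w0.ord (h / f - algebraMap K F c) := by
    rcases hc with hc | hc
    · exact absurd (sub_eq_zero.mpr hc) hzc
    · exact hc
  have h3 := hexact _ hg0 hg
  rw [hfac, w0.ord_mul hf0 hzc, hexact f hf0 hf] at h3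
  omega

/-- A semilinear automorphism fixing `w0` and the class of `D1` fixes the unique effective
divisor of the class of `D1 + N w0`. -/
theorem desc_smul_eq_self (ρ : SemilinearAut K F) (D1 : Divisor K F) (w0 : Place K F) (N : ℤ)
    (hw0 : ρ • w0 = w0)
    (huniq : ∀ f h : F, f ≠ 0 → f ∈ riemannRochSpace (D1 + Finsupp.single w0 N) →
      h ∈ riemannRochSpace (D1 + Finsupp.single w0 N) → ∃ c : K, h = c • f)
    (hcls : ρ • D1 - D1 ∈ Divisor.principal (K := K) (F := F))
    {f0 : F} (hf0 : f0 ≠ 0) (hf0L : f0 ∈ riemannRochSpace (D1 + Finsupp.single w0 N))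
    (Df : Divisor K F) (hDf : ∀ v : Place K F, Df v = v.ord f0) :
    ρ • (D1 + Finsupp.single w0 N + Df) = D1 + Finsupp.single w0 N + Df := by
  obtain ⟨h, hh0, hh⟩ := hcls
  have hρf0 : ρ • f0 ≠ 0 := by
    rw [SemilinearAut.smul_def]
    exact (map_ne_zero_iff _ (SemilinearAut.toRingAut ρ).injective).mpr hf0
  have hk0 : h * (ρ • f0) ≠ 0 := mul_ne_zero hh0 hρf0
  have hord : ∀ v : Place K F, (ρ⁻¹ • v).ord f0 = v.ord (ρ • f0) := by
    intro v
    have h1 := SemilinearAut.ord_smul ρ (ρ⁻¹ • v) f0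
    rw [smul_inv_smul] at h1
    exact h1.symm
  have hval : ∀ v : Place K F, (ρ • (D1 + Finsupp.single w0 N + Df)) v =
      (D1 + Finsupp.single w0 N) v + v.ord (h * (ρ • f0)) := by
    intro v
    rw [smul_add, smul_add, SemilinearAut.smul_single, hw0, Finsupp.add_apply, Finsupp.add_apply,
      SemilinearAut.divisor_smul_apply ρ Df, hDf, hord, v.ord_mul hh0 hρf0, Finsupp.add_apply]
    have h1 := hh v
    rw [Finsupp.sub_apply] at h1
    linarith
  have hE0 : ∀ v : Place K F, 0 ≤ (D1 + Finsupp.single w0 N + Df) v := by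
    intro v
    rcases (mem_riemannRochSpace_iff.1 hf0L) v with h' | h'
    · exact absurd h' hf0
    · rw [Finsupp.add_apply, hDf]
      linarith
  have hkL : h * (ρ • f0) ∈ riemannRochSpace (D1 + Finsupp.single w0 N) := by
    refine mem_riemannRochSpace_iff.2 fun v => Or.inr ?_
    have h1 := hval v
    rw [SemilinearAut.divisor_smul_apply] at h1
    have h2 := hE0 (ρ⁻¹ • v)
    linarith
  obtain ⟨c, hc⟩ := huniq f0 _ hf0 hf0L hkL
  have hc0 : c ≠ 0 := by
    rintro rfl
    rw [zero_smul] at hc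
    exact hk0 hc
  ext v
  rw [hval v, hc, Fermat.Agent.S24.helper1370.ord_const_smul v hc0 f0,
    Finsupp.add_apply (D1 + Finsupp.single w0 N) Df, hDf]

end One

section Main

variable {K0 : Type u} {F0 : Type v} {K1 : Type u'} {F1 : Type v'}
  [Field K0] [Field F0] [Field K1] [Field F1]
  [Algebra K0 F0] [Algebra K1 F1] [Algebra K0 K1] [Algebra F0 F1] [Algebra K0 F1]
  [IsScalarTower K0 F0 F1] [IsScalarTower K0 K1 F1]

/-- The extended automorphisms map an extension of `v` to an extension of `v`. -/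
theorem desc_smul_ext (hC : helper8094.IsConstExt K0 F0 K1 F1) (σ : K1 ≃ₐ[K0] K1)
    {w : Place K1 F1} {v : Place K0 F0} (hwv : helper8094.IsExtOf w v) :
    helper8094.IsExtOf (helper7214.extAut hC σ • w) v := by
  intro f
  have h1 := SemilinearAut.ord_smul (helper7214.extAut hC σ) w (algebraMap F0 F1 f)
  rw [helper7214.extAut_smul_algebraMap_left] at h1
  rw [h1, hwv f]

/-- A place of `F1` with a finite orbit under the extended automorphisms is nontrivial
on `F0`. -/
theorem desc_nontrivial_of_finite_orbit [IsAlgClosed K0] [IsAlgClosed K1]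
    (hC : helper8094.IsConstExt K0 F0 K1 F1)
    (hval : ∀ P : Place K1 F1, helper4586.HasValues P)
    (x0 : F0) (hx0 : Transcendental K0 x0) (w : Place K1 F1)
    (hfin : (Set.range fun σ : K1 ≃ₐ[K0] K1 => helper7214.extAut hC σ • w).Finite) :
    ∃ f : F0, f ≠ 0 ∧ w.ord (algebraMap F0 F1 f) ≠ 0 := by
  by_contra hcon
  push Not at hcon
  have hx00 : x0 ≠ 0 := fun h => hx0 (h ▸ isAlgebraic_zero)
  have hX0 : w.ord (algebraMap F0 F1 x0) = 0 := hcon x0 hx00
  obtain ⟨b, hb⟩ := hval w (algebraMap F0 F1 x0) hX0.ge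
  have hbK0 : b ∉ Set.range (algebraMap K0 K1) := by
    rintro ⟨b0, rfl⟩
    have hne : x0 - algebraMap K0 F0 b0 ≠ 0 := fun h =>
      hx0 (by rw [sub_eq_zero.mp h]; exact isAlgebraic_algebraMap b0)
    have heq : algebraMap F0 F1 x0 - algebraMap K1 F1 (algebraMap K0 K1 b0) =
        algebraMap F0 F1 (x0 - algebraMap K0 F0 b0) := by
      rw [map_sub, ← IsScalarTower.algebraMap_apply K0 K1 F1,
        ← IsScalarTower.algebraMap_apply K0 F0 F1]
    rw [helper4586.isVal_iff] at hb
    rcases hb with hb | hb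
    · have h0 : algebraMap F0 F1 (x0 - algebraMap K0 F0 b0) = 0 := by
        rw [← heq, hb, sub_self]
      exact hne ((map_eq_zero_iff _ (algebraMap F0 F1).injective).mp h0)
    · rw [heq, hcon _ hne] at hb
      exact lt_irrefl _ hb
  apply hbK0
  apply helper1618.mem_range_algebraMap_of_finite_orbit b
  have hvalσ : ∀ σ : K1 ≃ₐ[K0] K1,
      helper4586.IsVal (helper7214.extAut hC σ • w) (algebraMap F0 F1 x0) (σ b) := by
    intro σ
    have h1 : helper7214.extAut hC σ • (algebraMap F0 F1 x0 - algebraMap K1 F1 b) =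
        algebraMap F0 F1 x0 - algebraMap K1 F1 (σ b) := by
      rw [smul_sub, helper7214.extAut_smul_algebraMap_left,
        helper7214.extAut_smul_algebraMap_right]
    rw [helper4586.isVal_iff] at hb ⊢
    rcases hb with hb | hb
    · left
      have h2 : helper7214.extAut hC σ • (algebraMap F0 F1 x0 - algebraMap K1 F1 b) = 0 := by
        rw [hb, sub_self, smul_zero]
      rw [h1] at h2
      exact sub_eq_zero.mp h2
    · right
      rw [← h1, SemilinearAut.ord_smul]
      exact hb
  refine (hfin.image (fun w' : Place K1 F1 => helper6247.ev w' (algebraMap F0 F1 x0))).subset ?_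
  rintro _ ⟨σ, rfl⟩
  exact ⟨_, ⟨σ, rfl⟩, (hvalσ σ).ev_eq⟩

end Main

/-- **(DESC-G)**, the generalisation of `helper8094.Stmt_DESC` requested for S17 (divisibility):
if `Pic0(F1)[n]` is finite and `n • D1` is linearly equivalent to a divisor coming from `F0`
(`E0 = 0` is the torsion case `Stmt_DESC`), then `D1` itself is linearly equivalent to a divisor
coming from `F0`. -/
theorem descGen (K0 : Type u) (F0 : Type v) (K1 : Type u') (F1 : Type v')
    [Field K0] [Field F0] [Field K1] [Field F1]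
    [Algebra K0 F0] [Algebra K1 F1] [Algebra K0 K1] [Algebra F0 F1] [Algebra K0 F1]
    [IsScalarTower K0 F0 F1] [IsScalarTower K0 K1 F1]
    [IsAlgClosed K0] [CharZero K0] [IsAlgClosed K1] [CharZero K1]
    [IsCurveOver K0 F0] [Algebra.EssFiniteType K0 F0]
    [IsCurveOver K1 F1] [Algebra.EssFiniteType K1 F1] :
    helper8094.IsConstExt K0 F0 K1 F1 → helper8094.WeakRR K1 F1 →
    ∀ n : ℕ, (Pic0.torsion K1 F1 n : Set (Pic0 K1 F1)).Finite →
    ∀ ι : Place K0 F0 → Place K1 F1, (∀ v, helper8094.IsExtOf (ι v) v) →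
    ∀ (D1 : Divisor K1 F1) (E0 : Divisor K0 F0), Divisor.degree D1 = 0 →
      n • D1 - Finsupp.mapDomain ι E0 ∈ Divisor.principal (K := K1) (F := F1) →
      ∃ D0 : Divisor K0 F0, Divisor.degree D0 = 0 ∧
        D1 - Finsupp.mapDomain ι D0 ∈ Divisor.principal (K := K1) (F := F1) := by
  intro hC hRR n hfin ι hι D1 E0 hD1 hnD1
  classical
  -- kits for `F1`
  obtain ⟨x1, hx1, hfin1⟩ := helper5411.exists_transcendental_finite (K := K1) (F := F1)
  have : FiniteDimensional (IntermediateField.adjoin K1 {x1}) F1 := hfin1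
  have hdeg1 : ∀ w : Place K1 F1, w.deg = 1 := fun w =>
    Fermat.Agent.S24.helper483.place_deg_eq_one x1 hx1 w
  have hP1 : HasPrincipalDivisors K1 F1 :=
    Fermat.Agent.S24.helper483.hasPrincipalDivisors x1 hx1
  have hval1 : ∀ P : Place K1 F1, helper4586.HasValues P := fun P =>
    helper4586.hasValues_of_finite x1 P
  -- kits for `F0`
  obtain ⟨x0, hx0, hfin0⟩ := helper5411.exists_transcendental_finite (K := K0) (F := F0)
  have : FiniteDimensional (IntermediateField.adjoin K0 {x0}) F0 := hfin0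
  obtain ⟨v0, -⟩ := helper4586.exists_ord_sub_pos x0 hx0 (0 : K0)
  obtain ⟨hE, hU, -⟩ := helper197.stmt_CFE1 K0 F0 K1 F1 hC
  obtain ⟨hdegι, -, -, -⟩ := helper197.stmt_CFE4 K0 F0 K1 F1 hC ι hι
  have hιuniq : ∀ (v : Place K0 F0) (w : Place K1 F1), helper8094.IsExtOf w v → w = ι v :=
    fun v w hw => (hE v).unique hw (hι v)
  have hιinj : Function.Injective ι := by
    intro v v' hvv
    apply helper8094.place_ext_ord
    intro f
    rw [← hι v f, ← hι v' f, hvv]
  -- the minimal `N` and the unique effective divisor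
  obtain ⟨N, ⟨f0, hf0, hf0L⟩, hmin⟩ := desc_exists_min hP1 hdeg1 hRR D1 (ι v0)
  have huniq : ∀ f h : F1, f ≠ 0 → f ∈ riemannRochSpace (D1 + Finsupp.single (ι v0) N) →
      h ∈ riemannRochSpace (D1 + Finsupp.single (ι v0) N) → ∃ c : K1, h = c • f :=
    fun f h hf0' hf hh =>
      desc_unique hval1 D1 (ι v0) N (hmin (N - 1) (by omega)) hf0' hf hh
  obtain ⟨Df, hDf, hDf0⟩ := hP1.exists_divisor f0 hf0
  -- the group action: old places and old divisors are fixed
  have hgι : ∀ (σ : K1 ≃ₐ[K0] K1) (v : Place K0 F0), helper7214.extAut hC σ • ι v = ι v :=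
    fun σ v => hιuniq v _ (desc_smul_ext hC σ (hι v))
  have hgE0 : ∀ σ : K1 ≃ₐ[K0] K1,
      helper7214.extAut hC σ • Finsupp.mapDomain ι E0 = Finsupp.mapDomain ι E0 := by
    intro σ
    rw [SemilinearAut.divisor_smul_def, ← Finsupp.mapDomain_comp]
    congr 1
    funext v
    exact hgι σ v
  -- the classes of the conjugates of `D1` differ from the class of `D1` by `n`-torsion
  have htor : ∀ σ : K1 ≃ₐ[K0] K1,
      helper7214.extAut hC σ • Pic0.mk (⟨D1, hD1⟩ : Divisor.degZero (K := K1) (F := F1)) -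
        Pic0.mk ⟨D1, hD1⟩ ∈ Pic0.torsion K1 F1 n := by
    intro σ
    rw [SemilinearAut.pic0_smul_mk, ← helper8094.mk_sub, helper8094.mk_mem_torsion_iff]
    have h1 : n • ((helper7214.extAut hC σ • D1 : Divisor K1 F1) - D1) =
        helper7214.extAut hC σ • (n • D1 - Finsupp.mapDomain ι E0) -
          (n • D1 - Finsupp.mapDomain ι E0) := by
      have hcomm : helper7214.extAut hC σ • (n • D1) = n • (helper7214.extAut hC σ • D1) :=
        map_nsmul (DistribSMul.toAddMonoidHom (Divisor K1 F1) (helper7214.extAut hC σ)) n D1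
      rw [smul_sub (helper7214.extAut hC σ), hgE0 σ, smul_sub n, hcomm]
      abel
    show n • ((helper7214.extAut hC σ • D1 : Divisor K1 F1) - D1) ∈ _
    rw [h1]
    exact sub_mem (SemilinearAut.smul_mem_principal _ hnD1) hnD1
  have hfix : ∀ σ : K1 ≃ₐ[K0] K1,
      helper7214.extAut hC σ • Pic0.mk (⟨D1, hD1⟩ : Divisor.degZero (K := K1) (F := F1)) =
        Pic0.mk ⟨D1, hD1⟩ →
      helper7214.extAut hC σ • (D1 + Finsupp.single (ι v0) N + Df) =
        D1 + Finsupp.single (ι v0) N + Df := by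
    intro σ hσ
    rw [SemilinearAut.pic0_smul_mk, helper8094.mk_eq_mk_iff] at hσ
    exact desc_smul_eq_self (helper7214.extAut hC σ) D1 (ι v0) N (hgι σ v0) huniq hσ hf0 hf0L
      Df hDf
  have hK : ∀ σ τ : K1 ≃ₐ[K0] K1,
      helper7214.extAut hC σ • Pic0.mk (⟨D1, hD1⟩ : Divisor.degZero (K := K1) (F := F1)) =
        helper7214.extAut hC τ • Pic0.mk ⟨D1, hD1⟩ →
      helper7214.extAut hC σ • (D1 + Finsupp.single (ι v0) N + Df) =
        helper7214.extAut hC τ • (D1 + Finsupp.single (ι v0) N + Df) := by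
    intro σ τ h
    have h2 : helper7214.extAut hC (σ⁻¹ * τ) •
        Pic0.mk (⟨D1, hD1⟩ : Divisor.degZero (K := K1) (F := F1)) = Pic0.mk ⟨D1, hD1⟩ := by
      rw [map_mul, map_inv, mul_smul, ← h, inv_smul_smul]
    have h3 := hfix _ h2
    rw [map_mul, map_inv, mul_smul] at h3
    have h4 := congrArg (fun D => helper7214.extAut hC σ • D) h3
    simp only [smul_inv_smul] at h4
    exact h4.symm
  have hΨfin : (Set.range fun σ : K1 ≃ₐ[K0] K1 =>
      helper7214.extAut hC σ • (D1 + Finsupp.single (ι v0) N + Df)).Finite := by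
    have hΦ : (Set.range fun σ : K1 ≃ₐ[K0] K1 => helper7214.extAut hC σ •
        Pic0.mk (⟨D1, hD1⟩ : Divisor.degZero (K := K1) (F := F1))).Finite := by
      refine (hfin.image (fun t : Pic0 K1 F1 =>
        t + Pic0.mk (⟨D1, hD1⟩ : Divisor.degZero (K := K1) (F := F1)))).subset ?_
      rintro _ ⟨σ, rfl⟩
      exact ⟨_, htor σ, sub_add_cancel _ _⟩
    let c : Pic0 K1 F1 → (K1 ≃ₐ[K0] K1) := fun y =>
      if h : ∃ σ : K1 ≃ₐ[K0] K1, helper7214.extAut hC σ •
          Pic0.mk (⟨D1, hD1⟩ : Divisor.degZero (K := K1) (F := F1)) = y then h.choose else 1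
    refine (hΦ.image (fun y =>
      helper7214.extAut hC (c y) • (D1 + Finsupp.single (ι v0) N + Df))).subset ?_
    rintro _ ⟨σ, rfl⟩
    refine ⟨helper7214.extAut hC σ • Pic0.mk ⟨D1, hD1⟩, ⟨σ, rfl⟩, ?_⟩
    have h : ∃ τ : K1 ≃ₐ[K0] K1, helper7214.extAut hC τ •
        Pic0.mk (⟨D1, hD1⟩ : Divisor.degZero (K := K1) (F := F1)) =
        helper7214.extAut hC σ • Pic0.mk ⟨D1, hD1⟩ := ⟨σ, rfl⟩
    show helper7214.extAut hC (c (helper7214.extAut hC σ • Pic0.mk ⟨D1, hD1⟩)) •
      (D1 + Finsupp.single (ι v0) N + Df) = _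
    simp only [c, dif_pos h]
    exact hK _ _ h.choose_spec
  have hsupp : ∀ w ∈ (D1 + Finsupp.single (ι v0) N + Df).support, ∃ v, ι v = w := by
    intro w hw
    have horb : (Set.range fun σ : K1 ≃ₐ[K0] K1 => helper7214.extAut hC σ • w).Finite := by
      refine (Set.Finite.biUnion hΨfin
        (fun E' _ => (E'.support : Finset (Place K1 F1)).finite_toSet)).subset ?_
      rintro _ ⟨σ, rfl⟩
      refine Set.mem_biUnion (x := helper7214.extAut hC σ • (D1 + Finsupp.single (ι v0) N + Df))
        ⟨σ, rfl⟩ ?_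
      rw [Finset.mem_coe, Finsupp.mem_support_iff, SemilinearAut.divisor_smul_apply_smul]
      exact Finsupp.mem_support_iff.mp hw
    obtain ⟨f, hf, hne⟩ := desc_nontrivial_of_finite_orbit hC hval1 x0 hx0 w horb
    obtain ⟨v, hv⟩ := hU w ⟨f, hf, hne⟩
    exact ⟨v, (hιuniq v w hv).symm⟩
  -- descend `E`
  have hmap : Finsupp.mapDomain ι
      (Finsupp.comapDomain ι (D1 + Finsupp.single (ι v0) N + Df) hιinj.injOn) =
      D1 + Finsupp.single (ι v0) N + Df :=
    Finsupp.mapDomain_comapDomain ι hιinj _ (fun w hw => hsupp w hw)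
  have hmapD : Finsupp.mapDomain ι
      (Finsupp.comapDomain ι (D1 + Finsupp.single (ι v0) N + Df) hιinj.injOn -
        Finsupp.single v0 N) = D1 + Df := by
    rw [sub_eq_add_neg, Finsupp.mapDomain_add, hmap, ← Finsupp.single_neg,
      Finsupp.mapDomain_single, Finsupp.single_neg]
    abel
  refine ⟨Finsupp.comapDomain ι (D1 + Finsupp.single (ι v0) N + Df) hιinj.injOn -
    Finsupp.single v0 N, ?_, ?_⟩
  · rw [← hdegι, hmapD, map_add, hD1, hDf0, add_zero]
  · rw [hmapD]
    have h1 : D1 - (D1 + Df) = -Df := by abel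
    rw [h1]
    exact neg_mem ⟨f0, hf0, hDf⟩

end Fermat.Agent.S27.helper1918
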