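import Fermat.Agent.S27.helper6247_Spec
import Fermat.Agent.S24.helper204_Places

/-!
# S27, box "Complex" of the Spec dependency graph (helper5322)

`Stmt_Complex` from the Spec statements `Stmt_Riemann`, `Stmt_AJ` (core interface; or
`Stmt_Key` + `Stmt_IntChartExists`), `Stmt_Compact`, `Stmt_Connected`, `Stmt_LatticeCount`
of `helper6247_Spec` (hypothesis passing), plus the two landed S24 facts "principal divisors
exist" and "places have degree one" (`helper204_Places`).

Main results: `complex_of_aj`, `complex_of`, `s27_of_aj`.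

* surjectivity of the Abel–Jacobi homomorphism `E`: the set of places `P` with
  `cls (P - P₀) ∈ range E` is saturated under charts (chart formula of `Stmt_Key`),
  hence everything (`Stmt_Connected`); degree zero divisors are combinations of `P - P₀`;
* bounded fundamental set: finitely many closed chart discs cover the curve (`Stmt_Compact`),
  abelian integrals are bounded on them, and every class is `[D' - g P₀]` with `D'` effective
  of degree `g` (`Stmt_Riemann`);
* conclude with `Stmt_LatticeCount`.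
-/

set_option autoImplicit false

open AlgebraicCurve IntermediateField
open scoped Topology

namespace Fermat.Agent.S27.helper5322

open Fermat.Agent.S27.helper6247

noncomputable section

/-! ## Divisor bookkeeping (any base field) -/

section General

variable {K F : Type*} [Field K] [Field F] [Algebra K F]

theorem degree_pt (P : Place K F) : Divisor.degree (pt P) = (P.deg : ℤ) := by
  simp [pt]

theorem cls_of_degree {D : Divisor K F} (h : Divisor.degree D = 0) :
    cls D = Pic0.mk ⟨D, h⟩ := by
  have hD : D ∈ Divisor.degZero (K := K) (F := F) := h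
  simp only [cls, dif_pos hD]

theorem cls_zero : cls (0 : Divisor K F) = 0 := by
  rw [cls_of_degree (map_zero _)]
  rfl

theorem cls_add {D D' : Divisor K F} (h : Divisor.degree D = 0) (h' : Divisor.degree D' = 0) :
    cls (D + D') = cls D + cls D' := by
  have h2 : Divisor.degree (D + D') = 0 := by rw [map_add, h, h', add_zero]
  rw [cls_of_degree h, cls_of_degree h', cls_of_degree h2]
  rfl

theorem cls_principal {D : Divisor K F} (h : Divisor.degree D = 0)
    (hp : D ∈ Divisor.principal (K := K) (F := F)) : cls D = 0 := by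
  rw [cls_of_degree h]
  exact (QuotientAddGroup.eq_zero_iff _).mpr hp

theorem degree_eq_sum (hdeg : ∀ v : Place K F, v.deg = 1) (D : Divisor K F) :
    Divisor.degree D = ∑ v ∈ D.support, D v := by
  have h : Divisor.degree D = D.sum fun v n => n * (v.deg : ℤ) := by
    simp [Divisor.degree, Finsupp.liftAddHom_apply]
  rw [h, Finsupp.sum]
  exact Finset.sum_congr rfl fun v _ => by rw [hdeg v]; simp

/-- `D - (deg D) P₀ = ∑ D(v) (v - P₀)`. -/
theorem sub_degree_smul_eq (hdeg : ∀ v : Place K F, v.deg = 1) (P₀ : Place K F)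
    (D : Divisor K F) :
    D - Divisor.degree D • pt P₀ = ∑ v ∈ D.support, D v • (pt v - pt P₀) := by
  have h1 : ∑ v ∈ D.support, D v • pt v = D := by
    have : ∀ v ∈ D.support, D v • pt v = Finsupp.single v (D v) := by
      intro v _
      simp [pt]
    rw [Finset.sum_congr rfl this]
    exact Finsupp.sum_single D
  simp only [smul_sub, Finset.sum_sub_distrib, h1, ← Finset.sum_smul, ← degree_eq_sum hdeg D]

/-- The class of `D - (deg D) P₀` is the combination of the classes of `v - P₀`. -/
theorem cls_sub_degree_smul (hdeg : ∀ v : Place K F, v.deg = 1) (P₀ : Place K F)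
    (D : Divisor K F) :
    cls (D - Divisor.degree D • pt P₀) = ∑ v ∈ D.support, D v • cls (pt v - pt P₀) := by
  have hz : ∀ v : Place K F, Divisor.degree (pt v - pt P₀) = 0 := by
    intro v
    rw [map_sub, degree_pt, degree_pt, hdeg v, hdeg P₀, sub_self]
  have hsm : ∀ (n : ℤ) (v : Place K F), cls (n • (pt v - pt P₀)) = n • cls (pt v - pt P₀) := by
    intro n v
    have h2 : Divisor.degree (n • (pt v - pt P₀)) = 0 := by rw [map_zsmul, hz v, smul_zero]
    rw [cls_of_degree h2, cls_of_degree (hz v)]
    rfl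
  rw [sub_degree_smul_eq hdeg P₀ D]
  have key : ∀ s : Finset (Place K F),
      Divisor.degree (∑ v ∈ s, D v • (pt v - pt P₀)) = 0 ∧
      cls (∑ v ∈ s, D v • (pt v - pt P₀)) = ∑ v ∈ s, D v • cls (pt v - pt P₀) := by
    classical
    intro s
    induction s using Finset.induction_on with
    | empty => exact ⟨by simp, by simpa using cls_zero⟩
    | insert a s ha ih =>
      have h2 : Divisor.degree (D a • (pt a - pt P₀)) = 0 := by
        rw [map_zsmul, hz a, smul_zero]
      refine ⟨?_, ?_⟩
      · rw [Finset.sum_insert ha, map_add, h2, ih.1, add_zero]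
      · rw [Finset.sum_insert ha, Finset.sum_insert ha, cls_add h2 ih.1, hsm, ih.2]
  exact (key D.support).2

end General

/-! ## The complex case -/

/-- The endgame: the core interface `Stmt_AJ` (a homomorphism `E : ℂ^g → Pic⁰` with discrete
kernel, continuous along charts) together with compactness, connectedness and Riemann's theorem
gives the complex case, via the lattice count. -/
theorem complex_of_aj (hR : Stmt_Riemann.{0, 0}) (hAJ : Stmt_AJ) (hCpt : Stmt_Compact)
    (hConn : Stmt_Connected) (hLat : Stmt_LatticeCount) :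
    Stmt_Complex := by
  intro F _ _ x hx _ n hn
  have hP : HasPrincipalDivisors ℂ F := Fermat.Agent.S24.helper204.hasPrincipalDivisors x hx
  have hdeg : ∀ v : Place ℂ F, v.deg = 1 := Fermat.Agent.S24.helper204.place_deg_eq_one x hx
  obtain ⟨-, hRR, -⟩ := hR ℂ F x hx
  obtain ⟨E, hEchart, hEdisc⟩ := hAJ F x hx
  have hz : ∀ v w : Place ℂ F, Divisor.degree (pt v - pt w) = 0 := by
    intro v w
    rw [map_sub, degree_pt, degree_pt, hdeg v, hdeg w, sub_self]
  -- the two global properties of `E`
  have key : Function.Surjective E ∧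
      ∃ B : ℝ, ∀ w : Fin (genusFF ℂ F) → ℂ, ∃ w' : Fin (genusFF ℂ F) → ℂ,
        E w' = E w ∧ ‖w'‖ ≤ B := by
    by_cases hne : Nonempty (Place ℂ F)
    swap
    · -- no places: `Pic0` is trivial
      have : IsEmpty (Place ℂ F) := not_nonempty_iff.mp hne
      have hsub : ∀ c : Pic0 ℂ F, c = 0 := by
        intro c
        obtain ⟨⟨D, hD⟩, rfl⟩ := Pic0.mk_surjective c
        have hD0 : D = 0 := Subsingleton.elim _ _
        subst hD0
        rfl
      refine ⟨fun c => ⟨0, by rw [map_zero, hsub c]⟩, 0, fun w => ⟨0, ?_, by simp⟩⟩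
      rw [map_zero, hsub (E w)]
    obtain ⟨P₀⟩ := hne
    -- chart saturation
    set S : Set (Place ℂ F) := {P | cls (pt P - pt P₀) ∈ E.range} with hS
    have hsplit : ∀ P P' : Place ℂ F,
        cls (pt P - pt P₀) = cls (pt P - pt P') + cls (pt P' - pt P₀) := by
      intro P P'
      rw [← cls_add (hz P P') (hz P' P₀)]
      congr 1
      abel
    have hS0 : P₀ ∈ S := by
      show cls (pt P₀ - pt P₀) ∈ E.range
      rw [sub_self, cls_zero]
      exact E.range.zero_mem
    have hSsat : ∀ (u : F) (Q : ℂ → Place ℂ F) (r : ℝ), IsChart u Q r →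
        ∀ s ∈ Metric.ball (0 : ℂ) r, (Q 0 ∈ S ↔ Q s ∈ S) := by
      intro u Q r hch s hs
      obtain ⟨J, -, hJ⟩ := hEchart u Q r hch
      have h1 := hJ s hs
      have h2 := hsplit (Q s) (Q 0)
      constructor
      · intro h
        show cls (pt (Q s) - pt P₀) ∈ E.range
        rw [h2, h1]
        exact E.range.add_mem ⟨J s, rfl⟩ h
      · intro h
        have h3 : cls (pt (Q 0) - pt P₀) = cls (pt (Q s) - pt P₀) - E (J s) := by
          rw [h2, h1]
          abel
        show cls (pt (Q 0) - pt P₀) ∈ E.range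
        rw [h3]
        exact E.range.sub_mem h ⟨J s, rfl⟩
    have hSuniv : S = Set.univ := hConn F x hx S ⟨P₀, hS0⟩ hSsat
    have hall : ∀ P : Place ℂ F, ∃ w, E w = cls (pt P - pt P₀) := by
      intro P
      have hPS : P ∈ S := by rw [hSuniv]; trivial
      exact hPS
    -- surjectivity
    have hsurj : Function.Surjective E := by
      intro c
      obtain ⟨⟨D, hD⟩, rfl⟩ := Pic0.mk_surjective c
      have hD' : Divisor.degree D = 0 := hD
      have h1 := cls_sub_degree_smul hdeg P₀ D
      rw [hD', zero_smul, sub_zero, cls_of_degree hD'] at h1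
      have hmem : Pic0.mk ⟨D, hD⟩ ∈ E.range := by
        rw [h1]
        exact E.range.sum_mem fun v _ => E.range.zsmul_mem (hall v) _
      exact hmem
    refine ⟨hsurj, ?_⟩
    -- bounded fundamental set
    obtain ⟨m, u, Q, r, ρ, hch, hρ, hcov⟩ := hCpt F x hx
    have hJex : ∀ k : Fin m, ∃ J : ℂ → Fin (genusFF ℂ F) → ℂ,
        ContinuousOn J (Metric.ball (0 : ℂ) (r k)) ∧
        ∀ s ∈ Metric.ball (0 : ℂ) (r k), cls (pt (Q k s) - pt (Q k 0)) = E (J s) :=
      fun k => hEchart (u k) (Q k) (r k) (hch k)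
    choose J hJc hJ using hJex
    have hbd : ∀ k : Fin m, ∃ C : ℝ, ∀ s ∈ Metric.closedBall (0 : ℂ) (ρ k), ‖J k s‖ ≤ C := by
      intro k
      refine (isCompact_closedBall (0 : ℂ) (ρ k)).exists_bound_of_continuousOn ?_
      refine (hJc k).mono fun s hs => ?_
      rw [Metric.mem_closedBall] at hs
      rw [Metric.mem_ball]
      exact lt_of_le_of_lt hs (hρ k)
    choose C hC using hbd
    have hw0 : ∀ k : Fin m, ∃ w, E w = cls (pt (Q k 0) - pt P₀) := fun k => hall (Q k 0)
    choose w₀ hw₀ using hw0
    set M : ℝ := ∑ k : Fin m, (|C k| + ‖w₀ k‖) with hM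
    have hMk : ∀ k : Fin m, |C k| + ‖w₀ k‖ ≤ M := by
      intro k
      rw [hM]
      exact Finset.single_le_sum (f := fun k => |C k| + ‖w₀ k‖)
        (fun i _ => add_nonneg (abs_nonneg _) (norm_nonneg _)) (Finset.mem_univ k)
    have hM0 : 0 ≤ M := Finset.sum_nonneg fun i _ => add_nonneg (abs_nonneg _) (norm_nonneg _)
    have hpt : ∀ P : Place ℂ F, ∃ w, E w = cls (pt P - pt P₀) ∧ ‖w‖ ≤ M := by
      intro P
      obtain ⟨k, s, hs, rfl⟩ := hcov P
      have hs1 : s ∈ Metric.closedBall (0 : ℂ) (ρ k) := by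
        rw [Metric.mem_closedBall, dist_zero_right]; exact hs
      have hs2 : s ∈ Metric.ball (0 : ℂ) (r k) := by
        rw [Metric.mem_ball, dist_zero_right]; exact lt_of_le_of_lt hs (hρ k)
      refine ⟨J k s + w₀ k, ?_, ?_⟩
      · rw [map_add, hw₀ k, ← hJ k s hs2]
        exact (hsplit (Q k s) (Q k 0)).symm
      · calc ‖J k s + w₀ k‖ ≤ ‖J k s‖ + ‖w₀ k‖ := norm_add_le _ _
          _ ≤ |C k| + ‖w₀ k‖ := by
            have := hC k s hs1
            have := le_abs_self (C k)
            linarith
          _ ≤ M := hMk k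
    choose W hW hWb using hpt
    refine ⟨(genusFF ℂ F : ℝ) * M, fun w => ?_⟩
    obtain ⟨⟨D, hD⟩, hc⟩ := Pic0.mk_surjective (E w)
    have hD' : Divisor.degree D = 0 := hD
    -- Riemann: an effective divisor of degree `g` in the class of `D + g P₀`
    set g : ℤ := (genusFF ℂ F : ℤ) with hg
    set D₁ : Divisor ℂ F := D + g • pt P₀ with hD₁
    have hdegD₁ : Divisor.degree D₁ = g := by
      rw [hD₁, map_add, map_zsmul, degree_pt, hdeg P₀, hD']
      simp
    have hRR1 := hRR D₁
    rw [hdegD₁] at hRR1
    have hpos : 0 < Module.finrank ℂ (riemannRochSpace D₁) := by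
      have : (0 : ℤ) < (Module.finrank ℂ (riemannRochSpace D₁) : ℤ) := by
        have h0 : (0 : ℤ) ≤ (Module.finrank ℂ (H1 D₁) : ℤ) := Int.natCast_nonneg _
        linarith
      exact_mod_cast this
    have : Nontrivial (riemannRochSpace D₁) := Module.nontrivial_of_finrank_pos hpos
    obtain ⟨⟨f, hfmem⟩, hfne⟩ := exists_ne (0 : riemannRochSpace D₁)
    have hf0 : f ≠ 0 := fun h => hfne (Subtype.ext h)
    obtain ⟨Df, hDf, hDfdeg⟩ := hP.exists_divisor f hf0
    have hDfp : Df ∈ Divisor.principal (K := ℂ) (F := F) := ⟨f, hf0, hDf⟩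
    set D' : Divisor ℂ F := D₁ + Df with hD'def
    have hD'nonneg : ∀ v : Place ℂ F, 0 ≤ D' v := by
      intro v
      have h1 := (mem_riemannRochSpace_iff.mp hfmem v).resolve_left hf0
      rw [hD'def, Finsupp.add_apply, hDf v]
      linarith
    have hdegD' : Divisor.degree D' = g := by
      rw [hD'def, map_add, hdegD₁, hDfdeg, add_zero]
    -- the class of `E w`
    have hcls : E w = cls (D' - Divisor.degree D' • pt P₀) := by
      have h1 : D' - Divisor.degree D' • pt P₀ = D + Df := by
        rw [hdegD', hD'def, hD₁]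
        abel
      rw [h1, cls_add hD' hDfdeg, cls_principal hDfdeg hDfp, add_zero, cls_of_degree hD', ← hc]
    rw [cls_sub_degree_smul hdeg P₀ D'] at hcls
    refine ⟨∑ v ∈ D'.support, D' v • W v, ?_, ?_⟩
    · rw [hcls, map_sum]
      exact Finset.sum_congr rfl fun v _ => by rw [map_zsmul, hW v]
    · have hsum : (∑ v ∈ D'.support, (D' v : ℝ)) = (genusFF ℂ F : ℝ) := by
        have h1 := degree_eq_sum hdeg D'
        rw [hdegD', hg] at h1
        have h2 : ((genusFF ℂ F : ℤ) : ℝ) = ((∑ v ∈ D'.support, D' v : ℤ) : ℝ) := by rw [h1]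
        push_cast at h2
        exact h2.symm
      calc ‖∑ v ∈ D'.support, D' v • W v‖ ≤ ∑ v ∈ D'.support, ‖D' v • W v‖ := norm_sum_le _ _
        _ ≤ ∑ v ∈ D'.support, (D' v : ℝ) * M := by
          refine Finset.sum_le_sum fun v _ => ?_
          have h0 : (0 : ℝ) ≤ (D' v : ℝ) := by exact_mod_cast hD'nonneg v
          calc ‖D' v • W v‖ ≤ |(D' v : ℝ)| * ‖W v‖ := by
                rw [← Int.cast_smul_eq_zsmul ℝ (D' v) (W v), norm_smul, Real.norm_eq_abs]
            _ = (D' v : ℝ) * ‖W v‖ := by rw [abs_of_nonneg h0]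
            _ ≤ (D' v : ℝ) * M := mul_le_mul_of_nonneg_left (hWb v) h0
        _ = (genusFF ℂ F : ℝ) * M := by rw [← Finset.sum_mul, hsum]
  exact hLat (genusFF ℂ F) n (Pic0 ℂ F) E key.1 hEdisc key.2 hn

/-- The same with core A (`Stmt_Key` + `Stmt_IntChartExists`) in place of `Stmt_AJ`. -/
theorem complex_of (hR : Stmt_Riemann.{0, 0}) (hKey : Stmt_Key) (hCpt : Stmt_Compact)
    (hConn : Stmt_Connected) (hInt : Stmt_IntChartExists) (hLat : Stmt_LatticeCount) :
    Stmt_Complex :=
  complex_of_aj hR (aj_of_key hR hInt hKey) hCpt hConn hLat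

/-- The frozen statement from the Spec statements of the analytic route. -/
theorem s27_of_aj.{u, v} (h0 : Stmt_Reduce.{u, v}) (hT : Stmt_Transfer.{u, v})
    (hR : Stmt_Riemann.{0, 0}) (hAJ : Stmt_AJ) (hCpt : Stmt_Compact)
    (hConn : Stmt_Connected) (hLat : Stmt_LatticeCount) : Stmt_S27.{u, v} :=
  s27_of h0 (complex_of_aj hR hAJ hCpt hConn hLat) hT

end

end Fermat.Agent.S27.helper5322
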