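/-
S27 brick CURVE (helper1949): the converse of the reduction step A0.

For an algebraically closed field `K` of characteristic zero and a field `F` over `K`
containing an element `x` transcendental over `K` with `F` finite over `K⟮x⟯`:
`AlgebraicCurve.IsCurveOver K F` and `Algebra.EssFiniteType K F` hold.

This is what the Lefschetz transfer needs in order to apply the complex case of S27 to a
constructed function field (a compositum `Frac (F₀ ⊗ K')`, an `AdjoinRoot` model, a shrunk
copy, ...), and what any construction of a new function field needs in order to talk about
its `Pic0` / `genusFF` with the Prelude instances.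
-/
import Mathlib
import Fermat.Prelude.Def_AlgebraicCurve_IsCurveOver
import Fermat.Agent.S24.helper483_PlacesFF
import Fermat.Agent.S24.helper4356_KaehlerRank

set_option autoImplicit false

open AlgebraicCurve IntermediateField KaehlerDifferential

namespace Fermat.Agent.S27.helper1949

variable {K F : Type*} [Field K] [Field F] [Algebra K F]

/-- A field finite over a simple extension `K⟮x⟯` is essentially of finite type over `K`. -/
theorem essFiniteType_of_finite (x : F) [FiniteDimensional K⟮x⟯ F] :
    Algebra.EssFiniteType K F := by
  have h1 : Algebra.EssFiniteType K K⟮x⟯ := by
    rw [IntermediateField.essFiniteType_iff]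
    exact IntermediateField.fg_adjoin_of_finite (Set.finite_singleton x)
  have h2 : Algebra.EssFiniteType K⟮x⟯ F := inferInstance
  exact Algebra.EssFiniteType.comp K K⟮x⟯ F

/-- Every place of a function field in one variable over an algebraically closed field of
characteristic zero has a finite residue field. -/
theorem finite_residueField [IsAlgClosed K] [CharZero K] (x : F) (hx : Transcendental K x)
    [FiniteDimensional K⟮x⟯ F] (v : Place K F) : Module.Finite K v.ResidueField :=
  Module.Finite.of_surjective (Algebra.linearMap K v.ResidueField)
    (Fermat.Agent.S24.helper483.residueField_surjective x hx v)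

/-- **CURVE.** `K` algebraically closed of characteristic zero, `x : F` transcendental over `K`,
`F` finite over `K⟮x⟯`: then `F` is a curve over `K` in the sense of the Prelude. -/
theorem isCurveOver_of_finite [IsAlgClosed K] [CharZero K] (x : F) (hx : Transcendental K x)
    [FiniteDimensional K⟮x⟯ F] : IsCurveOver K F :=
  { toHasPrincipalDivisors := Fermat.Agent.S24.helper483.hasPrincipalDivisors x hx
    finiteResidue := finite_residueField x hx
    kaehler_free_rank_one :=
      ⟨Module.Free.of_divisionRing F Ω[F⁄K],
        Fermat.Agent.S24.helper4356.finrank_kaehler x hx⟩ }

/-- Both S27 hypotheses at once. -/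
theorem isCurveOver_and_essFiniteType_of_finite [IsAlgClosed K] [CharZero K] (x : F)
    (hx : Transcendental K x) [FiniteDimensional K⟮x⟯ F] :
    IsCurveOver K F ∧ Algebra.EssFiniteType K F :=
  ⟨isCurveOver_of_finite x hx, essFiniteType_of_finite x⟩

end Fermat.Agent.S27.helper1949
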