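/-
S27 analytic toolkit (helper8208).  Mathlib only.

Spec-independent analytic bricks for the local Abel-Jacobi part of S27
(steps E1, E2, E3 of findings 1968 and II.2, II.4 of findings 2048):

* `exists_analytic_implicit` (K1): analytic implicit function with parameters, with
  uniqueness of the zero on a bidisc.
* `exists_branch` (K1p): holomorphic branch `y = β t` of a plane curve at a simple point.
* `exists_analytic_kernel_line` (K2): a family of linear systems with analytic coefficients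
  whose kernel is nonzero near `a₀` and a line at `a₀` has an analytic nowhere-zero
  kernel generator near `a₀` (Cramer).
* `analyticAt_sepFam`, `exists_moving_zero`, `exists_moving_zero_deriv`,
  `logDeriv_pole_cancel` (K3): calculus of separated families `∑ k, c a k * W k x`
  (moving simple zero, its velocity, cancellation of the pole of the log-derivative).
* `additive_of_weak_additive` (K5): open-closed upgrade of weak local additivity.
* `exists_analytic_local_inverse` (K6): analytic inverse function theorem with explicit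
  open neighbourhoods.
* `deriv_mem_of_eventually_mem`, `fderiv_mem_of_eventually_mem` (K7): derivatives of a
  curve in a finite-dimensional subspace stay in the subspace.
-/
import Mathlib

open Metric Set Filter Topology Polynomial

namespace Fermat.Agent.S27.helper8208

/-- (K5) Open-closed upgrade of weak local additivity. -/
theorem additive_of_weak_additive {V P : Type*} [NormedAddCommGroup V] [NormedSpace ℝ V]
    [AddCommGroup P] (e : V → P) (B : Set V) (hB : Convex ℝ B) (h0 : (0 : V) ∈ B)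
    (hweak : ∀ w ∈ B, ∃ δ > 0, ∀ u : V, ‖u‖ < δ → u + w ∈ B → e (u + w) = e u + e w)
    {v w : V} (hv : v ∈ B) (hw : w ∈ B) (hvw : v + w ∈ B) : e (v + w) = e v + e w := by
  classical
  -- e 0 = 0
  have he0 : e 0 = 0 := by
    obtain ⟨δ, hδ, h⟩ := hweak w hw
    have := h 0 (by simpa using hδ) (by simpa using hw)
    simpa using this
  -- the domain
  set D : Set V := B ∩ {v | v + w ∈ B} with hD
  have hDconv : Convex ℝ D := by
    refine hB.inter ?_
    have : {v : V | v + w ∈ B} = (fun v => v + w) ⁻¹' B := rfl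
    rw [this]
    exact hB.translate_preimage_left w
  have hDpre : IsPreconnected D := hDconv.isPreconnected
  have : PreconnectedSpace D := Subtype.preconnectedSpace hDpre
  let f : D → Prop := fun v => e ((v : V) + w) = e (v : V) + e w
  have hf : IsLocallyConstant f := by
    rw [IsLocallyConstant.iff_exists_open]
    intro x
    obtain ⟨δ₁, hδ₁, h₁⟩ := hweak (x : V) x.2.1
    obtain ⟨δ₂, hδ₂, h₂⟩ := hweak ((x : V) + w) x.2.2
    refine ⟨{y : D | dist (y : V) (x : V) < min δ₁ δ₂}, ?_, ?_, ?_⟩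
    · have : Continuous fun y : D => dist (y : V) (x : V) := by fun_prop
      exact isOpen_lt this continuous_const
    · simp [hδ₁, hδ₂]
    · intro y hy
      have hy' : ‖(y : V) - x‖ < min δ₁ δ₂ := by simpa [dist_eq_norm] using hy
      have e1 : e (y : V) = e ((y : V) - x) + e (x : V) := by
        have := h₁ ((y : V) - x) (lt_of_lt_of_le hy' (min_le_left _ _)) (by simpa using y.2.1)
        simpa using this
      have e2 : e ((y : V) + w) = e ((y : V) - x) + e ((x : V) + w) := by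
        have hyx : (y : V) - x + ((x : V) + w) = (y : V) + w := by abel
        have := h₂ ((y : V) - x) (lt_of_lt_of_le hy' (min_le_right _ _))
          (by rw [hyx]; exact y.2.2)
        rwa [hyx] at this
      simp only [f, eq_iff_iff]
      rw [e1, e2]
      constructor
      · intro h
        have : e ((y : V) - x) + e ((x : V) + w) = e ((y : V) - x) + (e (x : V) + e w) := by
          rw [h]; abel
        exact add_left_cancel this
      · intro h
        rw [h]; abel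
  have h0D : (0 : V) ∈ D := ⟨h0, by simpa using hw⟩
  have hvD : v ∈ D := ⟨hv, hvw⟩
  have key := hf.apply_eq_of_preconnectedSpace (⟨v, hvD⟩ : D) ⟨0, h0D⟩
  have : f ⟨0, h0D⟩ := by simp [f, he0]
  have hfv : f ⟨v, hvD⟩ := by rw [key]; exact this
  exact hfv

/-- partial derivative in the first variable as `fderiv` applied to `(1,0)`. -/
theorem deriv_fst_eq_fderiv {E : Type*} [NormedAddCommGroup E] [NormedSpace ℂ E]
    {F : ℂ × E → ℂ} {x : ℂ} {a : E} (hF : DifferentiableAt ℂ F (x, a)) :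
    deriv (fun x => F (x, a)) x = fderiv ℂ F (x, a) (1, 0) := by
  have h1 : HasDerivAt (fun x : ℂ => (x, a)) ((1 : ℂ), (0 : E)) x :=
    (hasDerivAt_id x).prodMk (hasDerivAt_const x a)
  have := hF.hasFDerivAt.comp_hasDerivAt x h1
  exact this.deriv

/-- (K1) Analytic implicit function theorem with parameters and uniqueness on a bidisc. -/
theorem exists_analytic_implicit {E : Type*} [NormedAddCommGroup E] [NormedSpace ℂ E]
    [CompleteSpace E] (F : ℂ × E → ℂ) (x₀ : ℂ) (a₀ : E) (hF : AnalyticAt ℂ F (x₀, a₀))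
    (hF₀ : F (x₀, a₀) = 0) (hd : deriv (fun x => F (x, a₀)) x₀ ≠ 0) (ε₀ : ℝ) (hε₀ : 0 < ε₀) :
    ∃ ε, 0 < ε ∧ ε ≤ ε₀ ∧ ∃ δ, 0 < δ ∧ δ ≤ ε ∧ ∃ c : E → ℂ,
      (∀ x ∈ ball x₀ ε, ∀ a ∈ ball a₀ ε,
        AnalyticAt ℂ F (x, a) ∧ deriv (fun x => F (x, a)) x ≠ 0) ∧
      (∀ a ∈ ball a₀ δ, AnalyticAt ℂ c a) ∧ c a₀ = x₀ ∧
      ∀ a ∈ ball a₀ δ, c a ∈ ball x₀ ε ∧ F (c a, a) = 0 ∧
        ∀ x ∈ ball x₀ ε, F (x, a) = 0 → x = c a := by
  classical
  set p₀ : ℂ × E := (x₀, a₀) with hp₀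
  set L : ℂ × E →L[ℂ] ℂ := fderiv ℂ F p₀ with hL
  set d : ℂ := L (1, 0) with hd'
  have hd0 : d ≠ 0 := by
    rw [hd', hL, ← deriv_fst_eq_fderiv hF.differentiableAt]; exact hd
  -- the map Φ
  set Φ : ℂ × E → ℂ × E := fun p => (F p, p.2) with hΦ
  have hΦan : AnalyticAt ℂ Φ p₀ := hF.prod analyticAt_snd
  -- derivative of Φ as an equivalence
  let f₁ : ℂ × E →L[ℂ] ℂ × E := L.prod (ContinuousLinearMap.snd ℂ ℂ E)
  let f₂ : ℂ × E →L[ℂ] ℂ × E :=
    (d⁻¹ • (ContinuousLinearMap.fst ℂ ℂ E -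
      L.comp ((ContinuousLinearMap.inr ℂ ℂ E).comp (ContinuousLinearMap.snd ℂ ℂ E)))).prod
      (ContinuousLinearMap.snd ℂ ℂ E)
  have hLsplit : ∀ x : ℂ, ∀ a : E, L (x, a) = x * d + L (0, a) := by
    intro x a
    have h1 : ((x, a) : ℂ × E) = x • ((1 : ℂ), (0 : E)) + ((0 : ℂ), a) := by
      ext <;> simp
    rw [h1, map_add, map_smul, smul_eq_mul]
  have h21 : Function.LeftInverse f₂ f₁ := by
    rintro ⟨x, a⟩
    simp only [f₁, f₂, ContinuousLinearMap.prod_apply, ContinuousLinearMap.coe_snd',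
      smul_apply, sub_apply, ContinuousLinearMap.coe_fst',
      ContinuousLinearMap.comp_apply, ContinuousLinearMap.inr_apply, smul_eq_mul]
    rw [hLsplit x a]
    ext
    · simp; field_simp
    · simp
  have h12 : Function.RightInverse f₂ f₁ := by
    rintro ⟨u, v⟩
    simp only [f₁, f₂, ContinuousLinearMap.prod_apply, ContinuousLinearMap.coe_snd',
      smul_apply, sub_apply, ContinuousLinearMap.coe_fst',
      ContinuousLinearMap.comp_apply, ContinuousLinearMap.inr_apply, smul_eq_mul]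
    rw [hLsplit]
    ext
    · simp; field_simp; ring
    · simp
  let f' : (ℂ × E) ≃L[ℂ] (ℂ × E) := ContinuousLinearEquiv.equivOfInverse f₁ f₂ h21 h12
  have hf' : HasFDerivAt Φ (f' : ℂ × E →L[ℂ] ℂ × E) p₀ := by
    have h1 : HasFDerivAt F L p₀ := hF.differentiableAt.hasFDerivAt
    have h2 : HasFDerivAt (fun p : ℂ × E => p.2) (ContinuousLinearMap.snd ℂ ℂ E) p₀ :=
      hasFDerivAt_snd
    exact h1.prodMk h2
  have hΦc : ContDiffAt ℂ ⊤ Φ p₀ := hΦan.contDiffAt
  have hn : (⊤ : WithTop ℕ∞) ≠ 0 := by simp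
  set R : OpenPartialHomeomorph (ℂ × E) (ℂ × E) := hΦc.toOpenPartialHomeomorph Φ hf' hn with hR
  have hRcoe : ∀ p, R p = Φ p := fun p => rfl
  have hp₀R : p₀ ∈ R.source := hΦc.mem_toOpenPartialHomeomorph_source hf' hn
  have hΦp₀ : Φ p₀ = (0, a₀) := by
    show (F p₀, p₀.2) = (0, a₀)
    rw [hF₀]
  have hq₀R : ((0 : ℂ), a₀) ∈ R.target := by
    rw [← hΦp₀]; exact R.map_source hp₀R
  have hΨan : AnalyticAt ℂ R.symm ((0 : ℂ), a₀) := by
    have := hΦc.to_localInverse hf' hn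
    rw [hΦp₀] at this
    exact this.analyticAt
  have hΨp₀ : R.symm ((0 : ℂ), a₀) = p₀ := by
    rw [← hΦp₀]; exact R.left_inv hp₀R
  -- step 1: choose ε
  have hS₀ : ∀ᶠ p in 𝓝 p₀, p ∈ R.source ∧ AnalyticAt ℂ F p ∧ fderiv ℂ F p (1, 0) ≠ 0 := by
    have h1 : ∀ᶠ p in 𝓝 p₀, p ∈ R.source := R.open_source.mem_nhds hp₀R
    have h2 : ∀ᶠ p in 𝓝 p₀, AnalyticAt ℂ F p := hF.eventually_analyticAt
    have h3 : ∀ᶠ p in 𝓝 p₀, fderiv ℂ F p (1, 0) ≠ 0 := by
      have hc : ContinuousAt (fun p => fderiv ℂ F p (1, 0)) p₀ := by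
        have := hF.fderiv.continuousAt
        exact (ContinuousLinearMap.apply ℂ ℂ ((1 : ℂ), (0 : E))).continuous.continuousAt.comp this
      exact hc.eventually_ne hd0
    filter_upwards [h1, h2, h3] with p a b c using ⟨a, b, c⟩
  obtain ⟨ε₁, hε₁, hball⟩ := Metric.eventually_nhds_iff.mp hS₀
  set ε : ℝ := min ε₁ ε₀ with hε
  have hεpos : 0 < ε := lt_min hε₁ hε₀
  have hballε : ∀ x ∈ ball x₀ ε, ∀ a ∈ ball a₀ ε,
      ((x, a) : ℂ × E) ∈ R.source ∧ AnalyticAt ℂ F (x, a) ∧ fderiv ℂ F (x, a) (1, 0) ≠ 0 := by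
    intro x hx a ha
    apply hball
    rw [hp₀, Prod.dist_eq]
    exact max_lt (lt_of_lt_of_le (mem_ball.mp hx) (min_le_left _ _))
      (lt_of_lt_of_le (mem_ball.mp ha) (min_le_left _ _))
  -- step 2: choose δ
  have hT : ∀ᶠ q in 𝓝 ((0 : ℂ), a₀), q ∈ R.target ∧ AnalyticAt ℂ R.symm q ∧
      R.symm q ∈ ball x₀ ε ×ˢ ball a₀ ε := by
    have h1 : ∀ᶠ q in 𝓝 ((0 : ℂ), a₀), q ∈ R.target := R.open_target.mem_nhds hq₀R
    have h2 : ∀ᶠ q in 𝓝 ((0 : ℂ), a₀), AnalyticAt ℂ R.symm q := hΨan.eventually_analyticAt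
    have h3 : ∀ᶠ q in 𝓝 ((0 : ℂ), a₀), R.symm q ∈ ball x₀ ε ×ˢ ball a₀ ε := by
      have hc : ContinuousAt R.symm ((0 : ℂ), a₀) := R.continuousAt_symm hq₀R
      apply hc.eventually
      rw [hΨp₀, hp₀]
      exact prod_mem_nhds (ball_mem_nhds _ hεpos) (ball_mem_nhds _ hεpos)
    filter_upwards [h1, h2, h3] with q a b c using ⟨a, b, c⟩
  have hT' : ∀ᶠ a in 𝓝 a₀, ((0 : ℂ), a) ∈ R.target ∧ AnalyticAt ℂ R.symm ((0 : ℂ), a) ∧
      R.symm ((0 : ℂ), a) ∈ ball x₀ ε ×ˢ ball a₀ ε := by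
    have hc : ContinuousAt (fun a : E => ((0 : ℂ), a)) a₀ := by fun_prop
    exact hc.eventually hT
  obtain ⟨δ₁, hδ₁, hballδ⟩ := Metric.eventually_nhds_iff.mp hT'
  set δ : ℝ := min δ₁ ε with hδ
  have hδpos : 0 < δ := lt_min hδ₁ hεpos
  refine ⟨ε, hεpos, min_le_right _ _, δ, hδpos, min_le_right _ _,
    fun a => (R.symm ((0 : ℂ), a)).1, ?_, ?_, ?_, ?_⟩
  · intro x hx a ha
    obtain ⟨-, h2, h3⟩ := hballε x hx a ha
    exact ⟨h2, by rw [deriv_fst_eq_fderiv h2.differentiableAt]; exact h3⟩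
  · intro a ha
    have ha' : dist a a₀ < δ₁ := lt_of_lt_of_le (mem_ball.mp ha) (min_le_left _ _)
    obtain ⟨-, h2, -⟩ := hballδ ha'
    have h4 : AnalyticAt ℂ (fun a : E => ((0 : ℂ), a)) a := analyticAt_const.prod analyticAt_id
    have h5 : AnalyticAt ℂ (fun q : ℂ × E => q.1) (R.symm ((0 : ℂ), a)) := analyticAt_fst
    have h6 : AnalyticAt ℂ (R.symm ∘ fun a : E => ((0 : ℂ), a)) a :=
      AnalyticAt.comp (f := fun a : E => ((0 : ℂ), a)) h2 h4
    exact AnalyticAt.comp (g := fun q : ℂ × E => q.1)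
      (f := R.symm ∘ fun a : E => ((0 : ℂ), a)) h5 h6
  · simp [hΨp₀, hp₀]
  · intro a ha
    have ha' : dist a a₀ < δ₁ := lt_of_lt_of_le (mem_ball.mp ha) (min_le_left _ _)
    have haε : a ∈ ball a₀ ε := mem_ball.mpr (lt_of_lt_of_le (mem_ball.mp ha) (min_le_right _ _))
    obtain ⟨h1, -, h3⟩ := hballδ ha'
    set p : ℂ × E := R.symm ((0 : ℂ), a) with hp
    have hpS : p ∈ R.source := R.map_target h1
    have hRp : R p = ((0 : ℂ), a) := R.right_inv h1
    have hRp' : (F p, p.2) = ((0 : ℂ), a) := by rw [← hRp, hRcoe]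
    have hp2 : p.2 = a := congrArg Prod.snd hRp'
    have hFp : F p = 0 := congrArg Prod.fst hRp'
    have hpeq : p = (p.1, a) := by rw [← hp2]
    refine ⟨h3.1, ?_, ?_⟩
    · rw [← hpeq]; exact hFp
    · intro x hx hFx
      have hxS : ((x, a) : ℂ × E) ∈ R.source := (hballε x hx a haε).1
      have hRx : R (x, a) = ((0 : ℂ), a) := by rw [hRcoe]; simp [hΦ, hFx]
      have := R.injOn hxS hpS (hRx.trans hRp.symm)
      rw [hpeq] at this
      exact congrArg Prod.fst this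

/-- Over a field, a linear map killed by `ker f` factors through `f`. -/
theorem exists_comp_eq_of_ker_le {K V W V' : Type*} [Field K] [AddCommGroup V] [Module K V]
    [AddCommGroup W] [Module K W] [AddCommGroup V'] [Module K V']
    (f : V →ₗ[K] W) (h : V →ₗ[K] V') (hk : LinearMap.ker f ≤ LinearMap.ker h) :
    ∃ g : W →ₗ[K] V', g ∘ₗ f = h := by
  set fbar : (V ⧸ LinearMap.ker f) →ₗ[K] W := (LinearMap.ker f).liftQ f le_rfl with hfbar
  have hinj : LinearMap.ker fbar = ⊥ := Submodule.ker_liftQ_eq_bot _ _ _ le_rfl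
  obtain ⟨gbar, hg⟩ := LinearMap.exists_leftInverse_of_injective fbar hinj
  refine ⟨((LinearMap.ker f).liftQ h hk) ∘ₗ gbar, ?_⟩
  ext v
  have h1 : gbar (f v) = Submodule.Quotient.mk v := by
    have := congrArg (fun φ => φ (Submodule.Quotient.mk v)) hg
    simpa [hfbar] using this
  simp [h1]

/-- determinant of a matrix with analytic entries is analytic -/
theorem analyticAt_det {E : Type*} [NormedAddCommGroup E] [NormedSpace ℂ E]
    {n : Type*} [Fintype n] [DecidableEq n] (A : E → Matrix n n ℂ) (a₀ : E)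
    (hA : ∀ i j, AnalyticAt ℂ (fun a => A a i j) a₀) :
    AnalyticAt ℂ (fun a => (A a).det) a₀ := by
  have : (fun a => (A a).det) =
      ∑ σ : Equiv.Perm n, fun a => (Equiv.Perm.sign σ : ℂ) * ∏ i, A a (σ i) i := by
    funext a
    simp [Matrix.det_apply', Finset.sum_apply]
  rw [this]
  refine Finset.analyticAt_sum _ fun σ _ => ?_
  refine analyticAt_const.mul ?_
  have h2 : (fun a => ∏ i, A a (σ i) i) = ∏ i, fun a => A a (σ i) i := by
    funext a; simp [Finset.prod_apply]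
  rw [h2]
  exact Finset.analyticAt_prod _ fun i _ => hA (σ i) i

/-- adjugate applied to a constant vector: analytic if entries are analytic -/
theorem analyticAt_adjugate_mulVec {E : Type*} [NormedAddCommGroup E] [NormedSpace ℂ E]
    {n : Type*} [Fintype n] [DecidableEq n] (A : E → Matrix n n ℂ) (a₀ : E)
    (hA : ∀ i j, AnalyticAt ℂ (fun a => A a i j) a₀) (v : n → ℂ) :
    AnalyticAt ℂ (fun a => (A a).adjugate.mulVec v) a₀ := by
  rw [analyticAt_pi_iff]
  intro i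
  have : (fun a => (A a).adjugate.mulVec v i) =
      ∑ j, fun a => ((A a).updateRow j (Pi.single i 1)).det * v j := by
    funext a
    simp [Matrix.mulVec, dotProduct, Matrix.adjugate_apply, Finset.sum_apply]
  rw [this]
  refine Finset.analyticAt_sum _ fun j _ => ?_
  refine AnalyticAt.mul ?_ analyticAt_const
  refine analyticAt_det (fun a => (A a).updateRow j (Pi.single i 1)) a₀ fun k l => ?_
  by_cases hk : k = j
  · subst hk
    simp only [Matrix.updateRow_self]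
    exact analyticAt_const
  · simp only [Matrix.updateRow_ne hk]
    exact hA k l

/-- (K2) Holomorphic kernel line (Cramer with analytic coefficients, corank one). -/
theorem exists_analytic_kernel_line {E : Type*} [NormedAddCommGroup E] [NormedSpace ℂ E]
    {ι κ : Type*} [Fintype ι] [Fintype κ] [DecidableEq κ] [DecidableEq ι]
    (M : E → Matrix ι κ ℂ) (a₀ : E)
    (hM : ∀ i j, AnalyticAt ℂ (fun a => M a i j) a₀)
    (hker : ∀ᶠ a in 𝓝 a₀, ∃ v : κ → ℂ, v ≠ 0 ∧ (M a).mulVec v = 0)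
    (v₀ : κ → ℂ) (hv₀ : v₀ ≠ 0)
    (hline : ∀ w, (M a₀).mulVec w = 0 → ∃ c : ℂ, w = c • v₀) :
    ∃ H : E → κ → ℂ,
      (∀ a, (∀ i j, AnalyticAt ℂ (fun a => M a i j) a) → AnalyticAt ℂ H a) ∧ H a₀ = v₀ ∧
      ∀ᶠ a in 𝓝 a₀, H a ≠ 0 ∧ (M a).mulVec (H a) = 0 ∧
        ∀ w, (M a).mulVec w = 0 → ∃ c : ℂ, w = c • H a := by
  classical
  -- a coordinate where v₀ does not vanish
  obtain ⟨j₀, hj₀⟩ : ∃ j₀, v₀ j₀ ≠ 0 := by
    by_contra h
    simp only [not_exists, not_not] at h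
    exact hv₀ (funext h)
  -- the functional r₀ as a vector
  set r : κ → ℂ := Pi.single j₀ (v₀ j₀)⁻¹ with hr
  have hrv₀ : r ⬝ᵥ v₀ = 1 := by
    simp [hr, inv_mul_cancel₀ hj₀]
  -- the projection P w = w - (r ⬝ᵥ w) • v₀
  set P : (κ → ℂ) →ₗ[ℂ] (κ → ℂ) :=
    LinearMap.id - (Matrix.vecMulVec v₀ r).mulVecLin with hP
  have hPapply : ∀ w, P w = w - (r ⬝ᵥ w) • v₀ := by
    intro w
    simp only [hP, LinearMap.sub_apply, LinearMap.id_apply, Matrix.mulVecLin_apply]
    congr 1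
    ext i
    simp [Matrix.vecMulVec_apply, Matrix.mulVec, dotProduct, Finset.mul_sum, mul_comm, mul_left_comm]
  have hkerP : LinearMap.ker (M a₀).mulVecLin ≤ LinearMap.ker P := by
    intro w hw
    rw [LinearMap.mem_ker, Matrix.mulVecLin_apply] at hw
    obtain ⟨c, rfl⟩ := hline w hw
    rw [LinearMap.mem_ker, hPapply]
    simp [dotProduct_smul, hrv₀]
  obtain ⟨g, hg⟩ := exists_comp_eq_of_ker_le (M a₀).mulVecLin P hkerP
  set G : Matrix κ ι ℂ := LinearMap.toMatrix' g with hG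
  have hGM : ∀ a w, (G * M a).mulVec w = g ((M a).mulVec w) := by
    intro a w
    rw [← Matrix.mulVec_mulVec, hG, LinearMap.toMatrix'_mulVec]
  set B : E → Matrix κ κ ℂ := fun a => G * M a + Matrix.vecMulVec v₀ r with hB
  have hBapply : ∀ a w, (B a).mulVec w = g ((M a).mulVec w) + (r ⬝ᵥ w) • v₀ := by
    intro a w
    simp only [hB, Matrix.add_mulVec, hGM]
    congr 1
    ext i
    simp [Matrix.vecMulVec_apply, Matrix.mulVec, dotProduct, Finset.mul_sum, mul_comm, mul_left_comm]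
  have hB₀ : B a₀ = 1 := by
    apply Matrix.toLin'.injective
    refine LinearMap.ext fun w => ?_
    rw [Matrix.toLin'_apply, hBapply, Matrix.toLin'_one, LinearMap.id_apply]
    have := congrArg (fun φ => φ w) hg
    simp only [LinearMap.comp_apply, Matrix.mulVecLin_apply] at this
    rw [this, hPapply]
    abel
  have hBan : ∀ a, (∀ i j, AnalyticAt ℂ (fun a => M a i j) a) →
      ∀ i j, AnalyticAt ℂ (fun a => B a i j) a := by
    intro a ha i j
    have : (fun a => B a i j) = (∑ k, fun a => G i k * M a k j) + fun _ => v₀ i * r j := by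
      funext a
      simp [hB, Matrix.mul_apply, Matrix.vecMulVec_apply, Finset.sum_apply]
    rw [this]
    refine AnalyticAt.add ?_ analyticAt_const
    exact Finset.analyticAt_sum _ fun k _ => analyticAt_const.mul (ha k j)
  refine ⟨fun a => (B a).adjugate.mulVec v₀, ?_, ?_, ?_⟩
  · intro a ha
    exact analyticAt_adjugate_mulVec B a (hBan a ha) v₀
  · simp [hB₀]
  · have hdet : ∀ᶠ a in 𝓝 a₀, (B a).det ≠ 0 := by
      have hc : ContinuousAt (fun a => (B a).det) a₀ :=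
        (analyticAt_det B a₀ (hBan a₀ hM)).continuousAt
      apply hc.eventually_ne
      simp [hB₀]
    filter_upwards [hdet, hker] with a hda hka
    obtain ⟨w, hw0, hwM⟩ := hka
    -- key: for any kernel vector w', det • w' = (r ⬝ᵥ w') • H a
    have key : ∀ w', (M a).mulVec w' = 0 →
        (B a).det • w' = (r ⬝ᵥ w') • (B a).adjugate.mulVec v₀ := by
      intro w' hw'
      have h1 : (B a).mulVec w' = (r ⬝ᵥ w') • v₀ := by
        rw [hBapply, hw', map_zero, zero_add]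
      have h2 : (B a).adjugate.mulVec ((B a).mulVec w') = (B a).det • w' := by
        rw [Matrix.mulVec_mulVec, Matrix.adjugate_mul, Matrix.smul_mulVec, Matrix.one_mulVec]
      rw [← h2, h1, Matrix.mulVec_smul]
    have hrw : r ⬝ᵥ w ≠ 0 := by
      intro h0
      have := key w hwM
      rw [h0, zero_smul] at this
      rcases smul_eq_zero.mp this with h | h
      · exact hda h
      · exact hw0 h
    have hHw : (B a).adjugate.mulVec v₀ = ((r ⬝ᵥ w)⁻¹ * (B a).det) • w := by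
      have := key w hwM
      rw [mul_smul, this, smul_smul, inv_mul_cancel₀ hrw, one_smul]
    refine ⟨?_, ?_, ?_⟩
    · rw [hHw]
      exact smul_ne_zero (mul_ne_zero (inv_ne_zero hrw) hda) hw0
    · rw [hHw, Matrix.mulVec_smul, hwM, smul_zero]
    · intro w' hw'
      refine ⟨(B a).det⁻¹ * (r ⬝ᵥ w'), ?_⟩
      rw [mul_smul, ← key w' hw', smul_smul, inv_mul_cancel₀ hda, one_smul]

/-- (K3a) a "separated" family `∑ k, c a k * W k x` is jointly analytic. -/
theorem analyticAt_sepFam {E : Type*} [NormedAddCommGroup E] [NormedSpace ℂ E]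
    {κ : Type*} [Fintype κ] (c : E → κ → ℂ) (W : κ → ℂ → ℂ) (x : ℂ) (a : E)
    (hc : AnalyticAt ℂ c a) (hW : ∀ k, AnalyticAt ℂ (W k) x) :
    AnalyticAt ℂ (fun p : ℂ × E => ∑ k, c p.2 k * W k p.1) (x, a) := by
  have hc' : ∀ k, AnalyticAt ℂ (fun a => c a k) a := by
    have hc2 : AnalyticAt ℂ (fun a k => c a k) a := hc
    exact analyticAt_pi_iff.mp hc2
  have : (fun p : ℂ × E => ∑ k, c p.2 k * W k p.1) =
      ∑ k, fun p : ℂ × E => c p.2 k * W k p.1 := by
    funext p; simp [Finset.sum_apply]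
  rw [this]
  refine Finset.analyticAt_sum _ fun k _ => ?_
  have h1 : AnalyticAt ℂ (fun p : ℂ × E => c p.2 k) (x, a) :=
    AnalyticAt.comp (g := fun a => c a k) (f := fun p : ℂ × E => p.2) (hc' k) analyticAt_snd
  have h2 : AnalyticAt ℂ (fun p : ℂ × E => W k p.1) (x, a) :=
    AnalyticAt.comp (g := W k) (f := fun p : ℂ × E => p.1) (hW k) analyticAt_fst
  exact h1.mul h2

theorem deriv_sepFam {κ : Type*} [Fintype κ] (cv : κ → ℂ) (W : κ → ℂ → ℂ) (x : ℂ)
    (hW : ∀ k, DifferentiableAt ℂ (W k) x) :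
    deriv (fun x => ∑ k, cv k * W k x) x = ∑ k, cv k * deriv (W k) x := by
  have : HasDerivAt (fun x => ∑ k, cv k * W k x) (∑ k, cv k * deriv (W k) x) x :=
    HasDerivAt.fun_sum fun k _ => (hW k).hasDerivAt.const_mul (cv k)
  exact this.deriv

/-- (K3b) Moving zero of a separated family `G(x,a) = ∑ k, c a k * W k x`. -/
theorem exists_moving_zero {E : Type*} [NormedAddCommGroup E] [NormedSpace ℂ E]
    [CompleteSpace E] {κ : Type*} [Fintype κ] (c : E → κ → ℂ) (W : κ → ℂ → ℂ) (x₀ : ℂ) (a₀ : E)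
    (hc : AnalyticAt ℂ c a₀) (hW : ∀ k, AnalyticAt ℂ (W k) x₀)
    (h0 : ∑ k, c a₀ k * W k x₀ = 0) (hd : ∑ k, c a₀ k * deriv (W k) x₀ ≠ 0)
    (ε₀ : ℝ) (hε₀ : 0 < ε₀) :
    ∃ ε, 0 < ε ∧ ε ≤ ε₀ ∧ ∃ δ, 0 < δ ∧ δ ≤ ε ∧ ∃ γ : E → ℂ,
      (∀ x ∈ ball x₀ ε, ∀ k, AnalyticAt ℂ (W k) x) ∧ (∀ a ∈ ball a₀ ε, AnalyticAt ℂ c a) ∧
      (∀ x ∈ ball x₀ ε, ∀ a ∈ ball a₀ ε, ∑ k, c a k * deriv (W k) x ≠ 0) ∧
      (∀ a ∈ ball a₀ δ, AnalyticAt ℂ γ a) ∧ γ a₀ = x₀ ∧
      ∀ a ∈ ball a₀ δ, γ a ∈ ball x₀ ε ∧ ∑ k, c a k * W k (γ a) = 0 ∧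
        (∀ x ∈ ball x₀ ε, ∑ k, c a k * W k x = 0 → x = γ a) ∧
        ∀ v : E, fderiv ℂ γ a v * (∑ k, c a k * deriv (W k) (γ a)) +
          ∑ k, fderiv ℂ c a v k * W k (γ a) = 0 := by
  classical
  -- radii of analyticity
  have hWev : ∀ᶠ x in 𝓝 x₀, ∀ k, AnalyticAt ℂ (W k) x :=
    eventually_all.mpr fun k => (hW k).eventually_analyticAt
  obtain ⟨ε₁, hε₁, hWball⟩ := Metric.eventually_nhds_iff.mp hWev
  obtain ⟨ε₂, hε₂, hcball⟩ := Metric.eventually_nhds_iff.mp hc.eventually_analyticAt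
  set F : ℂ × E → ℂ := fun p => ∑ k, c p.2 k * W k p.1 with hF
  have hFan : AnalyticAt ℂ F (x₀, a₀) := analyticAt_sepFam c W x₀ a₀ hc hW
  have hF₀ : F (x₀, a₀) = 0 := h0
  have hFd : deriv (fun x => F (x, a₀)) x₀ ≠ 0 := by
    have : (fun x => F (x, a₀)) = fun x => ∑ k, c a₀ k * W k x := rfl
    rw [this, deriv_sepFam _ W x₀ fun k => (hW k).differentiableAt]
    exact hd
  obtain ⟨ε, hε, hεle, δ, hδ, hδle, γ, hbi, hγan, hγ₀, hγ⟩ :=
    exists_analytic_implicit F x₀ a₀ hFan hF₀ hFd (min ε₀ (min ε₁ ε₂))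
      (lt_min hε₀ (lt_min hε₁ hε₂))
  have hεε₀ : ε ≤ ε₀ := hεle.trans (min_le_left _ _)
  have hεε₁ : ε ≤ ε₁ := hεle.trans ((min_le_right _ _).trans (min_le_left _ _))
  have hεε₂ : ε ≤ ε₂ := hεle.trans ((min_le_right _ _).trans (min_le_right _ _))
  have hWan : ∀ x ∈ ball x₀ ε, ∀ k, AnalyticAt ℂ (W k) x := fun x hx =>
    hWball (lt_of_lt_of_le (mem_ball.mp hx) hεε₁)
  have hcan : ∀ a ∈ ball a₀ ε, AnalyticAt ℂ c a := fun a ha =>
    hcball (lt_of_lt_of_le (mem_ball.mp ha) hεε₂)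
  refine ⟨ε, hε, hεε₀, δ, hδ, hδle, γ, hWan, hcan, ?_, hγan, hγ₀, ?_⟩
  · intro x hx a ha
    have := (hbi x hx a ha).2
    have h2 : (fun x => F (x, a)) = fun x => ∑ k, c a k * W k x := rfl
    rw [h2, deriv_sepFam _ W x fun k => (hWan x hx k).differentiableAt] at this
    exact this
  · intro a ha
    obtain ⟨h1, h2, h3⟩ := hγ a ha
    refine ⟨h1, h2, h3, ?_⟩
    intro v
    have haε : a ∈ ball a₀ ε := mem_ball.mpr (lt_of_lt_of_le (mem_ball.mp ha) hδle)
    have hγa : HasFDerivAt γ (fderiv ℂ γ a) a := (hγan a ha).differentiableAt.hasFDerivAt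
    have hca : HasFDerivAt c (fderiv ℂ c a) a := (hcan a haε).differentiableAt.hasFDerivAt
    have hk1 : ∀ k, HasFDerivAt (fun a' => c a' k)
        ((ContinuousLinearMap.proj (R := ℂ) (φ := fun _ : κ => ℂ) k).comp (fderiv ℂ c a)) a :=
      fun k => (ContinuousLinearMap.proj (R := ℂ) (φ := fun _ : κ => ℂ) k).hasFDerivAt.comp a hca
    have hk2 : ∀ k, HasFDerivAt (fun a' => W k (γ a'))
        (deriv (W k) (γ a) • fderiv ℂ γ a) a :=
      fun k => (hWan (γ a) h1 k).differentiableAt.hasDerivAt.comp_hasFDerivAt a hγa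
    have hsum := HasFDerivAt.fun_sum (u := Finset.univ) fun k _ => (hk1 k).mul (hk2 k)
    have hev : (fun a' => ∑ k, c a' k * W k (γ a')) =ᶠ[𝓝 a] fun _ => (0 : ℂ) := by
      filter_upwards [isOpen_ball.mem_nhds ha] with a' ha'
      exact (hγ a' ha').2.1
    have hzero : HasFDerivAt (fun a' => ∑ k, c a' k * W k (γ a')) (0 : E →L[ℂ] ℂ) a :=
      (hasFDerivAt_const (0 : ℂ) a).congr_of_eventuallyEq hev
    have huniq := congrArg (fun L : E →L[ℂ] ℂ => L v) (hsum.unique hzero)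
    simp only [sum_apply, add_apply, smul_apply, ContinuousLinearMap.comp_apply,
      ContinuousLinearMap.proj_apply, zero_apply, smul_eq_mul] at huniq
    rw [Finset.mul_sum, ← Finset.sum_add_distrib]
    rw [← huniq]
    refine Finset.sum_congr rfl fun k _ => ?_
    ring

/-- (K3c) Cancellation of the pole of a logarithmic derivative at a moving simple zero. -/
theorem logDeriv_pole_cancel (A B : ℂ → ℂ) (a α : ℂ) (hA : AnalyticAt ℂ A a)
    (hB : AnalyticAt ℂ B a) (hA0 : A a = 0) (hA' : deriv A a ≠ 0)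
    (hB0 : B a + α * deriv A a = 0) :
    ∃ R : ℂ → ℂ, AnalyticAt ℂ R a ∧ ∀ᶠ x in 𝓝[≠] a, B x / A x + α / (x - a) = R x := by
  obtain ⟨pA, hpA⟩ := hA
  have hA₁ : AnalyticAt ℂ (dslope A a) a := ⟨_, hpA.has_fpower_series_dslope_fslope⟩
  have hA₁a : dslope A a a = deriv A a := dslope_same A a
  set C : ℂ → ℂ := fun x => B x + α * dslope A a x with hC
  have hCan : AnalyticAt ℂ C a := hB.add (analyticAt_const.mul hA₁)
  have hCa : C a = 0 := by simp [hC, hB0]
  obtain ⟨pC, hpC⟩ := hCan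
  have hC₁ : AnalyticAt ℂ (dslope C a) a := ⟨_, hpC.has_fpower_series_dslope_fslope⟩
  refine ⟨fun x => dslope C a x / dslope A a x, hC₁.div hA₁ (by rw [hA₁a]; exact hA'), ?_⟩
  have hne : ∀ᶠ x in 𝓝[≠] a, dslope A a x ≠ 0 := by
    have : ∀ᶠ x in 𝓝 a, dslope A a x ≠ 0 :=
      hA₁.continuousAt.eventually_ne (by rw [hA₁a]; exact hA')
    exact this.filter_mono nhdsWithin_le_nhds
  filter_upwards [hne, self_mem_nhdsWithin] with x hx hxa
  have hxa' : x ≠ a := hxa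
  have hxa0 : x - a ≠ 0 := sub_ne_zero.mpr hxa'
  have e1 : dslope A a x = A x / (x - a) := by
    rw [dslope_of_ne _ hxa', slope_def_field, hA0, sub_zero]
  have e2 : dslope C a x = C x / (x - a) := by
    rw [dslope_of_ne _ hxa', slope_def_field, hCa, sub_zero]
  have hAx : A x ≠ 0 := by
    intro h
    rw [e1, h, zero_div] at hx
    exact hx rfl
  rw [e2, hC]
  simp only
  rw [e1]
  field_simp

/-- (K3b') One-parameter form of `exists_moving_zero`, with the velocity identity written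
with `deriv`. -/
theorem exists_moving_zero_deriv {κ : Type*} [Fintype κ] (c : ℂ → κ → ℂ) (W : κ → ℂ → ℂ)
    (x₀ t₀ : ℂ) (hc : AnalyticAt ℂ c t₀) (hW : ∀ k, AnalyticAt ℂ (W k) x₀)
    (h0 : ∑ k, c t₀ k * W k x₀ = 0) (hd : ∑ k, c t₀ k * deriv (W k) x₀ ≠ 0)
    (ε₀ : ℝ) (hε₀ : 0 < ε₀) :
    ∃ ε, 0 < ε ∧ ε ≤ ε₀ ∧ ∃ δ, 0 < δ ∧ δ ≤ ε ∧ ∃ γ : ℂ → ℂ,
      (∀ x ∈ ball x₀ ε, ∀ k, AnalyticAt ℂ (W k) x) ∧ (∀ t ∈ ball t₀ ε, AnalyticAt ℂ c t) ∧
      (∀ x ∈ ball x₀ ε, ∀ t ∈ ball t₀ ε, ∑ k, c t k * deriv (W k) x ≠ 0) ∧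
      (∀ t ∈ ball t₀ δ, AnalyticAt ℂ γ t) ∧ γ t₀ = x₀ ∧
      ∀ t ∈ ball t₀ δ, γ t ∈ ball x₀ ε ∧ ∑ k, c t k * W k (γ t) = 0 ∧
        (∀ x ∈ ball x₀ ε, ∑ k, c t k * W k x = 0 → x = γ t) ∧
        deriv γ t * (∑ k, c t k * deriv (W k) (γ t)) + ∑ k, deriv c t k * W k (γ t) = 0 := by
  obtain ⟨ε, hε, hεle, δ, hδ, hδle, γ, h1, h2, h3, h4, h5, h6⟩ :=
    exists_moving_zero c W x₀ t₀ hc hW h0 hd ε₀ hε₀
  refine ⟨ε, hε, hεle, δ, hδ, hδle, γ, h1, h2, h3, h4, h5, fun t ht => ?_⟩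
  obtain ⟨g1, g2, g3, g4⟩ := h6 t ht
  exact ⟨g1, g2, g3, g4 1⟩

/-- (K7) the derivative of a curve that stays in a subspace stays in the subspace. -/
theorem deriv_mem_of_eventually_mem {V : Type*} [NormedAddCommGroup V] [NormedSpace ℂ V]
    [FiniteDimensional ℂ V] (S : Submodule ℂ V) (c : ℂ → V) (t₀ : ℂ)
    (hc : DifferentiableAt ℂ c t₀) (hS : ∀ᶠ t in 𝓝 t₀, c t ∈ S) : deriv c t₀ ∈ S := by
  have hcl : IsClosed (S : Set V) := S.closed_of_finiteDimensional
  have ht := hasDerivAt_iff_tendsto_slope.mp hc.hasDerivAt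
  have h0 : c t₀ ∈ S := hS.self_of_nhds
  refine hcl.mem_of_tendsto ht ?_
  have : ∀ᶠ t in 𝓝[≠] t₀, c t ∈ S := hS.filter_mono nhdsWithin_le_nhds
  filter_upwards [this] with t htS
  rw [slope_def_module]
  exact S.smul_mem _ (S.sub_mem htS h0)

/-- (K7') Fréchet version. -/
theorem fderiv_mem_of_eventually_mem {E V : Type*} [NormedAddCommGroup E] [NormedSpace ℂ E]
    [NormedAddCommGroup V] [NormedSpace ℂ V]
    [FiniteDimensional ℂ V] (S : Submodule ℂ V) (c : E → V) (a : E)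
    (hc : DifferentiableAt ℂ c a) (hS : ∀ᶠ a' in 𝓝 a, c a' ∈ S) (v : E) :
    fderiv ℂ c a v ∈ S := by
  have hline : HasDerivAt (fun t : ℂ => a + t • v) v 0 := by
    simpa using ((hasDerivAt_id (0 : ℂ)).smul_const v).const_add a
  have hcomp : HasDerivAt (fun t : ℂ => c (a + t • v)) (fderiv ℂ c a v) 0 := by
    have h1 : HasFDerivAt c (fderiv ℂ c a) (a + (0 : ℂ) • v) := by
      simpa using hc.hasFDerivAt
    exact h1.comp_hasDerivAt (0 : ℂ) hline
  have hev : ∀ᶠ t in 𝓝 (0 : ℂ), c (a + t • v) ∈ S := by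
    have hcont : ContinuousAt (fun t : ℂ => a + t • v) 0 := hline.continuousAt
    have : ∀ᶠ a' in 𝓝 (a + (0 : ℂ) • v), c a' ∈ S := by simpa using hS
    exact hcont.eventually this
  have := deriv_mem_of_eventually_mem S (fun t : ℂ => c (a + t • v)) 0
    hcomp.differentiableAt hev
  rwa [hcomp.deriv] at this

/-- (K6) Analytic local inverse, packaged with explicit open neighbourhoods. -/
theorem exists_analytic_local_inverse {E E' : Type*} [NormedAddCommGroup E] [NormedSpace ℂ E]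
    [CompleteSpace E] [NormedAddCommGroup E'] [NormedSpace ℂ E'] [CompleteSpace E']
    (f : E → E') (x₀ : E) (hf : AnalyticAt ℂ f x₀) (f' : E ≃L[ℂ] E')
    (hf' : HasFDerivAt f (f' : E →L[ℂ] E') x₀) :
    ∃ U : Set E, IsOpen U ∧ x₀ ∈ U ∧ ∃ V : Set E', IsOpen V ∧ f x₀ ∈ V ∧ ∃ s : E' → E,
      MapsTo f U V ∧ MapsTo s V U ∧ (∀ x ∈ U, s (f x) = x) ∧ (∀ y ∈ V, f (s y) = y) ∧
      (∀ x ∈ U, AnalyticAt ℂ f x) ∧ (∀ y ∈ V, AnalyticAt ℂ s y) ∧ InjOn f U := by
  classical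
  have hfc : ContDiffAt ℂ ⊤ f x₀ := hf.contDiffAt
  have hn : (⊤ : WithTop ℕ∞) ≠ 0 := by simp
  set R : OpenPartialHomeomorph E E' := hfc.toOpenPartialHomeomorph f hf' hn with hR
  have hRcoe : ∀ p, R p = f p := fun p => rfl
  have hx₀R : x₀ ∈ R.source := hfc.mem_toOpenPartialHomeomorph_source hf' hn
  have hy₀R : f x₀ ∈ R.target := R.map_source hx₀R
  have hsan : AnalyticAt ℂ R.symm (f x₀) := (hfc.to_localInverse hf' hn).analyticAt
  have hsx₀ : R.symm (f x₀) = x₀ := R.left_inv hx₀R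
  -- open sets
  set V₁ : Set E' := R.target ∩ {y | AnalyticAt ℂ R.symm y} with hV₁
  have hV₁o : IsOpen V₁ := R.open_target.inter (isOpen_analyticAt ℂ R.symm)
  set U : Set E := (R.source ∩ R ⁻¹' V₁) ∩ {x | AnalyticAt ℂ f x} with hU
  have hUo : IsOpen U := (R.isOpen_inter_preimage hV₁o).inter (isOpen_analyticAt ℂ f)
  have hx₀U : x₀ ∈ U := ⟨⟨hx₀R, ⟨hy₀R, hsan⟩⟩, hf⟩
  have hUsrc : U ⊆ R.source := fun x hx => hx.1.1
  set V : Set E' := R '' U with hV
  have hVo : IsOpen V := R.isOpen_image_of_subset_source hUo hUsrc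
  refine ⟨U, hUo, hx₀U, V, hVo, ⟨x₀, hx₀U, rfl⟩, R.symm, ?_, ?_, ?_, ?_, ?_, ?_, ?_⟩
  · intro x hx
    exact ⟨x, hx, rfl⟩
  · rintro y ⟨x, hx, rfl⟩
    rw [R.left_inv (hUsrc hx)]; exact hx
  · intro x hx
    exact R.left_inv (hUsrc hx)
  · rintro y ⟨x, hx, rfl⟩
    rw [R.left_inv (hUsrc hx)]; rfl
  · intro x hx
    exact hx.2
  · rintro y ⟨x, hx, rfl⟩
    exact hx.1.2.2
  · intro x hx y hy hxy
    exact R.injOn (hUsrc hx) (hUsrc hy) hxy

/-- bivariate evaluation as a separated sum -/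
theorem evalEval_eq_sum (χ : ℂ[X][X]) (t y : ℂ) :
    χ.evalEval t y = ∑ i : Fin (χ.natDegree + 1), (χ.coeff i).eval t * y ^ (i : ℕ) := by
  have h := Polynomial.eval_eq_sum_range (p := χ) (C y)
  rw [Polynomial.evalEval, h, Polynomial.eval_finsetSum,
    ← Fin.sum_univ_eq_sum_range (fun i => eval t (χ.coeff i * C y ^ i))]
  refine Finset.sum_congr rfl fun i _ => ?_
  simp

/-- bivariate evaluation of the `Y`-derivative as a separated sum -/
theorem evalEval_derivative_eq_sum (χ : ℂ[X][X]) (t y : ℂ) :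
    (derivative χ).evalEval t y =
      ∑ i : Fin (χ.natDegree + 1), (χ.coeff i).eval t * deriv (fun y : ℂ => y ^ (i : ℕ)) y := by
  have h := Polynomial.derivative_eval χ (C y)
  rw [Polynomial.evalEval, h, Polynomial.sum_over_range, Polynomial.eval_finsetSum,
    ← Fin.sum_univ_eq_sum_range (fun i => eval t (χ.coeff i * (i : ℂ[X]) * C y ^ (i - 1)))]
  · refine Finset.sum_congr rfl fun i _ => ?_
    simp [mul_assoc]
  · intro n; simp

/-- (K1p) Holomorphic branch `y = β t` of a plane curve `χ(t, y) = 0` at a simple point. -/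
theorem exists_branch (χ : ℂ[X][X]) (a b : ℂ) (h0 : χ.evalEval a b = 0)
    (hd : (derivative χ).evalEval a b ≠ 0) (ε₀ : ℝ) (hε₀ : 0 < ε₀) :
    ∃ ε, 0 < ε ∧ ε ≤ ε₀ ∧ ∃ δ, 0 < δ ∧ δ ≤ ε ∧ ∃ β : ℂ → ℂ,
      (∀ y ∈ ball b ε, ∀ t ∈ ball a ε, (derivative χ).evalEval t y ≠ 0) ∧
      (∀ t ∈ ball a δ, AnalyticAt ℂ β t) ∧ β a = b ∧
      ∀ t ∈ ball a δ, β t ∈ ball b ε ∧ χ.evalEval t (β t) = 0 ∧
        ∀ y ∈ ball b ε, χ.evalEval t y = 0 → y = β t := by
  have hc : AnalyticAt ℂ (fun t : ℂ => fun i : Fin (χ.natDegree + 1) => (χ.coeff i).eval t) a := by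
    rw [analyticAt_pi_iff]
    intro i
    exact (Polynomial.differentiable (χ.coeff i)).analyticAt a
  have hW : ∀ i : Fin (χ.natDegree + 1), AnalyticAt ℂ (fun y : ℂ => y ^ (i : ℕ)) b :=
    fun i => analyticAt_id.pow _
  obtain ⟨ε, hε, hεle, δ, hδ, hδle, β, -, -, hne, hβan, hβ₀, hβ⟩ :=
    exists_moving_zero (fun t : ℂ => fun i : Fin (χ.natDegree + 1) => (χ.coeff i).eval t)
      (fun (i : Fin (χ.natDegree + 1)) (y : ℂ) => y ^ (i : ℕ)) b a hc hW
      (by rw [← evalEval_eq_sum]; exact h0)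
      (by rw [← evalEval_derivative_eq_sum]; exact hd) ε₀ hε₀
  refine ⟨ε, hε, hεle, δ, hδ, hδle, β, ?_, hβan, hβ₀, ?_⟩
  · intro y hy t ht
    rw [evalEval_derivative_eq_sum]
    exact hne y hy t ht
  · intro t ht
    obtain ⟨h1, h2, h3, -⟩ := hβ t ht
    refine ⟨h1, by rw [evalEval_eq_sum]; exact h2, ?_⟩
    intro y hy hy0
    exact h3 y hy (by rw [← evalEval_eq_sum]; exact hy0)

end Fermat.Agent.S27.helper8208
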