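import Fermat.Agent.S27.helper6247_Spec
import Fermat.Agent.S27.helper4586_Ev
import Fermat.Agent.S27.helper1949_CurveOfFinite
import Fermat.Agent.S27.helper1070_Approx
import Fermat.Agent.S27.helper8208_AnaKit

/-!
# S27: linear-system form of the local Abel theorem (helper1561, board row 1043)

Cramer-free proof of the moving lemma behind `helper6247.Stmt_GLS`, in the chart language of
`helper6247_Spec`.
-/

set_option autoImplicit false

open AlgebraicCurve IntermediateField
open scoped Topology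

namespace Fermat.Agent.S27.helper1561

open Fermat.Agent.S27.helper6247 Fermat.Agent.S27.helper4586

noncomputable section

/-! ## Divisor bookkeeping -/

section Div

variable {K F : Type*} [Field K] [Field F] [Algebra K F]

open Classical in
theorem sumDiv_apply {ι : Type*} [Fintype ι] (R : ι → Place K F) (v : Place K F) :
    sumDiv R v = ∑ i, (if R i = v then (1 : ℤ) else 0) := by
  unfold sumDiv pt
  rw [Finsupp.finsetSum_apply]
  refine Finset.sum_congr rfl fun i _ => ?_
  rw [Finsupp.single_apply]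

theorem sumDiv_nonneg {ι : Type*} [Fintype ι] (R : ι → Place K F) (v : Place K F) :
    0 ≤ sumDiv R v := by
  rw [sumDiv_apply]
  exact Finset.sum_nonneg fun i _ => by split_ifs <;> norm_num

theorem sumDiv_apply_of_injective {ι : Type*} [Fintype ι] (R : ι → Place K F)
    (hR : Function.Injective R) (i : ι) : sumDiv R (R i) = 1 := by
  classical
  rw [sumDiv_apply, Finset.sum_eq_single i]
  · simp
  · intro j _ hj
    rw [if_neg (fun h => hj (hR h))]
  · intro h
    exact absurd (Finset.mem_univ i) h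

theorem sumDiv_apply_of_ne {ι : Type*} [Fintype ι] (R : ι → Place K F) (v : Place K F)
    (h : ∀ i, R i ≠ v) : sumDiv R v = 0 := by
  rw [sumDiv_apply]
  exact Finset.sum_eq_zero fun i _ => if_neg (h i)

theorem degree_sumDiv (hdeg : ∀ v : Place K F, v.deg = 1) {ι : Type*} [Fintype ι]
    (R : ι → Place K F) : Divisor.degree (sumDiv R) = Fintype.card ι := by
  unfold sumDiv pt
  rw [map_sum]
  simp [Divisor.degree_single, hdeg]

theorem sumDiv_sum_elim {ι κ : Type*} [Fintype ι] [Fintype κ] (R : ι → Place K F)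
    (R' : κ → Place K F) : sumDiv (Sum.elim R R') = sumDiv R + sumDiv R' := by
  unfold sumDiv
  rw [Fintype.sum_sum_type]
  simp

/-- An effective divisor of degree zero is zero (all places of degree one). -/
theorem divisor_eq_zero_of_nonneg (hdeg : ∀ v : Place K F, v.deg = 1) (E : Divisor K F)
    (hE : ∀ v, 0 ≤ E v) (h0 : Divisor.degree E = 0) : E = 0 := by
  have hsum : Divisor.degree E = ∑ v ∈ E.support, E v := by
    unfold Divisor.degree
    rw [Finsupp.liftAddHom_apply, Finsupp.sum]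
    refine Finset.sum_congr rfl fun v _ => ?_
    simp [hdeg]
  rw [hsum] at h0
  have h1 := (Finset.sum_eq_zero_iff_of_nonneg (fun v _ => hE v)).mp h0
  ext v
  by_cases hv : v ∈ E.support
  · exact h1 v hv
  · simpa using hv

/-- **Exact divisor by the degree count.**  If `f ≠ 0` lies in `L(∑ R i)` and vanishes (after
the correction by `∑ R i`) at the pairwise distinct places `R' i`, then
`div f = ∑ R' i - ∑ R i`. -/
theorem ord_eq_of_effective [HasPrincipalDivisors K F] (hdeg : ∀ v : Place K F, v.deg = 1)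
    {ι : Type*} [Fintype ι] (R R' : ι → Place K F) (hR' : Function.Injective R')
    (f : F) (hf : f ≠ 0) (h1 : ∀ v : Place K F, 0 ≤ v.ord f + sumDiv R v)
    (h2 : ∀ i, 1 ≤ (R' i).ord f + sumDiv R (R' i)) :
    ∀ v : Place K F, v.ord f = sumDiv R' v - sumDiv R v := by
  obtain ⟨D, hD, hD0⟩ := HasPrincipalDivisors.exists_divisor (K := K) f hf
  set E : Divisor K F := D + sumDiv R - sumDiv R' with hEdef
  have hEv : ∀ v, E v = v.ord f + sumDiv R v - sumDiv R' v := by
    intro v
    rw [hEdef, Finsupp.sub_apply, Finsupp.add_apply, hD v]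
  have hE : ∀ v, 0 ≤ E v := by
    intro v
    rw [hEv]
    by_cases hv : ∃ i, R' i = v
    · obtain ⟨i, rfl⟩ := hv
      rw [sumDiv_apply_of_injective R' hR' i]
      linarith [h2 i]
    · rw [sumDiv_apply_of_ne R' v (fun i hi => hv ⟨i, hi⟩)]
      linarith [h1 v]
  have hdegE : Divisor.degree E = 0 := by
    rw [hEdef, map_sub, map_add, hD0, degree_sumDiv hdeg, degree_sumDiv hdeg]
    ring
  have hE0 := divisor_eq_zero_of_nonneg hdeg E hE hdegE
  intro v
  have := hEv v
  rw [hE0] at this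
  simp only [Finsupp.coe_zero, Pi.zero_apply] at this
  linarith

end Div

/-! ## The residue theorem "by definition" -/

section Residue

variable {K F : Type*} [Field K] [Field F] [Algebra K F]

open Classical in
theorem rsingle_apply (P v : Place K F) (f : F) :
    ((rsingle P f : ↥(repartitions K F)) : Place K F → F) v = if v = P then f else 0 := by
  unfold rsingle
  simp only

/-- **Residue theorem by definition.**  If `ξ : F` is regular away from the pairwise distinct
places `R i`, with at most simple poles there, and `t i` is a uniformizer at `R i`, then the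
principal parts `(t i ξ)(R i) / t i` add up to zero in `H¹(0)`. -/
theorem residue_sum_eq_zero (hval : ∀ P : Place K F, HasValues P)
    {ι : Type*} [Fintype ι] (R : ι → Place K F) (hR : Function.Injective R)
    (t : ι → F) (ht : ∀ i, (R i).ord (t i) = 1) (ξ : F)
    (h1 : ∀ v : Place K F, (∀ i, R i ≠ v) → 0 ≤ v.ord ξ)
    (h2 : ∀ i, -1 ≤ (R i).ord ξ) :
    ∑ i, ev (R i) (t i * ξ) • pp (R i) (t i)⁻¹ = 0 := by
  classical
  set ρ : ι → K := fun i => ev (R i) (t i * ξ) with hρ
  set β : ↥(repartitions K F) := ∑ i, ρ i • rsingle (R i) (t i)⁻¹ with hβ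
  set α : ↥(repartitions K F) := algebraMap F ↥(repartitions K F) ξ - β with hα
  have hβv : ∀ v : Place K F, (β : Place K F → F) v
      = ∑ i, ρ i • (if v = R i then (t i)⁻¹ else 0) := by
    intro v
    rw [hβ]
    have hcoe : ((∑ i, ρ i • rsingle (R i) (t i)⁻¹ : ↥(repartitions K F)) : Place K F → F)
        = ∑ i, ρ i • ((rsingle (R i) (t i)⁻¹ : ↥(repartitions K F)) : Place K F → F) := by
      rw [AddSubmonoidClass.coe_finsetSum]
      rfl
    rw [hcoe, Finset.sum_apply]
    refine Finset.sum_congr rfl fun i _ => ?_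
    rw [Pi.smul_apply, rsingle_apply]
  have hαv : ∀ v : Place K F, (α : Place K F → F) v
      = ξ - ∑ i, ρ i • (if v = R i then (t i)⁻¹ else 0) := by
    intro v
    rw [hα, ← hβv v]
    rfl
  have ht0 : ∀ i, t i ≠ 0 := by
    intro i h0
    have := ht i
    rw [h0, Place.ord_zero] at this
    exact zero_ne_one this
  have hαmem : α ∈ repartitionsOf (0 : Divisor K F) := by
    rw [mem_repartitionsOf_iff]
    intro v
    rw [hαv v]
    simp only [Finsupp.coe_zero, Pi.zero_apply, neg_zero]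
    by_cases hv : ∃ i, R i = v
    · obtain ⟨i, rfl⟩ := hv
      have hsum : ∑ j, ρ j • (if R i = R j then (t j)⁻¹ else 0) = ρ i • (t i)⁻¹ := by
        rw [Finset.sum_eq_single i]
        · simp
        · intro j _ hj
          rw [if_neg (fun h => hj (hR h).symm), smul_zero]
        · intro h
          exact absurd (Finset.mem_univ i) h
      rw [hsum]
      -- `ξ - ρ/t = (t ξ - ρ)/t`
      have hreg : 0 ≤ (R i).ord (t i * ξ) := by
        rcases eq_or_ne ξ 0 with rfl | hξ
        · simp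
        · rw [(R i).ord_mul (ht0 i) hξ, ht i]
          linarith [h2 i]
      have hv := eq_or_ord_sub_ev_pos (hval (R i)) hreg
      have hrw : ξ - ρ i • (t i)⁻¹ = (t i)⁻¹ * (t i * ξ - algebraMap K F (ρ i)) := by
        rw [Algebra.smul_def]
        field_simp [ht0 i]
      rw [hrw]
      rcases hv with hv | hv
      · left
        rw [hρ]
        simp only
        rw [← hv, sub_self, mul_zero]
      · right
        have hne : t i * ξ - algebraMap K F (ρ i) ≠ 0 := by
          intro h0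
          rw [hρ] at h0
          simp only at h0
          rw [h0, Place.ord_zero] at hv
          exact lt_irrefl _ hv
        rw [(R i).ord_mul (inv_ne_zero (ht0 i)) hne, Place.ord_inv, ht i]
        have : 0 < (R i).ord (t i * ξ - algebraMap K F (ρ i)) := hv
        linarith
    · have hsum : ∑ j, ρ j • (if v = R j then (t j)⁻¹ else 0) = 0 := by
        refine Finset.sum_eq_zero fun j _ => ?_
        rw [if_neg (fun h => hv ⟨j, h.symm⟩), smul_zero]
      rw [hsum, sub_zero]
      right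
      exact h1 v fun i hi => hv ⟨i, hi⟩
  have hprin : algebraMap F ↥(repartitions K F) ξ ∈ principalRepartitions K F := by
    rw [mem_principalRepartitions_iff]
    exact ⟨ξ, rfl⟩
  have hβmem : β ∈ repartitionsOf (0 : Divisor K F) ⊔ principalRepartitions K F := by
    have : β = algebraMap F ↥(repartitions K F) ξ - α := by rw [hα]; abel
    rw [this]
    exact Submodule.sub_mem _ (Submodule.mem_sup_right hprin) (Submodule.mem_sup_left hαmem)
  have hq : (Submodule.Quotient.mk β : H1 (0 : Divisor K F)) = 0 :=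
    (Submodule.Quotient.mk_eq_zero _).mpr hβmem
  rw [hβ] at hq
  rw [← hq]
  unfold pp
  rw [← Submodule.mkQ_apply, map_sum]
  refine Finset.sum_congr rfl fun i _ => ?_
  rw [map_smul, Submodule.mkQ_apply]

end Residue

/-! ## Charts -/

section Chart

variable {F : Type*} [Field F] [Algebra ℂ F]

theorem chart_isVal {u : F} {Q : ℂ → Place ℂ F} {r : ℝ} (h : IsChart u Q r) {s : ℂ}
    (hs : s ∈ Metric.ball (0 : ℂ) r) : IsVal (Q s) u s :=
  isVal_of_ord_pos (by rw [h.unif s hs]; norm_num)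

theorem chart_ord_centre {u : F} {Q : ℂ → Place ℂ F} {r : ℝ} (h : IsChart u Q r) :
    (Q 0).ord u = 1 := by
  have := h.unif 0 (Metric.mem_ball_self h.pos)
  simpa using this

theorem chart_ne_zero {u : F} {Q : ℂ → Place ℂ F} {r : ℝ} (h : IsChart u Q r) : u ≠ 0 := by
  intro h0
  have := chart_ord_centre h
  rw [h0, Place.ord_zero] at this
  exact zero_ne_one this

theorem chart_ord_of_ne {u : F} {Q : ℂ → Place ℂ F} {r : ℝ} (h : IsChart u Q r) {s : ℂ}
    (hs : s ∈ Metric.ball (0 : ℂ) r) (hs0 : s ≠ 0) : (Q s).ord u = 0 :=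
  (chart_isVal h hs).ord_eq_zero hs0

theorem chart_sub_ne_zero {u : F} {Q : ℂ → Place ℂ F} {r : ℝ} (h : IsChart u Q r) {s : ℂ}
    (hs : s ∈ Metric.ball (0 : ℂ) r) : u - algebraMap ℂ F s ≠ 0 := by
  intro h0
  have := h.unif s hs
  rw [h0, Place.ord_zero] at this
  exact zero_ne_one this

theorem chart_isVal_sub {u : F} {Q : ℂ → Place ℂ F} {r : ℝ} (h : IsChart u Q r) {s : ℂ}
    (hs : s ∈ Metric.ball (0 : ℂ) r) (s₀ : ℂ) :
    IsVal (Q s) (u - algebraMap ℂ F s₀) (s - s₀) :=
  (chart_isVal h hs).sub (isVal_algebraMap _ _)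

/-- The derivative along a chart of a function vanishing at `Q s₀` is the value of the
quotient by the uniformizer `u - s₀`. -/
theorem chart_hasDerivAt (hval : ∀ P : Place ℂ F, HasValues P) {u : F} {Q : ℂ → Place ℂ F}
    {r : ℝ} (h : IsChart u Q r) {s₀ : ℂ} (hs₀ : s₀ ∈ Metric.ball (0 : ℂ) r) (w : F)
    (hw : IsVal (Q s₀) w 0) :
    ∃ c : ℂ, IsVal (Q s₀) (w / (u - algebraMap ℂ F s₀)) c ∧
      HasDerivAt (fun s => ev (Q s) w) c s₀ := by
  set π : F := u - algebraMap ℂ F s₀ with hπdef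
  have hπ : (Q s₀).ord π = 1 := h.unif s₀ hs₀
  have hπ0 : π ≠ 0 := chart_sub_ne_zero h hs₀
  set q : F := w / π with hqdef
  have hq : 0 ≤ (Q s₀).ord q := by
    rcases (isVal_zero_iff _ _).mp hw with h0 | hpos
    · rw [hqdef, h0, zero_div, Place.ord_zero]
    · have hw0 : w ≠ 0 := by
        intro h0
        rw [h0, Place.ord_zero] at hpos
        exact lt_irrefl _ hpos
      rw [hqdef, div_eq_mul_inv, (Q s₀).ord_mul hw0 (inv_ne_zero hπ0), Place.ord_inv, hπ]
      linarith
  obtain ⟨hev, han⟩ := h.analytic q s₀ hs₀ hq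
  refine ⟨ev (Q s₀) q, isVal_ev (hval _) hq, ?_⟩
  have hball : ∀ᶠ s in 𝓝 s₀, s ∈ Metric.ball (0 : ℂ) r := Metric.isOpen_ball.mem_nhds hs₀
  have heq : (fun s => ev (Q s) w) =ᶠ[𝓝 s₀] fun s => (s - s₀) * ev (Q s) q := by
    filter_upwards [hev, hball] with s hs1 hs2
    have h1 : IsVal (Q s) π (s - s₀) := chart_isVal_sub h hs2 s₀
    have h2 : IsVal (Q s) q (ev (Q s) q) := isVal_ev (hval _) hs1
    have h3 : w = π * q := by rw [hqdef]; field_simp
    show ev (Q s) w = (s - s₀) * ev (Q s) q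
    rw [h3]
    exact (h1.mul h2).ev_eq
  have hd : HasDerivAt (fun s => (s - s₀) * ev (Q s) q)
      (1 * ev (Q s₀) q + (s₀ - s₀) * deriv (fun s => ev (Q s) q) s₀) s₀ :=
    ((hasDerivAt_id s₀).sub_const s₀).mul han.differentiableAt.hasDerivAt
  rw [sub_self, zero_mul, add_zero, one_mul] at hd
  exact hd.congr_of_eventuallyEq heq

/-- Charts with distinct centres are disjoint near the centres. -/
theorem chart_sep (hval : ∀ P : Place ℂ F, HasValues P) {u u' : F} {Q Q' : ℂ → Place ℂ F}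
    {r r' : ℝ} (h : IsChart u Q r) (h' : IsChart u' Q' r') (hne : Q 0 ≠ Q' 0) :
    ∃ ε > 0, ∀ s s' : ℂ, ‖s‖ < ε → ‖s'‖ < ε → Q s ≠ Q' s' := by
  classical
  obtain ⟨g, hg0, hg⟩ := Fermat.Agent.S27.helper1070.exists_ord_eq
    ({Q 0, Q' 0} : Finset (Place ℂ F)) (fun v => if v = Q 0 then 1 else 0)
  have hgQ : (Q 0).ord g = 1 := by
    rw [hg (Q 0) (by simp)]
    simp
  have hgQ' : (Q' 0).ord g = 0 := by
    rw [hg (Q' 0) (by simp)]
    simp [hne.symm]
  obtain ⟨-, hanA⟩ := h.analytic g 0 (Metric.mem_ball_self h.pos) (by rw [hgQ]; norm_num)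
  obtain ⟨-, hanA'⟩ := h'.analytic g 0 (Metric.mem_ball_self h'.pos) (by rw [hgQ'])
  have hA0 : ev (Q 0) g = 0 := ev_eq_zero_of_ord_pos (by rw [hgQ]; norm_num)
  have hA'0 : ev (Q' 0) g ≠ 0 := (ev_ne_zero_iff (hval _) hgQ'.ge).mpr ⟨hg0, hgQ'⟩
  set η : ℝ := ‖ev (Q' 0) g‖ with hη
  have hηpos : 0 < η := norm_pos_iff.mpr hA'0
  have e1 : ∀ᶠ s in 𝓝 (0 : ℂ), ‖ev (Q s) g‖ < η / 2 := by
    have hc : ContinuousAt (fun s => ‖ev (Q s) g‖) 0 := hanA.continuousAt.norm
    refine hc.eventually_lt continuousAt_const ?_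
    simp only [hA0, norm_zero]
    positivity
  have e2 : ∀ᶠ s in 𝓝 (0 : ℂ), η / 2 < ‖ev (Q' s) g‖ := by
    have hc : ContinuousAt (fun s => ‖ev (Q' s) g‖) 0 := hanA'.continuousAt.norm
    refine ContinuousAt.eventually_lt continuousAt_const hc ?_
    show η / 2 < η
    linarith
  obtain ⟨ε1, hε1, H1⟩ := Metric.eventually_nhds_iff.mp e1
  obtain ⟨ε2, hε2, H2⟩ := Metric.eventually_nhds_iff.mp e2
  refine ⟨min ε1 ε2, lt_min hε1 hε2, fun s s' hs hs' heq => ?_⟩
  have h1 := H1 (y := s) (by rw [dist_zero_right]; exact lt_of_lt_of_le hs (min_le_left _ _))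
  have h2 := H2 (y := s') (by rw [dist_zero_right]; exact lt_of_lt_of_le hs' (min_le_right _ _))
  rw [heq] at h1
  linarith

/-- The moving zero, along one chart, of the linear family `f_a = ∑ a k • ψ k`
(with `ψ k₀ = 1`, base point `a₀ = Pi.single k₀ 1`). -/
theorem chart_family {u : F} {Q : ℂ → Place ℂ F} {r : ℝ}
    (h : IsChart u Q r) {κ : Type} [Fintype κ] [DecidableEq κ] (ψ : κ → F)
    (hψ : ∀ k, 0 ≤ (Q 0).ord (u * ψ k)) (k₀ : κ) (hk₀ : ψ k₀ = 1) (ε₀ : ℝ) (hε₀ : 0 < ε₀) :
    ∃ ε, 0 < ε ∧ ε ≤ ε₀ ∧ ε ≤ r ∧ ∃ δ, 0 < δ ∧ ∃ γ : (κ → ℂ) → ℂ,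
      (∀ t ∈ Metric.ball (0 : ℂ) ε, ∀ k, 0 ≤ (Q t).ord (u * ψ k) ∧
          DifferentiableAt ℂ (fun t => ev (Q t) (u * ψ k)) t) ∧
      γ (Pi.single k₀ 1) = 0 ∧
      (∀ v : κ → ℂ, fderiv ℂ γ (Pi.single k₀ 1) v = - ∑ k, v k * ev (Q 0) (u * ψ k)) ∧
      ∀ a ∈ Metric.ball (Pi.single k₀ (1 : ℂ)) δ,
        AnalyticAt ℂ γ a ∧ γ a ∈ Metric.ball (0 : ℂ) ε ∧
        ∑ k, a k * ev (Q (γ a)) (u * ψ k) = 0 ∧
        (∀ t ∈ Metric.ball (0 : ℂ) ε, ∑ k, a k * ev (Q t) (u * ψ k) = 0 → t = γ a) ∧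
        ∑ k, a k * deriv (fun t => ev (Q t) (u * ψ k)) (γ a) ≠ 0 ∧
        ∀ v : κ → ℂ, fderiv ℂ γ a v * (∑ k, a k * deriv (fun t => ev (Q t) (u * ψ k)) (γ a))
          + ∑ k, v k * ev (Q (γ a)) (u * ψ k) = 0 := by
  set W : κ → ℂ → ℂ := fun k t => ev (Q t) (u * ψ k) with hWdef
  have h0r : (0 : ℂ) ∈ Metric.ball (0 : ℂ) r := Metric.mem_ball_self h.pos
  have hW : ∀ k, AnalyticAt ℂ (W k) 0 := fun k => (h.analytic (u * ψ k) 0 h0r (hψ k)).2
  have hreg : ∀ᶠ t in 𝓝 (0 : ℂ), ∀ k, 0 ≤ (Q t).ord (u * ψ k) :=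
    Filter.eventually_all.mpr fun k => (h.analytic (u * ψ k) 0 h0r (hψ k)).1
  obtain ⟨ε₁, hε₁, Hreg⟩ := Metric.eventually_nhds_iff.mp hreg
  have hWk₀ : ∀ t ∈ Metric.ball (0 : ℂ) r, W k₀ t = t := by
    intro t ht
    show ev (Q t) (u * ψ k₀) = t
    rw [hk₀, mul_one]
    exact (chart_isVal h ht).ev_eq
  have hderiv0 : deriv (W k₀) 0 = 1 := by
    have heq : W k₀ =ᶠ[𝓝 (0 : ℂ)] fun t => t := by
      filter_upwards [Metric.isOpen_ball.mem_nhds h0r] with t ht using hWk₀ t ht
    rw [heq.deriv_eq]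
    exact deriv_id 0
  have hsingle : ∀ g : κ → ℂ, ∑ k, (Pi.single k₀ (1 : ℂ) : κ → ℂ) k * g k = g k₀ := by
    intro g
    rw [Finset.sum_eq_single k₀]
    · simp
    · intro k _ hk
      rw [Pi.single_eq_of_ne hk, zero_mul]
    · intro hh
      exact absurd (Finset.mem_univ k₀) hh
  have h0 : ∑ k, (Pi.single k₀ (1 : ℂ) : κ → ℂ) k * W k 0 = 0 := by
    rw [hsingle fun k => W k 0]
    exact hWk₀ 0 h0r
  have hd : ∑ k, (Pi.single k₀ (1 : ℂ) : κ → ℂ) k * deriv (W k) 0 ≠ 0 := by
    rw [hsingle fun k => deriv (W k) 0, hderiv0]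
    exact one_ne_zero
  have hε₀' : 0 < min ε₀ (min ε₁ r) := lt_min hε₀ (lt_min hε₁ h.pos)
  obtain ⟨ε, hε, hεle, δ, hδ, hδε, γ, hWan, -, hnv, hγan, hγ0, hmain⟩ :=
    Fermat.Agent.S27.helper8208.exists_moving_zero (fun a : κ → ℂ => a) W 0
      (Pi.single k₀ (1 : ℂ)) analyticAt_id hW h0 hd _ hε₀'
  have hfd : ∀ (a v : κ → ℂ) (k : κ), fderiv ℂ (fun a : κ → ℂ => a) a v k = v k := by
    intro a v k
    rw [fderiv_fun_id]
    rfl
  have hmain0 := hmain _ (Metric.mem_ball_self hδ)
  refine ⟨ε, hε, hεle.trans (min_le_left _ _),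
    hεle.trans ((min_le_right _ _).trans (min_le_right _ _)), δ, hδ, γ, ?_, hγ0, ?_, ?_⟩
  · intro t ht k
    refine ⟨Hreg (y := t) ?_ k, (hWan t ht k).differentiableAt⟩
    rw [dist_zero_right]
    rw [Metric.mem_ball, dist_zero_right] at ht
    exact lt_of_lt_of_le ht (hεle.trans ((min_le_right _ _).trans (min_le_left _ _)))
  · intro v
    have := hmain0.2.2.2 v
    rw [hγ0, hsingle fun k => deriv (W k) 0, hderiv0, mul_one] at this
    simp only [hfd] at this
    rw [eq_neg_iff_add_eq_zero]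
    exact this
  · intro a ha
    obtain ⟨h1, h2, h3, h4⟩ := hmain a ha
    refine ⟨hγan a ha, h1, h2, h3, ?_, ?_⟩
    · exact hnv _ h1 a (Metric.ball_subset_ball hδε ha)
    · intro v
      have := h4 v
      simp only [hfd] at this
      exact this

end Chart

/-! ## The linear system along a family of charts -/

section Main

variable {F : Type} [Field F] [Algebra ℂ F]

theorem exists_pos_le_all {I : Type*} [Finite I] (f : I → ℝ) (hf : ∀ i, 0 < f i) :
    ∃ ε > 0, ∀ i, ε ≤ f i := by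
  have h : ∀ᶠ ε in 𝓝[>] (0 : ℝ), ∀ i, ε ≤ f i := by
    rw [Filter.eventually_all]
    intro i
    filter_upwards [Ioo_mem_nhdsGT (hf i)] with ε hε using hε.2.le
  obtain ⟨ε, hε, hpos⟩ := (h.and self_mem_nhdsWithin).exists
  exact ⟨ε, hpos, hε⟩

/-- Exact divisor of a function of `L(∑ Q p 0)` vanishing at the moved chart points. -/
theorem ls_divisor (hdeg : ∀ v : Place ℂ F, v.deg = 1) [HasPrincipalDivisors ℂ F]
    {P : Type} [Fintype P]
    (u : P → F) (Q : P → ℂ → Place ℂ F) (r : P → ℝ) (hch : ∀ p, IsChart (u p) (Q p) (r p))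
    (hinj : Function.Injective fun p => Q p 0)
    (f : F) (hf : f ≠ 0) (hfL : f ∈ riemannRochSpace (sumDiv fun p => Q p 0))
    (t : P → ℂ) (ht : ∀ p, t p ∈ Metric.ball (0 : ℂ) (r p))
    (hz : ∀ p, IsVal (Q p (t p)) (u p * f) 0)
    (hinj' : Function.Injective fun p => Q p (t p)) :
    ∀ v : Place ℂ F, v.ord f = sumDiv (fun p => Q p (t p)) v - sumDiv (fun p => Q p 0) v := by
  refine ord_eq_of_effective hdeg (fun p => Q p 0) (fun p => Q p (t p)) hinj' f hf ?_ ?_
  · intro v
    have := (mem_riemannRochSpace_iff.mp hfL v).resolve_left hf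
    linarith
  · intro p
    have hu0 : u p ≠ 0 := chart_ne_zero (hch p)
    have hpos : 0 < (Q p (t p)).ord (u p) + (Q p (t p)).ord f := by
      rcases (isVal_zero_iff _ _).mp (hz p) with h0 | h0
      · exact absurd h0 (mul_ne_zero hu0 hf)
      · rwa [(Q p (t p)).ord_mul hu0 hf] at h0
    show 1 ≤ (Q p (t p)).ord f + sumDiv (fun p => Q p 0) (Q p (t p))
    by_cases h0 : t p = 0
    · rw [h0] at hpos ⊢
      rw [chart_ord_centre (hch p)] at hpos
      have := sumDiv_apply_of_injective (fun p => Q p 0) hinj p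
      rw [this]
      linarith
    · rw [chart_ord_of_ne (hch p) (ht p) h0] at hpos
      have := sumDiv_nonneg (fun p => Q p 0) (Q p (t p))
      linarith

/-- The infinitesimal Abel relation at the moved chart points. -/
theorem ls_residue (hval : ∀ P : Place ℂ F, HasValues P)
    (e : H1 (0 : Divisor ℂ F) ≃ₗ[ℂ] (Fin (genusFF ℂ F) → ℂ))
    {P : Type} [Fintype P]
    (u : P → F) (Q : P → ℂ → Place ℂ F) (r : P → ℝ) (hch : ∀ p, IsChart (u p) (Q p) (r p))
    (f : F) (hf : f ≠ 0) (t : P → ℂ) (ht : ∀ p, t p ∈ Metric.ball (0 : ℂ) (r p))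
    (hz : ∀ p, IsVal (Q p (t p)) (u p * f) 0)
    (hinj' : Function.Injective fun p => Q p (t p))
    (hord : ∀ v : Place ℂ F,
      v.ord f = sumDiv (fun p => Q p (t p)) v - sumDiv (fun p => Q p 0) v)
    (φ : F) (hφL : φ ∈ riemannRochSpace (sumDiv fun p => Q p 0))
    (m c : P → ℂ) (hm : ∀ p, IsVal (Q p (t p)) (u p * φ) (m p))
    (hc : ∀ p, HasDerivAt (fun s => ev (Q p s) (u p * f)) (c p) (t p)) (hc0 : ∀ p, c p ≠ 0) :
    ∑ p, (m p / c p) • chartCoef e (u p) (Q p) (t p) = 0 := by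
  set ξ : F := φ / f with hξdef
  have hξ : ∀ v : Place ℂ F, -sumDiv (fun p => Q p (t p)) v ≤ v.ord ξ := by
    intro v
    rcases eq_or_ne φ 0 with h0 | h0
    · rw [hξdef, h0, zero_div, Place.ord_zero]
      have := sumDiv_nonneg (fun p => Q p (t p)) v
      linarith
    · rw [hξdef, div_eq_mul_inv, v.ord_mul h0 (inv_ne_zero hf), Place.ord_inv, hord v]
      have := (mem_riemannRochSpace_iff.mp hφL v).resolve_left h0
      linarith
  have hev : ∀ p, ev (Q p (t p)) ((u p - algebraMap ℂ F (t p)) * ξ) = m p / c p := by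
    intro p
    obtain ⟨c', hB, hder⟩ := chart_hasDerivAt hval (hch p) (ht p) (u p * f) (hz p)
    have hcc : c' = c p := hder.unique (hc p)
    rw [hcc] at hB
    have hπ0 : u p - algebraMap ℂ F (t p) ≠ 0 := chart_sub_ne_zero (hch p) (ht p)
    have hu0 : u p ≠ 0 := chart_ne_zero (hch p)
    have hrw : (u p - algebraMap ℂ F (t p)) * ξ
        = (u p * φ) / ((u p * f) / (u p - algebraMap ℂ F (t p))) := by
      rw [hξdef]
      field_simp
    rw [hrw]
    exact ((hm p).div hB (hc0 p)).ev_eq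
  have hres := residue_sum_eq_zero hval (fun p => Q p (t p)) hinj'
    (fun p => u p - algebraMap ℂ F (t p)) (fun p => (hch p).unif (t p) (ht p)) ξ
    (fun v hv => by
      have := hξ v
      rw [sumDiv_apply_of_ne _ v hv] at this
      simpa using this)
    (fun p => by
      have := hξ (Q p (t p))
      have h1 := sumDiv_apply_of_injective (fun p => Q p (t p)) hinj' p
      rw [h1] at this
      exact this)
  have := congrArg e hres
  rw [map_sum, map_zero] at this
  rw [← this]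
  refine Finset.sum_congr rfl fun p _ => ?_
  rw [map_smul, hev p]
  rfl

/-- **Linear-system Abel theorem.**  Charts `(u p, Q p, r p, J p)` with pairwise distinct
centres, `ψ k ∈ L(∑ Q p 0)` with `ψ k₀ = 1`.  For `a` near `a₀ = Pi.single k₀ 1` the function
`f_a = ∑ a k • ψ k` has divisor `∑ Q p (T a p) - ∑ Q p 0` with `T` analytic, `T a₀ = 0`, and the
abelian sum `∑ J p (T a p)` vanishes identically. -/
theorem lsa (x : F) (hx : Transcendental ℂ x) [FiniteDimensional ℂ⟮x⟯ F]
    (e : H1 (0 : Divisor ℂ F) ≃ₗ[ℂ] (Fin (genusFF ℂ F) → ℂ))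
    {P : Type} [Fintype P] {κ : Type} [Fintype κ] [DecidableEq κ]
    (u : P → F) (Q : P → ℂ → Place ℂ F) (r : P → ℝ) (J : P → ℂ → Fin (genusFF ℂ F) → ℂ)
    (hch : ∀ p, IsIntChart e (u p) (Q p) (r p) (J p))
    (hinj : Function.Injective fun p => Q p 0)
    (ψ : κ → F) (hψ : ∀ k, ψ k ∈ riemannRochSpace (sumDiv fun p => Q p 0))
    (k₀ : κ) (hk₀ : ψ k₀ = 1) :
    ∃ δ > 0, ∃ T : (κ → ℂ) → P → ℂ,
      T (Pi.single k₀ 1) = 0 ∧
      (∀ p, AnalyticAt ℂ (fun a => T a p) (Pi.single k₀ 1)) ∧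
      (∀ p (v : κ → ℂ), fderiv ℂ (fun a => T a p) (Pi.single k₀ 1) v
          = - ∑ k, v k * ev (Q p 0) (u p * ψ k)) ∧
      ∀ a ∈ Metric.ball (Pi.single k₀ (1 : ℂ)) δ,
        (∀ p, T a p ∈ Metric.ball (0 : ℂ) (r p)) ∧
        sumDiv (fun p => Q p (T a p)) - sumDiv (fun p => Q p 0)
          ∈ Divisor.principal (K := ℂ) (F := F) ∧
        ∑ p, J p (T a p) = 0 := by
  classical
  have : IsCurveOver ℂ F := Fermat.Agent.S27.helper1949.isCurveOver_of_finite x hx
  have hdeg : ∀ v : Place ℂ F, v.deg = 1 := IsCurveOver.deg_eq_one_of_isAlgClosed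
  have hval : ∀ P : Place ℂ F, HasValues P := fun P => hasValues_of_finite x P
  rcases isEmpty_or_nonempty P with hP | hP
  · refine ⟨1, one_pos, fun _ _ => 0, rfl, fun p => isEmptyElim p, fun p => isEmptyElim p,
      fun a _ => ⟨fun p => isEmptyElim p, ?_, ?_⟩⟩
    · show sumDiv (fun p => Q p 0) - sumDiv (fun p => Q p 0) ∈ _
      rw [sub_self]
      exact zero_mem _
    · simp
  have hψreg : ∀ p k, 0 ≤ (Q p 0).ord (u p * ψ k) := by
    intro p k
    rcases eq_or_ne (ψ k) 0 with h0 | h0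
    · rw [h0, mul_zero, Place.ord_zero]
    · have h1 := (mem_riemannRochSpace_iff.mp (hψ k) (Q p 0)).resolve_left h0
      have h2 := sumDiv_apply_of_injective (fun p => Q p 0) hinj p
      rw [h2] at h1
      rw [(Q p 0).ord_mul (chart_ne_zero (hch p).chart) h0, chart_ord_centre (hch p).chart]
      linarith
  obtain ⟨ε₀, hε₀, Hsep⟩ : ∃ ε₀ > 0, ∀ p q, p ≠ q → ∀ s s' : ℂ, ‖s‖ < ε₀ → ‖s'‖ < ε₀ →
      Q p s ≠ Q q s' := by
    have hpair : ∀ pq : {pq : P × P // pq.1 ≠ pq.2}, ∃ ε > 0, ∀ s s' : ℂ, ‖s‖ < ε → ‖s'‖ < ε →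
        Q pq.1.1 s ≠ Q pq.1.2 s' :=
      fun pq => chart_sep hval (hch pq.1.1).chart (hch pq.1.2).chart (fun h => pq.2 (hinj h))
    choose εf hεf Hεf using hpair
    obtain ⟨ε₀, hε₀, hle⟩ := exists_pos_le_all εf hεf
    exact ⟨ε₀, hε₀, fun p q hpq s s' hs hs' => Hεf ⟨(p, q), hpq⟩ s s'
      (lt_of_lt_of_le hs (hle _)) (lt_of_lt_of_le hs' (hle _))⟩
  have hfam := fun p => chart_family (hch p).chart ψ (hψreg p) k₀ hk₀ ε₀ hε₀
  choose ε hε hεε₀ hεr δf hδf γ hreg hγ0 hγd hγ using hfam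
  obtain ⟨δ, hδ, hδle⟩ := exists_pos_le_all δf hδf
  set a₀ : κ → ℂ := Pi.single k₀ 1 with ha₀
  have hsub : ∀ p, Metric.ball a₀ δ ⊆ Metric.ball a₀ (δf p) :=
    fun p => Metric.ball_subset_ball (hδle p)
  have hlin : ∀ (b : κ → ℂ) (p : P) (s : ℂ), s ∈ Metric.ball (0 : ℂ) (ε p) →
      IsVal (Q p s) (u p * ∑ k, b k • ψ k) (∑ k, b k * ev (Q p s) (u p * ψ k)) := by
    intro b p s hs
    rw [Finset.mul_sum]
    refine IsVal.sum _ fun k _ => ?_
    rw [mul_smul_comm]
    exact (isVal_ev (hval _) ((hreg p s hs k).1)).smul (b k)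
  have hLmem : ∀ b : κ → ℂ, ∑ k, b k • ψ k ∈ riemannRochSpace (sumDiv fun p => Q p 0) :=
    fun b => Submodule.sum_mem _ fun k _ => Submodule.smul_mem _ _ (hψ k)
  -- the pointwise statement
  have key : ∀ a ∈ Metric.ball a₀ δ,
      (∀ p, γ p a ∈ Metric.ball (0 : ℂ) (r p)) ∧
      sumDiv (fun p => Q p (γ p a)) - sumDiv (fun p => Q p 0)
        ∈ Divisor.principal (K := ℂ) (F := F) ∧
      ∀ v : κ → ℂ, ∑ p, fderiv ℂ (γ p) a v • chartCoef e (u p) (Q p) (γ p a) = 0 := by
    intro a ha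
    have hg := fun p => hγ p a (hsub p ha)
    have htε : ∀ p, γ p a ∈ Metric.ball (0 : ℂ) (ε p) := fun p => (hg p).2.1
    have ht : ∀ p, γ p a ∈ Metric.ball (0 : ℂ) (r p) :=
      fun p => Metric.ball_subset_ball (hεr p) (htε p)
    set f : F := ∑ k, a k • ψ k with hfdef
    have hf : f ≠ 0 := by
      intro hf0
      obtain ⟨p₀⟩ := hP
      have hG : ∀ s ∈ Metric.ball (0 : ℂ) (ε p₀), ∑ k, a k * ev (Q p₀ s) (u p₀ * ψ k) = 0 := by
        intro s hs
        have h1 := hlin a p₀ s hs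
        rw [← hfdef, hf0, mul_zero] at h1
        exact h1.unique (isVal_zero _)
      have hu := (hg p₀).2.2.2.1
      have h0mem : (0 : ℂ) ∈ Metric.ball (0 : ℂ) (ε p₀) := Metric.mem_ball_self (hε p₀)
      have e1 := hu 0 h0mem (hG 0 h0mem)
      have hmem : ((ε p₀ / 2 : ℝ) : ℂ) ∈ Metric.ball (0 : ℂ) (ε p₀) := by
        rw [Metric.mem_ball, dist_zero_right, Complex.norm_real,
          Real.norm_of_nonneg (by have := hε p₀; positivity)]
        linarith [hε p₀]
      have e2 := hu _ hmem (hG _ hmem)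
      have h3 : ((ε p₀ / 2 : ℝ) : ℂ) = 0 := e2.trans e1.symm
      have h4 : ε p₀ / 2 = 0 := by exact_mod_cast h3
      linarith [hε p₀]
    have hz : ∀ p, IsVal (Q p (γ p a)) (u p * f) 0 := by
      intro p
      have h1 := hlin a p _ (htε p)
      rw [(hg p).2.2.1] at h1
      exact h1
    have hinj' : Function.Injective fun p => Q p (γ p a) := by
      intro p q hpq
      by_contra hne
      refine Hsep p q hne (γ p a) (γ q a) ?_ ?_ hpq
      · exact lt_of_lt_of_le (mem_ball_zero_iff.mp (htε p)) (hεε₀ p)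
      · exact lt_of_lt_of_le (mem_ball_zero_iff.mp (htε q)) (hεε₀ q)
    have hord := ls_divisor hdeg u Q r (fun p => (hch p).chart) hinj f hf (hLmem a)
      (fun p => γ p a) ht hz hinj'
    refine ⟨ht, ⟨f, hf, fun v => ?_⟩, fun v => ?_⟩
    · rw [Finsupp.sub_apply]
      exact (hord v).symm
    · set φ : F := ∑ k, v k • ψ k with hφdef
      set m : P → ℂ := fun p => ∑ k, v k * ev (Q p (γ p a)) (u p * ψ k) with hm
      set c : P → ℂ := fun p => ∑ k, a k * deriv (fun t => ev (Q p t) (u p * ψ k)) (γ p a)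
        with hc
      have hc0 : ∀ p, c p ≠ 0 := fun p => (hg p).2.2.2.2.1
      have hcd : ∀ p, HasDerivAt (fun s => ev (Q p s) (u p * f)) (c p) (γ p a) := by
        intro p
        have hd : HasDerivAt (fun s => ∑ k, a k * ev (Q p s) (u p * ψ k)) (c p) (γ p a) :=
          HasDerivAt.fun_sum fun k _ => ((hreg p _ (htε p) k).2.hasDerivAt).const_mul (a k)
        have heq : (fun s => ev (Q p s) (u p * f))
            =ᶠ[𝓝 (γ p a)] fun s => ∑ k, a k * ev (Q p s) (u p * ψ k) := by
          filter_upwards [Metric.isOpen_ball.mem_nhds (htε p)] with s hs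
            using (hlin a p s hs).ev_eq
        exact hd.congr_of_eventuallyEq heq
      have hres := ls_residue hval e u Q r (fun p => (hch p).chart) f hf (fun p => γ p a) ht hz
        hinj' hord φ (hLmem v) m c (fun p => hlin v p _ (htε p)) hcd hc0
      have hfd : ∀ p, fderiv ℂ (γ p) a v = -(m p / c p) := by
        intro p
        have h1 := (hg p).2.2.2.2.2 v
        have h2 : fderiv ℂ (γ p) a v * c p + m p = 0 := h1
        field_simp [hc0 p]
        linear_combination h2
      calc ∑ p, fderiv ℂ (γ p) a v • chartCoef e (u p) (Q p) (γ p a)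
          = -∑ p, (m p / c p) • chartCoef e (u p) (Q p) (γ p a) := by
            rw [← Finset.sum_neg_distrib]
            refine Finset.sum_congr rfl fun p _ => ?_
            rw [hfd p, neg_smul]
        _ = 0 := by rw [hres, neg_zero]
  refine ⟨δ, hδ, fun a p => γ p a, funext fun p => hγ0 p,
    fun p => (hγ p a₀ (Metric.mem_ball_self (hδf p))).1, fun p v => hγd p v, ?_⟩
  intro a ha
  obtain ⟨h1, h2, -⟩ := key a ha
  refine ⟨h1, h2, ?_⟩
  set S : (κ → ℂ) → (Fin (genusFF ℂ F) → ℂ) := fun b => ∑ p, J p (γ p b) with hS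
  have hSd : ∀ b ∈ Metric.ball a₀ δ, HasFDerivAt S
      (∑ p, (ContinuousLinearMap.toSpanSingleton ℂ (chartCoef e (u p) (Q p) (γ p b))).comp
        (fderiv ℂ (γ p) b)) b := by
    intro b hb
    obtain ⟨hb1, -, -⟩ := key b hb
    refine HasFDerivAt.fun_sum fun p _ => ?_
    have hJ := ((hch p).deriv (γ p b) (hb1 p)).hasFDerivAt
    have hγ' := (hγ p b (hsub p hb)).1.differentiableAt.hasFDerivAt
    exact hJ.comp b hγ'
  have hconst : S a = S a₀ := by
    refine Metric.isOpen_ball.is_const_of_fderiv_eq_zero (convex_ball a₀ δ).isPreconnected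
      (fun b hb => (hSd b hb).differentiableAt.differentiableWithinAt) (fun b hb => ?_) ha
      (Metric.mem_ball_self hδ)
    rw [(hSd b hb).fderiv]
    ext1 v
    rw [sum_apply]
    simp only [ContinuousLinearMap.comp_apply, ContinuousLinearMap.toSpanSingleton_apply,
      Pi.zero_apply, zero_apply]
    exact (key b hb).2.2 v
  show S a = 0
  rw [hconst]
  exact Finset.sum_eq_zero fun p _ => by rw [hγ0 p, (hch p).zero]

/-- Functions of `L(∑ Q i 0 + ∑ B k)` with residue matrix `1` at the `Q i 0`, when `∑ B k` is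
nonspecial (rank-nullity for the residue map, `Stmt_Riemann`). -/
theorem exists_dual_family (hR : Stmt_Riemann.{0, 0}) (x : F) (hx : Transcendental ℂ x)
    [FiniteDimensional ℂ⟮x⟯ F] {ι κ : Type} [Fintype ι] [DecidableEq ι] [Fintype κ]
    (u : ι → F) (Q : ι → ℂ → Place ℂ F) (r : ι → ℝ) (hch : ∀ i, IsChart (u i) (Q i) (r i))
    (B : κ → Place ℂ F)
    (hinj : Function.Injective (Sum.elim (fun i => Q i 0) B))
    (hns : IsNonspecial (sumDiv B)) :
    ∃ ψ : ι → F, (∀ j, ψ j ∈ riemannRochSpace (sumDiv (Sum.elim (fun i => Q i 0) B))) ∧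
      ∀ i j, ev (Q i 0) (u i * ψ j) = if i = j then 1 else 0 := by
  classical
  have : IsCurveOver ℂ F := Fermat.Agent.S27.helper1949.isCurveOver_of_finite x hx
  have hdeg : ∀ v : Place ℂ F, v.deg = 1 := IsCurveOver.deg_eq_one_of_isAlgClosed
  have hval : ∀ P : Place ℂ F, HasValues P := fun P => hasValues_of_finite x P
  set A : ι → Place ℂ F := fun i => Q i 0 with hA
  set D : Divisor ℂ F := sumDiv (Sum.elim A B) with hD
  have hDsplit : D = sumDiv A + sumDiv B := sumDiv_sum_elim A B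
  have hDA : ∀ i, D (A i) = 1 := fun i => sumDiv_apply_of_injective (Sum.elim A B) hinj (Sum.inl i)
  have hu0 : ∀ i, u i ≠ 0 := fun i => chart_ne_zero (hch i)
  have hregL : ∀ ψ ∈ riemannRochSpace D, ∀ i, 0 ≤ (A i).ord (u i * ψ) := by
    intro ψ hψ i
    rcases eq_or_ne ψ 0 with h0 | h0
    · rw [h0, mul_zero, Place.ord_zero]
    · have h1 := (mem_riemannRochSpace_iff.mp hψ (A i)).resolve_left h0
      rw [hDA i] at h1
      rw [(A i).ord_mul (hu0 i) h0, chart_ord_centre (hch i)]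
      linarith
  let Res : riemannRochSpace D →ₗ[ℂ] (ι → ℂ) :=
    { toFun := fun ψ i => ev (A i) (u i * (ψ : F))
      map_add' := by
        intro ψ φ
        funext i
        show ev (A i) (u i * ((ψ : F) + (φ : F))) = _
        rw [mul_add]
        exact ev_add (hval _) (hregL _ ψ.2 i) (hregL _ φ.2 i)
      map_smul' := by
        intro c ψ
        funext i
        show ev (A i) (u i * (c • (ψ : F))) = c • ev (A i) (u i * (ψ : F))
        rw [mul_smul_comm, smul_eq_mul]
        exact ev_smul (hval _) c (hregL _ ψ.2 i) }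
  have hRes : ∀ (ψ : riemannRochSpace D) (i : ι), Res ψ i = ev (A i) (u i * (ψ : F)) :=
    fun _ _ => rfl
  -- the kernel consists of functions of `L(∑ B)`
  have hker : ∀ ψ : riemannRochSpace D, Res ψ = 0 → (ψ : F) ∈ riemannRochSpace (sumDiv B) := by
    intro ψ hψ
    rw [mem_riemannRochSpace_iff]
    intro v
    rcases eq_or_ne (ψ : F) 0 with h0 | h0
    · exact Or.inl h0
    right
    by_cases hv : ∃ i, A i = v
    · obtain ⟨i, rfl⟩ := hv
      have hB0 : sumDiv B (A i) = 0 := by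
        refine sumDiv_apply_of_ne B (A i) fun k hk => ?_
        have : (Sum.inr k : ι ⊕ κ) = Sum.inl i := hinj hk
        exact Sum.inr_ne_inl this
      rw [hB0, neg_zero]
      have h1 : ev (A i) (u i * (ψ : F)) = 0 := by rw [← hRes, hψ]; rfl
      rcases (ev_eq_zero_iff (hval _) (hregL _ ψ.2 i)).mp h1 with h2 | h2
      · exact absurd h2 (mul_ne_zero (hu0 i) h0)
      · rw [(A i).ord_mul (hu0 i) h0, chart_ord_centre (hch i)] at h2
        linarith
    · have h1 := (mem_riemannRochSpace_iff.mp ψ.2 v).resolve_left h0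
      have hDv : D v = sumDiv B v := by
        rw [hDsplit, Finsupp.add_apply, sumDiv_apply_of_ne A v fun i hi => hv ⟨i, hi⟩,
          zero_add]
      rw [hDv] at h1
      exact h1
  -- dimension count
  obtain ⟨hfin, hRR, -⟩ := hR ℂ F x hx
  have hfD : Module.Finite ℂ (riemannRochSpace D) := (hfin D).2
  have hfB : Module.Finite ℂ (riemannRochSpace (sumDiv B)) := (hfin (sumDiv B)).2
  have hH1B : Module.finrank ℂ (H1 (sumDiv B)) = 0 := by
    have : Subsingleton (H1 (sumDiv B)) := Submodule.Quotient.subsingleton_iff.mpr hns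
    exact Module.finrank_zero_of_subsingleton
  have h1 := hRR D
  have h2 := hRR (sumDiv B)
  rw [hH1B] at h2
  rw [hD, degree_sumDiv hdeg] at h1
  rw [degree_sumDiv hdeg] at h2
  rw [Fintype.card_sum] at h1
  have hkerle : Module.finrank ℂ (LinearMap.ker Res)
      ≤ Module.finrank ℂ (riemannRochSpace (sumDiv B)) := by
    let g : LinearMap.ker Res →ₗ[ℂ] riemannRochSpace (sumDiv B) :=
      LinearMap.codRestrict (riemannRochSpace (sumDiv B))
        ((riemannRochSpace D).subtype.comp (LinearMap.ker Res).subtype)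
        (fun ψ => hker ψ.1 ψ.2)
    refine LinearMap.finrank_le_finrank_of_injective (f := g) ?_
    intro a b hab
    have h3 : ((g a : riemannRochSpace (sumDiv B)) : F) = ((g b : riemannRochSpace (sumDiv B)) : F) :=
      congrArg Subtype.val hab
    exact Subtype.ext (Subtype.ext h3)
  have hrn := LinearMap.finrank_range_add_finrank_ker Res
  have hrange : LinearMap.range Res = ⊤ := by
    apply Submodule.eq_top_of_finrank_eq
    have hle : Module.finrank ℂ (LinearMap.range Res) ≤ Module.finrank ℂ (ι → ℂ) :=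
      Submodule.finrank_le _
    rw [Module.finrank_fintype_fun_eq_card] at hle ⊢
    have hH1 : (0 : ℤ) ≤ (Module.finrank ℂ (H1 D) : ℤ) := Int.natCast_nonneg _
    have h3 : (Module.finrank ℂ (LinearMap.range Res) : ℤ)
        + (Module.finrank ℂ (LinearMap.ker Res) : ℤ)
        = (Module.finrank ℂ (riemannRochSpace D) : ℤ) := by exact_mod_cast hrn
    have h4 : (Module.finrank ℂ (LinearMap.ker Res) : ℤ)
        ≤ (Module.finrank ℂ (riemannRochSpace (sumDiv B)) : ℤ) := by exact_mod_cast hkerle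
    have h5 : (Fintype.card ι : ℤ) ≤ (Module.finrank ℂ (LinearMap.range Res) : ℤ) := by
      push_cast at h1 h2
      linarith
    have h6 : Fintype.card ι ≤ Module.finrank ℂ (LinearMap.range Res) := by exact_mod_cast h5
    exact le_antisymm hle h6
  have hsurj : ∀ j : ι, ∃ ψ : riemannRochSpace D, Res ψ = Pi.single j 1 := by
    intro j
    have : (Pi.single j 1 : ι → ℂ) ∈ LinearMap.range Res := by rw [hrange]; trivial
    exact this
  choose ψ hψ using hsurj
  refine ⟨fun j => (ψ j : F), fun j => (ψ j).2, fun i j => ?_⟩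
  rw [← hRes, hψ j, Pi.single_apply]

/-- **Spec node `Stmt_LocalAbel`** (local Abel theorem for a linear system with fixed base),
from Riemann's theorem. -/
theorem localAbel_of (hR : Stmt_Riemann.{0, 0}) : Stmt_LocalAbel := by
  intro F _ _ x hx _ e m u Q r J u' Q' r' J' hch hch' hinjA hinjB hdisj hns ε hε
  classical
  -- combined family of charts
  let uu : Fin m ⊕ Fin (genusFF ℂ F) → F := Sum.elim u u'
  let QQ : Fin m ⊕ Fin (genusFF ℂ F) → ℂ → Place ℂ F := Sum.elim Q Q'
  let rr : Fin m ⊕ Fin (genusFF ℂ F) → ℝ := Sum.elim r r'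
  let JJ : Fin m ⊕ Fin (genusFF ℂ F) → ℂ → Fin (genusFF ℂ F) → ℂ := Sum.elim J J'
  have hchP : ∀ p, IsIntChart e (uu p) (QQ p) (rr p) (JJ p) := by
    rintro (i | k)
    · exact hch i
    · exact hch' k
  have hQQ0 : (fun p => QQ p 0) = Sum.elim (fun i => Q i 0) (fun k => Q' k 0) := by
    funext p
    cases p <;> rfl
  have hinjS : Function.Injective (Sum.elim (fun i => Q i 0) (fun k => Q' k 0)) :=
    Function.Injective.sumElim hinjA hinjB hdisj
  have hinjP : Function.Injective (fun p => QQ p 0) := by rw [hQQ0]; exact hinjS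
  obtain ⟨ψ, hψL, hψres⟩ := exists_dual_family hR x hx u Q r (fun i => (hch i).chart)
    (fun k => Q' k 0) hinjS hns
  -- the linear family `1, ψ_1, …, ψ_m`
  let ψ' : Option (Fin m) → F := fun o => o.elim 1 ψ
  have hψ'L : ∀ o, ψ' o ∈ riemannRochSpace (sumDiv fun p => QQ p 0) := by
    rw [hQQ0]
    rintro (_ | j)
    · show (1 : F) ∈ _
      rw [mem_riemannRochSpace_iff]
      intro v
      right
      rw [Place.ord_one]
      have := sumDiv_nonneg (Sum.elim (fun i => Q i 0) (fun k => Q' k 0)) v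
      linarith
    · exact hψL j
  obtain ⟨δ, hδ, T, hT0, hTan, hTd, hT⟩ :=
    lsa x hx e uu QQ rr JJ hchP hinjP ψ' hψ'L none rfl
  set a₀ : Option (Fin m) → ℂ := Pi.single none 1 with ha₀
  -- affine embedding of the parameters
  let Lc : (Fin m → ℂ) →L[ℂ] (Option (Fin m) → ℂ) :=
    ContinuousLinearMap.pi fun o => o.elim 0 fun j => ContinuousLinearMap.proj j
  let c : (Fin m → ℂ) → (Option (Fin m) → ℂ) := fun z => Lc z + a₀
  have hLc_none : ∀ z, Lc z none = 0 := fun z => rfl
  have hLc_some : ∀ z j, Lc z (some j) = z j := fun z j => rfl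
  have hc0 : c 0 = a₀ := by
    show Lc 0 + a₀ = a₀
    rw [map_zero, zero_add]
  have hcd : ∀ z, HasFDerivAt c Lc z := fun z => (Lc.hasFDerivAt).add_const a₀
  have hcan : ∀ z, AnalyticAt ℂ c z := fun z => (Lc.analyticAt z).add analyticAt_const
  -- the map `z ↦ (zeros on the first m charts)`
  let G : (Fin m → ℂ) → (Fin m → ℂ) := fun z i => T (c z) (Sum.inl i)
  have hG0 : G 0 = 0 := by
    funext i
    show T (c 0) (Sum.inl i) = 0
    rw [hc0, hT0]
    rfl
  have hGan : AnalyticAt ℂ G 0 := by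
    refine analyticAt_pi_iff.mpr fun i => ?_
    exact (hTan (Sum.inl i)).comp_of_eq (hcan 0) hc0
  have hGd : HasFDerivAt G
      ((ContinuousLinearEquiv.neg ℂ : (Fin m → ℂ) ≃L[ℂ] (Fin m → ℂ)) :
        (Fin m → ℂ) →L[ℂ] (Fin m → ℂ)) 0 := by
    rw [hasFDerivAt_pi']
    intro i
    have h1 : HasFDerivAt (fun a => T a (Sum.inl i))
        (fderiv ℂ (fun a => T a (Sum.inl i)) a₀) (c 0) := by
      rw [hc0]
      exact (hTan (Sum.inl i)).differentiableAt.hasFDerivAt
    have h2 := h1.comp 0 (hcd 0)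
    have h3 : (fderiv ℂ (fun a => T a (Sum.inl i)) a₀).comp Lc
        = (ContinuousLinearMap.proj i).comp
          ((ContinuousLinearEquiv.neg ℂ : (Fin m → ℂ) ≃L[ℂ] (Fin m → ℂ)) :
            (Fin m → ℂ) →L[ℂ] (Fin m → ℂ)) := by
      ext1 v
      rw [ContinuousLinearMap.comp_apply, hTd (Sum.inl i) (Lc v), Fintype.sum_option,
        hLc_none, zero_mul, zero_add]
      simp only [hLc_some]
      have h4 : ∀ j, v j * ev (QQ (Sum.inl i) 0) (uu (Sum.inl i) * ψ' (some j))
          = if i = j then v j else 0 := by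
        intro j
        show v j * ev (Q i 0) (u i * ψ j) = _
        rw [hψres i j]
        split_ifs <;> simp
      rw [Finset.sum_congr rfl fun j _ => h4 j, Finset.sum_ite_eq Finset.univ i v,
        if_pos (Finset.mem_univ i)]
      simp
    rw [h3] at h2
    exact h2
  obtain ⟨U, -, h0U, V, hVo, hG0V, sinv, -, -, hsG, hGs, -, hsan, -⟩ :=
    Fermat.Agent.S27.helper8208.exists_analytic_local_inverse G 0 hGan
      (ContinuousLinearEquiv.neg ℂ) hGd
  rw [hG0] at hG0V
  have hs0 : sinv 0 = 0 := by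
    have := hsG 0 h0U
    rwa [hG0] at this
  have hscont : ContinuousAt sinv 0 := (hsan 0 hG0V).continuousAt
  have hcs0 : c (sinv 0) = a₀ := by rw [hs0, hc0]
  have hcscont : ContinuousAt (fun y => c (sinv y)) 0 :=
    ContinuousAt.comp (g := c) (hcan (sinv 0)).continuousAt hscont
  have hev : ∀ᶠ y in 𝓝 (0 : Fin m → ℂ), y ∈ V ∧ c (sinv y) ∈ Metric.ball a₀ δ ∧
      ∀ k, ‖T (c (sinv y)) (Sum.inr k)‖ < ε := by
    refine Filter.Eventually.and (hVo.eventually_mem hG0V) (Filter.Eventually.and ?_ ?_)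
    · have := hcscont.eventually (Metric.ball_mem_nhds (c (sinv 0)) hδ)
      rwa [hcs0] at this
    · rw [Filter.eventually_all]
      intro k
      have hcont : ContinuousAt (fun y => T (c (sinv y)) (Sum.inr k)) 0 := by
        refine ContinuousAt.comp (g := fun a => T a (Sum.inr k)) ?_ hcscont
        rw [hcs0]
        exact (hTan (Sum.inr k)).continuousAt
      have := hcont.eventually (Metric.ball_mem_nhds _ hε)
      have hval0 : T (c (sinv 0)) (Sum.inr k) = 0 := by
        rw [hcs0, hT0]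
        rfl
      filter_upwards [this] with y hy
      have hy' : dist (T (c (sinv y)) (Sum.inr k)) (T (c (sinv 0)) (Sum.inr k)) < ε := hy
      rw [hval0, dist_zero_right] at hy'
      exact hy'
  obtain ⟨δ', hδ', H⟩ := Metric.eventually_nhds_iff.mp hev
  refine ⟨δ', hδ', fun a ha => ?_⟩
  have hnorm : ‖a‖ < δ' := (pi_norm_lt_iff hδ').mpr ha
  obtain ⟨hyV, hball, hsmall⟩ := H (y := a) (by rwa [dist_zero_right])
  set b : Option (Fin m) → ℂ := c (sinv a) with hb
  obtain ⟨-, hprin, hsum⟩ := hT b hball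
  have hTa : ∀ i, T b (Sum.inl i) = a i := fun i => congrFun (hGs a hyV) i
  refine ⟨fun k => T b (Sum.inr k), hsmall, ?_, ?_⟩
  · have h1 : (fun p => QQ p (T b p))
        = Sum.elim (fun i => Q i (a i)) (fun k => Q' k (T b (Sum.inr k))) := by
      funext p
      rcases p with i | k
      · show Q i (T b (Sum.inl i)) = Q i (a i)
        rw [hTa i]
      · rfl
    rw [h1, hQQ0, sumDiv_sum_elim, sumDiv_sum_elim] at hprin
    have h2 : (sumDiv (fun i => Q i (a i)) - sumDiv (fun i => Q i 0))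
          + (sumDiv (fun k => Q' k (T b (Sum.inr k))) - sumDiv (fun k => Q' k 0))
        = sumDiv (fun i => Q i (a i)) + sumDiv (fun k => Q' k (T b (Sum.inr k)))
          - (sumDiv (fun i => Q i 0) + sumDiv (fun k => Q' k 0)) := by abel
    rw [h2]
    exact hprin
  · rw [Fintype.sum_sum_type] at hsum
    have h3 : ∑ i, JJ (Sum.inl i) (T b (Sum.inl i)) = ∑ i, J i (a i) :=
      Finset.sum_congr rfl fun i _ => by
        show J i (T b (Sum.inl i)) = J i (a i)
        rw [hTa i]
    rw [h3] at hsum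
    exact hsum

end Main

end

end Fermat.Agent.S27.helper1561
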