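import Mathlib
import Fermat.Prelude.Def_AlgebraicCurve_Repartitions
import Fermat.Agent.S24.helper1370_PlaceBasics

/-!
# S27-A3 (helper1680): Weil differentials, local components, Euler's formula

`WeilDiff K F := Module.Dual K (H1 (0 : Divisor K F))` (the dual of the Prelude genus quotient
`A / (A(0) + F)`; its dimension is `genusFF K F` by definition and it kills principal
repartitions by definition).

* `loc ω S f` : the local component of `ω` on a set of places `S`, i.e. `ω` applied to the
  repartition which is `f` on `S` and `0` elsewhere.  Calculus: `loc_eq_zero_of_mem`,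
  `loc_congr`, `loc_union`, `loc_univ`, `loc_add_loc_eq_zero` (residue theorem), `loc_finset`.
* `euler_formula` : for a plane model `p(t, y) = 0`, `p` monic in `Y`, and a simple place `Q`
  over `(a, b)`:  `p_Y(a, b) * ω_Q(1 / (t - a)) = N_ω(a, b)` for the explicit polynomial
  `numer t y p ω : K[X][Y]`, `K`-linear in `ω`.
-/

set_option autoImplicit false

noncomputable section

namespace Fermat.Agent.S27.helper1680

open AlgebraicCurve Polynomial
open scoped Polynomial.Bivariate
open Fermat.Agent.S24.helper1370

variable {K F : Type*} [Field K] [Field F] [Algebra K F]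

/-- Weil differentials: the dual of the genus quotient `A / (A(0) + F)`. -/
abbrev WeilDiff (K F : Type*) [Field K] [Field F] [Algebra K F] : Type _ :=
  Module.Dual K (H1 (0 : Divisor K F))

/-! ## Local repartitions -/

section Loc

/-- Every function has finitely many poles. -/
theorem finite_poles [HasPrincipalDivisors K F] (f : F) :
    {v : Place K F | v.ord f < 0}.Finite := by
  rcases eq_or_ne f 0 with rfl | hf
  · simp
  obtain ⟨D, hD, -⟩ := HasPrincipalDivisors.exists_divisor (K := K) f hf
  refine D.support.finite_toSet.subset fun v hv => ?_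
  rw [Finset.mem_coe, Finsupp.mem_support_iff, hD v]
  exact ne_of_lt hv

/-- The function on places which is `f` on `S` and `0` elsewhere. -/
def locFun (S : Set (Place K F)) (f : F) : Place K F → F := S.indicator (fun _ => f)

theorem locFun_apply_of_mem {S : Set (Place K F)} {v : Place K F} (hv : v ∈ S) (f : F) :
    locFun S f v = f := Set.indicator_of_mem hv _

theorem locFun_apply_of_notMem {S : Set (Place K F)} {v : Place K F} (hv : v ∉ S) (f : F) :
    locFun S f v = 0 := Set.indicator_of_notMem hv _

theorem locFun_mem [HasPrincipalDivisors K F] (S : Set (Place K F)) (f : F) :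
    locFun S f ∈ repartitions K F := by
  refine mem_repartitions_of_finite_ord ((finite_poles (K := K) f).subset fun v hv => ?_)
  by_cases hvS : v ∈ S
  · simpa [locFun_apply_of_mem hvS] using hv
  · simp [locFun_apply_of_notMem hvS] at hv

variable [HasPrincipalDivisors K F]

/-- The repartition which is `f` on `S` and `0` elsewhere, as a `K`-linear map in `f`. -/
def iota (S : Set (Place K F)) : F →ₗ[K] ↥(repartitions K F) where
  toFun f := ⟨locFun S f, locFun_mem S f⟩
  map_add' f g := by
    apply Subtype.ext
    funext v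
    by_cases hv : v ∈ S
    · simp [locFun_apply_of_mem hv]
    · simp [locFun_apply_of_notMem hv]
  map_smul' c f := by
    apply Subtype.ext
    funext v
    by_cases hv : v ∈ S
    · simp [locFun_apply_of_mem hv]
    · simp [locFun_apply_of_notMem hv]

theorem iota_apply_of_mem {S : Set (Place K F)} {v : Place K F} (hv : v ∈ S) (f : F) :
    (iota S f : Place K F → F) v = f := locFun_apply_of_mem hv f

theorem iota_apply_of_notMem {S : Set (Place K F)} {v : Place K F} (hv : v ∉ S) (f : F) :
    (iota S f : Place K F → F) v = 0 := locFun_apply_of_notMem hv f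

theorem iota_mem_repartitionsOf_zero {S : Set (Place K F)} {f : F}
    (h : ∀ v ∈ S, f ∈ v.toValuationSubring) :
    iota S f ∈ repartitionsOf (0 : Divisor K F) := by
  intro v
  by_cases hv : v ∈ S
  · rw [iota_apply_of_mem hv]
    simpa using v.adicValuation_le_one_of_mem (h v hv)
  · rw [iota_apply_of_notMem hv]
    simp

theorem iota_univ_mem_principal (f : F) :
    iota (Set.univ : Set (Place K F)) f ∈ principalRepartitions K F := by
  rw [mem_principalRepartitions_iff]
  exact ⟨f, funext fun v => iota_apply_of_mem (Set.mem_univ v) f⟩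

theorem iota_union {S T : Set (Place K F)} (h : Disjoint S T) (f : F) :
    iota (S ∪ T) f = iota S f + iota T f := by
  apply Subtype.ext
  funext v
  show locFun (S ∪ T) f v = locFun S f v + locFun T f v
  by_cases hS : v ∈ S
  · have hT : v ∉ T := fun hT => Set.disjoint_left.mp h hS hT
    rw [locFun_apply_of_mem (Set.mem_union_left T hS), locFun_apply_of_mem hS,
      locFun_apply_of_notMem hT, add_zero]
  · by_cases hT : v ∈ T
    · rw [locFun_apply_of_mem (Set.mem_union_right S hT), locFun_apply_of_notMem hS,
        locFun_apply_of_mem hT, zero_add]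
    · have hST : v ∉ S ∪ T := fun h' => h'.elim hS hT
      rw [locFun_apply_of_notMem hST, locFun_apply_of_notMem hS, locFun_apply_of_notMem hT,
        add_zero]

theorem iota_empty (f : F) : iota (∅ : Set (Place K F)) f = 0 := by
  apply Subtype.ext
  funext v
  exact locFun_apply_of_notMem (Set.notMem_empty v) f

/-- The local component of a Weil differential on a set of places. -/
def loc (ω : WeilDiff K F) (S : Set (Place K F)) : F →ₗ[K] K :=
  ω ∘ₗ (Submodule.mkQ _) ∘ₗ iota S

theorem loc_apply (ω : WeilDiff K F) (S : Set (Place K F)) (f : F) :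
    loc ω S f = ω (Submodule.Quotient.mk (iota S f)) := rfl

theorem loc_add_left (ω η : WeilDiff K F) (S : Set (Place K F)) (f : F) :
    loc (ω + η) S f = loc ω S f + loc η S f := rfl

theorem loc_smul_left (c : K) (ω : WeilDiff K F) (S : Set (Place K F)) (f : F) :
    loc (c • ω) S f = c * loc ω S f := rfl

/-- `loc` as a linear map in the differential. -/
def locL (S : Set (Place K F)) (f : F) : WeilDiff K F →ₗ[K] K where
  toFun ω := loc ω S f
  map_add' ω η := loc_add_left ω η S f
  map_smul' c ω := loc_smul_left c ω S f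

@[simp] theorem locL_apply (S : Set (Place K F)) (f : F) (ω : WeilDiff K F) :
    locL S f ω = loc ω S f := rfl

/-- A function regular on `S` has vanishing local component on `S`. -/
theorem loc_eq_zero_of_mem (ω : WeilDiff K F) {S : Set (Place K F)} {f : F}
    (h : ∀ v ∈ S, f ∈ v.toValuationSubring) : loc ω S f = 0 := by
  rw [loc_apply]
  have : (Submodule.Quotient.mk (iota S f) : H1 (0 : Divisor K F)) = 0 := by
    rw [Submodule.Quotient.mk_eq_zero]
    exact Submodule.mem_sup_left (iota_mem_repartitionsOf_zero h)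
  rw [this, map_zero]

/-- Residue theorem, first form: the total local component of a function vanishes. -/
theorem loc_univ (ω : WeilDiff K F) (f : F) : loc ω (Set.univ : Set (Place K F)) f = 0 := by
  rw [loc_apply]
  have : (Submodule.Quotient.mk (iota Set.univ f) : H1 (0 : Divisor K F)) = 0 := by
    rw [Submodule.Quotient.mk_eq_zero]
    exact Submodule.mem_sup_right (iota_univ_mem_principal f)
  rw [this, map_zero]

theorem loc_empty (ω : WeilDiff K F) (f : F) : loc ω (∅ : Set (Place K F)) f = 0 := by
  rw [loc_apply, iota_empty]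
  simp

theorem loc_union (ω : WeilDiff K F) {S T : Set (Place K F)} (h : Disjoint S T) (f : F) :
    loc ω (S ∪ T) f = loc ω S f + loc ω T f := by
  rw [loc_apply, iota_union h, Submodule.Quotient.mk_add, map_add]
  rfl

/-- The local component only depends on the function modulo functions regular on `S`. -/
theorem loc_congr (ω : WeilDiff K F) {S : Set (Place K F)} {f g : F}
    (h : ∀ v ∈ S, f - g ∈ v.toValuationSubring) : loc ω S f = loc ω S g := by
  have := loc_eq_zero_of_mem ω h
  rw [map_sub, sub_eq_zero] at this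
  exact this

/-- Shrinking the set of places: only the places where `f` is not regular matter. -/
theorem loc_subset (ω : WeilDiff K F) {S T : Set (Place K F)} (hST : S ⊆ T) {f : F}
    (h : ∀ v ∈ T, v ∉ S → f ∈ v.toValuationSubring) : loc ω T f = loc ω S f := by
  have h1 : T = S ∪ (T \ S) := (Set.union_sdiff_cancel hST).symm
  have h2 : Disjoint S (T \ S) := Set.disjoint_sdiff_right
  rw [h1, loc_union ω h2, loc_eq_zero_of_mem ω (S := T \ S) (fun v hv => h v hv.1 hv.2), add_zero]

/-- **Residue theorem**: if `f` is regular outside the disjoint sets `S` and `T`, the local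
components on `S` and `T` add up to zero. -/
theorem loc_add_loc_eq_zero (ω : WeilDiff K F) {S T : Set (Place K F)} (hST : Disjoint S T)
    {f : F} (h : ∀ v, v ∉ S → v ∉ T → f ∈ v.toValuationSubring) :
    loc ω S f + loc ω T f = 0 := by
  rw [← loc_union ω hST, ← loc_univ ω f]
  exact (loc_subset ω (Set.subset_univ _) fun v _ hv =>
    h v (fun hS => hv (Or.inl hS)) (fun hT => hv (Or.inr hT))).symm

/-- Residue theorem, one-set form. -/
theorem loc_eq_zero_of_regular_off (ω : WeilDiff K F) {S : Set (Place K F)} {f : F}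
    (h : ∀ v, v ∉ S → f ∈ v.toValuationSubring) : loc ω S f = 0 := by
  rw [← loc_univ ω f]
  exact (loc_subset ω (Set.subset_univ _) fun v _ hv => h v hv).symm

/-- The local component on a finite set of places is the sum of the components at its points. -/
theorem loc_finset (ω : WeilDiff K F) (s : Finset (Place K F)) (f : F) :
    loc ω (↑s : Set (Place K F)) f = ∑ v ∈ s, loc ω {v} f := by
  classical
  induction s using Finset.induction_on with
  | empty => simp [loc_empty]
  | insert a s ha ih =>
    rw [Finset.sum_insert ha, ← ih, Finset.coe_insert, Set.insert_eq, loc_union ω]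
    exact Set.disjoint_singleton_left.mpr (by simpa using ha)

end Loc


/-! ## Plane models and Euler's formula -/

section Euler

/-- `aeval` of an element of a valuation ring stays in the valuation ring. -/
theorem aeval_mem (v : Place K F) {z : F} (hz : z ∈ v.toValuationSubring) (g : K[X]) :
    aeval z g ∈ v.toValuationSubring := by
  have h := Polynomial.aeval_algebraMap_apply F (⟨z, hz⟩ : v.toValuationSubring) g
  have h2 : algebraMap v.toValuationSubring F ⟨z, hz⟩ = z := rfl
  rw [h2] at h
  rw [h]
  exact (aeval (⟨z, hz⟩ : v.toValuationSubring) g).2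

theorem inv_mem_of_ord_nonpos (v : Place K F) {f : F} (hf : v.ord f ≤ 0) :
    f⁻¹ ∈ v.toValuationSubring :=
  mem_of_ord_nonneg v (by rw [v.ord_inv]; omega)

/-- The value of a bivariate polynomial at a pair of elements of `F`, as a sum. -/
theorem aevalAeval_eq_sum (t y : F) (p : K[X][Y]) :
    p.aevalAeval t y = ∑ i ∈ Finset.range (p.natDegree + 1), aeval t (p.coeff i) * y ^ i := by
  conv_lhs => rw [p.as_sum_range_C_mul_X_pow]
  rw [map_sum]
  refine Finset.sum_congr rfl fun i _ => ?_
  rw [map_mul, map_pow, aevalAeval_C, aevalAeval_Y]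

/-- `y` is regular wherever `t` is, when `p(t, y) = 0` with `p` monic in `Y`. -/
theorem y_mem_of_t_mem {t y : F} {p : K[X][Y]} (hp : p.Monic) (hpty : p.aevalAeval t y = 0)
    (v : Place K F) (ht : t ∈ v.toValuationSubring) : y ∈ v.toValuationSubring := by
  set O := v.toValuationSubring with hO
  let f : K[X] →+* O := (aeval (⟨t, ht⟩ : O)).toRingHom
  have hf : ∀ g : K[X], ((f g : O) : F) = aeval t g := by
    intro g
    have h := Polynomial.aeval_algebraMap_apply F (⟨t, ht⟩ : O) g
    have h2 : algebraMap O F ⟨t, ht⟩ = t := rfl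
    rw [h2] at h
    exact h.symm
  have hint : IsIntegral O y := by
    refine ⟨p.map f, hp.map f, ?_⟩
    rw [Polynomial.eval₂_map, Polynomial.eval₂_eq_sum_range, ← hpty, aevalAeval_eq_sum]
    refine Finset.sum_congr rfl fun i _ => ?_
    congr 1
    exact hf _
  obtain ⟨z, hz⟩ := (IsIntegrallyClosed.isIntegral_iff (K := F)).mp hint
  rw [← hz]
  exact z.2

/-- `p(a, y)` is divisible by `t - a` in `K[t, y]`. -/
theorem exists_quot_sub {t y : F} {p : K[X][Y]} (hpty : p.aevalAeval t y = 0) (a : K) :
    ∃ r : F, (∀ v : Place K F, t ∈ v.toValuationSubring → y ∈ v.toValuationSubring →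
        r ∈ v.toValuationSubring) ∧
      aeval y (p.map (evalRingHom a)) = -((t - algebraMap K F a) * r) := by
  refine ⟨∑ i ∈ Finset.range (p.natDegree + 1),
    aeval t (p.coeff i /ₘ (X - C a)) * y ^ i, ?_, ?_⟩
  · intro v ht hy
    refine Subring.sum_mem _ fun i _ => ?_
    exact v.toValuationSubring.mul_mem _ _ (aeval_mem v ht _)
      (v.toValuationSubring.pow_mem hy i)
  · have h1 : aeval y (p.map (evalRingHom a))
        = ∑ i ∈ Finset.range (p.natDegree + 1),
            algebraMap K F ((p.coeff i).eval a) * y ^ i := by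
      rw [aeval_eq_sum_range' (Nat.lt_succ_of_le (natDegree_map_le))]
      refine Finset.sum_congr rfl fun i _ => ?_
      rw [coeff_map, coe_evalRingHom, Algebra.smul_def]
    have h2 : ∀ i, aeval t (p.coeff i)
        = (t - algebraMap K F a) * aeval t (p.coeff i /ₘ (X - C a))
          + algebraMap K F ((p.coeff i).eval a) := by
      intro i
      have h := modByMonic_add_div (p.coeff i) (X - C a)
      rw [modByMonic_X_sub_C_eq_C_eval] at h
      conv_lhs => rw [← h]
      simp only [map_add, map_mul, map_sub, aeval_C, aeval_X]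
      ring
    have h3 := hpty
    rw [aevalAeval_eq_sum] at h3
    rw [h1, Finset.mul_sum, ← Finset.sum_neg_distrib, ← sub_eq_zero, ← Finset.sum_sub_distrib,
      ← h3]
    refine Finset.sum_congr rfl fun i _ => ?_
    rw [h2 i]
    ring

/-- The places over `t = ∞`. -/
def Sinf (K : Type*) {F : Type*} [Field K] [Field F] [Algebra K F] (t : F) : Set (Place K F) :=
  {v | v.ord t < 0}

theorem mem_Sinf {t : F} {v : Place K F} : v ∈ Sinf K t ↔ v.ord t < 0 := Iff.rfl

theorem t_mem_of_notMem_Sinf {t : F} {v : Place K F} (hv : v ∉ Sinf K t) :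
    t ∈ v.toValuationSubring :=
  mem_of_ord_nonneg v (by rw [mem_Sinf] at hv; omega)

/-- The coefficient of `Y'^j` in the divided difference `(p(X, Y') - p(X, Y)) / (Y' - Y)`,
as a polynomial in `X` and `Y`. -/
def divCoeff (p : K[X][Y]) (j : ℕ) : K[X][Y] :=
  ∑ i ∈ Finset.Icc (j + 1) p.natDegree, (X : K[X][Y]) ^ (i - (j + 1)) * C (p.coeff i)

theorem evalEval_divCoeff (p : K[X][Y]) (j : ℕ) (a b : K) :
    (divCoeff p j).evalEval a b
      = ∑ i ∈ Finset.Icc (j + 1) p.natDegree, b ^ (i - (j + 1)) * (p.coeff i).eval a := by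
  rw [divCoeff, evalEval_finsetSum]
  refine Finset.sum_congr rfl fun i _ => ?_
  rw [evalEval_mul, evalEval_pow, evalEval_X, evalEval_C]

/-- `divCoeff p j` at `(a, b)` is the `j`-th coefficient of `p(a, Y) / (Y - b)`. -/
theorem coeff_divByMonic_eq_evalEval_divCoeff {p : K[X][Y]} (hp : p.Monic) (a b : K) (j : ℕ) :
    ((p.map (evalRingHom a)) /ₘ (X - C b)).coeff j = (divCoeff p j).evalEval a b := by
  rw [coeff_divByMonic_X_sub_C, hp.natDegree_map, evalEval_divCoeff]
  refine Finset.sum_congr rfl fun i _ => ?_
  rw [coeff_map, coe_evalRingHom]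

section WithPD

variable [HasPrincipalDivisors K F]

/-- A bound `M` such that `y ^ j * t⁻¹ ^ M` is regular at every pole of `t`, for `j ≤ n`. -/
def poleBound (K : Type*) {F : Type*} [Field K] [Field F] [Algebra K F] [HasPrincipalDivisors K F]
    (t y : F) (n : ℕ) : ℕ :=
  ((finite_poles (K := K) t).toFinset.sup fun v => (v.ord y).natAbs) * n

theorem pow_mul_inv_pow_mem (t y : F) (n : ℕ) {v : Place K F} (hv : v ∈ Sinf K t) {j : ℕ}
    (hj : j ≤ n) : y ^ j * t⁻¹ ^ poleBound K t y n ∈ v.toValuationSubring := by
  rw [mem_Sinf] at hv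
  set k := (v.ord y).natAbs with hk
  have ht0 : t ≠ 0 := by
    rintro rfl
    simp at hv
  have htinv : t⁻¹ ∈ v.toValuationSubring := inv_mem_of_ord_nonpos v hv.le
  have h1 : y * t⁻¹ ^ k ∈ v.toValuationSubring := by
    rcases eq_or_ne y 0 with rfl | hy
    · simp
    · apply mem_of_ord_nonneg v
      rw [v.ord_mul hy (pow_ne_zero _ (inv_ne_zero ht0)), ord_pow, v.ord_inv]
      have h2 : (k : ℤ) = |v.ord y| := by rw [hk]; exact Int.natCast_natAbs _
      have h3 : -|v.ord y| ≤ v.ord y := neg_abs_le _
      have h4 : (k : ℤ) * 1 ≤ (k : ℤ) * (-v.ord t) :=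
        mul_le_mul_of_nonneg_left (by omega) (by positivity)
      omega
  have hkM : k * j ≤ poleBound K t y n := by
    have h5 : k ≤ (finite_poles (K := K) t).toFinset.sup fun v => (v.ord y).natAbs :=
      Finset.le_sup (f := fun v : Place K F => (v.ord y).natAbs)
        ((Set.Finite.mem_toFinset _).mpr hv)
    exact Nat.mul_le_mul h5 hj
  have h6 : y ^ j * t⁻¹ ^ poleBound K t y n
      = (y * t⁻¹ ^ k) ^ j * t⁻¹ ^ (poleBound K t y n - k * j) := by
    rw [mul_pow, ← pow_mul, mul_assoc, ← pow_add, Nat.add_sub_cancel' hkM]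
  rw [h6]
  exact v.toValuationSubring.mul_mem _ _ (v.toValuationSubring.pow_mem h1 j)
    (v.toValuationSubring.pow_mem htinv _)

/-- The numerator polynomial `N_ω(X, Y)` of a Weil differential in the plane model
`p(t, y) = 0`:  "`ω = N_ω(t, y) / p_Y(t, y) dt`". -/
def numer (t y : F) (p : K[X][Y]) : WeilDiff K F →ₗ[K] K[X][Y] :=
  -∑ j ∈ Finset.range (p.natDegree + 1), ∑ m ∈ Finset.range (poleBound K t y p.natDegree),
    (locL (Sinf K t) (y ^ j * t⁻¹ ^ (m + 1))).smulRight (divCoeff p j * C (X ^ m))

theorem evalEval_numer (t y : F) (p : K[X][Y]) (ω : WeilDiff K F) (a b : K) :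
    (numer t y p ω).evalEval a b
      = -∑ j ∈ Finset.range (p.natDegree + 1),
          ∑ m ∈ Finset.range (poleBound K t y p.natDegree),
            loc ω (Sinf K t) (y ^ j * t⁻¹ ^ (m + 1)) * ((divCoeff p j).evalEval a b * a ^ m) := by
  simp only [numer, LinearMap.neg_apply, LinearMap.coe_sum, Finset.sum_apply,
    LinearMap.smulRight_apply, locL_apply, evalEval_neg, evalEval_finsetSum]
  congr 1
  refine Finset.sum_congr rfl fun j _ => Finset.sum_congr rfl fun m _ => ?_
  rw [evalEval_smul, evalEval_mul, evalEval_C, eval_pow, eval_X, smul_eq_mul]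

/-- `Q` is a simple place of the plane model over the point `(a, b)`: `t - a` is a uniformizer
at `Q`, `y - b` vanishes at `Q`, and `Q` is the only place where both `t - a` and `y - b`
vanish. -/
structure IsSimplePlace (t y : F) (a b : K) (Q : Place K F) : Prop where
  ord_t : Q.ord (t - algebraMap K F a) = 1
  ord_y : 0 < Q.ord (y - algebraMap K F b)
  unique : ∀ P : Place K F, 0 < P.ord (t - algebraMap K F a) →
    0 < P.ord (y - algebraMap K F b) → P = Q

omit [HasPrincipalDivisors K F] in
theorem IsSimplePlace.t_mem {t y : F} {a b : K} {Q : Place K F} (hQ : IsSimplePlace t y a b Q) :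
    t ∈ Q.toValuationSubring := by
  have h : t = (t - algebraMap K F a) + algebraMap K F a := by ring
  rw [h]
  exact Q.toValuationSubring.add_mem _ _
    (mem_of_ord_nonneg Q (by rw [hQ.ord_t]; norm_num)) (Q.algebraMap_mem' a)

omit [HasPrincipalDivisors K F] in
theorem IsSimplePlace.y_mem {t y : F} {a b : K} {Q : Place K F} (hQ : IsSimplePlace t y a b Q) :
    y ∈ Q.toValuationSubring := by
  have h : y = (y - algebraMap K F b) + algebraMap K F b := by ring
  rw [h]
  exact Q.toValuationSubring.add_mem _ _
    (mem_of_ord_nonneg Q hQ.ord_y.le) (Q.algebraMap_mem' b)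

omit [HasPrincipalDivisors K F] in
theorem IsSimplePlace.notMem_Sinf {t y : F} {a b : K} {Q : Place K F}
    (hQ : IsSimplePlace t y a b Q) : Q ∉ Sinf K t := fun h' => by
  rw [mem_Sinf] at h'
  have := ord_nonneg_of_mem Q hQ.t_mem
  omega

/-- The geometric expansion of `1 / (t - α)` at `t = ∞`. -/
theorem inv_sub_eq_geom {t α : F} (ht : t ≠ 0) (hu : t - α ≠ 0) (M : ℕ) :
    (t - α)⁻¹ = ∑ m ∈ Finset.range M, α ^ m * t⁻¹ ^ (m + 1) + α ^ M * t⁻¹ ^ M * (t - α)⁻¹ := by
  have h1 : (1 - α * t⁻¹) * ∑ m ∈ Finset.range M, (α * t⁻¹) ^ m = 1 - (α * t⁻¹) ^ M :=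
    mul_neg_geom_sum _ _
  have h2 : ∑ m ∈ Finset.range M, α ^ m * t⁻¹ ^ (m + 1)
      = t⁻¹ * ∑ m ∈ Finset.range M, (α * t⁻¹) ^ m := by
    rw [Finset.mul_sum]
    refine Finset.sum_congr rfl fun m _ => ?_
    rw [mul_pow, pow_succ]
    ring
  have h3 : (t - α) * t⁻¹ = 1 - α * t⁻¹ := by
    field_simp
  have h4 : (t - α) * ∑ m ∈ Finset.range M, α ^ m * t⁻¹ ^ (m + 1) = 1 - (α * t⁻¹) ^ M := by
    rw [h2, ← mul_assoc, h3, h1]
  have h5 : ∑ m ∈ Finset.range M, α ^ m * t⁻¹ ^ (m + 1)
      = (1 - (α * t⁻¹) ^ M) * (t - α)⁻¹ := by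
    rw [← h4]
    field_simp
  rw [h5, mul_pow]
  ring

/-- **Euler's formula.**  For a plane model `p(t, y) = 0` with `p` monic in `Y`, a Weil
differential `ω` and a simple place `Q` over the point `(a, b)` of the model:
`p_Y(a, b) * ω_Q(1 / (t - a)) = N_ω(a, b)`. -/
theorem euler_formula {t y : F} {p : K[X][Y]} (hp : p.Monic) (hpty : p.aevalAeval t y = 0)
    (ω : WeilDiff K F) {a b : K} {Q : Place K F} (hab : p.evalEval a b = 0)
    (hQ : IsSimplePlace t y a b Q) :
    (derivative p).evalEval a b * loc ω {Q} (t - algebraMap K F a)⁻¹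
      = (numer t y p ω).evalEval a b := by
  set u := t - algebraMap K F a with hu
  set pa := p.map (evalRingHom a) with hpa
  set q := pa /ₘ (X - C b) with hq
  have hroot : pa.IsRoot b := by
    rw [IsRoot, hpa, map_evalRingHom_eval]
    exact hab
  have hqmul : (X - C b) * q = pa := mul_divByMonic_eq_iff_isRoot.mpr hroot
  have hu0 : u ≠ 0 := uniformizer_ne_zero Q hQ.ord_t
  have hyb0 : y - algebraMap K F b ≠ 0 := by
    intro h0
    have := hQ.ord_y
    rw [h0] at this
    simp at this
  have hqy : (y - algebraMap K F b) * aeval y q = aeval y pa := by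
    rw [← hqmul]
    simp
  set h := aeval y q * u⁻¹ with hh
  have hdisj : Disjoint ({Q} : Set (Place K F)) (Sinf K t) :=
    Set.disjoint_singleton_left.mpr hQ.notMem_Sinf
  -- `h` is regular away from `Q` and the poles of `t`
  obtain ⟨r, hr, hrel⟩ := exists_quot_sub hpty a
  have hreg : ∀ v : Place K F, v ∉ ({Q} : Set (Place K F)) → v ∉ Sinf K t →
      h ∈ v.toValuationSubring := by
    intro v hvQ hvinf
    have ht := t_mem_of_notMem_Sinf hvinf
    have hy := y_mem_of_t_mem hp hpty v ht
    by_cases hupos : 0 < v.ord u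
    · have hyb : ¬ 0 < v.ord (y - algebraMap K F b) := fun hyb => hvQ (hQ.unique v hupos hyb)
      have hinv : (y - algebraMap K F b)⁻¹ ∈ v.toValuationSubring :=
        inv_mem_of_ord_nonpos v (by omega)
      have h1 : h = -(r * (y - algebraMap K F b)⁻¹) := by
        have h2 : aeval y q = -(u * r) * (y - algebraMap K F b)⁻¹ := by
          rw [← hrel, ← hqy]
          field_simp
        rw [hh, h2]
        field_simp
      rw [h1]
      exact v.toValuationSubring.neg_mem _ (v.toValuationSubring.mul_mem _ _ (hr v ht hy) hinv)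
    · exact v.toValuationSubring.mul_mem _ _ (aeval_mem v hy q)
        (inv_mem_of_ord_nonpos v (by omega))
  -- the polar part of `h` at `Q`
  have hQloc : loc ω {Q} h = q.eval b * loc ω {Q} u⁻¹ := by
    have h1 : loc ω {Q} h = loc ω {Q} (q.eval b • u⁻¹) := by
      refine loc_congr ω fun v hv => ?_
      rw [Set.mem_singleton_iff] at hv
      subst hv
      have h2 := modByMonic_add_div q (X - C b)
      rw [modByMonic_X_sub_C_eq_C_eval] at h2
      have h3 : aeval y q = algebraMap K F (q.eval b)
          + (y - algebraMap K F b) * aeval y (q /ₘ (X - C b)) := by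
        conv_lhs => rw [← h2]
        simp
      have h4 : h - q.eval b • u⁻¹
          = ((y - algebraMap K F b) * u⁻¹) * aeval y (q /ₘ (X - C b)) := by
        rw [hh, h3, Algebra.smul_def]
        ring
      rw [h4]
      refine v.toValuationSubring.mul_mem _ _ (mem_of_ord_nonneg v ?_) (aeval_mem v hQ.y_mem _)
      rw [v.ord_mul hyb0 (inv_ne_zero hu0), v.ord_inv, hQ.ord_t]
      have := hQ.ord_y
      omega
    rw [h1, map_smul, smul_eq_mul]
  -- the polar part of `h` at the poles of `t`
  set n := p.natDegree with hn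
  set M := poleBound K t y n with hM
  have hqdeg : q.natDegree < n + 1 := by
    have h1 : q.natDegree ≤ pa.natDegree := by
      rw [hq, natDegree_divByMonic _ (monic_X_sub_C b)]
      exact Nat.sub_le _ _
    have h2 : pa.natDegree ≤ n := natDegree_map_le
    omega
  have hinfloc : loc ω (Sinf K t) h
      = ∑ j ∈ Finset.range (n + 1), ∑ m ∈ Finset.range M,
          (q.coeff j * a ^ m) * loc ω (Sinf K t) (y ^ j * t⁻¹ ^ (m + 1)) := by
    have h1 : loc ω (Sinf K t) h = loc ω (Sinf K t)
        (∑ j ∈ Finset.range (n + 1), ∑ m ∈ Finset.range M,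
          (q.coeff j * a ^ m) • (y ^ j * t⁻¹ ^ (m + 1))) := by
      refine loc_congr ω fun v hv => ?_
      have hv' := hv
      rw [mem_Sinf] at hv'
      have ht0 : t ≠ 0 := by
        rintro rfl
        simp at hv'
      have hordu : v.ord u = v.ord t := ord_sub_algebraMap_of_ord_neg v hv' a
      have huinv : u⁻¹ ∈ v.toValuationSubring := inv_mem_of_ord_nonpos v (by omega)
      have hgeom := inv_sub_eq_geom (α := algebraMap K F a) ht0 hu0 M
      have h2 : h - ∑ j ∈ Finset.range (n + 1), ∑ m ∈ Finset.range M,
            (q.coeff j * a ^ m) • (y ^ j * t⁻¹ ^ (m + 1))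
          = ∑ j ∈ Finset.range (n + 1),
            algebraMap K F (q.coeff j) * (algebraMap K F a) ^ M * (y ^ j * t⁻¹ ^ M) * u⁻¹ := by
        rw [hh, aeval_eq_sum_range' hqdeg, Finset.sum_mul, ← Finset.sum_sub_distrib]
        refine Finset.sum_congr rfl fun j _ => ?_
        have h3 : ∑ m ∈ Finset.range M, (q.coeff j * a ^ m) • (y ^ j * t⁻¹ ^ (m + 1))
            = algebraMap K F (q.coeff j) * y ^ j
              * ∑ m ∈ Finset.range M, (algebraMap K F a) ^ m * t⁻¹ ^ (m + 1) := by
          rw [Finset.mul_sum]
          refine Finset.sum_congr rfl fun m _ => ?_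
          rw [Algebra.smul_def, map_mul, map_pow]
          ring
        rw [h3, Algebra.smul_def]
        conv_lhs => rw [hgeom]
        ring
      rw [h2]
      refine Subring.sum_mem _ fun j hj => ?_
      have hj' : j ≤ n := Nat.lt_succ_iff.mp (Finset.mem_range.mp hj)
      exact v.toValuationSubring.mul_mem _ _
        (v.toValuationSubring.mul_mem _ _
          (v.toValuationSubring.mul_mem _ _ (v.algebraMap_mem' _)
            (v.toValuationSubring.pow_mem (v.algebraMap_mem' a) M))
          (pow_mul_inv_pow_mem t y n hv hj')) huinv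
    rw [h1, map_sum]
    refine Finset.sum_congr rfl fun j _ => ?_
    rw [map_sum]
    refine Finset.sum_congr rfl fun m _ => ?_
    rw [map_smul, smul_eq_mul]
  -- the derivative
  have hderiv : q.eval b = (derivative p).evalEval a b := by
    have h1 : derivative pa = q + (X - C b) * derivative q := by
      rw [← hqmul, derivative_mul]
      simp
    have h2 : (derivative pa).eval b = q.eval b := by
      rw [h1]
      simp
    rw [← h2, hpa, derivative_map, map_evalRingHom_eval]
  -- residue theorem
  have hres := loc_add_loc_eq_zero ω hdisj hreg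
  rw [hQloc, hinfloc] at hres
  rw [evalEval_numer, ← hderiv, eq_neg_of_add_eq_zero_left hres]
  congr 1
  refine Finset.sum_congr rfl fun j _ => Finset.sum_congr rfl fun m _ => ?_
  rw [← coeff_divByMonic_eq_evalEval_divCoeff hp a b j]
  ring

end WithPD

end Euler

end Fermat.Agent.S27.helper1680
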