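import Fermat.Agent.S27.helper6247_Spec
import Fermat.Agent.S27.helper1680_WeilDiff
import Fermat.Agent.S27.helper4586_Ev
import Fermat.Agent.S24.helper483_PlacesFF

/-!
# S27-M3 (helper1680): `Stmt_WeilCoeff` — Weil differentials are `φ du`

`weilCoeff_of : Stmt_SimplePoint → Stmt_SepCoord → Stmt_WeilCoeff` (Spec `helper6247_Spec`,
verbatim).  `Stmt_Ev` is used through the unconditional kit `helper4586_Ev`.

Proof.  For a monic plane model `χ(t, y) = 0` the function
`φ = N(t, y) / χ_Y(t, y)` (`N = numer t y χ lam`, `helper1680_WeilDiff`) satisfies, at every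
place `Q` which is a simple point of the model, `lam (pp Q (t - t(Q))⁻¹) = φ(Q)` (Euler's
formula, here in the value form `euler_formula'` which also covers constant `y`).  All but
finitely many places are simple points of a given model, so the functions `φ` of two models
whose coordinates differ by a constant agree at infinitely many places, hence are equal.
Each place `P` where `u - c` is a uniformizer is a simple point of some model with coordinate
`u - c` (`Stmt_SepCoord`).
-/

set_option autoImplicit false

noncomputable section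

namespace Fermat.Agent.S27.helper1680

open AlgebraicCurve Polynomial IntermediateField
open scoped Polynomial.Bivariate
open Fermat.Agent.S24.helper1370

section General

variable {K F : Type*} [Field K] [Field F] [Algebra K F]

/-! ## The Spec's principal parts are local components -/

theorem rsingle_eq_iota [HasPrincipalDivisors K F] (P : Place K F) (f : F) :
    helper6247.rsingle P f = iota {P} f := by
  apply Subtype.ext
  funext Q
  by_cases h : Q = P
  · subst h
    rw [iota_apply_of_mem (Set.mem_singleton _)]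
    simp [helper6247.rsingle]
  · rw [iota_apply_of_notMem (by simpa using h)]
    simp [helper6247.rsingle, h]

theorem lam_pp [HasPrincipalDivisors K F] (lam : WeilDiff K F) (P : Place K F) (f : F) :
    lam (helper6247.pp P f) = loc lam {P} f := by
  rw [loc_apply, helper6247.pp, rsingle_eq_iota]

/-! ## Values of bivariate polynomials -/

theorem evalEval_eq_sum (a b : K) (p : K[X][Y]) :
    p.evalEval a b = ∑ i ∈ Finset.range (p.natDegree + 1), (p.coeff i).eval a * b ^ i := by
  conv_lhs => rw [p.as_sum_range_C_mul_X_pow]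
  rw [evalEval_finsetSum]
  refine Finset.sum_congr rfl fun i _ => ?_
  rw [evalEval_mul, evalEval_pow, evalEval_C, evalEval_X]

theorem isVal_aevalAeval {P : Place K F} {t y : F} {a b : K} (ht : helper4586.IsVal P t a)
    (hy : helper4586.IsVal P y b) (G : K[X][Y]) :
    helper4586.IsVal P (G.aevalAeval t y) (G.evalEval a b) := by
  rw [aevalAeval_eq_sum, evalEval_eq_sum]
  exact helper4586.IsVal.sum _ fun i _ => (ht.aeval (G.coeff i)).mul (hy.pow i)

/-! ## Euler's formula, value form -/

/-- `Q` is a simple point of the plane model over `(a, b)`, value form: `t - a` is a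
uniformizer at `Q`, `y` has the value `b` at `Q`, and `Q` is the only place where `t - a`
vanishes and `y` has the value `b`.  (Unlike `IsSimplePlace` this allows `y` constant.) -/
structure IsSimplePt (t y : F) (a b : K) (Q : Place K F) : Prop where
  ord_t : Q.ord (t - algebraMap K F a) = 1
  val_y : y = algebraMap K F b ∨ 0 < Q.ord (y - algebraMap K F b)
  unique : ∀ P : Place K F, 0 < P.ord (t - algebraMap K F a) →
    (y = algebraMap K F b ∨ 0 < P.ord (y - algebraMap K F b)) → P = Q

theorem IsSimplePt.t_mem {t y : F} {a b : K} {Q : Place K F} (hQ : IsSimplePt t y a b Q) :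
    t ∈ Q.toValuationSubring := by
  have h : t = (t - algebraMap K F a) + algebraMap K F a := by ring
  rw [h]
  exact Q.toValuationSubring.add_mem _ _
    (mem_of_ord_nonneg Q (by rw [hQ.ord_t]; norm_num)) (Q.algebraMap_mem' a)

theorem IsSimplePt.y_mem {t y : F} {a b : K} {Q : Place K F} (hQ : IsSimplePt t y a b Q) :
    y ∈ Q.toValuationSubring := by
  rcases hQ.val_y with h0 | hpos
  · rw [h0]
    exact Q.algebraMap_mem' b
  · have h : y = (y - algebraMap K F b) + algebraMap K F b := by ring
    rw [h]
    exact Q.toValuationSubring.add_mem _ _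
      (mem_of_ord_nonneg Q hpos.le) (Q.algebraMap_mem' b)

theorem IsSimplePt.notMem_Sinf {t y : F} {a b : K} {Q : Place K F}
    (hQ : IsSimplePt t y a b Q) : Q ∉ Sinf K t := fun h' => by
  rw [mem_Sinf] at h'
  have := ord_nonneg_of_mem Q hQ.t_mem
  omega

/-- **Euler's formula**, value form.  For a plane model `p(t, y) = 0` with `p` monic in `Y`,
a Weil differential `ω` and a simple point `Q` over `(a, b)` of the model:
`p_Y(a, b) * ω_Q(1 / (t - a)) = N_ω(a, b)`. -/
theorem euler_formula' [HasPrincipalDivisors K F] {t y : F} {p : K[X][Y]} (hp : p.Monic)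
    (hpty : p.aevalAeval t y = 0) (ω : WeilDiff K F) {a b : K} {Q : Place K F}
    (hab : p.evalEval a b = 0) (hQ : IsSimplePt t y a b Q) :
    (derivative p).evalEval a b * loc ω {Q} (t - algebraMap K F a)⁻¹
      = (numer t y p ω).evalEval a b := by
  set u := t - algebraMap K F a with hu
  set pa := p.map (evalRingHom a) with hpa
  set q := pa /ₘ (X - C b) with hq
  have hroot : pa.IsRoot b := by
    rw [IsRoot, hpa, map_evalRingHom_eval]
    exact hab
  have hqmul : (X - C b) * q = pa := mul_divByMonic_eq_iff_isRoot.mpr hroot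
  have hu0 : u ≠ 0 := uniformizer_ne_zero Q hQ.ord_t
  have hqy : (y - algebraMap K F b) * aeval y q = aeval y pa := by
    rw [← hqmul]
    simp
  set h := aeval y q * u⁻¹ with hh
  have hdisj : Disjoint ({Q} : Set (Place K F)) (Sinf K t) :=
    Set.disjoint_singleton_left.mpr hQ.notMem_Sinf
  -- `h` is regular away from `Q` and the poles of `t`
  obtain ⟨r, hr, hrel⟩ := exists_quot_sub hpty a
  have hreg : ∀ v : Place K F, v ∉ ({Q} : Set (Place K F)) → v ∉ Sinf K t →
      h ∈ v.toValuationSubring := by
    intro v hvQ hvinf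
    have ht := t_mem_of_notMem_Sinf hvinf
    have hy := y_mem_of_t_mem hp hpty v ht
    by_cases hupos : 0 < v.ord u
    · have hyb : ¬ (y = algebraMap K F b ∨ 0 < v.ord (y - algebraMap K F b)) :=
        fun hyb => hvQ (hQ.unique v hupos hyb)
      rw [not_or] at hyb
      have hyb0 : y - algebraMap K F b ≠ 0 := sub_ne_zero.mpr hyb.1
      have hyb2 := hyb.2
      have hinv : (y - algebraMap K F b)⁻¹ ∈ v.toValuationSubring :=
        inv_mem_of_ord_nonpos v (by omega)
      have h1 : h = -(r * (y - algebraMap K F b)⁻¹) := by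
        have h2 : aeval y q = -(u * r) * (y - algebraMap K F b)⁻¹ := by
          rw [← hrel, ← hqy]
          field_simp
        rw [hh, h2]
        field_simp
      rw [h1]
      exact v.toValuationSubring.neg_mem _ (v.toValuationSubring.mul_mem _ _ (hr v ht hy) hinv)
    · exact v.toValuationSubring.mul_mem _ _ (aeval_mem v hy q)
        (inv_mem_of_ord_nonpos v (by omega))
  -- the polar part of `h` at `Q`
  have hQloc : loc ω {Q} h = q.eval b * loc ω {Q} u⁻¹ := by
    have h1 : loc ω {Q} h = loc ω {Q} (q.eval b • u⁻¹) := by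
      refine loc_congr ω fun v hv => ?_
      rw [Set.mem_singleton_iff] at hv
      subst hv
      have h2 := modByMonic_add_div q (X - C b)
      rw [modByMonic_X_sub_C_eq_C_eval] at h2
      have h3 : aeval y q = algebraMap K F (q.eval b)
          + (y - algebraMap K F b) * aeval y (q /ₘ (X - C b)) := by
        conv_lhs => rw [← h2]
        simp
      have h4 : h - q.eval b • u⁻¹
          = ((y - algebraMap K F b) * u⁻¹) * aeval y (q /ₘ (X - C b)) := by
        rw [hh, h3, Algebra.smul_def]
        ring
      rw [h4]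
      refine v.toValuationSubring.mul_mem _ _ ?_ (aeval_mem v hQ.y_mem _)
      rcases hQ.val_y with hy0 | hypos
      · rw [hy0, sub_self, zero_mul]
        exact v.toValuationSubring.zero_mem
      · have hyb0 : y - algebraMap K F b ≠ 0 := by
          intro h0
          rw [h0] at hypos
          simp at hypos
        apply mem_of_ord_nonneg v
        rw [v.ord_mul hyb0 (inv_ne_zero hu0), v.ord_inv, hQ.ord_t]
        omega
    rw [h1, map_smul, smul_eq_mul]
  -- the polar part of `h` at the poles of `t`
  set n := p.natDegree with hn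
  set M := poleBound K t y n with hM
  have hqdeg : q.natDegree < n + 1 := by
    have h1 : q.natDegree ≤ pa.natDegree := by
      rw [hq, natDegree_divByMonic _ (monic_X_sub_C b)]
      exact Nat.sub_le _ _
    have h2 : pa.natDegree ≤ n := natDegree_map_le
    omega
  have hinfloc : loc ω (Sinf K t) h
      = ∑ j ∈ Finset.range (n + 1), ∑ m ∈ Finset.range M,
          (q.coeff j * a ^ m) * loc ω (Sinf K t) (y ^ j * t⁻¹ ^ (m + 1)) := by
    have h1 : loc ω (Sinf K t) h = loc ω (Sinf K t)
        (∑ j ∈ Finset.range (n + 1), ∑ m ∈ Finset.range M,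
          (q.coeff j * a ^ m) • (y ^ j * t⁻¹ ^ (m + 1))) := by
      refine loc_congr ω fun v hv => ?_
      have hv' := hv
      rw [mem_Sinf] at hv'
      have ht0 : t ≠ 0 := by
        rintro rfl
        simp at hv'
      have hordu : v.ord u = v.ord t := ord_sub_algebraMap_of_ord_neg v hv' a
      have huinv : u⁻¹ ∈ v.toValuationSubring := inv_mem_of_ord_nonpos v (by omega)
      have hgeom := inv_sub_eq_geom (α := algebraMap K F a) ht0 hu0 M
      have h2 : h - ∑ j ∈ Finset.range (n + 1), ∑ m ∈ Finset.range M,
            (q.coeff j * a ^ m) • (y ^ j * t⁻¹ ^ (m + 1))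
          = ∑ j ∈ Finset.range (n + 1),
            algebraMap K F (q.coeff j) * (algebraMap K F a) ^ M * (y ^ j * t⁻¹ ^ M) * u⁻¹ := by
        rw [hh, aeval_eq_sum_range' hqdeg, Finset.sum_mul, ← Finset.sum_sub_distrib]
        refine Finset.sum_congr rfl fun j _ => ?_
        have h3 : ∑ m ∈ Finset.range M, (q.coeff j * a ^ m) • (y ^ j * t⁻¹ ^ (m + 1))
            = algebraMap K F (q.coeff j) * y ^ j
              * ∑ m ∈ Finset.range M, (algebraMap K F a) ^ m * t⁻¹ ^ (m + 1) := by
          rw [Finset.mul_sum]
          refine Finset.sum_congr rfl fun m _ => ?_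
          rw [Algebra.smul_def, map_mul, map_pow]
          ring
        rw [h3, Algebra.smul_def]
        conv_lhs => rw [hgeom]
        ring
      rw [h2]
      refine Subring.sum_mem _ fun j hj => ?_
      have hj' : j ≤ n := Nat.lt_succ_iff.mp (Finset.mem_range.mp hj)
      exact v.toValuationSubring.mul_mem _ _
        (v.toValuationSubring.mul_mem _ _
          (v.toValuationSubring.mul_mem _ _ (v.algebraMap_mem' _)
            (v.toValuationSubring.pow_mem (v.algebraMap_mem' a) M))
          (pow_mul_inv_pow_mem t y n hv hj')) huinv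
    rw [h1, map_sum]
    refine Finset.sum_congr rfl fun j _ => ?_
    rw [map_sum]
    refine Finset.sum_congr rfl fun m _ => ?_
    rw [map_smul, smul_eq_mul]
  -- the derivative
  have hderiv : q.eval b = (derivative p).evalEval a b := by
    have h1 : derivative pa = q + (X - C b) * derivative q := by
      rw [← hqmul, derivative_mul]
      simp
    have h2 : (derivative pa).eval b = q.eval b := by
      rw [h1]
      simp
    rw [← h2, hpa, derivative_map, map_evalRingHom_eval]
  -- residue theorem
  have hres := loc_add_loc_eq_zero ω hdisj hreg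
  rw [hQloc, hinfloc] at hres
  rw [evalEval_numer, ← hderiv, eq_neg_of_add_eq_zero_left hres]
  congr 1
  refine Finset.sum_congr rfl fun j _ => Finset.sum_congr rfl fun m _ => ?_
  rw [← coeff_divByMonic_eq_evalEval_divCoeff hp a b j]
  ring

end General

/-! ## Plane models -/

section Model

universe uK uF

variable {K : Type uK} {F : Type uF} [Field K] [Field F] [Algebra K F]

/-- The `Y`-derivative of the monic generator of the relations of `(t, y)` does not vanish
at `(t, y)` (characteristic zero). -/
theorem derivative_aevalAeval_ne_zero [CharZero K] {t y : F} {χ : K[X][Y]} (hχ : χ.Monic)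
    (hrel : χ.aevalAeval t y = 0) (hmin : ∀ G : K[X][Y], G.aevalAeval t y = 0 → χ ∣ G) :
    (derivative χ).aevalAeval t y ≠ 0 := by
  intro h0
  have hdeg : χ.natDegree ≠ 0 := by
    intro hd
    have h1 : χ = 1 := hχ.natDegree_eq_zero.mp hd
    rw [h1] at hrel
    simp at hrel
  have hder : derivative χ ≠ 0 := fun hd => hdeg (Polynomial.derivative_eq_zero.mp hd)
  exact hder (eq_zero_of_dvd_of_natDegree_lt (hmin _ h0) (natDegree_derivative_lt hdeg))

/-- A place where `t` is regular and `χ_Y` does not vanish is a simple point of the model. -/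
theorem isSimplePt_of (hSP : helper6247.Stmt_SimplePoint.{uK, uF}) [IsAlgClosed K] [CharZero K]
    {t y : F} {χ : K[X][Y]} (ht : Transcendental K t)
    (hgen : IntermediateField.adjoin K {t, y} = ⊤) (hrel : χ.aevalAeval t y = 0)
    (hmin : ∀ G : K[X][Y], G.aevalAeval t y = 0 → χ ∣ G) {Q : Place K F}
    (hQ : helper4586.HasValues Q) (hQt : 0 ≤ Q.ord t) (hQy : 0 ≤ Q.ord y)
    (hder : (derivative χ).evalEval (helper6247.ev Q t) (helper6247.ev Q y) ≠ 0) :
    χ.evalEval (helper6247.ev Q t) (helper6247.ev Q y) = 0 ∧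
      IsSimplePt t y (helper6247.ev Q t) (helper6247.ev Q y) Q := by
  have hvt := helper4586.isVal_ev hQ hQt
  have hvy := helper4586.isVal_ev hQ hQy
  have hab : χ.evalEval (helper6247.ev Q t) (helper6247.ev Q y) = 0 := by
    have h1 := isVal_aevalAeval hvt hvy χ
    rw [hrel] at h1
    exact h1.unique (helper4586.isVal_zero Q)
  obtain ⟨P, hP1, -, -, hPuniq, -⟩ := hSP K F t y χ _ _ ht hgen hrel hmin hab hder
  have hQa : 0 < Q.ord (t - algebraMap K F (helper6247.ev Q t)) :=
    (helper4586.eq_or_ord_sub_ev_pos hQ hQt).resolve_left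
      (fun h => ht (h ▸ isAlgebraic_algebraMap _))
  have hQP : Q = P := hPuniq Q hQa hQy rfl
  subst hQP
  refine ⟨hab, hP1, helper4586.eq_or_ord_sub_ev_pos hQ hQy, fun P' h1 h2 => ?_⟩
  have h3 : helper4586.IsVal P' y (helper6247.ev Q y) := (helper4586.isVal_iff P' y _).mpr h2
  exact hPuniq P' h1 h3.ord_nonneg h3.ev_eq

/-- The coefficient `φ = N(t, y) / χ_Y(t, y)` of `lam` in the plane model `(t, y, χ)`:
"`lam = φ dt`". -/
def coeffFun [HasPrincipalDivisors K F] (lam : WeilDiff K F) (t y : F) (χ : K[X][Y]) : F :=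
  (numer t y χ lam).aevalAeval t y / (derivative χ).aevalAeval t y

/-- At a simple point `Q` of the model, `φ` is regular with value `lam` of the principal part
`1 / (t - t(Q))` at `Q`. -/
theorem coeffFun_spec (hSP : helper6247.Stmt_SimplePoint.{uK, uF}) [IsAlgClosed K] [CharZero K]
    [HasPrincipalDivisors K F] (lam : WeilDiff K F) {t y : F} {χ : K[X][Y]} (hχ : χ.Monic)
    (ht : Transcendental K t) (hgen : IntermediateField.adjoin K {t, y} = ⊤)
    (hrel : χ.aevalAeval t y = 0) (hmin : ∀ G : K[X][Y], G.aevalAeval t y = 0 → χ ∣ G)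
    {Q : Place K F} (hQ : helper4586.HasValues Q) (hQt : 0 ≤ Q.ord t)
    (hder : (derivative χ).evalEval (helper6247.ev Q t) (helper6247.ev Q y) ≠ 0) :
    helper4586.IsVal Q (coeffFun lam t y χ)
      (loc lam {Q} (t - algebraMap K F (helper6247.ev Q t))⁻¹) := by
  have hQy : 0 ≤ Q.ord y :=
    ord_nonneg_of_mem Q (y_mem_of_t_mem hχ hrel Q (mem_of_ord_nonneg Q hQt))
  have hvt := helper4586.isVal_ev hQ hQt
  have hvy := helper4586.isVal_ev hQ hQy
  obtain ⟨hab, hsimple⟩ := isSimplePt_of hSP ht hgen hrel hmin hQ hQt hQy hder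
  have he := euler_formula' hχ hrel lam hab hsimple
  have h1 := isVal_aevalAeval hvt hvy (numer t y χ lam)
  have h2 := isVal_aevalAeval hvt hvy (derivative χ)
  have h3 := h1.div h2 hder
  have h4 : loc lam {Q} (t - algebraMap K F (helper6247.ev Q t))⁻¹
      = (numer t y χ lam).evalEval (helper6247.ev Q t) (helper6247.ev Q y)
        / (derivative χ).evalEval (helper6247.ev Q t) (helper6247.ev Q y) :=
    eq_div_of_mul_eq hder (by rw [mul_comm]; exact he)
  rw [h4]
  exact h3

/-- All but finitely many places are simple points of a plane model. -/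
theorem finite_bad [HasPrincipalDivisors K F] {t y : F} {χ : K[X][Y]}
    (hD : (derivative χ).aevalAeval t y ≠ 0) (hval : ∀ Q : Place K F, helper4586.HasValues Q)
    (hreg : ∀ Q : Place K F, 0 ≤ Q.ord t → 0 ≤ Q.ord y) :
    {Q : Place K F | ¬ (0 ≤ Q.ord t ∧
      (derivative χ).evalEval (helper6247.ev Q t) (helper6247.ev Q y) ≠ 0)}.Finite := by
  refine ((finite_poles (K := K) t).union
    (finite_poles (K := K) ((derivative χ).aevalAeval t y)⁻¹)).subset fun Q hQ => ?_
  by_cases hQt : 0 ≤ Q.ord t
  · right
    have hQ' : ¬ (0 ≤ Q.ord t ∧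
      (derivative χ).evalEval (helper6247.ev Q t) (helper6247.ev Q y) ≠ 0) := hQ
    have h0 : (derivative χ).evalEval (helper6247.ev Q t) (helper6247.ev Q y) = 0 := by
      by_contra hne
      exact hQ' ⟨hQt, hne⟩
    have h1 := isVal_aevalAeval (helper4586.isVal_ev (hval Q) hQt)
      (helper4586.isVal_ev (hval Q) (hreg Q hQt)) (derivative χ)
    rw [h0, helper4586.isVal_zero_iff] at h1
    have h2 : 0 < Q.ord ((derivative χ).aevalAeval t y) := h1.resolve_left hD
    show Q.ord ((derivative χ).aevalAeval t y)⁻¹ < 0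
    rw [Q.ord_inv]
    omega
  · left
    show Q.ord t < 0
    omega

/-- The coefficient functions of two plane models whose coordinates differ by a constant
agree. -/
theorem coeffFun_eq_of_sub_const (hSP : helper6247.Stmt_SimplePoint.{uK, uF}) [IsAlgClosed K]
    [CharZero K] [HasPrincipalDivisors K F] (hval : ∀ Q : Place K F, helper4586.HasValues Q)
    (hinf : (Set.univ : Set (Place K F)).Infinite) (lam : WeilDiff K F)
    {t y : F} {χ : K[X][Y]} (hχ : χ.Monic)
    (ht : Transcendental K t) (hgen : IntermediateField.adjoin K {t, y} = ⊤)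
    (hrel : χ.aevalAeval t y = 0) (hmin : ∀ G : K[X][Y], G.aevalAeval t y = 0 → χ ∣ G)
    {t' y' : F} {χ' : K[X][Y]} (hχ' : χ'.Monic)
    (ht' : Transcendental K t') (hgen' : IntermediateField.adjoin K {t', y'} = ⊤)
    (hrel' : χ'.aevalAeval t' y' = 0) (hmin' : ∀ G : K[X][Y], G.aevalAeval t' y' = 0 → χ' ∣ G)
    (d : K) (htt' : t' = t - algebraMap K F d) :
    coeffFun lam t y χ = coeffFun lam t' y' χ' := by
  by_contra hne
  have hg : coeffFun lam t y χ - coeffFun lam t' y' χ' ≠ 0 := sub_ne_zero.mpr hne
  have hB1 := finite_bad (derivative_aevalAeval_ne_zero hχ hrel hmin) hval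
    (fun Q hQt => ord_nonneg_of_mem Q (y_mem_of_t_mem hχ hrel Q (mem_of_ord_nonneg Q hQt)))
  have hB2 := finite_bad (derivative_aevalAeval_ne_zero hχ' hrel' hmin') hval
    (fun Q hQt => ord_nonneg_of_mem Q (y_mem_of_t_mem hχ' hrel' Q (mem_of_ord_nonneg Q hQt)))
  have hB3 := finite_poles (K := K) (coeffFun lam t y χ - coeffFun lam t' y' χ')⁻¹
  obtain ⟨Q, -, hQ⟩ := (hinf.sdiff ((hB1.union hB2).union hB3)).nonempty
  have hQ1 : 0 ≤ Q.ord t ∧
      (derivative χ).evalEval (helper6247.ev Q t) (helper6247.ev Q y) ≠ 0 := by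
    by_contra h
    exact hQ (Or.inl (Or.inl h))
  have hQ2 : 0 ≤ Q.ord t' ∧
      (derivative χ').evalEval (helper6247.ev Q t') (helper6247.ev Q y') ≠ 0 := by
    by_contra h
    exact hQ (Or.inl (Or.inr h))
  have hQ3 : ¬ Q.ord (coeffFun lam t y χ - coeffFun lam t' y' χ')⁻¹ < 0 := fun h =>
    hQ (Or.inr h)
  have h1 := coeffFun_spec hSP lam hχ ht hgen hrel hmin (hval Q) hQ1.1 hQ1.2
  have h2 := coeffFun_spec hSP lam hχ' ht' hgen' hrel' hmin' (hval Q) hQ2.1 hQ2.2
  have hev : helper6247.ev Q t' = helper6247.ev Q t - d := by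
    rw [htt']
    exact ((helper4586.isVal_ev (hval Q) hQ1.1).sub (helper4586.isVal_algebraMap Q d)).ev_eq
  have hsame : t' - algebraMap K F (helper6247.ev Q t')
      = t - algebraMap K F (helper6247.ev Q t) := by
    rw [hev, map_sub, htt']
    ring
  rw [hsame] at h2
  have h3 := h1.sub h2
  rw [sub_self, helper4586.isVal_zero_iff] at h3
  have h4 : 0 < Q.ord (coeffFun lam t y χ - coeffFun lam t' y' χ') := h3.resolve_left hg
  rw [Q.ord_inv] at hQ3
  omega

/-- A function field of one variable over an algebraically closed field has infinitely many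
places. -/
theorem infinite_places [IsAlgClosed K] [CharZero K] (x : F) (hx : Transcendental K x)
    [FiniteDimensional K⟮x⟯ F] : (Set.univ : Set (Place K F)).Infinite := by
  have h : ∀ c : K, ∃ v : Place K F, 0 < v.ord (x - algebraMap K F c) := by
    intro c
    obtain ⟨s, hs1, hs2⟩ := Fermat.Agent.S24.helper483.exists_finset_zeros x hx c
    have hpos : 0 < Module.finrank K⟮x⟯ F := Module.finrank_pos
    have hne : s.Nonempty := by
      by_contra hne
      rw [Finset.not_nonempty_iff_eq_empty] at hne
      rw [hne, Finset.sum_empty] at hs2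
      have : (0 : ℤ) < (Module.finrank K⟮x⟯ F : ℤ) := by exact_mod_cast hpos
      omega
    obtain ⟨v, hv⟩ := hne
    exact ⟨v, (hs1 v).mp hv⟩
  choose v hv using h
  have hinj : Function.Injective v := by
    intro c c' hcc'
    have h1 := hv c
    have h2 := hv c'
    rw [← hcc'] at h2
    exact eq_of_ord_sub_algebraMap_pos (v c) h1 h2
  exact (Set.infinite_range_of_injective hinj).mono (Set.subset_univ _)

end Model

/-! ## The Spec statement -/

/-- **Spec leaf `Stmt_WeilCoeff`** (M3), from `Stmt_SimplePoint` and `Stmt_SepCoord`. -/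
theorem weilCoeff_of.{u, v} (hSP : helper6247.Stmt_SimplePoint.{u, v})
    (hSC : helper6247.Stmt_SepCoord.{u, v}) : helper6247.Stmt_WeilCoeff.{u, v} := by
  intro K F _ _ _ _ _ x hx _ lam u hu
  have : HasPrincipalDivisors K F := Fermat.Agent.S24.helper483.hasPrincipalDivisors x hx
  have hval : ∀ Q : Place K F, helper4586.HasValues Q :=
    fun Q => helper4586.hasValues_of_finite x Q
  have hinf := infinite_places x hx
  by_cases hex : ∃ (P0 : Place K F) (c0 : K), P0.ord (u - algebraMap K F c0) = 1
  swap
  · exact ⟨0, fun P c h => (hex ⟨P, c, h⟩).elim⟩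
  obtain ⟨P0, c0, h0⟩ := hex
  obtain ⟨y0, χ0, hχ0, hgen0, hrel0, hmin0, -, -, -⟩ :=
    hSC K F x hx P0 (u - algebraMap K F c0) h0
  have ht0 : Transcendental K (u - algebraMap K F c0) :=
    Fermat.Agent.S24.helper483.transcendental_sub_algebraMap hu c0
  refine ⟨coeffFun lam (u - algebraMap K F c0) y0 χ0, fun P c hP => ?_⟩
  obtain ⟨y, χ, hχ, hgen, hrel, hmin, -, -, hder⟩ :=
    hSC K F x hx P (u - algebraMap K F c) hP
  have ht : Transcendental K (u - algebraMap K F c) :=
    Fermat.Agent.S24.helper483.transcendental_sub_algebraMap hu c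
  have hglue : coeffFun lam (u - algebraMap K F c0) y0 χ0
      = coeffFun lam (u - algebraMap K F c) y χ :=
    coeffFun_eq_of_sub_const hSP hval hinf lam hχ0 ht0 hgen0 hrel0 hmin0 hχ ht hgen hrel hmin
      (c - c0) (by rw [map_sub]; ring)
  have hPt : 0 < P.ord (u - algebraMap K F c) := by
    rw [hP]
    exact one_pos
  have hev : helper6247.ev P (u - algebraMap K F c) = 0 := helper4586.ev_eq_zero_of_ord_pos hPt
  have hder' : (derivative χ).evalEval (helper6247.ev P (u - algebraMap K F c))
      (helper6247.ev P y) ≠ 0 := by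
    rw [hev]
    exact hder
  have h1 := coeffFun_spec hSP lam hχ ht hgen hrel hmin (hval P) hPt.le hder'
  rw [hev, map_zero, sub_zero] at h1
  rw [hglue, lam_pp]
  exact ⟨h1.ord_nonneg, h1.ev_eq.symm⟩

end Fermat.Agent.S27.helper1680
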