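import Mathlib
import Fermat.Prelude.Def_AlgebraicCurve_DivisorClassGroup
import Fermat.Prelude.Def_AlgebraicCurve_IsCurveOver
import Fermat.Agent.S24.helper204_Places
import Fermat.Agent.S24.helper4356_KaehlerRank

/-!
# S27, leaf L-ISCURVE (helper5523): converse of the reduction A0

Let `K` be an algebraically closed field of characteristic zero, `F/K` a field extension and
`x : F` transcendental over `K` with `F` finite over `K⟮x⟯`.  Then `F/K` is a curve in the
sense of the Prelude (`AlgebraicCurve.IsCurveOver K F`) and `F` is essentially of finite type
over `K`.  Everything is universe polymorphic (`K F : Type*`).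

This is pure wiring of the generic function field modules landed for S24
(`helper204_Places`: principal divisors, degree one places; `helper4356_KaehlerRank`:
Kähler differentials of rank one).  It is the input needed by the Lefschetz transfer to view
the descended field `F₀/K₀` and the base-changed field `F₀ ⊗ K'` as curves.

Main results (namespace `Fermat.Agent.S27.helper5523`):
* `essFiniteType_of_finite`
* `hasPrincipalDivisors_of_finite`
* `finite_residueField_of_finite`
* `kaehler_free_rank_one_of_finite`
* `isCurveOver_of_finite`
* variants with an algebraic hypothesis / with `Module.Finite` over a generated intermediate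
  field: `isCurveOver_of_adjoin_finite`.
-/

set_option autoImplicit false

open AlgebraicCurve IntermediateField KaehlerDifferential

namespace Fermat.Agent.S27.helper5523

variable {K F : Type*} [Field K] [Field F] [Algebra K F]

/-- A field finite over a simple extension `K(x)` is essentially of finite type over `K`. -/
theorem essFiniteType_of_finite (x : F) [FiniteDimensional K⟮x⟯ F] :
    Algebra.EssFiniteType K F := by
  haveI : Algebra.EssFiniteType K K⟮x⟯ := by
    rw [IntermediateField.essFiniteType_iff]
    have := IntermediateField.fg_adjoin_finset (F := K) ({x} : Finset F)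
    simpa using this
  exact Algebra.EssFiniteType.comp K K⟮x⟯ F

/-- Principal divisors exist and have degree zero. -/
theorem hasPrincipalDivisors_of_finite [IsAlgClosed K] [CharZero K] (x : F)
    (hx : Transcendental K x) [FiniteDimensional K⟮x⟯ F] : HasPrincipalDivisors K F :=
  Fermat.Agent.S24.helper204.hasPrincipalDivisors x hx

/-- Every place has degree one. -/
theorem place_deg_eq_one_of_finite [IsAlgClosed K] [CharZero K] (x : F)
    (hx : Transcendental K x) [FiniteDimensional K⟮x⟯ F] (v : Place K F) : v.deg = 1 :=
  Fermat.Agent.S24.helper204.place_deg_eq_one x hx v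

/-- Residue fields of places are finite over the constant field. -/
theorem finite_residueField_of_finite [IsAlgClosed K] [CharZero K] (x : F)
    (hx : Transcendental K x) [FiniteDimensional K⟮x⟯ F] (v : Place K F) :
    Module.Finite K v.ResidueField := by
  have h : Module.finrank K v.ResidueField = 1 := place_deg_eq_one_of_finite x hx v
  exact Module.finite_of_finrank_pos (by rw [h]; exact Nat.one_pos)

/-- The module of Kähler differentials is free of rank one. -/
theorem kaehler_free_rank_one_of_finite [CharZero K] (x : F)
    (hx : Transcendental K x) [FiniteDimensional K⟮x⟯ F] :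
    Module.Free F Ω[F⁄K] ∧ Module.finrank F Ω[F⁄K] = 1 :=
  ⟨Module.Free.of_divisionRing F Ω[F⁄K], Fermat.Agent.S24.helper4356.finrank_kaehler x hx⟩

/-- **Converse of A0.** A field finite over `K(x)`, `x` transcendental, `K` algebraically
closed of characteristic zero, is a curve over `K` in the sense of the Prelude. -/
theorem isCurveOver_of_finite [IsAlgClosed K] [CharZero K] (x : F)
    (hx : Transcendental K x) [FiniteDimensional K⟮x⟯ F] : IsCurveOver K F :=
  { toHasPrincipalDivisors := hasPrincipalDivisors_of_finite x hx
    finiteResidue := finite_residueField_of_finite x hx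
    kaehler_free_rank_one := kaehler_free_rank_one_of_finite x hx }

/-- Both conclusions at once. -/
theorem isCurveOver_and_essFiniteType_of_finite [IsAlgClosed K] [CharZero K] (x : F)
    (hx : Transcendental K x) [FiniteDimensional K⟮x⟯ F] :
    IsCurveOver K F ∧ Algebra.EssFiniteType K F :=
  ⟨isCurveOver_of_finite x hx, essFiniteType_of_finite x⟩

/-- Variant: `F` generated over `K` by `x` and one element `y` algebraic over `K(x)`. -/
theorem finiteDimensional_of_adjoin_pair (x y : F) (hy : IsAlgebraic K⟮x⟯ y)
    (hgen : IntermediateField.adjoin K {x, y} = ⊤) : FiniteDimensional K⟮x⟯ F := by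
  have h1 : IntermediateField.adjoin K⟮x⟯ {y} = ⊤ := by
    apply IntermediateField.restrictScalars_injective K
    rw [IntermediateField.restrictScalars_top, ← hgen]
    rw [IntermediateField.adjoin_simple_adjoin_simple]
  haveI : FiniteDimensional K⟮x⟯ (K⟮x⟯⟮y⟯) :=
    IntermediateField.adjoin.finiteDimensional hy.isIntegral
  rw [h1] at this
  exact (IntermediateField.topEquiv (F := K⟮x⟯) (E := F)).toLinearEquiv.finiteDimensional

/-- Variant of the converse of A0 for a plane model: `F = K(x, y)` with `x` transcendental and
`y` algebraic over `K(x)`. -/
theorem isCurveOver_of_adjoin_pair [IsAlgClosed K] [CharZero K] (x y : F)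
    (hx : Transcendental K x) (hy : IsAlgebraic K⟮x⟯ y)
    (hgen : IntermediateField.adjoin K {x, y} = ⊤) :
    IsCurveOver K F ∧ Algebra.EssFiniteType K F := by
  haveI := finiteDimensional_of_adjoin_pair x y hy hgen
  exact isCurveOver_and_essFiniteType_of_finite x hx

end Fermat.Agent.S27.helper5523
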