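import Mathlib
import Fermat.Agent.S27.helper6247_Spec
import Fermat.Agent.S24.helper24_FundId
import Fermat.Agent.S24.helper1370_PlaceBasics
import Fermat.Agent.S27.helper5523_IsCurve
import Fermat.Agent.S27.helper5411_Reduce

/-!
# S27, Spec leaf M1b: `Stmt_SepCoord` (seat helper2501)

`theorem stmt_SepCoord : helper6247.Stmt_SepCoord` (verbatim, unconditional, universe
polymorphic).

Given a uniformizer `u` at the place `P`, we construct `y`, integral over `K[u]`, such that
`(u, y)` is a plane model of `F` in which `P` is a simple point.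

Proof.  Let `s` be the (finite) set of zeros of `u`, let `e_v = ord_v u`, so that
`∑_{v ∈ s} e_v = n := [F : K(u)]` (fundamental identity, S24).  All `v ∈ s` come from primes of
the Dedekind domain `B` (the integral closure of `K[u]`).  By the Chinese remainder theorem there
is `y ∈ B` with `ord_v (y - b_v) = 1` for all `v ∈ s`, where the `b_v : K` are pairwise distinct.
Let `χ₀` be the minimal polynomial of `y` over `K[u]` (monic, it generates the relations because
`K[u]` is integrally closed), `χ` the corresponding element of `K[X][Y]` and `q = χ(0, Y)`.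
Then `q(y) ∈ u B`, so `e_v ≤ ord_v (q(y)) = (multiplicity of b_v as a root of q) =: k_v`, hence
`n = ∑ e_v ≤ ∑ k_v ≤ deg q = deg χ₀ = [K(u)(y) : K(u)] ≤ n`.  So `K(u, y) = F` and
`k_v = e_v` for all `v`; in particular `b_P` is a simple root of `q` since `e_P = 1`.
-/

set_option autoImplicit false

open AlgebraicCurve IntermediateField Polynomial IsDedekindDomain WithZero
open scoped Polynomial.Bivariate IntermediateField.algebraAdjoinAdjoin
open Fermat.Agent.S24 Fermat.Agent.S24.helper24

namespace Fermat.Agent.S27.helper2501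

universe uK uF

section Basics

variable {K : Type*} {F : Type*} [Field K] [Field F] [Algebra K F]

theorem ord_pos_of_adicValuation_lt_one (P : Place K F) {g : F} (hg : g ≠ 0)
    (h : P.adicValuation g < 1) : 0 < P.ord g := by
  have hne := P.adicValuation_ne_zero hg
  have h1 : log (P.adicValuation g) < 0 := by
    rw [log_lt_iff_lt_exp hne, exp_zero]
    exact h
  simp only [Place.ord]
  omega

theorem adicValuation_lt_one_of_ord_pos (P : Place K F) {g : F} (h : 0 < P.ord g) :
    P.adicValuation g < 1 := by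
  have hg : g ≠ 0 := by
    rintro rfl
    simp at h
  have hne := P.adicValuation_ne_zero hg
  rw [← exp_zero, ← log_lt_iff_lt_exp hne]
  simp only [Place.ord] at h
  omega

/-- The value `ev P y` is `b` as soon as `y - b` vanishes at `P`. -/
theorem ev_eq_of_ord_pos (P : Place K F) {y : F} {b : K}
    (h : 0 < P.ord (y - algebraMap K F b)) : helper6247.ev P y = b := by
  have hex : ∃ c : K, P.adicValuation (y - algebraMap K F c) < 1 :=
    ⟨b, adicValuation_lt_one_of_ord_pos P h⟩
  have hev : helper6247.ev P y = hex.choose := by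
    unfold helper6247.ev
    rw [dif_pos hex]
  rw [hev]
  have hc := hex.choose_spec
  by_cases h0 : y - algebraMap K F hex.choose = 0
  · exfalso
    have h1 : y - algebraMap K F b = algebraMap K F (hex.choose - b) := by
      rw [map_sub]
      rw [sub_eq_zero] at h0
      rw [← h0]
    rw [h1, helper1370.ord_algebraMap] at h
    exact lt_irrefl _ h
  · exact helper1370.eq_of_ord_sub_algebraMap_pos P (ord_pos_of_adicValuation_lt_one P h0 hc) h

/-- Root multiplicities at pairwise distinct points add up to at most the degree. -/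
theorem sum_rootMultiplicity_le {ι : Type*} (s : Finset ι) (b : ι → K)
    (hb : Set.InjOn b s) (q : K[X]) :
    ∑ i ∈ s, q.rootMultiplicity (b i) ≤ q.natDegree := by
  classical
  calc ∑ i ∈ s, q.rootMultiplicity (b i)
      = ∑ a ∈ s.image b, q.rootMultiplicity a := by
        rw [Finset.sum_image (fun x hx y hy h => hb hx hy h)]
    _ = ∑ a ∈ s.image b, q.roots.count a := by simp only [count_roots]
    _ ≤ ∑ a ∈ s.image b ∪ q.roots.toFinset, q.roots.count a :=
        Finset.sum_le_sum_of_subset Finset.subset_union_left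
    _ = q.roots.card :=
        Multiset.sum_count_eq_card
          (fun a ha => Finset.mem_union_right _ (Multiset.mem_toFinset.mpr ha))
    _ ≤ q.natDegree := card_roots' q

/-- Polynomial expressions in an element of the valuation ring of a place stay there. -/
theorem aeval_mem_toValuationSubring (v : Place K F) {y : F} (hy : y ∈ v.toValuationSubring)
    (r : K[X]) : aeval y r ∈ v.toValuationSubring := by
  have h := Polynomial.aeval_algebraMap_apply (A := v.toValuationSubring) F
    (⟨y, hy⟩ : v.toValuationSubring) r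
  have h' : aeval y r = ((aeval (⟨y, hy⟩ : v.toValuationSubring) r : v.toValuationSubring) : F) :=
    h
  rw [h']
  exact SetLike.coe_mem _

/-- If `y - b` is a uniformizer at `v`, the order at `v` of `q(y)` is the multiplicity of `b` as
a root of `q`. -/
theorem ord_aeval_eq_rootMultiplicity (v : Place K F) {y : F} {b : K}
    (h1 : v.ord (y - algebraMap K F b) = 1) (q : K[X]) (hq : q ≠ 0) :
    aeval y q ≠ 0 ∧ v.ord (aeval y q) = q.rootMultiplicity b := by
  obtain ⟨ν, hν, hndvd⟩ := exists_eq_pow_rootMultiplicity_mul_and_not_dvd q hq b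
  have hνb : ν.eval b ≠ 0 := fun h0 => hndvd (dvd_iff_isRoot.mpr h0)
  have hyb : y - algebraMap K F b ≠ 0 := by
    intro h0
    rw [h0] at h1
    simp at h1
  have hyO : y ∈ v.toValuationSubring := by
    have h2 : y - algebraMap K F b ∈ v.toValuationSubring :=
      helper1370.mem_of_ord_nonneg v (by rw [h1]; exact zero_le_one)
    have h3 := add_mem h2 (v.algebraMap_mem' b)
    simpa using h3
  obtain ⟨r, hr⟩ := X_sub_C_dvd_sub_C_eval (a := b) (p := ν)
  have hνy : aeval y ν = algebraMap K F (ν.eval b) + (y - algebraMap K F b) * aeval y r := by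
    have h2 := congrArg (aeval y) hr
    simp only [map_sub, map_mul, aeval_X, aeval_C] at h2
    rw [← h2]
    ring
  have hc0 : algebraMap K F (ν.eval b) ≠ 0 := (_root_.map_ne_zero _).mpr hνb
  have hcord : v.ord (algebraMap K F (ν.eval b)) = 0 := helper1370.ord_algebraMap v _
  have hν0 : aeval y ν ≠ 0 ∧ v.ord (aeval y ν) = 0 := by
    rw [hνy]
    by_cases hr0 : aeval y r = 0
    · rw [hr0, mul_zero, add_zero]
      exact ⟨hc0, hcord⟩
    · have hrO : 0 ≤ v.ord (aeval y r) :=
        helper1370.ord_nonneg_of_mem v (aeval_mem_toValuationSubring v hyO r)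
      have htord : v.ord ((y - algebraMap K F b) * aeval y r) = 1 + v.ord (aeval y r) := by
        rw [v.ord_mul hyb hr0, h1]
      have hlt : v.ord (algebraMap K F (ν.eval b))
          < v.ord ((y - algebraMap K F b) * aeval y r) := by
        rw [hcord, htord]
        omega
      have hsum := helper1370.ord_add_eq_of_lt v hc0 hlt
      refine ⟨?_, by rw [hsum, hcord]⟩
      intro h0
      have h3 : (y - algebraMap K F b) * aeval y r = -algebraMap K F (ν.eval b) := by
        linear_combination h0
      rw [h3, helper1370.ord_neg, hcord] at htord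
      omega
  have hqy : aeval y q = (y - algebraMap K F b) ^ q.rootMultiplicity b * aeval y ν := by
    conv_lhs => rw [hν]
    simp only [map_mul, map_pow, map_sub, aeval_X, aeval_C]
  have hpow0 : (y - algebraMap K F b) ^ q.rootMultiplicity b ≠ 0 := pow_ne_zero _ hyb
  refine ⟨by rw [hqy]; exact mul_ne_zero hpow0 hν0.1, ?_⟩
  rw [hqy, v.ord_mul hpow0 hν0.1, helper1370.ord_pow, h1, hν0.2]
  ring

/-- `aevalAeval` as an iterated `eval₂`. -/
theorem aevalAeval_eq_eval₂ {R A : Type*} [CommRing R] [CommRing A] [Algebra R A] (x y : A)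
    (p : R[X][Y]) : aevalAeval x y p = eval₂ (aeval (R := R) x).toRingHom y p := by
  induction p using Polynomial.induction_on' with
  | add p q hp hq => rw [map_add, eval₂_add, hp, hq]
  | monomial n a =>
    rw [← C_mul_X_pow_eq_monomial, map_mul, map_pow, aevalAeval_C, aevalAeval_Y, eval₂_mul,
      eval₂_pow, eval₂_C, eval₂_X]
    rfl

end Basics

section Core

variable {K : Type*} {F : Type*} [Field K] [Field F] [Algebra K F]

/-- Chinese remainder step: an element `y` of the integral closure of `K[u]` taking pairwise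
distinct values, each with multiplicity one, at the zeros of `u`. -/
theorem exists_integral_sep [IsAlgClosed K] [CharZero K] (u : F) (hu : Transcendental K u)
    [FiniteDimensional K⟮u⟯ F] (s : Finset (Place K F)) (hs : ∀ v ∈ s, 0 < v.ord u) :
    ∃ (y : integralClosure (Algebra.adjoin K {u}) F) (b : Place K F → K), Set.InjOn b s ∧
      ∀ v ∈ s, v.ord ((y : F) - algebraMap K F (b v)) = 1 := by
  classical
  have hw : ∀ v : s, ∃ w : HeightOneSpectrum (integralClosure (Algebra.adjoin K {u}) F),
      Place.ofHeightOneSpectrum (K := K) (F := F) w = v.1 := by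
    intro v
    have hpos : 0 < v.1.ord (u - algebraMap K F 0) := by
      rw [map_zero, sub_zero]
      exact hs v.1 v.2
    obtain ⟨w, -, hw⟩ := h204.exists_heightOneSpectrum_of_ord_pos hu 0 v.1 hpos
    exact ⟨w, hw⟩
  choose w hw using hw
  have hwinj : Function.Injective w := by
    intro v v' h
    apply Subtype.ext
    rw [← hw v, ← hw v', h]
  let b0 : s → K := fun v => (((Fintype.equivFin s v : Fin _) : ℕ) : K)
  have hb0 : Function.Injective b0 := by
    intro v v' h
    have h1 : ((Fintype.equivFin s v : Fin _) : ℕ) = ((Fintype.equivFin s v' : Fin _) : ℕ) :=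
      Nat.cast_injective h
    exact (Fintype.equivFin s).injective (Fin.ext h1)
  have hπ : ∀ v : s, ∃ π : integralClosure (Algebra.adjoin K {u}) F,
      (w v).intValuation π = exp (-1 : ℤ) :=
    fun v => (w v).intValuation_exists_uniformizer
  choose π hπ using hπ
  obtain ⟨y, hy⟩ := IsDedekindDomain.exists_forall_sub_mem_ideal
    (s := (Finset.univ : Finset s))
    (fun v => (w v).asIdeal) (fun _ => 2) (fun v _ => (w v).prime)
    (fun v _ v' _ hne h => hne (hwinj (HeightOneSpectrum.ext h)))
    (fun v => algebraMap K (integralClosure (Algebra.adjoin K {u}) F) (b0 v.1) + π v.1)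
  refine ⟨y, fun v => if h : v ∈ s then b0 ⟨v, h⟩ else 0, ?_, ?_⟩
  · intro v hv v' hv' h
    have hv1 : v ∈ s := hv
    have hv2 : v' ∈ s := hv'
    simp only [dif_pos hv1, dif_pos hv2] at h
    exact congrArg Subtype.val (hb0 h)
  · intro v hv
    simp only [dif_pos hv]
    have h1 := hy ⟨v, hv⟩ (Finset.mem_univ _)
    have h2 : (w ⟨v, hv⟩).intValuation
        (y - (algebraMap K (integralClosure (Algebra.adjoin K {u}) F) (b0 ⟨v, hv⟩) + π ⟨v, hv⟩))
        ≤ exp (-((2 : ℕ) : ℤ)) :=
      ((w ⟨v, hv⟩).intValuation_le_pow_iff_mem _ 2).mpr h1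
    have h3 : (w ⟨v, hv⟩).intValuation
        (y - algebraMap K (integralClosure (Algebra.adjoin K {u}) F) (b0 ⟨v, hv⟩))
        = exp (-1 : ℤ) := by
      have h4 : y - algebraMap K (integralClosure (Algebra.adjoin K {u}) F) (b0 ⟨v, hv⟩)
          = π ⟨v, hv⟩ + (y - (algebraMap K (integralClosure (Algebra.adjoin K {u}) F)
              (b0 ⟨v, hv⟩) + π ⟨v, hv⟩)) := by ring
      rw [h4, Valuation.map_add_eq_of_lt_left, hπ]
      rw [hπ]
      refine lt_of_le_of_lt h2 ?_
      rw [exp_lt_exp]
      norm_num
    have h5 := h204.ord_ofHeightOneSpectrum (K := K) (F := F) (w ⟨v, hv⟩)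
      ((y : F) - algebraMap K F (b0 ⟨v, hv⟩))
    rw [hw ⟨v, hv⟩] at h5
    rw [h5]
    have h6 : ((y : F) - algebraMap K F (b0 ⟨v, hv⟩))
        = algebraMap (integralClosure (Algebra.adjoin K {u}) F) F
          (y - algebraMap K (integralClosure (Algebra.adjoin K {u}) F) (b0 ⟨v, hv⟩)) := by
      rw [map_sub, ← IsScalarTower.algebraMap_apply]
      rfl
    rw [h6, HeightOneSpectrum.valuation_of_algebraMap, h3, log_exp]
    norm_num

/-- The core statement: `u` itself is the transcendental over which `F` is finite. -/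
theorem sepCoord_core [IsAlgClosed K] [CharZero K] (u : F) (hu : Transcendental K u)
    [FiniteDimensional K⟮u⟯ F] (P : Place K F) (hP : P.ord u = 1) :
    ∃ (y : F) (χ : K[X][Y]), χ.Monic ∧ IntermediateField.adjoin K {u, y} = ⊤ ∧
      aevalAeval u y χ = 0 ∧ (∀ G : K[X][Y], aevalAeval u y G = 0 → χ ∣ G) ∧
      0 ≤ P.ord y ∧ χ.evalEval 0 (helper6247.ev P y) = 0 ∧
      (derivative χ).evalEval 0 (helper6247.ev P y) ≠ 0 := by
  classical
  obtain ⟨s, hs, hsum⟩ := h204.exists_finset_zeros (F := F) hu (0 : K)
  simp only [map_zero, sub_zero] at hs hsum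
  obtain ⟨yB, b, hbinj, hyb⟩ := exists_integral_sep u hu s (fun v hv => (hs v).mp hv)
  have hyint : IsIntegral (Algebra.adjoin K {u}) (yB : F) := yB.2
  have hPs : P ∈ s := (hs P).mpr (by rw [hP]; exact one_pos)
  -- the isomorphism `K[X] ≃ K[u]`
  have hinj : Function.Injective (aeval (R := K) (h204.gen K u)) := by
    intro p p' h
    apply transcendental_iff_injective.mp hu
    have h1 := congrArg (fun a : Algebra.adjoin K {u} => (a : F)) h
    simpa [Polynomial.aeval_subalgebra_coe] using h1
  let e : K[X] ≃ₐ[K] Algebra.adjoin K {u} :=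
    AlgEquiv.ofBijective (aeval (R := K) (h204.gen K u)) ⟨hinj, h204.aeval_gen_surjective K u⟩
  have he : ∀ p : K[X], algebraMap (Algebra.adjoin K {u}) F (e p) = aeval u p := by
    intro p
    show ((aeval (h204.gen K u) p : Algebra.adjoin K {u}) : F) = aeval u p
    rw [Polynomial.aeval_subalgebra_coe]
    rfl
  have hcomp : (algebraMap (Algebra.adjoin K {u}) F).comp (e : K[X] →+* Algebra.adjoin K {u})
      = (aeval (R := K) u).toRingHom := RingHom.ext he
  have hee : (e : K[X] →+* Algebra.adjoin K {u}).comp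
      (e.symm : Algebra.adjoin K {u} →+* K[X]) = RingHom.id _ :=
    RingHom.ext fun a => by simp
  have hee' : (e.symm : Algebra.adjoin K {u} →+* K[X]).comp
      (e : K[X] →+* Algebra.adjoin K {u}) = RingHom.id _ :=
    RingHom.ext fun a => by simp
  -- the minimal polynomial of `y` over `K[u]`, transported to `K[X][Y]`
  have hχ0m : (minpoly (Algebra.adjoin K {u}) (yB : F)).Monic := minpoly.monic hyint
  obtain ⟨χ, hχdef⟩ : ∃ χ : K[X][Y], χ = (minpoly (Algebra.adjoin K {u}) (yB : F)).map
      (e.symm : Algebra.adjoin K {u} →+* K[X]) := ⟨_, rfl⟩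
  have hχm : χ.Monic := by
    rw [hχdef]
    exact hχ0m.map _
  have hχ0 : χ.map (e : K[X] →+* Algebra.adjoin K {u})
      = minpoly (Algebra.adjoin K {u}) (yB : F) := by
    rw [hχdef, Polynomial.map_map, hee, Polynomial.map_id]
  have haa : ∀ G : K[X][Y], aevalAeval u (yB : F) G
      = aeval (yB : F) (G.map (e : K[X] →+* Algebra.adjoin K {u})) := by
    intro G
    rw [aeval_def, eval₂_map, hcomp, aevalAeval_eq_eval₂]
  have hχ_zero : aevalAeval u (yB : F) χ = 0 := by
    rw [haa, hχ0]
    exact minpoly.aeval _ _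
  have hker : ∀ G : K[X][Y], aevalAeval u (yB : F) G = 0 → χ ∣ G := by
    intro G hG
    rw [haa] at hG
    have h1 : minpoly (Algebra.adjoin K {u}) (yB : F)
        ∣ G.map (e : K[X] →+* Algebra.adjoin K {u}) :=
      minpoly.isIntegrallyClosed_dvd hyint hG
    have h2 := Polynomial.map_dvd (e.symm : Algebra.adjoin K {u} →+* K[X]) h1
    rw [Polynomial.map_map, hee', Polynomial.map_id, ← hχdef] at h2
    exact h2
  have hdeg : χ.natDegree = (minpoly K⟮u⟯ (yB : F)).natDegree := by
    rw [minpoly.isIntegrallyClosed_eq_field_fractions' K⟮u⟯ hyint, hχ0m.natDegree_map, hχdef,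
      hχ0m.natDegree_map]
  -- the fibre polynomial `q = χ(0, Y)`
  obtain ⟨q, hqdef⟩ : ∃ q : K[X], q = χ.map (evalRingHom (0 : K)) := ⟨_, rfl⟩
  have hqm : q.Monic := by
    rw [hqdef]
    exact hχm.map _
  have hq0 : q ≠ 0 := hqm.ne_zero
  have hqdeg : q.natDegree = χ.natDegree := by
    rw [hqdef, hχm.natDegree_map]
  -- `q(y) ∈ u B`
  have hmem : ∀ G : K[X][Y], aevalAeval u (yB : F) G ∈ integralClosure (Algebra.adjoin K {u}) F := by
    intro G
    rw [haa, aeval_def, eval₂_eq_sum_range]
    refine Subalgebra.sum_mem _ fun i _ => ?_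
    exact Subalgebra.mul_mem _ (Subalgebra.algebraMap_mem _ _) (Subalgebra.pow_mem _ yB.2 i)
  have hqy : ∃ t : integralClosure (Algebra.adjoin K {u}) F, aeval (yB : F) q = u * (t : F) := by
    have hdvd : (C (X : K[X]) : K[X][Y]) ∣ χ - q.map (C : K →+* K[X]) := by
      rw [C_dvd_iff_dvd_coeff]
      intro i
      rw [coeff_sub, coeff_map, hqdef, coeff_map, coe_evalRingHom, ← coeff_zero_eq_eval_zero]
      exact X_dvd_sub_C
    obtain ⟨H, hH⟩ := hdvd
    have h1 : aevalAeval u (yB : F) (q.map (C : K →+* K[X])) = aeval (yB : F) q := by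
      rw [aevalAeval_eq_eval₂, eval₂_map, aeval_def]
      congr 1
      exact RingHom.ext fun a => by simp
    have h2 := congrArg (aevalAeval u (yB : F)) hH
    rw [map_sub, hχ_zero, h1, map_mul] at h2
    have h3 : aevalAeval u (yB : F) (C (X : K[X])) = u := by simp
    rw [h3] at h2
    refine ⟨⟨aevalAeval u (yB : F) (-H), hmem _⟩, ?_⟩
    simp only [map_neg, mul_neg]
    linear_combination (-1 : F) * h2
  obtain ⟨t, ht⟩ := hqy
  -- comparison of multiplicities
  have hle : ∀ v ∈ s, v.ord u ≤ (q.rootMultiplicity (b v) : ℤ) := by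
    intro v hv
    obtain ⟨hne, hord⟩ := ord_aeval_eq_rootMultiplicity v (hyb v hv) q hq0
    rw [ht] at hne hord
    have hu0 : u ≠ 0 := left_ne_zero_of_mul hne
    have ht0 : (t : F) ≠ 0 := right_ne_zero_of_mul hne
    rw [v.ord_mul hu0 ht0] at hord
    have hupos := (hs v).mp hv
    have htO : 0 ≤ v.ord (t : F) := h204.ord_nonneg_of_mem v
      (h204.integralClosure_le_of_mem v (h204.mem_of_ord_nonneg v hupos.le) t)
    omega
  have hsumk : (∑ v ∈ s, (q.rootMultiplicity (b v) : ℤ)) ≤ q.natDegree := by
    have h1 := sum_rootMultiplicity_le s b hbinj q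
    exact_mod_cast h1
  have hn : (minpoly K⟮u⟯ (yB : F)).natDegree ≤ Module.finrank K⟮u⟯ F := minpoly.natDegree_le _
  have hsum_le : ∑ v ∈ s, v.ord u ≤ ∑ v ∈ s, (q.rootMultiplicity (b v) : ℤ) :=
    Finset.sum_le_sum hle
  have hdegeq : (minpoly K⟮u⟯ (yB : F)).natDegree = Module.finrank K⟮u⟯ F := by
    have h1 : (Module.finrank K⟮u⟯ F : ℤ) ≤ ((minpoly K⟮u⟯ (yB : F)).natDegree : ℤ) := by
      rw [← hsum, ← hdeg, ← hqdeg]
      exact hsum_le.trans hsumk
    have h2 : Module.finrank K⟮u⟯ F ≤ (minpoly K⟮u⟯ (yB : F)).natDegree := by exact_mod_cast h1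
    omega
  have hsumeq : ∑ v ∈ s, v.ord u = ∑ v ∈ s, (q.rootMultiplicity (b v) : ℤ) := by
    apply le_antisymm hsum_le
    rw [hsum, ← hdegeq, ← hdeg, ← hqdeg]
    exact hsumk
  have hkP : (q.rootMultiplicity (b P) : ℤ) = 1 := by
    have h1 := (Finset.sum_eq_sum_iff_of_le hle).mp hsumeq P hPs
    rw [← h1, hP]
  have hgen : IntermediateField.adjoin K {u, (yB : F)} = ⊤ := by
    have h1 : K⟮u⟯⟮(yB : F)⟯ = ⊤ :=
      (Field.primitive_element_iff_minpoly_natDegree_eq K⟮u⟯ (yB : F)).mpr hdegeq
    have h2 := IntermediateField.adjoin_simple_adjoin_simple K u (yB : F)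
    rw [h1, IntermediateField.restrictScalars_top] at h2
    exact h2.symm
  have hbP : 0 < P.ord ((yB : F) - algebraMap K F (b P)) := by
    rw [hyb P hPs]
    exact one_pos
  have hev : helper6247.ev P (yB : F) = b P := ev_eq_of_ord_pos P hbP
  have hk1 : q.rootMultiplicity (b P) = 1 := by exact_mod_cast hkP
  have hroot : q.IsRoot (b P) := (rootMultiplicity_pos hq0).mp (by rw [hk1]; exact one_pos)
  have hder : ¬ (derivative q).IsRoot (b P) := by
    intro h
    have h1 := (one_lt_rootMultiplicity_iff_isRoot hq0).mpr ⟨hroot, h⟩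
    omega
  refine ⟨(yB : F), χ, hχm, hgen, hχ_zero, hker, ?_, ?_, ?_⟩
  · exact h204.ord_nonneg_of_mem P (h204.integralClosure_le_of_mem P
      (h204.mem_of_ord_nonneg P (by rw [hP]; exact zero_le_one)) yB)
  · rw [hev, ← map_evalRingHom_eval, ← hqdef]
    exact hroot
  · rw [hev, ← map_evalRingHom_eval, ← derivative_map, ← hqdef]
    exact hder

end Core

/-- **Spec leaf M1b** (`helper6247.Stmt_SepCoord`, verbatim and unconditional). -/
theorem stmt_SepCoord : helper6247.Stmt_SepCoord.{uK, uF} := by
  intro K F _ _ _ _ _ x hx _ P u hu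
  have : IsCurveOver K F := helper5523.isCurveOver_of_finite x hx
  have : Algebra.EssFiniteType K F := helper5523.essFiniteType_of_finite x
  have hut : Transcendental K u :=
    helper1370.transcendental_of_ord_ne_zero P (by rw [hu]; exact one_ne_zero)
  have : FiniteDimensional K⟮u⟯ F := helper5411.finite_adjoin_simple hut
  exact sepCoord_core u hut P hu

end Fermat.Agent.S27.helper2501
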