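import Mathlib

set_option autoImplicit false

open scoped Polynomial.Bivariate Topology
open Polynomial

namespace Fermat.Agent.S27.helper9531

noncomputable section

/-- The two-variable polynomial function `(t, y) ↦ p(t, y)`. -/
def ev (p : ℂ[X][Y]) (q : ℂ × ℂ) : ℂ := p.evalEval q.1 q.2

theorem ev_apply (p : ℂ[X][Y]) (t y : ℂ) : ev p (t, y) = p.evalEval t y := rfl

theorem ev_eq_eval_map (p : ℂ[X][Y]) (t y : ℂ) :
    ev p (t, y) = (p.map (evalRingHom t)).eval y := by
  rw [ev_apply, map_evalRingHom_eval]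

theorem ev_contDiff (p : ℂ[X][Y]) : ContDiff ℂ 1 (ev p) := by
  induction p using Polynomial.induction_on' with
  | add p q hp hq =>
    have : ev (p + q) = fun z => ev p z + ev q z := by
      funext z; simp [ev, evalEval_add]
    rw [this]
    exact hp.add hq
  | monomial n a =>
    have : ev (monomial n a) = fun z : ℂ × ℂ => a.eval z.1 * z.2 ^ n := by
      funext z; simp [ev, evalEval, eval_monomial]
    rw [this]
    have h1 : ContDiff ℂ 1 (fun z : ℂ × ℂ => a.eval z.1) := by
      have := (Polynomial.contDiff_aeval (𝕜 := ℂ) a 1).comp (contDiff_fst (𝕜 := ℂ) (E := ℂ) (F := ℂ))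
      simpa [Function.comp_def] using this
    exact h1.mul (contDiff_snd.pow n)

theorem ev_continuous (p : ℂ[X][Y]) : Continuous (ev p) := (ev_contDiff p).continuous

theorem ev_differentiable (p : ℂ[X][Y]) : Differentiable ℂ (ev p) :=
  (ev_contDiff p).differentiable one_ne_zero

/-- The partial derivative of `ev p` in the second variable. -/
theorem fderiv_ev_inr (p : ℂ[X][Y]) (a β : ℂ) :
    fderiv ℂ (ev p) (a, β) ((0 : ℂ), (1 : ℂ)) = (derivative p).evalEval a β := by
  have hf : HasFDerivAt (ev p) (fderiv ℂ (ev p) (a, β)) (a, β) :=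
    (ev_differentiable p (a, β)).hasFDerivAt
  have hg : HasDerivAt (fun y : ℂ => ((a, y) : ℂ × ℂ)) ((0 : ℂ), (1 : ℂ)) β :=
    (hasDerivAt_const β a).prodMk (hasDerivAt_id β)
  have hcomp := hf.comp_hasDerivAt β hg
  have h2 : HasDerivAt (fun y : ℂ => (p.map (evalRingHom a)).eval y)
      ((derivative (p.map (evalRingHom a))).eval β) β :=
    Polynomial.hasDerivAt _ _
  have h3 : (ev p ∘ fun y : ℂ => ((a, y) : ℂ × ℂ)) = fun y : ℂ => (p.map (evalRingHom a)).eval y := by
    funext y; simp [ev_eq_eval_map]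
  rw [h3] at hcomp
  have := hcomp.unique h2
  rw [this, derivative_map, map_evalRingHom_eval]

/-- **BR1** (local branch at a simple point).  If `p(a, β) = 0` and `(∂p/∂Y)(a, β) ≠ 0`
there is a holomorphic function `b` on a disc around `a` with `b a = β`, whose graph is
exactly the zero set of `p` in a small bidisc around `(a, β)`. -/
theorem exists_branch (p : ℂ[X][Y]) (a β : ℂ) (h0 : p.evalEval a β = 0)
    (h1 : (derivative p).evalEval a β ≠ 0) :
    ∃ (r ε : ℝ) (b : ℂ → ℂ), 0 < r ∧ 0 < ε ∧ DifferentiableOn ℂ b (Metric.ball a r) ∧ b a = β ∧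
      (∀ t ∈ Metric.ball a r, p.evalEval t (b t) = 0 ∧ b t ∈ Metric.ball β ε) ∧
      (∀ t ∈ Metric.ball a r, ∀ y ∈ Metric.ball β ε, p.evalEval t y = 0 → y = b t) := by
  have cdf : ContDiffAt ℂ 1 (ev p) (a, β) := (ev_contDiff p).contDiffAt
  have pn : (1 : WithTop ℕ∞) ≠ 0 := one_ne_zero
  have if₂ : (fderiv ℂ (ev p) (a, β) ∘L ContinuousLinearMap.inr ℂ ℂ ℂ).IsInvertible := by
    refine ⟨ContinuousLinearEquiv.unitsEquivAut ℂ (Units.mk0 _ h1), ?_⟩
    apply ContinuousLinearMap.ext_ring
    simp [fderiv_ev_inr]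
  set ψ := cdf.implicitFunction pn if₂ with hψ
  have hψa : ψ a = β := cdf.implicitFunction_apply_self pn if₂
  have hfu : ev p (a, β) = 0 := h0
  have e1 : ∀ᶠ x in 𝓝 a, ev p (x, ψ x) = 0 := by
    have := cdf.eventually_apply_implicitFunction pn if₂
    simpa [hfu] using this
  have e2 : ∀ᶠ v in 𝓝 ((a, β) : ℂ × ℂ), ev p v = 0 ↔ ψ v.1 = v.2 := by
    have := cdf.eventually_apply_eq_iff_implicitFunction pn if₂
    simpa [hfu] using this
  have hcd : ContDiffAt ℂ 1 ψ a := cdf.contDiffAt_implicitFunction pn if₂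
  have e3 : ∀ᶠ x in 𝓝 a, DifferentiableAt ℂ ψ x := by
    have := hcd.eventually (by simp)
    exact this.mono fun x hx => hx.differentiableAt one_ne_zero
  obtain ⟨ε, hε, hεP⟩ := Metric.eventually_nhds_iff.mp e2
  have e4 : ∀ᶠ x in 𝓝 a, ψ x ∈ Metric.ball β ε := by
    have hc : ContinuousAt ψ a := hcd.continuousAt
    have : Metric.ball β ε ∈ 𝓝 (ψ a) := by
      rw [hψa]; exact Metric.ball_mem_nhds β hε
    exact hc this
  obtain ⟨r₀, hr₀, hr₀P⟩ := Metric.eventually_nhds_iff.mp (e1.and (e3.and e4))
  refine ⟨min r₀ ε, ε, ψ, lt_min hr₀ hε, hε, ?_, hψa, ?_, ?_⟩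
  · intro t ht
    have ht' : dist t a < r₀ := lt_of_lt_of_le (Metric.mem_ball.mp ht) (min_le_left _ _)
    exact (hr₀P ht').2.1.differentiableWithinAt
  · intro t ht
    have ht' : dist t a < r₀ := lt_of_lt_of_le (Metric.mem_ball.mp ht) (min_le_left _ _)
    exact ⟨(hr₀P ht').1, (hr₀P ht').2.2⟩
  · intro t ht y hy hty
    have ht' : dist t a < ε := lt_of_lt_of_le (Metric.mem_ball.mp ht) (min_le_right _ _)
    have hd : dist ((t, y) : ℂ × ℂ) (a, β) < ε := by
      rw [Prod.dist_eq]
      exact max_lt ht' (Metric.mem_ball.mp hy)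
    exact ((hεP hd).mp hty).symm

theorem natDegree_map_evalRingHom (p : ℂ[X][Y]) (t : ℂ) (ht : p.leadingCoeff.eval t ≠ 0) :
    (p.map (evalRingHom t)).natDegree = p.natDegree :=
  natDegree_map_of_leadingCoeff_ne_zero _ ht

theorem leadingCoeff_map_evalRingHom (p : ℂ[X][Y]) (t : ℂ) (ht : p.leadingCoeff.eval t ≠ 0) :
    (p.map (evalRingHom t)).leadingCoeff = p.leadingCoeff.eval t :=
  leadingCoeff_map_of_leadingCoeff_ne_zero _ ht

theorem map_evalRingHom_ne_zero (p : ℂ[X][Y]) (t : ℂ) (ht : p.leadingCoeff.eval t ≠ 0) :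
    p.map (evalRingHom t) ≠ 0 := by
  intro h
  have := leadingCoeff_map_evalRingHom p t ht
  rw [h, leadingCoeff_zero] at this
  exact ht this.symm

/-- A polynomial over `ℂ` of degree `n` with `n` prescribed distinct roots is the product of
its linear factors. -/
theorem eq_prod_of_injective_roots (P : ℂ[X]) (hP : P ≠ 0) {n : ℕ} (hn : P.natDegree = n)
    (z : Fin n → ℂ) (hz : Function.Injective z) (hroot : ∀ i, P.eval (z i) = 0) :
    P = C P.leadingCoeff * ∏ i, (X - C (z i)) := by
  classical
  set s : Multiset ℂ := (Finset.univ : Finset (Fin n)).val.map z with hs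
  have hnd : s.Nodup := Multiset.Nodup.map hz Finset.univ.nodup
  have hcard : Multiset.card s = n := by simp [hs]
  have hle : s ≤ P.roots := by
    rw [Multiset.le_iff_subset hnd]
    intro y hy
    obtain ⟨i, -, rfl⟩ := Multiset.mem_map.mp hy
    exact (mem_roots hP).mpr (hroot i)
  have hcard2 : Multiset.card P.roots ≤ Multiset.card s := by
    rw [hcard, ← hn]; exact P.card_roots'
  have heq : s = P.roots := Multiset.eq_of_le_of_card_le hle hcard2
  have hr : Multiset.card P.roots = P.natDegree := by rw [← heq, hcard, hn]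
  have := C_leadingCoeff_mul_prod_multiset_X_sub_C hr
  rw [← heq, hs, Multiset.map_map] at this
  exact this.symm

/-- **BR2** (generic fibre).  If the leading coefficient of `p` does not vanish at `a` and
`p(a, ·)` is separable, then on a disc around `a` the roots of `p(t, ·)` are given by
`n = natDegree p` holomorphic functions with pairwise distinct values. -/
theorem exists_branches (p : ℂ[X][Y]) (a : ℂ) (hlc : p.leadingCoeff.eval a ≠ 0)
    (hsep : (p.map (evalRingHom a)).Separable) :
    ∃ (r : ℝ) (b : Fin p.natDegree → ℂ → ℂ), 0 < r ∧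
      (∀ i, DifferentiableOn ℂ (b i) (Metric.ball a r)) ∧
      (∀ t ∈ Metric.ball a r, p.leadingCoeff.eval t ≠ 0) ∧
      (∀ t ∈ Metric.ball a r, Function.Injective (fun i => b i t)) ∧
      (∀ t ∈ Metric.ball a r, p.map (evalRingHom t) =
          C (p.leadingCoeff.eval t) * ∏ i, (X - C (b i t))) := by
  classical
  set n := p.natDegree with hn
  set P := p.map (evalRingHom a) with hP
  have hP0 : P ≠ 0 := map_evalRingHom_ne_zero p a hlc
  have hdeg : P.natDegree = n := natDegree_map_evalRingHom p a hlc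
  have hnd : P.roots.Nodup := nodup_roots hsep
  have hcard : Multiset.card P.roots = n := by
    rw [← hdeg]
    exact (splits_iff_card_roots.mp (IsAlgClosed.splits P))
  have hcard' : P.roots.toFinset.card = n := by
    rw [Multiset.toFinset_card_of_nodup hnd, hcard]
  let e : Fin n ≃ P.roots.toFinset := (Finset.equivFinOfCardEq hcard').symm
  let β : Fin n → ℂ := fun i => (e i : ℂ)
  have hβinj : Function.Injective β := fun i j h => e.injective (Subtype.ext h)
  have hβroot : ∀ i, P.eval (β i) = 0 := by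
    intro i
    have : β i ∈ P.roots := Multiset.mem_toFinset.mp (e i).2
    exact (mem_roots hP0).mp this
  have hβder : ∀ i, (derivative p).evalEval a (β i) ≠ 0 := by
    intro i
    have h := hsep.eval₂_derivative_ne_zero (RingHom.id ℂ) (x := β i)
      (by rw [eval₂_id]; exact hβroot i)
    rw [eval₂_id] at h
    rw [← map_evalRingHom_eval, ← derivative_map]
    exact h
  have hβ0 : ∀ i, p.evalEval a (β i) = 0 := by
    intro i; rw [← map_evalRingHom_eval]; exact hβroot i
  have key := fun i => exists_branch p a (β i) (hβ0 i) (hβder i)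
  choose r ε b hr hε hbd hba hb1 hb2 using key
  -- eventually statements
  have e1 : ∀ᶠ t in 𝓝 a, ∀ i, t ∈ Metric.ball a (r i) :=
    Filter.eventually_all.mpr fun i => Metric.ball_mem_nhds a (hr i)
  have e2 : ∀ᶠ t in 𝓝 a, p.leadingCoeff.eval t ≠ 0 :=
    (p.leadingCoeff.continuous.continuousAt).eventually_ne hlc
  have hcont : ∀ i, ContinuousAt (b i) a := fun i =>
    ((hbd i).differentiableAt (Metric.ball_mem_nhds a (hr i))).continuousAt
  have e3 : ∀ᶠ t in 𝓝 a, ∀ i j, i ≠ j → b i t ≠ b j t := by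
    refine Filter.eventually_all.mpr fun i => Filter.eventually_all.mpr fun j => ?_
    by_cases hij : i = j
    · exact Filter.Eventually.of_forall fun t h => absurd hij h
    · have hc : ContinuousAt (fun t => b i t - b j t) a := (hcont i).sub (hcont j)
      have hne : b i a - b j a ≠ 0 := by
        rw [hba, hba]; exact sub_ne_zero.mpr fun h => hij (hβinj h)
      exact (hc.eventually_ne hne).mono fun t ht _ => sub_ne_zero.mp ht
  obtain ⟨r₀, hr₀, hr₀P⟩ := Metric.eventually_nhds_iff.mp (e1.and (e2.and e3))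
  refine ⟨r₀, b, hr₀, ?_, ?_, ?_, ?_⟩
  · intro i
    refine (hbd i).mono fun t ht => ?_
    exact (hr₀P (Metric.mem_ball.mp ht)).1 i
  · intro t ht
    exact (hr₀P (Metric.mem_ball.mp ht)).2.1
  · intro t ht i j hij
    by_contra hne
    exact (hr₀P (Metric.mem_ball.mp ht)).2.2 i j hne hij
  · intro t ht
    obtain ⟨h1, h2, h3⟩ := hr₀P (Metric.mem_ball.mp ht)
    have hinj : Function.Injective (fun i => b i t) := by
      intro i j hij
      by_contra hne
      exact h3 i j hne hij
    have hroot : ∀ i, (p.map (evalRingHom t)).eval (b i t) = 0 := by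
      intro i
      rw [map_evalRingHom_eval]
      exact (hb1 i t (h1 i)).1
    have := eq_prod_of_injective_roots (p.map (evalRingHom t)) (map_evalRingHom_ne_zero p t h2)
      (natDegree_map_evalRingHom p t h2) (fun i => b i t) hinj hroot
    rw [leadingCoeff_map_evalRingHom p t h2] at this
    exact this

end

end Fermat.Agent.S27.helper9531
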