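import Fermat.Agent.S27.helper6247_Spec
import Fermat.Agent.S27.helper9531_Branch
import Fermat.Agent.S24.helper1370_PlaceBasics

/-!
# S27, Spec leaf M5a: `Stmt_ChartExists` (seat helper3430)

`chartExists_of : Stmt_Ev → Stmt_SepCoord → Stmt_SimplePoint → Stmt_ChartExists`
(all statements from `helper6247_Spec`).

Proof.  Let `P` be a place and `u` a uniformizer at `P`.  `Stmt_SepCoord` gives a plane model
`χ(u, y) = 0` in which `P` is the simple point `(0, b₀)`, `b₀ = y(P)`.  The implicit function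
theorem (`helper9531.exists_branch`) gives a holomorphic branch `b` on a disc around `0` with
`χ(s, b s) = 0`, and `χ_Y(s, b s) ≠ 0` on a smaller disc.  `Q s` is the place carried by the
simple point `(s, b s)` (`Stmt_SimplePoint`); `Q 0 = P` by the uniqueness clause.  A function
`f` regular at `Q s₀` is a quotient `N(u, y) / M(u, y)` with `M(s₀, b s₀) ≠ 0`; for `s` near
`s₀` it is then regular at `Q s` with value `N(s, b s) / M(s, b s)`, which is analytic in `s`.

Also exported (any base field): `EvProps` (the content of `Stmt_Ev` at one place), `evHom`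
(`ev P` as a `K`-algebra homomorphism on the valuation ring), `ev_aevalAeval`
(`ev P (G(u, y)) = G(ev P u, ev P y)`), `ev_of_mul_eq` (value of a quotient).
-/

set_option autoImplicit false

open AlgebraicCurve IntermediateField Polynomial
open scoped Polynomial.Bivariate Topology

namespace Fermat.Agent.S27.helper3430

open Fermat.Agent.S27.helper6247
open Fermat.Agent.S24

noncomputable section

/-- Algebra homomorphisms commute with `aevalAeval`. -/
theorem algHom_aevalAeval {R A B : Type*} [CommSemiring R] [CommSemiring A] [CommSemiring B]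
    [Algebra R A] [Algebra R B] (φ : A →ₐ[R] B) (x y : A) (p : R[X][Y]) :
    φ (aevalAeval x y p) = aevalAeval (φ x) (φ y) p := by
  have h := (aevalAevalEquiv R B).apply_symm_apply (φ.comp (aevalAeval x y))
  have h2 : (aevalAevalEquiv R B).symm (φ.comp (aevalAeval x y)) = (φ x, φ y) := by
    simp [aevalAevalEquiv_symm_apply]
  rw [h2] at h
  have h3 := congrArg (fun f : R[X][Y] →ₐ[R] B => f p) h
  simpa using h3.symm

section EvHom

variable {K F : Type*} [Field K] [Field F] [Algebra K F]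

/-- The properties of `ev P` provided by `Stmt_Ev` at a place `P`. -/
structure EvProps (P : Place K F) : Prop where
  const : ∀ c : K, ev P (algebraMap K F c) = c
  add : ∀ f g : F, 0 ≤ P.ord f → 0 ≤ P.ord g → ev P (f + g) = ev P f + ev P g
  mul : ∀ f g : F, 0 ≤ P.ord f → 0 ≤ P.ord g → ev P (f * g) = ev P f * ev P g
  zero_iff : ∀ f : F, 0 ≤ P.ord f → (ev P f = 0 ↔ f = 0 ∨ 0 < P.ord f)
  of_pos : ∀ (f : F) (c : K), 0 < P.ord (f - algebraMap K F c) → ev P f = c

/-- `ev P` as a `K`-algebra homomorphism on the valuation ring. -/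
def evHom {P : Place K F} (h : EvProps P) : P.toValuationSubring →ₐ[K] K where
  toFun a := ev P (a : F)
  map_one' := by
    have := h.const 1
    simpa using this
  map_mul' a b := h.mul _ _ (helper1370.ord_coe_nonneg P a) (helper1370.ord_coe_nonneg P b)
  map_zero' := by
    have := h.const 0
    simpa using this
  map_add' a b := h.add _ _ (helper1370.ord_coe_nonneg P a) (helper1370.ord_coe_nonneg P b)
  commutes' c := h.const c

theorem evHom_apply {P : Place K F} (h : EvProps P) (a : P.toValuationSubring) :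
    evHom h a = ev P (a : F) := rfl

/-- Polynomial expressions in two functions regular at `P` are regular at `P`, and `ev P` of
them is the polynomial evaluated at the values. -/
theorem ev_aevalAeval {P : Place K F} (h : EvProps P) {u y : F} (hu : 0 ≤ P.ord u)
    (hy : 0 ≤ P.ord y) (G : K[X][Y]) :
    0 ≤ P.ord (aevalAeval u y G) ∧ ev P (aevalAeval u y G) = G.evalEval (ev P u) (ev P y) := by
  set u' : P.toValuationSubring := ⟨u, (helper1370.mem_iff P).mpr hu⟩ with hu'
  set y' : P.toValuationSubring := ⟨y, (helper1370.mem_iff P).mpr hy⟩ with hy'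
  have h1 : ((aevalAeval u' y' G : P.toValuationSubring) : F) = aevalAeval u y G := by
    have := algHom_aevalAeval (IsScalarTower.toAlgHom K P.toValuationSubring F) u' y' G
    simpa using this
  have h2 : evHom h (aevalAeval u' y' G) = G.evalEval (ev P u) (ev P y) := by
    rw [algHom_aevalAeval (evHom h) u' y' G, coe_aevalAeval_eq_evalEval]
    rfl
  refine ⟨?_, ?_⟩
  · rw [← h1]; exact helper1370.ord_coe_nonneg P _
  · rw [← h1, ← evHom_apply h, h2]

/-- A quotient `f = N(u, y) / M(u, y)` whose denominator does not vanish at `P` is regular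
at `P`, with the expected value. -/
theorem ev_of_mul_eq {P : Place K F} (h : EvProps P) {u y f : F} (hu : 0 ≤ P.ord u)
    (hy : 0 ≤ P.ord y) (N M : K[X][Y]) (hM : M.evalEval (ev P u) (ev P y) ≠ 0)
    (hf : f * aevalAeval u y M = aevalAeval u y N) :
    0 ≤ P.ord f ∧ ev P f = N.evalEval (ev P u) (ev P y) / M.evalEval (ev P u) (ev P y) := by
  obtain ⟨hm0, hmev⟩ := ev_aevalAeval h hu hy M
  obtain ⟨hn0, hnev⟩ := ev_aevalAeval h hu hy N
  have hmne : ev P (aevalAeval u y M) ≠ 0 := by rw [hmev]; exact hM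
  have hm : aevalAeval u y M ≠ 0 ∧ P.ord (aevalAeval u y M) = 0 := by
    have hnot : ¬ (aevalAeval u y M = 0 ∨ 0 < P.ord (aevalAeval u y M)) := fun hc =>
      hmne ((h.zero_iff _ hm0).mpr hc)
    push Not at hnot
    exact ⟨hnot.1, le_antisymm hnot.2 hm0⟩
  rcases eq_or_ne f 0 with rfl | hf0
  · refine ⟨by simp, ?_⟩
    have h0 : ev P (0 : F) = 0 := by
      have := h.const 0
      simpa using this
    rw [zero_mul] at hf
    rw [← hnev, ← hf, h0, zero_div]
  · have hord : P.ord f = P.ord (aevalAeval u y N) := by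
      rw [← hf, P.ord_mul hf0 hm.1, hm.2, add_zero]
    have hf_nonneg : 0 ≤ P.ord f := by rw [hord]; exact hn0
    refine ⟨hf_nonneg, ?_⟩
    have hmul := h.mul f _ hf_nonneg hm0
    rw [hf, hnev, hmev] at hmul
    rw [eq_div_iff hM, hmul]

end EvHom

/-- Polynomial expressions along a holomorphic branch are holomorphic. -/
theorem differentiableOn_evalEval_branch (G : ℂ[X][Y]) {b : ℂ → ℂ} {U : Set ℂ}
    (hb : DifferentiableOn ℂ b U) : DifferentiableOn ℂ (fun s => G.evalEval s (b s)) U :=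
  (helper9531.ev_differentiable G).comp_differentiableOn (differentiableOn_id.prodMk hb)

/-- **M5a.** Charts exist at every place, for every uniformizer. -/
theorem chartExists_of (hEv : Stmt_Ev.{0, 0}) (hSC : Stmt_SepCoord.{0, 0})
    (hSP : Stmt_SimplePoint.{0, 0}) : Stmt_ChartExists := by
  intro F _ _ x hx _ P u hu
  have hE : ∀ Q : Place ℂ F, EvProps Q := fun Q => by
    obtain ⟨h1, h2, h3, h4⟩ := hEv ℂ F x hx Q
    exact ⟨h1, fun f g hf hg => (h2 f g hf hg).1, fun f g hf hg => (h2 f g hf hg).2, h3, h4⟩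
  obtain ⟨y, χ, -, hgen, hχ, hker, hPy, h0, h1⟩ := hSC ℂ F x hx P u hu
  have hutr : Transcendental ℂ u :=
    helper1370.transcendental_of_ord_ne_zero P (by rw [hu]; norm_num)
  obtain ⟨r₁, ε, b, hr₁, -, hbd, hb0, hbz, -⟩ := helper9531.exists_branch χ 0 (ev P y) h0 h1
  have hopen : ∀ s ∈ Metric.ball (0 : ℂ) r₁, Metric.ball (0 : ℂ) r₁ ∈ 𝓝 s := fun s hs =>
    Metric.isOpen_ball.mem_nhds hs
  -- `χ_Y ≠ 0` along the branch, on a smaller disc
  have hdχ := differentiableOn_evalEval_branch (derivative χ) hbd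
  have hcont : ContinuousAt (fun s : ℂ => (derivative χ).evalEval s (b s)) 0 :=
    (hdχ.differentiableAt (hopen 0 (Metric.mem_ball_self hr₁))).continuousAt
  have hne0 : (derivative χ).evalEval 0 (b 0) ≠ 0 := by rw [hb0]; exact h1
  obtain ⟨r₂, hr₂, hr₂P⟩ := Metric.eventually_nhds_iff.mp (hcont.eventually_ne hne0)
  set r := min r₁ r₂ with hr
  have hrpos : 0 < r := lt_min hr₁ hr₂
  have hsub₁ : ∀ s ∈ Metric.ball (0 : ℂ) r, s ∈ Metric.ball (0 : ℂ) r₁ := fun s hs =>
    Metric.ball_subset_ball (min_le_left _ _) hs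
  have hsub₂ : ∀ s ∈ Metric.ball (0 : ℂ) r, (derivative χ).evalEval s (b s) ≠ 0 := fun s hs =>
    hr₂P (lt_of_lt_of_le (Metric.mem_ball.mp hs) (min_le_right _ _))
  -- the places of the chart
  have key : ∀ s ∈ Metric.ball (0 : ℂ) r, ∃ Pl : Place ℂ F,
      Pl.ord (u - algebraMap ℂ F s) = 1 ∧ 0 ≤ Pl.ord y ∧ ev Pl y = b s ∧
      (∀ P' : Place ℂ F, 0 < P'.ord (u - algebraMap ℂ F s) → 0 ≤ P'.ord y → ev P' y = b s →
        P' = Pl) ∧
      (∀ f : F, 0 ≤ Pl.ord f → ∃ N M : ℂ[X][Y], M.evalEval s (b s) ≠ 0 ∧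
        f * aevalAeval u y M = aevalAeval u y N) := fun s hs =>
    hSP ℂ F u y χ s (b s) hutr hgen hχ hker (hbz s (hsub₁ s hs)).1 (hsub₂ s hs)
  have : Nonempty (Place ℂ F) := ⟨P⟩
  choose! Q hQ using key
  have h0mem : (0 : ℂ) ∈ Metric.ball (0 : ℂ) r := Metric.mem_ball_self hrpos
  -- values of `u`, `y` along the chart
  have hval : ∀ s ∈ Metric.ball (0 : ℂ) r,
      0 ≤ (Q s).ord u ∧ ev (Q s) u = s ∧ 0 ≤ (Q s).ord y ∧ ev (Q s) y = b s := fun s hs => by
    obtain ⟨q1, q2, q3, -, -⟩ := hQ s hs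
    have hpos : 0 < (Q s).ord (u - algebraMap ℂ F s) := by rw [q1]; norm_num
    exact ⟨helper1370.ord_nonneg_of_ord_sub_algebraMap_pos (Q s) hpos,
      (hE (Q s)).of_pos u s hpos, q2, q3⟩
  refine ⟨Q, r, ⟨hrpos, fun s hs => (hQ s hs).1, ?_⟩, ?_⟩
  · -- analyticity
    intro f s₀ hs₀ hf
    obtain ⟨N, M, hM, hfM⟩ := (hQ s₀ hs₀).2.2.2.2 f hf
    have hdN := differentiableOn_evalEval_branch N hbd
    have hdM := differentiableOn_evalEval_branch M hbd
    have hnhds : Metric.ball (0 : ℂ) r₁ ∈ 𝓝 s₀ := hopen s₀ (hsub₁ s₀ hs₀)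
    have hcM : ContinuousAt (fun s : ℂ => M.evalEval s (b s)) s₀ :=
      (hdM.differentiableAt hnhds).continuousAt
    have hW : ∀ᶠ s in 𝓝 s₀, s ∈ Metric.ball (0 : ℂ) r ∧ M.evalEval s (b s) ≠ 0 :=
      (Metric.isOpen_ball.eventually_mem hs₀).and (hcM.eventually_ne hM)
    have hmain : ∀ᶠ s in 𝓝 s₀, 0 ≤ (Q s).ord f ∧
        ev (Q s) f = N.evalEval s (b s) / M.evalEval s (b s) := by
      refine hW.mono fun s hs => ?_
      obtain ⟨hs, hMs⟩ := hs
      obtain ⟨v1, v2, v3, v4⟩ := hval s hs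
      have := ev_of_mul_eq (hE (Q s)) v1 v3 N M (by rw [v2, v4]; exact hMs) hfM
      rw [v2, v4] at this
      exact this
    refine ⟨hmain.mono fun s h => h.1, ?_⟩
    have han : AnalyticAt ℂ (fun s => N.evalEval s (b s) / M.evalEval s (b s)) s₀ :=
      (hdN.analyticAt hnhds).div (hdM.analyticAt hnhds) hM
    exact han.congr (hmain.mono fun s h => h.2.symm)
  · -- `Q 0 = P`
    obtain ⟨-, -, -, huniq, -⟩ := hQ 0 h0mem
    refine (huniq P ?_ hPy ?_).symm
    · rw [map_zero, sub_zero, hu]; norm_num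
    · exact hb0.symm

end

end Fermat.Agent.S27.helper3430
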