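import Mathlib

/-!
# S27, step E4 (abstract part): the group-to-lattice kit

Mathlib-only, statement-agnostic. Nothing here mentions curves.

* `natCard_torsionBy_eq_pow` (LAT): if `E : V →+ J` is a surjective additive map from a
  finite-dimensional real normed space onto an additive commutative group whose kernel is
  discrete and spans `V` over `ℝ`, then `J[n]` has exactly `n ^ finrank ℝ V` elements.
* `AddOn`, `addOn_of_local`, `extHom`, `extHom_apply_of_mem`, `discreteTopology_ker_extHom`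
  (LOC): a map `e : V → J` that is locally additive on a convex neighbourhood `B` of `0`
  extends uniquely to an additive map `V →+ J`; its kernel is discrete if `e` is injective at
  `0` on `B`.
* `span_eq_top_of_forall_functional`, `span_ker_eq_top_of_forall_character`,
  `span_eq_top_of_bounded_cover`, `span_ker_eq_top_of_bounded` (SPAN): criteria for a subgroup to
  span `V` over `ℝ`.
* `natCard_torsionBy_of_local`, `natCard_torsionBy_of_local_of_bounded_gen`: packaged forms.
-/

namespace Fermat.Agent.S27.helper9506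

open Module Filter Topology

section LAT

variable {V J : Type*} [NormedAddCommGroup V] [NormedSpace ℝ V] [AddCommGroup J]

/-- The kernel of `E` as a `ℤ`-submodule. -/
def kerLattice (E : V →+ J) : Submodule ℤ V := AddSubgroup.toIntSubmodule E.ker

omit [NormedSpace ℝ V] in
theorem mem_kerLattice {E : V →+ J} {v : V} : v ∈ kerLattice E ↔ E v = 0 := Iff.rfl

/-- The map `l ↦ E (n⁻¹ • l)` from the kernel lattice to the `n`-torsion of `J`. -/
noncomputable def torsionMap (E : V →+ J) (n : ℕ) (hn : n ≠ 0) :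
    kerLattice E →+ Submodule.torsionBy ℤ J (n : ℤ) where
  toFun l := ⟨E ((n : ℝ)⁻¹ • (l : V)), by
    rw [Submodule.mem_torsionBy_iff, ← map_zsmul, natCast_zsmul, ← Nat.cast_smul_eq_nsmul ℝ,
      smul_smul, mul_inv_cancel₀ (Nat.cast_ne_zero.mpr hn), one_smul]
    exact l.2⟩
  map_zero' := by ext; simp
  map_add' a b := by ext; simp [smul_add]

theorem torsionMap_surjective (E : V →+ J) (hE : Function.Surjective E) (n : ℕ) (hn : n ≠ 0) :
    Function.Surjective (torsionMap E n hn) := by
  rintro ⟨x, hx⟩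
  obtain ⟨v, rfl⟩ := hE x
  rw [Submodule.mem_torsionBy_iff, ← map_zsmul, natCast_zsmul] at hx
  refine ⟨⟨n • v, hx⟩, ?_⟩
  ext
  simp only [torsionMap, AddMonoidHom.coe_mk, ZeroHom.coe_mk]
  rw [← Nat.cast_smul_eq_nsmul ℝ, smul_smul, inv_mul_cancel₀ (Nat.cast_ne_zero.mpr hn), one_smul]

theorem torsionMap_ker (E : V →+ J) (n : ℕ) (hn : n ≠ 0) :
    (torsionMap E n hn).ker = (nsmulAddMonoidHom (α := kerLattice E) n).range := by
  ext l
  simp only [AddMonoidHom.mem_ker, AddMonoidHom.mem_range, nsmulAddMonoidHom_apply]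
  constructor
  · intro h
    have h0 : E ((n : ℝ)⁻¹ • (l : V)) = 0 := by
      have := congrArg Subtype.val h
      simpa [torsionMap] using this
    refine ⟨⟨(n : ℝ)⁻¹ • (l : V), h0⟩, ?_⟩
    ext
    simp only [Submodule.coe_smul_of_tower]
    rw [← Nat.cast_smul_eq_nsmul ℝ, smul_smul, mul_inv_cancel₀ (Nat.cast_ne_zero.mpr hn), one_smul]
  · rintro ⟨m, rfl⟩
    ext
    simp only [torsionMap, AddMonoidHom.coe_mk, ZeroHom.coe_mk, Submodule.coe_smul_of_tower,
      ZeroMemClass.coe_zero]
    rw [← Nat.cast_smul_eq_nsmul ℝ, smul_smul, inv_mul_cancel₀ (Nat.cast_ne_zero.mpr hn), one_smul]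
    exact m.2

/-- **Lattice count.** A surjection `E : V →+ J` from a finite-dimensional real vector space
whose kernel is discrete and spans `V` over `ℝ` has `Nat.card J[n] = n ^ dim_ℝ V`. -/
theorem natCard_torsionBy_eq_pow [FiniteDimensional ℝ V] (E : V →+ J)
    (hE : Function.Surjective E)
    (hdisc : DiscreteTopology E.ker) (hspan : Submodule.span ℝ (E.ker : Set V) = ⊤)
    (n : ℕ) (hn : n ≠ 0) :
    Nat.card (Submodule.torsionBy ℤ J (n : ℤ)) = n ^ Module.finrank ℝ V := by
  have : DiscreteTopology (kerLattice E) := hdisc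
  have : IsZLattice ℝ (kerLattice E) := ⟨hspan⟩
  have : Module.Free ℤ (kerLattice E) := ZLattice.module_free ℝ _
  have : Module.Finite ℤ (kerLattice E) := ZLattice.module_finite ℝ _
  have hrank : finrank ℤ (kerLattice E) = finrank ℝ V := ZLattice.rank ℝ _
  have e := QuotientAddGroup.quotientKerEquivOfSurjective (torsionMap E n hn)
    (torsionMap_surjective E hE n hn)
  rw [← Nat.card_congr e.toEquiv, ← AddSubgroup.index_eq_card, torsionMap_ker,
    AddSubgroup.index_range_nsmul, hrank]

end LAT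


section LOC

variable {V J : Type*} [AddCommGroup V] [Module ℝ V] [AddCommGroup J]

/-- `e` is additive on the set `B`: `e (v + w) = e v + e w` whenever `v`, `w`, `v + w ∈ B`. -/
def AddOn (e : V → J) (B : Set V) : Prop :=
  ∀ v w : V, v ∈ B → w ∈ B → v + w ∈ B → e (v + w) = e v + e w

omit [Module ℝ V] in
theorem AddOn.map_zero {e : V → J} {B : Set V} (he : AddOn e B) (h0 : (0 : V) ∈ B) : e 0 = 0 := by
  have h := he 0 0 h0 h0 (by simpa using h0)
  rw [add_zero] at h
  simpa using h

/-- On a convex set containing `0`, an additive-on-`B` map satisfies `e (k • u) = k • e u`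
as soon as `k • u ∈ B`. -/
theorem AddOn.map_nat_smul {e : V → J} {B : Set V} (he : AddOn e B) (hB : Convex ℝ B)
    (h0 : (0 : V) ∈ B) (k : ℕ) (u : V) (hku : (k : ℝ) • u ∈ B) :
    e ((k : ℝ) • u) = k • e u := by
  rcases Nat.eq_zero_or_pos k with rfl | hk
  · simp [he.map_zero h0]
  have hkR : (0 : ℝ) < k := Nat.cast_pos.mpr hk
  have hmem : ∀ j : ℕ, j ≤ k → (j : ℝ) • u ∈ B := by
    intro j hj
    have : (j : ℝ) • u = ((j : ℝ) / k) • ((k : ℝ) • u) := by
      rw [smul_smul, div_mul_cancel₀ _ hkR.ne']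
    rw [this]
    refine hB.smul_mem_of_zero_mem h0 hku ⟨by positivity, ?_⟩
    rw [div_le_one hkR]
    exact_mod_cast hj
  have key : ∀ j : ℕ, j ≤ k → e ((j : ℝ) • u) = j • e u := by
    intro j
    induction j with
    | zero => intro _; simp [he.map_zero h0]
    | succ j ih =>
      intro hj
      have hu : u ∈ B := by simpa using hmem 1 hk
      have h1 : ((j + 1 : ℕ) : ℝ) • u = (j : ℝ) • u + u := by
        push_cast; rw [add_smul, one_smul]
      rw [h1, he _ _ (hmem j (Nat.le_of_succ_le hj)) hu (h1 ▸ hmem (j + 1) hj),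
        ih (Nat.le_of_succ_le hj), succ_nsmul]
  exact key k le_rfl

variable [TopologicalSpace V] [ContinuousSMul ℝ V]

theorem eventually_inv_smul_mem {B : Set V} (hB : B ∈ 𝓝 (0 : V)) (v : V) :
    ∀ᶠ N : ℕ in atTop, ((N : ℝ)⁻¹) • v ∈ B := by
  have h : Tendsto (fun N : ℕ => ((N : ℝ)⁻¹) • v) atTop (𝓝 ((0 : ℝ) • v)) :=
    (tendsto_inv_atTop_nhds_zero_nat (𝕜 := ℝ)).smul_const v
  rw [zero_smul] at h
  exact h hB

theorem exists_pos_inv_smul_mem {B : Set V} (hB : B ∈ 𝓝 (0 : V)) (v : V) :
    ∃ N : ℕ, 0 < N ∧ ((N : ℝ)⁻¹) • v ∈ B := by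
  obtain ⟨N, hN, h⟩ := ((eventually_gt_atTop 0).and (eventually_inv_smul_mem hB v)).exists
  exact ⟨N, hN, h⟩

/-- The extension `E v = N • e (v / N)` (for any `N` with `v / N ∈ B`). -/
noncomputable def extFun (e : V → J) {B : Set V} (hB : B ∈ 𝓝 (0 : V)) (v : V) : J :=
  (exists_pos_inv_smul_mem hB v).choose • e (((exists_pos_inv_smul_mem hB v).choose : ℝ)⁻¹ • v)

theorem extFun_eq {e : V → J} {B : Set V} (he : AddOn e B) (hconv : Convex ℝ B)
    (hB : B ∈ 𝓝 (0 : V)) (v : V) (M : ℕ) (hM : 0 < M) (hMv : ((M : ℝ)⁻¹) • v ∈ B) :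
    extFun e hB v = M • e (((M : ℝ)⁻¹) • v) := by
  have h0 : (0 : V) ∈ B := mem_of_mem_nhds hB
  obtain ⟨hN, hNv⟩ := (exists_pos_inv_smul_mem hB v).choose_spec
  set N := (exists_pos_inv_smul_mem hB v).choose with hNdef
  have hNR : (N : ℝ) ≠ 0 := Nat.cast_ne_zero.mpr hN.ne'
  have hMR : (M : ℝ) ≠ 0 := Nat.cast_ne_zero.mpr hM.ne'
  set u : V := ((N : ℝ)⁻¹ * (M : ℝ)⁻¹) • v with hu
  have e1 : ((N : ℝ)⁻¹) • v = (M : ℝ) • u := by
    rw [hu, smul_smul]; congr 1; field_simp
  have e2 : ((M : ℝ)⁻¹) • v = (N : ℝ) • u := by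
    rw [hu, smul_smul]; congr 1; field_simp
  show N • e (((N : ℝ)⁻¹) • v) = M • e (((M : ℝ)⁻¹) • v)
  rw [e1, e2, he.map_nat_smul hconv h0 M u (e1 ▸ hNv), he.map_nat_smul hconv h0 N u (e2 ▸ hMv),
    smul_smul, smul_smul, mul_comm]

theorem extFun_add {e : V → J} {B : Set V} (he : AddOn e B) (hconv : Convex ℝ B)
    (hB : B ∈ 𝓝 (0 : V)) (v w : V) :
    extFun e hB (v + w) = extFun e hB v + extFun e hB w := by
  obtain ⟨M, hM, hv, hw, hvw⟩ := ((eventually_gt_atTop 0).and
    ((eventually_inv_smul_mem hB v).and ((eventually_inv_smul_mem hB w).and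
      (eventually_inv_smul_mem hB (v + w))))).exists
  rw [extFun_eq he hconv hB v M hM hv, extFun_eq he hconv hB w M hM hw,
    extFun_eq he hconv hB (v + w) M hM hvw, ← smul_add]
  congr 1
  rw [smul_add] at hvw ⊢
  exact he _ _ hv hw hvw

/-- **Extension of a local homomorphism.** A map which is additive on a convex neighbourhood `B`
of `0` extends to an additive map on the whole space. -/
noncomputable def extHom (e : V → J) {B : Set V} (he : AddOn e B) (hconv : Convex ℝ B)
    (hB : B ∈ 𝓝 (0 : V)) : V →+ J :=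
  AddMonoidHom.mk' (extFun e hB) (extFun_add he hconv hB)

theorem extHom_apply_of_mem {e : V → J} {B : Set V} (he : AddOn e B) (hconv : Convex ℝ B)
    (hB : B ∈ 𝓝 (0 : V)) {v : V} (hv : v ∈ B) : extHom e he hconv hB v = e v := by
  have := extFun_eq he hconv hB v 1 one_pos (by simpa using hv)
  show extFun e hB v = e v
  simpa using this

theorem extHom_apply {e : V → J} {B : Set V} (he : AddOn e B) (hconv : Convex ℝ B)
    (hB : B ∈ 𝓝 (0 : V)) (v : V) (M : ℕ) (hM : 0 < M) (hMv : ((M : ℝ)⁻¹) • v ∈ B) :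
    extHom e he hconv hB v = M • e (((M : ℝ)⁻¹) • v) :=
  extFun_eq he hconv hB v M hM hMv

/-- Two additive maps that agree on a neighbourhood of `0` are equal. -/
theorem addMonoidHom_ext_of_nhds {E₁ E₂ : V →+ J} {B : Set V} (hB : B ∈ 𝓝 (0 : V))
    (h : ∀ v ∈ B, E₁ v = E₂ v) : E₁ = E₂ := by
  ext v
  obtain ⟨N, hN, hv⟩ := exists_pos_inv_smul_mem hB v
  have hNR : (N : ℝ) ≠ 0 := Nat.cast_ne_zero.mpr hN.ne'
  have hv' : v = N • (((N : ℝ)⁻¹) • v) := by
    rw [← Nat.cast_smul_eq_nsmul ℝ, smul_smul, mul_inv_cancel₀ hNR, one_smul]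
  rw [hv', map_nsmul, map_nsmul, h _ hv]

/-- The image of `B` generates the range of the extension; in particular if every element of `J`
is a finite sum of values of `e` on `B`, the extension is surjective. -/
theorem extHom_surjective {e : V → J} {B : Set V} (he : AddOn e B) (hconv : Convex ℝ B)
    (hB : B ∈ 𝓝 (0 : V)) (hgen : AddSubgroup.closure (e '' B) = ⊤) :
    Function.Surjective (extHom e he hconv hB) := by
  rw [← AddMonoidHom.range_eq_top, eq_top_iff, ← hgen, AddSubgroup.closure_le]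
  rintro _ ⟨v, hv, rfl⟩
  exact ⟨v, extHom_apply_of_mem he hconv hB hv⟩

end LOC

section LOC2

variable {V J : Type*} [AddCommGroup V] [Module ℝ V] [AddCommGroup J]
  [TopologicalSpace V] [ContinuousSMul ℝ V]

/-- **Local additivity implies additivity on a convex set.** If for every base point `u ∈ B`
the identity `e (u + h) = e u + e h` holds for all sufficiently small `h` (how small may depend
on `u`), then `e` is additive on the convex set `B`. -/
theorem addOn_of_local {e : V → J} {B : Set V} (hconv : Convex ℝ B) (h0 : (0 : V) ∈ B)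
    (hloc : ∀ u ∈ B, ∃ U ∈ 𝓝 (0 : V), ∀ h ∈ U, u + h ∈ B → e (u + h) = e u + e h) :
    AddOn e B := by
  have he0 : e 0 = 0 := by
    obtain ⟨U, hU, hUe⟩ := hloc 0 h0
    have := hUe 0 (mem_of_mem_nhds hU) (by simpa using h0)
    simpa using this
  intro v w hv hw hvw
  let _ : TopologicalSpace J := ⊥
  have : DiscreteTopology J := ⟨rfl⟩
  let f : ℝ → J := fun t => e (v + t • w) - e (t • w)
  have hf : ContinuousOn f (Set.Icc (0 : ℝ) 1) := by
    intro t ht
    have ha : v + t • w ∈ B := hconv.add_smul_mem hv hvw ht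
    have hb : t • w ∈ B := hconv.smul_mem_of_zero_mem h0 hw ht
    obtain ⟨Ua, hUa, hUae⟩ := hloc _ ha
    obtain ⟨Ub, hUb, hUbe⟩ := hloc _ hb
    have hcont : Tendsto (fun s : ℝ => (s - t) • w) (𝓝 t) (𝓝 (0 : V)) := by
      have hc : Continuous (fun s : ℝ => (s - t) • w) := by fun_prop
      simpa using hc.tendsto t
    have hev : ∀ᶠ s in 𝓝[Set.Icc (0 : ℝ) 1] t, f s = f t := by
      filter_upwards [nhdsWithin_le_nhds (hcont (Filter.inter_mem hUa hUb)),
        self_mem_nhdsWithin] with s hs hsI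
      have h1 : v + s • w = (v + t • w) + (s - t) • w := by rw [sub_smul]; abel
      have h2 : s • w = t • w + (s - t) • w := by rw [sub_smul]; abel
      have ha' : v + s • w ∈ B := hconv.add_smul_mem hv hvw hsI
      have hb' : s • w ∈ B := hconv.smul_mem_of_zero_mem h0 hw hsI
      have e1 : e (v + s • w) = e (v + t • w) + e ((s - t) • w) := by
        rw [h1]; exact hUae _ hs.1 (h1 ▸ ha')
      have e2 : e (s • w) = e (t • w) + e ((s - t) • w) := by
        rw [h2]; exact hUbe _ hs.2 (h2 ▸ hb')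
      show e (v + s • w) - e (s • w) = e (v + t • w) - e (t • w)
      rw [e1, e2]
      abel
    exact (continuousWithinAt_const (b := f t)).congr_of_eventuallyEq hev rfl
  have h10 : f 1 = f 0 := isPreconnected_Icc.constant hf (Set.right_mem_Icc.mpr zero_le_one)
    (Set.left_mem_Icc.mpr zero_le_one)
  simp only [f, one_smul, zero_smul, add_zero, he0, sub_zero] at h10
  exact sub_eq_iff_eq_add.mp h10

variable [IsTopologicalAddGroup V]

omit [Module ℝ V] [ContinuousSMul ℝ V] in
/-- An additive map which is injective at `0` on a neighbourhood of `0` has discrete kernel. -/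
theorem discreteTopology_ker_of_nhds (E : V →+ J) {B : Set V} (hB : B ∈ 𝓝 (0 : V))
    (hinj : ∀ v ∈ B, E v = 0 → v = 0) : DiscreteTopology E.ker := by
  rw [discreteTopology_iff_isOpen_singleton_zero, isOpen_induced_iff]
  refine ⟨interior B, isOpen_interior, ?_⟩
  ext x
  simp only [Set.mem_preimage, Set.mem_singleton_iff]
  constructor
  · intro hx
    exact Subtype.ext (hinj _ (interior_subset hx) x.2)
  · rintro rfl
    exact mem_interior_iff_mem_nhds.mpr hB

theorem discreteTopology_ker_extHom {e : V → J} {B : Set V} (he : AddOn e B) (hconv : Convex ℝ B)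
    (hB : B ∈ 𝓝 (0 : V)) (hinj : ∀ v ∈ B, e v = 0 → v = 0) :
    DiscreteTopology (extHom e he hconv hB).ker :=
  discreteTopology_ker_of_nhds _ hB fun v hv h =>
    hinj v hv (by rwa [extHom_apply_of_mem he hconv hB hv] at h)

end LOC2

section SPAN

variable {V J : Type*} [AddCommGroup J]

/-- **Dual criterion.** A subgroup spans `V` over `ℝ` as soon as no nonzero linear functional
vanishes on it. -/
theorem span_eq_top_of_forall_functional [AddCommGroup V] [Module ℝ V] (Λ : AddSubgroup V)
    (h : ∀ L : V →ₗ[ℝ] ℝ, (∀ l ∈ Λ, L l = 0) → L = 0) :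
    Submodule.span ℝ (Λ : Set V) = ⊤ := by
  by_contra hne
  obtain ⟨L, hL0, hL⟩ := Submodule.exists_le_ker_of_lt_top _ (lt_top_iff_ne_top.mpr hne)
  exact hL0 (h L fun l hl => hL (Submodule.subset_span hl))

/-- An additive map `L` killing the kernel of a surjection `E : V →+ J` descends to `J`. -/
theorem exists_character_of_ker_le [AddCommGroup V] {A : Type*} [AddCommGroup A] (E : V →+ J)
    (hE : Function.Surjective E) (L : V →+ A) (hL : ∀ v, E v = 0 → L v = 0) :
    ∃ χ : J →+ A, ∀ v, χ (E v) = L v := by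
  have key : ∀ v w, E v = E w → L v = L w := by
    intro v w hvw
    have : L (v - w) = 0 := hL _ (by rw [map_sub, hvw, sub_self])
    rwa [map_sub, sub_eq_zero] at this
  refine ⟨AddMonoidHom.mk' (fun x => L (Function.surjInv hE x)) fun x y => ?_, fun v => ?_⟩
  · rw [← map_add]
    exact key _ _ (by rw [map_add, Function.surjInv_eq hE, Function.surjInv_eq hE,
      Function.surjInv_eq hE])
  · exact key _ _ (Function.surjInv_eq hE (E v))

/-- **Character criterion** (the shape used by maximum-principle arguments): if the only linear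
functional `L` on `V` of the form `L = χ ∘ E` with `χ : J →+ ℝ` is `0`, then `ker E` spans. -/
theorem span_ker_eq_top_of_forall_character [AddCommGroup V] [Module ℝ V] (E : V →+ J)
    (hE : Function.Surjective E)
    (h : ∀ (L : V →ₗ[ℝ] ℝ) (χ : J →+ ℝ), (∀ v, χ (E v) = L v) → L = 0) :
    Submodule.span ℝ (E.ker : Set V) = ⊤ := by
  refine span_eq_top_of_forall_functional E.ker fun L hL => ?_
  obtain ⟨χ, hχ⟩ := exists_character_of_ker_le E hE L.toAddMonoidHom fun v hv => hL v hv
  exact h L χ hχ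

variable [NormedAddCommGroup V] [NormedSpace ℝ V] [FiniteDimensional ℝ V]

/-- **Bounded-cover criterion** (measure-free): if `V = Λ + S` with `S` bounded, then `Λ` spans
`V` over `ℝ`. -/
theorem span_eq_top_of_bounded_cover (Λ : AddSubgroup V) (S : Set V) (hS : Bornology.IsBounded S)
    (hcov : ∀ v : V, ∃ l ∈ Λ, v - l ∈ S) : Submodule.span ℝ (Λ : Set V) = ⊤ := by
  refine span_eq_top_of_forall_functional Λ fun L hL => ?_
  by_contra hL0
  obtain ⟨v0, hv0⟩ : ∃ v0, L v0 ≠ 0 := by
    by_contra hcon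
    simp only [not_exists, not_not] at hcon
    exact hL0 (LinearMap.ext hcon)
  obtain ⟨C, hC⟩ := hS.exists_norm_le
  let Lc : V →L[ℝ] ℝ := LinearMap.toContinuousLinearMap L
  have hbound : ∀ v, |L v| ≤ ‖Lc‖ * C := by
    intro v
    obtain ⟨l, hl, hvl⟩ := hcov v
    have hv : L v = Lc (v - l) := by
      show L v = L (v - l)
      rw [map_sub, hL l hl, sub_zero]
    rw [hv]
    calc |Lc (v - l)| = ‖Lc (v - l)‖ := (Real.norm_eq_abs _).symm
      _ ≤ ‖Lc‖ * ‖v - l‖ := Lc.le_opNorm _
      _ ≤ ‖Lc‖ * C := by gcongr; exact hC _ hvl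
  have hnn : 0 ≤ ‖Lc‖ * C := le_trans (abs_nonneg _) (hbound 0)
  have h1 := hbound (((‖Lc‖ * C + 1) / L v0) • v0)
  rw [map_smul, smul_eq_mul, div_mul_cancel₀ _ hv0, abs_of_nonneg (by linarith)] at h1
  linarith

/-- Bounded-cover criterion for the kernel of an additive map: if every value of `E` is attained
on a bounded set, then `ker E` spans. -/
theorem span_ker_eq_top_of_bounded (E : V →+ J) (S : Set V) (hS : Bornology.IsBounded S)
    (h : ∀ v : V, ∃ s ∈ S, E s = E v) : Submodule.span ℝ (E.ker : Set V) = ⊤ := by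
  refine span_eq_top_of_bounded_cover E.ker S hS fun v => ?_
  obtain ⟨s, hs, hsv⟩ := h v
  exact ⟨v - s, by simp [AddMonoidHom.mem_ker, hsv], by simpa using hs⟩

end SPAN

section FINAL

variable {V J : Type*} [NormedAddCommGroup V] [NormedSpace ℝ V] [FiniteDimensional ℝ V]
  [AddCommGroup J]

/-- **Abstract E4, general form.** A map `e : V → J` that is locally additive on a convex
neighbourhood `B` of `0`, injective at `0` on `B`, whose values on `B` generate `J`, and whose
additive extension has spanning kernel, gives `Nat.card J[n] = n ^ dim_ℝ V`. -/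
theorem natCard_torsionBy_of_local (e : V → J) (B : Set V) (hconv : Convex ℝ B)
    (hB : B ∈ 𝓝 (0 : V))
    (hloc : ∀ u ∈ B, ∃ U ∈ 𝓝 (0 : V), ∀ h ∈ U, u + h ∈ B → e (u + h) = e u + e h)
    (hinj : ∀ v ∈ B, e v = 0 → v = 0)
    (hgen : AddSubgroup.closure (e '' B) = ⊤)
    (hspan : ∀ E : V →+ J, (∀ v ∈ B, E v = e v) → Submodule.span ℝ (E.ker : Set V) = ⊤)
    (n : ℕ) (hn : n ≠ 0) :
    Nat.card (Submodule.torsionBy ℤ J (n : ℤ)) = n ^ Module.finrank ℝ V := by
  have he : AddOn e B := addOn_of_local hconv (mem_of_mem_nhds hB) hloc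
  exact natCard_torsionBy_eq_pow (extHom e he hconv hB) (extHom_surjective he hconv hB hgen)
    (discreteTopology_ker_extHom he hconv hB hinj)
    (hspan _ fun v hv => extHom_apply_of_mem he hconv hB hv) n hn

/-- **Abstract E4, bounded-generation form** (measure-free): if moreover every element of `J` is
a sum of at most `m` values of `e` at points of `B` of norm at most `C`, no spanning hypothesis
is needed. -/
theorem natCard_torsionBy_of_local_of_bounded_gen (e : V → J) (B : Set V) (hconv : Convex ℝ B)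
    (hB : B ∈ 𝓝 (0 : V))
    (hloc : ∀ u ∈ B, ∃ U ∈ 𝓝 (0 : V), ∀ h ∈ U, u + h ∈ B → e (u + h) = e u + e h)
    (hinj : ∀ v ∈ B, e v = 0 → v = 0)
    (m : ℕ) (C : ℝ)
    (hgen : ∀ x : J, ∃ b : Fin m → V, (∀ i, b i ∈ B ∧ ‖b i‖ ≤ C) ∧ x = ∑ i, e (b i))
    (n : ℕ) (hn : n ≠ 0) :
    Nat.card (Submodule.torsionBy ℤ J (n : ℤ)) = n ^ Module.finrank ℝ V := by
  have he : AddOn e B := addOn_of_local hconv (mem_of_mem_nhds hB) hloc
  have key : ∀ x : J, ∃ s ∈ Metric.closedBall (0 : V) (m * C), extHom e he hconv hB s = x := by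
    intro x
    obtain ⟨b, hb, rfl⟩ := hgen x
    refine ⟨∑ i, b i, ?_, ?_⟩
    · rw [mem_closedBall_zero_iff]
      calc ‖∑ i, b i‖ ≤ ∑ i, ‖b i‖ := norm_sum_le _ _
        _ ≤ ∑ _i : Fin m, C := Finset.sum_le_sum fun i _ => (hb i).2
        _ = m * C := by simp
    · rw [map_sum]
      exact Finset.sum_congr rfl fun i _ => extHom_apply_of_mem he hconv hB (hb i).1
  refine natCard_torsionBy_eq_pow (extHom e he hconv hB) (fun x => ?_)
    (discreteTopology_ker_extHom he hconv hB hinj)
    (span_ker_eq_top_of_bounded _ (Metric.closedBall (0 : V) (m * C))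
      Metric.isBounded_closedBall fun v => ?_) n hn
  · obtain ⟨s, -, hs⟩ := key x
    exact ⟨s, hs⟩
  · exact key _

end FINAL

end Fermat.Agent.S27.helper9506
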