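import Fermat.Agent.S27.helper6247_Spec
import Fermat.Agent.S27.helper5411_Reduce
import Fermat.Agent.S27.helper9506_Lattice

/-!
# S27 (analytic route, Spec `helper6247_Spec`): four Spec leaves, verbatim

* `stmt_Reduce        : helper6247.Stmt_Reduce`                      (M0, from `helper5411`)
* `stmt_LatticeCount  : helper6247.Stmt_LatticeCount`                (M6c, from `helper9506`)
* `chartCoefAnalytic_of : Stmt_WeilCoeff → Stmt_ChartCoefAnalytic`   (M5e)
* `intChartExists_of  : Stmt_ChartCoefAnalytic → Stmt_IntChartExists` (M5f)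

Auxiliary: `transcendental_of_ord_eq_one` (a function which is a local coordinate at some place
is transcendental over an algebraically closed constant field).
-/

set_option autoImplicit false

open AlgebraicCurve IntermediateField Polynomial
open scoped Topology

namespace Fermat.Agent.S27.helper3807

open Fermat.Agent.S27.helper6247

/-! ## M0: `Stmt_Reduce` -/

/-- **M0.** A curve in the sense of the frozen statement is a finite extension of `K(x)`. -/
theorem stmt_Reduce.{u, v} : Stmt_Reduce.{u, v} := by
  intro K F _ _ _ _ _ _ _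
  obtain ⟨x, hx, hfin⟩ := helper5411.exists_transcendental_finite (K := K) (F := F)
  exact ⟨x, hx, hfin⟩

/-! ## M6c: `Stmt_LatticeCount` -/

/-- **M6c.** The pure lattice lemma of the Spec. -/
theorem stmt_LatticeCount : Stmt_LatticeCount := by
  intro g n A _ E hE hdisc hbdd hn
  obtain ⟨ε, hε, hinj⟩ := hdisc
  obtain ⟨B, hB⟩ := hbdd
  have h1 : DiscreteTopology E.ker :=
    helper9506.discreteTopology_ker_of_nhds E (B := Metric.ball (0 : Fin g → ℂ) ε)
      (Metric.ball_mem_nhds _ hε) (fun v hv hv0 => hinj v hv0 (by simpa using hv))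
  have h2 : Submodule.span ℝ (E.ker : Set (Fin g → ℂ)) = ⊤ :=
    helper9506.span_ker_eq_top_of_bounded E (Metric.closedBall (0 : Fin g → ℂ) B)
      Metric.isBounded_closedBall (fun v => by
        obtain ⟨w', hw', hn'⟩ := hB v
        exact ⟨w', by simpa using hn', hw'⟩)
  have h3 := helper9506.natCard_torsionBy_eq_pow E hE h1 h2 n hn.ne'
  have h4 : Module.finrank ℝ (Fin g → ℂ) = 2 * g := by
    rw [Module.finrank_pi_fintype]
    simp [Complex.finrank_real_complex, mul_comm]
  rw [h4] at h3
  exact h3

/-! ## A local coordinate is transcendental -/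

section Transc

variable {K : Type*} {F : Type*} [Field K] [Field F] [Algebra K F]

/-- The order of a constant is zero. -/
theorem ord_algebraMap (P : Place K F) (a : K) : P.ord (algebraMap K F a) = 0 := by
  rcases eq_or_ne a 0 with rfl | ha
  · rw [map_zero, Place.ord_zero]
  · have h1 := P.adicValuation_algebraMap_le_one a
    have h2 := P.adicValuation_algebraMap_le_one a⁻¹
    have h3 : P.adicValuation (algebraMap K F a) * P.adicValuation (algebraMap K F a⁻¹) = 1 := by
      rw [← map_mul, ← map_mul, mul_inv_cancel₀ ha, map_one, map_one]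
    have h4 : P.adicValuation (algebraMap K F a) = 1 := by
      apply le_antisymm h1
      rw [← h3]
      exact mul_le_of_le_one_right' h2
    unfold Place.ord
    rw [h4]
    simp

/-- A function which is a local coordinate at some place (`u - c` has order `1` there) is
transcendental over the algebraically closed constant field. -/
theorem transcendental_of_ord_eq_one [IsAlgClosed K] (P : Place K F) (u : F) (c : K)
    (h : P.ord (u - algebraMap K F c) = 1) : Transcendental K u := by
  intro halg
  have hint : IsIntegral K u := halg.isIntegral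
  have hdeg : (minpoly K u).degree = 1 :=
    IsAlgClosed.degree_eq_one_of_irreducible K (minpoly.irreducible hint)
  obtain ⟨a, ha⟩ := minpoly.mem_range_of_degree_eq_one K u hdeg
  rw [← ha, ← map_sub, ord_algebraMap] at h
  exact zero_ne_one h

end Transc

/-! ## M5e: `Stmt_ChartCoefAnalytic` -/

/-- **M5e.** The integrand `chartCoef` is analytic along every chart, from `Stmt_WeilCoeff`. -/
theorem chartCoefAnalytic_of (hW : Stmt_WeilCoeff.{0, 0}) : Stmt_ChartCoefAnalytic := by
  intro F _ _ x hx _ e u Q r hchart s hs
  have h0 : (0 : ℂ) ∈ Metric.ball (0 : ℂ) r := Metric.mem_ball_self hchart.pos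
  have hu : Transcendental ℂ u := transcendental_of_ord_eq_one (Q 0) u 0 (hchart.unif 0 h0)
  have key : ∀ j : Fin (genusFF ℂ F), AnalyticAt ℂ (fun t => chartCoef e u Q t j) s := by
    intro j
    let lam : Module.Dual ℂ (H1 (0 : Divisor ℂ F)) :=
      (LinearMap.proj j : (Fin (genusFF ℂ F) → ℂ) →ₗ[ℂ] ℂ) ∘ₗ e.toLinearMap
    obtain ⟨φ, hφ⟩ := hW ℂ F x hx lam u hu
    have h1 : AnalyticAt ℂ (fun t => ev (Q t) φ) s :=
      (hchart.analytic φ s hs (hφ (Q s) s (hchart.unif s hs)).1).2
    refine h1.congr ?_
    filter_upwards [Metric.isOpen_ball.mem_nhds hs] with t ht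
    exact ((hφ (Q t) t (hchart.unif t ht)).2).symm
  exact analyticAt_pi_iff.mpr key

/-! ## M5f: `Stmt_IntChartExists` -/

/-- **M5f.** Every chart has an abelian integral (primitive of `chartCoef` on the chart disc,
normalised by `J 0 = 0`). -/
theorem intChartExists_of (h : Stmt_ChartCoefAnalytic) : Stmt_IntChartExists := by
  intro F _ _ x hx _ e u Q r hchart
  have hdiff : DifferentiableOn ℂ (chartCoef e u Q) (Metric.ball (0 : ℂ) r) := fun s hs =>
    (h F x hx e u Q r hchart s hs).differentiableAt.differentiableWithinAt
  obtain ⟨J, hJ0, hJ⟩ := (hdiff.isExactOn_ball).with_val_at 0 0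
  exact ⟨J, hchart, hJ0, hJ⟩

/-- M5f directly from `Stmt_WeilCoeff`. -/
theorem intChartExists_of_weilCoeff (hW : Stmt_WeilCoeff.{0, 0}) : Stmt_IntChartExists :=
  intChartExists_of (chartCoefAnalytic_of hW)

end Fermat.Agent.S27.helper3807
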