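import Fermat.Agent.S27.helper6247_Spec
import Fermat.Agent.S24.helper483_PlacesFF

/-!
# S27, node M6 "Complex" of the Spec (helper4604)

`complex_of_aj : Stmt_Riemann → Stmt_AJ → Stmt_Compact → Stmt_Connected → Stmt_LatticeCount →
  Stmt_Complex` (the endgame behind the core interface `Stmt_AJ` of the Spec), and its corollary
`complex_of` through core A (`Stmt_Key` + `Stmt_IntChartExists`).

Generic algebraic part (any base field, hypothesis-passing):

* `exists_effective_rep`: Riemann's inequality gives, for `Z` of degree `0` and a place `P0`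
  of degree one, an effective divisor `D` of degree `g` with `D - g • P0 ~ Z`;
* `exists_points_of_effective`: an effective divisor of degree `n` is a sum of `n` places;
* `exists_bounded_preimage`: if every point class `[P - P0]` is `E w` with `‖w‖ ≤ M`, then every
  class of `Pic0` is `E w` with `‖w‖ ≤ g * M`.

Analytic part: along every chart the class `[Q s - Q 0]` is `E` of a continuous function of `s`
(`Stmt_AJ`); finitely many closed chart discs cover the curve (`Stmt_Compact`), these functions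
are bounded on them, and the classes of the centres lie in the range of `E` by
`Stmt_Connected`.  Hence `E` is onto with a bounded fundamental set and
`Stmt_LatticeCount` applies.
-/

set_option autoImplicit false

open AlgebraicCurve IntermediateField

namespace Fermat.Agent.S27.helper4604

open Fermat.Agent.S27.helper6247

noncomputable section

section Generic

variable {K : Type*} {F : Type*} [Field K] [Field F] [Algebra K F]

theorem cls_of_mem {D : Divisor K F} (h : D ∈ Divisor.degZero (K := K) (F := F)) :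
    cls D = Pic0.mk ⟨D, h⟩ := by
  unfold cls
  rw [dif_pos h]

theorem cls_zero : cls (0 : Divisor K F) = 0 := by
  rw [cls_of_mem (zero_mem _)]
  rfl

theorem cls_add {D D' : Divisor K F} (h : D ∈ Divisor.degZero (K := K) (F := F))
    (h' : D' ∈ Divisor.degZero (K := K) (F := F)) : cls (D + D') = cls D + cls D' := by
  rw [cls_of_mem h, cls_of_mem h', cls_of_mem (add_mem h h')]
  rfl

theorem cls_sum {ι : Type*} (s : Finset ι) (D : ι → Divisor K F)
    (h : ∀ i ∈ s, D i ∈ Divisor.degZero (K := K) (F := F)) :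
    cls (∑ i ∈ s, D i) = ∑ i ∈ s, cls (D i) := by
  classical
  induction s using Finset.induction_on with
  | empty => simp [cls_zero]
  | insert a s ha ih =>
    rw [Finset.sum_insert ha, Finset.sum_insert ha,
      cls_add (h a (Finset.mem_insert_self a s))
        (sum_mem fun i hi => h i (Finset.mem_insert_of_mem hi)),
      ih fun i hi => h i (Finset.mem_insert_of_mem hi)]

theorem cls_eq_of_sub_mem_principal {D D' : Divisor K F}
    (h : D ∈ Divisor.degZero (K := K) (F := F)) (h' : D' ∈ Divisor.degZero (K := K) (F := F))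
    (hp : D - D' ∈ Divisor.principal (K := K) (F := F)) : cls D = cls D' := by
  rw [cls_of_mem h, cls_of_mem h']
  unfold Pic0.mk
  rw [QuotientAddGroup.eq_iff_sub_mem, AddSubgroup.mem_addSubgroupOf]
  exact hp

theorem degree_pt {P : Place K F} (hP : P.deg = 1) : Divisor.degree (pt P) = 1 := by
  rw [pt, Divisor.degree_single, hP]
  simp

theorem pt_sub_pt_mem_degZero {P P0 : Place K F} (hP : P.deg = 1) (hP0 : P0.deg = 1) :
    pt P - pt P0 ∈ Divisor.degZero (K := K) (F := F) := by
  rw [Divisor.mem_degZero, map_sub, degree_pt hP, degree_pt hP0, sub_self]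

theorem degree_eq_sum (hdeg : ∀ v : Place K F, v.deg = 1) (D : Divisor K F) :
    Divisor.degree D = D.sum fun _ n => n := by
  rw [Divisor.degree, Finsupp.liftAddHom_apply]
  refine Finset.sum_congr rfl fun v _ => ?_
  simp [hdeg v]

theorem eq_zero_of_nonneg_of_degree_eq_zero (hdeg : ∀ v : Place K F, v.deg = 1)
    {D : Divisor K F} (hD : ∀ v, 0 ≤ D v) (h0 : Divisor.degree D = 0) : D = 0 := by
  rw [degree_eq_sum hdeg, Finsupp.sum] at h0
  have h := (Finset.sum_eq_zero_iff_of_nonneg fun v _ => hD v).mp h0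
  ext v
  by_cases hv : v ∈ D.support
  · exact h v hv
  · simpa using hv

theorem degree_sumDiv (hdeg : ∀ v : Place K F, v.deg = 1) {ι : Type*} [Fintype ι]
    (Q : ι → Place K F) : Divisor.degree (sumDiv Q) = (Fintype.card ι : ℤ) := by
  rw [sumDiv, map_sum]
  simp [degree_pt (hdeg _)]

/-- An effective divisor of degree `n` is the sum of `n` places (all places of degree one). -/
theorem exists_points_of_effective (hdeg : ∀ v : Place K F, v.deg = 1) :
    ∀ (n : ℕ) (D : Divisor K F), (∀ v, 0 ≤ D v) → Divisor.degree D = (n : ℤ) →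
      ∃ Q : Fin n → Place K F, D = sumDiv Q := by
  intro n
  induction n with
  | zero =>
    intro D hD hdegD
    refine ⟨Fin.elim0, ?_⟩
    rw [eq_zero_of_nonneg_of_degree_eq_zero hdeg hD (by simpa using hdegD)]
    simp [sumDiv]
  | succ n ih =>
    intro D hD hdegD
    obtain ⟨v, hv⟩ : ∃ v, 0 < D v := by
      by_contra hcon
      push Not at hcon
      have hD0 : D = 0 := by
        ext v
        exact le_antisymm (hcon v) (hD v)
      rw [hD0, map_zero] at hdegD
      norm_cast at hdegD
    have hD' : ∀ w, 0 ≤ (D - pt v) w := by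
      intro w
      classical
      rw [Finsupp.sub_apply, pt, Finsupp.single_apply]
      split_ifs with hw
      · subst hw
        linarith
      · have := hD w
        linarith
    have hdeg' : Divisor.degree (D - pt v) = (n : ℤ) := by
      rw [map_sub, hdegD, degree_pt (hdeg v)]
      push_cast
      ring
    obtain ⟨Q', hQ'⟩ := ih (D - pt v) hD' hdeg'
    refine ⟨Fin.cons v Q', ?_⟩
    have h1 : sumDiv (Fin.cons v Q' : Fin (n + 1) → Place K F) = pt v + sumDiv Q' := by
      simp [sumDiv, Fin.sum_univ_succ]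
    rw [h1, ← hQ']
    abel

/-- Riemann's inequality gives effective representatives of degree `g`. -/
theorem exists_effective_rep [HasPrincipalDivisors K F]
    (hrr : ∀ D : Divisor K F,
      (Module.finrank K (riemannRochSpace D) : ℤ) - (Module.finrank K (H1 D) : ℤ)
        = Divisor.degree D + 1 - (genusFF K F : ℤ))
    (P0 : Place K F) (hP0 : P0.deg = 1) (Z : Divisor K F) (hZ : Divisor.degree Z = 0) :
    ∃ D : Divisor K F, (∀ v, 0 ≤ D v) ∧ Divisor.degree D = (genusFF K F : ℤ) ∧
      D - (genusFF K F) • pt P0 - Z ∈ Divisor.principal (K := K) (F := F) := by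
  classical
  have hdeg0 : Divisor.degree (Z + (genusFF K F) • pt P0) = (genusFF K F : ℤ) := by
    rw [map_add, hZ, zero_add, map_nsmul, degree_pt hP0]
    simp
  have h1 := hrr (Z + (genusFF K F) • pt P0)
  rw [hdeg0] at h1
  have hpos : 0 < Module.finrank K (riemannRochSpace (Z + (genusFF K F) • pt P0)) := by
    have h2 : (0 : ℤ) ≤ (Module.finrank K (H1 (Z + (genusFF K F) • pt P0)) : ℤ) :=
      Int.natCast_nonneg _
    omega
  obtain ⟨f, hfL, hf0⟩ : ∃ f ∈ riemannRochSpace (Z + (genusFF K F) • pt P0), f ≠ 0 := by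
    by_contra hcon
    push Not at hcon
    have hbot : riemannRochSpace (Z + (genusFF K F) • pt P0) = ⊥ := by
      rw [eq_bot_iff]
      intro f hf
      rw [Submodule.mem_bot]
      exact hcon f hf
    rw [hbot] at hpos
    simp at hpos
  obtain ⟨Df, hDf, hDfdeg⟩ := HasPrincipalDivisors.exists_divisor (K := K) f hf0
  refine ⟨Df + (Z + (genusFF K F) • pt P0), fun v => ?_, ?_, ?_⟩
  · have h3 := (mem_riemannRochSpace_iff.mp hfL v).resolve_left hf0
    rw [Finsupp.add_apply, hDf v]
    linarith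
  · rw [map_add, hDfdeg, zero_add, hdeg0]
  · have h4 : Df + (Z + (genusFF K F) • pt P0) - (genusFF K F) • pt P0 - Z = Df := by abel
    rw [h4]
    exact ⟨f, hf0, hDf⟩

theorem cls_sumDiv_sub (hdeg : ∀ v : Place K F, v.deg = 1) (P0 : Place K F) {n : ℕ}
    (Q : Fin n → Place K F) :
    cls (sumDiv Q - n • pt P0) = ∑ i, cls (pt (Q i) - pt P0) := by
  have h1 : sumDiv Q - n • pt P0 = ∑ i, (pt (Q i) - pt P0) := by
    rw [Finset.sum_sub_distrib, sumDiv]
    simp
  rw [h1]
  exact cls_sum _ _ fun i _ => pt_sub_pt_mem_degZero (hdeg _) (hdeg _)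

/-- If every point class `[P - P0]` is `E w` with `‖w‖ ≤ M`, then every class in `Pic0` is `E w`
with `‖w‖ ≤ g * M`. -/
theorem exists_bounded_preimage {V : Type*} [SeminormedAddCommGroup V] [HasPrincipalDivisors K F]
    (hdeg : ∀ v : Place K F, v.deg = 1)
    (hrr : ∀ D : Divisor K F,
      (Module.finrank K (riemannRochSpace D) : ℤ) - (Module.finrank K (H1 D) : ℤ)
        = Divisor.degree D + 1 - (genusFF K F : ℤ))
    (E : V →+ Pic0 K F) (P0 : Place K F) (M : ℝ)
    (hpt : ∀ P : Place K F, ∃ w : V, ‖w‖ ≤ M ∧ E w = cls (pt P - pt P0)) :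
    ∀ y : Pic0 K F, ∃ w : V, ‖w‖ ≤ (genusFF K F : ℝ) * M ∧ E w = y := by
  intro y
  obtain ⟨⟨Z, hZ⟩, rfl⟩ := Pic0.mk_surjective y
  obtain ⟨D, hD, hDdeg, hDp⟩ := exists_effective_rep hrr P0 (hdeg P0) Z hZ
  obtain ⟨Q, rfl⟩ := exists_points_of_effective hdeg _ D hD hDdeg
  choose w hw hEw using fun i => hpt (Q i)
  refine ⟨∑ i, w i, ?_, ?_⟩
  · calc ‖∑ i, w i‖ ≤ ∑ i, ‖w i‖ := norm_sum_le _ _
      _ ≤ ∑ _i : Fin (genusFF K F), M := Finset.sum_le_sum fun i _ => hw i
      _ = (genusFF K F : ℝ) * M := by simp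
  · rw [map_sum]
    simp_rw [hEw]
    rw [← cls_sumDiv_sub hdeg P0 Q, ← cls_of_mem hZ]
    refine cls_eq_of_sub_mem_principal ?_ hZ hDp
    rw [Divisor.mem_degZero, map_sub, hDdeg, map_nsmul, degree_pt (hdeg P0)]
    simp

end Generic

/-- **M6 "Complex"**, from the core interface `Stmt_AJ`: the complex case of S27. -/
theorem complex_of_aj (hR : Stmt_Riemann.{0, 0}) (hAJ : Stmt_AJ) (hCo : Stmt_Compact)
    (hCn : Stmt_Connected) (hL : Stmt_LatticeCount) : Stmt_Complex := by
  intro F _ _ x hx _ n hn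
  obtain ⟨-, hrr, -⟩ := hR ℂ F x hx
  have : HasPrincipalDivisors ℂ F := Fermat.Agent.S24.helper483.hasPrincipalDivisors x hx
  have hdeg : ∀ v : Place ℂ F, v.deg = 1 := Fermat.Agent.S24.helper483.place_deg_eq_one x hx
  obtain ⟨E, hE, hdisc⟩ := hAJ F x hx
  suffices hB : ∃ B : ℝ, ∀ y : Pic0 ℂ F, ∃ w : Fin (genusFF ℂ F) → ℂ, ‖w‖ ≤ B ∧ E w = y by
    obtain ⟨B, hB⟩ := hB
    have hsurj : Function.Surjective E := fun y => by
      obtain ⟨w, -, hw⟩ := hB y
      exact ⟨w, hw⟩
    have hbdd : ∃ B : ℝ, ∀ w : Fin (genusFF ℂ F) → ℂ, ∃ w' : Fin (genusFF ℂ F) → ℂ,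
        E w' = E w ∧ ‖w'‖ ≤ B := ⟨B, fun w => by
      obtain ⟨w', h1, h2⟩ := hB (E w)
      exact ⟨w', h2, h1⟩⟩
    exact hL (genusFF ℂ F) n (Pic0 ℂ F) E hsurj hdisc hbdd hn
  by_cases hne : Nonempty (Place ℂ F)
  swap
  · rw [not_nonempty_iff] at hne
    refine ⟨0, fun y => ⟨0, by simp, ?_⟩⟩
    obtain ⟨⟨Z, hZ⟩, rfl⟩ := Pic0.mk_surjective y
    have hZ0 : Z = 0 := Subsingleton.elim _ _
    subst hZ0
    rw [map_zero]
    rfl
  obtain ⟨P0⟩ := hne
  obtain ⟨m, u, Q, r, ρ, hchart, hρ, hcover⟩ := hCo F x hx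
  choose J hJc hJ using fun k => hE (u k) (Q k) (r k) (hchart k)
  -- every point class lies in the range of `E`
  have hrange : ∀ P : Place ℂ F, cls (pt P - pt P0) ∈ Set.range E := by
    have hS := hCn F x hx {P | cls (pt P - pt P0) ∈ Set.range E}
      ⟨P0, by
        show cls (pt P0 - pt P0) ∈ Set.range E
        rw [sub_self]
        exact ⟨0, by rw [map_zero, cls_zero]⟩⟩
      (by
        intro u' Q' r' hch s hs
        obtain ⟨J', -, hJ'⟩ := hE u' Q' r' hch
        have h1 := hJ' s hs
        have h2 : cls (pt (Q' s) - pt P0)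
            = cls (pt (Q' s) - pt (Q' 0)) + cls (pt (Q' 0) - pt P0) := by
          rw [← cls_add (pt_sub_pt_mem_degZero (hdeg _) (hdeg _))
            (pt_sub_pt_mem_degZero (hdeg _) (hdeg _))]
          congr 1
          abel
        show cls (pt (Q' 0) - pt P0) ∈ Set.range E ↔ cls (pt (Q' s) - pt P0) ∈ Set.range E
        rw [h2, h1]
        constructor
        · rintro ⟨w, hw⟩
          exact ⟨J' s + w, by rw [map_add, hw]⟩
        · rintro ⟨w, hw⟩
          exact ⟨w - J' s, by rw [map_sub, hw]; abel⟩)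
    intro P
    have hP : P ∈ ({P | cls (pt P - pt P0) ∈ Set.range E} : Set (Place ℂ F)) := by
      rw [hS]
      trivial
    exact hP
  choose c hc using fun k => hrange (Q k 0)
  -- the chart functions are bounded on the closed chart discs
  have hbd : ∀ k, ∃ C : ℝ, ∀ s ∈ Metric.closedBall (0 : ℂ) (ρ k), ‖J k s‖ ≤ C := by
    intro k
    exact (isCompact_closedBall (0 : ℂ) (ρ k)).exists_bound_of_continuousOn
      ((hJc k).mono (Metric.closedBall_subset_ball (hρ k)))
  choose C hC using hbd
  refine ⟨(genusFF ℂ F : ℝ) * ∑ k, (|C k| + ‖c k‖), ?_⟩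
  apply exists_bounded_preimage hdeg hrr E P0
  intro P
  obtain ⟨k, s, hs, rfl⟩ := hcover P
  have hs1 : s ∈ Metric.closedBall (0 : ℂ) (ρ k) := by
    rw [Metric.mem_closedBall, dist_zero_right]
    exact hs
  have hs2 : s ∈ Metric.ball (0 : ℂ) (r k) := Metric.closedBall_subset_ball (hρ k) hs1
  refine ⟨J k s + c k, ?_, ?_⟩
  · calc ‖J k s + c k‖ ≤ ‖J k s‖ + ‖c k‖ := norm_add_le _ _
      _ ≤ |C k| + ‖c k‖ := by
        have := (hC k s hs1).trans (le_abs_self _)
        linarith
      _ ≤ ∑ k, (|C k| + ‖c k‖) :=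
        Finset.single_le_sum (f := fun k => |C k| + ‖c k‖) (fun i _ => by positivity)
          (Finset.mem_univ k)
  · rw [map_add, hc k, ← hJ k s hs2,
      ← cls_add (pt_sub_pt_mem_degZero (hdeg _) (hdeg _))
        (pt_sub_pt_mem_degZero (hdeg _) (hdeg _))]
    congr 1
    abel

/-- **M6 "Complex"** through core A (`Stmt_Key`). -/
theorem complex_of (hR : Stmt_Riemann.{0, 0}) (hI : Stmt_IntChartExists) (hCo : Stmt_Compact)
    (hCn : Stmt_Connected) (hKey : Stmt_Key) (hL : Stmt_LatticeCount) : Stmt_Complex :=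
  complex_of_aj hR (aj_of_key hR hI hKey) hCo hCn hL

end

end Fermat.Agent.S27.helper4604
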