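import Fermat.Agent.S27.helper6247_Spec
import Fermat.Agent.S27.helper1070_Approx

/-!
# S27 chart kit (helper5831)

Shared calculus on the Spec vocabulary of `helper6247_Spec`:
`ev`, `pp`, `rsingle`, `IsChart`, `IsIntChart`, `chartCoef`.

* generic `ord` lemmas (regular functions form a ring);
* `EvOK K F` := the four clauses of `Stmt_Ev` for every place, and its consequences
  (`ev` is a ring homomorphism on regular functions, etc.);
* `pp` is linear, vanishes on regular functions, and satisfies the residue theorem;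
* chart calculus: value of the coordinate, injectivity, recentring, shrinking, derivative and
  order of a function along a chart, isolated zeros, separation of charts.
-/

set_option autoImplicit false

open AlgebraicCurve WithZero
open scoped Topology

namespace Fermat.Agent.S27.helper5831

open Fermat.Agent.S27.helper6247

noncomputable section

/-! ## Generic lemmas on `ord` -/

section Ord

variable {K F : Type*} [Field K] [Field F] [Algebra K F]

theorem ord_nonneg_iff_mem (P : Place K F) (f : F) :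
    0 ≤ P.ord f ↔ f ∈ P.toValuationSubring := by
  rw [helper1070.mem_toValuationSubring_iff, P.adicValuation_le_one_iff]
  constructor
  · exact fun h => Or.inr h
  · rintro (rfl | h)
    · simp
    · exact h

theorem ord_nonneg_add {P : Place K F} {f g : F} (hf : 0 ≤ P.ord f) (hg : 0 ≤ P.ord g) :
    0 ≤ P.ord (f + g) := by
  rw [ord_nonneg_iff_mem] at *
  exact add_mem hf hg

theorem ord_nonneg_mul {P : Place K F} {f g : F} (hf : 0 ≤ P.ord f) (hg : 0 ≤ P.ord g) :
    0 ≤ P.ord (f * g) := by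
  rw [ord_nonneg_iff_mem] at *
  exact mul_mem hf hg

theorem ord_nonneg_neg {P : Place K F} {f : F} (hf : 0 ≤ P.ord f) : 0 ≤ P.ord (-f) := by
  rw [ord_nonneg_iff_mem] at *
  exact neg_mem hf

theorem ord_nonneg_sub {P : Place K F} {f g : F} (hf : 0 ≤ P.ord f) (hg : 0 ≤ P.ord g) :
    0 ≤ P.ord (f - g) := by
  rw [ord_nonneg_iff_mem] at *
  exact sub_mem hf hg

theorem ord_nonneg_algebraMap (P : Place K F) (c : K) : 0 ≤ P.ord (algebraMap K F c) := by
  rw [ord_nonneg_iff_mem]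
  exact P.algebraMap_mem' c

theorem ord_nonneg_pow {P : Place K F} {f : F} (hf : 0 ≤ P.ord f) (n : ℕ) :
    0 ≤ P.ord (f ^ n) := by
  rw [ord_nonneg_iff_mem] at *
  exact pow_mem hf n

theorem ord_nonneg_sum {P : Place K F} {ι : Type*} (s : Finset ι) (f : ι → F)
    (hf : ∀ i ∈ s, 0 ≤ P.ord (f i)) : 0 ≤ P.ord (∑ i ∈ s, f i) := by
  rw [ord_nonneg_iff_mem]
  exact sum_mem fun i hi => (ord_nonneg_iff_mem P _).mp (hf i hi)

theorem ord_nonneg_prod {P : Place K F} {ι : Type*} (s : Finset ι) (f : ι → F)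
    (hf : ∀ i ∈ s, 0 ≤ P.ord (f i)) : 0 ≤ P.ord (∏ i ∈ s, f i) := by
  rw [ord_nonneg_iff_mem]
  exact prod_mem fun i hi => (ord_nonneg_iff_mem P _).mp (hf i hi)

/-- `ord` of a nonzero constant is `0`. -/
theorem ord_algebraMap (P : Place K F) (c : K) : P.ord (algebraMap K F c) = 0 := by
  rcases eq_or_ne c 0 with rfl | hc
  · simp
  · have h1 := ord_nonneg_algebraMap P c
    have h2 := ord_nonneg_algebraMap P c⁻¹
    rw [map_inv₀, P.ord_inv] at h2
    omega

theorem ne_zero_of_ord_ne_zero {P : Place K F} {f : F} (h : P.ord f ≠ 0) : f ≠ 0 := by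
  rintro rfl
  simp at h

theorem ord_div (P : Place K F) {f g : F} (hf : f ≠ 0) (hg : g ≠ 0) :
    P.ord (f / g) = P.ord f - P.ord g := by
  rw [div_eq_mul_inv, P.ord_mul hf (inv_ne_zero hg), P.ord_inv]
  ring

/-- The strict ultrametric inequality in `ord` form: the maximal ideal is an ideal. -/
theorem ord_pos_add {P : Place K F} {f g : F} (hf : f = 0 ∨ 0 < P.ord f)
    (hg : g = 0 ∨ 0 < P.ord g) : f + g = 0 ∨ 0 < P.ord (f + g) := by
  by_cases h : f + g = 0
  · exact Or.inl h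
  · right
    rw [← helper1070.val_lt_one_iff P h]
    have hf' : P.adicValuation f < 1 := by
      rcases hf with rfl | hf
      · simp
      · exact (helper1070.val_lt_one_iff P (ne_zero_of_ord_ne_zero hf.ne')).mpr hf
    have hg' : P.adicValuation g < 1 := by
      rcases hg with rfl | hg
      · simp
      · exact (helper1070.val_lt_one_iff P (ne_zero_of_ord_ne_zero hg.ne')).mpr hg
    exact Valuation.map_add_lt _ hf' hg'

/-- A regular function times a function vanishing at `P` vanishes at `P`. -/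
theorem ord_pos_mul {P : Place K F} {f g : F} (hf : 0 ≤ P.ord f) (hg : 0 < P.ord g) :
    f * g = 0 ∨ 0 < P.ord (f * g) := by
  rcases eq_or_ne f 0 with rfl | hf0
  · left; simp
  · right
    rw [P.ord_mul hf0 (ne_zero_of_ord_ne_zero hg.ne')]
    omega

theorem ord_lt_one_iff_pos (P : Place K F) (f : F) :
    P.adicValuation f < 1 ↔ f = 0 ∨ 0 < P.ord f := by
  rcases eq_or_ne f 0 with rfl | hf
  · simp
  · rw [helper1070.val_lt_one_iff P hf]
    simp [hf]

end Ord

/-! ## `EvOK`: the content of `Stmt_Ev` for one pair `(K, F)` -/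

section Ev

variable {K F : Type*} [Field K] [Field F] [Algebra K F]

variable (K F) in
/-- The four clauses of `Stmt_Ev`, for every place of `F / K`. -/
def EvOK : Prop :=
  ∀ P : Place K F,
    (∀ c : K, ev P (algebraMap K F c) = c) ∧
    (∀ f g : F, 0 ≤ P.ord f → 0 ≤ P.ord g →
      ev P (f + g) = ev P f + ev P g ∧ ev P (f * g) = ev P f * ev P g) ∧
    (∀ f : F, 0 ≤ P.ord f → (ev P f = 0 ↔ f = 0 ∨ 0 < P.ord f)) ∧
    (∀ (f : F) (c : K), 0 < P.ord (f - algebraMap K F c) → ev P f = c)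

theorem evOK_of.{u, v} (hEv : Stmt_Ev.{u, v}) {K : Type u} {F : Type v} [Field K] [Field F]
    [Algebra K F] [IsAlgClosed K] [CharZero K] (x : F) (hx : Transcendental K x)
    [FiniteDimensional (IntermediateField.adjoin K {x}) F] : EvOK K F :=
  fun P => hEv K F x hx P

namespace EvOK

variable (hE : EvOK K F) (P : Place K F)
include hE

theorem ev_algebraMap (c : K) : ev P (algebraMap K F c) = c := (hE P).1 c

theorem ev_zero : ev P (0 : F) = 0 := by
  simpa using hE.ev_algebraMap P 0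

theorem ev_one : ev P (1 : F) = 1 := by
  simpa using hE.ev_algebraMap P 1

theorem ev_add {f g : F} (hf : 0 ≤ P.ord f) (hg : 0 ≤ P.ord g) :
    ev P (f + g) = ev P f + ev P g := ((hE P).2.1 f g hf hg).1

theorem ev_mul {f g : F} (hf : 0 ≤ P.ord f) (hg : 0 ≤ P.ord g) :
    ev P (f * g) = ev P f * ev P g := ((hE P).2.1 f g hf hg).2

theorem ev_eq_zero_iff {f : F} (hf : 0 ≤ P.ord f) : ev P f = 0 ↔ f = 0 ∨ 0 < P.ord f :=
  (hE P).2.2.1 f hf

theorem ev_eq_of_ord_pos {f : F} {c : K} (h : 0 < P.ord (f - algebraMap K F c)) :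
    ev P f = c := (hE P).2.2.2 f c h

theorem ev_neg {f : F} (hf : 0 ≤ P.ord f) : ev P (-f) = -ev P f := by
  have h := hE.ev_mul P (ord_nonneg_algebraMap P (-1 : K)) hf
  rw [hE.ev_algebraMap] at h
  simpa using h

theorem ev_sub {f g : F} (hf : 0 ≤ P.ord f) (hg : 0 ≤ P.ord g) :
    ev P (f - g) = ev P f - ev P g := by
  rw [sub_eq_add_neg, hE.ev_add P hf (ord_nonneg_neg hg), hE.ev_neg P hg, sub_eq_add_neg]

theorem ev_pow {f : F} (hf : 0 ≤ P.ord f) (n : ℕ) : ev P (f ^ n) = ev P f ^ n := by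
  induction n with
  | zero => simpa using hE.ev_one P
  | succ n ih => rw [pow_succ, hE.ev_mul P (ord_nonneg_pow hf n) hf, ih, pow_succ]

theorem ev_sum {ι : Type*} (s : Finset ι) (f : ι → F) (hf : ∀ i ∈ s, 0 ≤ P.ord (f i)) :
    ev P (∑ i ∈ s, f i) = ∑ i ∈ s, ev P (f i) := by
  classical
  induction s using Finset.induction_on with
  | empty => simpa using hE.ev_zero P
  | insert a s ha ih =>
    rw [Finset.sum_insert ha, Finset.sum_insert ha,
      hE.ev_add P (hf a (Finset.mem_insert_self a s))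
        (ord_nonneg_sum s f fun i hi => hf i (Finset.mem_insert_of_mem hi)),
      ih fun i hi => hf i (Finset.mem_insert_of_mem hi)]

theorem ev_prod {ι : Type*} (s : Finset ι) (f : ι → F) (hf : ∀ i ∈ s, 0 ≤ P.ord (f i)) :
    ev P (∏ i ∈ s, f i) = ∏ i ∈ s, ev P (f i) := by
  classical
  induction s using Finset.induction_on with
  | empty => simpa using hE.ev_one P
  | insert a s ha ih =>
    rw [Finset.prod_insert ha, Finset.prod_insert ha,
      hE.ev_mul P (hf a (Finset.mem_insert_self a s))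
        (ord_nonneg_prod s f fun i hi => hf i (Finset.mem_insert_of_mem hi)),
      ih fun i hi => hf i (Finset.mem_insert_of_mem hi)]

theorem ev_const_mul (c : K) {f : F} (hf : 0 ≤ P.ord f) :
    ev P (algebraMap K F c * f) = c * ev P f := by
  rw [hE.ev_mul P (ord_nonneg_algebraMap P c) hf, hE.ev_algebraMap]

theorem ev_smul (c : K) {f : F} (hf : 0 ≤ P.ord f) : ev P (c • f) = c * ev P f := by
  rw [Algebra.smul_def, hE.ev_const_mul P c hf]

/-- A regular function is congruent to its value modulo the maximal ideal. -/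
theorem ev_spec {f : F} (hf : 0 ≤ P.ord f) :
    f - algebraMap K F (ev P f) = 0 ∨ 0 < P.ord (f - algebraMap K F (ev P f)) := by
  have hreg : 0 ≤ P.ord (f - algebraMap K F (ev P f)) :=
    ord_nonneg_sub hf (ord_nonneg_algebraMap P _)
  rw [← hE.ev_eq_zero_iff P hreg, hE.ev_sub P hf (ord_nonneg_algebraMap P _),
    hE.ev_algebraMap, sub_self]

/-- For a regular nonzero function: nonzero value iff order zero. -/
theorem ev_ne_zero_iff {f : F} (hf : 0 ≤ P.ord f) (hf0 : f ≠ 0) :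
    ev P f ≠ 0 ↔ P.ord f = 0 := by
  rw [Ne, hE.ev_eq_zero_iff P hf]
  constructor
  · intro h
    have h1 : ¬ 0 < P.ord f := fun hpos => h (Or.inr hpos)
    omega
  · intro h
    rw [h]
    simp [hf0]

theorem ord_eq_zero_of_ev_ne_zero {f : F} (hf : 0 ≤ P.ord f) (h : ev P f ≠ 0) :
    P.ord f = 0 := by
  by_contra h0
  exact h ((hE.ev_eq_zero_iff P hf).mpr (Or.inr (by omega)))

theorem ev_inv {f : F} (hf : P.ord f = 0) (hf0 : f ≠ 0) : ev P f⁻¹ = (ev P f)⁻¹ := by
  have h1 : 0 ≤ P.ord f := hf.ge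
  have h2 : 0 ≤ P.ord f⁻¹ := by rw [P.ord_inv, hf]; simp
  have h := hE.ev_mul P h1 h2
  rw [mul_inv_cancel₀ hf0, hE.ev_one] at h
  exact eq_inv_of_mul_eq_one_right h.symm

theorem ev_div {f g : F} (hf : 0 ≤ P.ord f) (hg : P.ord g = 0) (hg0 : g ≠ 0) :
    ev P (f / g) = ev P f / ev P g := by
  have h2 : 0 ≤ P.ord g⁻¹ := by rw [P.ord_inv, hg]; simp
  rw [div_eq_mul_inv, hE.ev_mul P hf h2, hE.ev_inv P hg hg0, div_eq_mul_inv]

end EvOK

end Ev

/-! ## Principal parts: linearity and the residue theorem -/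

section PP

variable {K F : Type*} [Field K] [Field F] [Algebra K F]

open Classical in
theorem rsingle_apply (P Q : Place K F) (f : F) :
    ((rsingle P f : ↥(repartitions K F)) : Place K F → F) Q = if Q = P then f else 0 := rfl

theorem rsingle_add (P : Place K F) (f g : F) :
    rsingle P (f + g) = rsingle P f + rsingle P g := by
  apply Subtype.ext
  funext Q
  show _ = ((rsingle P f : ↥(repartitions K F)) : Place K F → F) Q
    + ((rsingle P g : ↥(repartitions K F)) : Place K F → F) Q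
  rw [rsingle_apply, rsingle_apply, rsingle_apply]
  split_ifs <;> simp

theorem rsingle_smul (P : Place K F) (c : K) (f : F) :
    rsingle P (c • f) = c • rsingle P f := by
  apply Subtype.ext
  funext Q
  show _ = c • ((rsingle P f : ↥(repartitions K F)) : Place K F → F) Q
  rw [rsingle_apply, rsingle_apply]
  split_ifs <;> simp

theorem rsingle_mem_repartitionsOf_zero {P : Place K F} {f : F} (hf : 0 ≤ P.ord f) :
    rsingle P f ∈ repartitionsOf (0 : Divisor K F) := by
  rw [mem_repartitionsOf_iff]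
  intro v
  rw [rsingle_apply]
  split_ifs with h
  · right
    rw [h]
    simpa using hf
  · left; rfl

theorem pp_add (P : Place K F) (f g : F) : pp P (f + g) = pp P f + pp P g := by
  unfold pp
  rw [rsingle_add]
  rfl

theorem pp_smul (P : Place K F) (c : K) (f : F) : pp P (c • f) = c • pp P f := by
  unfold pp
  rw [rsingle_smul]
  rfl

theorem pp_zero (P : Place K F) : pp P (0 : F) = 0 := by
  have h := pp_smul P (0 : K) (0 : F)
  simpa using h

theorem pp_neg (P : Place K F) (f : F) : pp P (-f) = -pp P f := by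
  have h := pp_smul P (-1 : K) f
  simpa using h

theorem pp_sub (P : Place K F) (f g : F) : pp P (f - g) = pp P f - pp P g := by
  rw [sub_eq_add_neg, pp_add, pp_neg, sub_eq_add_neg]

theorem pp_sum (P : Place K F) {ι : Type*} (s : Finset ι) (f : ι → F) :
    pp P (∑ i ∈ s, f i) = ∑ i ∈ s, pp P (f i) := by
  classical
  induction s using Finset.induction_on with
  | empty => simpa using pp_zero P
  | insert a s ha ih => rw [Finset.sum_insert ha, Finset.sum_insert ha, pp_add, ih]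

/-- The principal part of a function regular at `P` vanishes. -/
theorem pp_eq_zero_of_regular {P : Place K F} {f : F} (hf : 0 ≤ P.ord f) : pp P f = 0 := by
  unfold pp
  rw [Submodule.Quotient.mk_eq_zero]
  exact Submodule.mem_sup_left (rsingle_mem_repartitionsOf_zero hf)

/-- Principal parts only depend on the function modulo regular functions. -/
theorem pp_congr {P : Place K F} {f g : F} (h : 0 ≤ P.ord (f - g)) : pp P f = pp P g := by
  have h1 : pp P f = pp P (f - g) + pp P g := by rw [← pp_add]; congr 1; ring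
  rw [h1, pp_eq_zero_of_regular h, zero_add]

/-- **Residue theorem (by definition of `H¹(0)`)**: the sum of the principal parts of a
function over a finite set of places containing all its poles vanishes in `A / (A(0) + F)`. -/
theorem sum_pp_eq_zero (f : F) (S : Finset (Place K F)) (hS : ∀ P : Place K F, P.ord f < 0 → P ∈ S) :
    ∑ P ∈ S, pp P f = 0 := by
  classical
  have hmk : ∑ P ∈ S, pp P f
      = (Submodule.Quotient.mk (∑ P ∈ S, rsingle P f) : H1 (0 : Divisor K F)) := by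
    exact (map_sum (Submodule.mkQ (repartitionsOf (0 : Divisor K F) ⊔ principalRepartitions K F))
      (fun P => rsingle P f) S).symm
  rw [hmk, Submodule.Quotient.mk_eq_zero]
  -- decompose: `∑ rsingle = const f - β` with `β ∈ A(0)`
  set c : ↥(repartitions K F) := algebraMap F ↥(repartitions K F) f with hc
  have hcval : ∀ v : Place K F, ((c : ↥(repartitions K F)) : Place K F → F) v = f := by
    intro v
    rfl
  have hsum : ∀ v : Place K F,
      ((∑ P ∈ S, rsingle P f : ↥(repartitions K F)) : Place K F → F) v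
        = if v ∈ S then f else 0 := by
    intro v
    have h1 : ((∑ P ∈ S, rsingle P f : ↥(repartitions K F)) : Place K F → F)
        = ∑ P ∈ S, ((rsingle P f : ↥(repartitions K F)) : Place K F → F) := by
      simp
    rw [h1, Finset.sum_apply]
    simp only [rsingle_apply]
    rw [Finset.sum_ite_eq]
  have hβ : c - ∑ P ∈ S, rsingle P f ∈ repartitionsOf (0 : Divisor K F) := by
    rw [mem_repartitionsOf_iff]
    intro v
    have hv : ((c - ∑ P ∈ S, rsingle P f : ↥(repartitions K F)) : Place K F → F) v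
        = f - if v ∈ S then f else 0 := by
      show ((c : ↥(repartitions K F)) : Place K F → F) v
        - ((∑ P ∈ S, rsingle P f : ↥(repartitions K F)) : Place K F → F) v = _
      rw [hcval, hsum]
    rw [hv]
    split_ifs with h
    · left; simp
    · right
      have : ¬ v.ord f < 0 := fun hlt => h (hS v hlt)
      simpa using this
  have hcmem : c ∈ principalRepartitions K F :=
    mem_principalRepartitions_iff.mpr ⟨f, funext hcval⟩
  have : ∑ P ∈ S, rsingle P f = c - (c - ∑ P ∈ S, rsingle P f) := by ring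
  rw [this]
  exact Submodule.sub_mem _ (Submodule.mem_sup_right hcmem) (Submodule.mem_sup_left hβ)

end PP

/-! ## Chart calculus -/

section Chart

variable {F : Type*} [Field F] [Algebra ℂ F]
variable {u : F} {Q : ℂ → Place ℂ F} {r : ℝ}

/-! ### (CK1) the coordinate along a chart -/

theorem chart_ord_unif_nonneg (hc : IsChart u Q r) {s : ℂ} (hs : s ∈ Metric.ball (0 : ℂ) r) :
    0 ≤ (Q s).ord (u - algebraMap ℂ F s) := by
  rw [hc.unif s hs]; norm_num

theorem chart_u_sub_ne_zero (hc : IsChart u Q r) {s : ℂ} (hs : s ∈ Metric.ball (0 : ℂ) r) :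
    u - algebraMap ℂ F s ≠ 0 :=
  ne_zero_of_ord_ne_zero (P := Q s) (by rw [hc.unif s hs]; norm_num)

theorem chart_ord_u_nonneg (hc : IsChart u Q r) {s : ℂ} (hs : s ∈ Metric.ball (0 : ℂ) r) :
    0 ≤ (Q s).ord u := by
  have h := ord_nonneg_add (chart_ord_unif_nonneg hc hs) (ord_nonneg_algebraMap (Q s) s)
  simpa using h

theorem chart_ord_u_sub_nonneg (hc : IsChart u Q r) {s : ℂ} (hs : s ∈ Metric.ball (0 : ℂ) r)
    (s₀ : ℂ) : 0 ≤ (Q s).ord (u - algebraMap ℂ F s₀) :=
  ord_nonneg_sub (chart_ord_u_nonneg hc hs) (ord_nonneg_algebraMap (Q s) s₀)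

theorem chart_ev_u (hE : EvOK ℂ F) (hc : IsChart u Q r) {s : ℂ}
    (hs : s ∈ Metric.ball (0 : ℂ) r) : ev (Q s) u = s :=
  hE.ev_eq_of_ord_pos (Q s) (by rw [hc.unif s hs]; norm_num)

theorem chart_ev_u_sub (hE : EvOK ℂ F) (hc : IsChart u Q r) {s : ℂ}
    (hs : s ∈ Metric.ball (0 : ℂ) r) (s₀ : ℂ) :
    ev (Q s) (u - algebraMap ℂ F s₀) = s - s₀ := by
  rw [hE.ev_sub (Q s) (chart_ord_u_nonneg hc hs) (ord_nonneg_algebraMap (Q s) s₀),
    chart_ev_u hE hc hs, hE.ev_algebraMap]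

theorem chart_ord_u_sub_of_ne (hE : EvOK ℂ F) (hc : IsChart u Q r) {s : ℂ}
    (hs : s ∈ Metric.ball (0 : ℂ) r) {s₀ : ℂ} (hne : s ≠ s₀) :
    (Q s).ord (u - algebraMap ℂ F s₀) = 0 :=
  hE.ord_eq_zero_of_ev_ne_zero (Q s) (chart_ord_u_sub_nonneg hc hs s₀)
    (by rw [chart_ev_u_sub hE hc hs]; exact sub_ne_zero.mpr hne)

/-! ### (CK2) injectivity -/

theorem chart_injOn (hE : EvOK ℂ F) (hc : IsChart u Q r) :
    Set.InjOn Q (Metric.ball (0 : ℂ) r) := by
  intro s hs s' hs' h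
  have h1 := chart_ev_u hE hc hs
  have h2 := chart_ev_u hE hc hs'
  rw [h] at h1
  exact h1.symm.trans h2

/-! ### (CK3) shrinking and recentring -/

theorem chart_shrink (hc : IsChart u Q r) {r' : ℝ} (hr' : 0 < r') (hle : r' ≤ r) :
    IsChart u Q r' where
  pos := hr'
  unif s hs := hc.unif s (Metric.ball_subset_ball hle hs)
  analytic f s₀ hs₀ hf := hc.analytic f s₀ (Metric.ball_subset_ball hle hs₀) hf

theorem add_mem_ball_of_mem {r : ℝ} {s₁ s : ℂ} (_hs₁ : s₁ ∈ Metric.ball (0 : ℂ) r)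
    (hs : s ∈ Metric.ball (0 : ℂ) (r - ‖s₁‖)) : s₁ + s ∈ Metric.ball (0 : ℂ) r := by
  rw [mem_ball_zero_iff] at *
  calc ‖s₁ + s‖ ≤ ‖s₁‖ + ‖s‖ := norm_add_le _ _
    _ < r := by linarith

theorem chart_recenter (hc : IsChart u Q r) {s₁ : ℂ} (hs₁ : s₁ ∈ Metric.ball (0 : ℂ) r) :
    IsChart (u - algebraMap ℂ F s₁) (fun s => Q (s₁ + s)) (r - ‖s₁‖) where
  pos := sub_pos.mpr (mem_ball_zero_iff.mp hs₁)
  unif s hs := by
    have h := hc.unif (s₁ + s) (add_mem_ball_of_mem hs₁ hs)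
    have e : u - algebraMap ℂ F s₁ - algebraMap ℂ F s = u - algebraMap ℂ F (s₁ + s) := by
      rw [map_add]; ring
    rw [e]
    exact h
  analytic f s₀ hs₀ hf := by
    have key := hc.analytic f (s₁ + s₀) (add_mem_ball_of_mem hs₁ hs₀) hf
    have ht : Filter.Tendsto (fun s : ℂ => s₁ + s) (𝓝 s₀) (𝓝 (s₁ + s₀)) :=
      (continuous_const.add continuous_id).tendsto s₀
    refine ⟨ht.eventually key.1, ?_⟩
    have ha : AnalyticAt ℂ (fun s : ℂ => s₁ + s) s₀ := analyticAt_const.add analyticAt_id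
    exact AnalyticAt.comp (g := fun s => ev (Q s) f) (f := fun s : ℂ => s₁ + s) key.2 ha

theorem chartCoef_recenter (e : H1 (0 : Divisor ℂ F) ≃ₗ[ℂ] (Fin (genusFF ℂ F) → ℂ)) (u : F)
    (Q : ℂ → Place ℂ F) (s₁ s : ℂ) :
    chartCoef e (u - algebraMap ℂ F s₁) (fun s => Q (s₁ + s)) s = chartCoef e u Q (s₁ + s) := by
  unfold chartCoef
  have e' : u - algebraMap ℂ F s₁ - algebraMap ℂ F s = u - algebraMap ℂ F (s₁ + s) := by
    rw [map_add]; ring
  rw [e']

variable {e : H1 (0 : Divisor ℂ F) ≃ₗ[ℂ] (Fin (genusFF ℂ F) → ℂ)}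
  {J : ℂ → Fin (genusFF ℂ F) → ℂ}

theorem intChart_shrink (hc : IsIntChart e u Q r J) {r' : ℝ} (hr' : 0 < r') (hle : r' ≤ r) :
    IsIntChart e u Q r' J where
  chart := chart_shrink hc.chart hr' hle
  zero := hc.zero
  deriv s hs := hc.deriv s (Metric.ball_subset_ball hle hs)

theorem intChart_recenter (hc : IsIntChart e u Q r J) {s₁ : ℂ}
    (hs₁ : s₁ ∈ Metric.ball (0 : ℂ) r) :
    IsIntChart e (u - algebraMap ℂ F s₁) (fun s => Q (s₁ + s)) (r - ‖s₁‖)
      (fun s => J (s₁ + s) - J s₁) where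
  chart := chart_recenter hc.chart hs₁
  zero := by simp
  deriv s hs := by
    have h := hc.deriv (s₁ + s) (add_mem_ball_of_mem hs₁ hs)
    rw [chartCoef_recenter]
    exact (h.comp_const_add s₁ s).sub_const (J s₁)

theorem intChart_continuousOn (hc : IsIntChart e u Q r J) :
    ContinuousOn J (Metric.ball (0 : ℂ) r) :=
  fun s hs => (hc.deriv s hs).continuousAt.continuousWithinAt

/-- The abelian integral is bounded on every closed disc inside the chart. -/
theorem intChart_bounded (hc : IsIntChart e u Q r J) {ρ : ℝ} (hρ : ρ < r) :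
    ∃ M : ℝ, ∀ s : ℂ, ‖s‖ ≤ ρ → ‖J s‖ ≤ M := by
  have hcomp : IsCompact (Metric.closedBall (0 : ℂ) ρ) := isCompact_closedBall 0 ρ
  have hcont : ContinuousOn J (Metric.closedBall (0 : ℂ) ρ) :=
    (intChart_continuousOn hc).mono (Metric.closedBall_subset_ball hρ)
  obtain ⟨M, hM⟩ := hcomp.exists_bound_of_continuousOn hcont
  exact ⟨M, fun s hs => hM s (mem_closedBall_zero_iff.mpr hs)⟩

/-! ### (CK4) derivative of a function along a chart -/

theorem chart_eventually_mem_ball {s₀ : ℂ} (hs₀ : s₀ ∈ Metric.ball (0 : ℂ) r) :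
    ∀ᶠ s in 𝓝 s₀, s ∈ Metric.ball (0 : ℂ) r :=
  Metric.isOpen_ball.mem_nhds hs₀

theorem chart_continuousAt (hc : IsChart u Q r) {s₀ : ℂ} (hs₀ : s₀ ∈ Metric.ball (0 : ℂ) r)
    {f : F} (hf : 0 ≤ (Q s₀).ord f) : ContinuousAt (fun s => ev (Q s) f) s₀ :=
  (hc.analytic f s₀ hs₀ hf).2.continuousAt

/-- The difference quotient `(f - f(Q s₀)) / (u - s₀)` is regular at `Q s₀`. -/
theorem chart_quot_regular (hE : EvOK ℂ F) (hc : IsChart u Q r) {s₀ : ℂ}
    (hs₀ : s₀ ∈ Metric.ball (0 : ℂ) r) {f : F} (hf : 0 ≤ (Q s₀).ord f) :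
    0 ≤ (Q s₀).ord ((f - algebraMap ℂ F (ev (Q s₀) f)) / (u - algebraMap ℂ F s₀)) := by
  rcases hE.ev_spec (Q s₀) hf with h | h
  · rw [h, zero_div]; simp
  · rw [ord_div (Q s₀) (ne_zero_of_ord_ne_zero h.ne') (chart_u_sub_ne_zero hc hs₀), hc.unif s₀ hs₀]
    omega

theorem chart_eventually_eq (hE : EvOK ℂ F) (hc : IsChart u Q r) {s₀ : ℂ}
    (hs₀ : s₀ ∈ Metric.ball (0 : ℂ) r) {f : F} (hf : 0 ≤ (Q s₀).ord f) :
    ∀ᶠ s in 𝓝 s₀, ev (Q s) f = ev (Q s₀) f + (s - s₀)
      * ev (Q s) ((f - algebraMap ℂ F (ev (Q s₀) f)) / (u - algebraMap ℂ F s₀)) := by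
  set c := ev (Q s₀) f with hc'
  set g := (f - algebraMap ℂ F c) / (u - algebraMap ℂ F s₀) with hg
  have hgreg : 0 ≤ (Q s₀).ord g := chart_quot_regular hE hc hs₀ hf
  have hfg : f = algebraMap ℂ F c + (u - algebraMap ℂ F s₀) * g := by
    rw [hg, mul_div_cancel₀ _ (chart_u_sub_ne_zero hc hs₀)]; ring
  filter_upwards [chart_eventually_mem_ball hs₀, (hc.analytic g s₀ hs₀ hgreg).1] with s hs hgs
  have h1 : 0 ≤ (Q s).ord ((u - algebraMap ℂ F s₀) * g) :=
    ord_nonneg_mul (chart_ord_u_sub_nonneg hc hs s₀) hgs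
  conv_lhs => rw [hfg]
  rw [hE.ev_add (Q s) (ord_nonneg_algebraMap (Q s) c) h1, hE.ev_algebraMap,
    hE.ev_mul (Q s) (chart_ord_u_sub_nonneg hc hs s₀) hgs, chart_ev_u_sub hE hc hs]

/-- **Derivative along a chart**: `d/ds f(Q s)` at `s₀` is the value at `Q s₀` of the
difference quotient `(f - f(Q s₀)) / (u - s₀)`. -/
theorem chart_hasDerivAt (hE : EvOK ℂ F) (hc : IsChart u Q r) {s₀ : ℂ}
    (hs₀ : s₀ ∈ Metric.ball (0 : ℂ) r) {f : F} (hf : 0 ≤ (Q s₀).ord f) :
    HasDerivAt (fun s => ev (Q s) f)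
      (ev (Q s₀) ((f - algebraMap ℂ F (ev (Q s₀) f)) / (u - algebraMap ℂ F s₀))) s₀ := by
  set c := ev (Q s₀) f with hc'
  set g := (f - algebraMap ℂ F c) / (u - algebraMap ℂ F s₀) with hg
  have hgreg : 0 ≤ (Q s₀).ord g := chart_quot_regular hE hc hs₀ hf
  have hGan : AnalyticAt ℂ (fun s => ev (Q s) g) s₀ := (hc.analytic g s₀ hs₀ hgreg).2
  have hG : HasDerivAt (fun s => ev (Q s) g) (deriv (fun s => ev (Q s) g) s₀) s₀ :=
    hGan.differentiableAt.hasDerivAt
  have h1 : HasDerivAt (fun s : ℂ => s - s₀) 1 s₀ := (hasDerivAt_id s₀).sub_const s₀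
  have h2 := (h1.mul hG).const_add c
  have h3 : HasDerivAt (fun s => c + (s - s₀) * ev (Q s) g) (ev (Q s₀) g) s₀ := by
    have e : (1 : ℂ) * ev (Q s₀) g + (s₀ - s₀) * deriv (fun s => ev (Q s) g) s₀
        = ev (Q s₀) g := by ring
    rw [← e]
    exact h2
  exact h3.congr_of_eventuallyEq (chart_eventually_eq hE hc hs₀ hf)

/-! ### (CK5) order of a function along a chart -/

/-- **Order along a chart**: if `f ≠ 0` is regular at `Q s₀` with `ord = k`, then
`f(Q s) = (s - s₀)^k * G s` near `s₀` with `G` analytic and `G s₀ ≠ 0`. -/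
theorem chart_order (hE : EvOK ℂ F) (hc : IsChart u Q r) {s₀ : ℂ}
    (hs₀ : s₀ ∈ Metric.ball (0 : ℂ) r) {f : F} (hf0 : f ≠ 0) {k : ℕ}
    (hk : (Q s₀).ord f = k) :
    ∃ G : ℂ → ℂ, AnalyticAt ℂ G s₀ ∧ G s₀ ≠ 0 ∧
      ∀ᶠ s in 𝓝 s₀, ev (Q s) f = (s - s₀) ^ k * G s := by
  set t := u - algebraMap ℂ F s₀ with ht
  have ht0 : t ≠ 0 := chart_u_sub_ne_zero hc hs₀
  set g := f / t ^ k with hg
  have hg0 : g ≠ 0 := div_ne_zero hf0 (pow_ne_zero k ht0)
  have hgord : (Q s₀).ord g = 0 := by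
    rw [hg, ord_div (Q s₀) hf0 (pow_ne_zero k ht0), helper1070.ord_pow, hk, hc.unif s₀ hs₀]
    ring
  have hgreg : 0 ≤ (Q s₀).ord g := hgord.ge
  have hfg : f = t ^ k * g := by
    rw [hg, mul_div_cancel₀ _ (pow_ne_zero k ht0)]
  refine ⟨fun s => ev (Q s) g, (hc.analytic g s₀ hs₀ hgreg).2,
    (hE.ev_ne_zero_iff (Q s₀) hgreg hg0).mpr hgord, ?_⟩
  filter_upwards [chart_eventually_mem_ball hs₀, (hc.analytic g s₀ hs₀ hgreg).1] with s hs hgs
  have h1 : 0 ≤ (Q s).ord t := chart_ord_u_sub_nonneg hc hs s₀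
  conv_lhs => rw [hfg]
  rw [hE.ev_mul (Q s) (ord_nonneg_pow h1 k) hgs, hE.ev_pow (Q s) h1, chart_ev_u_sub hE hc hs]

/-- The analytic order along a chart equals the order at the place. -/
theorem chart_analyticOrderAt (hE : EvOK ℂ F) (hc : IsChart u Q r) {s₀ : ℂ}
    (hs₀ : s₀ ∈ Metric.ball (0 : ℂ) r) {f : F} (hf0 : f ≠ 0) {k : ℕ}
    (hk : (Q s₀).ord f = k) :
    analyticOrderAt (fun s => ev (Q s) f) s₀ = k := by
  have hfan : AnalyticAt ℂ (fun s => ev (Q s) f) s₀ :=
    (hc.analytic f s₀ hs₀ (by rw [hk]; positivity)).2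
  obtain ⟨G, hGan, hG0, hG⟩ := chart_order hE hc hs₀ hf0 hk
  rw [hfan.analyticOrderAt_eq_natCast]
  exact ⟨G, hGan, hG0, by filter_upwards [hG] with s hs; rw [hs, smul_eq_mul]⟩

/-- Value `0` and derivative `0` along a chart force a zero of order `≥ 2`. -/
theorem chart_ord_ge_two (hE : EvOK ℂ F) (hc : IsChart u Q r) {s₀ : ℂ}
    (hs₀ : s₀ ∈ Metric.ball (0 : ℂ) r) {f : F} (hf : 0 ≤ (Q s₀).ord f)
    (h0 : ev (Q s₀) f = 0) (h1 : deriv (fun s => ev (Q s) f) s₀ = 0) :
    f = 0 ∨ 2 ≤ (Q s₀).ord f := by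
  rcases eq_or_ne f 0 with hf0 | hf0
  · exact Or.inl hf0
  right
  have ht0 : u - algebraMap ℂ F s₀ ≠ 0 := chart_u_sub_ne_zero hc hs₀
  have hd := chart_hasDerivAt hE hc hs₀ hf
  have hreg := chart_quot_regular hE hc hs₀ hf
  rw [h0, map_zero, sub_zero] at hd hreg
  have hval : ev (Q s₀) (f / (u - algebraMap ℂ F s₀)) = 0 := by
    rw [← hd.deriv]; exact h1
  have hg0 : f / (u - algebraMap ℂ F s₀) ≠ 0 := div_ne_zero hf0 ht0
  rcases (hE.ev_eq_zero_iff (Q s₀) hreg).mp hval with h | h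
  · exact absurd h hg0
  · rw [ord_div (Q s₀) hf0 ht0, hc.unif s₀ hs₀] at h
    omega

/-! ### (CK6) zeros and poles are isolated along a chart -/

/-- A regular function with nonzero value at `Q s₀` is a unit at `Q s` for `s` near `s₀`. -/
theorem chart_eventually_unit (hE : EvOK ℂ F) (hc : IsChart u Q r) {s₀ : ℂ}
    (hs₀ : s₀ ∈ Metric.ball (0 : ℂ) r) {g : F} (hg : 0 ≤ (Q s₀).ord g)
    (hne : ev (Q s₀) g ≠ 0) :
    ∀ᶠ s in 𝓝 s₀, (Q s).ord g = 0 ∧ ev (Q s) g ≠ 0 := by
  filter_upwards [(hc.analytic g s₀ hs₀ hg).1,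
    (chart_continuousAt hc hs₀ hg).eventually_ne hne] with s h1 h2
  exact ⟨hE.ord_eq_zero_of_ev_ne_zero (Q s) h1 h2, h2⟩

/-- Along a chart, a nonzero function has neither zero nor pole at `Q s` for `s ≠ s₀` near
`s₀` (no assumption on the behaviour at `Q s₀`). -/
theorem chart_eventually_ord_eq_zero (hE : EvOK ℂ F) (hc : IsChart u Q r) {s₀ : ℂ}
    (hs₀ : s₀ ∈ Metric.ball (0 : ℂ) r) {f : F} (hf0 : f ≠ 0) :
    ∀ᶠ s in 𝓝[≠] s₀, (Q s).ord f = 0 := by
  set t := u - algebraMap ℂ F s₀ with ht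
  have ht0 : t ≠ 0 := chart_u_sub_ne_zero hc hs₀
  set k := (Q s₀).ord f with hk
  set g := f * t ^ (-k) with hg
  have htk : t ^ (-k) ≠ 0 := zpow_ne_zero _ ht0
  have hg0 : g ≠ 0 := mul_ne_zero hf0 htk
  have hgord : (Q s₀).ord g = 0 := by
    rw [hg, (Q s₀).ord_mul hf0 htk, (Q s₀).ord_zpow, hc.unif s₀ hs₀]
    ring
  have hgreg : 0 ≤ (Q s₀).ord g := hgord.ge
  have hfg : f = g * t ^ k := by
    rw [hg, mul_assoc, ← zpow_add₀ ht0]
    simp
  have hev : ev (Q s₀) g ≠ 0 := (hE.ev_ne_zero_iff (Q s₀) hgreg hg0).mpr hgord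
  have h1 : ∀ᶠ s in 𝓝[≠] s₀, (Q s).ord g = 0 ∧ ev (Q s) g ≠ 0 :=
    eventually_nhdsWithin_of_eventually_nhds (chart_eventually_unit hE hc hs₀ hgreg hev)
  have h2 : ∀ᶠ s in 𝓝[≠] s₀, s ∈ Metric.ball (0 : ℂ) r :=
    eventually_nhdsWithin_of_eventually_nhds (chart_eventually_mem_ball hs₀)
  have h3 : ∀ᶠ s in 𝓝[≠] s₀, s ≠ s₀ := self_mem_nhdsWithin
  filter_upwards [h1, h2, h3] with s hs1 hs2 hs3
  rw [hfg, (Q s).ord_mul hg0 (zpow_ne_zero _ ht0), (Q s).ord_zpow, hs1.1,
    chart_ord_u_sub_of_ne hE hc hs2 hs3]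
  ring

/-! ### (CK7) separation of charts -/

/-- Two charts through distinct places are disjoint near these places. -/
theorem chart_separation (hE : EvOK ℂ F) {u' : F} {Q' : ℂ → Place ℂ F} {r' : ℝ}
    (hc : IsChart u Q r) (hc' : IsChart u' Q' r') {s₀ s₀' : ℂ}
    (hs₀ : s₀ ∈ Metric.ball (0 : ℂ) r) (hs₀' : s₀' ∈ Metric.ball (0 : ℂ) r')
    (hne : Q s₀ ≠ Q' s₀') :
    ∃ δ > 0, ∀ s s' : ℂ, ‖s - s₀‖ < δ → ‖s' - s₀'‖ < δ → Q s ≠ Q' s' := by
  classical
  obtain ⟨h, hh⟩ := helper1070.exists_approx ({Q s₀, Q' s₀'} : Finset (Place ℂ F))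
    (fun v => if v = Q s₀ then 0 else 1) 1
  have hA := hh (Q s₀) (by simp)
  have hB := hh (Q' s₀') (by simp)
  simp only [if_true] at hA
  rw [if_neg hne.symm] at hB
  -- `h` is regular with value `0` at `Q s₀`
  have hreg : 0 ≤ (Q s₀).ord h := by
    rcases hA with rfl | hA
    · simp
    · rw [sub_zero] at hA; omega
  have hval : ev (Q s₀) h = 0 := by
    rcases hA with rfl | hA
    · exact hE.ev_zero _
    · exact (hE.ev_eq_zero_iff (Q s₀) hreg).mpr (Or.inr (by rw [sub_zero] at hA; omega))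
  -- `h` is regular with value `1` at `Q' s₀'`
  have hreg' : 0 ≤ (Q' s₀').ord h := by
    rcases hB with rfl | hB
    · simp
    · have h1 : 0 ≤ (Q' s₀').ord (h - 1) := by omega
      have := ord_nonneg_add h1 (show 0 ≤ (Q' s₀').ord (1 : F) by simp)
      simpa using this
  have hval' : ev (Q' s₀') h = 1 := by
    rcases hB with rfl | hB
    · exact hE.ev_one _
    · refine hE.ev_eq_of_ord_pos (Q' s₀') ?_
      rw [map_one]; omega
  have hcont := chart_continuousAt hc hs₀ hreg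
  have hcont' := chart_continuousAt hc' hs₀' hreg'
  rw [Metric.continuousAt_iff] at hcont hcont'
  obtain ⟨δ₁, hδ₁, h₁⟩ := hcont (1 / 2) (by norm_num)
  obtain ⟨δ₂, hδ₂, h₂⟩ := hcont' (1 / 2) (by norm_num)
  refine ⟨min δ₁ δ₂, lt_min hδ₁ hδ₂, fun s s' hs hs' heq => ?_⟩
  have e1 := h₁ (x := s) (by rw [dist_eq_norm]; exact lt_of_lt_of_le hs (min_le_left _ _))
  have e2 := h₂ (x := s') (by rw [dist_eq_norm]; exact lt_of_lt_of_le hs' (min_le_right _ _))
  rw [hval, dist_zero_right] at e1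
  rw [hval', dist_eq_norm] at e2
  rw [← heq] at e2
  have : (1 : ℝ) ≤ ‖ev (Q s) h‖ + ‖ev (Q s) h - 1‖ := by
    calc (1 : ℝ) = ‖(1 : ℂ)‖ := by simp
      _ = ‖ev (Q s) h - (ev (Q s) h - 1)‖ := by congr 1; ring
      _ ≤ ‖ev (Q s) h‖ + ‖ev (Q s) h - 1‖ := norm_sub_le _ _
  linarith

end Chart

end

end Fermat.Agent.S27.helper5831
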