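import Mathlib

/-!
# S27-E2-ABS : abstract local Abel–Jacobi kit (Mathlib only)

DATA: index types `ι` (points) and `κ` (differentials), centres `c : ι → ℂ`, a radius `r`,
and functions `f : ι → κ → ℂ → ℂ` with every `f i j` holomorphic on `ball (c i) r`
(think `f i j = φ_j ∘ b_i`, `b_i` the branch through the `i`-th base point).

* `prim f c r` : the primitive of `f` on `ball c r` vanishing at `c`.
* `aj f c r a j = ∑ i, prim (f i j) (c i) r (a i)` : the local Abel–Jacobi map.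
* `ajDeriv f a` : the `ℂ`-linear map `w ↦ (j ↦ ∑ i, f i j (a i) * w i)`.
-/

namespace Fermat.Agent.S27.helper6433

open Metric Set Filter Topology

noncomputable section

/-! ## (P) primitives on a disc -/

/-- The primitive of `f` on `ball c r` vanishing at the centre `c`
(junk value `0` if `f` is not holomorphic on the disc). -/
def prim (f : ℂ → ℂ) (c : ℂ) (r : ℝ) : ℂ → ℂ :=
  open Classical in
  if h : DifferentiableOn ℂ f (ball c r) then
    Classical.choose (h.isExactOn_ball.with_val_at c 0)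
  else 0

theorem prim_center (f : ℂ → ℂ) (c : ℂ) (r : ℝ) : prim f c r c = 0 := by
  unfold prim
  split_ifs with h
  · exact (Classical.choose_spec (h.isExactOn_ball.with_val_at c 0)).1
  · rfl

theorem hasDerivAt_prim {f : ℂ → ℂ} {c : ℂ} {r : ℝ} (h : DifferentiableOn ℂ f (ball c r))
    {z : ℂ} (hz : z ∈ ball c r) : HasDerivAt (prim f c r) (f z) z := by
  unfold prim
  rw [dif_pos h]
  exact (Classical.choose_spec (h.isExactOn_ball.with_val_at c 0)).2 z hz

theorem differentiableOn_prim {f : ℂ → ℂ} {c : ℂ} {r : ℝ}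
    (h : DifferentiableOn ℂ f (ball c r)) : DifferentiableOn ℂ (prim f c r) (ball c r) :=
  fun _ hz => (hasDerivAt_prim h hz).differentiableAt.differentiableWithinAt

theorem analyticAt_prim {f : ℂ → ℂ} {c : ℂ} {r : ℝ} (h : DifferentiableOn ℂ f (ball c r))
    {z : ℂ} (hz : z ∈ ball c r) : AnalyticAt ℂ (prim f c r) z :=
  (differentiableOn_prim h).analyticAt (isOpen_ball.mem_nhds hz)

theorem deriv_prim {f : ℂ → ℂ} {c : ℂ} {r : ℝ} (h : DifferentiableOn ℂ f (ball c r))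
    {z : ℂ} (hz : z ∈ ball c r) : deriv (prim f c r) z = f z :=
  (hasDerivAt_prim h hz).deriv

theorem hasStrictDerivAt_prim {f : ℂ → ℂ} {c : ℂ} {r : ℝ} (h : DifferentiableOn ℂ f (ball c r))
    {z : ℂ} (hz : z ∈ ball c r) : HasStrictDerivAt (prim f c r) (f z) z := by
  have := (analyticAt_prim h hz).hasStrictDerivAt
  rwa [deriv_prim h hz] at this

/-- Uniqueness of primitives on a disc: any primitive `G` of `f` on `ball c r` is
`prim f c r + G c` there. -/
theorem eq_prim_add {f : ℂ → ℂ} {c : ℂ} {r : ℝ} (h : DifferentiableOn ℂ f (ball c r))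
    {G : ℂ → ℂ} (hG : ∀ z ∈ ball c r, HasDerivAt G (f z) z) {z : ℂ} (hz : z ∈ ball c r) :
    G z = prim f c r z + G c := by
  have hc : c ∈ ball c r := mem_ball_self (lt_of_le_of_lt dist_nonneg (mem_ball.1 hz))
  have key : (ball c r).EqOn (fun z => G z - G c) (prim f c r) := by
    refine isOpen_ball.eqOn_of_deriv_eq (convex_ball c r).isPreconnected
      (fun z hz => ((hG z hz).sub_const (G c)).differentiableAt.differentiableWithinAt)
      (differentiableOn_prim h) (fun z hz => ?_) hc ?_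
    · rw [((hG z hz).sub_const (G c)).deriv, deriv_prim h hz]
    · simp [prim_center]
  have := key hz
  simp only at this
  rw [← this]; ring

/-- (BASE) base-point change on overlapping discs. -/
theorem prim_base_change {f : ℂ → ℂ} {c c' : ℂ} {r r' : ℝ}
    (h : DifferentiableOn ℂ f (ball c r)) (h' : DifferentiableOn ℂ f (ball c' r'))
    (hc' : c' ∈ ball c r) {z : ℂ} (hz : z ∈ ball c r) (hz' : z ∈ ball c' r') :
    prim f c' r' z = prim f c r z - prim f c r c' := by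
  have hc0 : c' ∈ ball c' r' := mem_ball_self (lt_of_le_of_lt dist_nonneg (mem_ball.1 hz'))
  have hopen : IsOpen (ball c r ∩ ball c' r') := isOpen_ball.inter isOpen_ball
  have hconn : IsPreconnected (ball c r ∩ ball c' r') :=
    ((convex_ball c r).inter (convex_ball c' r')).isPreconnected
  have key : (ball c r ∩ ball c' r').EqOn (prim f c' r') (fun z => prim f c r z - prim f c r c') := by
    refine hopen.eqOn_of_deriv_eq hconn
      (fun z hz => (hasDerivAt_prim h' hz.2).differentiableAt.differentiableWithinAt)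
      (fun z hz => ((hasDerivAt_prim h hz.1).sub_const _).differentiableAt.differentiableWithinAt)
      (fun z hz => ?_) ⟨hc', hc0⟩ ?_
    · rw [deriv_prim h' hz.2, ((hasDerivAt_prim h hz.1).sub_const _).deriv]
    · simp [prim_center]
  exact key ⟨hz, hz'⟩

/-! ## (AJ) the local Abel–Jacobi map -/

section AJ

variable {ι κ : Type*} [Fintype ι]

/-- The local Abel–Jacobi map `a ↦ (j ↦ ∑ i, ∫_{c i}^{a i} f i j)`. -/
def aj (f : ι → κ → ℂ → ℂ) (c : ι → ℂ) (r : ℝ) (a : ι → ℂ) : κ → ℂ :=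
  fun j => ∑ i, prim (f i j) (c i) r (a i)

theorem aj_apply (f : ι → κ → ℂ → ℂ) (c : ι → ℂ) (r : ℝ) (a : ι → ℂ) (j : κ) :
    aj f c r a j = ∑ i, prim (f i j) (c i) r (a i) := rfl

theorem aj_center (f : ι → κ → ℂ → ℂ) (c : ι → ℂ) (r : ℝ) : aj f c r c = 0 := by
  funext j
  simp [aj, prim_center]

/-- The derivative of the local Abel–Jacobi map at `a`:
`w ↦ (j ↦ ∑ i, f i j (a i) * w i)`. -/
def ajDeriv (f : ι → κ → ℂ → ℂ) (a : ι → ℂ) : (ι → ℂ) →L[ℂ] (κ → ℂ) :=
  ContinuousLinearMap.pi fun j =>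
    ∑ i, f i j (a i) • ContinuousLinearMap.proj (R := ℂ) (φ := fun _ : ι => ℂ) i

theorem ajDeriv_apply (f : ι → κ → ℂ → ℂ) (a w : ι → ℂ) (j : κ) :
    ajDeriv f a w j = ∑ i, f i j (a i) * w i := by
  simp [ajDeriv]

/-- (AJ) strict complex derivative of the local Abel–Jacobi map on the open polydisc. -/
theorem hasStrictFDerivAt_aj {f : ι → κ → ℂ → ℂ} {c : ι → ℂ} {r : ℝ}
    (hf : ∀ i j, DifferentiableOn ℂ (f i j) (ball (c i) r)) {a : ι → ℂ}
    (ha : ∀ i, a i ∈ ball (c i) r) : HasStrictFDerivAt (aj f c r) (ajDeriv f a) a := by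
  refine hasStrictFDerivAt_pi.2 fun j => ?_
  refine HasStrictFDerivAt.fun_sum fun i _ => ?_
  exact (hasStrictDerivAt_prim (hf i j) (ha i)).comp_hasStrictFDerivAt a
    (hasStrictFDerivAt_apply i a)

theorem hasFDerivAt_aj {f : ι → κ → ℂ → ℂ} {c : ι → ℂ} {r : ℝ}
    (hf : ∀ i j, DifferentiableOn ℂ (f i j) (ball (c i) r)) {a : ι → ℂ}
    (ha : ∀ i, a i ∈ ball (c i) r) : HasFDerivAt (aj f c r) (ajDeriv f a) a :=
  (hasStrictFDerivAt_aj hf ha).hasFDerivAt

theorem fderiv_aj {f : ι → κ → ℂ → ℂ} {c : ι → ℂ} {r : ℝ}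
    (hf : ∀ i j, DifferentiableOn ℂ (f i j) (ball (c i) r)) {a : ι → ℂ}
    (ha : ∀ i, a i ∈ ball (c i) r) : fderiv ℂ (aj f c r) a = ajDeriv f a :=
  (hasFDerivAt_aj hf ha).fderiv

/-- The open polydisc is open. -/
theorem isOpen_polydisc (c : ι → ℂ) (r : ℝ) : IsOpen {a : ι → ℂ | ∀ i, a i ∈ ball (c i) r} := by
  have : {a : ι → ℂ | ∀ i, a i ∈ ball (c i) r} = Set.pi univ fun i => ball (c i) r := by
    ext a; simp
  rw [this]
  exact isOpen_set_pi finite_univ fun i _ => isOpen_ball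

theorem differentiableOn_aj {f : ι → κ → ℂ → ℂ} {c : ι → ℂ} {r : ℝ}
    (hf : ∀ i j, DifferentiableOn ℂ (f i j) (ball (c i) r)) :
    DifferentiableOn ℂ (aj f c r) {a : ι → ℂ | ∀ i, a i ∈ ball (c i) r} :=
  fun _ ha => (hasFDerivAt_aj hf ha).differentiableAt.differentiableWithinAt

theorem analyticAt_aj [Fintype κ] {f : ι → κ → ℂ → ℂ} {c : ι → ℂ} {r : ℝ}
    (hf : ∀ i j, DifferentiableOn ℂ (f i j) (ball (c i) r)) {a : ι → ℂ}
    (ha : ∀ i, a i ∈ ball (c i) r) : AnalyticAt ℂ (aj f c r) a := by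
  refine analyticAt_pi_iff.2 fun j => ?_
  refine Finset.analyticAt_fun_sum _ fun i _ => ?_
  exact AnalyticAt.comp (g := prim (f i j) (c i) r) (f := fun a : ι → ℂ => a i) (x := a)
    (analyticAt_prim (hf i j) (ha i))
    ((ContinuousLinearMap.proj (R := ℂ) (φ := fun _ : ι => ℂ) i).analyticAt a)

end AJ

/-! ## (INV) local biholomorphism at a point where the matrix `(f i j (c i))` is invertible -/

section Inv

variable {ι : Type*} [Fintype ι] [DecidableEq ι]

theorem ajDeriv_toLinearMap (f : ι → ι → ℂ → ℂ) (a : ι → ℂ) :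
    (ajDeriv f a : (ι → ℂ) →ₗ[ℂ] (ι → ℂ)) =
      Matrix.toLin' (Matrix.of fun i j => f i j (a i)).transpose := by
  refine LinearMap.ext fun w => funext fun j => ?_
  simp [ajDeriv_apply, Matrix.toLin'_apply, Matrix.mulVec, dotProduct]

theorem det_ajDeriv (f : ι → ι → ℂ → ℂ) (a : ι → ℂ) :
    (ajDeriv f a).det = (Matrix.of fun i j => f i j (a i)).det := by
  rw [ContinuousLinearMap.det, ajDeriv_toLinearMap, LinearMap.det_toLin', Matrix.det_transpose]

/-- The derivative of the local Abel–Jacobi map as a continuous linear equivalence, at a point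
where the matrix `(f i j (a i))` is invertible. -/
def ajEquiv (f : ι → ι → ℂ → ℂ) (a : ι → ℂ)
    (h : (Matrix.of fun i j => f i j (a i)).det ≠ 0) : (ι → ℂ) ≃L[ℂ] (ι → ℂ) :=
  (ajDeriv f a).toContinuousLinearEquivOfDetNeZero (by rw [det_ajDeriv]; exact h)

theorem coe_ajEquiv (f : ι → ι → ℂ → ℂ) (a : ι → ℂ)
    (h : (Matrix.of fun i j => f i j (a i)).det ≠ 0) :
    (ajEquiv f a h : (ι → ℂ) →L[ℂ] (ι → ℂ)) = ajDeriv f a :=
  ContinuousLinearMap.coe_toContinuousLinearEquivOfDetNeZero _ _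

theorem ajEquiv_apply (f : ι → ι → ℂ → ℂ) (a : ι → ℂ)
    (h : (Matrix.of fun i j => f i j (a i)).det ≠ 0) (w : ι → ℂ) (j : ι) :
    ajEquiv f a h w j = ∑ i, f i j (a i) * w i :=
  ajDeriv_apply f a w j

/-- The set of points of the polydisc where the matrix `(f i j (a i))` is invertible is open. -/
theorem isOpen_det_ne_zero {f : ι → ι → ℂ → ℂ} {c : ι → ℂ} {r : ℝ}
    (hf : ∀ i j, DifferentiableOn ℂ (f i j) (ball (c i) r)) :
    IsOpen {a : ι → ℂ | (∀ i, a i ∈ ball (c i) r) ∧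
      (Matrix.of fun i j => f i j (a i)).det ≠ 0} := by
  have hcont : ContinuousOn (fun a : ι → ℂ => (Matrix.of fun i j => f i j (a i)).det)
      {a : ι → ℂ | ∀ i, a i ∈ ball (c i) r} := by
    rw [continuousOn_iff_continuous_domRestrict]
    refine Continuous.matrix_det (continuous_matrix fun i j => ?_)
    exact (hf i j).continuousOn.comp_continuous
      ((continuous_apply i).comp continuous_subtype_val) (fun x => x.2 i)
  have := hcont.isOpen_inter_preimage (isOpen_polydisc c r) (isOpen_compl_singleton (x := (0 : ℂ)))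
  convert this using 1
  ext a
  simp

/-- (INV), `OpenPartialHomeomorph` form. -/
theorem exists_openPartialHomeomorph_aj {f : ι → ι → ℂ → ℂ} {c : ι → ℂ} {r : ℝ}
    (hf : ∀ i j, DifferentiableOn ℂ (f i j) (ball (c i) r)) (hr : 0 < r)
    (hdet : (Matrix.of fun i j => f i j (c i)).det ≠ 0) {δ : ℝ} (hδ : 0 < δ) :
    ∃ φ : OpenPartialHomeomorph (ι → ℂ) (ι → ℂ),
      (φ : (ι → ℂ) → (ι → ℂ)) = aj f c r ∧ c ∈ φ.source ∧
      (∀ a ∈ φ.source, ∀ i, a i ∈ ball (c i) r) ∧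
      (∀ a ∈ φ.source, ∀ i, a i ∈ ball (c i) δ) ∧
      (∀ a ∈ φ.source, (Matrix.of fun i j => f i j (a i)).det ≠ 0) ∧
      (∀ v ∈ φ.target, AnalyticAt ℂ φ.symm v) ∧
      (∀ v ∈ φ.target, ∀ h : (Matrix.of fun i j => f i j (φ.symm v i)).det ≠ 0,
        HasStrictFDerivAt φ.symm
          ((ajEquiv f (φ.symm v) h).symm : (ι → ℂ) →L[ℂ] (ι → ℂ)) v) := by
  have hc : ∀ i, c i ∈ ball (c i) r := fun i => mem_ball_self hr
  have h0 : HasStrictFDerivAt (aj f c r) (ajEquiv f c hdet : (ι → ℂ) →L[ℂ] (ι → ℂ)) c := by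
    rw [coe_ajEquiv]; exact hasStrictFDerivAt_aj hf hc
  set φ₀ := h0.toOpenPartialHomeomorph (aj f c r) with hφ₀
  have hφ₀c : (φ₀ : (ι → ℂ) → (ι → ℂ)) = aj f c r := h0.toOpenPartialHomeomorph_coe
  have hcφ₀ : c ∈ φ₀.source := h0.mem_toOpenPartialHomeomorph_source
  set D : Set (ι → ℂ) := {a : ι → ℂ | (∀ i, a i ∈ ball (c i) r) ∧
      (Matrix.of fun i j => f i j (a i)).det ≠ 0} with hD
  have hDo : IsOpen D := isOpen_det_ne_zero hf
  have hBo : IsOpen {a : ι → ℂ | ∀ i, a i ∈ ball (c i) δ} := isOpen_polydisc c δ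
  set W : Set (ι → ℂ) := D ∩ {a : ι → ℂ | ∀ i, a i ∈ ball (c i) δ} with hW
  have hWo : IsOpen W := hDo.inter hBo
  have hcW : c ∈ W := ⟨⟨hc, hdet⟩, fun i => mem_ball_self hδ⟩
  refine ⟨φ₀.restrOpen W hWo, hφ₀c, ?_, ?_, ?_, ?_, ?_, ?_⟩
  · rw [OpenPartialHomeomorph.restrOpen_source]; exact ⟨hcφ₀, hcW⟩
  · intro a ha
    rw [OpenPartialHomeomorph.restrOpen_source] at ha
    exact ha.2.1.1
  · intro a ha
    rw [OpenPartialHomeomorph.restrOpen_source] at ha
    exact ha.2.2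
  · intro a ha
    rw [OpenPartialHomeomorph.restrOpen_source] at ha
    exact ha.2.1.2
  · intro v hv
    have hs := (φ₀.restrOpen W hWo).map_target hv
    rw [OpenPartialHomeomorph.restrOpen_source] at hs
    have hpd := hs.2.1.1
    have hdv := hs.2.1.2
    refine (φ₀.restrOpen W hWo).analyticAt_symm (i := ajEquiv f _ hdv) hv ?_ ?_
    · show AnalyticAt ℂ (φ₀ : (ι → ℂ) → (ι → ℂ)) _
      rw [hφ₀c]; exact analyticAt_aj hf hpd
    · show fderiv ℂ (φ₀ : (ι → ℂ) → (ι → ℂ)) _ = _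
      rw [hφ₀c, coe_ajEquiv]; exact fderiv_aj hf hpd
  · intro v hv hdv
    have hs := (φ₀.restrOpen W hWo).map_target hv
    rw [OpenPartialHomeomorph.restrOpen_source] at hs
    have hpd := hs.2.1.1
    refine (φ₀.restrOpen W hWo).hasStrictFDerivAt_symm hv ?_
    show HasStrictFDerivAt (φ₀ : (ι → ℂ) → (ι → ℂ)) _ _
    rw [hφ₀c, coe_ajEquiv]; exact hasStrictFDerivAt_aj hf hpd

/-- (INV), unpacked form: the local Abel–Jacobi map restricts to a biholomorphism of an open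
neighbourhood `U` of the base point `c` (inside the polydiscs of radii `r` and `δ`) onto a ball
`ball 0 ε`, with inverse `s`. -/
theorem exists_local_inverse_aj {f : ι → ι → ℂ → ℂ} {c : ι → ℂ} {r : ℝ}
    (hf : ∀ i j, DifferentiableOn ℂ (f i j) (ball (c i) r)) (hr : 0 < r)
    (hdet : (Matrix.of fun i j => f i j (c i)).det ≠ 0) {δ : ℝ} (hδ : 0 < δ) :
    ∃ (ε : ℝ) (U : Set (ι → ℂ)) (s : (ι → ℂ) → (ι → ℂ)), 0 < ε ∧ IsOpen U ∧ c ∈ U ∧
      (∀ a ∈ U, ∀ i, a i ∈ ball (c i) r) ∧ (∀ a ∈ U, ∀ i, a i ∈ ball (c i) δ) ∧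
      (∀ a ∈ U, (Matrix.of fun i j => f i j (a i)).det ≠ 0) ∧
      MapsTo (aj f c r) U (ball 0 ε) ∧ MapsTo s (ball 0 ε) U ∧
      (∀ a ∈ U, s (aj f c r a) = a) ∧ (∀ v ∈ ball (0 : ι → ℂ) ε, aj f c r (s v) = v) ∧
      s 0 = c ∧ (∀ v ∈ ball (0 : ι → ℂ) ε, AnalyticAt ℂ s v) ∧
      DifferentiableOn ℂ s (ball 0 ε) ∧ ContinuousOn s (ball 0 ε) ∧
      (∀ v ∈ ball (0 : ι → ℂ) ε, ∀ h : (Matrix.of fun i j => f i j (s v i)).det ≠ 0,
        HasStrictFDerivAt s ((ajEquiv f (s v) h).symm : (ι → ℂ) →L[ℂ] (ι → ℂ)) v) := by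
  obtain ⟨φ, hφ, hcφ, hφr, hφδ, hφdet, hφan, hφst⟩ :=
    exists_openPartialHomeomorph_aj hf hr hdet hδ
  have h0t : (0 : ι → ℂ) ∈ φ.target := by
    have := φ.map_source hcφ
    rwa [hφ, aj_center] at this
  obtain ⟨ε, hε, hball⟩ := Metric.isOpen_iff.1 φ.open_target 0 h0t
  have happ : ∀ a, φ a = aj f c r a := fun a => congrFun hφ a
  have han : ∀ v ∈ ball (0 : ι → ℂ) ε, AnalyticAt ℂ φ.symm v := fun v hv => hφan v (hball hv)
  refine ⟨ε, φ.source ∩ φ ⁻¹' ball 0 ε, φ.symm, hε, φ.isOpen_inter_preimage isOpen_ball,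
    ⟨hcφ, ?_⟩, fun a ha => hφr a ha.1, fun a ha => hφδ a ha.1, fun a ha => hφdet a ha.1,
    ?_, ?_, ?_, ?_, ?_, han, fun v hv => (han v hv).differentiableAt.differentiableWithinAt,
    fun v hv => (han v hv).continuousAt.continuousWithinAt, fun v hv h => hφst v (hball hv) h⟩
  · show φ c ∈ ball 0 ε
    rw [happ, aj_center]; exact mem_ball_self hε
  · intro a ha
    have := ha.2
    rwa [mem_preimage, happ] at this
  · intro v hv
    refine ⟨φ.map_target (hball hv), ?_⟩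
    show φ (φ.symm v) ∈ ball 0 ε
    rw [φ.right_inv (hball hv)]; exact hv
  · intro a ha
    rw [← happ]; exact φ.left_inv ha.1
  · intro v hv
    rw [← happ]; exact φ.right_inv (hball hv)
  · have := φ.left_inv hcφ
    rwa [happ, aj_center] at this

end Inv

/-! ## (CURVE) chain rule along families and the constancy lemmas consumed by GLS -/

section Curve

variable {ι κ : Type*} [Fintype ι]

/-- Chain rule for the local Abel–Jacobi map along a family `a : E → (ι → ℂ)`, Fréchet form. -/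
theorem hasFDerivAt_aj_comp [Fintype κ] {E : Type*} [NormedAddCommGroup E] [NormedSpace ℂ E]
    {f : ι → κ → ℂ → ℂ} {c : ι → ℂ} {r : ℝ}
    (hf : ∀ i j, DifferentiableOn ℂ (f i j) (ball (c i) r))
    {a : E → ι → ℂ} {a' : E →L[ℂ] (ι → ℂ)} {q : E} (ha : HasFDerivAt a a' q)
    (hq : ∀ i, a q i ∈ ball (c i) r) :
    HasFDerivAt (fun q => aj f c r (a q)) ((ajDeriv f (a q)).comp a') q :=
  HasFDerivAt.comp (g := aj f c r) q (hasFDerivAt_aj hf hq) ha

/-- Chain rule, one component: the derivative of `q ↦ aj f c r (a q) j` is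
`v ↦ ∑ i, f i j (a q i) * a' v i`. -/
theorem hasFDerivAt_aj_comp_apply {E : Type*} [NormedAddCommGroup E] [NormedSpace ℂ E]
    {f : ι → κ → ℂ → ℂ} {c : ι → ℂ} {r : ℝ}
    (hf : ∀ i j, DifferentiableOn ℂ (f i j) (ball (c i) r))
    {a : E → ι → ℂ} {a' : E →L[ℂ] (ι → ℂ)} {q : E} (ha : HasFDerivAt a a' q)
    (hq : ∀ i, a q i ∈ ball (c i) r) (j : κ) :
    HasFDerivAt (fun q => aj f c r (a q) j)
      (∑ i, f i j (a q i) •
        (ContinuousLinearMap.proj (R := ℂ) (φ := fun _ : ι => ℂ) i).comp a') q := by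
  simp only [aj_apply]
  refine HasFDerivAt.fun_sum fun i _ => ?_
  exact HasDerivAt.comp_hasFDerivAt (h₂ := prim (f i j) (c i) r) (f := fun q => a q i) q
    (hasDerivAt_prim (hf i j) (hq i)) ((hasFDerivAt_pi'.1 ha) i)

/-- Chain rule along one-parameter families `a i : 𝕜 → ℂ` (`𝕜 = ℂ`: holomorphic curves,
`𝕜 = ℝ`: real paths):
`d/dt aj (a t) j = ∑ i, f i j (a i t) * a' i`. -/
theorem hasDerivAt_aj_comp {𝕜 : Type*} [NontriviallyNormedField 𝕜] [NormedAlgebra 𝕜 ℂ]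
    {f : ι → κ → ℂ → ℂ} {c : ι → ℂ} {r : ℝ}
    (hf : ∀ i j, DifferentiableOn ℂ (f i j) (ball (c i) r))
    {a : ι → 𝕜 → ℂ} {a' : ι → ℂ} {t : 𝕜} (ha : ∀ i, HasDerivAt (a i) (a' i) t)
    (ht : ∀ i, a i t ∈ ball (c i) r) (j : κ) :
    HasDerivAt (fun t => aj f c r (fun i => a i t) j) (∑ i, f i j (a i t) * a' i) t := by
  simp only [aj_apply]
  refine HasDerivAt.fun_sum fun i _ => ?_
  have h := HasDerivAt.scomp t (hasDerivAt_prim (hf i j) (ht i)) (ha i)
  rw [smul_eq_mul, mul_comm] at h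
  exact h

/-- (BASE) base-point change for the local Abel–Jacobi map. -/
theorem aj_base_change {f : ι → κ → ℂ → ℂ} {c c' : ι → ℂ} {r r' : ℝ}
    (hf : ∀ i j, DifferentiableOn ℂ (f i j) (ball (c i) r))
    (hf' : ∀ i j, DifferentiableOn ℂ (f i j) (ball (c' i) r'))
    (hc' : ∀ i, c' i ∈ ball (c i) r) {a : ι → ℂ} (ha : ∀ i, a i ∈ ball (c i) r)
    (ha' : ∀ i, a i ∈ ball (c' i) r') :
    aj f c' r' a = aj f c r a - aj f c r c' := by
  funext j
  simp only [aj_apply, Pi.sub_apply, ← Finset.sum_sub_distrib]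
  exact Finset.sum_congr rfl fun i _ =>
    prim_base_change (hf i j) (hf' i j) (hc' i) (ha i) (ha' i)

end Curve

/-! ## (CONST) constancy lemmas in the shape consumed by GLS / infinitesimal Abel -/

section Const

variable {ι ι' κ : Type*} [Fintype ι] [Fintype ι']

/-- (CONST) Two families `a : E → (ι → ℂ)`, `b : E → (ι' → ℂ)` over an open preconnected
parameter set `W` whose derivative data match
(`∑ i, f i j (a q i) * a' q v i = ∑ i, g i j (b q i) * b' q v i` for all directions `v`)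
have constant difference of local Abel–Jacobi values. -/
theorem aj_sub_aj_const {E : Type*} [NormedAddCommGroup E] [NormedSpace ℂ E]
    {f : ι → κ → ℂ → ℂ} {c : ι → ℂ} {r : ℝ}
    (hf : ∀ i j, DifferentiableOn ℂ (f i j) (ball (c i) r))
    {g : ι' → κ → ℂ → ℂ} {d : ι' → ℂ} {ρ : ℝ}
    (hg : ∀ i j, DifferentiableOn ℂ (g i j) (ball (d i) ρ))
    {W : Set E} (hW : IsOpen W) (hWc : IsPreconnected W)
    {a : E → ι → ℂ} {a' : E → E →L[ℂ] (ι → ℂ)} {b : E → ι' → ℂ} {b' : E → E →L[ℂ] (ι' → ℂ)}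
    (ha : ∀ q ∈ W, HasFDerivAt a (a' q) q) (hb : ∀ q ∈ W, HasFDerivAt b (b' q) q)
    (haW : ∀ q ∈ W, ∀ i, a q i ∈ ball (c i) r) (hbW : ∀ q ∈ W, ∀ i, b q i ∈ ball (d i) ρ)
    (hder : ∀ q ∈ W, ∀ (v : E) (j : κ),
      ∑ i, f i j (a q i) * a' q v i = ∑ i, g i j (b q i) * b' q v i)
    {q₁ q₂ : E} (h₁ : q₁ ∈ W) (h₂ : q₂ ∈ W) :
    aj f c r (a q₁) - aj g d ρ (b q₁) = aj f c r (a q₂) - aj g d ρ (b q₂) := by
  funext j
  have hFd : ∀ q ∈ W, HasFDerivAt (fun q => aj f c r (a q) j - aj g d ρ (b q) j)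
      ((∑ i, f i j (a q i) •
          (ContinuousLinearMap.proj (R := ℂ) (φ := fun _ : ι => ℂ) i).comp (a' q)) -
        (∑ i, g i j (b q i) •
          (ContinuousLinearMap.proj (R := ℂ) (φ := fun _ : ι' => ℂ) i).comp (b' q))) q :=
    fun q hq => (hasFDerivAt_aj_comp_apply hf (ha q hq) (haW q hq) j).sub
      (hasFDerivAt_aj_comp_apply hg (hb q hq) (hbW q hq) j)
  have hconst := hW.is_const_of_fderiv_eq_zero hWc
    (fun q hq => (hFd q hq).differentiableAt.differentiableWithinAt)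
    (fun q hq => by
      rw [(hFd q hq).fderiv]
      ext v
      simpa [sub_eq_zero] using hder q hq v j) h₁ h₂
  simpa using hconst

/-- (CONST, generic form) As `aj_sub_aj_const`, but the derivative identity is only required on
a subset `D` which is dense in `W`, provided the derivative families are continuous on `W`. -/
theorem aj_sub_aj_const_of_dense {E : Type*} [NormedAddCommGroup E] [NormedSpace ℂ E]
    {f : ι → κ → ℂ → ℂ} {c : ι → ℂ} {r : ℝ}
    (hf : ∀ i j, DifferentiableOn ℂ (f i j) (ball (c i) r))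
    {g : ι' → κ → ℂ → ℂ} {d : ι' → ℂ} {ρ : ℝ}
    (hg : ∀ i j, DifferentiableOn ℂ (g i j) (ball (d i) ρ))
    {W D : Set E} (hW : IsOpen W) (hWc : IsPreconnected W) (hD : W ⊆ closure D)
    {a : E → ι → ℂ} {a' : E → E →L[ℂ] (ι → ℂ)} {b : E → ι' → ℂ} {b' : E → E →L[ℂ] (ι' → ℂ)}
    (ha : ∀ q ∈ W, HasFDerivAt a (a' q) q) (hb : ∀ q ∈ W, HasFDerivAt b (b' q) q)
    (ha' : ∀ v, ContinuousOn (fun q => a' q v) W) (hb' : ∀ v, ContinuousOn (fun q => b' q v) W)
    (haW : ∀ q ∈ W, ∀ i, a q i ∈ ball (c i) r) (hbW : ∀ q ∈ W, ∀ i, b q i ∈ ball (d i) ρ)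
    (hder : ∀ q ∈ W, q ∈ D → ∀ (v : E) (j : κ),
      ∑ i, f i j (a q i) * a' q v i = ∑ i, g i j (b q i) * b' q v i)
    {q₁ q₂ : E} (h₁ : q₁ ∈ W) (h₂ : q₂ ∈ W) :
    aj f c r (a q₁) - aj g d ρ (b q₁) = aj f c r (a q₂) - aj g d ρ (b q₂) := by
  refine aj_sub_aj_const hf hg hW hWc ha hb haW hbW (fun q hq v j => ?_) h₁ h₂
  have hac : ContinuousOn a W := fun q hq => (ha q hq).continuousAt.continuousWithinAt
  have hbc : ContinuousOn b W := fun q hq => (hb q hq).continuousAt.continuousWithinAt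
  have hΦ : ContinuousOn (fun q => ∑ i, f i j (a q i) * a' q v i -
      ∑ i, g i j (b q i) * b' q v i) W := by
    refine ContinuousOn.sub ?_ ?_
    · refine continuousOn_finsetSum _ fun i _ => ContinuousOn.mul ?_ ?_
      · exact (hf i j).continuousOn.comp ((continuous_apply i).comp_continuousOn hac)
          (fun q hq => haW q hq i)
      · exact (continuous_apply i).comp_continuousOn (ha' v)
    · refine continuousOn_finsetSum _ fun i _ => ContinuousOn.mul ?_ ?_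
      · exact (hg i j).continuousOn.comp ((continuous_apply i).comp_continuousOn hbc)
          (fun q hq => hbW q hq i)
      · exact (continuous_apply i).comp_continuousOn (hb' v)
  have hq' : q ∈ closure (W ∩ D) := hW.inter_closure ⟨hq, hD hq⟩
  have hmem := ((hΦ q hq).mono inter_subset_left).mem_closure hq'
    (t := {0}) (fun q' hq' => by
      have := hder q' hq'.1 hq'.2 v j
      simp [this])
  rw [closure_singleton, mem_singleton_iff, sub_eq_zero] at hmem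
  exact hmem

/-- (CONST, one parameter, `𝕜 = ℂ`) holomorphic curves over an open preconnected set of parameters. -/
theorem aj_sub_aj_const_of_hasDerivAt
    {f : ι → κ → ℂ → ℂ} {c : ι → ℂ} {r : ℝ}
    (hf : ∀ i j, DifferentiableOn ℂ (f i j) (ball (c i) r))
    {g : ι' → κ → ℂ → ℂ} {d : ι' → ℂ} {ρ : ℝ}
    (hg : ∀ i j, DifferentiableOn ℂ (g i j) (ball (d i) ρ))
    {W : Set ℂ} (hW : IsOpen W) (hWc : IsPreconnected W)
    {a : ι → ℂ → ℂ} {a' : ι → ℂ → ℂ} {b : ι' → ℂ → ℂ} {b' : ι' → ℂ → ℂ}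
    (ha : ∀ t ∈ W, ∀ i, HasDerivAt (a i) (a' i t) t)
    (hb : ∀ t ∈ W, ∀ i, HasDerivAt (b i) (b' i t) t)
    (haW : ∀ t ∈ W, ∀ i, a i t ∈ ball (c i) r) (hbW : ∀ t ∈ W, ∀ i, b i t ∈ ball (d i) ρ)
    (hder : ∀ t ∈ W, ∀ j : κ,
      ∑ i, f i j (a i t) * a' i t = ∑ i, g i j (b i t) * b' i t)
    {t₁ t₂ : ℂ} (h₁ : t₁ ∈ W) (h₂ : t₂ ∈ W) :
    aj f c r (fun i => a i t₁) - aj g d ρ (fun i => b i t₁) =
      aj f c r (fun i => a i t₂) - aj g d ρ (fun i => b i t₂) := by
  funext j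
  have hFd : ∀ t ∈ W, HasDerivAt
      (fun t => aj f c r (fun i => a i t) j - aj g d ρ (fun i => b i t) j)
      (∑ i, f i j (a i t) * a' i t - ∑ i, g i j (b i t) * b' i t) t :=
    fun t ht => (hasDerivAt_aj_comp hf (ha t ht) (haW t ht) j).sub
      (hasDerivAt_aj_comp hg (hb t ht) (hbW t ht) j)
  have hconst := hW.is_const_of_deriv_eq_zero hWc
    (fun t ht => (hFd t ht).differentiableAt.differentiableWithinAt)
    (fun t ht => by
      rw [(hFd t ht).deriv]
      simpa [sub_eq_zero] using hder t ht j) h₁ h₂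
  simpa using hconst

/-- (CONST, one parameter, `𝕜 = ℝ`) real paths over an open preconnected set of real parameters (e.g. an open interval). -/
theorem aj_sub_aj_const_of_hasDerivAt_real
    {f : ι → κ → ℂ → ℂ} {c : ι → ℂ} {r : ℝ}
    (hf : ∀ i j, DifferentiableOn ℂ (f i j) (ball (c i) r))
    {g : ι' → κ → ℂ → ℂ} {d : ι' → ℂ} {ρ : ℝ}
    (hg : ∀ i j, DifferentiableOn ℂ (g i j) (ball (d i) ρ))
    {W : Set ℝ} (hW : IsOpen W) (hWc : IsPreconnected W)
    {a : ι → ℝ → ℂ} {a' : ι → ℝ → ℂ} {b : ι' → ℝ → ℂ} {b' : ι' → ℝ → ℂ}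
    (ha : ∀ t ∈ W, ∀ i, HasDerivAt (a i) (a' i t) t)
    (hb : ∀ t ∈ W, ∀ i, HasDerivAt (b i) (b' i t) t)
    (haW : ∀ t ∈ W, ∀ i, a i t ∈ ball (c i) r) (hbW : ∀ t ∈ W, ∀ i, b i t ∈ ball (d i) ρ)
    (hder : ∀ t ∈ W, ∀ j : κ,
      ∑ i, f i j (a i t) * a' i t = ∑ i, g i j (b i t) * b' i t)
    {t₁ t₂ : ℝ} (h₁ : t₁ ∈ W) (h₂ : t₂ ∈ W) :
    aj f c r (fun i => a i t₁) - aj g d ρ (fun i => b i t₁) =
      aj f c r (fun i => a i t₂) - aj g d ρ (fun i => b i t₂) := by
  funext j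
  have hFd : ∀ t ∈ W, HasDerivAt
      (fun t => aj f c r (fun i => a i t) j - aj g d ρ (fun i => b i t) j)
      (∑ i, f i j (a i t) * a' i t - ∑ i, g i j (b i t) * b' i t) t :=
    fun t ht => (hasDerivAt_aj_comp hf (ha t ht) (haW t ht) j).sub
      (hasDerivAt_aj_comp hg (hb t ht) (hbW t ht) j)
  have hconst := hW.is_const_of_deriv_eq_zero hWc
    (fun t ht => (hFd t ht).differentiableAt.differentiableWithinAt)
    (fun t ht => by
      rw [(hFd t ht).deriv]
      simpa [sub_eq_zero] using hder t ht j) h₁ h₂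
  simpa using hconst

end Const

end

end Fermat.Agent.S27.helper6433
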