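import Fermat.Agent.S27.helper6247_Spec
import Fermat.Agent.S27.helper6433_LocalAJ

/-!
# S27 : the abelian sum `Φ(s) = ∑ i, J i (s i)` of a tuple of integral charts is a local
biholomorphism at `0` (Spec vocabulary of `helper6247_Spec`)

Adapter from the abstract local Abel–Jacobi kit (`helper6433_LocalAJ`) to `IsIntChart`.
Consumers: `Stmt_Key` (N2 (a), (f)) and `Stmt_GLS` (N1 (e)).
-/

namespace Fermat.Agent.S27.helper6433

open Metric Set Filter Topology AlgebraicCurve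
open Fermat.Agent.S27.helper6247

noncomputable section

section ChartAJ

variable {F : Type*} [Field F] [Algebra ℂ F]

/-- The primitive of an integral chart is holomorphic on the chart disc. -/
theorem differentiableOn_intChart {e : H1 (0 : Divisor ℂ F) ≃ₗ[ℂ] (Fin (genusFF ℂ F) → ℂ)}
    {u : F} {Q : ℂ → Place ℂ F} {r : ℝ} {J : ℂ → Fin (genusFF ℂ F) → ℂ}
    (h : IsIntChart e u Q r J) : DifferentiableOn ℂ J (ball 0 r) :=
  fun s hs => (h.deriv s hs).differentiableAt.differentiableWithinAt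

/-- The integrand `chartCoef` of an integral chart is holomorphic on the chart disc
(it is the derivative of a holomorphic function). -/
theorem differentiableOn_chartCoef {e : H1 (0 : Divisor ℂ F) ≃ₗ[ℂ] (Fin (genusFF ℂ F) → ℂ)}
    {u : F} {Q : ℂ → Place ℂ F} {r : ℝ} {J : ℂ → Fin (genusFF ℂ F) → ℂ}
    (h : IsIntChart e u Q r J) : DifferentiableOn ℂ (chartCoef e u Q) (ball 0 r) :=
  ((differentiableOn_intChart h).deriv isOpen_ball).congr fun s hs => ((h.deriv s hs).deriv).symm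

/-- Components of the integrand are holomorphic on the chart disc. -/
theorem differentiableOn_chartCoef_apply
    {e : H1 (0 : Divisor ℂ F) ≃ₗ[ℂ] (Fin (genusFF ℂ F) → ℂ)}
    {u : F} {Q : ℂ → Place ℂ F} {r : ℝ} {J : ℂ → Fin (genusFF ℂ F) → ℂ}
    (h : IsIntChart e u Q r J) (j : Fin (genusFF ℂ F)) :
    DifferentiableOn ℂ (fun z => chartCoef e u Q z j) (ball 0 r) :=
  differentiableOn_pi.1 (differentiableOn_chartCoef h) j

/-- Components of the primitive of an integral chart. -/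
theorem hasDerivAt_intChart_apply {e : H1 (0 : Divisor ℂ F) ≃ₗ[ℂ] (Fin (genusFF ℂ F) → ℂ)}
    {u : F} {Q : ℂ → Place ℂ F} {r : ℝ} {J : ℂ → Fin (genusFF ℂ F) → ℂ}
    (h : IsIntChart e u Q r J) {s : ℂ} (hs : s ∈ ball (0 : ℂ) r) (j : Fin (genusFF ℂ F)) :
    HasDerivAt (fun z => J z j) (chartCoef e u Q s j) s :=
  hasDerivAt_pi.1 (h.deriv s hs) j

/-- The value of the integrand at the centre of the chart. -/
theorem chartCoef_zero (e : H1 (0 : Divisor ℂ F) ≃ₗ[ℂ] (Fin (genusFF ℂ F) → ℂ))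
    (u : F) (Q : ℂ → Place ℂ F) : chartCoef e u Q 0 = e (pp (Q 0) u⁻¹) := by
  simp [chartCoef]

/-- A finite family of positive reals has a positive lower bound (also below `δ`). -/
theorem exists_pos_le_of_fintype {ι : Type*} [Fintype ι] (r : ι → ℝ) (hr : ∀ i, 0 < r i)
    {δ : ℝ} (hδ : 0 < δ) : ∃ r₀ : ℝ, 0 < r₀ ∧ r₀ ≤ δ ∧ ∀ i, r₀ ≤ r i := by
  classical
  have hne : (insert δ (Finset.univ.image r)).Nonempty := Finset.insert_nonempty _ _
  refine ⟨(insert δ (Finset.univ.image r)).min' hne, ?_, ?_, fun i => ?_⟩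
  · have hmem := Finset.min'_mem _ hne
    rcases Finset.mem_insert.1 hmem with h | h
    · rw [h]; exact hδ
    · obtain ⟨i, -, hi⟩ := Finset.mem_image.1 h
      rw [← hi]; exact hr i
  · exact Finset.min'_le _ _ (Finset.mem_insert_self _ _)
  · exact Finset.min'_le _ _
      (Finset.mem_insert_of_mem (Finset.mem_image_of_mem r (Finset.mem_univ i)))

/-- **Local biholomorphism of the abelian sum.**  Let `(u i, Q i, r i, J i)`, `i : Fin g`, be
integral charts such that the principal parts `1/u_i` at the centres `Q i 0` are linearly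
independent in `H¹(0)` (this is the conclusion of `Stmt_NonspecialBasis`).  Then
`Φ(s) = ∑ i, J i (s i)` restricts to a bijection of an open neighbourhood `U` of `0` (inside the
polydisc of the charts and inside the polydisc of radius `δ`) onto a ball `ball 0 ε`, with
analytic inverse `ψ`.  Moreover `U` contains a polydisc of radius `η`. -/
theorem exists_local_inverse_abelSum
    (e : H1 (0 : Divisor ℂ F) ≃ₗ[ℂ] (Fin (genusFF ℂ F) → ℂ))
    (u : Fin (genusFF ℂ F) → F) (Q : Fin (genusFF ℂ F) → ℂ → Place ℂ F)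
    (r : Fin (genusFF ℂ F) → ℝ) (J : Fin (genusFF ℂ F) → ℂ → Fin (genusFF ℂ F) → ℂ)
    (hJ : ∀ i, IsIntChart e (u i) (Q i) (r i) (J i))
    (hli : LinearIndependent ℂ (fun i => pp (Q i 0) (u i)⁻¹))
    {δ : ℝ} (hδ : 0 < δ) :
    ∃ (ε η : ℝ) (U : Set (Fin (genusFF ℂ F) → ℂ))
      (ψ : (Fin (genusFF ℂ F) → ℂ) → (Fin (genusFF ℂ F) → ℂ)),
      0 < ε ∧ 0 < η ∧ IsOpen U ∧ (0 : Fin (genusFF ℂ F) → ℂ) ∈ U ∧
      (∀ s : Fin (genusFF ℂ F) → ℂ, (∀ i, ‖s i‖ < η) → s ∈ U) ∧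
      (∀ s ∈ U, ∀ i, ‖s i‖ < r i) ∧ (∀ s ∈ U, ∀ i, ‖s i‖ < δ) ∧
      (∀ s ∈ U, ∑ i, J i (s i) ∈ ball (0 : Fin (genusFF ℂ F) → ℂ) ε) ∧
      (∀ v ∈ ball (0 : Fin (genusFF ℂ F) → ℂ) ε, ψ v ∈ U) ∧
      (∀ s ∈ U, ψ (∑ i, J i (s i)) = s) ∧
      (∀ v ∈ ball (0 : Fin (genusFF ℂ F) → ℂ) ε, ∑ i, J i (ψ v i) = v) ∧
      ψ 0 = 0 ∧ ContinuousOn ψ (ball 0 ε) ∧
      (∀ v ∈ ball (0 : Fin (genusFF ℂ F) → ℂ) ε, AnalyticAt ℂ ψ v) := by
  classical
  obtain ⟨r₀, hr₀, hr₀δ, hr₀r⟩ := exists_pos_le_of_fintype r (fun i => (hJ i).chart.pos) hδ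
  -- the scalar integrands and their holomorphy on the common disc
  set f : Fin (genusFF ℂ F) → Fin (genusFF ℂ F) → ℂ → ℂ :=
    fun i j z => chartCoef e (u i) (Q i) z j with hf_def
  set c : Fin (genusFF ℂ F) → ℂ := fun _ => 0 with hc_def
  have hsub : ∀ i, ball (0 : ℂ) r₀ ⊆ ball (0 : ℂ) (r i) := fun i => ball_subset_ball (hr₀r i)
  have hf : ∀ i j, DifferentiableOn ℂ (f i j) (ball (c i) r₀) := fun i j =>
    (differentiableOn_chartCoef_apply (hJ i) j).mono (hsub i)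
  -- the abelian sum is the abstract local Abel–Jacobi map on the polydisc of radius `r₀`
  have hΦ : ∀ s : Fin (genusFF ℂ F) → ℂ, (∀ i, s i ∈ ball (c i) r₀) →
      ∑ i, J i (s i) = aj f c r₀ s := by
    intro s hs
    funext j
    rw [Finset.sum_apply, aj_apply]
    refine Finset.sum_congr rfl fun i _ => ?_
    have := eq_prim_add (hf i j) (G := fun z => J i z j)
      (fun z hz => hasDerivAt_intChart_apply (hJ i) (hsub i hz) j) (hs i)
    simpa [hc_def, (hJ i).zero] using this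
  -- invertibility of the matrix at the centre
  have hdet : (Matrix.of fun i j => f i j (c i)).det ≠ 0 := by
    have hrow : LinearIndependent ℂ (Matrix.of fun i j => f i j (c i)).row := by
      have h1 : LinearIndependent ℂ (fun i => e (pp (Q i 0) (u i)⁻¹)) :=
        hli.map' e.toLinearMap (LinearEquiv.ker e)
      convert h1 using 1
      funext i
      funext j
      simp [Matrix.row, hf_def, hc_def, chartCoef_zero]
    have hunit := Matrix.linearIndependent_rows_iff_isUnit.1 hrow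
    exact ((Matrix.isUnit_iff_isUnit_det _).1 hunit).ne_zero
  obtain ⟨ε, U, ψ, hε, hUo, hcU, hUr, hUδ, -, hmaps, hψU, hleft, hright, hψ0, hψan, -, hψc, -⟩ :=
    exists_local_inverse_aj hf hr₀ hdet hr₀
  have hU0 : (0 : Fin (genusFF ℂ F) → ℂ) ∈ U := hcU
  have hnorm : ∀ s ∈ U, ∀ i, ‖s i‖ < r₀ := fun s hs i => by
    have := hUr s hs i
    simpa [hc_def] using this
  obtain ⟨η, hη, hηU⟩ := Metric.isOpen_iff.1 hUo 0 hU0
  refine ⟨ε, η, U, ψ, hε, hη, hUo, hU0, ?_, fun s hs i => lt_of_lt_of_le (hnorm s hs i) (hr₀r i),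
    fun s hs i => lt_of_lt_of_le (hnorm s hs i) hr₀δ, ?_, hψU, ?_, ?_, hψ0, hψc, hψan⟩
  · intro s hs
    refine hηU ?_
    rw [mem_ball_zero_iff, pi_norm_lt_iff hη]
    exact hs
  · intro s hs
    rw [hΦ s (hUr s hs)]
    exact hmaps hs
  · intro s hs
    rw [hΦ s (hUr s hs)]
    exact hleft s hs
  · intro v hv
    rw [hΦ (ψ v) (hUr _ (hψU hv))]
    exact hright v hv

/-- The abelian sum of a tuple of integral charts with linearly independent principal parts at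
the centres is injective on a small polydisc. -/
theorem exists_abelSum_injective
    (e : H1 (0 : Divisor ℂ F) ≃ₗ[ℂ] (Fin (genusFF ℂ F) → ℂ))
    (u : Fin (genusFF ℂ F) → F) (Q : Fin (genusFF ℂ F) → ℂ → Place ℂ F)
    (r : Fin (genusFF ℂ F) → ℝ) (J : Fin (genusFF ℂ F) → ℂ → Fin (genusFF ℂ F) → ℂ)
    (hJ : ∀ i, IsIntChart e (u i) (Q i) (r i) (J i))
    (hli : LinearIndependent ℂ (fun i => pp (Q i 0) (u i)⁻¹)) :
    ∃ η : ℝ, 0 < η ∧ (∀ i, η ≤ r i) ∧ ∀ s s' : Fin (genusFF ℂ F) → ℂ,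
      (∀ i, ‖s i‖ < η) → (∀ i, ‖s' i‖ < η) → ∑ i, J i (s i) = ∑ i, J i (s' i) → s = s' := by
  obtain ⟨ε, η, U, ψ, -, hη, -, -, hηU, -, -, -, -, hleft, -, -, -, -⟩ :=
    exists_local_inverse_abelSum e u Q r J hJ hli one_pos
  obtain ⟨η', hη', hη'η, hη'r⟩ := exists_pos_le_of_fintype r (fun i => (hJ i).chart.pos) hη
  refine ⟨η', hη', hη'r, fun s s' hs hs' h => ?_⟩
  have hsU : s ∈ U := hηU s fun i => lt_of_lt_of_le (hs i) hη'η
  have hs'U : s' ∈ U := hηU s' fun i => lt_of_lt_of_le (hs' i) hη'η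
  rw [← hleft s hsU, ← hleft s' hs'U, h]

end ChartAJ

section Nonspecial

open IntermediateField

variable {F : Type} [Field F] [Algebra ℂ F]

/-- Linear independence of the principal parts at the centres of a tuple of charts with
nonspecial reduced base, from `Stmt_NonspecialBasis`. -/
theorem linearIndependent_pp_of_nonspecial (hNB : Stmt_NonspecialBasis.{0, 0})
    (x : F) (hx : Transcendental ℂ x) [FiniteDimensional ℂ⟮x⟯ F]
    (u : Fin (genusFF ℂ F) → F) (Q : Fin (genusFF ℂ F) → ℂ → Place ℂ F)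
    (r : Fin (genusFF ℂ F) → ℝ) (hQ : ∀ i, IsChart (u i) (Q i) (r i))
    (hinj : Function.Injective fun i => Q i 0) (hns : IsNonspecial (sumDiv fun i => Q i 0)) :
    LinearIndependent ℂ (fun i => pp (Q i 0) (u i)⁻¹) := by
  refine hNB ℂ F x hx (fun i => Q i 0) u hinj (fun i => ?_) hns
  have := (hQ i).unif 0 (mem_ball_self (hQ i).pos)
  simpa using this

/-- `exists_local_inverse_abelSum` with the hypothesis in the form delivered by the Spec:
a nonspecial reduced base (`Stmt_NonspecialBasis`). -/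
theorem exists_local_inverse_abelSum_of_nonspecial (hNB : Stmt_NonspecialBasis.{0, 0})
    (x : F) (hx : Transcendental ℂ x) [FiniteDimensional ℂ⟮x⟯ F]
    (e : H1 (0 : Divisor ℂ F) ≃ₗ[ℂ] (Fin (genusFF ℂ F) → ℂ))
    (u : Fin (genusFF ℂ F) → F) (Q : Fin (genusFF ℂ F) → ℂ → Place ℂ F)
    (r : Fin (genusFF ℂ F) → ℝ) (J : Fin (genusFF ℂ F) → ℂ → Fin (genusFF ℂ F) → ℂ)
    (hJ : ∀ i, IsIntChart e (u i) (Q i) (r i) (J i))
    (hinj : Function.Injective fun i => Q i 0) (hns : IsNonspecial (sumDiv fun i => Q i 0))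
    {δ : ℝ} (hδ : 0 < δ) :
    ∃ (ε η : ℝ) (U : Set (Fin (genusFF ℂ F) → ℂ))
      (ψ : (Fin (genusFF ℂ F) → ℂ) → (Fin (genusFF ℂ F) → ℂ)),
      0 < ε ∧ 0 < η ∧ IsOpen U ∧ (0 : Fin (genusFF ℂ F) → ℂ) ∈ U ∧
      (∀ s : Fin (genusFF ℂ F) → ℂ, (∀ i, ‖s i‖ < η) → s ∈ U) ∧
      (∀ s ∈ U, ∀ i, ‖s i‖ < r i) ∧ (∀ s ∈ U, ∀ i, ‖s i‖ < δ) ∧
      (∀ s ∈ U, ∑ i, J i (s i) ∈ ball (0 : Fin (genusFF ℂ F) → ℂ) ε) ∧
      (∀ v ∈ ball (0 : Fin (genusFF ℂ F) → ℂ) ε, ψ v ∈ U) ∧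
      (∀ s ∈ U, ψ (∑ i, J i (s i)) = s) ∧
      (∀ v ∈ ball (0 : Fin (genusFF ℂ F) → ℂ) ε, ∑ i, J i (ψ v i) = v) ∧
      ψ 0 = 0 ∧ ContinuousOn ψ (ball 0 ε) ∧
      (∀ v ∈ ball (0 : Fin (genusFF ℂ F) → ℂ) ε, AnalyticAt ℂ ψ v) :=
  exists_local_inverse_abelSum e u Q r J hJ
    (linearIndependent_pp_of_nonspecial hNB x hx u Q r (fun i => (hJ i).chart) hinj hns) hδ

/-- Injectivity of the abelian sum near `0` for a nonspecial reduced base. -/
theorem exists_abelSum_injective_of_nonspecial (hNB : Stmt_NonspecialBasis.{0, 0})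
    (x : F) (hx : Transcendental ℂ x) [FiniteDimensional ℂ⟮x⟯ F]
    (e : H1 (0 : Divisor ℂ F) ≃ₗ[ℂ] (Fin (genusFF ℂ F) → ℂ))
    (u : Fin (genusFF ℂ F) → F) (Q : Fin (genusFF ℂ F) → ℂ → Place ℂ F)
    (r : Fin (genusFF ℂ F) → ℝ) (J : Fin (genusFF ℂ F) → ℂ → Fin (genusFF ℂ F) → ℂ)
    (hJ : ∀ i, IsIntChart e (u i) (Q i) (r i) (J i))
    (hinj : Function.Injective fun i => Q i 0) (hns : IsNonspecial (sumDiv fun i => Q i 0)) :
    ∃ η : ℝ, 0 < η ∧ (∀ i, η ≤ r i) ∧ ∀ s s' : Fin (genusFF ℂ F) → ℂ,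
      (∀ i, ‖s i‖ < η) → (∀ i, ‖s' i‖ < η) → ∑ i, J i (s i) = ∑ i, J i (s' i) → s = s' :=
  exists_abelSum_injective e u Q r J hJ
    (linearIndependent_pp_of_nonspecial hNB x hx u Q r (fun i => (hJ i).chart) hinj hns)

end Nonspecial

end

end Fermat.Agent.S27.helper6433
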