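import Fermat.Agent.S27.helper6247_Spec
import Fermat.Agent.S27.helper5831_ChartKit
import Fermat.Agent.S27.helper6433_ChartAJ
import Fermat.Agent.S27.helper9506_Lattice
import Fermat.Agent.S27.helper4604_Complex

/-!
# S27, node M6b: `Stmt_Key` directly from `Stmt_LocalAbel` (helper504)

`key_of_localAbel : Stmt_LocalAbel → Stmt_Riemann → Stmt_Ev → Stmt_NonspecialBasis →
  Stmt_GoodTuple → Stmt_ChartExists → Stmt_IntChartExists → Stmt_Key`.

Design.  Fix ONE nonspecial reduced base `B⁰ = (Q' k 0)` with integral charts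
(`Stmt_GoodTuple`, `Stmt_ChartExists`, `Stmt_IntChartExists`); `ψ` is the local inverse of the
abelian sum `σ ↦ ∑ k, J' k (σ k)` (`helper6433.exists_local_inverse_abelSum_of_nonspecial`) and
`eB v := cls (B(ψ v) - B⁰)`.

* `transfer` (CT): for ANY family `A` of `m` integral charts with pairwise distinct centres,
  `cls (A(a) - A⁰) = eB (∑ i, J i (a i))` for all small `a`.  (Two applications of
  `Stmt_LocalAbel`, to `A` and to `B`, both against a third nonspecial base `B₂` disjoint from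
  the centres of `A` and `B`; the compensating moves on `B₂` coincide by local injectivity of
  the abelian sum of `B₂`.)
* local additivity of `eB`: (CT) for the family `B` re-centred at `ψ w`;
  then `helper9506.addOn_of_local` and `helper9506.extHom` give `E`.
* chart property: (CT) with `m = 1` for a re-centred chart shows that
  `s ↦ cls (pt (Q s) - pt (Q 0)) - E (J s)` is locally constant on the chart disc.
* discrete kernel: `eB v = 0` gives `B(ψ v) - B⁰ = div f` with `f ∈ L(B⁰) = ℂ`, so `ψ v = 0`.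
-/

set_option autoImplicit false

open AlgebraicCurve IntermediateField Metric
open scoped Topology

namespace Fermat.Agent.S27.helper504

open Fermat.Agent.S27.helper6247 Fermat.Agent.S27.helper5831

noncomputable section

/-! ## Generic lemmas -/

section Generic

variable {K : Type*} {F : Type*} [Field K] [Field F] [Algebra K F]

open Classical in
theorem sumDiv_apply {ι : Type*} [Fintype ι] (P : ι → Place K F) (v : Place K F) :
    sumDiv P v = ∑ i, (if P i = v then (1 : ℤ) else 0) := by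
  simp only [sumDiv, pt, Finsupp.coe_finsetSum, Finset.sum_apply, Finsupp.single_apply]

theorem sumDiv_apply_of_ne {ι : Type*} [Fintype ι] {P : ι → Place K F} {v : Place K F}
    (hv : ∀ i, P i ≠ v) : sumDiv P v = 0 := by
  rw [sumDiv_apply]
  exact Finset.sum_eq_zero fun i _ => if_neg (hv i)

theorem sumDiv_nonneg {ι : Type*} [Fintype ι] (P : ι → Place K F) (v : Place K F) :
    0 ≤ sumDiv P v := by
  rw [sumDiv_apply]
  exact Finset.sum_nonneg fun i _ => by split_ifs <;> norm_num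

theorem one_le_sumDiv_apply {ι : Type*} [Fintype ι] (P : ι → Place K F) (i : ι) :
    1 ≤ sumDiv P (P i) := by
  classical
  rw [sumDiv_apply]
  calc (1 : ℤ) = if P i = P i then (1 : ℤ) else 0 := by simp
    _ ≤ ∑ j, (if P j = P i then (1 : ℤ) else 0) :=
      Finset.single_le_sum (f := fun j => if P j = P i then (1 : ℤ) else 0)
        (fun j _ => by split_ifs <;> norm_num) (Finset.mem_univ i)

theorem sumDiv_sub_mem_degZero (hdeg : ∀ v : Place K F, v.deg = 1) {ι : Type*} [Fintype ι]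
    (P P' : ι → Place K F) : sumDiv P - sumDiv P' ∈ Divisor.degZero (K := K) (F := F) := by
  rw [Divisor.mem_degZero, map_sub, helper4604.degree_sumDiv hdeg, helper4604.degree_sumDiv hdeg,
    sub_self]

theorem mem_principal_of_cls_eq_zero {D : Divisor K F}
    (h : D ∈ Divisor.degZero (K := K) (F := F)) (h0 : cls D = 0) :
    D ∈ Divisor.principal (K := K) (F := F) := by
  rw [helper4604.cls_of_mem h] at h0
  unfold Pic0.mk at h0
  rw [QuotientAddGroup.eq_zero_iff, AddSubgroup.mem_addSubgroupOf] at h0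
  exact h0

theorem finrank_H1_of_isNonspecial {D : Divisor K F} (hD : IsNonspecial D) :
    Module.finrank K (H1 D) = 0 := by
  have : Subsingleton (H1 D) := by
    unfold IsNonspecial at hD
    exact Submodule.Quotient.subsingleton_iff.mpr hD
  exact Module.finrank_zero_of_subsingleton

/-- For a nonspecial effective `B` of degree `g`, `L(B)` consists of constants. -/
theorem const_of_mem_L
    (hrr : ∀ D : Divisor K F,
      (Module.finrank K (riemannRochSpace D) : ℤ) - (Module.finrank K (H1 D) : ℤ)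
        = Divisor.degree D + 1 - (genusFF K F : ℤ))
    {B : Divisor K F} (hB : IsNonspecial B) (hB0 : ∀ v, 0 ≤ B v)
    (hdeg : Divisor.degree B = genusFF K F) {f : F} (hf : f ∈ riemannRochSpace B) :
    ∃ c : K, f = algebraMap K F c := by
  have h1 : Module.finrank K (riemannRochSpace B) = 1 := by
    have := hrr B
    rw [finrank_H1_of_isNonspecial hB, hdeg] at this
    have h2 : (Module.finrank K (riemannRochSpace B) : ℤ) = 1 := by
      simpa using this
    exact_mod_cast h2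
  have hone : (1 : F) ∈ riemannRochSpace B := by
    intro v
    rw [map_one, ← WithZero.exp_zero, WithZero.exp_le_exp]
    exact hB0 v
  have hne : (⟨1, hone⟩ : riemannRochSpace B) ≠ 0 := by
    intro h
    have := congrArg Subtype.val h
    simp at this
  obtain ⟨c, hc⟩ := (finrank_eq_one_iff_of_nonzero' _ hne).mp h1 ⟨f, hf⟩
  refine ⟨c, ?_⟩
  have := congrArg Subtype.val hc
  simp only [Submodule.coe_smul] at this
  rw [← this, Algebra.smul_def, mul_one]

/-- A function that is locally constant at every point of a preconnected set is constant on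
it. -/
theorem eq_of_locally_const {α : Type*} [TopologicalSpace α] {β : Type*} {S : Set α}
    (hS : IsPreconnected S) (f : α → β) (h : ∀ x ∈ S, ∀ᶠ y in 𝓝 x, f y = f x) {a b : α}
    (ha : a ∈ S) (hb : b ∈ S) : f a = f b := by
  let _ : TopologicalSpace β := ⊥
  have : DiscreteTopology β := ⟨rfl⟩
  have hf : ContinuousOn f S := fun x hx =>
    (continuousWithinAt_const (b := f x)).congr_of_eventuallyEq (nhdsWithin_le_nhds (h x hx)) rfl
  exact hS.constant hf ha hb

end Generic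

/-! ## Bases with integral charts -/

section Base

variable {F : Type} [Field F] [Algebra ℂ F]

/-- A nonspecial reduced base with integral charts, avoiding a given finite set of places. -/
theorem exists_base (hGT : Stmt_GoodTuple.{0, 0}) (hCE : Stmt_ChartExists)
    (hIC : Stmt_IntChartExists) (hE : EvOK ℂ F) (x : F) (hx : Transcendental ℂ x)
    [FiniteDimensional ℂ⟮x⟯ F] (e : H1 (0 : Divisor ℂ F) ≃ₗ[ℂ] (Fin (genusFF ℂ F) → ℂ))
    (S : Set (Place ℂ F)) (hS : S.Finite) :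
    ∃ (u' : Fin (genusFF ℂ F) → F) (Q' : Fin (genusFF ℂ F) → ℂ → Place ℂ F)
      (r' : Fin (genusFF ℂ F) → ℝ) (J' : Fin (genusFF ℂ F) → ℂ → Fin (genusFF ℂ F) → ℂ),
      (∀ k, IsIntChart e (u' k) (Q' k) (r' k) (J' k)) ∧ Function.Injective (fun k => Q' k 0) ∧
      (∀ k, Q' k 0 ∉ S) ∧ IsNonspecial (sumDiv fun k => Q' k 0) := by
  obtain ⟨A, c, hc, hAS, hns, hord, -⟩ := hGT ℂ F x hx S hS
  choose Q' r' hch hQ0 using fun k => hCE F x hx (A k) (x - algebraMap ℂ F (c k)) (hord k)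
  choose J' hJ' using fun k => hIC F x hx e (x - algebraMap ℂ F (c k)) (Q' k) (r' k) (hch k)
  have hA : (fun k => Q' k 0) = A := funext hQ0
  refine ⟨fun k => x - algebraMap ℂ F (c k), Q', r', J', hJ', ?_, ?_, ?_⟩
  · rw [hA]
    intro i j hij
    apply hc
    have h1 : ev (A i) x = c i := hE.ev_eq_of_ord_pos (A i) (by rw [hord i]; norm_num)
    have h2 : ev (A j) x = c j := hE.ev_eq_of_ord_pos (A j) (by rw [hord j]; norm_num)
    rw [← h1, ← h2, hij]
  · intro k
    rw [hQ0 k]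
    exact hAS k
  · rw [hA]
    exact hns

/-- The charts of a tuple with pairwise distinct centres are pairwise disjoint near the
centres. -/
theorem exists_sep (hE : EvOK ℂ F) {ι : Type*} [Fintype ι] (u : ι → F) (Q : ι → ℂ → Place ℂ F)
    (r : ι → ℝ) (hc : ∀ k, IsChart (u k) (Q k) (r k)) (hinj : Function.Injective fun k => Q k 0) :
    ∃ δ > 0, ∀ k k' : ι, k ≠ k' → ∀ s s' : ℂ, ‖s‖ < δ → ‖s'‖ < δ → Q k s ≠ Q k' s' := by
  classical
  have h : ∀ p : ι × ι, ∃ δ > 0, p.1 ≠ p.2 → ∀ s s' : ℂ, ‖s‖ < δ → ‖s'‖ < δ →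
      Q p.1 s ≠ Q p.2 s' := by
    intro p
    by_cases hp : p.1 = p.2
    · exact ⟨1, one_pos, fun h => absurd hp h⟩
    · obtain ⟨δ, hδ, hsep⟩ := chart_separation hE (hc p.1) (hc p.2)
        (mem_ball_self (hc p.1).pos) (mem_ball_self (hc p.2).pos) (fun h => hp (hinj h))
      exact ⟨δ, hδ, fun _ s s' hs hs' => hsep s s' (by simpa using hs) (by simpa using hs')⟩
  choose δ hδ hsep using h
  obtain ⟨δ₀, hδ₀, -, hle⟩ := helper6433.exists_pos_le_of_fintype δ hδ one_pos
  exact ⟨δ₀, hδ₀, fun k k' hkk' s s' hs hs' =>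
    hsep (k, k') hkk' s s' (lt_of_lt_of_le hs (hle _)) (lt_of_lt_of_le hs' (hle _))⟩

/-- **(CT)** Transfer to a fixed base.  `B⁰ = (Q' k 0)` is a nonspecial reduced base with
integral charts and `ψ` a continuous local right inverse of its abelian sum.  For ANY family of
`m` integral charts with pairwise distinct centres `A⁰ = (Q i 0)`, the class of `A(a) - A⁰`
is the class of `B(ψ v) - B⁰`, `v = ∑ i, J i (a i)`, for all small `a`. -/
theorem transfer (hLA : Stmt_LocalAbel) (hNB : Stmt_NonspecialBasis.{0, 0})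
    (hGT : Stmt_GoodTuple.{0, 0}) (hCE : Stmt_ChartExists) (hIC : Stmt_IntChartExists)
    (hE : EvOK ℂ F) (hdeg : ∀ v : Place ℂ F, v.deg = 1)
    (x : F) (hx : Transcendental ℂ x) [FiniteDimensional ℂ⟮x⟯ F]
    (e : H1 (0 : Divisor ℂ F) ≃ₗ[ℂ] (Fin (genusFF ℂ F) → ℂ))
    (m : ℕ) (u : Fin m → F) (Q : Fin m → ℂ → Place ℂ F) (r : Fin m → ℝ)
    (J : Fin m → ℂ → Fin (genusFF ℂ F) → ℂ)
    (hJ : ∀ i, IsIntChart e (u i) (Q i) (r i) (J i)) (hinj : Function.Injective fun i => Q i 0)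
    (u' : Fin (genusFF ℂ F) → F) (Q' : Fin (genusFF ℂ F) → ℂ → Place ℂ F)
    (r' : Fin (genusFF ℂ F) → ℝ) (J' : Fin (genusFF ℂ F) → ℂ → Fin (genusFF ℂ F) → ℂ)
    (hJ' : ∀ k, IsIntChart e (u' k) (Q' k) (r' k) (J' k))
    (hinj' : Function.Injective fun k => Q' k 0)
    (ε : ℝ) (hε : 0 < ε) (ψ : (Fin (genusFF ℂ F) → ℂ) → (Fin (genusFF ℂ F) → ℂ))
    (hψ0 : ψ 0 = 0) (hψc : ContinuousOn ψ (ball 0 ε))
    (hψJ : ∀ v ∈ ball (0 : Fin (genusFF ℂ F) → ℂ) ε, ∑ k, J' k (ψ v k) = v) :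
    ∃ δ > 0, ∀ a : Fin m → ℂ, (∀ i, ‖a i‖ < δ) →
      ∑ i, J i (a i) ∈ ball (0 : Fin (genusFF ℂ F) → ℂ) ε ∧
      cls (sumDiv (fun i => Q i (a i)) - sumDiv (fun i => Q i 0)) =
        cls (sumDiv (fun k => Q' k (ψ (∑ i, J i (a i)) k)) - sumDiv (fun k => Q' k 0)) := by
  classical
  -- a third base off the centres of `A` and `B`
  obtain ⟨u₂, Q₂, r₂, J₂, hJ₂, hinj₂, hoff, hns₂⟩ := exists_base hGT hCE hIC hE x hx e
    (Set.range (fun i => Q i 0) ∪ Set.range (fun k => Q' k 0))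
    ((Set.finite_range _).union (Set.finite_range _))
  have hdisj : ∀ i k, Q i 0 ≠ Q₂ k 0 := fun i k h => hoff k (Or.inl ⟨i, h⟩)
  have hdisj' : ∀ j k, Q' j 0 ≠ Q₂ k 0 := fun j k h => hoff k (Or.inr ⟨j, h⟩)
  obtain ⟨η₂, hη₂, -, hinjΦ⟩ := helper6433.exists_abelSum_injective_of_nonspecial hNB x hx e
    u₂ Q₂ r₂ J₂ hJ₂ hinj₂ hns₂
  obtain ⟨δ₁, hδ₁, hA⟩ := hLA F x hx e m u Q r J u₂ Q₂ r₂ J₂ hJ hJ₂ hinj hinj₂ hdisj hns₂ η₂ hη₂
  obtain ⟨δ₂, hδ₂, hB⟩ := hLA F x hx e (genusFF ℂ F) u' Q' r' J' u₂ Q₂ r₂ J₂ hJ' hJ₂ hinj' hinj₂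
    hdisj' hns₂ η₂ hη₂
  -- continuity of the abelian sum of `A` at `0`
  have hΦ0 : (∑ i, J i ((0 : Fin m → ℂ) i)) = 0 := by
    simp [(hJ _).zero]
  have hΦc : ContinuousAt (fun a : Fin m → ℂ => ∑ i, J i (a i)) 0 := by
    refine tendsto_finsetSum _ fun i _ => ?_
    have h1 : ContinuousAt (J i) ((0 : Fin m → ℂ) i) :=
      ((hJ i).deriv 0 (mem_ball_self (hJ i).chart.pos)).continuousAt
    exact ContinuousAt.comp (g := J i) (f := fun a : Fin m → ℂ => a i) h1
      (continuous_apply i).continuousAt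
  have hψc0 : ContinuousAt ψ (∑ i, J i ((0 : Fin m → ℂ) i)) := by
    rw [hΦ0]
    exact hψc.continuousAt (ball_mem_nhds 0 hε)
  have hψΦc : ContinuousAt (fun a : Fin m → ℂ => ψ (∑ i, J i (a i))) 0 :=
    ContinuousAt.comp (g := ψ) (f := fun a : Fin m → ℂ => ∑ i, J i (a i)) hψc0 hΦc
  have h1 : (fun a : Fin m → ℂ => ∑ i, J i (a i)) ⁻¹' ball (0 : Fin (genusFF ℂ F) → ℂ) ε
      ∈ 𝓝 (0 : Fin m → ℂ) :=
    hΦc.preimage_mem_nhds (by rw [hΦ0]; exact ball_mem_nhds 0 hε)
  have h2 : (fun a : Fin m → ℂ => ψ (∑ i, J i (a i))) ⁻¹' ball (0 : Fin (genusFF ℂ F) → ℂ) δ₂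
      ∈ 𝓝 (0 : Fin m → ℂ) :=
    hψΦc.preimage_mem_nhds (by rw [hΦ0, hψ0]; exact ball_mem_nhds 0 hδ₂)
  obtain ⟨δ₃, hδ₃, hsub⟩ := Metric.mem_nhds_iff.mp (Filter.inter_mem h1 h2)
  refine ⟨min δ₁ δ₃, lt_min hδ₁ hδ₃, fun a ha => ?_⟩
  have ha3 : a ∈ ball (0 : Fin m → ℂ) δ₃ := by
    rw [mem_ball_zero_iff, pi_norm_lt_iff hδ₃]
    exact fun i => lt_of_lt_of_le (ha i) (min_le_right _ _)
  obtain ⟨hv, hb⟩ := hsub ha3
  simp only [Set.mem_preimage] at hv hb
  obtain ⟨c, hc, hprin, hsum⟩ := hA a (fun i => lt_of_lt_of_le (ha i) (min_le_left _ _))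
  obtain ⟨c', hc', hprin', hsum'⟩ := hB (ψ (∑ i, J i (a i))) (fun k => by
    have := hb
    rw [mem_ball_zero_iff, pi_norm_lt_iff hδ₂] at this
    exact this k)
  have hcc : c = c' := hinjΦ c c' hc hc' (by
    have e1 : ∑ k, J₂ k (c k) = -∑ i, J i (a i) := eq_neg_of_add_eq_zero_right hsum
    have e2 : ∑ k, J₂ k (c' k) = -∑ i, J i (a i) := by
      rw [hψJ _ hv] at hsum'
      exact eq_neg_of_add_eq_zero_right hsum'
    rw [e1, e2])
  subst hcc
  refine ⟨hv, ?_⟩
  refine helper4604.cls_eq_of_sub_mem_principal (sumDiv_sub_mem_degZero hdeg _ _)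
    (sumDiv_sub_mem_degZero hdeg _ _) ?_
  have := sub_mem hprin hprin'
  convert this using 1
  abel

end Base

/-! ## The Abel–Jacobi homomorphism -/

/-- **M6b from M6a'.** `Stmt_Key` directly from the fixed-base local Abel theorem
`Stmt_LocalAbel` (and the closed nodes Riemann, Ev, NonspecialBasis, GoodTuple, ChartExists,
IntChartExists). -/
theorem key_of_localAbel (hLA : Stmt_LocalAbel) (hR : Stmt_Riemann.{0, 0}) (hEv : Stmt_Ev.{0, 0})
    (hNB : Stmt_NonspecialBasis.{0, 0}) (hGT : Stmt_GoodTuple.{0, 0}) (hCE : Stmt_ChartExists)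
    (hIC : Stmt_IntChartExists) : Stmt_Key := by
  intro F _ _ x hx _ e
  classical
  have hE : EvOK ℂ F := evOK_of hEv x hx
  have hdeg : ∀ v : Place ℂ F, v.deg = 1 := Fermat.Agent.S24.helper483.place_deg_eq_one x hx
  obtain ⟨-, hrr, -⟩ := hR ℂ F x hx
  -- the base
  obtain ⟨u', Q', r', J', hJ', hinj', -, hns'⟩ :=
    exists_base hGT hCE hIC hE x hx e ∅ Set.finite_empty
  obtain ⟨δ₀, hδ₀, hsep⟩ := exists_sep hE u' Q' r' (fun k => (hJ' k).chart) hinj'
  obtain ⟨ε, η, U, ψ, hε, hη, hUo, hU0, hηU, hUr, hUδ, hUball, hψU, hleft, hright, hψ0, hψc, -⟩ :=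
    helper6433.exists_local_inverse_abelSum_of_nonspecial hNB x hx e u' Q' r' J' hJ' hinj' hns'
      hδ₀
  -- (CT) for this base
  have CT := fun (m : ℕ) (u : Fin m → F) (Q : Fin m → ℂ → Place ℂ F) (r : Fin m → ℝ)
      (J : Fin m → ℂ → Fin (genusFF ℂ F) → ℂ) (hJ : ∀ i, IsIntChart e (u i) (Q i) (r i) (J i))
      (hinj : Function.Injective fun i => Q i 0) =>
    transfer hLA hNB hGT hCE hIC hE hdeg x hx e m u Q r J hJ hinj u' Q' r' J' hJ' hinj' ε hε ψ
      hψ0 hψc hright
  set eB : (Fin (genusFF ℂ F) → ℂ) → Pic0 ℂ F := fun v =>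
    cls (sumDiv (fun k => Q' k (ψ v k)) - sumDiv (fun k => Q' k 0)) with heB
  -- local additivity
  have hadd : helper9506.AddOn eB (ball (0 : Fin (genusFF ℂ F) → ℂ) ε) := by
    refine helper9506.addOn_of_local (convex_ball 0 ε) (mem_ball_self hε) fun w hw => ?_
    have hs'U : ψ w ∈ U := hψU w hw
    have hs'r : ∀ k, ψ w k ∈ ball (0 : ℂ) (r' k) := fun k =>
      mem_ball_zero_iff.mpr (hUr _ hs'U k)
    have hJrec := fun k => intChart_recenter (hJ' k) (hs'r k)
    have hinjrec : Function.Injective fun k => Q' k (ψ w k + 0) := by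
      intro k k' hkk'
      by_contra hne
      exact hsep k k' hne (ψ w k + 0) (ψ w k' + 0) (by simpa using hUδ _ hs'U k)
        (by simpa using hUδ _ hs'U k') hkk'
    obtain ⟨δ', hδ', hCT⟩ := CT (genusFF ℂ F) _ _ _ _ hJrec hinjrec
    have hwc : ContinuousAt ψ w := hψc.continuousAt (isOpen_ball.mem_nhds hw)
    have hadd_c : ContinuousAt (fun h : Fin (genusFF ℂ F) → ℂ => ψ (w + h)) 0 := by
      have h1 : ContinuousAt (fun h : Fin (genusFF ℂ F) → ℂ => w + h) 0 :=
        (continuous_const.add continuous_id).continuousAt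
      exact ContinuousAt.comp (g := ψ) (f := fun h => w + h) (by simpa using hwc) h1
    have hV : (fun h : Fin (genusFF ℂ F) → ℂ => ψ (w + h)) ⁻¹' ball (ψ w) δ'
        ∈ 𝓝 (0 : Fin (genusFF ℂ F) → ℂ) :=
      hadd_c.preimage_mem_nhds (by simpa using ball_mem_nhds (ψ w) hδ')
    refine ⟨_, hV, fun h hh hwh => ?_⟩
    simp only [Set.mem_preimage] at hh
    have ha : ∀ k, ‖(ψ (w + h) - ψ w) k‖ < δ' := by
      have h1 : ‖ψ (w + h) - ψ w‖ < δ' := by rwa [← dist_eq_norm]
      exact (pi_norm_lt_iff hδ').mp h1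
    obtain ⟨hball, hcls⟩ := hCT (ψ (w + h) - ψ w) ha
    have hsum : ∑ k, (J' k (ψ w k + (ψ (w + h) - ψ w) k) - J' k (ψ w k)) = h := by
      have e1 : ∀ k, ψ w k + (ψ (w + h) - ψ w) k = ψ (w + h) k := fun k => by simp
      simp only [e1]
      rw [Finset.sum_sub_distrib, hright _ hwh, hright _ hw]
      abel
    rw [hsum] at hball hcls
    have e2 : (fun k => Q' k (ψ w k + (ψ (w + h) - ψ w) k)) = fun k => Q' k (ψ (w + h) k) := by
      funext k
      congr 1
      simp
    have e3 : (fun k => Q' k (ψ w k + 0)) = fun k => Q' k (ψ w k) := by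
      funext k
      rw [add_zero]
    rw [e2, e3] at hcls
    show cls (sumDiv (fun k => Q' k (ψ (w + h) k)) - sumDiv (fun k => Q' k 0))
      = cls (sumDiv (fun k => Q' k (ψ w k)) - sumDiv (fun k => Q' k 0))
        + cls (sumDiv (fun k => Q' k (ψ h k)) - sumDiv (fun k => Q' k 0))
    rw [← hcls, ← helper4604.cls_add (sumDiv_sub_mem_degZero hdeg _ _)
      (sumDiv_sub_mem_degZero hdeg _ _)]
    congr 1
    abel
  have hBn : ball (0 : Fin (genusFF ℂ F) → ℂ) ε ∈ 𝓝 (0 : Fin (genusFF ℂ F) → ℂ) :=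
    ball_mem_nhds 0 hε
  set E := helper9506.extHom eB hadd (convex_ball 0 ε) hBn with hEdef
  have hEe : ∀ v ∈ ball (0 : Fin (genusFF ℂ F) → ℂ) ε, E v = eB v := fun v hv =>
    helper9506.extHom_apply_of_mem hadd (convex_ball 0 ε) hBn hv
  refine ⟨E, ?_, ?_⟩
  · -- chart property
    intro u Q r J hJ s hs
    set φ : ℂ → Pic0 ℂ F := fun s => cls (pt (Q s) - pt (Q 0)) - E (J s) with hφ
    have hloc : ∀ s₁ ∈ ball (0 : ℂ) r, ∀ᶠ s in 𝓝 s₁, φ s = φ s₁ := by
      intro s₁ hs₁
      have hrec := intChart_recenter hJ hs₁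
      obtain ⟨δ, hδ, hCT⟩ := CT 1 (fun _ => u - algebraMap ℂ F s₁) (fun _ s => Q (s₁ + s))
        (fun _ => r - ‖s₁‖) (fun _ s => J (s₁ + s) - J s₁) (fun _ => hrec)
        (Function.injective_of_subsingleton _)
      filter_upwards [ball_mem_nhds s₁ hδ] with s hs
      have hs' : ‖s - s₁‖ < δ := by rwa [mem_ball, dist_eq_norm] at hs
      obtain ⟨hball, hcls⟩ := hCT (fun _ => s - s₁) (fun _ => hs')
      simp only [Fin.sum_univ_one, add_sub_cancel, add_zero] at hball hcls
      have hpt : ∀ P : Place ℂ F, sumDiv (fun _ : Fin 1 => P) = pt P := fun P => by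
        simp [sumDiv]
      rw [hpt, hpt] at hcls
      have hEs : E (J s - J s₁) = cls (pt (Q s) - pt (Q s₁)) := by
        rw [hEe _ hball, hcls]
      show cls (pt (Q s) - pt (Q 0)) - E (J s) = cls (pt (Q s₁) - pt (Q 0)) - E (J s₁)
      have hsplit : cls (pt (Q s) - pt (Q 0))
          = cls (pt (Q s) - pt (Q s₁)) + cls (pt (Q s₁) - pt (Q 0)) := by
        rw [← helper4604.cls_add (helper4604.pt_sub_pt_mem_degZero (hdeg _) (hdeg _))
          (helper4604.pt_sub_pt_mem_degZero (hdeg _) (hdeg _))]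
        congr 1
        abel
      rw [hsplit, ← hEs, map_sub]
      abel
    have h0 : φ 0 = 0 := by
      show cls (pt (Q 0) - pt (Q 0)) - E (J 0) = 0
      rw [sub_self, helper4604.cls_zero, hJ.zero, map_zero, sub_zero]
    have hconst := eq_of_locally_const (convex_ball (0 : ℂ) r).isPreconnected φ hloc hs
      (mem_ball_self hJ.chart.pos)
    rw [h0] at hconst
    exact sub_eq_zero.mp hconst
  · -- discrete kernel
    refine ⟨ε, hε, fun w hEw hw => ?_⟩
    have hwb : w ∈ ball (0 : Fin (genusFF ℂ F) → ℂ) ε := mem_ball_zero_iff.mpr hw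
    rw [hEe w hwb] at hEw
    obtain ⟨f, hf0, hf⟩ := mem_principal_of_cls_eq_zero (sumDiv_sub_mem_degZero hdeg _ _) hEw
    have hsU := hψU w hwb
    have hfL : f ∈ riemannRochSpace (sumDiv fun k => Q' k 0) := by
      intro v
      rw [v.adicValuation_eq_exp_neg_ord hf0, WithZero.exp_le_exp, ← hf v, Finsupp.sub_apply]
      have := sumDiv_nonneg (fun k => Q' k (ψ w k)) v
      linarith
    obtain ⟨c, hc⟩ := const_of_mem_L hrr hns' (sumDiv_nonneg _)
      (by rw [helper4604.degree_sumDiv hdeg]; simp) hfL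
    have hdiv : ∀ v : Place ℂ F,
        sumDiv (fun k => Q' k (ψ w k)) v = sumDiv (fun k => Q' k 0) v := by
      intro v
      have := hf v
      rw [hc, ord_algebraMap, Finsupp.sub_apply] at this
      linarith
    have hs0 : ∀ k, ψ w k = 0 := by
      intro k
      by_contra hne
      have h1 := one_le_sumDiv_apply (fun k => Q' k (ψ w k)) k
      rw [hdiv] at h1
      have h2 : ∀ j, Q' j 0 ≠ Q' k (ψ w k) := by
        intro j hj
        by_cases hjk : j = k
        · subst hjk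
          exact hne (chart_injOn hE (hJ' j).chart (mem_ball_zero_iff.mpr (hUr _ hsU j))
            (mem_ball_self (hJ' j).chart.pos) hj.symm)
        · exact hsep j k hjk 0 (ψ w k) (by simpa using hδ₀) (hUδ _ hsU k) hj
      rw [sumDiv_apply_of_ne h2] at h1
      norm_num at h1
    have h3 := hright w hwb
    rw [← h3]
    simp [hs0, (hJ' _).zero]

end

end Fermat.Agent.S27.helper504
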