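import Fermat.Agent.S27.helper5967_SimplePoint
import Fermat.Agent.S27.helper6247_Spec
import Fermat.Agent.S27.helper4586_Ev

/-!
# S27 Spec leaf M1a: `Stmt_SimplePoint` (helper5967)

`theorem stmt_SimplePoint : helper6247.Stmt_SimplePoint` — unconditional, verbatim — from the
place of a simple point constructed in `helper5967_SimplePoint`.

Extra ingredient for the uniqueness clause (which is phrased through `ev`): every place of `F`
has residue field `K`, because `F = K(u, y)` is finite over `K(u)` (`finiteDimensional_of_plane`)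
and S24 `helper489` / `helper4586.hasValues_of_finite`.
-/

set_option autoImplicit false

open AlgebraicCurve IntermediateField Polynomial
open scoped Polynomial.Bivariate

namespace Fermat.Agent.S27.helper5967

variable {K : Type*} {F : Type*} [Field K] [Field F] [Algebra K F]

/-- Evaluation at `(u, y)` is `eval₂` along `aeval u`. -/
theorem aevalAeval_eq_eval₂' (u y : F) (P : K[X][Y]) :
    aevalAeval u y P = eval₂ ((aeval u : K[X] →ₐ[K] F) : K[X] →+* F) y P := by
  induction P using Polynomial.induction_on' with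
  | add p q hp hq => rw [map_add, hp, hq, eval₂_add]
  | monomial n a =>
    rw [← C_mul_X_pow_eq_monomial, map_mul, map_pow, aevalAeval_C, aevalAeval_Y, eval₂_mul,
      eval₂_C, eval₂_pow, eval₂_X]
    rfl

/-- A field generated by a transcendental `u` and an element `y` satisfying a nonzero
polynomial relation `χ(u, y) = 0` is finite over `K(u)`. -/
theorem finiteDimensional_of_plane (u y : F) (χ : K[X][Y]) (hu : Transcendental K u)
    (hgen : IntermediateField.adjoin K {u, y} = ⊤) (hχ : aevalAeval u y χ = 0) (hχ0 : χ ≠ 0) :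
    FiniteDimensional K⟮u⟯ F := by
  let ψ : K[X] →+* K⟮u⟯ := ((aeval (AdjoinSimple.gen K u) : K[X] →ₐ[K] K⟮u⟯) : K[X] →+* K⟮u⟯)
  have hψ : ∀ q : K[X], ((ψ q : K⟮u⟯) : F) = aeval u q := by
    intro q
    have := (aeval_algebraMap_apply F (AdjoinSimple.gen K u) q).symm
    rwa [AdjoinSimple.algebraMap_gen] at this
  have hne : χ.map ψ ≠ 0 := by
    intro h0
    apply hχ0
    ext1 i
    have h1 := congrArg (fun q => q.coeff i) h0
    simp only [coeff_map, coeff_zero] at h1
    have h2 : aeval u (χ.coeff i) = 0 := by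
      rw [← hψ, h1]; rfl
    rw [coeff_zero]
    exact transcendental_iff.mp hu _ h2
  have hcomp : (algebraMap K⟮u⟯ F).comp ψ = ((aeval u : K[X] →ₐ[K] F) : K[X] →+* F) := by
    apply RingHom.ext
    intro q
    exact hψ q
  have hroot : aeval y (χ.map ψ) = 0 := by
    rw [aeval_def, eval₂_map, hcomp, ← aevalAeval_eq_eval₂', hχ]
  have hint : IsIntegral K⟮u⟯ y := IsAlgebraic.isIntegral ⟨χ.map ψ, hne, hroot⟩
  have hfin : FiniteDimensional K⟮u⟯ (K⟮u⟯⟮y⟯) := IntermediateField.adjoin.finiteDimensional hint
  have htop : (K⟮u⟯⟮y⟯ : IntermediateField K⟮u⟯ F) = ⊤ := by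
    apply IntermediateField.restrictScalars_injective K
    rw [IntermediateField.adjoin_adjoin_left, IntermediateField.restrictScalars_top,
      Set.singleton_union, hgen]
  rw [htop] at hfin
  exact Module.Finite.equiv (IntermediateField.topEquiv (F := K⟮u⟯) (E := F)).toLinearEquiv

/-- **Spec leaf M1a `Stmt_SimplePoint`** (unconditional, verbatim). -/
theorem stmt_SimplePoint.{u, v} : helper6247.Stmt_SimplePoint.{u, v} := by
  intro K F _ _ _ _ _ u y χ τ β hu hgen hχ hker h0 hd
  have hM : IsPlaneModel u y χ := ⟨hgen, hker, hχ⟩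
  have hs : IsSimplePoint χ τ β := ⟨h0, hd⟩
  have hχ0 : χ ≠ 0 := by
    rintro rfl
    simp at hd
  have hfd : FiniteDimensional K⟮u⟯ F := finiteDimensional_of_plane u y χ hu hgen hχ hχ0
  refine ⟨pt hM hs, pt_ord_unif hM hs, ?_, ?_, ?_, ?_⟩
  · simpa using pt_ord_nonneg hM hs (Y : K[X][Y])
  · have h := pt_y hM hs
    rw [sub_eq_zero] at h
    exact ((helper4586.isVal_iff _ _ _).mpr h).ev_eq
  · intro P' h1 h2 h3
    apply pt_unique hM hs P' (Or.inr h1)
    have hP' := helper4586.hasValues_of_finite u P'
    have h4 := (helper4586.isVal_iff_ev_eq hP' h2).mpr h3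
    rw [helper4586.isVal_iff, ← sub_eq_zero] at h4
    exact h4
  · intro f hf
    exact (mem_pt hM hs).mp (Fermat.Agent.S24.helper384.mem_of_ord_nonneg _ hf)

end Fermat.Agent.S27.helper5967
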