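import Fermat.Agent.S27.helper6247_Spec
import Fermat.Agent.S24.helper204_Places
import Fermat.Agent.S24.helper1370_PlaceBasics

/-!
# S27, Spec leaf M5d (`Stmt_Connected`), seat helper6059 (backup implementation)

`connected_of : Stmt_Ev → Stmt_Riemann → Stmt_ChartExists → Stmt_LocalFibre → Stmt_Connected`.

Proof (fibre trick).  Let `S` be a nonempty chart-saturated set of places and `P₁ ∈ S`.
Riemann's theorem gives a non-constant `f` that is regular away from `P₁`.  Put
`T = {t : ℂ | f - t has a zero outside S}`.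

* `T` is open: at a zero `v₀ ∉ S` of `f - t₀` take a chart `Q` centred at `v₀`; the function
  `s ↦ (f - t₀)(Q s)` is analytic and not locally constant (`Q` is injective and `f - t₀` has
  finitely many zeros), so its image contains a disc around `0` (open mapping theorem); the
  places `Q s` are outside `S` by saturation.
* the complement of `T` is open: if all zeros of `f - t₀` are in `S`, `Stmt_LocalFibre` applied to
  charts centred at these zeros puts every zero of `f - t`, `t` near `t₀`, on one of the charts,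
  hence in `S`.
* `T ≠ univ`: `Stmt_LocalFibre` for `1/f` and a chart at `P₁` shows that `f - t` has all its zeros
  on this chart (so in `S`) for `|t|` large.

As `ℂ` is connected, `T = ∅`; every place `P ∉ S` would give `f(P) ∈ T`.
-/

set_option autoImplicit false

open AlgebraicCurve IntermediateField
open scoped Topology

namespace Fermat.Agent.S27.helper6059

open Fermat.Agent.S27.helper6247
open Fermat.Agent.S24

section Basic

variable {F : Type} [Field F] [Algebra ℂ F]

/-- A chart is injective on its disc. -/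
theorem chart_injOn {u : F} {Q : ℂ → Place ℂ F} {r : ℝ} (h : IsChart u Q r) :
    Set.InjOn Q (Metric.ball (0 : ℂ) r) := by
  intro s hs s' hs' hQ
  have h1 : 0 < (Q s).ord (u - algebraMap ℂ F s) := by
    rw [h.unif s hs]; exact one_pos
  have h2 : 0 < (Q s).ord (u - algebraMap ℂ F s') := by
    rw [hQ, h.unif s' hs']; exact one_pos
  exact helper1370.eq_of_ord_sub_algebraMap_pos (Q s) h1 h2

/-- A function regular at `P` takes its value `ev P f` there: `f - ev P f` vanishes at `P`. -/
theorem ev_sub_pos (hEv : Stmt_Ev.{0, 0}) (x : F) (hx : Transcendental ℂ x)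
    [FiniteDimensional ℂ⟮x⟯ F] (P : Place ℂ F) {f : F} (hf : 0 ≤ P.ord f)
    (hne : f - algebraMap ℂ F (ev P f) ≠ 0) :
    0 < P.ord (f - algebraMap ℂ F (ev P f)) := by
  obtain ⟨h1, h2, h3, -⟩ := hEv ℂ F x hx P
  have hneg : 0 ≤ P.ord (-(algebraMap ℂ F (ev P f))) := by
    rw [helper1370.ord_neg, helper1370.ord_algebraMap]
  have hev : ev P (f - algebraMap ℂ F (ev P f)) = 0 := by
    rw [sub_eq_add_neg, (h2 f _ hf hneg).1, ← map_neg, h1]
    ring
  have hreg' := helper1370.ord_sub_algebraMap_nonneg P hf (ev P f)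
  rcases (h3 _ hreg').mp hev with h | h
  · exact absurd h hne
  · exact h

/-- Riemann: a non-constant function regular away from a given place. -/
theorem exists_regular_away (hR : Stmt_Riemann.{0, 0}) (x : F) (hx : Transcendental ℂ x)
    [FiniteDimensional ℂ⟮x⟯ F] (P₁ : Place ℂ F) :
    ∃ f : F, Transcendental ℂ f ∧ ∀ v : Place ℂ F, v ≠ P₁ → 0 ≤ v.ord f := by
  classical
  obtain ⟨hfin, hrr, -⟩ := hR ℂ F x hx
  set D : Divisor ℂ F := Finsupp.single P₁ ((genusFF ℂ F : ℤ) + 1) with hD
  have hdeg : Divisor.degree D = (genusFF ℂ F : ℤ) + 1 := by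
    rw [hD, Divisor.degree_single, helper204.place_deg_eq_one x hx P₁]
    simp
  have := (hfin D).2
  have h2 : 2 ≤ Module.finrank ℂ (riemannRochSpace D) := by
    have h := hrr D
    rw [hdeg] at h
    have h0 : (0 : ℤ) ≤ (Module.finrank ℂ (H1 D) : ℤ) := Int.natCast_nonneg _
    omega
  have h1mem : (1 : F) ∈ riemannRochSpace D := by
    rw [mem_riemannRochSpace_iff]
    intro v
    right
    rw [Place.ord_one, hD, Finsupp.single_apply]
    split_ifs
    · have : (0 : ℤ) ≤ (genusFF ℂ F : ℤ) := Int.natCast_nonneg _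
      omega
    · simp
  by_contra hcon
  push Not at hcon
  have hconst : ∀ f ∈ riemannRochSpace D, f ∈ Set.range (algebraMap ℂ F) := by
    intro f hf
    by_contra hnot
    have htr := helper204.transcendental_of_not_mem_range hnot
    obtain ⟨v, hv, hneg⟩ := hcon f htr
    rcases (mem_riemannRochSpace_iff.mp hf) v with h0 | h0
    · rw [h0] at hneg
      simp at hneg
    · rw [hD, Finsupp.single_apply, if_neg (Ne.symm hv)] at h0
      simp at h0
      omega
  have hle : Module.finrank ℂ (riemannRochSpace D) ≤ 1 := by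
    apply finrank_le_one (⟨1, h1mem⟩ : riemannRochSpace D)
    rintro ⟨w, hw⟩
    obtain ⟨c, rfl⟩ := hconst w hw
    refine ⟨c, ?_⟩
    ext
    simp [Algebra.smul_def]
  omega

end Basic

/-- **Spec leaf M5d.** A nonempty set of places saturated under all charts is everything. -/
theorem connected_of (hEv : Stmt_Ev.{0, 0}) (hR : Stmt_Riemann.{0, 0}) (hCh : Stmt_ChartExists)
    (hLF : Stmt_LocalFibre) : Stmt_Connected := by
  intro F _ _ x hx _ S hSne hsat
  classical
  obtain ⟨P₁, hP₁⟩ := hSne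
  obtain ⟨f, hft, hfreg⟩ := exists_regular_away hR x hx P₁
  have : FiniteDimensional ℂ⟮f⟯ F :=
    helper204.finiteDimensional_adjoin_of_transcendental (x := x) hft
  have hfne : ∀ t : ℂ, f - algebraMap ℂ F t ≠ 0 := by
    intro t h
    apply hft
    rw [sub_eq_zero] at h
    rw [h]
    exact isAlgebraic_algebraMap t
  have hshift_tr : ∀ t : ℂ, Transcendental ℂ (f - algebraMap ℂ F t) := by
    intro t h
    apply hft
    have h' := h.add (isAlgebraic_algebraMap (R := ℂ) (A := F) t)
    simpa using h'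
  set T : Set ℂ := {t | ∃ v : Place ℂ F, v ∉ S ∧ 0 < v.ord (f - algebraMap ℂ F t)} with hT
  -- `T` is open
  have hTopen : IsOpen T := by
    rw [Metric.isOpen_iff]
    rintro t0 ⟨v0, hv0S, hv0⟩
    obtain ⟨u0, hu0⟩ := helper1370.exists_uniformizer v0
    obtain ⟨Q, r, hQ, hQ0⟩ := hCh F x hx v0 u0 hu0
    set g : F := f - algebraMap ℂ F t0 with hg
    have hgreg0 : 0 ≤ (Q 0).ord g := by
      rw [hQ0]; exact hv0.le
    obtain ⟨hev_reg, hana⟩ := hQ.analytic g 0 (Metric.mem_ball_self hQ.pos) hgreg0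
    have hφ0 : ev (Q 0) g = 0 := by
      obtain ⟨-, -, -, h4⟩ := hEv ℂ F x hx (Q 0)
      apply h4 g 0
      rw [map_zero, sub_zero, hQ0]
      exact hv0
    have hball : ∀ᶠ s in 𝓝 (0 : ℂ), s ∈ Metric.ball (0 : ℂ) r :=
      Metric.ball_mem_nhds 0 hQ.pos
    rcases hana.eventually_constant_or_nhds_le_map_nhds with hconst | hopen
    · exfalso
      obtain ⟨Z, hZ, -⟩ := helper204.exists_finset_zeros (x := f) hft t0
      have hU : {s : ℂ | s ∈ Metric.ball (0 : ℂ) r ∧ 0 ≤ (Q s).ord g ∧
          ev (Q s) g = ev (Q 0) g} ∈ 𝓝 (0 : ℂ) := by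
        filter_upwards [hball, hev_reg, hconst] with s h1 h2 h3 using ⟨h1, h2, h3⟩
      have hinf := infinite_of_mem_nhds (0 : ℂ) hU
      have himg := hinf.image (f := Q)
        (fun a ha b hb hab => chart_injOn hQ ha.1 hb.1 hab)
      apply himg
      apply (Z.finite_toSet).subset
      rintro _ ⟨s, ⟨-, hs2, hs3⟩, rfl⟩
      rw [Finset.mem_coe, hZ]
      obtain ⟨-, -, h3, -⟩ := hEv ℂ F x hx (Q s)
      rcases (h3 g hs2).mp (hs3.trans hφ0) with h | h
      · exact absurd h (hfne t0)
      · exact h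
    · rw [hφ0] at hopen
      have hU : {s : ℂ | s ∈ Metric.ball (0 : ℂ) r ∧ 0 ≤ (Q s).ord g} ∈ 𝓝 (0 : ℂ) := by
        filter_upwards [hball, hev_reg] with s h1 h2 using ⟨h1, h2⟩
      have himg : (fun s => ev (Q s) g) '' {s : ℂ | s ∈ Metric.ball (0 : ℂ) r ∧
          0 ≤ (Q s).ord g} ∈ 𝓝 (0 : ℂ) := hopen (Filter.image_mem_map hU)
      obtain ⟨ε, hε, hsub⟩ := Metric.mem_nhds_iff.mp himg
      refine ⟨ε, hε, ?_⟩
      intro t ht
      have ht' : t - t0 ∈ Metric.ball (0 : ℂ) ε := by
        rw [mem_ball_zero_iff]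
        rwa [Metric.mem_ball, dist_eq_norm] at ht
      obtain ⟨s, ⟨hs1, hs2⟩, hs3⟩ := hsub ht'
      have hs3' : ev (Q s) g = t - t0 := hs3
      have hgt : g - algebraMap ℂ F (ev (Q s) g) = f - algebraMap ℂ F t := by
        rw [hs3', hg, map_sub]
        ring
      refine ⟨Q s, ?_, ?_⟩
      · rw [← hsat u0 Q r hQ s hs1, hQ0]
        exact hv0S
      · have key := ev_sub_pos hEv x hx (Q s) hs2 (by rw [hgt]; exact hfne t)
        rwa [hgt] at key
  -- the complement of `T` is open
  have hTclosed : IsClosed T := by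
    rw [← isOpen_compl_iff, Metric.isOpen_iff]
    intro t0 ht0
    have hzS : ∀ v : Place ℂ F, 0 < v.ord (f - algebraMap ℂ F t0) → v ∈ S := by
      intro v hv
      by_contra hvS
      exact ht0 ⟨v, hvS, hv⟩
    set g : F := f - algebraMap ℂ F t0 with hg
    obtain ⟨Z, hZ, -⟩ := helper204.exists_finset_zeros (x := f) hft t0
    let e : Fin Z.card ≃ Z := Z.equivFin.symm
    have hunif : ∀ k : Fin Z.card, ∃ u : F, ((e k : Z) : Place ℂ F).ord u = 1 :=
      fun k => helper1370.exists_uniformizer _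
    choose u hu using hunif
    have hchart : ∀ k : Fin Z.card, ∃ (Q : ℂ → Place ℂ F) (r : ℝ),
        IsChart (u k) Q r ∧ Q 0 = ((e k : Z) : Place ℂ F) :=
      fun k => hCh F x hx _ (u k) (hu k)
    choose Q r hQ hQ0 using hchart
    obtain ⟨δ, hδ, hfib⟩ := hLF F x hx g (hshift_tr t0) Z.card u Q r r hQ
      (fun k => (hQ k).pos) (by
        intro v hv
        have hvZ : v ∈ Z := (hZ v).mpr hv
        refine ⟨e.symm ⟨v, hvZ⟩, ?_⟩
        rw [hQ0, Equiv.apply_symm_apply])
    refine ⟨δ, hδ, ?_⟩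
    rintro t ht ⟨v, hvS, hv⟩
    have ht' : ‖t - t0‖ < δ := by
      rwa [Metric.mem_ball, dist_eq_norm] at ht
    have hv' : 0 < v.ord (g - algebraMap ℂ F (t - t0)) := by
      have h : g - algebraMap ℂ F (t - t0) = f - algebraMap ℂ F t := by
        rw [hg, map_sub]
        ring
      rw [h]
      exact hv
    obtain ⟨k, s, -, hs, rfl⟩ := hfib (t - t0) ht' v hv'
    apply hvS
    rw [← hsat (u k) (Q k) (r k) (hQ k) s (mem_ball_zero_iff.mpr hs), hQ0]
    exact hzS _ ((hZ _).mp (e k).2)
  -- `T` is not everything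
  have hTne : T ≠ Set.univ := by
    obtain ⟨u1, hu1⟩ := helper1370.exists_uniformizer P₁
    obtain ⟨Q1, r1, hQ1, hQ10⟩ := hCh F x hx P₁ u1 hu1
    have hinvtr : Transcendental ℂ f⁻¹ := helper204.transcendental_inv hft
    obtain ⟨δ, hδ, hfib⟩ := hLF F x hx f⁻¹ hinvtr 1 (fun _ => u1) (fun _ => Q1)
      (fun _ => r1) (fun _ => r1) (fun _ => hQ1) (fun _ => hQ1.pos) (by
        intro v hv
        refine ⟨0, ?_⟩
        rw [hQ10]
        by_contra hne
        have h := hfreg v hne
        rw [Place.ord_inv] at hv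
        omega)
    intro hTuniv
    set t : ℂ := ((2 / δ : ℝ) : ℂ) with ht
    have hmem : t ∈ T := by
      rw [hTuniv]; trivial
    obtain ⟨v, hvS, hv⟩ := hmem
    have hpos : (0 : ℝ) < 2 / δ := by positivity
    have ht0 : t ≠ 0 := by
      rw [ht]
      exact_mod_cast hpos.ne'
    have htinv : ‖t⁻¹‖ < δ := by
      rw [norm_inv, ht, Complex.norm_real, Real.norm_of_nonneg hpos.le, inv_div]
      linarith
    have hordf : v.ord f = 0 := by
      have h := helper1370.ord_sub_algebraMap_eq_zero v hv (b := 0) ht0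
      simpa using h
    have hf0 : f ≠ 0 := by
      intro h
      apply hft
      rw [h]
      exact isAlgebraic_zero
    have hta : algebraMap ℂ F t ≠ 0 := (map_ne_zero _).mpr ht0
    have hkey : 0 < v.ord (f⁻¹ - algebraMap ℂ F t⁻¹) := by
      have h : f⁻¹ - algebraMap ℂ F t⁻¹
          = -(f - algebraMap ℂ F t) * (f⁻¹ * (algebraMap ℂ F t)⁻¹) := by
        rw [map_inv₀]
        field_simp
        ring
      rw [h, v.ord_mul (neg_ne_zero.mpr (hfne t))
        (mul_ne_zero (inv_ne_zero hf0) (inv_ne_zero hta)), helper1370.ord_neg,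
        v.ord_mul (inv_ne_zero hf0) (inv_ne_zero hta), v.ord_inv, v.ord_inv, hordf,
        helper1370.ord_algebraMap]
      simpa using hv
    obtain ⟨k, s, -, hs, hvQ⟩ := hfib t⁻¹ htinv v hkey
    apply hvS
    have hvQ' : v = Q1 s := hvQ
    rw [hvQ', ← hsat u1 Q1 r1 hQ1 s (mem_ball_zero_iff.mpr hs), hQ10]
    exact hP₁
  have hTempty : T = ∅ := by
    rcases isClopen_iff.mp (⟨hTclosed, hTopen⟩ : IsClopen T) with h | h
    · exact h
    · exact absurd h hTne
  ext P
  simp only [Set.mem_univ, iff_true]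
  by_contra hPS
  have hPne : P ≠ P₁ := fun h => hPS (h ▸ hP₁)
  have hpos := ev_sub_pos hEv x hx P (hfreg P hPne) (hfne _)
  have hmem : ev P f ∈ T := ⟨P, hPS, hpos⟩
  rw [hTempty] at hmem
  exact hmem

end Fermat.Agent.S27.helper6059
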