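import Fermat.Agent.S27.helper6247_Spec
import Fermat.Agent.S24.helper204_Places
import Fermat.Agent.S24.helper1370_PlaceBasics

/-!
# S27, module M5c: `Stmt_Compact` (seat helper8629, board row 1021)

`compact_of : Stmt_ChartExists → Stmt_LocalFibre → Stmt_Compact`.

The curve is covered by finitely many closed chart discs.  Proof: the places are fibred over the
Riemann sphere by the value of `x`.  For every `a : ℂ`, `Stmt_LocalFibre` applied to `x - a`
(with charts centred at its finitely many zeros, half radii) covers all places whose `x`-value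
lies in a small disc around `a`; applied to `x⁻¹` it covers the poles of `x` and the places
whose `x`-value is large.  Heine–Borel on a closed disc finishes.
-/

set_option autoImplicit false

open AlgebraicCurve IntermediateField
open scoped Topology

namespace Fermat.Agent.S27.helper8629

open Fermat.Agent.S27.helper6247

section

variable {F : Type} [Field F] [Algebra ℂ F]

/-- A set of places that is covered by finitely many closed chart discs. -/
def Covered (T : Set (Place ℂ F)) : Prop :=
  ∃ (m : ℕ) (u : Fin m → F) (Q : Fin m → ℂ → Place ℂ F) (r ρ : Fin m → ℝ),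
    (∀ k, IsChart (u k) (Q k) (r k)) ∧ (∀ k, ρ k < r k) ∧
    ∀ P ∈ T, ∃ k s, ‖s‖ ≤ ρ k ∧ P = Q k s

theorem covered_empty : Covered (∅ : Set (Place ℂ F)) :=
  ⟨0, Fin.elim0, Fin.elim0, Fin.elim0, Fin.elim0, fun k => k.elim0, fun k => k.elim0,
    fun _ hP => hP.elim⟩

theorem Covered.mono {T T' : Set (Place ℂ F)} (h : Covered T') (hT : T ⊆ T') : Covered T := by
  obtain ⟨m, u, Q, r, ρ, h1, h2, h3⟩ := h
  exact ⟨m, u, Q, r, ρ, h1, h2, fun P hP => h3 P (hT hP)⟩

theorem Covered.union {T T' : Set (Place ℂ F)} (h : Covered T) (h' : Covered T') :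
    Covered (T ∪ T') := by
  obtain ⟨m, u, Q, r, ρ, h1, h2, h3⟩ := h
  obtain ⟨m', u', Q', r', ρ', h1', h2', h3'⟩ := h'
  refine ⟨m + m', Fin.append u u', Fin.append Q Q', Fin.append r r', Fin.append ρ ρ', ?_, ?_, ?_⟩
  · intro k
    induction k using Fin.addCases with
    | left i => simpa only [Fin.append_left] using h1 i
    | right j => simpa only [Fin.append_right] using h1' j
  · intro k
    induction k using Fin.addCases with
    | left i => simpa only [Fin.append_left] using h2 i
    | right j => simpa only [Fin.append_right] using h2' j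
  · rintro P (hP | hP)
    · obtain ⟨k, s, hs, rfl⟩ := h3 P hP
      exact ⟨Fin.castAdd m' k, s, by simpa only [Fin.append_left] using hs,
        by simp only [Fin.append_left]⟩
    · obtain ⟨k, s, hs, rfl⟩ := h3' P hP
      exact ⟨Fin.natAdd m k, s, by simpa only [Fin.append_right] using hs,
        by simp only [Fin.append_right]⟩

theorem covered_biUnion {ι : Type*} (J : Finset ι) (T : ι → Set (Place ℂ F))
    (h : ∀ j ∈ J, Covered (T j)) : Covered (⋃ j ∈ J, T j) := by
  classical
  induction J using Finset.induction_on with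
  | empty => simpa using (covered_empty (F := F))
  | insert a J _ ih =>
    rw [Finset.set_biUnion_insert]
    exact (h a (Finset.mem_insert_self a J)).union
      (ih fun j hj => h j (Finset.mem_insert_of_mem hj))

/-- Local cover of the fibres of a transcendental `f` near the fibre `f = 0`. -/
theorem exists_covered_fibres (hCh : Stmt_ChartExists) (hLF : Stmt_LocalFibre) (x : F)
    (hx : Transcendental ℂ x) [FiniteDimensional ℂ⟮x⟯ F] (f : F) (hf : Transcendental ℂ f) :
    ∃ δ > 0, Covered {v : Place ℂ F | ∃ t : ℂ, ‖t‖ < δ ∧ 0 < v.ord (f - algebraMap ℂ F t)} := by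
  classical
  have := Fermat.Agent.S24.helper204.hasPrincipalDivisors x hx
  have hf0 : f ≠ 0 := by
    rintro rfl
    exact hf isAlgebraic_zero
  obtain ⟨D, hD, -⟩ := HasPrincipalDivisors.exists_divisor (K := ℂ) f hf0
  have hZmem : ∀ v : Place ℂ F, 0 < v.ord f → v ∈ D.support := by
    intro v hv
    rw [Finsupp.mem_support_iff, hD v]
    exact hv.ne'
  have hex : ∀ v : Place ℂ F, ∃ (u : F) (Q : ℂ → Place ℂ F) (r : ℝ), IsChart u Q r ∧ Q 0 = v := by
    intro v
    obtain ⟨π, hπ⟩ := Fermat.Agent.S24.helper1370.exists_uniformizer v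
    obtain ⟨Q, r, hQ, hQ0⟩ := hCh F x hx v π hπ
    exact ⟨π, Q, r, hQ, hQ0⟩
  choose u Q r hchart hQ0 using hex
  let e := D.support.equivFin
  obtain ⟨δ, hδ, hcov⟩ := hLF F x hx f hf D.support.card (fun k => u (e.symm k))
    (fun k => Q (e.symm k)) (fun k => r (e.symm k)) (fun k => r (e.symm k) / 2)
    (fun k => hchart _) (fun k => half_pos (hchart _).pos)
    (fun v hv => ⟨e ⟨v, hZmem v hv⟩, by simp [hQ0]⟩)
  refine ⟨δ, hδ, D.support.card, fun k => u (e.symm k), fun k => Q (e.symm k),
    fun k => r (e.symm k), fun k => r (e.symm k) / 2, fun k => hchart _,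
    fun k => half_lt_self (hchart _).pos, ?_⟩
  rintro P ⟨t, ht, hP⟩
  obtain ⟨k, s, hs1, -, rfl⟩ := hcov t ht P hP
  exact ⟨k, s, hs1.le, rfl⟩

/-- **M5c.** Compactness: the curve is covered by finitely many closed chart discs. -/
theorem compact_of (hCh : Stmt_ChartExists) (hLF : Stmt_LocalFibre) : Stmt_Compact := by
  intro F _ _ x hx _
  classical
  have hxinv : Transcendental ℂ x⁻¹ := Fermat.Agent.S24.helper204.transcendental_inv hx
  obtain ⟨δi, hδi, hcovi⟩ := exists_covered_fibres hCh hLF x hx x⁻¹ hxinv
  have hfin : ∀ a : ℂ, ∃ δ > 0, Covered {v : Place ℂ F |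
      ∃ t : ℂ, ‖t‖ < δ ∧ 0 < v.ord (x - algebraMap ℂ F a - algebraMap ℂ F t)} := by
    intro a
    have hxa : Transcendental ℂ (x - algebraMap ℂ F a) := by
      intro h
      apply hx
      have h2 := h.add (isAlgebraic_algebraMap (R := ℂ) (A := F) a)
      simpa using h2
    exact exists_covered_fibres hCh hLF x hx _ hxa
  choose δ hδ hcov using hfin
  obtain ⟨J, -, hJ⟩ := (isCompact_closedBall (0 : ℂ) (1 / δi)).elim_nhds_subcover
    (fun a => Metric.ball a (δ a)) (fun a _ => Metric.ball_mem_nhds a (hδ a))
  have hall : Covered (Set.univ : Set (Place ℂ F)) := by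
    refine (hcovi.union (covered_biUnion J _ (fun a _ => hcov a))).mono ?_
    intro P _
    rcases Fermat.Agent.S24.helper204.place_center x hx P with hneg | ⟨c, hc, -⟩
    · left
      refine ⟨0, by simpa using hδi, ?_⟩
      rw [map_zero, sub_zero, P.ord_inv]
      omega
    · by_cases hcR : ‖c‖ ≤ 1 / δi
      · right
        have hcmem : c ∈ Metric.closedBall (0 : ℂ) (1 / δi) := by
          simpa using hcR
        obtain ⟨a, haJ, hca⟩ := Set.mem_iUnion₂.mp (hJ hcmem)
        refine Set.mem_iUnion₂.mpr ⟨a, haJ, c - a, ?_, ?_⟩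
        · simpa [dist_eq_norm] using hca
        · have h1 : x - algebraMap ℂ F a - algebraMap ℂ F (c - a) = x - algebraMap ℂ F c := by
            rw [map_sub]
            ring
          rw [h1]
          exact hc
      · left
        rw [not_le] at hcR
        have hpos : 0 < 1 / δi := one_div_pos.mpr hδi
        have hcn : 0 < ‖c‖ := hpos.trans hcR
        have hc0 : c ≠ 0 := norm_pos_iff.mp hcn
        refine ⟨c⁻¹, ?_, ?_⟩
        · rw [norm_inv, inv_lt_comm₀ hcn hδi, ← one_div]
          exact hcR
        · have hC : algebraMap ℂ F c ≠ 0 := by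
            rw [Ne, map_eq_zero]
            exact hc0
          have hxc : x - algebraMap ℂ F c ≠ 0 := by
            intro h0
            rw [h0] at hc
            simp at hc
          have hx0 : x ≠ 0 := by
            rintro rfl
            exact hx isAlgebraic_zero
          have hordx : P.ord x = 0 := by
            have h1 : x = algebraMap ℂ F c + (x - algebraMap ℂ F c) := by ring
            rw [h1, Fermat.Agent.S24.helper1370.ord_add_eq_of_lt P hC
              (by rw [Fermat.Agent.S24.helper1370.ord_algebraMap]; exact hc)]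
            exact Fermat.Agent.S24.helper1370.ord_algebraMap P c
          have h2 : x⁻¹ - algebraMap ℂ F c⁻¹
              = (-(x - algebraMap ℂ F c)) * (x⁻¹ * (algebraMap ℂ F c)⁻¹) := by
            rw [map_inv₀]
            field_simp
            ring
          rw [h2, P.ord_mul (neg_ne_zero.mpr hxc) (mul_ne_zero (inv_ne_zero hx0) (inv_ne_zero hC)),
            Fermat.Agent.S24.helper1370.ord_neg, P.ord_mul (inv_ne_zero hx0) (inv_ne_zero hC),
            P.ord_inv, P.ord_inv, hordx, Fermat.Agent.S24.helper1370.ord_algebraMap]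
          omega
  obtain ⟨m, u, Q, r, ρ, h1, h2, h3⟩ := hall
  exact ⟨m, u, Q, r, ρ, h1, h2, fun P => h3 P (Set.mem_univ P)⟩

end

end Fermat.Agent.S27.helper8629
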