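/-
S27 assembly (captain file).  Collects the landed leaves of the analytic route into the
shortest list of still missing inputs.  Every theorem here is sorry-free; the complex case
`asm_Complex` is unconditional and the only remaining input of S27 is `Stmt_Transfer`.
-/
import Fermat.Agent.S27.helper6247_Spec
import Fermat.Agent.S27.helper3372_Riemann
import Fermat.Agent.S27.helper4996_RiemannData
import Fermat.Agent.S27.helper6634_EvUnram
import Fermat.Agent.S27.helper3807_ChartInt
import Fermat.Agent.S27.helper3430_ChartExists
import Fermat.Agent.S27.helper5175_LocalFibre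
import Fermat.Agent.S27.helper8629_Compact
import Fermat.Agent.S27.helper6059_Connected
import Fermat.Agent.S27.helper4604_Complex
import Fermat.Agent.S27.helper2501_SepCoord
import Fermat.Agent.S27.helper5967_SimplePointSpec
import Fermat.Agent.S27.helper1423_Tuples
import Fermat.Agent.S27.helper1680_WeilCoeff
import Fermat.Agent.S27.helper1561_LinearSystem
import Fermat.Agent.S27.helper504_KeyLocalAbel

set_option autoImplicit false

namespace Fermat.Agent.S27.helper6247

open AlgebraicCurve IntermediateField

universe u v

/-- The Riemann data, unconditionally (helper4996's lower bound + helper3372's finiteness). -/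
theorem asm_RiemannData : Fermat.Agent.S27.helper3372.Stmt_RiemannData.{u, v} := by
  intro K F _ _ _ _ _ x hx _
  have hP : HasPrincipalDivisors K F := Fermat.Agent.S24.helper204.hasPrincipalDivisors x hx
  have hdeg : ∀ v : Place K F, v.deg = 1 :=
    fun v => Fermat.Agent.S24.helper204.place_deg_eq_one x hx v
  have hres : ∀ v : Place K F, Function.Surjective (algebraMap K v.ResidueField) :=
    fun v => Fermat.Agent.S27.helper3372.residue_surjective_of_finite x v
  have hne : Nonempty (Place K F) := Fermat.Agent.S27.helper3372.nonempty_place_of_finite x hx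
  exact Fermat.Agent.S27.helper4996.riemannData_of_finite x hx
    (fun D => Fermat.Agent.S27.helper3372.finite_riemannRochSpace hP hres hdeg hne D)

/-- M2 `Stmt_Riemann`, unconditionally. -/
theorem asm_Riemann : Stmt_Riemann.{u, v} :=
  Fermat.Agent.S27.helper3372.stmt_Riemann_of asm_RiemannData

/-- `Stmt_Ev`, unconditionally. -/
theorem asm_Ev : Stmt_Ev.{u, v} := Fermat.Agent.S27.helper6634.stmt_Ev

/-- M1b `Stmt_SepCoord`, unconditionally (helper2501). -/
theorem asm_SepCoord : Stmt_SepCoord.{u, v} := Fermat.Agent.S27.helper2501.stmt_SepCoord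

/-- M1a `Stmt_SimplePoint`, unconditionally (helper5967). -/
theorem asm_SimplePoint : Stmt_SimplePoint.{u, v} :=
  Fermat.Agent.S27.helper5967.stmt_SimplePoint

/-- M1c `Stmt_GenericUnram`, unconditionally (helper6634). -/
theorem asm_GenericUnram : Stmt_GenericUnram.{u, v} :=
  Fermat.Agent.S27.helper6634.stmt_GenericUnram

/-- M2b `Stmt_NonspecialBasis`, unconditionally (helper1423). -/
theorem asm_NonspecialBasis : Stmt_NonspecialBasis.{u, v} :=
  Fermat.Agent.S27.helper1423.nonspecialBasis

/-- M2c `Stmt_GoodTuple`, unconditionally (helper1423). -/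
theorem asm_GoodTuple : Stmt_GoodTuple.{u, v} :=
  Fermat.Agent.S27.helper1423.goodTuple_of asm_Riemann asm_GenericUnram

/-- M2d `Stmt_ExtendTuple`, unconditionally (helper1423). -/
theorem asm_ExtendTuple : Stmt_ExtendTuple.{u, v} :=
  Fermat.Agent.S27.helper1423.extendTuple_of asm_Riemann

/-- M5a `Stmt_ChartExists`, unconditionally. -/
theorem asm_ChartExists : Stmt_ChartExists :=
  Fermat.Agent.S27.helper3430.chartExists_of asm_Ev asm_SepCoord asm_SimplePoint

/-- M5b, unconditionally. -/
theorem asm_LocalFibre : Stmt_LocalFibre := Fermat.Agent.S27.helper5175.localFibre asm_Ev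

/-- M5c, unconditionally. -/
theorem asm_Compact : Stmt_Compact :=
  Fermat.Agent.S27.helper8629.compact_of asm_ChartExists asm_LocalFibre

/-- M5d, unconditionally. -/
theorem asm_Connected : Stmt_Connected :=
  Fermat.Agent.S27.helper6059.connected_of asm_Ev asm_Riemann asm_ChartExists asm_LocalFibre

/-- M6c, unconditionally (helper3807). -/
theorem asm_LatticeCount : Stmt_LatticeCount := Fermat.Agent.S27.helper3807.stmt_LatticeCount

/-- M0, unconditionally (helper3807 / helper5411). -/
theorem asm_Reduce : Stmt_Reduce.{u, v} := Fermat.Agent.S27.helper3807.stmt_Reduce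

/-- M3 `Stmt_WeilCoeff`, unconditionally (helper1680). -/
theorem asm_WeilCoeff : Stmt_WeilCoeff.{u, v} :=
  Fermat.Agent.S27.helper1680.weilCoeff_of asm_SimplePoint asm_SepCoord

/-- M5f, unconditionally. -/
theorem asm_IntChartExists : Stmt_IntChartExists :=
  Fermat.Agent.S27.helper3807.intChartExists_of_weilCoeff asm_WeilCoeff

/-- M6a' `Stmt_LocalAbel`, unconditionally (helper1561). -/
theorem asm_LocalAbel : Stmt_LocalAbel :=
  Fermat.Agent.S27.helper1561.localAbel_of asm_Riemann

/-- M6b `Stmt_Key`, unconditionally (helper504). -/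
theorem asm_Key : Stmt_Key :=
  Fermat.Agent.S27.helper504.key_of_localAbel asm_LocalAbel asm_Riemann asm_Ev
    asm_NonspecialBasis asm_GoodTuple asm_ChartExists asm_IntChartExists

/-- The core interface `Stmt_AJ`, unconditionally. -/
theorem asm_AJ : Stmt_AJ := aj_of_key asm_Riemann asm_IntChartExists asm_Key

/-- M6 `Stmt_Complex`, unconditionally: the complex case of S27. -/
theorem asm_Complex : Stmt_Complex :=
  Fermat.Agent.S27.helper4604.complex_of_aj asm_Riemann asm_AJ asm_Compact asm_Connected
    asm_LatticeCount

/-- S27 from the Lefschetz transfer alone. -/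
theorem s27_of_transfer (hT : Stmt_Transfer.{u, v}) : Stmt_S27.{u, v} :=
  s27_of asm_Reduce asm_Complex hT

end Fermat.Agent.S27.helper6247
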