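import Mathlib

/-!
# S27 — field-theory kit for the Lefschetz transfer (helper1197)

Mathlib-only, Spec-independent.

* `exists_countable_algClosed_subfield` (F1): in an algebraically closed field every countable
  set lies in a countable algebraically closed subfield.
* `nonempty_ringHom_complex` (F2): a field of characteristic zero and cardinality at most the
  continuum embeds into `ℂ`.
* `exists_algEquiv_apply_eq` (F3): in an algebraically closed extension `L / K0`, any two
  elements transcendental over `K0` are conjugate under `Aut (L / K0)`.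
-/

set_option autoImplicit false

namespace Fermat.Agent.S27.helper1197

open Cardinal

universe u v

/-! ## (F1) countable algebraically closed subfields -/

/-- In an algebraically closed field, every countable set is contained in a countable
algebraically closed subfield. -/
theorem exists_countable_algClosed_subfield {K : Type u} [Field K] [IsAlgClosed K]
    (S : Set K) (hS : S.Countable) :
    ∃ K0 : Subfield K, S ⊆ K0 ∧ Countable K0 ∧ IsAlgClosed K0 := by
  let F : Subfield K := Subfield.closure S
  let A : IntermediateField F K := algebraicClosure F K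
  have hF : #F ≤ ℵ₀ := by
    have h1 : #F ≤ max #S ℵ₀ := Subfield.cardinalMk_closure_le_max S
    have h2 : #S ≤ ℵ₀ := by
      have := hS.to_subtype
      exact Cardinal.mk_le_aleph0
    exact h1.trans (max_le h2 le_rfl)
  have hA : #A ≤ ℵ₀ := by
    have h1 : #A ≤ max #F ℵ₀ := Algebra.IsAlgebraic.cardinalMk_le_max F A
    exact h1.trans (max_le hF le_rfl)
  have hAc : IsAlgClosed A := IsAlgClosure.isAlgClosed F
  refine ⟨A.toSubfield, ?_, ?_, ?_⟩
  · intro s hs
    exact A.algebraMap_mem ⟨s, Subfield.subset_closure hs⟩
  · exact Cardinal.mk_le_aleph0_iff.mp hA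
  · exact hAc

/-! ## (F2) embedding into `ℂ` -/

/-- A field of characteristic zero whose cardinality is at most the continuum embeds
into `ℂ`. -/
theorem nonempty_ringHom_complex (K : Type u) [Field K] [CharZero K]
    (hK : #K ≤ 𝔠) : Nonempty (K →+* ℂ) := by
  let ι : Type u := ULift.{u} ℝ
  let P := MvPolynomial ι K
  let Q := FractionRing P
  let L := AlgebraicClosure Q
  let f : K →+* L := (algebraMap Q L).comp ((algebraMap P Q).comp MvPolynomial.C)
  have hf : Function.Injective f := f.injective
  have : CharZero L := charZero_of_injective_ringHom hf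
  have hι : #ι = 𝔠 := by
    rw [show #ι = lift.{u} #ℝ from Cardinal.mk_uLift ℝ, Cardinal.mk_real, lift_continuum]
  have hL_le : #L ≤ 𝔠 := by
    calc #L ≤ max #Q ℵ₀ := Algebra.IsAlgebraic.cardinalMk_le_max Q L
      _ = max #P ℵ₀ := by rw [Cardinal.mk_fractionRing]
      _ ≤ max (max (max #K #ι) ℵ₀) ℵ₀ := max_le_max MvPolynomial.cardinalMk_le_max le_rfl
      _ ≤ 𝔠 := by
        rw [hι]
        exact max_le (max_le (max_le hK le_rfl) aleph0_le_continuum) aleph0_le_continuum
  have hL_ge : 𝔠 ≤ #L := by
    rw [← hι]
    refine Cardinal.mk_le_of_injective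
      (f := fun i : ι => algebraMap Q L (algebraMap P Q (MvPolynomial.X i))) ?_
    intro i j hij
    have h1 : algebraMap P Q (MvPolynomial.X i) = algebraMap P Q (MvPolynomial.X j) :=
      (algebraMap Q L).injective hij
    have h2 : (MvPolynomial.X i : P) = MvPolynomial.X j :=
      IsFractionRing.injective P Q h1
    exact MvPolynomial.X_injective h2
  have hL : #L = 𝔠 := le_antisymm hL_le hL_ge
  have hLC : Nonempty (L ≃ ℂ) := by
    rw [← Cardinal.lift_mk_eq', hL, Cardinal.mk_complex]
    simp
  obtain ⟨e⟩ := IsAlgClosed.ringEquiv_of_equiv_of_charZero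
    (by rw [hL]; exact aleph0_lt_continuum) hLC
  exact ⟨e.toRingHom.comp f⟩

/-- A countable field of characteristic zero embeds into `ℂ`. -/
theorem nonempty_ringHom_complex_of_countable (K : Type u) [Field K] [CharZero K]
    [Countable K] : Nonempty (K →+* ℂ) :=
  nonempty_ringHom_complex K (Cardinal.mk_le_aleph0.trans aleph0_le_continuum)

/-! ## (F3) transcendental elements are conjugate -/

section Conj

variable {K0 : Type u} {L : Type v} [Field K0] [Field L] [Algebra K0 L] [IsAlgClosed L]

/-- In an algebraically closed extension `L / K0`, any two elements transcendental over `K0`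
are conjugate under a `K0`-automorphism of `L`. -/
theorem exists_algEquiv_apply_eq {z w : L} (hz : Transcendental K0 z)
    (hw : Transcendental K0 w) : ∃ σ : L ≃ₐ[K0] L, σ z = w := by
  classical
  have hz' : AlgebraicIndepOn K0 id ({z} : Set L) :=
    (algebraicIndependent_singleton_iff (R := K0) (x := fun x : ({z} : Set L) => id (x : L))
      ⟨z, Set.mem_singleton z⟩).mpr hz
  have hw' : AlgebraicIndepOn K0 id ({w} : Set L) :=
    (algebraicIndependent_singleton_iff (R := K0) (x := fun x : ({w} : Set L) => id (x : L))
      ⟨w, Set.mem_singleton w⟩).mpr hw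
  obtain ⟨B, hzB, hB⟩ := exists_isTranscendenceBasis_superset hz'
  obtain ⟨B', hwB', hB'⟩ := exists_isTranscendenceBasis_superset hw'
  have hcard : #B = #B' := hB.cardinalMk_eq hB'
  obtain ⟨e0⟩ := Cardinal.eq.mp hcard
  let zB : B := ⟨z, hzB (Set.mem_singleton z)⟩
  let wB : B' := ⟨w, hwB' (Set.mem_singleton w)⟩
  let e : B ≃ B' := e0.trans (Equiv.swap (e0 zB) wB)
  have he : e zB = wB := by simp [e]
  let A := Algebra.adjoin K0 (Set.range ((↑) : B → L))
  let A' := Algebra.adjoin K0 (Set.range ((↑) : B' → L))
  let φ : A ≃ₐ[K0] A' :=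
    (hB.1.aevalEquiv.symm.trans (MvPolynomial.renameEquiv K0 e)).trans hB'.1.aevalEquiv
  have : IsAlgClosure A L := IsAlgClosed.isAlgClosure_of_transcendence_basis _ hB
  have : IsAlgClosure A' L := IsAlgClosed.isAlgClosure_of_transcendence_basis _ hB'
  let σ : L ≃+* L := IsAlgClosure.equivOfEquiv L L φ.toRingEquiv
  have hσ : ∀ a : A, σ (algebraMap A L a) = algebraMap A' L (φ a) := fun a =>
    IsAlgClosure.equivOfEquiv_algebraMap L L φ.toRingEquiv a
  have hcomm : ∀ r : K0, σ (algebraMap K0 L r) = algebraMap K0 L r := by
    intro r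
    have h1 := hσ (algebraMap K0 A r)
    rw [φ.commutes, ← IsScalarTower.algebraMap_apply, ← IsScalarTower.algebraMap_apply] at h1
    exact h1
  refine ⟨AlgEquiv.ofRingEquiv (f := σ) hcomm, ?_⟩
  have hzX : hB.1.aevalEquiv (MvPolynomial.X zB) = ⟨z, Algebra.subset_adjoin ⟨zB, rfl⟩⟩ := by
    apply Subtype.ext
    change algebraMap A L (hB.1.aevalEquiv (MvPolynomial.X zB)) = z
    rw [hB.1.algebraMap_aevalEquiv, MvPolynomial.aeval_X]
  have hwX : algebraMap A' L (hB'.1.aevalEquiv (MvPolynomial.X wB)) = w := by
    rw [hB'.1.algebraMap_aevalEquiv, MvPolynomial.aeval_X]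
  have hφ : φ ⟨z, Algebra.subset_adjoin ⟨zB, rfl⟩⟩ = hB'.1.aevalEquiv (MvPolynomial.X wB) := by
    rw [← hzX]
    simp [φ, he]
  have h2 := hσ ⟨z, Algebra.subset_adjoin ⟨zB, rfl⟩⟩
  rw [hφ, hwX] at h2
  exact h2

omit [IsAlgClosed L] in
/-- Over an algebraically closed base field, every element outside the base is
transcendental. -/
theorem transcendental_of_notMem_range [IsAlgClosed K0] {z : L}
    (hz : z ∉ (algebraMap K0 L).range) : Transcendental K0 z := by
  intro halg
  apply hz
  have hint : IsIntegral K0 z := halg.isIntegral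
  have hdeg := IsAlgClosed.degree_eq_one_of_irreducible K0 (minpoly.irreducible hint)
  exact minpoly.mem_range_of_degree_eq_one K0 z hdeg

/-- The `Aut (L / K0)`-orbit of a transcendental element is infinite. -/
theorem infinite_orbit_of_transcendental {z : L} (hz : Transcendental K0 z) :
    {w : L | ∃ σ : L ≃ₐ[K0] L, σ z = w}.Infinite := by
  have hinj : Function.Injective (fun n : ℕ => z ^ (n + 1)) := by
    intro a b hab
    by_contra hne
    apply hz
    refine ⟨Polynomial.X ^ (a + 1) - Polynomial.X ^ (b + 1), ?_, ?_⟩
    · intro h0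
      have h1 : (Polynomial.X : Polynomial K0) ^ (a + 1) = Polynomial.X ^ (b + 1) :=
        sub_eq_zero.mp h0
      have h2 := congrArg Polynomial.natDegree h1
      simp only [Polynomial.natDegree_X_pow] at h2
      exact hne (by omega)
    · simp only [map_sub, map_pow, Polynomial.aeval_X]
      exact sub_eq_zero.mpr hab
  refine Set.infinite_of_injective_forall_mem hinj ?_
  intro n
  exact exists_algEquiv_apply_eq hz (hz.pow (Nat.succ_pos n))

/-- Rigidity: over an algebraically closed base field `K0`, an element of `L` with finite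
`Aut (L / K0)`-orbit lies in (the image of) `K0`. -/
theorem mem_range_of_finite_orbit [IsAlgClosed K0] {t : L}
    (h : {w : L | ∃ σ : L ≃ₐ[K0] L, σ t = w}.Finite) : t ∈ (algebraMap K0 L).range := by
  by_contra ht
  exact infinite_orbit_of_transcendental (transcendental_of_notMem_range ht) h

/-- Rigidity, set form: a finite subset of `L` stable under `Aut (L / K0)` consists of
elements of `K0` (for `K0` algebraically closed). -/
theorem mem_range_of_finite_stable [IsAlgClosed K0] {T : Set L} (hT : T.Finite)
    (hstab : ∀ σ : L ≃ₐ[K0] L, ∀ t ∈ T, σ t ∈ T) {t : L} (ht : t ∈ T) :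
    t ∈ (algebraMap K0 L).range := by
  refine mem_range_of_finite_orbit (hT.subset ?_)
  rintro w ⟨σ, rfl⟩
  exact hstab σ t ht

end Conj

/-! ## Combination used by the transfer -/

/-- (F1)+(F2): in an algebraically closed field of characteristic zero, every countable set lies
in a countable algebraically closed subfield, which embeds into `ℂ`. -/
theorem exists_subfield_embedding_complex {K : Type u} [Field K] [IsAlgClosed K] [CharZero K]
    (S : Set K) (hS : S.Countable) :
    ∃ K0 : Subfield K, S ⊆ K0 ∧ Countable K0 ∧ IsAlgClosed K0 ∧ Nonempty (K0 →+* ℂ) := by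
  obtain ⟨K0, hSK, hc, hac⟩ := exists_countable_algClosed_subfield S hS
  exact ⟨K0, hSK, hc, hac, nonempty_ringHom_complex_of_countable K0⟩

end Fermat.Agent.S27.helper1197
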