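import Mathlib

/-!
# S27-L-DOM : tensor products over an algebraically closed field are domains

`isDomain_tensorProduct_of_isAlgClosed` : for `k` algebraically closed and `A`, `B` commutative
`k`-algebras that are domains, `A ⊗[k] B` is a domain.
-/

set_option autoImplicit false

open TensorProduct

namespace Fermat.Agent.S27.helper8788

universe u v w

section Nullstellensatz

variable {k : Type u} [Field k] [IsAlgClosed k]

/-- Weak Nullstellensatz in point form: a nonzero element of a finitely generated domain over an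
algebraically closed field does not vanish at some `k`-point. -/
theorem exists_algHom_apply_ne_zero {C : Type v} [CommRing C] [IsDomain C] [Algebra k C]
    [Algebra.FiniteType k C] {f : C} (hf : f ≠ 0) : ∃ φ : C →ₐ[k] k, φ f ≠ 0 := by
  have hJ : IsJacobsonRing C := isJacobsonRing_of_finiteType (A := k) (B := C)
  have hrad : (⊥ : Ideal C).jacobson = ⊥ := hJ.out Ideal.isRadical_bot
  have hmem : f ∉ (⊥ : Ideal C).jacobson := by
    rw [hrad]; simpa using hf
  rw [Ideal.jacobson, Ideal.mem_sInf] at hmem
  push Not at hmem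
  obtain ⟨m, ⟨-, hm⟩, hfm⟩ := hmem
  have := hm
  let _ : Field (C ⧸ m) := Ideal.Quotient.field m
  have : Algebra.FiniteType k (C ⧸ m) :=
    Algebra.FiniteType.of_surjective (Ideal.Quotient.mkₐ k m) (Ideal.Quotient.mkₐ_surjective k m)
  have : Module.Finite k (C ⧸ m) := finite_of_finite_type_of_isJacobsonRing k (C ⧸ m)
  have : Algebra.IsIntegral k (C ⧸ m) := Algebra.IsIntegral.of_finite k (C ⧸ m)
  have hbij : Function.Bijective (algebraMap k (C ⧸ m)) :=
    IsAlgClosed.algebraMap_bijective_of_isIntegral
  let e : k ≃ₐ[k] (C ⧸ m) := AlgEquiv.ofBijective (Algebra.ofId k (C ⧸ m)) hbij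
  refine ⟨(e.symm : (C ⧸ m) →ₐ[k] k).comp (Ideal.Quotient.mkₐ k m), fun h => hfm ?_⟩
  have h' : e.symm (Ideal.Quotient.mk m f) = 0 := h
  have h'' : Ideal.Quotient.mk m f = 0 := by
    simpa using congrArg e h'
  exact Ideal.Quotient.eq_zero_iff_mem.mp h''

end Nullstellensatz

section Core

variable (k : Type u) [Field k] [IsAlgClosed k]

/-- Core case: the coefficient factor `C` is finitely generated. -/
theorem noZeroDivisors_tensorProduct_of_finiteType (C : Type v) (A : Type w)
    [CommRing C] [IsDomain C] [Algebra k C] [Algebra.FiniteType k C]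
    [CommRing A] [IsDomain A] [Algebra k A] : NoZeroDivisors (C ⊗[k] A) := by
  classical
  let b := Module.Free.chooseBasis k A
  let 𝓑 := Algebra.TensorProduct.basis C b
  refine ⟨fun {x y} hxy => ?_⟩
  by_contra hcon
  push Not at hcon
  obtain ⟨hx, hy⟩ := hcon
  have hex : ∀ z : C ⊗[k] A, z ≠ 0 → ∃ i, 𝓑.repr z i ≠ 0 := by
    intro z hz
    by_contra h
    push Not at h
    apply hz
    apply 𝓑.repr.injective
    ext i
    simp [h i]
  obtain ⟨i, hi⟩ := hex x hx
  obtain ⟨j, hj⟩ := hex y hy
  obtain ⟨φ, hφ⟩ := exists_algHom_apply_ne_zero (k := k) (mul_ne_zero hi hj)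
  let Ψ : C ⊗[k] A →ₐ[k] A :=
    (Algebra.TensorProduct.lid k A).toAlgHom.comp (Algebra.TensorProduct.map φ (AlgHom.id k A))
  have key : ∀ (z : C ⊗[k] A) (i), b.repr (Ψ z) i = φ (𝓑.repr z i) := by
    intro z i
    induction z using TensorProduct.induction_on with
    | zero => simp
    | tmul c a =>
      simp [Ψ, 𝓑, Algebra.TensorProduct.basis_repr_tmul]
    | add z w hz hw => simp [map_add, hz, hw]
  have h0 : Ψ x * Ψ y = 0 := by rw [← map_mul, hxy, map_zero]
  rw [map_mul] at hφ
  rcases mul_eq_zero.mp h0 with h | h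
  · have := key x i
    rw [h] at this
    simp at this
    exact hφ (by rw [← this, zero_mul])
  · have := key y j
    rw [h] at this
    simp at this
    exact hφ (by rw [← this, mul_zero])

end Core

section General

variable (k : Type u) [Field k] [IsAlgClosed k]

theorem noZeroDivisors_tensorProduct_of_isAlgClosed (A : Type v) (B : Type w)
    [CommRing A] [IsDomain A] [Algebra k A] [CommRing B] [IsDomain B] [Algebra k B] :
    NoZeroDivisors (A ⊗[k] B) := by
  refine ⟨fun {x y} hxy => ?_⟩
  obtain ⟨C₁, hC₁, hx⟩ := exists_fg_and_mem_baseChange x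
  obtain ⟨C₂, hC₂, hy⟩ := exists_fg_and_mem_baseChange y
  set C := C₁ ⊔ C₂ with hC
  have hCfg : C.FG := hC₁.sup hC₂
  have : Algebra.FiniteType k C := (Subalgebra.fg_iff_finiteType C).mp hCfg
  let ι : A ⊗[k] C →ₐ[A] A ⊗[k] B := Algebra.TensorProduct.map (AlgHom.id A A) C.val
  have hι : Function.Injective ι := by
    have h1 : Function.Injective (C.val.toLinearMap.lTensor A) :=
      Module.Flat.lTensor_preserves_injective_linearMap _ Subtype.val_injective
    have h2 : ∀ z, ι z = C.val.toLinearMap.lTensor A z := by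
      intro z
      induction z using TensorProduct.induction_on with
      | zero => simp
      | tmul a c => simp [ι]
      | add z w hz hw => simp [map_add, hz, hw]
    intro z w hzw
    apply h1
    rw [← h2, ← h2, hzw]
  have hmono : ∀ (C' : Subalgebra k B), C' ≤ C → ∀ z ∈ C'.baseChange A,
      ∃ z' : A ⊗[k] C, ι z' = z := by
    rintro C' hle z ⟨z', rfl⟩
    refine ⟨Algebra.TensorProduct.map (AlgHom.id A A) (Subalgebra.inclusion hle) z', ?_⟩
    induction z' using TensorProduct.induction_on with
    | zero => simp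
    | tmul a c => simp [ι]
    | add z w hz hw => simp only [map_add, hz, hw]
  obtain ⟨x', rfl⟩ := hmono C₁ le_sup_left x hx
  obtain ⟨y', rfl⟩ := hmono C₂ le_sup_right y hy
  have h0 : x' * y' = 0 := hι (by rw [map_mul, hxy, map_zero])
  have := noZeroDivisors_tensorProduct_of_finiteType k C A
  let e := Algebra.TensorProduct.comm k A C
  have h1 : e x' * e y' = 0 := by rw [← map_mul, h0, map_zero]
  rcases mul_eq_zero.mp h1 with h | h
  · left
    rw [(EmbeddingLike.map_eq_zero_iff (f := e)).mp h, map_zero]
  · right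
    rw [(EmbeddingLike.map_eq_zero_iff (f := e)).mp h, map_zero]

/-- **Tensor products over an algebraically closed field are domains.** -/
theorem isDomain_tensorProduct_of_isAlgClosed (A : Type v) (B : Type w)
    [CommRing A] [IsDomain A] [Algebra k A] [CommRing B] [IsDomain B] [Algebra k B] :
    IsDomain (A ⊗[k] B) := by
  have := noZeroDivisors_tensorProduct_of_isAlgClosed k A B
  have : Nontrivial (A ⊗[k] B) := inferInstance
  exact NoZeroDivisors.to_isDomain _

end General

end Fermat.Agent.S27.helper8788
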