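import Mathlib
import Fermat.Agent.S27.helper8788_TensorDomain

/-!
# S27-L-DOM (TD2) : the constant field extension `F0 · K1 = Frac (F0 ⊗[K0] K1)`

For `K0` algebraically closed, `F0` and `K1` field extensions of `K0`, the ring `F0 ⊗[K0] K1`
is a domain (`isDomain_tensorProduct_of_isAlgClosed`), and its fraction field
`Compositum K0 F0 K1` is a field containing `F0` and `K1`, generated by them, in which they are
linearly disjoint over `K0`.
-/

set_option autoImplicit false

open TensorProduct

namespace Fermat.Agent.S27.helper8788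

universe u v w

section Def

variable (K0 : Type u) (F0 : Type v) (K1 : Type w)
  [Field K0] [Field F0] [Algebra K0 F0] [Field K1] [Algebra K0 K1]

/-- The constant field extension `F0 · K1 := Frac (F0 ⊗[K0] K1)`. -/
def Compositum : Type (max v w) := FractionRing (F0 ⊗[K0] K1)

namespace Compositum

variable [IsAlgClosed K0]

noncomputable instance instField : Field (Compositum K0 F0 K1) :=
  letI := isDomain_tensorProduct_of_isAlgClosed K0 F0 K1
  inferInstanceAs (Field (FractionRing (F0 ⊗[K0] K1)))

noncomputable instance instAlgebraTensor : Algebra (F0 ⊗[K0] K1) (Compositum K0 F0 K1) :=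
  inferInstanceAs (Algebra (F0 ⊗[K0] K1) (FractionRing (F0 ⊗[K0] K1)))

instance instIsFractionRing : IsFractionRing (F0 ⊗[K0] K1) (Compositum K0 F0 K1) :=
  inferInstanceAs (IsFractionRing (F0 ⊗[K0] K1) (FractionRing (F0 ⊗[K0] K1)))

/-- The canonical map from the tensor product. -/
noncomputable def ofTensor : F0 ⊗[K0] K1 →+* Compositum K0 F0 K1 :=
  algebraMap (F0 ⊗[K0] K1) (Compositum K0 F0 K1)

theorem ofTensor_injective : Function.Injective (ofTensor K0 F0 K1) :=
  letI := isDomain_tensorProduct_of_isAlgClosed K0 F0 K1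
  IsFractionRing.injective (F0 ⊗[K0] K1) (Compositum K0 F0 K1)

noncomputable instance instAlgebraLeft : Algebra F0 (Compositum K0 F0 K1) :=
  ((ofTensor K0 F0 K1).comp
    (Algebra.TensorProduct.includeLeftRingHom : F0 →+* F0 ⊗[K0] K1)).toAlgebra

noncomputable instance instAlgebraRight : Algebra K1 (Compositum K0 F0 K1) :=
  ((ofTensor K0 F0 K1).comp
    (Algebra.TensorProduct.includeRight : K1 →ₐ[K0] F0 ⊗[K0] K1).toRingHom).toAlgebra

noncomputable instance instAlgebraBase : Algebra K0 (Compositum K0 F0 K1) :=
  ((ofTensor K0 F0 K1).comp (algebraMap K0 (F0 ⊗[K0] K1))).toAlgebra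

theorem algebraMap_left_apply (f : F0) :
    algebraMap F0 (Compositum K0 F0 K1) f = ofTensor K0 F0 K1 (f ⊗ₜ[K0] 1) := rfl

theorem algebraMap_right_apply (c : K1) :
    algebraMap K1 (Compositum K0 F0 K1) c = ofTensor K0 F0 K1 (1 ⊗ₜ[K0] c) := rfl

theorem algebraMap_base_apply (a : K0) :
    algebraMap K0 (Compositum K0 F0 K1) a = ofTensor K0 F0 K1 (algebraMap K0 _ a) := rfl

instance instIsScalarTowerLeft : IsScalarTower K0 F0 (Compositum K0 F0 K1) :=
  IsScalarTower.of_algebraMap_eq fun a => by
    rw [algebraMap_base_apply, algebraMap_left_apply, Algebra.TensorProduct.algebraMap_apply]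

instance instIsScalarTowerRight : IsScalarTower K0 K1 (Compositum K0 F0 K1) :=
  IsScalarTower.of_algebraMap_eq fun a => by
    rw [algebraMap_base_apply, algebraMap_right_apply, Algebra.TensorProduct.algebraMap_apply]
    congr 1
    rw [Algebra.algebraMap_eq_smul_one, Algebra.algebraMap_eq_smul_one, TensorProduct.smul_tmul]

theorem ofTensor_tmul (f : F0) (c : K1) :
    ofTensor K0 F0 K1 (f ⊗ₜ[K0] c) =
      algebraMap F0 (Compositum K0 F0 K1) f * algebraMap K1 (Compositum K0 F0 K1) c := by
  rw [algebraMap_left_apply, algebraMap_right_apply, ← map_mul,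
    Algebra.TensorProduct.tmul_mul_tmul, mul_one, one_mul]

/-- Every element of the compositum is a quotient of two elements of `F0 ⊗[K0] K1`. -/
theorem exists_div (z : Compositum K0 F0 K1) :
    ∃ a b : F0 ⊗[K0] K1, b ≠ 0 ∧ z = ofTensor K0 F0 K1 a / ofTensor K0 F0 K1 b := by
  let _ := isDomain_tensorProduct_of_isAlgClosed K0 F0 K1
  obtain ⟨a, b, hb, rfl⟩ := IsFractionRing.div_surjective (A := F0 ⊗[K0] K1) z
  exact ⟨a, b, nonZeroDivisors.ne_zero hb, rfl⟩

/-- **(gen)** The compositum is generated, as a field over `K1`, by the image of `F0`. -/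
theorem adjoin_range_left_eq_top :
    IntermediateField.adjoin K1 (Set.range (algebraMap F0 (Compositum K0 F0 K1))) = ⊤ := by
  set L := IntermediateField.adjoin K1 (Set.range (algebraMap F0 (Compositum K0 F0 K1))) with hL
  have h1 : ∀ r : F0 ⊗[K0] K1, ofTensor K0 F0 K1 r ∈ L := by
    intro r
    induction r using TensorProduct.induction_on with
    | zero => simp
    | tmul f c =>
      rw [ofTensor_tmul]
      exact mul_mem (IntermediateField.subset_adjoin _ _ ⟨f, rfl⟩) (L.algebraMap_mem c)
    | add a b ha hb => rw [map_add]; exact add_mem ha hb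
  rw [eq_top_iff]
  intro z _
  obtain ⟨a, b, -, rfl⟩ := exists_div K0 F0 K1 z
  exact div_mem (h1 a) (h1 b)

/-- **(gen')** The compositum is generated, as a field over `F0`, by the image of `K1`. -/
theorem adjoin_range_right_eq_top :
    IntermediateField.adjoin F0 (Set.range (algebraMap K1 (Compositum K0 F0 K1))) = ⊤ := by
  set L := IntermediateField.adjoin F0 (Set.range (algebraMap K1 (Compositum K0 F0 K1))) with hL
  have h1 : ∀ r : F0 ⊗[K0] K1, ofTensor K0 F0 K1 r ∈ L := by
    intro r
    induction r using TensorProduct.induction_on with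
    | zero => simp
    | tmul f c =>
      rw [ofTensor_tmul]
      exact mul_mem (L.algebraMap_mem f) (IntermediateField.subset_adjoin _ _ ⟨c, rfl⟩)
    | add a b ha hb => rw [map_add]; exact add_mem ha hb
  rw [eq_top_iff]
  intro z _
  obtain ⟨a, b, -, rfl⟩ := exists_div K0 F0 K1 z
  exact div_mem (h1 a) (h1 b)

/-- **(ld0)** Linear disjointness: the canonical map `F0 ⊗[K0] K1 → F0 · K1` is injective. -/
theorem productMap_injective :
    Function.Injective (Algebra.TensorProduct.productMap
      (IsScalarTower.toAlgHom K0 F0 (Compositum K0 F0 K1))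
      (IsScalarTower.toAlgHom K0 K1 (Compositum K0 F0 K1))) := by
  have h : ∀ r : F0 ⊗[K0] K1, Algebra.TensorProduct.productMap
      (IsScalarTower.toAlgHom K0 F0 (Compositum K0 F0 K1))
      (IsScalarTower.toAlgHom K0 K1 (Compositum K0 F0 K1)) r = ofTensor K0 F0 K1 r := by
    intro r
    induction r using TensorProduct.induction_on with
    | zero => simp
    | tmul f c => rw [ofTensor_tmul]; simp
    | add a b ha hb => rw [map_add, map_add, ha, hb]
  intro a b hab
  rw [h, h] at hab
  exact ofTensor_injective K0 F0 K1 hab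

instance instIsScalarTowerTensor :
    IsScalarTower F0 (F0 ⊗[K0] K1) (Compositum K0 F0 K1) :=
  IsScalarTower.of_algebraMap_eq fun _ => rfl

/-- **(ld1)** `K0`-linearly independent families of `K1` are `F0`-linearly independent in the
compositum. -/
theorem linearIndependent_right {ι : Type*} {c : ι → K1} (hc : LinearIndependent K0 c) :
    LinearIndependent F0 (fun i => algebraMap K1 (Compositum K0 F0 K1) (c i)) := by
  have h := Module.Flat.linearIndependent_one_tmul (S := F0) hc
  have h2 := h.map' (IsScalarTower.toAlgHom F0 (F0 ⊗[K0] K1) (Compositum K0 F0 K1)).toLinearMap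
    (LinearMap.ker_eq_bot.mpr (ofTensor_injective K0 F0 K1))
  exact h2

/-- **(ld2)** `K0`-linearly independent families of `F0` are `K1`-linearly independent in the
compositum. -/
theorem linearIndependent_left {ι : Type*} {f : ι → F0} (hf : LinearIndependent K0 f) :
    LinearIndependent K1 (fun i => algebraMap F0 (Compositum K0 F0 K1) (f i)) := by
  have h := Module.Flat.linearIndependent_one_tmul (S := K1) hf
  let g : K1 ⊗[K0] F0 →ₐ[K1] Compositum K0 F0 K1 :=
    Algebra.TensorProduct.lift (Algebra.ofId K1 (Compositum K0 F0 K1))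
      (IsScalarTower.toAlgHom K0 F0 (Compositum K0 F0 K1)) (fun _ _ => Commute.all _ _)
  have hg : ∀ z : K1 ⊗[K0] F0,
      g z = ofTensor K0 F0 K1 (Algebra.TensorProduct.comm K0 K1 F0 z) := by
    intro z
    induction z using TensorProduct.induction_on with
    | zero => simp
    | tmul c f' =>
      simp only [g, Algebra.TensorProduct.lift_tmul, Algebra.TensorProduct.comm_tmul,
        ofTensor_tmul]
      rw [mul_comm]
      rfl
    | add a b ha hb => rw [map_add, map_add, map_add, ha, hb]
  have hginj : Function.Injective g := by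
    intro a b hab
    rw [hg, hg] at hab
    exact (Algebra.TensorProduct.comm K0 K1 F0).injective (ofTensor_injective K0 F0 K1 hab)
  have h2 := h.map' g.toLinearMap (LinearMap.ker_eq_bot.mpr hginj)
  have he : (fun i => algebraMap F0 (Compositum K0 F0 K1) (f i)) =
      g.toLinearMap ∘ fun i => (1 : K1) ⊗ₜ[K0] f i := by
    funext i
    simp [g]
  rw [he]
  exact h2

end Compositum

end Def

section Finite

open IntermediateField

variable (K0 : Type u) (F0 : Type v) (K1 : Type w)
  [Field K0] [Field F0] [Algebra K0 F0] [Field K1] [Algebra K0 K1] [IsAlgClosed K0]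

/-- Transcendental elements of `F0` over `K0` stay transcendental over `K1` in the compositum. -/
theorem Compositum.transcendental_algebraMap {x : F0} (hx : Transcendental K0 x) :
    Transcendental K1 (algebraMap F0 (Compositum K0 F0 K1) x) := by
  have h1 : LinearIndependent K0 (fun n : ℕ => x ^ n) := by
    have h := (Polynomial.basisMonomials K0).linearIndependent.map'
      (Polynomial.aeval x).toLinearMap
      (LinearMap.ker_eq_bot.mpr (transcendental_iff_injective.mp hx))
    have he : (fun n : ℕ => x ^ n) =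
        (Polynomial.aeval x).toLinearMap ∘ (Polynomial.basisMonomials K0) := by
      funext n
      simp [Polynomial.aeval_monomial]
    rw [he]
    exact h
  have h2 := Compositum.linearIndependent_left K0 F0 K1 h1
  rw [transcendental_iff_injective, injective_iff_map_eq_zero]
  intro p hp
  have hsum : Finsupp.linearCombination K1
      (fun n : ℕ => algebraMap F0 (Compositum K0 F0 K1) (x ^ n)) p.toFinsupp.coeff =
      Polynomial.aeval (algebraMap F0 (Compositum K0 F0 K1) x) p := by
    rw [Finsupp.linearCombination_apply, Polynomial.aeval_def, Polynomial.eval₂_eq_sum,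
      Polynomial.sum_def, Finsupp.sum, Polynomial.support_toFinsupp]
    refine Finset.sum_congr rfl (fun n _ => ?_)
    rw [Algebra.smul_def, map_pow, Polynomial.toFinsupp_apply]
  have h3 := (linearIndependent_iff.mp h2) p.toFinsupp.coeff (by rw [hsum, hp])
  ext n
  rw [← Polynomial.toFinsupp_apply, h3]
  simp

/-- If `F0` is finite over `K0(x)`, the compositum is finite over `K1(x)`. -/
theorem Compositum.finiteDimensional_adjoin (x : F0) [FiniteDimensional K0⟮x⟯ F0] :
    FiniteDimensional K1⟮algebraMap F0 (Compositum K0 F0 K1) x⟯ (Compositum K0 F0 K1) := by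
  set X := algebraMap F0 (Compositum K0 F0 K1) x with hX
  let ψ : F0 →ₐ[K0] Compositum K0 F0 K1 := IsScalarTower.toAlgHom K0 F0 (Compositum K0 F0 K1)
  have hmem : ∀ a ∈ K0⟮x⟯, algebraMap F0 (Compositum K0 F0 K1) a ∈ K1⟮X⟯ := by
    intro a ha
    have h1 : ψ a ∈ (K0⟮x⟯).map ψ := ⟨a, ha, rfl⟩
    rw [IntermediateField.adjoin_map] at h1
    have h2 : IntermediateField.adjoin K0 (ψ '' {x}) ≤ (K1⟮X⟯).restrictScalars K0 := by
      rw [IntermediateField.adjoin_le_iff]
      rintro _ ⟨y, rfl, rfl⟩
      exact IntermediateField.mem_adjoin_simple_self K1 X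
    exact h2 h1
  let φ : K0⟮x⟯ →+* K1⟮X⟯ :=
    ((algebraMap F0 (Compositum K0 F0 K1)).comp (algebraMap K0⟮x⟯ F0)).codRestrict K1⟮X⟯
      (fun a => hmem a a.2)
  have hφ : (algebraMap K1⟮X⟯ (Compositum K0 F0 K1)).comp φ =
      (algebraMap F0 (Compositum K0 F0 K1)).comp (algebraMap K0⟮x⟯ F0) := by
    ext a
    rfl
  let b := Module.finBasis K0⟮x⟯ F0
  let B : Set (Compositum K0 F0 K1) :=
    Set.range (fun i => algebraMap F0 (Compositum K0 F0 K1) (b i))
  have hBfin : Finite B := Set.finite_range _
  have hint : ∀ z ∈ B, IsIntegral K1⟮X⟯ z := by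
    rintro _ ⟨i, rfl⟩
    exact IsIntegral.map_of_comp_eq φ (algebraMap F0 (Compositum K0 F0 K1)) hφ
      (Algebra.IsIntegral.isIntegral (b i))
  let L := IntermediateField.adjoin K1⟮X⟯ B
  have hLfin : FiniteDimensional K1⟮X⟯ L := IntermediateField.finiteDimensional_adjoin hint
  have hF0 : ∀ f : F0, algebraMap F0 (Compositum K0 F0 K1) f ∈ L := by
    intro f
    rw [← b.sum_repr f, map_sum]
    refine sum_mem (fun i _ => ?_)
    rw [Algebra.smul_def, map_mul]
    refine mul_mem ?_ (IntermediateField.subset_adjoin _ _ ⟨i, rfl⟩)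
    have he : algebraMap F0 (Compositum K0 F0 K1) (algebraMap K0⟮x⟯ F0 (b.repr f i)) =
        algebraMap K1⟮X⟯ (Compositum K0 F0 K1) (φ (b.repr f i)) := rfl
    rw [he]
    exact L.algebraMap_mem _
  have hLtop : L = ⊤ := by
    rw [eq_top_iff]
    intro z _
    have hgen := Compositum.adjoin_range_left_eq_top K0 F0 K1
    have hz : z ∈ IntermediateField.adjoin K1
        (Set.range (algebraMap F0 (Compositum K0 F0 K1))) := by
      rw [hgen]; trivial
    have hle : IntermediateField.adjoin K1 (Set.range (algebraMap F0 (Compositum K0 F0 K1))) ≤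
        L.restrictScalars K1 := by
      rw [IntermediateField.adjoin_le_iff]
      rintro _ ⟨f, rfl⟩
      exact hF0 f
    exact hle hz
  have hTfin : FiniteDimensional K1⟮X⟯ (⊤ : IntermediateField K1⟮X⟯ (Compositum K0 F0 K1)) :=
    hLtop ▸ hLfin
  exact Module.Finite.equiv
    (IntermediateField.topEquiv (F := K1⟮X⟯) (E := Compositum K0 F0 K1)).toLinearEquiv

end Finite

end Fermat.Agent.S27.helper8788
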