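import Mathlib
import Fermat.Prelude.Def_AlgebraicCurve_DivisorClassGroup
import Fermat.Prelude.Def_AlgebraicCurve_IsCurveOver
import Fermat.Prelude.Def_AlgebraicCurve_Repartitions

/-!
# S27-L-ISO: transport of the function-field package along field isomorphisms

Data: fields `K F K' F'` with `[Algebra K F] [Algebra K' F']`, ring isomorphisms
`σ : K ≃+* K'`, `e : F ≃+* F'` and the compatibility `Compat σ e`
(`e (algebraMap K F a) = algebraMap K' F' (σ a)`).

Main results (all for a compatible pair `h : Compat σ e`):

* `placeEquiv h : Place K F ≃ Place K' F'`, `ord_mapPlace`, `deg_mapPlace`;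
* `divEquiv h : Divisor K F ≃+ Divisor K' F'`, `degree_divEquiv`, `divEquiv_mem_principal`;
* `pic0Equiv h : Pic0 K F ≃+ Pic0 K' F'`, `natCard_torsion_eq`;
* `finrank_H1_eq`, `finrank_riemannRochSpace_eq`, `genusFF_eq`;
* `isCurveOver_of_compat`, `essFiniteType_of_compat`;
* `torsionCount_iff` for the conclusion of the frozen statement S27.
-/

set_option autoImplicit false

noncomputable section

open AlgebraicCurve

namespace Fermat.Agent.S27.helper931

universe u v u' v'

variable {K : Type u} {F : Type v} {K' : Type u'} {F' : Type v'}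
  [Field K] [Field F] [Algebra K F] [Field K'] [Field F'] [Algebra K' F']

/-- Compatibility of a pair of ring isomorphisms with the two algebra structures. -/
def Compat (σ : K ≃+* K') (e : F ≃+* F') : Prop :=
  ∀ a : K, e (algebraMap K F a) = algebraMap K' F' (σ a)

theorem Compat.symm {σ : K ≃+* K'} {e : F ≃+* F'} (h : Compat σ e) :
    Compat σ.symm e.symm := by
  intro a
  rw [RingEquiv.symm_apply_eq, h, RingEquiv.apply_symm_apply]

theorem Compat.refl : Compat (RingEquiv.refl K) (RingEquiv.refl F) := fun _ => rfl

variable {σ : K ≃+* K'} {e : F ≃+* F'}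

/-- Transport of a valuation subring along a ring isomorphism. -/
def mapVS (e : F ≃+* F') (A : ValuationSubring F) : ValuationSubring F' :=
  A.comap (e.symm : F' →+* F)

theorem mem_mapVS {A : ValuationSubring F} {x : F'} : x ∈ mapVS e A ↔ e.symm x ∈ A := Iff.rfl

/-- The ring isomorphism between a valuation subring and its transport. -/
def vsEquiv (e : F ≃+* F') (A : ValuationSubring F) : A ≃+* mapVS e A where
  toFun x := ⟨e x, by rw [mem_mapVS, RingEquiv.symm_apply_apply]; exact x.2⟩
  invFun y := ⟨e.symm y, y.2⟩
  left_inv x := by ext; simp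
  right_inv y := by ext; simp
  map_mul' x y := by ext; simp
  map_add' x y := by ext; simp

@[simp]
theorem coe_vsEquiv_apply (A : ValuationSubring F) (x : A) :
    ((vsEquiv e A x : mapVS e A) : F') = e x := rfl

/-- Transport of a place along a compatible pair of isomorphisms. -/
def mapPlace (h : Compat σ e) (v : Place K F) : Place K' F' where
  toValuationSubring := mapVS e v.toValuationSubring
  algebraMap_mem' a := by
    rw [mem_mapVS]
    have := h.symm a
    rw [this]
    exact v.algebraMap_mem' _
  ne_top' hT := v.ne_top' <| by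
    ext x
    simp only [ValuationSubring.mem_top, iff_true]
    have hx : e x ∈ mapVS e v.toValuationSubring := by rw [hT]; trivial
    simpa [mem_mapVS] using hx
  isPrincipalIdealRing' :=
    IsPrincipalIdealRing.of_surjective (vsEquiv e v.toValuationSubring : _ ≃+* _)
      (vsEquiv e v.toValuationSubring).surjective

@[simp]
theorem mapPlace_toValuationSubring (h : Compat σ e) (v : Place K F) :
    (mapPlace h v).toValuationSubring = mapVS e v.toValuationSubring := rfl

/-- The ring isomorphism between the valuation ring of a place and that of its transport. -/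
def placeRingEquiv (h : Compat σ e) (v : Place K F) :
    v.toValuationSubring ≃+* (mapPlace h v).toValuationSubring :=
  vsEquiv e v.toValuationSubring

@[simp]
theorem coe_placeRingEquiv_apply (h : Compat σ e) (v : Place K F) (x : v.toValuationSubring) :
    ((placeRingEquiv h v x : (mapPlace h v).toValuationSubring) : F') = e x := rfl

theorem mapPlace_symm_mapPlace (h : Compat σ e) (v : Place K F) :
    mapPlace h.symm (mapPlace h v) = v := by
  apply Place.ext
  ext x
  simp [mem_mapVS]

theorem mapPlace_mapPlace_symm (h : Compat σ e) (w : Place K' F') :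
    mapPlace h (mapPlace h.symm w) = w := by
  apply Place.ext
  ext x
  simp [mem_mapVS]

/-- The bijection between places induced by a compatible pair of isomorphisms. -/
def placeEquiv (h : Compat σ e) : Place K F ≃ Place K' F' where
  toFun := mapPlace h
  invFun := mapPlace h.symm
  left_inv := mapPlace_symm_mapPlace h
  right_inv := mapPlace_mapPlace_symm h

@[simp]
theorem placeEquiv_apply (h : Compat σ e) (v : Place K F) : placeEquiv h v = mapPlace h v := rfl

@[simp]
theorem placeEquiv_symm_apply (h : Compat σ e) (w : Place K' F') :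
    (placeEquiv h).symm w = mapPlace h.symm w := rfl

theorem ord_mapPlace (h : Compat σ e) (v : Place K F) (f : F) :
    (mapPlace h v).ord (e f) = v.ord f := by
  rcases eq_or_ne f 0 with rfl | hf
  · simp
  obtain ⟨π, hπ⟩ := IsDiscreteValuationRing.exists_irreducible v.toValuationSubring
  obtain ⟨u, hu⟩ := v.exists_unit_mul_zpow hf hπ
  set n := v.ord f with hn
  set E := placeRingEquiv h v with hE
  have hπ' : Irreducible (E π) := (MulEquiv.irreducible_iff E).mpr hπ
  have hu' : IsUnit (E (u : v.toValuationSubring)) := u.isUnit.map E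
  have hcoeu : ((hu'.unit : (mapPlace h v).toValuationSubring) : F')
      = e ((u : v.toValuationSubring) : F) := by
    rw [IsUnit.unit_spec]
    rfl
  have hcoeπ : ((E π : (mapPlace h v).toValuationSubring) : F') = e (π : F) := rfl
  have key : e f = ((hu'.unit : (mapPlace h v).toValuationSubring) : F')
      * (((E π : (mapPlace h v).toValuationSubring) : F') ^ n) := by
    rw [hcoeu, hcoeπ, hu, map_mul, map_zpow₀]
  rw [key, (mapPlace h v).ord_unit_smul_zpow hu'.unit hπ' n]

theorem ord_mapPlace_symm (h : Compat σ e) (w : Place K' F') (f : F) :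
    (mapPlace h.symm w).ord f = w.ord (e f) := by
  have := ord_mapPlace h (mapPlace h.symm w) f
  rw [mapPlace_mapPlace_symm] at this
  exact this.symm

theorem adicValuation_mapPlace (h : Compat σ e) (v : Place K F) (f : F) :
    (mapPlace h v).adicValuation (e f) = v.adicValuation f := by
  rcases eq_or_ne f 0 with rfl | hf
  · simp
  · have hf' : e f ≠ 0 := by simpa using hf
    rw [(mapPlace h v).adicValuation_eq_exp_neg_ord hf', v.adicValuation_eq_exp_neg_ord hf,
      ord_mapPlace]

/-- Finrank is invariant under an additive equivalence which is semilinear for a ring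
isomorphism of the scalars. -/
theorem finrank_eq_of_semilinear {M : Type*} {M' : Type*} [AddCommGroup M] [Module K M]
    [AddCommGroup M'] [Module K' M'] (σ : K ≃+* K') (j : M ≃+ M')
    (hc : ∀ (r : K) (m : M), j (r • m) = σ r • j m) :
    Module.finrank K M = Module.finrank K' M' := by
  have h1 := lift_rank_eq_of_equiv_equiv σ j σ.bijective hc
  have h2 := congrArg Cardinal.toNat h1
  simpa [Module.finrank] using h2

/-- The residue field isomorphism. -/
def residueEquiv (h : Compat σ e) (v : Place K F) :
    v.ResidueField ≃+* (mapPlace h v).ResidueField :=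
  IsLocalRing.ResidueField.mapEquiv (placeRingEquiv h v)

theorem residueEquiv_smul (h : Compat σ e) (v : Place K F) (r : K) (m : v.ResidueField) :
    residueEquiv h v (r • m) = σ r • residueEquiv h v m := by
  have h3 : (placeRingEquiv h v) (algebraMap K v.toValuationSubring r)
      = algebraMap K' (mapPlace h v).toValuationSubring (σ r) := by
    ext
    rw [coe_placeRingEquiv_apply, Place.coe_algebraMap, h r]
    rfl
  rw [Algebra.smul_def, Algebra.smul_def, map_mul]
  congr 1
  show IsLocalRing.ResidueField.mapEquiv _ (IsLocalRing.residue _ _) = IsLocalRing.residue _ _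
  rw [IsLocalRing.ResidueField.mapEquiv_apply, IsLocalRing.ResidueField.map_residue]
  exact congrArg _ h3

theorem deg_mapPlace (h : Compat σ e) (v : Place K F) : (mapPlace h v).deg = v.deg :=
  (finrank_eq_of_semilinear σ (residueEquiv h v).toAddEquiv (residueEquiv_smul h v)).symm

theorem finite_residueField_mapPlace (h : Compat σ e) (v : Place K F)
    [Module.Finite K v.ResidueField] : Module.Finite K' (mapPlace h v).ResidueField := by
  have h1 := lift_rank_eq_of_equiv_equiv σ (residueEquiv h v).toAddEquiv σ.bijective
    (residueEquiv_smul h v)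
  rw [← Module.rank_lt_aleph0_iff]
  have h2 : Module.rank K v.ResidueField < Cardinal.aleph0 := Module.rank_lt_aleph0 _ _
  have h3 : Cardinal.lift.{v} (Module.rank K' (mapPlace h v).ResidueField)
      < Cardinal.aleph0 := by
    rw [← h1]
    exact Cardinal.lift_lt_aleph0.mpr h2
  exact Cardinal.lift_lt_aleph0.mp h3

/-! ### Divisors and `Pic0` -/

/-- Transport of divisors. -/
def divEquiv (h : Compat σ e) : Divisor K F ≃+ Divisor K' F' :=
  Finsupp.domCongr (placeEquiv h)

theorem divEquiv_apply (h : Compat σ e) (D : Divisor K F) (w : Place K' F') :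
    divEquiv h D w = D (mapPlace h.symm w) := rfl

theorem divEquiv_apply_mapPlace (h : Compat σ e) (D : Divisor K F) (v : Place K F) :
    divEquiv h D (mapPlace h v) = D v := by
  rw [divEquiv_apply, mapPlace_symm_mapPlace]

theorem divEquiv_symm_apply (h : Compat σ e) (D : Divisor K' F') (v : Place K F) :
    (divEquiv h).symm D v = D (mapPlace h v) := rfl

@[simp]
theorem divEquiv_single (h : Compat σ e) (v : Place K F) (n : ℤ) :
    divEquiv h (Finsupp.single v n) = Finsupp.single (mapPlace h v) n := by
  show Finsupp.equivMapDomain (placeEquiv h) (Finsupp.single v n) = _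
  rw [Finsupp.equivMapDomain_single]
  rfl

theorem degree_divEquiv (h : Compat σ e) (D : Divisor K F) :
    Divisor.degree (divEquiv h D) = Divisor.degree D := by
  induction D using Finsupp.induction with
  | zero => simp
  | single_add v n D _ _ ih =>
      rw [map_add, map_add, map_add, ih, divEquiv_single, Divisor.degree_single,
        Divisor.degree_single, deg_mapPlace]

theorem divEquiv_mem_principal (h : Compat σ e) {D : Divisor K F} :
    divEquiv h D ∈ Divisor.principal (K := K') (F := F') ↔
      D ∈ Divisor.principal (K := K) (F := F) := by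
  constructor
  · rintro ⟨f, hf, hD⟩
    refine ⟨e.symm f, by simpa using hf, fun v => ?_⟩
    have h1 := hD (mapPlace h v)
    rw [divEquiv_apply_mapPlace] at h1
    rw [h1, ← ord_mapPlace h v (e.symm f), RingEquiv.apply_symm_apply]
  · rintro ⟨f, hf, hD⟩
    refine ⟨e f, by simpa using hf, fun w => ?_⟩
    rw [divEquiv_apply, hD, ord_mapPlace_symm h]

/-- Transport of degree-zero divisors. -/
def degZeroEquiv (h : Compat σ e) :
    Divisor.degZero (K := K) (F := F) ≃+ Divisor.degZero (K := K') (F := F') where
  toFun D := ⟨divEquiv h D, by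
    rw [Divisor.mem_degZero, degree_divEquiv]; exact D.2⟩
  invFun D := ⟨(divEquiv h).symm D, by
    rw [Divisor.mem_degZero, ← degree_divEquiv h, AddEquiv.apply_symm_apply]; exact D.2⟩
  left_inv D := Subtype.ext (by simp)
  right_inv D := Subtype.ext (by simp)
  map_add' D E := Subtype.ext (by simp)

@[simp]
theorem coe_degZeroEquiv (h : Compat σ e) (D : Divisor.degZero (K := K) (F := F)) :
    (degZeroEquiv h D : Divisor K' F') = divEquiv h (D : Divisor K F) := rfl

/-- Transport of the degree-zero class group. -/
def pic0Equiv (h : Compat σ e) : Pic0 K F ≃+ Pic0 K' F' :=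
  QuotientAddGroup.congr _ _ (degZeroEquiv h) (by
    ext x
    simp only [AddSubgroup.mem_map, AddSubgroup.mem_addSubgroupOf]
    constructor
    · rintro ⟨D, hD, rfl⟩
      exact (divEquiv_mem_principal h).mpr hD
    · intro hx
      refine ⟨(degZeroEquiv h).symm x, ?_, by simp⟩
      rw [← divEquiv_mem_principal h, ← coe_degZeroEquiv, AddEquiv.apply_symm_apply]
      exact hx)

theorem pic0Equiv_mk (h : Compat σ e) (D : Divisor.degZero (K := K) (F := F)) :
    pic0Equiv h (Pic0.mk D) = Pic0.mk (degZeroEquiv h D) := rfl

/-- The torsion subgroups have the same cardinality. -/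
theorem natCard_torsion_eq (h : Compat σ e) (n : ℕ) :
    Nat.card (Pic0.torsion K F n) = Nat.card (Pic0.torsion K' F' n) :=
  Nat.card_congr ((pic0Equiv h).toEquiv.subtypeEquiv fun x => by
    show x ∈ Pic0.torsion K F n ↔ pic0Equiv h x ∈ Pic0.torsion K' F' n
    rw [Pic0.mem_torsion, Pic0.mem_torsion, ← map_zsmul, map_eq_zero_iff _ (pic0Equiv h).injective])

/-! ### Repartitions -/

/-- Transport of families indexed by places. -/
def funEquiv (h : Compat σ e) : (Place K F → F) ≃+* (Place K' F' → F') where
  toFun α w := e (α (mapPlace h.symm w))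
  invFun β v := e.symm (β (mapPlace h v))
  left_inv α := by funext v; simp [mapPlace_symm_mapPlace]
  right_inv β := by funext w; simp [mapPlace_mapPlace_symm]
  map_mul' α β := by funext w; simp
  map_add' α β := by funext w; simp

@[simp]
theorem funEquiv_apply (h : Compat σ e) (α : Place K F → F) (w : Place K' F') :
    funEquiv h α w = e (α (mapPlace h.symm w)) := rfl

@[simp]
theorem funEquiv_symm_apply (h : Compat σ e) (β : Place K' F' → F') (v : Place K F) :
    (funEquiv h).symm β v = e.symm (β (mapPlace h v)) := rfl

theorem funEquiv_mem (h : Compat σ e) {α : Place K F → F} (hα : α ∈ repartitions K F) :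
    funEquiv h α ∈ repartitions K' F' := by
  unfold repartitions at hα
  induction hα using Algebra.adjoin_induction with
  | mem x hx =>
      refine mem_repartitions_of_finite ((Set.Finite.image (mapPlace h) hx).subset ?_)
      intro w (hw : ¬ w.adicValuation (funEquiv h x w) ≤ 1)
      refine ⟨mapPlace h.symm w, ?_, mapPlace_mapPlace_symm h w⟩
      show ¬ (mapPlace h.symm w).adicValuation (x (mapPlace h.symm w)) ≤ 1
      intro hle
      apply hw
      rw [funEquiv_apply]
      have := adicValuation_mapPlace h (mapPlace h.symm w) (x (mapPlace h.symm w))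
      rw [mapPlace_mapPlace_symm] at this
      rw [this]
      exact hle
  | algebraMap r =>
      have : funEquiv h (algebraMap F (Place K F → F) r)
          = algebraMap F' (Place K' F' → F') (e r) := by
        funext w
        simp [Pi.algebraMap_apply]
      rw [this]
      exact Subalgebra.algebraMap_mem _ _
  | add x y _ _ ihx ihy =>
      rw [map_add]
      exact add_mem ihx ihy
  | mul x y _ _ ihx ihy =>
      rw [map_mul]
      exact mul_mem ihx ihy

theorem funEquiv_symm_mem (h : Compat σ e) {β : Place K' F' → F'}
    (hβ : β ∈ repartitions K' F') : (funEquiv h).symm β ∈ repartitions K F := by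
  have h1 := funEquiv_mem h.symm hβ
  have h2 : funEquiv h.symm β = (funEquiv h).symm β := by
    funext v
    simp only [funEquiv_apply, funEquiv_symm_apply]
    congr 2
  rwa [h2] at h1

/-- Transport of repartitions. -/
def repEquiv (h : Compat σ e) : ↥(repartitions K F) ≃+* ↥(repartitions K' F') where
  toFun α := ⟨funEquiv h α, funEquiv_mem h α.2⟩
  invFun β := ⟨(funEquiv h).symm β, funEquiv_symm_mem h β.2⟩
  left_inv α := Subtype.ext (by simp)
  right_inv β := Subtype.ext (by simp)
  map_mul' α β := Subtype.ext (by simp)
  map_add' α β := Subtype.ext (by simp)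

@[simp]
theorem coe_repEquiv_apply (h : Compat σ e) (α : ↥(repartitions K F)) (w : Place K' F') :
    (repEquiv h α : Place K' F' → F') w = e ((α : Place K F → F) (mapPlace h.symm w)) := rfl

@[simp]
theorem coe_repEquiv_symm_apply (h : Compat σ e) (β : ↥(repartitions K' F')) (v : Place K F) :
    ((repEquiv h).symm β : Place K F → F) v = e.symm ((β : Place K' F' → F') (mapPlace h v)) := rfl

theorem repEquiv_smul (h : Compat σ e) (c : K) (α : ↥(repartitions K F)) :
    repEquiv h (c • α) = σ c • repEquiv h α := by
  apply Subtype.ext
  funext w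
  show e ((c • (α : Place K F → F)) (mapPlace h.symm w))
    = (σ c • (repEquiv h α : Place K' F' → F')) w
  rw [Pi.smul_apply, Pi.smul_apply, Algebra.smul_def, Algebra.smul_def, map_mul, h c]
  rfl

theorem repEquiv_mem_repartitionsOf (h : Compat σ e) {D : Divisor K F}
    {α : ↥(repartitions K F)} :
    repEquiv h α ∈ repartitionsOf (divEquiv h D) ↔ α ∈ repartitionsOf D := by
  constructor
  · intro hα v
    have h1 := hα (mapPlace h v)
    rw [coe_repEquiv_apply, mapPlace_symm_mapPlace, adicValuation_mapPlace,
      divEquiv_apply_mapPlace] at h1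
    exact h1
  · intro hα w
    have h1 := hα (mapPlace h.symm w)
    have h2 := adicValuation_mapPlace h (mapPlace h.symm w)
      ((α : Place K F → F) (mapPlace h.symm w))
    rw [mapPlace_mapPlace_symm] at h2
    rw [coe_repEquiv_apply, h2, divEquiv_apply]
    exact h1

theorem repEquiv_mem_principalRepartitions (h : Compat σ e) {α : ↥(repartitions K F)} :
    repEquiv h α ∈ principalRepartitions K' F' ↔ α ∈ principalRepartitions K F := by
  rw [mem_principalRepartitions_iff, mem_principalRepartitions_iff]
  constructor
  · rintro ⟨f, hf⟩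
    refine ⟨e.symm f, ?_⟩
    funext v
    have := congrFun hf (mapPlace h v)
    rw [coe_repEquiv_apply, mapPlace_symm_mapPlace] at this
    rw [← this, RingEquiv.symm_apply_apply]
  · rintro ⟨f, hf⟩
    refine ⟨e f, ?_⟩
    funext w
    rw [coe_repEquiv_apply, hf]

theorem repEquiv_mem_sup (h : Compat σ e) {D : Divisor K F} {α : ↥(repartitions K F)} :
    repEquiv h α ∈ repartitionsOf (divEquiv h D) ⊔ principalRepartitions K' F' ↔
      α ∈ repartitionsOf D ⊔ principalRepartitions K F := by
  simp only [Submodule.mem_sup]
  constructor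
  · rintro ⟨y, hy, z, hz, hyz⟩
    refine ⟨(repEquiv h).symm y, ?_, (repEquiv h).symm z, ?_, ?_⟩
    · rw [← repEquiv_mem_repartitionsOf h, RingEquiv.apply_symm_apply]; exact hy
    · rw [← repEquiv_mem_principalRepartitions h, RingEquiv.apply_symm_apply]; exact hz
    · rw [← map_add, hyz, RingEquiv.symm_apply_apply]
  · rintro ⟨y, hy, z, hz, hyz⟩
    refine ⟨repEquiv h y, (repEquiv_mem_repartitionsOf h).mpr hy, repEquiv h z,
      (repEquiv_mem_principalRepartitions h).mpr hz, ?_⟩
    rw [← map_add, hyz]

/-- The semilinear map underlying `repEquiv`. -/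
def repSemilinear (h : Compat σ e) :
    ↥(repartitions K F) →ₛₗ[(σ : K →+* K')] ↥(repartitions K' F') where
  toFun := repEquiv h
  map_add' := map_add _
  map_smul' := repEquiv_smul h

@[simp]
theorem repSemilinear_apply (h : Compat σ e) (α : ↥(repartitions K F)) :
    repSemilinear h α = repEquiv h α := rfl

/-- The semilinear map underlying `(repEquiv h).symm`. -/
def repSemilinearSymm (h : Compat σ e) :
    ↥(repartitions K' F') →ₛₗ[(σ.symm : K' →+* K)] ↥(repartitions K F) where
  toFun := (repEquiv h).symm
  map_add' := map_add _
  map_smul' c β := by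
    show (repEquiv h).symm (c • β) = σ.symm c • (repEquiv h).symm β
    rw [RingEquiv.symm_apply_eq, repEquiv_smul, RingEquiv.apply_symm_apply,
      RingEquiv.apply_symm_apply]

@[simp]
theorem repSemilinearSymm_apply (h : Compat σ e) (β : ↥(repartitions K' F')) :
    repSemilinearSymm h β = (repEquiv h).symm β := rfl

/-- The additive isomorphism `H1 D ≃+ H1 (divEquiv h D)`. -/
def h1Equiv (h : Compat σ e) (D : Divisor K F) : H1 D ≃+ H1 (divEquiv h D) where
  toFun := Submodule.mapQ _ _ (repSemilinear h) (fun α hα => by
    rw [Submodule.mem_comap, repSemilinear_apply]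
    exact (repEquiv_mem_sup h).mpr hα)
  invFun := Submodule.mapQ _ _ (repSemilinearSymm h) (fun β hβ => by
    rw [Submodule.mem_comap, repSemilinearSymm_apply, ← repEquiv_mem_sup h,
      RingEquiv.apply_symm_apply]
    exact hβ)
  left_inv x := by
    induction x using Submodule.Quotient.induction_on with
    | _ α => simp [Submodule.mapQ_apply]
  right_inv x := by
    induction x using Submodule.Quotient.induction_on with
    | _ β => simp [Submodule.mapQ_apply]
  map_add' := map_add _

theorem h1Equiv_smul (h : Compat σ e) (D : Divisor K F) (c : K) (x : H1 D) :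
    h1Equiv h D (c • x) = σ c • h1Equiv h D x := by
  induction x using Submodule.Quotient.induction_on with
  | _ α =>
    rw [← Submodule.Quotient.mk_smul]
    show Submodule.Quotient.mk (repEquiv h (c • α)) = σ c • Submodule.Quotient.mk (repEquiv h α)
    rw [repEquiv_smul, Submodule.Quotient.mk_smul]

/-- `h¹` is invariant under transport. -/
theorem finrank_H1_eq (h : Compat σ e) (D : Divisor K F) :
    Module.finrank K (H1 D) = Module.finrank K' (H1 (divEquiv h D)) :=
  finrank_eq_of_semilinear σ (h1Equiv h D) (h1Equiv_smul h D)

/-- Finiteness of `H1` is invariant under transport. -/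
theorem finite_H1_of_compat (h : Compat σ e) (D : Divisor K F) [Module.Finite K (H1 D)] :
    Module.Finite K' (H1 (divEquiv h D)) := by
  have h1 := lift_rank_eq_of_equiv_equiv σ (h1Equiv h D) σ.bijective (h1Equiv_smul h D)
  have : Module.Free K' (H1 (divEquiv h D)) := Module.Free.of_divisionRing K' _
  rw [← Module.rank_lt_aleph0_iff]
  have h2 : Module.rank K (H1 D) < Cardinal.aleph0 := Module.rank_lt_aleph0 _ _
  have h3 : Cardinal.lift.{v} (Module.rank K' (H1 (divEquiv h D)))
      < Cardinal.aleph0 := by
    rw [← h1]
    exact Cardinal.lift_lt_aleph0.mpr h2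
  exact Cardinal.lift_lt_aleph0.mp h3

/-- The genus is invariant under transport. -/
theorem genusFF_eq (h : Compat σ e) : genusFF K F = genusFF K' F' := by
  have h1 := finrank_H1_eq h (0 : Divisor K F)
  have h2 : divEquiv h (0 : Divisor K F) = 0 := map_zero _
  rw [h2] at h1
  exact h1

/-- The additive isomorphism between Riemann–Roch spaces. -/
def rrEquiv (h : Compat σ e) (D : Divisor K F) :
    ↥(riemannRochSpace D) ≃+ ↥(riemannRochSpace (divEquiv h D)) where
  toFun f := ⟨e f, fun w => by
    have h1 := f.2 (mapPlace h.symm w)
    have h2 := adicValuation_mapPlace h (mapPlace h.symm w) (f : F)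
    rw [mapPlace_mapPlace_symm] at h2
    rw [h2, divEquiv_apply]
    exact h1⟩
  invFun g := ⟨e.symm g, fun v => by
    have h1 := g.2 (mapPlace h v)
    rw [divEquiv_apply_mapPlace] at h1
    have h2 := adicValuation_mapPlace h v (e.symm (g : F'))
    rw [RingEquiv.apply_symm_apply] at h2
    rw [← h2]
    exact h1⟩
  left_inv f := Subtype.ext (by simp)
  right_inv g := Subtype.ext (by simp)
  map_add' f g := Subtype.ext (by simp)

@[simp]
theorem coe_rrEquiv_apply (h : Compat σ e) (D : Divisor K F) (f : ↥(riemannRochSpace D)) :
    (rrEquiv h D f : F') = e (f : F) := rfl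

theorem rrEquiv_smul (h : Compat σ e) (D : Divisor K F) (c : K) (f : ↥(riemannRochSpace D)) :
    rrEquiv h D (c • f) = σ c • rrEquiv h D f := by
  apply Subtype.ext
  show e (c • (f : F)) = σ c • e (f : F)
  rw [Algebra.smul_def, Algebra.smul_def, map_mul, h c]

/-- `ℓ(D)` is invariant under transport. -/
theorem finrank_riemannRochSpace_eq (h : Compat σ e) (D : Divisor K F) :
    Module.finrank K (riemannRochSpace D) = Module.finrank K' (riemannRochSpace (divEquiv h D)) :=
  finrank_eq_of_semilinear σ (rrEquiv h D) (rrEquiv_smul h D)

/-! ### Kähler differentials, `IsCurveOver`, `EssFiniteType` -/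

open KaehlerDifferential in
theorem exists_kaehler_map (h : Compat σ e) :
    ∃ f : Ω[F⁄K] →+ Ω[F'⁄K'], (∀ (x : F) (m : Ω[F⁄K]), f (x • m) = e x • f m) ∧
      ∀ x : F, f (KaehlerDifferential.D K F x) = KaehlerDifferential.D K' F' (e x) := by
  let _ : Algebra K K' := σ.toRingHom.toAlgebra
  let _ : Algebra F F' := e.toRingHom.toAlgebra
  let _ : Algebra K F' := ((algebraMap K' F').comp σ.toRingHom).toAlgebra
  have : IsScalarTower K K' F' := IsScalarTower.of_algebraMap_eq (fun _ => rfl)
  have : IsScalarTower K F F' := IsScalarTower.of_algebraMap_eq (fun a => (h a).symm)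
  refine ⟨(KaehlerDifferential.map K K' F F').toAddMonoidHom, fun x m => ?_, fun x => ?_⟩
  · show KaehlerDifferential.map K K' F F' (x • m) = e x • KaehlerDifferential.map K K' F F' m
    rw [map_smul]
    exact algebraMap_smul F' x _
  · exact KaehlerDifferential.map_D K K' F F' x

open KaehlerDifferential in
/-- The additive isomorphism between the modules of Kähler differentials. -/
theorem exists_kaehler_equiv (h : Compat σ e) :
    ∃ f : Ω[F⁄K] ≃+ Ω[F'⁄K'], ∀ (x : F) (m : Ω[F⁄K]), f (x • m) = e x • f m := by
  obtain ⟨f, hf, hfD⟩ := exists_kaehler_map h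
  obtain ⟨g, hg, hgD⟩ := exists_kaehler_map h.symm
  have hgf : ∀ m : Ω[F⁄K], g (f m) = m := by
    intro m
    have hm : m ∈ Submodule.span F (Set.range (KaehlerDifferential.D K F)) := by
      rw [KaehlerDifferential.span_range_derivation]; trivial
    induction hm using Submodule.span_induction with
    | mem x hx =>
      obtain ⟨y, rfl⟩ := hx
      rw [hfD, hgD, RingEquiv.symm_apply_apply]
    | zero => simp
    | add x y _ _ hx hy => rw [map_add, map_add, hx, hy]
    | smul a x _ hx => rw [hf, hg, hx, RingEquiv.symm_apply_apply]
  have hfg : ∀ m : Ω[F'⁄K'], f (g m) = m := by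
    intro m
    have hm : m ∈ Submodule.span F' (Set.range (KaehlerDifferential.D K' F')) := by
      rw [KaehlerDifferential.span_range_derivation]; trivial
    induction hm using Submodule.span_induction with
    | mem x hx =>
      obtain ⟨y, rfl⟩ := hx
      rw [hgD, hfD]
      simp
    | zero => simp
    | add x y _ _ hx hy => rw [map_add, map_add, hx, hy]
    | smul a x _ hx =>
      rw [hg, hf, hx]
      simp
  exact ⟨{ toFun := f, invFun := g, left_inv := hgf, right_inv := hfg, map_add' := map_add f },
    hf⟩

open KaehlerDifferential in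
theorem finrank_kaehler_eq (h : Compat σ e) :
    Module.finrank F Ω[F⁄K] = Module.finrank F' Ω[F'⁄K'] := by
  obtain ⟨f, hf⟩ := exists_kaehler_equiv h
  exact finrank_eq_of_semilinear e f hf

/-- `HasPrincipalDivisors` is invariant under transport. -/
theorem hasPrincipalDivisors_of_compat (h : Compat σ e) [HasPrincipalDivisors K F] :
    HasPrincipalDivisors K' F' where
  exists_divisor f hf := by
    obtain ⟨D, hD, hdeg⟩ := HasPrincipalDivisors.exists_divisor (K := K) (e.symm f)
      (by simpa using hf)
    refine ⟨divEquiv h D, fun w => ?_, by rw [degree_divEquiv, hdeg]⟩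
    rw [divEquiv_apply, hD, ord_mapPlace_symm h, RingEquiv.apply_symm_apply]

/-- `IsCurveOver` is invariant under transport. -/
theorem isCurveOver_of_compat (h : Compat σ e) [IsCurveOver K F] : IsCurveOver K' F' :=
  { hasPrincipalDivisors_of_compat h with
    finiteResidue := fun w => by
      have h1 : Module.Finite K (mapPlace h.symm w).ResidueField :=
        IsCurveOver.finiteResidue _
      have h2 := finite_residueField_mapPlace h (mapPlace h.symm w)
      rwa [mapPlace_mapPlace_symm] at h2
    kaehler_free_rank_one :=
      ⟨Module.Free.of_divisionRing F' _, by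
        rw [← finrank_kaehler_eq h]; exact IsCurveOver.finrank_kaehler⟩ }

/-- `Algebra.EssFiniteType` is invariant under transport. -/
theorem essFiniteType_of_compat (h : Compat σ e) [Algebra.EssFiniteType K F] :
    Algebra.EssFiniteType K' F' := by
  let _ : Algebra K K' := σ.toRingHom.toAlgebra
  let _ : Algebra F F' := e.toRingHom.toAlgebra
  let _ : Algebra K F' := ((algebraMap K' F').comp σ.toRingHom).toAlgebra
  have : IsScalarTower K K' F' := IsScalarTower.of_algebraMap_eq (fun _ => rfl)
  have : IsScalarTower K F F' := IsScalarTower.of_algebraMap_eq (fun a => (h a).symm)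
  have : Algebra.FiniteType F F' :=
    Algebra.FiniteType.of_surjective (Algebra.ofId F F') e.surjective
  have : Algebra.EssFiniteType K F' := Algebra.EssFiniteType.comp K F F'
  exact Algebra.EssFiniteType.of_comp K K' F'

/-! ### The conclusion of S27 -/

/-- The conclusion of the frozen statement S27 for a pair `K`, `F`. -/
def TorsionCount (K : Type u) (F : Type v) [Field K] [Field F] [Algebra K F] : Prop :=
  ∀ (ℓ : ℕ) [Fact ℓ.Prime] (k : ℕ),
    Nat.card (Pic0.torsion K F (ℓ ^ k)) = ℓ ^ (2 * genusFF K F * k)

theorem TorsionCount.of_compat (h : Compat σ e) (H : TorsionCount K F) : TorsionCount K' F' := by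
  intro ℓ _ k
  rw [← natCard_torsion_eq h, ← genusFF_eq h]
  exact H ℓ k

theorem torsionCount_iff (h : Compat σ e) : TorsionCount K F ↔ TorsionCount K' F' :=
  ⟨TorsionCount.of_compat h, TorsionCount.of_compat h.symm⟩

/-! ### The `AlgEquiv` case, universe shrinking, change of the constant field -/

theorem Compat.of_algEquiv {F₂ : Type*} [Field F₂] [Algebra K F₂] (e : F ≃ₐ[K] F₂) :
    Compat (RingEquiv.refl K) e.toRingEquiv := fun a => e.commutes a

/-- A finitely generated field extension of `K : Type u` is `u`-small. -/
theorem small_of_essFiniteType (K : Type u) (F : Type v) [Field K] [Field F] [Algebra K F]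
    [Algebra.EssFiniteType K F] : Small.{u} F := by
  obtain ⟨s, hs⟩ := IntermediateField.fg_top (F := K) (E := F)
  have h1 := IntermediateField.lift_cardinalMk_adjoin_le K (s : Set F)
  rw [hs] at h1
  have h2 : Cardinal.mk (⊤ : IntermediateField K F) = Cardinal.mk F :=
    Cardinal.mk_congr (IntermediateField.topEquiv (F := K) (E := F)).toEquiv
  rw [h2] at h1
  have h3 : Cardinal.lift.{u} (Cardinal.mk F)
      ≤ Cardinal.lift.{v} (Cardinal.mk (K ⊕ ULift.{u} ℕ)) := by
    refine h1.trans ?_
    have hs' : Cardinal.lift.{u} (Cardinal.mk (s : Set F)) ≤ Cardinal.aleph0 := by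
      rw [← Cardinal.lift_aleph0.{u, v}, Cardinal.lift_le]
      exact (Cardinal.lt_aleph0_of_finite _).le
    have hK : Cardinal.lift.{v} (Cardinal.mk K)
        ≤ Cardinal.lift.{v} (Cardinal.mk (K ⊕ ULift.{u} ℕ)) := by
      rw [Cardinal.lift_le, Cardinal.mk_sum]
      simp
    have hN : Cardinal.aleph0 ≤ Cardinal.lift.{v} (Cardinal.mk (K ⊕ ULift.{u} ℕ)) := by
      rw [← Cardinal.lift_aleph0.{v, u}, Cardinal.lift_le, Cardinal.mk_sum]
      simp
    exact sup_le (sup_le hK (hs'.trans hN)) hN
  obtain ⟨f⟩ := Cardinal.lift_mk_le'.mp h3
  exact small_of_injective f.injective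

/-- Universe shrinking: if the conclusion of S27 holds for all function fields over `K` living
in the universe of `K`, it holds in every universe. -/
theorem torsionCount_of_small (K : Type u) [Field K]
    (hC : ∀ (F : Type u) [Field F] [Algebra K F] [IsCurveOver K F] [Algebra.EssFiniteType K F],
      TorsionCount K F)
    (F : Type v) [Field F] [Algebra K F] [IsCurveOver K F] [Algebra.EssFiniteType K F] :
    TorsionCount K F := by
  have : Small.{u} F := small_of_essFiniteType K F
  have h : Compat (RingEquiv.refl K) (Shrink.algEquiv K F).symm.toRingEquiv :=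
    Compat.of_algEquiv _
  have : IsCurveOver K (Shrink.{u} F) := isCurveOver_of_compat h
  have : Algebra.EssFiniteType K (Shrink.{u} F) := essFiniteType_of_compat h
  exact (torsionCount_iff h).mpr (hC (Shrink.{u} F))

/-- Change of the constant field along a ring isomorphism `σ : K ≃+* K'`. -/
theorem torsionCount_of_ringEquiv {K : Type u} {K' : Type u'} [Field K] [Field K']
    (σ : K ≃+* K')
    (hC : ∀ (F : Type u) [Field F] [Algebra K F] [IsCurveOver K F] [Algebra.EssFiniteType K F],
      TorsionCount K F)
    (F : Type v) [Field F] [Algebra K' F] [IsCurveOver K' F] [Algebra.EssFiniteType K' F] :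
    TorsionCount K' F := by
  let _ : Algebra K F := ((algebraMap K' F).comp σ.toRingHom).toAlgebra
  have h : Compat (K := K) (F := F) (K' := K') (F' := F) σ (RingEquiv.refl F) := fun _ => rfl
  have : IsCurveOver K F := isCurveOver_of_compat h.symm
  have : Algebra.EssFiniteType K F := essFiniteType_of_compat h.symm
  exact (torsionCount_iff h).mp (torsionCount_of_small K hC F)

/-- **Reduction of S27 to the complex numbers in universe `0`**, for constant fields of
cardinality continuum: if the conclusion of S27 holds for every function field `F : Type`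
over `ℂ`, then it holds for every function field (in any universe) over every algebraically
closed field of characteristic zero and cardinality continuum. -/
theorem torsionCount_of_card_eq_continuum
    (hC : ∀ (F : Type) [Field F] [Algebra ℂ F] [IsCurveOver ℂ F] [Algebra.EssFiniteType ℂ F],
      TorsionCount ℂ F)
    (K : Type u) [Field K] [IsAlgClosed K] [CharZero K]
    (hK : Cardinal.mk K = Cardinal.continuum)
    (F : Type v) [Field F] [Algebra K F] [IsCurveOver K F] [Algebra.EssFiniteType K F] :
    TorsionCount K F := by
  have h1 : Cardinal.aleph0 < Cardinal.mk ℂ := by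
    rw [Cardinal.mk_complex]; exact Cardinal.aleph0_lt_continuum
  have h2 : Nonempty (ℂ ≃ K) := by
    rw [← Cardinal.lift_mk_eq', Cardinal.mk_complex, hK, Cardinal.lift_continuum,
      Cardinal.lift_continuum]
  obtain ⟨σ⟩ := IsAlgClosed.ringEquiv_of_equiv_of_charZero h1 h2
  exact torsionCount_of_ringEquiv σ hC F

end Fermat.Agent.S27.helper931
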