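import Fermat.Agent.S27.helper8094_LefSpec
import Fermat.Agent.S27.helper6247_Spec
import Fermat.Agent.S27.helper931_Transport
import Fermat.Agent.S27.helper1949_CurveOfFinite
import Fermat.Agent.S27.helper8788_Compositum
import Fermat.Agent.S27.helper1197_FieldKit
import Fermat.Agent.S27.helper5411_Reduce

/-!
# S27, module L (Lefschetz transfer): assembly (helper8094)

`transfer_of` proves the captain's `helper6247.Stmt_Transfer` (the complex case implies the
general case) from the `Prop` interfaces of `helper8094_LefSpec`: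

* `Stmt_CFE1`, `Stmt_CFE4` (comparison under constant field extension),
* `Stmt_DESC` (descent of torsion classes from `ℂ`),
* `Stmt_Down2` (countable models),
* `Stmt_WeakRR` (weak Riemann–Roch).

Flow: a curve `F/K` has countable models `F0/K0` capturing any finite set of places; `K0` embeds
into `ℂ` and `F0 · ℂ` is a curve over `ℂ`; comparison + descent give the count for `F0/K0`;
finitely many torsion classes of `F` live on one model, which gives the count for `F/K`.
-/

set_option autoImplicit false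
set_option linter.style.haveILetI false

open AlgebraicCurve TensorProduct
open scoped IntermediateField

namespace Fermat.Agent.S27.helper8094

universe u v u' v'

/-- (DOWN2) A curve has countable models on which any given finite set of places is
nontrivial. -/
def Stmt_Down2 : Prop :=
  ∀ (K : Type u) (F : Type v) [Field K] [Field F] [Algebra K F] [IsAlgClosed K] [CharZero K]
    [IsCurveOver K F] [Algebra.EssFiniteType K F] (P : Finset (Place K F)),
    ∃ (K0 : Type u) (F0 : Type v) (_ : Field K0) (_ : Field F0) (_ : Algebra K0 F0)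
      (_ : Algebra K0 K) (_ : Algebra F0 F) (_ : Algebra K0 F)
      (_ : IsScalarTower K0 F0 F) (_ : IsScalarTower K0 K F)
      (_ : IsAlgClosed K0) (_ : IsCurveOver K0 F0) (_ : Algebra.EssFiniteType K0 F0),
      Countable K0 ∧ IsConstExt K0 F0 K F ∧
      ∀ w ∈ P, ∃ f : F0, f ≠ 0 ∧ w.ord (algebraMap F0 F f) ≠ 0

/-! ## Generalities on `Pic0` -/

section Pic

variable {K : Type u} {F : Type v} [Field K] [Field F] [Algebra K F]

theorem mk_eq_zero_iff (D : Divisor.degZero (K := K) (F := F)) :
    Pic0.mk D = 0 ↔ (D : Divisor K F) ∈ Divisor.principal (K := K) (F := F) := by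
  unfold Pic0.mk
  rw [QuotientAddGroup.eq_zero_iff]
  exact AddSubgroup.mem_addSubgroupOf

theorem mk_sub (D E : Divisor.degZero (K := K) (F := F)) :
    Pic0.mk (D - E) = Pic0.mk D - Pic0.mk E := rfl

theorem mk_eq_mk_iff (D E : Divisor.degZero (K := K) (F := F)) :
    Pic0.mk D = Pic0.mk E ↔
      (D : Divisor K F) - (E : Divisor K F) ∈ Divisor.principal (K := K) (F := F) := by
  rw [← sub_eq_zero, ← mk_sub, mk_eq_zero_iff]
  rfl

theorem mk_zsmul (m : ℤ) (D : Divisor.degZero (K := K) (F := F)) :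
    Pic0.mk (m • D) = m • Pic0.mk D := rfl

theorem mk_mem_torsion_iff (n : ℕ) (D : Divisor.degZero (K := K) (F := F)) :
    Pic0.mk D ∈ Pic0.torsion K F n ↔
      n • (D : Divisor K F) ∈ Divisor.principal (K := K) (F := F) := by
  rw [Pic0.mem_torsion, ← mk_zsmul, mk_eq_zero_iff, natCast_zsmul]
  rfl

/-- A place is determined by its order function. -/
theorem place_ext_ord {v v' : Place K F} (h : ∀ f : F, v.ord f = v'.ord f) : v = v' := by
  have key : ∀ (w : Place K F) (f : F), f ∈ w.toValuationSubring ↔ f = 0 ∨ 0 ≤ w.ord f := by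
    intro w f
    constructor
    · intro hf
      exact w.adicValuation_le_one_iff.mp (w.adicValuation_le_one_of_mem hf)
    · rintro (rfl | hf)
      · exact zero_mem _
      · rcases eq_or_ne f 0 with rfl | hf0
        · exact zero_mem _
        obtain ⟨π, hπ⟩ := IsDiscreteValuationRing.exists_irreducible w.toValuationSubring
        obtain ⟨u, hu⟩ := w.exists_unit_mul_zpow hf0 hπ
        rw [hu]
        refine mul_mem u.1.2 ?_
        obtain ⟨n, hn⟩ := Int.eq_ofNat_of_zero_le hf
        rw [hn, zpow_natCast]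
        exact pow_mem π.2 n
  apply Place.ext
  ext f
  rw [key, key, h]

/-- Counting a set through its finite subsets. -/
theorem natCard_eq_of_forall_finset {α : Type*} (S : Set α) (N : ℕ)
    (h1 : ∀ T : Finset α, (↑T ⊆ S) → T.card ≤ N)
    (h2 : ∃ T : Finset α, ↑T ⊆ S ∧ T.card = N) : Nat.card S = N := by
  classical
  have hfin : S.Finite := by
    by_contra hinf
    obtain ⟨T, hTS, hTc⟩ := (Set.not_finite.mp hinf).exists_subset_card_eq (N + 1)
    have := h1 T hTS
    omega
  rw [Nat.card_coe_set_eq, Set.ncard_eq_toFinset_card S hfin]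
  apply le_antisymm
  · exact h1 _ (by rw [Set.Finite.coe_toFinset])
  · obtain ⟨T, hTS, hTc⟩ := h2
    rw [← hTc]
    exact Finset.card_le_card (fun x hx => (Set.Finite.mem_toFinset hfin).mpr (hTS hx))

end Pic

/-! ## The map on `Pic0` induced by a map of places -/

section PicMap

variable {K0 : Type u} {F0 : Type v} {K1 : Type u'} {F1 : Type v'}
  [Field K0] [Field F0] [Field K1] [Field F1] [Algebra K0 F0] [Algebra K1 F1]
  (ι : Place K0 F0 → Place K1 F1)
  (hb : ∀ D : Divisor K0 F0, Divisor.degree (Finsupp.mapDomain ι D) = Divisor.degree D)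
  (hc : ∀ D : Divisor K0 F0, D ∈ Divisor.principal (K := K0) (F := F0) →
    Finsupp.mapDomain ι D ∈ Divisor.principal (K := K1) (F := F1))

/-- The map on degree-zero divisors. -/
noncomputable def degZeroMap :
    Divisor.degZero (K := K0) (F := F0) →+ Divisor.degZero (K := K1) (F := F1) :=
  ((Finsupp.mapDomain.addMonoidHom ι).comp
    (Divisor.degZero (K := K0) (F := F0)).subtype).codRestrict _ (fun D => by
      show Divisor.degree (Finsupp.mapDomain ι (D : Divisor K0 F0)) = 0
      rw [hb]
      exact D.2)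

@[simp]
theorem coe_degZeroMap (D : Divisor.degZero (K := K0) (F := F0)) :
    (degZeroMap ι hb D : Divisor K1 F1) = Finsupp.mapDomain ι (D : Divisor K0 F0) := rfl

/-- The map on `Pic0`. -/
noncomputable def picMap : Pic0 K0 F0 →+ Pic0 K1 F1 :=
  QuotientAddGroup.map _ _ (degZeroMap ι hb) (by
    rintro ⟨D, hD0⟩ hD
    rw [AddSubgroup.mem_comap]
    rw [AddSubgroup.mem_addSubgroupOf] at hD ⊢
    exact hc D hD)

theorem picMap_mk (D : Divisor.degZero (K := K0) (F := F0)) :
    picMap ι hb hc (Pic0.mk D) = Pic0.mk (degZeroMap ι hb D) := rfl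

variable (hd : ∀ D : Divisor K0 F0, Divisor.degree D = 0 →
    Finsupp.mapDomain ι D ∈ Divisor.principal (K := K1) (F := F1) →
    D ∈ Divisor.principal (K := K0) (F := F0))

include hd in
theorem picMap_injective : Function.Injective (picMap ι hb hc) := by
  rw [injective_iff_map_eq_zero]
  intro y hy
  obtain ⟨D, rfl⟩ := Pic0.mk_surjective y
  rw [picMap_mk, mk_eq_zero_iff, coe_degZeroMap] at hy
  rw [mk_eq_zero_iff]
  exact hd _ D.2 hy

include hd in
theorem mem_torsion_of_picMap_mem (n : ℕ) (y : Pic0 K0 F0)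
    (hy : picMap ι hb hc y ∈ Pic0.torsion K1 F1 n) : y ∈ Pic0.torsion K0 F0 n := by
  rw [Pic0.mem_torsion] at hy ⊢
  apply picMap_injective ι hb hc hd
  rw [map_zsmul, hy, map_zero]

theorem picMap_mem_torsion (n : ℕ) (y : Pic0 K0 F0) (hy : y ∈ Pic0.torsion K0 F0 n) :
    picMap ι hb hc y ∈ Pic0.torsion K1 F1 n := by
  rw [Pic0.mem_torsion] at hy ⊢
  rw [← map_zsmul, hy, map_zero]

include hd in
/-- A class represented by a divisor supported on the image of `ι` comes from `F0`. -/
theorem exists_preimage_of_support (hinj : Function.Injective ι) (n : ℕ)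
    (D1 : Divisor.degZero (K := K1) (F := F1)) (hx : Pic0.mk D1 ∈ Pic0.torsion K1 F1 n)
    (hsupp : ∀ w ∈ (D1 : Divisor K1 F1).support, w ∈ Set.range ι) :
    ∃ y ∈ Pic0.torsion K0 F0 n, picMap ι hb hc y = Pic0.mk D1 := by
  have hmap : Finsupp.mapDomain ι
      (Finsupp.comapDomain ι (D1 : Divisor K1 F1) hinj.injOn) = (D1 : Divisor K1 F1) :=
    Finsupp.mapDomain_comapDomain ι hinj _ (fun w hw => hsupp w (Finset.mem_coe.mp hw))
  have hdeg : Divisor.degree (Finsupp.comapDomain ι (D1 : Divisor K1 F1) hinj.injOn) = 0 := by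
    rw [← hb, hmap]
    exact D1.2
  have hpm : picMap ι hb hc (Pic0.mk ⟨_, hdeg⟩) = Pic0.mk D1 := by
    rw [picMap_mk]
    exact congrArg Pic0.mk (Subtype.ext hmap)
  exact ⟨Pic0.mk ⟨_, hdeg⟩, mem_torsion_of_picMap_mem ι hb hc hd n _ (hpm ▸ hx), hpm⟩

include hb hc hd in
/-- If every torsion class of `F1` is represented by a divisor coming from `F0`, the torsion
subgroups have the same cardinality. -/
theorem natCard_torsion_eq_of_surj (n : ℕ)
    (hsurj : ∀ D1 : Divisor K1 F1, Divisor.degree D1 = 0 →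
      n • D1 ∈ Divisor.principal (K := K1) (F := F1) →
      ∃ D0 : Divisor K0 F0, Divisor.degree D0 = 0 ∧
        D1 - Finsupp.mapDomain ι D0 ∈ Divisor.principal (K := K1) (F := F1)) :
    Nat.card (Pic0.torsion K0 F0 n) = Nat.card (Pic0.torsion K1 F1 n) := by
  refine Nat.card_eq_of_bijective
    (fun y : Pic0.torsion K0 F0 n =>
      (⟨picMap ι hb hc y, picMap_mem_torsion ι hb hc n y y.2⟩ : Pic0.torsion K1 F1 n)) ⟨?_, ?_⟩
  · intro y y' h
    exact Subtype.ext (picMap_injective ι hb hc hd (congrArg Subtype.val h))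
  · rintro ⟨x, hx⟩
    obtain ⟨D1, rfl⟩ := Pic0.mk_surjective x
    obtain ⟨D0, hD0, hpr⟩ := hsurj D1 D1.2 ((mk_mem_torsion_iff n D1).mp hx)
    have hpm : picMap ι hb hc (Pic0.mk ⟨D0, hD0⟩) = Pic0.mk D1 := by
      rw [picMap_mk, eq_comm, mk_eq_mk_iff]
      exact hpr
    exact ⟨⟨Pic0.mk ⟨D0, hD0⟩, mem_torsion_of_picMap_mem ι hb hc hd n _ (hpm ▸ hx)⟩,
      Subtype.ext hpm⟩

end PicMap

/-! ## The complex case in every universe -/

/-- The complex case for function fields in an arbitrary universe. -/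
theorem complex_any_universe (hC : helper6247.Stmt_Complex) (F : Type v) [Field F] [Algebra ℂ F]
    [IsCurveOver ℂ F] [Algebra.EssFiniteType ℂ F] (n : ℕ) (hn : 0 < n) :
    Nat.card (Pic0.torsion ℂ F n) = n ^ (2 * genusFF ℂ F) := by
  haveI : Small.{0} F := helper931.small_of_essFiniteType ℂ F
  have h : helper931.Compat (RingEquiv.refl ℂ) (Shrink.algEquiv ℂ F).symm.toRingEquiv :=
    helper931.Compat.of_algEquiv _
  haveI : IsCurveOver ℂ (Shrink.{0} F) := helper931.isCurveOver_of_compat h
  haveI : Algebra.EssFiniteType ℂ (Shrink.{0} F) := helper931.essFiniteType_of_compat h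
  obtain ⟨x, hx, hfin⟩ := helper5411.exists_transcendental_finite (K := ℂ) (F := Shrink.{0} F)
  haveI : FiniteDimensional ℂ⟮x⟯ (Shrink.{0} F) := hfin
  rw [helper931.natCard_torsion_eq h n, helper931.genusFF_eq h]
  exact hC (Shrink.{0} F) x hx n hn

/-! ## The compositum is a constant field extension -/

theorem isConstExt_compositum (K0 : Type u) (F0 : Type v) (K1 : Type u')
    [Field K0] [Field F0] [Algebra K0 F0] [Field K1] [Algebra K0 K1] [IsAlgClosed K0] :
    IsConstExt K0 F0 K1 (helper8788.Compositum K0 F0 K1) := by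
  have h : ∀ r : F0 ⊗[K0] K1, mulMap K0 F0 K1 (helper8788.Compositum K0 F0 K1) r =
      helper8788.Compositum.ofTensor K0 F0 K1 r := by
    intro r
    induction r using TensorProduct.induction_on with
    | zero => simp
    | tmul f c => rw [helper8788.Compositum.ofTensor_tmul, mulMap_tmul]
    | add a b ha hb => rw [map_add, map_add, ha, hb]
  refine ⟨helper8788.Compositum.productMap_injective K0 F0 K1, fun z => ?_⟩
  obtain ⟨a, b, hb, rfl⟩ := helper8788.Compositum.exists_div K0 F0 K1 z
  have hb' : helper8788.Compositum.ofTensor K0 F0 K1 b ≠ 0 := fun h0 =>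
    hb (helper8788.Compositum.ofTensor_injective K0 F0 K1 (h0.trans (map_zero _).symm))
  refine ⟨a, b, by rw [h]; exact hb', ?_⟩
  rw [h, h, div_mul_cancel₀ _ hb']

/-! ## Counting on a model which embeds into `ℂ` -/

/-- The count for a curve whose constant field embeds into `ℂ`. -/
theorem count_of_embedding (hC : helper6247.Stmt_Complex)
    (hRR1 : Stmt_WeakRR.{0, v}) (h1 : Stmt_CFE1.{u, v, 0, v}) (h4 : Stmt_CFE4.{u, v, 0, v})
    (hD : Stmt_DESC.{u, v, 0, v})
    (K0 : Type u) (F0 : Type v) [Field K0] [Field F0] [Algebra K0 F0] [IsAlgClosed K0]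
    [CharZero K0] [IsCurveOver K0 F0] [Algebra.EssFiniteType K0 F0] (hRR : WeakRR K0 F0)
    (j : K0 →+* ℂ) (n : ℕ) (hn : 0 < n) :
    Nat.card (Pic0.torsion K0 F0 n) = n ^ (2 * genusFF K0 F0) := by
  letI : Algebra K0 ℂ := j.toAlgebra
  obtain ⟨x, hx, hfin⟩ := helper5411.exists_transcendental_finite (K := K0) (F := F0)
  haveI : FiniteDimensional K0⟮x⟯ F0 := hfin
  have hx1 := helper8788.Compositum.transcendental_algebraMap K0 F0 ℂ hx
  haveI := helper8788.Compositum.finiteDimensional_adjoin K0 F0 ℂ x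
  haveI : IsCurveOver ℂ (helper8788.Compositum K0 F0 ℂ) :=
    helper1949.isCurveOver_of_finite _ hx1
  haveI : Algebra.EssFiniteType ℂ (helper8788.Compositum K0 F0 ℂ) :=
    helper1949.essFiniteType_of_finite (algebraMap F0 (helper8788.Compositum K0 F0 ℂ) x)
  have hce : IsConstExt K0 F0 ℂ (helper8788.Compositum K0 F0 ℂ) := isConstExt_compositum K0 F0 ℂ
  obtain ⟨hE, -, -⟩ := h1 K0 F0 ℂ (helper8788.Compositum K0 F0 ℂ) hce
  choose ι hι _ using hE
  obtain ⟨hb, hc, hd, hg⟩ := h4 K0 F0 ℂ (helper8788.Compositum K0 F0 ℂ) hce ι hι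
  have hg' : genusFF K0 F0 = genusFF ℂ (helper8788.Compositum K0 F0 ℂ) :=
    hg hRR (hRR1 ℂ (helper8788.Compositum K0 F0 ℂ))
  have hcount1 := complex_any_universe hC (helper8788.Compositum K0 F0 ℂ) n hn
  have hfin1 : (Pic0.torsion ℂ (helper8788.Compositum K0 F0 ℂ) n :
      Set (Pic0 ℂ (helper8788.Compositum K0 F0 ℂ))).Finite := by
    have hpos : 0 < Nat.card (Pic0.torsion ℂ (helper8788.Compositum K0 F0 ℂ) n) := by
      rw [hcount1]
      exact pow_pos hn _
    haveI := (Nat.card_pos_iff.mp hpos).2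
    exact Set.toFinite _
  have hsurj := hD K0 F0 ℂ (helper8788.Compositum K0 F0 ℂ) hce
    (hRR1 ℂ (helper8788.Compositum K0 F0 ℂ)) n hfin1 ι hι
  rw [natCard_torsion_eq_of_surj ι hb hc hd n hsurj, hcount1, hg']

/-! ## The transfer theorem -/

/-- **Lefschetz transfer** (hypothesis-passing form): the complex case implies the general
case. -/
theorem transfer_of (hRR : Stmt_WeakRR.{u, v}) (hRR1 : Stmt_WeakRR.{0, v})
    (h1 : Stmt_CFE1.{u, v, u, v}) (h1' : Stmt_CFE1.{u, v, 0, v})
    (h4 : Stmt_CFE4.{u, v, u, v}) (h4' : Stmt_CFE4.{u, v, 0, v})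
    (hD : Stmt_DESC.{u, v, 0, v}) (hDown : Stmt_Down2.{u, v}) :
    helper6247.Stmt_Transfer.{u, v} := by
  classical
  intro hC K F _ _ _ _ _ x hx _ n hn
  haveI : IsCurveOver K F := helper1949.isCurveOver_of_finite x hx
  haveI : Algebra.EssFiniteType K F := helper1949.essFiniteType_of_finite x
  -- every finite set of places is captured by a finite set of torsion classes of the right size
  have key : ∀ P : Finset (Place K F), ∃ T : Finset (Pic0 K F),
      (↑T ⊆ (Pic0.torsion K F n : Set (Pic0 K F))) ∧ T.card = n ^ (2 * genusFF K F) ∧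
      ∀ D : Divisor.degZero (K := K) (F := F), Pic0.mk D ∈ Pic0.torsion K F n →
        (∀ w ∈ (D : Divisor K F).support, w ∈ P) → Pic0.mk D ∈ T := by
    intro P
    obtain ⟨K0, F0, _, _, _, _, _, _, _, _, _, _, _, hcnt, hce, hP⟩ := hDown K F P
    haveI : CharZero K0 := (algebraMap K0 K).charZero
    haveI : Countable K0 := hcnt
    obtain ⟨j⟩ := helper1197.nonempty_ringHom_complex_of_countable K0
    have hcnt0 := count_of_embedding hC hRR1 h1' h4' hD K0 F0 (hRR K0 F0) j n hn
    obtain ⟨hE, hU, -⟩ := h1 K0 F0 K F hce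
    choose ι hι huniq using hE
    obtain ⟨hb, hc, hd, hg⟩ := h4 K0 F0 K F hce ι hι
    have hg' : genusFF K0 F0 = genusFF K F := hg (hRR K0 F0) (hRR K F)
    have hinj : Function.Injective ι := by
      intro v v' hvv
      apply place_ext_ord
      intro f
      rw [← hι v f, ← hι v' f, hvv]
    have hfin0 : (Pic0.torsion K0 F0 n : Set (Pic0 K0 F0)).Finite := by
      have hpos : 0 < Nat.card (Pic0.torsion K0 F0 n) := by
        rw [hcnt0]
        exact pow_pos hn _
      haveI := (Nat.card_pos_iff.mp hpos).2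
      exact Set.toFinite _
    refine ⟨hfin0.toFinset.image (picMap ι hb hc), ?_, ?_, ?_⟩
    · intro z hz
      obtain ⟨y, hy, rfl⟩ := Finset.mem_image.mp (Finset.mem_coe.mp hz)
      exact picMap_mem_torsion ι hb hc n y ((Set.Finite.mem_toFinset hfin0).mp hy)
    · rw [Finset.card_image_of_injective _ (picMap_injective ι hb hc hd),
        ← Set.ncard_eq_toFinset_card _ hfin0, ← Nat.card_coe_set_eq]
      exact hcnt0.trans (by rw [hg'])
    · intro D hD hsupp
      have hrange : ∀ w ∈ (D : Divisor K F).support, w ∈ Set.range ι := by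
        intro w hw
        obtain ⟨v, hv⟩ := hU w (hP w (hsupp w hw))
        exact ⟨v, (huniq v w hv).symm⟩
      obtain ⟨y, hy, hyD⟩ := exists_preimage_of_support ι hb hc hd hinj n D hD hrange
      exact Finset.mem_image.mpr ⟨y, (Set.Finite.mem_toFinset hfin0).mpr hy, hyD⟩
  apply natCard_eq_of_forall_finset
  · intro T hT
    choose! rep hrep using fun z : Pic0 K F => Pic0.mk_surjective z
    obtain ⟨T0, -, hT0c, hT0⟩ := key (T.biUnion fun z => ((rep z : Divisor K F)).support)
    rw [← hT0c]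
    refine Finset.card_le_card (fun z hz => ?_)
    have h3 := hT0 (rep z) (by rw [hrep z]; exact hT hz)
      (fun w hw => Finset.mem_biUnion.mpr ⟨z, hz, hw⟩)
    rwa [hrep z] at h3
  · obtain ⟨T0, hT0s, hT0c, -⟩ := key ∅
    exact ⟨T0, hT0s, hT0c⟩

/-! ## Adapter: weak Riemann–Roch from the captain's `Stmt_Riemann` -/

theorem stmt_weakRR_of_riemann (hR : helper6247.Stmt_Riemann.{u, v}) : Stmt_WeakRR.{u, v} := by
  intro K F _ _ _ _ _ _ _
  obtain ⟨x, hx, hfin⟩ := helper5411.exists_transcendental_finite (K := K) (F := F)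
  haveI : FiniteDimensional K⟮x⟯ F := hfin
  obtain ⟨-, h2, c, hc⟩ := hR K F x hx
  refine ⟨c, fun D hD => ?_⟩
  have hns := hc D hD
  have h0 : Module.finrank K (H1 D) = 0 := by
    haveI : Subsingleton (H1 D) := by
      have hns' : repartitionsOf D ⊔ principalRepartitions K F = ⊤ := hns
      exact Submodule.Quotient.subsingleton_iff.mpr hns'
    exact Module.finrank_zero_of_subsingleton
  have h3 := h2 D
  rw [h0] at h3
  simpa using h3

/-- **Lefschetz transfer**, with weak Riemann–Roch taken from `helper6247.Stmt_Riemann`. -/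
theorem transfer_of_riemann (hR : helper6247.Stmt_Riemann.{u, v})
    (hR1 : helper6247.Stmt_Riemann.{0, v})
    (h1 : Stmt_CFE1.{u, v, u, v}) (h1' : Stmt_CFE1.{u, v, 0, v})
    (h4 : Stmt_CFE4.{u, v, u, v}) (h4' : Stmt_CFE4.{u, v, 0, v})
    (hD : Stmt_DESC.{u, v, 0, v}) (hDown : Stmt_Down2.{u, v}) :
    helper6247.Stmt_Transfer.{u, v} :=
  transfer_of (stmt_weakRR_of_riemann hR) (stmt_weakRR_of_riemann hR1) h1 h1' h4 h4' hD hDown

end Fermat.Agent.S27.helper8094
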