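import Fermat.Agent.S27.helper2848_DescOrbit
import Fermat.Agent.S27.helper197_CFE

/-!
# S27, module L: `helper8094.Stmt_DESC`, verbatim and unconditional (helper2848)

`desc_of` (orbit argument, `helper2848_DescOrbit`) applied to the landed place-extension
statement `helper197.stmt_CFE1`.
-/

set_option autoImplicit false

namespace Fermat.Agent.S27.helper2848

universe u v u' v'

/-- **DESC**: if `Pic0(F1)[n]` is finite, every `n`-torsion class of `F1` is represented by a
divisor coming from `F0` (constant field extension of curves over algebraically closed fields of
characteristic zero). -/
theorem stmt_DESC : helper8094.Stmt_DESC.{u, v, u', v'} :=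
  desc_of helper197.stmt_CFE1

end Fermat.Agent.S27.helper2848
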