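import Fermat.Agent.S27.helper70_Down2
import Fermat.Agent.S27.helper197_CFE
import Fermat.Agent.S27.helper4996_Riemann

/-!
# S27, module L, assembly (B): everything except `Stmt_DESC` (helper70)

* `stmt_AUT`, `stmt_T1`, `stmt_T1b`, `stmt_T2`, `stmt_T3` : the small Props of
  `helper8094_LefSpec`, verbatim, from the landed kits `helper1197_FieldKit` and
  `helper931_Transport`.
* `transfer_of_desc` : `helper6247.Stmt_Transfer` from `helper8094.Stmt_DESC` alone
  (`helper8094.transfer_of_riemann` with all other inputs discharged from main).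
-/

set_option autoImplicit false

open AlgebraicCurve

namespace Fermat.Agent.S27.helper70

universe u v u' v'

/-- (AUT), verbatim. -/
theorem stmt_AUT : helper8094.Stmt_AUT.{u, u'} := by
  intro K0 K1 _ _ _ _ _ a ha
  refine helper1197.infinite_orbit_of_transcendental
    (helper1197.transcendental_of_notMem_range ?_)
  intro h
  exact ha (RingHom.mem_range.mp h)

/-- (T1), verbatim. -/
theorem stmt_T1 : helper8094.Stmt_T1.{u, v, u', v'} := by
  intro K F K' F' _ _ _ _ _ _ P
  have h : helper931.Compat P.e P.φ := P.comm
  exact ⟨helper931.placeEquiv h, fun w f => helper931.ord_mapPlace h w f⟩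

/-- (T1b), verbatim. -/
theorem stmt_T1b : helper8094.Stmt_T1b.{u, v, u', v'} := by
  intro K F K' F' _ _ _ _ _ _ P n
  have h : helper931.Compat P.e P.φ := P.comm
  exact helper931.natCard_torsion_eq h n

/-- (T2), verbatim. -/
theorem stmt_T2 : helper8094.Stmt_T2.{u, v, u', v'} := by
  intro K F K' F' _ _ _ _ _ _ P
  have h : helper931.Compat P.e P.φ := P.comm
  exact helper931.genusFF_eq h

/-- (T3), verbatim. -/
theorem stmt_T3 : helper8094.Stmt_T3.{u, v, u', v'} := by
  intro K F K' F' _ _ _ _ _ _ _ _ _ _ P
  have h : helper931.Compat P.e P.φ := P.comm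
  exact ⟨helper931.isCurveOver_of_compat h, helper931.essFiniteType_of_compat h⟩

/-- **Assembly (B) of the Lefschetz transfer, closed up to `Stmt_DESC`.** -/
theorem transfer_of_desc (hD : helper8094.Stmt_DESC.{u, v, 0, v}) :
    helper6247.Stmt_Transfer.{u, v} :=
  helper8094.transfer_of_riemann helper4996.stmt_Riemann helper4996.stmt_Riemann
    helper197.stmt_CFE1 helper197.stmt_CFE1 helper197.stmt_CFE4 helper197.stmt_CFE4 hD
    stmt_down2

end Fermat.Agent.S27.helper70
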