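import Mathlib
import Fermat.Prelude.Def_AlgebraicCurve_IsCurveOver
import Fermat.Agent.S24.helper204_Places

/-!
# S27, module X-TOP: the compact Hausdorff topology on the set of places of a function field

`K` algebraically closed, `F / K` a function field in one variable.

* `value P f : OnePoint K`: the value of `f` at the place `P` (`∞` at a pole).
* `placeTopology`: for `K = ℂ`, the coarsest topology on `Place ℂ F` making all
  `P ↦ value P f` continuous.
* `compactSpace_place`, `t2Space_place`: this topology is compact Hausdorff (Tychonoff via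
  ultrafilters; the limit of an ultrafilter of places is a valuation ring, hence a place).
-/

set_option autoImplicit false

namespace Fermat.Agent.S27.helper440

open AlgebraicCurve IntermediateField IsDedekindDomain Filter Topology

variable {K F : Type*} [Field K] [Field F] [Algebra K F]

/-! ## Values at a valuation subring containing the constants -/

section ValSub

variable (A : ValuationSubring F)

/-- `f` takes the value `c` at the valuation ring `A`: `f - c` is a non-unit of `A`. -/
def HasValueAt (f : F) (c : K) : Prop :=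
  A.valuation (f - algebraMap K F c) < 1

variable {A}

theorem HasValueAt.mem {f : F} {c : K} (hK : ∀ a : K, algebraMap K F a ∈ A)
    (h : HasValueAt A f c) : f ∈ A := by
  have h1 : f - algebraMap K F c ∈ A := (A.valuation_le_one_iff _).mp h.le
  have := A.add_mem _ _ h1 (hK c)
  simpa using this

theorem hasValueAt_algebraMap (c : K) : HasValueAt A (algebraMap K F c) c := by
  simp [HasValueAt]

theorem HasValueAt.add {f g : F} {a b : K} (hf : HasValueAt A f a) (hg : HasValueAt A g b) :
    HasValueAt A (f + g) (a + b) := by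
  unfold HasValueAt at *
  have : f + g - algebraMap K F (a + b) = (f - algebraMap K F a) + (g - algebraMap K F b) := by
    rw [map_add]; ring
  rw [this]
  exact lt_of_le_of_lt (A.valuation.map_add _ _) (max_lt hf hg)

theorem valuation_algebraMap_le_one (hK : ∀ a : K, algebraMap K F a ∈ A) (a : K) :
    A.valuation (algebraMap K F a) ≤ 1 :=
  (A.valuation_le_one_iff _).mpr (hK a)

theorem valuation_algebraMap_eq_one (hK : ∀ a : K, algebraMap K F a ∈ A) {a : K} (ha : a ≠ 0) :
    A.valuation (algebraMap K F a) = 1 := by
  apply le_antisymm (valuation_algebraMap_le_one hK a)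
  have h1 := valuation_algebraMap_le_one hK a⁻¹
  have h2 : A.valuation (algebraMap K F a) * A.valuation (algebraMap K F a⁻¹) = 1 := by
    rw [← map_mul, ← map_mul, mul_inv_cancel₀ ha, map_one, map_one]
  calc (1 : A.ValueGroup) = A.valuation (algebraMap K F a) * A.valuation (algebraMap K F a⁻¹) :=
        h2.symm
    _ ≤ A.valuation (algebraMap K F a) * 1 := mul_le_mul_right h1 _
    _ = A.valuation (algebraMap K F a) := mul_one _

theorem HasValueAt.mul (hK : ∀ a : K, algebraMap K F a ∈ A) {f g : F} {a b : K}
    (hf : HasValueAt A f a) (hg : HasValueAt A g b) :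
    HasValueAt A (f * g) (a * b) := by
  have hgA : A.valuation g ≤ 1 := (A.valuation_le_one_iff _).mpr (hg.mem hK)
  unfold HasValueAt at *
  have : f * g - algebraMap K F (a * b)
      = (f - algebraMap K F a) * g + algebraMap K F a * (g - algebraMap K F b) := by
    rw [map_mul]; ring
  rw [this]
  refine lt_of_le_of_lt (A.valuation.map_add _ _) (max_lt ?_ ?_)
  · rw [map_mul]
    calc A.valuation (f - algebraMap K F a) * A.valuation g
        ≤ A.valuation (f - algebraMap K F a) * 1 := mul_le_mul_right hgA _
      _ = A.valuation (f - algebraMap K F a) := mul_one _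
      _ < 1 := hf
  · rw [map_mul]
    calc A.valuation (algebraMap K F a) * A.valuation (g - algebraMap K F b)
        ≤ 1 * A.valuation (g - algebraMap K F b) :=
          mul_le_mul_left (valuation_algebraMap_le_one hK a) _
      _ = A.valuation (g - algebraMap K F b) := one_mul _
      _ < 1 := hg

theorem HasValueAt.unique (hK : ∀ a : K, algebraMap K F a ∈ A) {f : F} {a b : K}
    (ha : HasValueAt A f a) (hb : HasValueAt A f b) : a = b := by
  by_contra hab
  have hne : b - a ≠ 0 := sub_ne_zero.mpr (Ne.symm hab)
  have h1 := valuation_algebraMap_eq_one hK hne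
  unfold HasValueAt at *
  have : algebraMap K F (b - a) = (f - algebraMap K F a) - (f - algebraMap K F b) := by
    rw [map_sub]; ring
  rw [this] at h1
  have h2 := lt_of_le_of_lt (A.valuation.map_sub _ _) (max_lt ha hb)
  rw [h1] at h2
  exact lt_irrefl _ h2

theorem hasValueAt_inv_of_notMem {f : F} (hf : f ∉ A) : HasValueAt A f⁻¹ (0 : K) := by
  unfold HasValueAt
  rw [map_zero, sub_zero]
  have h1 : ¬ A.valuation f ≤ 1 := fun h => hf ((A.valuation_le_one_iff _).mp h)
  have h2 : 1 < A.valuation f := lt_of_not_ge h1
  have hf0 : f ≠ 0 := fun h => hf (h ▸ A.zero_mem)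
  have hv0 : A.valuation f ≠ 0 := (Valuation.ne_zero_iff _).mpr hf0
  rw [map_inv₀]
  exact (inv_lt_one₀ (zero_lt_iff.mpr hv0)).mpr h2

theorem hasValueAt_zero_iff {f : F} : HasValueAt A f (0 : K) ↔ f ∈ A.nonunits := by
  unfold HasValueAt
  rw [map_zero, sub_zero, ValuationSubring.mem_nonunits_iff]

end ValSub

/-! ## Valuation subrings of a function field are places -/

section DVR

open scoped IntermediateField.algebraAdjoinAdjoin

open Fermat.Agent.S24.helper204

variable [CharZero K]

/-- A proper valuation subring containing the constants and `x` is the valuation ring of a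
place. -/
theorem exists_place_of_valuationSubring_of_mem (x : F) [FiniteDimensional K⟮x⟯ F]
    (O : ValuationSubring F) (hK : ∀ a : K, algebraMap K F a ∈ O) (hO : O ≠ ⊤) (hxO : x ∈ O) :
    ∃ P : Place K F, P.toValuationSubring = O := by
  -- `K[x] ⊆ O`
  have hA : ∀ a ∈ Algebra.adjoin K {x}, a ∈ O := by
    let Ov : Subalgebra K F :=
      { O.toSubring with
        algebraMap_mem' := hK }
    have h : Algebra.adjoin K {x} ≤ Ov := Algebra.adjoin_le (Set.singleton_subset_iff.mpr hxO)
    exact fun a ha => h ha
  have hB : ∀ b : integralClosure (Algebra.adjoin K {x}) F, (b : F) ∈ O := fun b =>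
    mem_of_isIntegral_of_le O (Algebra.adjoin K {x}) hA b.2
  let φ : integralClosure (Algebra.adjoin K {x}) F →+* O :=
    { toFun := fun b => ⟨b, hB b⟩
      map_one' := rfl
      map_mul' := fun _ _ => rfl
      map_zero' := rfl
      map_add' := fun _ _ => rfl }
  let P : Ideal (integralClosure (Algebra.adjoin K {x}) F) :=
    Ideal.comap φ (IsLocalRing.maximalIdeal O)
  have hPprime : P.IsPrime := Ideal.comap_isPrime φ _
  -- elements outside `P` are invertible in `O`
  have hinv : ∀ r : integralClosure (Algebra.adjoin K {x}) F, r ∉ P →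
      (algebraMap (integralClosure (Algebra.adjoin K {x}) F) F r)⁻¹ ∈ O := by
    intro r hr
    have hr' : ¬ (φ r ∈ IsLocalRing.maximalIdeal O) := hr
    rw [IsLocalRing.mem_maximalIdeal, mem_nonunits_iff, not_not] at hr'
    obtain ⟨u, hu⟩ := hr'
    have h1 : ((u⁻¹ : Oˣ) : O) * φ r = 1 := by
      rw [← hu]; simp
    have h2 := congrArg (fun z : O => (z : F)) h1
    simp only [MulMemClass.coe_mul, OneMemClass.coe_one] at h2
    have h3 : ((φ r : O) : F) = algebraMap _ F r := rfl
    rw [h3] at h2
    have h4 : (algebraMap (integralClosure (Algebra.adjoin K {x}) F) F r)⁻¹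
        = ((u⁻¹ : Oˣ) : O) :=
      (eq_inv_of_mul_eq_one_left h2).symm
    rw [h4]
    exact SetLike.coe_mem _
  have hPne : P ≠ ⊥ := by
    intro hbot
    apply hO
    refine SetLike.ext fun f => ⟨fun _ => ValuationSubring.mem_top f, fun _ => ?_⟩
    obtain ⟨n, d, hd, hnd⟩ := IsFractionRing.div_surjective
      (A := integralClosure (Algebra.adjoin K {x}) F) f
    have hd0 : d ≠ 0 := nonZeroDivisors.ne_zero hd
    have hdP : d ∉ P := by
      rw [hbot]
      simpa using hd0
    rw [← hnd, div_eq_mul_inv]
    exact O.mul_mem _ _ (hB n) (hinv d hdP)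
  let w : HeightOneSpectrum (integralClosure (Algebra.adjoin K {x}) F) := ⟨P, hPprime, hPne⟩
  refine ⟨Place.ofHeightOneSpectrum (K := K) (F := F) w, ?_⟩
  rw [Place.ofHeightOneSpectrum_toValuationSubring,
    ← HeightOneSpectrum.valuationSubringAtPrime_eq_valuationSubring]
  refine ValuationSubring.eq_of_le_of_ne_top _ ?_ hO
  intro f hf
  rw [HeightOneSpectrum.valuationSubringAtPrime_eq_valuationSubring,
    Valuation.mem_valuationSubring_iff] at hf
  obtain ⟨n, d, hnd⟩ := w.exists_primeCompl_mul_eq_of_integer f hf
  have hd0 : algebraMap (integralClosure (Algebra.adjoin K {x}) F) F (d : _) ≠ 0 := by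
    intro h0
    have := (FaithfulSMul.algebraMap_injective (integralClosure (Algebra.adjoin K {x}) F) F)
      (h0.trans (map_zero _).symm)
    exact d.2 (this ▸ w.asIdeal.zero_mem)
  have : f = algebraMap (integralClosure (Algebra.adjoin K {x}) F) F n
      * (algebraMap (integralClosure (Algebra.adjoin K {x}) F) F (d : _))⁻¹ := by
    rw [← hnd, mul_assoc, mul_inv_cancel₀ hd0, mul_one]
  rw [this]
  exact O.mul_mem _ _ (hB n) (hinv d d.2)

/-- **Valuation rings are places.** In a function field `F` finite over `K(x)`, every proper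
valuation subring containing the constants is the valuation ring of a (discrete) place. -/
theorem exists_place_of_valuationSubring (x : F) [FiniteDimensional K⟮x⟯ F]
    (O : ValuationSubring F) (hK : ∀ a : K, algebraMap K F a ∈ O) (hO : O ≠ ⊤) :
    ∃ P : Place K F, P.toValuationSubring = O := by
  rcases O.mem_or_inv_mem x with h | h
  · exact exists_place_of_valuationSubring_of_mem x O hK hO h
  · have : FiniteDimensional K⟮x⁻¹⟯ F := finiteDimensional_adjoin_inv
    exact exists_place_of_valuationSubring_of_mem x⁻¹ O hK hO h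

end DVR

/-! ## The value of a function at a place -/

section Value

theorem HasValueAt.inv {A : ValuationSubring F} (hK : ∀ a : K, algebraMap K F a ∈ A) {f : F}
    {a : K} (hf : HasValueAt A f a) (ha : a ≠ 0) : HasValueAt A f⁻¹ a⁻¹ := by
  have hva : A.valuation (algebraMap K F a) = 1 := valuation_algebraMap_eq_one hK ha
  unfold HasValueAt at *
  have hvf : A.valuation f = 1 := by
    have h1 : A.valuation ((f - algebraMap K F a) + algebraMap K F a)
        = A.valuation (algebraMap K F a) :=
      Valuation.map_add_eq_of_lt_right _ (by rw [hva]; exact hf)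
    rwa [sub_add_cancel, hva] at h1
  have hf0 : f ≠ 0 := by
    rintro rfl
    rw [map_zero] at hvf
    exact zero_ne_one hvf
  have ha0 : algebraMap K F a ≠ 0 := by
    intro h
    rw [h, map_zero] at hva
    exact zero_ne_one hva
  have h2 : f⁻¹ - algebraMap K F a⁻¹ = -(f - algebraMap K F a) * f⁻¹ * (algebraMap K F a)⁻¹ := by
    rw [map_inv₀]
    field_simp
    ring
  rw [h2, map_mul, map_mul, map_inv₀, map_inv₀, hvf, hva, Valuation.map_neg]
  simpa using hf

/-- All residue fields of places are the constant field. -/
def ResidueSurj (K F : Type*) [Field K] [Field F] [Algebra K F] : Prop :=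
  ∀ P : Place K F, Function.Surjective (algebraMap K P.ResidueField)

theorem residueSurj_of_isCurveOver [IsAlgClosed K] [IsCurveOver K F] : ResidueSurj K F := by
  intro P
  have : Module.Finite K P.ResidueField := IsCurveOver.finiteResidue P
  have : Algebra.IsIntegral K P.ResidueField := Algebra.IsIntegral.of_finite K P.ResidueField
  exact (IsAlgClosed.algebraMap_bijective_of_isIntegral (k := K) (K := P.ResidueField)).2

theorem residueSurj_of_finite [IsAlgClosed K] [CharZero K] (x : F) (hx : Transcendental K x)
    [FiniteDimensional K⟮x⟯ F] : ResidueSurj K F := by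
  intro P y
  have h1 : Module.finrank K P.ResidueField = 1 :=
    Fermat.Agent.S24.helper204.place_deg_eq_one x hx P
  have h2 : (⊥ : Subalgebra K P.ResidueField) = ⊤ := Subalgebra.bot_eq_top_of_finrank_eq_one h1
  have h3 : y ∈ (⊥ : Subalgebra K P.ResidueField) := by rw [h2]; exact Algebra.mem_top
  exact Algebra.mem_bot.mp h3

theorem exists_hasValueAt_of_mem (P : Place K F)
    (hres : Function.Surjective (algebraMap K P.ResidueField)) {f : F}
    (hf : f ∈ P.toValuationSubring) : ∃ c : K, HasValueAt P.toValuationSubring f c := by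
  obtain ⟨c, hc⟩ := hres (IsLocalRing.residue _ ⟨f, hf⟩)
  refine ⟨c, ?_⟩
  have h1 : IsLocalRing.residue P.toValuationSubring
      ((⟨f, hf⟩ : P.toValuationSubring) - algebraMap K P.toValuationSubring c) = 0 := by
    rw [map_sub, ← hc, sub_eq_zero]
    rfl
  rw [IsLocalRing.residue_eq_zero_iff, ValuationSubring.valuation_lt_one_iff] at h1
  exact h1

open Classical in
/-- The value of `f` at the place `P`, as a point of the projective line `OnePoint K`:
the constant `c` with `f - c` in the maximal ideal of `P` if there is one, `∞` otherwise. -/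
noncomputable def value (P : Place K F) (f : F) : OnePoint K :=
  if h : ∃ c : K, HasValueAt P.toValuationSubring f c then ((Classical.choose h : K) : OnePoint K)
  else OnePoint.infty

theorem value_eq_coe_iff (P : Place K F) (f : F) (c : K) :
    value P f = (c : OnePoint K) ↔ HasValueAt P.toValuationSubring f c := by
  unfold value
  split_ifs with h
  · rw [OnePoint.coe_eq_coe]
    constructor
    · intro hc; rw [← hc]; exact Classical.choose_spec h
    · intro hc; exact (Classical.choose_spec h).unique P.algebraMap_mem' hc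
  · constructor
    · intro hc; exact absurd hc (OnePoint.infty_ne_coe c)
    · intro hc; exact absurd ⟨c, hc⟩ h

theorem value_eq_infty_iff_forall (P : Place K F) (f : F) :
    value P f = OnePoint.infty ↔ ∀ c : K, ¬ HasValueAt P.toValuationSubring f c := by
  unfold value
  split_ifs with h
  · constructor
    · intro hc; exact absurd hc (OnePoint.coe_ne_infty _)
    · intro hc; exact absurd (Classical.choose_spec h) (hc _)
  · simpa using h

theorem value_eq_infty_of_notMem (P : Place K F) {f : F} (hf : f ∉ P.toValuationSubring) :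
    value P f = OnePoint.infty :=
  (value_eq_infty_iff_forall P f).mpr fun _ hc => hf (hc.mem P.algebraMap_mem')

theorem value_eq_infty_iff (P : Place K F)
    (hres : Function.Surjective (algebraMap K P.ResidueField)) (f : F) :
    value P f = OnePoint.infty ↔ f ∉ P.toValuationSubring := by
  refine ⟨fun h hf => ?_, value_eq_infty_of_notMem P⟩
  obtain ⟨c, hc⟩ := exists_hasValueAt_of_mem P hres hf
  exact (value_eq_infty_iff_forall P f).mp h c hc

@[simp]
theorem value_algebraMap (P : Place K F) (c : K) : value P (algebraMap K F c) = c :=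
  (value_eq_coe_iff P _ c).mpr (hasValueAt_algebraMap c)

theorem value_add (P : Place K F) {f g : F} {a b : K} (hf : value P f = a) (hg : value P g = b) :
    value P (f + g) = ((a + b : K) : OnePoint K) :=
  (value_eq_coe_iff P _ _).mpr
    (((value_eq_coe_iff P _ _).mp hf).add ((value_eq_coe_iff P _ _).mp hg))

theorem value_mul (P : Place K F) {f g : F} {a b : K} (hf : value P f = a) (hg : value P g = b) :
    value P (f * g) = ((a * b : K) : OnePoint K) :=
  (value_eq_coe_iff P _ _).mpr
    (((value_eq_coe_iff P _ _).mp hf).mul P.algebraMap_mem' ((value_eq_coe_iff P _ _).mp hg))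

theorem value_inv (P : Place K F) {f : F} {a : K} (hf : value P f = a) (ha : a ≠ 0) :
    value P f⁻¹ = ((a⁻¹ : K) : OnePoint K) :=
  (value_eq_coe_iff P _ _).mpr (((value_eq_coe_iff P _ _).mp hf).inv P.algebraMap_mem' ha)

theorem value_inv_of_notMem (P : Place K F) {f : F} (hf : f ∉ P.toValuationSubring) :
    value P f⁻¹ = ((0 : K) : OnePoint K) :=
  (value_eq_coe_iff P _ _).mpr (hasValueAt_inv_of_notMem hf)

theorem value_neg (P : Place K F) {f : F} {a : K} (hf : value P f = a) :
    value P (-f) = ((-a : K) : OnePoint K) := by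
  have h := value_mul P (value_algebraMap P (-1 : K)) hf
  simpa using h

theorem value_sub (P : Place K F) {f g : F} {a b : K} (hf : value P f = a) (hg : value P g = b) :
    value P (f - g) = ((a - b : K) : OnePoint K) := by
  rw [sub_eq_add_neg, sub_eq_add_neg]
  exact value_add P hf (value_neg P hg)

/-- The value map determines the place. -/
theorem eq_of_value_eq (hres : ResidueSurj K F) {P Q : Place K F}
    (h : ∀ f : F, value P f = value Q f) : P = Q := by
  apply Place.ext
  ext f
  rw [← not_iff_not, ← value_eq_infty_iff P (hres P), ← value_eq_infty_iff Q (hres Q), h f]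

/-- `value P f = ∞` iff `f` has a pole at `P`. -/
theorem value_eq_infty_iff_ord_neg (P : Place K F)
    (hres : Function.Surjective (algebraMap K P.ResidueField)) (f : F) :
    value P f = OnePoint.infty ↔ P.ord f < 0 := by
  rw [value_eq_infty_iff P hres, ← Fermat.Agent.S24.helper204.ord_nonneg_iff, not_le]

/-- `value P f = c` iff `f = c` or `f - c` has a zero at `P`. -/
theorem value_eq_coe_iff_ord_pos (P : Place K F) (f : F) (c : K) :
    value P f = (c : OnePoint K) ↔
      f = algebraMap K F c ∨ 0 < P.ord (f - algebraMap K F c) := by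
  rw [value_eq_coe_iff, HasValueAt, ← ValuationSubring.mem_nonunits_iff,
    ValuationSubring.mem_nonunits_iff_exists_mem_maximalIdeal,
    Fermat.Agent.S24.helper204.ord_pos_iff]
  constructor
  · intro h
    by_cases h0 : f - algebraMap K F c = 0
    · exact Or.inl (sub_eq_zero.mp h0)
    · exact Or.inr ⟨h0, h⟩
  · rintro (h | ⟨-, h⟩)
    · rw [h, sub_self]
      exact ⟨zero_mem _, zero_mem _⟩
    · exact h

end Value

/-! ## The compact Hausdorff topology on the places of a complex function field -/

section Topology

variable {F : Type*} [Field F] [Algebra ℂ F]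

/-- The weak topology on `Place ℂ F`: the coarsest topology for which every evaluation
`P ↦ value P f : Place ℂ F → OnePoint ℂ` is continuous. Use as a local instance. -/
@[reducible] noncomputable def placeTopology (F : Type*) [Field F] [Algebra ℂ F] :
    TopologicalSpace (Place ℂ F) :=
  TopologicalSpace.induced (fun (P : Place ℂ F) (f : F) => value P f) Pi.topologicalSpace

attribute [local instance] placeTopology

theorem isInducing_value :
    IsInducing (fun (P : Place ℂ F) (f : F) => value P f) := ⟨rfl⟩

theorem continuous_value (f : F) : Continuous (fun P : Place ℂ F => value P f) :=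
  (continuous_apply f).comp (isInducing_value (F := F)).continuous

/-- The complex value of `f` at `P` (`0` at a pole). -/
noncomputable def cval (P : Place ℂ F) (f : F) : ℂ := (value P f).elim 0 id

theorem cval_of_value_eq {P : Place ℂ F} {f : F} {c : ℂ} (h : value P f = (c : OnePoint ℂ)) :
    cval P f = c := by
  simp [cval, h]

theorem value_eq_coe_cval {P : Place ℂ F} {f : F} (h : value P f ≠ OnePoint.infty) :
    value P f = (cval P f : OnePoint ℂ) := by
  obtain ⟨c, hc⟩ := OnePoint.ne_infty_iff_exists.mp h
  rw [← hc, cval_of_value_eq hc.symm]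

theorem tendsto_value_coe_iff {l : Filter (Place ℂ F)} {f : F} {a : ℂ} :
    Tendsto (fun P => value P f) l (𝓝 (a : OnePoint ℂ)) ↔
      (∀ᶠ P in l, value P f = (cval P f : OnePoint ℂ)) ∧
        Tendsto (fun P => cval P f) l (𝓝 a) := by
  constructor
  · intro h
    have h1 : ∀ᶠ P in l, value P f = (cval P f : OnePoint ℂ) := by
      have hmem : Set.range ((↑) : ℂ → OnePoint ℂ) ∈ 𝓝 (a : OnePoint ℂ) :=
        OnePoint.isOpen_range_coe.mem_nhds ⟨a, rfl⟩
      filter_upwards [h hmem] with P hP
      obtain ⟨c, hc⟩ := hP
      have hc' : value P f = (c : OnePoint ℂ) := hc.symm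
      rw [hc', cval_of_value_eq hc']
    refine ⟨h1, ?_⟩
    rw [OnePoint.isOpenEmbedding_coe.isInducing.tendsto_nhds_iff]
    refine h.congr' ?_
    filter_upwards [h1] with P hP
    rw [hP]
    rfl
  · rintro ⟨h1, h2⟩
    have h3 : Tendsto (fun P => ((cval P f : ℂ) : OnePoint ℂ)) l (𝓝 (a : OnePoint ℂ)) :=
      (OnePoint.continuous_coe.tendsto a).comp h2
    refine h3.congr' ?_
    filter_upwards [h1] with P hP
    rw [hP]

theorem eventually_of_tendsto_value_infty {l : Filter (Place ℂ F)} {f : F}
    (h : Tendsto (fun P => value P f) l (𝓝 (OnePoint.infty : OnePoint ℂ))) (R : ℝ) :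
    ∀ᶠ P in l, value P f = OnePoint.infty ∨
      (value P f = (cval P f : OnePoint ℂ) ∧ R < ‖cval P f‖) := by
  have hopen : IsOpen (((↑) : ℂ → OnePoint ℂ) '' Metric.closedBall (0 : ℂ) R)ᶜ :=
    OnePoint.isOpen_compl_image_coe.mpr ⟨Metric.isClosed_closedBall, isCompact_closedBall 0 R⟩
  have hmem : (((↑) : ℂ → OnePoint ℂ) '' Metric.closedBall (0 : ℂ) R)ᶜ
      ∈ 𝓝 (OnePoint.infty : OnePoint ℂ) := by
    refine hopen.mem_nhds ?_
    rintro ⟨c, -, hc⟩
    exact OnePoint.coe_ne_infty c hc
  filter_upwards [h hmem] with P hP
  by_cases hinf : value P f = OnePoint.infty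
  · exact Or.inl hinf
  · refine Or.inr ⟨value_eq_coe_cval hinf, ?_⟩
    by_contra hR
    apply hP
    refine ⟨cval P f, ?_, (value_eq_coe_cval hinf).symm⟩
    rw [Metric.mem_closedBall, dist_zero_right]
    exact not_lt.mp hR

/-- **Limits of places are places.** If along a nontrivial filter of places all values
converge in `OnePoint ℂ`, the limits are the values at a place. -/
theorem exists_place_of_tendsto (x : F) (hx : Transcendental ℂ x) [FiniteDimensional ℂ⟮x⟯ F]
    (l : Filter (Place ℂ F)) [l.NeBot] (φ : F → OnePoint ℂ)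
    (hφ : ∀ f, Tendsto (fun P => value P f) l (𝓝 (φ f))) :
    ∃ P : Place ℂ F, ∀ f, value P f = φ f := by
  have hres : ResidueSurj ℂ F := residueSurj_of_finite x hx
  -- constants
  have h1 : ∀ c : ℂ, φ (algebraMap ℂ F c) = (c : OnePoint ℂ) := by
    intro c
    refine tendsto_nhds_unique (hφ _) ?_
    simp only [value_algebraMap]
    exact tendsto_const_nhds
  -- sums
  have hadd : ∀ (f g : F) (a b : ℂ), φ f = a → φ g = b → φ (f + g) = ((a + b : ℂ) : OnePoint ℂ) := by
    intro f g a b hf hg
    obtain ⟨ef, tf⟩ := tendsto_value_coe_iff.mp (hf ▸ hφ f)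
    obtain ⟨eg, tg⟩ := tendsto_value_coe_iff.mp (hg ▸ hφ g)
    have key : ∀ᶠ P in l, value P (f + g) = ((cval P f + cval P g : ℂ) : OnePoint ℂ) := by
      filter_upwards [ef, eg] with P hPf hPg
      exact value_add P hPf hPg
    refine tendsto_nhds_unique (hφ (f + g)) (tendsto_value_coe_iff.mpr ⟨?_, ?_⟩)
    · filter_upwards [key] with P hP
      rw [cval_of_value_eq hP, hP]
    · refine (tf.add tg).congr' ?_
      filter_upwards [key] with P hP
      rw [cval_of_value_eq hP]
  -- products
  have hmul : ∀ (f g : F) (a b : ℂ), φ f = a → φ g = b → φ (f * g) = ((a * b : ℂ) : OnePoint ℂ) := by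
    intro f g a b hf hg
    obtain ⟨ef, tf⟩ := tendsto_value_coe_iff.mp (hf ▸ hφ f)
    obtain ⟨eg, tg⟩ := tendsto_value_coe_iff.mp (hg ▸ hφ g)
    have key : ∀ᶠ P in l, value P (f * g) = ((cval P f * cval P g : ℂ) : OnePoint ℂ) := by
      filter_upwards [ef, eg] with P hPf hPg
      exact value_mul P hPf hPg
    refine tendsto_nhds_unique (hφ (f * g)) (tendsto_value_coe_iff.mpr ⟨?_, ?_⟩)
    · filter_upwards [key] with P hP
      rw [cval_of_value_eq hP, hP]
    · refine (tf.mul tg).congr' ?_
      filter_upwards [key] with P hP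
      rw [cval_of_value_eq hP]
  -- inverses of poles
  have hinv : ∀ f : F, φ f = OnePoint.infty → φ f⁻¹ = ((0 : ℂ) : OnePoint ℂ) := by
    intro f hf
    have hf' : Tendsto (fun P => value P f) l (𝓝 (OnePoint.infty : OnePoint ℂ)) := hf ▸ hφ f
    have key : ∀ R : ℝ, 0 < R → ∀ᶠ P in l, value P f⁻¹ = (cval P f⁻¹ : OnePoint ℂ) ∧
        ‖cval P f⁻¹‖ < R := by
      intro R hR
      filter_upwards [eventually_of_tendsto_value_infty hf' R⁻¹] with P hP
      rcases hP with hP | ⟨hP1, hP2⟩
      · have hnot : f ∉ P.toValuationSubring := (value_eq_infty_iff P (hres P) f).mp hP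
        have h0 := value_inv_of_notMem P hnot
        rw [cval_of_value_eq h0]
        exact ⟨h0, by simpa using hR⟩
      · have hpos : (0 : ℝ) < ‖cval P f‖ := lt_trans (inv_pos.mpr hR) hP2
        have hc0 : cval P f ≠ 0 := norm_pos_iff.mp hpos
        have h0 := value_inv P hP1 hc0
        rw [cval_of_value_eq h0]
        refine ⟨h0, ?_⟩
        rw [norm_inv]
        exact inv_lt_of_inv_lt₀ hR hP2
    refine tendsto_nhds_unique (hφ f⁻¹) (tendsto_value_coe_iff.mpr ⟨?_, ?_⟩)
    · filter_upwards [key 1 one_pos] with P hP using hP.1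
    · rw [Metric.tendsto_nhds]
      intro ε hε
      filter_upwards [key ε hε] with P hP
      rw [dist_zero_right]
      exact hP.2
  have hφ0 : φ 0 = ((0 : ℂ) : OnePoint ℂ) := by simpa using h1 0
  have hφ1 : φ 1 = ((1 : ℂ) : OnePoint ℂ) := by simpa using h1 1
  -- no unit has value `0`
  have hunit : ∀ y : F, y ≠ 0 → φ y = ((0 : ℂ) : OnePoint ℂ) → φ y⁻¹ = OnePoint.infty := by
    intro y hy0 hy
    by_contra hne
    obtain ⟨d, hd⟩ := OnePoint.ne_infty_iff_exists.mp hne
    have h2 := hmul y y⁻¹ 0 d hy hd.symm
    rw [mul_inv_cancel₀ hy0, hφ1, zero_mul, OnePoint.coe_eq_coe] at h2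
    exact one_ne_zero h2
  -- the valuation ring of finite values
  let O : ValuationSubring F :=
    { carrier := {f | φ f ≠ OnePoint.infty}
      mul_mem' := by
        intro f g hf hg
        obtain ⟨a, ha⟩ := OnePoint.ne_infty_iff_exists.mp hf
        obtain ⟨b, hb⟩ := OnePoint.ne_infty_iff_exists.mp hg
        show φ (f * g) ≠ OnePoint.infty
        rw [hmul f g a b ha.symm hb.symm]
        exact OnePoint.coe_ne_infty _
      one_mem' := by
        show φ 1 ≠ OnePoint.infty
        rw [hφ1]
        exact OnePoint.coe_ne_infty _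
      add_mem' := by
        intro f g hf hg
        obtain ⟨a, ha⟩ := OnePoint.ne_infty_iff_exists.mp hf
        obtain ⟨b, hb⟩ := OnePoint.ne_infty_iff_exists.mp hg
        show φ (f + g) ≠ OnePoint.infty
        rw [hadd f g a b ha.symm hb.symm]
        exact OnePoint.coe_ne_infty _
      zero_mem' := by
        show φ 0 ≠ OnePoint.infty
        rw [hφ0]
        exact OnePoint.coe_ne_infty _
      neg_mem' := by
        intro f hf
        obtain ⟨a, ha⟩ := OnePoint.ne_infty_iff_exists.mp hf
        show φ (-f) ≠ OnePoint.infty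
        have h2 := hmul (algebraMap ℂ F (-1)) f (-1) a (h1 (-1)) ha.symm
        have h3 : algebraMap ℂ F (-1) * f = -f := by simp
        rw [h3] at h2
        rw [h2]
        exact OnePoint.coe_ne_infty _
      mem_or_inv_mem' := by
        intro f
        by_cases hf : φ f = OnePoint.infty
        · right
          show φ f⁻¹ ≠ OnePoint.infty
          rw [hinv f hf]
          exact OnePoint.coe_ne_infty _
        · left
          exact hf }
  have hOmem : ∀ f : F, f ∈ O ↔ φ f ≠ OnePoint.infty := fun f => Iff.rfl
  have hK : ∀ a : ℂ, algebraMap ℂ F a ∈ O := by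
    intro a
    rw [hOmem, h1 a]
    exact OnePoint.coe_ne_infty _
  have hsubval : ∀ (f : F) (a : ℂ), φ f = a → φ (f - algebraMap ℂ F a) = ((0 : ℂ) : OnePoint ℂ) := by
    intro f a hf
    have h2 := hadd f (algebraMap ℂ F (-a)) a (-a) hf (h1 (-a))
    have h3 : f + algebraMap ℂ F (-a) = f - algebraMap ℂ F a := by
      rw [map_neg]; ring
    rw [h3, add_neg_cancel] at h2
    exact h2
  have hO : O ≠ ⊤ := by
    intro htop
    have hxO : x ∈ O := by rw [htop]; exact ValuationSubring.mem_top x
    obtain ⟨c, hc⟩ := OnePoint.ne_infty_iff_exists.mp ((hOmem x).mp hxO)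
    have hy0 : x - algebraMap ℂ F c ≠ 0 :=
      Fermat.Agent.S24.helper204.sub_ne_zero_of_transcendental hx c
    have h2 := hunit _ hy0 (hsubval x c hc.symm)
    have h3 : (x - algebraMap ℂ F c)⁻¹ ∈ O := by rw [htop]; exact ValuationSubring.mem_top _
    exact (hOmem _).mp h3 h2
  obtain ⟨P, hP⟩ := exists_place_of_valuationSubring x O hK hO
  refine ⟨P, fun f => ?_⟩
  by_cases hf : φ f = OnePoint.infty
  · rw [hf]
    apply value_eq_infty_of_notMem
    rw [hP, hOmem]
    exact not_not.mpr hf
  · obtain ⟨a, ha⟩ := OnePoint.ne_infty_iff_exists.mp hf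
    rw [← ha, value_eq_coe_iff, HasValueAt, ← ValuationSubring.mem_nonunits_iff,
      ValuationSubring.mem_nonunits_iff_or]
    by_cases hy0 : f - algebraMap ℂ F a = 0
    · exact Or.inl hy0
    · right
      rw [hP, hOmem, not_not]
      exact hunit _ hy0 (hsubval f a ha.symm)

/-- **Compactness** of the set of places of a complex function field in the weak topology. -/
theorem compactSpace_place (x : F) (hx : Transcendental ℂ x) [FiniteDimensional ℂ⟮x⟯ F] :
    CompactSpace (Place ℂ F) := by
  refine ⟨isCompact_iff_ultrafilter_le_nhds'.mpr fun 𝒰 _ => ?_⟩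
  have hlim : ∀ f : F, ∃ y : OnePoint ℂ, Tendsto (fun P => value P f) 𝒰 (𝓝 y) := fun f =>
    ⟨(𝒰.map fun P => value P f).lim, (𝒰.map fun P => value P f).le_nhds_lim⟩
  choose φ hφ using hlim
  obtain ⟨P, hP⟩ := exists_place_of_tendsto x hx (𝒰 : Filter (Place ℂ F)) φ hφ
  refine ⟨P, Set.mem_univ _, ?_⟩
  rw [isInducing_value.nhds_eq_comap, ← Filter.map_le_iff_le_comap]
  show Tendsto (fun (P : Place ℂ F) (f : F) => value P f) 𝒰 (𝓝 fun f => value P f)
  rw [tendsto_pi_nhds]
  intro f
  rw [hP f]
  exact hφ f

/-- The weak topology is Hausdorff. -/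
theorem t2Space_place (hres : ResidueSurj ℂ F) : T2Space (Place ℂ F) := by
  have hinj : Function.Injective (fun (P : Place ℂ F) (f : F) => value P f) :=
    fun P Q h => eq_of_value_eq hres (fun f => congrFun h f)
  exact (IsEmbedding.mk isInducing_value hinj).t2Space

/-- The set of places where `f` is regular is open. -/
theorem isOpen_setOf_value_ne_infty (f : F) :
    IsOpen {P : Place ℂ F | value P f ≠ OnePoint.infty} :=
  (isOpen_compl_singleton (x := (OnePoint.infty : OnePoint ℂ))).preimage (continuous_value f)

/-- The complex value of `f` is continuous where `f` is regular. -/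
theorem continuousOn_cval (f : F) :
    ContinuousOn (fun P : Place ℂ F => cval P f) {P | value P f ≠ OnePoint.infty} := by
  intro P hP
  have h1 : Tendsto (fun Q => value Q f) (𝓝[{P | value P f ≠ OnePoint.infty}] P)
      (𝓝 ((cval P f : ℂ) : OnePoint ℂ)) := by
    rw [← value_eq_coe_cval hP]
    exact ((continuous_value f).tendsto P).mono_left nhdsWithin_le_nhds
  exact (tendsto_value_coe_iff.mp h1).2

/-- Basic open neighbourhoods: the places where `f` takes a value in an open set of `ℂ`. -/
theorem isOpen_setOf_cval_mem (f : F) {U : Set ℂ} (hU : IsOpen U) :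
    IsOpen {P : Place ℂ F | value P f ≠ OnePoint.infty ∧ cval P f ∈ U} := by
  have h : {P : Place ℂ F | value P f ≠ OnePoint.infty ∧ cval P f ∈ U}
      = (fun P : Place ℂ F => value P f) ⁻¹' (((↑) : ℂ → OnePoint ℂ) '' U) := by
    ext P
    simp only [Set.mem_ofPred_eq, Set.mem_preimage, Set.mem_image]
    constructor
    · rintro ⟨h1, h2⟩
      exact ⟨cval P f, h2, (value_eq_coe_cval h1).symm⟩
    · rintro ⟨c, hc, hc'⟩
      have h1 : value P f ≠ OnePoint.infty := by
        rw [← hc']; exact OnePoint.coe_ne_infty c
      refine ⟨h1, ?_⟩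
      rw [cval_of_value_eq hc'.symm]
      exact hc
  rw [h]
  exact (OnePoint.isOpenEmbedding_coe.isOpenMap U hU).preimage (continuous_value f)

end Topology

end Fermat.Agent.S27.helper440
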