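import Fermat.Agent.S27.helper5747_AlgSpec
import Fermat.Agent.S24.helper1370_PlaceBasics

/-!
# S27, algebraic route, characteristic `p` core: leaf `Stmt_Exh`

Every class of `Pic⁰` lies in some `Γ_r = Gam g r`: every place has a finite orbit under the
Frobenius `g`, hence every divisor is fixed by a power of `g`.

* `finite_ord_ne_zero` : a nonzero function has finitely many zeros and poles.
* `baseAut_pow` : `baseAut (g ^ m) a = a ^ (q ^ m)` in a `FrobSetting`.
* `exists_pow_smul_place_eq` : every place is fixed by some `g ^ r`, `0 < r`.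
* `exists_pow_smul_divisor_eq` : every divisor is fixed by some `g ^ r`, `0 < r`.
* `stmt_Exh : helper5747.Stmt_Exh` (verbatim).
-/

set_option autoImplicit false

open AlgebraicCurve

namespace Fermat.Agent.S27.helper1017

open Fermat.Agent.S27.helper5747 Fermat.Agent.S24.helper1370

section

variable {K F : Type*} [Field K] [Field F] [Algebra K F]

/-- A nonzero function has finitely many zeros and poles. -/
theorem finite_ord_ne_zero [HasPrincipalDivisors K F] {f : F} (hf : f ≠ 0) :
    {v : Place K F | v.ord f ≠ 0}.Finite := by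
  obtain ⟨D, hD, -⟩ := HasPrincipalDivisors.exists_divisor (K := K) f hf
  refine D.support.finite_toSet.subset ?_
  intro v hv
  simp only [Finset.mem_coe, Finsupp.mem_support_iff]
  rw [hD v]
  exact hv

/-- An element of a group acting on a type, stabilising a finite set, has finite orbits on it. -/
theorem exists_pow_smul_eq_of_finite {G X : Type*} [Group G] [MulAction G X] (h : G) (S : Set X)
    (hS : S.Finite) (hstab : ∀ w ∈ S, h • w ∈ S) {v : X} (hv : v ∈ S) :
    ∃ n : ℕ, 0 < n ∧ h ^ n • v = v := by
  have hmem : ∀ n : ℕ, h ^ n • v ∈ S := by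
    intro n
    induction n with
    | zero => simpa using hv
    | succ n ih =>
      rw [pow_succ', mul_smul]
      exact hstab _ ih
  have key : ∀ i j : ℕ, i < j → h ^ i • v = h ^ j • v → ∃ n : ℕ, 0 < n ∧ h ^ n • v = v := by
    intro i j hlt he
    refine ⟨j - i, Nat.sub_pos_of_lt hlt, ?_⟩
    have hpow : h ^ j = h ^ i * h ^ (j - i) := by
      rw [← pow_add, Nat.add_sub_cancel' hlt.le]
    rw [hpow, mul_smul] at he
    exact (MulAction.injective (h ^ i) he).symm
  have : Finite S := hS.to_subtype
  obtain ⟨i, j, hij, heq⟩ :=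
    Finite.exists_ne_map_eq_of_infinite (fun n : ℕ => (⟨h ^ n • v, hmem n⟩ : S))
  have heq' : h ^ i • v = h ^ j • v := congrArg Subtype.val heq
  rcases lt_or_gt_of_ne hij with hlt | hlt
  · exact key i j hlt heq'
  · exact key j i hlt heq'.symm

/-- A function fixed by `g` is fixed by all powers of `g`. -/
theorem pow_smul_eq_self {g : SemilinearAut K F} {x : F} (hx : g • x = x) (m : ℕ) :
    (g ^ m) • x = x := by
  induction m with
  | zero => simp
  | succ m ih => rw [pow_succ, mul_smul, hx, ih]

/-- A place fixed by `h` is fixed by all powers of `h`. -/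
theorem pow_smul_place_eq_self {h : SemilinearAut K F} {v : Place K F} (hv : h • v = v) (m : ℕ) :
    (h ^ m) • v = v := by
  induction m with
  | zero => simp
  | succ m ih => rw [pow_succ, mul_smul, hv, ih]

/-- The base automorphism of `g ^ m` is the `q ^ m`-Frobenius. -/
theorem baseAut_pow {q : ℕ} {g : SemilinearAut K F}
    (hbase : ∀ a : K, SemilinearAut.baseAut g a = a ^ q) (m : ℕ) (a : K) :
    SemilinearAut.baseAut (g ^ m) a = a ^ (q ^ m) := by
  induction m generalizing a with
  | zero => simp
  | succ m ih =>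
    rw [pow_succ, SemilinearAut.baseAut_mul]
    show SemilinearAut.baseAut (g ^ m) (SemilinearAut.baseAut g a) = _
    rw [hbase, ih, ← pow_mul, pow_succ, mul_comm]

/-- If `h` fixes the nonzero function `f`, then every zero or pole of `f` is fixed by a power
of `h`. -/
theorem exists_pow_smul_eq_of_fixed_fun [HasPrincipalDivisors K F] (h : SemilinearAut K F)
    {f : F} (hf : f ≠ 0) (hfix : h • f = f) {v : Place K F} (hv : v.ord f ≠ 0) :
    ∃ n : ℕ, 0 < n ∧ (h ^ n) • v = v := by
  refine exists_pow_smul_eq_of_finite h {w : Place K F | w.ord f ≠ 0} (finite_ord_ne_zero hf)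
    ?_ hv
  intro w hw
  show (h • w).ord f ≠ 0
  have := SemilinearAut.ord_smul h w f
  rw [hfix] at this
  rw [this]
  exact hw

/-- Every place has a finite orbit under the Frobenius. -/
theorem exists_pow_smul_place_eq [HasPrincipalDivisors K F] {q : ℕ} {g : SemilinearAut K F}
    (hS : FrobSetting K F q g) (v : Place K F) : ∃ r : ℕ, 0 < r ∧ (g ^ r) • v = v := by
  obtain ⟨x, hx, -, hgx⟩ := hS.fixedFun
  have hx0 : x ≠ 0 := by
    rintro rfl
    exact hx (isAlgebraic_zero)
  by_cases hpole : v.ord x < 0
  · obtain ⟨n, hn, h⟩ := exists_pow_smul_eq_of_fixed_fun g hx0 hgx (v := v) hpole.ne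
    exact ⟨n, hn, h⟩
  · push Not at hpole
    have hmem : x ∈ v.toValuationSubring := mem_of_ord_nonneg v hpole
    obtain ⟨b, hb⟩ := hS.res v (IsLocalRing.residue _ (⟨x, hmem⟩ : v.toValuationSubring))
    have hne : x - algebraMap K F b ≠ 0 := by
      intro h0
      apply hx
      rw [sub_eq_zero.1 h0]
      exact isAlgebraic_algebraMap b
    have hmem' : x - algebraMap K F b ∈ v.toValuationSubring :=
      v.toValuationSubring.sub_mem hmem (v.algebraMap_mem' b)
    have hne' : (⟨x - algebraMap K F b, hmem'⟩ : v.toValuationSubring) ≠ 0 := by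
      intro h0
      exact hne (congrArg Subtype.val h0)
    have hmax : (⟨x - algebraMap K F b, hmem'⟩ : v.toValuationSubring)
        ∈ IsLocalRing.maximalIdeal v.toValuationSubring := by
      rw [← IsLocalRing.residue_eq_zero_iff]
      have h1 : (⟨x - algebraMap K F b, hmem'⟩ : v.toValuationSubring)
          = ⟨x, hmem⟩ - algebraMap K v.toValuationSubring b := by
        ext
        simp
      rw [h1, map_sub, sub_eq_zero]
      exact hb.symm
    have hpos : 0 < v.ord (x - algebraMap K F b) :=
      (ord_pos_iff_mem_maximalIdeal v hne').2 hmax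
    obtain ⟨m, hm, hbm⟩ := hS.alg b
    have hfix : (g ^ m) • (x - algebraMap K F b) = x - algebraMap K F b := by
      rw [smul_sub, pow_smul_eq_self hgx, SemilinearAut.smul_algebraMap,
        baseAut_pow hS.base, hbm]
    obtain ⟨n, hn, h⟩ := exists_pow_smul_eq_of_fixed_fun (g ^ m) hne hfix (v := v) hpos.ne'
    refine ⟨m * n, Nat.mul_pos hm hn, ?_⟩
    rw [pow_mul]
    exact h

/-- An automorphism fixing every place of the support of a divisor fixes the divisor. -/
theorem smul_divisor_eq_self (h : SemilinearAut K F) (D : Divisor K F)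
    (hfix : ∀ v ∈ D.support, h • v = v) : h • D = D := by
  rw [SemilinearAut.divisor_smul_def, Finsupp.mapDomain]
  conv_rhs => rw [← Finsupp.sum_single D]
  exact Finsupp.sum_congr fun v hv => by rw [hfix v hv]

/-- Every divisor is fixed by a power of the Frobenius. -/
theorem exists_pow_smul_divisor_eq [HasPrincipalDivisors K F] {q : ℕ} {g : SemilinearAut K F}
    (hS : FrobSetting K F q g) (D : Divisor K F) : ∃ r : ℕ, 0 < r ∧ (g ^ r) • D = D := by
  classical
  choose r hr using fun v : Place K F => exists_pow_smul_place_eq hS v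
  refine ⟨∏ v ∈ D.support, r v, Finset.prod_pos fun v _ => (hr v).1, ?_⟩
  refine smul_divisor_eq_self _ D fun v hv => ?_
  obtain ⟨t, ht⟩ := Finset.dvd_prod_of_mem r hv
  rw [ht, pow_mul]
  exact pow_smul_place_eq_self (hr v).2 t

end

/-- **EXH** (`helper5747.Stmt_Exh`, verbatim): every class of `Pic⁰` lies in some `Γ_r`. -/
theorem stmt_Exh : Stmt_Exh := by
  intro K F _ _ _ _ _ q g hS x
  obtain ⟨D, rfl⟩ := Pic0.mk_surjective x
  obtain ⟨r, hr, hD⟩ := exists_pow_smul_divisor_eq hS (D : Divisor K F)
  exact ⟨r, hr, D, hD, rfl⟩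

end Fermat.Agent.S27.helper1017
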