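import Fermat.Agent.S27.helper3351_WSpec

/-!
# S27, algebraic route, leaf W1b-1: points = maximal ideals of a table algebra

Proves `helper3351.Stmt_PtIdeal` and `helper3351.Stmt_MaxIdeal` verbatim, unconditionally.

* `evHom hP : T.Alg →+* K` : evaluation at a point `(x₀, ψ)` as a ring homomorphism.
* `mem_ptIdeal_iff` : the ideal of the point is the kernel of the evaluation.
* `ptIdeal_isMaximal`.
* `exists_point_of_isMaximal` : over an algebraically closed field every maximal ideal is the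
  ideal of a point (Zariski's lemma for the finite `K[X]`-algebra `T.Alg`).
-/

set_option autoImplicit false

noncomputable section

open Polynomial

namespace Fermat.Agent.S27.helper1017

open Fermat.Agent.S27.helper3351

universe u

section General

variable {τ : WType} {K : Type u} [Field K] {T : Tab τ K} {x₀ : K} {ψ : Fin τ.m → K}

/-! ### `evalPt` on tuples -/

theorem evalPt_add (a b : Elt τ K) :
    T.evalPt x₀ ψ (a + b) = T.evalPt x₀ ψ a + T.evalPt x₀ ψ b := by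
  simp only [Tab.evalPt, Pi.add_apply, Polynomial.eval_add, add_mul, Finset.sum_add_distrib]

theorem evalPt_zero : T.evalPt x₀ ψ (0 : Elt τ K) = 0 := by
  simp [Tab.evalPt]

theorem evalPt_smul (r : K[X]) (a : Elt τ K) :
    T.evalPt x₀ ψ (r • a) = r.eval x₀ * T.evalPt x₀ ψ a := by
  simp only [Tab.evalPt, Pi.smul_apply, smul_eq_mul, Polynomial.eval_mul, Finset.mul_sum,
    mul_assoc]

theorem evalPt_e (i : Fin τ.m) : T.evalPt x₀ ψ (Elt.e i : Elt τ K) = ψ i := by
  simp only [Tab.evalPt, Elt.e]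
  rw [Finset.sum_eq_single i]
  · simp
  · intro b _ hb
    simp [hb]
  · intro h
    exact absurd (Finset.mem_univ i) h

theorem elt_one_eq_e (i : Fin τ.m) (hi : (i : ℕ) = 0) : (Elt.one : Elt τ K) = Elt.e i := by
  funext j
  simp only [Elt.one, Elt.e]
  have : ((j : ℕ) = 0) ↔ j = i := by
    rw [Fin.ext_iff, hi]
  simp only [this]

theorem evalPt_one (hg : τ.Good) (hP : T.IsPoint x₀ ψ) :
    T.evalPt x₀ ψ (Elt.one : Elt τ K) = 1 := by
  have h0 : ((⟨0, hg.1⟩ : Fin τ.m) : ℕ) = 0 := rfl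
  rw [elt_one_eq_e ⟨0, hg.1⟩ h0, evalPt_e]
  exact hP.1 _ h0

theorem evalPt_mul (hP : T.IsPoint x₀ ψ) (a b : Elt τ K) :
    T.evalPt x₀ ψ (T.mul a b) = T.evalPt x₀ ψ a * T.evalPt x₀ ψ b := by
  have h2 := hP.2
  calc T.evalPt x₀ ψ (T.mul a b)
      = ∑ k, ∑ i, ∑ j, (a i).eval x₀ * ((b j).eval x₀ * ((T.c i j k).eval x₀ * ψ k)) := by
        simp only [Tab.evalPt, Tab.mul_apply, Polynomial.eval_finset_sum, Polynomial.eval_mul,
          Finset.sum_mul, mul_assoc]
    _ = ∑ i, ∑ j, (a i).eval x₀ * ((b j).eval x₀ * ∑ k, ((T.c i j k).eval x₀ * ψ k)) := by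
        rw [Finset.sum_comm]
        refine Finset.sum_congr rfl fun i _ => ?_
        rw [Finset.sum_comm]
        refine Finset.sum_congr rfl fun j _ => ?_
        rw [Finset.mul_sum, Finset.mul_sum]
    _ = ∑ i, ∑ j, ((a i).eval x₀ * ψ i) * ((b j).eval x₀ * ψ j) := by
        refine Finset.sum_congr rfl fun i _ => Finset.sum_congr rfl fun j _ => ?_
        rw [← h2 i j]
        ring
    _ = T.evalPt x₀ ψ a * T.evalPt x₀ ψ b := by
        simp only [Tab.evalPt]
        rw [Finset.sum_mul_sum]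

end General

section Alg

variable {τ : WType} {K : Type u} [Field K] {T : Tab τ K} [hT : Fact T.PreValid]
  {x₀ : K} {ψ : Fin τ.m → K}

/-- Evaluation at a point, as a ring homomorphism. -/
def evHom (hP : T.IsPoint x₀ ψ) : T.Alg →+* K where
  toFun a := T.evalPt x₀ ψ a.toElt
  map_one' := evalPt_one hT.out.good hP
  map_mul' a b := evalPt_mul hP a.toElt b.toElt
  map_zero' := evalPt_zero (T := T)
  map_add' a b := evalPt_add (T := T) a.toElt b.toElt

theorem evHom_apply (hP : T.IsPoint x₀ ψ) (a : T.Alg) :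
    evHom hP a = T.evalPt x₀ ψ a.toElt := rfl

theorem evHom_smul (hP : T.IsPoint x₀ ψ) (r : K[X]) (a : T.Alg) :
    evHom hP (r • a) = r.eval x₀ * evHom hP a :=
  evalPt_smul (T := T) r a.toElt

theorem evHom_ω (hP : T.IsPoint x₀ ψ) (i : Fin τ.m) : evHom hP (Tab.Alg.ω T i) = ψ i :=
  evalPt_e (T := T) i

theorem evHom_algebraMap (hP : T.IsPoint x₀ ψ) (c : K) :
    evHom hP (algebraMap K T.Alg c) = c := by
  have h : algebraMap K T.Alg c = (C c : K[X]) • (1 : T.Alg) := by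
    rw [← Tab.Alg.algebraMap_poly_apply]
    rfl
  rw [h, evHom_smul, map_one, Polynomial.eval_C, mul_one]

theorem evHom_surjective (hP : T.IsPoint x₀ ψ) : Function.Surjective (evHom hP) :=
  fun c => ⟨algebraMap K T.Alg c, evHom_algebraMap hP c⟩

/-! ### The generators -/

theorem ofElt_genElt_none :
    Tab.Alg.ofElt T (genElt x₀ ψ none) = (X - C x₀ : K[X]) • (1 : T.Alg) := by
  apply Tab.Alg.ext
  intro i
  show (if (i : ℕ) = 0 then X - C x₀ else 0) = (X - C x₀) * (if (i : ℕ) = 0 then 1 else 0)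
  split_ifs <;> simp

theorem ofElt_genElt_some (j : Fin τ.m) :
    Tab.Alg.ofElt T (genElt x₀ ψ (some j)) = Tab.Alg.ω T j - (C (ψ j) : K[X]) • (1 : T.Alg) := by
  apply Tab.Alg.ext
  intro i
  show ((if i = j then 1 else 0) - (if (i : ℕ) = 0 then C (ψ j) else 0) : K[X])
    = (if i = j then 1 else 0) - C (ψ j) * (if (i : ℕ) = 0 then 1 else 0)
  split_ifs <;> simp

theorem genElt_none_mem : (X - C x₀ : K[X]) • (1 : T.Alg) ∈ T.ptIdeal x₀ ψ := by
  rw [← ofElt_genElt_none (ψ := ψ)]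
  exact Ideal.subset_span ⟨none, rfl⟩

theorem genElt_some_mem (j : Fin τ.m) :
    Tab.Alg.ω T j - (C (ψ j) : K[X]) • (1 : T.Alg) ∈ T.ptIdeal x₀ ψ := by
  rw [← ofElt_genElt_some (x₀ := x₀)]
  exact Ideal.subset_span ⟨some j, rfl⟩

theorem smul_mem_ptIdeal (r : K[X]) {b : T.Alg} (hb : b ∈ T.ptIdeal x₀ ψ) :
    r • b ∈ T.ptIdeal x₀ ψ := by
  rw [Algebra.smul_def]
  exact Ideal.mul_mem_left _ _ hb

theorem sub_eval_smul_mem (r : K[X]) (b : T.Alg) :
    (r - C (r.eval x₀)) • b ∈ T.ptIdeal x₀ ψ := by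
  obtain ⟨q, hq⟩ := Polynomial.X_sub_C_dvd_sub_C_eval (a := x₀) (p := r)
  rw [hq]
  have : ((X - C x₀) * q) • b = ((X - C x₀ : K[X]) • (1 : T.Alg)) * (q • b) := by
    rw [smul_mul_assoc, one_mul, mul_smul]
  rw [this]
  exact Ideal.mul_mem_right _ _ genElt_none_mem

theorem aux_sum {R M ι : Type*} [CommRing R] [AddCommGroup M] [Module R M] (s : Finset ι)
    (r c t : ι → R) (w : ι → M) (one : M) :
    (∑ i ∈ s, r i • w i) - (∑ i ∈ s, c i * t i) • one
      = ∑ i ∈ s, ((r i - c i) • w i + c i • (w i - t i • one)) := by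
  simp only [sub_smul, smul_sub, Finset.sum_add_distrib, Finset.sum_sub_distrib, Finset.sum_smul,
    smul_smul]
  abel

theorem alg_eq_sum (a : T.Alg) : a = ∑ i, a.toElt i • Tab.Alg.ω T i :=
  Elt.eq_sum a

/-- Every element is congruent to a constant modulo the ideal of the point. -/
theorem sub_evalPt_mem (a : T.Alg) :
    a - (C (T.evalPt x₀ ψ a.toElt) : K[X]) • (1 : T.Alg) ∈ T.ptIdeal x₀ ψ := by
  have hC : (C (T.evalPt x₀ ψ a.toElt) : K[X])
      = ∑ i, C ((a.toElt i).eval x₀) * C (ψ i) := by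
    simp only [Tab.evalPt, map_sum, C_mul]
  have key : a - (C (T.evalPt x₀ ψ a.toElt) : K[X]) • (1 : T.Alg)
      = ∑ i, ((a.toElt i - C ((a.toElt i).eval x₀)) • Tab.Alg.ω T i
          + C ((a.toElt i).eval x₀) • (Tab.Alg.ω T i - (C (ψ i) : K[X]) • (1 : T.Alg))) := by
    rw [hC, ← aux_sum, ← alg_eq_sum]
  rw [key]
  refine Ideal.sum_mem _ fun i _ => Ideal.add_mem _ ?_ ?_
  · exact sub_eval_smul_mem _ _
  · exact smul_mem_ptIdeal _ (genElt_some_mem i)

theorem ptIdeal_le_ker (hP : T.IsPoint x₀ ψ) :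
    T.ptIdeal x₀ ψ ≤ RingHom.ker (evHom hP) := by
  refine Ideal.span_le.2 ?_
  rintro _ ⟨a, rfl⟩
  show evHom hP (Tab.Alg.ofElt T (genElt x₀ ψ a)) = 0
  cases a with
  | none =>
    rw [ofElt_genElt_none, evHom_smul]
    simp
  | some j =>
    rw [ofElt_genElt_some, map_sub, evHom_smul, evHom_ω, map_one]
    simp

theorem mem_ptIdeal_iff (hP : T.IsPoint x₀ ψ) (a : T.Alg) :
    a ∈ T.ptIdeal x₀ ψ ↔ T.evalPt x₀ ψ a.toElt = 0 := by
  constructor
  · intro h
    exact ptIdeal_le_ker hP h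
  · intro h
    have := sub_evalPt_mem (x₀ := x₀) (ψ := ψ) a
    rwa [h, map_zero, zero_smul, sub_zero] at this

theorem ptIdeal_eq_ker (hP : T.IsPoint x₀ ψ) : T.ptIdeal x₀ ψ = RingHom.ker (evHom hP) := by
  ext a
  rw [mem_ptIdeal_iff hP, RingHom.mem_ker, evHom_apply]

theorem ptIdeal_isMaximal (hP : T.IsPoint x₀ ψ) : (T.ptIdeal x₀ ψ).IsMaximal := by
  rw [ptIdeal_eq_ker hP]
  exact RingHom.ker_isMaximal_of_surjective (evHom hP) (evHom_surjective hP)

/-! ### Maximal ideals over an algebraically closed field -/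

instance instModuleFinitePoly : Module.Finite K[X] T.Alg :=
  Module.Finite.of_basis (Tab.Alg.basis T)

instance instFiniteType : Algebra.FiniteType K T.Alg :=
  Algebra.FiniteType.trans (S := K[X]) inferInstance inferInstance

theorem algebraMap_poly_eq_aeval (r : K[X]) :
    algebraMap K[X] T.Alg r = Polynomial.aeval (Tab.Alg.x T) r := by
  rw [Tab.Alg.x_eq_algebraMap, Polynomial.aeval_algebraMap_apply, Polynomial.aeval_X_left_apply]

theorem algHom_smul (φ : T.Alg →ₐ[K] K) (r : K[X]) (b : T.Alg) :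
    φ (r • b) = r.eval (φ (Tab.Alg.x T)) * φ b := by
  rw [Algebra.smul_def, map_mul, algebraMap_poly_eq_aeval, ← Polynomial.aeval_algHom_apply,
    Polynomial.coe_aeval_eq_eval]

theorem ω_eq_one (i : Fin τ.m) (hi : (i : ℕ) = 0) : Tab.Alg.ω T i = 1 :=
  (elt_one_eq_e i hi).symm

theorem ω_mul_ω (i j : Fin τ.m) :
    Tab.Alg.ω T i * Tab.Alg.ω T j = ∑ k, T.c i j k • Tab.Alg.ω T k := by
  have h1 : Tab.Alg.ω T i * Tab.Alg.ω T j = Tab.Alg.ofElt T (fun k => T.c i j k) :=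
    Tab.mul_e_e T i j
  rw [h1]
  exact alg_eq_sum _

/-- A `K`-algebra homomorphism `T.Alg → K` is the evaluation at a point. -/
theorem isPoint_of_algHom (φ : T.Alg →ₐ[K] K) :
    T.IsPoint (φ (Tab.Alg.x T)) (fun i => φ (Tab.Alg.ω T i)) := by
  refine ⟨fun i hi => ?_, fun i j => ?_⟩
  · show φ (Tab.Alg.ω T i) = 1
    rw [ω_eq_one i hi, map_one]
  · show φ (Tab.Alg.ω T i) * φ (Tab.Alg.ω T j) = _
    rw [← map_mul, ω_mul_ω, map_sum]
    refine Finset.sum_congr rfl fun k _ => ?_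
    rw [algHom_smul]

theorem ptIdeal_le_ker_algHom (φ : T.Alg →ₐ[K] K) :
    T.ptIdeal (φ (Tab.Alg.x T)) (fun i => φ (Tab.Alg.ω T i)) ≤ RingHom.ker φ.toRingHom := by
  refine Ideal.span_le.2 ?_
  rintro _ ⟨a, rfl⟩
  show φ (Tab.Alg.ofElt T (genElt (φ (Tab.Alg.x T)) (fun i => φ (Tab.Alg.ω T i)) a)) = 0
  cases a with
  | none =>
    rw [ofElt_genElt_none, algHom_smul]
    simp
  | some j =>
    rw [ofElt_genElt_some, map_sub, algHom_smul, map_one]
    simp

theorem exists_point_of_isMaximal [IsAlgClosed K] (M : Ideal T.Alg) (hM : M.IsMaximal) :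
    ∃ (x₀ : K) (ψ : Fin τ.m → K), T.IsPoint x₀ ψ ∧ M = T.ptIdeal x₀ ψ := by
  let _ : Field (T.Alg ⧸ M) := Ideal.Quotient.field M
  have : Algebra.FiniteType K (T.Alg ⧸ M) :=
    Algebra.FiniteType.of_surjective (Ideal.Quotient.mkₐ K M) (Ideal.Quotient.mkₐ_surjective K M)
  have : Module.Finite K (T.Alg ⧸ M) := finite_of_finite_type_of_isJacobsonRing K (T.Alg ⧸ M)
  have hbij : Function.Bijective (algebraMap K (T.Alg ⧸ M)) :=
    IsAlgClosed.algebraMap_bijective_of_isIntegral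
  let e : K ≃ₐ[K] (T.Alg ⧸ M) := AlgEquiv.ofBijective (Algebra.ofId K (T.Alg ⧸ M)) hbij
  let φ : T.Alg →ₐ[K] K := (e.symm : (T.Alg ⧸ M) →ₐ[K] K).comp (Ideal.Quotient.mkₐ K M)
  have hker : ∀ b : T.Alg, φ b = 0 → b ∈ M := by
    intro b hb
    have h1 : e.symm (Ideal.Quotient.mk M b) = 0 := hb
    have h2 : Ideal.Quotient.mk M b = 0 := by
      rwa [map_eq_zero_iff e.symm e.symm.injective] at h1
    exact Ideal.Quotient.eq_zero_iff_mem.1 h2
  have hP := isPoint_of_algHom φ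
  refine ⟨_, _, hP, ?_⟩
  have hmax := ptIdeal_isMaximal hP
  have hle : T.ptIdeal (φ (Tab.Alg.x T)) (fun i => φ (Tab.Alg.ω T i)) ≤ M := by
    intro b hb
    have hb' : φ b = 0 := by
      have := ptIdeal_le_ker_algHom φ hb
      exact this
    have hφ : φ b = T.evalPt (φ (Tab.Alg.x T)) (fun i => φ (Tab.Alg.ω T i)) b.toElt := by
      have := sub_evalPt_mem (x₀ := φ (Tab.Alg.x T)) (ψ := fun i => φ (Tab.Alg.ω T i)) b
      have h3 := ptIdeal_le_ker_algHom φ this
      have h4 : φ (b - (C (T.evalPt (φ (Tab.Alg.x T)) (fun i => φ (Tab.Alg.ω T i)) b.toElt) : K[X])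
          • (1 : T.Alg)) = 0 := h3
      rw [map_sub, algHom_smul, map_one, Polynomial.eval_C, mul_one, sub_eq_zero] at h4
      exact h4
    have hmem : φ b = 0 → b ∈ M := hker b
    exact hmem hb'
  exact (hmax.eq_of_le hM.ne_top hle).symm

end Alg

/-! ### The two interface statements, verbatim -/

/-- **W1b-1** (`helper3351.Stmt_PtIdeal`). -/
theorem stmt_PtIdeal : Stmt_PtIdeal.{u} := by
  intro K _ τ T _ x₀ ψ hP
  exact ⟨ptIdeal_isMaximal hP, mem_ptIdeal_iff hP, fun a b => evalPt_mul hP a.toElt b.toElt⟩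

/-- **W1b-2** (`helper3351.Stmt_MaxIdeal`). -/
theorem stmt_MaxIdeal : Stmt_MaxIdeal.{u} := by
  intro K _ _ τ T _ M hM
  exact exists_point_of_isMaximal M hM

end Fermat.Agent.S27.helper1017

end
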