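import Fermat.Agent.S27.helper3351_WSpec
import Fermat.Agent.S24.helper1370_PlaceBasics

/-!
# S27, algebraic track: the Frobenius datum `Stmt_Frob` (board row 1199, owner helper975)

For a valid table `T` over `𝔽̄_p` all (finitely many) coefficients lie in one finite field
`𝔽_q`, `q = p ^ f`.  The coefficientwise `q`-Frobenius is a ring automorphism `φ₀` of `T.Alg`
(the structure constants are fixed), it preserves the weight, fixes `x`, and induces an
automorphism `φ` of the fraction field which is the `q`-th power map on constants.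

The only input from the place theory (W1d-1) is the place at infinity, in any ONE of three
interchangeable forms (each is a `Prop` below, with a proved `Stmt_Frob` from it):

* `Stmt_InfPlace`    (membership form): a place `P₀` with `a / b ∈ 𝒪_{P₀} ↔ wt a ≤ wt b`
  (`a b ∈ T.Alg`, `b ≠ 0`)                                  → `stmt_Frob`;
* `Stmt_InfPlaceOrd` (order form): a place `P₀` with `ord_{P₀} b = - wt b` for `0 ≠ b ∈ T.Alg`
                                                              → `stmt_Frob_of_ord`;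
* `Stmt_PoleUnique`  (unique pole form): a place `P₀` which is the unique place not containing
  `x`                                                         → `stmt_Frob_of_poleUnique`.

Per-table versions (one table, one given place): `frob_datum`, `frob_datum_of_ord`,
`frob_datum_of_unique_pole`.  The construction itself (no place) is `exists_frob`.
-/

set_option autoImplicit false

noncomputable section

open Polynomial AlgebraicCurve

namespace Fermat.Agent.S27.helper975

open Fermat.Agent.S27.helper3351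

/-! ## Coefficientwise maps on table algebras -/

section CoeffMap

variable {τ : WType} {K : Type*} [CommRing K]

/-- A ring hom fixing the table coefficients fixes the structure constants. -/
theorem c_map (T : Tab τ K) (σ : K →+* K) (hσ : ∀ i j k e, σ (T i j k e) = T i j k e)
    (i j k : Fin τ.m) : (T.c i j k).map σ = T.c i j k := by
  unfold Tab.c polyOf
  rw [Polynomial.map_sum]
  refine Finset.sum_congr rfl fun e _ => ?_
  rw [Polynomial.map_mul, Polynomial.map_C, Polynomial.map_pow, Polynomial.map_X, hσ]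

theorem eltMap_mul (T : Tab τ K) (σ : K →+* K) (hσ : ∀ i j k e, σ (T i j k e) = T i j k e)
    (a b : Elt τ K) : Elt.map σ (T.mul a b) = T.mul (Elt.map σ a) (Elt.map σ b) := by
  funext k
  simp only [Elt.map, Tab.mul_apply, Polynomial.map_sum, Polynomial.map_mul, c_map T σ hσ]

theorem eltMap_one (σ : K →+* K) : Elt.map σ (Elt.one : Elt τ K) = Elt.one := by
  funext i
  simp only [Elt.map, Elt.one]
  split_ifs <;> simp

theorem eltMap_add (σ : K →+* K) (a b : Elt τ K) :
    Elt.map σ (a + b) = Elt.map σ a + Elt.map σ b := by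
  funext i
  simp only [Elt.map, Pi.add_apply, Polynomial.map_add]

theorem eltMap_smul (σ : K →+* K) (r : K[X]) (a : Elt τ K) :
    Elt.map σ (r • a) = r.map σ • Elt.map σ a := by
  funext i
  simp only [Elt.map, Pi.smul_apply, smul_eq_mul, Polynomial.map_mul]

theorem eltMap_eltMap (σ ρ : K →+* K) (a : Elt τ K) :
    Elt.map σ (Elt.map ρ a) = Elt.map (σ.comp ρ) a := by
  funext i
  simp only [Elt.map, Polynomial.map_map]

theorem eltMap_id (a : Elt τ K) : Elt.map (RingHom.id K) a = a := by
  funext i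
  simp only [Elt.map, Polynomial.map_id]

/-- An injective coefficient map preserves the weight. -/
theorem wt_eltMap (T : Tab τ K) (σ : K →+* K) (hσ : Function.Injective σ) (a : Elt τ K) :
    T.wt (Elt.map σ a) = T.wt a := by
  unfold Tab.wt
  refine Finset.sup_congr rfl fun i _ => ?_
  have h0 : Elt.map σ a i = 0 ↔ a i = 0 := Polynomial.map_eq_zero_iff hσ
  have hd : (Elt.map σ a i).natDegree = (a i).natDegree :=
    Polynomial.natDegree_map_eq_of_injective hσ _
  by_cases h : a i = 0
  · rw [if_pos h, if_pos (h0.2 h)]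
  · rw [if_neg h, if_neg (fun h' => h (h0.1 h')), hd]

/-- The coefficientwise action on `T.Alg` of a ring automorphism of `K` fixing the table. -/
def coeffEquiv (T : Tab τ K) [Fact T.PreValid] (σ : K ≃+* K)
    (hσ : ∀ i j k e, σ (T i j k e) = T i j k e) : T.Alg ≃+* T.Alg where
  toFun a := Tab.Alg.ofElt T (Elt.map (σ : K →+* K) a.toElt)
  invFun a := Tab.Alg.ofElt T (Elt.map (σ.symm : K →+* K) a.toElt)
  left_inv a := by
    show Elt.map (σ.symm : K →+* K) (Elt.map (σ : K →+* K) a.toElt) = a
    rw [eltMap_eltMap]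
    have : (σ.symm : K →+* K).comp (σ : K →+* K) = RingHom.id K := by
      ext x
      simp
    rw [this, eltMap_id]
    rfl
  right_inv a := by
    show Elt.map (σ : K →+* K) (Elt.map (σ.symm : K →+* K) a.toElt) = a
    rw [eltMap_eltMap]
    have : (σ : K →+* K).comp (σ.symm : K →+* K) = RingHom.id K := by
      ext x
      simp
    rw [this, eltMap_id]
    rfl
  map_mul' a b := eltMap_mul T (σ : K →+* K) hσ a.toElt b.toElt
  map_add' a b := eltMap_add (σ : K →+* K) a.toElt b.toElt

theorem coeffEquiv_toElt (T : Tab τ K) [Fact T.PreValid] (σ : K ≃+* K)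
    (hσ : ∀ i j k e, σ (T i j k e) = T i j k e) (a : T.Alg) :
    (coeffEquiv T σ hσ a).toElt = Elt.map (σ : K →+* K) a.toElt := rfl

theorem wt_coeffEquiv (T : Tab τ K) [Fact T.PreValid] (σ : K ≃+* K)
    (hσ : ∀ i j k e, σ (T i j k e) = T i j k e) (a : T.Alg) :
    T.wt (coeffEquiv T σ hσ a).toElt = T.wt a.toElt := by
  rw [coeffEquiv_toElt]
  exact wt_eltMap T _ σ.injective _

theorem coeffEquiv_smul (T : Tab τ K) [Fact T.PreValid] (σ : K ≃+* K)
    (hσ : ∀ i j k e, σ (T i j k e) = T i j k e) (r : K[X]) (a : T.Alg) :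
    coeffEquiv T σ hσ (r • a) = r.map (σ : K →+* K) • coeffEquiv T σ hσ a :=
  eltMap_smul (σ : K →+* K) r a.toElt

theorem coeffEquiv_algebraMap_poly (T : Tab τ K) [Fact T.PreValid] (σ : K ≃+* K)
    (hσ : ∀ i j k e, σ (T i j k e) = T i j k e) (r : K[X]) :
    coeffEquiv T σ hσ (algebraMap K[X] T.Alg r) = algebraMap K[X] T.Alg (r.map (σ : K →+* K)) := by
  rw [Tab.Alg.algebraMap_poly_apply, Tab.Alg.algebraMap_poly_apply, coeffEquiv_smul, map_one]

theorem coeffEquiv_x (T : Tab τ K) [Fact T.PreValid] (σ : K ≃+* K)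
    (hσ : ∀ i j k e, σ (T i j k e) = T i j k e) :
    coeffEquiv T σ hσ (Tab.Alg.x T) = Tab.Alg.x T := by
  rw [Tab.Alg.x_eq_algebraMap, coeffEquiv_algebraMap_poly, Polynomial.map_X]

theorem coeffEquiv_algebraMap (T : Tab τ K) [Fact T.PreValid] (σ : K ≃+* K)
    (hσ : ∀ i j k e, σ (T i j k e) = T i j k e) (c : K) :
    coeffEquiv T σ hσ (algebraMap K T.Alg c) = algebraMap K T.Alg (σ c) := by
  have h : ∀ c : K, algebraMap K T.Alg c = algebraMap K[X] T.Alg (C c) := fun _ => rfl
  rw [h, h, coeffEquiv_algebraMap_poly, Polynomial.map_C]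
  rfl

theorem wt_ne_bot (T : Tab τ K) {a : Elt τ K} (ha : a ≠ 0) : T.wt a ≠ ⊥ := by
  classical
  obtain ⟨i, hi⟩ : ∃ i, a i ≠ 0 := by
    by_contra h
    exact ha (funext fun i => by_contra fun hi => h ⟨i, hi⟩)
  intro hbot
  unfold Tab.wt at hbot
  have hle := Finset.le_sup (f := fun i : Fin τ.m =>
    if a i = 0 then (⊥ : WithBot ℕ) else ((τ.m * (a i).natDegree + τ.ρ i : ℕ) : WithBot ℕ))
    (Finset.mem_univ i)
  rw [hbot] at hle
  simp only [hi, if_false, le_bot_iff] at hle
  exact WithBot.coe_ne_bot hle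

end CoeffMap

/-! ## Finitely many elements of `𝔽̄_p` lie in a common finite field -/

section Finite

variable (p : ℕ) [Fact p.Prime]

theorem pow_pow_mul_eq_self {a : AlgebraicClosure (ZMod p)} {m : ℕ} (h : a ^ (p ^ m) = a)
    (j : ℕ) : a ^ (p ^ (m * j)) = a := by
  induction j with
  | zero => simp
  | succ j ih => rw [Nat.mul_succ, pow_add, pow_mul, ih, h]

/-- A finite family of elements of `𝔽̄_p` is fixed by a common power of Frobenius. -/
theorem exists_common_pow {ι : Type*} [Fintype ι] (a : ι → AlgebraicClosure (ZMod p)) :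
    ∃ f : ℕ, 0 < f ∧ ∀ s, a s ^ (p ^ f) = a s := by
  have h := fun s => exists_pow_eq_self p p 1 one_pos (pow_one p).symm (a s)
  choose m hm0 hm using h
  refine ⟨∏ s, m s, Finset.prod_pos fun s _ => hm0 s, fun s => ?_⟩
  obtain ⟨j, hj⟩ := Finset.dvd_prod_of_mem m (Finset.mem_univ s)
  rw [hj]
  exact pow_pow_mul_eq_self p (hm s) j

end Finite

/-! ## The Frobenius automorphism of the function field of a table over `𝔽̄_p` -/

/-- **The construction**: `q = p ^ f`, the coefficientwise `q`-Frobenius `φ₀` of `T.Alg` and the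
induced automorphism `φ` of the fraction field. -/
theorem exists_frob (p : ℕ) [Fact p.Prime] (τ : WType) (T : Tab τ (AlgebraicClosure (ZMod p)))
    [Fact T.Valid] [IsDedekindDomain T.Alg] :
    ∃ (q f : ℕ) (φ₀ : T.Alg ≃+* T.Alg) (φ : FractionRing T.Alg ≃+* FractionRing T.Alg),
      0 < f ∧ q = p ^ f ∧
      (∀ a : T.Alg, φ (algebraMap T.Alg (FractionRing T.Alg) a)
        = algebraMap T.Alg (FractionRing T.Alg) (φ₀ a)) ∧
      (∀ a : T.Alg, T.wt (φ₀ a).toElt = T.wt a.toElt) ∧
      (∀ a : AlgebraicClosure (ZMod p),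
        φ (algebraMap _ (FractionRing T.Alg) a) = algebraMap _ (FractionRing T.Alg) (a ^ q)) ∧
      φ (algebraMap T.Alg (FractionRing T.Alg) (Tab.Alg.x T))
        = algebraMap T.Alg (FractionRing T.Alg) (Tab.Alg.x T) := by
  obtain ⟨f, hf, hfix⟩ := exists_common_pow p
    (fun s : Fin τ.m × Fin τ.m × Fin τ.m × Fin (τ.D + 1) => T s.1 s.2.1 s.2.2.1 s.2.2.2)
  let σ : AlgebraicClosure (ZMod p) ≃+* AlgebraicClosure (ZMod p) :=
    iterateFrobeniusEquiv (AlgebraicClosure (ZMod p)) p f
  have hσapp : ∀ a : AlgebraicClosure (ZMod p), σ a = a ^ p ^ f := fun a => by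
    show iterateFrobeniusEquiv (AlgebraicClosure (ZMod p)) p f a = _
    rw [iterateFrobeniusEquiv_apply, iterateFrobenius_def]
  have hσ : ∀ i j k e, σ (T i j k e) = T i j k e := fun i j k e => by
    rw [hσapp]
    exact hfix (i, j, k, e)
  let φ₀ : T.Alg ≃+* T.Alg := coeffEquiv T σ hσ
  let φ : FractionRing T.Alg ≃+* FractionRing T.Alg := IsFractionRing.ringEquivOfRingEquiv φ₀
  have hφalg : ∀ a : T.Alg, φ (algebraMap T.Alg (FractionRing T.Alg) a)
      = algebraMap T.Alg (FractionRing T.Alg) (φ₀ a) :=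
    fun a => IsFractionRing.ringEquivOfRingEquiv_algebraMap φ₀ a
  refine ⟨p ^ f, f, φ₀, φ, hf, rfl, hφalg, fun a => wt_coeffEquiv T σ hσ a, ?_, ?_⟩
  · intro a
    rw [IsScalarTower.algebraMap_apply (AlgebraicClosure (ZMod p)) T.Alg (FractionRing T.Alg),
      hφalg, IsScalarTower.algebraMap_apply (AlgebraicClosure (ZMod p)) T.Alg (FractionRing T.Alg)]
    congr 1
    show coeffEquiv T σ hσ _ = _
    rw [coeffEquiv_algebraMap, hσapp]
  · rw [hφalg]
    congr 1
    exact coeffEquiv_x T σ hσ

/-! ## Stability of the place at infinity, membership form -/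

/-- **W1d-1, membership form**: the place at infinity of a valid table over an algebraically
closed field: `a / b` is regular at infinity iff `wt a ≤ wt b`. -/
def Stmt_InfPlace : Prop :=
  ∀ (K : Type) [Field K] [IsAlgClosed K] (τ : WType) (T : Tab τ K) [Fact T.Valid]
    [IsDedekindDomain T.Alg],
    ∃ P₀ : Place K (FractionRing T.Alg), ∀ a b : T.Alg, b ≠ 0 →
      (algebraMap T.Alg (FractionRing T.Alg) a / algebraMap T.Alg (FractionRing T.Alg) b
          ∈ P₀.toValuationSubring ↔ T.wt a.toElt ≤ T.wt b.toElt)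

/-- **Frobenius datum for one table and one place at infinity** (membership form). -/
theorem frob_datum (p : ℕ) [Fact p.Prime] (τ : WType) (T : Tab τ (AlgebraicClosure (ZMod p)))
    [Fact T.Valid] [IsDedekindDomain T.Alg]
    (P₀ : Place (AlgebraicClosure (ZMod p)) (FractionRing T.Alg))
    (hP₀ : ∀ a b : T.Alg, b ≠ 0 →
      (algebraMap T.Alg (FractionRing T.Alg) a / algebraMap T.Alg (FractionRing T.Alg) b
          ∈ P₀.toValuationSubring ↔ T.wt a.toElt ≤ T.wt b.toElt)) :
    ∃ (q f : ℕ) (φ : FractionRing T.Alg ≃+* FractionRing T.Alg),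
      0 < f ∧ q = p ^ f ∧
      (∀ a : AlgebraicClosure (ZMod p),
        φ (algebraMap _ (FractionRing T.Alg) a) = algebraMap _ (FractionRing T.Alg) (a ^ q)) ∧
      φ (algebraMap T.Alg (FractionRing T.Alg) (Tab.Alg.x T))
        = algebraMap T.Alg (FractionRing T.Alg) (Tab.Alg.x T) ∧
      (∀ g : FractionRing T.Alg, g ∈ P₀.toValuationSubring ↔ φ g ∈ P₀.toValuationSubring) := by
  obtain ⟨q, f, φ₀, φ, hf, hq, hφalg, hwt, hφK, hφx⟩ := exists_frob p τ T
  refine ⟨q, f, φ, hf, hq, hφK, hφx, ?_⟩
  intro g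
  obtain ⟨a, b, hb, rfl⟩ := IsFractionRing.div_surjective (A := T.Alg) g
  have hb0 : b ≠ 0 := nonZeroDivisors.ne_zero hb
  have hφb0 : φ₀ b ≠ 0 := (EmbeddingLike.map_ne_zero_iff (f := φ₀)).2 hb0
  rw [map_div₀, hφalg, hφalg, hP₀ a b hb0, hP₀ (φ₀ a) (φ₀ b) hφb0, hwt, hwt]

/-- **`Stmt_Frob`** from the place at infinity (W1d-1, membership form). -/
theorem stmt_Frob (hInf : Stmt_InfPlace) : Stmt_Frob := by
  intro p _ τ T _ _
  obtain ⟨P₀, hP₀⟩ := hInf (AlgebraicClosure (ZMod p)) τ T
  obtain ⟨q, f, φ, hf, hq, h1, h2, h3⟩ := frob_datum p τ T P₀ hP₀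
  exact ⟨q, f, φ, P₀, hf, hq, h1, h2, h3⟩

/-! ## Order form -/

/-- The membership form follows from `ord_{P₀} b = - wt b` on nonzero elements of the algebra. -/
theorem mem_iff_wt_le_of_ord {K : Type*} [Field K] {τ : WType} (T : Tab τ K) [Fact T.PreValid]
    [IsDomain T.Alg] (P₀ : Place K (FractionRing T.Alg))
    (hord : ∀ (b : T.Alg) (t : ℕ), T.wt b.toElt = (t : WithBot ℕ) →
      P₀.ord (algebraMap T.Alg (FractionRing T.Alg) b) = -(t : ℤ))
    (a b : T.Alg) (hb : b ≠ 0) :
    algebraMap T.Alg (FractionRing T.Alg) a / algebraMap T.Alg (FractionRing T.Alg) b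
        ∈ P₀.toValuationSubring ↔ T.wt a.toElt ≤ T.wt b.toElt := by
  have hinj : Function.Injective (algebraMap T.Alg (FractionRing T.Alg)) :=
    IsFractionRing.injective T.Alg (FractionRing T.Alg)
  have hb' : algebraMap T.Alg (FractionRing T.Alg) b ≠ 0 := fun h =>
    hb (hinj (h.trans (map_zero _).symm))
  obtain ⟨tb, htb⟩ := WithBot.ne_bot_iff_exists.1 (wt_ne_bot T (a := b.toElt) hb)
  rcases eq_or_ne a 0 with rfl | ha
  · have h0 : T.wt (0 : T.Alg).toElt = ⊥ := by
      unfold Tab.wt
      simp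
    rw [map_zero, zero_div, h0]
    exact ⟨fun _ => bot_le, fun _ => P₀.toValuationSubring.zero_mem⟩
  · have ha' : algebraMap T.Alg (FractionRing T.Alg) a ≠ 0 := fun h =>
      ha (hinj (h.trans (map_zero _).symm))
    obtain ⟨ta, hta⟩ := WithBot.ne_bot_iff_exists.1 (wt_ne_bot T (a := a.toElt) ha)
    rw [Fermat.Agent.S24.helper1370.mem_iff, Fermat.Agent.S24.helper1370.ord_div P₀ ha' hb',
      hord a ta hta.symm, hord b tb htb.symm, ← hta, ← htb, WithBot.coe_le_coe]
    constructor
    · intro h
      omega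
    · intro h
      omega

/-- **W1d-1, order form**: the place at infinity with `ord_{P₀} b = - wt b`. -/
def Stmt_InfPlaceOrd : Prop :=
  ∀ (K : Type) [Field K] [IsAlgClosed K] (τ : WType) (T : Tab τ K) [Fact T.Valid]
    [IsDedekindDomain T.Alg],
    ∃ P₀ : Place K (FractionRing T.Alg), ∀ (b : T.Alg) (t : ℕ),
      T.wt b.toElt = (t : WithBot ℕ) →
        P₀.ord (algebraMap T.Alg (FractionRing T.Alg) b) = -(t : ℤ)

theorem stmt_InfPlace_of_ord (h : Stmt_InfPlaceOrd) : Stmt_InfPlace := by
  intro K _ _ τ T _ _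
  obtain ⟨P₀, hP₀⟩ := h K τ T
  exact ⟨P₀, mem_iff_wt_le_of_ord T P₀ hP₀⟩

/-- Frobenius datum for one table and one place at infinity (order form). -/
theorem frob_datum_of_ord (p : ℕ) [Fact p.Prime] (τ : WType)
    (T : Tab τ (AlgebraicClosure (ZMod p))) [Fact T.Valid] [IsDedekindDomain T.Alg]
    (P₀ : Place (AlgebraicClosure (ZMod p)) (FractionRing T.Alg))
    (hord : ∀ (b : T.Alg) (t : ℕ), T.wt b.toElt = (t : WithBot ℕ) →
      P₀.ord (algebraMap T.Alg (FractionRing T.Alg) b) = -(t : ℤ)) :
    ∃ (q f : ℕ) (φ : FractionRing T.Alg ≃+* FractionRing T.Alg),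
      0 < f ∧ q = p ^ f ∧
      (∀ a : AlgebraicClosure (ZMod p),
        φ (algebraMap _ (FractionRing T.Alg) a) = algebraMap _ (FractionRing T.Alg) (a ^ q)) ∧
      φ (algebraMap T.Alg (FractionRing T.Alg) (Tab.Alg.x T))
        = algebraMap T.Alg (FractionRing T.Alg) (Tab.Alg.x T) ∧
      (∀ g : FractionRing T.Alg, g ∈ P₀.toValuationSubring ↔ φ g ∈ P₀.toValuationSubring) :=
  frob_datum p τ T P₀ (mem_iff_wt_le_of_ord T P₀ hord)

/-- **`Stmt_Frob`** from the place at infinity (W1d-1, order form). -/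
theorem stmt_Frob_of_ord (h : Stmt_InfPlaceOrd) : Stmt_Frob :=
  stmt_Frob (stmt_InfPlace_of_ord h)

/-! ## Unique pole form -/

section Comap

variable {K F : Type*} [Field K] [Field F] [Algebra K F]

/-- Pull-back of a place along a ring automorphism of `F` which maps constants to constants. -/
def placeComap (φ : F ≃+* F) (hφK : ∀ a : K, ∃ b : K, φ (algebraMap K F a) = algebraMap K F b)
    (P : Place K F) : Place K F where
  toValuationSubring := P.toValuationSubring.comap (φ : F →+* F)
  algebraMap_mem' a := by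
    obtain ⟨b, hb⟩ := hφK a
    show φ (algebraMap K F a) ∈ P.toValuationSubring
    rw [hb]
    exact P.algebraMap_mem' b
  ne_top' := by
    intro h
    apply P.ne_top'
    refine SetLike.ext fun g => ⟨fun _ => ValuationSubring.mem_top g, fun _ => ?_⟩
    have h1 : φ.symm g ∈ P.toValuationSubring.comap (φ : F →+* F) := by
      rw [h]
      exact ValuationSubring.mem_top _
    have h2 : φ (φ.symm g) ∈ P.toValuationSubring := h1
    rwa [RingEquiv.apply_symm_apply] at h2
  isPrincipalIdealRing' := by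
    let e : P.toValuationSubring →+* (P.toValuationSubring.comap (φ : F →+* F)) :=
      { toFun := fun g => ⟨φ.symm g, by
          show φ (φ.symm g) ∈ P.toValuationSubring
          rw [RingEquiv.apply_symm_apply]
          exact g.2⟩
        map_one' := by
          ext
          simp
        map_mul' := fun a b => by
          ext
          simp
        map_zero' := by
          ext
          simp
        map_add' := fun a b => by
          ext
          simp }
    have hs : Function.Surjective e := fun g =>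
      ⟨⟨φ g, g.2⟩, by
        ext
        simp [e]⟩
    exact IsPrincipalIdealRing.of_surjective e hs

theorem mem_placeComap (φ : F ≃+* F)
    (hφK : ∀ a : K, ∃ b : K, φ (algebraMap K F a) = algebraMap K F b) (P : Place K F) (g : F) :
    g ∈ (placeComap φ hφK P).toValuationSubring ↔ φ g ∈ P.toValuationSubring := Iff.rfl

/-- A place which is the unique place not containing a `φ`-fixed element is `φ`-stable. -/
theorem stable_of_unique_pole (φ : F ≃+* F)
    (hφK : ∀ a : K, ∃ b : K, φ (algebraMap K F a) = algebraMap K F b) (x : F) (hφx : φ x = x)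
    (P₀ : Place K F) (hpole : x ∉ P₀.toValuationSubring)
    (huniq : ∀ P : Place K F, x ∉ P.toValuationSubring → P = P₀) (g : F) :
    g ∈ P₀.toValuationSubring ↔ φ g ∈ P₀.toValuationSubring := by
  have h1 : placeComap φ hφK P₀ = P₀ := by
    apply huniq
    rw [mem_placeComap, hφx]
    exact hpole
  rw [← mem_placeComap φ hφK P₀ g, h1]

end Comap

/-- Frobenius datum for one table and one place at infinity (unique pole form). -/
theorem frob_datum_of_unique_pole (p : ℕ) [Fact p.Prime] (τ : WType)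
    (T : Tab τ (AlgebraicClosure (ZMod p))) [Fact T.Valid] [IsDedekindDomain T.Alg]
    (P₀ : Place (AlgebraicClosure (ZMod p)) (FractionRing T.Alg))
    (hpole : algebraMap T.Alg (FractionRing T.Alg) (Tab.Alg.x T) ∉ P₀.toValuationSubring)
    (huniq : ∀ P : Place (AlgebraicClosure (ZMod p)) (FractionRing T.Alg),
      algebraMap T.Alg (FractionRing T.Alg) (Tab.Alg.x T) ∉ P.toValuationSubring → P = P₀) :
    ∃ (q f : ℕ) (φ : FractionRing T.Alg ≃+* FractionRing T.Alg),
      0 < f ∧ q = p ^ f ∧
      (∀ a : AlgebraicClosure (ZMod p),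
        φ (algebraMap _ (FractionRing T.Alg) a) = algebraMap _ (FractionRing T.Alg) (a ^ q)) ∧
      φ (algebraMap T.Alg (FractionRing T.Alg) (Tab.Alg.x T))
        = algebraMap T.Alg (FractionRing T.Alg) (Tab.Alg.x T) ∧
      (∀ g : FractionRing T.Alg, g ∈ P₀.toValuationSubring ↔ φ g ∈ P₀.toValuationSubring) := by
  obtain ⟨q, f, φ₀, φ, hf, hq, hφalg, hwt, hφK, hφx⟩ := exists_frob p τ T
  exact ⟨q, f, φ, hf, hq, hφK, hφx,
    stable_of_unique_pole φ (fun a => ⟨a ^ q, hφK a⟩) _ hφx P₀ hpole huniq⟩

/-- **W1d-1, unique pole form**: the place at infinity is the unique place not containing `x`. -/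
def Stmt_PoleUnique : Prop :=
  ∀ (K : Type) [Field K] [IsAlgClosed K] (τ : WType) (T : Tab τ K) [Fact T.Valid]
    [IsDedekindDomain T.Alg],
    ∃ P₀ : Place K (FractionRing T.Alg),
      algebraMap T.Alg (FractionRing T.Alg) (Tab.Alg.x T) ∉ P₀.toValuationSubring ∧
      ∀ P : Place K (FractionRing T.Alg),
        algebraMap T.Alg (FractionRing T.Alg) (Tab.Alg.x T) ∉ P.toValuationSubring → P = P₀

/-- **`Stmt_Frob`** from the place at infinity (W1d-1, unique pole form). -/
theorem stmt_Frob_of_poleUnique (h : Stmt_PoleUnique) : Stmt_Frob := by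
  intro p _ τ T _ _
  obtain ⟨P₀, hpole, huniq⟩ := h (AlgebraicClosure (ZMod p)) τ T
  obtain ⟨q, f, φ, hf, hq, h1, h2, h3⟩ := frob_datum_of_unique_pole p τ T P₀ hpole huniq
  exact ⟨q, f, φ, P₀, hf, hq, h1, h2, h3⟩

end Fermat.Agent.S27.helper975

end
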