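import Fermat.Agent.S27.helper4272_W1aWeight
import Fermat.Agent.S27.helper1017_W1bPoints
import Fermat.Agent.S24.helper1370_PlaceBasics
import Fermat.Agent.S27.helper975_Frob

/-!
# S27, algebraic route, leaf W1d-1: the place at infinity of a table algebra

For a table `T` (only `T.PreValid`, any field `K`) with `T.Alg` a domain, the fraction field
`F = FractionRing T.Alg` has a place `Pinf` with `ord_Pinf b = - wt b` for `0 ≠ b ∈ T.Alg`, and
`Pinf` is the only place of `F/K` at which `x` has a pole.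
-/

set_option autoImplicit false

noncomputable section

open Polynomial AlgebraicCurve

namespace Fermat.Agent.S27.helper1017

open Fermat.Agent.S27.helper3351 Fermat.Agent.S27.helper4272 Fermat.Agent.S24.helper1370

universe u

section Weight

variable {τ : WType} {K : Type u} [Field K] (T : Tab τ K) [hT : Fact T.PreValid]

/-- The weight as a natural number (junk value `0` at `0`). -/
def wtN (b : T.Alg) : ℕ := (T.wt b.toElt).unbotD 0

theorem wt_eq_wtN {b : T.Alg} (hb : b ≠ 0) : T.wt b.toElt = (wtN T b : WithBot ℕ) := by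
  have h : T.wt b.toElt ≠ ⊥ := fun h => hb ((wt_eq_bot_iff T b.toElt).1 h)
  obtain ⟨n, hn⟩ := WithBot.ne_bot_iff_exists.1 h
  rw [wtN, ← hn]
  rfl

theorem wtN_eq_of_wt {b : T.Alg} {t : ℕ} (h : T.wt b.toElt = (t : WithBot ℕ)) : wtN T b = t := by
  rw [wtN, h]
  rfl

theorem wtN_eq_of_isLead {b : T.Alg} {i : Fin τ.m} (h : IsLead b.toElt i) :
    wtN T b = τ.m * (b.toElt i).natDegree + τ.ρ i :=
  wtN_eq_of_wt T (h.wt_eq T)

theorem ne_zero_of_isLead {b : T.Alg} {i : Fin τ.m} (h : IsLead b.toElt i) : b ≠ 0 := by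
  rintro rfl
  exact h.1 rfl

theorem exists_isLead {b : T.Alg} (hb : b ≠ 0) : ∃ i : Fin τ.m, IsLead b.toElt i :=
  exists_lead hT.out.good (a := b.toElt) hb

/-- Every component of `b` has weight at most `wt b`. -/
theorem comp_le_wtN {b : T.Alg} (hb : b ≠ 0) (k : Fin τ.m) (hk : b.toElt k ≠ 0) :
    τ.m * (b.toElt k).natDegree + τ.ρ k ≤ wtN T b := by
  have h : wtLE b.toElt (wtN T b) := (wtLE_iff T b.toElt (wtN T b)).2 (wt_eq_wtN T hb).le
  exact h k hk

theorem wtN_mul {a b : T.Alg} (ha : a ≠ 0) (hb : b ≠ 0) (hab : a * b ≠ 0) :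
    wtN T (a * b) = wtN T a + wtN T b := by
  have h' : T.wt (a * b).toElt = T.wt a.toElt + T.wt b.toElt :=
    wt_mul T hT.out a.toElt b.toElt
  rw [wt_eq_wtN T ha, wt_eq_wtN T hb, wt_eq_wtN T hab] at h'
  exact_mod_cast h'

theorem wtN_add_le {a b : T.Alg} (hab : a + b ≠ 0) :
    wtN T (a + b) ≤ max (wtN T a) (wtN T b) := by
  by_cases ha : a = 0
  · subst ha
    simp
  by_cases hb : b = 0
  · subst hb
    simp
  have h : T.wt (a + b).toElt ≤ max (T.wt a.toElt) (T.wt b.toElt) :=
    wt_add_le T a.toElt b.toElt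
  rw [wt_eq_wtN T ha, wt_eq_wtN T hb, wt_eq_wtN T hab] at h
  rcases le_max_iff.1 h with h1 | h1
  · exact le_max_of_le_left (WithBot.coe_le_coe.1 h1)
  · exact le_max_of_le_right (WithBot.coe_le_coe.1 h1)

/-- The index `0`. -/
def i0 : Fin τ.m := ⟨0, hT.out.good.1⟩

theorem ρ_i0 : τ.ρ (i0 T) = 0 := (hT.out.good.2 _).2 rfl

theorem eq_i0_of_val {j : Fin τ.m} (hj : (j : ℕ) = 0) : j = i0 T := Fin.ext hj

theorem isLead_algebraMap_poly {r : K[X]} (hr : r ≠ 0) :
    IsLead (algebraMap K[X] T.Alg r).toElt (i0 T) ∧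
      ((algebraMap K[X] T.Alg r).toElt (i0 T)).natDegree = r.natDegree := by
  have hcomp : ∀ j : Fin τ.m, (algebraMap K[X] T.Alg r).toElt j
      = r * (if (j : ℕ) = 0 then 1 else 0) := by
    intro j
    rw [Tab.Alg.algebraMap_poly_apply]
    rfl
  have h0 : (algebraMap K[X] T.Alg r).toElt (i0 T) = r := by
    rw [hcomp]
    simp [i0]
  refine ⟨⟨by rw [h0]; exact hr, fun j hj => ?_⟩, by rw [h0]⟩
  have hj0 : (j : ℕ) = 0 := by
    by_contra hne
    apply hj
    rw [hcomp]
    simp [hne]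
  rw [eq_i0_of_val T hj0]

theorem wtN_algebraMap_poly {r : K[X]} (hr : r ≠ 0) :
    wtN T (algebraMap K[X] T.Alg r) = τ.m * r.natDegree := by
  obtain ⟨h1, h2⟩ := isLead_algebraMap_poly T hr
  rw [wtN_eq_of_isLead T h1, h2, ρ_i0, add_zero]

theorem algebraMap_poly_ne_zero {r : K[X]} (hr : r ≠ 0) : algebraMap K[X] T.Alg r ≠ 0 :=
  ne_zero_of_isLead T (isLead_algebraMap_poly T hr).1

theorem wtN_one : wtN T (1 : T.Alg) = 0 := by
  have h := wtN_algebraMap_poly T (r := (1 : K[X])) one_ne_zero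
  rwa [map_one, natDegree_one, mul_zero] at h

theorem wtN_algebraMap {c : K} (hc : c ≠ 0) : wtN T (algebraMap K T.Alg c) = 0 := by
  have h := wtN_algebraMap_poly T (r := (C c : K[X])) (C_ne_zero.2 hc)
  rw [natDegree_C, mul_zero] at h
  exact h

theorem wtN_x : wtN T (Tab.Alg.x T) = τ.m := by
  have h := wtN_algebraMap_poly T (r := (X : K[X])) X_ne_zero
  rw [natDegree_X, mul_one, ← Tab.Alg.x_eq_algebraMap] at h
  exact h

theorem x_ne_zero : Tab.Alg.x T ≠ 0 := by
  rw [Tab.Alg.x_eq_algebraMap]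
  exact algebraMap_poly_ne_zero T X_ne_zero

theorem isLead_ω (i : Fin τ.m) : IsLead (Tab.Alg.ω T i).toElt i := by
  refine ⟨?_, fun j hj => ?_⟩
  · show (Elt.e i : Elt τ K) i ≠ 0
    simp [Elt.e]
  · have hji : j = i := by
      by_contra hne
      apply hj
      show (Elt.e i : Elt τ K) j = 0
      simp [Elt.e, hne]
    rw [hji]

theorem ω_ne_zero (i : Fin τ.m) : Tab.Alg.ω T i ≠ 0 := ne_zero_of_isLead T (isLead_ω T i)

theorem wtN_ω (i : Fin τ.m) : wtN T (Tab.Alg.ω T i) = τ.ρ i := by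
  rw [wtN_eq_of_isLead T (isLead_ω T i)]
  have : ((Tab.Alg.ω T i).toElt i).natDegree = 0 := by
    show ((Elt.e i : Elt τ K) i).natDegree = 0
    simp [Elt.e]
  rw [this, mul_zero, zero_add]

theorem wtN_pow [IsDomain T.Alg] {a : T.Alg} (ha : a ≠ 0) (n : ℕ) :
    wtN T (a ^ n) = n * wtN T a := by
  induction n with
  | zero => rw [pow_zero, zero_mul, wtN_one]
  | succ n ih =>
    rw [pow_succ, wtN_mul T (pow_ne_zero n ha) ha (mul_ne_zero (pow_ne_zero n ha) ha), ih]
    ring

end Weight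

/-! ## Generalities on places -/

section General

variable {K F : Type*} [Field K] [Field F] [Algebra K F]

theorem aeval_ne_zero_of_ord_neg (P : Place K F) {y : F} (hy : P.ord y < 0) {p : K[X]}
    (hp : p ≠ 0) : aeval y p ≠ 0 := fun h0 =>
  hp ((transcendental_iff.1 (transcendental_of_ord_ne_zero P hy.ne)) p h0)

/-- The order of a polynomial expression in a pole. -/
theorem ord_aeval_of_ord_neg_aux (P : Place K F) {y : F} (hy : P.ord y < 0) :
    ∀ (n : ℕ) (p : K[X]), p.natDegree = n → p ≠ 0 →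
      P.ord (aeval y p) = (p.natDegree : ℤ) * P.ord y := by
  intro n
  induction n using Nat.strong_induction_on with
  | _ n ih =>
    intro p hpn hp
    have hlc : p.leadingCoeff ≠ 0 := leadingCoeff_ne_zero.2 hp
    have hlead : P.ord (aeval y (C p.leadingCoeff * X ^ p.natDegree))
        = (p.natDegree : ℤ) * P.ord y := by
      rw [map_mul, aeval_C, map_pow, aeval_X, ord_algebraMap_mul P hlc, ord_pow]
    have hlead0 : aeval y (C p.leadingCoeff * X ^ p.natDegree) ≠ 0 :=
      aeval_ne_zero_of_ord_neg P hy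
        (mul_ne_zero (C_ne_zero.2 hlc) (pow_ne_zero _ X_ne_zero))
    conv_lhs => rw [← eraseLead_add_C_mul_X_pow p, map_add]
    rcases eq_or_ne p.eraseLead 0 with h0 | h0
    · rw [h0, map_zero, zero_add, hlead]
    · have hlt : p.eraseLead.natDegree < p.natDegree :=
        (eraseLead_natDegree_lt_or_eraseLead_eq_zero p).resolve_right h0
      have ih' := ih _ (hpn ▸ hlt) p.eraseLead rfl h0
      rw [ord_add_eq_of_lt' P hlead0 (by
        rw [hlead, ih']
        exact mul_lt_mul_of_neg_right (Nat.cast_lt.2 hlt) hy), hlead]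

theorem ord_aeval_of_ord_neg (P : Place K F) {y : F} (hy : P.ord y < 0) {p : K[X]}
    (hp : p ≠ 0) : P.ord (aeval y p) = (p.natDegree : ℤ) * P.ord y :=
  ord_aeval_of_ord_neg_aux P hy _ p rfl hp

/-- Scaled lower bound for the order of a sum. -/
theorem mul_ord_sum_ge (P : Place K F) {ι : Type*} (s : Finset ι) (f : ι → F) (m c : ℤ)
    (hm : 0 < m) (hf : ∀ i ∈ s, f i = 0 ∨ c ≤ m * P.ord (f i)) (hs : ∑ i ∈ s, f i ≠ 0) :
    c ≤ m * P.ord (∑ i ∈ s, f i) := by
  by_contra hlt
  have hlt' : m * P.ord (∑ i ∈ s, f i) < c := not_le.1 hlt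
  have h := ord_sum_ge P s f (P.ord (∑ i ∈ s, f i) + 1) (fun i hi => by
    rcases hf i hi with h0 | h1
    · exact Or.inl h0
    · right
      have h2 : m * P.ord (∑ i ∈ s, f i) < m * P.ord (f i) := lt_of_lt_of_le hlt' h1
      have h3 := lt_of_mul_lt_mul_left h2 hm.le
      omega) hs
  omega

/-- A sum with one dominant term. -/
theorem ord_sum_eq_of_dominant (P : Place K F) {ι : Type*} (s : Finset ι) (f : ι → F) {i0 : ι}
    (hi0 : i0 ∈ s) (hf0 : f i0 ≠ 0)
    (hf : ∀ i ∈ s, i ≠ i0 → f i = 0 ∨ P.ord (f i0) < P.ord (f i)) :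
    P.ord (∑ i ∈ s, f i) = P.ord (f i0) := by
  classical
  rw [← Finset.add_sum_erase s f hi0]
  rcases eq_or_ne (∑ i ∈ s.erase i0, f i) 0 with h0 | h0
  · rw [h0, add_zero]
  · apply ord_add_eq_of_lt P hf0
    have h := ord_sum_ge P (s.erase i0) f (P.ord (f i0) + 1) (fun i hi => by
      rcases hf i (Finset.mem_of_mem_erase hi) (Finset.ne_of_mem_erase hi) with h | h
      · exact Or.inl h
      · right
        omega) h0
    omega

end General

/-! ## The place at infinity -/

section InfPlace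

variable {τ : WType} {K : Type u} [Field K] (T : Tab τ K) [hT : Fact T.PreValid]
  [IsDomain T.Alg]

open scoped Classical in
/-- `-wt` as an additive valuation on the table algebra. -/
def w0 : AddValuation T.Alg (WithTop ℤ) :=
  AddValuation.of (fun b => if b = 0 then ⊤ else ((-(wtN T b : ℤ) : ℤ) : WithTop ℤ))
    (if_pos rfl)
    (by
      rw [if_neg one_ne_zero, wtN_one]
      rfl)
    (by
      intro a b
      by_cases hab : a + b = 0
      · rw [if_pos hab]
        exact le_top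
      by_cases ha : a = 0
      · subst ha
        rw [zero_add]
        exact min_le_right _ _
      by_cases hb : b = 0
      · subst hb
        rw [add_zero]
        exact min_le_left _ _
      rw [if_neg hab, if_neg ha, if_neg hb]
      have h := wtN_add_le T hab
      rw [← WithTop.coe_min, WithTop.coe_le_coe]
      rcases le_max_iff.1 h with h1 | h1
      · exact le_trans (min_le_left _ _) (by omega)
      · exact le_trans (min_le_right _ _) (by omega))
    (by
      intro a b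
      by_cases ha : a = 0
      · subst ha
        rw [zero_mul, if_pos rfl, top_add]
      by_cases hb : b = 0
      · subst hb
        rw [mul_zero, if_pos rfl, add_top]
      rw [if_neg (mul_ne_zero ha hb), if_neg ha, if_neg hb,
        wtN_mul T ha hb (mul_ne_zero ha hb), ← WithTop.coe_add]
      congr 1
      push_cast
      ring)

theorem w0_apply {b : T.Alg} (hb : b ≠ 0) :
    w0 T b = ((-(wtN T b : ℤ) : ℤ) : WithTop ℤ) := by
  classical
  show (if b = 0 then ⊤ else ((-(wtN T b : ℤ) : ℤ) : WithTop ℤ)) = _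
  rw [if_neg hb]

theorem w0_supp :
    nonZeroDivisors T.Alg ≤ (AddValuation.toValuation (w0 T)).supp.primeCompl := by
  intro f hf hmem
  have h1 : w0 T f = ⊤ :=
    (Valuation.mem_supp_iff (AddValuation.toValuation (w0 T)) f).mp hmem
  rw [w0_apply T (nonZeroDivisors.ne_zero hf)] at h1
  exact WithTop.coe_ne_top h1

/-- The extension of `-wt` to the fraction field. -/
def wF : AddValuation (FractionRing T.Alg) (WithTop ℤ) :=
  AddValuation.ofValuation
    ((AddValuation.toValuation (w0 T)).extendToLocalization (w0_supp T) (FractionRing T.Alg))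

theorem wF_algebraMap (b : T.Alg) :
    wF T (algebraMap T.Alg (FractionRing T.Alg) b) = w0 T b :=
  Valuation.extendToLocalization_apply_map_apply _ (w0_supp T) (FractionRing T.Alg) b

theorem algebraMap_frac_ne_zero {b : T.Alg} (hb : b ≠ 0) :
    algebraMap T.Alg (FractionRing T.Alg) b ≠ 0 :=
  (map_ne_zero_iff _ (IsFractionRing.injective T.Alg (FractionRing T.Alg))).2 hb

/-- The place at infinity: `ord b = - wt b`. -/
theorem exists_infPlace_ord :
    ∃ Pinf : Place K (FractionRing T.Alg), ∀ b : T.Alg, b ≠ 0 →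
      Pinf.ord (algebraMap T.Alg (FractionRing T.Alg) b) = -(wtN T b : ℤ) := by
  have hK : ∀ a : K, a ≠ 0 → wF T (algebraMap K (FractionRing T.Alg) a) = 0 := by
    intro a ha
    have ha' : algebraMap K T.Alg a ≠ 0 := algebraMap_poly_ne_zero T (C_ne_zero.2 ha)
    rw [IsScalarTower.algebraMap_apply K T.Alg (FractionRing T.Alg), wF_algebraMap,
      w0_apply T ha', wtN_algebraMap T ha]
    rfl
  have hm : 0 < τ.m := hT.out.good.1
  have hx : wF T (algebraMap T.Alg (FractionRing T.Alg) (Tab.Alg.x T))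
      = ((-(τ.m : ℤ) : ℤ) : WithTop ℤ) := by
    rw [wF_algebraMap, w0_apply T (x_ne_zero T), wtN_x]
  have hnt : ∃ f : FractionRing T.Alg, f ≠ 0 ∧ wF T f ≠ 0 := by
    refine ⟨algebraMap T.Alg (FractionRing T.Alg) (Tab.Alg.x T),
      algebraMap_frac_ne_zero T (x_ne_zero T), ?_⟩
    rw [hx]
    intro h
    have h' : (-(τ.m : ℤ)) = 0 := WithTop.coe_eq_zero.1 h
    omega
  obtain ⟨v, k, hk, -, hv⟩ := exists_place_of_addValuation (wF T) hK hnt
  have hval : ∀ b : T.Alg, b ≠ 0 →
      -(wtN T b : ℤ) = (k : ℤ) * v.ord (algebraMap T.Alg (FractionRing T.Alg) b) := by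
    intro b hb
    have h := hv _ (algebraMap_frac_ne_zero T hb)
    rw [wF_algebraMap, w0_apply T hb] at h
    exact WithTop.coe_injective h
  have hk1 : k = 1 := by
    have h1 := hval _ (x_ne_zero T)
    rw [wtN_x] at h1
    have hkm : k ∣ τ.m :=
      Int.natCast_dvd_natCast.1 ⟨-v.ord _, by rw [mul_neg, ← h1, neg_neg]⟩
    by_cases hm1 : τ.m = 1
    · rw [hm1] at hkm
      exact Nat.dvd_one.1 hkm
    · have h1lt : 1 < τ.m := by omega
      have h2 := hval _ (ω_ne_zero T ⟨1, h1lt⟩)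
      rw [wtN_ω] at h2
      have hkρ : k ∣ τ.ρ ⟨1, h1lt⟩ :=
        Int.natCast_dvd_natCast.1 ⟨-v.ord _, by rw [mul_neg, ← h2, neg_neg]⟩
      have hmod : τ.ρ ⟨1, h1lt⟩ % τ.m = 1 := (hT.out.good.2 ⟨1, h1lt⟩).1
      have h3 : k ∣ τ.ρ ⟨1, h1lt⟩ % τ.m := (Nat.dvd_mod_iff hkm).2 hkρ
      rw [hmod] at h3
      exact Nat.dvd_one.1 h3
  subst hk1
  refine ⟨v, fun b hb => ?_⟩
  have h := hval b hb
  rw [Nat.cast_one, one_mul] at h
  exact h.symm

end InfPlace

/-! ## Uniqueness of the pole of `x` -/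

section Unique

variable {τ : WType} {K : Type u} [Field K] (T : Tab τ K) [hT : Fact T.PreValid]
  [IsDomain T.Alg] (P : Place K (FractionRing T.Alg))

theorem algebraMap_algebraMap_poly (r : K[X]) :
    algebraMap T.Alg (FractionRing T.Alg) (algebraMap K[X] T.Alg r)
      = aeval (algebraMap T.Alg (FractionRing T.Alg) (Tab.Alg.x T)) r := by
  rw [algebraMap_poly_eq_aeval, aeval_algebraMap_apply]

theorem algebraMap_smul_ω (r : K[X]) (k : Fin τ.m) :
    algebraMap T.Alg (FractionRing T.Alg) (r • Tab.Alg.ω T k)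
      = aeval (algebraMap T.Alg (FractionRing T.Alg) (Tab.Alg.x T)) r
          * algebraMap T.Alg (FractionRing T.Alg) (Tab.Alg.ω T k) := by
  rw [Algebra.smul_def, map_mul, algebraMap_algebraMap_poly]

theorem algebraMap_eq_sum (b : T.Alg) :
    algebraMap T.Alg (FractionRing T.Alg) b
      = ∑ k, aeval (algebraMap T.Alg (FractionRing T.Alg) (Tab.Alg.x T)) (b.toElt k)
          * algebraMap T.Alg (FractionRing T.Alg) (Tab.Alg.ω T k) := by
  conv_lhs => rw [alg_eq_sum b]
  rw [map_sum]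
  exact Finset.sum_congr rfl fun k _ => algebraMap_smul_ω T _ k

/-- The scaled excess `m * ord_P ω_k - ρ_k * ord_P x`. -/
def excess (k : Fin τ.m) : ℤ :=
  (τ.m : ℤ) * P.ord (algebraMap T.Alg (FractionRing T.Alg) (Tab.Alg.ω T k))
    - (τ.ρ k : ℤ) * P.ord (algebraMap T.Alg (FractionRing T.Alg) (Tab.Alg.x T))

theorem mul_ord_term
    (hX : P.ord (algebraMap T.Alg (FractionRing T.Alg) (Tab.Alg.x T)) < 0) {p : K[X]}
    (hp : p ≠ 0) (k : Fin τ.m) :
    aeval (algebraMap T.Alg (FractionRing T.Alg) (Tab.Alg.x T)) p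
        * algebraMap T.Alg (FractionRing T.Alg) (Tab.Alg.ω T k) ≠ 0 ∧
      (τ.m : ℤ) * P.ord (aeval (algebraMap T.Alg (FractionRing T.Alg) (Tab.Alg.x T)) p
        * algebraMap T.Alg (FractionRing T.Alg) (Tab.Alg.ω T k))
        = ((τ.m * p.natDegree + τ.ρ k : ℕ) : ℤ)
            * P.ord (algebraMap T.Alg (FractionRing T.Alg) (Tab.Alg.x T)) + excess T P k := by
  have h1 := aeval_ne_zero_of_ord_neg P hX hp
  have h2 := algebraMap_frac_ne_zero T (ω_ne_zero T k)
  refine ⟨mul_ne_zero h1 h2, ?_⟩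
  rw [P.ord_mul h1 h2, ord_aeval_of_ord_neg P hX hp, excess]
  push_cast
  ring

theorem excess_nonneg
    (hX : P.ord (algebraMap T.Alg (FractionRing T.Alg) (Tab.Alg.x T)) < 0) (k : Fin τ.m) :
    0 ≤ excess T P k := by
  obtain ⟨k₀, -, hk₀⟩ :=
    Finset.exists_min_image Finset.univ (excess T P) ⟨k, Finset.mem_univ k⟩
  refine le_trans ?_ (hk₀ k (Finset.mem_univ k))
  by_contra hneg
  have hneg' : excess T P k₀ < 0 := not_le.1 hneg
  have hm : (0 : ℤ) < τ.m := by exact_mod_cast hT.out.good.1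
  have hω := algebraMap_frac_ne_zero T (ω_ne_zero T k₀)
  have hsq : algebraMap T.Alg (FractionRing T.Alg) (Tab.Alg.ω T k₀)
      * algebraMap T.Alg (FractionRing T.Alg) (Tab.Alg.ω T k₀)
      = ∑ k, aeval (algebraMap T.Alg (FractionRing T.Alg) (Tab.Alg.x T)) (T.c k₀ k₀ k)
          * algebraMap T.Alg (FractionRing T.Alg) (Tab.Alg.ω T k) := by
    rw [← map_mul, ω_mul_ω, map_sum]
    exact Finset.sum_congr rfl fun k _ => algebraMap_smul_ω T _ k
  have hne : ∑ k, aeval (algebraMap T.Alg (FractionRing T.Alg) (Tab.Alg.x T)) (T.c k₀ k₀ k)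
      * algebraMap T.Alg (FractionRing T.Alg) (Tab.Alg.ω T k) ≠ 0 := by
    rw [← hsq]
    exact mul_ne_zero hω hω
  have hge := mul_ord_sum_ge P Finset.univ
    (fun k => aeval (algebraMap T.Alg (FractionRing T.Alg) (Tab.Alg.x T)) (T.c k₀ k₀ k)
      * algebraMap T.Alg (FractionRing T.Alg) (Tab.Alg.ω T k)) (τ.m : ℤ)
    (excess T P k₀ + 2 * (τ.ρ k₀ : ℤ)
      * P.ord (algebraMap T.Alg (FractionRing T.Alg) (Tab.Alg.x T))) hm
    (fun k _ => by
      by_cases hc : T.c k₀ k₀ k = 0
      · left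
        rw [hc, map_zero, zero_mul]
      · right
        rw [(mul_ord_term T P hX hc k).2]
        have hwt := hT.out.wt k₀ k₀ k hc
        have h1 : ((τ.ρ k₀ + τ.ρ k₀ : ℕ) : ℤ)
            * P.ord (algebraMap T.Alg (FractionRing T.Alg) (Tab.Alg.x T))
            ≤ ((τ.m * (T.c k₀ k₀ k).natDegree + τ.ρ k : ℕ) : ℤ)
              * P.ord (algebraMap T.Alg (FractionRing T.Alg) (Tab.Alg.x T)) :=
          mul_le_mul_of_nonpos_right (by exact_mod_cast hwt) hX.le
        have h2 := hk₀ k (Finset.mem_univ k)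
        push_cast at h1 ⊢
        linarith) hne
  rw [← hsq, P.ord_mul hω hω] at hge
  have h3 : (τ.m : ℤ) * (P.ord (algebraMap T.Alg (FractionRing T.Alg) (Tab.Alg.ω T k₀))
      + P.ord (algebraMap T.Alg (FractionRing T.Alg) (Tab.Alg.ω T k₀)))
      = 2 * excess T P k₀ + 2 * (τ.ρ k₀ : ℤ)
        * P.ord (algebraMap T.Alg (FractionRing T.Alg) (Tab.Alg.x T)) := by
    rw [excess]
    ring
  rw [h3] at hge
  linarith

theorem ord_of_wtN_eq_mul
    (hX : P.ord (algebraMap T.Alg (FractionRing T.Alg) (Tab.Alg.x T)) < 0) {a : T.Alg}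
    (ha : a ≠ 0) {N : ℕ} (hN : wtN T a = τ.m * N) :
    P.ord (algebraMap T.Alg (FractionRing T.Alg) a)
      = (N : ℤ) * P.ord (algebraMap T.Alg (FractionRing T.Alg) (Tab.Alg.x T)) := by
  obtain ⟨i, hi⟩ := exists_isLead T ha
  have hw := wtN_eq_of_isLead T hi
  rw [hN] at hw
  obtain ⟨hi0, hdeg⟩ := good_inj hT.out.good (i := i) (j := i0 T)
    (e := (a.toElt i).natDegree) (f := N) (by rw [ρ_i0, add_zero]; exact hw.symm)
  subst hi0
  have hm : (0 : ℤ) < τ.m := by exact_mod_cast hT.out.good.1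
  have hlead := mul_ord_term T P hX hi.1 (i0 T)
  have hE0 : excess T P (i0 T) = 0 := by
    rw [excess, ρ_i0, ω_eq_one (i0 T) rfl, map_one, P.ord_one]
    simp
  rw [algebraMap_eq_sum T a]
  have hdom := ord_sum_eq_of_dominant P Finset.univ
    (fun k => aeval (algebraMap T.Alg (FractionRing T.Alg) (Tab.Alg.x T)) (a.toElt k)
      * algebraMap T.Alg (FractionRing T.Alg) (Tab.Alg.ω T k))
    (Finset.mem_univ (i0 T)) hlead.1 (fun k _ hk => by
      by_cases hk0 : a.toElt k = 0
      · left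
        rw [hk0, map_zero, zero_mul]
      · right
        have hterm := (mul_ord_term T P hX hk0 k).2
        have hlt := hi.lt_of_ne hT.out.good hk hk0
        have hEk := excess_nonneg T P hX k
        have h1 : ((τ.m * (a.toElt (i0 T)).natDegree + τ.ρ (i0 T) : ℕ) : ℤ)
            * P.ord (algebraMap T.Alg (FractionRing T.Alg) (Tab.Alg.x T))
            < ((τ.m * (a.toElt k).natDegree + τ.ρ k : ℕ) : ℤ)
              * P.ord (algebraMap T.Alg (FractionRing T.Alg) (Tab.Alg.x T)) :=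
          mul_lt_mul_of_neg_right (by exact_mod_cast hlt) hX
        refine lt_of_mul_lt_mul_left (a := (τ.m : ℤ)) ?_ hm.le
        rw [hlead.2, hterm, hE0]
        linarith)
  rw [hdom]
  have h := hlead.2
  rw [hE0, add_zero, ρ_i0, add_zero, hdeg] at h
  push_cast at h
  refine mul_left_cancel₀ hm.ne' ?_
  rw [h]
  ring

/-- At a pole `P` of `x`: `m * ord_P b = wt b * ord_P x` for every nonzero `b` of the algebra. -/
theorem mul_ord_eq_wtN_mul
    (hX : P.ord (algebraMap T.Alg (FractionRing T.Alg) (Tab.Alg.x T)) < 0) {b : T.Alg}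
    (hb : b ≠ 0) :
    (τ.m : ℤ) * P.ord (algebraMap T.Alg (FractionRing T.Alg) b)
      = (wtN T b : ℤ) * P.ord (algebraMap T.Alg (FractionRing T.Alg) (Tab.Alg.x T)) := by
  have h := ord_of_wtN_eq_mul T P hX (pow_ne_zero τ.m hb) (N := wtN T b) (wtN_pow T hb τ.m)
  rw [map_pow, ord_pow] at h
  exact h

end Unique

section Main

variable {τ : WType} {K : Type u} [Field K] (T : Tab τ K) [hT : Fact T.PreValid]
  [IsDomain T.Alg]

/-- **The place at infinity of a table algebra** (any field, only `PreValid` and domain):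
`ord_Pinf b = - wt b`, and `Pinf` is the only pole of `x`. -/
theorem exists_infPlace :
    ∃ Pinf : Place K (FractionRing T.Alg),
      (∀ (b : T.Alg) (t : ℕ), T.wt b.toElt = (t : WithBot ℕ) →
        Pinf.ord (algebraMap T.Alg (FractionRing T.Alg) b) = -(t : ℤ)) ∧
      (∀ P : Place K (FractionRing T.Alg),
        algebraMap T.Alg (FractionRing T.Alg) (Tab.Alg.x T) ∉ P.toValuationSubring →
          P = Pinf) := by
  obtain ⟨Pinf, hPinf⟩ := exists_infPlace_ord T
  refine ⟨Pinf, fun b t ht => ?_, fun P hP => ?_⟩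
  · have hb : b ≠ 0 := by
      rintro rfl
      rw [Tab.Alg.toElt_zero, wt_zero] at ht
      exact WithBot.bot_ne_coe ht
    rw [hPinf b hb, wtN_eq_of_wt T ht]
  · have hX : P.ord (algebraMap T.Alg (FractionRing T.Alg) (Tab.Alg.x T)) < 0 := by
      by_contra h
      exact hP ((ord_nonneg_iff_mem P).1 (not_lt.1 h))
    have hm : (0 : ℤ) < τ.m := by exact_mod_cast hT.out.good.1
    symm
    apply eq_of_ord_nonneg_imp
    intro f hf
    obtain ⟨a, b, hb, rfl⟩ := IsFractionRing.div_surjective (A := T.Alg) f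
    have hb0 : b ≠ 0 := nonZeroDivisors.ne_zero hb
    by_cases ha : a = 0
    · subst ha
      simp
    have hιa := algebraMap_frac_ne_zero T ha
    have hιb := algebraMap_frac_ne_zero T hb0
    rw [ord_div _ hιa hιb, hPinf a ha, hPinf b hb0] at hf
    rw [ord_div _ hιa hιb]
    have h1 := mul_ord_eq_wtN_mul T P hX ha
    have h2 := mul_ord_eq_wtN_mul T P hX hb0
    have h3 : 0 ≤ (τ.m : ℤ) * (P.ord (algebraMap T.Alg (FractionRing T.Alg) a)
        - P.ord (algebraMap T.Alg (FractionRing T.Alg) b)) := by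
      rw [mul_sub, h1, h2, ← sub_mul]
      exact mul_nonneg_of_nonpos_of_nonpos (by linarith) hX.le
    exact (mul_nonneg_iff_of_pos_left hm).1 h3

end Main

/-! ## Adapters: the Spec-shaped statements -/

section Adapters

theorem wt_x {τ : WType} {K : Type u} [Field K] (T : Tab τ K) [Fact T.PreValid] :
    T.wt (Tab.Alg.x T).toElt = (τ.m : WithBot ℕ) := by
  rw [← wtN_x T]
  exact wt_eq_wtN T (x_ne_zero T)

/-- W1d-1 in the shape consumed by the `Stmt_FF` assembly (chat #370 / #430): the place at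
infinity with `ord b = - wt b`, which is the only pole of `x`. -/
def Stmt_InfCore : Prop :=
  ∀ (K : Type u) [Field K] [IsAlgClosed K] (τ : WType) (T : Tab τ K) [Fact T.Valid]
    [IsDedekindDomain T.Alg],
    ∃ Pinf : Place K (FractionRing T.Alg),
      (∀ (b : T.Alg) (t : ℕ), T.wt b.toElt = (t : WithBot ℕ) →
        Pinf.ord (algebraMap T.Alg (FractionRing T.Alg) b) = -(t : ℤ)) ∧
      (∀ P : Place K (FractionRing T.Alg),
        algebraMap T.Alg (FractionRing T.Alg) (Tab.Alg.x T) ∉ P.toValuationSubring → P = Pinf)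

theorem stmt_InfCore : Stmt_InfCore.{u} := by
  intro K _ _ τ T _ _
  exact exists_infPlace T

/-- W1d-1, order form (helper975). -/
theorem stmt_InfPlaceOrd : helper975.Stmt_InfPlaceOrd := by
  intro K _ _ τ T _ _
  obtain ⟨Pinf, h, -⟩ := exists_infPlace T
  exact ⟨Pinf, h⟩

/-- W1d-1, unique pole form (helper975). -/
theorem stmt_PoleUnique : helper975.Stmt_PoleUnique := by
  intro K _ _ τ T hV _
  obtain ⟨Pinf, h, h'⟩ := exists_infPlace T
  refine ⟨Pinf, ?_, h'⟩
  intro hmem
  have h1 := (ord_nonneg_iff_mem Pinf).2 hmem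
  rw [h _ τ.m (wt_x T)] at h1
  have h2 : 0 < τ.m := hV.out.good.1
  omega

/-- **`Stmt_Frob`** of the W-Spec, unconditionally. -/
theorem stmt_Frob : helper3351.Stmt_Frob := helper975.stmt_Frob_of_ord stmt_InfPlaceOrd

end Adapters

end Fermat.Agent.S27.helper1017

end
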