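import Mathlib
import Fermat.Prelude.Def_AlgebraicCurve_DivisorClassGroup
import Fermat.Prelude.Def_AlgebraicCurve_IsCurveOver
import Fermat.Prelude.Def_AlgebraicCurve_Repartitions
import Fermat.Agent.S24.helper1370_PlaceBasics

/-!
# S27, leaf E4-AVG (seat helper1039): the averaging lemma

Pure algebra, no analysis.  Let `F / K` be a function field all of whose places have degree one
(`K` algebraically closed) and assume that there is ONE `N ≥ 1` such that every place `P` carries a
function `f_P` whose pole divisor is exactly `N • P` (weak Riemann–Roch).  Then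

* `hom_eq_zero_of_bddAbove` : a group homomorphism `χ : Pic0 K F →+ ℝ` such that
  `Q ↦ χ [Q - Q0]` is bounded above on the set of places is zero;
* `linear_eq_zero_of_bdd` : if `E : V →+ Pic0 K F` is onto and an `ℝ`-linear `L : V → ℝ` kills
  `ker E`, and the classes `[Q - Q0]` have `E`-preimages on which `L` is bounded above, then `L = 0`;
* `span_ker_eq_top` : hence `ker E` spans `V` over `ℝ` (the shape consumed by the lattice count).

Proof of the first statement: for a place `Q1 ≠ P` let `c` be the value of `f_P` at `Q1`; the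
divisor of `f_P - c` is `Z - N • P` with `Z ≥ 0`, `Z Q1 ≥ 1`; applying `χ` to this principal
divisor, `N • h P = ∑_Z h`, whence `M - h Q1 ≤ N • (M - h P)` for `M = sup h`.  Letting `h P → M`
gives `h = M` everywhere, and `h Q0 = 0`.
-/

set_option autoImplicit false

noncomputable section

open AlgebraicCurve

namespace Fermat.Agent.S27.helper1039

open Fermat.Agent.S24.helper1370

variable {K F : Type*} [Field K] [Field F] [Algebra K F]

/-! ## Degree and point differences -/

/-- If all places have degree one, the degree of a divisor is the sum of its coefficients. -/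
theorem degree_eq_sum (hdeg : ∀ v : Place K F, v.deg = 1) (D : Divisor K F) :
    Divisor.degree D = D.sum fun _ n => n := by
  unfold Divisor.degree
  rw [Finsupp.liftAddHom_apply]
  refine Finsupp.sum_congr fun v _ => ?_
  simp [hdeg v]

/-- The degree-zero divisor `Q - Q0`. -/
def ptDiff (hdeg : ∀ v : Place K F, v.deg = 1) (Q Q0 : Place K F) :
    Divisor.degZero (K := K) (F := F) :=
  ⟨Finsupp.single Q 1 - Finsupp.single Q0 1, by
    rw [Divisor.mem_degZero, map_sub, Divisor.degree_single, Divisor.degree_single, hdeg Q,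
      hdeg Q0]
    simp⟩

@[simp]
theorem coe_ptDiff (hdeg : ∀ v : Place K F, v.deg = 1) (Q Q0 : Place K F) :
    (ptDiff hdeg Q Q0 : Divisor K F) = Finsupp.single Q 1 - Finsupp.single Q0 1 := rfl

theorem ptDiff_self (hdeg : ∀ v : Place K F, v.deg = 1) (Q0 : Place K F) :
    ptDiff hdeg Q0 Q0 = 0 :=
  Subtype.ext (by simp)

/-- A degree-zero divisor is the combination `∑ D(Q) • (Q - Q0)`. -/
theorem degZero_eq_sum_ptDiff (hdeg : ∀ v : Place K F, v.deg = 1) (Q0 : Place K F)
    (D : Divisor.degZero (K := K) (F := F)) :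
    D = ∑ Q ∈ (D : Divisor K F).support, (D : Divisor K F) Q • ptDiff hdeg Q Q0 := by
  apply Subtype.ext
  have h0 : (D : Divisor K F).sum (fun _ n => n) = 0 := by
    rw [← degree_eq_sum hdeg]
    exact Divisor.mem_degZero.mp D.2
  rw [AddSubgroup.val_finsetSum]
  simp only [AddSubgroup.coe_zsmul, coe_ptDiff, smul_sub]
  rw [Finset.sum_sub_distrib, ← Finset.sum_smul]
  have h1 : ∑ Q ∈ (D : Divisor K F).support, (D : Divisor K F) Q = 0 := h0
  rw [h1, zero_smul, sub_zero]
  conv_lhs => rw [← Finsupp.sum_single (D : Divisor K F)]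
  rw [Finsupp.sum]
  refine Finset.sum_congr rfl fun Q _ => ?_
  rw [Finsupp.smul_single, smul_eq_mul, mul_one]

/-! ## The function `h Q = χ [Q - Q0]` -/

/-- `h Q = χ [Q - Q0]`. -/
def hfun (hdeg : ∀ v : Place K F, v.deg = 1) (χ : Pic0 K F →+ ℝ) (Q0 Q : Place K F) : ℝ :=
  χ (Pic0.mk (ptDiff hdeg Q Q0))

theorem hfun_self (hdeg : ∀ v : Place K F, v.deg = 1) (χ : Pic0 K F →+ ℝ) (Q0 : Place K F) :
    hfun hdeg χ Q0 Q0 = 0 := by
  unfold hfun
  rw [ptDiff_self, Pic0.mk_zero, map_zero]

/-- `χ [D] = ∑ D(Q) h(Q)` for a degree-zero divisor `D`. -/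
theorem chi_mk_eq_sum (hdeg : ∀ v : Place K F, v.deg = 1) (χ : Pic0 K F →+ ℝ) (Q0 : Place K F)
    (D : Divisor.degZero (K := K) (F := F)) :
    χ (Pic0.mk D) =
      ∑ Q ∈ (D : Divisor K F).support, ((D : Divisor K F) Q : ℝ) * hfun hdeg χ Q0 Q := by
  let φ : Divisor.degZero (K := K) (F := F) →+ ℝ :=
    χ.comp (QuotientAddGroup.mk' _)
  have hφ : ∀ E : Divisor.degZero (K := K) (F := F), φ E = χ (Pic0.mk E) := fun _ => rfl
  rw [← hφ]
  conv_lhs => rw [degZero_eq_sum_ptDiff hdeg Q0 D]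
  rw [map_sum]
  refine Finset.sum_congr rfl fun Q _ => ?_
  rw [map_zsmul, hφ, zsmul_eq_mul]
  rfl

/-- The class of a principal divisor is zero. -/
theorem mk_eq_zero_of_principal (D : Divisor.degZero (K := K) (F := F))
    (hD : (D : Divisor K F) ∈ Divisor.principal (K := K) (F := F)) : Pic0.mk D = 0 := by
  unfold Pic0.mk
  rw [QuotientAddGroup.eq_zero_iff]
  exact AddSubgroup.mem_addSubgroupOf.mpr hD

/-! ## Values at a place of degree one -/

/-- At a place of degree one every regular function has a value in `K`. -/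
theorem exists_value (v : Place K F) (hv : v.deg = 1) {f : F} (hf : 0 ≤ v.ord f) :
    ∃ c : K, f = algebraMap K F c ∨ 0 < v.ord (f - algebraMap K F c) := by
  have hmem : f ∈ v.toValuationSubring := mem_of_ord_nonneg v hf
  set a : v.toValuationSubring := ⟨f, hmem⟩ with ha
  have h1 : Module.finrank K v.ResidueField = 1 := hv
  obtain ⟨c, hc⟩ := (finrank_eq_one_iff_of_nonzero' (1 : v.ResidueField) one_ne_zero).mp h1
    (IsLocalRing.residue v.toValuationSubring a)
  refine ⟨c, ?_⟩
  by_cases hfc : f = algebraMap K F c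
  · exact Or.inl hfc
  · right
    set b : v.toValuationSubring := a - algebraMap K v.toValuationSubring c with hb
    have hb0 : b ≠ 0 := by
      intro h
      apply hfc
      have h2 := congrArg (Subtype.val) h
      simp only [hb, ha, AddSubgroupClass.coe_sub, Place.coe_algebraMap,
        ZeroMemClass.coe_zero] at h2
      exact sub_eq_zero.mp h2
    have hres : IsLocalRing.residue v.toValuationSubring b = 0 := by
      rw [hb, map_sub, ← hc, Algebra.smul_def, mul_one]
      have : algebraMap K v.ResidueField c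
          = IsLocalRing.residue v.toValuationSubring (algebraMap K v.toValuationSubring c) := rfl
      rw [this, sub_self]
    have hbm : b ∈ IsLocalRing.maximalIdeal v.toValuationSubring :=
      (IsLocalRing.residue_eq_zero_iff b).mp hres
    have hpos := (ord_pos_iff_mem_maximalIdeal v hb0).mpr hbm
    have hcoe : (b : F) = f - algebraMap K F c := by
      simp [hb, ha]
    rwa [hcoe] at hpos

/-! ## The averaging inequality -/

/-- The averaging inequality: `M - h Q1 ≤ N • (M - h P)` whenever `h ≤ M` everywhere. -/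
theorem avg_ineq [HasPrincipalDivisors K F] (hdeg : ∀ v : Place K F, v.deg = 1)
    (N : ℕ) (hN : 0 < N)
    (hpole : ∀ P : Place K F, ∃ f : F, P.ord f = -(N : ℤ) ∧
      ∀ Q : Place K F, Q ≠ P → 0 ≤ Q.ord f)
    (χ : Pic0 K F →+ ℝ) (Q0 : Place K F) (M : ℝ)
    (hM : ∀ Q : Place K F, hfun hdeg χ Q0 Q ≤ M) (P Q1 : Place K F) :
    M - hfun hdeg χ Q0 Q1 ≤ N * (M - hfun hdeg χ Q0 P) := by
  classical
  set h := hfun hdeg χ Q0 with hh
  have hN1 : (1 : ℝ) ≤ N := by exact_mod_cast hN
  have hMP : 0 ≤ M - h P := sub_nonneg.mpr (hM P)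
  rcases eq_or_ne Q1 P with rfl | hne
  · nlinarith
  obtain ⟨f, hfP, hfQ⟩ := hpole P
  have hNpos : (0 : ℤ) < N := by exact_mod_cast hN
  obtain ⟨c, hc | hc⟩ := exists_value Q1 (hdeg Q1) (hfQ Q1 hne)
  · exfalso
    rw [hc] at hfP
    rw [ord_algebraMap P c] at hfP
    omega
  set g : F := f - algebraMap K F c with hg
  have hgP : P.ord g = -(N : ℤ) := by
    rw [hg, ord_sub_algebraMap_of_ord_neg P (by omega) c, hfP]
  have hg0 : g ≠ 0 := by
    rintro h0
    rw [h0, Place.ord_zero] at hgP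
    omega
  obtain ⟨D, hDord, hDdeg⟩ := HasPrincipalDivisors.exists_divisor (K := K) g hg0
  have hDprin : D ∈ Divisor.principal (K := K) (F := F) := ⟨g, hg0, hDord⟩
  have hDmem : D ∈ Divisor.degZero (K := K) (F := F) := Divisor.mem_degZero.mpr hDdeg
  -- the two sum identities
  have hsum1 : ∑ Q ∈ D.support, (D Q : ℝ) * h Q = 0 := by
    have := chi_mk_eq_sum hdeg χ Q0 ⟨D, hDmem⟩
    rw [mk_eq_zero_of_principal ⟨D, hDmem⟩ hDprin, map_zero] at this
    exact this.symm
  have hsum0 : ∑ Q ∈ D.support, (D Q : ℝ) = 0 := by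
    have h1 : D.sum (fun _ n => n) = 0 := by rw [← degree_eq_sum hdeg]; exact hDdeg
    have h2 : (∑ Q ∈ D.support, D Q : ℤ) = 0 := h1
    exact_mod_cast h2
  have hsumt : ∑ Q ∈ D.support, (D Q : ℝ) * (M - h Q) = 0 := by
    have : ∑ Q ∈ D.support, (D Q : ℝ) * (M - h Q)
        = (∑ Q ∈ D.support, (D Q : ℝ)) * M - ∑ Q ∈ D.support, (D Q : ℝ) * h Q := by
      rw [Finset.sum_mul, ← Finset.sum_sub_distrib]
      exact Finset.sum_congr rfl fun Q _ => by ring
    rw [this, hsum0, hsum1]
    ring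
  have hPs : P ∈ D.support := by
    rw [Finsupp.mem_support_iff, hDord, hgP]
    omega
  have hDQ1 : 1 ≤ D Q1 := by
    rw [hDord]
    exact hc
  have hQ1s : Q1 ∈ D.support.erase P := by
    rw [Finset.mem_erase]
    refine ⟨hne, ?_⟩
    rw [Finsupp.mem_support_iff]
    omega
  have hnonneg : ∀ Q ∈ D.support.erase P, 0 ≤ (D Q : ℝ) * (M - h Q) := by
    intro Q hQ
    have hQP : Q ≠ P := (Finset.mem_erase.mp hQ).1
    have hDQ : 0 ≤ D Q := by
      rw [hDord, hg]
      exact ord_sub_algebraMap_nonneg Q (hfQ Q hQP) c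
    exact mul_nonneg (by exact_mod_cast hDQ) (sub_nonneg.mpr (hM Q))
  have hrest : 0 ≤ ∑ Q ∈ (D.support.erase P).erase Q1, (D Q : ℝ) * (M - h Q) :=
    Finset.sum_nonneg fun Q hQ => hnonneg Q (Finset.mem_of_mem_erase hQ)
  have e1 := Finset.add_sum_erase D.support (fun Q => (D Q : ℝ) * (M - h Q)) hPs
  have e2 := Finset.add_sum_erase (D.support.erase P) (fun Q => (D Q : ℝ) * (M - h Q)) hQ1s
  have hDP : (D P : ℝ) = -(N : ℝ) := by
    rw [hDord, hgP]
    push_cast
    ring
  have hQ1term : M - h Q1 ≤ (D Q1 : ℝ) * (M - h Q1) := by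
    have h1 : (1 : ℝ) ≤ D Q1 := by exact_mod_cast hDQ1
    have h2 : 0 ≤ M - h Q1 := sub_nonneg.mpr (hM Q1)
    nlinarith
  rw [hDP] at e1
  linarith

/-- **Averaging lemma.**  A homomorphism `χ : Pic0 K F →+ ℝ` for which `Q ↦ χ [Q - Q0]` is
bounded above on the set of places vanishes. -/
theorem hom_eq_zero_of_bddAbove [HasPrincipalDivisors K F] (hdeg : ∀ v : Place K F, v.deg = 1)
    (N : ℕ) (hN : 0 < N)
    (hpole : ∀ P : Place K F, ∃ f : F, P.ord f = -(N : ℤ) ∧
      ∀ Q : Place K F, Q ≠ P → 0 ≤ Q.ord f)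
    (χ : Pic0 K F →+ ℝ) (Q0 : Place K F)
    (hb : BddAbove (Set.range fun Q : Place K F => χ (Pic0.mk (ptDiff hdeg Q Q0)))) :
    χ = 0 := by
  set h := hfun hdeg χ Q0 with hh
  have hb' : BddAbove (Set.range h) := hb
  set M := sSup (Set.range h) with hMdef
  have hM : ∀ Q, h Q ≤ M := fun Q => le_csSup hb' ⟨Q, rfl⟩
  have hne : (Set.range h).Nonempty := ⟨h Q0, Q0, rfl⟩
  have hN0 : (0 : ℝ) < N := by exact_mod_cast hN
  -- h is constant equal to M
  have hconst : ∀ Q, h Q = M := by
    intro Q1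
    refine le_antisymm (hM Q1) ?_
    by_contra hlt
    replace hlt := not_le.mp hlt
    set ε := M - h Q1 with hε
    have hεpos : 0 < ε := sub_pos.mpr hlt
    obtain ⟨_, ⟨P, rfl⟩, hP⟩ := exists_lt_of_lt_csSup hne
      (show M - ε / N < M by linarith [div_pos hεpos hN0])
    have key := avg_ineq hdeg N hN hpole χ Q0 M hM P Q1
    have h3 : (N : ℝ) * (M - h P) < ε := by
      have h4 : M - h P < ε / N := by linarith
      calc (N : ℝ) * (M - h P) < N * (ε / N) := mul_lt_mul_of_pos_left h4 hN0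
        _ = ε := by field_simp
    linarith
  have hM0 : M = 0 := by rw [← hconst Q0]; exact hfun_self hdeg χ Q0
  refine DFunLike.ext _ _ fun x => ?_
  obtain ⟨D, rfl⟩ := Pic0.mk_surjective x
  rw [chi_mk_eq_sum hdeg χ Q0 D, AddMonoidHom.zero_apply]
  refine Finset.sum_eq_zero fun Q _ => ?_
  have : hfun hdeg χ Q0 Q = 0 := by rw [← hM0]; exact hconst Q
  rw [this, mul_zero]

/-! ## Consequences for a surjection `E : V →+ Pic0 K F` -/

/-- If `E : V →+ Pic0 K F` is onto, `L` is additive and kills `ker E`, and the point classes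
`[Q - Q0]` have `E`-preimages on which `L` is bounded above, then `L = 0`. -/
theorem addHom_eq_zero_of_bdd [HasPrincipalDivisors K F] (hdeg : ∀ v : Place K F, v.deg = 1)
    (N : ℕ) (hN : 0 < N)
    (hpole : ∀ P : Place K F, ∃ f : F, P.ord f = -(N : ℤ) ∧
      ∀ Q : Place K F, Q ≠ P → 0 ≤ Q.ord f)
    {V : Type*} [AddCommGroup V] (E : V →+ Pic0 K F) (hE : Function.Surjective E)
    (L : V →+ ℝ) (hL : ∀ v, E v = 0 → L v = 0) (Q0 : Place K F)
    (hbdd : ∃ B : ℝ, ∀ Q : Place K F, ∃ v : V, E v = Pic0.mk (ptDiff hdeg Q Q0) ∧ L v ≤ B) :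
    L = 0 := by
  have hker : E.ker ≤ L.ker := fun v hv => hL v hv
  set χ : Pic0 K F →+ ℝ :=
    E.liftOfRightInverse (Function.surjInv hE) (Function.rightInverse_surjInv hE) ⟨L, hker⟩
    with hχ
  have hχE : ∀ v, χ (E v) = L v := fun v =>
    AddMonoidHom.liftOfRightInverse_comp_apply E (Function.surjInv hE)
      (Function.rightInverse_surjInv hE) ⟨L, hker⟩ v
  obtain ⟨B, hB⟩ := hbdd
  have hb : BddAbove (Set.range fun Q : Place K F => χ (Pic0.mk (ptDiff hdeg Q Q0))) := by
    refine ⟨B, ?_⟩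
    rintro _ ⟨Q, rfl⟩
    obtain ⟨v, hv, hvB⟩ := hB Q
    show χ (Pic0.mk (ptDiff hdeg Q Q0)) ≤ B
    rw [← hv, hχE]
    exact hvB
  have hχ0 := hom_eq_zero_of_bddAbove hdeg N hN hpole χ Q0 hb
  ext v
  rw [← hχE, hχ0]
  rfl

/-- Linear form of `addHom_eq_zero_of_bdd`. -/
theorem linear_eq_zero_of_bdd [HasPrincipalDivisors K F] (hdeg : ∀ v : Place K F, v.deg = 1)
    (N : ℕ) (hN : 0 < N)
    (hpole : ∀ P : Place K F, ∃ f : F, P.ord f = -(N : ℤ) ∧
      ∀ Q : Place K F, Q ≠ P → 0 ≤ Q.ord f)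
    {V : Type*} [AddCommGroup V] [Module ℝ V] (E : V →+ Pic0 K F) (hE : Function.Surjective E)
    (L : V →ₗ[ℝ] ℝ) (hL : ∀ v, E v = 0 → L v = 0) (Q0 : Place K F)
    (hbdd : ∃ B : ℝ, ∀ Q : Place K F, ∃ v : V, E v = Pic0.mk (ptDiff hdeg Q Q0) ∧ L v ≤ B) :
    L = 0 := by
  have h := addHom_eq_zero_of_bdd hdeg N hN hpole E hE L.toAddMonoidHom hL Q0 hbdd
  ext v
  have := DFunLike.congr_fun h v
  simpa using this

/-- **Spanning criterion.**  If `E : V →+ Pic0 K F` is onto and, for every real functional `L`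
killing `ker E`, the point classes `[Q - Q0]` have `E`-preimages on which `L` is bounded above,
then `ker E` spans `V` over `ℝ`. -/
theorem span_ker_eq_top [HasPrincipalDivisors K F] (hdeg : ∀ v : Place K F, v.deg = 1)
    (N : ℕ) (hN : 0 < N)
    (hpole : ∀ P : Place K F, ∃ f : F, P.ord f = -(N : ℤ) ∧
      ∀ Q : Place K F, Q ≠ P → 0 ≤ Q.ord f)
    {V : Type*} [AddCommGroup V] [Module ℝ V] (E : V →+ Pic0 K F) (hE : Function.Surjective E)
    (Q0 : Place K F)
    (hbdd : ∀ L : V →ₗ[ℝ] ℝ, (∀ v, E v = 0 → L v = 0) →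
      ∃ B : ℝ, ∀ Q : Place K F, ∃ v : V, E v = Pic0.mk (ptDiff hdeg Q Q0) ∧ L v ≤ B) :
    Submodule.span ℝ (E.ker : Set V) = ⊤ := by
  by_contra hne
  obtain ⟨L, hL0, hLker⟩ := Submodule.exists_le_ker_of_lt_top _ (lt_top_iff_ne_top.mpr hne)
  apply hL0
  have hL : ∀ v, E v = 0 → L v = 0 := fun v hv =>
    LinearMap.mem_ker.mp (hLker (Submodule.subset_span hv))
  exact linear_eq_zero_of_bdd hdeg N hN hpole E hE L hL Q0 (hbdd L hL)

/-- Variant of `span_ker_eq_top` with a single bounded set of preimages (finite-dimensional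
normed `V`): if the point classes `[Q - Q0]` all lie in `E '' S` for a bounded set `S`, then
`ker E` spans `V` over `ℝ`. -/
theorem span_ker_eq_top_of_bounded [HasPrincipalDivisors K F] (hdeg : ∀ v : Place K F, v.deg = 1)
    (N : ℕ) (hN : 0 < N)
    (hpole : ∀ P : Place K F, ∃ f : F, P.ord f = -(N : ℤ) ∧
      ∀ Q : Place K F, Q ≠ P → 0 ≤ Q.ord f)
    {V : Type*} [NormedAddCommGroup V] [NormedSpace ℝ V] [FiniteDimensional ℝ V]
    (E : V →+ Pic0 K F) (hE : Function.Surjective E) (Q0 : Place K F)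
    (S : Set V) (hS : Bornology.IsBounded S)
    (hQ : ∀ Q : Place K F, ∃ v ∈ S, E v = Pic0.mk (ptDiff hdeg Q Q0)) :
    Submodule.span ℝ (E.ker : Set V) = ⊤ := by
  refine span_ker_eq_top hdeg N hN hpole E hE Q0 fun L _ => ?_
  obtain ⟨R, hR⟩ := hS.exists_norm_le
  set Lc : V →L[ℝ] ℝ := LinearMap.toContinuousLinearMap L with hLc
  refine ⟨‖Lc‖ * R, fun Q => ?_⟩
  obtain ⟨v, hvS, hv⟩ := hQ Q
  refine ⟨v, hv, ?_⟩
  have h1 : L v = Lc v := rfl
  rw [h1]
  calc Lc v ≤ ‖Lc v‖ := le_abs_self _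
    _ ≤ ‖Lc‖ * ‖v‖ := Lc.le_opNorm v
    _ ≤ ‖Lc‖ * R := mul_le_mul_of_nonneg_left (hR v hvS) (norm_nonneg _)

/-! ## The pole hypothesis from weak Riemann–Roch -/

/-- From the weak Riemann–Roch package (dimension formula + vanishing of `H1` in large degree)
there is ONE `N ≥ 1` such that every place `P` carries a function with pole divisor exactly
`N • P`. -/
theorem exists_uniform_pole (hdeg : ∀ v : Place K F, v.deg = 1)
    (hRR : ∀ D : Divisor K F,
      (Module.finrank K (riemannRochSpace D) : ℤ) - Module.finrank K (H1 D)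
        = Divisor.degree D + 1 - genusFF K F)
    (hvan : ∃ c : ℤ, ∀ D : Divisor K F, c ≤ Divisor.degree D → Subsingleton (H1 D)) :
    ∃ N : ℕ, 0 < N ∧ ∀ P : Place K F, ∃ f : F, P.ord f = -(N : ℤ) ∧
      ∀ Q : Place K F, Q ≠ P → 0 ≤ Q.ord f := by
  classical
  obtain ⟨c, hc⟩ := hvan
  set N : ℕ := c.toNat + 1 with hNdef
  have hcN : c ≤ (N : ℤ) - 1 := by
    have := Int.self_le_toNat c
    push_cast [hNdef]
    omega
  refine ⟨N, Nat.succ_pos _, fun P => ?_⟩
  set D1 : Divisor K F := Finsupp.single P ((N : ℤ) - 1) with hD1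
  set D2 : Divisor K F := Finsupp.single P (N : ℤ) with hD2
  have hd1 : Divisor.degree D1 = (N : ℤ) - 1 := by
    rw [hD1, Divisor.degree_single, hdeg P]; simp
  have hd2 : Divisor.degree D2 = (N : ℤ) := by
    rw [hD2, Divisor.degree_single, hdeg P]; simp
  have hs1 : Subsingleton (H1 D1) := hc D1 (by rw [hd1]; exact hcN)
  have hs2 : Subsingleton (H1 D2) := hc D2 (by rw [hd2]; omega)
  have hf1 : Module.finrank K (H1 D1) = 0 := Module.finrank_zero_of_subsingleton
  have hf2 : Module.finrank K (H1 D2) = 0 := Module.finrank_zero_of_subsingleton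
  have e1 := hRR D1
  have e2 := hRR D2
  rw [hf1, hd1] at e1
  rw [hf2, hd2] at e2
  have hlt : Module.finrank K (riemannRochSpace D1) < Module.finrank K (riemannRochSpace D2) := by
    have : (Module.finrank K (riemannRochSpace D1) : ℤ)
        < Module.finrank K (riemannRochSpace D2) := by
      push_cast at e1 e2
      omega
    exact_mod_cast this
  have hfin : Module.Finite K (riemannRochSpace D2) :=
    Module.finite_of_finrank_pos (lt_of_le_of_lt (Nat.zero_le _) hlt)
  have hle : riemannRochSpace D1 ≤ riemannRochSpace D2 := by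
    intro f hf
    rw [mem_riemannRochSpace_iff] at hf ⊢
    intro v
    rcases hf v with h0 | h1
    · exact Or.inl h0
    · right
      by_cases hvP : v = P
      · subst hvP
        rw [hD2, Finsupp.single_eq_same]
        rw [hD1, Finsupp.single_eq_same] at h1
        omega
      · rw [hD2, Finsupp.single_eq_of_ne hvP]
        rw [hD1, Finsupp.single_eq_of_ne hvP] at h1
        exact h1
  have hne : riemannRochSpace D1 ≠ riemannRochSpace D2 := by
    intro h
    rw [h] at hlt
    exact lt_irrefl _ hlt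
  obtain ⟨f, hf2mem, hf1not⟩ := SetLike.exists_of_lt (lt_of_le_of_ne hle hne)
  rw [mem_riemannRochSpace_iff] at hf2mem
  have hf0 : f ≠ 0 := by
    rintro rfl
    exact hf1not (Submodule.zero_mem _)
  have hQ : ∀ Q : Place K F, Q ≠ P → 0 ≤ Q.ord f := by
    intro Q hQP
    rcases hf2mem Q with h0 | h1
    · exact absurd h0 hf0
    · rw [hD2, Finsupp.single_eq_of_ne hQP] at h1
      simpa using h1
  have hP : -(N : ℤ) ≤ P.ord f := by
    rcases hf2mem P with h0 | h1
    · exact absurd h0 hf0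
    · rw [hD2, Finsupp.single_eq_same] at h1
      exact h1
  refine ⟨f, ?_, hQ⟩
  by_contra hneq
  apply hf1not
  rw [mem_riemannRochSpace_iff]
  intro v
  right
  by_cases hvP : v = P
  · subst hvP
    rw [hD1, Finsupp.single_eq_same]
    omega
  · rw [hD1, Finsupp.single_eq_of_ne hvP]
    simpa using hQ v hvP

/-- **Spanning criterion for a curve** (`K` algebraically closed): with the weak Riemann–Roch
package as hypotheses, if `E : V →+ Pic0 K F` is onto and, for every real functional `L` killing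
`ker E`, the point classes `[Q - Q0]` have `E`-preimages on which `L` is bounded above, then
`ker E` spans `V` over `ℝ`. -/
theorem span_ker_eq_top_of_curve [IsAlgClosed K] [IsCurveOver K F]
    (hRR : ∀ D : Divisor K F,
      (Module.finrank K (riemannRochSpace D) : ℤ) - Module.finrank K (H1 D)
        = Divisor.degree D + 1 - genusFF K F)
    (hvan : ∃ c : ℤ, ∀ D : Divisor K F, c ≤ Divisor.degree D → Subsingleton (H1 D))
    {V : Type*} [AddCommGroup V] [Module ℝ V] (E : V →+ Pic0 K F) (hE : Function.Surjective E)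
    (Q0 : Place K F)
    (hbdd : ∀ L : V →ₗ[ℝ] ℝ, (∀ v, E v = 0 → L v = 0) →
      ∃ B : ℝ, ∀ Q : Place K F, ∃ v : V,
        E v = Pic0.mk (ptDiff IsCurveOver.deg_eq_one_of_isAlgClosed Q Q0) ∧ L v ≤ B) :
    Submodule.span ℝ (E.ker : Set V) = ⊤ := by
  obtain ⟨N, hN, hpole⟩ :=
    exists_uniform_pole (K := K) (F := F) IsCurveOver.deg_eq_one_of_isAlgClosed hRR hvan
  exact span_ker_eq_top IsCurveOver.deg_eq_one_of_isAlgClosed N hN hpole E hE Q0 hbdd

end Fermat.Agent.S27.helper1039
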