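import Fermat.Agent.S27.helper6247_Spec

/-!
# S27, module M4 (Lefschetz transfer): specification and assembly (architect helper5871)

`Stmt_Transfer` of `helper6247_Spec` is split into four `Prop`-valued interfaces, stated in the
SETTING of the comparison leaf L-CMP (chat #27): fields `K1 F1 K2 F2` with
`[Algebra K1 F1] [Algebra K2 F2] [Algebra K1 K2] [Algebra F1 F2] [Algebra K1 F2]` and the two
scalar towers, `K1`, `K2` algebraically closed of characteristic zero.

* `IsConstExt K1 F1 K2 F2` : `F2` is the constant field extension of `F1` (generation + linear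
  disjointness);
* `Stmt_Down`  : every `(K, F)` is a constant field extension of a countable model `(K0, F0)`
  living in `Type`, whose constant field can be chosen to contain any given countable subset;
* `Stmt_Up`    : every countable model `(K0, F0)` has a constant field extension `(ℂ, F')`,
  `F' : Type`;
* `Stmt_BC_Genus` : the genus is invariant under constant field extension;
* `Stmt_BC_Pic`   : `Pic⁰(F1) → Pic⁰(F2)` is injective and onto the torsion
  (injectivity: base change of `L(D)`; surjectivity: rigidity via derivations).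

`transfer_of` (proved here) derives `helper6247.Stmt_Transfer` from these.
-/

set_option autoImplicit false

open AlgebraicCurve IntermediateField

namespace Fermat.Agent.S27.helper5871

/-- `F2 / K2` is the constant field extension of `F1 / K1`: `F2` is generated over `K2` by the
image of `F1`, and `K2`, `F1` are linearly disjoint over `K1` inside `F2` (finite-family form:
`K1`-linearly independent families of `K2` stay `F1`-linearly independent in `F2`). -/
structure IsConstExt (K1 F1 K2 F2 : Type*) [Field K1] [Field F1] [Field K2] [Field F2]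
    [Algebra K1 F1] [Algebra K2 F2] [Algebra K1 K2] [Algebra F1 F2] [Algebra K1 F2] : Prop where
  gen : IntermediateField.adjoin K2 (Set.range (algebraMap F1 F2)) = ⊤
  ld : ∀ (m : ℕ) (c : Fin m → K2), LinearIndependent K1 c →
    LinearIndependent F1 (fun i => algebraMap K2 F2 (c i))

/-- L-DOWN. Every curve `(K, F, x)` is the constant field extension of a countable model
`(K0, F0, x0)` in universe `0`; the image of `K0` in `K` may be required to contain any given
countable subset `T` of `K` (e.g. the coordinates of finitely many places). -/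
def Stmt_Down.{u, v} : Prop :=
  ∀ (K : Type u) (F : Type v) [Field K] [Field F] [Algebra K F] [IsAlgClosed K] [CharZero K]
    (x : F), Transcendental K x → ∀ [FiniteDimensional K⟮x⟯ F] (T : Set K), T.Countable →
    ∃ (K0 F0 : Type) (_ : Field K0) (_ : Field F0) (_ : Algebra K0 F0) (_ : IsAlgClosed K0)
      (_ : CharZero K0) (_ : Countable K0) (_ : Algebra K0 K) (_ : Algebra F0 F)
      (_ : Algebra K0 F) (_ : IsScalarTower K0 K F) (_ : IsScalarTower K0 F0 F) (x0 : F0),
      algebraMap F0 F x0 = x ∧ Transcendental K0 x0 ∧ FiniteDimensional K0⟮x0⟯ F0 ∧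
      T ⊆ Set.range (algebraMap K0 K) ∧ IsConstExt K0 F0 K F

/-- L-UP. Every countable model `(K0, F0, x0)` has a constant field extension to `ℂ`, in
universe `0`. -/
def Stmt_Up : Prop :=
  ∀ (K0 F0 : Type) [Field K0] [Field F0] [Algebra K0 F0] [IsAlgClosed K0] [CharZero K0]
    [Countable K0] (x0 : F0), Transcendental K0 x0 → ∀ [FiniteDimensional K0⟮x0⟯ F0],
    ∃ (F' : Type) (_ : Field F') (_ : Algebra ℂ F') (_ : Algebra K0 ℂ) (_ : Algebra F0 F')
      (_ : Algebra K0 F') (_ : IsScalarTower K0 ℂ F') (_ : IsScalarTower K0 F0 F'),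
      Transcendental ℂ (algebraMap F0 F' x0) ∧
      FiniteDimensional ℂ⟮algebraMap F0 F' x0⟯ F' ∧ IsConstExt K0 F0 ℂ F'

/-- L-BC-GENUS. The genus is invariant under constant field extension of algebraically closed
fields of characteristic zero. -/
def Stmt_BC_Genus.{u₁, v₁, u₂, v₂} : Prop :=
  ∀ (K1 : Type u₁) (F1 : Type v₁) (K2 : Type u₂) (F2 : Type v₂) [Field K1] [Field F1]
    [Field K2] [Field F2] [Algebra K1 F1] [Algebra K2 F2] [Algebra K1 K2] [Algebra F1 F2]
    [Algebra K1 F2] [IsScalarTower K1 K2 F2] [IsScalarTower K1 F1 F2]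
    [IsAlgClosed K1] [CharZero K1] [IsAlgClosed K2] [CharZero K2]
    (x : F1), Transcendental K1 x → ∀ [FiniteDimensional K1⟮x⟯ F1],
    Transcendental K2 (algebraMap F1 F2 x) →
    ∀ [FiniteDimensional K2⟮algebraMap F1 F2 x⟯ F2], IsConstExt K1 F1 K2 F2 →
    genusFF K2 F2 = genusFF K1 F1

/-- L-BC-PIC. Under constant field extension of algebraically closed fields of characteristic
zero there is an injective homomorphism `Pic⁰(F1) → Pic⁰(F2)` whose image contains all torsion
classes. -/
def Stmt_BC_Pic.{u₁, v₁, u₂, v₂} : Prop :=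
  ∀ (K1 : Type u₁) (F1 : Type v₁) (K2 : Type u₂) (F2 : Type v₂) [Field K1] [Field F1]
    [Field K2] [Field F2] [Algebra K1 F1] [Algebra K2 F2] [Algebra K1 K2] [Algebra F1 F2]
    [Algebra K1 F2] [IsScalarTower K1 K2 F2] [IsScalarTower K1 F1 F2]
    [IsAlgClosed K1] [CharZero K1] [IsAlgClosed K2] [CharZero K2]
    (x : F1), Transcendental K1 x → ∀ [FiniteDimensional K1⟮x⟯ F1],
    Transcendental K2 (algebraMap F1 F2 x) →
    ∀ [FiniteDimensional K2⟮algebraMap F1 F2 x⟯ F2], IsConstExt K1 F1 K2 F2 →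
    ∃ φ : Pic0 K1 F1 →+ Pic0 K2 F2, Function.Injective φ ∧
      ∀ (n : ℕ), 0 < n → ∀ t : Pic0 K2 F2, t ∈ Pic0.torsion K2 F2 n → t ∈ Set.range φ

/-- An injective homomorphism whose image contains the `n`-torsion identifies the `n`-torsion
subgroups. -/
theorem natCard_torsion_eq_of_injective {K1 F1 K2 F2 : Type*} [Field K1] [Field F1] [Field K2]
    [Field F2] [Algebra K1 F1] [Algebra K2 F2] (φ : Pic0 K1 F1 →+ Pic0 K2 F2)
    (hinj : Function.Injective φ) (n : ℕ)
    (hsurj : ∀ t : Pic0 K2 F2, t ∈ Pic0.torsion K2 F2 n → t ∈ Set.range φ) :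
    Nat.card (Pic0.torsion K2 F2 n) = Nat.card (Pic0.torsion K1 F1 n) := by
  have hmem : ∀ a : Pic0 K1 F1, a ∈ Pic0.torsion K1 F1 n → φ a ∈ Pic0.torsion K2 F2 n := by
    intro a ha
    rw [Pic0.mem_torsion] at ha ⊢
    rw [← map_zsmul, ha, map_zero]
  let ψ : Pic0.torsion K1 F1 n → Pic0.torsion K2 F2 n := fun a => ⟨φ a.1, hmem a.1 a.2⟩
  have hψ : Function.Bijective ψ := by
    constructor
    · intro a b hab
      exact Subtype.ext (hinj (congrArg Subtype.val hab))
    · rintro ⟨t, ht⟩
      obtain ⟨a, rfl⟩ := hsurj t ht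
      refine ⟨⟨a, ?_⟩, rfl⟩
      rw [Pic0.mem_torsion] at ht ⊢
      apply hinj
      rw [map_zsmul, ht, map_zero]
  exact (Nat.card_congr (Equiv.ofBijective ψ hψ)).symm

/-- **Assembly of the Lefschetz transfer** (module M4 of `helper6247_Spec`). -/
theorem transfer_of.{u, v} (hD : Stmt_Down.{u, v}) (hU : Stmt_Up)
    (hG₁ : Stmt_BC_Genus.{0, 0, u, v}) (hP₁ : Stmt_BC_Pic.{0, 0, u, v})
    (hG₂ : Stmt_BC_Genus.{0, 0, 0, 0}) (hP₂ : Stmt_BC_Pic.{0, 0, 0, 0}) :
    helper6247.Stmt_Transfer.{u, v} := by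
  intro hC K F _ _ _ _ _ x hx hfin n hn
  obtain ⟨K0, F0, _, _, _, _, _, _, _, _, _, _, _, x0, hx0, htr0, hfin0, -, hce⟩ :=
    hD K F x hx ∅ Set.countable_empty
  subst hx0
  obtain ⟨F', _, _, _, _, _, _, _, htr', hfin', hce'⟩ := hU K0 F0 x0 htr0
  -- genus and torsion of `F` versus `F0`
  have hg₁ : genusFF K F = genusFF K0 F0 := hG₁ K0 F0 K F x0 htr0 hx hce
  obtain ⟨φ₁, hφ₁, hs₁⟩ := hP₁ K0 F0 K F x0 htr0 hx hce
  have hc₁ : Nat.card (Pic0.torsion K F n) = Nat.card (Pic0.torsion K0 F0 n) :=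
    natCard_torsion_eq_of_injective φ₁ hφ₁ n (hs₁ n hn)
  -- genus and torsion of `F'` versus `F0`
  have hg₂ : genusFF ℂ F' = genusFF K0 F0 := hG₂ K0 F0 ℂ F' x0 htr0 htr' hce'
  obtain ⟨φ₂, hφ₂, hs₂⟩ := hP₂ K0 F0 ℂ F' x0 htr0 htr' hce'
  have hc₂ : Nat.card (Pic0.torsion ℂ F' n) = Nat.card (Pic0.torsion K0 F0 n) :=
    natCard_torsion_eq_of_injective φ₂ hφ₂ n (hs₂ n hn)
  -- the complex case
  have h := hC F' (algebraMap F0 F' x0) htr' n hn
  rw [hc₁, ← hc₂, h, hg₂, hg₁]

end Fermat.Agent.S27.helper5871
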