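import Mathlib

/-!
# S27-A0b: plane model of a function field of one variable

For a field extension `F / K` (char 0), `t : F` transcendental over `K` with `F` finite over
`K(t)`, we produce `y : F` and a bivariate polynomial `p : K[X][Y]` (inner variable `X ↦ t`,
outer variable `Y ↦ y`), monic in `Y` and irreducible, with `p(t,y) = 0`, `K(t,y) = F`,
`p ∣ P` whenever `P(t,y) = 0`, `deg_Y p = [F : K(t)]`, a Bezout identity
`u * p + v * p_Y = d(X)` with `d ≠ 0`, and a finite bad set off which the fibre
polynomial `p(a, Y)` is separable (every point over `a` is a simple point).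

Evaluation convention: `P(t,y) := Polynomial.aevalAeval t y P`
(`= Polynomial.eval₂ (Polynomial.aeval t) y P`, see `aevalAeval_eq_eval₂`).

Main statements:
* `IsPlaneModel K t y p` (a `Prop`-valued structure: `monic`, `irreducible`, `root`, `gen`, `ker`)
* `exists_planeModel` : existence, with `p.natDegree = Module.finrank K⟮t⟯ F`
* `IsPlaneModel.irreducible_map_ratFunc`, `IsPlaneModel.exists_bezout`,
  `IsPlaneModel.exists_finset_bad`, `IsPlaneModel.natDegree_pos`,
  `IsPlaneModel.aevalAeval_eq_zero_iff`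
-/

set_option autoImplicit false

noncomputable section

open Polynomial IntermediateField

namespace Fermat.Agent.S27.helper7706

variable {K F : Type*} [Field K] [Field F] [Algebra K F]

structure IsPlaneModel (K : Type*) {F : Type*} [Field K] [Field F] [Algebra K F]
    (t y : F) (p : K[X][X]) : Prop where
  monic : p.Monic
  irreducible : Irreducible p
  root : Polynomial.aevalAeval t y p = 0
  gen : IntermediateField.adjoin K {t, y} = ⊤
  ker : ∀ P : K[X][X], Polynomial.aevalAeval t y P = 0 → p ∣ P

theorem aevalAeval_eq_eval₂ (t y : F) (P : K[X][X]) :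
    Polynomial.aevalAeval t y P =
      Polynomial.eval₂ ((Polynomial.aeval t : K[X] →ₐ[K] F) : K[X] →+* F) y P := by
  induction P using Polynomial.induction_on' with
  | add p q hp hq => rw [map_add, hp, hq, eval₂_add]
  | monomial n a =>
    rw [← C_mul_X_pow_eq_monomial, map_mul, map_pow, aevalAeval_C, aevalAeval_Y, eval₂_mul,
      eval₂_C, eval₂_pow, eval₂_X]
    rfl

theorem coe_aeval_gen (t : F) (q : K[X]) :
    ((Polynomial.aeval (AdjoinSimple.gen K t) q : K⟮t⟯) : F) = Polynomial.aeval t q := by
  have := (Polynomial.aeval_algebraMap_apply F (AdjoinSimple.gen K t) q).symm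
  rwa [AdjoinSimple.algebraMap_gen] at this

theorem isFractionRing_adjoin_simple (t : F) (ht : Transcendental K t) :
    letI : Algebra K[X] K⟮t⟯ := (Polynomial.aeval (AdjoinSimple.gen K t)).toAlgebra
    IsFractionRing K[X] K⟮t⟯ := by
  let _ : Algebra K[X] K⟮t⟯ := (Polynomial.aeval (AdjoinSimple.gen K t)).toAlgebra
  have hmap : ∀ q : K[X], ((algebraMap K[X] K⟮t⟯ q : K⟮t⟯) : F) = Polynomial.aeval t q :=
    fun q => coe_aeval_gen t q
  have hinj : Function.Injective (algebraMap K[X] K⟮t⟯) := by
    intro a b hab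
    have := congrArg (fun z : K⟮t⟯ => (z : F)) hab
    simp only [hmap] at this
    exact (transcendental_iff_injective.mp ht) this
  have : FaithfulSMul K[X] K⟮t⟯ := (faithfulSMul_iff_algebraMap_injective _ _).mpr hinj
  refine IsFractionRing.of_field _ _ ?_
  rintro ⟨z, hz⟩
  obtain ⟨r, s, h⟩ := (mem_adjoin_simple_iff K z).mp hz
  refine ⟨r, s, Subtype.ext ?_⟩
  simp [hmap, h]

theorem exists_planeModel [CharZero K] (t : F) (ht : Transcendental K t)
    [Module.Finite K⟮t⟯ F] :
    ∃ (y : F) (p : K[X][X]), IsPlaneModel K t y p ∧ p.natDegree = Module.finrank K⟮t⟯ F := by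
  obtain ⟨y₀, hy₀⟩ := Field.exists_primitive_element K⟮t⟯ F
  let algF : Algebra K[X] F := (Polynomial.aeval t).toAlgebra
  let algL : Algebra K[X] K⟮t⟯ := (Polynomial.aeval (AdjoinSimple.gen K t)).toAlgebra
  have tower : IsScalarTower K[X] K⟮t⟯ F := IsScalarTower.of_algebraMap_eq fun q => by
    show Polynomial.aeval t q = ((Polynomial.aeval (AdjoinSimple.gen K t) q : K⟮t⟯) : F)
    rw [coe_aeval_gen]
  have hfrac : IsFractionRing K[X] K⟮t⟯ := isFractionRing_adjoin_simple t ht
  have hinjF : Function.Injective (algebraMap K[X] F) := transcendental_iff_injective.mp ht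
  have htf : Module.IsTorsionFree K[X] F := Module.isTorsionFree_iff_algebraMap_injective.mpr hinjF
  have halg₀ : IsAlgebraic K[X] y₀ :=
    (IsFractionRing.isAlgebraic_iff K[X] K⟮t⟯ F).mpr (IsIntegral.of_finite K⟮t⟯ y₀).isAlgebraic
  obtain ⟨d, hd0, hint⟩ := halg₀.exists_integral_multiple
  have hdF : Polynomial.aeval t d ≠ 0 := fun h => hd0 (hinjF (by rw [map_zero]; exact h))
  have hy : d • y₀ = Polynomial.aeval t d * y₀ := Algebra.smul_def d y₀
  rw [hy] at hint
  set y : F := Polynomial.aeval t d * y₀ with hydef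
  have hgen1 : K⟮t⟯⟮y⟯ = ⊤ := by
    rw [eq_top_iff, ← hy₀]
    apply adjoin_simple_le_iff.mpr
    have hd_mem : Polynomial.aeval t d ∈ K⟮t⟯⟮y⟯ := by
      have h := IntermediateField.algebraMap_mem (K⟮t⟯⟮y⟯) (Polynomial.aeval (AdjoinSimple.gen K t) d)
      have h' : algebraMap K⟮t⟯ F (Polynomial.aeval (AdjoinSimple.gen K t) d)
          = Polynomial.aeval t d := coe_aeval_gen t d
      rwa [h'] at h
    have hy_mem : y ∈ K⟮t⟯⟮y⟯ := mem_adjoin_simple_self _ y
    have : y₀ = (Polynomial.aeval t d)⁻¹ * y := by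
      rw [hydef, ← mul_assoc, inv_mul_cancel₀ hdF, one_mul]
    rw [this]
    exact mul_mem (inv_mem hd_mem) hy_mem
  have hroot : ∀ P : K[X][X], Polynomial.aevalAeval t y P = Polynomial.aeval y P := fun P => by
    rw [aevalAeval_eq_eval₂]; rfl
  refine ⟨y, minpoly K[X] y, ⟨minpoly.monic hint,
    (minpoly.prime_of_isIntegrallyClosed hint).irreducible, ?_, ?_, ?_⟩, ?_⟩
  · rw [hroot]; exact minpoly.aeval _ _
  · have h := adjoin_adjoin_left K ({t} : Set F) ({y} : Set F)
    rw [hgen1] at h
    have h2 : ({t} ∪ {y} : Set F) = {t, y} := by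
      ext z; simp [or_comm]
    rw [h2] at h
    rw [← h]
    rfl
  · intro P hP
    rw [hroot] at hP
    exact minpoly.isIntegrallyClosed_dvd hint hP
  · have h1 : minpoly K⟮t⟯ y = (minpoly K[X] y).map (algebraMap K[X] K⟮t⟯) :=
      minpoly.isIntegrallyClosed_eq_field_fractions' K⟮t⟯ hint
    have h2 : Module.finrank K⟮t⟯ K⟮t⟯⟮y⟯ = (minpoly K⟮t⟯ y).natDegree :=
      adjoin.finrank (IsIntegral.of_finite K⟮t⟯ y)
    rw [hgen1, finrank_top', h1, (minpoly.monic hint).natDegree_map] at h2
    exact h2.symm


namespace IsPlaneModel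

variable {t y : F} {p : K[X][X]}

theorem aevalAeval_eq_zero_iff (h : IsPlaneModel K t y p) (P : K[X][X]) :
    Polynomial.aevalAeval t y P = 0 ↔ p ∣ P := by
  refine ⟨h.ker P, ?_⟩
  rintro ⟨Q, rfl⟩
  rw [map_mul, h.root, zero_mul]

theorem natDegree_pos (h : IsPlaneModel K t y p) : 0 < p.natDegree := by
  rcases Nat.eq_zero_or_pos p.natDegree with h0 | h0
  · exact absurd (h.monic.natDegree_eq_zero.mp h0) h.irreducible.ne_one
  · exact h0

theorem irreducible_map_ratFunc (h : IsPlaneModel K t y p) :
    Irreducible (p.map (algebraMap K[X] (RatFunc K))) :=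
  (h.monic.irreducible_iff_irreducible_map_fraction_map (K := RatFunc K)).mp h.irreducible

theorem exists_bezout [CharZero K] (h : IsPlaneModel K t y p) :
    ∃ (u v : K[X][X]) (d : K[X]), d ≠ 0 ∧ u * p + v * derivative p = C d := by
  have hq : Irreducible (p.map (algebraMap K[X] (RatFunc K))) := h.irreducible_map_ratFunc
  have hsep : (p.map (algebraMap K[X] (RatFunc K))).Separable := hq.separable
  obtain ⟨a, b, hab⟩ := hsep
  obtain ⟨da, hda, ha⟩ := IsLocalization.integerNormalization_spec (nonZeroDivisors K[X]) a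
  obtain ⟨db, hdb, hb⟩ := IsLocalization.integerNormalization_spec (nonZeroDivisors K[X]) b
  refine ⟨C db * IsLocalization.integerNormalization (nonZeroDivisors K[X]) a,
    C da * IsLocalization.integerNormalization (nonZeroDivisors K[X]) b, da * db,
    mul_ne_zero (nonZeroDivisors.ne_zero hda) (nonZeroDivisors.ne_zero hdb), ?_⟩
  apply Polynomial.map_injective (algebraMap K[X] (RatFunc K))
    (IsFractionRing.injective K[X] (RatFunc K))
  have ha' : da • a = C (algebraMap K[X] (RatFunc K) da) * a := by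
    rw [← algebraMap_smul (RatFunc K) da a, smul_eq_C_mul]
  have hb' : db • b = C (algebraMap K[X] (RatFunc K) db) * b := by
    rw [← algebraMap_smul (RatFunc K) db b, smul_eq_C_mul]
  simp only [Polynomial.map_add, Polynomial.map_mul, Polynomial.map_C, ← derivative_map, ha, hb,
    ha', hb', map_mul]
  linear_combination (C (algebraMap K[X] (RatFunc K) da) * C (algebraMap K[X] (RatFunc K) db)) * hab

theorem exists_finset_bad [CharZero K] (h : IsPlaneModel K t y p) :
    ∃ S : Finset K, ∀ a ∉ S, (p.map (evalRingHom a)).Separable ∧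
      ∀ b : K, p.evalEval a b = 0 → (derivative p).evalEval a b ≠ 0 := by
  classical
  obtain ⟨u, v, d, hd0, hbez⟩ := h.exists_bezout
  refine ⟨d.roots.toFinset, fun a ha => ?_⟩
  have hda : d.eval a ≠ 0 := by
    intro h0
    exact ha (Multiset.mem_toFinset.mpr ((mem_roots hd0).mpr h0))
  constructor
  · rw [separable_def]
    have := congrArg (Polynomial.map (evalRingHom a)) hbez
    simp only [Polynomial.map_add, Polynomial.map_mul, Polynomial.map_C, ← derivative_map,
      coe_evalRingHom] at this
    refine ⟨C (d.eval a)⁻¹ * u.map (evalRingHom a), C (d.eval a)⁻¹ * v.map (evalRingHom a), ?_⟩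
    have hC : C (d.eval a)⁻¹ * C (d.eval a) = (1 : K[X]) := by
      rw [← C_mul, inv_mul_cancel₀ hda, C_1]
    linear_combination (C (d.eval a)⁻¹) * this + hC
  · intro b hb hb'
    have := congrArg (Polynomial.evalEval a b) hbez
    rw [evalEval_add, evalEval_mul, evalEval_mul, hb, hb', mul_zero, mul_zero, add_zero,
      evalEval_C] at this
    exact hda this.symm

theorem monic_map_evalRingHom (h : IsPlaneModel K t y p) (a : K) :
    (p.map (evalRingHom a)).Monic := h.monic.map _

theorem natDegree_map_evalRingHom (h : IsPlaneModel K t y p) (a : K) :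
    (p.map (evalRingHom a)).natDegree = p.natDegree := h.monic.natDegree_map _

end IsPlaneModel

theorem exists_planeModel' [CharZero K]
    (h : ∃ t : F, Transcendental K t ∧ Module.Finite K⟮t⟯ F) :
    ∃ (t y : F) (p : K[X][X]), Transcendental K t ∧ Module.Finite K⟮t⟯ F ∧
      IsPlaneModel K t y p ∧ p.natDegree = Module.finrank K⟮t⟯ F := by
  obtain ⟨t, ht, hfin⟩ := h
  obtain ⟨y, p, hp, hdeg⟩ := exists_planeModel t ht
  exact ⟨t, y, p, ht, hfin, hp, hdeg⟩

end Fermat.Agent.S27.helper7706
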