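import Fermat.Agent.S27.helper6247_Spec
import Fermat.Agent.S27.helper7706_PlaneModel

/-!
# S27-M1a: `Stmt_SimplePoint` of `helper6247_Spec`, verbatim and unconditional

A simple point `(τ, β)` of a plane model `χ(u, y) = 0` of `F` carries exactly one place `P`;
`u - τ` is a uniformizer at `P`, and the valuation ring of `P` is the local ring of the plane
curve at the point.

Design (elementary; no Krull intersection theorem, no localisation API):
`O := {f | ∃ N M, M(τ,β) ≠ 0 ∧ f * M(u,y) = N(u,y)}`; first order Taylor expansion at `(τ,β)`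
shows `y - β ∈ (u - τ) O` and the dichotomy "unit of `O` or multiple of `u - τ`"; algebraicity
over `K[u]` bounds the number of divisions by `u - τ`.
-/

set_option autoImplicit false

open AlgebraicCurve IntermediateField Polynomial
open scoped Polynomial.Bivariate

namespace Fermat.Agent.S27.helper7706

noncomputable section

/-! ## First order Taylor expansion in `K[X][Y]` -/

section Taylor

variable {K : Type*} [Field K]

theorem exists_taylor (G : K[X][Y]) (τ β : K) :
    ∃ A B : K[X][Y], G = C (C (G.evalEval τ β)) + C (X - C τ) * A + (X - C (C β)) * B ∧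
      B.evalEval τ β = (derivative G).evalEval τ β := by
  obtain ⟨B, hB⟩ := X_sub_C_dvd_sub_C_eval (a := (C β : K[X])) (p := G)
  obtain ⟨A₀, hA₀⟩ := X_sub_C_dvd_sub_C_eval (a := τ) (p := G.eval (C β))
  refine ⟨C A₀, B, ?_, ?_⟩
  · have h1 : G = C (G.eval (C β)) + (X - C (C β)) * B := by rw [← hB]; ring
    have h2 : G.eval (C β) = C ((G.eval (C β)).eval τ) + (X - C τ) * A₀ := by rw [← hA₀]; ring
    have h3 : G.evalEval τ β = (G.eval (C β)).eval τ := rfl
    rw [h3, ← C_mul, ← C_add, ← h2]
    exact h1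
  · have h1 : G = C (G.eval (C β)) + (X - C (C β)) * B := by rw [← hB]; ring
    have h2 : derivative G = B + (X - C (C β)) * derivative B := by
      conv_lhs => rw [h1]
      simp [derivative_mul]
    rw [h2]
    simp [evalEval]

variable {F : Type*} [Field F] [Algebra K F]

theorem aevalAeval_taylor (u y : F) (G : K[X][Y]) (τ β : K) :
    ∃ A B : K[X][Y], aevalAeval u y G = algebraMap K F (G.evalEval τ β)
        + (u - algebraMap K F τ) * aevalAeval u y A + (y - algebraMap K F β) * aevalAeval u y B ∧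
      B.evalEval τ β = (derivative G).evalEval τ β := by
  obtain ⟨A, B, hG, hB⟩ := exists_taylor G τ β
  refine ⟨A, B, ?_, hB⟩
  conv_lhs => rw [hG]
  simp only [map_add, map_mul, map_sub, aevalAeval_C, aevalAeval_Y, aeval_C, aeval_X]

end Taylor

/-! ## General facts about places -/

section PlaceBasics

open WithZero

variable {K : Type*} {F : Type*} [Field K] [Field F] [Algebra K F]

theorem ord_nonneg_of_mem (v : Place K F) {f : F} (hf : f ∈ v.toValuationSubring) :
    0 ≤ v.ord f := by
  rcases v.adicValuation_le_one_iff.mp (v.adicValuation_le_one_of_mem hf) with rfl | h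
  · simp
  · exact h

theorem mem_of_ord_nonneg (v : Place K F) {f : F} (hf : 0 ≤ v.ord f) :
    f ∈ v.toValuationSubring := by
  rcases eq_or_ne f 0 with rfl | hf0
  · exact zero_mem _
  obtain ⟨π, hπ⟩ := IsDiscreteValuationRing.exists_irreducible v.toValuationSubring
  obtain ⟨w, hw⟩ := v.exists_unit_mul_zpow hf0 hπ
  rw [hw]
  obtain ⟨n, hn⟩ := Int.eq_ofNat_of_zero_le hf
  rw [hn, zpow_natCast]
  exact mul_mem (w : v.toValuationSubring).2 (pow_mem π.2 n)

theorem mem_of_adicValuation_le_one (v : Place K F) {f : F} (hf : v.adicValuation f ≤ 1) :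
    f ∈ v.toValuationSubring := by
  rcases v.adicValuation_le_one_iff.mp hf with rfl | h
  · exact zero_mem _
  · exact mem_of_ord_nonneg v h

theorem adicValuation_lt_one_of_ord_pos (v : Place K F) {f : F} (hf : 0 < v.ord f) :
    v.adicValuation f < 1 := by
  have hf0 : f ≠ 0 := by
    rintro rfl
    simp at hf
  rw [v.adicValuation_eq_exp_neg_ord hf0, ← exp_zero, exp_lt_exp]
  omega

theorem adicValuation_algebraMap_eq_one (v : Place K F) {c : K} (hc : c ≠ 0) :
    v.adicValuation (algebraMap K F c) = 1 := by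
  apply le_antisymm (v.adicValuation_algebraMap_le_one c)
  have h1 := v.adicValuation_algebraMap_le_one c⁻¹
  have h2 : v.adicValuation (algebraMap K F c) * v.adicValuation (algebraMap K F c⁻¹) = 1 := by
    rw [← map_mul, ← map_mul, mul_inv_cancel₀ hc, map_one, map_one]
  rw [← h2]
  exact mul_le_of_le_one_right' h1

/-- `ev P f = c` as soon as `f - c` lies in the maximal ideal of `P`. -/
theorem ev_eq_of_adicValuation_lt (P : Place K F) {f : F} {c : K}
    (h : P.adicValuation (f - algebraMap K F c) < 1) : helper6247.ev P f = c := by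
  have hex : ∃ c : K, P.adicValuation (f - algebraMap K F c) < 1 := ⟨c, h⟩
  unfold helper6247.ev
  rw [dif_pos hex]
  by_contra hne
  have h1 := hex.choose_spec
  have h2 : P.adicValuation (algebraMap K F (hex.choose - c)) < 1 := by
    have : algebraMap K F (hex.choose - c)
        = (f - algebraMap K F c) - (f - algebraMap K F hex.choose) := by
      rw [map_sub]; ring
    rw [this]
    exact lt_of_le_of_lt (Valuation.map_sub _ _ _) (max_lt h h1)
  rw [adicValuation_algebraMap_eq_one P (sub_ne_zero.mpr hne)] at h2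
  exact lt_irrefl _ h2

/-- If `f` has a value at `P`, then `f - ev P f` lies in the maximal ideal. -/
theorem adicValuation_sub_ev_lt (P : Place K F) {f : F}
    (hex : ∃ c : K, P.adicValuation (f - algebraMap K F c) < 1) :
    P.adicValuation (f - algebraMap K F (helper6247.ev P f)) < 1 := by
  obtain ⟨c, hc⟩ := hex
  rw [ev_eq_of_adicValuation_lt P hc]
  exact hc

theorem aevalAeval_mem (A : ValuationSubring F) (hK : ∀ c : K, algebraMap K F c ∈ A) {u y : F}
    (hu : u ∈ A) (hy : y ∈ A) (G : K[X][Y]) : aevalAeval u y G ∈ A := by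
  rw [aevalAeval_eq_eval₂, eval₂_eq_sum_range]
  refine sum_mem fun i _ => mul_mem ?_ (pow_mem hy i)
  show aeval u (G.coeff i) ∈ A
  rw [aeval_eq_sum_range]
  refine sum_mem fun j _ => ?_
  rw [Algebra.smul_def]
  exact mul_mem (hK _) (pow_mem hu j)

theorem aevalAeval_map_C (u y : F) (q : K[X]) :
    aevalAeval u y (q.map C : K[X][Y]) = aeval y q := by
  rw [aevalAeval_eq_eval₂, eval₂_map, aeval_def]
  congr 1
  ext c
  simp

/-- Over an algebraically closed constant field, an element of the valuation ring which is a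
root modulo the maximal ideal of a nonzero polynomial has a value in `K`. -/
theorem exists_value_of_aeval_lt [IsAlgClosed K] (v : Place K F) {y : F}
    (hy : v.adicValuation y ≤ 1) :
    ∀ (n : ℕ) (q : K[X]), q.natDegree = n → q ≠ 0 → v.adicValuation (aeval y q) < 1 →
      ∃ c : K, v.adicValuation (y - algebraMap K F c) < 1 := by
  intro n
  induction n with
  | zero =>
    intro q hq hq0 hlt
    exfalso
    obtain ⟨c, rfl⟩ := natDegree_eq_zero.mp hq
    have hc : c ≠ 0 := by
      rintro rfl
      exact hq0 (by simp)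
    rw [aeval_C, adicValuation_algebraMap_eq_one v hc] at hlt
    exact lt_irrefl _ hlt
  | succ n ih =>
    intro q hq hq0 hlt
    have hdeg : q.degree ≠ 0 := by
      rw [degree_eq_natDegree hq0, hq]
      exact_mod_cast Nat.succ_ne_zero n
    obtain ⟨b, hb⟩ := IsAlgClosed.exists_root q hdeg
    have hfac := mul_divByMonic_eq_iff_isRoot.mpr hb
    by_cases hyb : v.adicValuation (y - algebraMap K F b) < 1
    · exact ⟨b, hyb⟩
    · have hle : v.adicValuation (y - algebraMap K F b) ≤ 1 :=
        (Valuation.map_sub _ _ _).trans (max_le hy (v.adicValuation_algebraMap_le_one b))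
      have h1 : v.adicValuation (y - algebraMap K F b) = 1 := le_antisymm hle (not_lt.mp hyb)
      have hq₁0 : q /ₘ (X - C b) ≠ 0 := by
        intro h0
        rw [h0, mul_zero] at hfac
        exact hq0 hfac.symm
      have hq₁deg : (q /ₘ (X - C b)).natDegree = n := by
        have := congrArg natDegree hfac
        rw [natDegree_mul (X_sub_C_ne_zero b) hq₁0, natDegree_X_sub_C, hq] at this
        omega
      apply ih _ hq₁deg hq₁0
      have : aeval y q = (y - algebraMap K F b) * aeval y (q /ₘ (X - C b)) := by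
        conv_lhs => rw [← hfac]
        simp
      rw [this, map_mul, h1, one_mul] at hlt
      exact hlt

end PlaceBasics

/-! ## The local ring at a simple point -/

section LocalRing

variable {K : Type*} {F : Type*} [Field K] [Field F] [Algebra K F]

/-- `f` is a quotient `N(u,y)/M(u,y)` with `M(τ,β) ≠ 0`. -/
def InO (u y : F) (τ β : K) (f : F) : Prop :=
  ∃ N M : K[X][Y], M.evalEval τ β ≠ 0 ∧ f * aevalAeval u y M = aevalAeval u y N

/-- The hypotheses of `Stmt_SimplePoint` on `(u, y, χ, τ, β)`. -/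
structure SimplePt (u y : F) (χ : K[X][Y]) (τ β : K) : Prop where
  tr : Transcendental K u
  gen : IntermediateField.adjoin K {u, y} = ⊤
  rel : aevalAeval u y χ = 0
  ker : ∀ G : K[X][Y], aevalAeval u y G = 0 → χ ∣ G
  pt : χ.evalEval τ β = 0
  der : (derivative χ).evalEval τ β ≠ 0

namespace SimplePt

variable {u y : F} {χ : K[X][Y]} {τ β : K}

theorem aeval_ne_zero (h : SimplePt u y χ τ β) {M : K[X][Y]} (hM : M.evalEval τ β ≠ 0) :
    aevalAeval u y M ≠ 0 := by
  intro h0
  obtain ⟨Q, rfl⟩ := h.ker M h0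
  rw [evalEval_mul, h.pt, zero_mul] at hM
  exact hM rfl

theorem inO_poly (u y : F) (τ β : K) (G : K[X][Y]) : InO u y τ β (aevalAeval u y G) :=
  ⟨G, 1, by simp, by simp⟩

theorem inO_zero (u y : F) (τ β : K) : InO u y τ β (0 : F) := by
  simpa using inO_poly u y τ β (0 : K[X][Y])

theorem inO_one (u y : F) (τ β : K) : InO u y τ β (1 : F) := by
  simpa using inO_poly u y τ β (1 : K[X][Y])

theorem inO_algebraMap (u y : F) (τ β : K) (c : K) : InO u y τ β (algebraMap K F c) := by
  have := inO_poly u y τ β (C (C c) : K[X][Y])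
  simpa using this

theorem inO_add {f g : F} (hf : InO u y τ β f) (hg : InO u y τ β g) : InO u y τ β (f + g) := by
  obtain ⟨N, M, hM, hfM⟩ := hf
  obtain ⟨N', M', hM', hgM⟩ := hg
  refine ⟨N * M' + N' * M, M * M', ?_, ?_⟩
  · rw [evalEval_mul]; exact mul_ne_zero hM hM'
  · simp only [map_add, map_mul]
    rw [← hfM, ← hgM]; ring

theorem inO_mul {f g : F} (hf : InO u y τ β f) (hg : InO u y τ β g) : InO u y τ β (f * g) := by
  obtain ⟨N, M, hM, hfM⟩ := hf
  obtain ⟨N', M', hM', hgM⟩ := hg
  refine ⟨N * N', M * M', ?_, ?_⟩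
  · rw [evalEval_mul]; exact mul_ne_zero hM hM'
  · simp only [map_mul]
    rw [← hfM, ← hgM]; ring

theorem inO_neg {f : F} (hf : InO u y τ β f) : InO u y τ β (-f) := by
  have := inO_mul (inO_algebraMap u y τ β (-1)) hf
  simpa using this

theorem inO_pow {f : F} (hf : InO u y τ β f) (n : ℕ) : InO u y τ β (f ^ n) := by
  induction n with
  | zero => simpa using inO_one u y τ β
  | succ n ih => rw [pow_succ]; exact inO_mul ih hf

theorem inO_pi (u y : F) (τ β : K) : InO u y τ β (u - algebraMap K F τ) := by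
  have := inO_poly u y τ β (C (X - C τ) : K[X][Y])
  simpa using this

theorem inO_inv_poly (h : SimplePt u y χ τ β) {M : K[X][Y]} (hM : M.evalEval τ β ≠ 0) :
    InO u y τ β (aevalAeval u y M)⁻¹ :=
  ⟨1, M, hM, by rw [inv_mul_cancel₀ (h.aeval_ne_zero hM)]; simp⟩

theorem pi_ne_zero (h : SimplePt u y χ τ β) : u - algebraMap K F τ ≠ 0 := by
  intro h0
  apply h.tr
  rw [sub_eq_zero.mp h0]
  exact isAlgebraic_algebraMap τ

/-- `(u - τ)⁻¹` is not in the local ring. -/
theorem not_inO_pi_inv (h : SimplePt u y χ τ β) : ¬ InO u y τ β (u - algebraMap K F τ)⁻¹ := by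
  rintro ⟨N, M, hM, hNM⟩
  have h1 : aevalAeval u y (M - C (X - C τ) * N) = 0 := by
    simp only [map_sub, map_mul, aevalAeval_C, aeval_C, aeval_X]
    rw [← hNM, ← mul_assoc, mul_inv_cancel₀ h.pi_ne_zero, one_mul, sub_self]
  obtain ⟨Q, hQ⟩ := h.ker _ h1
  have h2 := congrArg (evalEval τ β) hQ
  rw [evalEval_sub, evalEval_mul, evalEval_mul, h.pt, zero_mul, evalEval_C] at h2
  simp at h2
  exact hM h2

/-- `y - β` is a multiple of `u - τ` in the local ring. -/
theorem exists_rho (h : SimplePt u y χ τ β) :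
    ∃ ρ : F, InO u y τ β ρ ∧ y - algebraMap K F β = (u - algebraMap K F τ) * ρ := by
  obtain ⟨A, B, hAB, hB⟩ := aevalAeval_taylor u y χ τ β
  rw [h.rel, h.pt, map_zero, zero_add] at hAB
  have hB' : B.evalEval τ β ≠ 0 := by rw [hB]; exact h.der
  have hBu := h.aeval_ne_zero hB'
  refine ⟨-(aevalAeval u y A) * (aevalAeval u y B)⁻¹,
    inO_mul (inO_neg (inO_poly u y τ β A)) (h.inO_inv_poly hB'), ?_⟩
  field_simp
  linear_combination -hAB

/-- Every polynomial expression is its value at the point plus a multiple of `u - τ`. -/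
theorem exists_value_add (h : SimplePt u y χ τ β) (G : K[X][Y]) :
    ∃ g : F, InO u y τ β g ∧
      aevalAeval u y G = algebraMap K F (G.evalEval τ β) + (u - algebraMap K F τ) * g := by
  obtain ⟨A, B, hAB, -⟩ := aevalAeval_taylor u y G τ β
  obtain ⟨ρ, hρ, hyρ⟩ := h.exists_rho
  refine ⟨aevalAeval u y A + ρ * aevalAeval u y B,
    inO_add (inO_poly u y τ β A) (inO_mul hρ (inO_poly u y τ β B)), ?_⟩
  rw [hAB, hyρ]; ring

/-- Dichotomy: an element of the local ring is a unit or a multiple of `u - τ`. -/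
theorem unit_or_dvd (h : SimplePt u y χ τ β) {f : F} (hf : InO u y τ β f) :
    (f ≠ 0 ∧ InO u y τ β f⁻¹) ∨ ∃ f₁ : F, InO u y τ β f₁ ∧ f = (u - algebraMap K F τ) * f₁ := by
  obtain ⟨N, M, hM, hfM⟩ := hf
  have hMu := h.aeval_ne_zero hM
  by_cases hN : N.evalEval τ β = 0
  · right
    obtain ⟨g, hg, hNg⟩ := h.exists_value_add N
    rw [hN, map_zero, zero_add] at hNg
    refine ⟨g * (aevalAeval u y M)⁻¹, inO_mul hg (h.inO_inv_poly hM), ?_⟩
    rw [← mul_assoc, ← hNg, ← hfM, mul_assoc, mul_inv_cancel₀ hMu, mul_one]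
  · left
    have hNu := h.aeval_ne_zero hN
    have hf0 : f ≠ 0 := by
      rintro rfl
      rw [zero_mul] at hfM
      exact hNu hfM.symm
    refine ⟨hf0, M, N, hN, ?_⟩
    rw [← hfM]
    field_simp

/-- Algebraicity over `K[u]`: a nonzero polynomial expression divides a nonzero element of
`K[u]` inside `K[u, y]`. -/
theorem exists_mul_eq_aeval (h : SimplePt u y χ τ β) (G : K[X][Y])
    (hG : aevalAeval u y G ≠ 0) :
    ∃ (H : K[X][Y]) (d : K[X]), d ≠ 0 ∧ aevalAeval u y G * aevalAeval u y H = aeval u d := by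
  let _ : Algebra K[X] F := (aeval u).toAlgebra
  have hχ0 : χ ≠ 0 := by
    rintro rfl
    exact h.der (by simp)
  have hev : ∀ P : K[X][Y], aevalAeval u y P = aeval y P := fun P => by
    rw [aevalAeval_eq_eval₂]; rfl
  have hy : IsAlgebraic K[X] y := ⟨χ, hχ0, by rw [← hev]; exact h.rel⟩
  have hr : IsAlgebraic K[X] (aeval y G) := by
    have h1 : Algebra.adjoin K[X] {y} ≤ Subalgebra.algebraicClosure K[X] F :=
      Algebra.adjoin_le (Set.singleton_subset_iff.mpr hy)
    exact h1 (aeval_mem_adjoin_singleton _ _)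
  obtain ⟨t, ht, d, hd, htd⟩ :=
    hr.exists_nonzero_eq_adjoin_mul (mem_nonZeroDivisors_of_ne_zero (by rwa [← hev]))
  rw [Algebra.adjoin_singleton_eq_range_aeval] at ht
  obtain ⟨p, rfl⟩ := ht
  refine ⟨p.comp G, d, hd, ?_⟩
  rw [hev, hev, aeval_comp]
  exact htd

theorem exists_pow_mul_unit_aux (h : SimplePt u y χ τ β) :
    ∀ (e : ℕ) (r t c : F), InO u y τ β r → InO u y τ β t → c ≠ 0 → InO u y τ β c⁻¹ →
      r * t = (u - algebraMap K F τ) ^ e * c →
      ∃ (k : ℕ) (w : F), w ≠ 0 ∧ InO u y τ β w ∧ InO u y τ β w⁻¹ ∧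
        r = (u - algebraMap K F τ) ^ k * w := by
  intro e
  induction e with
  | zero =>
    intro r t c hr ht hc hci hrt
    rw [pow_zero, one_mul] at hrt
    have hr0 : r ≠ 0 := by
      rintro rfl
      rw [zero_mul] at hrt
      exact hc hrt.symm
    have ht0 : t ≠ 0 := by
      rintro rfl
      rw [mul_zero] at hrt
      exact hc hrt.symm
    refine ⟨0, r, hr0, hr, ?_, by simp⟩
    have : r⁻¹ = t * c⁻¹ := by
      rw [← hrt]
      field_simp
    rw [this]
    exact inO_mul ht hci
  | succ e ih =>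
    intro r t c hr ht hc hci hrt
    rcases h.unit_or_dvd hr with ⟨hr0, hri⟩ | ⟨r₁, hr₁, hrr₁⟩
    · exact ⟨0, r, hr0, hr, hri, by simp⟩
    · have hπ := h.pi_ne_zero
      have h1 : r₁ * t = (u - algebraMap K F τ) ^ e * c := by
        apply mul_left_cancel₀ hπ
        rw [← mul_assoc, ← hrr₁, hrt, pow_succ]
        ring
      obtain ⟨k, w, hw0, hw, hwi, hr₁w⟩ := ih r₁ t c hr₁ ht hc hci h1
      refine ⟨k + 1, w, hw0, hw, hwi, ?_⟩
      rw [hrr₁, hr₁w, pow_succ]
      ring

/-- Every nonzero element of the local ring is a unit times a power of `u - τ`. -/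
theorem exists_pow_mul_unit (h : SimplePt u y χ τ β) {f : F} (hf : InO u y τ β f)
    (hf0 : f ≠ 0) :
    ∃ (k : ℕ) (w : F), w ≠ 0 ∧ InO u y τ β w ∧ InO u y τ β w⁻¹ ∧
      f = (u - algebraMap K F τ) ^ k * w := by
  obtain ⟨N, M, hM, hfM⟩ := hf
  have hMu := h.aeval_ne_zero hM
  have hNu : aevalAeval u y N ≠ 0 := by
    rw [← hfM]
    exact mul_ne_zero hf0 hMu
  obtain ⟨H, d, hd, hHd⟩ := h.exists_mul_eq_aeval N hNu
  obtain ⟨d₁, hd₁, hnd⟩ := exists_eq_pow_rootMultiplicity_mul_and_not_dvd d hd τ
  have hd₁τ : d₁.eval τ ≠ 0 := fun h0 => hnd (dvd_iff_isRoot.mpr h0)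
  have hc : (C d₁ : K[X][Y]).evalEval τ β ≠ 0 := by rwa [evalEval_C]
  have hcu : aevalAeval u y (C d₁ : K[X][Y]) = aeval u d₁ := by simp
  have hrt : aevalAeval u y N * aevalAeval u y H
      = (u - algebraMap K F τ) ^ (rootMultiplicity τ d) * aevalAeval u y (C d₁ : K[X][Y]) := by
    rw [hHd, hcu]
    conv_lhs => rw [hd₁]
    simp
  obtain ⟨k, w, hw0, hw, hwi, hNw⟩ := h.exists_pow_mul_unit_aux _ _ _ _
    (inO_poly u y τ β N) (inO_poly u y τ β H) (h.aeval_ne_zero hc) (h.inO_inv_poly hc) hrt
  refine ⟨k, w * (aevalAeval u y M)⁻¹, mul_ne_zero hw0 (inv_ne_zero hMu),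
    inO_mul hw (h.inO_inv_poly hM), ?_, ?_⟩
  · rw [mul_inv, inv_inv]
    exact inO_mul hwi (inO_poly u y τ β M)
  · rw [← mul_assoc, ← hNw, ← hfM, mul_assoc, mul_inv_cancel₀ hMu, mul_one]

/-- `F` is the field of fractions of `K[u, y]`. -/
theorem exists_div (h : SimplePt u y χ τ β) (f : F) :
    ∃ A B : K[X][Y], aevalAeval u y B ≠ 0 ∧ f = aevalAeval u y A / aevalAeval u y B := by
  have hf : f ∈ IntermediateField.adjoin K {u, y} := by rw [h.gen]; trivial
  obtain ⟨r, hr, s, hs, rfl⟩ := (IntermediateField.mem_adjoin_iff_div (F := K)).mp hf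
  have hle : Algebra.adjoin K {u, y} ≤ (aevalAeval u y : K[X][Y] →ₐ[K] F).range := by
    apply Algebra.adjoin_le
    rintro z (rfl | rfl)
    · exact ⟨C X, by simp⟩
    · exact ⟨X, by simp⟩
  obtain ⟨A, hA⟩ : ∃ A : K[X][Y], aevalAeval u y A = r := hle hr
  obtain ⟨B, hB'⟩ : ∃ B : K[X][Y], aevalAeval u y B = s := hle hs
  subst hA hB'
  by_cases hB : aevalAeval u y B = 0
  · refine ⟨0, 1, by simp, ?_⟩
    rw [hB]; simp
  · exact ⟨A, B, hB, rfl⟩

theorem inO_or_inO_inv (h : SimplePt u y χ τ β) (f : F) :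
    InO u y τ β f ∨ InO u y τ β f⁻¹ := by
  obtain ⟨A, B, hB, rfl⟩ := h.exists_div f
  by_cases hA : aevalAeval u y A = 0
  · left
    rw [hA, zero_div]
    exact inO_zero u y τ β
  obtain ⟨k, w, hw0, hw, hwi, hAw⟩ := h.exists_pow_mul_unit (inO_poly u y τ β A) hA
  obtain ⟨l, w', hw'0, hw', hw'i, hBw⟩ := h.exists_pow_mul_unit (inO_poly u y τ β B) hB
  have hπ := h.pi_ne_zero
  rcases le_total l k with hlk | hkl
  · left
    have : aevalAeval u y A / aevalAeval u y B
        = (u - algebraMap K F τ) ^ (k - l) * (w * w'⁻¹) := by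
      rw [hAw, hBw]
      obtain ⟨m, rfl⟩ := Nat.exists_eq_add_of_le hlk
      rw [Nat.add_sub_cancel_left, pow_add]
      field_simp
    rw [this]
    exact inO_mul (inO_pow (inO_pi u y τ β) _) (inO_mul hw hw'i)
  · right
    have : (aevalAeval u y A / aevalAeval u y B)⁻¹
        = (u - algebraMap K F τ) ^ (l - k) * (w' * w⁻¹) := by
      rw [hAw, hBw]
      obtain ⟨m, rfl⟩ := Nat.exists_eq_add_of_le hkl
      rw [Nat.add_sub_cancel_left, pow_add]
      field_simp
    rw [this]
    exact inO_mul (inO_pow (inO_pi u y τ β) _) (inO_mul hw' hwi)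

/-- The local ring at the simple point, as a valuation subring of `F`. -/
def valSub (h : SimplePt u y χ τ β) : ValuationSubring F where
  carrier := {f | InO u y τ β f}
  mul_mem' := fun hf hg => inO_mul hf hg
  one_mem' := inO_one u y τ β
  add_mem' := fun hf hg => inO_add hf hg
  zero_mem' := inO_zero u y τ β
  neg_mem' := fun hf => inO_neg hf
  mem_or_inv_mem' := h.inO_or_inO_inv

theorem mem_valSub (h : SimplePt u y χ τ β) {f : F} : f ∈ h.valSub ↔ InO u y τ β f := Iff.rfl

/-- The uniformizer `u - τ` as an element of the local ring. -/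
def piO (h : SimplePt u y χ τ β) : h.valSub := ⟨u - algebraMap K F τ, inO_pi u y τ β⟩

theorem isUnit_of_inO_inv (h : SimplePt u y χ τ β) (a : h.valSub) (ha0 : (a : F) ≠ 0)
    (ha : InO u y τ β (a : F)⁻¹) : IsUnit a := by
  refine IsUnit.of_mul_eq_one (⟨(a : F)⁻¹, ha⟩ : h.valSub) ?_
  apply Subtype.ext
  show (a : F) * (a : F)⁻¹ = 1
  exact mul_inv_cancel₀ ha0

theorem not_isUnit_piO (h : SimplePt u y χ τ β) : ¬ IsUnit h.piO := by
  intro hu
  obtain ⟨b, hb⟩ := hu.exists_right_inv
  have hb' : (u - algebraMap K F τ) * (b : F) = 1 := congrArg Subtype.val hb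
  have : (u - algebraMap K F τ)⁻¹ = (b : F) := by
    rw [eq_comm, ← mul_right_inj' h.pi_ne_zero, hb', mul_inv_cancel₀ h.pi_ne_zero]
  exact h.not_inO_pi_inv (this ▸ b.2)

theorem exists_pow_mul_unit_sub (h : SimplePt u y χ τ β) (a : h.valSub) (ha : a ≠ 0) :
    ∃ (k : ℕ) (w : h.valSub), IsUnit w ∧ a = h.piO ^ k * w := by
  have ha0 : (a : F) ≠ 0 := fun h0 => ha (Subtype.ext h0)
  obtain ⟨k, w, hw0, hw, hwi, haw⟩ := h.exists_pow_mul_unit a.2 ha0
  refine ⟨k, ⟨w, hw⟩, h.isUnit_of_inO_inv ⟨w, hw⟩ hw0 hwi, ?_⟩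
  apply Subtype.ext
  show (a : F) = (u - algebraMap K F τ) ^ k * w
  exact haw

theorem irreducible_piO (h : SimplePt u y χ τ β) : Irreducible h.piO := by
  rw [irreducible_iff]
  refine ⟨h.not_isUnit_piO, fun a b hab => ?_⟩
  have hp0 : h.piO ≠ 0 := fun h0 => h.pi_ne_zero (congrArg Subtype.val h0)
  have ha : a ≠ 0 := by
    rintro rfl
    rw [zero_mul] at hab
    exact hp0 hab
  have hb : b ≠ 0 := by
    rintro rfl
    rw [mul_zero] at hab
    exact hp0 hab
  obtain ⟨i, wa, hwa, rfl⟩ := h.exists_pow_mul_unit_sub a ha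
  obtain ⟨j, wb, hwb, rfl⟩ := h.exists_pow_mul_unit_sub b hb
  rcases Nat.eq_zero_or_pos i with rfl | hi
  · left
    simpa using hwa
  rcases Nat.eq_zero_or_pos j with rfl | hj
  · right
    simpa using hwb
  exfalso
  apply h.not_isUnit_piO
  obtain ⟨m, hm⟩ : ∃ m, i + j = m + 2 := ⟨i + j - 2, by omega⟩
  have h1 : h.piO * 1 = h.piO * (h.piO * (h.piO ^ m * (wa * wb))) := by
    rw [mul_one]
    conv_lhs => rw [hab]
    have : h.piO ^ i * wa * (h.piO ^ j * wb) = h.piO ^ (i + j) * (wa * wb) := by
      rw [pow_add]; ring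
    rw [this, hm, pow_add]
    ring
  have h2 := mul_left_cancel₀ hp0 h1
  exact IsUnit.of_mul_eq_one _ h2.symm

theorem isDiscreteValuationRing_valSub (h : SimplePt u y χ τ β) :
    IsDiscreteValuationRing h.valSub := by
  apply IsDiscreteValuationRing.ofHasUnitMulPowIrreducibleFactorization
  refine ⟨h.piO, h.irreducible_piO, fun {x} hx => ?_⟩
  obtain ⟨k, w, hw, rfl⟩ := h.exists_pow_mul_unit_sub x hx
  exact ⟨k, hw.unit, by simp⟩

/-- The place at the simple point. -/
def place (h : SimplePt u y χ τ β) : Place K F where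
  toValuationSubring := h.valSub
  algebraMap_mem' := fun a => inO_algebraMap u y τ β a
  ne_top' := by
    intro htop
    have : (u - algebraMap K F τ)⁻¹ ∈ h.valSub := by
      rw [htop]; trivial
    exact h.not_inO_pi_inv this
  isPrincipalIdealRing' := by
    have := h.isDiscreteValuationRing_valSub
    infer_instance

theorem mem_place (h : SimplePt u y χ τ β) {f : F} :
    f ∈ h.place.toValuationSubring ↔ InO u y τ β f := Iff.rfl

theorem ord_pi (h : SimplePt u y χ τ β) : h.place.ord (u - algebraMap K F τ) = 1 :=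
  h.place.ord_coe_irreducible (π := h.piO) h.irreducible_piO

theorem ord_y_nonneg (h : SimplePt u y χ τ β) : 0 ≤ h.place.ord y := by
  apply ord_nonneg_of_mem
  have := inO_poly u y τ β (X : K[X][Y])
  exact h.mem_place.mpr (by simpa using this)

theorem adicValuation_pi_lt (h : SimplePt u y χ τ β) :
    h.place.adicValuation (u - algebraMap K F τ) < 1 :=
  adicValuation_lt_one_of_ord_pos _ (by rw [h.ord_pi]; exact one_pos)

theorem ev_y (h : SimplePt u y χ τ β) : helper6247.ev h.place y = β := by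
  apply ev_eq_of_adicValuation_lt
  obtain ⟨ρ, hρ, hyρ⟩ := h.exists_rho
  rw [hyρ, map_mul]
  have h1 : h.place.adicValuation ρ ≤ 1 := h.place.adicValuation_le_one_of_mem hρ
  exact (mul_le_of_le_one_right' h1).trans_lt h.adicValuation_pi_lt

/-- Any place at which `u - τ` and `y - β` lie in the maximal ideal contains the local ring. -/
theorem adicValuation_le_one_of_inO (_h : SimplePt u y χ τ β) (P' : Place K F)
    (hπ : P'.adicValuation (u - algebraMap K F τ) < 1)
    (hβ : P'.adicValuation (y - algebraMap K F β) < 1) {f : F} (hf : InO u y τ β f) :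
    P'.adicValuation f ≤ 1 := by
  have hu : P'.adicValuation u ≤ 1 := by
    have : u = (u - algebraMap K F τ) + algebraMap K F τ := by ring
    rw [this]
    exact (Valuation.map_add _ _ _).trans (max_le hπ.le (P'.adicValuation_algebraMap_le_one τ))
  have hy : P'.adicValuation y ≤ 1 := by
    have : y = (y - algebraMap K F β) + algebraMap K F β := by ring
    rw [this]
    exact (Valuation.map_add _ _ _).trans (max_le hβ.le (P'.adicValuation_algebraMap_le_one β))
  have hpoly : ∀ G : K[X][Y], P'.adicValuation (aevalAeval u y G) ≤ 1 := fun G =>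
    P'.adicValuation_le_one_of_mem (aevalAeval_mem _ P'.algebraMap_mem'
      (mem_of_adicValuation_le_one P' hu) (mem_of_adicValuation_le_one P' hy) G)
  obtain ⟨N, M, hM, hfM⟩ := hf
  obtain ⟨A, B, hAB, -⟩ := aevalAeval_taylor u y M τ β
  have hM1 : P'.adicValuation (aevalAeval u y M) = 1 := by
    rw [hAB, add_assoc]
    have hc : P'.adicValuation (algebraMap K F (M.evalEval τ β)) = 1 :=
      adicValuation_algebraMap_eq_one P' hM
    have hrest : P'.adicValuation ((u - algebraMap K F τ) * aevalAeval u y A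
        + (y - algebraMap K F β) * aevalAeval u y B) < 1 := by
      refine lt_of_le_of_lt (Valuation.map_add _ _ _) (max_lt ?_ ?_)
      · rw [map_mul]
        exact (mul_le_of_le_one_right' (hpoly A)).trans_lt hπ
      · rw [map_mul]
        exact (mul_le_of_le_one_right' (hpoly B)).trans_lt hβ
    have key := (P'.adicValuation).map_add_eq_of_lt_left
      (x := algebraMap K F (M.evalEval τ β)) (y := (u - algebraMap K F τ) * aevalAeval u y A
        + (y - algebraMap K F β) * aevalAeval u y B) (by rw [hc]; exact hrest)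
    rw [key, hc]
  have : P'.adicValuation f = P'.adicValuation (aevalAeval u y N) := by
    rw [← hfM, map_mul, hM1, mul_one]
  rw [this]
  exact hpoly N

/-- Uniqueness of the place at a simple point. -/
theorem eq_place [IsAlgClosed K] (h : SimplePt u y χ τ β) (P' : Place K F)
    (h1 : 0 < P'.ord (u - algebraMap K F τ)) (h2 : 0 ≤ P'.ord y)
    (h3 : helper6247.ev P' y = β) : P' = h.place := by
  have hπ : P'.adicValuation (u - algebraMap K F τ) < 1 := adicValuation_lt_one_of_ord_pos P' h1
  have hy : P'.adicValuation y ≤ 1 := P'.adicValuation_le_one_iff.mpr (Or.inr h2)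
  have hu : P'.adicValuation u ≤ 1 := by
    have : u = (u - algebraMap K F τ) + algebraMap K F τ := by ring
    rw [this]
    exact (Valuation.map_add _ _ _).trans (max_le hπ.le (P'.adicValuation_algebraMap_le_one τ))
  -- the value of `y` at `P'` exists
  have hq0 : χ.map (evalRingHom τ) ≠ 0 := by
    intro h0
    apply h.der
    rw [← map_evalRingHom_eval, ← derivative_map, h0]
    simp
  have hqy : P'.adicValuation (aeval y (χ.map (evalRingHom τ))) < 1 := by
    obtain ⟨A, hA⟩ : C (X - C τ) ∣ χ - (χ.map (evalRingHom τ)).map C := by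
      rw [C_dvd_iff_dvd_coeff]
      intro i
      rw [coeff_sub, coeff_map, coeff_map, coe_evalRingHom]
      exact X_sub_C_dvd_sub_C_eval
    have hA' := congrArg (aevalAeval u y) hA
    rw [map_sub, h.rel, zero_sub, aevalAeval_map_C, map_mul, aevalAeval_C] at hA'
    simp only [map_sub, aeval_X, aeval_C] at hA'
    have hAv : P'.adicValuation (aevalAeval u y A) ≤ 1 :=
      P'.adicValuation_le_one_of_mem (aevalAeval_mem _ P'.algebraMap_mem'
        (mem_of_adicValuation_le_one P' hu) (mem_of_adicValuation_le_one P' hy) A)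
    rw [← Valuation.map_neg, hA', map_mul]
    exact (mul_le_of_le_one_right' hAv).trans_lt hπ
  obtain ⟨c, hc⟩ := exists_value_of_aeval_lt P' hy _ _ rfl hq0 hqy
  have hβ : P'.adicValuation (y - algebraMap K F β) < 1 := by
    have := adicValuation_sub_ev_lt P' ⟨c, hc⟩
    rwa [h3] at this
  apply Place.ext
  apply SetLike.ext
  intro f
  constructor
  · intro hf
    by_contra hfO
    have hfi : InO u y τ β f⁻¹ := (h.inO_or_inO_inv f).resolve_left hfO
    have hf0 : f ≠ 0 := by
      rintro rfl
      exact hfO (inO_zero u y τ β)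
    obtain ⟨k, w, hw0, hw, hwi, hfw⟩ := h.exists_pow_mul_unit hfi (inv_ne_zero hf0)
    rcases Nat.eq_zero_or_pos k with rfl | hk
    · apply hfO
      have : f = w⁻¹ := by
        rw [pow_zero, one_mul] at hfw
        rw [← hfw, inv_inv]
      rw [this]
      exact hwi
    · obtain ⟨k', rfl⟩ : ∃ k', k = k' + 1 := ⟨k - 1, by omega⟩
      have h4 : P'.adicValuation f⁻¹ < 1 := by
        have : f⁻¹ = (u - algebraMap K F τ) * ((u - algebraMap K F τ) ^ k' * w) := by
          rw [hfw, pow_succ]; ring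
        rw [this, map_mul]
        exact (mul_le_of_le_one_right' (h.adicValuation_le_one_of_inO P' hπ hβ
          (inO_mul (inO_pow (inO_pi u y τ β) k') hw))).trans_lt hπ
      have h5 : P'.adicValuation f ≤ 1 := P'.adicValuation_le_one_of_mem hf
      have h6 : P'.adicValuation f * P'.adicValuation f⁻¹ = 1 := by
        rw [← map_mul, mul_inv_cancel₀ hf0, map_one]
      have h7 : P'.adicValuation f * P'.adicValuation f⁻¹ < 1 :=
        (mul_le_of_le_one_left' h5).trans_lt h4
      rw [h6] at h7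
      exact lt_irrefl _ h7
  · intro hf
    exact mem_of_adicValuation_le_one P' (h.adicValuation_le_one_of_inO P' hπ hβ hf)

end SimplePt

end LocalRing

/-! ## The Spec statement -/

/-- M1a of `helper6247_Spec`, verbatim and unconditional. -/
theorem stmt_SimplePoint.{u₁, v₁} : helper6247.Stmt_SimplePoint.{u₁, v₁} := by
  intro K F _ _ _ _ _ u y χ τ β htr hgen hrel hker hpt hder
  have h : SimplePt u y χ τ β := ⟨htr, hgen, hrel, hker, hpt, hder⟩
  refine ⟨h.place, h.ord_pi, h.ord_y_nonneg, h.ev_y, ?_, ?_⟩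
  · intro P' h1 h2 h3
    exact h.eq_place P' h1 h2 h3
  · intro f hf
    exact (h.mem_place).mp (mem_of_ord_nonneg h.place hf)

end

end Fermat.Agent.S27.helper7706
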