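import Mathlib
import Fermat.Agent.S27.helper6247_Spec
import Fermat.Agent.S27.helper5871_LefSpec
import Fermat.Agent.S27.helper7706_PlaneModel
import Fermat.Agent.S27.helper7706_SimplePoint
import Fermat.Agent.S27.helper2501_SepCoord
import Fermat.Agent.S27.helper4586_EvKit
import Fermat.Agent.S24.helper1370_PlaceBasics

/-!
# S27, module L (Lefschetz transfer), leaf L-VAL (seat helper104)

Setting: `F2 / K2` is the constant field extension of `F1 / K1` (`helper5871.IsConstExt`), both
constant fields algebraically closed of characteristic zero.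

**Main result** (`der_mem_valuationSubring`): a derivation `d` of `F2` which kills the image of
`F1` and maps the constants `K2` into themselves preserves the valuation ring of EVERY place of
`F2 / K2`.

Proof.  Every place `P` of `F2 / K2` is a simple point of a plane model `(u, y)` with `u, y ∈ F1`
(`exists_localModel`):

* if `P` is trivial on `F1` ("new" place), take a plane model `(x, y)` of `F1 / K1` with monic
  irreducible equation `χ`; the Bezout identity `U χ + V χ_Y = d(x)` and `ord_P (d(x)) = 0` show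
  `χ_Y(P) ≠ 0`;
* otherwise `P` lies over a place `P0` of `F1 / K1`; take a uniformizer `t` at `P0` and the
  separating coordinate `y` of `helper2501.stmt_SepCoord`.

In both cases the plane model stays a plane model of `F2 / K2` (`adjoin_pair_eq_top`,
`ker_transfer`: generation and linear disjointness), so by `helper7706.stmt_SimplePoint` the
local ring of `P` consists of the quotients `N(u,y)/M(u,y)` with `M(P) ≠ 0`.  The set
`{z ∈ O_P | d z ∈ O_P}` is a `K2`-subalgebra containing `u, y`, hence all `N(u,y)`, `M(u,y)`, and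
`d (N/M) = (d N - (N/M) d M)/M ∈ O_P`.
-/

set_option autoImplicit false

open AlgebraicCurve IntermediateField Polynomial
open scoped Polynomial.Bivariate

namespace Fermat.Agent.S27.helper104

/-! ## 1. Linear disjointness is symmetric -/

section LD

variable {K1 F1 K2 F2 : Type*} [Field K1] [Field F1] [Field K2] [Field F2]
  [Algebra K1 F1] [Algebra K2 F2] [Algebra K1 K2] [Algebra F1 F2] [Algebra K1 F2]
  [IsScalarTower K1 K2 F2] [IsScalarTower K1 F1 F2]

/-- Symmetric form of linear disjointness: if `K1`-independent finite families of `K2` stay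
`F1`-independent in `F2`, then `K1`-independent families of `F1` stay `K2`-independent in `F2`. -/
theorem ld_symm
    (hld : ∀ (m : ℕ) (c : Fin m → K2), LinearIndependent K1 c →
      LinearIndependent F1 (fun i => algebraMap K2 F2 (c i)))
    {ι : Type*} (a : ι → F1) (ha : LinearIndependent K1 a) :
    LinearIndependent K2 (fun i => algebraMap F1 F2 (a i)) := by
  classical
  rw [linearIndependent_iff']
  intro s g hg i hi
  let W : Submodule K1 K2 := Submodule.span K1 (g '' (s : Set ι))
  have hWfin : Module.Finite K1 W :=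
    Module.Finite.span_of_finite K1 (s.finite_toSet.image g)
  let b := Module.finBasis K1 W
  let c : Fin (Module.finrank K1 W) → K2 := fun j => (b j : K2)
  have hc : LinearIndependent K1 c :=
    b.linearIndependent.map' W.subtype (Submodule.ker_subtype W)
  have hF := hld _ c hc
  have hmem : ∀ i ∈ s, g i ∈ W := fun i hi => Submodule.subset_span ⟨i, hi, rfl⟩
  let lam : ι → Fin (Module.finrank K1 W) → K1 :=
    fun i j => if h : i ∈ s then b.repr ⟨g i, hmem i h⟩ j else 0
  have hg_eq : ∀ i ∈ s, g i = ∑ j, lam i j • c j := by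
    intro i hi
    have h1 := b.sum_repr ⟨g i, hmem i hi⟩
    have h2 := congrArg (W.subtype) h1
    simp only [map_sum, map_smul, Submodule.subtype_apply] at h2
    rw [← h2]
    refine Finset.sum_congr rfl fun j _ => ?_
    simp only [lam, dif_pos hi, c]
  have key : ∑ j, (∑ i ∈ s, lam i j • a i) • algebraMap K2 F2 (c j) = 0 := by
    rw [← hg]
    have h3 : ∀ i ∈ s, g i • algebraMap F1 F2 (a i)
        = ∑ j, algebraMap K1 F2 (lam i j) * algebraMap K2 F2 (c j) * algebraMap F1 F2 (a i) := by
      intro i hi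
      conv_lhs => rw [hg_eq i hi]
      rw [Algebra.smul_def, map_sum, Finset.sum_mul]
      refine Finset.sum_congr rfl fun j _ => ?_
      rw [Algebra.smul_def, map_mul, ← IsScalarTower.algebraMap_apply K1 K2 F2]
    rw [Finset.sum_congr rfl h3, Finset.sum_comm]
    refine Finset.sum_congr rfl fun j _ => ?_
    rw [Algebra.smul_def, map_sum, Finset.sum_mul]
    refine Finset.sum_congr rfl fun i _ => ?_
    rw [Algebra.smul_def, map_mul, ← IsScalarTower.algebraMap_apply K1 F1 F2]
    ring
  have h1 : ∀ j, ∑ i ∈ s, lam i j • a i = 0 := Fintype.linearIndependent_iff.mp hF _ key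
  have h2 : ∀ j, lam i j = 0 := fun j =>
    linearIndependent_iff'.mp ha s (fun i => lam i j) (h1 j) i hi
  rw [hg_eq i hi]
  simp [h2]

end LD

/-! ## 2. Plane models survive constant field extension -/

section Monomials

variable {K F : Type*} [Field K] [Field F] [Algebra K F]

theorem aevalAeval_monomial_monomial (u y : F) (i j : ℕ) (c : K) :
    aevalAeval u y (monomial j (monomial i c)) = algebraMap K F c * u ^ i * y ^ j := by
  rw [← C_mul_X_pow_eq_monomial, map_mul, map_pow, aevalAeval_C, aevalAeval_Y, aeval_monomial]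

/-- If `χ` (monic in `Y`) generates the relations between `u` and `y`, the monomials
`u^i y^j`, `j < deg_Y χ`, are linearly independent over the constants. -/
theorem linearIndependent_monomials (u y : F) (χ : K[X][Y]) (hχ : χ.Monic)
    (hker : ∀ G : K[X][Y], aevalAeval u y G = 0 → χ ∣ G) :
    LinearIndependent K (fun p : ℕ × Fin χ.natDegree => u ^ p.1 * y ^ (p.2 : ℕ)) := by
  classical
  rw [linearIndependent_iff']
  intro s g hg p hp
  let G0 : K[X][Y] := ∑ q ∈ s, monomial (q.2 : ℕ) (monomial q.1 (g q))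
  have h0 : aevalAeval u y G0 = 0 := by
    rw [map_sum, ← hg]
    refine Finset.sum_congr rfl fun q _ => ?_
    rw [aevalAeval_monomial_monomial, Algebra.smul_def, mul_assoc]
  have hdvd := hker G0 h0
  have hdeg : G0.degree < χ.degree := by
    rw [Polynomial.degree_eq_natDegree hχ.ne_zero]
    refine (Polynomial.degree_sum_le _ _).trans_lt ?_
    rw [Finset.sup_lt_iff (WithBot.bot_lt_coe _)]
    intro q _
    exact (degree_monomial_le _ _).trans_lt (WithBot.coe_lt_coe.mpr q.2.2)
  have hG0 : G0 = 0 := Polynomial.eq_zero_of_dvd_of_degree_lt hdvd hdeg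
  have hc : (G0.coeff (p.2 : ℕ)).coeff p.1 = g p := by
    simp only [G0, finsetSum_coeff]
    rw [Finset.sum_eq_single p]
    · simp
    · intro q _ hq
      rw [coeff_monomial]
      split_ifs with h1
      · rw [coeff_monomial, if_neg]
        intro h2
        exact hq (Prod.ext h2 (Fin.ext h1))
      · simp
    · intro h
      exact absurd hp h
  rw [hG0] at hc
  simpa using hc.symm

theorem aevalAeval_mem_subalgebra (S : Subalgebra K F) {u y : F} (hu : u ∈ S) (hy : y ∈ S)
    (G : K[X][Y]) : aevalAeval u y G ∈ S := by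
  induction G using Polynomial.induction_on' with
  | add p q hp hq =>
    rw [map_add]
    exact S.add_mem hp hq
  | monomial n a =>
    rw [← C_mul_X_pow_eq_monomial, map_mul, map_pow, aevalAeval_C, aevalAeval_Y]
    refine S.mul_mem ?_ (S.pow_mem hy n)
    have h1 : aeval u a ∈ Algebra.adjoin K {u} := Polynomial.aeval_mem_adjoin_singleton K u
    exact (Algebra.adjoin_le (Set.singleton_subset_iff.mpr hu)) h1

end Monomials

section Transfer

variable {K1 F1 K2 F2 : Type*} [Field K1] [Field F1] [Field K2] [Field F2]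
  [Algebra K1 F1] [Algebra K2 F2] [Algebra K1 K2] [Algebra F1 F2] [Algebra K1 F2]
  [IsScalarTower K1 K2 F2] [IsScalarTower K1 F1 F2]

theorem algebraMap_aeval (u : F1) (p : K1[X]) :
    algebraMap F1 F2 (aeval u p) = aeval (algebraMap F1 F2 u) (p.map (algebraMap K1 K2)) := by
  rw [Polynomial.aeval_map_algebraMap, Polynomial.aeval_algebraMap_apply]

theorem algebraMap_aevalAeval (u y : F1) (G : K1[X][Y]) :
    algebraMap F1 F2 (aevalAeval u y G) =
      aevalAeval (algebraMap F1 F2 u) (algebraMap F1 F2 y)
        (G.map (mapRingHom (algebraMap K1 K2))) := by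
  induction G using Polynomial.induction_on' with
  | add p q hp hq => rw [map_add, map_add, hp, hq, Polynomial.map_add, map_add]
  | monomial n a =>
    rw [← C_mul_X_pow_eq_monomial, Polynomial.map_mul, Polynomial.map_pow, Polynomial.map_C,
      Polynomial.map_X]
    simp only [map_mul, map_pow, aevalAeval_C, aevalAeval_Y, coe_mapRingHom]
    rw [algebraMap_aeval (K2 := K2)]

/-- Generation transfers: if `F1 = K1(u, y)` and `F2 = K2(F1)` then `F2 = K2(u, y)`. -/
theorem adjoin_pair_eq_top
    (hgen : IntermediateField.adjoin K2 (Set.range (algebraMap F1 F2)) = ⊤)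
    {u y : F1} (h : IntermediateField.adjoin K1 {u, y} = ⊤) :
    IntermediateField.adjoin K2 {algebraMap F1 F2 u, algebraMap F1 F2 y} = ⊤ := by
  rw [eq_top_iff, ← hgen, IntermediateField.adjoin_le_iff]
  rintro _ ⟨f, rfl⟩
  have hf : f ∈ IntermediateField.adjoin K1 {u, y} := by
    rw [h]
    trivial
  let L : IntermediateField K2 F2 :=
    IntermediateField.adjoin K2 {algebraMap F1 F2 u, algebraMap F1 F2 y}
  let M : IntermediateField K1 F1 :=
    (L.restrictScalars K1).comap (IsScalarTower.toAlgHom K1 F1 F2)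
  have hle : IntermediateField.adjoin K1 {u, y} ≤ M := by
    rw [IntermediateField.adjoin_le_iff]
    intro z hz
    have hz' : algebraMap F1 F2 z ∈ L := by
      apply IntermediateField.subset_adjoin
      rcases hz with rfl | rfl
      · exact Set.mem_insert _ _
      · exact Set.mem_insert_of_mem _ rfl
    exact hz'
  exact hle hf

/-- The relations transfer: if the monic `χ` generates the `K1`-relations between `u` and `y`,
its image generates the `K2`-relations (linear disjointness). -/
theorem ker_transfer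
    (hld : ∀ (m : ℕ) (c : Fin m → K2), LinearIndependent K1 c →
      LinearIndependent F1 (fun i => algebraMap K2 F2 (c i)))
    (u y : F1) (χ : K1[X][Y]) (hχ : χ.Monic) (hroot : aevalAeval u y χ = 0)
    (hker : ∀ G : K1[X][Y], aevalAeval u y G = 0 → χ ∣ G)
    (G : K2[X][Y]) (hG : aevalAeval (algebraMap F1 F2 u) (algebraMap F1 F2 y) G = 0) :
    χ.map (mapRingHom (algebraMap K1 K2)) ∣ G := by
  classical
  rcases Nat.eq_zero_or_pos χ.natDegree with h0 | hpos
  · have h1 : χ = 1 := hχ.natDegree_eq_zero.mp h0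
    rw [h1, Polynomial.map_one]
    exact one_dvd _
  set χ' : K2[X][Y] := χ.map (mapRingHom (algebraMap K1 K2)) with hχ'
  have hχ'm : χ'.Monic := hχ.map _
  have hχ'deg : χ'.natDegree = χ.natDegree := hχ.natDegree_map _
  have hχ'ne : χ' ≠ 1 := by
    intro h1
    rw [h1, natDegree_one] at hχ'deg
    omega
  have hroot' : aevalAeval (algebraMap F1 F2 u) (algebraMap F1 F2 y) χ' = 0 := by
    rw [hχ', ← algebraMap_aevalAeval, hroot, map_zero]
  set R : K2[X][Y] := G %ₘ χ' with hR
  have hRnat : R.natDegree < χ.natDegree := by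
    have := natDegree_modByMonic_lt G hχ'm hχ'ne
    rwa [hχ'deg] at this
  have hR0 : aevalAeval (algebraMap F1 F2 u) (algebraMap F1 F2 y) R = 0 := by
    have h1 := modByMonic_add_div G χ'
    have h2 := congrArg (aevalAeval (algebraMap F1 F2 u) (algebraMap F1 F2 y)) h1
    rw [map_add, map_mul, hroot', zero_mul, add_zero, hG] at h2
    exact h2
  set n := χ.natDegree with hn
  let N : ℕ := (Finset.univ.sup fun j : Fin n => (R.coeff (j : ℕ)).natDegree) + 1
  have hN : ∀ j : Fin n, (R.coeff (j : ℕ)).natDegree < N := fun j =>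
    Nat.lt_succ_of_le
      (Finset.le_sup (f := fun j : Fin n => (R.coeff (j : ℕ)).natDegree) (Finset.mem_univ j))
  have hexp : aevalAeval (algebraMap F1 F2 u) (algebraMap F1 F2 y) R
      = ∑ p ∈ Finset.range N ×ˢ (Finset.univ : Finset (Fin n)),
          (R.coeff (p.2 : ℕ)).coeff p.1 • algebraMap F1 F2 (u ^ p.1 * y ^ (p.2 : ℕ)) := by
    rw [Finset.sum_product_right]
    conv_lhs => rw [R.as_sum_range' n hRnat]
    rw [map_sum, Finset.sum_range]
    refine Finset.sum_congr rfl fun j _ => ?_
    rw [← C_mul_X_pow_eq_monomial, map_mul, map_pow, aevalAeval_C, aevalAeval_Y,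
      aeval_eq_sum_range' (hN j), Finset.sum_mul]
    refine Finset.sum_congr rfl fun i _ => ?_
    rw [map_mul, map_pow, map_pow, Algebra.smul_def, Algebra.smul_def, mul_assoc]
  have hLI := ld_symm hld _ (linearIndependent_monomials u y χ hχ hker)
  have hcoef := linearIndependent_iff'.mp hLI (Finset.range N ×ˢ (Finset.univ : Finset (Fin n)))
    (fun p => (R.coeff (p.2 : ℕ)).coeff p.1) (hexp ▸ hR0)
  have hRz : R = 0 := by
    ext j i
    rw [coeff_zero, coeff_zero]
    by_cases hj : j < n
    · by_cases hi : i < N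
      · exact hcoef (i, ⟨j, hj⟩) (Finset.mem_product.mpr ⟨Finset.mem_range.mpr hi,
          Finset.mem_univ _⟩)
      · exact coeff_eq_zero_of_natDegree_lt (lt_of_lt_of_le (hN ⟨j, hj⟩) (not_lt.mp hi))
    · rw [coeff_eq_zero_of_natDegree_lt (lt_of_lt_of_le hRnat (not_lt.mp hj)), coeff_zero]
  exact (modByMonic_eq_zero_iff_dvd hχ'm).mp hRz

end Transfer

/-! ## 3. Every place of the constant field extension is a simple point of an `F1`-plane model -/

section LocalModel

open Fermat.Agent.S27.helper6247 Fermat.Agent.S27.helper4586 Fermat.Agent.S24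

variable {K1 F1 K2 F2 : Type*} [Field K1] [Field F1] [Field K2] [Field F2]
  [Algebra K1 F1] [Algebra K2 F2] [Algebra K1 K2] [Algebra F1 F2] [Algebra K1 F2]
  [IsScalarTower K1 K2 F2] [IsScalarTower K1 F1 F2]

/-- Common step: a simple point of (the base change of) an `F1`-plane model. -/
theorem localModel_of_simplePoint [IsAlgClosed K2] [CharZero K2]
    (hgen : IntermediateField.adjoin K2 (Set.range (algebraMap F1 F2)) = ⊤)
    (hld : ∀ (m : ℕ) (c : Fin m → K2), LinearIndependent K1 c →
      LinearIndependent F1 (fun i => algebraMap K2 F2 (c i)))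
    (u y : F1) (χ : K1[X][Y]) (hχ : χ.Monic)
    (htr : Transcendental K2 (algebraMap F1 F2 u))
    (hgen1 : IntermediateField.adjoin K1 {u, y} = ⊤)
    (hroot : aevalAeval u y χ = 0)
    (hker : ∀ G : K1[X][Y], aevalAeval u y G = 0 → χ ∣ G)
    (P : Place K2 F2) (τ β : K2)
    (hu : 0 < P.ord (algebraMap F1 F2 u - algebraMap K2 F2 τ))
    (hy0 : 0 ≤ P.ord (algebraMap F1 F2 y))
    (hy : ev P (algebraMap F1 F2 y) = β)
    (hpt : (χ.map (mapRingHom (algebraMap K1 K2))).evalEval τ β = 0)
    (hder : (derivative (χ.map (mapRingHom (algebraMap K1 K2)))).evalEval τ β ≠ 0) :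
    ∀ f : F2, 0 ≤ P.ord f → ∃ N M : K2[X][Y], M.evalEval τ β ≠ 0 ∧
      f * aevalAeval (algebraMap F1 F2 u) (algebraMap F1 F2 y) M
        = aevalAeval (algebraMap F1 F2 u) (algebraMap F1 F2 y) N := by
  obtain ⟨Q, -, -, -, huniq, hloc⟩ := helper7706.stmt_SimplePoint K2 F2
    (algebraMap F1 F2 u) (algebraMap F1 F2 y) (χ.map (mapRingHom (algebraMap K1 K2))) τ β htr
    (adjoin_pair_eq_top hgen hgen1)
    (by rw [← algebraMap_aevalAeval, hroot, map_zero])
    (ker_transfer hld u y χ hχ hroot hker) hpt hder
  have hPQ : P = Q := huniq P hu hy0 hy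
  rw [hPQ]
  exact hloc

/-- "New" places (trivial on `F1`) are simple points of any plane model of `F1 / K1`. -/
theorem localModel_new [IsAlgClosed K1] [CharZero K1] [IsAlgClosed K2] [CharZero K2]
    (x : F1) (hx : Transcendental K1 x) [FiniteDimensional K1⟮x⟯ F1]
    (hx2 : Transcendental K2 (algebraMap F1 F2 x))
    [FiniteDimensional K2⟮algebraMap F1 F2 x⟯ F2]
    (hgen : IntermediateField.adjoin K2 (Set.range (algebraMap F1 F2)) = ⊤)
    (hld : ∀ (m : ℕ) (c : Fin m → K2), LinearIndependent K1 c →
      LinearIndependent F1 (fun i => algebraMap K2 F2 (c i)))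
    (P : Place K2 F2) (hnew : ∀ f : F1, f ≠ 0 → P.ord (algebraMap F1 F2 f) = 0) :
    ∃ (u y : F1) (τ β : K2), IsVal P (algebraMap F1 F2 u) τ ∧ IsVal P (algebraMap F1 F2 y) β ∧
      ∀ f : F2, 0 ≤ P.ord f → ∃ N M : K2[X][Y], M.evalEval τ β ≠ 0 ∧
        f * aevalAeval (algebraMap F1 F2 u) (algebraMap F1 F2 y) M
          = aevalAeval (algebraMap F1 F2 u) (algebraMap F1 F2 y) N := by
  obtain ⟨y, χ, hpm, -⟩ := helper7706.exists_planeModel x hx
  have hP : HasValues P := hasValues_of_finite (algebraMap F1 F2 x) P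
  have hall : ∀ f : F1, P.ord (algebraMap F1 F2 f) = 0 := by
    intro f
    rcases eq_or_ne f 0 with rfl | hf
    · rw [map_zero, Place.ord_zero]
    · exact hnew f hf
  have hx0 : 0 ≤ P.ord (algebraMap F1 F2 x) := (hall x).ge
  have hy0 : 0 ≤ P.ord (algebraMap F1 F2 y) := (hall y).ge
  set χ' : K2[X][Y] := χ.map (mapRingHom (algebraMap K1 K2)) with hχ'
  have hpt : χ'.evalEval (ev P (algebraMap F1 F2 x)) (ev P (algebraMap F1 F2 y)) = 0 := by
    rw [← ev_aevalAeval hP hx0 hy0 χ', hχ', ← algebraMap_aevalAeval, hpm.root, map_zero, ev_zero]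
  have hder : (derivative χ').evalEval (ev P (algebraMap F1 F2 x)) (ev P (algebraMap F1 F2 y))
      ≠ 0 := by
    intro hzero
    obtain ⟨U, V, d, hd0, hbez⟩ := hpm.exists_bezout
    have h1 := congrArg (Polynomial.map (mapRingHom (algebraMap K1 K2))) hbez
    rw [Polynomial.map_add, Polynomial.map_mul, Polynomial.map_mul, ← derivative_map,
      Polynomial.map_C, coe_mapRingHom] at h1
    have h2 := congrArg
      (Polynomial.evalEval (ev P (algebraMap F1 F2 x)) (ev P (algebraMap F1 F2 y))) h1
    rw [evalEval_add, evalEval_mul, evalEval_mul, ← hχ', hpt, hzero, mul_zero, mul_zero,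
      add_zero, evalEval_C] at h2
    -- `d(x)` is a nonzero element of `F1`, hence a unit at `P`
    have hdx : aeval x d ≠ 0 := fun h => hd0 ((transcendental_iff.mp hx) d h)
    have h3 : ev P (algebraMap F1 F2 (aeval x d)) ≠ 0 :=
      (ev_ne_zero_iff hP (hall _).ge).mpr ⟨(_root_.map_ne_zero _).mpr hdx, hall _⟩
    apply h3
    rw [algebraMap_aeval (K2 := K2), ev_aeval hP hx0]
    exact h2.symm
  have hu : 0 < P.ord (algebraMap F1 F2 x - algebraMap K2 F2 (ev P (algebraMap F1 F2 x))) := by
    rcases eq_or_ord_sub_ev_pos hP hx0 with h | h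
    · exfalso
      apply hx2
      rw [h]
      exact isAlgebraic_algebraMap _
    · exact h
  exact ⟨x, y, _, _, isVal_ev hP hx0, isVal_ev hP hy0,
    localModel_of_simplePoint hgen hld x y χ hpm.monic hx2 hpm.gen hpm.root hpm.ker P _ _ hu hy0
      rfl hpt hder⟩

/-- "Old" places (lying over a place `P0` of `F1 / K1`) are simple points of the plane model
given by a uniformizer at `P0` and its separating coordinate. -/
theorem localModel_old [IsAlgClosed K1] [CharZero K1] [IsAlgClosed K2] [CharZero K2]
    (x : F1) (hx : Transcendental K1 x) [FiniteDimensional K1⟮x⟯ F1]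
    (hgen : IntermediateField.adjoin K2 (Set.range (algebraMap F1 F2)) = ⊤)
    (hld : ∀ (m : ℕ) (c : Fin m → K2), LinearIndependent K1 c →
      LinearIndependent F1 (fun i => algebraMap K2 F2 (c i)))
    (P : Place K2 F2) (f0 : F1) (hf0 : f0 ≠ 0) (hord : P.ord (algebraMap F1 F2 f0) ≠ 0) :
    ∃ (u y : F1) (τ β : K2), IsVal P (algebraMap F1 F2 u) τ ∧ IsVal P (algebraMap F1 F2 y) β ∧
      ∀ f : F2, 0 ≤ P.ord f → ∃ N M : K2[X][Y], M.evalEval τ β ≠ 0 ∧
        f * aevalAeval (algebraMap F1 F2 u) (algebraMap F1 F2 y) M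
          = aevalAeval (algebraMap F1 F2 u) (algebraMap F1 F2 y) N := by
  have hK' : ∀ a : K1, a ≠ 0 → helper1370.ordAddValuation P (algebraMap K1 F2 a) = 0 := by
    intro a ha
    rw [IsScalarTower.algebraMap_apply K1 K2 F2]
    exact helper1370.ordAddValuation_algebraMap P ((_root_.map_ne_zero _).mpr ha)
  have hnt' : ∃ f : F1, f ≠ 0 ∧
      helper1370.ordAddValuation P (IsScalarTower.toAlgHom K1 F1 F2 f) ≠ 0 := by
    refine ⟨f0, hf0, ?_⟩
    rw [IsScalarTower.coe_toAlgHom', helper1370.ordAddValuation_apply P ((_root_.map_ne_zero _).mpr hf0)]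
    intro h
    exact hord (by exact_mod_cast h)
  obtain ⟨P0, k, hk, -, hval⟩ := helper1370.exists_place_of_algHom
    (helper1370.ordAddValuation P) hK' (IsScalarTower.toAlgHom K1 F1 F2) hnt'
  have hordP : ∀ f : F1, f ≠ 0 → P.ord (algebraMap F1 F2 f) = k * P0.ord f := by
    intro f hf
    have h := hval f hf
    rw [IsScalarTower.coe_toAlgHom', helper1370.ordAddValuation_apply P ((_root_.map_ne_zero _).mpr hf)]
      at h
    exact_mod_cast h
  obtain ⟨t, ht⟩ := helper1370.exists_uniformizer P0
  obtain ⟨y, χ, hχ, hgen1, hroot, hker, hy0, hpt, hder⟩ :=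
    helper2501.stmt_SepCoord K1 F1 x hx P0 t ht
  have ht0 : t ≠ 0 := helper1370.uniformizer_ne_zero P0 ht
  have hkpos : (0 : ℤ) < k := by exact_mod_cast hk
  have htP : 0 < P.ord (algebraMap F1 F2 t) := by
    rw [hordP t ht0, ht, mul_one]
    exact hkpos
  have htr : Transcendental K2 (algebraMap F1 F2 t) :=
    helper1370.transcendental_of_ord_ne_zero P htP.ne'
  have hP0 : HasValues P0 := hasValues_of_finite x P0
  have hyval : IsVal P (algebraMap F1 F2 y) (algebraMap K1 K2 (ev P0 y)) := by
    rcases eq_or_ord_sub_ev_pos hP0 hy0 with h | h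
    · have h' : algebraMap F1 F2 y = algebraMap K2 F2 (algebraMap K1 K2 (ev P0 y)) := by
        conv_lhs => rw [h]
        rw [← IsScalarTower.algebraMap_apply K1 F1 F2, IsScalarTower.algebraMap_apply K1 K2 F2]
      rw [h']
      exact isVal_algebraMap P _
    · apply isVal_of_ord_pos
      have hne : y - algebraMap K1 F1 (ev P0 y) ≠ 0 := by
        intro h0
        rw [h0, Place.ord_zero] at h
        exact lt_irrefl _ h
      have h1 := hordP _ hne
      rw [map_sub, ← IsScalarTower.algebraMap_apply K1 F1 F2,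
        IsScalarTower.algebraMap_apply K1 K2 F2] at h1
      rw [h1]
      exact mul_pos hkpos h
  have htP' : 0 < P.ord (algebraMap F1 F2 t - algebraMap K2 F2 0) := by
    rwa [map_zero, sub_zero]
  refine ⟨t, y, 0, algebraMap K1 K2 (ev P0 y), isVal_of_ord_pos htP', hyval, ?_⟩
  refine localModel_of_simplePoint hgen hld t y χ hχ htr hgen1 hroot hker P 0 _ htP'
    hyval.ord_nonneg hyval.ev_eq ?_ ?_
  · have h := Polynomial.map_mapRingHom_evalEval (algebraMap K1 K2) χ 0 (ev P0 y)
    rw [map_zero] at h
    rw [h, hpt, map_zero]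
  · have h := Polynomial.map_mapRingHom_evalEval (algebraMap K1 K2) (derivative χ) 0 (ev P0 y)
    rw [map_zero] at h
    rw [derivative_map, h]
    exact (_root_.map_ne_zero _).mpr hder

/-- **Local model lemma.** Every place `P` of the constant field extension `F2 / K2` is a simple
point of a plane model `(u, y)` with coordinates in `F1`: `u`, `y` are regular at `P` with values
`τ`, `β`, and every function regular at `P` is a quotient `N(u,y)/M(u,y)` with `M(τ,β) ≠ 0`. -/
theorem exists_localModel [IsAlgClosed K1] [CharZero K1] [IsAlgClosed K2] [CharZero K2]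
    (x : F1) (hx : Transcendental K1 x) [FiniteDimensional K1⟮x⟯ F1]
    (hx2 : Transcendental K2 (algebraMap F1 F2 x))
    [FiniteDimensional K2⟮algebraMap F1 F2 x⟯ F2]
    (hgen : IntermediateField.adjoin K2 (Set.range (algebraMap F1 F2)) = ⊤)
    (hld : ∀ (m : ℕ) (c : Fin m → K2), LinearIndependent K1 c →
      LinearIndependent F1 (fun i => algebraMap K2 F2 (c i)))
    (P : Place K2 F2) :
    ∃ (u y : F1) (τ β : K2), IsVal P (algebraMap F1 F2 u) τ ∧ IsVal P (algebraMap F1 F2 y) β ∧
      ∀ f : F2, 0 ≤ P.ord f → ∃ N M : K2[X][Y], M.evalEval τ β ≠ 0 ∧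
        f * aevalAeval (algebraMap F1 F2 u) (algebraMap F1 F2 y) M
          = aevalAeval (algebraMap F1 F2 u) (algebraMap F1 F2 y) N := by
  by_cases hnew : ∀ f : F1, f ≠ 0 → P.ord (algebraMap F1 F2 f) = 0
  · exact localModel_new x hx hx2 hgen hld P hnew
  · push Not at hnew
    obtain ⟨f0, hf0, hord⟩ := hnew
    exact localModel_old x hx hgen hld P f0 hf0 hord

end LocalModel

/-! ## 4. Derivations preserve the valuation rings -/

section Derivations

open Fermat.Agent.S27.helper6247 Fermat.Agent.S27.helper4586 Fermat.Agent.S24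

variable {K F : Type*} [Field K] [Field F] [Algebra K F]

/-- For a derivation `d` mapping the constants into a subalgebra `A`, the set
`{z ∈ A | d z ∈ A}` is a subalgebra. -/
def derSubalgebra (d : Derivation ℤ F F) (A : Subalgebra K F)
    (hK : ∀ c : K, d (algebraMap K F c) ∈ A) : Subalgebra K F where
  carrier := {z | z ∈ A ∧ d z ∈ A}
  mul_mem' := fun {a b} ha hb => ⟨A.mul_mem ha.1 hb.1, by
    rw [d.leibniz, smul_eq_mul, smul_eq_mul]
    exact A.add_mem (A.mul_mem ha.1 hb.2) (A.mul_mem hb.1 ha.2)⟩
  one_mem' := ⟨A.one_mem, by rw [d.map_one_eq_zero]; exact A.zero_mem⟩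
  add_mem' := fun {a b} ha hb => ⟨A.add_mem ha.1 hb.1, by
    rw [map_add]
    exact A.add_mem ha.2 hb.2⟩
  zero_mem' := ⟨A.zero_mem, by rw [map_zero]; exact A.zero_mem⟩
  algebraMap_mem' := fun c => ⟨A.algebraMap_mem c, hK c⟩

theorem mem_derSubalgebra (d : Derivation ℤ F F) (A : Subalgebra K F)
    (hK : ∀ c : K, d (algebraMap K F c) ∈ A) {z : F} :
    z ∈ derSubalgebra d A hK ↔ z ∈ A ∧ d z ∈ A := Iff.rfl

/-- The valuation ring of a place, as a subalgebra over the constants. -/
def placeSubalgebra (P : Place K F) : Subalgebra K F :=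
  { P.toValuationSubring.toSubring with algebraMap_mem' := P.algebraMap_mem' }

theorem mem_placeSubalgebra (P : Place K F) {z : F} :
    z ∈ placeSubalgebra P ↔ z ∈ P.toValuationSubring := Iff.rfl

/-- Local form of L-VAL: at a point where the local ring consists of quotients
`N(u,y)/M(u,y)` with `M(τ,β) ≠ 0`, a derivation that maps the constants, `u` and `y` into the
valuation ring maps every such quotient into the valuation ring. -/
theorem der_mem_of_localModel (d : Derivation ℤ F F) (P : Place K F)
    (hK : ∀ c : K, d (algebraMap K F c) ∈ P.toValuationSubring)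
    (u y : F) (τ β : K) (hu : IsVal P u τ) (hy : IsVal P y β)
    (hdu : d u ∈ P.toValuationSubring) (hdy : d y ∈ P.toValuationSubring)
    (f : F) (N M : K[X][Y]) (hM : M.evalEval τ β ≠ 0)
    (hf : f * aevalAeval u y M = aevalAeval u y N) :
    d f ∈ P.toValuationSubring := by
  have hK' : ∀ c : K, d (algebraMap K F c) ∈ placeSubalgebra P := hK
  have huS : u ∈ derSubalgebra d (placeSubalgebra P) hK' :=
    ⟨(helper1370.mem_iff P).mpr hu.ord_nonneg, hdu⟩
  have hyS : y ∈ derSubalgebra d (placeSubalgebra P) hK' :=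
    ⟨(helper1370.mem_iff P).mpr hy.ord_nonneg, hdy⟩
  have hpoly : ∀ G : K[X][Y], aevalAeval u y G ∈ P.toValuationSubring ∧
      d (aevalAeval u y G) ∈ P.toValuationSubring := fun G =>
    aevalAeval_mem_subalgebra (derSubalgebra d (placeSubalgebra P) hK') huS hyS G
  set m : F := aevalAeval u y M with hm
  have hmval : IsVal P m (M.evalEval τ β) := hu.aevalAeval hy M
  have hm0 : m ≠ 0 := hmval.ne_zero hM
  have hminv : m⁻¹ ∈ P.toValuationSubring := by
    rw [helper1370.mem_iff, Place.ord_inv, hmval.ord_eq_zero hM, neg_zero]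
  have hfmem : f ∈ P.toValuationSubring := by
    have h1 : f = aevalAeval u y N * m⁻¹ := by
      rw [← hf, mul_assoc, mul_inv_cancel₀ hm0, mul_one]
    rw [h1]
    exact mul_mem (hpoly N).1 hminv
  have hdf : d f = m⁻¹ * (d (aevalAeval u y N) - f * d m) := by
    have h1 := congrArg d hf
    rw [d.leibniz, smul_eq_mul, smul_eq_mul] at h1
    rw [← h1]
    field_simp
    ring
  rw [hdf]
  exact mul_mem hminv (sub_mem (hpoly N).2 (mul_mem hfmem (hpoly M).2))

end Derivations

section Main

open Fermat.Agent.S27.helper6247 Fermat.Agent.S27.helper4586 Fermat.Agent.S24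

variable {K1 F1 K2 F2 : Type*} [Field K1] [Field F1] [Field K2] [Field F2]
  [Algebra K1 F1] [Algebra K2 F2] [Algebra K1 K2] [Algebra F1 F2] [Algebra K1 F2]
  [IsScalarTower K1 K2 F2] [IsScalarTower K1 F1 F2]
  [IsAlgClosed K1] [CharZero K1] [IsAlgClosed K2] [CharZero K2]

/-- **L-VAL**, explicit form (generation and linear disjointness as separate hypotheses). -/
theorem der_mem_valuationSubring_of_gen_ld
    (x : F1) (hx : Transcendental K1 x) [FiniteDimensional K1⟮x⟯ F1]
    (hx2 : Transcendental K2 (algebraMap F1 F2 x))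
    [FiniteDimensional K2⟮algebraMap F1 F2 x⟯ F2]
    (hgen : IntermediateField.adjoin K2 (Set.range (algebraMap F1 F2)) = ⊤)
    (hld : ∀ (m : ℕ) (c : Fin m → K2), LinearIndependent K1 c →
      LinearIndependent F1 (fun i => algebraMap K2 F2 (c i)))
    (d : Derivation ℤ F2 F2) (h0 : ∀ a : F1, d (algebraMap F1 F2 a) = 0)
    (hK : ∀ c : K2, d (algebraMap K2 F2 c) ∈ Set.range (algebraMap K2 F2))
    (v : Place K2 F2) (u : F2) (hu : u ∈ v.toValuationSubring) :
    d u ∈ v.toValuationSubring := by
  obtain ⟨a, b, τ, β, ha, hb, hall⟩ := exists_localModel x hx hx2 hgen hld v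
  obtain ⟨N, M, hM, hf⟩ := hall u ((helper1370.mem_iff v).mp hu)
  have hK' : ∀ c : K2, d (algebraMap K2 F2 c) ∈ v.toValuationSubring := by
    intro c
    obtain ⟨c', hc'⟩ := hK c
    rw [← hc']
    exact v.algebraMap_mem' c'
  refine der_mem_of_localModel d v hK' _ _ τ β ha hb ?_ ?_ u N M hM hf
  · rw [h0]
    exact zero_mem _
  · rw [h0]
    exact zero_mem _

/-- **L-VAL.** Under a constant field extension `F2 / K2` of `F1 / K1`, a derivation of `F2`
which vanishes on (the image of) `F1` and maps the constants `K2` into themselves preserves the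
valuation ring of every place of `F2 / K2`. -/
theorem der_mem_valuationSubring
    (x : F1) (hx : Transcendental K1 x) [FiniteDimensional K1⟮x⟯ F1]
    (hx2 : Transcendental K2 (algebraMap F1 F2 x))
    [FiniteDimensional K2⟮algebraMap F1 F2 x⟯ F2]
    (hce : helper5871.IsConstExt K1 F1 K2 F2)
    (d : Derivation ℤ F2 F2) (h0 : ∀ a : F1, d (algebraMap F1 F2 a) = 0)
    (hK : ∀ c : K2, d (algebraMap K2 F2 c) ∈ Set.range (algebraMap K2 F2))
    (v : Place K2 F2) (u : F2) (hu : u ∈ v.toValuationSubring) :
    d u ∈ v.toValuationSubring :=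
  der_mem_valuationSubring_of_gen_ld x hx hx2 hce.gen hce.ld d h0 hK v u hu

end Main

end Fermat.Agent.S27.helper104
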