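import Mathlib

/-!
# S27, algebraic track: abstract core of W1c (helper1061)

`B` a Dedekind domain which is an algebra over a field `K`, with `B ⧸ bB` finite-dimensional
over `K` for every `b ≠ 0`.  Table-free, Mathlib only.

* `finrank_quot_mul`  (C1): `dim B/(I J) = dim B/I + dim B/J` for nonzero ideals.
* `finrank_quot_pow`, `le_finrank_of_mem_pow`.
* `exists_rep` (C2): every ideal class has an integral representative of codimension `≤ g`
  as soon as there are `K`-subspaces `L t` with `dim L t ≥ t + 1 - g` whose nonzero elements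
  `b` satisfy `dim B/bB ≤ t`.
* `exists_pow_eq_span_iff` (C3): `hB` is an `n`-th power of an ideal iff `n` divides the
  multiplicity of `h` at every maximal ideal.
* `exists_pow_eq_iff_mk0_eq` (C4): for `hB = I^n`, `h'B = I'^n` (all units `n`-th powers):
  `h h'^(n-1)` is an `n`-th power iff `[I] = [I']`.
* `count_iff`: `N` pairwise inequivalent exhaustive representatives of
  `HSet = {h ≠ 0 | dim B/hB ≤ n g, hB = I^n}` exist iff `#Cl(B)[n] = N`.
-/

set_option autoImplicit false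

namespace Fermat.Agent.S27.helper1061

open Module
open scoped nonZeroDivisors

section Core

variable {K B : Type*} [Field K] [CommRing B] [Algebra K B]

theorem finite_quot (hfin : ∀ b : B, b ≠ 0 → Module.Finite K (B ⧸ Ideal.span {b}))
    {I : Ideal B} (hI : I ≠ ⊥) : Module.Finite K (B ⧸ I) := by
  obtain ⟨b, hbI, hb0⟩ := Submodule.exists_mem_ne_zero_of_ne_bot hI
  have := hfin b hb0
  have hle : Ideal.span {b} ≤ I := (Ideal.span_singleton_le_iff_mem I).2 hbI
  exact Module.Finite.of_surjective ((Submodule.factor hle).restrictScalars K)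
    (Submodule.factor_surjective hle)

variable [IsDedekindDomain B]

/-- In a Dedekind domain: if `I * J ⊔ span {a} = I` then `a * b ∈ I * J` forces `b ∈ J`. -/
theorem mem_of_mul_mem_mul {I J : Ideal B} (hI : I ≠ ⊥) {a : B}
    (ha : I * J ⊔ Ideal.span {a} = I) {b : B} (hab : a * b ∈ I * J) : b ∈ J := by
  have haI : a ∈ I := by
    rw [← ha]; exact Ideal.mem_sup_right (Ideal.mem_span_singleton_self a)
  obtain ⟨A, hA⟩ : I ∣ Ideal.span {a} :=
    Ideal.dvd_iff_le.2 ((Ideal.span_singleton_le_iff_mem I).2 haI)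
  have hcop : J ⊔ A = ⊤ := by
    have h1 : I * (J ⊔ A) = I * ⊤ := by
      rw [Ideal.mul_sup, ← hA, ha, Ideal.mul_top]
    exact mul_left_cancel₀ hI h1
  have hAb : A * Ideal.span {b} ≤ J := by
    have h2 : I * J ∣ I * (A * Ideal.span {b}) := by
      rw [← mul_assoc, ← hA, Ideal.span_singleton_mul_span_singleton, Ideal.dvd_iff_le,
        Ideal.span_singleton_le_iff_mem]
      exact hab
    exact Ideal.dvd_iff_le.1 ((mul_dvd_mul_iff_left hI).1 h2)
  have h1 : (1 : B) ∈ J ⊔ A := by rw [hcop]; trivial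
  obtain ⟨j, hj, α, hα, hjα⟩ := Submodule.mem_sup.1 h1
  have : b = j * b + α * b := by rw [← add_mul, hjα, one_mul]
  rw [this]
  exact J.add_mem (J.mul_mem_right b hj)
    (hAb (Ideal.mul_mem_mul hα (Ideal.mem_span_singleton_self b)))

/-- (C1) additivity of the codimension on products of nonzero ideals. -/
theorem finrank_quot_mul (hfin : ∀ b : B, b ≠ 0 → Module.Finite K (B ⧸ Ideal.span {b}))
    {I J : Ideal B} (hI : I ≠ ⊥) (hJ : J ≠ ⊥) :
    finrank K (B ⧸ (I * J)) = finrank K (B ⧸ I) + finrank K (B ⧸ J) := by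
  have hIJ : I * J ≠ ⊥ := mul_ne_zero hI hJ
  have hle : I * J ≤ I := Ideal.mul_le_left
  obtain ⟨a, ha⟩ := IsDedekindDomain.exists_sup_span_eq hle hIJ
  have haI : a ∈ I := by
    rw [← ha]; exact Ideal.mem_sup_right (Ideal.mem_span_singleton_self a)
  have : Module.Finite K (B ⧸ (I * J)) := finite_quot hfin hIJ
  have : Module.Finite K (B ⧸ I) := finite_quot hfin hI
  have : Module.Finite K (B ⧸ J) := finite_quot hfin hJ
  let g : (B ⧸ (I * J)) →ₗ[K] (B ⧸ I) := (Submodule.factor hle).restrictScalars K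
  have hg : Function.Surjective g := Submodule.factor_surjective hle
  have hmap : J ≤ Submodule.comap (LinearMap.mulLeft B a) (I * J) := by
    intro b hb
    simp only [Submodule.mem_comap, LinearMap.mulLeft_apply]
    exact Ideal.mul_mem_mul haI hb
  let f : (B ⧸ J) →ₗ[K] (B ⧸ (I * J)) :=
    (Submodule.mapQ J (I * J) (LinearMap.mulLeft B a) hmap).restrictScalars K
  have hfmk : ∀ b : B, f (Submodule.Quotient.mk b) = Submodule.Quotient.mk (a * b) := by
    intro b; rfl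
  have hgmk : ∀ b : B, g (Submodule.Quotient.mk b) = Submodule.Quotient.mk b := by
    intro b; rfl
  have hf : Function.Injective f := by
    rw [← LinearMap.ker_eq_bot, LinearMap.ker_eq_bot']
    intro x hx
    obtain ⟨b, rfl⟩ := Submodule.Quotient.mk_surjective J x
    rw [hfmk, Submodule.Quotient.mk_eq_zero] at hx
    rw [Submodule.Quotient.mk_eq_zero]
    exact mem_of_mul_mem_mul hI ha hx
  have hrange : LinearMap.range f = LinearMap.ker g := by
    ext x
    constructor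
    · rintro ⟨y, rfl⟩
      obtain ⟨b, rfl⟩ := Submodule.Quotient.mk_surjective J y
      rw [LinearMap.mem_ker, hfmk, hgmk, Submodule.Quotient.mk_eq_zero]
      exact I.mul_mem_right b haI
    · intro hx
      obtain ⟨y, rfl⟩ := Submodule.Quotient.mk_surjective (I * J) x
      rw [LinearMap.mem_ker, hgmk, Submodule.Quotient.mk_eq_zero] at hx
      rw [← ha] at hx
      obtain ⟨z, hz, w, hw, hzw⟩ := Submodule.mem_sup.1 hx
      obtain ⟨c, rfl⟩ := Ideal.mem_span_singleton'.1 hw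
      refine ⟨Submodule.Quotient.mk c, ?_⟩
      rw [hfmk, ← hzw, eq_comm, ← sub_eq_zero, ← Submodule.Quotient.mk_sub,
        Submodule.Quotient.mk_eq_zero]
      have : z + c * a - a * c = z := by ring
      rw [this]; exact hz
  have h1 := LinearMap.finrank_range_add_finrank_ker g
  rw [LinearMap.range_eq_top.2 hg, finrank_top, ← hrange, LinearMap.finrank_range_of_inj hf] at h1
  omega

omit [IsDedekindDomain B] in
theorem finrank_quot_top : finrank K (B ⧸ (⊤ : Ideal B)) = 0 := by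
  have : Subsingleton (B ⧸ (⊤ : Ideal B)) := Ideal.Quotient.subsingleton_iff.2 rfl
  exact finrank_zero_of_subsingleton

theorem finrank_quot_pow (hfin : ∀ b : B, b ≠ 0 → Module.Finite K (B ⧸ Ideal.span {b}))
    {I : Ideal B} (hI : I ≠ ⊥) (n : ℕ) :
    finrank K (B ⧸ I ^ n) = n * finrank K (B ⧸ I) := by
  induction n with
  | zero => rw [pow_zero, Ideal.one_eq_top, finrank_quot_top, zero_mul]
  | succ n ih =>
    rw [pow_succ, finrank_quot_mul hfin (pow_ne_zero n hI) hI, ih]; ring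

omit [IsDedekindDomain B] [Field K] [Algebra K B] in
theorem span_singleton_ne_bot {h : B} (hh : h ≠ 0) : Ideal.span {h} ≠ ⊥ := by
  rwa [Ne, Ideal.span_singleton_eq_bot]

/-- If `h ∈ P ^ j` for a nonzero proper ideal `P` then `j ≤ dim B / hB`. -/
theorem le_finrank_of_mem_pow (hfin : ∀ b : B, b ≠ 0 → Module.Finite K (B ⧸ Ideal.span {b}))
    {h : B} (hh : h ≠ 0) {P : Ideal B} (hP : P ≠ ⊥) (hP' : P ≠ ⊤) {j : ℕ} (hj : h ∈ P ^ j) :
    j ≤ finrank K (B ⧸ Ideal.span {h}) := by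
  obtain ⟨A, hA⟩ : P ^ j ∣ Ideal.span {h} :=
    Ideal.dvd_iff_le.2 ((Ideal.span_singleton_le_iff_mem _).2 hj)
  have hspan : Ideal.span {h} ≠ ⊥ := span_singleton_ne_bot hh
  have hA0 : A ≠ ⊥ := by
    rintro rfl
    rw [Ideal.mul_bot] at hA
    exact hspan hA
  rw [hA, finrank_quot_mul hfin (pow_ne_zero j hP) hA0, finrank_quot_pow hfin hP]
  have : Module.Finite K (B ⧸ P) := finite_quot hfin hP
  have : Nontrivial (B ⧸ P) := Ideal.Quotient.nontrivial_iff.2 hP'
  have h1 : 0 < finrank K (B ⧸ P) := Module.finrank_pos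
  nlinarith

/-- (C2) every ideal class has an integral representative of codimension `≤ g`. -/
theorem exists_rep (hfin : ∀ b : B, b ≠ 0 → Module.Finite K (B ⧸ Ideal.span {b})) (g : ℕ)
    (hL : ∀ t : ℕ, ∃ L : Submodule K B, Module.Finite K L ∧ t + 1 ≤ finrank K L + g ∧
      ∀ b ∈ L, b ≠ 0 → finrank K (B ⧸ Ideal.span {b}) ≤ t)
    (c : ClassGroup B) :
    ∃ (I : Ideal B) (hI : I ∈ (Ideal B)⁰),
      ClassGroup.mk0 ⟨I, hI⟩ = c ∧ finrank K (B ⧸ I) ≤ g := by
  obtain ⟨⟨J, hJ⟩, hJc⟩ := ClassGroup.mk0_surjective c⁻¹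
  have hJ0 : J ≠ ⊥ := mem_nonZeroDivisors_iff_ne_zero.1 hJ
  have : Module.Finite K (B ⧸ J) := finite_quot hfin hJ0
  obtain ⟨L, hLfin, hLdim, hLw⟩ := hL (finrank K (B ⧸ J) + g)
  let φ : L →ₗ[K] (B ⧸ J) := ((Submodule.mkQ J).restrictScalars K).comp L.subtype
  have hker : LinearMap.ker φ ≠ ⊥ := LinearMap.ker_ne_bot_of_finrank_lt (by omega)
  obtain ⟨⟨b, hbL⟩, hbker, hb0⟩ := Submodule.exists_mem_ne_zero_of_ne_bot hker
  have hbJ : b ∈ J := by
    have : φ ⟨b, hbL⟩ = Submodule.Quotient.mk b := rfl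
    rw [LinearMap.mem_ker, this, Submodule.Quotient.mk_eq_zero] at hbker
    exact hbker
  have hb0' : b ≠ 0 := fun h => hb0 (Subtype.ext h)
  obtain ⟨I, hI⟩ : J ∣ Ideal.span {b} :=
    Ideal.dvd_iff_le.2 ((Ideal.span_singleton_le_iff_mem _).2 hbJ)
  have hspan : Ideal.span {b} ≠ ⊥ := span_singleton_ne_bot hb0'
  have hI0 : I ≠ ⊥ := by
    rintro rfl
    rw [Ideal.mul_bot] at hI
    exact hspan hI
  refine ⟨I, mem_nonZeroDivisors_iff_ne_zero.2 hI0, ?_, ?_⟩
  · have h1 : ClassGroup.mk0 ⟨I, mem_nonZeroDivisors_iff_ne_zero.2 hI0⟩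
        = (ClassGroup.mk0 ⟨J, hJ⟩)⁻¹ :=
      ClassGroup.mk0_eq_mk0_inv_iff.2 ⟨b, hb0', by rw [mul_comm]; exact hI.symm⟩
    rw [h1, hJc, inv_inv]
  · have h1 := hLw b hbL hb0'
    rw [hI, finrank_quot_mul hfin hJ0 hI0] at h1
    omega

/-- Powers are injective on ideals of a Dedekind domain. -/
theorem ideal_pow_inj {I J : Ideal B} {n : ℕ} (hn : n ≠ 0) (h : I ^ n = J ^ n) : I = J := by
  have h1 : I ∣ J := (UniqueFactorizationMonoid.pow_dvd_pow_iff_dvd hn).1 (h ▸ dvd_rfl)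
  have h2 : J ∣ I := (UniqueFactorizationMonoid.pow_dvd_pow_iff_dvd hn).1 (h ▸ dvd_rfl)
  exact le_antisymm (Ideal.dvd_iff_le.1 h2) (Ideal.dvd_iff_le.1 h1)

/-- (C3) `hB` is an `n`-th power of an ideal iff all multiplicities of `h` are divisible
by `n`. -/
theorem exists_pow_eq_span_iff (hB : ¬ IsField B) {h : B} (hh : h ≠ 0) {n : ℕ} (hn : 0 < n) :
    (∃ I : Ideal B, Ideal.span {h} = I ^ n) ↔
      ∀ P : Ideal B, P.IsMaximal → ∃ j : ℕ, n ∣ j ∧ h ∈ P ^ j ∧ h ∉ P ^ (j + 1) := by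
  have hspan : Ideal.span {h} ≠ ⊥ := span_singleton_ne_bot hh
  constructor
  · rintro ⟨I, hI⟩ P hP
    have hP0 : P ≠ ⊥ := Ring.ne_bot_of_isMaximal_of_not_isField hP hB
    have hPp : Prime P := Ideal.prime_of_isPrime hP0 hP.isPrime
    have hI0 : I ≠ 0 := by
      rintro rfl
      rw [zero_pow hn.ne'] at hI
      exact hspan hI
    have hf : FiniteMultiplicity P I := FiniteMultiplicity.of_prime_left hPp hI0
    have hmul : multiplicity P (I ^ n) = n * multiplicity P I := hf.multiplicity_pow hPp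
    have hf' : FiniteMultiplicity P (I ^ n) := hf.pow hPp
    have key : ∀ j : ℕ, h ∈ P ^ j ↔ j ≤ n * multiplicity P I := by
      intro j
      rw [← Ideal.span_singleton_le_iff_mem, ← Ideal.dvd_iff_le, hI,
        hf'.pow_dvd_iff_le_multiplicity, hmul]
    refine ⟨n * multiplicity P I, dvd_mul_right _ _, (key _).2 le_rfl, ?_⟩
    rw [key]
    omega
  · intro H
    classical
    have ha : Associates.mk (Ideal.span {h}) ≠ 0 := Associates.mk_ne_zero.2 hspan
    have hk : ∀ p : Associates (Ideal B), Irreducible p →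
        n ∣ Associates.count p (Associates.mk (Ideal.span {h})).factors := by
      intro p hp
      obtain ⟨P, rfl⟩ := Associates.mk_surjective p
      have hPirr : Irreducible P := Associates.irreducible_mk.1 hp
      have hPp : Prime P := UniqueFactorizationMonoid.irreducible_iff_prime.1 hPirr
      have hPprime : P.IsPrime := Ideal.isPrime_of_prime hPp
      have hP0 : P ≠ ⊥ := hPp.ne_zero
      have hPmax : P.IsMaximal := hPprime.isMaximal hP0
      obtain ⟨j, hnj, hj1, hj2⟩ := H P hPmax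
      rw [Ideal.count_associates_factors_eq hspan hPprime hP0,
        Ideal.count_normalizedFactors_eq (n := j)
          ((Ideal.span_singleton_le_iff_mem _).2 hj1)
          (fun hle => hj2 ((Ideal.span_singleton_le_iff_mem _).1 hle))]
      exact hnj
    obtain ⟨b, hb⟩ := Associates.is_pow_of_dvd_count ha hk
    obtain ⟨I, rfl⟩ := Associates.mk_surjective b
    refine ⟨I, ?_⟩
    rw [← Associates.mk_pow, Associates.mk_eq_mk_iff_associated] at hb
    exact associated_iff_eq.1 hb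

/-- (C4) for `hB = I^n`, `h'B = I'^n`: `h h'^(n-1)` is an `n`-th power iff `[I] = [I']`. -/
theorem exists_pow_eq_iff_mk0_eq {n : ℕ} (hn : 0 < n)
    (hunit : ∀ u : Bˣ, ∃ v : B, v ^ n = (u : B))
    {h h' : B} (hh : h ≠ 0) (hh' : h' ≠ 0) {I I' : Ideal B}
    (hI : Ideal.span {h} = I ^ n) (hI' : Ideal.span {h'} = I' ^ n)
    (hI0 : I ∈ (Ideal B)⁰) (hI0' : I' ∈ (Ideal B)⁰) :
    (∃ u : B, u ^ n = h * h' ^ (n - 1)) ↔
      ClassGroup.mk0 ⟨I, hI0⟩ = ClassGroup.mk0 ⟨I', hI0'⟩ := by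
  obtain ⟨m, rfl⟩ := Nat.exists_eq_succ_of_ne_zero hn.ne'
  simp only [Nat.succ_eq_add_one, Nat.add_sub_cancel] at *
  constructor
  · rintro ⟨u, hu⟩
    have hu0 : u ≠ 0 := by
      rintro rfl
      rw [zero_pow (Nat.succ_ne_zero m)] at hu
      exact mul_ne_zero hh (pow_ne_zero m hh') hu.symm
    have h1 : Ideal.span {u} = I * I' ^ m := by
      apply ideal_pow_inj (Nat.succ_ne_zero m)
      rw [Ideal.span_singleton_pow, hu, ← Ideal.span_singleton_mul_span_singleton,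
        ← Ideal.span_singleton_pow, hI, hI', mul_pow, ← pow_mul, ← pow_mul, mul_comm m]
    have hu_mem : Ideal.span {u} ∈ (Ideal B)⁰ :=
      mem_nonZeroDivisors_iff_ne_zero.2 (span_singleton_ne_bot hu0)
    have h2 : ClassGroup.mk0 ⟨I, hI0⟩ * ClassGroup.mk0 ⟨I', hI0'⟩ ^ m = 1 := by
      rw [← map_pow, ← map_mul]
      have : (⟨I, hI0⟩ : (Ideal B)⁰) * ⟨I', hI0'⟩ ^ m = ⟨Ideal.span {u}, hu_mem⟩ :=
        Subtype.ext (by simp [h1])
      rw [this, ClassGroup.mk0_eq_one_iff]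
      exact ⟨⟨u, rfl⟩⟩
    have h3 : ClassGroup.mk0 ⟨I', hI0'⟩ ^ m * ClassGroup.mk0 ⟨I', hI0'⟩ = 1 := by
      rw [← pow_succ, ← map_pow]
      have hh'_mem : Ideal.span {h'} ∈ (Ideal B)⁰ :=
        mem_nonZeroDivisors_iff_ne_zero.2 (span_singleton_ne_bot hh')
      have : (⟨I', hI0'⟩ : (Ideal B)⁰) ^ (m + 1) = ⟨Ideal.span {h'}, hh'_mem⟩ :=
        Subtype.ext (by simp [hI'])
      rw [this, ClassGroup.mk0_eq_one_iff]
      exact ⟨⟨h', rfl⟩⟩
    calc ClassGroup.mk0 ⟨I, hI0⟩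
        = ClassGroup.mk0 ⟨I, hI0⟩ * (ClassGroup.mk0 ⟨I', hI0'⟩ ^ m * ClassGroup.mk0 ⟨I', hI0'⟩) := by
          rw [h3, mul_one]
      _ = ClassGroup.mk0 ⟨I', hI0'⟩ := by rw [← mul_assoc, h2, one_mul]
  · intro hc
    obtain ⟨x, y, hx, hy, hxy⟩ := ClassGroup.mk0_eq_mk0_iff.1 hc
    simp only at hxy
    have h1 : Ideal.span {x ^ (m + 1) * h} = Ideal.span {y ^ (m + 1) * h'} := by
      rw [← Ideal.span_singleton_mul_span_singleton, ← Ideal.span_singleton_mul_span_singleton,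
        ← Ideal.span_singleton_pow, ← Ideal.span_singleton_pow, hI, hI', ← mul_pow, ← mul_pow, hxy]
    obtain ⟨ε, hε⟩ := Ideal.span_singleton_eq_span_singleton.1 h1
    obtain ⟨v, hv⟩ := hunit ε
    have hv0 : v ≠ 0 := by
      rintro rfl
      rw [zero_pow (Nat.succ_ne_zero m)] at hv
      exact ε.ne_zero hv.symm
    have h2 : (x * v) ^ (m + 1) * (h * h' ^ m) = (y * h') ^ (m + 1) := by
      rw [mul_pow, mul_pow, hv, pow_succ h']
      calc x ^ (m + 1) * ↑ε * (h * h' ^ m) = (x ^ (m + 1) * h * ↑ε) * h' ^ m := by ring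
        _ = y ^ (m + 1) * (h' ^ m * h') := by rw [hε]; ring
    obtain ⟨u, hu⟩ : x * v ∣ y * h' :=
      (IsIntegrallyClosed.pow_dvd_pow_iff (Nat.succ_ne_zero m)).1 ⟨_, h2.symm⟩
    refine ⟨u, ?_⟩
    have h3 : (x * v) ^ (m + 1) * u ^ (m + 1) = (x * v) ^ (m + 1) * (h * h' ^ m) := by
      rw [h2, hu]; ring
    exact mul_left_cancel₀ (pow_ne_zero _ (mul_ne_zero hx hv0)) h3

/-- The elements `h ≠ 0` of codimension `≤ n g` such that `hB` is an `n`-th power. -/
def HSet (K : Type*) {B : Type*} [Field K] [CommRing B] [Algebra K B] (n g : ℕ) : Set B :=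
  {b | b ≠ 0 ∧ finrank K (B ⧸ Ideal.span {b}) ≤ n * g ∧ ∃ I : Ideal B, Ideal.span {b} = I ^ n}

/-- `h h'^(n-1)` is an `n`-th power. -/
def Rel {B : Type*} [CommRing B] (n : ℕ) (b b' : B) : Prop := ∃ u : B, u ^ n = b * b' ^ (n - 1)

omit [IsDedekindDomain B] [Field K] [Algebra K B] in
theorem ne_bot_of_span_eq_pow {n : ℕ} (hn : 0 < n) {b : B} (hb : b ≠ 0) {I : Ideal B}
    (hI : Ideal.span {b} = I ^ n) : I ≠ ⊥ := by
  rintro rfl
  rw [Ideal.bot_pow hn.ne'] at hI
  exact span_singleton_ne_bot hb hI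

/-- The class attached to an element of `HSet`. -/
theorem exists_class {n g : ℕ} (hn : 0 < n) {b : B} (hb : b ∈ HSet K n g) :
    ∃ c : {c : ClassGroup B // c ^ n = 1}, ∀ (I : Ideal B) (hI : I ∈ (Ideal B)⁰),
      Ideal.span {b} = I ^ n → ClassGroup.mk0 ⟨I, hI⟩ = c.1 := by
  obtain ⟨hb0, -, I, hI⟩ := hb
  have hI0 : I ∈ (Ideal B)⁰ :=
    mem_nonZeroDivisors_iff_ne_zero.2 (ne_bot_of_span_eq_pow hn hb0 hI)
  have hb_mem : Ideal.span {b} ∈ (Ideal B)⁰ :=
    mem_nonZeroDivisors_iff_ne_zero.2 (span_singleton_ne_bot hb0)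
  refine ⟨⟨ClassGroup.mk0 ⟨I, hI0⟩, ?_⟩, ?_⟩
  · rw [← map_pow]
    have : (⟨I, hI0⟩ : (Ideal B)⁰) ^ n = ⟨Ideal.span {b}, hb_mem⟩ := Subtype.ext (by simp [hI])
    rw [this, ClassGroup.mk0_eq_one_iff]
    exact ⟨⟨b, rfl⟩⟩
  · intro I' hI0' hI'
    have : I' = I := ideal_pow_inj hn.ne' (hI'.symm.trans hI)
    subst this
    rfl

/-- The class map `Φ : HSet → Cl[n]`. -/
noncomputable def classOf {n g : ℕ} (hn : 0 < n) (b : HSet K (B := B) n g) :
    {c : ClassGroup B // c ^ n = 1} :=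
  (exists_class hn b.2).choose

theorem classOf_spec {n g : ℕ} (hn : 0 < n) (b : HSet K (B := B) n g) (I : Ideal B)
    (hI : I ∈ (Ideal B)⁰) (h : Ideal.span {(b : B)} = I ^ n) :
    ClassGroup.mk0 ⟨I, hI⟩ = (classOf hn b).1 :=
  (exists_class hn b.2).choose_spec I hI h

theorem rel_iff_classOf_eq {n g : ℕ} (hn : 0 < n) (hunit : ∀ u : Bˣ, ∃ v : B, v ^ n = (u : B))
    (b b' : HSet K (B := B) n g) :
    Rel n (b : B) (b' : B) ↔ classOf hn b = classOf hn b' := by
  obtain ⟨I, hI⟩ := b.2.2.2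
  obtain ⟨I', hI'⟩ := b'.2.2.2
  have hI0 : I ∈ (Ideal B)⁰ :=
    mem_nonZeroDivisors_iff_ne_zero.2 (ne_bot_of_span_eq_pow hn b.2.1 hI)
  have hI0' : I' ∈ (Ideal B)⁰ :=
    mem_nonZeroDivisors_iff_ne_zero.2 (ne_bot_of_span_eq_pow hn b'.2.1 hI')
  rw [Rel, exists_pow_eq_iff_mk0_eq hn hunit b.2.1 b'.2.1 hI hI' hI0 hI0',
    classOf_spec hn b I hI0 hI, classOf_spec hn b' I' hI0' hI', Subtype.ext_iff]

theorem classOf_surjective (hfin : ∀ b : B, b ≠ 0 → Module.Finite K (B ⧸ Ideal.span {b}))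
    {n g : ℕ} (hn : 0 < n)
    (hL : ∀ t : ℕ, ∃ L : Submodule K B, Module.Finite K L ∧ t + 1 ≤ finrank K L + g ∧
      ∀ b ∈ L, b ≠ 0 → finrank K (B ⧸ Ideal.span {b}) ≤ t) :
    Function.Surjective (classOf (K := K) (B := B) (g := g) hn) := by
  rintro ⟨c, hc⟩
  obtain ⟨I, hI0, hIc, hIg⟩ := exists_rep hfin g hL c
  have hI0' : I ≠ ⊥ := mem_nonZeroDivisors_iff_ne_zero.1 hI0
  have hpow_mem : I ^ n ∈ (Ideal B)⁰ := mem_nonZeroDivisors_iff_ne_zero.2 (pow_ne_zero n hI0')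
  have h1 : ClassGroup.mk0 ⟨I ^ n, hpow_mem⟩ = 1 := by
    have : (⟨I ^ n, hpow_mem⟩ : (Ideal B)⁰) = ⟨I, hI0⟩ ^ n := Subtype.ext (by simp)
    rw [this, map_pow, hIc, hc]
  obtain ⟨⟨b, hb⟩⟩ := (ClassGroup.mk0_eq_one_iff hpow_mem).1 h1
  have hb' : Ideal.span {b} = I ^ n := hb.symm
  have hb0 : b ≠ 0 := by
    rintro rfl
    rw [Ideal.span_singleton_eq_bot.2 rfl] at hb'
    exact pow_ne_zero n hI0' hb'.symm
  have hbH : b ∈ HSet K n g := by
    refine ⟨hb0, ?_, I, hb'⟩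
    rw [hb', finrank_quot_pow hfin hI0']
    exact Nat.mul_le_mul_left n hIg
  refine ⟨⟨b, hbH⟩, Subtype.ext ?_⟩
  rw [← classOf_spec hn ⟨b, hbH⟩ I hI0 hb', hIc]

/-- **Abstract count**: `N` pairwise inequivalent exhaustive representatives of `HSet` exist iff
the `n`-torsion of the class group has `N` elements. -/
theorem count_iff (hfin : ∀ b : B, b ≠ 0 → Module.Finite K (B ⧸ Ideal.span {b}))
    {n g : ℕ} (hn : 0 < n) (hunit : ∀ u : Bˣ, ∃ v : B, v ^ n = (u : B))
    (hL : ∀ t : ℕ, ∃ L : Submodule K B, Module.Finite K L ∧ t + 1 ≤ finrank K L + g ∧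
      ∀ b ∈ L, b ≠ 0 → finrank K (B ⧸ Ideal.span {b}) ≤ t)
    {N : ℕ} (hN : 0 < N) :
    (∃ hs : Fin N → B, (∀ a, hs a ∈ HSet K n g) ∧ (∀ a a', a ≠ a' → ¬ Rel n (hs a) (hs a')) ∧
        ∀ b ∈ HSet K n g, ∃ a, Rel n b (hs a)) ↔
      Nat.card {c : ClassGroup B // c ^ n = 1} = N := by
  constructor
  · rintro ⟨hs, hH, hne, hex⟩
    let F : Fin N → {c : ClassGroup B // c ^ n = 1} := fun a => classOf hn ⟨hs a, hH a⟩
    have hF : Function.Bijective F := by
      constructor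
      · intro a a' haa'
        by_contra hne'
        exact hne a a' hne' ((rel_iff_classOf_eq hn hunit ⟨hs a, hH a⟩ ⟨hs a', hH a'⟩).2 haa')
      · intro c
        obtain ⟨b, rfl⟩ := classOf_surjective hfin hn hL c
        obtain ⟨a, ha⟩ := hex b.1 b.2
        exact ⟨a, ((rel_iff_classOf_eq hn hunit b ⟨hs a, hH a⟩).1 ha).symm⟩
    rw [← Nat.card_eq_of_bijective F hF, Nat.card_fin]
  · intro hcard
    have hfinite : Finite {c : ClassGroup B // c ^ n = 1} :=
      Nat.finite_of_card_ne_zero (by omega)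
    let e : {c : ClassGroup B // c ^ n = 1} ≃ Fin N := Finite.equivFinOfCardEq hcard
    choose r hr using classOf_surjective (K := K) (B := B) (g := g) hfin hn hL
    refine ⟨fun a => (r (e.symm a) : B), fun a => (r (e.symm a)).2, ?_, ?_⟩
    · intro a a' haa' hrel
      have := (rel_iff_classOf_eq hn hunit (r (e.symm a)) (r (e.symm a'))).1 hrel
      rw [hr, hr] at this
      exact haa' (e.symm.injective this)
    · intro b hb
      refine ⟨e (classOf hn ⟨b, hb⟩), ?_⟩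
      have : Rel n ((⟨b, hb⟩ : HSet K n g) : B) (r (e.symm (e (classOf hn ⟨b, hb⟩))) : B) := by
        rw [rel_iff_classOf_eq hn hunit, hr, Equiv.symm_apply_apply]
      exact this

end Core

end Fermat.Agent.S27.helper1061
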