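import Fermat.Agent.S27.helper3351_WSpec
import Fermat.Agent.S27.helper1061_CountCore

/-!
# S27, algebraic track: W1c = `helper3351.Stmt_CountIff` (helper1061)

`Count n ↔ #Cl(Alg T)[n] = n^(2g)` for a valid table `T` over an algebraically closed field,
hypothesis-passing on the W1 API Props of `helper3351_WSpec`
(`Stmt_WtBasic`, `Stmt_WtDim`, `Stmt_Nongaps`, `Stmt_PtIdeal`, `Stmt_MaxIdeal`, `Stmt_OrdGE`;
`Stmt_WtMul` is not needed).

The abstract Dedekind core is `helper1061_CountCore.count_iff`; this file is the table adapter: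

* `exists_BElt_of_natDegree_le`, `npow_eq_pow` : coefficient tuples and powers;
* `wtLE_iff_finrank` : `wt b ≤ t ↔ dim B/bB ≤ t`;
* `unit_eq_smul_one`, `hunit_of`, `not_isField_of`, `hL_of` : the hypotheses of the core;
* `inH_iff`   : `InH n h ↔ h ∈ HSet`;
* `equiv_iff` : `Tab.Equiv n h h' ↔ Rel n h h'`;
* `stmt_CountIff`.
-/

set_option autoImplicit false

open Polynomial Module
open scoped nonZeroDivisors

namespace Fermat.Agent.S27.helper1061

open Fermat.Agent.S27.helper3351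

universe u

section Plumbing

variable {K : Type u} [Field K] {τ : WType}

/-- A tuple of polynomials of degree `≤ d` is the tuple of a coefficient table. -/
theorem exists_BElt_of_natDegree_le {d : ℕ} (a : Elt τ K) (h : ∀ i, (a i).natDegree ≤ d) :
    ∃ b : BElt τ K d, b.toElt = a := by
  refine ⟨fun i e => (a i).coeff (e : ℕ), ?_⟩
  funext i
  show polyOf (fun e : Fin (d + 1) => (a i).coeff (e : ℕ)) = a i
  unfold polyOf
  rw [Fin.sum_univ_eq_sum_range (fun e => C ((a i).coeff e) * X ^ e) (d + 1)]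
  conv_rhs => rw [Polynomial.as_sum_range' (a i) (d + 1) (Nat.lt_succ_of_le (h i))]
  exact Finset.sum_congr rfl fun e _ => Polynomial.C_mul_X_pow_eq_monomial

theorem natDegree_le_of_wtLE (hm : 0 < τ.m) {a : Elt τ K} {t : ℕ} (h : wtLE a t) (i : Fin τ.m) :
    (a i).natDegree ≤ t := by
  by_cases h0 : a i = 0
  · rw [h0, natDegree_zero]; exact Nat.zero_le t
  · have h1 := h i h0
    have h2 : (a i).natDegree ≤ τ.m * (a i).natDegree := Nat.le_mul_of_pos_left _ hm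
    omega

variable (T : Tab τ K) [Fact T.PreValid]

theorem npow_eq_pow (a : T.Alg) (n : ℕ) : T.npow a.toElt n = (a ^ n).toElt := by
  induction n with
  | zero => rfl
  | succ n ih =>
    rw [pow_succ, Tab.Alg.toElt_mul, ← ih]
    rfl

end Plumbing

section Dict

variable {K : Type u} [Field K] {τ : WType} (T : Tab τ K) [Fact T.PreValid]

theorem hfin_of (hWtDim : Stmt_WtDim.{u}) :
    ∀ b : T.Alg, b ≠ 0 → Module.Finite K (T.Alg ⧸ Ideal.span {b}) :=
  fun b hb => ((hWtDim K τ T).2.1 b hb).1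

theorem wtLE_iff_finrank (hWtBasic : Stmt_WtBasic.{u}) (hWtDim : Stmt_WtDim.{u})
    {b : T.Alg} (hb : b ≠ 0) (t : ℕ) :
    wtLE b.toElt t ↔ finrank K (T.Alg ⧸ Ideal.span {b}) ≤ t := by
  rw [(hWtBasic K τ T).1 b t, ← ((hWtDim K τ T).2.1 b hb).2]
  exact WithBot.coe_le_coe

/-- Units of the table algebra are nonzero constants. -/
theorem unit_eq_smul_one (hWtBasic : Stmt_WtBasic.{u}) (hWtDim : Stmt_WtDim.{u})
    {a : T.Alg} (ha : IsUnit a) : ∃ c : K, a = c • (1 : T.Alg) := by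
  have hw : T.wt a.toElt = 0 := ((hWtDim K τ T).2.2 a).1 ha
  have hw1 : T.wt (1 : T.Alg).toElt = 0 := ((hWtDim K τ T).2.2 1).1 isUnit_one
  have ha0 : a ≠ 0 := by
    intro h0
    have := ((hWtBasic K τ T).2.1 a).2 h0
    rw [hw] at this
    exact absurd this (by simp)
  obtain ⟨c, -, hc⟩ := (hWtBasic K τ T).2.2.2.2 a 1 ha0 (hw.trans hw1.symm)
  rw [hw] at hc
  have hbot : T.wt (a - c • (1 : T.Alg)).toElt = ⊥ := by
    rcases h : T.wt (a - c • (1 : T.Alg)).toElt with _ | k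
    · rfl
    · rw [h] at hc
      exact absurd hc (by
        intro h'
        have : (k : WithBot ℕ) < ((0 : ℕ) : WithBot ℕ) := h'
        exact absurd (WithBot.coe_lt_coe.1 this) (Nat.not_lt_zero k))
  have := ((hWtBasic K τ T).2.1 _).1 hbot
  exact ⟨c, sub_eq_zero.1 this⟩

theorem hunit_of [IsAlgClosed K] (hWtBasic : Stmt_WtBasic.{u}) (hWtDim : Stmt_WtDim.{u})
    {n : ℕ} (hn : 0 < n) : ∀ u : T.Algˣ, ∃ v : T.Alg, v ^ n = (u : T.Alg) := by
  intro u
  obtain ⟨c, hc⟩ := unit_eq_smul_one T hWtBasic hWtDim u.isUnit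
  obtain ⟨e, he⟩ := IsAlgClosed.exists_pow_nat_eq c hn
  refine ⟨e • (1 : T.Alg), ?_⟩
  rw [_root_.smul_pow, one_pow, he, hc]

theorem hL_of (hWtBasic : Stmt_WtBasic.{u}) (hWtDim : Stmt_WtDim.{u}) (hNon : Stmt_Nongaps)
    (hgood : τ.Good) :
    ∀ t : ℕ, ∃ L : Submodule K T.Alg, Module.Finite K L ∧ t + 1 ≤ finrank K L + τ.genus ∧
      ∀ b ∈ L, b ≠ 0 → finrank K (T.Alg ⧸ Ideal.span {b}) ≤ t := by
  intro t
  refine ⟨T.Lspace t, ((hWtDim K τ T).1 t).1, ?_, ?_⟩
  · rw [((hWtDim K τ T).1 t).2]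
    exact (hNon τ hgood).1 t
  · intro b hb hb0
    exact (wtLE_iff_finrank T hWtBasic hWtDim hb0 t).1 hb

/-- The table algebra is not a field. -/
theorem not_isField_of (hWtBasic : Stmt_WtBasic.{u}) (hWtDim : Stmt_WtDim.{u})
    (hNon : Stmt_Nongaps) (hgood : τ.Good) : ¬ IsField T.Alg := by
  intro hF
  have h1 : ∀ b : T.Alg, ∃ c : K, b = c • (1 : T.Alg) := by
    intro b
    by_cases hb : b = 0
    · exact ⟨0, by rw [hb, zero_smul]⟩
    · obtain ⟨b', hb'⟩ := hF.mul_inv_cancel hb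
      exact unit_eq_smul_one T hWtBasic hWtDim (IsUnit.of_mul_eq_one b' hb')
  have hfinL := ((hWtDim K τ T).1 (τ.genus + 1)).1
  have hdim := ((hWtDim K τ T).1 (τ.genus + 1)).2
  have h2 := (hNon τ hgood).1 (τ.genus + 1)
  have hle : T.Lspace (τ.genus + 1) ≤ Submodule.span K {(1 : T.Alg)} := by
    intro b _
    obtain ⟨c, hc⟩ := h1 b
    rw [hc]
    exact Submodule.smul_mem _ c (Submodule.subset_span rfl)
  have h3 : finrank K (T.Lspace (τ.genus + 1)) ≤ 1 :=
    (Submodule.finrank_mono hle).trans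
      ((finrank_span_le_card ({(1 : T.Alg)} : Set T.Alg)).trans (by simp))
  omega

end Dict

section Main

variable {K : Type u} [Field K] [IsAlgClosed K] {τ : WType} (T : Tab τ K) [Fact T.PreValid]
  [IsDedekindDomain T.Alg]

/-- `InH` in terms of the abstract `HSet`. -/
theorem inH_iff (hWtBasic : Stmt_WtBasic.{u}) (hWtDim : Stmt_WtDim.{u}) (hNon : Stmt_Nongaps)
    (hPt : Stmt_PtIdeal.{u}) (hMax : Stmt_MaxIdeal.{u}) (hOrd : Stmt_OrdGE.{u})
    (hgood : τ.Good) {n : ℕ} (hn : 0 < n) (h : BElt τ K (n * τ.genus)) :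
    T.InH n h ↔ Tab.Alg.ofElt T h.toElt ∈ HSet K n τ.genus := by
  have hfin := hfin_of T hWtDim
  have hB := not_isField_of T hWtBasic hWtDim hNon hgood
  constructor
  · rintro ⟨h0, hwt, hpts⟩
    have hb0 : Tab.Alg.ofElt T h.toElt ≠ 0 := h0
    refine ⟨hb0, (wtLE_iff_finrank T hWtBasic hWtDim hb0 _).1 hwt, ?_⟩
    rw [exists_pow_eq_span_iff hB hb0 hn]
    intro P hP
    obtain ⟨x₀, ψ, hpt, rfl⟩ := hMax K τ T P hP
    obtain ⟨j, -, hnj, hj1, hj2⟩ := hpts x₀ ψ hpt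
    exact ⟨j, hnj, (hOrd K τ T x₀ ψ hpt (Tab.Alg.ofElt T h.toElt) j).1 hj1,
      fun hmem => hj2 ((hOrd K τ T x₀ ψ hpt (Tab.Alg.ofElt T h.toElt) (j + 1)).2 hmem)⟩
  · rintro ⟨hb0, hdim, hI⟩
    refine ⟨hb0, (wtLE_iff_finrank T hWtBasic hWtDim hb0 _).2 hdim, ?_⟩
    intro x₀ ψ hpt
    have hPmax := (hPt K τ T x₀ ψ hpt).1
    obtain ⟨j, hnj, hj1, hj2⟩ := (exists_pow_eq_span_iff hB hb0 hn).1 hI _ hPmax
    refine ⟨j, ?_, hnj, (hOrd K τ T x₀ ψ hpt (Tab.Alg.ofElt T h.toElt) j).2 hj1,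
      fun hO => hj2 ((hOrd K τ T x₀ ψ hpt (Tab.Alg.ofElt T h.toElt) (j + 1)).1 hO)⟩
    exact (le_finrank_of_mem_pow hfin hb0 (Ring.ne_bot_of_isMaximal_of_not_isField hPmax hB)
      hPmax.ne_top hj1).trans hdim

omit [IsAlgClosed K] in
/-- `Tab.Equiv` in terms of the abstract `Rel`. -/
theorem equiv_iff (hWtBasic : Stmt_WtBasic.{u}) (hWtDim : Stmt_WtDim.{u})
    (hgood : τ.Good) {n : ℕ} (hn : 0 < n) (h h' : BElt τ K (n * τ.genus))
    (hb : Tab.Alg.ofElt T h.toElt ∈ HSet K n τ.genus)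
    (hb' : Tab.Alg.ofElt T h'.toElt ∈ HSet K n τ.genus) :
    T.Equiv n h h' ↔ Rel n (Tab.Alg.ofElt T h.toElt) (Tab.Alg.ofElt T h'.toElt) := by
  have hfin := hfin_of T hWtDim
  constructor
  · rintro ⟨u, hu⟩
    refine ⟨Tab.Alg.ofElt T u.toElt, ?_⟩
    have : ((Tab.Alg.ofElt T u.toElt) ^ n).toElt
        = (Tab.Alg.ofElt T h.toElt * Tab.Alg.ofElt T h'.toElt ^ (n - 1)).toElt := by
      rw [← npow_eq_pow, Tab.Alg.toElt_mul, ← npow_eq_pow]
      exact hu
    exact this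
  · rintro ⟨u, hu⟩
    have hu0 : u ≠ 0 := by
      rintro rfl
      rw [zero_pow hn.ne'] at hu
      exact mul_ne_zero hb.1 (pow_ne_zero _ hb'.1) hu.symm
    have e1 : n * finrank K (T.Alg ⧸ Ideal.span {u})
        = finrank K (T.Alg ⧸ Ideal.span {Tab.Alg.ofElt T h.toElt})
          + (n - 1) * finrank K (T.Alg ⧸ Ideal.span {Tab.Alg.ofElt T h'.toElt}) := by
      rw [← finrank_quot_pow hfin (span_singleton_ne_bot hu0),
        ← finrank_quot_pow hfin (span_singleton_ne_bot hb'.1),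
        ← finrank_quot_mul hfin (span_singleton_ne_bot hb.1)
          (pow_ne_zero _ (span_singleton_ne_bot hb'.1)),
        Ideal.span_singleton_pow, Ideal.span_singleton_pow,
        Ideal.span_singleton_mul_span_singleton, hu]
    have hdim : finrank K (T.Alg ⧸ Ideal.span {u}) ≤ n * τ.genus := by
      have h1 := hb.2.1
      have h2 := hb'.2.1
      obtain ⟨m, rfl⟩ := Nat.exists_eq_succ_of_ne_zero hn.ne'
      simp only [Nat.succ_eq_add_one, Nat.add_sub_cancel] at e1 h1 h2 ⊢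
      have h3 : m * finrank K (T.Alg ⧸ Ideal.span {Tab.Alg.ofElt T h'.toElt})
          ≤ m * ((m + 1) * τ.genus) := Nat.mul_le_mul_left m h2
      refine Nat.le_of_mul_le_mul_left (c := m + 1) ?_ (Nat.succ_pos m)
      rw [e1]
      calc _ ≤ (m + 1) * τ.genus + m * ((m + 1) * τ.genus) := Nat.add_le_add h1 h3
        _ = (m + 1) * ((m + 1) * τ.genus) := by ring
    have hwt : wtLE u.toElt (n * τ.genus) := (wtLE_iff_finrank T hWtBasic hWtDim hu0 _).2 hdim
    obtain ⟨v, hv⟩ := exists_BElt_of_natDegree_le u.toElt (natDegree_le_of_wtLE hgood.1 hwt)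
    refine ⟨v, ?_⟩
    rw [hv, npow_eq_pow, hu, Tab.Alg.toElt_mul, ← npow_eq_pow]
    rfl

end Main

/-- **W1c** (`helper3351.Stmt_CountIff`): `Count n` says that the class group of the table
algebra has exactly `n^(2g)` elements killed by `n`. -/
theorem stmt_CountIff (hWtBasic : Stmt_WtBasic.{u}) (hWtDim : Stmt_WtDim.{u})
    (hNon : Stmt_Nongaps) (hPt : Stmt_PtIdeal.{u}) (hMax : Stmt_MaxIdeal.{u})
    (hOrd : Stmt_OrdGE.{u}) : Stmt_CountIff.{u} := by
  intro K _ _ τ T _ _ n hn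
  have hgood : τ.Good := (Fact.out : T.Valid).good
  have hfin := hfin_of T hWtDim
  have hunit := hunit_of T hWtBasic hWtDim hn
  have hL := hL_of T hWtBasic hWtDim hNon hgood
  have hN : 0 < n ^ (2 * τ.genus) := pow_pos hn _
  rw [← count_iff hfin hn hunit hL hN]
  have hin := fun h => inH_iff T hWtBasic hWtDim hNon hPt hMax hOrd hgood hn h
  have heq := fun h h' hb hb' => equiv_iff T hWtBasic hWtDim hgood hn h h' hb hb'
  have lift : ∀ b : T.Alg, b ∈ HSet K n τ.genus →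
      ∃ h : BElt τ K (n * τ.genus), Tab.Alg.ofElt T h.toElt = b := by
    intro b hb
    have hwt : wtLE b.toElt (n * τ.genus) :=
      (wtLE_iff_finrank T hWtBasic hWtDim hb.1 _).2 hb.2.1
    obtain ⟨v, hv⟩ := exists_BElt_of_natDegree_le b.toElt (natDegree_le_of_wtLE hgood.1 hwt)
    exact ⟨v, hv⟩
  constructor
  · rintro ⟨hs, hH, hne, hex⟩
    refine ⟨fun a => Tab.Alg.ofElt T (hs a).toElt, fun a => (hin _).1 (hH a), ?_, ?_⟩
    · intro a a' haa' hrel
      exact hne a a' haa' ((heq _ _ ((hin _).1 (hH a)) ((hin _).1 (hH a'))).2 hrel)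
    · intro b hb
      obtain ⟨h, rfl⟩ := lift b hb
      obtain ⟨a, ha⟩ := hex h ((hin _).2 hb)
      exact ⟨a, (heq _ _ hb ((hin _).1 (hH a))).1 ha⟩
  · rintro ⟨hs', hH, hne, hex⟩
    choose hs hhs using fun a => lift (hs' a) (hH a)
    have hH' : ∀ a, Tab.Alg.ofElt T (hs a).toElt ∈ HSet K n τ.genus := fun a => by
      rw [hhs]; exact hH a
    refine ⟨hs, fun a => (hin _).2 (hH' a), ?_, ?_⟩
    · intro a a' haa' hE
      apply hne a a' haa'
      have := (heq _ _ (hH' a) (hH' a')).1 hE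
      rwa [hhs, hhs] at this
    · intro h hh
      have hb := (hin _).1 hh
      obtain ⟨a, ha⟩ := hex _ hb
      refine ⟨a, (heq h (hs a) hb (hH' a)).2 ?_⟩
      rw [hhs]; exact ha

end Fermat.Agent.S27.helper1061
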