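/-
S27 leaf M5b' (helper1070, backup of helper8392): `helper6247.Stmt_FibreUnram` from
`helper6247.Stmt_Ev`.

If all zeros of `f` are centres `Q k 0` of charts `(f, Q k, r k)` with coordinate `f` itself,
then for small `t` every zero of `f - t` is `Q k t` for some `k`.

Proof: the zeros of `f` are `n = [F : ℂ(f)]` simple places (fundamental identity, landed
S24 module `helper483_PlacesFF`); for small `t` the places `Q k t` over the chosen charts are
pairwise distinct (separate the centres by a function, `helper1070_Approx.exists_ord_eq`, and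
use continuity of evaluation along charts) simple zeros of `f - t`; since the zero divisor of
`f - t` has degree `n` again, these are all its zeros.
-/
import Fermat.Agent.S27.helper6247_Spec
import Fermat.Agent.S27.helper1070_Approx
import Fermat.Agent.S24.helper483_PlacesFF

set_option autoImplicit false

open AlgebraicCurve IntermediateField
open scoped Topology

namespace Fermat.Agent.S27.helper1070

open Fermat.Agent.S27.helper6247

/-- A positive lower bound for finitely many positive reals. -/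
theorem exists_pos_le_of_fintype {ι : Type*} [Fintype ι] (d : ι → ℝ) (hd : ∀ i, 0 < d i) :
    ∃ δ : ℝ, 0 < δ ∧ ∀ i, δ ≤ d i := by
  have hnn : 0 ≤ ∑ i, (d i)⁻¹ := Finset.sum_nonneg fun i _ => (inv_pos.mpr (hd i)).le
  refine ⟨(1 + ∑ i, (d i)⁻¹)⁻¹, by positivity, fun i => ?_⟩
  have h1 : (d i)⁻¹ ≤ 1 + ∑ i, (d i)⁻¹ := by
    have := Finset.single_le_sum (f := fun i => (d i)⁻¹)
      (fun i _ => (inv_pos.mpr (hd i)).le) (Finset.mem_univ i)
    linarith
  have h2 : 0 < (d i)⁻¹ := inv_pos.mpr (hd i)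
  calc (1 + ∑ i, (d i)⁻¹)⁻¹ ≤ ((d i)⁻¹)⁻¹ := inv_anti₀ h2 h1
    _ = d i := inv_inv _

/-- Two charts centred at distinct places stay apart near their centres. -/
theorem exists_delta_ne (hEv : Stmt_Ev.{0, 0}) {F : Type} [Field F] [Algebra ℂ F] (x : F)
    (hx : Transcendental ℂ x) [FiniteDimensional ℂ⟮x⟯ F] {u u' : F} {Q Q' : ℂ → Place ℂ F}
    {r r' : ℝ} (hQ : IsChart u Q r) (hQ' : IsChart u' Q' r') (hne : Q 0 ≠ Q' 0) :
    ∃ δ > 0, ∀ s s' : ℂ, ‖s‖ < δ → ‖s'‖ < δ → Q s ≠ Q' s' := by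
  classical
  obtain ⟨g, hg0, hg⟩ := exists_ord_eq ({Q 0, Q' 0} : Finset (Place ℂ F))
    (fun w => if w = Q 0 then 1 else 0)
  have hgP : (Q 0).ord g = 1 := by
    have := hg (Q 0) (by simp)
    simpa using this
  have hgP' : (Q' 0).ord g = 0 := by
    have := hg (Q' 0) (by simp)
    simpa [Ne.symm hne] using this
  have h0 : (0 : ℂ) ∈ Metric.ball (0 : ℂ) r := Metric.mem_ball_self hQ.pos
  have h0' : (0 : ℂ) ∈ Metric.ball (0 : ℂ) r' := Metric.mem_ball_self hQ'.pos
  have hc1 : ContinuousAt (fun s => ev (Q s) g) 0 :=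
    (hQ.analytic g 0 h0 (by omega)).2.continuousAt
  have hc2 : ContinuousAt (fun s => ev (Q' s) g) 0 :=
    (hQ'.analytic g 0 h0' (by omega)).2.continuousAt
  have hv1 : ev (Q 0) g = 0 :=
    ((hEv ℂ F x hx (Q 0)).2.2.1 g (by omega)).mpr (Or.inr (by omega))
  have hv2 : ev (Q' 0) g ≠ 0 := by
    intro h
    rcases ((hEv ℂ F x hx (Q' 0)).2.2.1 g (by omega)).mp h with h | h
    · exact hg0 h
    · omega
  have hε : 0 < ‖ev (Q' 0) g‖ / 2 := by
    have := norm_pos_iff.mpr hv2
    positivity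
  obtain ⟨δ1, hδ1, h1⟩ := Metric.continuousAt_iff.mp hc1 (‖ev (Q' 0) g‖ / 2) hε
  obtain ⟨δ2, hδ2, h2⟩ := Metric.continuousAt_iff.mp hc2 (‖ev (Q' 0) g‖ / 2) hε
  refine ⟨min δ1 δ2, lt_min hδ1 hδ2, fun s s' hs hs' heq => ?_⟩
  have e1 := h1 (x := s) (by
    rw [dist_zero_right]; exact lt_of_lt_of_le hs (min_le_left _ _))
  have e2 := h2 (x := s') (by
    rw [dist_zero_right]; exact lt_of_lt_of_le hs' (min_le_right _ _))
  simp only [dist_eq_norm, hv1, sub_zero] at e1 e2
  rw [heq] at e1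
  have h3 : ‖ev (Q' 0) g‖ ≤ ‖ev (Q' s') g‖ + ‖ev (Q' s') g - ev (Q' 0) g‖ := by
    have := norm_sub_le (ev (Q' s') g) (ev (Q' s') g - ev (Q' 0) g)
    simpa using this
  linarith

/-- `Stmt_FibreUnram` of the S27 specification, from `Stmt_Ev`. -/
theorem fibreUnram_of (hEv : Stmt_Ev.{0, 0}) : Stmt_FibreUnram := by
  classical
  intro F _ _ x hx _ f m Q r hQ hzero
  by_cases hf : Transcendental ℂ f
  swap
  · -- `f` is a constant: `f - t` has no zeros at all
    have hfa : IsAlgebraic ℂ f := by rwa [Transcendental, not_not] at hf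
    obtain ⟨c, hc⟩ := Fermat.Agent.S24.helper483.exists_algebraMap_eq_of_isAlgebraic hfa
    refine ⟨1, one_pos, fun t _ v hv => ?_⟩
    exfalso
    rw [← hc, ← map_sub, Fermat.Agent.S24.helper483.ord_algebraMap] at hv
    exact lt_irrefl _ hv
  · have : FiniteDimensional ℂ⟮f⟯ F :=
      Fermat.Agent.S24.helper483.finiteDimensional_adjoin_simple_of_transcendental x hf
    -- the zeros of `f`
    obtain ⟨s0, hs0, hsum0⟩ := Fermat.Agent.S24.helper483.exists_finset_zeros f hf (0 : ℂ)
    simp only [map_zero, sub_zero] at hs0 hsum0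
    have hκ : ∀ v : {v // v ∈ s0}, ∃ k, v.1 = Q k 0 := fun v => hzero v.1 ((hs0 v.1).mp v.2)
    choose κ hκ using hκ
    have hball0 : ∀ k, (0 : ℂ) ∈ Metric.ball (0 : ℂ) (r k) :=
      fun k => Metric.mem_ball_self (hQ k).pos
    have hord0 : ∀ v : {v // v ∈ s0}, v.1.ord f = 1 := fun v => by
      have := (hQ (κ v)).unif 0 (hball0 _)
      rw [map_zero, sub_zero, ← hκ v] at this
      exact this
    have hcard0 : (s0.card : ℤ) = Module.finrank ℂ⟮f⟯ F := by
      rw [← hsum0, ← Finset.sum_attach, Finset.sum_congr rfl (fun v _ => hord0 v)]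
      simp
    -- pairwise separation of the chosen charts
    have hpair : ∀ p : {v // v ∈ s0} × {v // v ∈ s0}, ∃ d > 0, p.1 ≠ p.2 →
        ∀ t : ℂ, ‖t‖ < d → Q (κ p.1) t ≠ Q (κ p.2) t := by
      intro p
      by_cases hp : p.1 = p.2
      · exact ⟨1, one_pos, fun h => absurd hp h⟩
      · have hne : Q (κ p.1) 0 ≠ Q (κ p.2) 0 := by
          rw [← hκ p.1, ← hκ p.2]
          exact fun h => hp (Subtype.ext h)
        obtain ⟨d, hd, hdd⟩ := exists_delta_ne hEv x hx (hQ (κ p.1)) (hQ (κ p.2)) hne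
        exact ⟨d, hd, fun _ t ht => hdd t t ht ht⟩
    choose d hd hdd using hpair
    obtain ⟨δ1, hδ1, hδ1le⟩ := exists_pos_le_of_fintype d hd
    obtain ⟨δ2, hδ2, hδ2le⟩ := exists_pos_le_of_fintype
      (fun v : {v // v ∈ s0} => r (κ v)) (fun v => (hQ (κ v)).pos)
    refine ⟨min δ1 δ2, lt_min hδ1 hδ2, fun t ht v hv => ?_⟩
    obtain ⟨st, hst, hsumt⟩ := Fermat.Agent.S24.helper483.exists_finset_zeros f hf t
    have hvst : v ∈ st := (hst v).mpr hv
    -- the `n` places `Q (κ w) t`
    have hinj : Set.InjOn (fun w : {v // v ∈ s0} => Q (κ w) t) (s0.attach : Set _) := by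
      intro w _ w' _ h
      by_contra hne
      exact hdd (w, w') hne t
        (lt_of_lt_of_le ht ((min_le_left _ _).trans (hδ1le (w, w')))) h
    have hJcard : (s0.attach.image (fun w => Q (κ w) t)).card = s0.card := by
      rw [Finset.card_image_of_injOn hinj, Finset.card_attach]
    have hJsub : s0.attach.image (fun w => Q (κ w) t) ⊆ st := by
      intro w hw
      obtain ⟨w0, -, rfl⟩ := Finset.mem_image.mp hw
      rw [hst]
      have htb : t ∈ Metric.ball (0 : ℂ) (r (κ w0)) := by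
        rw [Metric.mem_ball, dist_zero_right]
        exact lt_of_lt_of_le ht ((min_le_right _ _).trans (hδ2le w0))
      rw [(hQ (κ w0)).unif t htb]
      exact one_pos
    have hstcard : (st.card : ℤ) ≤ Module.finrank ℂ⟮f⟯ F := by
      rw [← hsumt]
      calc (st.card : ℤ) = ∑ _v ∈ st, (1 : ℤ) := by simp
        _ ≤ ∑ v ∈ st, v.ord (f - algebraMap ℂ F t) := Finset.sum_le_sum fun w hw => by
            have := (hst w).mp hw
            omega
    have hJeq : s0.attach.image (fun w => Q (κ w) t) = st :=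
      Finset.eq_of_subset_of_card_le hJsub (by
        have : (st.card : ℤ) ≤ ((s0.attach.image (fun w => Q (κ w) t)).card : ℤ) := by
          rw [hJcard, hcard0]; exact hstcard
        exact_mod_cast this)
    rw [← hJeq] at hvst
    obtain ⟨w0, -, hw0⟩ := Finset.mem_image.mp hvst
    exact ⟨κ w0, hw0.symm⟩

end Fermat.Agent.S27.helper1070
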