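/-
S27, lattice endgame (pure Mathlib + Prelude definitions).

If `E : V →+ P` is a surjective additive homomorphism from a finite-dimensional real normed
space onto an additive commutative group whose kernel is discrete and spans `V` over `ℝ`,
then for every `n > 0` the `n`-torsion of `P` has exactly `n ^ finrank ℝ V` elements.

Specialisations: `V = Fin g → ℂ` gives `n ^ (2 * g)`; and the form used for
`AlgebraicCurve.Pic0.torsion`.
-/
import Mathlib
import Fermat.Prelude.Def_AlgebraicCurve_DivisorClassGroup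
import Fermat.Prelude.Def_AlgebraicCurve_Repartitions

set_option autoImplicit false
set_option linter.unusedSectionVars false

namespace Fermat.Agent.S27.helper1120

open Module

section Abstract

variable {V : Type*} [NormedAddCommGroup V] [NormedSpace ℝ V] [FiniteDimensional ℝ V]
variable {P : Type*} [AddCommGroup P]

/-- The kernel of `E`, as a `ℤ`-submodule of `V`. -/
def kerLattice (E : V →+ P) : Submodule ℤ V := AddSubgroup.toIntSubmodule E.ker

theorem mem_kerLattice (E : V →+ P) (x : V) : x ∈ kerLattice E ↔ E x = 0 := Iff.rfl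

/-- The map `λ ↦ E (n⁻¹ • λ)` on the kernel lattice. -/
noncomputable def divMap (E : V →+ P) (n : ℕ) : kerLattice E →+ P where
  toFun l := E ((n : ℝ)⁻¹ • (l : V))
  map_zero' := by simp
  map_add' a b := by
    simp only [Submodule.coe_add, smul_add, map_add]

theorem divMap_apply (E : V →+ P) (n : ℕ) (l : kerLattice E) :
    divMap E n l = E ((n : ℝ)⁻¹ • (l : V)) := rfl

theorem nsmul_inv_smul {n : ℕ} (hn : 0 < n) (x : V) : n • ((n : ℝ)⁻¹ • x) = x := by
  have hn' : (n : ℝ) ≠ 0 := by exact_mod_cast hn.ne'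
  rw [← Nat.cast_smul_eq_nsmul ℝ, smul_smul, mul_inv_cancel₀ hn', one_smul]

theorem inv_smul_nsmul {n : ℕ} (hn : 0 < n) (x : V) : (n : ℝ)⁻¹ • (n • x) = x := by
  have hn' : (n : ℝ) ≠ 0 := by exact_mod_cast hn.ne'
  rw [← Nat.cast_smul_eq_nsmul ℝ, smul_smul, inv_mul_cancel₀ hn', one_smul]

theorem range_divMap (E : V →+ P) (hE : Function.Surjective E) {n : ℕ} (hn : 0 < n) (p : P) :
    p ∈ (divMap E n).range ↔ (n : ℤ) • p = 0 := by
  constructor
  · rintro ⟨l, rfl⟩
    rw [divMap_apply, natCast_zsmul, ← map_nsmul, nsmul_inv_smul hn]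
    exact l.2
  · intro hp
    obtain ⟨x, rfl⟩ := hE p
    rw [natCast_zsmul, ← map_nsmul] at hp
    refine ⟨⟨n • x, hp⟩, ?_⟩
    rw [divMap_apply]
    show E ((n : ℝ)⁻¹ • (n • x)) = E x
    rw [inv_smul_nsmul hn]

theorem ker_divMap (E : V →+ P) {n : ℕ} (hn : 0 < n) (l : kerLattice E) :
    l ∈ (divMap E n).ker ↔ ∃ m : kerLattice E, l = n • m := by
  constructor
  · intro hl
    refine ⟨⟨(n : ℝ)⁻¹ • (l : V), hl⟩, ?_⟩
    apply Subtype.ext
    show (l : V) = n • ((n : ℝ)⁻¹ • (l : V))
    rw [nsmul_inv_smul hn]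
  · rintro ⟨m, rfl⟩
    show E ((n : ℝ)⁻¹ • ((n • m : kerLattice E) : V)) = 0
    rw [AddSubmonoidClass.coe_nsmul, inv_smul_nsmul hn]
    exact m.2

/-- Reduction mod `n` of the coordinates with respect to a `ℤ`-basis. -/
noncomputable def redMap {L : Type*} [AddCommGroup L] {ι : Type*} [Fintype ι]
    (b : Basis ι ℤ L) (n : ℕ) : L →+ (ι → ZMod n) where
  toFun l i := ((b.equivFun l i : ℤ) : ZMod n)
  map_zero' := by ext i; simp
  map_add' x y := by ext i; simp

theorem redMap_apply {L : Type*} [AddCommGroup L] {ι : Type*} [Fintype ι]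
    (b : Basis ι ℤ L) (n : ℕ) (l : L) (i : ι) :
    redMap b n l i = ((b.equivFun l i : ℤ) : ZMod n) := rfl

theorem redMap_surjective {L : Type*} [AddCommGroup L] {ι : Type*} [Fintype ι]
    (b : Basis ι ℤ L) (n : ℕ) : Function.Surjective (redMap b n) := by
  intro c
  obtain ⟨z, hz⟩ : ∃ z : ι → ℤ, ∀ i, ((z i : ℤ) : ZMod n) = c i :=
    ⟨fun i => (ZMod.intCast_surjective (c i)).choose,
      fun i => (ZMod.intCast_surjective (c i)).choose_spec⟩
  refine ⟨b.equivFun.symm z, ?_⟩
  ext i
  rw [redMap_apply, LinearEquiv.apply_symm_apply, hz]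

theorem ker_redMap {L : Type*} [AddCommGroup L] {ι : Type*} [Fintype ι]
    (b : Basis ι ℤ L) (n : ℕ) (l : L) :
    l ∈ (redMap b n).ker ↔ ∃ m : L, l = n • m := by
  constructor
  · intro hl
    have h : ∀ i, ∃ a : ℤ, b.equivFun l i = (n : ℤ) * a := by
      intro i
      have := congrFun hl i
      rw [redMap_apply, Pi.zero_apply, ZMod.intCast_zmod_eq_zero_iff_dvd] at this
      exact this
    choose a ha using h
    refine ⟨b.equivFun.symm a, ?_⟩
    apply b.equivFun.injective
    ext i
    rw [map_nsmul, LinearEquiv.apply_symm_apply, ha i, Pi.smul_apply, nsmul_eq_mul]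
  · rintro ⟨m, rfl⟩
    show redMap b n (n • m) = 0
    ext i
    rw [redMap_apply, map_nsmul, Pi.smul_apply, nsmul_eq_mul, Pi.zero_apply]
    push_cast
    simp

/-- **Lattice count.** If `E : V →+ P` is onto with discrete kernel spanning `V` over `ℝ`,
then `P[n]` has `n ^ dim_ℝ V` elements. -/
theorem natCard_torsionBy_of_lattice (E : V →+ P) (hE : Function.Surjective E)
    (hd : DiscreteTopology E.ker) (hs : Submodule.span ℝ (E.ker : Set V) = ⊤)
    (n : ℕ) (hn : 0 < n) :
    Nat.card (Submodule.torsionBy ℤ P (n : ℤ)) = n ^ Module.finrank ℝ V := by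
  have : NeZero n := ⟨hn.ne'⟩
  have : DiscreteTopology (kerLattice E) := hd
  have : IsZLattice ℝ (kerLattice E) := ⟨hs⟩
  have hrank : Module.finrank ℤ (kerLattice E) = Module.finrank ℝ V :=
    ZLattice.rank ℝ (kerLattice E)
  let b : Basis (Fin (Module.finrank ℤ (kerLattice E))) ℤ (kerLattice E) :=
    Module.finBasis ℤ (kerLattice E)
  have hker : (divMap E n).ker = (redMap b n).ker := by
    ext l
    rw [ker_divMap E hn, ker_redMap]
  have e1 : (Submodule.torsionBy ℤ P (n : ℤ)) ≃ (divMap E n).range :=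
    Equiv.subtypeEquivRight (fun p => by
      rw [Submodule.mem_torsionBy_iff, range_divMap E hE hn])
  have e2 : (kerLattice E ⧸ (divMap E n).ker) ≃ (divMap E n).range :=
    (QuotientAddGroup.quotientKerEquivRange (divMap E n)).toEquiv
  have e3 : (kerLattice E ⧸ (redMap b n).ker) ≃
      (Fin (Module.finrank ℤ (kerLattice E)) → ZMod n) :=
    (QuotientAddGroup.quotientKerEquivOfSurjective (redMap b n) (redMap_surjective b n)).toEquiv
  rw [Nat.card_congr e1, ← Nat.card_congr e2, hker, Nat.card_congr e3, Nat.card_pi]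
  simp [hrank]

end Abstract

section Complex

variable {P : Type*} [AddCommGroup P]

/-- The complex form: `V = Fin g → ℂ` gives `n ^ (2 * g)`. -/
theorem natCard_torsionBy_of_complex_lattice (g : ℕ) (E : (Fin g → ℂ) →+ P)
    (hE : Function.Surjective E) (hd : DiscreteTopology E.ker)
    (hs : Submodule.span ℝ (E.ker : Set (Fin g → ℂ)) = ⊤) (n : ℕ) (hn : 0 < n) :
    Nat.card (Submodule.torsionBy ℤ P (n : ℤ)) = n ^ (2 * g) := by
  rw [natCard_torsionBy_of_lattice E hE hd hs n hn]
  congr 1
  rw [← Module.finrank_mul_finrank ℝ ℂ (Fin g → ℂ), Complex.finrank_real_complex,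
    Module.finrank_fin_fun]

end Complex

section Pic0

open AlgebraicCurve

variable {K F : Type*} [Field K] [Field F] [Algebra K F]

/-- The form used in the S27 assembly: an "Abel–Jacobi" surjection `ℂ^g → Pic⁰` with discrete
kernel spanning over `ℝ` gives the torsion count. -/
theorem natCard_pic0_torsion_of_complex_lattice (g : ℕ) (E : (Fin g → ℂ) →+ Pic0 K F)
    (hE : Function.Surjective E) (hd : DiscreteTopology E.ker)
    (hs : Submodule.span ℝ (E.ker : Set (Fin g → ℂ)) = ⊤) (n : ℕ) (hn : 0 < n) :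
    Nat.card (Pic0.torsion K F n) = n ^ (2 * g) :=
  natCard_torsionBy_of_complex_lattice g E hE hd hs n hn

theorem abelJacobiCard_of_complex_lattice (g : ℕ) (E : (Fin g → ℂ) →+ Pic0 K F)
    (hE : Function.Surjective E) (hd : DiscreteTopology E.ker)
    (hs : Submodule.span ℝ (E.ker : Set (Fin g → ℂ)) = ⊤) (p : ℕ) (hp : 0 < p) :
    AbelJacobiCard K F p g := by
  intro k
  rw [natCard_pic0_torsion_of_complex_lattice g E hE hd hs (p ^ k) (pow_pos hp k), ← pow_mul,
    mul_comm]

end Pic0

end Fermat.Agent.S27.helper1120
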