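/-
S27, algebraic track, module GRP (helper5747): the group-theoretic endgame.

Abstract setting: an additive commutative group `A`, a prime `ℓ`, an increasing tower of finite
subgroups `B j` of order `ℓ ^ (c + d * j)` exhausting the `ℓ`-power torsion of `A`, endomorphisms
`σ j` fixing `B j` pointwise such that the "norm" `∑_{i<ℓ} (σ j)^i` maps `B (j+1)` ONTO `B j`.
Conclusion: the `ℓ^k`-torsion of `A` has exactly `ℓ ^ (d * k)` elements, for every `k`.
No Galois descent (`B j` need not be the full fixed group of `σ j`) is required.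
-/
import Mathlib

set_option autoImplicit false

namespace Fermat.Agent.S27.helper5747

section Basic

variable {A : Type*} [AddCommGroup A]

/-- The `n`-torsion of an additive commutative group, as an additive subgroup. -/
def tors (A : Type*) [AddCommGroup A] (n : ℕ) : AddSubgroup A :=
  (nsmulAddMonoidHom (α := A) n).ker

theorem mem_tors {n : ℕ} {x : A} : x ∈ tors A n ↔ n • x = 0 := by
  simp [tors, AddMonoidHom.mem_ker]

theorem tors_mono {m n : ℕ} (h : m ∣ n) : tors A m ≤ tors A n := by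
  intro x hx
  obtain ⟨k, rfl⟩ := h
  rw [mem_tors] at hx ⊢
  rw [mul_nsmul, hx, nsmul_zero]


/-- The "norm" endomorphism `∑_{i<n} σ^i`. -/
def trEnd (σ : AddMonoid.End A) (n : ℕ) : A →+ A where
  toFun y := ∑ i ∈ Finset.range n, (σ ^ i) y
  map_zero' := by simp
  map_add' := by intro a b; simp [Finset.sum_add_distrib]

theorem trEnd_apply (σ : AddMonoid.End A) (n : ℕ) (y : A) :
    trEnd σ n y = ∑ i ∈ Finset.range n, (σ ^ i) y := rfl

theorem trEnd_of_fixed (σ : AddMonoid.End A) (n : ℕ) {z : A} (hz : σ z = z) :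
    trEnd σ n z = n • z := by
  have h : ∀ i : ℕ, (σ ^ i) z = z := by
    intro i
    induction i with
    | zero => simp
    | succ i ih =>
      rw [pow_succ]
      show (σ ^ i) (σ z) = z
      rw [hz, ih]
  rw [trEnd_apply, Finset.sum_congr rfl (fun i _ => h i)]
  simp

theorem card_eq_ker_mul_range {G H : Type*} [AddGroup G] [AddGroup H] (f : G →+ H) :
    Nat.card G = Nat.card f.ker * Nat.card f.range := by
  rw [← f.ker.card_mul_index, AddSubgroup.index_ker]

/-- A set all of whose finite subsets have at most `N` elements is finite with at most `N`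
elements. -/
theorem finite_and_ncard_le {α : Type*} {S : Set α} {N : ℕ}
    (h : ∀ s : Finset α, (↑s : Set α) ⊆ S → s.card ≤ N) : S.Finite ∧ S.ncard ≤ N := by
  have hfin : S.Finite := by
    by_contra hinf
    obtain ⟨t, hts, htc⟩ := (Set.not_finite.mp hinf).exists_subset_card_eq (N + 1)
    have := h t hts
    omega
  refine ⟨hfin, ?_⟩
  have := h hfin.toFinset (by simp)
  rwa [← Set.ncard_eq_toFinset_card S hfin] at this

/-- In an increasing chain of subgroups, finitely many elements each lying in some member lie in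
a common member. -/
theorem exists_common_index (B : ℕ → AddSubgroup A) (hB : Monotone B) (s : Finset A)
    (hs : ∀ x ∈ s, ∃ j, x ∈ B j) : ∃ j, ∀ x ∈ s, x ∈ B j := by
  classical
  induction s using Finset.induction_on with
  | empty => exact ⟨0, by simp⟩
  | insert a s _ ih =>
    obtain ⟨j₁, h₁⟩ := ih (fun x hx => hs x (Finset.mem_insert_of_mem hx))
    obtain ⟨j₂, h₂⟩ := hs a (Finset.mem_insert_self a s)
    refine ⟨max j₁ j₂, fun x hx => ?_⟩
    rcases Finset.mem_insert.mp hx with rfl | hx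
    · exact hB (le_max_right j₁ j₂) h₂
    · exact hB (le_max_left j₁ j₂) (h₁ x hx)

/-- `card A[ℓ^(m+n)]` divides `card A[ℓ^m] * card A[ℓ^n]` (with `Nat.card`, so `0` if infinite). -/
theorem card_tors_add_dvd (ℓ m n : ℕ) :
    Nat.card (tors A (ℓ ^ (m + n))) ∣ Nat.card (tors A (ℓ ^ m)) * Nat.card (tors A (ℓ ^ n)) := by
  -- the homomorphism `x ↦ ℓ^m • x : A[ℓ^(m+n)] → A[ℓ^n]`
  let g : tors A (ℓ ^ (m + n)) →+ tors A (ℓ ^ n) :=
    { toFun := fun x => ⟨ℓ ^ m • (x : A), by
        have hx := mem_tors.mp x.2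
        rw [mem_tors, ← mul_nsmul, ← pow_add]
        exact hx⟩
      map_zero' := by ext; simp
      map_add' := by intro a b; ext; simp }
  have hker : Nat.card g.ker = Nat.card (tors A (ℓ ^ m)) := by
    refine Nat.card_congr
      { toFun := fun x => ⟨(x : tors A (ℓ ^ (m + n))), by
          have hx : g x.1 = 0 := x.2
          have hx' : ℓ ^ m • ((x : tors A (ℓ ^ (m + n))) : A) = 0 := by
            simpa [g] using congrArg Subtype.val hx
          exact mem_tors.mpr hx'⟩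
        invFun := fun y => ⟨⟨(y : A), tors_mono (Dvd.intro _ (pow_add ℓ m n).symm) y.2⟩, by
          show g _ = 0
          ext
          exact mem_tors.mp y.2⟩
        left_inv := fun x => by ext; rfl
        right_inv := fun y => by ext; rfl }
  rw [card_eq_ker_mul_range g, hker]
  exact Nat.mul_dvd_mul_left _ (AddSubgroup.card_addSubgroup_dvd_card g.range)

theorem card_tors_mul_dvd (ℓ k m : ℕ) :
    Nat.card (tors A (ℓ ^ (m * k))) ∣ Nat.card (tors A (ℓ ^ k)) ^ m := by
  induction m with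
  | zero =>
    simp only [Nat.zero_mul, pow_zero]
    have : Nat.card (tors A 1) = 1 := by
      have hbot : tors A 1 = ⊥ := by
        ext x
        simp [mem_tors]
      rw [hbot]
      simp
    rw [this]
  | succ m ih =>
    have h1 : (m + 1) * k = k + m * k := by ring
    rw [h1, pow_succ]
    exact (card_tors_add_dvd ℓ k (m * k)).trans (by
      rw [mul_comm]
      exact Nat.mul_dvd_mul_right ih _)

end Basic

section Tower

variable {A : Type*} [AddCommGroup A]

/-- Key lemma: if `σ` fixes the `ℓ²`-torsion pointwise, `y` has `ℓ`-power order and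
`ℓ^n • (∑_{i<ℓ} σ^i y) = 0`, then `ℓ^(n+1) • y = 0`. -/
theorem pow_succ_nsmul_eq_zero_of_trEnd (ℓ : ℕ) (σ : AddMonoid.End A)
    (hσ : ∀ z : A, ℓ ^ 2 • z = 0 → σ z = z) {y : A} (hy : ∃ m : ℕ, ℓ ^ m • y = 0) (n : ℕ)
    (h : ℓ ^ n • trEnd σ ℓ y = 0) : ℓ ^ (n + 1) • y = 0 := by
  classical
  have he : ℓ ^ (Nat.find hy) • y = 0 := Nat.find_spec hy
  by_cases hle : Nat.find hy ≤ n + 1
  · obtain ⟨t, ht⟩ := Nat.exists_eq_add_of_le hle
    rw [ht, pow_add, mul_nsmul, he, nsmul_zero]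
  · exfalso
    have hlt : n + 2 ≤ Nat.find hy := by omega
    obtain ⟨t, ht⟩ := Nat.exists_eq_add_of_le hlt
    -- `z = ℓ^(n+t) • y` is killed by `ℓ^2`
    have hz2 : ℓ ^ 2 • (ℓ ^ (n + t) • y) = 0 := by
      rw [← mul_nsmul, ← pow_add]
      have : n + t + 2 = Nat.find hy := by omega
      rw [this]
      exact he
    have h1 : trEnd σ ℓ (ℓ ^ (n + t) • y) = ℓ • (ℓ ^ (n + t) • y) :=
      trEnd_of_fixed σ ℓ (hσ _ hz2)
    have h2 : trEnd σ ℓ (ℓ ^ (n + t) • y) = 0 := by
      rw [map_nsmul, pow_add, mul_nsmul, h, nsmul_zero]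
    have h3 : ℓ ^ (n + t + 1) • y = 0 := by
      rw [pow_succ, mul_nsmul, ← h1, h2]
    exact Nat.find_min hy (by omega : n + t + 1 < Nat.find hy) h3

/-- **GRP (group-theoretic endgame of the algebraic track).** -/
theorem card_tors_of_tower (ℓ : ℕ) [hℓ : Fact ℓ.Prime] (d c : ℕ)
    (B : ℕ → AddSubgroup A) (σ : ℕ → AddMonoid.End A)
    (hmono : ∀ j, B j ≤ B (j + 1))
    (hcard : ∀ j, Nat.card (B j) = ℓ ^ (c + d * j))
    (hfix : ∀ j, ∀ x ∈ B j, σ j x = x)
    (htr_mem : ∀ j, ∀ y ∈ B (j + 1), trEnd (σ j) ℓ y ∈ B j)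
    (htr_surj : ∀ j, ∀ x ∈ B j, ∃ y ∈ B (j + 1), trEnd (σ j) ℓ y = x)
    (hexh : ∀ x : A, ∀ n : ℕ, ℓ ^ n • x = 0 → ∃ j, x ∈ B j)
    (k : ℕ) :
    Nat.card (tors A (ℓ ^ k)) = ℓ ^ (d * k) := by
  classical
  have hp : ℓ.Prime := hℓ.out
  have hℓpos : 0 < ℓ := hp.pos
  have hℓ2 : 2 ≤ ℓ := hp.two_le
  have hfin : ∀ j, Finite (B j) := fun j =>
    Nat.finite_of_card_ne_zero (by rw [hcard]; exact pow_ne_zero _ hℓpos.ne')
  have hB : Monotone B := monotone_nat_of_le_succ hmono
  -- elements of `B j` have `ℓ`-power order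
  have hBtors : ∀ j, ∀ x ∈ B j, ℓ ^ (c + d * j) • x = 0 := by
    intro j x hx
    have h := card_nsmul_eq_zero' (G := B j) (x := ⟨x, hx⟩)
    rw [hcard] at h
    simpa using congrArg Subtype.val h
  -- the norm as a homomorphism `B (j+1) →+ B j`
  let f : ∀ j, B (j + 1) →+ B j := fun j =>
    { toFun := fun y => ⟨trEnd (σ j) ℓ (y : A), htr_mem j y y.2⟩
      map_zero' := by ext; simp
      map_add' := by intro a b; ext; simp }
  have hf_apply : ∀ j (y : B (j + 1)), ((f j y : B j) : A) = trEnd (σ j) ℓ (y : A) :=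
    fun _ _ => rfl
  have hf_surj : ∀ j, Function.Surjective (f j) := by
    intro j x
    obtain ⟨y, hy, hxy⟩ := htr_surj j x x.2
    exact ⟨⟨y, hy⟩, Subtype.ext hxy⟩
  have hker : ∀ j, Nat.card (f j).ker = ℓ ^ d := by
    intro j
    have h1 := card_eq_ker_mul_range (f j)
    have h2 : Nat.card (f j).range = Nat.card (B j) := by
      rw [AddMonoidHom.range_eq_top.mpr (hf_surj j)]
      exact Nat.card_congr (Equiv.Set.univ _)
    rw [h2, hcard, hcard] at h1
    have h3 : ℓ ^ (c + d * (j + 1)) = ℓ ^ d * ℓ ^ (c + d * j) := by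
      rw [← pow_add]; congr 1; ring
    rw [h3] at h1
    exact (Nat.eq_of_mul_eq_mul_right (pow_pos hℓpos _) h1).symm
  -- Step 1: the `ℓ`-torsion is finite with at most `ℓ^d` elements
  have hstep1 : ∀ j, Nat.card (tors A ℓ ⊓ B j : AddSubgroup A) ≤ ℓ ^ d := by
    intro j
    rw [← hker j]
    have := hfin (j + 1)
    refine Nat.card_le_card_of_injective
      (fun x => (⟨⟨(x : A), hmono j x.2.2⟩, ?_⟩ : (f j).ker)) ?_
    · rw [AddMonoidHom.mem_ker]
      ext
      rw [hf_apply]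
      show trEnd (σ j) ℓ (x : A) = 0
      rw [trEnd_of_fixed _ _ (hfix j _ x.2.2)]
      exact mem_tors.mp x.2.1
    · intro x y hxy
      ext
      simpa using congrArg (fun z : (f j).ker => ((z : B (j + 1)) : A)) hxy
  have hA1 : (tors A ℓ : Set A).Finite ∧ (tors A ℓ : Set A).ncard ≤ ℓ ^ d := by
    apply finite_and_ncard_le
    intro s hs
    obtain ⟨j, hj⟩ := exists_common_index B hB s (fun x hx => by
      have := mem_tors.mp (hs hx)
      exact hexh x 1 (by simpa using this))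
    have := hfin j
    have hsub : (↑s : Set A) ⊆ ((tors A ℓ ⊓ B j : AddSubgroup A) : Set A) :=
      fun x hx => ⟨hs hx, hj x hx⟩
    have hfinj : ((tors A ℓ ⊓ B j : AddSubgroup A) : Set A).Finite :=
      (Set.toFinite (B j : Set A)).subset (fun x hx => hx.2)
    calc s.card = (↑s : Set A).ncard := (Set.ncard_coe_finset s).symm
      _ ≤ ((tors A ℓ ⊓ B j : AddSubgroup A) : Set A).ncard := Set.ncard_le_ncard hsub hfinj
      _ = Nat.card (tors A ℓ ⊓ B j : AddSubgroup A) := by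
          rw [← Nat.card_coe_set_eq]; rfl
      _ ≤ ℓ ^ d := hstep1 j
  have ha1_le : Nat.card (tors A ℓ) ≤ ℓ ^ d := by
    have := hA1.2
    rwa [← Nat.card_coe_set_eq] at this
  have hfinA1 : Finite (tors A ℓ) := hA1.1.to_subtype
  have ha1_pos : 0 < Nat.card (tors A ℓ) := Nat.card_pos
  -- all `A[ℓ^k]` are finite
  have hdvd : ∀ m, Nat.card (tors A (ℓ ^ m)) ∣ Nat.card (tors A ℓ) ^ m := by
    intro m
    have := card_tors_mul_dvd (A := A) ℓ 1 m
    simpa using this
  have hfinAk : ∀ m, Finite (tors A (ℓ ^ m)) := fun m =>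
    Nat.finite_of_card_ne_zero (fun h0 => by
      have := hdvd m
      rw [h0, zero_dvd_iff] at this
      exact (pow_pos ha1_pos m).ne' this)
  -- Step 2: `A[ℓ^2]` lies in some `B j₂`
  obtain ⟨j₂, hj₂⟩ : ∃ j₂, tors A (ℓ ^ 2) ≤ B j₂ := by
    have := hfinAk 2
    have hfin2 : (tors A (ℓ ^ 2) : Set A).Finite := Set.toFinite _
    obtain ⟨j, hj⟩ := exists_common_index B hB hfin2.toFinset (fun x hx => by
      have hx' : x ∈ tors A (ℓ ^ 2) := by simpa using hx
      exact hexh x 2 (mem_tors.mp hx'))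
    exact ⟨j, fun x hx => hj x (by simpa using hx)⟩
  have hσfix : ∀ i, ∀ z : A, ℓ ^ 2 • z = 0 → σ (j₂ + i) z = z := by
    intro i z hz
    exact hfix _ z (hB (Nat.le_add_right j₂ i) (hj₂ (mem_tors.mpr hz)))
  -- Step 3: the kernel of the norm lies in `A[ℓ]`, hence `card A[ℓ] = ℓ^d`
  have ha1 : Nat.card (tors A ℓ) = ℓ ^ d := by
    refine le_antisymm ha1_le ?_
    rw [← hker j₂]
    refine Nat.card_le_card_of_injective
      (fun y => (⟨((y : B (j₂ + 1)) : A), ?_⟩ : tors A ℓ)) ?_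
    · have hy0 : trEnd (σ j₂) ℓ ((y : B (j₂ + 1)) : A) = 0 := by
        have := y.2
        rw [AddMonoidHom.mem_ker] at this
        rw [← hf_apply, this]; rfl
      have := pow_succ_nsmul_eq_zero_of_trEnd ℓ (σ j₂) (by simpa using hσfix 0)
        (y := ((y : B (j₂ + 1)) : A)) ⟨_, hBtors _ _ (y : B (j₂ + 1)).2⟩ 0 (by simpa using hy0)
      exact mem_tors.mpr (by simpa using this)
    · intro x y hxy
      ext
      simpa using congrArg (fun z : tors A ℓ => (z : A)) hxy
  -- Step 4: exponent control `B (j₂ + i) ≤ A[ℓ^(e₀ + i)]`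
  have hexp : ∀ i, B (j₂ + i) ≤ tors A (ℓ ^ (c + d * j₂ + i)) := by
    intro i
    induction i with
    | zero => intro x hx; exact mem_tors.mpr (hBtors _ x hx)
    | succ i ih =>
      intro y hy
      have hy' : y ∈ B (j₂ + i + 1) := hy
      have h1 : trEnd (σ (j₂ + i)) ℓ y ∈ tors A (ℓ ^ (c + d * j₂ + i)) :=
        ih (htr_mem _ y hy')
      have := pow_succ_nsmul_eq_zero_of_trEnd ℓ (σ (j₂ + i)) (hσfix i)
        (y := y) ⟨_, hBtors _ _ hy'⟩ (c + d * j₂ + i) (mem_tors.mp h1)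
      exact mem_tors.mpr this
  -- Step 5: counting
  have hlow : ∀ i, ℓ ^ (c + d * (j₂ + i)) ≤ Nat.card (tors A (ℓ ^ (c + d * j₂ + i))) := by
    intro i
    rw [← hcard]
    have := hfinAk (c + d * j₂ + i)
    exact AddSubgroup.card_le_of_le (hexp i)
  -- `card A[ℓ^k]` is a power of `ℓ` with exponent at most `d * k`
  have hk := hdvd k
  rw [ha1, ← pow_mul] at hk
  obtain ⟨t, htle, ht⟩ := (Nat.dvd_prime_pow hp).mp hk
  rw [ht]
  congr 1
  by_contra hne
  have htlt : t < d * k := lt_of_le_of_ne htle hne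
  have hkpos : 0 < k := by
    rcases Nat.eq_zero_or_pos k with rfl | h
    · simp at htlt
    · exact h
  -- choose `m` large
  set e₀ := c + d * j₂ with he₀
  set m := d * e₀ + e₀ + 1 with hm
  have hmk : e₀ ≤ m * k := by
    calc e₀ ≤ m := by omega
      _ = m * 1 := (mul_one m).symm
      _ ≤ m * k := Nat.mul_le_mul_left m hkpos
  obtain ⟨i, hi⟩ := Nat.exists_eq_add_of_le hmk
  have h1 := hlow i
  rw [← hi] at h1
  have h2 : Nat.card (tors A (ℓ ^ (m * k))) ∣ (ℓ ^ t) ^ m := by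
    have := card_tors_mul_dvd (A := A) ℓ k m
    rwa [ht] at this
  have := hfinAk (m * k)
  have h3 : Nat.card (tors A (ℓ ^ (m * k))) ≤ (ℓ ^ t) ^ m :=
    Nat.le_of_dvd (pow_pos (pow_pos hℓpos _) _) h2
  have h4 : ℓ ^ (c + d * (j₂ + i)) ≤ ℓ ^ (t * m) := by
    rw [pow_mul]; exact h1.trans h3
  have h5 : c + d * (j₂ + i) ≤ t * m := (Nat.pow_le_pow_iff_right hℓ2).mp h4
  -- arithmetic contradiction
  have h6 : t * m + m ≤ d * k * m := by
    have : (t + 1) * m ≤ d * k * m := Nat.mul_le_mul_right m htlt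
    calc t * m + m = (t + 1) * m := by ring
      _ ≤ d * k * m := this
  have h7 : d * (m * k) = d * e₀ + d * i := by rw [hi]; ring
  have h8 : c + d * (j₂ + i) = e₀ + d * i := by rw [he₀]; ring
  have h9 : d * k * m = d * (m * k) := by ring
  omega

/-- The same statement for `Submodule.torsionBy ℤ`, the shape used by the Prelude
(`Pic0.torsion`). -/
theorem card_torsionBy_of_tower (ℓ : ℕ) [hℓ : Fact ℓ.Prime] (d c : ℕ)
    (B : ℕ → AddSubgroup A) (σ : ℕ → AddMonoid.End A)
    (hmono : ∀ j, B j ≤ B (j + 1))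
    (hcard : ∀ j, Nat.card (B j) = ℓ ^ (c + d * j))
    (hfix : ∀ j, ∀ x ∈ B j, σ j x = x)
    (htr_mem : ∀ j, ∀ y ∈ B (j + 1), trEnd (σ j) ℓ y ∈ B j)
    (htr_surj : ∀ j, ∀ x ∈ B j, ∃ y ∈ B (j + 1), trEnd (σ j) ℓ y = x)
    (hexh : ∀ x : A, ∀ n : ℕ, ℓ ^ n • x = 0 → ∃ j, x ∈ B j)
    (k : ℕ) :
    Nat.card (Submodule.torsionBy ℤ A ((ℓ ^ k : ℕ) : ℤ)) = ℓ ^ (d * k) := by
  rw [← card_tors_of_tower ℓ d c B σ hmono hcard hfix htr_mem htr_surj hexh k]
  refine Nat.card_congr (Equiv.subtypeEquivRight fun x => ?_)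
  rw [Submodule.mem_torsionBy_iff, mem_tors, natCast_zsmul]

end Tower

end Fermat.Agent.S27.helper5747
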