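import Mathlib
import Fermat.Prelude.Def_AlgebraicCurve_BaseChangeGalois
import Fermat.Prelude.Def_AlgebraicCurve_Repartitions
import Fermat.Agent.S27.helper5747_Grp

/-!
# S27, algebraic route, characteristic `p` core: specification (sub-architect helper5747)

Setting: `K` an algebraic closure of a finite field, `F/K` a function field in the Prelude
language, `g : SemilinearAut K F` a *Frobenius* (`baseAut g a = a ^ q`) fixing a non-constant
function `x` and a place `P₀`.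

* `Gam g r` (`Γ_r`): the subgroup of `Pic⁰` of the classes of degree-zero divisors fixed by
  `g ^ r` (it is the class group of degree zero of the `𝔽_{q^r}`-form of `F`).
* `FrobSetting K F q g`: the hypotheses (one `Prop`-structure).
* Leaf interfaces: `Stmt_RRD`, `Stmt_Cls`, `Stmt_Fin`, `Stmt_Exh`, `Stmt_Count`,
  `Stmt_ZetaAbs`, `Stmt_ZetaMatrix`, `Stmt_Growth`, `Stmt_Norm`.
* Target: `Stmt_Core`  (`#Pic⁰[ℓ^k] = ℓ^(2gk)` for primes `ℓ ∤ q`).
* Proved here: the formal assembly `card_torsion_of_gam` and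
  `core_of : Stmt_Fin → Stmt_Exh → Stmt_Norm → Stmt_Growth → Stmt_Core`.

Everything is in hypothesis-passing style; all closed statements are in universe `0`
(the only instance needed is `K = AlgebraicClosure (ZMod p)`, `F = FractionRing (Tab.Alg T)`).
-/

set_option autoImplicit false

open AlgebraicCurve

namespace Fermat.Agent.S27.helper5747

/-! ## The `ℓ`-primary part of a subgroup -/

section Primary

variable {A : Type*} [AddCommGroup A]

/-- The `ℓ`-primary part of a subgroup `H`: the elements of `H` killed by a power of `ℓ`. -/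
def primPart (ℓ : ℕ) (H : AddSubgroup A) : AddSubgroup A where
  carrier := {x | x ∈ H ∧ ∃ n : ℕ, ℓ ^ n • x = 0}
  zero_mem' := ⟨H.zero_mem, 0, by simp⟩
  add_mem' := by
    rintro x y ⟨hx, m, hm⟩ ⟨hy, n, hn⟩
    refine ⟨H.add_mem hx hy, m + n, ?_⟩
    have h1 : ℓ ^ (m + n) • x = 0 := by
      rw [pow_add, mul_nsmul, hm, nsmul_zero]
    have h2 : ℓ ^ (m + n) • y = 0 := by
      rw [pow_add, mul_nsmul', hn, nsmul_zero]
    rw [nsmul_add, h1, h2, add_zero]
  neg_mem' := by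
    rintro x ⟨hx, n, hn⟩
    exact ⟨H.neg_mem hx, n, by rw [neg_nsmul, hn, neg_zero]⟩

theorem mem_primPart {ℓ : ℕ} {H : AddSubgroup A} {x : A} :
    x ∈ primPart ℓ H ↔ x ∈ H ∧ ∃ n : ℕ, ℓ ^ n • x = 0 := Iff.rfl

theorem primPart_le (ℓ : ℕ) (H : AddSubgroup A) : primPart ℓ H ≤ H := fun _ hx => hx.1

theorem primPart_mono (ℓ : ℕ) {H H' : AddSubgroup A} (h : H ≤ H') :
    primPart ℓ H ≤ primPart ℓ H' := fun _ hx => ⟨h hx.1, hx.2⟩

/-- In a finite commutative group, the elements of `ℓ`-power order form a subgroup of order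
`ℓ ^ v_ℓ(#G)`. -/
theorem card_primary (ℓ : ℕ) [hℓ : Fact ℓ.Prime] (G : Type*) [AddCommGroup G] [Finite G] :
    Nat.card {x : G // ∃ n : ℕ, ℓ ^ n • x = 0} = ℓ ^ padicValNat ℓ (Nat.card G) := by
  classical
  have hN : Nat.card G ≠ 0 := Nat.card_pos.ne'
  set a := padicValNat ℓ (Nat.card G) with ha
  obtain ⟨m, hm⟩ : ℓ ^ a ∣ Nat.card G := pow_padicValNat_dvd
  have hm0 : m ≠ 0 := by
    rintro rfl
    exact hN (by simpa using hm)
  have hℓm : ¬ ℓ ∣ m := by
    rintro ⟨m', rfl⟩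
    have h1 : ℓ ^ (a + 1) ∣ Nat.card G := ⟨m', by rw [hm, pow_succ, mul_assoc]⟩
    have h2 := (padicValNat_dvd_iff_le (p := ℓ) hN).1 h1
    omega
  -- the subgroup `P` of elements of `ℓ`-power order
  let P : AddSubgroup G := primPart ℓ ⊤
  have hPc : Nat.card {x : G // ∃ n : ℕ, ℓ ^ n • x = 0} = Nat.card P :=
    Nat.card_congr (Equiv.subtypeEquivRight fun x => by
      show (∃ n : ℕ, ℓ ^ n • x = 0) ↔ x ∈ primPart ℓ (⊤ : AddSubgroup G)
      simp [mem_primPart])
  rw [hPc]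
  -- multiplication by `m`
  let f : G →+ G := nsmulAddMonoidHom m
  have hrange : f.range = P := by
    ext y
    constructor
    · rintro ⟨x, rfl⟩
      refine ⟨AddSubgroup.mem_top _, a, ?_⟩
      show ℓ ^ a • (m • x) = 0
      rw [← mul_nsmul', ← hm]
      exact card_nsmul_eq_zero'
    · rintro ⟨-, n, hn⟩
      have hcop : Nat.Coprime m (ℓ ^ n) :=
        Nat.Coprime.pow_right n ((Nat.Prime.coprime_iff_not_dvd hℓ.out).2 hℓm).symm
      have hb : (m : ℤ) * Nat.gcdA m (ℓ ^ n) + ((ℓ ^ n : ℕ) : ℤ) * Nat.gcdB m (ℓ ^ n) = 1 := by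
        have := Nat.gcd_eq_gcd_ab m (ℓ ^ n)
        rw [hcop.gcd_eq_one] at this
        exact_mod_cast this.symm
      refine ⟨Nat.gcdA m (ℓ ^ n) • y, ?_⟩
      show m • (Nat.gcdA m (ℓ ^ n) • y) = y
      have h3 : ((ℓ ^ n : ℕ) : ℤ) • y = 0 := by
        rw [natCast_zsmul]; exact hn
      calc m • (Nat.gcdA m (ℓ ^ n) • y)
          = ((m : ℤ) * Nat.gcdA m (ℓ ^ n)) • y := by
            rw [mul_smul, natCast_zsmul]
        _ = (1 - ((ℓ ^ n : ℕ) : ℤ) * Nat.gcdB m (ℓ ^ n)) • y := by rw [← hb]; ring_nf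
        _ = y := by
            rw [sub_smul, one_smul, mul_comm, mul_smul, h3, smul_zero, sub_zero]
  have hcard : Nat.card G = Nat.card f.ker * Nat.card P := by
    rw [← hrange]
    exact card_eq_ker_mul_range f
  -- `ℓ` does not divide the order of the kernel
  have hker : ¬ ℓ ∣ Nat.card f.ker := by
    intro hdvd
    obtain ⟨x, hx⟩ := exists_prime_addOrderOf_dvd_card' (G := f.ker) ℓ hdvd
    have hx0 : m • (x : G) = 0 := x.2
    have h1 : addOrderOf (x : G) = ℓ := by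
      rw [← hx]
      exact (AddSubgroup.addOrderOf_coe x)
    have h2 : addOrderOf (x : G) ∣ m := addOrderOf_dvd_of_nsmul_eq_zero hx0
    exact hℓm (h1 ▸ h2)
  -- the order of `P` is a power of `ℓ`
  have hPpos : Nat.card P ≠ 0 := Nat.card_pos.ne'
  have hPpow : Nat.card P = ℓ ^ (Nat.card P).primeFactorsList.length := by
    refine Nat.eq_prime_pow_of_unique_prime_dvd hPpos ?_
    intro r hr hrdvd
    have : Fact r.Prime := ⟨hr⟩
    obtain ⟨x, hx⟩ := exists_prime_addOrderOf_dvd_card' (G := P) r hrdvd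
    obtain ⟨-, n, hn⟩ := x.2
    have h1 : addOrderOf (x : G) = r := by
      rw [← hx]
      exact (AddSubgroup.addOrderOf_coe x)
    have h2 : addOrderOf (x : G) ∣ ℓ ^ n := addOrderOf_dvd_of_nsmul_eq_zero hn
    rw [h1] at h2
    exact (Nat.prime_dvd_prime_iff_eq hr hℓ.out).1 (hr.dvd_of_dvd_pow h2)
  have hkpos : Nat.card f.ker ≠ 0 := Nat.card_pos.ne'
  have hval : a = (Nat.card P).primeFactorsList.length := by
    rw [ha, hcard, padicValNat.mul hkpos hPpos, padicValNat.eq_zero_of_not_dvd hker, zero_add]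
    conv_lhs => rw [hPpow]
    exact padicValNat.prime_pow _
  rw [hval]
  exact hPpow

/-- The `ℓ`-primary part of a finite subgroup `H` has order `ℓ ^ v_ℓ(#H)`. -/
theorem card_primPart (ℓ : ℕ) [Fact ℓ.Prime] (H : AddSubgroup A) [Finite H] :
    Nat.card (primPart ℓ H) = ℓ ^ padicValNat ℓ (Nat.card H) := by
  rw [← card_primary ℓ H]
  refine Nat.card_congr ?_
  exact
    { toFun := fun x => ⟨⟨x.1, x.2.1⟩, by
        obtain ⟨n, hn⟩ := x.2.2
        exact ⟨n, Subtype.ext (by simpa using hn)⟩⟩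
      invFun := fun y => ⟨y.1.1, y.1.2, by
        obtain ⟨n, hn⟩ := y.2
        exact ⟨n, by simpa using congrArg Subtype.val hn⟩⟩
      left_inv := fun x => rfl
      right_inv := fun y => rfl }

/-- Lifting along an additive map to the `ℓ`-primary part of a finite subgroup. -/
theorem exists_primPart_preimage (ℓ : ℕ) [hℓ : Fact ℓ.Prime] (H' : AddSubgroup A) [Finite H']
    (T : A →+ A) {x y : A} (hy : y ∈ H') (hx : ∃ n : ℕ, ℓ ^ n • x = 0) (hT : T y = x) :
    ∃ y' ∈ primPart ℓ H', T y' = x := by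
  classical
  obtain ⟨n, hn⟩ := hx
  have hN : Nat.card H' ≠ 0 := Nat.card_pos.ne'
  set a := padicValNat ℓ (Nat.card H') with ha
  obtain ⟨m, hm⟩ : ℓ ^ a ∣ Nat.card H' := pow_padicValNat_dvd
  have hℓm : ¬ ℓ ∣ m := by
    rintro ⟨m', rfl⟩
    have h1 : ℓ ^ (a + 1) ∣ Nat.card H' := ⟨m', by rw [hm, pow_succ, mul_assoc]⟩
    have h2 := (padicValNat_dvd_iff_le (p := ℓ) hN).1 h1
    omega
  have hcop : Nat.Coprime m (ℓ ^ n) :=
    Nat.Coprime.pow_right n ((Nat.Prime.coprime_iff_not_dvd hℓ.out).2 hℓm).symm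
  have hb : (m : ℤ) * Nat.gcdA m (ℓ ^ n) + ((ℓ ^ n : ℕ) : ℤ) * Nat.gcdB m (ℓ ^ n) = 1 := by
    have := Nat.gcd_eq_gcd_ab m (ℓ ^ n)
    rw [hcop.gcd_eq_one] at this
    exact_mod_cast this.symm
  have hcardy : Nat.card H' • y = 0 := by
    have h := congrArg Subtype.val (card_nsmul_eq_zero' (G := H') (x := ⟨y, hy⟩))
    simpa only [AddSubgroup.coe_nsmul, ZeroMemClass.coe_zero] using h
  refine ⟨((m : ℤ) * Nat.gcdA m (ℓ ^ n)) • y, ⟨H'.zsmul_mem hy _, a, ?_⟩, ?_⟩
  · have : ℓ ^ a • (((m : ℤ) * Nat.gcdA m (ℓ ^ n)) • y)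
        = Nat.gcdA m (ℓ ^ n) • (Nat.card H' • y) := by
      rw [← natCast_zsmul, ← natCast_zsmul, ← mul_smul, ← mul_smul, hm]
      congr 1
      push_cast
      ring
    rw [this, hcardy, smul_zero]
  · have h3 : ((ℓ ^ n : ℕ) : ℤ) • x = 0 := by
      rw [natCast_zsmul]; exact hn
    rw [map_zsmul, hT]
    calc ((m : ℤ) * Nat.gcdA m (ℓ ^ n)) • x
        = (1 - ((ℓ ^ n : ℕ) : ℤ) * Nat.gcdB m (ℓ ^ n)) • x := by rw [← hb]; ring_nf
      _ = x := by
          rw [sub_smul, one_smul, mul_comm, mul_smul, h3, smul_zero, sub_zero]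

end Primary

/-! ## The groups `Γ_r` and the formal assembly -/

section Gam

variable {K F : Type*} [Field K] [Field F] [Algebra K F]

/-- `Γ_r`: the subgroup of `Pic⁰` of the classes of the degree-zero divisors fixed by `g ^ r`. -/
def Gam (g : SemilinearAut K F) (r : ℕ) : AddSubgroup (Pic0 K F) where
  carrier := {x | ∃ D : Divisor.degZero (K := K) (F := F),
    (g ^ r) • (D : Divisor K F) = D ∧ Pic0.mk D = x}
  zero_mem' := ⟨0, by simp, rfl⟩
  add_mem' := by
    rintro _ _ ⟨D, hD, rfl⟩ ⟨E, hE, rfl⟩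
    refine ⟨D + E, ?_, rfl⟩
    rw [AddSubgroup.coe_add, smul_add, hD, hE]
  neg_mem' := by
    rintro _ ⟨D, hD, rfl⟩
    refine ⟨-D, ?_, rfl⟩
    rw [AddSubgroup.coe_neg, smul_neg, hD]

theorem mem_Gam {g : SemilinearAut K F} {r : ℕ} {x : Pic0 K F} :
    x ∈ Gam g r ↔ ∃ D : Divisor.degZero (K := K) (F := F),
      (g ^ r) • (D : Divisor K F) = D ∧ Pic0.mk D = x := Iff.rfl

theorem Gam_le_mul (g : SemilinearAut K F) (r t : ℕ) : Gam g r ≤ Gam g (r * t) := by
  rintro _ ⟨D, hD, rfl⟩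
  refine ⟨D, ?_, rfl⟩
  rw [pow_mul]
  induction t with
  | zero => simp
  | succ t ih => rw [pow_succ, mul_smul, hD, ih]

/-- `g ^ r` fixes `Γ_r` pointwise. -/
theorem smul_eq_of_mem_Gam {g : SemilinearAut K F} {r : ℕ} {x : Pic0 K F} (hx : x ∈ Gam g r) :
    (g ^ r) • x = x := by
  obtain ⟨D, hD, rfl⟩ := hx
  rw [SemilinearAut.pic0_smul_mk]
  exact congrArg Pic0.mk (Subtype.ext hD)

/-- The trace `∑_{i<n} (g^r)^i` maps `Γ_{rn}` into `Γ_r`. -/
theorem sum_smul_mem_Gam (g : SemilinearAut K F) (r n : ℕ) {y : Pic0 K F}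
    (hy : y ∈ Gam g (r * n)) : ∑ i ∈ Finset.range n, ((g ^ r) ^ i) • y ∈ Gam g r := by
  obtain ⟨D, hD, rfl⟩ := hy
  refine ⟨∑ i ∈ Finset.range n, SemilinearAut.degZeroSMulHom ((g ^ r) ^ i) D, ?_, ?_⟩
  · have hcoe : ((∑ i ∈ Finset.range n, SemilinearAut.degZeroSMulHom ((g ^ r) ^ i) D :
        Divisor.degZero (K := K) (F := F)) : Divisor K F)
        = ∑ i ∈ Finset.range n, ((g ^ r) ^ i) • (D : Divisor K F) := by
      rw [AddSubgroup.val_finsetSum]
      rfl
    rw [hcoe, Finset.smul_sum]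
    have h1 : ∀ i, (g ^ r) • (((g ^ r) ^ i) • (D : Divisor K F))
        = ((g ^ r) ^ (i + 1)) • (D : Divisor K F) := by
      intro i
      rw [← mul_smul, ← pow_succ']
    simp only [h1]
    have h2 := Finset.sum_range_succ (fun i => ((g ^ r) ^ i) • (D : Divisor K F)) n
    have h3 := Finset.sum_range_succ' (fun i => ((g ^ r) ^ i) • (D : Divisor K F)) n
    have h4 : ((g ^ r) ^ n) • (D : Divisor K F) = D := by
      rw [← pow_mul]; exact hD
    simp only [pow_zero, one_smul] at h3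
    rw [h2, h4] at h3
    exact add_right_cancel h3.symm
  · have : Pic0.mk (∑ i ∈ Finset.range n, SemilinearAut.degZeroSMulHom ((g ^ r) ^ i) D)
        = ∑ i ∈ Finset.range n, Pic0.mk (SemilinearAut.degZeroSMulHom ((g ^ r) ^ i) D) :=
      map_sum (QuotientAddGroup.mk' _) _ _
    rw [this]
    rfl

/-- **Formal assembly.**  Finiteness, exhaustion, surjectivity of the trace and the `ℓ`-adic
growth of `#Γ_r` give the structure of the `ℓ`-power torsion of `Pic⁰`. -/
theorem card_torsion_of_gam (g : SemilinearAut K F) (ℓ : ℕ) [hℓ : Fact ℓ.Prime] (d : ℕ)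
    (hfin : ∀ r : ℕ, 0 < r → Finite (Gam g r))
    (hexh : ∀ x : Pic0 K F, ∃ r : ℕ, 0 < r ∧ x ∈ Gam g r)
    (hnorm : ∀ r : ℕ, 0 < r → ∀ x ∈ Gam g r, ∃ y ∈ Gam g (r * ℓ),
      ∑ i ∈ Finset.range ℓ, ((g ^ r) ^ i) • y = x)
    (hgrowth : ∃ M : ℕ, 0 < M ∧ ∃ c : ℕ, ∀ j t : ℕ, ¬ ℓ ∣ t →
      padicValNat ℓ (Nat.card (Gam g (M * ℓ ^ j * t))) = c + d * j)
    (k : ℕ) : Nat.card (Pic0.torsion K F (ℓ ^ k)) = ℓ ^ (d * k) := by
  classical
  obtain ⟨M, hM, c, hc⟩ := hgrowth
  have hℓpos : 0 < ℓ := hℓ.out.pos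
  have hpos : ∀ j : ℕ, 0 < M * ℓ ^ j := fun j => Nat.mul_pos hM (pow_pos hℓpos j)
  have hfin' : ∀ j : ℕ, Finite (Gam g (M * ℓ ^ j)) := fun j => hfin _ (hpos j)
  have hone : ¬ ℓ ∣ 1 := hℓ.out.one_lt.ne' ∘ Nat.dvd_one.1
  have hsucc : ∀ j : ℕ, M * ℓ ^ (j + 1) = M * ℓ ^ j * ℓ := fun j => by rw [pow_succ, mul_assoc]
  -- the tower
  let B : ℕ → AddSubgroup (Pic0 K F) := fun j => primPart ℓ (Gam g (M * ℓ ^ j))
  let σ : ℕ → AddMonoid.End (Pic0 K F) := fun j =>
    DistribMulAction.toAddMonoidEnd (SemilinearAut K F) (Pic0 K F) (g ^ (M * ℓ ^ j))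
  have hσ : ∀ (j i : ℕ) (y : Pic0 K F), ((σ j) ^ i) y = ((g ^ (M * ℓ ^ j)) ^ i) • y := by
    intro j i y
    show ((DistribMulAction.toAddMonoidEnd (SemilinearAut K F) (Pic0 K F)
      (g ^ (M * ℓ ^ j))) ^ i) y = _
    rw [← map_pow]
    rfl
  have htr : ∀ (j : ℕ) (y : Pic0 K F),
      trEnd (σ j) ℓ y = ∑ i ∈ Finset.range ℓ, ((g ^ (M * ℓ ^ j)) ^ i) • y := by
    intro j y
    rw [trEnd_apply]
    exact Finset.sum_congr rfl fun i _ => hσ j i y
  have hcardB : ∀ j : ℕ, Nat.card (B j) = ℓ ^ (c + d * j) := by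
    intro j
    have := hfin' j
    have h1 := card_primPart ℓ (Gam g (M * ℓ ^ j))
    have h2 := hc j 1 hone
    rw [mul_one] at h2
    rw [← h2]
    exact h1
  have key := card_torsionBy_of_tower (A := Pic0 K F) ℓ d c B σ ?_ hcardB ?_ ?_ ?_ ?_ k
  · rw [← key]
    rfl
  · -- monotone
    intro j
    show primPart ℓ (Gam g (M * ℓ ^ j)) ≤ primPart ℓ (Gam g (M * ℓ ^ (j + 1)))
    rw [hsucc]
    exact primPart_mono ℓ (Gam_le_mul g _ ℓ)
  · -- fixed
    intro j x hx
    have := smul_eq_of_mem_Gam hx.1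
    exact this
  · -- the trace maps `B (j+1)` to `B j`
    intro j y hy
    obtain ⟨hy1, n, hn⟩ := hy
    rw [hsucc] at hy1
    refine ⟨?_, n, ?_⟩
    · rw [htr]
      exact sum_smul_mem_Gam g _ ℓ hy1
    · rw [← map_nsmul, hn, map_zero]
  · -- the trace is onto
    intro j x hx
    obtain ⟨hx1, hx2⟩ := hx
    obtain ⟨y, hy, hyx⟩ := hnorm _ (hpos j) x hx1
    have : Finite (Gam g (M * ℓ ^ j * ℓ)) := by
      rw [← hsucc]; exact hfin' (j + 1)
    obtain ⟨y', hy', hy'x⟩ := exists_primPart_preimage ℓ (Gam g (M * ℓ ^ j * ℓ))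
      (trEnd (σ j) ℓ) hy hx2 (by rw [htr]; exact hyx)
    refine ⟨y', ?_, hy'x⟩
    show y' ∈ primPart ℓ (Gam g (M * ℓ ^ (j + 1)))
    rw [hsucc]
    exact hy'
  · -- exhaustion
    intro x n hn
    obtain ⟨r, hr, hxr⟩ := hexh x
    obtain ⟨j, t, ht, rfl⟩ := Nat.exists_eq_pow_mul_and_not_dvd hr.ne' ℓ hℓ.out.one_lt.ne'
    refine ⟨j, ?_⟩
    have hx1 : x ∈ Gam g (M * ℓ ^ j * t) := by
      have := Gam_le_mul g (ℓ ^ j * t) M hxr
      rwa [show ℓ ^ j * t * M = M * ℓ ^ j * t by ring] at this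
    have htpos : 0 < t := Nat.pos_of_ne_zero (by rintro rfl; exact ht (dvd_zero _))
    have : Finite (Gam g (M * ℓ ^ j * t)) := hfin _ (Nat.mul_pos (hpos j) htpos)
    have := hfin' j
    have hle : primPart ℓ (Gam g (M * ℓ ^ j)) ≤ primPart ℓ (Gam g (M * ℓ ^ j * t)) :=
      primPart_mono ℓ (Gam_le_mul g _ t)
    have hcard : Nat.card (primPart ℓ (Gam g (M * ℓ ^ j * t)))
        ≤ Nat.card (primPart ℓ (Gam g (M * ℓ ^ j))) := by
      rw [card_primPart, card_primPart, hc j t ht]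
      have h2 := hc j 1 hone
      rw [mul_one] at h2
      rw [h2]
    have : Finite (primPart ℓ (Gam g (M * ℓ ^ j * t))) :=
      Finite.of_injective (fun y : primPart ℓ (Gam g (M * ℓ ^ j * t)) =>
        (⟨y.1, y.2.1⟩ : Gam g (M * ℓ ^ j * t))) (fun a b h => Subtype.ext (by
          simpa using congrArg Subtype.val h))
    have heq := AddSubgroup.eq_of_le_of_card_ge hle hcard
    show x ∈ primPart ℓ (Gam g (M * ℓ ^ j))
    rw [heq]
    exact ⟨hx1, n, hn⟩

end Gam

/-! ## The setting and the leaf interfaces -/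

section Spec

open IntermediateField

/-- Number of effective divisors of degree `n` on a set `Pl` which are invariant under
`σ ^ r` (`Pl` = places, all of degree one; `σ` = Frobenius). -/
noncomputable def invCount {Pl : Type*} (σ : Equiv.Perm Pl) (r n : ℕ) : ℕ :=
  Nat.card {D : Pl →₀ ℕ // D.mapDomain (⇑(σ ^ r)) = D ∧ (D.sum fun _ k => k) = n}

/-- Number of effective divisors of degree `n` of `F` fixed by `g ^ r`. -/
noncomputable def effCount {K F : Type*} [Field K] [Field F] [Algebra K F]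
    (g : SemilinearAut K F) (r n : ℕ) : ℕ :=
  invCount (MulAction.toPerm g : Equiv.Perm (Place K F)) r n

/-- **The hypotheses of the characteristic `p` core**: `K` is an algebraic closure of a finite
field, all places of `F/K` are rational, and `g` is a `q`-Frobenius of `F` fixing a
non-constant function and a place; Riemann–Roch with duality holds. -/
structure FrobSetting (K F : Type*) [Field K] [Field F] [Algebra K F] (q : ℕ)
    (g : SemilinearAut K F) : Prop where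
  /-- `q` is a power of the characteristic. -/
  pow : ∃ p f : ℕ, p.Prime ∧ CharP K p ∧ 0 < f ∧ q = p ^ f
  /-- `g` is the `q`-Frobenius on constants. -/
  base : ∀ a : K, SemilinearAut.baseAut g a = a ^ q
  /-- `K` is the union of its finite subfields. -/
  alg : ∀ a : K, ∃ m : ℕ, 0 < m ∧ a ^ (q ^ m) = a
  /-- All places are rational. -/
  res : ∀ v : Place K F, Function.Surjective (algebraMap K v.ResidueField)
  /-- All places have degree one. -/
  deg : ∀ v : Place K F, v.deg = 1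
  /-- Functions without poles are constant. -/
  const : ∀ f : F, (∀ v : Place K F, 0 ≤ v.ord f) → f ∈ Set.range (algebraMap K F)
  /-- A non-constant function fixed by `g`. -/
  fixedFun : ∃ x : F, Transcendental K x ∧ FiniteDimensional K⟮x⟯ F ∧ g • x = x
  /-- A place fixed by `g`. -/
  fixedPlace : ∃ P₀ : Place K F, g • P₀ = P₀
  /-- The Riemann–Roch spaces are finite-dimensional. -/
  finiteL : ∀ D : Divisor K F, Module.Finite K (riemannRochSpace D)
  /-- Riemann–Roch with duality. -/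
  rrd : ∃ W : Divisor K F, Divisor.degree W = 2 * (genusFF K F : ℤ) - 2 ∧
    ∀ D : Divisor K F, (Module.finrank K (riemannRochSpace D) : ℤ)
      = Divisor.degree D + 1 - genusFF K F + Module.finrank K (riemannRochSpace (W - D))

/-- **RRD** (characteristic free): finiteness of `L(D)` and Riemann–Roch with duality for a
function field over an algebraically closed field.  (= weak Riemann–Roch A2 + duality.) -/
def Stmt_RRD : Prop :=
  ∀ (K F : Type) [Field K] [Field F] [Algebra K F] [IsAlgClosed K] [HasPrincipalDivisors K F],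
    (∀ v : Place K F, Module.Finite K v.ResidueField) →
    (∀ f : F, (∀ v : Place K F, 0 ≤ v.ord f) → f ∈ Set.range (algebraMap K F)) →
    Nonempty (Place K F) →
    ∀ x : F, Transcendental K x → FiniteDimensional K⟮x⟯ F →
    (∀ D : Divisor K F, Module.Finite K (riemannRochSpace D)) ∧
    ∃ W : Divisor K F, Divisor.degree W = 2 * (genusFF K F : ℤ) - 2 ∧
      ∀ D : Divisor K F, (Module.finrank K (riemannRochSpace D) : ℤ)
        = Divisor.degree D + 1 - genusFF K F + Module.finrank K (riemannRochSpace (W - D))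

/-- **CLS** The number of effective `g^r`-fixed divisors linearly equivalent to a `g^r`-fixed
divisor `D₀` is `(Q^{ℓ(D₀)} - 1)/(Q - 1)`, `Q = q^r`. -/
def Stmt_Cls : Prop :=
  ∀ (K F : Type) [Field K] [Field F] [Algebra K F] [IsAlgClosed K] [HasPrincipalDivisors K F]
    (q : ℕ) (g : SemilinearAut K F), FrobSetting K F q g →
    ∀ r : ℕ, 0 < r → ∀ D₀ : Divisor K F, (g ^ r) • D₀ = D₀ →
      (q ^ r - 1) * Nat.card {D : Divisor K F // 0 ≤ D ∧ (g ^ r) • D = D ∧
          D - D₀ ∈ Divisor.principal (K := K) (F := F)}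
        = (q ^ r) ^ Module.finrank K (riemannRochSpace D₀) - 1

/-- **FIN** `Γ_r` is finite. -/
def Stmt_Fin : Prop :=
  ∀ (K F : Type) [Field K] [Field F] [Algebra K F] [IsAlgClosed K] [HasPrincipalDivisors K F]
    (q : ℕ) (g : SemilinearAut K F), FrobSetting K F q g →
    ∀ r : ℕ, 0 < r → Finite (Gam g r)

/-- **EXH** Every class of `Pic⁰` lies in some `Γ_r` (every place has a finite `g`-orbit). -/
def Stmt_Exh : Prop :=
  ∀ (K F : Type) [Field K] [Field F] [Algebra K F] [IsAlgClosed K] [HasPrincipalDivisors K F]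
    (q : ℕ) (g : SemilinearAut K F), FrobSetting K F q g →
    ∀ x : Pic0 K F, ∃ r : ℕ, 0 < r ∧ x ∈ Gam g r

/-- **NORM** The trace `Γ_{rℓ} → Γ_r` is surjective. -/
def Stmt_Norm : Prop :=
  ∀ (K F : Type) [Field K] [Field F] [Algebra K F] [IsAlgClosed K] [HasPrincipalDivisors K F]
    (q : ℕ) (g : SemilinearAut K F), FrobSetting K F q g →
    ∀ (ℓ : ℕ) [Fact ℓ.Prime], ¬ ℓ ∣ q → ∀ r : ℕ, 0 < r → ∀ x ∈ Gam g r,
      ∃ y ∈ Gam g (r * ℓ), ∑ i ∈ Finset.range ℓ, ((g ^ r) ^ i) • y = x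

/-- **COUNT** (the geometric feed of the zeta function): finitely many places fixed by
`g ^ m`; the number of fixed effective divisors of large degree (`BIG`, Riemann–Roch) and of
degree `2g - 2` (`TOP`, duality). -/
def Stmt_Count : Prop :=
  ∀ (K F : Type) [Field K] [Field F] [Algebra K F] [IsAlgClosed K] [HasPrincipalDivisors K F]
    (q : ℕ) (g : SemilinearAut K F), FrobSetting K F q g →
    (∀ m : ℕ, 0 < m → {v : Place K F | (g ^ m) • v = v}.Finite) ∧
    (∀ r n : ℕ, 0 < r → 2 * genusFF K F ≤ n + 1 →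
      (q ^ r - 1) * effCount g r n + Nat.card (Gam g r)
        = Nat.card (Gam g r) * (q ^ r) ^ (n + 1 - genusFF K F)) ∧
    (∀ r : ℕ, 0 < r → 0 < genusFF K F →
      (q ^ r - 1) * effCount g r (2 * genusFF K F - 2) + Nat.card (Gam g r)
        = (q ^ r) ^ (genusFF K F - 1) * (q ^ r - 1 + Nat.card (Gam g r)))

/-- **ZETA, abstract form** (Mathlib only): a permutation `σ` of a set with finitely many
points fixed by each `σ ^ m`, whose numbers of invariant effective divisors satisfy `BIG` and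
`TOP` with class numbers `h r`, has an integral "Frobenius matrix". -/
def Stmt_ZetaAbs : Prop :=
  ∀ (Pl : Type) (σ : Equiv.Perm Pl) (q γ : ℕ) (h : ℕ → ℕ), 2 ≤ q →
    (∀ m : ℕ, 0 < m → {v : Pl | (σ ^ m) v = v}.Finite) →
    (∀ r : ℕ, 0 < r → 0 < h r) →
    (∀ r n : ℕ, 0 < r → 2 * γ ≤ n + 1 →
      (q ^ r - 1) * invCount σ r n + h r = h r * (q ^ r) ^ (n + 1 - γ)) →
    (∀ r : ℕ, 0 < r → 0 < γ →
      (q ^ r - 1) * invCount σ r (2 * γ - 2) + h r = (q ^ r) ^ (γ - 1) * (q ^ r - 1 + h r)) →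
    ∃ A : Matrix (Fin (2 * γ)) (Fin (2 * γ)) ℤ, A.det = (q : ℤ) ^ γ ∧
      ∀ r : ℕ, 0 < r → (h r : ℤ) = (1 - A ^ r).det

/-- **ZETA** `#Γ_r = det (1 - A^r)` for an integral matrix `A` of size `2g` and determinant
`q^g`. -/
def Stmt_ZetaMatrix : Prop :=
  ∀ (K F : Type) [Field K] [Field F] [Algebra K F] [IsAlgClosed K] [HasPrincipalDivisors K F]
    (q : ℕ) (g : SemilinearAut K F), FrobSetting K F q g →
    ∃ A : Matrix (Fin (2 * genusFF K F)) (Fin (2 * genusFF K F)) ℤ,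
      A.det = (q : ℤ) ^ genusFF K F ∧
      ∀ r : ℕ, 0 < r → (Nat.card (Gam g r) : ℤ) = (1 - A ^ r).det

/-- **GROWTH** the `ℓ`-adic growth of `#Γ_r` (consumer form of ZETA). -/
def Stmt_Growth : Prop :=
  ∀ (K F : Type) [Field K] [Field F] [Algebra K F] [IsAlgClosed K] [HasPrincipalDivisors K F]
    (q : ℕ) (g : SemilinearAut K F), FrobSetting K F q g →
    ∀ (ℓ : ℕ) [Fact ℓ.Prime], ¬ ℓ ∣ q →
    ∃ M : ℕ, 0 < M ∧ ∃ c : ℕ, ∀ j t : ℕ, ¬ ℓ ∣ t →
      padicValNat ℓ (Nat.card (Gam g (M * ℓ ^ j * t))) = c + 2 * genusFF K F * j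

/-- **CORE** the structure of the `ℓ`-power torsion of `Pic⁰`, `ℓ ∤ q`. -/
def Stmt_Core : Prop :=
  ∀ (K F : Type) [Field K] [Field F] [Algebra K F] [IsAlgClosed K] [HasPrincipalDivisors K F]
    (q : ℕ) (g : SemilinearAut K F), FrobSetting K F q g →
    ∀ (ℓ : ℕ) [Fact ℓ.Prime], ¬ ℓ ∣ q → ∀ k : ℕ,
      Nat.card (Pic0.torsion K F (ℓ ^ k)) = ℓ ^ (2 * genusFF K F * k)

/-- **Assembly of the core.** -/
theorem core_of (hFin : Stmt_Fin) (hExh : Stmt_Exh) (hNorm : Stmt_Norm)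
    (hGrowth : Stmt_Growth) : Stmt_Core := by
  intro K F _ _ _ _ _ q g hS ℓ _ hℓ k
  exact card_torsion_of_gam g ℓ (2 * genusFF K F) (hFin K F q g hS) (hExh K F q g hS)
    (hNorm K F q g hS ℓ hℓ) (hGrowth K F q g hS ℓ hℓ) k

end Spec

end Fermat.Agent.S27.helper5747
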