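import Mathlib

set_option autoImplicit false

open Polynomial PowerSeries

namespace Fermat.Agent.S27.helper2605

noncomputable section

section TraceFormula

variable {R : Type*} [CommRing R] {n : Type*} [Fintype n] [DecidableEq n]

/-- The matrix of power series `∑ₘ Mᵐ Xᵐ`. -/
def resolventSeries (M : Matrix n n R) : Matrix n n R⟦X⟧ :=
  Matrix.of fun i j => PowerSeries.mk fun m => (M ^ m) i j

/-- `(1 - X M) * ∑ₘ Mᵐ Xᵐ = 1`. -/
theorem one_sub_X_smul_mul_resolventSeries (M : Matrix n n R) :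
    (1 - (PowerSeries.X : R⟦X⟧) • M.map (PowerSeries.C : R →+* R⟦X⟧)) * resolventSeries M = 1 := by
  ext i j m
  rw [sub_mul, one_mul, Matrix.smul_mul, Matrix.sub_apply, Matrix.smul_apply, smul_eq_mul,
    map_sub, Matrix.mul_apply]
  cases m with
  | zero =>
    simp [resolventSeries, Matrix.one_apply]
  | succ m =>
    rw [PowerSeries.coeff_succ_X_mul, map_sum]
    simp only [resolventSeries, Matrix.of_apply, Matrix.map_apply, PowerSeries.coeff_mk,
      PowerSeries.coeff_C_mul]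
    rw [pow_succ', Matrix.mul_apply, sub_self]
    simp only [Matrix.one_apply]
    split_ifs <;> simp

/-- The reversed characteristic polynomial, as a power series, is `det (1 - X M)`. -/
theorem coe_charpolyRev (M : Matrix n n R) :
    ((M.charpolyRev : R[X]) : R⟦X⟧) =
      (1 - (PowerSeries.X : R⟦X⟧) • M.map (PowerSeries.C : R →+* R⟦X⟧)).det := by
  rw [Matrix.charpolyRev, ← Polynomial.coeToPowerSeries.ringHom_apply, RingHom.map_det]
  congr 1
  ext i j : 1
  simp [Matrix.one_apply, apply_ite]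
  exact mul_comm _ _

/-- Derivative at `Y = 0` of `f (X + Y)`. -/
theorem eval_zero_derivative_shift (f : R[X]) :
    Polynomial.eval 0 (Polynomial.derivative
      ((f.map (PowerSeries.C : R →+* R⟦X⟧)).comp
        (Polynomial.C (PowerSeries.X : R⟦X⟧) + Polynomial.X))) =
      ((Polynomial.derivative f : R[X]) : R⟦X⟧) := by
  rw [Polynomial.derivative_comp]
  simp only [Polynomial.derivative_add, Polynomial.derivative_C, Polynomial.derivative_X, zero_add,
    one_mul, Polynomial.eval_comp, Polynomial.eval_add, Polynomial.eval_C, Polynomial.eval_X,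
    add_zero, Polynomial.derivative_map]
  rw [Polynomial.eval_map, Polynomial.eval₂_C_X_eq_coe]

/-- **Logarithmic derivative of the reversed characteristic polynomial**, first form:
`d/dX det (1 - X M) = - det (1 - X M) * tr (M * ∑ₘ Mᵐ Xᵐ)`. -/
theorem derivative_coe_charpolyRev (M : Matrix n n R) :
    ((Polynomial.derivative M.charpolyRev : R[X]) : R⟦X⟧) =
      -(((M.charpolyRev : R[X]) : R⟦X⟧) *
        Matrix.trace (resolventSeries M * M.map (PowerSeries.C : R →+* R⟦X⟧))) := by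
  set Mh : Matrix n n R⟦X⟧ := M.map (PowerSeries.C : R →+* R⟦X⟧) with hMh
  set U : Matrix n n R⟦X⟧ := 1 - (PowerSeries.X : R⟦X⟧) • Mh with hU
  set B : Matrix n n R⟦X⟧ := resolventSeries M with hB
  have hUB : U * B = 1 := one_sub_X_smul_mul_resolventSeries M
  -- the two-variable determinant `det (1 - (X + Y) M)` over `R⟦X⟧[Y]`
  have key : ((M.charpolyRev).map (PowerSeries.C : R →+* R⟦X⟧)).comp
        (Polynomial.C (PowerSeries.X : R⟦X⟧) + Polynomial.X) =
      Polynomial.C U.det *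
        (1 + (Polynomial.X : R⟦X⟧[X]) • (-(B * Mh)).map Polynomial.C).det := by
    have h1 : ((M.charpolyRev).map (PowerSeries.C : R →+* R⟦X⟧)).comp
        (Polynomial.C (PowerSeries.X : R⟦X⟧) + Polynomial.X) =
        (1 - (Polynomial.C (PowerSeries.X : R⟦X⟧) + Polynomial.X) • Mh.map Polynomial.C).det := by
      rw [Polynomial.comp, Polynomial.eval₂_map, Matrix.charpolyRev,
        ← Polynomial.coe_eval₂RingHom, RingHom.map_det]
      congr 1
      ext i j : 1
      simp [Matrix.one_apply, apply_ite, hMh]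
      exact mul_comm _ _
    have h2 : U.map (Polynomial.C : R⟦X⟧ →+* R⟦X⟧[X]) *
        ((B * Mh).map (Polynomial.C : R⟦X⟧ →+* R⟦X⟧[X])) = Mh.map Polynomial.C := by
      rw [← Matrix.map_mul, ← mul_assoc, hUB, one_mul]
    have h3 : U.map (Polynomial.C : R⟦X⟧ →+* R⟦X⟧[X]) =
        1 - Polynomial.C (PowerSeries.X : R⟦X⟧) • Mh.map Polynomial.C := by
      ext i j : 1
      simp [hU, Matrix.one_apply, apply_ite]
    have h5 : (1 + (Polynomial.X : R⟦X⟧[X]) • (-(B * Mh)).map Polynomial.C) =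
        1 - (Polynomial.X : R⟦X⟧[X]) • (B * Mh).map Polynomial.C := by
      ext i j : 1
      simp only [Matrix.add_apply, Matrix.sub_apply, Matrix.smul_apply, Matrix.map_apply,
        Matrix.neg_apply, map_neg, smul_neg, sub_eq_add_neg]
    rw [h1, RingHom.map_det, ← Matrix.det_mul, RingHom.mapMatrix_apply, h5, mul_sub, mul_one,
      Matrix.mul_smul, h2, h3, add_smul, sub_sub]
  have h4 := eval_zero_derivative_shift M.charpolyRev
  rw [key, Polynomial.derivative_mul, Polynomial.derivative_C, zero_mul,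
    zero_add, Polynomial.eval_mul, Polynomial.eval_C, Matrix.derivative_det_one_add_X_smul,
    Matrix.trace_neg, mul_neg, ← coe_charpolyRev] at h4
  exact h4.symm

/-- **Logarithmic derivative trace formula** for the reversed characteristic polynomial
`det (1 - X M)`: `X * d/dX det (1 - X M) = - det (1 - X M) * ∑_{m ≥ 1} tr (Mᵐ) Xᵐ`. -/
theorem X_mul_derivative_charpolyRev (M : Matrix n n R) :
    (PowerSeries.X : R⟦X⟧) * d⁄dX R ((M.charpolyRev : R[X]) : R⟦X⟧) =
      -(((M.charpolyRev : R[X]) : R⟦X⟧) *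
        PowerSeries.mk fun m => if m = 0 then 0 else Matrix.trace (M ^ m)) := by
  rw [PowerSeries.derivative_coe, derivative_coe_charpolyRev, mul_neg, neg_inj, mul_left_comm]
  congr 1
  ext m
  cases m with
  | zero => simp
  | succ m =>
    rw [PowerSeries.coeff_succ_X_mul, PowerSeries.coeff_mk, if_neg (Nat.succ_ne_zero m),
      Matrix.trace, map_sum, Matrix.trace, pow_succ]
    refine Finset.sum_congr rfl fun i _ => ?_
    rw [Matrix.diag_apply, Matrix.diag_apply, Matrix.mul_apply, Matrix.mul_apply, map_sum]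
    refine Finset.sum_congr rfl fun k _ => ?_
    simp [resolventSeries, PowerSeries.coeff_mul_C]

/-- The value at `1` of `det (1 - X M)` is `det (1 - M)`. -/
theorem eval_one_charpolyRev (M : Matrix n n R) :
    Polynomial.eval 1 M.charpolyRev = (1 - M).det := by
  rw [Matrix.charpolyRev, ← Polynomial.coe_evalRingHom, RingHom.map_det]
  congr 1
  ext i j : 1
  simp [Matrix.one_apply, apply_ite]

end TraceFormula

section Companion

variable {R : Type*} [CommRing R]

theorem reflect_reflect (d : ℕ) (f : R[X]) : Polynomial.reflect d (Polynomial.reflect d f) = f := by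
  ext i
  rw [Polynomial.coeff_reflect, Polynomial.coeff_reflect, Polynomial.revAt_invol]

/-- Every polynomial with constant coefficient `1` and degree at most `d` is the reversed
characteristic polynomial `det (1 - X M)` of a `d × d` matrix (a companion matrix of the
reflected polynomial); its determinant is `(-1) ^ d` times the `d`-th coefficient. -/
theorem exists_matrix_charpolyRev_eq [Nontrivial R] (d : ℕ) (L : R[X]) (hdeg : L.natDegree ≤ d)
    (h0 : L.coeff 0 = 1) :
    ∃ M : Matrix (Fin d) (Fin d) R, M.charpolyRev = L ∧ M.det = (-1) ^ d * L.coeff d := by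
  set P : R[X] := Polynomial.reflect d L with hP
  have hPd : P.coeff d = 1 := by
    rw [hP, Polynomial.coeff_reflect, Polynomial.revAt_le le_rfl, Nat.sub_self, h0]
  have hPdeg : P.natDegree ≤ d := by
    rw [Polynomial.natDegree_le_iff_coeff_eq_zero]
    intro i hi
    rw [hP, Polynomial.coeff_reflect, Polynomial.revAt_eq_self_of_lt hi]
    exact Polynomial.coeff_eq_zero_of_natDegree_lt (lt_of_le_of_lt hdeg hi)
  have hPnat : P.natDegree = d := by
    refine le_antisymm hPdeg ?_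
    refine Polynomial.le_natDegree_of_ne_zero ?_
    rw [hPd]; exact one_ne_zero
  have hPmonic : P.Monic := by
    rw [Polynomial.Monic, Polynomial.leadingCoeff, hPnat, hPd]
  -- the matrix of multiplication by the root in `R[X]/(P)`
  let pb := AdjoinRoot.powerBasis' hPmonic
  have hmin : minpoly R pb.gen = P := by
    symm
    refine minpoly.unique' R _ hPmonic ?_ ?_
    · simp [pb, AdjoinRoot.aeval_eq]
    · intro f hf
      by_cases hf0 : f = 0
      · exact Or.inl hf0
      · right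
        simp only [pb, AdjoinRoot.powerBasis'_gen, AdjoinRoot.aeval_eq]
        exact AdjoinRoot.mk_ne_zero_of_degree_lt hPmonic hf0 hf
  have hchar : (Algebra.leftMulMatrix pb.basis pb.gen).charpoly = P := by
    rw [charpoly_leftMulMatrix, hmin]
  have hdim : pb.dim = d := by simp [pb, hPnat]
  let e : Fin pb.dim ≃ Fin d := finCongr hdim
  refine ⟨Matrix.reindex e e (Algebra.leftMulMatrix pb.basis pb.gen), ?_, ?_⟩
  · rw [← Matrix.reverse_charpoly, Matrix.charpoly_reindex, hchar, Polynomial.reverse, hPnat, hP,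
      reflect_reflect]
  · rw [Matrix.det_eq_sign_charpoly_coeff, Matrix.charpoly_reindex, hchar, Fintype.card_fin, hP,
      Polynomial.coeff_reflect, Polynomial.revAt_le (Nat.zero_le d), Nat.sub_zero]

end Companion

section FormalODE

variable {R : Type*} [CommRing R]

/-- Uniqueness of the solution of the formal differential equation `X f' = f ν`
(`ν` without constant term) with prescribed constant coefficient. -/
theorem eq_of_X_mul_derivative_eq [IsDomain R] [CharZero R] (f g ν : R⟦X⟧)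
    (hν : PowerSeries.constantCoeff ν = 0)
    (hf : (PowerSeries.X : R⟦X⟧) * d⁄dX R f = f * ν)
    (hg : (PowerSeries.X : R⟦X⟧) * d⁄dX R g = g * ν)
    (h0 : PowerSeries.constantCoeff f = PowerSeries.constantCoeff g) : f = g := by
  set u : R⟦X⟧ := f - g with hu
  have hu1 : (PowerSeries.X : R⟦X⟧) * d⁄dX R u = u * ν := by
    rw [hu, map_sub, mul_sub, sub_mul, hf, hg]
  have hu0 : ∀ k, PowerSeries.coeff k u = 0 := by
    intro k
    induction k using Nat.strong_induction_on with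
    | _ k ih =>
      cases k with
      | zero =>
        rw [PowerSeries.coeff_zero_eq_constantCoeff_apply, hu, map_sub, h0, sub_self]
      | succ k =>
        have h1 := congrArg (PowerSeries.coeff (k + 1)) hu1
        rw [PowerSeries.coeff_succ_X_mul, PowerSeries.coeff_derivative, PowerSeries.coeff_mul,
          Finset.sum_eq_zero] at h1
        · have h2 : ((k : R) + 1) ≠ 0 := by exact_mod_cast Nat.succ_ne_zero k
          exact (mul_eq_zero.mp h1).resolve_right h2
        · intro x hx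
          have hx := Finset.HasAntidiagonal.mem_antidiagonal.mp hx
          by_cases hx1 : x.1 < k + 1
          · rw [ih _ hx1, zero_mul]
          · have hx2 : x.2 = 0 := by omega
            rw [hx2, PowerSeries.coeff_zero_eq_constantCoeff_apply, hν, mul_zero]
  have : u = 0 := by
    ext k
    rw [hu0 k, map_zero]
  exact sub_eq_zero.mp this

/-- `(1 - a X) * ∑_{m ≥ 1} aᵐ Xᵐ = a X`. -/
theorem one_sub_mul_geomTail (a : R) :
    (1 - PowerSeries.C a * PowerSeries.X) *
      (PowerSeries.mk fun m => if m = 0 then (0 : R) else a ^ m) = PowerSeries.C a * PowerSeries.X := by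
  ext k
  rw [sub_mul, one_mul, map_sub, mul_assoc, PowerSeries.coeff_C_mul, PowerSeries.coeff_C_mul]
  cases k with
  | zero => simp
  | succ k =>
    rw [PowerSeries.coeff_succ_X_mul, PowerSeries.coeff_mk, PowerSeries.coeff_mk,
      if_neg (Nat.succ_ne_zero k), PowerSeries.coeff_X]
    cases k with
    | zero => simp
    | succ k => simp [pow_succ']

/-- Logarithmic derivative of `(1 - X)(1 - a X)`. -/
theorem X_mul_derivative_one_sub_mul (a : R) :
    (PowerSeries.X : R⟦X⟧) *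
        d⁄dX R ((1 - PowerSeries.X) * (1 - PowerSeries.C a * PowerSeries.X)) =
      -((1 - PowerSeries.X) * (1 - PowerSeries.C a * PowerSeries.X) *
        PowerSeries.mk fun m => if m = 0 then (0 : R) else 1 + a ^ m) := by
  have h1 : (PowerSeries.mk fun m => if m = 0 then (0 : R) else 1 + a ^ m) =
      (PowerSeries.mk fun m => if m = 0 then (0 : R) else 1 ^ m) +
        (PowerSeries.mk fun m => if m = 0 then (0 : R) else a ^ m) := by
    ext k
    simp only [PowerSeries.coeff_mk, map_add, one_pow]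
    split_ifs <;> simp
  have h2 := one_sub_mul_geomTail (1 : R)
  have h3 := one_sub_mul_geomTail a
  rw [map_one, one_mul] at h2
  have h4 : d⁄dX R ((1 - PowerSeries.X) * (1 - PowerSeries.C a * PowerSeries.X)) =
      -(1 - PowerSeries.C a * PowerSeries.X) - (1 - PowerSeries.X) * PowerSeries.C a := by
    rw [Derivation.leibniz, map_sub, map_sub, Derivation.leibniz, PowerSeries.derivative_one,
      PowerSeries.derivative_X, PowerSeries.derivative_C]
    simp only [smul_eq_mul]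
    ring
  rw [h4, h1]
  have h5 : (1 - PowerSeries.X) * (1 - PowerSeries.C a * PowerSeries.X) *
      ((PowerSeries.mk fun m => if m = 0 then (0 : R) else 1 ^ m) +
        (PowerSeries.mk fun m => if m = 0 then (0 : R) else a ^ m)) =
      (1 - PowerSeries.C a * PowerSeries.X) *
        ((1 - PowerSeries.X) * (PowerSeries.mk fun m => if m = 0 then (0 : R) else 1 ^ m)) +
      (1 - PowerSeries.X) * ((1 - PowerSeries.C a * PowerSeries.X) *
        (PowerSeries.mk fun m => if m = 0 then (0 : R) else a ^ m)) := by ring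
  rw [h5, h2, h3]
  ring

end FormalODE

section ZetaMatrix

/-- **(ZF2) From the Euler product (in logarithmic-derivative form) to the integer matrix.**
`N m` = number of points fixed by the `m`-th power of Frobenius, `Zr r` = zeta series of the
`r`-th power, `L` = numerator of the zeta series for `r = 1`. -/
theorem exists_matrix_of_logDerivative
    (q g : ℕ) (N : ℕ → ℤ) (Zr : ℕ → ℤ⟦X⟧)
    (hconst : ∀ r, 1 ≤ r → PowerSeries.constantCoeff (Zr r) = 1)
    (hlog : ∀ r, 1 ≤ r → (PowerSeries.X : ℤ⟦X⟧) * d⁄dX ℤ (Zr r) =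
      Zr r * PowerSeries.mk fun m => if m = 0 then (0 : ℤ) else N (r * m))
    (L : ℤ[X])
    (hL : Zr 1 * ((1 - PowerSeries.X) * (1 - PowerSeries.C (q : ℤ) * PowerSeries.X)) =
      (L : ℤ⟦X⟧))
    (hdeg : L.natDegree ≤ 2 * g) (htop : L.coeff (2 * g) = (q : ℤ) ^ g) :
    ∃ M : Matrix (Fin (2 * g)) (Fin (2 * g)) ℤ, M.det = (q : ℤ) ^ g ∧ M.charpolyRev = L ∧
      (∀ m, 1 ≤ m → N m = 1 + (q : ℤ) ^ m - Matrix.trace (M ^ m)) ∧
      ∀ r, 1 ≤ r →
        Zr r * ((1 - PowerSeries.X) * (1 - PowerSeries.C ((q : ℤ) ^ r) * PowerSeries.X)) =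
          (((M ^ r).charpolyRev : ℤ[X]) : ℤ⟦X⟧) := by
  have hL0 : L.coeff 0 = 1 := by
    have h := congrArg (PowerSeries.coeff 0) hL
    rw [Polynomial.coeff_coe] at h
    rw [← h]
    simp [hconst 1 le_rfl]
  obtain ⟨M, hM, hdet⟩ := exists_matrix_charpolyRev_eq (2 * g) L hdeg hL0
  have hdet' : M.det = (q : ℤ) ^ g := by
    rw [hdet, htop, pow_mul]; simp
  -- the differential equation satisfied by `Zr r * (1 - X) * (1 - q^r X)`
  have hode : ∀ r, 1 ≤ r → (PowerSeries.X : ℤ⟦X⟧) * d⁄dX ℤ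
        (Zr r * ((1 - PowerSeries.X) * (1 - PowerSeries.C ((q : ℤ) ^ r) * PowerSeries.X))) =
      Zr r * ((1 - PowerSeries.X) * (1 - PowerSeries.C ((q : ℤ) ^ r) * PowerSeries.X)) *
        PowerSeries.mk fun m => if m = 0 then (0 : ℤ) else N (r * m) - (1 + ((q : ℤ) ^ r) ^ m) := by
    intro r hr
    have e1 := X_mul_derivative_one_sub_mul ((q : ℤ) ^ r)
    have e2 := hlog r hr
    have e3 : (PowerSeries.mk fun m => if m = 0 then (0 : ℤ) else
          N (r * m) - (1 + ((q : ℤ) ^ r) ^ m)) =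
        (PowerSeries.mk fun m => if m = 0 then (0 : ℤ) else N (r * m)) -
          PowerSeries.mk fun m => if m = 0 then (0 : ℤ) else 1 + ((q : ℤ) ^ r) ^ m := by
      ext k
      simp only [PowerSeries.coeff_mk, map_sub]
      split_ifs <;> simp
    calc (PowerSeries.X : ℤ⟦X⟧) * d⁄dX ℤ
          (Zr r * ((1 - PowerSeries.X) * (1 - PowerSeries.C ((q : ℤ) ^ r) * PowerSeries.X)))
        = Zr r * ((PowerSeries.X : ℤ⟦X⟧) * d⁄dX ℤ
            ((1 - PowerSeries.X) * (1 - PowerSeries.C ((q : ℤ) ^ r) * PowerSeries.X))) +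
          ((1 - PowerSeries.X) * (1 - PowerSeries.C ((q : ℤ) ^ r) * PowerSeries.X)) *
            ((PowerSeries.X : ℤ⟦X⟧) * d⁄dX ℤ (Zr r)) := by
          rw [Derivation.leibniz]
          simp only [smul_eq_mul]
          ring
      _ = _ := by
          rw [e1, e2, e3]
          ring
  -- point counts are traces
  have htr : ∀ m, 1 ≤ m → N m = 1 + (q : ℤ) ^ m - Matrix.trace (M ^ m) := by
    have h1 := hode 1 le_rfl
    rw [pow_one, hL, ← hM, X_mul_derivative_charpolyRev M] at h1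
    have hne : ((M.charpolyRev : ℤ[X]) : ℤ⟦X⟧) ≠ 0 := by
      intro h
      have h' := congrArg (PowerSeries.coeff 0) h
      rw [Polynomial.coeff_coe, hM, hL0, map_zero] at h'
      exact one_ne_zero h'
    have h2 : ((M.charpolyRev : ℤ[X]) : ℤ⟦X⟧) *
        ((PowerSeries.mk fun m => if m = 0 then (0 : ℤ) else N (1 * m) - (1 + (q : ℤ) ^ m)) +
          PowerSeries.mk fun m => if m = 0 then (0 : ℤ) else Matrix.trace (M ^ m)) = 0 := by
      rw [mul_add, ← h1]; ring
    have h3 := (mul_eq_zero.mp h2).resolve_left hne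
    intro m hm
    have h4 := congrArg (PowerSeries.coeff m) h3
    have hm0 : m ≠ 0 := by omega
    simp only [map_add, PowerSeries.coeff_mk, if_neg hm0, map_zero, one_mul] at h4
    linarith
  refine ⟨M, hdet', hM, htr, ?_⟩
  intro r hr
  refine eq_of_X_mul_derivative_eq _ _
    (PowerSeries.mk fun m => if m = 0 then (0 : ℤ) else N (r * m) - (1 + ((q : ℤ) ^ r) ^ m))
    (by simp) (hode r hr) ?_ ?_
  · rw [X_mul_derivative_charpolyRev (M ^ r), ← mul_neg]
    congr 1
    ext m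
    rw [map_neg, PowerSeries.coeff_mk, PowerSeries.coeff_mk]
    by_cases hm0 : m = 0
    · simp [hm0]
    · rw [if_neg hm0, if_neg hm0, htr (r * m) (Nat.mul_pos hr (Nat.pos_of_ne_zero hm0)),
        ← pow_mul, ← pow_mul]
      ring
  · rw [Polynomial.constantCoeff_coe, Polynomial.coeff_zero_eq_eval_zero, Matrix.eval_charpolyRev]
    simp [hconst r hr]

/-- **(ZF2), consumer form**: if moreover each `Zr r * (1 - X) * (1 - q^r X)` is a polynomial
`L_r` with `L_r(1) = h r`, then `h r = det (1 - M ^ r)` for all `r ≥ 1`. -/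
theorem exists_matrix_eval_one_eq_det
    (q g : ℕ) (N : ℕ → ℤ) (Zr : ℕ → ℤ⟦X⟧) (h : ℕ → ℤ)
    (hconst : ∀ r, 1 ≤ r → PowerSeries.constantCoeff (Zr r) = 1)
    (hlog : ∀ r, 1 ≤ r → (PowerSeries.X : ℤ⟦X⟧) * d⁄dX ℤ (Zr r) =
      Zr r * PowerSeries.mk fun m => if m = 0 then (0 : ℤ) else N (r * m))
    (hpoly : ∀ r, 1 ≤ r → ∃ Lr : ℤ[X],
      Zr r * ((1 - PowerSeries.X) * (1 - PowerSeries.C ((q : ℤ) ^ r) * PowerSeries.X)) =
        (Lr : ℤ⟦X⟧) ∧ Polynomial.eval 1 Lr = h r)
    (L : ℤ[X])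
    (hL : Zr 1 * ((1 - PowerSeries.X) * (1 - PowerSeries.C (q : ℤ) * PowerSeries.X)) =
      (L : ℤ⟦X⟧))
    (hdeg : L.natDegree ≤ 2 * g) (htop : L.coeff (2 * g) = (q : ℤ) ^ g) :
    ∃ M : Matrix (Fin (2 * g)) (Fin (2 * g)) ℤ, M.det = (q : ℤ) ^ g ∧
      (∀ m, 1 ≤ m → N m = 1 + (q : ℤ) ^ m - Matrix.trace (M ^ m)) ∧
      ∀ r, 1 ≤ r → h r = (1 - M ^ r).det := by
  obtain ⟨M, hdet, -, htr, hM⟩ := exists_matrix_of_logDerivative q g N Zr hconst hlog L hL hdeg htop
  refine ⟨M, hdet, htr, fun r hr => ?_⟩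
  obtain ⟨Lr, hLr, hev⟩ := hpoly r hr
  have : Lr = (M ^ r).charpolyRev := Polynomial.coe_injective ℤ (by rw [← hLr, hM r hr])
  rw [← hev, this, eval_one_charpolyRev]

end ZetaMatrix

section Rationality

theorem mul_one_sub_mul_one_sub {R : Type*} [CommRing R] (φ : R⟦X⟧) (a : R) :
    φ * ((1 - PowerSeries.X) * (1 - PowerSeries.C a * PowerSeries.X)) =
      φ - PowerSeries.C (a + 1) * (PowerSeries.X * φ) +
        PowerSeries.C a * (PowerSeries.X * (PowerSeries.X * φ)) := by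
  rw [map_add, map_one]; ring

theorem coeff_zero_mul_one_sub_mul_one_sub {R : Type*} [CommRing R] (φ : R⟦X⟧) (a : R) :
    PowerSeries.coeff 0 (φ * ((1 - PowerSeries.X) * (1 - PowerSeries.C a * PowerSeries.X))) =
      PowerSeries.coeff 0 φ := by
  rw [mul_one_sub_mul_one_sub, map_add, map_sub, PowerSeries.coeff_C_mul, PowerSeries.coeff_C_mul,
    PowerSeries.coeff_zero_X_mul, PowerSeries.coeff_zero_X_mul, mul_zero, mul_zero, sub_zero,
    add_zero]

theorem coeff_one_mul_one_sub_mul_one_sub {R : Type*} [CommRing R] (φ : R⟦X⟧) (a : R) :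
    PowerSeries.coeff 1 (φ * ((1 - PowerSeries.X) * (1 - PowerSeries.C a * PowerSeries.X))) =
      PowerSeries.coeff 1 φ - (a + 1) * PowerSeries.coeff 0 φ := by
  rw [mul_one_sub_mul_one_sub, map_add, map_sub, PowerSeries.coeff_C_mul, PowerSeries.coeff_C_mul,
    show (1 : ℕ) = 0 + 1 from rfl, PowerSeries.coeff_succ_X_mul, PowerSeries.coeff_succ_X_mul,
    PowerSeries.coeff_zero_X_mul, mul_zero, add_zero]

theorem coeff_add_two_mul_one_sub_mul_one_sub {R : Type*} [CommRing R] (φ : R⟦X⟧) (a : R)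
    (k : ℕ) :
    PowerSeries.coeff (k + 2) (φ * ((1 - PowerSeries.X) * (1 - PowerSeries.C a * PowerSeries.X))) =
      PowerSeries.coeff (k + 2) φ - (a + 1) * PowerSeries.coeff (k + 1) φ +
        a * PowerSeries.coeff k φ := by
  rw [mul_one_sub_mul_one_sub, map_add, map_sub, PowerSeries.coeff_C_mul, PowerSeries.coeff_C_mul,
    show k + 2 = (k + 1) + 1 from rfl, PowerSeries.coeff_succ_X_mul, PowerSeries.coeff_succ_X_mul,
    PowerSeries.coeff_succ_X_mul]

/-- **(ZF1) Rationality and functional equation of the zeta series from abstract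
Riemann–Roch data.**  `G` = the (finite) set of classes of degree `0`, `l d c` = the dimension
of the class `c` shifted to degree `d`, `c0` = the trivial class, `ι` = the involution
`c ↦ W - c`, and `A d = ∑_c (q^{l d c} - 1)/(q - 1)` = the number of effective divisors of
degree `d`.  Then `(∑ A d X^d) (1 - X) (1 - q X)` is a polynomial `L` of degree `≤ 2 g` with
`L(0) = 1`, top coefficient `q^g`, `L(1) = #G`, and the functional equation
`L_{2g - i} = q^{g - i} L_i`. -/
theorem exists_numerator_of_RR {G : Type*} [Fintype G]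
    (q g : ℕ) (hq : 2 ≤ q) (l : ℤ → G → ℕ) (c0 : G) (ι : Equiv.Perm G)
    (hneg : ∀ d c, d < 0 → l d c = 0)
    (hc0 : l 0 c0 = 1) (hne : ∀ c, c ≠ c0 → l 0 c = 0)
    (hRR : ∀ d c, (l d c : ℤ) = d + 1 - g + l (2 * g - 2 - d) (ι c))
    (A : ℕ → ℤ)
    (hA : ∀ d : ℕ, ((q : ℤ) - 1) * A d = ∑ c, ((q : ℤ) ^ l d c - 1)) :
    ∃ L : ℤ[X],
      PowerSeries.mk A * ((1 - PowerSeries.X) * (1 - PowerSeries.C (q : ℤ) * PowerSeries.X)) =
        (L : ℤ⟦X⟧) ∧
      L.natDegree ≤ 2 * g ∧ L.coeff 0 = 1 ∧ L.coeff (2 * g) = (q : ℤ) ^ g ∧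
      Polynomial.eval 1 L = (Fintype.card G : ℤ) ∧
      ∀ i, i ≤ g → L.coeff (2 * g - i) = (q : ℤ) ^ (g - i) * L.coeff i := by
  classical
  have hq2 : (2 : ℚ) ≤ (q : ℚ) := by exact_mod_cast hq
  have hq0 : (q : ℚ) ≠ 0 := by
    intro h; rw [h] at hq2; norm_num at hq2
  have hq1 : (q : ℚ) - 1 ≠ 0 := by
    intro h
    have h' : (q : ℚ) = 1 := by linarith
    rw [h'] at hq2; norm_num at hq2
  obtain ⟨h, hh⟩ : ∃ h : ℚ, h = (Fintype.card G : ℚ) := ⟨_, rfl⟩
  obtain ⟨f, hf⟩ : ∃ f : ℤ → ℚ, ∀ d, f d = ∑ c, (q : ℚ) ^ l d c := ⟨_, fun _ => rfl⟩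
  have hfFE : ∀ d e k : ℤ, e = 2 * g - 2 - d → k = d + 1 - g → f d = (q : ℚ) ^ k * f e := by
    intro d e k he hk
    subst he hk
    rw [hf, hf, Finset.mul_sum,
      ← Equiv.sum_comp ι (fun c => (q : ℚ) ^ (d + 1 - (g : ℤ)) * (q : ℚ) ^ l (2 * g - 2 - d) c)]
    refine Finset.sum_congr rfl fun c _ => ?_
    rw [← zpow_natCast, hRR d c, zpow_add₀ hq0, zpow_natCast]
  have hfneg : ∀ d, d < 0 → f d = h := by
    intro d hd
    rw [hf, Finset.sum_congr rfl (fun c _ => by rw [hneg d c hd, pow_zero])]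
    simp [hh]
  have hf0 : f 0 = q + h - 1 := by
    have h1 : ∀ c, (q : ℚ) ^ l 0 c = 1 + if c = c0 then (q : ℚ) - 1 else 0 := by
      intro c
      by_cases hc : c = c0
      · subst hc; rw [hc0]; simp
      · rw [hne c hc, if_neg hc]; simp
    rw [hf]
    simp only [h1, Finset.sum_add_distrib, Finset.sum_ite_eq', Finset.mem_univ, if_true,
      Finset.sum_const, Finset.card_univ, nsmul_eq_mul, mul_one, hh]
    ring
  obtain ⟨a, ha⟩ : ∃ a : ℤ → ℚ, ∀ d, a d = (f d - h) / ((q : ℚ) - 1) := ⟨_, fun _ => rfl⟩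
  have ha_neg : ∀ d, d < 0 → a d = 0 := by
    intro d hd; rw [ha, hfneg d hd, sub_self, zero_div]
  have ha_nat : ∀ (m : ℤ) (n : ℕ), m = n → a m = A n := by
    intro m n hm
    subst hm
    rw [ha, div_eq_iff hq1]
    have h1 := congrArg (Int.cast : ℤ → ℚ) (hA n)
    push_cast at h1
    rw [mul_comm, h1, Finset.sum_sub_distrib, hf]
    simp [hh]
  obtain ⟨Φ, hΦ⟩ : ∃ Φ : ℤ → ℚ, ∀ n, Φ n = f n - ((q : ℚ) + 1) * f (n - 1) + q * f (n - 2) :=
    ⟨_, fun _ => rfl⟩
  have hΛ : ∀ n : ℤ, a n - ((q : ℚ) + 1) * a (n - 1) + q * a (n - 2) = Φ n / ((q : ℚ) - 1) := by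
    intro n
    rw [ha, ha, ha, hΦ]
    field_simp
    ring
  have hΦFE : ∀ n : ℤ, Φ (2 * g - n) = (q : ℚ) ^ ((g : ℤ) - n) * Φ n := by
    intro n
    have e1 := hfFE (2 * g - n) (n - 2) ((g : ℤ) - n + 1) (by ring) (by ring)
    have e2 := hfFE (2 * g - n - 1) (n - 1) ((g : ℤ) - n) (by ring) (by ring)
    have e3 := hfFE (2 * g - n - 2) n ((g : ℤ) - n - 1) (by ring) (by ring)
    rw [zpow_add₀ hq0, zpow_one] at e1
    rw [zpow_sub₀ hq0, zpow_one] at e3
    rw [hΦ, hΦ, e1, e2, e3]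
    field_simp
    ring
  have hΦneg : ∀ n : ℤ, n < 0 → Φ n = 0 := by
    intro n hn
    rw [hΦ, hfneg n hn, hfneg (n - 1) (by omega), hfneg (n - 2) (by omega)]
    ring
  have hΦbig : ∀ n : ℤ, 2 * (g : ℤ) < n → Φ n = 0 := by
    intro n hn
    have h1 := hΦFE (2 * g - n)
    rw [show 2 * (g : ℤ) - (2 * g - n) = n by ring] at h1
    rw [h1, hΦneg _ (by omega), mul_zero]
  have hΦ0 : Φ 0 = (q : ℚ) - 1 := by
    rw [hΦ, hf0, hfneg (0 - 1) (by norm_num), hfneg (0 - 2) (by norm_num)]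
    ring
  have hΦtop : Φ (2 * g) = (q : ℚ) ^ g * ((q : ℚ) - 1) := by
    have h1 := hΦFE 0
    rw [sub_zero, sub_zero, hΦ0, zpow_natCast] at h1
    exact h1
  obtain ⟨c, hc⟩ : ∃ c : ℕ → ℤ, ∀ n, c n = PowerSeries.coeff n (PowerSeries.mk A *
      ((1 - PowerSeries.X) * (1 - PowerSeries.C (q : ℤ) * PowerSeries.X))) := ⟨_, fun _ => rfl⟩
  have hcΦ : ∀ n : ℕ, (c n : ℚ) = Φ n / ((q : ℚ) - 1) := by
    intro n
    rw [← hΛ, hc]
    obtain rfl | rfl | ⟨k, rfl⟩ : n = 0 ∨ n = 1 ∨ ∃ k, n = k + 2 := by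
      rcases n with _ | _ | k
      · exact Or.inl rfl
      · exact Or.inr (Or.inl rfl)
      · exact Or.inr (Or.inr ⟨k, rfl⟩)
    · rw [coeff_zero_mul_one_sub_mul_one_sub, PowerSeries.coeff_mk, ha_nat _ 0 rfl,
        ha_neg (((0 : ℕ) : ℤ) - 1) (by norm_num), ha_neg (((0 : ℕ) : ℤ) - 2) (by norm_num)]
      ring
    · rw [coeff_one_mul_one_sub_mul_one_sub, PowerSeries.coeff_mk, PowerSeries.coeff_mk,
        ha_nat _ 1 rfl, ha_nat (((1 : ℕ) : ℤ) - 1) 0 (by norm_num),
        ha_neg (((1 : ℕ) : ℤ) - 2) (by norm_num)]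
      push_cast
      ring
    · rw [coeff_add_two_mul_one_sub_mul_one_sub, PowerSeries.coeff_mk, PowerSeries.coeff_mk,
        PowerSeries.coeff_mk, ha_nat _ (k + 2) rfl,
        ha_nat (((k + 2 : ℕ) : ℤ) - 1) (k + 1) (by push_cast; ring),
        ha_nat (((k + 2 : ℕ) : ℤ) - 2) k (by push_cast; ring)]
      push_cast
      ring
  have hczero : ∀ n : ℕ, 2 * g < n → c n = 0 := by
    intro n hn
    have h1 : (c n : ℚ) = 0 := by
      rw [hcΦ, hΦbig n (by exact_mod_cast hn), zero_div]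
    exact_mod_cast h1
  have hc0' : c 0 = 1 := by
    have h1 : (c 0 : ℚ) = 1 := by
      rw [hcΦ, Nat.cast_zero, hΦ0, div_self hq1]
    exact_mod_cast h1
  have hctop : c (2 * g) = (q : ℤ) ^ g := by
    have h1 : (c (2 * g) : ℚ) = (q : ℚ) ^ g := by
      rw [hcΦ]
      push_cast
      rw [hΦtop, mul_div_assoc, div_self hq1, mul_one]
    exact_mod_cast h1
  have hsum : ∀ m : ℕ, ∑ n ∈ Finset.range (m + 1), Φ n / ((q : ℚ) - 1) =
      a m - q * a ((m : ℤ) - 1) := by
    intro m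
    induction m with
    | zero =>
      rw [zero_add, Finset.sum_range_one, ← hΛ, ha_neg (((0 : ℕ) : ℤ) - 1) (by norm_num),
        ha_neg (((0 : ℕ) : ℤ) - 2) (by norm_num)]
      ring
    | succ m ih =>
      rw [Finset.sum_range_succ, ih, ← hΛ]
      have e1 : ((m + 1 : ℕ) : ℤ) - 1 = m := by push_cast; ring
      have e2 : ((m + 1 : ℕ) : ℤ) - 2 = (m : ℤ) - 1 := by push_cast; ring
      rw [e1, e2]
      ring
  obtain ⟨L, hLdef⟩ : ∃ L : ℤ[X], L = ∑ n ∈ Finset.range (2 * g + 1), Polynomial.monomial n (c n) :=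
    ⟨_, rfl⟩
  have hLcoeff : ∀ i, L.coeff i = if i < 2 * g + 1 then c i else 0 := by
    intro i
    rw [hLdef, Polynomial.finsetSum_coeff]
    simp only [Polynomial.coeff_monomial]
    rw [Finset.sum_ite_eq']
    simp only [Finset.mem_range]
  have heval : Polynomial.eval 1 L = (Fintype.card G : ℤ) := by
    have h1 : ((Polynomial.eval 1 L : ℤ) : ℚ) = h := by
      rw [hLdef, Polynomial.eval_finsetSum]
      simp only [Polynomial.eval_monomial, one_pow, mul_one]
      push_cast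
      rw [Finset.sum_congr rfl (fun n _ => hcΦ n), hsum]
      have e1 := hfFE (2 * g) (-2) ((g : ℤ) + 1) (by ring) (by ring)
      have e2 := hfFE (2 * g - 1) (-1) (g : ℤ) (by ring) (by ring)
      rw [hfneg (-2) (by norm_num), zpow_add₀ hq0, zpow_one, zpow_natCast] at e1
      rw [hfneg (-1) (by norm_num), zpow_natCast] at e2
      rw [ha, ha]
      push_cast
      rw [e1, e2]
      field_simp
      ring
    rw [hh] at h1
    exact_mod_cast h1
  have hFE : ∀ i, i ≤ g → L.coeff (2 * g - i) = (q : ℤ) ^ (g - i) * L.coeff i := by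
    intro i hi
    rw [hLcoeff, hLcoeff, if_pos (by omega), if_pos (by omega)]
    have h1 : (c (2 * g - i) : ℚ) = (q : ℚ) ^ (g - i) * c i := by
      rw [hcΦ, hcΦ]
      have e : ((2 * g - i : ℕ) : ℤ) = 2 * (g : ℤ) - i := by omega
      rw [e, hΦFE, ← zpow_natCast, Nat.cast_sub hi, mul_div_assoc]
    exact_mod_cast h1
  refine ⟨L, ?_, ?_, ?_, ?_, heval, hFE⟩
  · ext n
    rw [Polynomial.coeff_coe, hLcoeff, ← hc]
    split_ifs with hn
    · rfl
    · exact hczero n (by omega)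
  · rw [Polynomial.natDegree_le_iff_coeff_eq_zero]
    intro N hN
    rw [hLcoeff, if_neg (by omega)]
  · rw [hLcoeff, if_pos (by omega), hc0']
  · rw [hLcoeff, if_pos (by omega), hctop]

/-- **(ZF1′) Rationality of the zeta series from the two counting identities only**
(no functional equation needed): `A n` = number of effective divisors of degree `n`, `h` = class
number, with
* (BIG) `(q - 1) A n + h = h q^(n + 1 - g)` for `n ≥ 2 g - 1`,
* (TOP) `(q - 1) A (2 g - 2) + h = q^(g - 1) (q - 1 + h)` for `g ≥ 1`.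
Then `(∑ A n X^n) (1 - X) (1 - q X)` is a polynomial `L` of degree `≤ 2 g` with `L(0) = 1`,
top coefficient `q^g` and `L(1) = h`. -/
theorem exists_numerator_of_counts
    (q g : ℕ) (hq : 2 ≤ q) (A : ℕ → ℤ) (h : ℤ) (hA0 : A 0 = 1)
    (hBIG : ∀ n : ℕ, 2 * g ≤ n + 1 → ((q : ℤ) - 1) * A n + h = h * (q : ℤ) ^ (n + 1 - g))
    (hTOP : 1 ≤ g →
      ((q : ℤ) - 1) * A (2 * g - 2) + h = (q : ℤ) ^ (g - 1) * ((q : ℤ) - 1 + h)) :
    ∃ L : ℤ[X],
      PowerSeries.mk A * ((1 - PowerSeries.X) * (1 - PowerSeries.C (q : ℤ) * PowerSeries.X)) =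
        (L : ℤ⟦X⟧) ∧
      L.natDegree ≤ 2 * g ∧ L.coeff 0 = 1 ∧ L.coeff (2 * g) = (q : ℤ) ^ g ∧
      Polynomial.eval 1 L = h := by
  have hq1 : (q : ℤ) - 1 ≠ 0 := by
    have : (2 : ℤ) ≤ (q : ℤ) := by exact_mod_cast hq
    omega
  obtain ⟨c, hc⟩ : ∃ c : ℕ → ℤ, ∀ n, c n = PowerSeries.coeff n (PowerSeries.mk A *
      ((1 - PowerSeries.X) * (1 - PowerSeries.C (q : ℤ) * PowerSeries.X))) := ⟨_, fun _ => rfl⟩
  have hc_0 : c 0 = A 0 := by
    rw [hc, coeff_zero_mul_one_sub_mul_one_sub, PowerSeries.coeff_mk]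
  have hc_1 : c 1 = A 1 - ((q : ℤ) + 1) * A 0 := by
    rw [hc, coeff_one_mul_one_sub_mul_one_sub, PowerSeries.coeff_mk, PowerSeries.coeff_mk]
  have hc_2 : ∀ k, c (k + 2) = A (k + 2) - ((q : ℤ) + 1) * A (k + 1) + q * A k := by
    intro k
    rw [hc, coeff_add_two_mul_one_sub_mul_one_sub, PowerSeries.coeff_mk, PowerSeries.coeff_mk,
      PowerSeries.coeff_mk]
  have hh0 : g = 0 → h = 1 := by
    intro hg
    have h1 := hBIG 0 (by omega)
    rw [hA0, hg] at h1
    have h2 : ((q : ℤ) - 1) * (h - 1) = ((q : ℤ) - 1) * 0 := by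
      simp only [zero_add, Nat.sub_zero, pow_one] at h1
      linear_combination (-1 : ℤ) * h1
    have h3 := mul_left_cancel₀ hq1 h2
    linarith
  have hczero : ∀ n : ℕ, 2 * g < n → c n = 0 := by
    intro n hn
    obtain rfl | rfl | ⟨k, rfl⟩ : n = 0 ∨ n = 1 ∨ ∃ k, n = k + 2 := by
      rcases n with _ | _ | k
      · exact Or.inl rfl
      · exact Or.inr (Or.inl rfl)
      · exact Or.inr (Or.inr ⟨k, rfl⟩)
    · omega
    · have hg : g = 0 := by omega
      have h1 := hh0 hg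
      have B := hBIG 1 (by omega)
      rw [hg, h1] at B
      simp only [Nat.sub_zero, one_mul] at B
      rw [hc_1, hA0]
      apply mul_left_cancel₀ hq1
      linear_combination B
    · obtain ⟨E, hE⟩ : ∃ E, k + 1 = g + E := ⟨k + 1 - g, by omega⟩
      have B0 := hBIG k (by omega)
      have B1 := hBIG (k + 1) (by omega)
      have B2 := hBIG (k + 2) (by omega)
      rw [show k + 1 - g = E by omega] at B0
      rw [show k + 1 + 1 - g = E + 1 by omega, pow_succ] at B1
      rw [show k + 2 + 1 - g = E + 2 by omega, pow_succ, pow_succ] at B2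
      rw [hc_2]
      apply mul_left_cancel₀ hq1
      linear_combination B2 - ((q : ℤ) + 1) * B1 + (q : ℤ) * B0
  have hctop : c (2 * g) = (q : ℤ) ^ g := by
    rcases Nat.eq_zero_or_pos g with hg | hg
    · subst hg
      rw [mul_zero, hc_0, hA0, pow_zero]
    · obtain ⟨j, rfl⟩ : ∃ j, g = j + 1 := ⟨g - 1, by omega⟩
      have B2 := hBIG (2 * j + 2) (by omega)
      have B1 := hBIG (2 * j + 1) (by omega)
      have T := hTOP (by omega)
      rw [show 2 * j + 2 + 1 - (j + 1) = j + 2 by omega, pow_succ, pow_succ] at B2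
      rw [show 2 * j + 1 + 1 - (j + 1) = j + 1 by omega, pow_succ] at B1
      rw [show 2 * (j + 1) - 2 = 2 * j by omega, show j + 1 - 1 = j by omega] at T
      rw [show 2 * (j + 1) = 2 * j + 2 by ring, hc_2, pow_succ]
      apply mul_left_cancel₀ hq1
      linear_combination B2 - ((q : ℤ) + 1) * B1 + (q : ℤ) * T
  have hsum : ∀ m : ℕ, ∑ n ∈ Finset.range (m + 2), c n = A (m + 1) - q * A m := by
    intro m
    induction m with
    | zero =>
      show ∑ n ∈ Finset.range (1 + 1), c n = A 1 - q * A 0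
      rw [Finset.sum_range_succ, Finset.sum_range_one, hc_0, hc_1]
      ring
    | succ m ih =>
      show ∑ n ∈ Finset.range (m + 2 + 1), c n = A (m + 2) - q * A (m + 1)
      rw [Finset.sum_range_succ, ih, hc_2]
      ring
  obtain ⟨L, hLdef⟩ : ∃ L : ℤ[X], L = ∑ n ∈ Finset.range (2 * g + 1), Polynomial.monomial n (c n) :=
    ⟨_, rfl⟩
  have hLcoeff : ∀ i, L.coeff i = if i < 2 * g + 1 then c i else 0 := by
    intro i
    rw [hLdef, Polynomial.finsetSum_coeff]
    simp only [Polynomial.coeff_monomial]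
    rw [Finset.sum_ite_eq']
    simp only [Finset.mem_range]
  have heval : Polynomial.eval 1 L = h := by
    rw [hLdef, Polynomial.eval_finsetSum]
    simp only [Polynomial.eval_monomial, one_pow, mul_one]
    rcases Nat.eq_zero_or_pos g with hg | hg
    · subst hg
      rw [show 2 * 0 + 1 = 1 from rfl, Finset.sum_range_one, hc_0, hA0, hh0 rfl]
    · obtain ⟨j, rfl⟩ : ∃ j, g = j + 1 := ⟨g - 1, by omega⟩
      have B2 := hBIG (2 * j + 2) (by omega)
      have B1 := hBIG (2 * j + 1) (by omega)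
      rw [show 2 * j + 2 + 1 - (j + 1) = j + 2 by omega, pow_succ, pow_succ] at B2
      rw [show 2 * j + 1 + 1 - (j + 1) = j + 1 by omega, pow_succ] at B1
      have h1 := hsum (2 * j + 1)
      rw [show 2 * (j + 1) + 1 = 2 * j + 1 + 2 by ring, h1]
      apply mul_left_cancel₀ hq1
      linear_combination B2 - (q : ℤ) * B1
  refine ⟨L, ?_, ?_, ?_, ?_, heval⟩
  · ext n
    rw [Polynomial.coeff_coe, hLcoeff, ← hc]
    split_ifs with hn
    · rfl
    · exact hczero n (by omega)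
  · rw [Polynomial.natDegree_le_iff_coeff_eq_zero]
    intro N hN
    rw [hLcoeff, if_neg (by omega)]
  · rw [hLcoeff, if_pos (by omega), hc_0, hA0]
  · rw [hLcoeff, if_pos (by omega), hctop]

end Rationality

section Assembly

/-- **(ZETA, counting form)**: from the Euler product in logarithmic-derivative form and the two
counting identities (BIG), (TOP) for every power `r ≥ 1` of Frobenius, ONE integer matrix `M` of
size `2 g` with `det M = q^g`, `#Fix(φ^m) = 1 + q^m - tr (M^m)` and `h r = det (1 - M^r)`. -/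
theorem exists_matrix_of_counts
    (q g : ℕ) (hq : 2 ≤ q) (N : ℕ → ℤ) (e : ℕ → ℕ → ℤ) (h : ℕ → ℤ)
    (he0 : ∀ r, 1 ≤ r → e r 0 = 1)
    (hBIG : ∀ r, 1 ≤ r → ∀ n : ℕ, 2 * g ≤ n + 1 →
      ((q : ℤ) ^ r - 1) * e r n + h r = h r * ((q : ℤ) ^ r) ^ (n + 1 - g))
    (hTOP : ∀ r, 1 ≤ r → 1 ≤ g →
      ((q : ℤ) ^ r - 1) * e r (2 * g - 2) + h r =
        ((q : ℤ) ^ r) ^ (g - 1) * ((q : ℤ) ^ r - 1 + h r))
    (hlog : ∀ r, 1 ≤ r → (PowerSeries.X : ℤ⟦X⟧) * d⁄dX ℤ (PowerSeries.mk (e r)) =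
      PowerSeries.mk (e r) * PowerSeries.mk fun m => if m = 0 then (0 : ℤ) else N (r * m)) :
    ∃ M : Matrix (Fin (2 * g)) (Fin (2 * g)) ℤ, M.det = (q : ℤ) ^ g ∧
      (∀ m, 1 ≤ m → N m = 1 + (q : ℤ) ^ m - Matrix.trace (M ^ m)) ∧
      ∀ r, 1 ≤ r → h r = (1 - M ^ r).det := by
  have hnum : ∀ r, 1 ≤ r → ∃ L : ℤ[X],
      PowerSeries.mk (e r) *
          ((1 - PowerSeries.X) * (1 - PowerSeries.C ((q : ℤ) ^ r) * PowerSeries.X)) =
        (L : ℤ⟦X⟧) ∧
      L.natDegree ≤ 2 * g ∧ L.coeff 0 = 1 ∧ L.coeff (2 * g) = ((q : ℤ) ^ r) ^ g ∧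
      Polynomial.eval 1 L = h r := by
    intro r hr
    have hqr : 2 ≤ q ^ r := le_trans hq (Nat.le_self_pow (by omega) q)
    have h1 := exists_numerator_of_counts (q ^ r) g hqr (e r) (h r) (he0 r hr)
      (by simpa using hBIG r hr) (by simpa using hTOP r hr)
    simpa using h1
  obtain ⟨L, hL, hdeg, -, htop, -⟩ := hnum 1 le_rfl
  rw [pow_one] at hL htop
  refine exists_matrix_eval_one_eq_det q g N (fun r => PowerSeries.mk (e r)) h ?_ hlog ?_ L hL
    hdeg htop
  · intro r hr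
    simp [he0 r hr]
  · intro r hr
    obtain ⟨Lr, hLr, -, -, -, hev⟩ := hnum r hr
    exact ⟨Lr, hLr, hev⟩

/-- **(ZETA, Riemann–Roch form)**: the same conclusion from abstract Riemann–Roch data for every
power `r ≥ 1` of Frobenius: `G r` = finite set of classes of degree `0` fixed by `φ^r`,
`l r d c` = dimension of the class `c` shifted to degree `d`, `A r d` = number of `φ^r`-fixed
effective divisors of degree `d`. -/
theorem exists_matrix_of_RR
    (q g : ℕ) (hq : 2 ≤ q) (N : ℕ → ℤ)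
    (G : ℕ → Type*) [∀ r, Fintype (G r)]
    (l : ∀ r, ℤ → G r → ℕ) (c0 : ∀ r, G r) (ι : ∀ r, Equiv.Perm (G r)) (A : ℕ → ℕ → ℤ)
    (hneg : ∀ r, 1 ≤ r → ∀ d c, d < 0 → l r d c = 0)
    (hc0 : ∀ r, 1 ≤ r → l r 0 (c0 r) = 1)
    (hne : ∀ r, 1 ≤ r → ∀ c, c ≠ c0 r → l r 0 c = 0)
    (hRR : ∀ r, 1 ≤ r → ∀ d c, (l r d c : ℤ) = d + 1 - g + l r (2 * g - 2 - d) (ι r c))
    (hA : ∀ r, 1 ≤ r → ∀ d : ℕ,
      ((q : ℤ) ^ r - 1) * A r d = ∑ c, (((q : ℤ) ^ r) ^ l r d c - 1))
    (hlog : ∀ r, 1 ≤ r → (PowerSeries.X : ℤ⟦X⟧) * d⁄dX ℤ (PowerSeries.mk (A r)) =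
      PowerSeries.mk (A r) * PowerSeries.mk fun m => if m = 0 then (0 : ℤ) else N (r * m)) :
    ∃ M : Matrix (Fin (2 * g)) (Fin (2 * g)) ℤ, M.det = (q : ℤ) ^ g ∧
      (∀ m, 1 ≤ m → N m = 1 + (q : ℤ) ^ m - Matrix.trace (M ^ m)) ∧
      ∀ r, 1 ≤ r → (Fintype.card (G r) : ℤ) = (1 - M ^ r).det := by
  have hnum : ∀ r, 1 ≤ r → ∃ L : ℤ[X],
      PowerSeries.mk (A r) *
          ((1 - PowerSeries.X) * (1 - PowerSeries.C ((q : ℤ) ^ r) * PowerSeries.X)) =
        (L : ℤ⟦X⟧) ∧
      L.natDegree ≤ 2 * g ∧ L.coeff 0 = 1 ∧ L.coeff (2 * g) = ((q : ℤ) ^ r) ^ g ∧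
      Polynomial.eval 1 L = (Fintype.card (G r) : ℤ) := by
    intro r hr
    have hqr : 2 ≤ q ^ r := le_trans hq (Nat.le_self_pow (by omega) q)
    obtain ⟨L, h1, h2, h3, h4, h5, -⟩ := exists_numerator_of_RR (q ^ r) g hqr (l r) (c0 r) (ι r)
      (hneg r hr) (hc0 r hr) (hne r hr) (hRR r hr) (A r) (by simpa using hA r hr)
    exact ⟨L, by simpa using h1, h2, h3, by simpa using h4, h5⟩
  obtain ⟨L, hL, hdeg, -, htop, -⟩ := hnum 1 le_rfl
  rw [pow_one] at hL htop
  refine exists_matrix_eval_one_eq_det q g N (fun r => PowerSeries.mk (A r))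
    (fun r => (Fintype.card (G r) : ℤ)) ?_ hlog ?_ L hL hdeg htop
  · intro r hr
    obtain ⟨Lr, hLr, -, h0, -, -⟩ := hnum r hr
    have h1 := congrArg (PowerSeries.coeff 0) hLr
    rw [coeff_zero_mul_one_sub_mul_one_sub, Polynomial.coeff_coe, h0] at h1
    rw [← PowerSeries.coeff_zero_eq_constantCoeff_apply, h1]
  · intro r hr
    obtain ⟨Lr, hLr, -, -, -, hev⟩ := hnum r hr
    exact ⟨Lr, hLr, hev⟩

end Assembly

end

end Fermat.Agent.S27.helper2605
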