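import Mathlib

set_option autoImplicit false

/-!
# Integer-matrix `ℓ`-adic growth of `det (1 - A ^ r)`

Spec-independent brick for the algebraic track of S27 (char-`p` core): if `A` is an integer
matrix with `ℓ ∤ det A`, there are `m₀ > 0` and `B` with `A ^ m₀ = 1 + ℓ ^ 2 • B`, and for all `j`
and all `t` prime to `ℓ`
`det (1 - A ^ (m₀ * ℓ ^ j * t)) = ℓ ^ (n * (j + 2)) * det B * u` with `ℓ ∤ u`.
-/

namespace Fermat.Agent.S27.helper6854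

open Matrix

variable {n : ℕ}

/-- Powers of `1 + c • C`, without binomial coefficients and without commutativity. -/
theorem one_add_smul_pow (c : ℤ) (C : Matrix (Fin n) (Fin n) ℤ) (k : ℕ) :
    ∃ N : Matrix (Fin n) (Fin n) ℤ,
      (1 + c • C) ^ k =
        1 + c • (C * ((k : ℤ) • (1 : Matrix (Fin n) (Fin n) ℤ) + c • N)) := by
  induction k with
  | zero => exact ⟨0, by simp⟩
  | succ k ih =>
    obtain ⟨N, hN⟩ := ih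
    refine ⟨N + ((k : ℤ) • (1 : Matrix (Fin n) (Fin n) ℤ) + c • N) * C, ?_⟩
    rw [pow_succ, hN]
    push_cast
    noncomm_ring
    module

/-- `det (c • 1 + ℓ • N) ≡ c ^ n (mod ℓ)`. -/
theorem det_smul_one_add_smul (ℓ : ℕ) (c : ℤ) (N : Matrix (Fin n) (Fin n) ℤ) :
    ∃ w : ℤ, (c • (1 : Matrix (Fin n) (Fin n) ℤ) + (ℓ : ℤ) • N).det = c ^ n + (ℓ : ℤ) * w := by
  have h : (Int.castRingHom (ZMod ℓ)) (c • (1 : Matrix (Fin n) (Fin n) ℤ) + (ℓ : ℤ) • N).det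
      = (Int.castRingHom (ZMod ℓ)) (c ^ n) := by
    rw [RingHom.map_det]
    have hm : (Int.castRingHom (ZMod ℓ)).mapMatrix
        (c • (1 : Matrix (Fin n) (Fin n) ℤ) + (ℓ : ℤ) • N)
        = (c : ZMod ℓ) • (1 : Matrix (Fin n) (Fin n) (ZMod ℓ)) := by
      ext i j
      simp only [RingHom.mapMatrix_apply, Matrix.map_apply, Matrix.add_apply, Matrix.smul_apply,
        Matrix.one_apply, smul_eq_mul, eq_intCast, Int.cast_add, Int.cast_mul, Int.cast_natCast,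
        ZMod.natCast_self, zero_mul, add_zero]
      split_ifs <;> simp
    rw [hm, Matrix.det_smul, Matrix.det_one]
    simp
  have h2 : ((((c • (1 : Matrix (Fin n) (Fin n) ℤ) + (ℓ : ℤ) • N).det - c ^ n : ℤ)) : ZMod ℓ)
      = 0 := by
    simp only [eq_intCast] at h
    rw [Int.cast_sub, h, sub_self]
  obtain ⟨w, hw⟩ := (ZMod.intCast_zmod_eq_zero_iff_dvd _ ℓ).mp h2
  exact ⟨w, by linarith⟩

/-- Some positive power of an integer matrix with `ℓ ∤ det` is `≡ 1 (mod ℓ ^ 2)`. -/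
theorem exists_pow_eq_one_add_sq (ℓ : ℕ) [Fact ℓ.Prime] (A : Matrix (Fin n) (Fin n) ℤ)
    (hA : ¬ (ℓ : ℤ) ∣ A.det) :
    ∃ m₀ : ℕ, 0 < m₀ ∧ ∃ B : Matrix (Fin n) (Fin n) ℤ, A ^ m₀ = 1 + ((ℓ : ℤ) ^ 2) • B := by
  have hℓ : ℓ.Prime := Fact.out
  have : NeZero (ℓ ^ 2) := ⟨pow_ne_zero 2 hℓ.ne_zero⟩
  have hp : Prime (ℓ : ℤ) := Nat.prime_iff_prime_int.mp hℓ
  have hcop : IsCoprime ((ℓ ^ 2 : ℕ) : ℤ) A.det := by
    have h1 : IsCoprime (ℓ : ℤ) A.det := hp.coprime_iff_not_dvd.mpr hA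
    push_cast
    exact h1.pow_left
  have hdet : IsUnit ((Int.castRingHom (ZMod (ℓ ^ 2))) A.det) := by
    have := (ZMod.coe_int_isUnit_iff_isCoprime A.det (ℓ ^ 2)).mpr hcop
    simpa using this
  have hU : IsUnit ((Int.castRingHom (ZMod (ℓ ^ 2))).mapMatrix A) := by
    rw [Matrix.isUnit_iff_isUnit_det, ← RingHom.map_det]
    exact hdet
  have : Finite (Matrix (Fin n) (Fin n) (ZMod (ℓ ^ 2)))ˣ :=
    Finite.of_injective Units.val Units.val_injective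
  refine ⟨Nat.card (Matrix (Fin n) (Fin n) (ZMod (ℓ ^ 2)))ˣ, Nat.card_pos, ?_⟩
  set m₀ := Nat.card (Matrix (Fin n) (Fin n) (ZMod (ℓ ^ 2)))ˣ with hm₀
  have hpow : ((Int.castRingHom (ZMod (ℓ ^ 2))).mapMatrix A) ^ m₀ = 1 := by
    have h1 : hU.unit ^ m₀ = 1 := pow_card_eq_one'
    have h2 := congrArg Units.val h1
    simpa using h2
  have hdvd : ∀ i j, ((ℓ : ℤ) ^ 2) ∣ (A ^ m₀ - 1) i j := by
    intro i j
    have h1 : (Int.castRingHom (ZMod (ℓ ^ 2))).mapMatrix (A ^ m₀ - 1) = 0 := by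
      rw [map_sub, map_pow, hpow, map_one, sub_self]
    have h2 := congrFun (congrFun h1 i) j
    simp only [RingHom.mapMatrix_apply, Matrix.map_apply, Matrix.zero_apply, eq_intCast] at h2
    have h3 := (ZMod.intCast_zmod_eq_zero_iff_dvd _ (ℓ ^ 2)).mp h2
    simpa using h3
  refine ⟨fun i j => (A ^ m₀ - 1) i j / (ℓ : ℤ) ^ 2, ?_⟩
  ext i j
  simp only [Matrix.add_apply, Matrix.smul_apply, smul_eq_mul]
  rw [Int.mul_ediv_cancel' (hdvd i j)]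
  simp [Matrix.sub_apply]

/-- `(1 + ℓ ^ 2 • B) ^ (ℓ ^ j) = 1 + ℓ ^ (j + 2) • Bj` with `det Bj = det B * (1 + ℓ * w)`. -/
theorem exists_pow_prime_pow (ℓ : ℕ) (B : Matrix (Fin n) (Fin n) ℤ) (j : ℕ) :
    ∃ Bj : Matrix (Fin n) (Fin n) ℤ,
      (1 + ((ℓ : ℤ) ^ 2) • B) ^ (ℓ ^ j) = 1 + ((ℓ : ℤ) ^ (j + 2)) • Bj ∧
      ∃ w : ℤ, Bj.det = B.det * (1 + (ℓ : ℤ) * w) := by
  induction j with
  | zero => exact ⟨B, by simp, 0, by simp⟩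
  | succ j ih =>
    obtain ⟨Bj, hBj, w, hw⟩ := ih
    obtain ⟨N, hN⟩ := one_add_smul_pow ((ℓ : ℤ) ^ (j + 2)) Bj ℓ
    refine ⟨Bj * ((1 : ℤ) • (1 : Matrix (Fin n) (Fin n) ℤ) + (ℓ : ℤ) • (((ℓ : ℤ) ^ j) • N)),
      ?_, ?_⟩
    · rw [show ℓ ^ (j + 1) = ℓ ^ j * ℓ from pow_succ ℓ j, pow_mul, hBj, hN]
      congr 1
      simp only [Matrix.mul_add, Matrix.mul_smul, Matrix.mul_one, smul_add, smul_smul]
      congr 1
      · congr 1; ring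
      · congr 1; ring
    · obtain ⟨w', hw'⟩ := det_smul_one_add_smul ℓ 1 (((ℓ : ℤ) ^ j) • N)
      rw [Matrix.det_mul, hw, hw']
      exact ⟨w + w' + ℓ * w * w', by ring⟩

/-- `(1 + ℓ ^ 2 • B) ^ (ℓ ^ j * t) = 1 + ℓ ^ (j + 2) • D` with `det D = det B * u`, `ℓ ∤ u`,
for `t` prime to `ℓ`. -/
theorem exists_pow_prime_pow_mul (ℓ : ℕ) [Fact ℓ.Prime] (B : Matrix (Fin n) (Fin n) ℤ)
    (j t : ℕ) (ht : ¬ ℓ ∣ t) :
    ∃ D : Matrix (Fin n) (Fin n) ℤ,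
      (1 + ((ℓ : ℤ) ^ 2) • B) ^ (ℓ ^ j * t) = 1 + ((ℓ : ℤ) ^ (j + 2)) • D ∧
      ∃ u : ℤ, ¬ (ℓ : ℤ) ∣ u ∧ D.det = B.det * u := by
  have hp : Prime (ℓ : ℤ) := Nat.prime_iff_prime_int.mp Fact.out
  obtain ⟨Bj, hBj, w, hw⟩ := exists_pow_prime_pow ℓ B j
  obtain ⟨N, hN⟩ := one_add_smul_pow ((ℓ : ℤ) ^ (j + 2)) Bj t
  refine ⟨Bj * ((t : ℤ) • (1 : Matrix (Fin n) (Fin n) ℤ) +
      (ℓ : ℤ) • (((ℓ : ℤ) ^ (j + 1)) • N)), ?_, ?_⟩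
  · rw [pow_mul, hBj, hN]
    congr 4
    rw [smul_smul]
    congr 1
    ring
  · obtain ⟨w', hw'⟩ := det_smul_one_add_smul ℓ (t : ℤ) (((ℓ : ℤ) ^ (j + 1)) • N)
    refine ⟨(1 + (ℓ : ℤ) * w) * ((t : ℤ) ^ n + (ℓ : ℤ) * w'), ?_, ?_⟩
    · intro h
      rcases hp.dvd_or_dvd h with h1 | h1
      · have h2 : (ℓ : ℤ) ∣ 1 := (dvd_add_left (Dvd.intro w rfl)).mp h1
        exact hp.not_dvd_one h2
      · have h2 : (ℓ : ℤ) ∣ (t : ℤ) ^ n := (dvd_add_left (Dvd.intro w' rfl)).mp h1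
        exact ht (Int.natCast_dvd_natCast.mp (hp.dvd_of_dvd_pow h2))
    · rw [Matrix.det_mul, hw, hw']
      ring

/-- **Growth lemma.** For an integer matrix `A` with `ℓ ∤ det A` there are `m₀ > 0` and `B`
with `A ^ m₀ = 1 + ℓ ^ 2 • B` such that for all `j` and all `t` prime to `ℓ`,
`det (1 - A ^ (m₀ * ℓ ^ j * t)) = ℓ ^ (n * (j + 2)) * det B * u` with `ℓ ∤ u`. -/
theorem exists_period_growth (ℓ : ℕ) [Fact ℓ.Prime] (A : Matrix (Fin n) (Fin n) ℤ)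
    (hA : ¬ (ℓ : ℤ) ∣ A.det) :
    ∃ m₀ : ℕ, 0 < m₀ ∧ ∃ B : Matrix (Fin n) (Fin n) ℤ, A ^ m₀ = 1 + ((ℓ : ℤ) ^ 2) • B ∧
      ∀ j t : ℕ, ¬ ℓ ∣ t → ∃ u : ℤ, ¬ (ℓ : ℤ) ∣ u ∧
        (1 - A ^ (m₀ * ℓ ^ j * t)).det = (ℓ : ℤ) ^ (n * (j + 2)) * B.det * u := by
  have hp : Prime (ℓ : ℤ) := Nat.prime_iff_prime_int.mp Fact.out
  obtain ⟨m₀, hm₀, B, hB⟩ := exists_pow_eq_one_add_sq ℓ A hA
  refine ⟨m₀, hm₀, B, hB, fun j t ht => ?_⟩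
  obtain ⟨D, hD, u, hu, hdet⟩ := exists_pow_prime_pow_mul ℓ B j t ht
  refine ⟨(-1) ^ n * u, ?_, ?_⟩
  · intro h
    rcases hp.dvd_or_dvd h with h1 | h1
    · exact hp.not_dvd_one ((hp.dvd_of_dvd_pow h1).trans (by norm_num))
    · exact hu h1
  · rw [mul_assoc m₀, pow_mul, hB, hD]
    have h1 : (1 : Matrix (Fin n) (Fin n) ℤ) - (1 + ((ℓ : ℤ) ^ (j + 2)) • D)
        = (-((ℓ : ℤ) ^ (j + 2))) • D := by
      rw [neg_smul]; abel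
    rw [h1, Matrix.det_smul, hdet, Fintype.card_fin, neg_pow, ← pow_mul]
    ring

/-- Variant of the growth lemma in which the period `M` can be taken to be a multiple of any
prescribed `d > 0` (apply `exists_period_growth` to `A ^ d`). Here `A ^ M = 1 + ℓ ^ 2 • B`. -/
theorem exists_period_growth_dvd (ℓ : ℕ) [Fact ℓ.Prime] (A : Matrix (Fin n) (Fin n) ℤ)
    (hA : ¬ (ℓ : ℤ) ∣ A.det) (d : ℕ) (hd : 0 < d) :
    ∃ M : ℕ, 0 < M ∧ d ∣ M ∧ ∃ B : Matrix (Fin n) (Fin n) ℤ, A ^ M = 1 + ((ℓ : ℤ) ^ 2) • B ∧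
      ∀ j t : ℕ, ¬ ℓ ∣ t → ∃ u : ℤ, ¬ (ℓ : ℤ) ∣ u ∧
        (1 - A ^ (M * ℓ ^ j * t)).det = (ℓ : ℤ) ^ (n * (j + 2)) * B.det * u := by
  have hp : Prime (ℓ : ℤ) := Nat.prime_iff_prime_int.mp Fact.out
  have hAd : ¬ (ℓ : ℤ) ∣ (A ^ d).det := by
    rw [Matrix.det_pow]
    exact fun h => hA (hp.dvd_of_dvd_pow h)
  obtain ⟨m₀, hm₀, B, hB, hgrow⟩ := exists_period_growth ℓ (A ^ d) hAd
  refine ⟨d * m₀, Nat.mul_pos hd hm₀, Dvd.intro m₀ rfl, B, ?_, fun j t ht => ?_⟩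
  · rw [pow_mul, hB]
  · obtain ⟨u, hu, hdet⟩ := hgrow j t ht
    refine ⟨u, hu, ?_⟩
    rw [← hdet, ← pow_mul, mul_assoc d, mul_assoc d]

/-- **Valuation form.** `v_ℓ (det (1 - A ^ (M * ℓ ^ j * t))) = c + n * j` for all `j` and all `t`
prime to `ℓ`, whenever the determinant is nonzero; `M` a multiple of the prescribed `d`, and
`c` independent of `j` and `t`. -/
theorem exists_period_padicValInt (ℓ : ℕ) [Fact ℓ.Prime] (A : Matrix (Fin n) (Fin n) ℤ)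
    (hA : ¬ (ℓ : ℤ) ∣ A.det) (d : ℕ) (hd : 0 < d) :
    ∃ M : ℕ, 0 < M ∧ d ∣ M ∧ ∃ c : ℕ, ∀ j t : ℕ, ¬ ℓ ∣ t →
      (1 - A ^ (M * ℓ ^ j * t)).det ≠ 0 →
        padicValInt ℓ ((1 - A ^ (M * ℓ ^ j * t)).det) = c + n * j := by
  have hℓ : ℓ.Prime := Fact.out
  obtain ⟨M, hM, hdM, B, -, hgrow⟩ := exists_period_growth_dvd ℓ A hA d hd
  refine ⟨M, hM, hdM, n * 2 + padicValInt ℓ B.det, fun j t ht hne => ?_⟩
  obtain ⟨u, hu, hdet⟩ := hgrow j t ht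
  rw [hdet] at hne ⊢
  have hB0 : B.det ≠ 0 := fun h => hne (by rw [h]; ring)
  have hu0 : u ≠ 0 := fun h => hne (by rw [h]; ring)
  have hℓ0 : ((ℓ : ℤ) ^ (n * (j + 2))) ≠ 0 := pow_ne_zero _ (by exact_mod_cast hℓ.ne_zero)
  rw [padicValInt.mul (mul_ne_zero hℓ0 hB0) hu0, padicValInt.mul hℓ0 hB0,
    padicValInt.eq_zero_of_not_dvd hu]
  have h1 : padicValInt ℓ ((ℓ : ℤ) ^ (n * (j + 2))) = n * (j + 2) := by
    rw [← Nat.cast_pow, padicValInt.of_nat, padicValNat.prime_pow]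
  rw [h1]
  ring

/-- **Consumer form** (class numbers). If `h r = |det (1 - A ^ r)|` is positive for all `r > 0`
(e.g. `h r = Nat.card (Γ r)`), then there are a period `M` (a multiple of the prescribed `d`) and
a constant `c` with `v_ℓ (h (M * ℓ ^ j * t)) = c + n * j` for all `j` and all `t` prime to `ℓ`. -/
theorem exists_period_padicValNat (ℓ : ℕ) [Fact ℓ.Prime] (A : Matrix (Fin n) (Fin n) ℤ)
    (hA : ¬ (ℓ : ℤ) ∣ A.det) (h : ℕ → ℕ)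
    (hh : ∀ r : ℕ, 0 < r → h r = ((1 - A ^ r).det).natAbs)
    (hpos : ∀ r : ℕ, 0 < r → 0 < h r) (d : ℕ) (hd : 0 < d) :
    ∃ M : ℕ, 0 < M ∧ d ∣ M ∧ ∃ c : ℕ, ∀ j t : ℕ, ¬ ℓ ∣ t →
      padicValNat ℓ (h (M * ℓ ^ j * t)) = c + n * j := by
  have hℓ : ℓ.Prime := Fact.out
  obtain ⟨M, hM, hdM, c, hc⟩ := exists_period_padicValInt ℓ A hA d hd
  refine ⟨M, hM, hdM, c, fun j t ht => ?_⟩
  have ht0 : 0 < t := Nat.pos_of_ne_zero (fun h0 => ht (h0 ▸ dvd_zero ℓ))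
  have hr : 0 < M * ℓ ^ j * t := Nat.mul_pos (Nat.mul_pos hM (pow_pos hℓ.pos j)) ht0
  have hne : (1 - A ^ (M * ℓ ^ j * t)).det ≠ 0 := by
    intro h0
    have := hpos _ hr
    rw [hh _ hr, h0] at this
    simp at this
  rw [hh _ hr, ← hc j t ht hne]
  rfl

/-- Consumer form with the hypothesis stated as an equality of integers
`(h r : ℤ) = det (1 - A ^ r)`. -/
theorem exists_period_padicValNat_of_cast (ℓ : ℕ) [Fact ℓ.Prime]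
    (A : Matrix (Fin n) (Fin n) ℤ) (hA : ¬ (ℓ : ℤ) ∣ A.det) (h : ℕ → ℕ)
    (hh : ∀ r : ℕ, 0 < r → (h r : ℤ) = (1 - A ^ r).det)
    (hpos : ∀ r : ℕ, 0 < r → 0 < h r) (d : ℕ) (hd : 0 < d) :
    ∃ M : ℕ, 0 < M ∧ d ∣ M ∧ ∃ c : ℕ, ∀ j t : ℕ, ¬ ℓ ∣ t →
      padicValNat ℓ (h (M * ℓ ^ j * t)) = c + n * j :=
  exists_period_padicValNat ℓ A hA h
    (fun r hr => by rw [← hh r hr, Int.natAbs_natCast]) hpos d hd

/-- In particular the `ℓ`-part of `h (M * ℓ ^ j * t)` does not depend on `t` prime to `ℓ`. -/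
theorem exists_period_padicValNat_indep (ℓ : ℕ) [Fact ℓ.Prime]
    (A : Matrix (Fin n) (Fin n) ℤ) (hA : ¬ (ℓ : ℤ) ∣ A.det) (h : ℕ → ℕ)
    (hh : ∀ r : ℕ, 0 < r → h r = ((1 - A ^ r).det).natAbs)
    (hpos : ∀ r : ℕ, 0 < r → 0 < h r) (d : ℕ) (hd : 0 < d) :
    ∃ M : ℕ, 0 < M ∧ d ∣ M ∧ ∃ c : ℕ,
      (∀ j : ℕ, padicValNat ℓ (h (M * ℓ ^ j)) = c + n * j) ∧
      ∀ j t : ℕ, ¬ ℓ ∣ t → padicValNat ℓ (h (M * ℓ ^ j * t)) = padicValNat ℓ (h (M * ℓ ^ j)) := by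
  have hℓ : ℓ.Prime := Fact.out
  obtain ⟨M, hM, hdM, c, hc⟩ := exists_period_padicValNat ℓ A hA h hh hpos d hd
  have h1 : ∀ j : ℕ, padicValNat ℓ (h (M * ℓ ^ j)) = c + n * j := fun j => by
    have := hc j 1 (fun h1 => hℓ.one_lt.ne' (Nat.dvd_one.mp h1))
    rwa [mul_one] at this
  exact ⟨M, hM, hdM, c, h1, fun j t ht => by rw [hc j t ht, h1 j]⟩

end Fermat.Agent.S27.helper6854
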