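import Mathlib

/-!
# S27 (algebraic track), leaf ZF3 = Z0: the combinatorial Euler product in log-derivative form

`σ` a permutation of a type `X` such that every power `σ ^ m` (`m ≥ 1`) has finitely many fixed
points.  `invDiv σ d` is the set of finitely supported `D : X →₀ ℕ` which are `σ`-invariant and of
total degree `d`.  Then

  `d * #(invDiv σ d) = ∑ m ∈ Icc 1 d, #Fix(σ ^ m) * #(invDiv σ (d - m))`,

which is the coefficientwise form of `X * E' = E * ∑_{m ≥ 1} #Fix(σ ^ m) X ^ m`
for `E = ∑_d #(invDiv σ d) X ^ d`.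
-/

namespace Fermat.Agent.S27.helper8998

open Finset Function

variable {X : Type*}

/-- `σ`-invariant effective divisors of degree `d`. -/
def invDiv (σ : Equiv.Perm X) (d : ℕ) : Set (X →₀ ℕ) :=
  {D | (∀ x, D (σ x) = D x) ∧ D.degree = d}

/-- Fixed points of `σ ^ m`. -/
def fixPts (σ : Equiv.Perm X) (m : ℕ) : Set X := {x | (σ ^ m) x = x}

theorem mem_invDiv {σ : Equiv.Perm X} {d : ℕ} {D : X →₀ ℕ} :
    D ∈ invDiv σ d ↔ (∀ x, D (σ x) = D x) ∧ D.degree = d := Iff.rfl

theorem mem_fixPts {σ : Equiv.Perm X} {m : ℕ} {x : X} :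
    x ∈ fixPts σ m ↔ (σ ^ m) x = x := Iff.rfl

theorem inv_pow_apply {σ : Equiv.Perm X} {D : X →₀ ℕ} (hD : ∀ x, D (σ x) = D x) (j : ℕ)
    (x : X) : D ((σ ^ j) x) = D x := by
  induction j with
  | zero => simp
  | succ j ih => rw [pow_succ', Equiv.Perm.mul_apply, hD, ih]

/-- A point in the support of an invariant divisor of degree `d` is fixed by some `σ ^ m`,
`1 ≤ m ≤ d`. -/
theorem exists_fix_of_ne_zero {σ : Equiv.Perm X} {d : ℕ} {D : X →₀ ℕ} (hD : D ∈ invDiv σ d)
    {x : X} (hx : D x ≠ 0) : ∃ m, 1 ≤ m ∧ m ≤ d ∧ (σ ^ m) x = x := by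
  classical
  by_contra hcon
  push Not at hcon
  -- the points `σ^j x`, `j ≤ d`, are pairwise distinct
  have hinj : Set.InjOn (fun j : ℕ => (σ ^ j) x) (range (d + 1) : Set ℕ) := by
    have key : ∀ i j : ℕ, i < j → j ≤ d → (σ ^ i) x ≠ (σ ^ j) x := by
      intro i j hij hjd h
      apply hcon (j - i) (by omega) (by omega)
      have : (σ ^ i) ((σ ^ (j - i)) x) = (σ ^ i) x := by
        rw [← Equiv.Perm.mul_apply, ← pow_add, Nat.add_sub_cancel' hij.le, h]
      exact (σ ^ i).injective this
    intro i hi j hj h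
    simp only [coe_range, Set.mem_Iio] at hi hj
    rcases lt_trichotomy i j with hlt | heq | hgt
    · exact absurd h (key i j hlt (by omega))
    · exact heq
    · exact absurd h.symm (key j i hgt (by omega))
  set T : Finset X := (range (d + 1)).image (fun j : ℕ => (σ ^ j) x) with hT
  have hcard : T.card = d + 1 := by
    rw [hT, card_image_of_injOn hinj, card_range]
  have hsub : T ⊆ D.support := by
    intro y hy
    rw [hT, mem_image] at hy
    obtain ⟨j, -, rfl⟩ := hy
    rw [Finsupp.mem_support_iff, inv_pow_apply hD.1]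
    exact hx
  have h1 : ∑ y ∈ T, 1 ≤ ∑ y ∈ T, D y := by
    apply sum_le_sum
    intro y hy
    have := hsub hy
    rw [Finsupp.mem_support_iff] at this
    omega
  have h2 : ∑ y ∈ T, D y ≤ ∑ y ∈ D.support, D y :=
    sum_le_sum_of_subset hsub
  have h3 : D.degree = d := hD.2
  rw [Finsupp.degree_apply] at h3
  simp only [sum_const, smul_eq_mul, mul_one] at h1
  omega


section Finite

variable (σ : Equiv.Perm X)

open scoped Classical in
/-- The finite set of points fixed by some `σ ^ m`, `1 ≤ m ≤ d`. -/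
noncomputable def perPts (hfin : ∀ m, 1 ≤ m → (fixPts σ m).Finite) (d : ℕ) : Finset X :=
  (Icc 1 d).attach.biUnion fun m => (hfin m.1 (mem_Icc.mp m.2).1).toFinset

theorem mem_perPts (hfin : ∀ m, 1 ≤ m → (fixPts σ m).Finite) {d : ℕ} {x : X} :
    x ∈ perPts σ hfin d ↔ ∃ m, 1 ≤ m ∧ m ≤ d ∧ (σ ^ m) x = x := by
  classical
  unfold perPts
  simp only [mem_biUnion, mem_attach, true_and, Subtype.exists, mem_Icc, Set.Finite.mem_toFinset,
    mem_fixPts]
  constructor
  · rintro ⟨m, ⟨h1, h2⟩, h⟩
    exact ⟨m, h1, h2, h⟩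
  · rintro ⟨m, h1, h2, h⟩
    exact ⟨m, ⟨h1, h2⟩, h⟩

theorem support_subset_perPts (hfin : ∀ m, 1 ≤ m → (fixPts σ m).Finite) {d : ℕ} {D : X →₀ ℕ}
    (hD : D ∈ invDiv σ d) : D.support ⊆ perPts σ hfin d := by
  intro x hx
  rw [Finsupp.mem_support_iff] at hx
  exact (mem_perPts σ hfin).2 (exists_fix_of_ne_zero hD hx)

theorem apply_le_of_mem_invDiv {d : ℕ} {D : X →₀ ℕ} (hD : D ∈ invDiv σ d) (x : X) : D x ≤ d := by
  have := Finsupp.le_degree x D
  rw [hD.2] at this
  exact this

/-- (F) finiteness of the set of invariant divisors of a given degree. -/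
theorem finite_invDiv (hfin : ∀ m, 1 ≤ m → (fixPts σ m).Finite) (d : ℕ) :
    (invDiv σ d).Finite := by
  classical
  apply Set.Finite.subset (Finset.finite_toSet ((perPts σ hfin d).finsupp fun _ => range (d + 1)))
  intro D hD
  rw [mem_coe, mem_finsupp_iff]
  refine ⟨support_subset_perPts σ hfin hD, fun x _ => ?_⟩
  rw [mem_range]
  have := apply_le_of_mem_invDiv σ hD x
  omega

/-- degree as a sum over the periodic points. -/
theorem sum_perPts_eq (hfin : ∀ m, 1 ≤ m → (fixPts σ m).Finite) {d : ℕ} {D : X →₀ ℕ}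
    (hD : D ∈ invDiv σ d) : ∑ x ∈ perPts σ hfin d, D x = d := by
  have h3 : D.degree = d := hD.2
  rw [Finsupp.degree_apply] at h3
  have h4 : ∑ x ∈ D.support, D x = ∑ x ∈ perPts σ hfin d, D x := by
    apply sum_subset (support_subset_perPts σ hfin hD)
    intro x _ hx
    simpa using hx
  rw [← h4, h3]

end Finite

section Orbit

variable (σ : Equiv.Perm X)

/-- The orbit of a (periodic) point as a divisor: the sum of the points `σ ^ j x`,
`j < minimalPeriod σ x`. -/
noncomputable def orb (x : X) : X →₀ ℕ :=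
  ∑ j ∈ range (minimalPeriod σ x), Finsupp.single ((σ ^ j) x) 1

theorem degree_orb (x : X) : (orb σ x).degree = minimalPeriod σ x := by
  simp [orb, map_sum, Finsupp.degree_single]

theorem pow_minimalPeriod_apply (x : X) : (σ ^ minimalPeriod σ x) x = x := by
  have := isPeriodicPt_minimalPeriod σ x
  rw [Equiv.Perm.coe_pow]
  exact this

theorem orb_invariant (x y : X) : orb σ x (σ y) = orb σ x y := by
  have h : Finsupp.mapDomain σ (orb σ x) = orb σ x := by
    unfold orb
    rw [Finsupp.mapDomain_finsetSum]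
    simp only [Finsupp.mapDomain_single]
    have e1 := Finset.sum_range_succ' (fun j => Finsupp.single ((σ ^ j) x) (1 : ℕ))
      (minimalPeriod σ x)
    have e2 := Finset.sum_range_succ (fun j => Finsupp.single ((σ ^ j) x) (1 : ℕ))
      (minimalPeriod σ x)
    rw [e1] at e2
    simp only [pow_zero, pow_minimalPeriod_apply, Equiv.Perm.coe_one, id_eq] at e2
    have e3 := add_right_cancel e2
    rw [← e3]
    apply Finset.sum_congr rfl
    intro j _
    rw [pow_succ', Equiv.Perm.mul_apply]
  conv_lhs => rw [← h]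
  exact Finsupp.mapDomain_apply σ.injective _ _

open scoped Classical in
theorem orb_apply (x y : X) :
    orb σ x y = ((range (minimalPeriod σ x)).filter fun j => (σ ^ j) x = y).card := by
  rw [Finset.card_filter]
  simp [orb, Finsupp.finsetSum_apply, Finsupp.single_apply]

theorem orb_le_one (x y : X) : orb σ x y ≤ 1 := by
  classical
  rw [orb_apply, Finset.card_le_one]
  intro a ha b hb
  simp only [mem_filter, mem_range] at ha hb
  apply iterate_injOn_Iio_minimalPeriod (f := σ) (x := x) (Set.mem_Iio.2 ha.1) (Set.mem_Iio.2 hb.1)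
  simp only [← Equiv.Perm.coe_pow]
  rw [ha.2, hb.2]

theorem orb_self (x : X) (hx : 0 < minimalPeriod σ x) : orb σ x x = 1 := by
  classical
  apply le_antisymm (orb_le_one σ x x)
  rw [orb_apply]
  exact Finset.card_pos.mpr ⟨0, by simp [hx]⟩

theorem orb_le (x : X) {D : X →₀ ℕ} (hD : ∀ y, D (σ y) = D y) (hx : 1 ≤ D x) : orb σ x ≤ D := by
  classical
  intro y
  by_cases h : orb σ x y = 0
  · rw [h]
    exact Nat.zero_le _
  · have h1 := orb_le_one σ x y
    have h2 := h
    rw [orb_apply] at h2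
    obtain ⟨j, hj⟩ := Finset.card_pos.mp (Nat.pos_of_ne_zero h2)
    simp only [mem_filter] at hj
    rw [← hj.2, inv_pow_apply hD]
    rw [← hj.2] at h1
    omega

end Orbit

section Main

variable (σ : Equiv.Perm X)

theorem pow_apply_eq_iff (x : X) (m : ℕ) : (σ ^ m) x = x ↔ minimalPeriod σ x ∣ m := by
  rw [← isPeriodicPt_iff_minimalPeriod_dvd, Equiv.Perm.coe_pow]
  rfl

/-- The finset of invariant divisors of degree `d`. -/
noncomputable def invFS (hfin : ∀ m, 1 ≤ m → (fixPts σ m).Finite) (d : ℕ) : Finset (X →₀ ℕ) :=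
  (finite_invDiv σ hfin d).toFinset

theorem mem_invFS (hfin : ∀ m, 1 ≤ m → (fixPts σ m).Finite) {d : ℕ} {D : X →₀ ℕ} :
    D ∈ invFS σ hfin d ↔ D ∈ invDiv σ d :=
  Set.Finite.mem_toFinset _

theorem sub_orb_mem {x : X} {d : ℕ} {D : X →₀ ℕ} (hD : D ∈ invDiv σ d) (hx : 1 ≤ D x) :
    minimalPeriod σ x ≤ d ∧ D - orb σ x ∈ invDiv σ (d - minimalPeriod σ x) := by
  have hle := orb_le σ x hD.1 hx
  have hdeg : (D - orb σ x).degree + minimalPeriod σ x = d := by
    rw [← degree_orb σ x, ← map_add, tsub_add_cancel_of_le hle, hD.2]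
  refine ⟨by omega, ?_, by omega⟩
  intro y
  rw [Finsupp.tsub_apply, Finsupp.tsub_apply, hD.1, orb_invariant]

theorem add_orb_mem {x : X} {d : ℕ} {D : X →₀ ℕ} (hD : D ∈ invDiv σ d) :
    D + orb σ x ∈ invDiv σ (d + minimalPeriod σ x) := by
  refine ⟨?_, ?_⟩
  · intro y
    rw [Finsupp.add_apply, Finsupp.add_apply, hD.1, orb_invariant]
  · rw [map_add, hD.2, degree_orb]

theorem sum_apply_rec (hfin : ∀ m, 1 ≤ m → (fixPts σ m).Finite) (x : X)
    (hx : 0 < minimalPeriod σ x) (d : ℕ) :
    ∑ D ∈ invFS σ hfin d, D x =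
      if minimalPeriod σ x ≤ d then
        (invFS σ hfin (d - minimalPeriod σ x)).card +
          ∑ D ∈ invFS σ hfin (d - minimalPeriod σ x), D x
      else 0 := by
  classical
  have h0 : ∑ D ∈ invFS σ hfin d, D x =
      ∑ D ∈ (invFS σ hfin d).filter (fun D => 1 ≤ D x), D x := by
    rw [Finset.sum_filter]
    apply Finset.sum_congr rfl
    intro D _
    split_ifs with h
    · rfl
    · omega
  rw [h0]
  split_ifs with hs
  · rw [Finset.card_eq_sum_ones, ← Finset.sum_add_distrib]
    apply Finset.sum_nbij' (fun D => D - orb σ x) (fun D => D + orb σ x)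
    · intro D hD
      rw [mem_filter, mem_invFS] at hD
      rw [mem_invFS]
      exact (sub_orb_mem σ hD.1 hD.2).2
    · intro D hD
      rw [mem_invFS] at hD
      rw [mem_filter, mem_invFS]
      have := add_orb_mem σ (x := x) hD
      rw [Nat.sub_add_cancel hs] at this
      refine ⟨this, ?_⟩
      rw [Finsupp.add_apply, orb_self σ x hx]
      omega
    · intro D hD
      rw [mem_filter, mem_invFS] at hD
      exact tsub_add_cancel_of_le (orb_le σ x hD.1.1 hD.2)
    · intro D _
      exact add_tsub_cancel_right _ _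
    · intro D hD
      rw [mem_filter, mem_invFS] at hD
      have h1 := orb_le σ x hD.1.1 hD.2 x
      rw [orb_self σ x hx] at h1
      rw [Finsupp.tsub_apply, orb_self σ x hx]
      omega
  · apply Finset.sum_eq_zero
    intro D hD
    rw [mem_filter, mem_invFS] at hD
    exact absurd (sub_orb_mem σ hD.1 hD.2).1 hs

theorem arith_rec (a : ℕ → ℕ) (s d : ℕ) (hs : 0 < s) (hsd : s ≤ d) :
    ∑ m ∈ Icc 1 d, (if s ∣ m then a (d - m) else 0) =
      a (d - s) + ∑ m ∈ Icc 1 (d - s), (if s ∣ m then a (d - s - m) else 0) := by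
  rw [← Finset.sum_filter_add_sum_filter_not (Icc 1 d) (fun m => m ≤ s)]
  congr 1
  · rw [Finset.sum_eq_single s]
    · simp
    · intro m hm hne
      rw [mem_filter, mem_Icc] at hm
      rw [if_neg]
      intro hdvd
      have := Nat.le_of_dvd (by omega) hdvd
      omega
    · intro h
      exfalso
      apply h
      rw [mem_filter, mem_Icc]
      omega
  · apply Finset.sum_nbij' (fun m => m - s) (fun m => m + s)
    · intro m hm
      rw [mem_filter, mem_Icc] at hm
      rw [mem_Icc]
      omega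
    · intro m hm
      rw [mem_Icc] at hm
      rw [mem_filter, mem_Icc]
      omega
    · intro m hm
      rw [mem_filter, mem_Icc] at hm
      show m - s + s = m
      omega
    · intro m _
      show m + s - s = m
      omega
    · intro m hm
      rw [mem_filter, mem_Icc] at hm
      obtain ⟨m', rfl⟩ : ∃ m', m = m' + s := ⟨m - s, by omega⟩
      show (if s ∣ m' + s then a (d - (m' + s)) else 0) =
        if s ∣ m' + s - s then a (d - s - (m' + s - s)) else 0
      have : d - (m' + s) = d - s - m' := by omega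
      simp only [Nat.add_sub_cancel, Nat.dvd_add_self_right, this]

open scoped Classical in
theorem sum_apply_eq (hfin : ∀ m, 1 ≤ m → (fixPts σ m).Finite) (x : X)
    (hx : 0 < minimalPeriod σ x) (d : ℕ) :
    ∑ D ∈ invFS σ hfin d, D x =
      ∑ m ∈ Icc 1 d, if (σ ^ m) x = x then (invFS σ hfin (d - m)).card else 0 := by
  induction d using Nat.strong_induction_on with
  | _ d ih =>
    rw [sum_apply_rec σ hfin x hx d]
    simp only [pow_apply_eq_iff]
    split_ifs with hs
    · rw [ih (d - minimalPeriod σ x) (by omega)]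
      simp only [pow_apply_eq_iff]
      rw [arith_rec (fun n => (invFS σ hfin n).card) _ d hx hs]
    · symm
      apply Finset.sum_eq_zero
      intro m hm
      rw [mem_Icc] at hm
      rw [if_neg]
      intro hdvd
      have := Nat.le_of_dvd (by omega) hdvd
      omega

open scoped Classical in
theorem natCard_fixPts (hfin : ∀ m, 1 ≤ m → (fixPts σ m).Finite) {d m : ℕ} (h1 : 1 ≤ m)
    (h2 : m ≤ d) :
    Nat.card (fixPts σ m) = ((perPts σ hfin d).filter fun x => (σ ^ m) x = x).card := by
  rw [Nat.card_coe_set_eq, ← Set.ncard_coe_finset]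
  congr 1
  ext x
  simp only [mem_fixPts, coe_filter, Set.mem_ofPred_eq, mem_perPts]
  constructor
  · intro h
    exact ⟨⟨m, h1, h2, h⟩, h⟩
  · intro h
    exact h.2

/-- Main identity, finset form. -/
theorem card_mul_eq (hfin : ∀ m, 1 ≤ m → (fixPts σ m).Finite) (d : ℕ) :
    d * (invFS σ hfin d).card =
      ∑ m ∈ Icc 1 d, Nat.card (fixPts σ m) * (invFS σ hfin (d - m)).card := by
  classical
  calc d * (invFS σ hfin d).card
      = ∑ D ∈ invFS σ hfin d, d := by
        rw [Finset.sum_const, smul_eq_mul, mul_comm]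
    _ = ∑ D ∈ invFS σ hfin d, ∑ x ∈ perPts σ hfin d, D x := by
        apply Finset.sum_congr rfl
        intro D hD
        rw [mem_invFS] at hD
        rw [sum_perPts_eq σ hfin hD]
    _ = ∑ x ∈ perPts σ hfin d, ∑ D ∈ invFS σ hfin d, D x := Finset.sum_comm
    _ = ∑ x ∈ perPts σ hfin d, ∑ m ∈ Icc 1 d,
          if (σ ^ m) x = x then (invFS σ hfin (d - m)).card else 0 := by
        apply Finset.sum_congr rfl
        intro x hx
        rw [mem_perPts] at hx
        obtain ⟨m, h1, _, h⟩ := hx
        have hpos : 0 < minimalPeriod σ x := by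
          rw [pow_apply_eq_iff] at h
          exact Nat.pos_of_dvd_of_pos h (by omega)
        exact sum_apply_eq σ hfin x hpos d
    _ = ∑ m ∈ Icc 1 d, ∑ x ∈ perPts σ hfin d,
          if (σ ^ m) x = x then (invFS σ hfin (d - m)).card else 0 := Finset.sum_comm
    _ = ∑ m ∈ Icc 1 d, Nat.card (fixPts σ m) * (invFS σ hfin (d - m)).card := by
        apply Finset.sum_congr rfl
        intro m hm
        rw [mem_Icc] at hm
        rw [natCard_fixPts σ hfin hm.1 hm.2, ← Finset.sum_filter, Finset.sum_const, smul_eq_mul]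

theorem natCard_invDiv (hfin : ∀ m, 1 ≤ m → (fixPts σ m).Finite) (d : ℕ) :
    Nat.card (invDiv σ d) = (invFS σ hfin d).card := by
  rw [Nat.card_coe_set_eq, Set.ncard_eq_toFinset_card _ (finite_invDiv σ hfin d)]
  rfl

/-- **(E)** The Euler product in log-derivative form, coefficientwise: for a permutation `σ` all
of whose powers `σ ^ m`, `m ≥ 1`, have finitely many fixed points, the numbers `a d` of
`σ`-invariant effective divisors of degree `d` satisfy
`d * a d = ∑_{m = 1}^{d} #Fix(σ ^ m) * a (d - m)`. -/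
theorem euler_logderiv (hfin : ∀ m, 1 ≤ m → (fixPts σ m).Finite) (d : ℕ) :
    d * Nat.card (invDiv σ d) =
      ∑ m ∈ Icc 1 d, Nat.card (fixPts σ m) * Nat.card (invDiv σ (d - m)) := by
  simp only [natCard_invDiv σ hfin]
  exact card_mul_eq σ hfin d

theorem invDiv_zero : invDiv σ 0 = {0} := by
  ext D
  rw [mem_invDiv, Set.mem_singleton_iff]
  constructor
  · intro h
    exact (Finsupp.degree_eq_zero_iff D).1 h.2
  · rintro rfl
    exact ⟨fun _ => rfl, map_zero _⟩

/-- There is exactly one invariant divisor of degree `0` (constant coefficient of `E` is `1`). -/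
theorem natCard_invDiv_zero : Nat.card (invDiv σ 0) = 1 := by
  rw [invDiv_zero, Nat.card_coe_set_eq, Set.ncard_singleton]

theorem constantCoeff_mk_natCard_invDiv (R : Type*) [Semiring R] :
    PowerSeries.constantCoeff (PowerSeries.mk fun n => (Nat.card (invDiv σ n) : R)) = 1 := by
  rw [← PowerSeries.coeff_zero_eq_constantCoeff_apply, PowerSeries.coeff_mk, natCard_invDiv_zero,
    Nat.cast_one]

theorem fixPts_pow (r m : ℕ) : fixPts (σ ^ r) m = fixPts σ (r * m) := by
  ext x
  rw [mem_fixPts, mem_fixPts, pow_mul]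

/-- **(E_r)** The same identity for the power `σ ^ r`, in terms of the fixed points of the
powers of `σ`. -/
theorem euler_logderiv_pow (hfin : ∀ m, 1 ≤ m → (fixPts σ m).Finite) {r : ℕ} (hr : 1 ≤ r)
    (d : ℕ) :
    d * Nat.card (invDiv (σ ^ r) d) =
      ∑ m ∈ Icc 1 d, Nat.card (fixPts σ (r * m)) * Nat.card (invDiv (σ ^ r) (d - m)) := by
  have hfin' : ∀ m, 1 ≤ m → (fixPts (σ ^ r) m).Finite := by
    intro m hm
    rw [fixPts_pow]
    exact hfin _ (Nat.mul_pos hr hm)
  rw [euler_logderiv (σ ^ r) hfin' d]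
  simp only [fixPts_pow]

theorem finite_invDiv_pow (hfin : ∀ m, 1 ≤ m → (fixPts σ m).Finite) {r : ℕ} (hr : 1 ≤ r)
    (d : ℕ) : (invDiv (σ ^ r) d).Finite := by
  apply finite_invDiv
  intro m hm
  rw [fixPts_pow]
  exact hfin _ (Nat.mul_pos hr hm)

/-! ### Other shapes of the invariance / degree conditions -/

theorem mapDomain_eq_self_iff (D : X →₀ ℕ) :
    Finsupp.mapDomain σ D = D ↔ ∀ x, D (σ x) = D x := by
  constructor
  · intro h x
    conv_lhs => rw [← h]
    exact Finsupp.mapDomain_apply σ.injective _ _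
  · intro h
    ext y
    obtain ⟨x, rfl⟩ := σ.surjective y
    rw [Finsupp.mapDomain_apply σ.injective, h]

theorem degree_eq_finsupp_sum (D : X →₀ ℕ) : D.degree = D.sum fun _ n => n := rfl

theorem invDiv_eq_mapDomain (d : ℕ) :
    invDiv σ d = {D : X →₀ ℕ | Finsupp.mapDomain σ D = D ∧ (D.sum fun _ n => n) = d} := by
  ext D
  rw [mem_invDiv, Set.mem_ofPred_eq, mapDomain_eq_self_iff, degree_eq_finsupp_sum]

/-! ### Power series form -/

open PowerSeries in
/-- **(PS)** `X * E' = E * ∑_{m ≥ 1} #Fix(σ ^ m) X ^ m` for `E = ∑_d #(invDiv σ d) X ^ d`,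
over any commutative semiring. -/
theorem euler_logderiv_powerSeries (R : Type*) [CommSemiring R]
    (hfin : ∀ m, 1 ≤ m → (fixPts σ m).Finite) :
    (PowerSeries.X : R⟦X⟧) * d⁄dX R (PowerSeries.mk fun n => (Nat.card (invDiv σ n) : R)) =
      PowerSeries.mk (fun n => (Nat.card (invDiv σ n) : R)) *
        PowerSeries.mk (fun m => if m = 0 then 0 else (Nat.card (fixPts σ m) : R)) := by
  ext d
  have hR : PowerSeries.coeff d (PowerSeries.mk (fun n => (Nat.card (invDiv σ n) : R)) *
        PowerSeries.mk (fun m => if m = 0 then 0 else (Nat.card (fixPts σ m) : R))) =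
      ∑ k ∈ Icc 1 d, (Nat.card (fixPts σ k) : R) * (Nat.card (invDiv σ (d - k)) : R) := by
    rw [mul_comm, PowerSeries.coeff_mul,
      Finset.Nat.sum_antidiagonal_eq_sum_range_succ
        (fun i j => (PowerSeries.coeff i) (PowerSeries.mk fun m =>
            if m = 0 then 0 else (Nat.card (fixPts σ m) : R)) *
          (PowerSeries.coeff j) (PowerSeries.mk fun n => (Nat.card (invDiv σ n) : R)))]
    simp only [PowerSeries.coeff_mk]
    symm
    have hsub : Icc 1 d ⊆ range d.succ := by
      intro k hk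
      rw [mem_Icc] at hk
      rw [mem_range]
      omega
    rw [← Finset.sum_subset hsub]
    · apply Finset.sum_congr rfl
      intro k hk
      rw [mem_Icc] at hk
      rw [if_neg (by omega)]
    · intro k hk hk'
      rw [mem_range] at hk
      rw [mem_Icc] at hk'
      have : k = 0 := by omega
      rw [if_pos this, zero_mul]
  rw [hR]
  have key := congrArg (Nat.cast : ℕ → R) (euler_logderiv σ hfin d)
  push_cast at key
  rw [← key]
  cases d with
  | zero => simp
  | succ n =>
    rw [PowerSeries.coeff_succ_X_mul, PowerSeries.coeff_derivative, PowerSeries.coeff_mk]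
    push_cast
    ring

open PowerSeries in
/-- **(PS_r)** the power series identity for `σ ^ r`:
`X * E_r' = E_r * ∑_{m ≥ 1} #Fix(σ ^ (r m)) X ^ m`. -/
theorem euler_logderiv_powerSeries_pow (R : Type*) [CommSemiring R]
    (hfin : ∀ m, 1 ≤ m → (fixPts σ m).Finite) {r : ℕ} (hr : 1 ≤ r) :
    (PowerSeries.X : R⟦X⟧) *
        d⁄dX R (PowerSeries.mk fun n => (Nat.card (invDiv (σ ^ r) n) : R)) =
      PowerSeries.mk (fun n => (Nat.card (invDiv (σ ^ r) n) : R)) *
        PowerSeries.mk (fun m => if m = 0 then 0 else (Nat.card (fixPts σ (r * m)) : R)) := by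
  have hfin' : ∀ m, 1 ≤ m → (fixPts (σ ^ r) m).Finite := by
    intro m hm
    rw [fixPts_pow]
    exact hfin _ (Nat.mul_pos hr hm)
  have := euler_logderiv_powerSeries (σ ^ r) R hfin'
  simp only [fixPts_pow] at this
  exact this

end Main

end Fermat.Agent.S27.helper8998
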