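import Mathlib
import Fermat.Agent.S27.helper8998_EulerProduct
import Fermat.Agent.S27.helper2605_ZetaFormal
import Fermat.Agent.S27.helper6854_MatrixGrowth

/-!
# S27 (algebraic track), module ZETA: assembly

Input (delivered by the Frobenius module `FR` of the characteristic-`p` core): a permutation `σ`
of a type `X` (the places) such that every power `σ ^ m`, `m ≥ 1`, has finitely many fixed points,
numbers `q ≥ 2`, `g`, `h r` (class numbers), and the two counting identities

* `(BIG)` for `r ≥ 1` and `2 g ≤ n + 1`:  `(q^r - 1) * e r n + h r = h r * (q^r)^(n + 1 - g)`,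
* `(TOP)` for `r ≥ 1` and `g ≥ 1`:
  `(q^r - 1) * e r (2 g - 2) + h r = (q^r)^(g - 1) * (q^r - 1 + h r)`,

where `e r n` is the number of `σ ^ r`-invariant finitely supported `D : X →₀ ℕ` of degree `n`.

Output:

* `zeta_rational`: `(∑ e n Xⁿ) (1 - X) (1 - Q X)` is a polynomial `L` of degree `2 g` with
  `L(0) = 1`, leading coefficient `Q ^ g`, and `L(1) = h`  (pure algebra on `(BIG)`, `(TOP)`);
* `exists_matrix_of_counts`: an integer `2g × 2g` matrix `M` with `det M = q ^ g`,
  `#Fix(σ ^ m) = 1 + q ^ m - tr (M ^ m)` and `h r = det (1 - M ^ r)` for all `r ≥ 1`;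
* `exists_period_padicValNat_of_counts`: for a prime `ℓ ∤ q` (and `h r > 0`) there are `M ≥ 1`
  and `c` with `v_ℓ (h (M * ℓ ^ j * t)) = c + 2 * g * j` for all `j` and all `t` prime to `ℓ`
  (the growth hypothesis of the group-theoretic endgame `GRP`).

The Euler product is `helper8998_EulerProduct`, the passage to the matrix is
`helper2605_ZetaFormal`, the `ℓ`-adic growth of `det (1 - M ^ r)` is `helper6854_MatrixGrowth`.
-/

set_option autoImplicit false

namespace Fermat.Agent.S27.helper8855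

open Finset

section Rational

/-- Rationality of the zeta series from the class counts in large degree (`hBIG`) and in
degree `2g - 2` (`hTOP`). -/
theorem zeta_rational (Q g h : ℕ) (e : ℕ → ℕ) (hQ : 2 ≤ Q) (he0 : e 0 = 1)
    (hBIG : ∀ n, 2 * g ≤ n + 1 → (Q - 1) * e n + h = h * Q ^ (n + 1 - g))
    (hTOP : 1 ≤ g → (Q - 1) * e (2 * g - 2) + h = Q ^ (g - 1) * (Q - 1 + h)) :
    ∃ L : Polynomial ℤ, L.natDegree = 2 * g ∧ L.coeff 0 = 1 ∧ L.leadingCoeff = (Q : ℤ) ^ g ∧
      L.eval 1 = (h : ℤ) ∧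
      PowerSeries.mk (fun n => (e n : ℤ)) *
        ((1 - PowerSeries.X) * (1 - PowerSeries.C (Q : ℤ) * PowerSeries.X)) =
          (L : PowerSeries ℤ) := by
  have hQ2 : (2 : ℤ) ≤ (Q : ℤ) := by exact_mod_cast hQ
  set q : ℤ := (Q : ℤ) with hq
  set H : ℤ := (h : ℤ) with hH
  set E : ℕ → ℤ := fun n => (e n : ℤ) with hE
  have hq1 : q - 1 ≠ 0 := by omega
  have hB : ∀ n, 2 * g ≤ n + 1 → (q - 1) * E n = H * (q ^ (n + 1 - g) - 1) := by
    intro n hn
    have h1 := hBIG n hn
    have h2 : (((Q - 1) * e n + h : ℕ) : ℤ) = ((h * Q ^ (n + 1 - g) : ℕ) : ℤ) := by rw [h1]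
    push_cast [Nat.cast_sub (show 1 ≤ Q by omega)] at h2
    simp only [hE, hq, hH]
    linarith
  have hT : 1 ≤ g → (q - 1) * E (2 * g - 2) = q ^ (g - 1) * (q - 1 + H) - H := by
    intro hg
    have h1 := hTOP hg
    have h2 : (((Q - 1) * e (2 * g - 2) + h : ℕ) : ℤ) = ((Q ^ (g - 1) * (Q - 1 + h) : ℕ) : ℤ) := by
      rw [h1]
    push_cast [Nat.cast_sub (show 1 ≤ Q by omega)] at h2
    simp only [hE, hq, hH]
    linarith
  -- the coefficients of the numerator
  set y : ℕ → ℤ := fun k =>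
    E k - (1 + q) * (if 1 ≤ k then E (k - 1) else 0) + q * (if 2 ≤ k then E (k - 2) else 0) with hy
  have hy2 : ∀ k, y (k + 2) = E (k + 2) - (1 + q) * E (k + 1) + q * E k := by
    intro k
    simp only [hy]
    rw [if_pos (by omega), if_pos (by omega)]
    simp
  have hy1 : y 1 = E 1 - (1 + q) * E 0 := by
    simp only [hy]; simp
  have hy0 : y 0 = E 0 := by
    simp only [hy]; simp
  have hE0 : E 0 = 1 := by simp only [hE, he0]; rfl
  -- vanishing beyond degree 2g
  have hvan2 : ∀ k, 2 * g ≤ k + 1 → y (k + 2) = 0 := by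
    intro k hk
    have e0 := hB k hk
    have e1 := hB (k + 1) (by omega)
    have e2 := hB (k + 2) (by omega)
    have x1 : k + 1 + 1 - g = (k + 1 - g) + 1 := by omega
    have x2 : k + 2 + 1 - g = (k + 1 - g) + 2 := by omega
    rw [x1] at e1
    rw [x2] at e2
    set a : ℤ := q ^ (k + 1 - g) with ha
    rw [pow_succ] at e1
    rw [pow_add] at e2
    apply mul_left_cancel₀ hq1
    rw [hy2, mul_zero]
    have : (q - 1) * (E (k + 2) - (1 + q) * E (k + 1) + q * E k) =
        (q - 1) * E (k + 2) - (1 + q) * ((q - 1) * E (k + 1)) + q * ((q - 1) * E k) := by ring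
    rw [this, e0, e1, e2]
    ring
  have hvan : ∀ k, 2 * g + 1 ≤ k → y k = 0 := by
    intro k hk
    rcases k with _ | _ | k
    · omega
    · -- k = 1, hence g = 0
      have hg : g = 0 := by omega
      subst hg
      have e0 := hB 0 (by omega)
      have e1 := hB 1 (by omega)
      simp only [zero_add, Nat.sub_zero, pow_one] at e0
      rw [hE0, mul_one] at e0
      have hH1 : H = 1 := by
        have : (q - 1) * 1 = (q - 1) * H := by linarith
        exact (mul_left_cancel₀ hq1 this).symm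
      rw [hH1] at e1
      have : E 1 = q + 1 := by
        apply mul_left_cancel₀ hq1
        rw [e1]; norm_num; ring
      rw [hy1, this, hE0]; ring
    · exact hvan2 k (by omega)
  -- top coefficient
  have htop : y (2 * g) = q ^ g := by
    rcases Nat.eq_zero_or_pos g with hg | hg
    · subst hg; simp [hy0, hE0]
    · obtain ⟨g', rfl⟩ : ∃ g', g = g' + 1 := ⟨g - 1, by omega⟩
      have hk : 2 * (g' + 1) = 2 * g' + 2 := by ring
      rw [hk]
      have e0 := hT (by omega)
      have e1 := hB (2 * g' + 1) (by omega)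
      have e2 := hB (2 * g' + 2) (by omega)
      have x0 : 2 * (g' + 1) - 2 = 2 * g' := by omega
      have x0' : g' + 1 - 1 = g' := by omega
      have x1 : 2 * g' + 1 + 1 - (g' + 1) = g' + 1 := by omega
      have x2 : 2 * g' + 2 + 1 - (g' + 1) = g' + 2 := by omega
      rw [x0, x0'] at e0
      rw [x1] at e1
      rw [x2] at e2
      apply mul_left_cancel₀ hq1
      rw [hy2]
      have : (q - 1) * (E (2 * g' + 2) - (1 + q) * E (2 * g' + 1) + q * E (2 * g')) =
          (q - 1) * E (2 * g' + 2) - (1 + q) * ((q - 1) * E (2 * g' + 1)) +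
            q * ((q - 1) * E (2 * g')) := by ring
      rw [this, e0, e1, e2]
      ring
  -- sum of the coefficients
  have htel : ∀ K, ∑ k ∈ range (K + 2), y k = E (K + 1) - q * E K := by
    intro K
    induction K with
    | zero =>
      rw [Finset.sum_range_succ, Finset.sum_range_one, hy0, hy1]; ring
    | succ K ih =>
      rw [Finset.sum_range_succ, ih, hy2]; ring
  have hsum : ∑ k ∈ range (2 * g + 1), y k = H := by
    have h1 := htel (2 * g)
    rw [Finset.sum_range_succ, hvan (2 * g + 1) le_rfl, add_zero] at h1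
    rw [h1]
    have e1 := hB (2 * g) (by omega)
    have e2 := hB (2 * g + 1) (by omega)
    have x1 : 2 * g + 1 - g = g + 1 := by omega
    have x2 : 2 * g + 1 + 1 - g = g + 2 := by omega
    rw [x1] at e1
    rw [x2] at e2
    apply mul_left_cancel₀ hq1
    have : (q - 1) * (E (2 * g + 1) - q * E (2 * g)) =
        (q - 1) * E (2 * g + 1) - q * ((q - 1) * E (2 * g)) := by ring
    rw [this, e1, e2]
    ring
  -- the polynomial
  set L : Polynomial ℤ := ∑ k ∈ range (2 * g + 1), Polynomial.monomial k (y k) with hL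
  have hcoeff : ∀ k, L.coeff k = if k < 2 * g + 1 then y k else 0 := by
    intro k
    rw [hL, Polynomial.finsetSum_coeff]
    simp only [Polynomial.coeff_monomial]
    rw [Finset.sum_ite_eq' (range (2 * g + 1)) k]
    simp [Finset.mem_range]
  have hdeg : L.natDegree = 2 * g := by
    apply le_antisymm
    · rw [hL]
      apply Polynomial.natDegree_sum_le_of_forall_le
      intro k hk
      exact (Polynomial.natDegree_monomial_le _).trans (by
        have := Finset.mem_range.mp hk; omega)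
    · apply Polynomial.le_natDegree_of_ne_zero
      rw [hcoeff, if_pos (by omega), htop]
      exact pow_ne_zero _ (by omega)
  refine ⟨L, hdeg, ?_, ?_, ?_, ?_⟩
  · rw [hcoeff, if_pos (by omega), hy0, hE0]
  · rw [Polynomial.leadingCoeff, hdeg, hcoeff, if_pos (by omega), htop]
  · rw [hL, Polynomial.eval_finsetSum]
    simp only [Polynomial.eval_monomial, one_pow, mul_one]
    exact hsum
  · ext k
    rw [Polynomial.coeff_coe, hcoeff]
    have hexp : PowerSeries.mk E * ((1 - PowerSeries.X) * (1 - PowerSeries.C q * PowerSeries.X))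
        = PowerSeries.mk E - PowerSeries.X ^ 1 * PowerSeries.mk E
          - PowerSeries.C q * (PowerSeries.X ^ 1 * PowerSeries.mk E) +
          PowerSeries.C q * (PowerSeries.X ^ 2 * PowerSeries.mk E) := by
      ring
    have hyk : y k = E k - (if 1 ≤ k then E (k - 1) else 0)
        - q * (if 1 ≤ k then E (k - 1) else 0) + q * (if 2 ≤ k then E (k - 2) else 0) := by
      simp only [hy]; ring
    rw [hexp]
    simp only [map_add, map_sub, PowerSeries.coeff_C_mul, PowerSeries.coeff_X_pow_mul',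
      PowerSeries.coeff_mk]
    by_cases hk : k < 2 * g + 1
    · rw [if_pos hk, hyk]
    · rw [if_neg hk]
      have h0 := hvan k (by omega)
      rw [hyk] at h0
      exact h0

end Rational

section Assembly

open Fermat.Agent.S27

variable {X : Type*}

/-- The number of `σ`-invariant effective divisors of degree `n`, in subtype form. -/
theorem natCard_invDiv_eq_subtype (σ : Equiv.Perm X) (n : ℕ) :
    Nat.card (helper8998.invDiv σ n) =
      Nat.card {D : X →₀ ℕ // (∀ x, D (σ x) = D x) ∧ D.degree = n} := rfl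

/-- The number of `σ`-invariant effective divisors of degree `n`, in `mapDomain` form. -/
theorem natCard_invDiv_eq_mapDomain (σ : Equiv.Perm X) (n : ℕ) :
    Nat.card (helper8998.invDiv σ n) =
      Nat.card {D : X →₀ ℕ // Finsupp.mapDomain σ D = D ∧ (D.sum fun _ k => k) = n} := by
  rw [helper8998.invDiv_eq_mapDomain]
  rfl

/-- **(Z2)** The integer Frobenius matrix from the fixed-divisor counts `(BIG)` and `(TOP)`. -/
theorem exists_matrix_of_counts (σ : Equiv.Perm X)
    (hfin : ∀ m, 1 ≤ m → (helper8998.fixPts σ m).Finite)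
    (q g : ℕ) (hq : 2 ≤ q) (h : ℕ → ℕ) (e : ℕ → ℕ → ℕ)
    (he : ∀ r n, 1 ≤ r → e r n = Nat.card (helper8998.invDiv (σ ^ r) n))
    (hBIG : ∀ r n, 1 ≤ r → 2 * g ≤ n + 1 →
      (q ^ r - 1) * e r n + h r = h r * (q ^ r) ^ (n + 1 - g))
    (hTOP : ∀ r, 1 ≤ r → 1 ≤ g →
      (q ^ r - 1) * e r (2 * g - 2) + h r = (q ^ r) ^ (g - 1) * (q ^ r - 1 + h r)) :
    ∃ M : Matrix (Fin (2 * g)) (Fin (2 * g)) ℤ, M.det = (q : ℤ) ^ g ∧
      (∀ m, 1 ≤ m →
        (Nat.card (helper8998.fixPts σ m) : ℤ) = 1 + (q : ℤ) ^ m - Matrix.trace (M ^ m)) ∧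
      ∀ r, 1 ≤ r → (h r : ℤ) = (1 - M ^ r).det := by
  -- rationality for every `r ≥ 1`
  have hrat : ∀ r, 1 ≤ r → ∃ L : Polynomial ℤ, L.natDegree = 2 * g ∧ L.coeff 0 = 1 ∧
      L.leadingCoeff = ((q : ℤ) ^ r) ^ g ∧ L.eval 1 = (h r : ℤ) ∧
      PowerSeries.mk (fun n => (Nat.card (helper8998.invDiv (σ ^ r) n) : ℤ)) *
        ((1 - PowerSeries.X) * (1 - PowerSeries.C ((q : ℤ) ^ r) * PowerSeries.X)) =
          (L : PowerSeries ℤ) := by
    intro r hr
    have hQ : 2 ≤ q ^ r := by
      calc 2 ≤ q := hq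
        _ = q ^ 1 := (pow_one q).symm
        _ ≤ q ^ r := Nat.pow_le_pow_right (by omega) hr
    obtain ⟨L, h1, h2, h3, h4, h5⟩ := zeta_rational (q ^ r) g (h r)
      (fun n => Nat.card (helper8998.invDiv (σ ^ r) n)) hQ (helper8998.natCard_invDiv_zero _)
      (fun n hn => by rw [← he r n hr]; exact hBIG r n hr hn)
      (fun hg => by rw [← he r _ hr]; exact hTOP r hr hg)
    refine ⟨L, h1, h2, ?_, h4, ?_⟩
    · rw [h3]; push_cast; rfl
    · rw [← h5]; push_cast; rfl
  obtain ⟨L, hL1, -, hL3, -, hL5⟩ := hrat 1 le_rfl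
  rw [pow_one] at hL3 hL5
  rw [pow_one] at hL5
  refine helper2605.exists_matrix_eval_one_eq_det q g
    (fun m => (Nat.card (helper8998.fixPts σ m) : ℤ))
    (fun r => PowerSeries.mk (fun n => (Nat.card (helper8998.invDiv (σ ^ r) n) : ℤ)))
    (fun r => (h r : ℤ)) ?_ ?_ ?_ L hL5 hL1.le ?_
  · intro r _
    exact helper8998.constantCoeff_mk_natCard_invDiv (σ ^ r) ℤ
  · intro r hr
    exact helper8998.euler_logderiv_powerSeries_pow σ ℤ hfin hr
  · intro r hr
    obtain ⟨Lr, -, -, -, h4, h5⟩ := hrat r hr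
    exact ⟨Lr, h5, h4⟩
  · rw [← hL1, ← hL3]
    rfl

/-- **(Z4)** `ℓ`-adic growth of the class numbers from the fixed-divisor counts: the growth
hypothesis of the group-theoretic endgame. -/
theorem exists_period_padicValNat_of_counts (σ : Equiv.Perm X)
    (hfin : ∀ m, 1 ≤ m → (helper8998.fixPts σ m).Finite)
    (q g : ℕ) (hq : 2 ≤ q) (h : ℕ → ℕ) (hpos : ∀ r, 1 ≤ r → 0 < h r) (e : ℕ → ℕ → ℕ)
    (he : ∀ r n, 1 ≤ r → e r n = Nat.card (helper8998.invDiv (σ ^ r) n))
    (hBIG : ∀ r n, 1 ≤ r → 2 * g ≤ n + 1 →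
      (q ^ r - 1) * e r n + h r = h r * (q ^ r) ^ (n + 1 - g))
    (hTOP : ∀ r, 1 ≤ r → 1 ≤ g →
      (q ^ r - 1) * e r (2 * g - 2) + h r = (q ^ r) ^ (g - 1) * (q ^ r - 1 + h r))
    (ℓ : ℕ) [Fact ℓ.Prime] (hℓ : ¬ ℓ ∣ q) (d : ℕ) (hd : 0 < d) :
    ∃ M : ℕ, 0 < M ∧ d ∣ M ∧ ∃ c : ℕ, ∀ j t : ℕ, ¬ ℓ ∣ t →
      padicValNat ℓ (h (M * ℓ ^ j * t)) = c + 2 * g * j := by
  obtain ⟨A, hdet, -, hA⟩ := exists_matrix_of_counts σ hfin q g hq h e he hBIG hTOP
  have hℓA : ¬ (ℓ : ℤ) ∣ A.det := by
    rw [hdet]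
    intro hdvd
    have h1 : ℓ ∣ q ^ g := by exact_mod_cast hdvd
    exact hℓ ((Fact.out : ℓ.Prime).dvd_of_dvd_pow h1)
  exact helper6854.exists_period_padicValNat_of_cast ℓ A hℓA h
    (fun r hr => hA r hr) (fun r hr => hpos r hr) d hd

end Assembly

end Fermat.Agent.S27.helper8855
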