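import Mathlib
import Fermat.Agent.S27.helper5747_AlgSpec
import Fermat.Agent.S27.helper8855_Zeta

/-!
# S27, characteristic `p` core: the leaf `Stmt_ZetaAbs` of `helper5747_AlgSpec`, verbatim

The abstract zeta statement (integral Frobenius matrix from the counting identities `BIG` and
`TOP` of a permutation with finite fixed-point sets) is `helper8855.exists_matrix_of_counts`
(Euler product `helper8998` + rationality + `helper2605.exists_matrix_eval_one_eq_det`); this file
only restates it in the exact shape of the specification.
-/

set_option autoImplicit false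

namespace Fermat.Agent.S27.helper2605

/-- `invCount` of the specification is the number of invariant effective divisors of
`helper8998`. -/
theorem invCount_eq_natCard_invDiv {Pl : Type*} (σ : Equiv.Perm Pl) (r n : ℕ) :
    helper5747.invCount σ r n = Nat.card (helper8998.invDiv (σ ^ r) n) := by
  rw [helper8855.natCard_invDiv_eq_mapDomain]
  rfl

/-- **`Stmt_ZetaAbs`**, verbatim. -/
theorem stmt_ZetaAbs : helper5747.Stmt_ZetaAbs := by
  intro Pl σ q γ h hq hfin _hpos hBIG hTOP
  obtain ⟨A, hdet, -, hA⟩ := helper8855.exists_matrix_of_counts σ (fun m hm => hfin m hm) q γ hq h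
    (fun r n => helper5747.invCount σ r n) (fun r n _ => invCount_eq_natCard_invDiv σ r n)
    (fun r n hr hn => hBIG r n hr hn) (fun r hr hg => hTOP r hr hg)
  exact ⟨A, hdet, fun r hr => hA r hr⟩

end Fermat.Agent.S27.helper2605
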