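import Fermat.Agent.S27.helper1121_FrobStmts
import Fermat.Agent.S27.helper2605_ZetaAbs
import Fermat.Agent.S27.helper6854_MatrixGrowth
import Fermat.Agent.S27.helper1017_Exh

/-!
# S27, char-`p` core: `Stmt_ZetaMatrix`, `Stmt_Growth` and the core from `Stmt_Norm` (helper1121)

Verbatim, unconditional proofs of `helper5747.Stmt_ZetaMatrix` and `helper5747.Stmt_Growth`
(from `stmt_Fin`, `stmt_Count`, `helper2605.stmt_ZetaAbs` and the matrix growth lemma of
`helper6854`), and the reduction of `helper5747.Stmt_Core` to `Stmt_Norm` alone.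
-/

set_option autoImplicit false

open AlgebraicCurve

namespace Fermat.Agent.S27.helper1121

/-- **ZETA**, verbatim and unconditional: `#Γ_r = det (1 - A ^ r)`. -/
theorem stmt_ZetaMatrix : helper5747.Stmt_ZetaMatrix := by
  intro K F _ _ _ _ _ q g hS
  obtain ⟨hfix, hBIG, hTOP⟩ := stmt_Count K F q g hS
  have hfin := stmt_Fin K F q g hS
  refine helper2605.stmt_ZetaAbs (Place K F) (MulAction.toPerm g) q (genusFF K F)
    (fun r => Nat.card (helper5747.Gam g r)) (two_le_q hS) ?_ ?_ ?_ ?_
  · intro m hm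
    have heq : (MulAction.toPerm g : Equiv.Perm (Place K F)) ^ m = MulAction.toPerm (g ^ m) := by
      rw [← MulAction.toPermHom_apply, ← map_pow, MulAction.toPermHom_apply]
    rw [heq]
    exact hfix m hm
  · intro r hr
    have := hfin r hr
    exact Nat.card_pos
  · intro r n hr hn
    exact hBIG r n hr hn
  · intro r hr hγ
    exact hTOP r hr hγ

/-- **GROWTH**, verbatim and unconditional. -/
theorem stmt_Growth : helper5747.Stmt_Growth := by
  intro K F _ _ _ _ _ q g hS ℓ _ hℓ
  obtain ⟨A, hdet, hA⟩ := stmt_ZetaMatrix K F q g hS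
  have hfin := stmt_Fin K F q g hS
  have hℓA : ¬ (ℓ : ℤ) ∣ A.det := by
    rw [hdet]
    intro hdvd
    have h1 : ℓ ∣ q ^ genusFF K F := by exact_mod_cast hdvd
    exact hℓ ((Fact.out : ℓ.Prime).dvd_of_dvd_pow h1)
  obtain ⟨M, hM, -, c, hc⟩ := helper6854.exists_period_padicValNat_of_cast ℓ A hℓA
    (fun r => Nat.card (helper5747.Gam g r)) hA
    (fun r hr => by
      have := hfin r hr
      exact Nat.card_pos) 1 one_pos
  exact ⟨M, hM, c, hc⟩

/-- The characteristic `p` core follows from the norm statement alone. -/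
theorem stmt_Core_of_norm (hNorm : helper5747.Stmt_Norm) : helper5747.Stmt_Core :=
  helper5747.core_of stmt_Fin helper1017.stmt_Exh hNorm stmt_Growth

end Fermat.Agent.S27.helper1121
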