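import Mathlib
import Fermat.Prelude.Def_AlgebraicCurve_Repartitions
import Fermat.Prelude.Def_AlgebraicCurve_BaseChangeGalois

/-!
# S27, algebraic track, char-p core: Frobenius fixed-divisor count (helper1121)

Geometric feed of the zeta module: for a function field `F/K` (Prelude language) with a
semilinear automorphism `h : SemilinearAut K F` acting on `K` by `a ↦ a ^ Q`, we count the
`h`-fixed effective divisors in a given class through the fixed vectors of `L(D)`.
-/

set_option autoImplicit false

open AlgebraicCurve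

namespace Fermat.Agent.S27.helper1121

universe u v

noncomputable section

variable {K : Type u} {F : Type v} [Field K] [Field F] [Algebra K F]

/-! ## Part A: places, orders, divisors of functions -/

theorem adicValuation_algebraMap (w : Place K F) {a : K} (ha : a ≠ 0) :
    w.adicValuation (algebraMap K F a) = 1 := by
  have h1 := w.adicValuation_algebraMap_le_one a
  have h2 := w.adicValuation_algebraMap_le_one a⁻¹
  rw [map_inv₀, map_inv₀] at h2
  have hne : w.adicValuation (algebraMap K F a) ≠ 0 :=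
    w.adicValuation_ne_zero (by simpa using ha)
  have h3 : 1 ≤ w.adicValuation (algebraMap K F a) :=
    (inv_le_one₀ (zero_lt_iff.mpr hne)).mp h2
  exact le_antisymm h1 h3

theorem ord_algebraMap (w : Place K F) (a : K) : w.ord (algebraMap K F a) = 0 := by
  rcases eq_or_ne a 0 with rfl | ha
  · simp
  · simp [Place.ord, adicValuation_algebraMap w ha]

theorem adicValuation_lt_one_iff (w : Place K F) {f : F} :
    w.adicValuation f < 1 ↔ f = 0 ∨ 0 < w.ord f := by
  rcases eq_or_ne f 0 with rfl | hf
  · simp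
  · rw [w.adicValuation_eq_exp_neg_ord hf, ← WithZero.exp_zero, WithZero.exp_lt_exp]
    simp [hf]

/-- Two constants that are both the value of `x` at `w` agree. -/
theorem const_unique (w : Place K F) {x : F} {c c' : K}
    (h : w.adicValuation (x - algebraMap K F c) < 1)
    (h' : w.adicValuation (x - algebraMap K F c') < 1) : c = c' := by
  by_contra hne
  have hsub : c' - c ≠ 0 := sub_ne_zero.mpr (Ne.symm hne)
  have h1 := adicValuation_algebraMap w hsub
  have h2 : algebraMap K F (c' - c) = (x - algebraMap K F c) - (x - algebraMap K F c') := by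
    rw [map_sub]; ring
  rw [h2] at h1
  have h3 := Valuation.map_sub w.adicValuation (x - algebraMap K F c) (x - algebraMap K F c')
  rw [h1] at h3
  exact absurd h3 (not_le.mpr (max_lt h h'))

section Div

variable (K) in
open Classical in
/-- The divisor of a function (junk `0` at `f = 0`). -/
def divOf [HasPrincipalDivisors K F] (f : F) : Divisor K F :=
  if h : f ≠ 0 then (HasPrincipalDivisors.exists_divisor (K := K) f h).choose else 0

variable [HasPrincipalDivisors K F]

theorem divOf_apply {f : F} (hf : f ≠ 0) (w : Place K F) : divOf K f w = w.ord f := by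
  unfold divOf
  rw [dif_pos hf]
  exact (HasPrincipalDivisors.exists_divisor (K := K) f hf).choose_spec.1 w

@[simp]
theorem degree_divOf (f : F) : Divisor.degree (divOf K f) = 0 := by
  unfold divOf
  split_ifs with hf
  · exact (HasPrincipalDivisors.exists_divisor (K := K) f hf).choose_spec.2
  · simp

theorem divOf_mul {f g : F} (hf : f ≠ 0) (hg : g ≠ 0) :
    divOf K (f * g) = divOf K f + divOf K g := by
  ext w
  rw [Finsupp.add_apply, divOf_apply (mul_ne_zero hf hg), divOf_apply hf, divOf_apply hg,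
    w.ord_mul hf hg]

theorem divOf_algebraMap (a : K) : divOf K (algebraMap K F a) = 0 := by
  rcases eq_or_ne a 0 with rfl | ha
  · simp [divOf]
  · ext w
    rw [divOf_apply (by simpa using ha), ord_algebraMap]
    rfl

theorem divOf_smul (h : SemilinearAut K F) (f : F) : divOf K (h • f) = h • divOf K f := by
  rcases eq_or_ne f 0 with rfl | hf
  · simp [divOf]
  · have hf' : h • f ≠ 0 := by simpa using hf
    ext w
    rw [SemilinearAut.divisor_smul_apply, divOf_apply hf', divOf_apply hf]
    have := SemilinearAut.ord_smul h (h⁻¹ • w) f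
    rwa [smul_inv_smul] at this

theorem divOf_mem_principal {f : F} (hf : f ≠ 0) :
    divOf K f ∈ Divisor.principal (K := K) (F := F) :=
  ⟨f, hf, fun w => divOf_apply hf w⟩

theorem exists_divOf_of_mem_principal {D : Divisor K F}
    (hD : D ∈ Divisor.principal (K := K) (F := F)) : ∃ f : F, f ≠ 0 ∧ D = divOf K f := by
  obtain ⟨f, hf, hD⟩ := hD
  exact ⟨f, hf, by ext w; rw [hD w, divOf_apply hf]⟩

theorem mem_riemannRochSpace_iff_divOf {D : Divisor K F} {f : F} (hf : f ≠ 0) :
    f ∈ riemannRochSpace D ↔ 0 ≤ divOf K f + D := by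
  rw [mem_riemannRochSpace_iff, Finsupp.le_def]
  refine forall_congr' fun w => ?_
  rw [Finsupp.add_apply, divOf_apply hf, or_iff_right hf]
  simp only [Finsupp.coe_zero, Pi.zero_apply]
  constructor <;> intro h <;> linarith

end Div

theorem smul_mem_riemannRochSpace (h : SemilinearAut K F) {D : Divisor K F} {f : F}
    (hf : f ∈ riemannRochSpace D) : h • f ∈ riemannRochSpace (h • D) := by
  rw [mem_riemannRochSpace_iff] at hf ⊢
  intro w
  rcases hf (h⁻¹ • w) with h0 | h1
  · left; simp [h0]
  · right
    rw [SemilinearAut.divisor_smul_apply]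
    have := SemilinearAut.ord_smul h (h⁻¹ • w) f
    rw [smul_inv_smul] at this
    rw [this]; exact h1

/-! ### Degree when all places have degree one -/

theorem degree_eq_sum (hdeg : ∀ w : Place K F, w.deg = 1) (D : Divisor K F) :
    Divisor.degree D = D.sum fun _ n => n := by
  simp [Divisor.degree, hdeg, Finsupp.sum]

theorem degree_nonneg (hdeg : ∀ w : Place K F, w.deg = 1) {D : Divisor K F} (h0 : 0 ≤ D) :
    0 ≤ Divisor.degree D := by
  rw [degree_eq_sum hdeg, Finsupp.sum]
  exact Finset.sum_nonneg fun w _ => Finsupp.le_def.mp h0 w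

theorem eq_zero_of_nonneg_of_degree (hdeg : ∀ w : Place K F, w.deg = 1) {D : Divisor K F}
    (h0 : 0 ≤ D) (hd : Divisor.degree D = 0) : D = 0 := by
  rw [degree_eq_sum hdeg, Finsupp.sum] at hd
  have := (Finset.sum_eq_zero_iff_of_nonneg fun w _ => Finsupp.le_def.mp h0 w).mp hd
  ext w
  by_cases hw : w ∈ D.support
  · exact this w hw
  · simpa using hw


/-! ## Part B: fixed vectors of `L(D)` -/

theorem baseAut_pow_apply (h : SemilinearAut K F) {Q : ℕ}
    (hQ : ∀ a, SemilinearAut.baseAut h a = a ^ Q) (m : ℕ) (a : K) :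
    SemilinearAut.baseAut (h ^ m) a = a ^ (Q ^ m) := by
  induction m generalizing a with
  | zero => simp
  | succ m ih =>
    rw [pow_succ, SemilinearAut.baseAut_mul]
    show SemilinearAut.baseAut (h ^ m) (SemilinearAut.baseAut h a) = _
    rw [ih, hQ, ← pow_mul, pow_succ, mul_comm]

theorem smul_algebraMap_pow (h : SemilinearAut K F) {Q : ℕ}
    (hQ : ∀ a, SemilinearAut.baseAut h a = a ^ Q) (a : K) :
    h • algebraMap K F a = algebraMap K F (a ^ Q) := by
  rw [SemilinearAut.smul_algebraMap, hQ]

/-- If `a ↦ a ^ Q` is additive on an infinite field then `Q = 0` in the field. -/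
theorem natCast_eq_zero_of_frob [Infinite K] {Q : ℕ} (hQ2 : 2 ≤ Q) (σ : K ≃+* K)
    (hσ : ∀ a, σ a = a ^ Q) : (Q : K) = 0 := by
  have hP : ((Polynomial.X + 1) ^ Q - Polynomial.X ^ Q - 1 : Polynomial K) = 0 := by
    apply Polynomial.funext
    intro a
    simp only [Polynomial.eval_sub, Polynomial.eval_pow, Polynomial.eval_add, Polynomial.eval_X,
      Polynomial.eval_one, Polynomial.eval_zero]
    rw [← hσ, ← hσ, map_add, map_one]; ring
  have h1 := congrArg (fun p => Polynomial.coeff p 1) hP
  have hQ1 : (1 : ℕ) ≠ Q := by omega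
  simpa [Polynomial.coeff_X_add_one_pow, Polynomial.coeff_X_pow, Polynomial.coeff_one, hQ1]
    using h1

theorem card_rootsOfUnity_pred [IsAlgClosed K] {Q : ℕ} (hQ2 : 2 ≤ Q) (hQ0 : (Q : K) = 0) :
    Nat.card (rootsOfUnity (Q - 1) K) = Q - 1 := by
  have : NeZero (((Q - 1 : ℕ)) : K) := ⟨by rw [Nat.cast_sub (by omega), hQ0]; simp⟩
  have : NeZero (Q - 1) := ⟨by omega⟩
  exact HasEnoughRootsOfUnity.natCard_rootsOfUnity K (Q - 1)

/-- The semilinear Lang lemma as a hypothesis (`Stmt_SL` of the char-`p` core): an injective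
`Q`-Frobenius-semilinear additive endomorphism of a finite-dimensional `K`-space `V` has exactly
`Q ^ dim V` fixed points. -/
def SLHyp (K : Type u) [Field K] (Q : ℕ) : Prop :=
  ∀ (V : Type v) [AddCommGroup V] [Module K V] [FiniteDimensional K V] (ψ : V →+ V),
    (∀ (a : K) (x : V), ψ (a • x) = a ^ Q • ψ x) → Function.Injective ψ →
    Nat.card {x : V // ψ x = x} = Q ^ Module.finrank K V

section Twist

variable [HasPrincipalDivisors K F]

theorem twist_mem (h : SemilinearAut K F) {D : Divisor K F} {w : F} (hw : w ≠ 0)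
    (hD : h • D = D + divOf K w) {f : F} (hf : f ∈ riemannRochSpace D) :
    w * (h • f) ∈ riemannRochSpace D := by
  rcases eq_or_ne f 0 with rfl | hf0
  · simp
  have hf' : h • f ≠ 0 := by simpa using hf0
  have h1 := smul_mem_riemannRochSpace h hf
  rw [mem_riemannRochSpace_iff_divOf hf', hD] at h1
  rw [mem_riemannRochSpace_iff_divOf (mul_ne_zero hw hf'), divOf_mul hw hf']
  have : divOf K w + divOf K (h • f) + D = divOf K (h • f) + (D + divOf K w) := by abel
  rw [this]; exact h1

/-- The twisted Frobenius `f ↦ w * h • f` on `L(D)`, when `h • D = D + div w`. -/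
def twist (h : SemilinearAut K F) {D : Divisor K F} {w : F} (hw : w ≠ 0)
    (hD : h • D = D + divOf K w) : ↥(riemannRochSpace D) →+ ↥(riemannRochSpace D) where
  toFun f := ⟨w * (h • (f : F)), twist_mem h hw hD f.2⟩
  map_zero' := by ext; simp
  map_add' f g := by ext; simp [smul_add, mul_add]

@[simp]
theorem coe_twist (h : SemilinearAut K F) {D : Divisor K F} {w : F} (hw : w ≠ 0)
    (hD : h • D = D + divOf K w) (f : ↥(riemannRochSpace D)) :
    (twist h hw hD f : F) = w * (h • (f : F)) := rfl

theorem card_twist_fixed (h : SemilinearAut K F) {Q : ℕ}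
    (hQ : ∀ a, SemilinearAut.baseAut h a = a ^ Q) (hSL : SLHyp.{u, v} K Q)
    {D : Divisor K F} [Module.Finite K (riemannRochSpace D)] {w : F} (hw : w ≠ 0)
    (hD : h • D = D + divOf K w) :
    Nat.card {f : ↥(riemannRochSpace D) // twist h hw hD f = f}
      = Q ^ Module.finrank K (riemannRochSpace D) := by
  apply hSL
  · intro a f
    ext
    simp only [coe_twist, Submodule.coe_smul, Algebra.smul_def, smul_mul', smul_algebraMap_pow h hQ]
    ring
  · intro f g hfg
    have := congrArg (fun z : ↥(riemannRochSpace D) => (z : F)) hfg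
    simp only [coe_twist] at this
    have h2 := mul_left_cancel₀ hw this
    exact Subtype.ext ((MulAction.injective h) h2)

/-- A twisted-fixed nonzero vector exists as soon as `L(D) ≠ 0`. -/
theorem exists_twist_fixed (h : SemilinearAut K F) {Q : ℕ} (hQ2 : 2 ≤ Q)
    (hQ : ∀ a, SemilinearAut.baseAut h a = a ^ Q) (hSL : SLHyp.{u, v} K Q)
    {D : Divisor K F} [Module.Finite K (riemannRochSpace D)] {w : F} (hw : w ≠ 0)
    (hD : h • D = D + divOf K w) (hl : 1 ≤ Module.finrank K (riemannRochSpace D)) :
    ∃ f : F, f ∈ riemannRochSpace D ∧ f ≠ 0 ∧ w * (h • f) = f := by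
  have hc := card_twist_fixed h hQ hSL hw hD
  have h1 : 1 < Nat.card {f : ↥(riemannRochSpace D) // twist h hw hD f = f} := by
    rw [hc]
    calc 1 < Q := by omega
      _ = Q ^ 1 := (pow_one Q).symm
      _ ≤ Q ^ Module.finrank K (riemannRochSpace D) := Nat.pow_le_pow_right (by omega) hl
  have : Finite {f : ↥(riemannRochSpace D) // twist h hw hD f = f} :=
    Nat.finite_of_card_ne_zero (by omega)
  have := (Finite.one_lt_card_iff_nontrivial).mp h1
  obtain ⟨f, hf⟩ := exists_ne (⟨0, map_zero _⟩ :
    {f : ↥(riemannRochSpace D) // twist h hw hD f = f})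
  refine ⟨f.1.1, f.1.2, ?_, ?_⟩
  · intro h0
    exact hf (Subtype.ext (Subtype.ext h0))
  · have := congrArg (fun z : ↥(riemannRochSpace D) => (z : F)) f.2
    simpa using this

/-- A class stable under `h` with `ℓ ≥ 1` contains an `h`-fixed effective divisor. -/
theorem exists_fixed_effective (h : SemilinearAut K F) {Q : ℕ} (hQ2 : 2 ≤ Q)
    (hQ : ∀ a, SemilinearAut.baseAut h a = a ^ Q) (hSL : SLHyp.{u, v} K Q)
    {D : Divisor K F} [Module.Finite K (riemannRochSpace D)]
    (hD : h • D - D ∈ Divisor.principal (K := K) (F := F))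
    (hl : 1 ≤ Module.finrank K (riemannRochSpace D)) :
    ∃ D1 : Divisor K F, 0 ≤ D1 ∧ h • D1 = D1 ∧
      D1 - D ∈ Divisor.principal (K := K) (F := F) := by
  obtain ⟨w, hw, hDw⟩ := exists_divOf_of_mem_principal hD
  have hD' : h • D = D + divOf K w := by rw [← hDw]; abel
  obtain ⟨f, hfm, hf0, hff⟩ := exists_twist_fixed h hQ2 hQ hSL hw hD' hl
  have hf' : h • f ≠ 0 := by simpa using hf0
  refine ⟨D + divOf K f, ?_, ?_, ?_⟩
  · have := (mem_riemannRochSpace_iff_divOf hf0).mp hfm
    rwa [add_comm] at this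
  · rw [smul_add, hD', ← divOf_smul, add_assoc, ← divOf_mul hw hf', hff]
  · rw [add_sub_cancel_left]; exact divOf_mem_principal hf0

end Twist


/-! ## Part B': the per-class count (CLS) -/

section Count

variable [HasPrincipalDivisors K F]

theorem divOf_one : divOf K (1 : F) = 0 := by
  have := divOf_algebraMap (K := K) (F := F) 1
  rwa [map_one] at this

theorem exists_const_of_divOf_eq
    (hL0 : ∀ f ∈ riemannRochSpace (0 : Divisor K F), f ∈ Set.range (algebraMap K F))
    {f g : F} (hf : f ≠ 0) (hg : g ≠ 0) (hfg : divOf K f = divOf K g) :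
    ∃ c : K, c ≠ 0 ∧ g = algebraMap K F c * f := by
  have hne : g * f⁻¹ ≠ 0 := mul_ne_zero hg (inv_ne_zero hf)
  have hmem : g * f⁻¹ ∈ riemannRochSpace (0 : Divisor K F) := by
    rw [mem_riemannRochSpace_iff]
    intro w; right
    rw [w.ord_mul hg (inv_ne_zero hf), w.ord_inv, ← divOf_apply hg, ← divOf_apply hf, hfg]
    simp
  obtain ⟨c, hc⟩ := hL0 _ hmem
  refine ⟨c, ?_, ?_⟩
  · rintro rfl
    rw [map_zero] at hc
    exact hne hc.symm
  · rw [hc]; field_simp

/-- `h`-fixed effective divisors linearly equivalent to `D0`. -/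
abbrev FixedIn (h : SemilinearAut K F) (D0 : Divisor K F) : Type _ :=
  {D : Divisor K F // 0 ≤ D ∧ h • D = D ∧ D - D0 ∈ Divisor.principal (K := K) (F := F)}

/-- Nonzero `h`-fixed vectors of `L(D0)`. -/
abbrev FixedVec (h : SemilinearAut K F) (D0 : Divisor K F) : Type _ :=
  {f : F // f ∈ riemannRochSpace D0 ∧ f ≠ 0 ∧ h • f = f}

theorem card_fixedVec_succ (h : SemilinearAut K F) {Q : ℕ}
    (hQ : ∀ a, SemilinearAut.baseAut h a = a ^ Q) (hSL : SLHyp.{u, v} K Q)
    {D0 : Divisor K F} [Module.Finite K (riemannRochSpace D0)] (hD0 : h • D0 = D0) (hQpos : 0 < Q) :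
    Nat.card (FixedVec h D0) + 1 = Q ^ Module.finrank K (riemannRochSpace D0) := by
  classical
  have hD : h • D0 = D0 + divOf K (1 : F) := by rw [divOf_one, add_zero, hD0]
  have hc := card_twist_fixed h hQ hSL one_ne_zero hD
  let e : {f : ↥(riemannRochSpace D0) // twist h one_ne_zero hD f = f} ≃ Option (FixedVec h D0) :=
    { toFun := fun b => if hb : (b.1 : F) = 0 then none else
        some ⟨b.1.1, b.1.2, hb, by
          have := congrArg (fun z : ↥(riemannRochSpace D0) => (z : F)) b.2
          simpa using this⟩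
      invFun := fun o => match o with
        | none => ⟨0, map_zero _⟩
        | some a => ⟨⟨a.1, a.2.1⟩, Subtype.ext (by simp [a.2.2.2])⟩
      left_inv := by
        intro b
        by_cases hb : (b.1 : F) = 0
        · simp only [hb, dite_true]
          exact Subtype.ext (Subtype.ext hb.symm)
        · simp only [hb, dite_false]
      right_inv := by
        intro o
        cases o with
        | none => simp
        | some a => simp [a.2.2.1] }
  have : Finite {f : ↥(riemannRochSpace D0) // twist h one_ne_zero hD f = f} :=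
    Nat.finite_of_card_ne_zero (by rw [hc]; exact (pow_pos hQpos _).ne')
  have : Finite (Option (FixedVec h D0)) := Finite.of_equiv _ e
  have : Finite (FixedVec h D0) := Finite.of_injective some (Option.some_injective _)
  rw [← hc, Nat.card_congr e, Finite.card_option]

theorem card_fixedVec_eq [IsAlgClosed K] (h : SemilinearAut K F) {Q : ℕ} (hQ2 : 2 ≤ Q)
    (hQ : ∀ a, SemilinearAut.baseAut h a = a ^ Q) (hQ0 : (Q : K) = 0)
    (hL0 : ∀ f ∈ riemannRochSpace (0 : Divisor K F), f ∈ Set.range (algebraMap K F))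
    {D0 : Divisor K F} (hD0 : h • D0 = D0) :
    Nat.card (FixedVec h D0) = Nat.card (FixedIn h D0) * (Q - 1) := by
  classical
  let Φ : FixedVec h D0 → FixedIn h D0 := fun f => ⟨D0 + divOf K f.1, by
      have := (mem_riemannRochSpace_iff_divOf f.2.2.1).mp f.2.1
      rwa [add_comm] at this, by
      rw [smul_add, hD0, ← divOf_smul, f.2.2.2], by
      rw [add_sub_cancel_left]; exact divOf_mem_principal f.2.2.1⟩
  have hΦ : ∀ f : FixedVec h D0, (Φ f).1 = D0 + divOf K f.1 := fun f => rfl
  have hΦsurj : Function.Surjective Φ := by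
    rintro ⟨D, hDnn, hDfix, hDp⟩
    obtain ⟨f0, hf0, hDf0⟩ := exists_divOf_of_mem_principal hDp
    have hDeq : D = D0 + divOf K f0 := by rw [← hDf0]; abel
    have hf0' : h • f0 ≠ 0 := by simpa using hf0
    have h1 : divOf K f0 = divOf K (h • f0) := by
      rw [divOf_smul]
      have : h • (D - D0) = D - D0 := by rw [smul_sub, hDfix, hD0]
      rw [← hDf0, this]
    obtain ⟨c, hc0, hc⟩ := exists_const_of_divOf_eq hL0 hf0 hf0' h1
    obtain ⟨b, hb⟩ := IsAlgClosed.exists_pow_nat_eq c⁻¹ (show 0 < Q - 1 by omega)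
    have hb0 : b ≠ 0 := by
      rintro rfl
      rw [zero_pow (by omega)] at hb
      exact inv_ne_zero hc0 hb.symm
    have hbQ : b ^ Q * c = b := by
      have : b ^ Q = b ^ (Q - 1) * b := by
        rw [← pow_succ]; congr 1; omega
      rw [this, hb]; field_simp
    refine ⟨⟨algebraMap K F b * f0, ?_, ?_, ?_⟩, ?_⟩
    · have hm : f0 ∈ riemannRochSpace D0 := by
        rw [mem_riemannRochSpace_iff_divOf hf0, add_comm, ← hDeq]; exact hDnn
      have := (riemannRochSpace D0).smul_mem b hm
      rwa [Algebra.smul_def] at this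
    · exact mul_ne_zero (by simpa using hb0) hf0
    · rw [smul_mul', smul_algebraMap_pow h hQ, hc, ← mul_assoc, ← map_mul, hbQ]
    · apply Subtype.ext
      show D0 + divOf K (algebraMap K F b * f0) = D
      rw [divOf_mul (by simpa using hb0) hf0, divOf_algebraMap, zero_add, hDeq]
  have hfib : ∀ b : FixedIn h D0,
      Nonempty ({a : FixedVec h D0 // Φ a = b} ≃ rootsOfUnity (Q - 1) K) := by
    intro b
    obtain ⟨fb, hfb⟩ := hΦsurj b
    have hpow : ∀ c : rootsOfUnity (Q - 1) K, (((c : Kˣ) : K)) ^ Q = ((c : Kˣ) : K) := by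
      intro c
      have h1 : ((c : Kˣ) : K) ^ (Q - 1) = 1 := by
        have := congrArg Units.val ((mem_rootsOfUnity _ _).mp c.2)
        simpa using this
      have : ((c : Kˣ) : K) ^ Q = ((c : Kˣ) : K) ^ (Q - 1) * ((c : Kˣ) : K) := by
        rw [← pow_succ]; congr 1; omega
      rw [this, h1, one_mul]
    let τ : rootsOfUnity (Q - 1) K → {a : FixedVec h D0 // Φ a = b} := fun c =>
      ⟨⟨algebraMap K F ((c : Kˣ) : K) * fb.1, by
          have := (riemannRochSpace D0).smul_mem ((c : Kˣ) : K) fb.2.1
          rwa [Algebra.smul_def] at this,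
        mul_ne_zero (by simp) fb.2.2.1, by
          rw [smul_mul', smul_algebraMap_pow h hQ, hpow c, fb.2.2.2]⟩, by
        apply Subtype.ext
        rw [hΦ, ← hfb, hΦ]
        show D0 + divOf K (algebraMap K F ((c : Kˣ) : K) * fb.1) = D0 + divOf K fb.1
        rw [divOf_mul (by simp) fb.2.2.1, divOf_algebraMap, zero_add]⟩
    refine ⟨(Equiv.ofBijective τ ⟨?_, ?_⟩).symm⟩
    · intro c c' hcc
      have h1 : algebraMap K F ((c : Kˣ) : K) * fb.1 = algebraMap K F ((c' : Kˣ) : K) * fb.1 :=
        congrArg (fun z : {a : FixedVec h D0 // Φ a = b} => (z.1.1 : F)) hcc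
      have h2 := (algebraMap K F).injective (mul_right_cancel₀ fb.2.2.1 h1)
      exact Subtype.ext (Units.ext h2)
    · rintro ⟨a, ha⟩
      have hdiv : divOf K fb.1 = divOf K a.1 := by
        have h1 : (Φ fb).1 = (Φ a).1 := by rw [hfb, ha]
        rw [hΦ, hΦ] at h1
        exact add_left_cancel h1
      obtain ⟨c, hc0, hc⟩ := exists_const_of_divOf_eq hL0 fb.2.2.1 a.2.2.1 hdiv
      have hcQ : c ^ Q = c := by
        have h1 := a.2.2.2
        rw [hc, smul_mul', smul_algebraMap_pow h hQ, fb.2.2.2] at h1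
        exact (algebraMap K F).injective (mul_right_cancel₀ fb.2.2.1 h1)
      have hc1 : c ^ (Q - 1) = 1 := by
        have : c ^ Q = c ^ (Q - 1) * c := by
          rw [← pow_succ]; congr 1; omega
        rw [this] at hcQ
        exact mul_right_cancel₀ hc0 (by rw [hcQ, one_mul])
      refine ⟨⟨Units.mk0 c hc0, ?_⟩, ?_⟩
      · rw [mem_rootsOfUnity]
        exact Units.ext (by simpa using hc1)
      · apply Subtype.ext
        apply Subtype.ext
        show algebraMap K F c * fb.1 = a.1
        exact hc.symm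
  calc Nat.card (FixedVec h D0)
      = Nat.card (Σ b, {a : FixedVec h D0 // Φ a = b}) :=
        Nat.card_congr (Equiv.sigmaFiberEquiv Φ).symm
    _ = Nat.card (Σ _b : FixedIn h D0, rootsOfUnity (Q - 1) K) :=
        Nat.card_congr (Equiv.sigmaCongrRight fun b => (hfib b).some)
    _ = Nat.card (FixedIn h D0 × rootsOfUnity (Q - 1) K) :=
        Nat.card_congr (Equiv.sigmaEquivProd _ _)
    _ = _ := by rw [Nat.card_prod, card_rootsOfUnity_pred hQ2 hQ0]

/-- **(CLS)** The number of `h`-fixed effective divisors in the class of a fixed divisor `D0`. -/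
theorem card_fixedIn [IsAlgClosed K] (h : SemilinearAut K F) {Q : ℕ} (hQ2 : 2 ≤ Q)
    (hQ : ∀ a, SemilinearAut.baseAut h a = a ^ Q) (hSL : SLHyp.{u, v} K Q)
    (hL0 : ∀ f ∈ riemannRochSpace (0 : Divisor K F), f ∈ Set.range (algebraMap K F))
    {D0 : Divisor K F} [Module.Finite K (riemannRochSpace D0)] (hD0 : h • D0 = D0) :
    Nat.card (FixedIn h D0) * (Q - 1) + 1 = Q ^ Module.finrank K (riemannRochSpace D0) := by
  have hQ0 : (Q : K) = 0 := natCast_eq_zero_of_frob hQ2 (SemilinearAut.baseAut h) hQ
  rw [← card_fixedVec_eq h hQ2 hQ hQ0 hL0 hD0]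
  exact card_fixedVec_succ h hQ hSL hD0 (by omega)

end Count


/-! ## Part C: finiteness -/

theorem adicValuation_coe_lt_one_iff (w : Place K F) (a : w.toValuationSubring) :
    w.adicValuation (a : F) < 1 ↔ a ∈ IsLocalRing.maximalIdeal w.toValuationSubring := by
  rw [w.adicValuation_coe, IsDedekindDomain.HeightOneSpectrum.intValuation_lt_one_iff_mem,
    Place.heightOneSpectrum_asIdeal]

theorem mem_toValuationSubring_of_le_one (w : Place K F) {x : F}
    (hx : w.adicValuation x ≤ 1) : x ∈ w.toValuationSubring := by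
  by_contra hx'
  have hx0 : x ≠ 0 := fun h0 => hx' (h0 ▸ w.toValuationSubring.zero_mem)
  have hxi : x⁻¹ ∈ w.toValuationSubring :=
    (w.toValuationSubring.mem_or_inv_mem x).resolve_left hx'
  have h1 := w.adicValuation_le_one_of_mem hxi
  rw [map_inv₀] at h1
  have hne : w.adicValuation x ≠ 0 := w.adicValuation_ne_zero hx0
  have h2 : 1 ≤ w.adicValuation x := (inv_le_one₀ (zero_lt_iff.mpr hne)).mp h1
  have h3 : w.adicValuation x = 1 := le_antisymm hx h2
  have h4 : w.adicValuation ((⟨x⁻¹, hxi⟩ : w.toValuationSubring) : F) = 1 := by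
    show w.adicValuation x⁻¹ = 1
    rw [map_inv₀, h3, inv_one]
  obtain ⟨u, hu⟩ := isUnit_iff_exists_inv.mp ((w.adicValuation_coe_eq_one_iff _).mp h4)
  have h5 : x⁻¹ * (u : F) = 1 := by
    have := congrArg (fun z : w.toValuationSubring => (z : F)) hu
    simpa using this
  have h6 : (u : F) = x := by
    field_simp at h5
    exact h5
  exact hx' (h6 ▸ u.2)

/-- At a place of degree one every regular function has a value in `K`. -/
theorem exists_const_of_deg_one (w : Place K F) (hw : w.deg = 1) {x : F}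
    (hx : w.adicValuation x ≤ 1) :
    ∃ c : K, w.adicValuation (x - algebraMap K F c) < 1 := by
  have hxm := mem_toValuationSubring_of_le_one w hx
  have h1 : Module.finrank K w.ResidueField = 1 := hw
  obtain ⟨c, hc⟩ := (finrank_eq_one_iff_of_nonzero' (1 : w.ResidueField) one_ne_zero).mp h1
    (IsLocalRing.residue _ ⟨x, hxm⟩)
  refine ⟨c, ?_⟩
  have h2 : IsLocalRing.residue w.toValuationSubring
      (⟨x, hxm⟩ - algebraMap K w.toValuationSubring c) = 0 := by
    rw [map_sub, ← hc, Algebra.smul_def, mul_one]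
    exact sub_self _
  rw [IsLocalRing.residue_eq_zero_iff] at h2
  have := (adicValuation_coe_lt_one_iff w _).mpr h2
  simpa using this

theorem pow_smul_fixed {M α : Type*} [Monoid M] [MulAction M α] {g : M} {x : α}
    (hx : g • x = x) (m : ℕ) : g ^ m • x = x := by
  induction m with
  | zero => simp
  | succ m ih => rw [pow_succ, mul_smul, hx, ih]

/-- **(FIX)** finitely many places are fixed by a Frobenius-semilinear automorphism. -/
theorem finite_fixed_places [HasPrincipalDivisors K F] (h : SemilinearAut K F) {Q : ℕ}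
    (hQ2 : 2 ≤ Q) (hQ : ∀ a, SemilinearAut.baseAut h a = a ^ Q)
    (hdeg : ∀ w : Place K F, w.deg = 1) {x : F} (hx : h • x = x)
    (hxc : x ∉ Set.range (algebraMap K F)) :
    {w : Place K F | h • w = w}.Finite := by
  classical
  have hP : (Polynomial.X ^ Q - Polynomial.X : Polynomial K) ≠ 0 :=
    FiniteField.X_pow_card_sub_X_ne_zero K (by omega)
  refine ((divOf K x).support ∪ (Polynomial.X ^ Q - Polynomial.X : Polynomial K).roots.toFinset.biUnion
    fun c => (divOf K (x - algebraMap K F c)).support).finite_toSet.subset ?_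
  intro w hw
  have hw' : h • w = w := hw
  have hx0 : x ≠ 0 := by
    rintro rfl
    exact hxc ⟨0, by simp⟩
  rw [Finset.coe_union, Set.mem_union]
  by_cases hle : w.adicValuation x ≤ 1
  · obtain ⟨c, hc⟩ := exists_const_of_deg_one w (hdeg w) hle
    have hne : x - algebraMap K F c ≠ 0 := fun h0 => hxc ⟨c, (sub_eq_zero.mp h0).symm⟩
    have hord : 0 < w.ord (x - algebraMap K F c) :=
      ((adicValuation_lt_one_iff w).mp hc).resolve_left hne
    have h1 := SemilinearAut.ord_smul h w (x - algebraMap K F c)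
    rw [hw', smul_sub, hx, smul_algebraMap_pow h hQ] at h1
    have hc' : w.adicValuation (x - algebraMap K F (c ^ Q)) < 1 :=
      (adicValuation_lt_one_iff w).mpr (Or.inr (by rw [h1]; exact hord))
    have hcQ : c = c ^ Q := const_unique w hc hc'
    right
    rw [Finset.mem_coe, Finset.mem_biUnion]
    refine ⟨c, ?_, ?_⟩
    · rw [Multiset.mem_toFinset, Polynomial.mem_roots hP]
      simp [← hcQ]
    · rw [Finsupp.mem_support_iff, divOf_apply hne]
      exact hord.ne'
  · left
    rw [Finset.mem_coe, Finsupp.mem_support_iff, divOf_apply hx0]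
    exact ((w.not_adicValuation_le_one_iff).mp hle).ne

theorem finite_fixed_places_pow [HasPrincipalDivisors K F] (h : SemilinearAut K F) {Q : ℕ}
    (hQ2 : 2 ≤ Q) (hQ : ∀ a, SemilinearAut.baseAut h a = a ^ Q)
    (hdeg : ∀ w : Place K F, w.deg = 1) {x : F} (hx : h • x = x)
    (hxc : x ∉ Set.range (algebraMap K F)) (m : ℕ) (hm : 1 ≤ m) :
    {w : Place K F | h ^ m • w = w}.Finite :=
  finite_fixed_places (h ^ m) (Q := Q ^ m)
    (le_trans hQ2 (Nat.le_self_pow (by omega) Q)) (baseAut_pow_apply h hQ m) hdeg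
    (pow_smul_fixed hx m) hxc

theorem perm_pow_fixed {X : Type*} (τ : Equiv.Perm X) {y : X} (hy : τ y = y) (t : ℕ) :
    (τ ^ t) y = y := by
  induction t with
  | zero => simp
  | succ t ih => rw [pow_succ, Equiv.Perm.mul_apply, hy, ih]

/-- Invariant `ℕ`-valued finitely supported functions of given total mass are finite in number,
for a permutation all of whose powers have finitely many fixed points. -/
theorem finite_invariant_finsupp {X : Type*} (σ : Equiv.Perm X)
    (hfin : ∀ m, 1 ≤ m → {x | (σ ^ m) x = x}.Finite) (n : ℕ) :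
    {E : X →₀ ℕ | E.mapDomain σ = E ∧ (E.sum fun _ k => k) = n}.Finite := by
  classical
  set T := (hfin (n.factorial) (Nat.factorial_pos n)).toFinset with hT
  have key : ∀ E : X →₀ ℕ, E.mapDomain σ = E → (E.sum fun _ k => k) = n →
      E ≤ Finsupp.indicator T (fun _ _ => n) := by
    intro E hE hn
    have hinv : ∀ y, E (σ y) = E y := fun y => by
      conv_lhs => rw [← hE]
      exact Finsupp.mapDomain_apply σ.injective E y
    have hinv' : ∀ (i : ℕ) y, E ((σ ^ i) y) = E y := by
      intro i
      induction i with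
      | zero => intro y; simp
      | succ i ih => intro y; rw [pow_succ', Equiv.Perm.mul_apply, hinv, ih]
    have hle : ∀ y, E y ≤ n := by
      intro y
      by_cases hy : y ∈ E.support
      · rw [← hn, Finsupp.sum]
        exact Finset.single_le_sum (f := fun y => E y) (fun _ _ => Nat.zero_le _) hy
      · rw [Finsupp.notMem_support_iff.mp hy]; exact Nat.zero_le _
    have hcard : E.support.card ≤ n := by
      rw [← hn, Finsupp.sum, Finset.card_eq_sum_ones]
      exact Finset.sum_le_sum fun y hy =>
        Nat.one_le_iff_ne_zero.mpr (Finsupp.mem_support_iff.mp hy)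
    have hsupp : ∀ y ∈ E.support, y ∈ T := by
      intro y hy
      have hmaps : ∀ i ∈ Finset.range (n + 1), (σ ^ i) y ∈ E.support := by
        intro i _
        rw [Finsupp.mem_support_iff, hinv']
        exact Finsupp.mem_support_iff.mp hy
      obtain ⟨i, hi, j, hj, hij, heq⟩ := Finset.exists_ne_map_eq_of_card_lt_of_maps_to
        (by rw [Finset.card_range]; omega) hmaps
      have main : ∀ i j : ℕ, i < j → j ≤ n → (σ ^ i) y = (σ ^ j) y → y ∈ T := by
        intro i j hij hj heq
        have h1 : (σ ^ j) y = (σ ^ i) ((σ ^ (j - i)) y) := by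
          rw [← Equiv.Perm.mul_apply, ← pow_add]; congr 2; omega
        rw [h1] at heq
        have h2 : (σ ^ (j - i)) y = y := ((σ ^ i).injective heq).symm
        obtain ⟨t, ht⟩ := Nat.dvd_factorial (show 0 < j - i by omega) (show j - i ≤ n by omega)
        rw [hT, Set.Finite.mem_toFinset, Set.mem_ofPred_eq, ht, pow_mul]
        exact perm_pow_fixed _ h2 t
      rw [Finset.mem_range] at hi hj
      rcases Nat.lt_or_gt_of_ne hij with hlt | hgt
      · exact main i j hlt (by omega) heq
      · exact main j i hgt (by omega) heq.symm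
    rw [Finsupp.le_def]
    intro y
    by_cases hy : y ∈ E.support
    · rw [Finsupp.indicator_apply, dif_pos (hsupp y hy)]
      exact hle y
    · rw [Finsupp.notMem_support_iff.mp hy]; exact Nat.zero_le _
  exact (Set.finite_Icc (0 : X →₀ ℕ) (Finsupp.indicator T (fun _ _ => n))).subset
    fun E hE => ⟨zero_le, key E hE.1 hE.2⟩


/-! ## Part D: classes, the group `Γ`, Riemann–Roch consequences -/

section Classes

open Classical in
/-- Class of a degree-zero divisor in `Pic0` (junk `0` otherwise). -/
def cl (D : Divisor K F) : Pic0 K F :=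
  if hD : Divisor.degree D = 0 then Pic0.mk ⟨D, hD⟩ else 0

theorem cl_of_degree {D : Divisor K F} (hD : Divisor.degree D = 0) :
    cl D = Pic0.mk ⟨D, hD⟩ := dif_pos hD

theorem cl_eq_cl_iff {D D' : Divisor K F} (hD : Divisor.degree D = 0)
    (hD' : Divisor.degree D' = 0) :
    cl D = cl D' ↔ D - D' ∈ Divisor.principal (K := K) (F := F) := by
  rw [cl_of_degree hD, cl_of_degree hD']
  unfold Pic0.mk
  rw [QuotientAddGroup.eq, AddSubgroup.mem_addSubgroupOf, ← neg_mem_iff]
  have : -(((-(⟨D, hD⟩ : Divisor.degZero (K := K) (F := F)) + ⟨D', hD'⟩ :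
      Divisor.degZero (K := K) (F := F)) : Divisor K F)) = D - D' := by
    simp only [AddSubgroup.coe_add, NegMemClass.coe_neg]
    abel
  rw [this]

theorem cl_zero : cl (0 : Divisor K F) = 0 := by
  rw [cl_of_degree (map_zero _)]
  rfl

theorem cl_add {D D' : Divisor K F} (hD : Divisor.degree D = 0)
    (hD' : Divisor.degree D' = 0) : cl (D + D') = cl D + cl D' := by
  rw [cl_of_degree hD, cl_of_degree hD',
    cl_of_degree (show Divisor.degree (D + D') = 0 by rw [map_add, hD, hD', add_zero])]
  rfl

theorem cl_neg {D : Divisor K F} (hD : Divisor.degree D = 0) : cl (-D) = -cl D := by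
  rw [cl_of_degree hD,
    cl_of_degree (show Divisor.degree (-D) = 0 by rw [map_neg, hD, neg_zero])]
  rfl

/-- `Γ(h)`: the classes of `h`-fixed divisors of degree zero. -/
def Gam (h : SemilinearAut K F) : AddSubgroup (Pic0 K F) where
  carrier := {c | ∃ D : Divisor K F, Divisor.degree D = 0 ∧ h • D = D ∧ cl D = c}
  zero_mem' := ⟨0, map_zero _, smul_zero _, cl_zero⟩
  add_mem' := by
    rintro _ _ ⟨D, hD, hDf, rfl⟩ ⟨D', hD', hDf', rfl⟩
    exact ⟨D + D', by rw [map_add, hD, hD', add_zero], by rw [smul_add, hDf, hDf'],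
      cl_add hD hD'⟩
  neg_mem' := by
    rintro _ ⟨D, hD, hDf, rfl⟩
    exact ⟨-D, by rw [map_neg, hD, neg_zero], by rw [smul_neg, hDf], cl_neg hD⟩

theorem mem_gam {h : SemilinearAut K F} {c : Pic0 K F} :
    c ∈ Gam h ↔ ∃ D : Divisor K F, Divisor.degree D = 0 ∧ h • D = D ∧ cl D = c := Iff.rfl

/-- `h`-fixed effective divisors of degree `n`. -/
abbrev FixedEff (h : SemilinearAut K F) (n : ℕ) : Type _ :=
  {D : Divisor K F // 0 ≤ D ∧ h • D = D ∧ Divisor.degree D = n}

/-- The number of `h`-invariant effective divisors of degree `n`, on `ℕ`-valued finitely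
supported functions on places (the carrier used by the zeta module). -/
def eCount (h : SemilinearAut K F) (n : ℕ) : ℕ :=
  Nat.card {E : Place K F →₀ ℕ // E.mapDomain (h • ·) = E ∧ (E.sum fun _ k => k) = n}

/-- Effective `ℕ`-divisors versus nonnegative `ℤ`-divisors. -/
def effEquiv (hdeg : ∀ w : Place K F, w.deg = 1) (h : SemilinearAut K F) (n : ℕ) :
    {E : Place K F →₀ ℕ // E.mapDomain (h • ·) = E ∧ (E.sum fun _ k => k) = n}
      ≃ FixedEff h n := by
  classical
  let toDiv : (Place K F →₀ ℕ) → Divisor K F :=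
    fun E => E.mapRange (Nat.cast : ℕ → ℤ) Nat.cast_zero
  have hinj : Function.Injective toDiv := Finsupp.mapRange_injective _ _ Nat.cast_injective
  have hdeg' : ∀ E, Divisor.degree (toDiv E) = ((E.sum fun _ k => k : ℕ) : ℤ) := by
    intro E
    rw [degree_eq_sum hdeg, Finsupp.sum_mapRange_index (fun _ => rfl)]
    simp [Finsupp.sum]
  have hsmul : ∀ E, h • toDiv E = toDiv (E.mapDomain (h • ·)) := fun E => by
    rw [SemilinearAut.divisor_smul_def]
    exact Finsupp.mapDomain_mapRange _ _ _ _ Nat.cast_add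
  have hnn : ∀ E, 0 ≤ toDiv E := fun E => by
    rw [Finsupp.le_def]
    intro w
    simp [toDiv]
  refine Equiv.ofBijective (fun E => ⟨toDiv E.1, hnn _, ?_, ?_⟩) ⟨?_, ?_⟩
  · rw [hsmul, E.2.1]
  · rw [hdeg', E.2.2]
  · intro E E' hEE
    exact Subtype.ext (hinj (congrArg Subtype.val hEE))
  · rintro ⟨D, hD0, hDf, hDn⟩
    have hD : toDiv (D.mapRange Int.toNat rfl) = D := by
      ext w
      simp only [toDiv, Finsupp.mapRange_apply]
      exact Int.toNat_of_nonneg (Finsupp.le_def.mp hD0 w)
    refine ⟨⟨D.mapRange Int.toNat rfl, ?_, ?_⟩, Subtype.ext hD⟩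
    · apply hinj
      rw [← hsmul, hD, hDf]
    · have := hdeg' (D.mapRange Int.toNat rfl)
      rw [hD, hDn] at this
      exact_mod_cast this.symm

theorem eCount_eq (hdeg : ∀ w : Place K F, w.deg = 1) (h : SemilinearAut K F) (n : ℕ) :
    eCount h n = Nat.card (FixedEff h n) :=
  Nat.card_congr (effEquiv hdeg h n)

theorem finite_fixedEff [HasPrincipalDivisors K F] (h : SemilinearAut K F) {Q : ℕ}
    (hQ2 : 2 ≤ Q) (hQ : ∀ a, SemilinearAut.baseAut h a = a ^ Q)
    (hdeg : ∀ w : Place K F, w.deg = 1) {x : F} (hx : h • x = x)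
    (hxc : x ∉ Set.range (algebraMap K F)) (n : ℕ) : Finite (FixedEff h n) := by
  have hfin := finite_invariant_finsupp (MulAction.toPerm h : Equiv.Perm (Place K F))
    (fun m hm => by
      have := finite_fixed_places_pow h hQ2 hQ hdeg hx hxc m hm
      have heq : (MulAction.toPerm h : Equiv.Perm (Place K F)) ^ m = MulAction.toPerm (h ^ m) := by
        rw [← MulAction.toPermHom_apply, ← map_pow, MulAction.toPermHom_apply]
      rw [heq]
      exact this) n
  have : Finite {E : Place K F →₀ ℕ // E.mapDomain (h • ·) = E ∧ (E.sum fun _ k => k) = n} :=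
    hfin.to_subtype
  exact Finite.of_equiv _ (effEquiv hdeg h n)

end Classes


/-! ### Riemann–Roch consequences -/

section RR

variable [HasPrincipalDivisors K F]

theorem degree_of_mem_principal {D : Divisor K F}
    (hD : D ∈ Divisor.principal (K := K) (F := F)) : Divisor.degree D = 0 := by
  obtain ⟨f, -, rfl⟩ := exists_divOf_of_mem_principal hD
  exact degree_divOf f

theorem riemannRochSpace_eq_bot_of_degree_neg (hdeg : ∀ w : Place K F, w.deg = 1)
    {D : Divisor K F} (hD : Divisor.degree D < 0) : riemannRochSpace D = ⊥ := by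
  rw [eq_bot_iff]
  intro f hf
  rw [Submodule.mem_bot]
  by_contra hf0
  have h1 := (mem_riemannRochSpace_iff_divOf hf0).mp hf
  have h2 := degree_nonneg hdeg h1
  rw [map_add, degree_divOf, zero_add] at h2
  omega

theorem mem_principal_of_mem_riemannRochSpace (hdeg : ∀ w : Place K F, w.deg = 1)
    {D : Divisor K F} (hD : Divisor.degree D = 0) {f : F} (hf : f ∈ riemannRochSpace D)
    (hf0 : f ≠ 0) : D ∈ Divisor.principal (K := K) (F := F) := by
  have h1 := (mem_riemannRochSpace_iff_divOf hf0).mp hf
  have h2 := eq_zero_of_nonneg_of_degree hdeg h1 (by rw [map_add, degree_divOf, hD, add_zero])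
  have : D = -divOf K f := by
    rw [eq_neg_iff_add_eq_zero, add_comm]; exact h2
  rw [this]
  exact neg_mem (divOf_mem_principal hf0)

theorem riemannRochSpace_eq_bot_of_not_principal (hdeg : ∀ w : Place K F, w.deg = 1)
    {D : Divisor K F} (hD : Divisor.degree D = 0)
    (hDp : D ∉ Divisor.principal (K := K) (F := F)) : riemannRochSpace D = ⊥ := by
  rw [eq_bot_iff]
  intro f hf
  rw [Submodule.mem_bot]
  by_contra hf0
  exact hDp (mem_principal_of_mem_riemannRochSpace hdeg hD hf hf0)

theorem finrank_eq_one_of_principal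
    (hL0 : ∀ f ∈ riemannRochSpace (0 : Divisor K F), f ∈ Set.range (algebraMap K F))
    {D : Divisor K F} (hD : D ∈ Divisor.principal (K := K) (F := F)) :
    Module.finrank K (riemannRochSpace D) = 1 := by
  obtain ⟨g, hg, rfl⟩ := exists_divOf_of_mem_principal hD
  have hgi : g⁻¹ ≠ 0 := inv_ne_zero hg
  have hmem : g⁻¹ ∈ riemannRochSpace (divOf K g) := by
    rw [mem_riemannRochSpace_iff_divOf hgi, ← divOf_mul hgi hg, inv_mul_cancel₀ hg, divOf_one]
  rw [finrank_eq_one_iff']
  refine ⟨⟨g⁻¹, hmem⟩, fun h0 => hgi (congrArg Subtype.val h0), ?_⟩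
  rintro ⟨f, hf⟩
  rcases eq_or_ne f 0 with rfl | hf0
  · exact ⟨0, by ext; simp⟩
  · have h1 := (mem_riemannRochSpace_iff_divOf hf0).mp hf
    rw [← divOf_mul hf0 hg] at h1
    have h2 : f * g ∈ riemannRochSpace (0 : Divisor K F) := by
      rw [mem_riemannRochSpace_iff_divOf (mul_ne_zero hf0 hg), add_zero]; exact h1
    obtain ⟨c, hc⟩ := hL0 _ h2
    refine ⟨c, ?_⟩
    ext
    simp only [Submodule.coe_smul, Algebra.smul_def, hc]
    field_simp

/-- The semilinear bijection `L(D) → L(h • D)`. -/
def smulEquiv (h : SemilinearAut K F) (D : Divisor K F) :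
    ↥(riemannRochSpace D) ≃+ ↥(riemannRochSpace (h • D)) where
  toFun f := ⟨h • (f : F), smul_mem_riemannRochSpace h f.2⟩
  invFun f := ⟨h⁻¹ • (f : F), by
    have := smul_mem_riemannRochSpace h⁻¹ f.2
    rwa [inv_smul_smul] at this⟩
  left_inv f := by ext; simp
  right_inv f := by ext; simp
  map_add' f g := by ext; simp [smul_add]

omit [HasPrincipalDivisors K F] in
theorem finrank_smul (h : SemilinearAut K F) (D : Divisor K F) :
    Module.finrank K (riemannRochSpace (h • D)) = Module.finrank K (riemannRochSpace D) := by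
  have := rank_eq_of_equiv_equiv (SemilinearAut.baseAut h) (smulEquiv h D)
    (SemilinearAut.baseAut h).bijective (fun a f => by
      ext
      show h • ((a • f : ↥(riemannRochSpace D)) : F)
        = ((SemilinearAut.baseAut h a • (smulEquiv h D f) : ↥(riemannRochSpace (h • D))) : F)
      rw [Submodule.coe_smul, Submodule.coe_smul, Algebra.smul_def, Algebra.smul_def, smul_mul',
        SemilinearAut.smul_algebraMap]
      rfl)
  exact (congrArg Cardinal.toNat this).symm

/-- Riemann–Roch with duality and `L(0) = K` for a curve all of whose places have degree one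
(the output of `Stmt_RRD` of the char-`p` core), as a hypothesis bundle. -/
structure CurveRR (K : Type u) (F : Type v) [Field K] [Field F] [Algebra K F] (γ : ℕ)
    (W : Divisor K F) : Prop where
  deg_one : ∀ w : Place K F, w.deg = 1
  const : ∀ f ∈ riemannRochSpace (0 : Divisor K F), f ∈ Set.range (algebraMap K F)
  finite : ∀ D : Divisor K F, Module.Finite K (riemannRochSpace D)
  degree_W : Divisor.degree W = 2 * (γ : ℤ) - 2
  rr : ∀ D : Divisor K F, (Module.finrank K (riemannRochSpace D) : ℤ)
      = Divisor.degree D + 1 - γ + Module.finrank K (riemannRochSpace (W - D))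

namespace CurveRR

variable {γ : ℕ} {W : Divisor K F} (H : CurveRR K F γ W)
include H

theorem finrank_of_big {D : Divisor K F} (hD : 2 * (γ : ℤ) - 2 < Divisor.degree D) :
    (Module.finrank K (riemannRochSpace D) : ℤ) = Divisor.degree D + 1 - γ := by
  have h1 : riemannRochSpace (W - D) = ⊥ :=
    riemannRochSpace_eq_bot_of_degree_neg H.deg_one (by rw [map_sub, H.degree_W]; omega)
  rw [H.rr D, h1]
  simp

omit [HasPrincipalDivisors K F] in
theorem finrank_ge (D : Divisor K F) :
    Divisor.degree D + 1 - γ ≤ (Module.finrank K (riemannRochSpace D) : ℤ) := by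
  rw [H.rr D]
  have : (0 : ℤ) ≤ Module.finrank K (riemannRochSpace (W - D)) := Int.natCast_nonneg _
  omega

theorem finrank_top_principal {D : Divisor K F} (hD : Divisor.degree D = 2 * (γ : ℤ) - 2)
    (hp : W - D ∈ Divisor.principal (K := K) (F := F)) :
    (Module.finrank K (riemannRochSpace D) : ℤ) = γ := by
  rw [H.rr D, finrank_eq_one_of_principal H.const hp, hD]
  push_cast; ring

theorem finrank_top_not_principal {D : Divisor K F} (hD : Divisor.degree D = 2 * (γ : ℤ) - 2)
    (hp : W - D ∉ Divisor.principal (K := K) (F := F)) :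
    (Module.finrank K (riemannRochSpace D) : ℤ) = γ - 1 := by
  rw [H.rr D, riemannRochSpace_eq_bot_of_not_principal H.deg_one
    (by rw [map_sub, H.degree_W, hD, sub_self]) hp, hD]
  simp only [finrank_bot, Nat.cast_zero, add_zero]
  ring

theorem finrank_W : (Module.finrank K (riemannRochSpace W) : ℤ) = γ :=
  H.finrank_top_principal H.degree_W (by rw [sub_self]; exact zero_mem _)

/-- The canonical class is stable under every semilinear automorphism. -/
theorem smul_W_sub_mem_principal (h : SemilinearAut K F) :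
    h • W - W ∈ Divisor.principal (K := K) (F := F) := by
  have hdeg : Divisor.degree (h • W) = 2 * (γ : ℤ) - 2 := by
    rw [SemilinearAut.degree_smul, H.degree_W]
  by_contra hp
  have hp' : W - h • W ∉ Divisor.principal (K := K) (F := F) := by
    intro h1
    apply hp
    have := neg_mem h1
    rwa [neg_sub] at this
  have h1 := H.finrank_top_not_principal hdeg hp'
  rw [finrank_smul, H.finrank_W] at h1
  omega

end CurveRR

end RR


/-! ## Part E: the class-sum assembly (FIN), (BIG), (TOP) -/

section Main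

variable [HasPrincipalDivisors K F] [IsAlgClosed K]

/-- Hypotheses on the Frobenius `h` (acting by `a ↦ a ^ Q` on constants). -/
structure FrobHyp (h : SemilinearAut K F) (Q : ℕ) : Prop where
  two_le : 2 ≤ Q
  base : ∀ a, SemilinearAut.baseAut h a = a ^ Q
  sl : SLHyp.{u, v} K Q
  fixedFun : ∃ x : F, h • x = x ∧ x ∉ Set.range (algebraMap K F)
  fixedPlace : ∃ P0 : Place K F, h • P0 = P0

omit [HasPrincipalDivisors K F] [IsAlgClosed K] in
theorem degree_single_nat (hdeg : ∀ w : Place K F, w.deg = 1) (P0 : Place K F) (n : ℕ) :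
    Divisor.degree (Finsupp.single P0 (n : ℤ) : Divisor K F) = n := by
  rw [Divisor.degree_single, hdeg]; simp

/-- The fibre of the class map over the class of a fixed degree-zero divisor `D'`. -/
theorem card_fiber_mul {γ : ℕ} {W : Divisor K F} (H : CurveRR K F γ W)
    {h : SemilinearAut K F} {Q : ℕ} (hF : FrobHyp h Q) {P0 : Place K F} (hP0 : h • P0 = P0)
    (n : ℕ) {D' : Divisor K F} (hD' : Divisor.degree D' = 0) (hD'f : h • D' = D') :
    Nat.card {D : Divisor K F // 0 ≤ D ∧ h • D = D ∧ Divisor.degree D = n ∧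
        cl (D - Finsupp.single P0 (n : ℤ)) = cl D'} * (Q - 1) + 1
      = Q ^ Module.finrank K (riemannRochSpace (D' + Finsupp.single P0 (n : ℤ))) := by
  have hD0 : h • (D' + Finsupp.single P0 (n : ℤ)) = D' + Finsupp.single P0 (n : ℤ) := by
    rw [smul_add, hD'f, SemilinearAut.smul_single, hP0]
  have := H.finite (D' + Finsupp.single P0 (n : ℤ))
  rw [← card_fixedIn h hF.two_le hF.base hF.sl H.const hD0]
  congr 2
  refine Nat.card_congr (Equiv.subtypeEquivRight fun D => ?_)
  have hdegS := degree_single_nat H.deg_one P0 n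
  have he : D - (D' + Finsupp.single P0 (n : ℤ)) = D - Finsupp.single P0 (n : ℤ) - D' := by
    abel
  constructor
  · rintro ⟨h0, hf, hn, hc⟩
    refine ⟨h0, hf, ?_⟩
    have hd0 : Divisor.degree (D - Finsupp.single P0 (n : ℤ)) = 0 := by
      rw [map_sub, hn, hdegS, sub_self]
    rw [he]
    exact (cl_eq_cl_iff hd0 hD').mp hc
  · rintro ⟨h0, hf, hp⟩
    have hn : Divisor.degree D = n := by
      have := degree_of_mem_principal hp
      rw [map_sub, map_add, hD', hdegS, zero_add] at this
      linarith
    have hd0 : Divisor.degree (D - Finsupp.single P0 (n : ℤ)) = 0 := by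
      rw [map_sub, hn, hdegS, sub_self]
    refine ⟨h0, hf, hn, ?_⟩
    rw [cl_eq_cl_iff hd0 hD', ← he]
    exact hp

omit [IsAlgClosed K] in
/-- **(FIN)** `Γ(h)` is finite. -/
theorem finite_gam {γ : ℕ} {W : Divisor K F} (H : CurveRR K F γ W)
    {h : SemilinearAut K F} {Q : ℕ} (hF : FrobHyp h Q) : Finite (Gam h) := by
  obtain ⟨x, hx, hxc⟩ := hF.fixedFun
  obtain ⟨P0, hP0⟩ := hF.fixedPlace
  have hfinE : Finite (FixedEff h γ) :=
    finite_fixedEff h hF.two_le hF.base H.deg_one hx hxc γ
  have hdegS := degree_single_nat H.deg_one P0 γ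
  let f : FixedEff h γ → Gam h := fun D =>
    ⟨cl (D.1 - Finsupp.single P0 (γ : ℤ)), D.1 - Finsupp.single P0 (γ : ℤ),
      by rw [map_sub, D.2.2.2, hdegS, sub_self],
      by rw [smul_sub, D.2.2.1, SemilinearAut.smul_single, hP0], rfl⟩
  refine Finite.of_surjective f ?_
  rintro ⟨c, D', hD', hD'f, rfl⟩
  have hD0f : h • (D' + Finsupp.single P0 (γ : ℤ)) = D' + Finsupp.single P0 (γ : ℤ) := by
    rw [smul_add, hD'f, SemilinearAut.smul_single, hP0]
  have := H.finite (D' + Finsupp.single P0 (γ : ℤ))
  have hl : 1 ≤ Module.finrank K (riemannRochSpace (D' + Finsupp.single P0 (γ : ℤ))) := by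
    have := H.finrank_ge (D' + Finsupp.single P0 (γ : ℤ))
    rw [map_add, hD', hdegS] at this
    omega
  obtain ⟨D1, hD1nn, hD1f, hD1p⟩ := exists_fixed_effective h hF.two_le hF.base hF.sl
    (D := D' + Finsupp.single P0 (γ : ℤ)) (by rw [hD0f, sub_self]; exact zero_mem _) hl
  have hD1deg : Divisor.degree D1 = γ := by
    have := degree_of_mem_principal hD1p
    rw [map_sub, map_add, hD', hdegS] at this
    linarith
  refine ⟨⟨D1, hD1nn, hD1f, hD1deg⟩, Subtype.ext ?_⟩
  show cl (D1 - Finsupp.single P0 (γ : ℤ)) = cl D'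
  rw [cl_eq_cl_iff (by rw [map_sub, hD1deg, hdegS, sub_self]) hD']
  have he : D1 - Finsupp.single P0 (γ : ℤ) - D' = D1 - (D' + Finsupp.single P0 (γ : ℤ)) := by
    abel
  rw [he]
  exact hD1p

omit [IsAlgClosed K] in
/-- Fixed effective divisors of degree `n`, sorted by their class in `Γ(h)`. -/
theorem card_fixedEff_eq_sum {γ : ℕ} {W : Divisor K F} (H : CurveRR K F γ W)
    {h : SemilinearAut K F} {Q : ℕ} (hF : FrobHyp h Q) {P0 : Place K F} (hP0 : h • P0 = P0)
    (n : ℕ) [Fintype (Gam h)] :
    Nat.card (FixedEff h n) = ∑ c : Gam h, Nat.card {D : Divisor K F // 0 ≤ D ∧ h • D = D ∧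
      Divisor.degree D = n ∧ cl (D - Finsupp.single P0 (n : ℤ)) = (c : Pic0 K F)} := by
  obtain ⟨x, hx, hxc⟩ := hF.fixedFun
  have hfinE : Finite (FixedEff h n) :=
    finite_fixedEff h hF.two_le hF.base H.deg_one hx hxc n
  have hdegS := degree_single_nat H.deg_one P0 n
  let e : FixedEff h n ≃ Σ c : Gam h, {D : Divisor K F // 0 ≤ D ∧ h • D = D ∧
      Divisor.degree D = n ∧ cl (D - Finsupp.single P0 (n : ℤ)) = (c : Pic0 K F)} :=
    { toFun := fun D => ⟨⟨cl (D.1 - Finsupp.single P0 (n : ℤ)),
          D.1 - Finsupp.single P0 (n : ℤ),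
          by rw [map_sub, D.2.2.2, hdegS, sub_self],
          by rw [smul_sub, D.2.2.1, SemilinearAut.smul_single, hP0], rfl⟩,
        ⟨D.1, D.2.1, D.2.2.1, D.2.2.2, rfl⟩⟩
      invFun := fun p => ⟨p.2.1, p.2.2.1, p.2.2.2.1, p.2.2.2.2.1⟩
      left_inv := fun D => rfl
      right_inv := by
        rintro ⟨c, ⟨D, h1, h2, h3, h4⟩⟩
        have hc : c = ⟨cl (D - Finsupp.single P0 (n : ℤ)), D - Finsupp.single P0 (n : ℤ),
            by rw [map_sub, h3, hdegS, sub_self],
            by rw [smul_sub, h2, SemilinearAut.smul_single, hP0], rfl⟩ :=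
          Subtype.ext h4.symm
        subst hc
        rfl }
  have : ∀ c : Gam h, Finite {D : Divisor K F // 0 ≤ D ∧ h • D = D ∧
      Divisor.degree D = n ∧ cl (D - Finsupp.single P0 (n : ℤ)) = (c : Pic0 K F)} := fun c =>
    Finite.of_injective (fun D => (⟨D.1, D.2.1, D.2.2.1, D.2.2.2.1⟩ : FixedEff h n))
      (fun a b hab => Subtype.ext (by
        have := congrArg (fun z : FixedEff h n => (z : Divisor K F)) hab
        exact this))
  rw [Nat.card_congr e, Nat.card_sigma]

/-- **(BIG)** the number of fixed effective divisors of large degree. -/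
theorem count_big {γ : ℕ} {W : Divisor K F} (H : CurveRR K F γ W)
    {h : SemilinearAut K F} {Q : ℕ} (hF : FrobHyp h Q) (n : ℕ) (hn : 2 * γ ≤ n + 1) :
    (Q - 1) * eCount h n + Nat.card (Gam h) = Nat.card (Gam h) * Q ^ (n + 1 - γ) := by
  classical
  obtain ⟨P0, hP0⟩ := hF.fixedPlace
  have := finite_gam H hF
  have := Fintype.ofFinite (Gam h)
  have hdegS := degree_single_nat H.deg_one P0 n
  have hfib : ∀ c : Gam h, (Q - 1) * Nat.card {D : Divisor K F // 0 ≤ D ∧ h • D = D ∧
      Divisor.degree D = n ∧ cl (D - Finsupp.single P0 (n : ℤ)) = (c : Pic0 K F)} + 1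
        = Q ^ (n + 1 - γ) := by
    intro c
    obtain ⟨D', hD', hD'f, hc⟩ := c.2
    have key := card_fiber_mul H hF hP0 n hD' hD'f
    rw [hc] at key
    have hl : Module.finrank K (riemannRochSpace (D' + Finsupp.single P0 (n : ℤ)))
        = n + 1 - γ := by
      have := H.finrank_of_big (D := D' + Finsupp.single P0 (n : ℤ))
        (by rw [map_add, hD', hdegS]; omega)
      rw [map_add, hD', hdegS] at this
      omega
    rw [hl] at key
    rw [mul_comm]
    exact key
  calc (Q - 1) * eCount h n + Nat.card (Gam h)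
      = ∑ c : Gam h, ((Q - 1) * Nat.card {D : Divisor K F // 0 ≤ D ∧ h • D = D ∧
          Divisor.degree D = n ∧ cl (D - Finsupp.single P0 (n : ℤ)) = (c : Pic0 K F)} + 1) := by
        rw [eCount_eq H.deg_one, card_fixedEff_eq_sum H hF hP0 n, Finset.sum_add_distrib,
          Finset.mul_sum, Finset.sum_const, Finset.card_univ, smul_eq_mul, mul_one,
          Nat.card_eq_fintype_card]
    _ = ∑ _c : Gam h, Q ^ (n + 1 - γ) := Finset.sum_congr rfl fun c _ => hfib c
    _ = Nat.card (Gam h) * Q ^ (n + 1 - γ) := by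
        rw [Finset.sum_const, Finset.card_univ, smul_eq_mul, Nat.card_eq_fintype_card]

/-- **(TOP)** the number of fixed effective divisors of degree `2γ - 2`. -/
theorem count_top {γ : ℕ} {W : Divisor K F} (H : CurveRR K F γ W)
    {h : SemilinearAut K F} {Q : ℕ} (hF : FrobHyp h Q) (hγ : 1 ≤ γ) :
    (Q - 1) * eCount h (2 * γ - 2) + Nat.card (Gam h)
      = Q ^ (γ - 1) * (Q - 1 + Nat.card (Gam h)) := by
  classical
  obtain ⟨P0, hP0⟩ := hF.fixedPlace
  have := finite_gam H hF
  have := Fintype.ofFinite (Gam h)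
  have hQ2 := hF.two_le
  set n := 2 * γ - 2 with hn
  have hncast : (n : ℤ) = 2 * (γ : ℤ) - 2 := by omega
  have hdegS := degree_single_nat H.deg_one P0 n
  -- the canonical class contains a fixed effective divisor
  have := H.finite W
  have hlW : 1 ≤ Module.finrank K (riemannRochSpace W) := by
    have := H.finrank_W
    omega
  obtain ⟨D1, hD1nn, hD1f, hD1p⟩ := exists_fixed_effective h hF.two_le hF.base hF.sl
    (D := W) (H.smul_W_sub_mem_principal h) hlW
  have hD1deg : Divisor.degree D1 = n := by
    have := degree_of_mem_principal hD1p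
    rw [map_sub, H.degree_W] at this
    linarith
  have hD1d0 : Divisor.degree (D1 - Finsupp.single P0 (n : ℤ)) = 0 := by
    rw [map_sub, hD1deg, hdegS, sub_self]
  let cW : Gam h := ⟨cl (D1 - Finsupp.single P0 (n : ℤ)), D1 - Finsupp.single P0 (n : ℤ),
    hD1d0, by rw [smul_sub, hD1f, SemilinearAut.smul_single, hP0], rfl⟩
  have hfib : ∀ c : Gam h, (Q - 1) * Nat.card {D : Divisor K F // 0 ≤ D ∧ h • D = D ∧
      Divisor.degree D = n ∧ cl (D - Finsupp.single P0 (n : ℤ)) = (c : Pic0 K F)} + 1
        = Q ^ (γ - 1) * (1 + if c = cW then (Q - 1) else 0) := by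
    intro c
    obtain ⟨D', hD', hD'f, hc⟩ := c.2
    have key := card_fiber_mul H hF hP0 n hD' hD'f
    rw [hc] at key
    have hD0deg : Divisor.degree (D' + Finsupp.single P0 (n : ℤ)) = 2 * (γ : ℤ) - 2 := by
      rw [map_add, hD', hdegS, zero_add, hncast]
    have hiff : W - (D' + Finsupp.single P0 (n : ℤ)) ∈ Divisor.principal (K := K) (F := F)
        ↔ c = cW := by
      have h1 : (c = cW) ↔ cl D' = cl (D1 - Finsupp.single P0 (n : ℤ)) := by
        rw [hc]
        exact ⟨fun h => congrArg Subtype.val h, fun h => Subtype.ext h⟩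
      rw [h1, cl_eq_cl_iff hD' hD1d0]
      have hW1 : W - D1 ∈ Divisor.principal (K := K) (F := F) := by
        have := neg_mem hD1p
        rwa [neg_sub] at this
      have he2 : D' - (D1 - Finsupp.single P0 (n : ℤ))
          = -(W - (D' + Finsupp.single P0 (n : ℤ))) + (W - D1) := by abel
      rw [he2]
      constructor
      · intro hp
        exact add_mem (neg_mem hp) hW1
      · intro hp
        have := sub_mem hp hW1
        rw [add_sub_cancel_right] at this
        have := neg_mem this
        rwa [neg_neg] at this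
    by_cases hcW : c = cW
    · have hl := H.finrank_top_principal hD0deg (hiff.mpr hcW)
      have hl' : Module.finrank K (riemannRochSpace (D' + Finsupp.single P0 (n : ℤ))) = γ := by
        exact_mod_cast hl
      rw [hl'] at key
      rw [if_pos hcW, mul_comm, key]
      have h1 : 1 + (Q - 1) = Q := by omega
      rw [h1, ← pow_succ]
      congr 1
      omega
    · have hl := H.finrank_top_not_principal hD0deg (fun hp => hcW (hiff.mp hp))
      have hl' : Module.finrank K (riemannRochSpace (D' + Finsupp.single P0 (n : ℤ)))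
          = γ - 1 := by
        omega
      rw [hl'] at key
      rw [if_neg hcW, add_zero, mul_one, mul_comm]
      exact key
  calc (Q - 1) * eCount h n + Nat.card (Gam h)
      = ∑ c : Gam h, ((Q - 1) * Nat.card {D : Divisor K F // 0 ≤ D ∧ h • D = D ∧
          Divisor.degree D = n ∧ cl (D - Finsupp.single P0 (n : ℤ)) = (c : Pic0 K F)} + 1) := by
        rw [eCount_eq H.deg_one, card_fixedEff_eq_sum H hF hP0 n, Finset.sum_add_distrib,
          Finset.mul_sum, Finset.sum_const, Finset.card_univ, smul_eq_mul, mul_one,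
          Nat.card_eq_fintype_card]
    _ = ∑ c : Gam h, Q ^ (γ - 1) * (1 + if c = cW then (Q - 1) else 0) :=
        Finset.sum_congr rfl fun c _ => hfib c
    _ = Q ^ (γ - 1) * (Q - 1 + Nat.card (Gam h)) := by
        rw [← Finset.mul_sum, Finset.sum_add_distrib, Finset.sum_const, Finset.card_univ,
          smul_eq_mul, mul_one, Finset.sum_ite_eq' Finset.univ cW, if_pos (Finset.mem_univ _),
          Nat.card_eq_fintype_card, add_comm]

end Main

end

end Fermat.Agent.S27.helper1121
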