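import Mathlib

/-!
# Semilinear Lang lemma (S27, algebraic track, char-`p` core)

`k` algebraically closed of characteristic `p`, `q = p ^ f` with `f ≠ 0`, `V` a finite-dimensional
`k`-vector space, `ψ : V →+ V` injective with `ψ (a • v) = a ^ q • ψ v`.  Then

* `exists_fixed_ne_zero` : a nonzero fixed vector exists when `V` is nontrivial;
* `span_fixed_eq_top` : the fixed vectors span `V` over `k`;
* `exists_basis_fixed` : `V` has a `k`-basis of fixed vectors;
* `card_fixed` : `Nat.card {v // ψ v = v} = q ^ finrank k V`.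
-/

namespace Fermat.Agent.S27.helper6882

open Polynomial

section Poly

variable {k : Type*} [Field k]

/-- Coefficients of a fixed vector in an orbit basis, as functions of the last one. -/
def xs (q : ℕ) (c : ℕ → k) (z : k) : ℕ → k
  | 0 => c 0 * z ^ q
  | i + 1 => (xs q c z i) ^ q + c (i + 1) * z ^ q

/-- Polynomial version of `xs`. -/
noncomputable def xsPoly (q : ℕ) (c : ℕ → k) : ℕ → k[X]
  | 0 => C (c 0) * X ^ q
  | i + 1 => (xsPoly q c i) ^ q + C (c (i + 1)) * X ^ q

lemma eval_xsPoly (q : ℕ) (c : ℕ → k) (z : k) (i : ℕ) :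
    (xsPoly q c i).eval z = xs q c z i := by
  induction i with
  | zero => simp [xsPoly, xs]
  | succ i ih => simp [xsPoly, xs, ih]

lemma X_pow_dvd_xsPoly (q : ℕ) (hq : 0 < q) (c : ℕ → k) (i : ℕ) :
    (X : k[X]) ^ q ∣ xsPoly q c i := by
  induction i with
  | zero => exact Dvd.intro_left _ rfl
  | succ i ih =>
    refine dvd_add ?_ (Dvd.intro_left _ rfl)
    exact ih.trans (dvd_pow_self _ hq.ne')

lemma xsPoly_eq_zero (q : ℕ) (hq : 0 < q) (c : ℕ → k) (i : ℕ) (h : ∀ j ≤ i, c j = 0) :
    xsPoly q c i = 0 := by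
  induction i with
  | zero => simp [xsPoly, h 0 le_rfl]
  | succ i ih =>
    simp [xsPoly, h (i + 1) le_rfl, ih (fun j hj => h j (Nat.le_succ_of_le hj)), hq.ne']

lemma xsPoly_ne_zero (q : ℕ) (hq : 2 ≤ q) (c : ℕ → k) (i : ℕ) (h : ∃ j ≤ i, c j ≠ 0) :
    xsPoly q c i ≠ 0 ∧ q ≤ (xsPoly q c i).natDegree := by
  induction i with
  | zero =>
    obtain ⟨j, hj, hc⟩ := h
    obtain rfl : j = 0 := Nat.le_zero.mp hj
    have h0 : xsPoly q c 0 = C (c 0) * X ^ q := rfl
    rw [h0]
    refine ⟨by simp [hc], ?_⟩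
    rw [natDegree_C_mul_X_pow _ _ hc]
  | succ i ih =>
    by_cases h' : ∃ j ≤ i, c j ≠ 0
    · obtain ⟨h0, hdeg⟩ := ih h'
      have hd1 : ((xsPoly q c i) ^ q).natDegree = q * (xsPoly q c i).natDegree :=
        natDegree_pow _ _
      have hd2 : (C (c (i + 1)) * X ^ q : k[X]).natDegree ≤ q := natDegree_C_mul_X_pow_le _ _
      have hlt : (C (c (i + 1)) * X ^ q : k[X]).natDegree < ((xsPoly q c i) ^ q).natDegree := by
        rw [hd1]; nlinarith
      have hd : (xsPoly q c (i + 1)).natDegree = q * (xsPoly q c i).natDegree := by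
        show ((xsPoly q c i) ^ q + C (c (i + 1)) * X ^ q).natDegree = _
        rw [natDegree_add_eq_left_of_natDegree_lt hlt, hd1]
      refine ⟨?_, ?_⟩
      · intro h0'
        rw [h0', natDegree_zero] at hd
        nlinarith
      · rw [hd]; nlinarith
    · push Not at h'
      obtain ⟨j, hj, hc⟩ := h
      have hj' : j = i + 1 := by
        by_contra hne
        exact hc (h' j (by omega))
      subst hj'
      have h1 : xsPoly q c (i + 1) = C (c (i + 1)) * X ^ q := by
        show (xsPoly q c i) ^ q + C (c (i + 1)) * X ^ q = _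
        rw [xsPoly_eq_zero q (by omega) c i h', zero_pow (by omega), zero_add]
      rw [h1]
      refine ⟨by simp [hc], ?_⟩
      rw [natDegree_C_mul_X_pow _ _ hc]

/-- The closing equation `x_n(z) = z` has a nonzero solution. -/
theorem exists_ne_zero_xs_eq [IsAlgClosed k] (q : ℕ) (hq : 2 ≤ q) (c : ℕ → k) (n : ℕ)
    (h : ∃ j ≤ n, c j ≠ 0) : ∃ z : k, z ≠ 0 ∧ xs q c z n = z := by
  obtain ⟨h0, -⟩ := xsPoly_ne_zero q hq c n h
  obtain ⟨G, hG⟩ := X_pow_dvd_xsPoly q (by omega) c n
  have hG0 : G ≠ 0 := by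
    rintro rfl
    exact h0 (by rw [hG, mul_zero])
  have hA0 : (X ^ (q - 1) * G : k[X]) ≠ 0 := mul_ne_zero (pow_ne_zero _ X_ne_zero) hG0
  have hA : (X ^ (q - 1) * G : k[X]).natDegree = G.natDegree + (q - 1) := by
    rw [natDegree_X_pow_mul _ hG0]
  have h1 : (1 : k[X]).degree < (X ^ (q - 1) * G : k[X]).degree := by
    rw [degree_one, degree_eq_natDegree hA0, hA]
    exact_mod_cast (by omega : 0 < G.natDegree + (q - 1))
  have hRdeg : (X ^ (q - 1) * G - 1 : k[X]).degree ≠ 0 := by
    rw [degree_sub_eq_left_of_degree_lt h1, degree_eq_natDegree hA0, hA]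
    exact_mod_cast (by omega : G.natDegree + (q - 1) ≠ 0)
  obtain ⟨z, hz⟩ := IsAlgClosed.exists_root _ hRdeg
  have hz' : z ^ (q - 1) * G.eval z = 1 := by
    have := hz
    simp only [IsRoot, eval_sub, eval_mul, eval_pow, eval_X, eval_one] at this
    exact sub_eq_zero.mp this
  have hz0 : z ≠ 0 := by
    rintro rfl
    rw [zero_pow (by omega), zero_mul] at hz'
    exact zero_ne_one hz'
  refine ⟨z, hz0, ?_⟩
  rw [← eval_xsPoly, hG, eval_mul, eval_pow, eval_X]
  have hq' : q = (q - 1) + 1 := by omega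
  calc z ^ q * G.eval z = z ^ ((q - 1) + 1) * G.eval z := by rw [← hq']
    _ = z * (z ^ (q - 1) * G.eval z) := by ring
    _ = z := by rw [hz', mul_one]

end Poly

section Vec

variable {k : Type*} [Field k] {V : Type*} [AddCommGroup V] [Module k V]

/-- In an orbit `e (i+1) = ψ (e i)` with relation `e (n+1) = ∑ i ≤ n, c i • e i`, a solution of the
closing equation gives a fixed vector. -/
theorem fixed_of_orbit (q : ℕ) (ψ : V →+ V) (hsl : ∀ (a : k) (v : V), ψ (a • v) = a ^ q • ψ v)
    (e : ℕ → V) (he : ∀ i, ψ (e i) = e (i + 1)) (c : ℕ → k) (n : ℕ)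
    (hrel : e (n + 1) = ∑ i ∈ Finset.range (n + 1), c i • e i) (z : k) (hz : xs q c z n = z) :
    ψ (∑ i ∈ Finset.range (n + 1), xs q c z i • e i)
      = ∑ i ∈ Finset.range (n + 1), xs q c z i • e i := by
  have hx : ∀ i, xs q c z i ^ q = xs q c z (i + 1) - c (i + 1) * z ^ q := fun i => by simp [xs]
  have h0 : xs q c z 0 = c 0 * z ^ q := rfl
  rw [map_sum]
  simp only [hsl, he]
  rw [Finset.sum_range_succ, hz, hrel, Finset.sum_range_succ' (fun i => c i • e i),
    Finset.sum_range_succ' (fun i => xs q c z i • e i), h0]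
  simp only [hx, sub_smul, Finset.sum_sub_distrib, smul_add, Finset.smul_sum, smul_smul,
    mul_comm (z ^ q)]
  abel

/-- **Semilinear Lang lemma, existence**: an injective `q`-semilinear endomorphism of a nonzero
finite-dimensional vector space over an algebraically closed field has a nonzero fixed vector. -/
theorem exists_fixed_ne_zero [IsAlgClosed k] [FiniteDimensional k V] [Nontrivial V] (q : ℕ)
    (hq : 2 ≤ q) (ψ : V →+ V) (hsl : ∀ (a : k) (v : V), ψ (a • v) = a ^ q • ψ v)
    (hinj : Function.Injective ψ) : ∃ v : V, v ≠ 0 ∧ ψ v = v := by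
  classical
  obtain ⟨v, hv⟩ := exists_ne (0 : V)
  let e : ℕ → V := fun i => ψ^[i] v
  have he : ∀ i, ψ (e i) = e (i + 1) := fun i => (Function.iterate_succ_apply' ψ i v).symm
  have hene : ∀ i, e i ≠ 0 := by
    intro i
    induction i with
    | zero => exact hv
    | succ i ih =>
      rw [← he]
      exact fun h => ih (hinj (h.trans (map_zero ψ).symm))
  have hex : ∃ j, ¬ LinearIndependent k (fun i : Fin (j + 1) => e i) := by
    refine ⟨Module.finrank k V, fun h => ?_⟩
    have := h.fintype_card_le_finrank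
    simp at this
  have hm : ¬ LinearIndependent k (fun i : Fin (Nat.find hex + 1) => e i) := Nat.find_spec hex
  have hm0 : Nat.find hex ≠ 0 := by
    intro h0
    apply hm
    rw [h0]
    have h1 : LinearIndependent k (fun i : Fin 1 => e i) :=
      LinearIndependent.of_subsingleton (0 : Fin 1) (hene _)
    exact h1
  obtain ⟨n, hn⟩ := Nat.exists_eq_succ_of_ne_zero hm0
  have hli : LinearIndependent k (fun i : Fin (n + 1) => e i) := by
    have := Nat.find_min hex (m := n) (by omega)
    exact not_not.mp this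
  have hmem : e (n + 1) ∈ Submodule.span k (Set.range (fun i : Fin (n + 1) => e i)) := by
    by_contra hnot
    apply hm
    rw [hn, linearIndependent_finSucc']
    exact ⟨hli, hnot⟩
  obtain ⟨c', hc'⟩ := (Submodule.mem_span_range_iff_exists_fun k).1 hmem
  let c : ℕ → k := fun i => if h : i < n + 1 then c' ⟨i, h⟩ else 0
  have hrel : e (n + 1) = ∑ i ∈ Finset.range (n + 1), c i • e i := by
    rw [← hc', ← Fin.sum_univ_eq_sum_range (fun i => c i • e i) (n + 1)]
    refine Finset.sum_congr rfl (fun i _ => ?_)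
    have hci : c (i : ℕ) = c' i := dif_pos i.2
    rw [hci]
  have hcne : ∃ j ≤ n, c j ≠ 0 := by
    by_contra hall
    push Not at hall
    apply hene (n + 1)
    rw [hrel]
    refine Finset.sum_eq_zero (fun i hi => ?_)
    rw [hall i (by simpa [Nat.lt_succ_iff] using hi), zero_smul]
  obtain ⟨z, hz0, hz⟩ := exists_ne_zero_xs_eq q hq c n hcne
  refine ⟨∑ i ∈ Finset.range (n + 1), xs q c z i • e i, ?_,
    fixed_of_orbit q ψ hsl e he c n hrel z hz⟩
  intro h0
  rw [← Fin.sum_univ_eq_sum_range (fun i => xs q c z i • e i) (n + 1)] at h0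
  have h1 := (Fintype.linearIndependent_iff.1 hli) (fun i : Fin (n + 1) => xs q c z i) h0
    (Fin.last n)
  simp only [Fin.val_last] at h1
  exact hz0 (hz ▸ h1)

end Vec

section Main

variable {k : Type*} [Field k] {V : Type*} [AddCommGroup V] [Module k V]

/-- Package an additive map with `ψ (a • v) = a ^ p ^ f • ψ v` as a semilinear map over the
iterated Frobenius. -/
def toSemilinear (p f : ℕ) [ExpChar k p] (ψ : V →+ V)
    (hsl : ∀ (a : k) (v : V), ψ (a • v) = a ^ p ^ f • ψ v) :
    V →ₛₗ[iterateFrobenius k p f] V where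
  toFun := ψ
  map_add' := map_add ψ
  map_smul' a v := by rw [hsl, iterateFrobenius_def]

variable [IsAlgClosed k]

/-- **Semilinear Lang lemma, spanning form**: the fixed vectors of an injective `p^f`-semilinear
endomorphism span the space. -/
theorem span_fixed_eq_top (p f : ℕ) [Fact p.Prime] [CharP k p] (hf : f ≠ 0)
    [FiniteDimensional k V] (ψ : V →+ V)
    (hsl : ∀ (a : k) (v : V), ψ (a • v) = a ^ p ^ f • ψ v) (hinj : Function.Injective ψ) :
    Submodule.span k {v : V | ψ v = v} = ⊤ := by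
  have hp : 2 ≤ p := (Fact.out : p.Prime).two_le
  have hq : 2 ≤ p ^ f := le_trans hp (Nat.le_self_pow hf p)
  set W := Submodule.span k {v : V | ψ v = v} with hW
  by_contra hne
  have : Nontrivial (V ⧸ W) := Submodule.Quotient.nontrivial_iff.2 hne
  have hstab : ∀ w ∈ W, ψ w ∈ W := by
    intro w hw
    induction hw using Submodule.span_induction with
    | mem x hx =>
      have hx' : ψ x = x := hx
      rw [hx']; exact Submodule.subset_span hx
    | zero => rw [map_zero]; exact W.zero_mem
    | add x y _ _ hx hy => rw [map_add]; exact W.add_mem hx hy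
    | smul a x _ hx => rw [hsl]; exact W.smul_mem _ hx
  have hsurj : ∀ w ∈ W, ∃ w' ∈ W, ψ w' = w := by
    intro w hw
    induction hw using Submodule.span_induction with
    | mem x hx => exact ⟨x, Submodule.subset_span hx, hx⟩
    | zero => exact ⟨0, W.zero_mem, map_zero ψ⟩
    | add x y _ _ hx hy =>
      obtain ⟨x', hx', rfl⟩ := hx
      obtain ⟨y', hy', rfl⟩ := hy
      exact ⟨x' + y', W.add_mem hx' hy', map_add ψ x' y'⟩
    | smul a x _ hx =>
      obtain ⟨x', hx', rfl⟩ := hx
      obtain ⟨b, hb⟩ := IsAlgClosed.exists_pow_nat_eq a (by omega : 0 < p ^ f)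
      exact ⟨b • x', W.smul_mem _ hx', by rw [hsl, hb]⟩
  have hstab' : ∀ u, ψ u ∈ W → u ∈ W := by
    intro u hu
    obtain ⟨w', hw', hw'u⟩ := hsurj _ hu
    rwa [← hinj hw'u]
  have hAS : ∀ w ∈ W, ∀ a : k, ∃ t ∈ W, ψ t - t = a • w := by
    intro w hw
    induction hw using Submodule.span_induction with
    | mem x hx =>
      intro a
      have hx' : ψ x = x := hx
      have hdeg : (X ^ (p ^ f) - X - C a : k[X]).degree ≠ 0 := by
        have h1 : (X ^ (p ^ f) - X - C a : k[X]).degree = ((p ^ f : ℕ) : WithBot ℕ) := by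
          rw [sub_sub, degree_sub_eq_left_of_degree_lt, degree_X_pow]
          rw [degree_X_pow]
          calc (X + C a : k[X]).degree ≤ 1 := by
                  refine (degree_add_le _ _).trans (max_le degree_X_le ?_)
                  exact degree_C_le.trans (by norm_num)
            _ < ((p ^ f : ℕ) : WithBot ℕ) := by exact_mod_cast (by omega : 1 < p ^ f)
        rw [h1]
        exact_mod_cast (by omega : p ^ f ≠ 0)
      obtain ⟨b, hb⟩ := IsAlgClosed.exists_root _ hdeg
      have hb' : b ^ p ^ f - b = a := by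
        have := hb
        simp only [IsRoot, eval_sub, eval_pow, eval_X, eval_C] at this
        exact sub_eq_zero.mp this
      refine ⟨b • x, W.smul_mem _ (Submodule.subset_span hx), ?_⟩
      rw [hsl, hx', ← sub_smul, hb']
    | zero => intro a; exact ⟨0, W.zero_mem, by simp⟩
    | add x y _ _ hx hy =>
      intro a
      obtain ⟨s, hs, hs'⟩ := hx a
      obtain ⟨t, ht, ht'⟩ := hy a
      refine ⟨s + t, W.add_mem hs ht, ?_⟩
      rw [map_add, smul_add, ← hs', ← ht']; abel
    | smul c x _ hx =>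
      intro a
      obtain ⟨s, hs, hs'⟩ := hx (a * c)
      exact ⟨s, hs, by rw [hs', mul_smul]⟩
  let Ψ : V →ₛₗ[iterateFrobenius k p f] V := toSemilinear p f ψ hsl
  have hle : W ≤ W.comap Ψ := fun w hw => hstab w hw
  let Ψbar : (V ⧸ W) →ₛₗ[iterateFrobenius k p f] (V ⧸ W) := W.mapQ W Ψ hle
  have hbar : ∀ u : V, Ψbar (Submodule.Quotient.mk u) = Submodule.Quotient.mk (ψ u) :=
    fun u => Submodule.mapQ_apply W W Ψ u
  have hbar_sl : ∀ (a : k) (x : V ⧸ W),
      Ψbar.toAddMonoidHom (a • x) = a ^ p ^ f • Ψbar.toAddMonoidHom x := by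
    intro a x
    show Ψbar (a • x) = a ^ p ^ f • Ψbar x
    rw [map_smulₛₗ, iterateFrobenius_def]
  have hbar_inj : Function.Injective Ψbar.toAddMonoidHom := by
    rw [injective_iff_map_eq_zero]
    intro x hx
    obtain ⟨u, rfl⟩ := Submodule.Quotient.mk_surjective W x
    have h1 : Ψbar (Submodule.Quotient.mk u) = 0 := hx
    rw [hbar, Submodule.Quotient.mk_eq_zero] at h1
    exact (Submodule.Quotient.mk_eq_zero W).2 (hstab' u h1)
  obtain ⟨x, hx0, hx⟩ := exists_fixed_ne_zero (p ^ f) hq Ψbar.toAddMonoidHom hbar_sl hbar_inj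
  obtain ⟨u, rfl⟩ := Submodule.Quotient.mk_surjective W x
  have h1 : Ψbar (Submodule.Quotient.mk u) = Submodule.Quotient.mk u := hx
  rw [hbar, Submodule.Quotient.eq] at h1
  obtain ⟨t, ht, ht'⟩ := hAS _ h1 1
  rw [one_smul] at ht'
  have hfix : ψ (u - t) = u - t := by
    rw [map_sub]
    have : ψ u - ψ t = (ψ u - u) - (ψ t - t) + (u - t) := by abel
    rw [this, ht', sub_self, zero_add]
  apply hx0
  rw [Submodule.Quotient.mk_eq_zero]
  have h2 : u - t ∈ W := Submodule.subset_span hfix
  have h3 : u = (u - t) + t := by abel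
  rw [h3]
  exact W.add_mem h2 ht

/-- **Semilinear Lang lemma, basis form**: a `k`-basis of fixed vectors. -/
theorem exists_basis_fixed (p f : ℕ) [Fact p.Prime] [CharP k p] (hf : f ≠ 0)
    [FiniteDimensional k V] (ψ : V →+ V)
    (hsl : ∀ (a : k) (v : V), ψ (a • v) = a ^ p ^ f • ψ v) (hinj : Function.Injective ψ) :
    ∃ b : Module.Basis (Fin (Module.finrank k V)) k V, ∀ i, ψ (b i) = b i := by
  have hspan := span_fixed_eq_top p f hf ψ hsl hinj
  let b0 := Module.Basis.ofSpan (K := k) (s := {v : V | ψ v = v}) hspan.ge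
  have hb0 : ∀ i, ψ (b0 i) = b0 i :=
    fun i => Module.Basis.ofSpan_subset hspan.ge (Set.mem_range_self i)
  have hfin := Module.Finite.finite_basis b0
  let e := Finite.equivFinOfCardEq (Module.finrank_eq_nat_card_basis b0).symm
  exact ⟨b0.reindex e, fun i => by rw [Module.Basis.reindex_apply]; exact hb0 _⟩

/-- The fixed field of `a ↦ a ^ p ^ f` in an algebraically closed field of characteristic `p`
has `p ^ f` elements. -/
theorem card_pow_eq_self (k : Type*) [Field k] [IsAlgClosed k] (p f : ℕ) [Fact p.Prime] [CharP k p]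
    (hf : f ≠ 0) : Nat.card {a : k // a ^ p ^ f = a} = p ^ f := by
  have hsep : (X ^ p ^ f - X : k[X]).Separable :=
    galois_poly_separable p (p ^ f) (dvd_pow_self p hf)
  have hsplit : ((X ^ p ^ f - X : k[X]).map (algebraMap k k)).Splits := IsAlgClosed.splits _
  have hcard := card_rootSet_eq_natDegree (K := k) hsep hsplit
  rw [FiniteField.X_pow_card_pow_sub_X_natDegree_eq k hf (Fact.out : p.Prime).one_lt] at hcard
  have hcard' : Nat.card ((X ^ p ^ f - X : k[X]).rootSet k) = p ^ f := by
    rw [Nat.card_eq_fintype_card]; exact hcard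
  refine Eq.trans (Nat.card_congr (Equiv.subtypeEquivRight fun a => ?_)) hcard'
  rw [mem_rootSet]
  simp [sub_eq_zero, hsep.ne_zero]

/-- **Semilinear Lang lemma, counting form**: there are exactly `(p^f)^(dim V)` fixed vectors. -/
theorem card_fixed (p f : ℕ) [Fact p.Prime] [CharP k p] (hf : f ≠ 0)
    [FiniteDimensional k V] (ψ : V →+ V)
    (hsl : ∀ (a : k) (v : V), ψ (a • v) = a ^ p ^ f • ψ v) (hinj : Function.Injective ψ) :
    Nat.card {v : V // ψ v = v} = (p ^ f) ^ Module.finrank k V := by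
  obtain ⟨b, hb⟩ := exists_basis_fixed p f hf ψ hsl hinj
  have key : ∀ c : Fin (Module.finrank k V) → k,
      ψ (∑ i, c i • b i) = ∑ i, c i ^ p ^ f • b i := by
    intro c
    rw [map_sum]
    exact Finset.sum_congr rfl (fun i _ => by rw [hsl, hb])
  let E : {v : V // ψ v = v} ≃ (Fin (Module.finrank k V) → {a : k // a ^ p ^ f = a}) :=
    { toFun := fun v i => ⟨b.repr v i, by
        have h1 := key (fun i => b.repr v i)
        rw [b.sum_repr, v.2] at h1
        have h2 := congrArg (fun w => b.repr w i) h1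
        simp only [b.repr_sum_self] at h2
        exact h2.symm⟩
      invFun := fun c => ⟨∑ i, (c i : k) • b i, by
        rw [key]
        exact Finset.sum_congr rfl (fun i _ => by rw [(c i).2])⟩
      left_inv := fun v => Subtype.ext (b.sum_repr v)
      right_inv := fun c => by
        funext i
        apply Subtype.ext
        show b.repr (∑ i, (c i : k) • b i) i = c i
        rw [b.repr_sum_self] }
  rw [Nat.card_congr E, Nat.card_fun, card_pow_eq_self k p f hf, Nat.card_fin]

end Main

/-! ### Forms without an explicit characteristic hypothesis (any `q ≥ 2`) -/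

section General

variable {k : Type*} [Field k] [IsAlgClosed k] {V : Type*} [AddCommGroup V] [Module k V]

omit [IsAlgClosed k] in
/-- The existence of an injective `q`-semilinear additive map on a nonzero space forces the
`q`-power map of `k` to be additive. -/
theorem add_pow_of_semilinear [Nontrivial V] (q : ℕ) (ψ : V →+ V)
    (hsl : ∀ (a : k) (v : V), ψ (a • v) = a ^ q • ψ v) (hinj : Function.Injective ψ) (a b : k) :
    (a + b) ^ q = a ^ q + b ^ q := by
  obtain ⟨v, hv⟩ := exists_ne (0 : V)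
  have hψv : ψ v ≠ 0 := fun h => hv (hinj (h.trans (map_zero ψ).symm))
  have h1 : (a + b) ^ q • ψ v = (a ^ q + b ^ q) • ψ v := by
    rw [← hsl, add_smul, map_add, hsl, hsl, add_smul]
  exact smul_left_injective k hψv h1

/-- If the `q`-power map is additive on an algebraically closed field (`q ≥ 2`), then `k` has
prime characteristic `p` and `q = p ^ f` with `f ≠ 0`. -/
theorem exists_prime_pow_of_add_pow (k : Type*) [Field k] [IsAlgClosed k] (q : ℕ) (hq : 2 ≤ q)
    (hadd : ∀ a b : k, (a + b) ^ q = a ^ q + b ^ q) :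
    ∃ p f : ℕ, p.Prime ∧ CharP k p ∧ f ≠ 0 ∧ q = p ^ f := by
  obtain ⟨p, hp⟩ := CharP.exists k
  have hp0 : p ≠ 0 := by
    rintro rfl
    have : CharZero k := CharP.charP_to_charZero k
    have h2 := hadd 1 1
    rw [one_pow, one_add_one_eq_two] at h2
    have h3 : ((2 ^ q : ℕ) : k) = ((2 : ℕ) : k) := by
      push_cast
      exact h2
    have h4 : 2 ^ q = 2 ^ 1 := (Nat.cast_injective h3).trans (pow_one 2).symm
    have h5 : q = 1 := Nat.pow_right_injective le_rfl h4
    omega
  have hpp : p.Prime := (CharP.char_is_prime_or_zero k p).resolve_right hp0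
  have : Fact p.Prime := ⟨hpp⟩
  obtain ⟨f, m, hm, hqm⟩ := Nat.exists_eq_pow_mul_and_not_dvd (by omega : q ≠ 0) p hpp.ne_one
  have hb : ∀ b : k, (b + 1) ^ m = b ^ m + 1 := by
    intro b
    obtain ⟨a, rfl⟩ := IsAlgClosed.exists_pow_nat_eq b (pow_pos hpp.pos f)
    have h1 := hadd a 1
    rw [hqm, pow_mul, pow_mul, add_pow_char_pow, one_pow, one_pow] at h1
    exact h1
  have hpoly : ((X + 1) ^ m : k[X]) = X ^ m + 1 := by
    apply Polynomial.funext
    intro b
    simp [hb b]
  have hm1 : m = 1 := by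
    by_contra hne
    have hc := congrArg (fun P : k[X] => P.coeff 1) hpoly
    simp only [coeff_X_add_one_pow, coeff_add, coeff_X_pow, coeff_one, Nat.choose_one_right] at hc
    rw [if_neg (Ne.symm hne), if_neg one_ne_zero, add_zero] at hc
    exact hm ((CharP.cast_eq_zero_iff k p m).1 hc)
  subst hm1
  refine ⟨p, f, hpp, hp, ?_, by rw [hqm, mul_one]⟩
  rintro rfl
  rw [pow_zero, mul_one] at hqm
  omega

/-- **Semilinear Lang lemma, spanning form**, any `q ≥ 2`, no characteristic hypothesis. -/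
theorem span_fixed_eq_top' [FiniteDimensional k V] (q : ℕ) (hq : 2 ≤ q) (ψ : V →+ V)
    (hsl : ∀ (a : k) (v : V), ψ (a • v) = a ^ q • ψ v) (hinj : Function.Injective ψ) :
    Submodule.span k {v : V | ψ v = v} = ⊤ := by
  rcases subsingleton_or_nontrivial V with hV | hV
  · exact eq_top_iff.2 fun x _ => by rw [Subsingleton.elim x 0]; exact zero_mem _
  · obtain ⟨p, f, hpp, hp, hf, rfl⟩ :=
      exists_prime_pow_of_add_pow k q hq (add_pow_of_semilinear q ψ hsl hinj)
    have : Fact p.Prime := ⟨hpp⟩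
    exact span_fixed_eq_top p f hf ψ hsl hinj

/-- **Semilinear Lang lemma, counting form**, any `q ≥ 2`, no characteristic hypothesis:
an injective additive `ψ` with `ψ (a • v) = a ^ q • ψ v` on a finite-dimensional space over an
algebraically closed field has exactly `q ^ dim V` fixed vectors. -/
theorem card_fixed' [FiniteDimensional k V] (q : ℕ) (hq : 2 ≤ q) (ψ : V →+ V)
    (hsl : ∀ (a : k) (v : V), ψ (a • v) = a ^ q • ψ v) (hinj : Function.Injective ψ) :
    Nat.card {v : V // ψ v = v} = q ^ Module.finrank k V := by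
  rcases subsingleton_or_nontrivial V with hV | hV
  · rw [Module.finrank_zero_of_subsingleton, pow_zero, Nat.card_eq_one_iff_unique]
    exact ⟨⟨fun a b => Subtype.ext (Subsingleton.elim _ _)⟩, ⟨⟨0, map_zero ψ⟩⟩⟩
  · obtain ⟨p, f, hpp, hp, hf, rfl⟩ :=
      exists_prime_pow_of_add_pow k q hq (add_pow_of_semilinear q ψ hsl hinj)
    have : Fact p.Prime := ⟨hpp⟩
    exact card_fixed p f hf ψ hsl hinj

/-- Rescaling an eigenvector of a semilinear map to a fixed vector. -/
theorem exists_smul_fixed (q : ℕ) (hq : 2 ≤ q) (ψ : V →+ V)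
    (hsl : ∀ (a : k) (v : V), ψ (a • v) = a ^ q • ψ v) (hinj : Function.Injective ψ)
    {v : V} (hv : v ≠ 0) {c : k} (hc : ψ v = c • v) : ∃ a : k, a ≠ 0 ∧ ψ (a • v) = a • v := by
  have hc0 : c ≠ 0 := by
    rintro rfl
    rw [zero_smul] at hc
    exact hv (hinj (hc.trans (map_zero ψ).symm))
  obtain ⟨a, ha⟩ := IsAlgClosed.exists_pow_nat_eq c⁻¹ (by omega : 0 < q - 1)
  have ha0 : a ≠ 0 := by
    rintro rfl
    rw [zero_pow (by omega)] at ha
    exact inv_ne_zero hc0 ha.symm
  refine ⟨a, ha0, ?_⟩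
  rw [hsl, hc, smul_smul]
  congr 1
  have hq' : a ^ q = a ^ (q - 1) * a := by
    rw [← pow_succ]
    congr 1
    omega
  rw [hq', ha]
  field_simp

omit [IsAlgClosed k] in
/-- On the line of a nonzero fixed vector, the fixed vectors are the multiples by the fixed
field of the `q`-power map. -/
theorem smul_fixed_iff (q : ℕ) (ψ : V →+ V)
    (hsl : ∀ (a : k) (v : V), ψ (a • v) = a ^ q • ψ v) {v : V} (hv : v ≠ 0) (hfix : ψ v = v)
    (a : k) : ψ (a • v) = a • v ↔ a ^ q = a := by
  rw [hsl, hfix]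
  exact ⟨fun h => smul_left_injective k hv h, fun h => by rw [h]⟩

end General

/-! ### Counting stable lines (projective count) -/

section Count

/-- Removing one point from a finite subtype. -/
theorem card_subtype_and_ne_add_one {α : Type*} (P : α → Prop) (x0 : α) (h0 : P x0)
    (hfin : Nat.card {x // P x} ≠ 0) :
    Nat.card {x // P x ∧ x ≠ x0} + 1 = Nat.card {x // P x} := by
  have hfin' : Finite {x // P x} := Nat.finite_of_card_ne_zero hfin
  have hs : {x | P x}.Finite := Set.finite_coe_iff.1 hfin'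
  have h1 := Set.ncard_sdiff_singleton_add_one (show x0 ∈ {x | P x} from h0) hs
  have h2 : Nat.card {x // P x} = {x | P x}.ncard := Nat.card_coe_set_eq {x | P x}
  have h3 : Nat.card {x // P x ∧ x ≠ x0} = ({x | P x} \ {x0}).ncard := by
    rw [← Nat.card_coe_set_eq]
    exact Nat.card_congr (Equiv.subtypeEquivRight (by intro x; simp))
  rw [h2, h3, h1]

variable {k : Type*} [Field k] [IsAlgClosed k] {V : Type*} [AddCommGroup V] [Module k V]

/-- The fixed field of an additive `q`-power map (`q ≥ 2`) has `q` elements. -/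
theorem card_pow_eq_self' (k : Type*) [Field k] [IsAlgClosed k] (q : ℕ) (hq : 2 ≤ q)
    (hadd : ∀ a b : k, (a + b) ^ q = a ^ q + b ^ q) : Nat.card {a : k // a ^ q = a} = q := by
  obtain ⟨p, f, hpp, hp, hf, rfl⟩ := exists_prime_pow_of_add_pow k q hq hadd
  have : Fact p.Prime := ⟨hpp⟩
  exact card_pow_eq_self k p f hf

/-- **Projective count**: if `π : V → S` identifies exactly the proportional nonzero vectors, the
images of the nonzero fixed vectors are `(q ^ n - 1) / (q - 1)` in number, in the division-free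
form `(q - 1) * N + 1 = q ^ n`.  (For `V = L(D)` and `π h = D + div h` this counts the effective
Frobenius-fixed divisors in the class of a fixed divisor `D`.) -/
theorem card_proj_fixed [FiniteDimensional k V] (q : ℕ) (hq : 2 ≤ q) (ψ : V →+ V)
    (hsl : ∀ (a : k) (v : V), ψ (a • v) = a ^ q • ψ v) (hinj : Function.Injective ψ)
    {S : Type*} (π : V → S)
    (hπ : ∀ v w : V, v ≠ 0 → w ≠ 0 → (π v = π w ↔ ∃ a : k, w = a • v)) :
    (q - 1) * Nat.card {s : S // ∃ v : V, v ≠ 0 ∧ ψ v = v ∧ π v = s} + 1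
      = q ^ Module.finrank k V := by
  classical
  rcases subsingleton_or_nontrivial V with hV | hV
  · have hemp : IsEmpty {s : S // ∃ v : V, v ≠ 0 ∧ ψ v = v ∧ π v = s} :=
      ⟨fun s => by obtain ⟨v, hv, -⟩ := s.2; exact hv (Subsingleton.elim _ _)⟩
    rw [Nat.card_of_isEmpty, mul_zero, zero_add, Module.finrank_zero_of_subsingleton, pow_zero]
  · have hadd := add_pow_of_semilinear q ψ hsl hinj
    have hF : Nat.card {a : k // a ^ q = a ∧ a ≠ 0} + 1 = q := by
      have h := card_pow_eq_self' k q hq hadd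
      have h' := card_subtype_and_ne_add_one (fun a : k => a ^ q = a) 0 (zero_pow (by omega))
        (by rw [h]; omega)
      rw [h] at h'
      exact h'
    have hX : Nat.card {v : V // ψ v = v ∧ v ≠ 0} + 1 = q ^ Module.finrank k V := by
      have h := card_fixed' q hq ψ hsl hinj
      have h' := card_subtype_and_ne_add_one (fun v : V => ψ v = v) 0 (map_zero ψ)
        (by rw [h]; exact pow_ne_zero _ (by omega))
      rw [h] at h'
      exact h'
    choose rep hrep0 hrepfix hrepπ using
      (fun t : {s : S // ∃ v : V, v ≠ 0 ∧ ψ v = v ∧ π v = s} => t.2)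
    have hπsmul : ∀ (a : k) (v : V), a ≠ 0 → v ≠ 0 → π (a • v) = π v := fun a v ha hv =>
      ((hπ v (a • v) hv (smul_ne_zero ha hv)).2 ⟨a, rfl⟩).symm
    let Φ : {s : S // ∃ v : V, v ≠ 0 ∧ ψ v = v ∧ π v = s} × {a : k // a ^ q = a ∧ a ≠ 0} →
        {v : V // ψ v = v ∧ v ≠ 0} := fun x =>
      ⟨(x.2 : k) • rep x.1,
        (smul_fixed_iff q ψ hsl (hrep0 x.1) (hrepfix x.1) _).2 x.2.2.1,
        smul_ne_zero x.2.2.2 (hrep0 x.1)⟩
    have hΦ : Function.Bijective Φ := by
      constructor
      · rintro ⟨t, a⟩ ⟨t', a'⟩ h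
        have h1 : (a : k) • rep t = (a' : k) • rep t' := congrArg Subtype.val h
        have h2 : t = t' := by
          apply Subtype.ext
          rw [← hrepπ t, ← hrepπ t', ← hπsmul a (rep t) a.2.2 (hrep0 t),
            ← hπsmul a' (rep t') a'.2.2 (hrep0 t'), h1]
        subst h2
        have h3 : (a : k) = a' := smul_left_injective k (hrep0 t) h1
        exact Prod.ext rfl (Subtype.ext h3)
      · rintro ⟨x, hxfix, hx0⟩
        have h1 : π (rep ⟨π x, x, hx0, hxfix, rfl⟩) = π x := hrepπ ⟨π x, x, hx0, hxfix, rfl⟩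
        obtain ⟨a, ha⟩ := (hπ _ x (hrep0 ⟨π x, x, hx0, hxfix, rfl⟩) hx0).1 h1
        have ha0 : a ≠ 0 := by
          rintro rfl
          rw [zero_smul] at ha
          exact hx0 ha
        have haq : a ^ q = a := by
          rw [← smul_fixed_iff q ψ hsl (hrep0 ⟨π x, x, hx0, hxfix, rfl⟩)
            (hrepfix ⟨π x, x, hx0, hxfix, rfl⟩), ← ha]
          exact hxfix
        exact ⟨(⟨π x, x, hx0, hxfix, rfl⟩, ⟨a, haq, ha0⟩), Subtype.ext ha.symm⟩
    have hcard : Nat.card {v : V // ψ v = v ∧ v ≠ 0}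
        = Nat.card {s : S // ∃ v : V, v ≠ 0 ∧ ψ v = v ∧ π v = s}
          * Nat.card {a : k // a ^ q = a ∧ a ≠ 0} := by
      rw [← Nat.card_prod]
      exact (Nat.card_congr (Equiv.ofBijective Φ hΦ)).symm
    have hq1 : q - 1 = Nat.card {a : k // a ^ q = a ∧ a ≠ 0} := by omega
    rw [hq1, mul_comm, ← hcard, hX]

/-- **Projective count, eigen-line form**: the same count for the images of the nonzero vectors
spanning a `ψ`-stable line. -/
theorem card_proj_eigen [FiniteDimensional k V] (q : ℕ) (hq : 2 ≤ q) (ψ : V →+ V)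
    (hsl : ∀ (a : k) (v : V), ψ (a • v) = a ^ q • ψ v) (hinj : Function.Injective ψ)
    {S : Type*} (π : V → S)
    (hπ : ∀ v w : V, v ≠ 0 → w ≠ 0 → (π v = π w ↔ ∃ a : k, w = a • v)) :
    (q - 1) * Nat.card {s : S // ∃ v : V, v ≠ 0 ∧ (∃ c : k, ψ v = c • v) ∧ π v = s} + 1
      = q ^ Module.finrank k V := by
  rw [← card_proj_fixed q hq ψ hsl hinj π hπ]
  congr 2
  refine Nat.card_congr (Equiv.subtypeEquivRight fun s => ⟨?_, ?_⟩)
  · rintro ⟨v, hv, ⟨c, hc⟩, rfl⟩
    obtain ⟨a, ha0, ha⟩ := exists_smul_fixed q hq ψ hsl hinj hv hc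
    exact ⟨a • v, smul_ne_zero ha0 hv, ha,
      ((hπ v (a • v) hv (smul_ne_zero ha0 hv)).2 ⟨a, rfl⟩).symm⟩
  · rintro ⟨v, hv, hfix, rfl⟩
    exact ⟨v, hv, ⟨1, by rw [one_smul, hfix]⟩, rfl⟩

end Count

end Fermat.Agent.S27.helper6882
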