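import Fermat.Agent.S27.helper1121_FrobCount
import Fermat.Agent.S27.helper5747_AlgSpec
import Fermat.Agent.S27.helper6882_SemilinearLang

/-!
# S27, char-`p` core: `Stmt_Cls`, `Stmt_Fin`, `Stmt_Count` of `helper5747_AlgSpec` (helper1121)

Verbatim proofs of the three leaf interfaces of the specification of the characteristic `p`
core owned by the Frobenius fixed-divisor count (`helper1121_FrobCount`), with the semilinear
Lang lemma supplied by `helper6882_SemilinearLang`.
-/

set_option autoImplicit false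

open AlgebraicCurve

namespace Fermat.Agent.S27.helper1121

section Adapters

variable {K F : Type} [Field K] [Field F] [Algebra K F] [IsAlgClosed K]
  [HasPrincipalDivisors K F] {q : ℕ} {g : SemilinearAut K F}

omit [Field F] [Algebra K F] [HasPrincipalDivisors K F] in
/-- The semilinear Lang lemma (helper6882) in the hypothesis shape of `FrobCount`. -/
theorem slHyp (Q : ℕ) (hQ : 2 ≤ Q) : SLHyp.{0, 0} K Q :=
  fun _ _ _ _ ψ hsl hinj => helper6882.card_fixed' Q hQ ψ hsl hinj

omit [IsAlgClosed K] [HasPrincipalDivisors K F] in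
theorem two_le_q (hS : helper5747.FrobSetting K F q g) : 2 ≤ q := by
  obtain ⟨p, f, hp, -, hf, rfl⟩ := hS.pow
  calc 2 ≤ p := hp.two_le
    _ = p ^ 1 := (pow_one p).symm
    _ ≤ p ^ f := Nat.pow_le_pow_right hp.pos hf

omit [IsAlgClosed K] [HasPrincipalDivisors K F] in
theorem two_le_q_pow (hS : helper5747.FrobSetting K F q g) {r : ℕ} (hr : 0 < r) :
    2 ≤ q ^ r :=
  le_trans (two_le_q hS) (Nat.le_self_pow hr.ne' q)

omit [IsAlgClosed K] [HasPrincipalDivisors K F] in
theorem curveRR (hS : helper5747.FrobSetting K F q g) :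
    ∃ W : Divisor K F, CurveRR K F (genusFF K F) W := by
  obtain ⟨W, hW, hrr⟩ := hS.rrd
  refine ⟨W, hS.deg, ?_, hS.finiteL, hW, hrr⟩
  intro f hf
  apply hS.const
  intro v
  rcases (mem_riemannRochSpace_iff.mp hf v) with h0 | h1
  · rw [h0]; simp
  · simpa using h1

omit [HasPrincipalDivisors K F] in
theorem frobHyp (hS : helper5747.FrobSetting K F q g) {r : ℕ} (hr : 0 < r) :
    FrobHyp (g ^ r) (q ^ r) := by
  obtain ⟨x, hx, -, hxg⟩ := hS.fixedFun
  obtain ⟨P0, hP0⟩ := hS.fixedPlace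
  refine ⟨two_le_q_pow hS hr, baseAut_pow_apply g hS.base r, slHyp _ (two_le_q_pow hS hr),
    ⟨x, pow_smul_fixed hxg r, ?_⟩, ⟨P0, pow_smul_fixed hP0 r⟩⟩
  rintro ⟨a, rfl⟩
  exact hx (isAlgebraic_algebraMap a)

omit [IsAlgClosed K] [HasPrincipalDivisors K F] in
theorem gam_eq (g : SemilinearAut K F) (r : ℕ) : Gam (g ^ r) = helper5747.Gam g r := by
  ext c
  constructor
  · rintro ⟨D, hD, hDf, rfl⟩
    exact ⟨⟨D, hD⟩, hDf, (cl_of_degree hD).symm⟩
  · rintro ⟨D, hDf, rfl⟩
    exact ⟨D.1, D.2, hDf, cl_of_degree D.2⟩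

omit [IsAlgClosed K] [HasPrincipalDivisors K F] in
theorem effCount_eq (g : SemilinearAut K F) (r n : ℕ) :
    helper5747.effCount g r n = eCount (g ^ r) n := by
  unfold helper5747.effCount helper5747.invCount eCount
  have heq : (MulAction.toPerm g : Equiv.Perm (Place K F)) ^ r = MulAction.toPerm (g ^ r) := by
    rw [← MulAction.toPermHom_apply, ← map_pow, MulAction.toPermHom_apply]
  rw [heq]
  rfl

end Adapters

/-- **CLS**, verbatim. -/
theorem stmt_Cls : helper5747.Stmt_Cls := by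
  intro K F _ _ _ _ _ q g hS r hr D₀ hD₀
  obtain ⟨W, H⟩ := curveRR hS
  have hF := frobHyp hS hr
  have := hS.finiteL D₀
  have key := card_fixedIn (g ^ r) hF.two_le hF.base hF.sl H.const hD₀
  rw [← key, Nat.add_sub_cancel, mul_comm]

/-- **FIN**, verbatim. -/
theorem stmt_Fin : helper5747.Stmt_Fin := by
  intro K F _ _ _ _ _ q g hS r hr
  obtain ⟨W, H⟩ := curveRR hS
  have := finite_gam H (frobHyp hS hr)
  rw [← gam_eq]
  exact this

/-- **COUNT**, verbatim. -/
theorem stmt_Count : helper5747.Stmt_Count := by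
  intro K F _ _ _ _ _ q g hS
  obtain ⟨W, H⟩ := curveRR hS
  refine ⟨?_, ?_, ?_⟩
  · intro m hm
    obtain ⟨x, hx, -, hxg⟩ := hS.fixedFun
    refine finite_fixed_places_pow g (two_le_q hS) hS.base hS.deg hxg ?_ m hm
    rintro ⟨a, rfl⟩
    exact hx (isAlgebraic_algebraMap a)
  · intro r n hr hn
    rw [effCount_eq, ← gam_eq]
    exact count_big H (frobHyp hS hr) n hn
  · intro r hr hγ
    rw [effCount_eq, ← gam_eq]
    exact count_top H (frobHyp hS hr) hγ

end Fermat.Agent.S27.helper1121
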