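import Mathlib

/-!
# S27, algebraic track, char-`p` core: the norm-index core (helper2673)

Abstract, Mathlib-only form of the "first inequality for constant field extensions"
(surjectivity of the trace `Γ_(rℓ) → Γ_r` on classes of Frobenius-fixed divisors of degree `0`).

Setting (no function fields here):

* `O` is a set of "prime divisors" (orbits of a Frobenius power on the places) with a degree
  `deg : O → ℕ`, `0 < deg o`, finitely many of each bounded degree;
* `G` is a finite abelian group and `c : O → G` the class map (`c o = [o - deg o • P₀]`);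
  effective divisors are `D : O →₀ ℕ`, with `degD deg D = ∑ D o * deg o` and
  `clD c D = ∑ D o • c o`;
* `ψ : G →+ ZMod ℓ` is a homomorphism, `ℓ` prime.

`norm_index_core`: if for every large `N` the effective divisors of degree `N` are
equidistributed over the classes (a consequence of Riemann--Roch and the count of fixed points
of a semilinear map), and `ψ (c o) = 0` for every `o` with `ℓ ∣ deg o` (i.e. `ψ` kills the
traces from the constant extension of degree `ℓ`), then `ψ = 0`.

The proof is an exact identity of formal power series: with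
`χ_(a,b)(D) = e(a ψ(cl D) + b deg D)` for `(a, b) ∈ (ℤ/ℓ)²` and
`L_(a,b)(T) = ∑_D χ_(a,b)(D) T^(deg D)` (an Euler product over `O`), one has
`∏_(a ≠ 0, b) L_(a,b) = Z^(ℓ-1)` where `Z = ∏_b L_(0,b)` has nonnegative integer coefficients,
infinitely many of them nonzero, while for `ψ ≠ 0` every `L_(a,b)` with `a ≠ 0` is a polynomial.
No analysis, no growth estimates, no rationality of the zeta function.

`trace_surjective_core` is the consumer form: a subgroup `H ≤ G` containing `ℓ • G` and all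
`c o` with `ℓ ∣ deg o` is everything.
-/

set_option autoImplicit false

namespace Fermat.Agent.S27.helper2673

open Finset PowerSeries

noncomputable section

/-! ## Effective divisors on a set of orbits -/

section Divisors

variable {O G : Type*} [AddCommGroup G]

/-- Degree of the effective divisor `D = ∑ D o • o`. -/
def degD (deg : O → ℕ) (D : O →₀ ℕ) : ℕ := D.sum fun o n => n * deg o

/-- Class of the effective divisor `D = ∑ D o • o`. -/
def clD (c : O → G) (D : O →₀ ℕ) : G := D.sum fun o n => n • c o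

lemma degD_eq_sum {deg : O → ℕ} {S : Finset O} {D : O →₀ ℕ} (h : D.support ⊆ S) :
    degD deg D = ∑ o ∈ S, D o * deg o :=
  Finsupp.sum_of_support_subset D h _ (fun _ _ => by simp)

lemma clD_eq_sum {c : O → G} {S : Finset O} {D : O →₀ ℕ} (h : D.support ⊆ S) :
    clD c D = ∑ o ∈ S, D o • c o :=
  Finsupp.sum_of_support_subset D h _ (fun _ _ => by simp)

end Divisors

/-! ## Geometric series -/

section Geom

variable {R : Type*} [CommRing R]

/-- The geometric series `∑ₖ eᵏ X^(d k)`. -/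
def geom (e : R) (d : ℕ) : PowerSeries R :=
  PowerSeries.mk fun n => if d ∣ n then e ^ (n / d) else 0

lemma coeff_geom (e : R) (d n : ℕ) :
    coeff n (geom e d) = if d ∣ n then e ^ (n / d) else 0 := by
  simp [geom]

lemma one_sub_mul_geom (e : R) {d : ℕ} (hd : 0 < d) : (1 - C e * X ^ d) * geom e d = 1 := by
  ext n
  rw [sub_mul, one_mul, map_sub, mul_assoc, coeff_C_mul, coeff_X_pow_mul', coeff_geom, coeff_one]
  by_cases hn : d ≤ n
  · rw [if_pos hn, coeff_geom]
    have hn0 : n ≠ 0 := by omega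
    have h1 : d ∣ n - d ↔ d ∣ n := by
      constructor
      · intro h
        have := Nat.dvd_add h (dvd_refl d)
        rwa [Nat.sub_add_cancel hn] at this
      · intro h
        exact Nat.dvd_sub h (dvd_refl d)
    by_cases hdn : d ∣ n
    · rw [if_pos hdn, if_pos (h1.mpr hdn), if_neg hn0]
      have h2 : n / d = (n - d) / d + 1 := by
        obtain ⟨k, rfl⟩ := hdn
        have hk : 1 ≤ k := by
          rcases k with _ | k
          · simp at hn0
          · omega
        rw [Nat.mul_div_cancel_left _ hd]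
        have : d * k - d = d * (k - 1) := by
          rw [Nat.mul_sub, mul_one]
        rw [this, Nat.mul_div_cancel_left _ hd]
        omega
      rw [h2, pow_succ]
      ring
    · rw [if_neg hdn, if_neg (mt h1.mp hdn), if_neg hn0]
      simp
  · rw [if_neg hn]
    by_cases hn0 : n = 0
    · subst hn0
      simp
    · have hnd : ¬ d ∣ n := fun h => by
        have := Nat.le_of_dvd (Nat.pos_of_ne_zero hn0) h
        omega
      simp [hnd, hn0]

end Geom

/-! ## Coefficients of a finite Euler product -/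

section Coeff

variable {O : Type*} [DecidableEq O] {R : Type*} [CommRing R]

/-- The effective divisors supported in `S` of degree `N`. -/
def divs (deg : O → ℕ) (S : Finset O) (N : ℕ) : Finset (O →₀ ℕ) :=
  (S.finsupp fun _ => range (N + 1)).filter fun D => degD deg D = N

lemma mem_divs {deg : O → ℕ} {S : Finset O} {N : ℕ} {D : O →₀ ℕ} :
    D ∈ divs deg S N ↔ D.support ⊆ S ∧ (∀ o ∈ S, D o ≤ N) ∧ degD deg D = N := by
  simp [divs, mem_finsupp_iff, and_assoc]

/-- `D ↦ (o ↦ D o * deg o)`. -/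
def scaleUp (deg : O → ℕ) (D : O →₀ ℕ) : O →₀ ℕ :=
  Finsupp.onFinset D.support (fun o => D o * deg o) (fun o h => by
    rw [Finsupp.mem_support_iff]
    exact left_ne_zero_of_mul h)

/-- `l ↦ (o ↦ l o / deg o)`. -/
def scaleDown (deg : O → ℕ) (l : O →₀ ℕ) : O →₀ ℕ :=
  Finsupp.onFinset l.support (fun o => l o / deg o) (fun o h => by
    rw [Finsupp.mem_support_iff]
    intro h0
    apply h
    simp [h0])

@[simp] lemma scaleUp_apply (deg : O → ℕ) (D : O →₀ ℕ) (o : O) :
    scaleUp deg D o = D o * deg o := rfl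

@[simp] lemma scaleDown_apply (deg : O → ℕ) (l : O →₀ ℕ) (o : O) :
    scaleDown deg l o = l o / deg o := rfl

/-- The coefficients of a finite Euler product are sums over effective divisors. -/
theorem coeff_prod_geom (deg : O → ℕ) (hdeg : ∀ o, 0 < deg o) (ε : O → R) (S : Finset O)
    (N : ℕ) :
    coeff N (∏ o ∈ S, geom (ε o) (deg o)) = ∑ D ∈ divs deg S N, ∏ o ∈ S, ε o ^ D o := by
  rw [coeff_prod]
  simp only [coeff_geom]
  rw [← sum_filter_of_ne (p := fun l : O →₀ ℕ => ∀ o ∈ S, deg o ∣ l o)]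
  · refine sum_nbij' (scaleDown deg) (scaleUp deg) ?_ ?_ ?_ ?_ ?_
    · intro l hl
      rw [mem_filter, mem_finsuppAntidiag] at hl
      obtain ⟨⟨hsum, hsupp⟩, hdvd⟩ := hl
      rw [mem_divs]
      have hsupp' : (scaleDown deg l).support ⊆ S := by
        intro o ho
        rw [Finsupp.mem_support_iff, scaleDown_apply] at ho
        apply hsupp
        rw [Finsupp.mem_support_iff]
        intro h0
        apply ho
        simp [h0]
      refine ⟨hsupp', ?_, ?_⟩
      · intro o ho
        rw [scaleDown_apply]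
        calc l o / deg o ≤ l o := Nat.div_le_self _ _
          _ ≤ ∑ o ∈ S, l o := single_le_sum (f := fun o => l o) (fun _ _ => Nat.zero_le _) ho
          _ = N := hsum
      · rw [degD_eq_sum hsupp', ← hsum]
        refine sum_congr rfl fun o ho => ?_
        rw [scaleDown_apply, Nat.div_mul_cancel (hdvd o ho)]
    · intro D hD
      rw [mem_divs] at hD
      obtain ⟨hsupp, -, hdeg'⟩ := hD
      rw [mem_filter, mem_finsuppAntidiag]
      refine ⟨⟨?_, ?_⟩, ?_⟩
      · rw [← hdeg', degD_eq_sum hsupp]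
        rfl
      · intro o ho
        rw [Finsupp.mem_support_iff, scaleUp_apply] at ho
        apply hsupp
        rw [Finsupp.mem_support_iff]
        exact left_ne_zero_of_mul ho
      · intro o _
        rw [scaleUp_apply]
        exact dvd_mul_left _ _
    · intro l hl
      rw [mem_filter, mem_finsuppAntidiag] at hl
      obtain ⟨⟨-, hsupp⟩, hdvd⟩ := hl
      ext o
      rw [scaleUp_apply, scaleDown_apply]
      by_cases ho : o ∈ S
      · exact Nat.div_mul_cancel (hdvd o ho)
      · have : l o = 0 := by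
          by_contra h
          exact ho (hsupp (Finsupp.mem_support_iff.mpr h))
        simp [this]
    · intro D _
      ext o
      rw [scaleDown_apply, scaleUp_apply, Nat.mul_div_cancel _ (hdeg o)]
    · intro l hl
      rw [mem_filter] at hl
      refine prod_congr rfl fun o ho => ?_
      rw [if_pos (hl.2 o ho), scaleDown_apply]
  · intro l _ hne o ho
    by_contra hnd
    apply hne
    exact prod_eq_zero ho (if_neg hnd)

/-- If `S` contains all orbits of degree `≤ N`, the divisors supported in `S` of degree `N`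
are all the divisors of degree `N`. -/
lemma mem_divs_iff_of_large {deg : O → ℕ} (hdeg : ∀ o, 0 < deg o) {S : Finset O} {N : ℕ}
    (hS : ∀ o, deg o ≤ N → o ∈ S) {D : O →₀ ℕ} : D ∈ divs deg S N ↔ degD deg D = N := by
  rw [mem_divs]
  constructor
  · exact fun h => h.2.2
  · intro h
    have key : ∀ o, D o * deg o ≤ N := by
      intro o
      by_cases ho : o ∈ D.support
      · rw [← h, degD, Finsupp.sum]
        exact single_le_sum (f := fun o => D o * deg o) (fun _ _ => Nat.zero_le _) ho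
      · rw [Finsupp.notMem_support_iff.mp ho]
        simp
    refine ⟨?_, ?_, h⟩
    · intro o ho
      apply hS
      have h1 : 1 ≤ D o := Nat.one_le_iff_ne_zero.mpr (Finsupp.mem_support_iff.mp ho)
      calc deg o = 1 * deg o := (one_mul _).symm
        _ ≤ D o * deg o := Nat.mul_le_mul_right _ h1
        _ ≤ N := key o
    · intro o _
      calc D o = D o * 1 := (mul_one _).symm
        _ ≤ D o * deg o := Nat.mul_le_mul_left _ (hdeg o)
        _ ≤ N := key o

end Coeff

/-! ## Characters -/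

section Char

variable {O G : Type*} [AddCommGroup G] (ℓ : ℕ) [Fact ℓ.Prime]

/-- The standard additive character of `ZMod ℓ`. -/
abbrev e : AddChar (ZMod ℓ) ℂ := ZMod.stdAddChar

lemma e_sum {ι : Type*} (s : Finset ι) (f : ι → ZMod ℓ) :
    e ℓ (∑ i ∈ s, f i) = ∏ i ∈ s, e ℓ (f i) := by
  classical
  induction s using Finset.induction_on with
  | empty => simp
  | insert a s ha ih => rw [sum_insert ha, prod_insert ha, AddChar.map_add_eq_mul, ih]

lemma e_eq_one_iff (x : ZMod ℓ) : e ℓ x = 1 ↔ x = 0 := by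
  constructor
  · intro h
    exact ZMod.injective_stdAddChar (h.trans (AddChar.map_zero_eq_one _).symm)
  · rintro rfl
    exact AddChar.map_zero_eq_one _

/-- The weight of the orbit `o` for the character `(a, b)`. -/
def wt (deg : O → ℕ) (c : O → G) (ψ : G →+ ZMod ℓ) (a b : ZMod ℓ) (o : O) : ℂ :=
  e ℓ (a * ψ (c o) + b * (deg o : ZMod ℓ))

lemma prod_wt_pow (deg : O → ℕ) (c : O → G) (ψ : G →+ ZMod ℓ) (a b : ZMod ℓ) {S : Finset O}
    {D : O →₀ ℕ} (h : D.support ⊆ S) :
    ∏ o ∈ S, wt ℓ deg c ψ a b o ^ D o =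
      e ℓ (a * ψ (clD c D) + b * (degD deg D : ZMod ℓ)) := by
  have h1 : ψ (clD c D) = ∑ o ∈ S, (D o : ZMod ℓ) * ψ (c o) := by
    rw [clD_eq_sum h, map_sum]
    refine sum_congr rfl fun o _ => ?_
    rw [map_nsmul, nsmul_eq_mul]
  have h2 : (degD deg D : ZMod ℓ) = ∑ o ∈ S, (D o : ZMod ℓ) * (deg o : ZMod ℓ) := by
    rw [degD_eq_sum h]
    push_cast
    rfl
  rw [h1, h2, mul_sum, mul_sum, ← sum_add_distrib, e_sum]
  refine prod_congr rfl fun o _ => ?_
  rw [wt, ← AddChar.map_nsmul_eq_pow, nsmul_eq_mul]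
  congr 1
  ring

/-- **Orthogonality**: if `ψ ≠ 0`, `a ≠ 0` and the divisors of degree `N` are equidistributed
over the classes, the `N`-th coefficient of the `L`-series of the character `(a, b)` vanishes. -/
theorem coeff_L_eq_zero [Finite G] [DecidableEq O] (deg : O → ℕ) (hdeg : ∀ o, 0 < deg o)
    (c : O → G) (ψ : G →+ ZMod ℓ) (hψ : ψ ≠ 0) {a : ZMod ℓ} (ha : a ≠ 0) (b : ZMod ℓ)
    {S : Finset O} {N : ℕ} (hS : ∀ o, deg o ≤ N → o ∈ S)
    (hequi : ∀ γ γ' : G, Nat.card {D : O →₀ ℕ // degD deg D = N ∧ clD c D = γ} =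
      Nat.card {D : O →₀ ℕ // degD deg D = N ∧ clD c D = γ'}) :
    coeff N (∏ o ∈ S, geom (wt ℓ deg c ψ a b o) (deg o)) = 0 := by
  classical
  have := Fintype.ofFinite G
  rw [coeff_prod_geom deg hdeg]
  have hterm : ∀ D ∈ divs deg S N, ∏ o ∈ S, wt ℓ deg c ψ a b o ^ D o
      = e ℓ (b * (N : ZMod ℓ)) * e ℓ (a * ψ (clD c D)) := by
    intro D hD
    have hD' := mem_divs.mp hD
    rw [prod_wt_pow ℓ deg c ψ a b hD'.1, hD'.2.2, AddChar.map_add_eq_mul, mul_comm]
  rw [sum_congr rfl hterm, ← mul_sum]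
  set η : AddChar G ℂ := (e ℓ).compAddMonoidHom ((AddMonoidHom.mulLeft a).comp ψ) with hη
  have hηapp : ∀ γ, η γ = e ℓ (a * ψ γ) := fun γ => rfl
  have hrew : ∑ D ∈ divs deg S N, e ℓ (a * ψ (clD c D)) = ∑ D ∈ divs deg S N, η (clD c D) := rfl
  rw [hrew, ← sum_fiberwise (divs deg S N) (clD c) (fun D => η (clD c D))]
  have hfib : ∀ γ : G, ∑ D ∈ divs deg S N with clD c D = γ, η (clD c D)
      = (Nat.card {D : O →₀ ℕ // degD deg D = N ∧ clD c D = (0 : G)} : ℂ) * η γ := by
    intro γ
    have hc : ∀ D ∈ (divs deg S N).filter (fun D => clD c D = γ), η (clD c D) = η γ := by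
      intro D hD
      rw [(mem_filter.mp hD).2]
    rw [sum_congr rfl hc, sum_const, nsmul_eq_mul, ← hequi γ 0]
    congr 2
    symm
    apply Nat.subtype_card
    intro D
    rw [mem_filter, mem_divs_iff_of_large hdeg hS]
  rw [sum_congr rfl (fun γ _ => hfib γ), ← mul_sum]
  have hη0 : η ≠ 0 := by
    rw [AddChar.ne_zero_iff]
    obtain ⟨γ, hγ⟩ : ∃ γ, ψ γ ≠ 0 := by
      by_contra h
      push Not at h
      exact hψ (AddMonoidHom.ext h)
    refine ⟨γ, ?_⟩
    rw [hηapp, Ne, e_eq_one_iff]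
    exact mul_ne_zero ha hγ
  rw [AddChar.sum_eq_zero_iff_ne_zero.mpr hη0, mul_zero, mul_zero]

/-- `∏_j (1 - e(j) Y) = 1 - Y^ℓ`. -/
lemma prod_one_sub_e_mul (Y : PowerSeries ℂ) :
    ∏ j : ZMod ℓ, (1 - C (e ℓ j) * Y) = 1 - Y ^ ℓ := by
  classical
  have hℓ : 0 < ℓ := (Fact.out : ℓ.Prime).pos
  have hprim : IsPrimitiveRoot (e ℓ 1) ℓ := by
    refine ⟨?_, ?_⟩
    · rw [← AddChar.map_nsmul_eq_pow, e_eq_one_iff]
      simp
    · intro k hk
      rw [← AddChar.map_nsmul_eq_pow, e_eq_one_iff, nsmul_eq_mul, mul_one] at hk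
      exact (ZMod.natCast_eq_zero_iff k ℓ).mp hk
  have hprim' : IsPrimitiveRoot (C (e ℓ 1) : PowerSeries ℂ) ℓ :=
    hprim.map_of_injective (f := (C : ℂ →+* PowerSeries ℂ)) PowerSeries.C_injective
  have key := hprim'.pow_sub_pow_eq_prod_sub_mul (1 : PowerSeries ℂ) Y hℓ
  rw [one_pow] at key
  rw [key]
  have hinj : Function.Injective (fun j : ZMod ℓ => (C (e ℓ j) : PowerSeries ℂ)) :=
    fun j j' h => ZMod.injective_stdAddChar (PowerSeries.C_injective h)
  have himg : (univ : Finset (ZMod ℓ)).image (fun j => (C (e ℓ j) : PowerSeries ℂ)) =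
      Polynomial.nthRootsFinset ℓ (1 : PowerSeries ℂ) := by
    apply Finset.eq_of_subset_of_card_le
    · intro x hx
      obtain ⟨j, -, rfl⟩ := mem_image.mp hx
      rw [Polynomial.mem_nthRootsFinset hℓ, ← map_pow, ← AddChar.map_nsmul_eq_pow]
      simp
    · rw [hprim'.card_nthRootsFinset, card_image_of_injective _ hinj, card_univ, ZMod.card]
  rw [← himg, prod_image (fun j _ j' _ h => hinj h)]

/-- For fixed `a`, the product over `b` of the local Euler factors at `o` does not depend
on `a` (this is where the hypothesis on `ψ` enters). -/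
lemma prod_b_local (deg : O → ℕ) (c : O → G) (ψ : G →+ ZMod ℓ)
    (hTr : ∀ o, ℓ ∣ deg o → ψ (c o) = 0) (a : ZMod ℓ) (o : O) :
    ∏ b : ZMod ℓ, (1 - C (wt ℓ deg c ψ a b o) * X ^ deg o : PowerSeries ℂ) =
      ∏ b : ZMod ℓ, (1 - C (e ℓ (b * (deg o : ZMod ℓ))) * X ^ deg o) := by
  by_cases hd : ℓ ∣ deg o
  · refine Finset.prod_congr rfl fun b _ => ?_
    rw [wt, hTr o hd, mul_zero, zero_add]
  · have hd0 : (deg o : ZMod ℓ) ≠ 0 := fun h => hd ((ZMod.natCast_eq_zero_iff _ _).mp h)
    refine Fintype.prod_equiv (Equiv.addRight (a * ψ (c o) * (deg o : ZMod ℓ)⁻¹)) _ _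
      fun b => ?_
    rw [wt, Equiv.coe_addRight, add_mul, mul_assoc (a * ψ (c o)), inv_mul_cancel₀ hd0, mul_one,
      add_comm]

end Char

/-! ## The zeta factor with natural coefficients -/

section Nat

/-- The geometric series `∑ₖ X^(d k)` with natural coefficients. -/
def geomN (d : ℕ) : PowerSeries ℕ := PowerSeries.mk fun n => if d ∣ n then 1 else 0

lemma coeff_geomN (d n : ℕ) : coeff n (geomN d) = if d ∣ n then 1 else 0 := by
  simp [geomN]

lemma map_geomN (d : ℕ) : PowerSeries.map (Nat.castRingHom ℂ) (geomN d) = geom 1 d := by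
  ext n
  rw [coeff_map, coeff_geomN, coeff_geom]
  split_ifs <;> simp

lemma constantCoeff_geomN (d : ℕ) : constantCoeff (geomN d) = 1 := by
  rw [← coeff_zero_eq_constantCoeff_apply, coeff_geomN, if_pos (dvd_zero d)]

/-- Multiplying by a series with constant coefficient `1` does not decrease coefficients. -/
lemma coeff_le_coeff_mul (A B : PowerSeries ℕ) (hB : constantCoeff B = 1) (n : ℕ) :
    coeff n A ≤ coeff n (A * B) := by
  rw [coeff_mul]
  calc coeff n A = coeff n A * coeff 0 B := by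
        rw [coeff_zero_eq_constantCoeff_apply, hB, mul_one]
    _ ≤ ∑ p ∈ antidiagonal n, coeff p.1 A * coeff p.2 B :=
      single_le_sum (f := fun p : ℕ × ℕ => coeff p.1 A * coeff p.2 B)
        (fun _ _ => Nat.zero_le _)
        (show ((n, 0) : ℕ × ℕ) ∈ antidiagonal n from
          Finset.HasAntidiagonal.mem_antidiagonal.mpr (add_zero n))

variable (ℓ : ℕ) [Fact ℓ.Prime]

/-- The local factor of `Z = ∏_b L_(0,b)` at an orbit of degree `d`. -/
def W (d : ℕ) : PowerSeries ℕ := if ℓ ∣ d then geomN d ^ ℓ else geomN (ℓ * d)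

lemma constantCoeff_W (d : ℕ) : constantCoeff (W ℓ d) = 1 := by
  unfold W
  split_ifs
  · rw [map_pow, constantCoeff_geomN, one_pow]
  · exact constantCoeff_geomN _

lemma one_le_coeff_W {d M : ℕ} (h : ℓ * d ∣ M) : 1 ≤ coeff M (W ℓ d) := by
  unfold W
  split_ifs with hd
  · obtain ⟨k, hk⟩ : ∃ k, ℓ = k + 1 :=
      ⟨ℓ - 1, (Nat.sub_add_cancel (Fact.out : ℓ.Prime).pos).symm⟩
    have h1 : coeff M (geomN d) = 1 := by
      rw [coeff_geomN, if_pos (dvd_of_mul_left_dvd h)]
    have h2 : geomN d ^ ℓ = geomN d * geomN d ^ k := by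
      rw [hk, pow_succ']
    rw [h2, ← h1]
    exact coeff_le_coeff_mul _ _ (by rw [map_pow, constantCoeff_geomN, one_pow]) M
  · rw [coeff_geomN, if_pos h]

/-- The local factor `W` inverts the product over `b` of the local Euler factors. -/
lemma prod_b_mul_W {d : ℕ} (hd : 0 < d) :
    (∏ b : ZMod ℓ, (1 - C (e ℓ (b * (d : ZMod ℓ))) * X ^ d : PowerSeries ℂ)) *
      PowerSeries.map (Nat.castRingHom ℂ) (W ℓ d) = 1 := by
  unfold W
  split_ifs with h
  · have h0 : (d : ZMod ℓ) = 0 := (ZMod.natCast_eq_zero_iff _ _).mpr h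
    simp only [h0, mul_zero, AddChar.map_zero_eq_one]
    rw [prod_const, card_univ, ZMod.card, map_pow, map_geomN, ← mul_pow,
      one_sub_mul_geom 1 hd, one_pow]
  · have h0 : (d : ZMod ℓ) ≠ 0 := fun h' => h ((ZMod.natCast_eq_zero_iff _ _).mp h')
    have h1 : ∏ b : ZMod ℓ, (1 - C (e ℓ (b * (d : ZMod ℓ))) * X ^ d : PowerSeries ℂ) =
        ∏ j : ZMod ℓ, (1 - C (e ℓ j) * X ^ d) :=
      Fintype.prod_equiv (Equiv.mulRight₀ (d : ZMod ℓ) h0) _ _ fun b => rfl
    rw [h1, prod_one_sub_e_mul, ← pow_mul, map_geomN, mul_comm d ℓ]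
    have := one_sub_mul_geom (1 : ℂ) (Nat.mul_pos (Fact.out : ℓ.Prime).pos hd)
    rwa [map_one, one_mul] at this

/-- For every `a`, the product over `b` of the `L`-series of the characters `(a, b)` is the
(image of the) series `Z = ∏ₒ W ℓ (deg o)` with natural coefficients. -/
theorem prod_L_eq {O G : Type*} [AddCommGroup G] (deg : O → ℕ) (hdeg : ∀ o, 0 < deg o)
    (c : O → G) (ψ : G →+ ZMod ℓ) (hTr : ∀ o, ℓ ∣ deg o → ψ (c o) = 0) (S : Finset O)
    (a : ZMod ℓ) :
    ∏ b : ZMod ℓ, ∏ o ∈ S, geom (wt ℓ deg c ψ a b o) (deg o) =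
      PowerSeries.map (Nat.castRingHom ℂ) (∏ o ∈ S, W ℓ (deg o)) := by
  set P : PowerSeries ℂ :=
    ∏ b : ZMod ℓ, ∏ o ∈ S, (1 - C (wt ℓ deg c ψ a b o) * X ^ deg o) with hP
  set L : PowerSeries ℂ := ∏ b : ZMod ℓ, ∏ o ∈ S, geom (wt ℓ deg c ψ a b o) (deg o) with hL
  set z : PowerSeries ℂ := PowerSeries.map (Nat.castRingHom ℂ) (∏ o ∈ S, W ℓ (deg o)) with hz
  have h1 : P * L = 1 := by
    rw [hP, hL, ← prod_mul_distrib]
    refine prod_eq_one fun b _ => ?_
    rw [← prod_mul_distrib]
    exact prod_eq_one fun o _ => one_sub_mul_geom _ (hdeg o)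
  have h2 : P * z = 1 := by
    rw [hP, hz, prod_comm, map_prod, ← prod_mul_distrib]
    refine prod_eq_one fun o _ => ?_
    rw [prod_b_local ℓ deg c ψ hTr a o]
    exact prod_b_mul_W ℓ (hdeg o)
  calc L = L * (P * z) := by rw [h2, mul_one]
    _ = (P * L) * z := by ring
    _ = z := by rw [h1, one_mul]

end Nat

/-! ## Vanishing of coefficients in a range -/

section Bnd

variable {R : Type*} [CommSemiring R] {M K K' : ℕ}

/-- `Bnd M K f`: the coefficients of `f` in degrees `K < n ≤ M` vanish. -/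
def Bnd (M K : ℕ) (f : PowerSeries R) : Prop :=
  ∀ n, K < n → n ≤ M → coeff n f = 0

lemma Bnd.one : Bnd M 0 (1 : PowerSeries R) := fun n hn _ => by
  rw [coeff_one, if_neg (by omega)]

lemma Bnd.mul {f g : PowerSeries R} (hf : Bnd M K f) (hg : Bnd M K' g) :
    Bnd M (K + K') (f * g) := by
  intro n hn hnM
  rw [coeff_mul]
  refine sum_eq_zero fun p hp => ?_
  rw [Finset.HasAntidiagonal.mem_antidiagonal] at hp
  by_cases h : K < p.1
  · rw [hf p.1 h (by omega), zero_mul]
  · rw [hg p.2 (by omega) (by omega), mul_zero]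

lemma Bnd.prod {ι : Type*} (s : Finset ι) (f : ι → PowerSeries R)
    (hf : ∀ i ∈ s, Bnd M K (f i)) : Bnd M (s.card * K) (∏ i ∈ s, f i) := by
  classical
  induction s using Finset.induction_on with
  | empty => simpa using (Bnd.one : Bnd M 0 (1 : PowerSeries R))
  | insert a s ha ih =>
    rw [prod_insert ha, card_insert_of_notMem ha, add_mul, one_mul, add_comm]
    exact (hf a (mem_insert_self a s)).mul (ih fun i hi => hf i (mem_insert_of_mem hi))

end Bnd

/-! ## The main theorems -/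

/-- **Norm-index core.** Let `O` be a set of orbits with positive degrees, finitely many of each
bounded degree, `c : O → G` a class map into a finite abelian group, and `ψ : G →+ ZMod ℓ`.
If the effective divisors of every large degree are equidistributed over the classes and
`ψ (c o) = 0` whenever `ℓ ∣ deg o`, then `ψ = 0`. -/
theorem norm_index_core {O G : Type*} [AddCommGroup G] [Finite G] (deg : O → ℕ)
    (hdeg : ∀ o, 0 < deg o) (hfin : ∀ N, {o | deg o ≤ N}.Finite) (hne : Nonempty O)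
    (c : O → G) (ℓ : ℕ) [Fact ℓ.Prime] (ψ : G →+ ZMod ℓ) (N₀ : ℕ)
    (hequi : ∀ N, N₀ ≤ N → ∀ γ γ' : G,
      Nat.card {D : O →₀ ℕ // degD deg D = N ∧ clD c D = γ} =
        Nat.card {D : O →₀ ℕ // degD deg D = N ∧ clD c D = γ'})
    (hTr : ∀ o, ℓ ∣ deg o → ψ (c o) = 0) : ψ = 0 := by
  classical
  by_contra hψ
  obtain ⟨o₀⟩ := hne
  have hℓ : 0 < ℓ := (Fact.out : ℓ.Prime).pos
  set A : Finset (ZMod ℓ) := univ.erase 0 with hA
  have hAcard : 0 < A.card := card_pos.mpr ⟨1, mem_erase.mpr ⟨one_ne_zero, mem_univ _⟩⟩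
  set B : ℕ := A.card * ((univ : Finset (ZMod ℓ)).card * N₀) with hB
  set M : ℕ := ℓ * deg o₀ * (B + 1) with hM
  have hBM : B < M := by
    have h1 : 1 ≤ ℓ * deg o₀ := Nat.mul_pos hℓ (hdeg o₀)
    calc B < B + 1 := Nat.lt_succ_self B
      _ = 1 * (B + 1) := (one_mul _).symm
      _ ≤ ℓ * deg o₀ * (B + 1) := Nat.mul_le_mul_right _ h1
  set S : Finset O := (hfin M).toFinset with hSdef
  have hS : ∀ o, deg o ≤ M → o ∈ S := fun o ho => (hfin M).mem_toFinset.mpr ho
  have ho₀ : o₀ ∈ S := hS o₀ (by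
    calc deg o₀ ≤ ℓ * deg o₀ := Nat.le_mul_of_pos_left _ hℓ
      _ ≤ ℓ * deg o₀ * (B + 1) := Nat.le_mul_of_pos_right _ (Nat.succ_pos B))
  set Z : PowerSeries ℕ := ∏ o ∈ S, W ℓ (deg o) with hZ
  -- the product over the characters with `a ≠ 0` is a power of `Z`
  have hQ : ∏ a ∈ A, ∏ b : ZMod ℓ, ∏ o ∈ S, geom (wt ℓ deg c ψ a b o) (deg o) =
      PowerSeries.map (Nat.castRingHom ℂ) (Z ^ A.card) := by
    rw [prod_congr rfl fun a _ => prod_L_eq ℓ deg hdeg c ψ hTr S a, prod_const, map_pow]
  -- its coefficients vanish in the range `B < n ≤ M`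
  have hbnd : Bnd M B (∏ a ∈ A, ∏ b : ZMod ℓ, ∏ o ∈ S, geom (wt ℓ deg c ψ a b o) (deg o)) := by
    refine Bnd.prod A _ fun a ha => ?_
    refine Bnd.prod univ _ fun b _ => ?_
    intro n hn hnM
    exact coeff_L_eq_zero ℓ deg hdeg c ψ hψ (mem_erase.mp ha).1 b
      (fun o ho => hS o (ho.trans hnM)) (hequi n hn.le)
  have h0 := hbnd M hBM le_rfl
  rw [hQ, coeff_map, eq_natCast, Nat.cast_eq_zero] at h0
  -- but the coefficient of `T ^ M` in a positive power of `Z` is positive
  have hZ0 : constantCoeff Z = 1 := by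
    rw [hZ, map_prod]
    exact prod_eq_one fun o _ => constantCoeff_W ℓ _
  have h1 : 1 ≤ coeff M Z := by
    rw [hZ, ← mul_prod_erase S _ ho₀]
    refine (one_le_coeff_W ℓ (dvd_mul_right _ _)).trans (coeff_le_coeff_mul _ _ ?_ M)
    rw [map_prod]
    exact prod_eq_one fun o _ => constantCoeff_W ℓ _
  obtain ⟨k, hk⟩ : ∃ k, A.card = k + 1 := ⟨A.card - 1, by omega⟩
  have h2 : 1 ≤ coeff M (Z ^ A.card) := by
    rw [hk, pow_succ']
    exact h1.trans (coeff_le_coeff_mul _ _ (by rw [map_pow, hZ0, one_pow]) M)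
  omega

/-- A subgroup `H` of an abelian group `Γ` with `ℓ • Γ ⊆ H` such that every homomorphism
`Γ → ℤ/ℓ` vanishing on `H` is zero, is everything. -/
theorem eq_top_of_hom_eq_zero {Γ : Type*} [AddCommGroup Γ] (H : AddSubgroup Γ) (ℓ : ℕ)
    [Fact ℓ.Prime] (hℓ : ∀ γ : Γ, ℓ • γ ∈ H)
    (h : ∀ ψ : Γ →+ ZMod ℓ, (∀ x ∈ H, ψ x = 0) → ψ = 0) : H = ⊤ := by
  let inst : Module (ZMod ℓ) (Γ ⧸ H) := QuotientAddGroup.zmodModule hℓ
  have hfree : @Module.Free (ZMod ℓ) (Γ ⧸ H) _ _ inst :=
    Module.Free.of_divisionRing (ZMod ℓ) (Γ ⧸ H)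
  have hproj : @Module.Projective (ZMod ℓ) _ (Γ ⧸ H) _ inst :=
    @Module.Projective.of_free _ _ _ _ inst hfree
  rw [eq_top_iff]
  intro γ _
  by_contra hγ
  have hq : (QuotientAddGroup.mk γ : Γ ⧸ H) ≠ 0 := by
    rwa [Ne, QuotientAddGroup.eq_zero_iff]
  obtain ⟨f, hf⟩ :=
    @Module.Projective.exists_dual_ne_zero (Γ ⧸ H) _ (ZMod ℓ) _ inst hproj _ hq
  have hψ := h (f.toAddMonoidHom.comp (QuotientAddGroup.mk' H)) (fun x hx => by
    have : (QuotientAddGroup.mk x : Γ ⧸ H) = 0 := (QuotientAddGroup.eq_zero_iff x).mpr hx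
    simp [this])
  apply hf
  have := DFunLike.congr_fun hψ γ
  simpa using this

/-- **Surjectivity of the trace, abstract form.** A subgroup `H` of the finite class group `G`
which contains `ℓ • G` and the classes `c o` of all orbits with `ℓ ∣ deg o` is everything,
provided the effective divisors of large degree are equidistributed over the classes. -/
theorem trace_surjective_core {O G : Type*} [AddCommGroup G] [Finite G] (deg : O → ℕ)
    (hdeg : ∀ o, 0 < deg o) (hfin : ∀ N, {o | deg o ≤ N}.Finite) (hne : Nonempty O)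
    (c : O → G) (ℓ : ℕ) [Fact ℓ.Prime] (N₀ : ℕ)
    (hequi : ∀ N, N₀ ≤ N → ∀ γ γ' : G,
      Nat.card {D : O →₀ ℕ // degD deg D = N ∧ clD c D = γ} =
        Nat.card {D : O →₀ ℕ // degD deg D = N ∧ clD c D = γ'})
    (H : AddSubgroup G) (hℓ : ∀ γ : G, ℓ • γ ∈ H) (hH : ∀ o, ℓ ∣ deg o → c o ∈ H) :
    H = ⊤ :=
  eq_top_of_hom_eq_zero H ℓ hℓ fun ψ hψ =>
    norm_index_core deg hdeg hfin hne c ℓ ψ N₀ hequi fun o ho => hψ _ (hH o ho)

/-! ## Consumer variants: finiteness of the orbits from the divisor counts -/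

section Count

variable {O G : Type*} [AddCommGroup G]

lemma degD_single (deg : O → ℕ) (o : O) (n : ℕ) : degD deg (Finsupp.single o n) = n * deg o := by
  rw [degD, Finsupp.sum_single_index (zero_mul _)]

/-- If every class contains a nonzero finite number of divisors of degree `N`, there are
finitely many divisors of degree `N`. -/
lemma finite_divs_of_card_ne_zero [Finite G] (deg : O → ℕ) (c : O → G) (N : ℕ)
    (h : ∀ γ : G, Nat.card {D : O →₀ ℕ // degD deg D = N ∧ clD c D = γ} ≠ 0) :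
    {D : O →₀ ℕ | degD deg D = N}.Finite := by
  have h1 : {D : O →₀ ℕ | degD deg D = N} =
      ⋃ γ : G, {D : O →₀ ℕ | degD deg D = N ∧ clD c D = γ} := by
    ext D
    simp
  rw [h1]
  exact Set.finite_iUnion fun γ => Set.finite_coe_iff.mp (Nat.finite_of_card_ne_zero (h γ))

/-- If for all large `N` there are finitely many divisors of degree `N`, there are finitely many
orbits of bounded degree. -/
lemma finite_orbits_of_finite_divs (deg : O → ℕ) (hdeg : ∀ o, 0 < deg o) (N₀ : ℕ)
    (h : ∀ N, N₀ ≤ N → {D : O →₀ ℕ | degD deg D = N}.Finite) (N : ℕ) :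
    {o | deg o ≤ N}.Finite := by
  have h1 : ∀ d, {o | deg o = d}.Finite := by
    intro d
    rcases Nat.eq_zero_or_pos d with hd | hd
    · have : {o | deg o = d} = ∅ := by
        ext o
        simp only [Set.mem_ofPred_eq, Set.mem_empty_iff_false, iff_false]
        have := hdeg o
        omega
      rw [this]
      exact Set.finite_empty
    · have hN : N₀ ≤ (N₀ + 1) * d := by
        calc N₀ ≤ N₀ + 1 := Nat.le_succ _
          _ = (N₀ + 1) * 1 := (mul_one _).symm
          _ ≤ (N₀ + 1) * d := Nat.mul_le_mul_left _ hd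
      refine Set.Finite.of_finite_image (f := fun o => Finsupp.single o (N₀ + 1))
        ((h _ hN).subset ?_) ?_
      · rintro D ⟨o, ho, rfl⟩
        simp only [Set.mem_ofPred_eq] at ho ⊢
        rw [degD_single, ho]
      · intro o _ o' _ hoo'
        exact (Finsupp.single_left_injective (Nat.succ_ne_zero N₀)) hoo'
  have h2 : {o | deg o ≤ N} = ⋃ d ∈ Finset.range (N + 1), {o | deg o = d} := by
    ext o
    simp
  rw [h2]
  exact Set.Finite.biUnion (Finset.finite_toSet _) fun d _ => h1 d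

/-- **Surjectivity of the trace, counting form.** As `trace_surjective_core`, but the
equidistribution is given as an exact nonzero count `cnt N` of the divisors of degree `N` in
each class (for `N ≥ N₀`); finiteness of the orbits of bounded degree is then automatic. -/
theorem trace_surjective_of_count [Finite G] (deg : O → ℕ) (hdeg : ∀ o, 0 < deg o)
    (hne : Nonempty O) (c : O → G) (ℓ : ℕ) [Fact ℓ.Prime] (N₀ : ℕ) (cnt : ℕ → ℕ)
    (hcnt : ∀ N, N₀ ≤ N → ∀ γ : G,
      Nat.card {D : O →₀ ℕ // degD deg D = N ∧ clD c D = γ} = cnt N)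
    (hpos : ∀ N, N₀ ≤ N → cnt N ≠ 0)
    (H : AddSubgroup G) (hℓ : ∀ γ : G, ℓ • γ ∈ H) (hH : ∀ o, ℓ ∣ deg o → c o ∈ H) :
    H = ⊤ := by
  refine trace_surjective_core deg hdeg ?_ hne c ℓ N₀ ?_ H hℓ hH
  · exact finite_orbits_of_finite_divs deg hdeg N₀ fun N hN =>
      finite_divs_of_card_ne_zero deg c N fun γ => by
        rw [hcnt N hN γ]
        exact hpos N hN
  · intro N hN γ γ'
    rw [hcnt N hN γ, hcnt N hN γ']

end Count

end

end Fermat.Agent.S27.helper2673
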