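/-
S27, algebraic track, char-p core: ORBIT BRICK (helper1360).  Mathlib only.

The norm-index core of board row 959 is stated on a type of orbits `O` with degrees `deg`
and classes `c`.  The function-field feed (board row 1125) works on the level of points:
`s`-invariant effective divisors `D : X →₀ ℕ` and a class map `κ` on them.  This file is
the dictionary:

* `invDivs s`, `orbSum s x d` (same definitions as in `helper5797_FrobNorm`);
* `Orb s` : the finite `s`-orbits, realised as their indicator functions;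
* `orbToInv s : (Orb s →₀ ℕ) →+ invDivs s`, bijective, compatible with degree and class;
* `norm_index_place_of_core` : the point-level norm-index statement from the orbit-level one.
-/
import Mathlib
import Fermat.Agent.S27.helper2673_NormIndex

set_option autoImplicit false

namespace Fermat.Agent.S27.helper1360

open Function

variable {X : Type*}

/-! ### Invariant effective divisors and orbit sums -/

/-- Effective divisors invariant under a permutation. -/
def invDivs (s : Equiv.Perm X) : AddSubmonoid (X →₀ ℕ) where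
  carrier := {D | ∀ x, D (s x) = D x}
  zero_mem' := fun _ => rfl
  add_mem' := fun {a b} ha hb x => by
    rw [Finsupp.add_apply, Finsupp.add_apply, ha x, hb x]

theorem mem_invDivs {s : Equiv.Perm X} {D : X →₀ ℕ} :
    D ∈ invDivs s ↔ ∀ x, D (s x) = D x := Iff.rfl

theorem invDivs_apply_pow {s : Equiv.Perm X} {D : X →₀ ℕ} (hD : D ∈ invDivs s) (k : ℕ) (x : X) :
    D ((s ^ k) x) = D x := by
  induction k with
  | zero => simp
  | succ k ih => rw [pow_succ', Equiv.Perm.mul_apply, hD, ih]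

/-- `∑_{i<d} (s^i x)` as an effective divisor. -/
noncomputable def orbSum (s : Equiv.Perm X) (x : X) (d : ℕ) : X →₀ ℕ :=
  ∑ i ∈ Finset.range d, Finsupp.single ((s ^ i) x) 1

theorem mapDomain_orbSum (s : Equiv.Perm X) (x : X) (d : ℕ) (h : (s ^ d) x = x) :
    Finsupp.mapDomain s (orbSum s x d) = orbSum s x d := by
  unfold orbSum
  rw [Finsupp.mapDomain_finsetSum]
  have h1 : ∀ i, Finsupp.mapDomain s (Finsupp.single ((s ^ i) x) (1 : ℕ))
      = Finsupp.single ((s ^ (i + 1)) x) 1 := by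
    intro i
    rw [Finsupp.mapDomain_single, pow_succ', Equiv.Perm.mul_apply]
  rw [Finset.sum_congr rfl fun i _ => h1 i]
  have h2 := Finset.sum_range_succ (fun i => Finsupp.single ((s ^ i) x) (1 : ℕ)) d
  have h3 := Finset.sum_range_succ' (fun i => Finsupp.single ((s ^ i) x) (1 : ℕ)) d
  rw [h2] at h3
  simp only [pow_zero, Equiv.Perm.coe_one, id_eq] at h3
  rw [h] at h3
  exact (add_right_cancel h3).symm

theorem orbSum_mem_invDivs (s : Equiv.Perm X) (x : X) (d : ℕ) (h : (s ^ d) x = x) :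
    orbSum s x d ∈ invDivs s := by
  intro y
  have h1 := Finsupp.mapDomain_apply s.injective (orbSum s x d) y
  rw [mapDomain_orbSum s x d h] at h1
  exact h1

/-- Total degree of an effective divisor, as an additive map. -/
noncomputable def tdeg : (X →₀ ℕ) →+ ℕ := Finsupp.liftAddHom fun _ => AddMonoidHom.id ℕ

theorem tdeg_apply (D : X →₀ ℕ) : tdeg D = D.sum fun _ n => n := rfl

theorem tdeg_single (x : X) (n : ℕ) : tdeg (Finsupp.single x n) = n := by
  rw [tdeg_apply, Finsupp.sum_single_index rfl]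

theorem tdeg_orbSum (s : Equiv.Perm X) (x : X) (d : ℕ) : tdeg (orbSum s x d) = d := by
  unfold orbSum
  rw [map_sum, Finset.sum_congr rfl fun i _ => tdeg_single ((s ^ i) x) 1]
  simp

theorem orbSum_apply [DecidableEq X] (s : Equiv.Perm X) (x : X) (d : ℕ) (y : X) :
    orbSum s x d y = ((Finset.range d).filter fun i => (s ^ i) x = y).card := by
  unfold orbSum
  rw [Finsupp.finsetSum_apply, Finset.card_filter]
  refine Finset.sum_congr rfl fun i _ => ?_
  rw [Finsupp.single_apply]

/-! ### Orbits of periodic points -/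

/-- The indicator of the orbit of `x` (zero if `x` is not periodic). -/
noncomputable def orbInd (s : Equiv.Perm X) (x : X) : X →₀ ℕ :=
  orbSum s x (minimalPeriod s x)

theorem pow_minimalPeriod_apply (s : Equiv.Perm X) (x : X) :
    (s ^ minimalPeriod s x) x = x :=
  isPeriodicPt_minimalPeriod s x

theorem orbInd_mem_invDivs (s : Equiv.Perm X) (x : X) : orbInd s x ∈ invDivs s :=
  orbSum_mem_invDivs s x _ (pow_minimalPeriod_apply s x)

theorem tdeg_orbInd (s : Equiv.Perm X) (x : X) : tdeg (orbInd s x) = minimalPeriod s x :=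
  tdeg_orbSum s x _

theorem orbInd_apply_pow {s : Equiv.Perm X} {x : X} (hx : x ∈ periodicPts s) (k : ℕ) :
    orbInd s x ((s ^ k) x) = 1 := by
  classical
  have hp : 0 < minimalPeriod s x := minimalPeriod_pos_of_mem_periodicPts hx
  unfold orbInd
  rw [orbSum_apply, Finset.card_eq_one]
  refine ⟨k % minimalPeriod s x, ?_⟩
  ext i
  simp only [Finset.mem_filter, Finset.mem_range, Finset.mem_singleton]
  have hk : (s ^ (k % minimalPeriod s x)) x = (s ^ k) x :=
    iterate_mod_minimalPeriod_eq (f := s) (x := x) (n := k)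
  constructor
  · rintro ⟨hi, hix⟩
    refine iterate_injOn_Iio_minimalPeriod (f := s) (x := x) hi (Nat.mod_lt _ hp) ?_
    show (s ^ i) x = (s ^ (k % minimalPeriod s x)) x
    rw [hix, hk]
  · rintro rfl
    exact ⟨Nat.mod_lt _ hp, hk⟩

theorem orbInd_apply_eq_zero {s : Equiv.Perm X} {x y : X} (h : ∀ k : ℕ, (s ^ k) x ≠ y) :
    orbInd s x y = 0 := by
  classical
  unfold orbInd
  rw [orbSum_apply, Finset.card_eq_zero, Finset.filter_eq_empty_iff]
  intro i _
  exact h i

theorem exists_pow_of_orbInd_ne_zero {s : Equiv.Perm X} {x y : X} (h : orbInd s x y ≠ 0) :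
    ∃ k : ℕ, (s ^ k) x = y := by
  by_contra hcon
  exact h (orbInd_apply_eq_zero fun k hk => hcon ⟨k, hk⟩)

theorem pow_mem_periodicPts {s : Equiv.Perm X} {x : X} (hx : x ∈ periodicPts s) (k : ℕ) :
    (s ^ k) x ∈ periodicPts s := by
  obtain ⟨n, hn, hnx⟩ := mem_periodicPts.1 hx
  exact mk_mem_periodicPts hn (hnx.apply_iterate k)

theorem orbInd_pow {s : Equiv.Perm X} {x : X} (hx : x ∈ periodicPts s) (k : ℕ) :
    orbInd s ((s ^ k) x) = orbInd s x := by
  have hp : (s ^ (minimalPeriod s x * k)) x = x :=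
    (isPeriodicPt_minimalPeriod s x).mul_const k
  ext z
  by_cases hz : ∃ j : ℕ, (s ^ j) x = z
  · obtain ⟨j, rfl⟩ := hz
    rw [orbInd_apply_pow hx]
    have : (s ^ j) x = (s ^ (j + minimalPeriod s x * k - k)) ((s ^ k) x) := by
      rw [← Equiv.Perm.mul_apply, ← pow_add]
      have hle : k ≤ j + minimalPeriod s x * k :=
        (Nat.le_mul_of_pos_left k (minimalPeriod_pos_of_mem_periodicPts hx)).trans
          (Nat.le_add_left _ _)
      rw [Nat.sub_add_cancel hle, pow_add, Equiv.Perm.mul_apply, hp]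
    rw [this]
    exact orbInd_apply_pow (pow_mem_periodicPts hx k) _
  · rw [orbInd_apply_eq_zero fun j hj => hz ⟨j, hj⟩]
    refine orbInd_apply_eq_zero fun j hj => hz ⟨j + k, ?_⟩
    rw [pow_add, Equiv.Perm.mul_apply, hj]

/-- The support of an invariant effective divisor consists of periodic points. -/
theorem mem_periodicPts_of_apply_ne_zero {s : Equiv.Perm X} {D : X →₀ ℕ} (hD : D ∈ invDivs s)
    {y : X} (hy : D y ≠ 0) : y ∈ periodicPts s := by
  classical
  let f : ℕ → D.support := fun k =>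
    ⟨(s ^ k) y, by rw [Finsupp.mem_support_iff, invDivs_apply_pow hD]; exact hy⟩
  obtain ⟨i, j, hij, hfij⟩ := Finite.exists_ne_map_eq_of_infinite f
  have key : ∀ i j : ℕ, i < j → (s ^ i) y = (s ^ j) y → y ∈ periodicPts s := by
    intro i j hlt h
    obtain ⟨d, rfl⟩ := Nat.exists_eq_add_of_lt hlt
    have h2 : (s ^ i) y = (s ^ i) ((s ^ (d + 1)) y) := by
      rw [← Equiv.Perm.mul_apply, ← pow_add, h]
      rfl
    exact mk_mem_periodicPts (Nat.succ_pos d) ((s ^ i).injective h2).symm
  have hval : (s ^ i) y = (s ^ j) y := congrArg Subtype.val hfij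
  rcases Nat.lt_or_gt_of_ne hij with h | h
  · exact key i j h hval
  · exact key j i h hval.symm

/-- The finite orbits of `s`, realised as their indicator functions. -/
def Orb (s : Equiv.Perm X) : Type _ :=
  {D : X →₀ ℕ // ∃ x ∈ periodicPts s, D = orbInd s x}

namespace Orb

variable {s : Equiv.Perm X}

theorem mem (o : Orb s) : o.1 ∈ invDivs s := by
  obtain ⟨x, _, hx⟩ := o.2
  rw [hx]
  exact orbInd_mem_invDivs s x

theorem exists_apply_ne_zero (o : Orb s) : ∃ y, o.1 y ≠ 0 := by
  obtain ⟨x, hx, ho⟩ := o.2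
  refine ⟨x, ?_⟩
  have := orbInd_apply_pow hx 0
  rw [pow_zero, Equiv.Perm.one_apply] at this
  rw [ho, this]
  exact one_ne_zero

/-- A point of the orbit. -/
noncomputable def pt (o : Orb s) : X := Classical.choose o.exists_apply_ne_zero

theorem apply_pt_ne_zero (o : Orb s) : o.1 o.pt ≠ 0 := Classical.choose_spec o.exists_apply_ne_zero

/-- An orbit is the orbit of any of its points. -/
theorem eq_orbInd_of_apply_ne_zero (o : Orb s) {y : X} (hy : o.1 y ≠ 0) :
    y ∈ periodicPts s ∧ o.1 = orbInd s y := by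
  obtain ⟨x, hx, ho⟩ := o.2
  rw [ho] at hy
  obtain ⟨k, rfl⟩ := exists_pow_of_orbInd_ne_zero hy
  exact ⟨pow_mem_periodicPts hx k, by rw [ho, orbInd_pow hx]⟩

theorem pt_mem_periodicPts (o : Orb s) : o.pt ∈ periodicPts s :=
  (o.eq_orbInd_of_apply_ne_zero o.apply_pt_ne_zero).1

theorem eq_orbInd_pt (o : Orb s) : o.1 = orbInd s o.pt :=
  (o.eq_orbInd_of_apply_ne_zero o.apply_pt_ne_zero).2

theorem pt_injective : Function.Injective (pt (s := s)) := by
  intro o o' h
  apply Subtype.ext
  rw [o.eq_orbInd_pt, o'.eq_orbInd_pt, h]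

theorem apply_eq_one (o : Orb s) {y : X} (hy : o.1 y ≠ 0) : o.1 y = 1 := by
  obtain ⟨hyp, ho⟩ := o.eq_orbInd_of_apply_ne_zero hy
  have := orbInd_apply_pow hyp 0
  rw [pow_zero, Equiv.Perm.one_apply] at this
  rw [ho, this]

/-- Two orbits through the same point coincide. -/
theorem eq_of_apply_ne_zero {o o' : Orb s} {y : X} (hy : o.1 y ≠ 0) (hy' : o'.1 y ≠ 0) :
    o' = o :=
  Subtype.ext ((o'.eq_orbInd_of_apply_ne_zero hy').2.trans (o.eq_orbInd_of_apply_ne_zero hy).2.symm)

/-- The orbit of a periodic point. -/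
noncomputable def of (s : Equiv.Perm X) (x : X) (hx : x ∈ periodicPts s) : Orb s :=
  ⟨orbInd s x, x, hx, rfl⟩

theorem of_apply_self (x : X) (hx : x ∈ periodicPts s) : (of s x hx).1 x = 1 := by
  have := orbInd_apply_pow hx 0
  rwa [pow_zero, Equiv.Perm.one_apply] at this

/-- The degree (cardinality) of an orbit. -/
noncomputable def deg (o : Orb s) : ℕ := tdeg o.1

theorem deg_eq_minimalPeriod (o : Orb s) : o.deg = minimalPeriod s o.pt := by
  unfold deg
  rw [o.eq_orbInd_pt, tdeg_orbInd]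

theorem deg_pos (o : Orb s) : 0 < o.deg := by
  rw [o.deg_eq_minimalPeriod]
  exact minimalPeriod_pos_of_mem_periodicPts o.pt_mem_periodicPts

theorem eq_orbSum (o : Orb s) : o.1 = orbSum s o.pt o.deg := by
  rw [o.deg_eq_minimalPeriod]
  exact o.eq_orbInd_pt

theorem pow_deg_pt (o : Orb s) : (s ^ o.deg) o.pt = o.pt := by
  rw [o.deg_eq_minimalPeriod]
  exact pow_minimalPeriod_apply s o.pt

theorem finite_deg_le (hfin : ∀ m, 1 ≤ m → {x | (s ^ m) x = x}.Finite) (N : ℕ) :
    {o : Orb s | o.deg ≤ N}.Finite := by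
  refine Set.Finite.of_injOn (f := pt) (t := {x | (s ^ N.factorial) x = x}) ?_
    (pt_injective.injOn) (hfin _ (Nat.factorial_pos N))
  intro o ho
  have hdvd : minimalPeriod s o.pt ∣ N.factorial :=
    Nat.dvd_factorial (minimalPeriod_pos_of_mem_periodicPts o.pt_mem_periodicPts)
      (by rw [← o.deg_eq_minimalPeriod]; exact ho)
  exact (isPeriodicPt_minimalPeriod s o.pt).trans_dvd hdvd

end Orb

/-! ### The dictionary `(Orb s →₀ ℕ) ≃ invDivs s` -/

/-- The effective divisor `∑ D(o) • o`. -/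
noncomputable def orbToInv (s : Equiv.Perm X) : (Orb s →₀ ℕ) →+ invDivs s :=
  Finsupp.liftAddHom fun o => multiplesHom (invDivs s) ⟨o.1, o.mem⟩

theorem orbToInv_single (s : Equiv.Perm X) (o : Orb s) (n : ℕ) :
    orbToInv s (Finsupp.single o n) = n • (⟨o.1, o.mem⟩ : invDivs s) := by
  unfold orbToInv
  rw [Finsupp.liftAddHom_apply_single, multiplesHom_apply]

theorem coe_orbToInv_apply (s : Equiv.Perm X) (D : Orb s →₀ ℕ) (y : X) :
    ((orbToInv s D : invDivs s) : X →₀ ℕ) y = D.sum fun o n => n * o.1 y := by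
  have h : ((Finsupp.applyAddHom y).comp ((invDivs s).subtype.comp (orbToInv s)))
      = Finsupp.liftAddHom fun o : Orb s => AddMonoidHom.mulRight (o.1 y) := by
    refine Finsupp.addHom_ext fun o n => ?_
    simp [orbToInv_single]
  exact DFunLike.congr_fun h D

theorem coe_orbToInv_apply_of_ne_zero (s : Equiv.Perm X) (D : Orb s →₀ ℕ) (o : Orb s) {y : X}
    (hy : o.1 y ≠ 0) : ((orbToInv s D : invDivs s) : X →₀ ℕ) y = D o := by
  rw [coe_orbToInv_apply, Finsupp.sum, Finset.sum_eq_single o]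
  · rw [o.apply_eq_one hy, mul_one]
  · intro o' _ hne
    by_cases h' : o'.1 y = 0
    · rw [h', mul_zero]
    · exact absurd (Orb.eq_of_apply_ne_zero hy h') hne
  · intro ho
    rw [Finsupp.notMem_support_iff.1 ho, zero_mul]

theorem coe_orbToInv_apply_of_notMem (s : Equiv.Perm X) (D : Orb s →₀ ℕ) {y : X}
    (hy : y ∉ periodicPts s) : ((orbToInv s D : invDivs s) : X →₀ ℕ) y = 0 := by
  rw [coe_orbToInv_apply, Finsupp.sum]
  refine Finset.sum_eq_zero fun o _ => ?_
  by_cases h' : o.1 y = 0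
  · rw [h', mul_zero]
  · exact absurd (o.eq_orbInd_of_apply_ne_zero h').1 hy

theorem orbToInv_injective (s : Equiv.Perm X) : Function.Injective (orbToInv s) := by
  intro D D' h
  ext o
  rw [← coe_orbToInv_apply_of_ne_zero s D o o.apply_pt_ne_zero,
    ← coe_orbToInv_apply_of_ne_zero s D' o o.apply_pt_ne_zero, h]

theorem orbToInv_surjective (s : Equiv.Perm X) : Function.Surjective (orbToInv s) := by
  rintro ⟨E, hE⟩
  have hfin : (Function.support fun o : Orb s => E o.pt).Finite := by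
    refine Set.Finite.of_injOn (f := Orb.pt) (t := (E.support : Set X)) ?_
      Orb.pt_injective.injOn E.support.finite_toSet
    intro o ho
    exact Finset.mem_coe.2 (Finsupp.mem_support_iff.2 ho)
  refine ⟨Finsupp.ofSupportFinite _ hfin, ?_⟩
  apply Subtype.ext
  ext y
  by_cases hy : y ∈ periodicPts s
  · have h1 := Orb.of_apply_self (s := s) y hy
    rw [coe_orbToInv_apply_of_ne_zero s _ (Orb.of s y hy) (by rw [h1]; exact one_ne_zero),
      Finsupp.ofSupportFinite_coe]
    obtain ⟨k, hk⟩ := exists_pow_of_orbInd_ne_zero (s := s) (x := y)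
      (y := (Orb.of s y hy).pt) (Orb.of s y hy).apply_pt_ne_zero
    rw [← hk, invDivs_apply_pow hE]
  · rw [coe_orbToInv_apply_of_notMem s _ hy]
    by_contra hne
    exact hy (mem_periodicPts_of_apply_ne_zero hE (Ne.symm hne))

/-- The dictionary as an additive equivalence. -/
noncomputable def orbEquiv (s : Equiv.Perm X) : (Orb s →₀ ℕ) ≃+ invDivs s :=
  AddEquiv.ofBijective (orbToInv s) ⟨orbToInv_injective s, orbToInv_surjective s⟩

theorem tdeg_orbToInv (s : Equiv.Perm X) (D : Orb s →₀ ℕ) :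
    tdeg ((orbToInv s D : invDivs s) : X →₀ ℕ) = helper2673.degD Orb.deg D := by
  have h : (tdeg.comp ((invDivs s).subtype.comp (orbToInv s)))
      = Finsupp.liftAddHom fun o : Orb s => AddMonoidHom.mulRight o.deg := by
    refine Finsupp.addHom_ext fun o n => ?_
    simp [orbToInv_single, Orb.deg]
  exact DFunLike.congr_fun h D

theorem map_orbToInv {Γ : Type*} [AddCommGroup Γ] (s : Equiv.Perm X) (κ : invDivs s →+ Γ)
    (D : Orb s →₀ ℕ) :
    κ (orbToInv s D) = helper2673.clD (fun o : Orb s => κ ⟨o.1, o.mem⟩) D := by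
  have h : κ.comp (orbToInv s)
      = Finsupp.liftAddHom fun o : Orb s => multiplesHom Γ (κ ⟨o.1, o.mem⟩) := by
    refine Finsupp.addHom_ext fun o n => ?_
    rw [AddMonoidHom.comp_apply, orbToInv_single, map_nsmul, Finsupp.liftAddHom_apply_single,
      multiplesHom_apply]
  exact DFunLike.congr_fun h D

/-- Counting orbit-level divisors of given degree and class is counting invariant point-level
divisors of given degree and class. -/
theorem card_orb_eq_card_inv {Γ : Type*} [AddCommGroup Γ] (s : Equiv.Perm X)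
    (κ : invDivs s →+ Γ) (N : ℕ) (γ : Γ) :
    Nat.card {D : Orb s →₀ ℕ // helper2673.degD Orb.deg D = N ∧
        helper2673.clD (fun o : Orb s => κ ⟨o.1, o.mem⟩) D = γ}
      = Nat.card {D : invDivs s // ((D : X →₀ ℕ).sum fun _ n => n) = N ∧ κ D = γ} := by
  refine Nat.card_congr (Equiv.subtypeEquiv (orbEquiv s).toEquiv fun D => ?_)
  show _ ↔ tdeg ((orbToInv s D : invDivs s) : X →₀ ℕ) = N ∧ κ (orbToInv s D) = γ
  rw [tdeg_orbToInv, map_orbToInv]

/-! ### The point-level norm-index core -/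

theorem mem_periodicPts_of_fixed {s : Equiv.Perm X} {x0 : X} (hx0 : s x0 = x0) :
    x0 ∈ periodicPts s :=
  mk_mem_periodicPts one_pos (show IsPeriodicPt s 1 x0 from hx0)

/-- **Point-level norm-index core.**  `s` a permutation with finitely many fixed points of each
power and at least one fixed point; `κ` a class map on `s`-invariant effective divisors with
values in a finite abelian group; equidistribution in large degree; `ψ` kills the classes of
the orbit sums of length divisible by `ℓ`.  Then `ψ = 0`. -/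
theorem norm_index_place {Γ : Type*} [AddCommGroup Γ] [Finite Γ] (s : Equiv.Perm X)
    (hfin : ∀ m, 1 ≤ m → {x | (s ^ m) x = x}.Finite) (x0 : X) (hx0 : s x0 = x0)
    (κ : invDivs s →+ Γ) (ℓ : ℕ) [Fact ℓ.Prime] (ψ : Γ →+ ZMod ℓ) (N0 : ℕ)
    (hequi : ∀ N, N0 ≤ N → ∀ γ γ' : Γ,
      Nat.card {D : invDivs s // ((D : X →₀ ℕ).sum fun _ n => n) = N ∧ κ D = γ} =
        Nat.card {D : invDivs s // ((D : X →₀ ℕ).sum fun _ n => n) = N ∧ κ D = γ'})
    (hTr : ∀ (x : X) (d : ℕ) (h : (s ^ d) x = x), ℓ ∣ d →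
      ψ (κ ⟨orbSum s x d, orbSum_mem_invDivs s x d h⟩) = 0) : ψ = 0 := by
  refine helper2673.norm_index_core Orb.deg Orb.deg_pos (Orb.finite_deg_le hfin)
    ⟨Orb.of s x0 (mem_periodicPts_of_fixed hx0)⟩ (fun o => κ ⟨o.1, o.mem⟩) ℓ ψ N0 ?_ ?_
  · intro N hN γ γ'
    rw [card_orb_eq_card_inv, card_orb_eq_card_inv]
    exact hequi N hN γ γ'
  · intro o ho
    have h2 : (⟨o.1, o.mem⟩ : invDivs s)
        = ⟨orbSum s o.pt o.deg, orbSum_mem_invDivs s o.pt o.deg o.pow_deg_pt⟩ :=
      Subtype.ext o.eq_orbSum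
    rw [h2]
    exact hTr o.pt o.deg o.pow_deg_pt ho

/-- **Point-level trace surjectivity.**  A subgroup `H` of the finite group `Γ` containing `ℓ Γ`
and the classes of all orbit sums of length divisible by `ℓ` is everything, provided the
invariant effective divisors of large degree are equidistributed over the classes. -/
theorem trace_surjective_place {Γ : Type*} [AddCommGroup Γ] [Finite Γ] (s : Equiv.Perm X)
    (hfin : ∀ m, 1 ≤ m → {x | (s ^ m) x = x}.Finite) (x0 : X) (hx0 : s x0 = x0)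
    (κ : invDivs s →+ Γ) (ℓ : ℕ) [Fact ℓ.Prime] (N0 : ℕ)
    (hequi : ∀ N, N0 ≤ N → ∀ γ γ' : Γ,
      Nat.card {D : invDivs s // ((D : X →₀ ℕ).sum fun _ n => n) = N ∧ κ D = γ} =
        Nat.card {D : invDivs s // ((D : X →₀ ℕ).sum fun _ n => n) = N ∧ κ D = γ'})
    (H : AddSubgroup Γ) (hℓ : ∀ γ : Γ, ℓ • γ ∈ H)
    (hH : ∀ (x : X) (d : ℕ) (h : (s ^ d) x = x), ℓ ∣ d →
      κ ⟨orbSum s x d, orbSum_mem_invDivs s x d h⟩ ∈ H) : H = ⊤ :=
  helper2673.eq_top_of_hom_eq_zero H ℓ hℓ fun ψ hψ =>
    norm_index_place s hfin x0 hx0 κ ℓ ψ N0 hequi fun x d h hd => hψ _ (hH x d h hd)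

/-- Variant with an exact count `cnt N ≠ 0` of the invariant effective divisors of degree `N` in
each class (`N ≥ N0`); the finiteness of the fixed-point sets is then not needed. -/
theorem trace_surjective_place_of_count {Γ : Type*} [AddCommGroup Γ] [Finite Γ]
    (s : Equiv.Perm X) (x0 : X) (hx0 : s x0 = x0)
    (κ : invDivs s →+ Γ) (ℓ : ℕ) [Fact ℓ.Prime] (N0 : ℕ) (cnt : ℕ → ℕ)
    (hcnt : ∀ N, N0 ≤ N → ∀ γ : Γ,
      Nat.card {D : invDivs s // ((D : X →₀ ℕ).sum fun _ n => n) = N ∧ κ D = γ} = cnt N)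
    (hpos : ∀ N, N0 ≤ N → cnt N ≠ 0)
    (H : AddSubgroup Γ) (hℓ : ∀ γ : Γ, ℓ • γ ∈ H)
    (hH : ∀ (x : X) (d : ℕ) (h : (s ^ d) x = x), ℓ ∣ d →
      κ ⟨orbSum s x d, orbSum_mem_invDivs s x d h⟩ ∈ H) : H = ⊤ := by
  refine helper2673.trace_surjective_of_count Orb.deg Orb.deg_pos
    ⟨Orb.of s x0 (mem_periodicPts_of_fixed hx0)⟩ (fun o => κ ⟨o.1, o.mem⟩) ℓ N0 cnt ?_ hpos H hℓ ?_
  · intro N hN γ
    rw [card_orb_eq_card_inv]
    exact hcnt N hN γ
  · intro o ho
    have h2 : (⟨o.1, o.mem⟩ : invDivs s)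
        = ⟨orbSum s o.pt o.deg, orbSum_mem_invDivs s o.pt o.deg o.pow_deg_pt⟩ :=
      Subtype.ext o.eq_orbSum
    rw [h2]
    exact hH o.pt o.deg o.pow_deg_pt ho

end Fermat.Agent.S27.helper1360
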