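/-
S27, algebraic track, char-p core: NORM FEED on the Spec's `Gam` (helper1360).

`stmt_Norm_of : helper5747.Stmt_Cls → helper5747.Stmt_Fin → helper5747.Stmt_Norm`.

The trace `Γ_{rℓ} → Γ_r` is onto: apply the point-level norm-index core
(`helper1360.trace_surjective_place_of_count`) to the permutation of the places induced by
`g ^ r`, the class map `D ↦ [D - deg(D) • P₀]` and the image of the trace.
* equidistribution: `Stmt_Cls` + Riemann–Roch in degree `≥ 2g`;
* orbit sums of length divisible by `ℓ` are traces: orbit splitting.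
-/
import Mathlib
import Fermat.Prelude.Def_AlgebraicCurve_BaseChangeGalois
import Fermat.Prelude.Def_AlgebraicCurve_Repartitions
import Fermat.Agent.S27.helper5747_AlgSpec
import Fermat.Agent.S27.helper1360_OrbitCore

set_option autoImplicit false

open AlgebraicCurve

namespace Fermat.Agent.S27.helper1360

variable {K F : Type*} [Field K] [Field F] [Algebra K F]

/-! ### The permutation of the places -/

/-- The permutation of the places induced by a semilinear automorphism. -/
noncomputable def plPerm (h : SemilinearAut K F) : Equiv.Perm (Place K F) := MulAction.toPerm h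

theorem plPerm_apply (h : SemilinearAut K F) (v : Place K F) : plPerm h v = h • v := rfl

theorem plPerm_pow_apply (h : SemilinearAut K F) (i : ℕ) (v : Place K F) :
    (plPerm h ^ i) v = (h ^ i) • v := by
  induction i generalizing v with
  | zero => simp
  | succ i ih => rw [pow_succ, Equiv.Perm.mul_apply, ih, plPerm_apply, ← mul_smul, ← pow_succ]

theorem smul_pow_eq_of_smul_eq {M α : Type*} [Monoid M] [MulAction M α] {h : M} {a : α}
    (ha : h • a = a) (k : ℕ) : (h ^ k) • a = a := by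
  induction k with
  | zero => simp
  | succ k ih => rw [pow_succ, mul_smul, ha, ih]

/-! ### Effective divisors as divisors -/

/-- The divisor of an effective divisor. -/
noncomputable def toDiv : (Place K F →₀ ℕ) →+ Divisor K F :=
  Finsupp.mapRange.addMonoidHom (Nat.castAddMonoidHom ℤ)

theorem toDiv_apply (D : Place K F →₀ ℕ) (v : Place K F) : toDiv D v = (D v : ℤ) := rfl

theorem toDiv_single (v : Place K F) (n : ℕ) :
    toDiv (Finsupp.single v n) = Finsupp.single v (n : ℤ) := by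
  classical
  ext w
  rw [toDiv_apply, Finsupp.single_apply, Finsupp.single_apply]
  split_ifs <;> simp

theorem toDiv_injective : Function.Injective (toDiv (K := K) (F := F)) := by
  intro D E h
  ext v
  have := DFunLike.congr_fun h v
  rw [toDiv_apply, toDiv_apply] at this
  exact_mod_cast this

theorem toDiv_nonneg (D : Place K F →₀ ℕ) : 0 ≤ toDiv D := by
  intro v
  rw [toDiv_apply]
  exact Int.natCast_nonneg _

theorem exists_toDiv_eq {E : Divisor K F} (hE : 0 ≤ E) :
    ∃ D : Place K F →₀ ℕ, toDiv D = E := by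
  refine ⟨E.mapRange Int.toNat rfl, ?_⟩
  ext v
  have h0 : 0 ≤ E v := hE v
  rw [toDiv_apply, Finsupp.mapRange_apply]
  exact Int.toNat_of_nonneg h0

theorem degree_toDiv (hdeg : ∀ v : Place K F, v.deg = 1) (D : Place K F →₀ ℕ) :
    Divisor.degree (toDiv D) = ((tdeg D : ℕ) : ℤ) := by
  induction D using Finsupp.induction with
  | zero => simp
  | single_add v n D _ _ ih =>
    rw [map_add, map_add, ih, toDiv_single, Divisor.degree_single, hdeg v, map_add, tdeg_single]
    push_cast
    ring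

theorem smul_toDiv_eq_iff (h : SemilinearAut K F) (D : Place K F →₀ ℕ) :
    h • toDiv D = toDiv D ↔ D ∈ invDivs (plPerm h) := by
  rw [mem_invDivs]
  constructor
  · intro hD x
    have h1 := DFunLike.congr_fun hD (h • x)
    rw [SemilinearAut.divisor_smul_apply_smul, toDiv_apply, toDiv_apply] at h1
    rw [plPerm_apply]
    exact_mod_cast h1.symm
  · intro hD
    ext w
    rw [SemilinearAut.divisor_smul_apply, toDiv_apply, toDiv_apply]
    have h1 := hD (h⁻¹ • w)
    rw [plPerm_apply, smul_inv_smul] at h1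
    rw [h1]

/-! ### The class map relative to a rational point -/

/-- `D ↦ D - deg(D) • P₀`, into the divisors of degree zero. -/
noncomputable def toDegZero (P0 : Place K F) (hP0 : P0.deg = 1) :
    Divisor K F →+ Divisor.degZero (K := K) (F := F) where
  toFun D := ⟨D - Divisor.degree D • Finsupp.single P0 (1 : ℤ), by
    rw [Divisor.mem_degZero, map_sub, map_zsmul, Divisor.degree_single, hP0]
    simp⟩
  map_zero' := by
    apply Subtype.ext
    simp
  map_add' := fun D E => by
    apply Subtype.ext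
    show D + E - Divisor.degree (D + E) • Finsupp.single P0 (1 : ℤ)
      = (D - Divisor.degree D • Finsupp.single P0 (1 : ℤ))
        + (E - Divisor.degree E • Finsupp.single P0 (1 : ℤ))
    rw [map_add, add_smul]
    abel

theorem coe_toDegZero (P0 : Place K F) (hP0 : P0.deg = 1) (D : Divisor K F) :
    (toDegZero P0 hP0 D : Divisor K F) = D - Divisor.degree D • Finsupp.single P0 (1 : ℤ) := rfl

theorem smul_zsmul_single (h : SemilinearAut K F) (n : ℤ) (P0 : Place K F) :
    h • (n • Finsupp.single P0 (1 : ℤ)) = n • Finsupp.single (h • P0) (1 : ℤ) := by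
  have := map_zsmul (DistribSMul.toAddMonoidHom (Divisor K F) h) n (Finsupp.single P0 (1 : ℤ))
  simp only [DistribSMul.toAddMonoidHom_apply] at this
  rw [this, SemilinearAut.smul_single]

theorem smul_coe_toDegZero (h : SemilinearAut K F) (P0 : Place K F) (hP0 : P0.deg = 1)
    (hh : h • P0 = P0) (D : Divisor K F) :
    h • (toDegZero P0 hP0 D : Divisor K F) = toDegZero P0 hP0 (h • D) := by
  rw [coe_toDegZero, coe_toDegZero, smul_sub, smul_zsmul_single, hh, SemilinearAut.degree_smul]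

/-- The class of `D - deg(D) • P₀`. -/
noncomputable def clsAt (P0 : Place K F) (hP0 : P0.deg = 1) : Divisor K F →+ Pic0 K F :=
  (QuotientAddGroup.mk' _).comp (toDegZero P0 hP0)

theorem clsAt_apply (P0 : Place K F) (hP0 : P0.deg = 1) (D : Divisor K F) :
    clsAt P0 hP0 D = Pic0.mk (toDegZero P0 hP0 D) := rfl

theorem smul_clsAt (h : SemilinearAut K F) (P0 : Place K F) (hP0 : P0.deg = 1)
    (hh : h • P0 = P0) (D : Divisor K F) :
    h • clsAt P0 hP0 D = clsAt P0 hP0 (h • D) := by
  rw [clsAt_apply, clsAt_apply, SemilinearAut.pic0_smul_mk]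
  exact congrArg Pic0.mk (Subtype.ext (by
    rw [SemilinearAut.coe_degZeroSMulHom, smul_coe_toDegZero h P0 hP0 hh]))

theorem clsAt_mem_Gam (g : SemilinearAut K F) (r : ℕ) (P0 : Place K F) (hP0 : P0.deg = 1)
    (hg : (g ^ r) • P0 = P0) {D : Divisor K F} (hD : (g ^ r) • D = D) :
    clsAt P0 hP0 D ∈ helper5747.Gam g r :=
  ⟨toDegZero P0 hP0 D, by rw [smul_coe_toDegZero (g ^ r) P0 hP0 hg, hD], rfl⟩

/-- The class map on the invariant effective divisors, with values in `Γ_r`. -/
noncomputable def kapAt (g : SemilinearAut K F) (r : ℕ) (P0 : Place K F) (hP0 : P0.deg = 1)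
    (hg : (g ^ r) • P0 = P0) : invDivs (plPerm (g ^ r)) →+ helper5747.Gam g r :=
  AddMonoidHom.codRestrict
    (((clsAt P0 hP0).comp toDiv).comp (invDivs (plPerm (g ^ r))).subtype) (helper5747.Gam g r)
    (fun D => clsAt_mem_Gam g r P0 hP0 hg ((smul_toDiv_eq_iff (g ^ r) D).2 D.2))

theorem coe_kapAt (g : SemilinearAut K F) (r : ℕ) (P0 : Place K F) (hP0 : P0.deg = 1)
    (hg : (g ^ r) • P0 = P0) (D : invDivs (plPerm (g ^ r))) :
    (kapAt g r P0 hP0 hg D : Pic0 K F) = clsAt P0 hP0 (toDiv (D : Place K F →₀ ℕ)) := rfl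

/-! ### Riemann–Roch in large degree -/

theorem degree_nonneg_of_nonneg {D : Divisor K F} (hD : 0 ≤ D) : 0 ≤ Divisor.degree D := by
  show 0 ≤ D.sum fun v n => n * (v.deg : ℤ)
  unfold Finsupp.sum
  exact Finset.sum_nonneg fun v _ => mul_nonneg (hD v) (Int.natCast_nonneg _)

theorem degree_eq_zero_of_mem_principal [HasPrincipalDivisors K F] {D : Divisor K F}
    (hD : D ∈ Divisor.principal (K := K) (F := F)) : Divisor.degree D = 0 := by
  obtain ⟨f, hf, hDf⟩ := hD
  obtain ⟨D', hD', hdeg⟩ := HasPrincipalDivisors.exists_divisor (K := K) f hf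
  have : D = D' := Finsupp.ext fun v => (hDf v).trans (hD' v).symm
  rw [this, hdeg]

theorem riemannRochSpace_eq_bot_of_degree_neg [HasPrincipalDivisors K F] {D : Divisor K F}
    (hD : Divisor.degree D < 0) : riemannRochSpace D = ⊥ := by
  rw [eq_bot_iff]
  intro f hf
  rw [Submodule.mem_bot]
  by_contra hne
  obtain ⟨D', hD', hdeg⟩ := HasPrincipalDivisors.exists_divisor (K := K) f hne
  have h0 : 0 ≤ D' + D := by
    intro v
    have := (mem_riemannRochSpace_iff.1 hf v).resolve_left hne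
    rw [Finsupp.add_apply, hD']
    show (0 : ℤ) ≤ v.ord f + D v
    linarith
  have h1 := degree_nonneg_of_nonneg h0
  rw [map_add, hdeg, zero_add] at h1
  exact absurd hD (not_lt.2 h1)

theorem finrank_riemannRochSpace_of_large [HasPrincipalDivisors K F] {W : Divisor K F}
    (hW : Divisor.degree W = 2 * (genusFF K F : ℤ) - 2)
    (hrr : ∀ D : Divisor K F, (Module.finrank K (riemannRochSpace D) : ℤ)
      = Divisor.degree D + 1 - genusFF K F + Module.finrank K (riemannRochSpace (W - D)))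
    {D : Divisor K F} (hD : 2 * (genusFF K F : ℤ) - 2 < Divisor.degree D) :
    (Module.finrank K (riemannRochSpace D) : ℤ) = Divisor.degree D + 1 - genusFF K F := by
  have hneg : Divisor.degree (W - D) < 0 := by
    rw [map_sub, hW]
    linarith
  rw [hrr D, riemannRochSpace_eq_bot_of_degree_neg hneg, finrank_bot]
  simp

/-! ### Equidistribution from the class count -/

theorem pic0_mk_eq_mk_iff (A B : Divisor.degZero (K := K) (F := F)) :
    Pic0.mk A = Pic0.mk B ↔ (A : Divisor K F) - B ∈ Divisor.principal (K := K) (F := F) := by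
  unfold Pic0.mk
  rw [QuotientAddGroup.eq_iff_sub_mem, AddSubgroup.mem_addSubgroupOf, AddSubgroup.coe_sub]

/-- The invariant effective divisors of degree `N` in the class `γ + N • P₀` are the fixed
effective divisors linearly equivalent to `D_γ + N • P₀`. -/
theorem card_class_eq [HasPrincipalDivisors K F] (g : SemilinearAut K F) (r : ℕ)
    (P0 : Place K F) (hP0 : P0.deg = 1) (hg : (g ^ r) • P0 = P0)
    (hdeg : ∀ v : Place K F, v.deg = 1) (N : ℕ) (γ : helper5747.Gam g r)
    (Dγ : Divisor.degZero (K := K) (F := F)) (hγ : Pic0.mk Dγ = (γ : Pic0 K F)) :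
    Nat.card {D : invDivs (plPerm (g ^ r)) //
        ((D : Place K F →₀ ℕ).sum fun _ n => n) = N ∧ kapAt g r P0 hP0 hg D = γ}
      = Nat.card {E : Divisor K F // 0 ≤ E ∧ (g ^ r) • E = E ∧
          E - ((Dγ : Divisor K F) + (N : ℤ) • Finsupp.single P0 (1 : ℤ))
            ∈ Divisor.principal (K := K) (F := F)} := by
  have hDγ : Divisor.degree (Dγ : Divisor K F) = 0 := Dγ.2
  -- the key equivalence
  have key : ∀ D : Place K F →₀ ℕ, tdeg D = N →
      (toDegZero P0 hP0 (toDiv D) : Divisor K F) - Dγ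
        = toDiv D - ((Dγ : Divisor K F) + (N : ℤ) • Finsupp.single P0 (1 : ℤ)) := by
    intro D hD
    rw [coe_toDegZero, degree_toDiv hdeg, hD]
    abel
  refine Nat.card_eq_of_bijective
    (fun D => ⟨toDiv (D.1 : Place K F →₀ ℕ), toDiv_nonneg _,
      (smul_toDiv_eq_iff (g ^ r) _).2 D.1.2, ?_⟩) ⟨?_, ?_⟩
  · -- well defined
    obtain ⟨hN, hκ⟩ := D.2
    have h1 : clsAt P0 hP0 (toDiv (D.1 : Place K F →₀ ℕ)) = Pic0.mk Dγ := by
      rw [hγ]
      exact (coe_kapAt g r P0 hP0 hg D.1).symm.trans (congrArg Subtype.val hκ)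
    rw [clsAt_apply, pic0_mk_eq_mk_iff, key _ hN] at h1
    exact h1
  · -- injective
    intro D D' h
    have h1 : toDiv (D.1 : Place K F →₀ ℕ) = toDiv (D'.1 : Place K F →₀ ℕ) :=
      congrArg Subtype.val h
    exact Subtype.ext (Subtype.ext (toDiv_injective h1))
  · -- surjective
    rintro ⟨E, hE0, hEfix, hEpr⟩
    obtain ⟨D, rfl⟩ := exists_toDiv_eq hE0
    have hDinv : D ∈ invDivs (plPerm (g ^ r)) := (smul_toDiv_eq_iff (g ^ r) D).1 hEfix
    have hdegD : tdeg D = N := by
      have h1 := degree_eq_zero_of_mem_principal hEpr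
      rw [map_sub, map_add, hDγ, map_zsmul, Divisor.degree_single, hP0, degree_toDiv hdeg] at h1
      have h2 : ((tdeg D : ℕ) : ℤ) = (N : ℤ) := by
        simp only [zero_add, smul_eq_mul, Nat.cast_one, mul_one] at h1
        linarith
      exact_mod_cast h2
    refine ⟨⟨⟨D, hDinv⟩, hdegD, ?_⟩, rfl⟩
    apply Subtype.ext
    rw [coe_kapAt, ← hγ, clsAt_apply, pic0_mk_eq_mk_iff, key D hdegD]
    exact hEpr

/-! ### The image of the trace -/

/-- The image of the trace `Γ_{rℓ} → Γ_r`, as a subgroup of `Γ_r`. -/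
def trImage (g : SemilinearAut K F) (r ℓ : ℕ) : AddSubgroup (helper5747.Gam g r) where
  carrier := {γ | ∃ y ∈ helper5747.Gam g (r * ℓ),
    ∑ i ∈ Finset.range ℓ, ((g ^ r) ^ i) • y = (γ : Pic0 K F)}
  zero_mem' := ⟨0, zero_mem _,
    Finset.sum_eq_zero fun i _ => smul_zero (A := Pic0 K F) ((g ^ r) ^ i)⟩
  add_mem' := by
    rintro a b ⟨y, hy, hya⟩ ⟨z, hz, hzb⟩
    refine ⟨y + z, add_mem hy hz, ?_⟩
    simp only [smul_add, Finset.sum_add_distrib, hya, hzb, AddSubgroup.coe_add]
  neg_mem' := by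
    rintro a ⟨y, hy, hya⟩
    refine ⟨-y, neg_mem hy, ?_⟩
    simp only [smul_neg, Finset.sum_neg_distrib, hya, AddSubgroup.coe_neg]

theorem mem_trImage {g : SemilinearAut K F} {r ℓ : ℕ} {γ : helper5747.Gam g r} :
    γ ∈ trImage g r ℓ ↔ ∃ y ∈ helper5747.Gam g (r * ℓ),
      ∑ i ∈ Finset.range ℓ, ((g ^ r) ^ i) • y = (γ : Pic0 K F) := Iff.rfl

theorem nsmul_mem_trImage (g : SemilinearAut K F) (r ℓ : ℕ) (γ : helper5747.Gam g r) :
    ℓ • γ ∈ trImage g r ℓ := by
  refine ⟨γ.1, helper5747.Gam_le_mul g r ℓ γ.2, ?_⟩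
  have h : ∀ i : ℕ, ((g ^ r) ^ i) • (γ : Pic0 K F) = γ := fun i =>
    smul_pow_eq_of_smul_eq (helper5747.smul_eq_of_mem_Gam γ.2) i
  rw [Finset.sum_congr rfl fun i _ => h i]
  simp

theorem sum_range_mul_eq {M : Type*} [AddCommMonoid M] (f : ℕ → M) (l e : ℕ) :
    ∑ k ∈ Finset.range (l * e), f k
      = ∑ j ∈ Finset.range e, ∑ i ∈ Finset.range l, f (l * j + i) := by
  induction e with
  | zero => simp
  | succ e ih => rw [Nat.mul_succ, Finset.sum_range_add, ih, Finset.sum_range_succ]

theorem toDiv_orbSum (h : SemilinearAut K F) (x : Place K F) (d : ℕ) :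
    toDiv (orbSum (plPerm h) x d)
      = ∑ k ∈ Finset.range d, Finsupp.single ((h ^ k) • x) (1 : ℤ) := by
  unfold orbSum
  rw [map_sum]
  refine Finset.sum_congr rfl fun k _ => ?_
  rw [toDiv_single, plPerm_pow_apply, Nat.cast_one]

/-- **Orbit splitting.**  The class of an orbit sum of length divisible by `ℓ` is a trace. -/
theorem kapAt_orbSum_mem_trImage (g : SemilinearAut K F) (r ℓ : ℕ) (P0 : Place K F)
    (hP0 : P0.deg = 1) (hg : (g ^ r) • P0 = P0) (x : Place K F) (d : ℕ)
    (hx : (plPerm (g ^ r) ^ d) x = x) (hℓd : ℓ ∣ d) :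
    kapAt g r P0 hP0 hg ⟨orbSum (plPerm (g ^ r)) x d, orbSum_mem_invDivs _ x d hx⟩
      ∈ trImage g r ℓ := by
  obtain ⟨e, rfl⟩ := hℓd
  have hx1 : ((g ^ r) ^ (ℓ * e)) • x = x := by rw [← plPerm_pow_apply]; exact hx
  set D1 : Divisor K F :=
    ∑ j ∈ Finset.range e, Finsupp.single (((g ^ r) ^ (ℓ * j)) • x) (1 : ℤ) with hD1
  have hfix : (g ^ (r * ℓ)) • D1 = D1 := by
    rw [hD1, Finset.smul_sum]
    have h1 : ∀ j, (g ^ (r * ℓ)) • Finsupp.single (((g ^ r) ^ (ℓ * j)) • x) (1 : ℤ)
        = Finsupp.single (((g ^ r) ^ (ℓ * (j + 1))) • x) (1 : ℤ) := by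
      intro j
      rw [SemilinearAut.smul_single, ← mul_smul, pow_mul, ← pow_add]
      congr 3
      ring
    rw [Finset.sum_congr rfl fun j _ => h1 j]
    have h2 := Finset.sum_range_succ
      (fun j => Finsupp.single (((g ^ r) ^ (ℓ * j)) • x) (1 : ℤ)) e
    have h3 := Finset.sum_range_succ'
      (fun j => Finsupp.single (((g ^ r) ^ (ℓ * j)) • x) (1 : ℤ)) e
    rw [h2] at h3
    simp only [mul_zero, pow_zero, one_smul] at h3
    rw [hx1] at h3
    exact (add_right_cancel h3).symm
  have hgℓ : (g ^ (r * ℓ)) • P0 = P0 := by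
    rw [pow_mul]; exact smul_pow_eq_of_smul_eq hg ℓ
  refine ⟨clsAt P0 hP0 D1, clsAt_mem_Gam g (r * ℓ) P0 hP0 hgℓ hfix, ?_⟩
  rw [coe_kapAt]
  have h1 : ∀ i, ((g ^ r) ^ i) • clsAt P0 hP0 D1 = clsAt P0 hP0 (((g ^ r) ^ i) • D1) :=
    fun i => smul_clsAt _ P0 hP0 (smul_pow_eq_of_smul_eq hg i) D1
  rw [Finset.sum_congr rfl fun i _ => h1 i, ← map_sum]
  congr 1
  rw [toDiv_orbSum, sum_range_mul_eq, Finset.sum_comm]
  refine Finset.sum_congr rfl fun i _ => ?_
  rw [hD1, Finset.smul_sum]
  refine Finset.sum_congr rfl fun j _ => ?_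
  rw [SemilinearAut.smul_single, ← mul_smul, ← pow_add]
  congr 3
  ring

/-! ### Surjectivity of the trace -/

/-- **The trace `Γ_{rℓ} → Γ_r` is onto** (hypothesis-passing form): from the class count for
`g ^ r` with `Q ≥ 2`, Riemann–Roch with duality, a fixed rational place and finiteness of
`Γ_r`. -/
theorem trImage_eq_top [HasPrincipalDivisors K F] (g : SemilinearAut K F) (r ℓ : ℕ)
    [Fact ℓ.Prime] [Finite (helper5747.Gam g r)] (P0 : Place K F) (hg : (g ^ r) • P0 = P0)
    (hdeg : ∀ v : Place K F, v.deg = 1) (Q : ℕ) (hQ : 2 ≤ Q)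
    (hrr : ∃ W : Divisor K F, Divisor.degree W = 2 * (genusFF K F : ℤ) - 2 ∧
      ∀ D : Divisor K F, (Module.finrank K (riemannRochSpace D) : ℤ)
        = Divisor.degree D + 1 - genusFF K F + Module.finrank K (riemannRochSpace (W - D)))
    (hcls : ∀ D₀ : Divisor K F, (g ^ r) • D₀ = D₀ →
      (Q - 1) * Nat.card {D : Divisor K F // 0 ≤ D ∧ (g ^ r) • D = D ∧
          D - D₀ ∈ Divisor.principal (K := K) (F := F)}
        = Q ^ Module.finrank K (riemannRochSpace D₀) - 1) :
    trImage g r ℓ = ⊤ := by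
  obtain ⟨W, hW, hrrW⟩ := hrr
  have hP0 : P0.deg = 1 := hdeg P0
  refine trace_surjective_place_of_count (plPerm (g ^ r)) P0 hg (kapAt g r P0 hP0 hg) ℓ
    (2 * genusFF K F) (fun N => (Q ^ (N + 1 - genusFF K F) - 1) / (Q - 1)) ?_ ?_
    (trImage g r ℓ) (nsmul_mem_trImage g r ℓ)
    (fun x d hx hd => kapAt_orbSum_mem_trImage g r ℓ P0 hP0 hg x d hx hd)
  · intro N hN γ
    obtain ⟨Dγ, hfixγ, hγ⟩ := γ.2
    rw [card_class_eq g r P0 hP0 hg hdeg N γ Dγ hγ]
    have hD0fix : (g ^ r) • ((Dγ : Divisor K F) + (N : ℤ) • Finsupp.single P0 (1 : ℤ))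
        = (Dγ : Divisor K F) + (N : ℤ) • Finsupp.single P0 (1 : ℤ) := by
      rw [smul_add, hfixγ, smul_zsmul_single, hg]
    have hdegD0 : Divisor.degree ((Dγ : Divisor K F) + (N : ℤ) • Finsupp.single P0 (1 : ℤ))
        = N := by
      have hDγ : Divisor.degree (Dγ : Divisor K F) = 0 := Dγ.2
      rw [map_add, hDγ, map_zsmul, Divisor.degree_single, hP0]
      simp
    have hfr : Module.finrank K
        (riemannRochSpace ((Dγ : Divisor K F) + (N : ℤ) • Finsupp.single P0 (1 : ℤ)))
        = N + 1 - genusFF K F := by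
      have h1 := finrank_riemannRochSpace_of_large hW hrrW
        (D := (Dγ : Divisor K F) + (N : ℤ) • Finsupp.single P0 (1 : ℤ))
        (by rw [hdegD0]; have : (2 * genusFF K F : ℤ) ≤ N := by exact_mod_cast hN
            linarith)
      rw [hdegD0] at h1
      omega
    have h2 := hcls _ hD0fix
    rw [hfr] at h2
    exact (Nat.div_eq_of_eq_mul_right (by omega) h2.symm).symm
  · intro N hN
    have he : N + 1 - genusFF K F ≠ 0 := by omega
    have h1 : Q ≤ Q ^ (N + 1 - genusFF K F) := Nat.le_self_pow he Q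
    exact (Nat.div_pos (by omega) (by omega)).ne'

/-- **`Stmt_Norm` from `Stmt_Cls` and `Stmt_Fin`** (verbatim Spec leaf). -/
theorem stmt_Norm_of (hCls : helper5747.Stmt_Cls) (hFin : helper5747.Stmt_Fin) :
    helper5747.Stmt_Norm := by
  intro K F _ _ _ _ _ q g hS ℓ _ _ r hr x hx
  obtain ⟨P0, hP0g⟩ := hS.fixedPlace
  have hg : (g ^ r) • P0 = P0 := smul_pow_eq_of_smul_eq hP0g r
  have : Finite (helper5747.Gam g r) := hFin K F q g hS r hr
  have hq : 2 ≤ q ^ r := by
    obtain ⟨p, f, hp, -, hf, rfl⟩ := hS.pow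
    rw [← pow_mul]
    exact Nat.one_lt_pow (Nat.mul_ne_zero hf.ne' hr.ne') hp.one_lt
  have key := trImage_eq_top g r ℓ P0 hg hS.deg (q ^ r) hq hS.rrd (hCls K F q g hS r hr)
  have hmem : (⟨x, hx⟩ : helper5747.Gam g r) ∈ trImage g r ℓ := by
    rw [key]; exact AddSubgroup.mem_top _
  exact hmem

end Fermat.Agent.S27.helper1360
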