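/-
S27, algebraic track: the characteristic `p` core `helper5747.Stmt_Core`, unconditionally
(helper1360).  Pure assembly of landed leaves:
`helper1121.stmt_Core_of_norm (helper1360.stmt_Norm_of helper1121.stmt_Cls helper1121.stmt_Fin)`.
-/
import Fermat.Agent.S27.helper1121_CoreAsm
import Fermat.Agent.S27.helper1360_NormFeed

set_option autoImplicit false

namespace Fermat.Agent.S27.helper1360

/-- **NORM**, verbatim and unconditional: the trace `Γ_{rℓ} → Γ_r` is onto. -/
theorem stmt_Norm : helper5747.Stmt_Norm :=
  stmt_Norm_of helper1121.stmt_Cls helper1121.stmt_Fin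

/-- **CORE**, verbatim and unconditional: `#Pic⁰[ℓ^k] = ℓ^(2gk)` in every Frobenius setting. -/
theorem stmt_Core : helper5747.Stmt_Core :=
  helper1121.stmt_Core_of_norm stmt_Norm

end Fermat.Agent.S27.helper1360
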