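/-
S27, algebraic track, char-p core: NORM + GRP feed (helper1360).

`Gamma g r` = classes of `g^r`-fixed degree-zero divisors, for a semilinear automorphism `g`
of a function field `F/K` (Prelude `SemilinearAut K F`).  Tower properties (monotone, fixed
pointwise, exhaustion, trace lands in `Gamma g r`) and, from an abstract norm-index core,
surjectivity of the trace `Gamma g (r*ℓ) → Gamma g r`.
-/
import Mathlib
import Fermat.Prelude.Def_AlgebraicCurve_BaseChangeGalois
import Fermat.Prelude.Def_AlgebraicCurve_Repartitions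

set_option autoImplicit false

open AlgebraicCurve

namespace Fermat.Agent.S27.helper1360

variable {K F : Type*} [Field K] [Field F] [Algebra K F]

/-! ### The groups `Gamma g r` -/

/-- Classes of `g^r`-fixed divisors of degree zero. -/
def Gamma (g : SemilinearAut K F) (r : ℕ) : AddSubgroup (Pic0 K F) where
  carrier := {x | ∃ D : Divisor.degZero (K := K) (F := F),
    (g ^ r) • (D : Divisor K F) = D ∧ Pic0.mk D = x}
  zero_mem' := ⟨0, by simp, rfl⟩
  add_mem' := by
    rintro x y ⟨D, hD, rfl⟩ ⟨E, hE, rfl⟩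
    refine ⟨D + E, ?_, rfl⟩
    rw [AddSubgroup.coe_add, smul_add, hD, hE]
  neg_mem' := by
    rintro x ⟨D, hD, rfl⟩
    refine ⟨-D, ?_, rfl⟩
    rw [AddSubgroup.coe_neg, smul_neg, hD]

theorem mem_Gamma {g : SemilinearAut K F} {r : ℕ} {x : Pic0 K F} :
    x ∈ Gamma g r ↔ ∃ D : Divisor.degZero (K := K) (F := F),
      (g ^ r) • (D : Divisor K F) = D ∧ Pic0.mk D = x := Iff.rfl

theorem pow_smul_eq_of_smul_eq {M α : Type*} [Monoid M] [MulAction M α] {h : M} {a : α}
    (ha : h • a = a) (k : ℕ) : (h ^ k) • a = a := by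
  induction k with
  | zero => simp
  | succ k ih => rw [pow_succ, mul_smul, ha, ih]

/-- (N1) monotone with respect to divisibility. -/
theorem Gamma_mono (g : SemilinearAut K F) {r s : ℕ} (h : r ∣ s) : Gamma g r ≤ Gamma g s := by
  rintro x ⟨D, hD, rfl⟩
  obtain ⟨k, rfl⟩ := h
  exact ⟨D, by rw [pow_mul]; exact pow_smul_eq_of_smul_eq hD k, rfl⟩

/-- (N2) `g^r` fixes `Gamma g r` pointwise. -/
theorem smul_eq_of_mem_Gamma (g : SemilinearAut K F) {r : ℕ} {x : Pic0 K F}
    (hx : x ∈ Gamma g r) : (g ^ r) • x = x := by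
  obtain ⟨D, hD, rfl⟩ := hx
  rw [SemilinearAut.pic0_smul_mk]
  exact congrArg Pic0.mk (Subtype.ext (by rw [SemilinearAut.coe_degZeroSMulHom, hD]))

/-- (N3) exhaustion: if every place is periodic, every class lies in some `Gamma g r`. -/
theorem exists_mem_Gamma (g : SemilinearAut K F)
    (hper : ∀ v : Place K F, ∃ m : ℕ, 0 < m ∧ (g ^ m) • v = v) (x : Pic0 K F) :
    ∃ r : ℕ, 0 < r ∧ x ∈ Gamma g r := by
  classical
  obtain ⟨D, rfl⟩ := Pic0.mk_surjective x
  choose m hm0 hm using hper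
  refine ⟨∏ v ∈ (D : Divisor K F).support, m v, Finset.prod_pos fun v _ => hm0 v, D, ?_, rfl⟩
  rw [SemilinearAut.divisor_smul_def]
  conv_rhs => rw [← Finsupp.mapDomain_id (v := (D : Divisor K F))]
  refine Finsupp.mapDomain_congr fun v hv => ?_
  obtain ⟨k, hk⟩ := Finset.dvd_prod_of_mem m hv
  rw [hk, pow_mul]
  exact pow_smul_eq_of_smul_eq (hm v) k

/-- (N4) the trace `∑_{i<n} g^(r i)` maps `Gamma g (r*n)` into `Gamma g r`. -/
theorem sum_smul_mem_Gamma (g : SemilinearAut K F) {r n : ℕ} {y : Pic0 K F}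
    (hy : y ∈ Gamma g (r * n)) :
    ∑ i ∈ Finset.range n, (g ^ (r * i)) • y ∈ Gamma g r := by
  obtain ⟨D, hD, rfl⟩ := hy
  refine ⟨∑ i ∈ Finset.range n, SemilinearAut.degZeroSMulHom (g ^ (r * i)) D, ?_, ?_⟩
  · have hcoe : ((∑ i ∈ Finset.range n, SemilinearAut.degZeroSMulHom (g ^ (r * i)) D :
        Divisor.degZero (K := K) (F := F)) : Divisor K F)
        = ∑ i ∈ Finset.range n, (g ^ (r * i)) • (D : Divisor K F) := by
      rw [AddSubgroup.val_finsetSum]
      rfl
    rw [hcoe, Finset.smul_sum]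
    have h1 : ∀ i, (g ^ r) • ((g ^ (r * i)) • (D : Divisor K F))
        = (g ^ (r * (i + 1))) • (D : Divisor K F) := by
      intro i
      rw [← mul_smul, ← pow_add]
      congr 2
      ring
    rw [Finset.sum_congr rfl fun i _ => h1 i]
    have h2 := Finset.sum_range_succ (fun i => (g ^ (r * i)) • (D : Divisor K F)) n
    have h3 := Finset.sum_range_succ' (fun i => (g ^ (r * i)) • (D : Divisor K F)) n
    rw [h2] at h3
    simp only [mul_zero, pow_zero, one_smul] at h3
    rw [hD] at h3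
    exact (add_right_cancel h3).symm
  · show Pic0.mk (∑ i ∈ Finset.range n, SemilinearAut.degZeroSMulHom (g ^ (r * i)) D) = _
    have : Pic0.mk (∑ i ∈ Finset.range n, SemilinearAut.degZeroSMulHom (g ^ (r * i)) D)
        = ∑ i ∈ Finset.range n, Pic0.mk (SemilinearAut.degZeroSMulHom (g ^ (r * i)) D) :=
      map_sum (QuotientAddGroup.mk' _) _ _
    rw [this]
    rfl

/-- On `Gamma g r` the trace `∑_{i<n} g^(r i)` is multiplication by `n`. -/
theorem sum_smul_eq_nsmul_of_mem_Gamma (g : SemilinearAut K F) {r : ℕ} (n : ℕ) {x : Pic0 K F}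
    (hx : x ∈ Gamma g r) : ∑ i ∈ Finset.range n, (g ^ (r * i)) • x = n • x := by
  have h : ∀ i : ℕ, (g ^ (r * i)) • x = x := fun i => by
    rw [pow_mul]; exact pow_smul_eq_of_smul_eq (smul_eq_of_mem_Gamma g hx) i
  rw [Finset.sum_congr rfl fun i _ => h i]
  simp

end Fermat.Agent.S27.helper1360
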