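import Fermat.Agent.S27.helper6247_Spec
import Fermat.Agent.S24.helper204_Places
import Fermat.Agent.S24.helper1370_PlaceBasics

/-!
# S27-M1b: the separating coordinate (`Stmt_SepCoord` of `helper6247_Spec`)

If `u` is a uniformizer at the place `P`, there is `y`, integral over `K[u]`, such that
`P` is a simple point of the plane model `(u, y)`.

Design (fundamental identity counting): choose `y` in the integral closure of `K[u]` with
pairwise distinct values `b v` at the zeros `v` of `u` and `y - b v` a uniformizer at `v`.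
Let `χ` be the minimal polynomial of `y` over `K[u]`, `q = χ(0, Y)`.  Then `q(y) ∈ u * O_v`,
so `ord_v u ≤ ord_v q(y) = rootMultiplicity (b v) q`, and
`n = ∑ ord_v u ≤ ∑ rootMultiplicity (b v) q ≤ deg q = deg χ ≤ n`.
Hence `deg χ = n` (so `y` is primitive) and `rootMultiplicity (b P) q = ord_P u = 1`.
-/

set_option autoImplicit false

open AlgebraicCurve IntermediateField Polynomial
open scoped Polynomial.Bivariate

namespace Fermat.Agent.S27.helper1362

open Fermat.Agent.S24
open Fermat.Agent.S27.helper6247 (ev Stmt_Ev Stmt_SepCoord)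

noncomputable section

variable {K : Type*} {F : Type*} [Field K] [Field F] [Algebra K F]

/-- `ev P f = c` as soon as `f - c` vanishes at `P`. -/
theorem ev_eq_of_ord_pos (P : Place K F) {f : F} {c : K}
    (h : 0 < P.ord (f - algebraMap K F c)) : ev P f = c := by
  classical
  have hlt : ∀ g : F, 0 < P.ord g → P.adicValuation g < 1 := by
    intro g hg
    have hg0 : g ≠ 0 := by
      rintro rfl
      simp at hg
    have hne := P.adicValuation_ne_zero hg0
    have : 0 < -(WithZero.log (P.adicValuation g)) := hg
    rw [← WithZero.exp_zero, ← WithZero.log_lt_iff_lt_exp hne]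
    omega
  have hex : ∃ c : K, P.adicValuation (f - algebraMap K F c) < 1 := ⟨c, hlt _ h⟩
  have hc := hex.choose_spec
  have hev : ev P f = hex.choose := by
    unfold Fermat.Agent.S27.helper6247.ev
    rw [dif_pos hex]
  rw [hev]
  set c' := hex.choose with hc'
  by_contra hne
  rcases eq_or_ne (f - algebraMap K F c') 0 with h0 | h0
  · have hf : f = algebraMap K F c' := sub_eq_zero.mp h0
    rw [hf, ← map_sub, helper1370.ord_algebraMap] at h
    exact lt_irrefl _ h
  · have hpos : 0 < P.ord (f - algebraMap K F c') := by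
      have hne' := P.adicValuation_ne_zero h0
      have h1 : WithZero.log (P.adicValuation (f - algebraMap K F c')) < 0 := by
        rw [WithZero.log_lt_iff_lt_exp hne', WithZero.exp_zero]
        exact hc
      show 0 < -(WithZero.log (P.adicValuation (f - algebraMap K F c')))
      omega
    exact hne (helper1370.eq_of_ord_sub_algebraMap_pos P hpos h)

/-- Polynomial expressions over `K` in an element regular at `v` are regular at `v`. -/
theorem aeval_mem (v : Place K F) {y : F} (hy : y ∈ v.toValuationSubring) (p : K[X]) :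
    aeval y p ∈ v.toValuationSubring :=
  helper204.adjoin_le_of_mem v hy _ (Polynomial.aeval_mem_adjoin_singleton K y)

/-- `aevalAeval u y` as an `eval₂`. -/
theorem aevalAeval_eq_eval₂ (u y : F) (G : K[X][Y]) :
    aevalAeval u y G = eval₂ (aeval u : K[X] →ₐ[K] F).toRingHom y G := by
  have h : (aevalAeval u y : K[X][Y] →ₐ[K] F).toRingHom
      = eval₂RingHom (aeval u : K[X] →ₐ[K] F).toRingHom y := by
    apply Polynomial.ringHom_ext
    · intro a
      simp
    · simp
  exact congrArg (fun f : K[X][Y] →+* F => f G) h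

/-- Two-variable polynomial expressions in elements regular at `v` are regular at `v`. -/
theorem aevalAeval_mem (v : Place K F) {u y : F} (hu : u ∈ v.toValuationSubring)
    (hy : y ∈ v.toValuationSubring) (G : K[X][Y]) :
    aevalAeval u y G ∈ v.toValuationSubring := by
  rw [aevalAeval_eq_eval₂, eval₂_eq_sum_range]
  exact sum_mem fun i _ => mul_mem (aeval_mem v hu _) (pow_mem hy i)

/-- `G(u, y) ≡ G(0, y)` modulo `u`, with a polynomial cofactor. -/
theorem exists_aevalAeval_eq (u y : F) (G : K[X][Y]) :
    ∃ H : K[X][Y], aevalAeval u y G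
      = aeval y (G.map (evalRingHom (0 : K))) + u * aevalAeval u y H := by
  induction G using Polynomial.induction_on' with
  | add G₁ G₂ h₁ h₂ =>
    obtain ⟨H₁, hH₁⟩ := h₁
    obtain ⟨H₂, hH₂⟩ := h₂
    refine ⟨H₁ + H₂, ?_⟩
    rw [map_add, hH₁, hH₂, Polynomial.map_add, map_add, map_add]
    ring
  | monomial n a =>
    refine ⟨monomial n a.divX, ?_⟩
    rw [aevalAeval_eq_eval₂, aevalAeval_eq_eval₂, eval₂_monomial, eval₂_monomial,
      Polynomial.map_monomial, aeval_monomial]
    have h := Polynomial.divX_mul_X_add a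
    have h2 : aeval u a = aeval u a.divX * u + algebraMap K F (a.coeff 0) := by
      conv_lhs => rw [← h]
      simp [aeval_C]
    simp only [AlgHom.toRingHom_eq_coe, RingHom.coe_coe, coe_evalRingHom]
    rw [h2, Polynomial.coeff_zero_eq_eval_zero]
    ring

/-- If `y - b` is a uniformizer at `v`, the order at `v` of `q(y)` is the multiplicity of the
root `b` of `q`. -/
theorem ord_aeval_eq_rootMultiplicity (v : Place K F) {y : F} {b : K}
    (hy : v.ord (y - algebraMap K F b) = 1) {q : K[X]} (hq : q ≠ 0) :
    v.ord (aeval y q) = (q.rootMultiplicity b : ℤ) := by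
  obtain ⟨h, hqh, hnd⟩ := Polynomial.exists_eq_pow_rootMultiplicity_mul_and_not_dvd q hq b
  have hyt : Transcendental K y := fun halg => by
    have := helper1370.ord_eq_zero_of_isAlgebraic v (halg.sub (isAlgebraic_algebraMap b))
    omega
  have hyb0 : y - algebraMap K F b ≠ 0 := by
    intro h0
    rw [h0, Place.ord_zero] at hy
    omega
  have hyreg : y ∈ v.toValuationSubring := by
    have h1 : y - algebraMap K F b ∈ v.toValuationSubring :=
      helper1370.mem_of_ord_nonneg v (by omega)
    have := add_mem h1 (v.algebraMap_mem' b)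
    simpa using this
  have hb : h.eval b ≠ 0 := fun h0 => hnd (dvd_iff_isRoot.mpr h0)
  have hh0 : h ≠ 0 := by
    rintro rfl
    simp at hb
  have hah0 : aeval y h ≠ 0 := fun h0 => hh0 (transcendental_iff.mp hyt h h0)
  have h1 : aeval y h = algebraMap K F (h.eval b)
      + (y - algebraMap K F b) * aeval y (h /ₘ (X - C b)) := by
    have := Polynomial.modByMonic_add_div h (X - C b)
    rw [Polynomial.modByMonic_X_sub_C_eq_C_eval] at this
    conv_lhs => rw [← this]
    simp [aeval_C]
  have h2 : v.ord (aeval y h) = 0 := by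
    rw [h1]
    rcases eq_or_ne ((y - algebraMap K F b) * aeval y (h /ₘ (X - C b))) 0 with h0 | h0
    · rw [h0, add_zero, helper1370.ord_algebraMap]
    · have hlt : v.ord (algebraMap K F (h.eval b))
          < v.ord ((y - algebraMap K F b) * aeval y (h /ₘ (X - C b))) := by
        rw [helper1370.ord_algebraMap,
          v.ord_mul (left_ne_zero_of_mul h0) (right_ne_zero_of_mul h0), hy]
        have := helper1370.ord_nonneg_of_mem v (aeval_mem v hyreg (h /ₘ (X - C b)))
        omega
      rw [helper1370.ord_add_eq_of_lt v ((_root_.map_ne_zero _).mpr hb) hlt, helper1370.ord_algebraMap]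
  have hq' : aeval y q = (y - algebraMap K F b) ^ (q.rootMultiplicity b) * aeval y h := by
    conv_lhs => rw [hqh]
    simp [aeval_C]
  rw [hq', v.ord_mul (pow_ne_zero _ hyb0) hah0, helper1370.ord_pow, hy, h2]
  ring

open scoped IntermediateField.algebraAdjoinAdjoin in
/-- **Half B** (counting).  If `y` is integral over `K[u]`, takes pairwise distinct values
`b v` at the zeros `v` of `u`, and `y - b v` is a uniformizer at each such `v`, then the
minimal polynomial `χ` of `y` over `K[u]` is a plane model of `F` in which every unramified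
zero `P` of `u` is a simple point. -/
theorem sepCoord_of_sep_element [IsAlgClosed K] [CharZero K]
    (u : F) (hu : Transcendental K u) [FiniteDimensional K⟮u⟯ F]
    (P : Place K F) (hP : P.ord u = 1) (y : F) (b : Place K F → K)
    (hy : IsIntegral (Algebra.adjoin K {u}) y)
    (h1 : ∀ v : Place K F, 0 < v.ord u → v.ord (y - algebraMap K F (b v)) = 1)
    (hinj : ∀ v w : Place K F, 0 < v.ord u → 0 < w.ord u → b v = b w → v = w) :
    ∃ χ : K[X][Y], χ.Monic ∧ IntermediateField.adjoin K {u, y} = ⊤ ∧
      aevalAeval u y χ = 0 ∧ (∀ G : K[X][Y], aevalAeval u y G = 0 → χ ∣ G) ∧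
      0 ≤ P.ord y ∧ χ.evalEval 0 (ev P y) = 0 ∧ (derivative χ).evalEval 0 (ev P y) ≠ 0 := by
  classical
  let e : K[X] ≃ₐ[K] Algebra.adjoin K {u} := Polynomial.algEquivOfTranscendental K u hu
  have he : ∀ p : K[X], ((e p : Algebra.adjoin K {u}) : F) = aeval u p := by
    intro p
    show ((aeval (⟨u, Algebra.self_mem_adjoin_singleton K u⟩ : Algebra.adjoin K {u}) p
      : Algebra.adjoin K {u}) : F) = aeval u p
    rw [Polynomial.aeval_subalgebra_coe]
  have hmon₀ : (minpoly (Algebra.adjoin K {u}) y).Monic := minpoly.monic hy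
  set χ : K[X][Y] := (minpoly (Algebra.adjoin K {u}) y).map
    (e.symm : Algebra.adjoin K {u} →+* K[X]) with hχ
  have hmon : χ.Monic := hmon₀.map _
  have hcomp1 : ((aeval u : K[X] →ₐ[K] F).toRingHom).comp
      (e.symm : Algebra.adjoin K {u} →+* K[X]) = algebraMap (Algebra.adjoin K {u}) F := by
    refine RingHom.ext fun r => ?_
    have := he (e.symm r)
    rw [AlgEquiv.apply_symm_apply] at this
    simpa using this.symm
  have hcomp2 : (algebraMap (Algebra.adjoin K {u}) F).comp (e : K[X] →+* Algebra.adjoin K {u})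
      = (aeval u : K[X] →ₐ[K] F).toRingHom := by
    refine RingHom.ext fun p => ?_
    simpa using he p
  have hχ0 : aevalAeval u y χ = 0 := by
    rw [aevalAeval_eq_eval₂, hχ, eval₂_map, hcomp1]
    exact minpoly.aeval (Algebra.adjoin K {u}) y
  have hdvd : ∀ G : K[X][Y], aevalAeval u y G = 0 → χ ∣ G := by
    intro G hG
    have h0 : aeval y (G.map (e : K[X] →+* Algebra.adjoin K {u})) = 0 := by
      rw [aeval_def, eval₂_map, hcomp2, ← aevalAeval_eq_eval₂]
      exact hG
    have h2 := minpoly.isIntegrallyClosed_dvd hy h0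
    have h3 := Polynomial.map_dvd (e.symm : Algebra.adjoin K {u} →+* K[X]) h2
    rw [Polynomial.map_map] at h3
    have h4 : (e.symm : Algebra.adjoin K {u} →+* K[X]).comp
        (e : K[X] →+* Algebra.adjoin K {u}) = RingHom.id _ :=
      RingHom.ext fun p => by simp
    rw [h4, Polynomial.map_id] at h3
    exact h3
  -- degrees
  have hχdeg : χ.natDegree = (minpoly (Algebra.adjoin K {u}) y).natDegree :=
    hmon₀.natDegree_map _
  have hfrac : minpoly K⟮u⟯ y = (minpoly (Algebra.adjoin K {u}) y).map
      (algebraMap (Algebra.adjoin K {u}) K⟮u⟯) :=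
    minpoly.isIntegrallyClosed_eq_field_fractions' K⟮u⟯ hy
  have hfdeg : (minpoly K⟮u⟯ y).natDegree = χ.natDegree := by
    rw [hfrac, hχdeg]
    exact hmon₀.natDegree_map _
  have hdeg : χ.natDegree ≤ Module.finrank K⟮u⟯ F := by
    rw [← hfdeg]
    exact minpoly.natDegree_le y
  -- the zeros of `u`
  obtain ⟨s, hs, hsum⟩ := helper204.exists_finset_zeros (K := K) (F := F) hu 0
  simp only [map_zero, sub_zero] at hs hsum
  set q : K[X] := χ.map (evalRingHom (0 : K)) with hq
  have hqmon : q.Monic := hmon.map _
  have hq0 : q ≠ 0 := hqmon.ne_zero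
  have hqdeg : q.natDegree = χ.natDegree := hmon.natDegree_map _
  obtain ⟨H, hH⟩ := exists_aevalAeval_eq u y χ
  rw [hχ0] at hH
  have hkey : ∀ v ∈ s, v.ord u ≤ (q.rootMultiplicity (b v) : ℤ) := by
    intro v hv
    have hvu : 0 < v.ord u := (hs v).mp hv
    have hyv := h1 v hvu
    have hureg : u ∈ v.toValuationSubring := helper1370.mem_of_ord_nonneg v hvu.le
    have hyreg : y ∈ v.toValuationSubring := by
      have h1 : y - algebraMap K F (b v) ∈ v.toValuationSubring :=
        helper1370.mem_of_ord_nonneg v (by omega)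
      have := add_mem h1 (v.algebraMap_mem' (b v))
      simpa using this
    have hyt : Transcendental K y := fun halg => by
      have := helper1370.ord_eq_zero_of_isAlgebraic v
        (halg.sub (isAlgebraic_algebraMap (b v)))
      omega
    have hqy0 : aeval y q ≠ 0 := fun h0 => hq0 (transcendental_iff.mp hyt q h0)
    rw [← ord_aeval_eq_rootMultiplicity v hyv hq0]
    have hW := aevalAeval_mem v hureg hyreg H
    have hqy : aeval y q = -(u * aevalAeval u y H) := eq_neg_of_add_eq_zero_left hH.symm
    have hprod0 : u * aevalAeval u y H ≠ 0 := by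
      intro h0
      rw [h0, neg_zero] at hqy
      exact hqy0 hqy
    rw [hqy, helper1370.ord_neg, v.ord_mul (left_ne_zero_of_mul hprod0)
      (right_ne_zero_of_mul hprod0)]
    have := helper1370.ord_nonneg_of_mem v hW
    omega
  have hcount : ∑ v ∈ s, (q.rootMultiplicity (b v) : ℤ) ≤ q.natDegree := by
    have hinj' : Set.InjOn b s := fun v hv w hw h =>
      hinj v w ((hs v).mp hv) ((hs w).mp hw) h
    have hN : ∑ v ∈ s, q.rootMultiplicity (b v) ≤ q.natDegree := by
      calc ∑ v ∈ s, q.rootMultiplicity (b v) = ∑ v ∈ s, q.roots.count (b v) := by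
            simp [count_roots]
        _ = ∑ a ∈ s.image b, q.roots.count a :=
            (Finset.sum_image (f := fun a => q.roots.count a) hinj').symm
        _ ≤ ∑ a ∈ q.roots.toFinset, q.roots.count a :=
            Finset.sum_le_sum_of_ne_zero fun a _ ha =>
              Multiset.mem_toFinset.mpr (Multiset.count_ne_zero.mp ha)
        _ = Multiset.card q.roots := Multiset.toFinset_sum_count_eq _
        _ ≤ q.natDegree := Polynomial.card_roots' q
    exact_mod_cast hN
  have hle1 : ∑ v ∈ s, v.ord u ≤ ∑ v ∈ s, (q.rootMultiplicity (b v) : ℤ) :=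
    Finset.sum_le_sum hkey
  have hdeg' : (χ.natDegree : ℤ) ≤ Module.finrank K⟮u⟯ F := by exact_mod_cast hdeg
  have hqdeg' : (q.natDegree : ℤ) = χ.natDegree := by exact_mod_cast hqdeg
  have heq1 : ∑ v ∈ s, v.ord u = ∑ v ∈ s, (q.rootMultiplicity (b v) : ℤ) := by omega
  have heq2 : χ.natDegree = Module.finrank K⟮u⟯ F := by omega
  have hPs : P ∈ s := (hs P).mpr (by omega)
  have hkP : q.rootMultiplicity (b P) = 1 := by
    have := (Finset.sum_eq_sum_iff_of_le hkey).mp heq1 P hPs
    rw [hP] at this
    exact_mod_cast this.symm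
  have hyP := h1 P (by omega)
  have hevP : ev P y = b P := ev_eq_of_ord_pos P (by omega)
  have hroot : q.IsRoot (b P) := (rootMultiplicity_pos hq0).mp (by omega)
  refine ⟨χ, hmon, ?_, hχ0, hdvd, ?_, ?_, ?_⟩
  · have h3 : K⟮u⟯⟮y⟯ = ⊤ :=
      (Field.primitive_element_iff_minpoly_natDegree_eq K⟮u⟯ y).mpr (hfdeg.trans heq2)
    have h4 := IntermediateField.adjoin_adjoin_left K {u} ({y} : Set F)
    rw [h3, IntermediateField.restrictScalars_top] at h4
    rw [h4]
    rfl
  · have h1 : y - algebraMap K F (b P) ∈ P.toValuationSubring :=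
      helper1370.mem_of_ord_nonneg P (by omega)
    have := add_mem h1 (P.algebraMap_mem' (b P))
    exact helper1370.ord_nonneg_of_mem P (by simpa using this)
  · rw [hevP, ← Polynomial.map_evalRingHom_eval]
    exact hroot
  · rw [hevP, ← Polynomial.map_evalRingHom_eval]
    have hd : (derivative χ).map (evalRingHom (0 : K)) = derivative q :=
      (Polynomial.derivative_map χ (evalRingHom (0 : K))).symm
    rw [hd]
    intro h0
    have := (Polynomial.one_lt_rootMultiplicity_iff_isRoot hq0).mpr ⟨hroot, h0⟩
    omega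

end

end Fermat.Agent.S27.helper1362
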