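import Fermat.Agent.S27.helper6247_Spec
import Fermat.Agent.S24.helper204_Places

/-!
# S27, assembly of the complex case (helper1426)

`Stmt_Key + Stmt_Connected + Stmt_Compact + Stmt_IntChartExists + Stmt_Riemann
  + Stmt_LatticeCount ⟹ Stmt_Complex`   (all statements of `helper6247_Spec`).

Proof.  Let `E : ℂ^g →+ Pic⁰` be the Abel–Jacobi homomorphism of `Stmt_Key`, `P₀` a place.

* `S := {P | [P - P₀] ∈ range E}` contains `P₀` and is saturated under every chart (chart formula
  of `Stmt_Key` + `Stmt_IntChartExists`), hence is everything (`Stmt_Connected`).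
* `Stmt_Compact` gives finitely many charts whose closed discs cover the curve; the abelian
  integrals are continuous, hence bounded, on these closed discs.  So there is `M` with
  `[P - P₀] ∈ E (ball M)` for every place `P`.
* Every class of degree `0` is `[A - g P₀]` with `A ≥ 0` of degree `g` (Riemann's inequality,
  part of `Stmt_Riemann`), hence lies in `E (ball (g M))`.
* So `E` is onto with a bounded fundamental set, and `Stmt_LatticeCount` concludes.

Besides the Spec, only two generic facts from the landed S24 place library are used: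
principal divisors have degree zero and every place has degree one.
-/

set_option autoImplicit false

open AlgebraicCurve IntermediateField
open scoped Topology

namespace Fermat.Agent.S27.helper1426

open Fermat.Agent.S27.helper6247

noncomputable section

section General

variable {K F : Type*} [Field K] [Field F] [Algebra K F]

lemma degree_pt (P : Place K F) : Divisor.degree (pt P) = (P.deg : ℤ) := by
  simp [pt, Divisor.degree_single]

lemma cls_of_mem (D : Divisor K F) (h : D ∈ Divisor.degZero (K := K) (F := F)) :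
    cls D = Pic0.mk ⟨D, h⟩ := dif_pos h

lemma pt_sub_pt_mem (hdeg : ∀ v : Place K F, v.deg = 1) (P Q : Place K F) :
    pt P - pt Q ∈ Divisor.degZero (K := K) (F := F) := by
  rw [Divisor.mem_degZero, map_sub, degree_pt, degree_pt, hdeg P, hdeg Q, sub_self]

lemma cls_pt_sub_self (P : Place K F) : cls (pt P - pt P) = 0 := by
  have h : pt P - pt P ∈ Divisor.degZero (K := K) (F := F) := by
    rw [sub_self]; exact zero_mem _
  rw [cls_of_mem _ h]
  have : (⟨pt P - pt P, h⟩ : Divisor.degZero (K := K) (F := F)) = 0 :=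
    Subtype.ext (sub_self _)
  rw [this]
  rfl

lemma cls_pt_sub_add (hdeg : ∀ v : Place K F, v.deg = 1) (P Q R : Place K F) :
    cls (pt P - pt R) = cls (pt P - pt Q) + cls (pt Q - pt R) := by
  rw [cls_of_mem _ (pt_sub_pt_mem hdeg P R), cls_of_mem _ (pt_sub_pt_mem hdeg P Q),
    cls_of_mem _ (pt_sub_pt_mem hdeg Q R), ← Pic0.mk_add]
  congr 1
  exact Subtype.ext (by simp)

/-- `D ↦ D - deg(D) • P₀`, as a homomorphism into the divisors of degree zero. -/
def subDeg (P₀ : Place K F) (h₀ : P₀.deg = 1) :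
    Divisor K F →+ Divisor.degZero (K := K) (F := F) :=
  (AddMonoidHom.id (Divisor K F) -
      ((zmultiplesHom (Divisor K F)) (pt P₀)).comp Divisor.degree).codRestrict _ (fun D => by
    rw [Divisor.mem_degZero]
    simp only [AddMonoidHom.sub_apply, AddMonoidHom.id_apply, AddMonoidHom.comp_apply,
      zmultiplesHom_apply, map_sub, map_zsmul, degree_pt, h₀]
    simp)

lemma subDeg_coe (P₀ : Place K F) (h₀ : P₀.deg = 1) (D : Divisor K F) :
    ((subDeg P₀ h₀ D : Divisor.degZero (K := K) (F := F)) : Divisor K F)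
      = D - Divisor.degree D • pt P₀ := rfl

/-- `D ↦ [D - deg(D) • P₀]`, as a homomorphism into `Pic0`. -/
def toPic (P₀ : Place K F) (h₀ : P₀.deg = 1) : Divisor K F →+ Pic0 K F :=
  (QuotientAddGroup.mk' _).comp (subDeg P₀ h₀)

lemma toPic_apply (P₀ : Place K F) (h₀ : P₀.deg = 1) (D : Divisor K F) :
    toPic P₀ h₀ D = Pic0.mk (subDeg P₀ h₀ D) := rfl

lemma toPic_single (hdeg : ∀ v : Place K F, v.deg = 1) (P₀ P : Place K F) (n : ℤ) :
    toPic P₀ (hdeg P₀) (Finsupp.single P n) = n • cls (pt P - pt P₀) := by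
  rw [cls_of_mem _ (pt_sub_pt_mem hdeg P P₀), toPic_apply]
  have h1 : n • Pic0.mk (⟨pt P - pt P₀, pt_sub_pt_mem hdeg P P₀⟩ :
      Divisor.degZero (K := K) (F := F))
      = Pic0.mk (n • (⟨pt P - pt P₀, pt_sub_pt_mem hdeg P P₀⟩ :
      Divisor.degZero (K := K) (F := F))) := rfl
  rw [h1]
  congr 1
  apply Subtype.ext
  rw [subDeg_coe, Divisor.degree_single, hdeg P]
  show _ = n • (pt P - pt P₀)
  have hP : n • pt P = Finsupp.single P n := by
    rw [pt, Finsupp.smul_single, smul_eq_mul, mul_one]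
  rw [smul_sub, hP]
  simp

/-- A divisor of degree zero, an effective divisor linearly equivalent to `D + g • P₀`:
the class of `D` is the image of `A` under `toPic`. -/
lemma mk_eq_toPic (P₀ : Place K F) (h₀ : P₀.deg = 1) (D : Divisor K F)
    (hD : D ∈ Divisor.degZero (K := K) (F := F)) (Dv : Divisor K F)
    (hDv : Dv ∈ Divisor.principal (K := K) (F := F)) (hDv0 : Divisor.degree Dv = 0) (g : ℤ) :
    Pic0.mk ⟨D, hD⟩ = toPic P₀ h₀ (D + g • pt P₀ + Dv) := by
  rw [toPic_apply]
  apply QuotientAddGroup.eq.mpr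
  rw [AddSubgroup.mem_addSubgroupOf]
  have hdegD : Divisor.degree D = 0 := hD
  have : ((-(⟨D, hD⟩ : Divisor.degZero (K := K) (F := F)) + subDeg P₀ h₀ (D + g • pt P₀ + Dv) :
      Divisor.degZero (K := K) (F := F)) : Divisor K F) = Dv := by
    rw [AddSubgroup.coe_add, AddSubgroup.coe_neg, subDeg_coe]
    simp only [map_add, map_zsmul, degree_pt, h₀, hdegD, hDv0]
    simp
    abel
  rw [this]
  exact hDv

lemma degree_eq_sum (hdeg : ∀ v : Place K F, v.deg = 1) (A : Divisor K F) :
    Divisor.degree A = A.sum (fun _ n => n) := by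
  show (Finsupp.liftAddHom fun v : Place K F => AddMonoidHom.mulRight (v.deg : ℤ)) A = _
  rw [Finsupp.liftAddHom_apply]
  apply Finsupp.sum_congr
  intro v _
  simp [hdeg v]

end General

/-- **Assembly of the complex case.** -/
theorem stmt_Complex (hKey : Stmt_Key) (hConn : Stmt_Connected) (hCpt : Stmt_Compact)
    (hInt : Stmt_IntChartExists) (hR : Stmt_Riemann.{0, 0}) (hL : Stmt_LatticeCount) :
    Stmt_Complex := by
  intro F _ _ x hx _ n hn
  classical
  have hPD : HasPrincipalDivisors ℂ F := Fermat.Agent.S24.helper204.hasPrincipalDivisors x hx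
  have hdeg : ∀ v : Place ℂ F, v.deg = 1 :=
    fun v => Fermat.Agent.S24.helper204.place_deg_eq_one x hx v
  obtain ⟨hfin, hrr, -⟩ := hR ℂ F x hx
  have : Module.Finite ℂ (H1 (0 : Divisor ℂ F)) := (hfin 0).1
  let e : H1 (0 : Divisor ℂ F) ≃ₗ[ℂ] (Fin (genusFF ℂ F) → ℂ) :=
    (Module.finBasis ℂ (H1 (0 : Divisor ℂ F))).equivFun
  obtain ⟨E, hEchart, hEdisc⟩ := hKey F x hx e
  -- the key claim: a bounded fundamental set, onto
  have key : ∃ B : ℝ, ∀ z : Pic0 ℂ F, ∃ w : Fin (genusFF ℂ F) → ℂ, E w = z ∧ ‖w‖ ≤ B := by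
    rcases isEmpty_or_nonempty (Place ℂ F) with hemp | ⟨⟨P₀⟩⟩
    · -- no places: `Pic0` is trivial
      refine ⟨0, fun z => ⟨0, ?_, by simp⟩⟩
      obtain ⟨D, rfl⟩ := Pic0.mk_surjective z
      have hD0 : D = 0 := Subtype.ext (Finsupp.ext fun v => (hemp.false v).elim)
      rw [hD0, map_zero]
      rfl
    -- Step 1: every `[P - P₀]` is in the range of `E`
    have hS : {P : Place ℂ F | ∃ w, E w = cls (pt P - pt P₀)} = Set.univ := by
      apply hConn F x hx
      · exact ⟨P₀, 0, by rw [map_zero, cls_pt_sub_self]⟩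
      · intro u Q r hchart s hs
        obtain ⟨J, hJ⟩ := hInt F x hx e u Q r hchart
        have h1 : cls (pt (Q s) - pt (Q 0)) = E (J s) := hEchart u Q r J hJ s hs
        have h2 := cls_pt_sub_add hdeg (Q s) (Q 0) P₀
        constructor
        · rintro ⟨w, hw⟩
          exact ⟨J s + w, by rw [map_add, hw, ← h1, h2]⟩
        · rintro ⟨w, hw⟩
          refine ⟨w - J s, ?_⟩
          rw [map_sub, hw, ← h1, h2]
          abel
    have hS' : ∀ P : Place ℂ F, ∃ w, E w = cls (pt P - pt P₀) := fun P => by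
      have : P ∈ {P : Place ℂ F | ∃ w, E w = cls (pt P - pt P₀)} := by rw [hS]; trivial
      exact this
    -- Step 2: a uniform bound, from compactness
    obtain ⟨m, u, Q, r, ρ, hchart, hρ, hcover⟩ := hCpt F x hx
    choose J hJ using fun k => hInt F x hx e (u k) (Q k) (r k) (hchart k)
    have hbdd : ∀ k, ∃ C : ℝ, ∀ s : ℂ, ‖s‖ ≤ ρ k → ‖J k s‖ ≤ C := by
      intro k
      have hcont : ContinuousOn (J k) (Metric.closedBall (0 : ℂ) (ρ k)) := by
        intro s hs
        have hs' : s ∈ Metric.ball (0 : ℂ) (r k) := by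
          rw [Metric.mem_ball]
          exact lt_of_le_of_lt (Metric.mem_closedBall.mp hs) (hρ k)
        exact ((hJ k).deriv s hs').continuousAt.continuousWithinAt
      obtain ⟨C, hC⟩ := (isCompact_closedBall (0 : ℂ) (ρ k)).exists_bound_of_continuousOn hcont
      exact ⟨C, fun s hs => hC s (by rw [Metric.mem_closedBall, dist_zero_right]; exact hs)⟩
    choose C hC using hbdd
    choose w₀ hw₀ using fun k => hS' (Q k 0)
    let M : ℝ := ∑ k, (|C k| + ‖w₀ k‖)
    have hM0 : 0 ≤ M := Finset.sum_nonneg fun k _ => by positivity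
    have hpt : ∀ P : Place ℂ F, ∃ w, E w = cls (pt P - pt P₀) ∧ ‖w‖ ≤ M := by
      intro P
      obtain ⟨k, s, hs, rfl⟩ := hcover P
      have hs' : s ∈ Metric.ball (0 : ℂ) (r k) := by
        rw [Metric.mem_ball, dist_zero_right]
        exact lt_of_le_of_lt hs (hρ k)
      refine ⟨J k s + w₀ k, ?_, ?_⟩
      · rw [map_add, hw₀ k, ← hEchart (u k) (Q k) (r k) (J k) (hJ k) s hs',
          cls_pt_sub_add hdeg (Q k s) (Q k 0) P₀]
      · calc ‖J k s + w₀ k‖ ≤ ‖J k s‖ + ‖w₀ k‖ := norm_add_le _ _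
          _ ≤ |C k| + ‖w₀ k‖ := by
              have := (hC k s hs).trans (le_abs_self (C k))
              linarith
          _ ≤ M := Finset.single_le_sum (f := fun k => |C k| + ‖w₀ k‖)
              (fun k _ => by positivity) (Finset.mem_univ k)
    choose w hw hwM using hpt
    -- Step 3: the homomorphism `W : Div → ℂ^g` lifting `toPic` through `E`
    let W : Divisor ℂ F →+ (Fin (genusFF ℂ F) → ℂ) :=
      Finsupp.liftAddHom fun P => (zmultiplesHom (Fin (genusFF ℂ F) → ℂ)) (w P)
    have hEW : E.comp W = toPic P₀ (hdeg P₀) := by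
      apply Finsupp.addHom_ext
      intro P n
      rw [AddMonoidHom.comp_apply, toPic_single hdeg P₀ P n]
      show E ((Finsupp.liftAddHom fun P => (zmultiplesHom (Fin (genusFF ℂ F) → ℂ)) (w P))
        (Finsupp.single P n)) = _
      rw [Finsupp.liftAddHom_apply_single, zmultiplesHom_apply, map_zsmul, hw P]
    have hWnorm : ∀ A : Divisor ℂ F, 0 ≤ A → ‖W A‖ ≤ (Divisor.degree A : ℝ) * M := by
      intro A hA
      have hW : W A = A.sum fun P n => n • w P := by
        show (Finsupp.liftAddHom fun P => (zmultiplesHom (Fin (genusFF ℂ F) → ℂ)) (w P)) A = _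
        rw [Finsupp.liftAddHom_apply]
        rfl
      rw [hW, degree_eq_sum hdeg A, Finsupp.sum, Finsupp.sum, Int.cast_sum, Finset.sum_mul]
      refine (norm_sum_le _ _).trans (Finset.sum_le_sum fun P _ => ?_)
      have hAP : (0 : ℤ) ≤ A P := hA P
      calc ‖A P • w P‖ ≤ ‖A P‖ * ‖w P‖ := norm_zsmul_le _ _
        _ = (A P : ℝ) * ‖w P‖ := by
            rw [Int.norm_eq_abs, abs_of_nonneg (by exact_mod_cast hAP)]
        _ ≤ (A P : ℝ) * M := mul_le_mul_of_nonneg_left (hwM P) (by exact_mod_cast hAP)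
    -- Step 4: effective representatives
    refine ⟨(genusFF ℂ F : ℝ) * M, fun z => ?_⟩
    obtain ⟨⟨D, hD⟩, rfl⟩ := Pic0.mk_surjective z
    have hdegD : Divisor.degree D = 0 := hD
    set D' : Divisor ℂ F := D + (genusFF ℂ F : ℤ) • pt P₀ with hD'
    have hdegD' : Divisor.degree D' = (genusFF ℂ F : ℤ) := by
      rw [hD', map_add, map_zsmul, degree_pt, hdeg P₀, hdegD]
      simp
    have hrr' := hrr D'
    rw [hdegD'] at hrr'
    have hpos : 0 < Module.finrank ℂ (riemannRochSpace D') := by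
      have : (0 : ℤ) < (Module.finrank ℂ (riemannRochSpace D') : ℤ) := by
        have h0 : (0 : ℤ) ≤ (Module.finrank ℂ (H1 D') : ℤ) := Int.natCast_nonneg _
        linarith
      exact_mod_cast this
    have : Nontrivial (riemannRochSpace D') := Module.nontrivial_of_finrank_pos hpos
    obtain ⟨⟨f, hfmem⟩, hfne⟩ := exists_ne (0 : riemannRochSpace D')
    have hf : f ≠ 0 := fun h => hfne (Subtype.ext h)
    obtain ⟨Dv, hDv, hDv0⟩ := hPD.exists_divisor f hf
    have hDvp : Dv ∈ Divisor.principal (K := ℂ) (F := F) := ⟨f, hf, hDv⟩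
    have hA0 : 0 ≤ D' + Dv := by
      intro v
      have := (mem_riemannRochSpace_iff.mp hfmem v).resolve_left hf
      rw [Finsupp.add_apply, hDv v]
      show (0 : ℤ) ≤ D' v + v.ord f
      linarith
    have hdegA : Divisor.degree (D' + Dv) = (genusFF ℂ F : ℤ) := by
      rw [map_add, hdegD', hDv0, add_zero]
    refine ⟨W (D' + Dv), ?_, ?_⟩
    · have := congrArg (fun φ : Divisor ℂ F →+ Pic0 ℂ F => φ (D' + Dv)) hEW
      simp only [AddMonoidHom.comp_apply] at this
      rw [this]
      exact (mk_eq_toPic P₀ (hdeg P₀) D hD Dv hDvp hDv0 (genusFF ℂ F : ℤ)).symm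
    · have := hWnorm (D' + Dv) hA0
      rw [hdegA] at this
      exact_mod_cast this
  obtain ⟨B, hB⟩ := key
  have hsurj : Function.Surjective E := fun z => by
    obtain ⟨w, hw, -⟩ := hB z
    exact ⟨w, hw⟩
  have hbd : ∃ B : ℝ, ∀ w : Fin (genusFF ℂ F) → ℂ, ∃ w' : Fin (genusFF ℂ F) → ℂ,
      E w' = E w ∧ ‖w'‖ ≤ B := ⟨B, fun w => hB (E w)⟩
  exact hL (genusFF ℂ F) n (Pic0 ℂ F) E hsurj hEdisc hbd hn

end

end Fermat.Agent.S27.helper1426
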