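import Mathlib

/-!
# S27, abstract endgame: from a local additive chart to the torsion count (helper1445)

Route-independent last step of every transcendental proof of
`Nat.card (Pic0.torsion K F (ℓ ^ k)) = ℓ ^ (2 * g * k)`:

* `exists_addMonoidHom_of_local` : a map `e : V → P` which is additive on a ball extends to a
  homomorphism `E : V →+ P` (namely `E w = N • e (w / N)`);
* `span_ker_eq_top_of_bounded` : if `V = ker E + (bounded set)` then `ker E` spans `V` over `ℝ`;
* `card_torsionBy_of_span` : a surjective `E : V →+ P` with discrete kernel spanning `V` gives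
  `Nat.card P[n] = n ^ finrank ℝ V`;
* `card_torsionBy_of_local_chart` : the three statements combined (local chart + bounded
  generation ⇒ torsion count), and its complex form `card_torsionBy_of_local_chart_complex`
  (`= ℓ ^ (2 * g * k)` for `n = ℓ ^ k`, `g = finrank ℂ V`).

Everything is stated for an abstract additive commutative group `P`; the torsion subgroup is
`(Submodule.torsionBy ℤ P (n : ℤ)).toAddSubgroup`, which is the Prelude's `Pic0.torsion` shape.
-/

set_option autoImplicit false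

namespace Fermat.Agent.S27.helper1445

open Module

section Extension

variable {V : Type*} [NormedAddCommGroup V] [NormedSpace ℝ V]
variable {P : Type*} [AddCommGroup P]

/-- A map which is additive on the ball of radius `r` satisfies `e v = M • e (v / M)`. -/
theorem local_nsmul_eq {r : ℝ} (e : V → P)
    (hadd : ∀ v w : V, ‖v‖ < r → ‖w‖ < r → ‖v + w‖ < r → e (v + w) = e v + e w)
    {v : V} (hv : ‖v‖ < r) {M : ℕ} (hM : M ≠ 0) :
    M • e ((M : ℝ)⁻¹ • v) = e v := by
  have hr : 0 < r := lt_of_le_of_lt (norm_nonneg v) hv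
  have hM0 : (0 : ℝ) < M := by exact_mod_cast Nat.pos_of_ne_zero hM
  have e0 : e 0 = 0 := by
    have h := hadd 0 0 (by simpa using hr) (by simpa using hr) (by simpa using hr)
    rw [add_zero] at h
    have : e 0 + 0 = e 0 + e 0 := by rw [add_zero]; exact h
    exact (add_left_cancel this).symm
  have hnorm : ∀ j : ℕ, j ≤ M → ‖((j : ℝ) / M) • v‖ < r := by
    intro j hj
    rw [norm_smul, Real.norm_eq_abs, abs_of_nonneg (by positivity)]
    have hle : (j : ℝ) / M ≤ 1 := by
      rw [div_le_one hM0]; exact_mod_cast hj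
    calc (j : ℝ) / M * ‖v‖ ≤ 1 * ‖v‖ := mul_le_mul_of_nonneg_right hle (norm_nonneg v)
      _ = ‖v‖ := one_mul _
      _ < r := hv
  have key : ∀ j : ℕ, j ≤ M → e (((j : ℝ) / M) • v) = j • e ((M : ℝ)⁻¹ • v) := by
    intro j
    induction j with
    | zero => intro _; simp [e0]
    | succ j ih =>
      intro hj
      have hj' : j ≤ M := Nat.le_of_succ_le hj
      have hsplit : (((j + 1 : ℕ) : ℝ) / M) • v = ((j : ℝ) / M) • v + (M : ℝ)⁻¹ • v := by
        rw [← add_smul]; congr 1; push_cast; field_simp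
      have h1 : ‖(M : ℝ)⁻¹ • v‖ < r := by
        have := hnorm 1 (Nat.one_le_iff_ne_zero.mpr hM)
        simpa [one_div] using this
      have h2 : ‖((j : ℝ) / M) • v + (M : ℝ)⁻¹ • v‖ < r := by
        rw [← hsplit]; exact hnorm (j + 1) hj
      rw [hsplit, hadd _ _ (hnorm j hj') h1 h2, ih hj', succ_nsmul]
  have := key M le_rfl
  rw [div_self hM0.ne', one_smul] at this
  exact this.symm

/-- **Extension of a local homomorphism.**  A map `e : V → P` from a real normed space to an
additive commutative group which is additive on the open ball of radius `r > 0` agrees on that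
ball with a (unique) homomorphism `E : V →+ P`. -/
theorem exists_addMonoidHom_of_local {r : ℝ} (hr : 0 < r) (e : V → P)
    (hadd : ∀ v w : V, ‖v‖ < r → ‖w‖ < r → ‖v + w‖ < r → e (v + w) = e v + e w) :
    ∃ E : V →+ P, ∀ v : V, ‖v‖ < r → E v = e v := by
  classical
  -- a canonical denominator
  let N : V → ℕ := fun w => ⌈‖w‖ / r⌉₊ + 1
  have hNpos : ∀ w, N w ≠ 0 := fun w => Nat.succ_ne_zero _
  have small : ∀ (w : V) (n : ℕ), ‖w‖ / r < n → ‖(n : ℝ)⁻¹ • w‖ < r := by
    intro w n hn
    have hn0 : (0 : ℝ) < n := lt_of_le_of_lt (by positivity) hn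
    rw [norm_smul, Real.norm_eq_abs, abs_of_pos (inv_pos.mpr hn0), inv_mul_lt_iff₀ hn0]
    rw [div_lt_iff₀ hr] at hn
    linarith
  have hN : ∀ w, ‖w‖ / r < N w := by
    intro w
    have := Nat.le_ceil (‖w‖ / r)
    simp only [N, Nat.cast_add, Nat.cast_one]
    linarith
  let E₀ : V → P := fun w => N w • e ((N w : ℝ)⁻¹ • w)
  -- independence of the denominator
  have indep : ∀ (w : V) (n : ℕ), n ≠ 0 → ‖(n : ℝ)⁻¹ • w‖ < r → n • e ((n : ℝ)⁻¹ • w) = E₀ w := by
    intro w n hn hsmall
    have hA := local_nsmul_eq e hadd hsmall (hNpos w)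
    have hB := local_nsmul_eq e hadd (small w (N w) (hN w)) hn
    have hcomm : ((N w : ℝ)⁻¹) • ((n : ℝ)⁻¹ • w) = ((n : ℝ)⁻¹) • ((N w : ℝ)⁻¹ • w) :=
      smul_comm _ _ _
    calc n • e ((n : ℝ)⁻¹ • w) = n • (N w • e ((N w : ℝ)⁻¹ • ((n : ℝ)⁻¹ • w))) := by rw [hA]
      _ = N w • (n • e ((n : ℝ)⁻¹ • ((N w : ℝ)⁻¹ • w))) := by
          rw [hcomm, smul_comm]
      _ = E₀ w := by rw [hB]
  have hE₀add : ∀ v w : V, E₀ (v + w) = E₀ v + E₀ w := by
    intro v w
    obtain ⟨n, hn⟩ := exists_nat_gt (max (‖v‖ / r) (max (‖w‖ / r) (‖v + w‖ / r)))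
    have hn1 : ‖v‖ / r < n := lt_of_le_of_lt (le_max_left _ _) hn
    have hn2 : ‖w‖ / r < n :=
      lt_of_le_of_lt ((le_max_left _ _).trans (le_max_right _ _)) hn
    have hn3 : ‖v + w‖ / r < n :=
      lt_of_le_of_lt ((le_max_right _ _).trans (le_max_right _ _)) hn
    have hn0 : n ≠ 0 := by
      rintro rfl
      have : (0 : ℝ) ≤ ‖v‖ / r := by positivity
      simp only [Nat.cast_zero] at hn1
      linarith
    have h3' : ‖(n : ℝ)⁻¹ • v + (n : ℝ)⁻¹ • w‖ < r := by
      rw [← smul_add]; exact small _ n hn3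
    rw [← indep v n hn0 (small v n hn1), ← indep w n hn0 (small w n hn2),
      ← indep (v + w) n hn0 (small _ n hn3), smul_add,
      hadd _ _ (small v n hn1) (small w n hn2) h3', nsmul_add]
  refine ⟨AddMonoidHom.mk' E₀ hE₀add, fun v hv => ?_⟩
  have h1 : ‖((1 : ℕ) : ℝ)⁻¹ • v‖ < r := by simpa using hv
  have := indep v 1 one_ne_zero h1
  simpa using this.symm

end Extension

section Lattice

variable {V : Type*} [NormedAddCommGroup V] [NormedSpace ℝ V] [FiniteDimensional ℝ V]
variable {P : Type*} [AddCommGroup P]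

/-- If every vector is at bounded distance from the kernel of `E`, the kernel spans `V`. -/
theorem span_ker_eq_top_of_bounded (E : V →+ P)
    (hB : ∃ R : ℝ, ∀ v : V, ∃ x : V, E x = 0 ∧ ‖v - x‖ ≤ R) :
    Submodule.span ℝ {x : V | E x = 0} = ⊤ := by
  by_contra hne
  obtain ⟨R, hR⟩ := hB
  obtain ⟨f, hf0, hf⟩ := Submodule.exists_le_ker_of_lt_top _ (lt_top_iff_ne_top.mpr hne)
  -- `f` is continuous, hence bounded on balls
  let fc : V →L[ℝ] ℝ := LinearMap.toContinuousLinearMap f
  have hfc : ∀ v, fc v = f v := fun v => rfl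
  obtain ⟨v, hv⟩ : ∃ v, f v ≠ 0 := by
    by_contra h
    exact hf0 (LinearMap.ext fun v => by_contra fun hv => h ⟨v, hv⟩)
  have hbound : ∀ t : ℝ, |t * f v| ≤ ‖fc‖ * R := by
    intro t
    obtain ⟨x, hx, hxR⟩ := hR (t • v)
    have hfx : f x = 0 := by
      have : x ∈ Submodule.span ℝ {x : V | E x = 0} := Submodule.subset_span hx
      exact LinearMap.mem_ker.mp (hf this)
    have : t * f v = fc (t • v - x) := by
      rw [hfc, map_sub, hfx, sub_zero, map_smul, smul_eq_mul]
    rw [this]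
    calc |fc (t • v - x)| = ‖fc (t • v - x)‖ := (Real.norm_eq_abs _).symm
      _ ≤ ‖fc‖ * ‖t • v - x‖ := fc.le_opNorm _
      _ ≤ ‖fc‖ * R := mul_le_mul_of_nonneg_left hxR (norm_nonneg _)
  have h1 := hbound ((‖fc‖ * R + 1) / f v)
  rw [div_mul_cancel₀ _ hv] at h1
  have h2 : ‖fc‖ * R + 1 ≤ |‖fc‖ * R + 1| := le_abs_self _
  linarith

/-- **Torsion count for a quotient by a lattice.**  If `E : V →+ P` is a surjective homomorphism
from a finite-dimensional real normed space whose kernel is discrete and spans `V`, then the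
`n`-torsion of `P` has exactly `n ^ dim_ℝ V` elements. -/
theorem card_torsionBy_of_span (E : V →+ P) (hE : Function.Surjective E)
    (hdisc : ∃ ε : ℝ, 0 < ε ∧ ∀ x : V, E x = 0 → ‖x‖ < ε → x = 0)
    (hspan : Submodule.span ℝ {x : V | E x = 0} = ⊤) {n : ℕ} (hn : n ≠ 0) :
    Nat.card ((Submodule.torsionBy ℤ P (n : ℤ)).toAddSubgroup) = n ^ finrank ℝ V := by
  classical
  have hn0 : (n : ℝ) ≠ 0 := by exact_mod_cast hn
  let L : Submodule ℤ V := AddSubgroup.toIntSubmodule E.ker
  have hLmem : ∀ x : V, x ∈ L ↔ E x = 0 := fun x => Iff.rfl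
  -- `L` is discrete
  have hLdisc : DiscreteTopology L := by
    obtain ⟨ε, hε, hεL⟩ := hdisc
    apply discreteTopology_of_isOpen_singleton_zero
    have : ({0} : Set L) = (fun x : L => (x : V)) ⁻¹' Metric.ball 0 ε := by
      ext x
      simp only [Set.mem_singleton_iff, Set.mem_preimage, mem_ball_zero_iff]
      constructor
      · rintro rfl; simpa using hε
      · intro hx
        exact Subtype.ext (hεL x ((hLmem x).mp x.2) hx)
    rw [this]
    exact Metric.isOpen_ball.preimage continuous_subtype_val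
  have hLlat : IsZLattice ℝ L := ⟨by
    have : ((L : Submodule ℤ V) : Set V) = {x : V | E x = 0} := by
      ext x; exact hLmem x
    rw [this]; exact hspan⟩
  have : Module.Free ℤ L := ZLattice.module_free ℝ L
  have : Module.Finite ℤ L := ZLattice.module_finite ℝ L
  have hrank : finrank ℤ L = finrank ℝ V := ZLattice.rank ℝ L
  -- the homomorphism `λ ↦ E (λ / n)` from the kernel onto the `n`-torsion
  let θ : E.ker →+ P :=
    E.comp ((DistribSMul.toAddMonoidHom V ((n : ℝ)⁻¹)).comp E.ker.subtype)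
  have hθ : ∀ l : E.ker, θ l = E ((n : ℝ)⁻¹ • (l : V)) := fun l => rfl
  have hnsmul : ∀ x : V, n • ((n : ℝ)⁻¹ • x) = x := by
    intro x
    rw [← Nat.cast_smul_eq_nsmul ℝ, smul_smul, mul_inv_cancel₀ hn0, one_smul]
  have hrange : θ.range = (Submodule.torsionBy ℤ P (n : ℤ)).toAddSubgroup := by
    ext p
    simp only [AddMonoidHom.mem_range, Submodule.mem_toAddSubgroup, Submodule.mem_torsionBy_iff]
    constructor
    · rintro ⟨l, rfl⟩
      rw [hθ, natCast_zsmul, ← map_nsmul, hnsmul]
      exact l.2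
    · intro hp
      obtain ⟨x, rfl⟩ := hE p
      rw [natCast_zsmul, ← map_nsmul] at hp
      refine ⟨⟨n • x, hp⟩, ?_⟩
      rw [hθ]
      congr 1
      show (n : ℝ)⁻¹ • (n • x) = x
      rw [← Nat.cast_smul_eq_nsmul ℝ, smul_smul, inv_mul_cancel₀ hn0, one_smul]
  have hker : θ.ker = (E.ker.map (nsmulAddMonoidHom (α := V) n)).addSubgroupOf E.ker := by
    ext l
    simp only [AddMonoidHom.mem_ker, AddSubgroup.mem_addSubgroupOf, AddSubgroup.mem_map,
      nsmulAddMonoidHom_apply]
    constructor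
    · intro hl
      exact ⟨(n : ℝ)⁻¹ • (l : V), hl, hnsmul _⟩
    · rintro ⟨y, hy, hyl⟩
      rw [hθ, ← hyl]
      have : (n : ℝ)⁻¹ • (n • y) = y := by
        rw [← Nat.cast_smul_eq_nsmul ℝ, smul_smul, inv_mul_cancel₀ hn0, one_smul]
      rw [this]
      exact hy
  have hidx : θ.ker.index = n ^ finrank ℤ L := by
    rw [hker]
    have := AddSubgroup.relIndex_map_nsmul n E.ker
    exact this
  calc Nat.card ((Submodule.torsionBy ℤ P (n : ℤ)).toAddSubgroup)
      = Nat.card θ.range := by rw [hrange]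
    _ = θ.ker.index := (AddSubgroup.index_ker θ).symm
    _ = n ^ finrank ℤ L := hidx
    _ = n ^ finrank ℝ V := by rw [hrank]

/-- **Abstract endgame.**  Let `e : V → P` be a *local chart*: additive on the ball of radius
`r`, injective at `0` on that ball, and such that every element of `P` is a sum of at most `M`
values of `e` on the ball.  Then `Nat.card P[n] = n ^ dim_ℝ V` for every `n ≠ 0`. -/
theorem card_torsionBy_of_local_chart {r : ℝ} (hr : 0 < r) (e : V → P)
    (hadd : ∀ v w : V, ‖v‖ < r → ‖w‖ < r → ‖v + w‖ < r → e (v + w) = e v + e w)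
    (hinj : ∀ v : V, ‖v‖ < r → e v = 0 → v = 0)
    (hgen : ∃ M : ℕ, ∀ p : P, ∃ l : List V, l.length ≤ M ∧ (∀ v ∈ l, ‖v‖ < r) ∧
      p = (l.map e).sum)
    {n : ℕ} (hn : n ≠ 0) :
    Nat.card ((Submodule.torsionBy ℤ P (n : ℤ)).toAddSubgroup) = n ^ finrank ℝ V := by
  obtain ⟨E, hEe⟩ := exists_addMonoidHom_of_local hr e hadd
  obtain ⟨M, hM⟩ := hgen
  -- every element of `P` is `E b` with `‖b‖ ≤ M * r`
  have hbdd : ∀ p : P, ∃ b : V, E b = p ∧ ‖b‖ ≤ M * r := by
    intro p
    obtain ⟨l, hlen, hl, rfl⟩ := hM p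
    refine ⟨l.sum, ?_, ?_⟩
    · rw [map_list_sum]
      congr 1
      apply List.map_congr_left
      intro v hv
      exact hEe v (hl v hv)
    · have h2 : ‖l.sum‖ ≤ l.length * r := by
        clear hlen
        induction l with
        | nil => simp
        | cons a t ih =>
          simp only [List.sum_cons, List.length_cons, Nat.cast_add, Nat.cast_one]
          have ha : ‖a‖ < r := hl a (List.mem_cons_self)
          have ht := ih (fun v hv => hl v (List.mem_cons_of_mem _ hv))
          have := norm_add_le a t.sum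
          linarith
      have h3 : (l.length : ℝ) * r ≤ M * r :=
        mul_le_mul_of_nonneg_right (by exact_mod_cast hlen) hr.le
      linarith
  have hsurj : Function.Surjective E := fun p => (hbdd p).imp fun b hb => hb.1
  have hdisc : ∃ ε : ℝ, 0 < ε ∧ ∀ x : V, E x = 0 → ‖x‖ < ε → x = 0 :=
    ⟨r, hr, fun x hx hxr => hinj x hxr (by rw [← hEe x hxr]; exact hx)⟩
  have hspan : Submodule.span ℝ {x : V | E x = 0} = ⊤ := by
    apply span_ker_eq_top_of_bounded
    refine ⟨M * r, fun v => ?_⟩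
    obtain ⟨b, hb, hbn⟩ := hbdd (E v)
    refine ⟨v - b, by rw [map_sub, hb, sub_self], ?_⟩
    rw [sub_sub_cancel]
    exact hbn
  exact card_torsionBy_of_span E hsurj hdisc hspan hn

end Lattice

section Complex

variable {V : Type*} [NormedAddCommGroup V] [NormedSpace ℂ V] [FiniteDimensional ℂ V]
variable {P : Type*} [AddCommGroup P]

/-- Complex form of `card_torsionBy_of_span`, in the shape of the frozen statement S27. -/
theorem card_torsionBy_of_span_complex (E : V →+ P) (hE : Function.Surjective E)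
    (hdisc : ∃ ε : ℝ, 0 < ε ∧ ∀ x : V, E x = 0 → ‖x‖ < ε → x = 0)
    (hspan : Submodule.span ℝ {x : V | E x = 0} = ⊤) (ℓ : ℕ) (hℓ : ℓ ≠ 0) (k : ℕ) :
    Nat.card ((Submodule.torsionBy ℤ P ((ℓ ^ k : ℕ) : ℤ)).toAddSubgroup) =
      ℓ ^ (2 * finrank ℂ V * k) := by
  have : FiniteDimensional ℝ V := FiniteDimensional.complexToReal V
  rw [card_torsionBy_of_span E hE hdisc hspan (pow_ne_zero k hℓ), finrank_real_of_complex,
    ← pow_mul, mul_comm k]

/-- Complex form of `card_torsionBy_of_local_chart`, in the shape of the frozen statement S27: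
a local chart `e : V → P` on a `g`-dimensional complex space gives
`Nat.card P[ℓ ^ k] = ℓ ^ (2 * g * k)`. -/
theorem card_torsionBy_of_local_chart_complex {r : ℝ} (hr : 0 < r) (e : V → P)
    (hadd : ∀ v w : V, ‖v‖ < r → ‖w‖ < r → ‖v + w‖ < r → e (v + w) = e v + e w)
    (hinj : ∀ v : V, ‖v‖ < r → e v = 0 → v = 0)
    (hgen : ∃ M : ℕ, ∀ p : P, ∃ l : List V, l.length ≤ M ∧ (∀ v ∈ l, ‖v‖ < r) ∧
      p = (l.map e).sum)
    (ℓ : ℕ) (hℓ : ℓ ≠ 0) (k : ℕ) :
    Nat.card ((Submodule.torsionBy ℤ P ((ℓ ^ k : ℕ) : ℤ)).toAddSubgroup) =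
      ℓ ^ (2 * finrank ℂ V * k) := by
  have : FiniteDimensional ℝ V := FiniteDimensional.complexToReal V
  rw [card_torsionBy_of_local_chart hr e hadd hinj hgen (pow_ne_zero k hℓ),
    finrank_real_of_complex, ← pow_mul, mul_comm k]

end Complex

end Fermat.Agent.S27.helper1445
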