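import Mathlib
import Fermat.Agent.S27.helper1445_LatticeTorsion

/-!
# S27, abstract endgame II: compactness + connectedness ⇒ bounded surjectivity (helper1445)

Spec-independent topological core of the step "`ker E` spans `ℂ^g` over `ℝ`" in its
*bounded generation* form.  No estimate on differentials is needed: only

* a compact preconnected space `X` (the places of `F`, e.g. with the Tychonoff topology),
* a cocycle `δ : X → X → P` (`δ a b = [a - b]`),
* a homomorphism `E : V →+ P` and, **locally** on `X`, a bound: every point has a neighbourhood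
  `U` and a constant `C` with `δ a b ∈ E (closedBall 0 C)` for `a, b ∈ U`.

Then `δ a b ∈ E (closedBall 0 R)` for one global `R` (`exists_bound_of_compact_preconnected`); if
moreover every element of `P` is a sum of at most `N` values of `δ`, every element of `P` is
`E b` with `‖b‖ ≤ N * R` (`exists_bounded_preimage_of_compact`), and the torsion count follows
(`card_torsionBy_of_bounded_surj`, `card_torsionBy_of_compact`, and the complex forms in the
shape of the frozen statement).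
-/

set_option autoImplicit false

namespace Fermat.Agent.S27.helper1445

open Module Topology

section Chain

variable {V : Type*} [NormedAddCommGroup V]
variable {P : Type*} [AddCommGroup P]
variable {X : Type*} [TopologicalSpace X]

/-- **Local bounds globalise on a compact preconnected space.**  `δ` is a cocycle with values in
`P`, `E : V →+ P` a homomorphism; if locally `δ a b = E v` with `‖v‖` bounded, then globally. -/
theorem exists_bound_of_compact_preconnected [CompactSpace X] [PreconnectedSpace X]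
    (δ : X → X → P) (hδ : ∀ a b c : X, δ a b + δ b c = δ a c) (E : V →+ P)
    (hloc : ∀ x : X, ∃ U ∈ 𝓝 x, ∃ C : ℝ, ∀ a ∈ U, ∀ b ∈ U, ∃ v : V, ‖v‖ ≤ C ∧ E v = δ a b) :
    ∃ R : ℝ, ∀ a b : X, ∃ v : V, ‖v‖ ≤ R ∧ E v = δ a b := by
  classical
  rcases isEmpty_or_nonempty X with hX | ⟨⟨a₀⟩⟩
  · exact ⟨0, fun a => (hX.false a).elim⟩
  have hδ0 : ∀ a : X, δ a a = 0 := by
    intro a
    have := hδ a a a
    exact add_left_cancel (a := δ a a) (by rw [this, add_zero])
  -- the set of points at finite distance from `a₀`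
  let A : Set X := {x | ∃ r : ℝ, ∃ v : V, ‖v‖ ≤ r ∧ E v = δ a₀ x}
  have hAopen : IsOpen A := by
    rw [isOpen_iff_mem_nhds]
    rintro x ⟨r, v, hv, hvx⟩
    obtain ⟨U, hU, C, hC⟩ := hloc x
    refine Filter.mem_of_superset hU fun a ha => ?_
    obtain ⟨w, hw, hwa⟩ := hC x (mem_of_mem_nhds hU) a ha
    exact ⟨r + C, v + w, (norm_add_le v w).trans (add_le_add hv hw), by
      rw [map_add, hvx, hwa, hδ]⟩
  have hAclosed : IsClosed A := by
    rw [← isOpen_compl_iff, isOpen_iff_mem_nhds]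
    intro x hx
    obtain ⟨U, hU, C, hC⟩ := hloc x
    refine Filter.mem_of_superset hU fun a ha haA => hx ?_
    obtain ⟨r, v, hv, hva⟩ := haA
    obtain ⟨w, hw, hwa⟩ := hC a ha x (mem_of_mem_nhds hU)
    exact ⟨r + C, v + w, (norm_add_le v w).trans (add_le_add hv hw), by
      rw [map_add, hva, hwa, hδ]⟩
  have hAne : A.Nonempty := ⟨a₀, 0, 0, by simp, by rw [map_zero, hδ0]⟩
  have hAuniv : A = Set.univ := (isClopen_iff.mp ⟨hAclosed, hAopen⟩).resolve_left hAne.ne_empty
  -- a locally uniform bound for the distance from `a₀`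
  have hloc' : ∀ x : X, ∃ U ∈ 𝓝 x, ∃ r : ℝ, ∀ a ∈ U, ∃ v : V, ‖v‖ ≤ r ∧ E v = δ a₀ a := by
    intro x
    obtain ⟨r, v, hv, hvx⟩ : x ∈ A := hAuniv ▸ Set.mem_univ x
    obtain ⟨U, hU, C, hC⟩ := hloc x
    refine ⟨U, hU, r + C, fun a ha => ?_⟩
    obtain ⟨w, hw, hwa⟩ := hC x (mem_of_mem_nhds hU) a ha
    exact ⟨v + w, (norm_add_le v w).trans (add_le_add hv hw), by rw [map_add, hvx, hwa, hδ]⟩
  choose U hU r hr using hloc'
  obtain ⟨t, ht⟩ := CompactSpace.elim_nhds_subcover U hU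
  -- a global bound for the distance from `a₀`
  obtain ⟨R₀, hR₀⟩ : ∃ R₀ : ℝ, ∀ x ∈ t, r x ≤ R₀ := by
    refine ⟨∑ x ∈ t, |r x|, fun x hx => ?_⟩
    exact (le_abs_self _).trans
      (Finset.single_le_sum (f := fun x => |r x|) (fun _ _ => abs_nonneg _) hx)
  have hglob : ∀ a : X, ∃ v : V, ‖v‖ ≤ R₀ ∧ E v = δ a₀ a := by
    intro a
    have : a ∈ ⋃ x ∈ t, U x := ht ▸ Set.mem_univ a
    simp only [Set.mem_iUnion] at this
    obtain ⟨x, hx, hax⟩ := this
    obtain ⟨v, hv, hva⟩ := hr x a hax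
    exact ⟨v, hv.trans (hR₀ x hx), hva⟩
  refine ⟨R₀ + R₀, fun a b => ?_⟩
  obtain ⟨v, hv, hva⟩ := hglob a
  obtain ⟨w, hw, hwb⟩ := hglob b
  refine ⟨w - v, (norm_sub_le w v).trans (add_le_add hw hv), ?_⟩
  rw [map_sub, hva, hwb, sub_eq_iff_eq_add, add_comm, hδ]

/-- Bounded generation by the cocycle + the local bounds give bounded surjectivity of `E`. -/
theorem exists_bounded_preimage_of_compact [CompactSpace X] [PreconnectedSpace X]
    (δ : X → X → P) (hδ : ∀ a b c : X, δ a b + δ b c = δ a c) (E : V →+ P)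
    (hloc : ∀ x : X, ∃ U ∈ 𝓝 x, ∃ C : ℝ, ∀ a ∈ U, ∀ b ∈ U, ∃ v : V, ‖v‖ ≤ C ∧ E v = δ a b)
    (hgen : ∃ N : ℕ, ∀ p : P, ∃ l : List (X × X), l.length ≤ N ∧
      p = (l.map fun ab => δ ab.1 ab.2).sum) :
    ∃ R : ℝ, ∀ p : P, ∃ b : V, E b = p ∧ ‖b‖ ≤ R := by
  obtain ⟨R, hR⟩ := exists_bound_of_compact_preconnected δ hδ E hloc
  obtain ⟨N, hN⟩ := hgen
  refine ⟨N * max R 0, fun p => ?_⟩
  obtain ⟨l, hlen, rfl⟩ := hN p
  have key : ∀ l : List (X × X), ∃ b : V, E b = (l.map fun ab => δ ab.1 ab.2).sum ∧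
      ‖b‖ ≤ l.length * max R 0 := by
    intro l
    induction l with
    | nil => exact ⟨0, by simp, by simp⟩
    | cons ab t ih =>
      obtain ⟨b, hb, hbn⟩ := ih
      obtain ⟨v, hv, hvab⟩ := hR ab.1 ab.2
      refine ⟨v + b, by rw [map_add, hvab, hb, List.map_cons, List.sum_cons], ?_⟩
      have h1 : ‖v‖ ≤ max R 0 := hv.trans (le_max_left _ _)
      calc ‖v + b‖ ≤ ‖v‖ + ‖b‖ := norm_add_le v b
        _ ≤ max R 0 + t.length * max R 0 := add_le_add h1 hbn
        _ = ((ab :: t).length : ℝ) * max R 0 := by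
            rw [List.length_cons]; push_cast; ring
  obtain ⟨b, hb, hbn⟩ := key l
  refine ⟨b, hb, hbn.trans ?_⟩
  exact mul_le_mul_of_nonneg_right (by exact_mod_cast hlen) (le_max_right _ _)

end Chain

section Count

variable {V : Type*} [NormedAddCommGroup V] [NormedSpace ℝ V] [FiniteDimensional ℝ V]
variable {P : Type*} [AddCommGroup P]
variable {X : Type*} [TopologicalSpace X]

/-- Torsion count from a homomorphism with discrete kernel which is *boundedly surjective*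
(every element of `P` has a preimage of norm `≤ R`).  This is the "(D)" form of the endgame. -/
theorem card_torsionBy_of_bounded_surj (E : V →+ P)
    (hdisc : ∃ ε : ℝ, 0 < ε ∧ ∀ x : V, E x = 0 → ‖x‖ < ε → x = 0)
    (hbdd : ∃ R : ℝ, ∀ p : P, ∃ b : V, E b = p ∧ ‖b‖ ≤ R) {n : ℕ} (hn : n ≠ 0) :
    Nat.card ((Submodule.torsionBy ℤ P (n : ℤ)).toAddSubgroup) = n ^ finrank ℝ V := by
  obtain ⟨R, hR⟩ := hbdd
  have hsurj : Function.Surjective E := fun p => (hR p).imp fun b hb => hb.1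
  have hspan : Submodule.span ℝ {x : V | E x = 0} = ⊤ := by
    apply span_ker_eq_top_of_bounded
    refine ⟨R, fun v => ?_⟩
    obtain ⟨b, hb, hbn⟩ := hR (E v)
    exact ⟨v - b, by rw [map_sub, hb, sub_self], by rw [sub_sub_cancel]; exact hbn⟩
  exact card_torsionBy_of_span E hsurj hdisc hspan hn

/-- **Compactness form of the endgame.**  `E : V →+ P` with discrete kernel, a compact
preconnected space `X` with a cocycle `δ : X → X → P` which is locally in `E (bounded)` and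
boundedly generates `P`: then `Nat.card P[n] = n ^ dim_ℝ V`. -/
theorem card_torsionBy_of_compact [CompactSpace X] [PreconnectedSpace X] (E : V →+ P)
    (hdisc : ∃ ε : ℝ, 0 < ε ∧ ∀ x : V, E x = 0 → ‖x‖ < ε → x = 0)
    (δ : X → X → P) (hδ : ∀ a b c : X, δ a b + δ b c = δ a c)
    (hloc : ∀ x : X, ∃ U ∈ 𝓝 x, ∃ C : ℝ, ∀ a ∈ U, ∀ b ∈ U, ∃ v : V, ‖v‖ ≤ C ∧ E v = δ a b)
    (hgen : ∃ N : ℕ, ∀ p : P, ∃ l : List (X × X), l.length ≤ N ∧
      p = (l.map fun ab => δ ab.1 ab.2).sum)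
    {n : ℕ} (hn : n ≠ 0) :
    Nat.card ((Submodule.torsionBy ℤ P (n : ℤ)).toAddSubgroup) = n ^ finrank ℝ V :=
  card_torsionBy_of_bounded_surj E hdisc
    (exists_bounded_preimage_of_compact δ hδ E hloc hgen) hn

end Count

section Complex

variable {V : Type*} [NormedAddCommGroup V] [NormedSpace ℂ V] [FiniteDimensional ℂ V]
variable {P : Type*} [AddCommGroup P]
variable {X : Type*} [TopologicalSpace X]

/-- Complex form of `card_torsionBy_of_bounded_surj` in the shape of the frozen statement. -/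
theorem card_torsionBy_of_bounded_surj_complex (E : V →+ P)
    (hdisc : ∃ ε : ℝ, 0 < ε ∧ ∀ x : V, E x = 0 → ‖x‖ < ε → x = 0)
    (hbdd : ∃ R : ℝ, ∀ p : P, ∃ b : V, E b = p ∧ ‖b‖ ≤ R) (ℓ : ℕ) (hℓ : ℓ ≠ 0) (k : ℕ) :
    Nat.card ((Submodule.torsionBy ℤ P ((ℓ ^ k : ℕ) : ℤ)).toAddSubgroup) =
      ℓ ^ (2 * finrank ℂ V * k) := by
  have : FiniteDimensional ℝ V := FiniteDimensional.complexToReal V
  rw [card_torsionBy_of_bounded_surj E hdisc hbdd (pow_ne_zero k hℓ), finrank_real_of_complex,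
    ← pow_mul, mul_comm k]

/-- Complex form of `card_torsionBy_of_compact` in the shape of the frozen statement. -/
theorem card_torsionBy_of_compact_complex [CompactSpace X] [PreconnectedSpace X] (E : V →+ P)
    (hdisc : ∃ ε : ℝ, 0 < ε ∧ ∀ x : V, E x = 0 → ‖x‖ < ε → x = 0)
    (δ : X → X → P) (hδ : ∀ a b c : X, δ a b + δ b c = δ a c)
    (hloc : ∀ x : X, ∃ U ∈ 𝓝 x, ∃ C : ℝ, ∀ a ∈ U, ∀ b ∈ U, ∃ v : V, ‖v‖ ≤ C ∧ E v = δ a b)
    (hgen : ∃ N : ℕ, ∀ p : P, ∃ l : List (X × X), l.length ≤ N ∧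
      p = (l.map fun ab => δ ab.1 ab.2).sum)
    (ℓ : ℕ) (hℓ : ℓ ≠ 0) (k : ℕ) :
    Nat.card ((Submodule.torsionBy ℤ P ((ℓ ^ k : ℕ) : ℤ)).toAddSubgroup) =
      ℓ ^ (2 * finrank ℂ V * k) :=
  card_torsionBy_of_bounded_surj_complex E hdisc
    (exists_bounded_preimage_of_compact δ hδ E hloc hgen) ℓ hℓ k

end Complex

end Fermat.Agent.S27.helper1445
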