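import Mathlib

/-!
# Semilinear fixed points (Lang's lemma for vector spaces)

`k` is an algebraically closed field, `q > 1`, and `ψ` is an injective additive self-map of a
finite-dimensional `k`-vector space `V` with `ψ (a • v) = a ^ q • ψ v`.  Then

* `V` has a basis of `ψ`-fixed vectors (`exists_basis_fixed`), the fixed vectors span `V`
  (`span_fixed`), and there are exactly `q ^ finrank k V` of them (`card_fixed`);
* `v ↦ ψ v - v` is surjective (`exists_apply_sub_self_eq`), also inside every `ψ`-stable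
  subspace (`exists_mem_fixed_add`).

Everything is stated twice: for `ψ : V →ₛₗ[σ] V` with `σ a = a ^ q` (names without suffix),
and for `ψ : V →+ V` with `ψ (a • v) = a ^ q • ψ v` (names ending in `_of_addMonoidHom`).
-/

namespace Fermat.Agent.S27.helper1509

open Polynomial

section Scalars

variable {k : Type*} [Field k] [IsAlgClosed k]

/-- Artin–Schreier equations are solvable over an algebraically closed field. -/
theorem exists_pow_sub_self_eq {q : ℕ} (hq : 1 < q) (c : k) : ∃ a : k, a ^ q - a = c := by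
  have hnat : (X ^ q - X - C c : k[X]).natDegree = q := by
    rw [natDegree_sub_C]
    exact FiniteField.X_pow_card_sub_X_natDegree_eq k hq
  have hdeg : (X ^ q - X - C c : k[X]).degree ≠ 0 := by
    intro h0
    have h1 : (X ^ q - X - C c : k[X]).natDegree = 0 := natDegree_eq_of_degree_eq_some h0
    rw [hnat] at h1
    omega
  obtain ⟨a, ha⟩ := IsAlgClosed.exists_root _ hdeg
  refine ⟨a, ?_⟩
  have : a ^ q - a - c = 0 := by simpa [IsRoot.def] using ha
  linear_combination this

/-- `a ↦ a ^ q` is onto an algebraically closed field. -/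
theorem exists_pow_eq {q : ℕ} (hq : 1 < q) (c : k) : ∃ a : k, a ^ q = c :=
  IsAlgClosed.exists_pow_nat_eq c (by omega)

/-- Rescaling an eigenvector: `a ^ q * c = a` has a nonzero solution for `c ≠ 0`. -/
theorem exists_ne_zero_pow_mul_eq {q : ℕ} (hq : 1 < q) {c : k} (hc : c ≠ 0) :
    ∃ a : k, a ≠ 0 ∧ a ^ q * c = a := by
  obtain ⟨a, ha⟩ := IsAlgClosed.exists_pow_nat_eq c⁻¹ (show 0 < q - 1 by omega)
  have ha0 : a ≠ 0 := by
    rintro rfl
    rw [zero_pow (by omega)] at ha
    exact inv_ne_zero hc ha.symm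
  refine ⟨a, ha0, ?_⟩
  have hq' : q = (q - 1) + 1 := by omega
  rw [hq', pow_succ, ha]
  field_simp

/-- If `a ↦ a ^ q` is additive on an infinite field and `q > 1`, then `q = 0` in the field. -/
theorem natCast_eq_zero_of_add_pow {q : ℕ} (hq : 1 < q)
    (hadd : ∀ a b : k, (a + b) ^ q = a ^ q + b ^ q) : (q : k) = 0 := by
  have hpoly : ((X + 1) ^ q : k[X]) = X ^ q + 1 := by
    apply Polynomial.funext
    intro a
    simpa using hadd a 1
  have h1 := congrArg (fun f : k[X] => f.coeff 1) hpoly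
  simp only [coeff_X_add_one_pow, Nat.choose_one_right, coeff_add, coeff_X_pow, coeff_one] at h1
  have hq1 : (1 : ℕ) ≠ q := by omega
  simpa [hq1] using h1

omit [IsAlgClosed k] in
theorem separable_X_pow_sub_X {q : ℕ} (h0 : (q : k) = 0) : (X ^ q - X : k[X]).Separable := by
  refine ⟨1, X ^ q - X - 1, ?_⟩
  rw [derivative_sub, derivative_X_pow, derivative_X, h0, C_0]
  ring

/-- The equation `a ^ q = a` has exactly `q` solutions. -/
theorem card_pow_eq_self {q : ℕ} (hq : 1 < q) (h0 : (q : k) = 0) :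
    Nat.card {a : k // a ^ q = a} = q := by
  classical
  have hne : (X ^ q - X : k[X]) ≠ 0 := FiniteField.X_pow_card_sub_X_ne_zero k hq
  have hnd : (X ^ q - X : k[X]).roots.Nodup := nodup_roots (separable_X_pow_sub_X h0)
  have hcard : Multiset.card (X ^ q - X : k[X]).roots = q := by
    rw [(splits_iff_card_roots.mp (IsAlgClosed.splits _)),
      FiniteField.X_pow_card_sub_X_natDegree_eq k hq]
  rw [Nat.subtype_card (X ^ q - X : k[X]).roots.toFinset, Multiset.toFinset_card_of_nodup hnd,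
    hcard]
  intro a
  rw [Multiset.mem_toFinset, mem_roots hne]
  simp [IsRoot.def, sub_eq_zero]

end Scalars

section AuxPoly

variable {k : Type*} [Field k]

/-- The polynomials `P 0 = b 0 * X ^ q`, `P (i + 1) = P i ^ q + b (i + 1) * X ^ q`. -/
noncomputable def auxPoly (q : ℕ) (b : ℕ → k) : ℕ → k[X]
  | 0 => C (b 0) * X ^ q
  | (i + 1) => auxPoly q b i ^ q + C (b (i + 1)) * X ^ q

theorem eval_auxPoly_zero (q : ℕ) (b : ℕ → k) (t : k) :
    (auxPoly q b 0).eval t = b 0 * t ^ q := by
  simp [auxPoly]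

theorem eval_auxPoly_succ (q : ℕ) (b : ℕ → k) (t : k) (i : ℕ) :
    (auxPoly q b (i + 1)).eval t = (auxPoly q b i).eval t ^ q + b (i + 1) * t ^ q := by
  simp [auxPoly]

theorem X_sq_dvd_auxPoly {q : ℕ} (hq : 1 < q) (b : ℕ → k) (i : ℕ) :
    X ^ 2 ∣ auxPoly q b i := by
  have hX : (X : k[X]) ^ 2 ∣ X ^ q := pow_dvd_pow X hq
  induction i with
  | zero => exact Dvd.dvd.mul_left hX _
  | succ i ih => exact dvd_add (dvd_pow ih (by omega)) (Dvd.dvd.mul_left hX _)

theorem auxPoly_ne_zero {q : ℕ} (hq : 1 < q) (b : ℕ → k) (i : ℕ) (h : ∃ j ≤ i, b j ≠ 0) :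
    auxPoly q b i ≠ 0 := by
  induction i with
  | zero =>
    obtain ⟨j, hj, hbj⟩ := h
    obtain rfl : j = 0 := by omega
    exact mul_ne_zero (C_ne_zero.mpr hbj) (pow_ne_zero _ X_ne_zero)
  | succ i ih =>
    by_cases hP : auxPoly q b i = 0
    · have hb : b (i + 1) ≠ 0 := by
        obtain ⟨j, hj, hbj⟩ := h
        by_cases hji : j ≤ i
        · exact absurd hP (ih ⟨j, hji, hbj⟩)
        · obtain rfl : j = i + 1 := by omega
          exact hbj
      show auxPoly q b i ^ q + C (b (i + 1)) * X ^ q ≠ 0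
      rw [hP, zero_pow (by omega), zero_add]
      exact mul_ne_zero (C_ne_zero.mpr hb) (pow_ne_zero _ X_ne_zero)
    · intro h0
      have h0' : auxPoly q b i ^ q + C (b (i + 1)) * X ^ q = 0 := h0
      have h1 : auxPoly q b i ^ q = -(C (b (i + 1)) * X ^ q) := eq_neg_of_add_eq_zero_left h0'
      have h2 : (auxPoly q b i ^ q).natDegree ≤ q := by
        rw [h1, natDegree_neg]
        exact natDegree_C_mul_X_pow_le _ _
      rw [natDegree_pow] at h2
      have h3 : 2 ≤ (auxPoly q b i).natDegree := by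
        have := natDegree_le_of_dvd (X_sq_dvd_auxPoly hq b i) hP
        rwa [natDegree_X_pow] at this
      have h4 := Nat.mul_le_mul_left q h3
      omega

theorem exists_root_auxPoly [IsAlgClosed k] {q : ℕ} (hq : 1 < q) (b : ℕ → k) (s : ℕ)
    (h : ∃ j ≤ s, b j ≠ 0) : ∃ t : k, t ≠ 0 ∧ (auxPoly q b s).eval t = t := by
  obtain ⟨H, hH⟩ := X_sq_dvd_auxPoly hq b s
  have hG := auxPoly_ne_zero hq b s h
  have hH0 : H ≠ 0 := by
    rintro rfl
    exact hG (by rw [hH, mul_zero])
  have hnat : (X * H - C 1 : k[X]).natDegree = H.natDegree + 1 := by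
    rw [natDegree_sub_C, natDegree_X_mul hH0]
  have hdeg : (X * H - C 1 : k[X]).degree ≠ 0 := by
    intro h0
    have h1 : (X * H - C 1 : k[X]).natDegree = 0 := natDegree_eq_of_degree_eq_some h0
    rw [hnat] at h1
    omega
  obtain ⟨t, ht⟩ := IsAlgClosed.exists_root _ hdeg
  have ht' : t * H.eval t - 1 = 0 := by simpa [IsRoot.def] using ht
  refine ⟨t, ?_, ?_⟩
  · rintro rfl
    simp at ht'
  · rw [hH]
    simp only [eval_mul, eval_pow, eval_X]
    linear_combination t * ht'

end AuxPoly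

section Fixed

variable {k : Type*} [Field k] [IsAlgClosed k] {σ : k →+* k}
variable {V : Type*} [AddCommGroup V] [Module k V]

omit [IsAlgClosed k] in
/-- In a finite-dimensional space, a sequence starting with a nonzero vector has a linearly
independent initial segment whose span contains the next term. -/
theorem exists_linearIndependent_prefix [FiniteDimensional k V] (x : ℕ → V) (h0 : x 0 ≠ 0) :
    ∃ s, LinearIndependent k (fun i : Fin (s + 1) => x i) ∧
      x (s + 1) ∈ Submodule.span k (Set.range fun i : Fin (s + 1) => x i) := by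
  by_contra hcon
  push Not at hcon
  have key : ∀ m, LinearIndependent k (fun i : Fin (m + 1) => x i) := by
    intro m
    induction m with
    | zero =>
      show LinearIndependent k (fun i : Fin 1 => x i)
      rw [linearIndependent_unique_iff]
      simpa using h0
    | succ m ih =>
      rw [linearIndependent_finSucc']
      exact ⟨ih, hcon m ih⟩
  have h := (key (Module.finrank k V)).fintype_card_le_finrank
  simp at h

/-- **Semilinear fixed points, existence.** An injective `q`-semilinear self-map of a nonzero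
finite-dimensional vector space over an algebraically closed field has a nonzero fixed vector. -/
theorem exists_fixed_ne_zero [FiniteDimensional k V] [Nontrivial V] {q : ℕ} (hq : 1 < q)
    (hσ : ∀ a, σ a = a ^ q) (ψ : V →ₛₗ[σ] V) (hψ : Function.Injective ψ) :
    ∃ v : V, v ≠ 0 ∧ ψ v = v := by
  obtain ⟨v, hv⟩ := exists_ne (0 : V)
  obtain ⟨x, hx0, hxs⟩ : ∃ x : ℕ → V, x 0 ≠ 0 ∧ ∀ i, x (i + 1) = ψ (x i) :=
    ⟨fun i => ψ^[i] v, hv, fun i => Function.iterate_succ_apply' ψ i v⟩
  have hxne : ∀ i, x i ≠ 0 := by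
    intro i
    induction i with
    | zero => exact hx0
    | succ i ih =>
      rw [hxs]
      exact fun h => ih (hψ (h.trans (map_zero ψ).symm))
  obtain ⟨s, hli, hmem⟩ := exists_linearIndependent_prefix (k := k) x hx0
  obtain ⟨c, hc⟩ := (Submodule.mem_span_range_iff_exists_fun k).mp hmem
  obtain ⟨b, hbsum⟩ : ∃ b : ℕ → k, ∑ i ∈ Finset.range (s + 1), b i • x i = x (s + 1) := by
    refine ⟨fun i => if h : i < s + 1 then c ⟨i, h⟩ else 0, ?_⟩
    rw [← Fin.sum_univ_eq_sum_range
      (fun i => (if h : i < s + 1 then c ⟨i, h⟩ else 0) • x i) (s + 1), ← hc]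
    refine Finset.sum_congr rfl (fun i _ => ?_)
    show (if h : (i : ℕ) < s + 1 then c ⟨i, h⟩ else 0) • x i = c i • x i
    rw [dif_pos i.2]
  have hbne : ∃ j ≤ s, b j ≠ 0 := by
    by_contra hcon
    push Not at hcon
    apply hxne (s + 1)
    rw [← hbsum]
    refine Finset.sum_eq_zero (fun i hi => ?_)
    rw [hcon i (by have := Finset.mem_range.mp hi; omega), zero_smul]
  obtain ⟨t, ht0, ht⟩ := exists_root_auxPoly hq b s hbne
  obtain ⟨a, ha0, has, hat⟩ : ∃ a : ℕ → k, a 0 = b 0 * t ^ q ∧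
      (∀ i, a (i + 1) = a i ^ q + b (i + 1) * t ^ q) ∧ a s = t :=
    ⟨fun i => (auxPoly q b i).eval t, eval_auxPoly_zero q b t, eval_auxPoly_succ q b t, ht⟩
  refine ⟨∑ i ∈ Finset.range (s + 1), a i • x i, ?_, ?_⟩
  · intro h0
    rw [← Fin.sum_univ_eq_sum_range (fun i => a i • x i) (s + 1)] at h0
    have h1 := Fintype.linearIndependent_iff.mp hli (fun i => a i) h0 (Fin.last s)
    simp only [Fin.val_last] at h1
    exact ht0 (hat ▸ h1)
  · have e0 : ψ (∑ i ∈ Finset.range (s + 1), a i • x i)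
        = ∑ i ∈ Finset.range (s + 1), a i ^ q • x (i + 1) := by
      rw [map_sum]
      refine Finset.sum_congr rfl (fun i _ => ?_)
      rw [map_smulₛₗ, hσ, hxs]
    have e1 : ∑ i ∈ Finset.range (s + 1), a i ^ q • x (i + 1)
        = ∑ i ∈ Finset.range s, a i ^ q • x (i + 1) + t ^ q • x (s + 1) := by
      rw [Finset.sum_range_succ, hat]
    have e2 : t ^ q • x (s + 1) = ∑ i ∈ Finset.range s, (b (i + 1) * t ^ q) • x (i + 1)
        + (b 0 * t ^ q) • x 0 := by
      rw [← hbsum, Finset.sum_range_succ', smul_add, Finset.smul_sum, smul_smul, mul_comm]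
      congr 1
      refine Finset.sum_congr rfl (fun i _ => ?_)
      rw [smul_smul, mul_comm]
    have e3 : ∑ i ∈ Finset.range (s + 1), a i • x i
        = ∑ i ∈ Finset.range s, (a i ^ q + b (i + 1) * t ^ q) • x (i + 1)
          + (b 0 * t ^ q) • x 0 := by
      rw [Finset.sum_range_succ', ha0]
      congr 1
      refine Finset.sum_congr rfl (fun i _ => ?_)
      rw [has]
    rw [e0, e1, e2, e3, ← add_assoc, ← Finset.sum_add_distrib]
    congr 1
    refine Finset.sum_congr rfl (fun i _ => ?_)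
    rw [add_smul]

/-- Inside the span of the fixed vectors, `ψ` is onto. -/
theorem exists_mem_span_fixed_apply_eq {q : ℕ} (hq : 1 < q) (hσ : ∀ a, σ a = a ^ q)
    (ψ : V →ₛₗ[σ] V) {y : V} (hy : y ∈ Submodule.span k {v : V | ψ v = v}) :
    ∃ u ∈ Submodule.span k {v : V | ψ v = v}, ψ u = y := by
  have key : ∀ c : k, ∃ u ∈ Submodule.span k {v : V | ψ v = v}, ψ u = c • y := by
    induction hy using Submodule.span_induction with
    | mem e he =>
      intro c
      obtain ⟨a, ha⟩ := exists_pow_eq hq c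
      refine ⟨a • e, Submodule.smul_mem _ a (Submodule.subset_span he), ?_⟩
      rw [map_smulₛₗ, hσ, ha, show ψ e = e from he]
    | zero => exact fun c => ⟨0, Submodule.zero_mem _, by simp⟩
    | add y z _ _ ihy ihz =>
      intro c
      obtain ⟨u, hu, hu'⟩ := ihy c
      obtain ⟨w, hw, hw'⟩ := ihz c
      exact ⟨u + w, Submodule.add_mem _ hu hw, by rw [map_add, hu', hw', smul_add]⟩
    | smul d y _ ih =>
      intro c
      obtain ⟨u, hu, hu'⟩ := ih (c * d)
      exact ⟨u, hu, by rw [hu', mul_smul]⟩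
  obtain ⟨u, hu, hu'⟩ := key 1
  exact ⟨u, hu, by rw [hu', one_smul]⟩

/-- Inside the span of the fixed vectors, `u ↦ ψ u - u` is onto (Artin–Schreier). -/
theorem exists_mem_span_fixed_apply_sub_eq {q : ℕ} (hq : 1 < q) (hσ : ∀ a, σ a = a ^ q)
    (ψ : V →ₛₗ[σ] V) {y : V} (hy : y ∈ Submodule.span k {v : V | ψ v = v}) :
    ∃ u ∈ Submodule.span k {v : V | ψ v = v}, ψ u - u = y := by
  have key : ∀ c : k, ∃ u ∈ Submodule.span k {v : V | ψ v = v}, ψ u - u = c • y := by
    induction hy using Submodule.span_induction with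
    | mem e he =>
      intro c
      obtain ⟨a, ha⟩ := exists_pow_sub_self_eq hq c
      refine ⟨a • e, Submodule.smul_mem _ a (Submodule.subset_span he), ?_⟩
      rw [map_smulₛₗ, hσ, show ψ e = e from he, ← sub_smul, ha]
    | zero => exact fun c => ⟨0, Submodule.zero_mem _, by simp⟩
    | add y z _ _ ihy ihz =>
      intro c
      obtain ⟨u, hu, hu'⟩ := ihy c
      obtain ⟨w, hw, hw'⟩ := ihz c
      refine ⟨u + w, Submodule.add_mem _ hu hw, ?_⟩
      rw [map_add, smul_add, ← hu', ← hw']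
      abel
    | smul d y _ ih =>
      intro c
      obtain ⟨u, hu, hu'⟩ := ih (c * d)
      exact ⟨u, hu, by rw [hu', mul_smul]⟩
  obtain ⟨u, hu, hu'⟩ := key 1
  exact ⟨u, hu, by rw [hu', one_smul]⟩

/-- **Semilinear fixed points span.** The fixed vectors of an injective `q`-semilinear self-map
of a finite-dimensional vector space over an algebraically closed field span the space. -/
theorem span_fixed [FiniteDimensional k V] {q : ℕ} (hq : 1 < q) (hσ : ∀ a, σ a = a ^ q)
    (ψ : V →ₛₗ[σ] V) (hψ : Function.Injective ψ) :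
    Submodule.span k {v : V | ψ v = v} = ⊤ := by
  by_contra hne
  obtain ⟨U, hU⟩ : ∃ U : Submodule k V, U = Submodule.span k {v : V | ψ v = v} := ⟨_, rfl⟩
  rw [← hU] at hne
  have hstab : U ≤ U.comap ψ := by
    rw [hU, Submodule.span_le]
    intro e he
    show ψ e ∈ Submodule.span k {v : V | ψ v = v}
    rw [show ψ e = e from he]
    exact Submodule.subset_span he
  have hinj : Function.Injective (U.mapQ U ψ hstab) := by
    rw [injective_iff_map_eq_zero]
    intro z hz
    obtain ⟨v, rfl⟩ := Submodule.Quotient.mk_surjective U z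
    rw [Submodule.mapQ_apply, Submodule.Quotient.mk_eq_zero, hU] at hz
    obtain ⟨u, hu, hu'⟩ := exists_mem_span_fixed_apply_eq hq hσ ψ hz
    rw [Submodule.Quotient.mk_eq_zero, hU, ← hψ hu']
    exact hu
  have : Nontrivial (V ⧸ U) := Submodule.Quotient.nontrivial_iff.mpr hne
  obtain ⟨z, hz0, hz⟩ := exists_fixed_ne_zero hq hσ (U.mapQ U ψ hstab) hinj
  obtain ⟨x, rfl⟩ := Submodule.Quotient.mk_surjective U z
  rw [Submodule.mapQ_apply, Submodule.Quotient.eq, hU] at hz
  obtain ⟨u, hu, hu'⟩ := exists_mem_span_fixed_apply_sub_eq hq hσ ψ (Submodule.neg_mem _ hz)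
  have hfix : ψ (x + u) = x + u := by
    have h1 : ψ u = u + -(ψ x - x) := by
      rw [← hu']
      abel
    rw [map_add, h1]
    abel
  apply hz0
  rw [Submodule.Quotient.mk_eq_zero, hU]
  have h2 : x + u ∈ Submodule.span k {v : V | ψ v = v} := Submodule.subset_span hfix
  have h3 := Submodule.sub_mem _ h2 hu
  simpa using h3

/-- **Semilinear fixed points, basis.** There is a basis of fixed vectors. -/
theorem exists_basis_fixed [FiniteDimensional k V] {q : ℕ} (hq : 1 < q) (hσ : ∀ a, σ a = a ^ q)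
    (ψ : V →ₛₗ[σ] V) (hψ : Function.Injective ψ) :
    ∃ b : Module.Basis (Fin (Module.finrank k V)) k V, ∀ i, ψ (b i) = b i := by
  have hspan : ⊤ ≤ Submodule.span k {v : V | ψ v = v} := (span_fixed hq hσ ψ hψ).ge
  refine ⟨(Module.Basis.ofSpan hspan).reindex
    ((Module.Basis.ofSpan hspan).indexEquiv (Module.finBasis k V)), fun i => ?_⟩
  rw [Module.Basis.reindex_apply]
  exact Module.Basis.ofSpan_subset hspan (Set.mem_range_self _)

/-- `v ↦ ψ v - v` is onto. -/
theorem exists_apply_sub_self_eq [FiniteDimensional k V] {q : ℕ} (hq : 1 < q)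
    (hσ : ∀ a, σ a = a ^ q) (ψ : V →ₛₗ[σ] V) (hψ : Function.Injective ψ) (y : V) :
    ∃ x : V, ψ x - x = y := by
  have hy : y ∈ Submodule.span k {v : V | ψ v = v} := by
    rw [span_fixed hq hσ ψ hψ]
    trivial
  obtain ⟨u, -, hu⟩ := exists_mem_span_fixed_apply_sub_eq hq hσ ψ hy
  exact ⟨u, hu⟩

/-- `ψ` is onto (so bijective). -/
theorem surjective_of_injective [FiniteDimensional k V] {q : ℕ} (hq : 1 < q)
    (hσ : ∀ a, σ a = a ^ q) (ψ : V →ₛₗ[σ] V) (hψ : Function.Injective ψ) :
    Function.Surjective ψ := by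
  intro y
  have hy : y ∈ Submodule.span k {v : V | ψ v = v} := by
    rw [span_fixed hq hσ ψ hψ]
    trivial
  obtain ⟨u, -, hu⟩ := exists_mem_span_fixed_apply_eq hq hσ ψ hy
  exact ⟨u, hu⟩

/-- **Lifting fixed classes.** If `W` is a `ψ`-stable subspace and `ψ x - x ∈ W`, then the coset
`x + W` contains a fixed vector. -/
theorem exists_mem_fixed_add [FiniteDimensional k V] {q : ℕ} (hq : 1 < q)
    (hσ : ∀ a, σ a = a ^ q) (ψ : V →ₛₗ[σ] V) (hψ : Function.Injective ψ)
    (W : Submodule k V) (hW : ∀ w ∈ W, ψ w ∈ W) {x : V} (hx : ψ x - x ∈ W) :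
    ∃ w ∈ W, ψ (x + w) = x + w := by
  have hinj : Function.Injective ((ψ.domRestrict W).codRestrict W (fun w => hW w w.2)) := by
    intro w₁ w₂ h
    apply Subtype.ext
    apply hψ
    exact congrArg Subtype.val h
  obtain ⟨w, hw⟩ := exists_apply_sub_self_eq hq hσ _ hinj (⟨-(ψ x - x), W.neg_mem hx⟩ : W)
  refine ⟨w, w.2, ?_⟩
  have h1 : ψ w - w = -(ψ x - x) := congrArg Subtype.val hw
  have h2 : ψ (w : V) = w + -(ψ x - x) := by
    rw [← h1]
    abel
  rw [map_add, h2]
  abel

/-- **Semilinear fixed points, count.** There are exactly `q ^ dim V` fixed vectors. -/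
theorem card_fixed [FiniteDimensional k V] {q : ℕ} (hq : 1 < q) (hσ : ∀ a, σ a = a ^ q)
    (ψ : V →ₛₗ[σ] V) (hψ : Function.Injective ψ) :
    Nat.card {v : V // ψ v = v} = q ^ Module.finrank k V := by
  obtain ⟨b, hb⟩ := exists_basis_fixed hq hσ ψ hψ
  have h0 : (q : k) = 0 :=
    natCast_eq_zero_of_add_pow hq (fun a c => by rw [← hσ, ← hσ, ← hσ, map_add])
  have key : ∀ v : V, ψ v = v ↔ ∀ i, (b.equivFun v i) ^ q = b.equivFun v i := by
    intro v
    have hv : ψ v = b.equivFun.symm (fun i => (b.equivFun v i) ^ q) := by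
      conv_lhs => rw [← b.sum_equivFun v]
      rw [map_sum, Module.Basis.equivFun_symm_apply]
      refine Finset.sum_congr rfl (fun i _ => ?_)
      rw [map_smulₛₗ, hσ, hb]
    constructor
    · intro h i
      have h1 : b.equivFun (ψ v) i = b.equivFun v i := by rw [h]
      rw [hv, LinearEquiv.apply_symm_apply] at h1
      exact h1
    · intro h
      rw [hv, show (fun i => (b.equivFun v i) ^ q) = b.equivFun v from funext h,
        LinearEquiv.symm_apply_apply]
  have e : {v : V // ψ v = v} ≃ (Fin (Module.finrank k V) → {a : k // a ^ q = a}) :=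
    (b.equivFun.toEquiv.subtypeEquiv (fun v => key v)).trans Equiv.subtypePiEquivPi
  rw [Nat.card_congr e, Nat.card_fun, card_pow_eq_self hq h0, Nat.card_fin]

/-! ### Lines -/

/-- A `ψ`-stable line contains a nonzero fixed vector (`c ≠ 0` is automatic for injective `ψ`
and `w ≠ 0`). -/
theorem exists_smul_fixed {q : ℕ} (hq : 1 < q) (hσ : ∀ a, σ a = a ^ q) (ψ : V →ₛₗ[σ] V)
    {w : V} {c : k} (hc : c ≠ 0) (hw : ψ w = c • w) :
    ∃ a : k, a ≠ 0 ∧ ψ (a • w) = a • w := by
  obtain ⟨a, ha0, ha⟩ := exists_ne_zero_pow_mul_eq hq hc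
  exact ⟨a, ha0, by rw [map_smulₛₗ, hσ, hw, smul_smul, ha]⟩

omit [IsAlgClosed k] in
/-- The fixed vectors on the line through a nonzero fixed vector `v` are the `a • v` with
`a ^ q = a`. -/
theorem smul_fixed_iff {q : ℕ} (hσ : ∀ a, σ a = a ^ q) (ψ : V →ₛₗ[σ] V) {v : V} (hv : v ≠ 0)
    (hfix : ψ v = v) (a : k) : ψ (a • v) = a • v ↔ a ^ q = a := by
  rw [map_smulₛₗ, hσ, hfix]
  exact (smul_left_injective k hv).eq_iff

/-- The number of nonzero solutions of `a ^ q = a` is `q - 1`. -/
theorem card_pow_eq_self_ne_zero {q : ℕ} (hq : 1 < q) (h0 : (q : k) = 0) :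
    Nat.card {a : k // a ≠ 0 ∧ a ^ q = a} = q - 1 := by
  have h1 : Nat.card {a : k // a ^ q = a} = q := card_pow_eq_self hq h0
  have hfin : Finite {a : k // a ^ q = a} := Nat.finite_of_card_ne_zero (by omega)
  have h2 : ({a : k | a ^ q = a} \ {0}).ncard = {a : k | a ^ q = a}.ncard - 1 :=
    Set.ncard_sdiff_singleton_of_mem (show (0 : k) ∈ {a : k | a ^ q = a} from zero_pow (by omega))
  have h3 : {a : k | a ≠ 0 ∧ a ^ q = a} = {a : k | a ^ q = a} \ {0} := by
    ext a
    simp [and_comm]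
  show Nat.card {a : k | a ≠ 0 ∧ a ^ q = a} = q - 1
  rw [Nat.card_coe_set_eq, h3, h2, ← Nat.card_coe_set_eq]
  exact congrArg (· - 1) h1

/-- There are exactly `q ^ dim V - 1` nonzero fixed vectors. -/
theorem card_fixed_ne_zero [FiniteDimensional k V] {q : ℕ} (hq : 1 < q)
    (hσ : ∀ a, σ a = a ^ q) (ψ : V →ₛₗ[σ] V) (hψ : Function.Injective ψ) :
    Nat.card {v : V // v ≠ 0 ∧ ψ v = v} = q ^ Module.finrank k V - 1 := by
  have h1 : Nat.card {v : V // ψ v = v} = q ^ Module.finrank k V := card_fixed hq hσ ψ hψ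
  have hpos : 0 < q ^ Module.finrank k V := Nat.pow_pos (by omega)
  have hfin : Finite {v : V // ψ v = v} := Nat.finite_of_card_ne_zero (by omega)
  have h2 : ({v : V | ψ v = v} \ {0}).ncard = {v : V | ψ v = v}.ncard - 1 :=
    Set.ncard_sdiff_singleton_of_mem (show (0 : V) ∈ {v : V | ψ v = v} from map_zero ψ)
  have h3 : {v : V | v ≠ 0 ∧ ψ v = v} = {v : V | ψ v = v} \ {0} := by
    ext v
    simp [and_comm]
  show Nat.card {v : V | v ≠ 0 ∧ ψ v = v} = q ^ Module.finrank k V - 1
  rw [Nat.card_coe_set_eq, h3, h2, ← Nat.card_coe_set_eq]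
  exact congrArg (· - 1) h1

/-- **Counting `ψ`-stable lines.** Let `π` be a surjection from the nonzero fixed vectors onto a
type `X` whose fibres are the punctured lines (`π v = π w` iff `w` is a multiple of `v`).  Then
`#X * (q - 1) = q ^ dim V - 1`.  (Typical use: `V = L(D)`, `X` = the effective divisors fixed
by Frobenius in the class of a fixed divisor `D`, `π f = D + div f`.) -/
theorem card_mul_pred_of_fibers [FiniteDimensional k V] {q : ℕ} (hq : 1 < q)
    (hσ : ∀ a, σ a = a ^ q) (ψ : V →ₛₗ[σ] V) (hψ : Function.Injective ψ) {X : Type*}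
    (π : {v : V // v ≠ 0 ∧ ψ v = v} → X) (hsurj : Function.Surjective π)
    (hfib : ∀ v w, π v = π w ↔ ∃ a : k, (w : V) = a • (v : V)) :
    Nat.card X * (q - 1) = q ^ Module.finrank k V - 1 := by
  have h0 : (q : k) = 0 :=
    natCast_eq_zero_of_add_pow hq (fun a c => by rw [← hσ, ← hσ, ← hσ, map_add])
  have hfib_card : ∀ x : X, Nat.card {v // π v = x} = q - 1 := by
    intro x
    obtain ⟨v, rfl⟩ := hsurj x
    rw [← card_pow_eq_self_ne_zero hq h0]
    refine Nat.card_congr (Equiv.ofBijective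
      (fun a : {a : k // a ≠ 0 ∧ a ^ q = a} =>
        (⟨⟨a.1 • v.1, smul_ne_zero a.2.1 v.2.1,
          (smul_fixed_iff hσ ψ v.2.1 v.2.2 a.1).mpr a.2.2⟩,
          ((hfib v _).mpr ⟨a.1, rfl⟩).symm⟩ : {w // π w = π v})) ⟨?_, ?_⟩).symm
    · intro a a' h
      have h1 : a.1 • v.1 = a'.1 • v.1 := congrArg (fun w : {w // π w = π v} => (w.1.1 : V)) h
      exact Subtype.ext (smul_left_injective k v.2.1 h1)
    · rintro ⟨w, hw⟩
      obtain ⟨a, ha⟩ := (hfib v w).mp hw.symm
      have ha0 : a ≠ 0 := by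
        rintro rfl
        exact w.2.1 (by rw [ha, zero_smul])
      have haq : a ^ q = a := (smul_fixed_iff hσ ψ v.2.1 v.2.2 a).mp (by rw [← ha]; exact w.2.2)
      exact ⟨⟨a, ha0, haq⟩, Subtype.ext (Subtype.ext ha.symm)⟩
  have hpos : 0 < q ^ Module.finrank k V := Nat.pow_pos (by omega)
  have hfinfix : Finite {v : V // ψ v = v} :=
    Nat.finite_of_card_ne_zero (by rw [card_fixed hq hσ ψ hψ]; omega)
  have hfinA : Finite {v : V // v ≠ 0 ∧ ψ v = v} :=
    Finite.of_injective (fun v => (⟨v.1, v.2.2⟩ : {v : V // ψ v = v}))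
      (fun v w h => Subtype.ext (congrArg (fun u : {v : V // ψ v = v} => (u : V)) h))
  have hfinX : Finite X := Finite.of_surjective π hsurj
  let _ : Fintype X := Fintype.ofFinite X
  rw [← card_fixed_ne_zero hq hσ ψ hψ, ← Nat.card_congr (Equiv.sigmaFiberEquiv π), Nat.card_sigma]
  simp only [hfib_card, Finset.sum_const, Finset.card_univ, smul_eq_mul, Nat.card_eq_fintype_card]

end Fixed

/-! ### The same statements for an additive map `ψ` with `ψ (a • v) = a ^ q • ψ v` -/

section AddMonoidHom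

variable {k : Type*} [Field k]
variable {V : Type*} [AddCommGroup V] [Module k V]

/-- On a nonzero space carrying an injective additive `ψ` with `ψ (a • v) = a ^ q • ψ v`, the map
`a ↦ a ^ q` is additive. -/
theorem add_pow_of_semilinear [Nontrivial V] {q : ℕ} (ψ : V →+ V)
    (hsl : ∀ (a : k) (v : V), ψ (a • v) = a ^ q • ψ v) (hψ : Function.Injective ψ) (a b : k) :
    (a + b) ^ q = a ^ q + b ^ q := by
  obtain ⟨v, hv⟩ := exists_ne (0 : V)
  have hv' : ψ v ≠ 0 := fun h => hv (hψ (h.trans (map_zero ψ).symm))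
  apply smul_left_injective k hv'
  show (a + b) ^ q • ψ v = (a ^ q + b ^ q) • ψ v
  rw [← hsl, add_smul, map_add, hsl, hsl, add_smul]

/-- The ring endomorphism `a ↦ a ^ q`, when it is additive. -/
def powRingHom (q : ℕ) (hq : q ≠ 0) (hadd : ∀ a b : k, (a + b) ^ q = a ^ q + b ^ q) : k →+* k where
  toFun a := a ^ q
  map_one' := one_pow q
  map_mul' a b := mul_pow a b q
  map_zero' := zero_pow hq
  map_add' := hadd

theorem powRingHom_apply (q : ℕ) (hq : q ≠ 0) (hadd : ∀ a b : k, (a + b) ^ q = a ^ q + b ^ q)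
    (a : k) : powRingHom q hq hadd a = a ^ q := rfl

/-- An additive map with `ψ (a • v) = a ^ q • ψ v`, bundled as a semilinear map. -/
def toSemilinear (q : ℕ) (hq : q ≠ 0) (hadd : ∀ a b : k, (a + b) ^ q = a ^ q + b ^ q)
    (ψ : V →+ V) (hsl : ∀ (a : k) (v : V), ψ (a • v) = a ^ q • ψ v) :
    V →ₛₗ[powRingHom q hq hadd] V where
  toFun := ψ
  map_add' := ψ.map_add
  map_smul' := hsl

theorem toSemilinear_apply (q : ℕ) (hq : q ≠ 0) (hadd : ∀ a b : k, (a + b) ^ q = a ^ q + b ^ q)
    (ψ : V →+ V) (hsl : ∀ (a : k) (v : V), ψ (a • v) = a ^ q • ψ v) (v : V) :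
    toSemilinear q hq hadd ψ hsl v = ψ v := rfl

variable [IsAlgClosed k]

/-- (SL1) A nonzero fixed vector. -/
theorem exists_fixed_ne_zero_of_addMonoidHom [FiniteDimensional k V] [Nontrivial V] {q : ℕ}
    (hq : 1 < q) (ψ : V →+ V) (hsl : ∀ (a : k) (v : V), ψ (a • v) = a ^ q • ψ v)
    (hψ : Function.Injective ψ) : ∃ v : V, v ≠ 0 ∧ ψ v = v :=
  exists_fixed_ne_zero hq (powRingHom_apply q (by omega) (add_pow_of_semilinear ψ hsl hψ))
    (toSemilinear q (by omega) (add_pow_of_semilinear ψ hsl hψ) ψ hsl) hψ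

/-- (SL3) The fixed vectors span. -/
theorem span_fixed_of_addMonoidHom [FiniteDimensional k V] {q : ℕ}
    (hq : 1 < q) (ψ : V →+ V) (hsl : ∀ (a : k) (v : V), ψ (a • v) = a ^ q • ψ v)
    (hψ : Function.Injective ψ) : Submodule.span k {v : V | ψ v = v} = ⊤ := by
  rcases subsingleton_or_nontrivial V with h | h
  · exact Submodule.eq_top_iff'.mpr (fun x => by
      rw [Subsingleton.elim x 0]
      exact Submodule.zero_mem _)
  · exact span_fixed hq (powRingHom_apply q (by omega) (add_pow_of_semilinear ψ hsl hψ))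
      (toSemilinear q (by omega) (add_pow_of_semilinear ψ hsl hψ) ψ hsl) hψ

/-- A basis of fixed vectors. -/
theorem exists_basis_fixed_of_addMonoidHom [FiniteDimensional k V] {q : ℕ}
    (hq : 1 < q) (ψ : V →+ V) (hsl : ∀ (a : k) (v : V), ψ (a • v) = a ^ q • ψ v)
    (hψ : Function.Injective ψ) :
    ∃ b : Module.Basis (Fin (Module.finrank k V)) k V, ∀ i, ψ (b i) = b i := by
  rcases subsingleton_or_nontrivial V with h | h
  · exact ⟨Module.finBasis k V, fun i => Subsingleton.elim _ _⟩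
  · exact exists_basis_fixed hq (powRingHom_apply q (by omega) (add_pow_of_semilinear ψ hsl hψ))
      (toSemilinear q (by omega) (add_pow_of_semilinear ψ hsl hψ) ψ hsl) hψ

/-- (SL2) There are exactly `q ^ dim V` fixed vectors. -/
theorem card_fixed_of_addMonoidHom [FiniteDimensional k V] {q : ℕ}
    (hq : 1 < q) (ψ : V →+ V) (hsl : ∀ (a : k) (v : V), ψ (a • v) = a ^ q • ψ v)
    (hψ : Function.Injective ψ) :
    Nat.card {v : V // ψ v = v} = q ^ Module.finrank k V := by
  rcases subsingleton_or_nontrivial V with h | h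
  · rw [Module.finrank_zero_of_subsingleton, pow_zero, Nat.card_eq_one_iff_unique]
    exact ⟨⟨fun v w => Subtype.ext (Subsingleton.elim _ _)⟩, ⟨⟨0, map_zero ψ⟩⟩⟩
  · exact card_fixed hq (powRingHom_apply q (by omega) (add_pow_of_semilinear ψ hsl hψ))
      (toSemilinear q (by omega) (add_pow_of_semilinear ψ hsl hψ) ψ hsl) hψ

/-- `v ↦ ψ v - v` is onto. -/
theorem exists_apply_sub_self_eq_of_addMonoidHom [FiniteDimensional k V] {q : ℕ}
    (hq : 1 < q) (ψ : V →+ V) (hsl : ∀ (a : k) (v : V), ψ (a • v) = a ^ q • ψ v)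
    (hψ : Function.Injective ψ) (y : V) : ∃ x : V, ψ x - x = y := by
  rcases subsingleton_or_nontrivial V with h | h
  · exact ⟨0, Subsingleton.elim _ _⟩
  · exact exists_apply_sub_self_eq hq
      (powRingHom_apply q (by omega) (add_pow_of_semilinear ψ hsl hψ))
      (toSemilinear q (by omega) (add_pow_of_semilinear ψ hsl hψ) ψ hsl) hψ y

/-- `ψ` is onto. -/
theorem surjective_of_addMonoidHom [FiniteDimensional k V] {q : ℕ}
    (hq : 1 < q) (ψ : V →+ V) (hsl : ∀ (a : k) (v : V), ψ (a • v) = a ^ q • ψ v)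
    (hψ : Function.Injective ψ) : Function.Surjective ψ := by
  rcases subsingleton_or_nontrivial V with h | h
  · exact fun y => ⟨y, Subsingleton.elim _ _⟩
  · exact surjective_of_injective hq
      (powRingHom_apply q (by omega) (add_pow_of_semilinear ψ hsl hψ))
      (toSemilinear q (by omega) (add_pow_of_semilinear ψ hsl hψ) ψ hsl) hψ

/-- (SL4) If `W` is `ψ`-stable and `ψ x - x ∈ W`, the coset `x + W` contains a fixed vector. -/
theorem exists_mem_fixed_add_of_addMonoidHom [FiniteDimensional k V] {q : ℕ}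
    (hq : 1 < q) (ψ : V →+ V) (hsl : ∀ (a : k) (v : V), ψ (a • v) = a ^ q • ψ v)
    (hψ : Function.Injective ψ) (W : Submodule k V) (hW : ∀ w ∈ W, ψ w ∈ W) {x : V}
    (hx : ψ x - x ∈ W) : ∃ w ∈ W, ψ (x + w) = x + w := by
  rcases subsingleton_or_nontrivial V with h | h
  · exact ⟨0, W.zero_mem, Subsingleton.elim _ _⟩
  · exact exists_mem_fixed_add hq
      (powRingHom_apply q (by omega) (add_pow_of_semilinear ψ hsl hψ))
      (toSemilinear q (by omega) (add_pow_of_semilinear ψ hsl hψ) ψ hsl) hψ W hW hx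

/-- (SL5) A `ψ`-stable line contains a nonzero fixed vector. -/
theorem exists_smul_fixed_of_addMonoidHom {q : ℕ}
    (hq : 1 < q) (ψ : V →+ V) (hsl : ∀ (a : k) (v : V), ψ (a • v) = a ^ q • ψ v)
    {w : V} {c : k} (hc : c ≠ 0) (hw : ψ w = c • w) :
    ∃ a : k, a ≠ 0 ∧ ψ (a • w) = a • w := by
  obtain ⟨a, ha0, ha⟩ := exists_ne_zero_pow_mul_eq hq hc
  exact ⟨a, ha0, by rw [hsl, hw, smul_smul, ha]⟩

omit [IsAlgClosed k] in
/-- (SL5) The fixed vectors on the line through a nonzero fixed `v` are the `a • v` with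
`a ^ q = a`. -/
theorem smul_fixed_iff_of_addMonoidHom {q : ℕ} (ψ : V →+ V)
    (hsl : ∀ (a : k) (v : V), ψ (a • v) = a ^ q • ψ v) {v : V} (hv : v ≠ 0)
    (hfix : ψ v = v) (a : k) : ψ (a • v) = a • v ↔ a ^ q = a := by
  rw [hsl, hfix]
  exact (smul_left_injective k hv).eq_iff

/-- (SL5) There are exactly `q ^ dim V - 1` nonzero fixed vectors. -/
theorem card_fixed_ne_zero_of_addMonoidHom [FiniteDimensional k V] {q : ℕ}
    (hq : 1 < q) (ψ : V →+ V) (hsl : ∀ (a : k) (v : V), ψ (a • v) = a ^ q • ψ v)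
    (hψ : Function.Injective ψ) :
    Nat.card {v : V // v ≠ 0 ∧ ψ v = v} = q ^ Module.finrank k V - 1 := by
  rcases subsingleton_or_nontrivial V with h | h
  · rw [Module.finrank_zero_of_subsingleton, pow_zero]
    have : IsEmpty {v : V // v ≠ 0 ∧ ψ v = v} := ⟨fun v => v.2.1 (Subsingleton.elim _ _)⟩
    simp
  · exact card_fixed_ne_zero hq
      (powRingHom_apply q (by omega) (add_pow_of_semilinear ψ hsl hψ))
      (toSemilinear q (by omega) (add_pow_of_semilinear ψ hsl hψ) ψ hsl) hψ

/-- (SL5) **Counting `ψ`-stable lines**: if `π` maps the nonzero fixed vectors onto `X` and its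
fibres are the punctured lines, then `#X * (q - 1) = q ^ dim V - 1`. -/
theorem card_mul_pred_of_fibers_of_addMonoidHom [FiniteDimensional k V] {q : ℕ}
    (hq : 1 < q) (ψ : V →+ V) (hsl : ∀ (a : k) (v : V), ψ (a • v) = a ^ q • ψ v)
    (hψ : Function.Injective ψ) {X : Type*}
    (π : {v : V // v ≠ 0 ∧ ψ v = v} → X) (hsurj : Function.Surjective π)
    (hfib : ∀ v w, π v = π w ↔ ∃ a : k, (w : V) = a • (v : V)) :
    Nat.card X * (q - 1) = q ^ Module.finrank k V - 1 := by
  rcases subsingleton_or_nontrivial V with h | h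
  · rw [Module.finrank_zero_of_subsingleton, pow_zero]
    have h1 : IsEmpty {v : V // v ≠ 0 ∧ ψ v = v} := ⟨fun v => v.2.1 (Subsingleton.elim _ _)⟩
    have h2 : IsEmpty X := ⟨fun x => h1.false (hsurj x).choose⟩
    simp
  · exact card_mul_pred_of_fibers hq
      (powRingHom_apply q (by omega) (add_pow_of_semilinear ψ hsl hψ))
      (toSemilinear q (by omega) (add_pow_of_semilinear ψ hsl hψ) ψ hsl) hψ π hsurj hfib

end AddMonoidHom

end Fermat.Agent.S27.helper1509
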