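import Mathlib

set_option autoImplicit false

open Filter Topology
open scoped ContDiff

namespace Fermat.Agent.S27.helper1545

variable {E : Type*} [NormedAddCommGroup E] [NormedSpace ℂ E]

/-! ## (K2) analytic simple root with parameters -/

/-- **Analytic simple root with parameters** (explicit neighbourhoods).  If `F : E × ℂ → ℂ` is
analytic at `(q0, z0)`, `F (q0, z0) = 0` and `∂F/∂z (q0, z0) ≠ 0`, then there are an open
neighbourhood `U` of `q0`, a radius `δ > 0` and an analytic `z : E → ℂ` on `U` with `z q0 = z0`,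
such that for `q ∈ U` the point `z q` is the unique zero of `F (q, ·)` in the disc of radius `δ`
around `z0`. -/
theorem exists_analytic_root [CompleteSpace E] (F : E × ℂ → ℂ) (q0 : E) (z0 : ℂ)
    (hF : AnalyticAt ℂ F (q0, z0)) (h0 : F (q0, z0) = 0)
    (hd : deriv (fun z => F (q0, z)) z0 ≠ 0) :
    ∃ (U : Set E) (δ : ℝ) (z : E → ℂ), IsOpen U ∧ q0 ∈ U ∧ 0 < δ ∧ AnalyticOnNhd ℂ z U ∧
      z q0 = z0 ∧ (∀ q ∈ U, ‖z q - z0‖ < δ ∧ F (q, z q) = 0) ∧
      ∀ q ∈ U, ∀ w : ℂ, ‖w - z0‖ < δ → F (q, w) = 0 → w = z q := by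
  have cdf : ContDiffAt ℂ ω F (q0, z0) := hF.contDiffAt
  have pn : (ω : ℕ∞ω) ≠ 0 := by simp
  have hderiv : deriv (fun z => F (q0, z)) z0 = fderiv ℂ F (q0, z0) (0, 1) := by
    have h1 : HasDerivAt (fun z : ℂ => (q0, z)) ((0 : E), (1 : ℂ)) z0 :=
      (hasDerivAt_const z0 q0).prodMk (hasDerivAt_id z0)
    exact (hF.differentiableAt.hasFDerivAt.comp_hasDerivAt z0 h1).deriv
  have if₂ : (fderiv ℂ F (q0, z0) ∘L ContinuousLinearMap.inr ℂ E ℂ).IsInvertible := by
    set c : ℂ := fderiv ℂ F (q0, z0) (0, 1) with hc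
    have hc0 : c ≠ 0 := by rw [← hderiv]; exact hd
    refine ⟨ContinuousLinearEquiv.unitsEquivAut ℂ (Units.mk0 c hc0), ?_⟩
    ext
    simp [hc]
  set ψ : E → ℂ := cdf.implicitFunction pn if₂ with hψ
  have hψ0 : ψ q0 = z0 := cdf.implicitFunction_apply_self pn if₂
  have hψan : AnalyticAt ℂ ψ q0 := (cdf.contDiffAt_implicitFunction pn if₂).analyticAt
  have hiff := cdf.eventually_apply_eq_iff_implicitFunction pn if₂
  rw [h0] at hiff
  obtain ⟨U1, hU1, V1, hV1, hUV⟩ := mem_nhds_prod_iff.mp hiff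
  obtain ⟨δ, hδ, hδV⟩ := Metric.mem_nhds_iff.mp hV1
  have hcont : ∀ᶠ q in 𝓝 q0, ψ q ∈ Metric.ball z0 δ := by
    have := hψan.continuousAt.tendsto
    rw [hψ0] at this
    exact this.eventually (Metric.ball_mem_nhds z0 hδ)
  have hS : {q | q ∈ U1 ∧ ψ q ∈ Metric.ball z0 δ ∧ AnalyticAt ℂ ψ q} ∈ 𝓝 q0 := by
    filter_upwards [hU1, hcont, hψan.eventually_analyticAt] with q h1 h2 h3
    exact ⟨h1, h2, h3⟩
  refine ⟨interior {q | q ∈ U1 ∧ ψ q ∈ Metric.ball z0 δ ∧ AnalyticAt ℂ ψ q}, δ, ψ,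
    isOpen_interior, mem_interior_iff_mem_nhds.mpr hS, hδ, ?_, hψ0, ?_, ?_⟩
  · intro q hq
    exact (interior_subset hq).2.2
  · intro q hq
    obtain ⟨hq1, hq2, -⟩ := interior_subset hq
    refine ⟨by simpa [Metric.mem_ball, dist_eq_norm] using hq2, ?_⟩
    have := hUV (Set.mk_mem_prod hq1 (hδV hq2))
    exact this.mpr rfl
  · intro q hq w hw hFw
    obtain ⟨hq1, -, -⟩ := interior_subset hq
    have hwV : w ∈ V1 := hδV (by simpa [Metric.mem_ball, dist_eq_norm] using hw)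
    have := hUV (Set.mk_mem_prod hq1 hwV)
    exact (this.mp hFw).symm

/-! ## (K1) holomorphic kernel line (Cramer) -/

/-- The determinant of a matrix with analytic entries is analytic. -/
theorem analyticAt_det {κ : Type*} [Fintype κ] [DecidableEq κ] (N : E → Matrix κ κ ℂ) (q0 : E)
    (hN : ∀ i j, AnalyticAt ℂ (fun q => N q i j) q0) :
    AnalyticAt ℂ (fun q => (N q).det) q0 := by
  simp only [Matrix.det_apply']
  refine Finset.analyticAt_fun_sum _ fun σ _ => ?_
  refine AnalyticAt.mul analyticAt_const ?_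
  exact Finset.analyticAt_fun_prod _ fun i _ => hN _ _

/-- The adjugate of a matrix with analytic entries has analytic entries. -/
theorem analyticAt_adjugate {κ : Type*} [Fintype κ] [DecidableEq κ] (N : E → Matrix κ κ ℂ)
    (q0 : E) (hN : ∀ i j, AnalyticAt ℂ (fun q => N q i j) q0) (i j : κ) :
    AnalyticAt ℂ (fun q => (N q).adjugate i j) q0 := by
  simp only [Matrix.adjugate_apply]
  refine analyticAt_det _ q0 fun i' j' => ?_
  simp only [Matrix.updateRow_apply]
  split_ifs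
  · exact analyticAt_const
  · exact hN _ _

/-- **Holomorphic kernel line (Cramer).**  Let `A q` be a matrix whose entries are analytic in the
parameter `q` at `q0`.  Assume the kernel of `A q0` is the line spanned by `v0 ≠ 0`, and that the
kernel of `A q` is nonzero for all `q` near `q0`.  Then there are an open neighbourhood `U` of `q0`
and an analytic `a : E → κ → ℂ` on `U` with `a q0 = v0` such that for every `q ∈ U` the kernel of
`A q` is exactly the line spanned by `a q ≠ 0`. -/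
theorem exists_analytic_kernel_line {ι κ : Type*} [Fintype ι] [Fintype κ] [DecidableEq κ]
    (A : E → Matrix ι κ ℂ) (q0 : E) (hA : ∀ i j, AnalyticAt ℂ (fun q => A q i j) q0)
    (v0 : κ → ℂ) (hv0 : v0 ≠ 0)
    (hker0 : ∀ v : κ → ℂ, (A q0).mulVec v = 0 → ∃ c : ℂ, v = c • v0)
    (hne : ∀ᶠ q in 𝓝 q0, ∃ v : κ → ℂ, v ≠ 0 ∧ (A q).mulVec v = 0) :
    ∃ (U : Set E) (a : E → κ → ℂ), IsOpen U ∧ q0 ∈ U ∧ AnalyticOnNhd ℂ a U ∧ a q0 = v0 ∧
      ∀ q ∈ U, a q ≠ 0 ∧ ∀ v : κ → ℂ, (A q).mulVec v = 0 ↔ ∃ c : ℂ, v = c • a q := by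
  classical
  -- `v0` is in the kernel at `q0`
  have hAv0 : (A q0).mulVec v0 = 0 := by
    obtain ⟨v, hv, hAv⟩ := hne.self_of_nhds
    obtain ⟨c, rfl⟩ := hker0 v hAv
    have hc : c ≠ 0 := by rintro rfl; simp at hv
    rw [Matrix.mulVec_smul] at hAv
    exact (smul_eq_zero.mp hAv).resolve_left hc
  -- a functional `r` with `r ⬝ v0 = 1`
  obtain ⟨j0, hj0⟩ : ∃ j, v0 j ≠ 0 := by
    by_contra h
    push Not at h
    exact hv0 (funext h)
  set r : κ → ℂ := Pi.single j0 (v0 j0)⁻¹ with hr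
  have hrv0 : r ⬝ᵥ v0 = 1 := by
    rw [hr, single_dotProduct, inv_mul_cancel₀ hj0]
  -- the augmented matrix
  set M : E → Matrix (ι ⊕ Unit) κ ℂ := fun q => Matrix.fromRows (A q) (Matrix.replicateRow Unit r)
    with hM
  set e1 : (ι ⊕ Unit) → ℂ := Sum.elim 0 (fun _ => 1) with he1
  have hMv : ∀ q v, (A q).mulVec v = 0 → (M q).mulVec v = (r ⬝ᵥ v) • e1 := by
    intro q v hv
    ext (i | u)
    · simp [hM, he1, Matrix.fromRows_mulVec, hv]
    · simp [hM, he1, Matrix.fromRows_mulVec, Matrix.replicateRow_mulVec_eq_const]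
  have hMv' : ∀ q v, (M q).mulVec v = 0 → (A q).mulVec v = 0 ∧ r ⬝ᵥ v = 0 := by
    intro q v hv
    constructor
    · ext i
      have := congrFun hv (Sum.inl i)
      simpa [hM, Matrix.fromRows_mulVec] using this
    · have := congrFun hv (Sum.inr ())
      simpa [hM, Matrix.fromRows_mulVec, Matrix.replicateRow_mulVec_eq_const] using this
  -- injectivity at `q0` and a left inverse
  have hinj : LinearMap.ker (Matrix.mulVecLin (M q0)) = ⊥ := by
    rw [LinearMap.ker_eq_bot']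
    intro v hv
    rw [Matrix.mulVecLin_apply] at hv
    obtain ⟨h1, h2⟩ := hMv' q0 v hv
    obtain ⟨c, rfl⟩ := hker0 v h1
    rw [dotProduct_smul, hrv0, smul_eq_mul, mul_one] at h2
    rw [h2, zero_smul]
  obtain ⟨g, hg⟩ := LinearMap.exists_leftInverse_of_injective _ hinj
  set P : Matrix κ (ι ⊕ Unit) ℂ := LinearMap.toMatrix' g with hP
  have hPM : P * M q0 = 1 := by
    have h1 : LinearMap.toMatrix' (g ∘ₗ Matrix.mulVecLin (M q0)) = 1 := by
      rw [hg]; exact LinearMap.toMatrix'_id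
    rw [LinearMap.toMatrix'_comp, ← Matrix.toLin'_apply', LinearMap.toMatrix'_toLin'] at h1
    exact h1
  set N : E → Matrix κ κ ℂ := fun q => P * M q with hN
  have hN0 : N q0 = 1 := hPM
  have hNan : ∀ i j, AnalyticAt ℂ (fun q => N q i j) q0 := by
    intro i j
    simp only [hN, Matrix.mul_apply]
    refine Finset.analyticAt_fun_sum _ fun k _ => ?_
    refine AnalyticAt.mul analyticAt_const ?_
    rcases k with k | k
    · simpa [hM] using hA k j
    · simpa [hM] using (analyticAt_const : AnalyticAt ℂ (fun _ : E => r j) q0)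
  have hdet : AnalyticAt ℂ (fun q => (N q).det) q0 := analyticAt_det N q0 hNan
  have hdet0 : (N q0).det ≠ 0 := by rw [hN0, Matrix.det_one]; exact one_ne_zero
  set w : κ → ℂ := P.mulVec e1 with hw
  set a : E → κ → ℂ := fun q => (N q)⁻¹.mulVec w with ha
  have haan : AnalyticAt ℂ a q0 := by
    rw [analyticAt_pi_iff]
    intro i
    have : (fun q => a q i) = fun q => ((N q).det)⁻¹ * ∑ j, (N q).adjugate i j * w j := by
      funext q
      simp only [ha, Matrix.inv_def, Ring.inverse_eq_inv', Matrix.smul_mulVec, Pi.smul_apply,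
        smul_eq_mul, Matrix.mulVec, dotProduct]
    rw [this]
    refine AnalyticAt.mul (hdet.inv hdet0) ?_
    refine Finset.analyticAt_fun_sum _ fun j _ => ?_
    exact (analyticAt_adjugate N q0 hNan i j).mul analyticAt_const
  have ha0 : a q0 = v0 := by
    simp only [ha, hN0, inv_one, Matrix.one_mulVec]
    have h1 : (M q0).mulVec v0 = e1 := by
      rw [hMv q0 v0 hAv0, hrv0, one_smul]
    rw [hw, ← h1, Matrix.mulVec_mulVec, hPM, Matrix.one_mulVec]
  have hdetev : ∀ᶠ q in 𝓝 q0, (N q).det ≠ 0 := hdet.continuousAt.eventually_ne hdet0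
  have hS : {q | (N q).det ≠ 0 ∧ (∃ v : κ → ℂ, v ≠ 0 ∧ (A q).mulVec v = 0) ∧ AnalyticAt ℂ a q}
      ∈ 𝓝 q0 := by
    filter_upwards [hdetev, hne, haan.eventually_analyticAt] with q h1 h2 h3
    exact ⟨h1, h2, h3⟩
  refine ⟨interior {q | (N q).det ≠ 0 ∧ (∃ v : κ → ℂ, v ≠ 0 ∧ (A q).mulVec v = 0) ∧
    AnalyticAt ℂ a q}, a, isOpen_interior, mem_interior_iff_mem_nhds.mpr hS, ?_, ha0, ?_⟩
  · intro q hq
    exact (interior_subset hq).2.2
  · intro q hq
    obtain ⟨hq1, ⟨v1, hv1, hAv1⟩, -⟩ := interior_subset hq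
    have hunit : IsUnit (N q).det := IsUnit.mk0 _ hq1
    -- every kernel vector is a multiple of `a q`
    have hkey : ∀ v : κ → ℂ, (A q).mulVec v = 0 → v = (r ⬝ᵥ v) • a q := by
      intro v hv
      have h1 : (N q).mulVec v = (r ⬝ᵥ v) • w := by
        rw [hN, ← Matrix.mulVec_mulVec, hMv q v hv, Matrix.mulVec_smul]
      calc v = ((N q)⁻¹ * N q).mulVec v := by rw [Matrix.nonsing_inv_mul _ hunit, Matrix.one_mulVec]
        _ = (N q)⁻¹.mulVec ((N q).mulVec v) := by rw [Matrix.mulVec_mulVec]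
        _ = (r ⬝ᵥ v) • a q := by rw [h1, Matrix.mulVec_smul]
    have hrv1 : r ⬝ᵥ v1 ≠ 0 := by
      intro h
      have := hkey v1 hAv1
      rw [h, zero_smul] at this
      exact hv1 this
    have haq : a q = (r ⬝ᵥ v1)⁻¹ • v1 := by
      have := hkey v1 hAv1
      rw [eq_inv_smul_iff₀ hrv1]
      exact this.symm
    have hAa : (A q).mulVec (a q) = 0 := by
      rw [haq, Matrix.mulVec_smul, hAv1, smul_zero]
    refine ⟨?_, fun v => ⟨fun hv => ⟨_, hkey v hv⟩, ?_⟩⟩
    · rw [haq]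
      exact smul_ne_zero (inv_ne_zero hrv1) hv1
    · rintro ⟨c, rfl⟩
      rw [Matrix.mulVec_smul, hAa, smul_zero]

/-- **Holomorphic kernel line, basis-free form.**  `V` a finite-dimensional complex vector space,
`ℓ q i : V →ₗ[ℂ] ℂ` finitely many linear conditions depending analytically on `q` (in the weak
sense: `q ↦ ℓ q i v` analytic at `q0` for every `v`).  If the common kernel at `q0` is the line
`ℂ ∙ v0` and the common kernel is nonzero for `q` near `q0`, then near `q0` the common kernel is a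
line spanned by `a q`, where `a` is weakly analytic and `a q0 = v0`. -/
theorem exists_analytic_kernel_line' {V : Type*} [AddCommGroup V] [Module ℂ V]
    [FiniteDimensional ℂ V] {ι : Type*} [Fintype ι]
    (ℓ : E → ι → V →ₗ[ℂ] ℂ) (q0 : E) (hℓ : ∀ i v, AnalyticAt ℂ (fun q => ℓ q i v) q0)
    (v0 : V) (hv0 : v0 ≠ 0)
    (hker0 : ∀ v : V, (∀ i, ℓ q0 i v = 0) → ∃ c : ℂ, v = c • v0)
    (hne : ∀ᶠ q in 𝓝 q0, ∃ v : V, v ≠ 0 ∧ ∀ i, ℓ q i v = 0) :
    ∃ (U : Set E) (a : E → V), IsOpen U ∧ q0 ∈ U ∧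
      (∀ φ : V →ₗ[ℂ] ℂ, AnalyticOnNhd ℂ (fun q => φ (a q)) U) ∧ a q0 = v0 ∧
      ∀ q ∈ U, a q ≠ 0 ∧ ∀ v : V, (∀ i, ℓ q i v = 0) ↔ ∃ c : ℂ, v = c • a q := by
  classical
  set n := Module.finrank ℂ V with hn
  set b : Module.Basis (Fin n) ℂ V := Module.finBasis ℂ V with hb
  set A : E → Matrix ι (Fin n) ℂ := fun q => Matrix.of fun i j => ℓ q i (b j) with hAdef
  have hmul : ∀ q (v : V), (A q).mulVec (b.equivFun v) = fun i => ℓ q i v := by
    intro q v
    ext i
    have hv : v = ∑ j, b.equivFun v j • b j := (b.sum_equivFun v).symm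
    conv_rhs => rw [hv]
    simp only [hAdef, Matrix.mulVec, dotProduct, Matrix.of_apply, map_sum, map_smul, smul_eq_mul]
    refine Finset.sum_congr rfl fun j _ => ?_
    ring
  have hmul' : ∀ q (u : Fin n → ℂ), (A q).mulVec u = fun i => ℓ q i (b.equivFun.symm u) := by
    intro q u
    rw [← hmul q (b.equivFun.symm u), LinearEquiv.apply_symm_apply]
  have hA : ∀ i j, AnalyticAt ℂ (fun q => A q i j) q0 := fun i j => by
    simpa [hAdef] using hℓ i (b j)
  have hv0' : b.equivFun v0 ≠ 0 := fun h => hv0 (by simpa using h)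
  have hker0' : ∀ u : Fin n → ℂ, (A q0).mulVec u = 0 → ∃ c : ℂ, u = c • b.equivFun v0 := by
    intro u hu
    rw [hmul'] at hu
    obtain ⟨c, hc⟩ := hker0 (b.equivFun.symm u) fun i => congrFun hu i
    refine ⟨c, ?_⟩
    rw [← map_smul, ← hc, LinearEquiv.apply_symm_apply]
  have hne' : ∀ᶠ q in 𝓝 q0, ∃ u : Fin n → ℂ, u ≠ 0 ∧ (A q).mulVec u = 0 := by
    filter_upwards [hne] with q ⟨v, hv, hℓv⟩
    refine ⟨b.equivFun v, fun h => hv (by simpa using h), ?_⟩
    rw [hmul]
    exact funext hℓv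
  obtain ⟨U, a', hU, hq0, ha', ha0, hU'⟩ :=
    exists_analytic_kernel_line A q0 hA (b.equivFun v0) hv0' hker0' hne'
  refine ⟨U, fun q => b.equivFun.symm (a' q), hU, hq0, ?_, ?_, ?_⟩
  · intro φ q hq
    have h1 : (fun q => φ (b.equivFun.symm (a' q))) = fun q => ∑ j, a' q j * φ (b j) := by
      funext q
      rw [Module.Basis.equivFun_symm_apply, map_sum]
      simp
    rw [h1]
    refine Finset.analyticAt_fun_sum _ fun j _ => ?_
    exact ((analyticAt_pi_iff.mp (ha' q hq)) j).mul analyticAt_const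
  · show b.equivFun.symm (a' q0) = v0
    rw [ha0, LinearEquiv.symm_apply_apply]
  · intro q hq
    obtain ⟨h1, h2⟩ := hU' q hq
    refine ⟨fun h => h1 (b.equivFun.symm.map_eq_zero_iff.mp h), fun v => ?_⟩
    have h3 := h2 (b.equivFun v)
    rw [hmul] at h3
    constructor
    · intro hv
      obtain ⟨c, hc⟩ := h3.mp (funext hv)
      refine ⟨c, ?_⟩
      rw [← map_smul, ← hc, LinearEquiv.symm_apply_apply]
    · rintro ⟨c, rfl⟩
      have : b.equivFun (c • b.equivFun.symm (a' q)) = c • a' q := by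
        rw [map_smul, LinearEquiv.apply_symm_apply]
      rw [this] at h3
      exact fun i => congrFun (h3.mpr ⟨c, rfl⟩) i

/-! ## (K3') moving zero: the chain-rule identity behind the regularity of `∂ₜh / h` -/

/-- **Moving zero, order two.**  Let `w k` be finitely many functions analytic at `z0`, and let
`c k`, `σ` be differentiable at `t0` with `σ t0 = z0`, such that `∑ k, c k t * w k (σ t) = 0` for
`t` near `t0` (the combination `H_t = ∑ c_k(t) w_k` vanishes at the moving point `σ t`).  Then the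
function `n s = (∑ k, c' k * w k s) * (s - z0) + σ' * ∑ k, c k t0 * w k s` (the numerator of
`∂ₜ (H_t / (x - σ t))` at `t = t0`) vanishes to order at least two at `z0`. -/
theorem moving_zero_order_two {κ : Type*} [Fintype κ] (w : κ → ℂ → ℂ) (z0 : ℂ)
    (hw : ∀ k, AnalyticAt ℂ (w k) z0) (c : κ → ℂ → ℂ) (c' : κ → ℂ) (σ : ℂ → ℂ) (σ' : ℂ) (t0 : ℂ)
    (hc : ∀ k, HasDerivAt (c k) (c' k) t0) (hσ : HasDerivAt σ σ' t0) (hσ0 : σ t0 = z0)
    (hzero : ∀ᶠ t in 𝓝 t0, ∑ k, c k t * w k (σ t) = 0) :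
    (∑ k, c' k * w k z0) * (z0 - z0) + σ' * ∑ k, c k t0 * w k z0 = 0 ∧
    HasDerivAt (fun s => (∑ k, c' k * w k s) * (s - z0) + σ' * ∑ k, c k t0 * w k s) 0 z0 := by
  have hw' : ∀ k, HasDerivAt (w k) (deriv (w k) z0) z0 := fun k =>
    (hw k).differentiableAt.hasDerivAt
  -- derivative of the identity in `t`
  have hD : HasDerivAt (fun t => ∑ k, c k t * w k (σ t))
      (∑ k, (c' k * w k z0 + c k t0 * (deriv (w k) z0 * σ'))) t0 := by
    refine HasDerivAt.fun_sum fun k _ => ?_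
    have h1 : HasDerivAt (fun t => w k (σ t)) (deriv (w k) z0 * σ') t0 := by
      have := (hσ0 ▸ hw' k : HasDerivAt (w k) (deriv (w k) z0) (σ t0))
      exact this.comp t0 hσ
    have := (hc k).mul h1
    rw [hσ0] at this
    exact this
  have hD0 : ∑ k, (c' k * w k z0 + c k t0 * (deriv (w k) z0 * σ')) = 0 := by
    have h0 : HasDerivAt (fun t => ∑ k, c k t * w k (σ t)) 0 t0 :=
      (hasDerivAt_const t0 (0 : ℂ)).congr_of_eventuallyEq (by
        filter_upwards [hzero] with t ht using ht)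
    exact hD.unique h0
  have hval : ∑ k, c k t0 * w k z0 = 0 := by
    have := hzero.self_of_nhds
    rwa [hσ0] at this
  refine ⟨by rw [hval]; ring, ?_⟩
  have h1 : HasDerivAt (fun s => ∑ k, c' k * w k s) (∑ k, c' k * deriv (w k) z0) z0 :=
    HasDerivAt.fun_sum fun k _ => (hw' k).const_mul (c' k)
  have h2 : HasDerivAt (fun s => ∑ k, c k t0 * w k s) (∑ k, c k t0 * deriv (w k) z0) z0 :=
    HasDerivAt.fun_sum fun k _ => (hw' k).const_mul (c k t0)
  have h3 := (h1.mul ((hasDerivAt_id z0).sub_const z0)).add (h2.const_mul σ')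
  have h4 : HasDerivAt (fun s => (∑ k, c' k * w k s) * (s - z0) + σ' * ∑ k, c k t0 * w k s)
      ((∑ k, c' k * deriv (w k) z0) * (z0 - z0) + (∑ k, c' k * w k z0) * 1
        + σ' * ∑ k, c k t0 * deriv (w k) z0) z0 := h3
  rw [Finset.sum_add_distrib] at hD0
  have h5 : ∑ k, c k t0 * (deriv (w k) z0 * σ') = σ' * ∑ k, c k t0 * deriv (w k) z0 := by
    rw [Finset.mul_sum]
    refine Finset.sum_congr rfl fun k _ => ?_
    ring
  rw [h5] at hD0
  have h6 : (∑ k, c' k * deriv (w k) z0) * (z0 - z0) + (∑ k, c' k * w k z0) * 1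
        + σ' * ∑ k, c k t0 * deriv (w k) z0 = 0 := by
    rw [sub_self, mul_zero, zero_add, mul_one]
    exact hD0
  rw [h6] at h4
  exact h4

end Fermat.Agent.S27.helper1545
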