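import Fermat.Agent.S27.helper6247_Spec
import Fermat.Agent.S24.helper1370_PlaceBasics

/-!
# S27, node M6a: `Stmt_LocalAbel ⟹ Stmt_GLS` (bridge, seat helper1545)

`Stmt_LocalAbel` (fixed base, linear system form) is the primary core lemma of the Spec
`helper6247_Spec`; `Stmt_GLS` (two-parameter form for a pair of bases) is the form consumed by
the `Stmt_Key` assemblies.  This file proves

`gls_of_localAbel : Stmt_LocalAbel → Stmt_GoodTuple → Stmt_NonspecialBasis → Stmt_ChartExists →
  Stmt_IntChartExists → Stmt_GLS`.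

Proof.  Take a third nonspecial reduced base `C⁰` away from `A⁰ ∪ B⁰` (`Stmt_GoodTuple`), with
charts (`Stmt_ChartExists`) and abelian integrals `J''` (`Stmt_IntChartExists`).  The map
`γ ↦ ∑ k, J'' k (γ k)` is injective near `0` (`Stmt_NonspecialBasis` + inverse function theorem).
Apply `Stmt_LocalAbel` to the `g + g` moving charts `A ++ B` and the base `C⁰`, at the parameters
`(s, 0)` and `(s', σ)`: the residual points `γ₁`, `γ₂` on `C⁰` have the same abelian sum as soon
as `∑ J'(σ) = ∑ (J(s) - J(s'))`, so `γ₁ = γ₂`, and the two principal divisors subtract to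
`A(s) - A(s') - B(σ) + B⁰`.  The unramified-fibre hypothesis and the nonspeciality of `A⁰` in
`Stmt_GLS` are not used.
-/

set_option autoImplicit false

open AlgebraicCurve IntermediateField
open scoped Topology

namespace Fermat.Agent.S27.helper1545

open Fermat.Agent.S27.helper6247

noncomputable section

/-- Local injectivity of an abelian sum `σ ↦ ∑ j, J j (σ j)` whose integrands are linearly
independent at the base point (inverse function theorem). -/
theorem injOn_abelSum {ι : Type*} [Fintype ι] (J : ι → ℂ → ι → ℂ) (a : ι → ℂ → ι → ℂ)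
    (r : ι → ℝ) (hr : ∀ j, 0 < r j)
    (hJ : ∀ j, ∀ s ∈ Metric.ball (0 : ℂ) (r j), HasDerivAt (J j) (a j s) s)
    (hli : LinearIndependent ℂ (fun j => a j 0)) :
    ∃ δ > 0, Set.InjOn (fun σ : ι → ℂ => ∑ j, J j (σ j)) (Metric.ball 0 δ) := by
  classical
  have hstrict : ∀ j, HasStrictDerivAt (J j) (a j 0) 0 := by
    intro j
    have hd : DifferentiableOn ℂ (J j) (Metric.ball (0 : ℂ) (r j)) := fun s hs =>
      (hJ j s hs).differentiableAt.differentiableWithinAt
    have han : AnalyticAt ℂ (J j) 0 :=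
      hd.analyticAt (Metric.isOpen_ball.mem_nhds (Metric.mem_ball_self (hr j)))
    have h1 := han.hasStrictDerivAt
    have h2 : deriv (J j) 0 = a j 0 := (hJ j 0 (Metric.mem_ball_self (hr j))).deriv
    rwa [h2] at h1
  let L : (ι → ℂ) →L[ℂ] (ι → ℂ) :=
    ∑ j, (ContinuousLinearMap.smulRight (1 : ℂ →L[ℂ] ℂ) (a j 0)).comp
      (ContinuousLinearMap.proj (R := ℂ) (φ := fun _ : ι => ℂ) j)
  have hL : ∀ v : ι → ℂ, L v = ∑ j, v j • a j 0 := by
    intro v
    simp [L]
  have hΦ : HasStrictFDerivAt (fun σ : ι → ℂ => ∑ j, J j (σ j)) L 0 := by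
    refine HasStrictFDerivAt.fun_sum fun j _ => ?_
    have hp : HasStrictFDerivAt (fun σ : ι → ℂ => σ j)
        (ContinuousLinearMap.proj (R := ℂ) (φ := fun _ : ι => ℂ) j) 0 :=
      (ContinuousLinearMap.proj (R := ℂ) (φ := fun _ : ι => ℂ) j).hasStrictFDerivAt
    have hj : HasStrictFDerivAt (J j)
        (ContinuousLinearMap.smulRight (1 : ℂ →L[ℂ] ℂ) (a j 0)) ((0 : ι → ℂ) j) :=
      (hstrict j).hasStrictFDerivAt
    exact hj.comp (0 : ι → ℂ) hp
  have hLinj : Function.Injective L := by
    refine (injective_iff_map_eq_zero L).mpr fun v hv => ?_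
    have hv' : ∑ j, v j • a j 0 = 0 := by
      rw [← hL v]; exact hv
    exact funext (Fintype.linearIndependent_iff.mp hli v hv')
  have hLsurj : Function.Surjective L :=
    (LinearMap.injective_iff_surjective (f := (L : (ι → ℂ) →ₗ[ℂ] (ι → ℂ)))).mp hLinj
  let Le : (ι → ℂ) ≃L[ℂ] (ι → ℂ) :=
    (LinearEquiv.ofBijective (L : (ι → ℂ) →ₗ[ℂ] (ι → ℂ))
      ⟨hLinj, hLsurj⟩).toContinuousLinearEquiv
  have hLe : (Le : (ι → ℂ) →L[ℂ] (ι → ℂ)) = L := by
    ext v : 1
    rfl
  have hΦ' : HasStrictFDerivAt (fun σ : ι → ℂ => ∑ j, J j (σ j))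
      (Le : (ι → ℂ) →L[ℂ] (ι → ℂ)) 0 := by
    rw [hLe]; exact hΦ
  have hev := hΦ'.eventually_left_inverse
  obtain ⟨δ, hδ, hball⟩ := Metric.eventually_nhds_iff_ball.mp hev
  refine ⟨δ, hδ, fun σ hσ τ hτ hστ => ?_⟩
  have h1 := hball σ hσ
  have h2 := hball τ hτ
  simp only at hστ h1 h2
  rw [← h1, ← h2, hστ]

section Append

variable {K F : Type*} [Field K] [Field F] [Algebra K F]

/-- `sumDiv` of a concatenated family. -/
theorem sumDiv_append {m n : ℕ} (P : Fin m → Place K F) (P' : Fin n → Place K F) :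
    sumDiv (Fin.append P P') = sumDiv P + sumDiv P' := by
  unfold sumDiv
  rw [Fin.sum_univ_add]
  simp

end Append

/-- **Bridge**: the fixed-base local Abel theorem implies the two-base form `Stmt_GLS`. -/
theorem gls_of_localAbel (hLA : Stmt_LocalAbel) (hGT : Stmt_GoodTuple.{0, 0})
    (hNB : Stmt_NonspecialBasis.{0, 0}) (hCE : Stmt_ChartExists) (hIC : Stmt_IntChartExists) :
    Stmt_GLS := by
  intro F _ _ x hx _ e x₀ c u' Q Q' r r' J J' hc hQ hQ' _hunram hinjB _hnsA _hnsB hdisj
  classical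
  -- (1) the centres of `A⁰` and `B⁰` are `2g` distinct places
  have hQ0 : ∀ i, (Q i 0).ord (x₀ - algebraMap ℂ F (c i)) = 1 := by
    intro i
    have h := (hQ i).chart.unif 0 (Metric.mem_ball_self (hQ i).chart.pos)
    simpa using h
  have hinjA : Function.Injective (fun i => Q i 0) := by
    intro i j hij
    simp only at hij
    have h1 := hQ0 i
    have h2 := hQ0 j
    rw [← hij] at h2
    have h1' : 0 < (Q i 0).ord (x₀ - algebraMap ℂ F (c i)) := by omega
    have h2' : 0 < (Q i 0).ord (x₀ - algebraMap ℂ F (c j)) := by omega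
    exact hc (Fermat.Agent.S24.helper1370.eq_of_ord_sub_algebraMap_pos (Q i 0) h1' h2')
  have hAB : ∀ i j, Q i 0 ≠ Q' j 0 := by
    intro i j h
    have h1 := hQ0 i
    have h2 := hdisj i j
    rw [← h] at h2
    omega
  -- (2) a third nonspecial base `C⁰`, off `A⁰ ∪ B⁰`, with integral charts
  obtain ⟨C, d, hd, hCS, hCns, hCord, _⟩ := hGT ℂ F x hx
    (Set.range (fun i => Q i 0) ∪ Set.range (fun j => Q' j 0))
    ((Set.finite_range _).union (Set.finite_range _))
  have hCinj : Function.Injective C := by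
    intro i j hij
    have h1 := hCord i
    have h2 := hCord j
    rw [← hij] at h2
    have h1' : 0 < (C i).ord (x - algebraMap ℂ F (d i)) := by omega
    have h2' : 0 < (C i).ord (x - algebraMap ℂ F (d j)) := by omega
    exact hd (Fermat.Agent.S24.helper1370.eq_of_ord_sub_algebraMap_pos (C i) h1' h2')
  choose Q'' r'' hch'' hQ''0 using fun k =>
    hCE F x hx (C k) (x - algebraMap ℂ F (d k)) (hCord k)
  choose J'' hJ'' using fun k =>
    hIC F x hx e (x - algebraMap ℂ F (d k)) (Q'' k) (r'' k) (hch'' k)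
  have hC0 : (fun k => Q'' k 0) = C := funext hQ''0
  -- (3) local injectivity of the abelian sum on `C⁰`
  have hli : LinearIndependent ℂ
      (fun k => chartCoef e (x - algebraMap ℂ F (d k)) (Q'' k) 0) := by
    have h := hNB ℂ F x hx C (fun k => x - algebraMap ℂ F (d k)) hCinj hCord hCns
    have h' := h.map' e.toLinearMap (LinearEquiv.ker e)
    have heq : (fun k => chartCoef e (x - algebraMap ℂ F (d k)) (Q'' k) 0)
        = e.toLinearMap ∘ (fun k => pp (C k) (x - algebraMap ℂ F (d k))⁻¹) := by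
      funext k
      simp [chartCoef, hQ''0 k]
    rw [heq]
    exact h'
  obtain ⟨ε₁, hε₁, hinj⟩ := injOn_abelSum J''
    (fun k s => chartCoef e (x - algebraMap ℂ F (d k)) (Q'' k) s) r''
    (fun k => (hch'' k).pos) (fun k s hs => (hJ'' k).deriv s hs) hli
  -- (4) the `g + g` moving charts
  have hm : ∀ i : Fin (genusFF ℂ F + genusFF ℂ F),
      IsIntChart e (Fin.append (fun i => x₀ - algebraMap ℂ F (c i)) u' i)
        (Fin.append Q Q' i) (Fin.append r r' i) (Fin.append J J' i) := by
    intro i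
    refine Fin.addCases (fun i => ?_) (fun j => ?_) i
    · simp only [Fin.append_left]
      exact hQ i
    · simp only [Fin.append_right]
      exact hQ' j
  have hinjm : Function.Injective (fun i : Fin (genusFF ℂ F + genusFF ℂ F) =>
      Fin.append Q Q' i 0) := by
    intro i j
    refine Fin.addCases (fun i => ?_) (fun i => ?_) i <;>
      refine Fin.addCases (fun j => ?_) (fun j => ?_) j
    · intro h
      simp only [Fin.append_left] at h
      rw [hinjA h]
    · intro h
      simp only [Fin.append_left, Fin.append_right] at h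
      exact absurd h (hAB i j)
    · intro h
      simp only [Fin.append_left, Fin.append_right] at h
      exact absurd h.symm (hAB j i)
    · intro h
      simp only [Fin.append_right] at h
      rw [hinjB h]
  have hmC : ∀ (i : Fin (genusFF ℂ F + genusFF ℂ F)) (k : Fin (genusFF ℂ F)),
      Fin.append Q Q' i 0 ≠ Q'' k 0 := by
    intro i k
    rw [hQ''0 k]
    refine Fin.addCases (fun i => ?_) (fun j => ?_) i
    · intro h
      simp only [Fin.append_left] at h
      exact hCS k (Or.inl ⟨i, h⟩)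
    · intro h
      simp only [Fin.append_right] at h
      exact hCS k (Or.inr ⟨j, h⟩)
  have hCinj0 : Function.Injective (fun k => Q'' k 0) := by rw [hC0]; exact hCinj
  have hCns0 : IsNonspecial (sumDiv fun k => Q'' k 0) := by rw [hC0]; exact hCns
  obtain ⟨δ, hδ, hmove⟩ := hLA F x hx e (genusFF ℂ F + genusFF ℂ F)
    (Fin.append (fun i => x₀ - algebraMap ℂ F (c i)) u') (Fin.append Q Q') (Fin.append r r')
    (Fin.append J J') (fun k => x - algebraMap ℂ F (d k)) Q'' r'' J'' hm hJ'' hinjm hCinj0 hmC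
    hCns0 ε₁ hε₁
  -- (5) conclusion
  refine ⟨δ, hδ, fun s s' σ hs hs' hσ hsum => ?_⟩
  -- the two parameter vectors
  have key : ∀ (p q : Fin (genusFF ℂ F) → ℂ), (∀ i, ‖p i‖ < δ) → (∀ j, ‖q j‖ < δ) →
      ∃ γ : Fin (genusFF ℂ F) → ℂ, γ ∈ Metric.ball (0 : Fin (genusFF ℂ F) → ℂ) ε₁ ∧
        (sumDiv (fun i => Q i (p i)) + sumDiv (fun j => Q' j (q j))
            - (sumDiv (fun i => Q i 0) + sumDiv (fun j => Q' j 0)))
          + (sumDiv (fun k => Q'' k (γ k)) - sumDiv (fun k => Q'' k 0))
          ∈ Divisor.principal (K := ℂ) (F := F) ∧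
        (∑ i, J i (p i) + ∑ j, J' j (q j)) + ∑ k, J'' k (γ k) = 0 := by
    intro p q hp hq
    have ha : ∀ i : Fin (genusFF ℂ F + genusFF ℂ F), ‖Fin.append p q i‖ < δ := by
      intro i
      refine Fin.addCases (fun i => ?_) (fun j => ?_) i
      · simp only [Fin.append_left]
        exact hp i
      · simp only [Fin.append_right]
        exact hq j
    obtain ⟨γ, hγ, hprin, hJsum⟩ := hmove (Fin.append p q) ha
    refine ⟨γ, ?_, ?_, ?_⟩
    · rw [mem_ball_zero_iff]
      exact (pi_norm_lt_iff hε₁).mpr hγ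
    · have e1 : (fun i : Fin (genusFF ℂ F + genusFF ℂ F) =>
          Fin.append Q Q' i (Fin.append p q i))
          = Fin.append (fun i => Q i (p i)) (fun j => Q' j (q j)) := by
        funext i
        refine Fin.addCases (fun i => ?_) (fun j => ?_) i
        · simp only [Fin.append_left]
        · simp only [Fin.append_right]
      have e2 : (fun i : Fin (genusFF ℂ F + genusFF ℂ F) => Fin.append Q Q' i 0)
          = Fin.append (fun i => Q i 0) (fun j => Q' j 0) := by
        funext i
        refine Fin.addCases (fun i => ?_) (fun j => ?_) i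
        · simp only [Fin.append_left]
        · simp only [Fin.append_right]
      rw [e1, e2, sumDiv_append, sumDiv_append] at hprin
      exact hprin
    · have e3 : ∑ i : Fin (genusFF ℂ F + genusFF ℂ F), Fin.append J J' i (Fin.append p q i)
          = ∑ i, J i (p i) + ∑ j, J' j (q j) := by
        rw [Fin.sum_univ_add]
        simp only [Fin.append_left, Fin.append_right]
      rw [e3] at hJsum
      exact hJsum
  obtain ⟨γ₁, hγ₁, hP₁, hS₁⟩ := key s (fun _ => 0) hs (fun _ => by simpa using hδ)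
  obtain ⟨γ₂, hγ₂, hP₂, hS₂⟩ := key s' σ hs' hσ
  have hJ'0 : ∑ j, J' j (0 : ℂ) = 0 :=
    Finset.sum_eq_zero fun j _ => (hQ' j).zero
  have hγ : γ₁ = γ₂ := by
    apply hinj hγ₁ hγ₂
    show ∑ k, J'' k (γ₁ k) = ∑ k, J'' k (γ₂ k)
    have hsum' : ∑ j, J' j (σ j) = ∑ i, J i (s i) - ∑ i, J i (s' i) := by
      rw [hsum, Finset.sum_sub_distrib]
    rw [hJ'0, add_zero] at hS₁
    have h1 : ∑ k, J'' k (γ₁ k) = -∑ i, J i (s i) := eq_neg_of_add_eq_zero_right hS₁
    have h2 : ∑ k, J'' k (γ₂ k) = -(∑ i, J i (s' i) + ∑ j, J' j (σ j)) :=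
      eq_neg_of_add_eq_zero_right hS₂
    rw [h1, h2, hsum']
    abel
  rw [← hγ] at hP₂
  have hsub := (Divisor.principal (K := ℂ) (F := F)).sub_mem hP₁ hP₂
  have hfin : sumDiv (fun i => Q i (s i)) - sumDiv (fun i => Q i (s' i))
        - sumDiv (fun j => Q' j (σ j)) + sumDiv (fun j => Q' j 0)
      = (sumDiv (fun i => Q i (s i)) + sumDiv (fun j => Q' j 0)
            - (sumDiv (fun i => Q i 0) + sumDiv (fun j => Q' j 0))
          + (sumDiv (fun k => Q'' k (γ₁ k)) - sumDiv (fun k => Q'' k 0)))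
        - (sumDiv (fun i => Q i (s' i)) + sumDiv (fun j => Q' j (σ j))
            - (sumDiv (fun i => Q i 0) + sumDiv (fun j => Q' j 0))
          + (sumDiv (fun k => Q'' k (γ₁ k)) - sumDiv (fun k => Q'' k 0))) := by
    abel
  rw [hfin]
  exact hsub

end

end Fermat.Agent.S27.helper1545
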