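import Mathlib

/-!
# S27, step E4 (variant D): bounded periods

Mathlib-only kit for the statement "the kernel of `E : ℂ^g →+ Pic0` spans `ℂ^g` over `ℝ`"
in its measure-free form: every class of a generic point is `E v` for a vector `v` of
bounded norm, up to one of the finitely many classes over a fixed base value `a0`.

* `exists_two_segments`: two-segment paths missing a finite set.
* `exists_uniform_segment_bound`: the uniform bound for integrals along segments, from the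
  raw shape of the pole bound.
* `exists_lift_segment_class`: lifting of a segment through an evenly covered plane curve,
  together with the class identity along the lift (from the local Abel lemma in primitive
  form).
* `exists_bounded_preimage`: bounded preimages for the classes of all generic points.
* `span_ker_eq_top_of_bounded`, `span_ker_eq_top_of_generators`: `V = ker E + bounded`
  implies that `ker E` spans over `ℝ`.
* `span_ker_eq_top_of_plane_model`: everything assembled.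

Intended instance: `X = {(a, b) | χ(a, b) = 0}`, `S` the finite bad set of `x`-values,
`cls (a, b)` the class of `pt a b - P0`, `ω (a, b) = (φ_1(a, b), …, φ_g(a, b))`, and `E` the
Abel-Jacobi hom from `ℂ^g`.
-/

set_option autoImplicit false

noncomputable section

namespace Fermat.Agent.S27.helper157

open MeasureTheory Set Filter Topology

/-! ### Two-segment paths missing a finite set -/

/-- The point of the line through `p` and `q` with real parameter `t`. -/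
def linePt (p q : ℂ) (t : ℝ) : ℂ := p + (t : ℂ) * (q - p)

@[simp] lemma linePt_zero (p q : ℂ) : linePt p q 0 = p := by simp [linePt]

@[simp] lemma linePt_one (p q : ℂ) : linePt p q 1 = q := by simp [linePt]

lemma continuous_linePt (p q : ℂ) : Continuous (linePt p q) := by
  unfold linePt
  fun_prop

lemma linePt_sub_linePt (p q : ℂ) (s t : ℝ) :
    linePt p q s - linePt p q t = ((s - t : ℝ) : ℂ) * (q - p) := by
  simp only [linePt, Complex.ofReal_sub]
  ring

lemma norm_linePt_sub_linePt (p q : ℂ) (s t : ℝ) :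
    ‖linePt p q s - linePt p q t‖ = |s - t| * ‖q - p‖ := by
  rw [linePt_sub_linePt, norm_mul, Complex.norm_real, Real.norm_eq_abs]

/-- Reparametrisation of a sub-segment. -/
lemma linePt_linePt (p q : ℂ) (s t u : ℝ) :
    linePt (linePt p q s) (linePt p q t) u = linePt p q (s + u * (t - s)) := by
  simp only [linePt, Complex.ofReal_add, Complex.ofReal_mul, Complex.ofReal_sub]
  ring

/-- For a centre `c` off the point `p`, at most one of the segments from `p` to the points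
`m s = (p + q) / 2 + s * I * (q - p)` of the perpendicular bisector passes through `c`. -/
lemma bisector_param_unique {p q c : ℂ} (hpq : p ≠ q) (hc : c ≠ p) {s₁ s₂ t₁ t₂ : ℝ}
    (h₁ : c = linePt p ((p + q) / 2 + (s₁ : ℂ) * Complex.I * (q - p)) t₁)
    (h₂ : c = linePt p ((p + q) / 2 + (s₂ : ℂ) * Complex.I * (q - p)) t₂) : s₁ = s₂ := by
  have hu : q - p ≠ 0 := sub_ne_zero.mpr (Ne.symm hpq)
  have e₁ : c - p = (q - p) * ((t₁ : ℂ) * (1 / 2 + (s₁ : ℂ) * Complex.I)) := by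
    rw [h₁, linePt]; ring
  have e₂ : c - p = (q - p) * ((t₂ : ℂ) * (1 / 2 + (s₂ : ℂ) * Complex.I)) := by
    rw [h₂, linePt]; ring
  have e : (t₁ : ℂ) * (1 / 2 + (s₁ : ℂ) * Complex.I) = (t₂ : ℂ) * (1 / 2 + (s₂ : ℂ) * Complex.I) :=
    mul_left_cancel₀ hu (e₁.symm.trans e₂)
  have hre := congrArg Complex.re e
  have him := congrArg Complex.im e
  simp at hre him
  have ht : t₁ = t₂ := by linarith
  subst ht
  have ht0 : t₁ ≠ 0 := by
    rintro rfl
    apply hc
    have : c - p = 0 := by rw [e₁]; simp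
    exact sub_eq_zero.mp this
  exact mul_left_cancel₀ ht0 him

/-- Two points off a finite set can be joined by two segments missing the set. -/
theorem exists_two_segments (S : Finset ℂ) {a a0 : ℂ} (ha : a ∉ S) (ha0 : a0 ∉ S) :
    ∃ m : ℂ, (∀ t ∈ Icc (0 : ℝ) 1, linePt a m t ∉ S) ∧ (∀ t ∈ Icc (0 : ℝ) 1, linePt m a0 t ∉ S) := by
  classical
  by_cases haa : a = a0
  · subst haa
    refine ⟨a, fun t _ => ?_, fun t _ => ?_⟩ <;> simpa [linePt] using ha
  let m : ℝ → ℂ := fun s => (a + a0) / 2 + (s : ℂ) * Complex.I * (a0 - a)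
  have hm' : ∀ s, m s = (a0 + a) / 2 + ((-s : ℝ) : ℂ) * Complex.I * (a - a0) := by
    intro s; simp only [m, Complex.ofReal_neg]; ring
  -- bad parameters
  let B₁ : ℂ → Set ℝ := fun c => {s | ∃ t : ℝ, c = linePt a (m s) t}
  let B₂ : ℂ → Set ℝ := fun c => {s | ∃ t : ℝ, c = linePt a0 (m s) t}
  have hB₁ : ∀ c ∈ S, (B₁ c).Subsingleton := by
    rintro c hc s₁ ⟨t₁, h₁⟩ s₂ ⟨t₂, h₂⟩
    exact bisector_param_unique haa (fun h => ha (h ▸ hc)) h₁ h₂
  have hB₂ : ∀ c ∈ S, (B₂ c).Subsingleton := by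
    rintro c hc s₁ ⟨t₁, h₁⟩ s₂ ⟨t₂, h₂⟩
    rw [hm'] at h₁ h₂
    have := bisector_param_unique (Ne.symm haa) (fun h => ha0 (h ▸ hc)) h₁ h₂
    linarith
  have hfin : (⋃ c ∈ S, (B₁ c ∪ B₂ c)).Finite :=
    S.finite_toSet.biUnion fun c hc => ((hB₁ c hc).finite).union ((hB₂ c hc).finite)
  obtain ⟨s, hs⟩ := hfin.infinite_compl.nonempty
  simp only [mem_compl_iff, mem_iUnion, mem_union, not_exists, not_or] at hs
  refine ⟨m s, fun t _ hmem => ?_, fun t _ hmem => ?_⟩
  · exact (hs _ hmem).1 ⟨t, rfl⟩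
  · refine (hs _ hmem).2 ⟨1 - t, ?_⟩
    simp only [linePt, Complex.ofReal_sub, Complex.ofReal_one]
    ring

/-! ### Integrable radial majorants -/

/-- The decaying majorant `(1 + x) ^ (-r)`. -/
def decay (r : ℝ) (x : ℝ) : ℝ := (1 + x) ^ (-r)

/-- The singular decaying majorant `x ^ (-α) * (1 + x) ^ (-r)`. -/
def sing (α r : ℝ) (x : ℝ) : ℝ := x ^ (-α) * (1 + x) ^ (-r)

lemma decay_nonneg {r x : ℝ} (hx : 0 ≤ x) : 0 ≤ decay r x :=
  Real.rpow_nonneg (by linarith) _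

lemma sing_nonneg {α r x : ℝ} (hx : 0 ≤ x) : 0 ≤ sing α r x :=
  mul_nonneg (Real.rpow_nonneg hx _) (Real.rpow_nonneg (by linarith) _)

lemma decay_antitoneOn {r : ℝ} (hr : 0 ≤ r) : AntitoneOn (decay r) (Ioi 0) := by
  intro x hx y _ hxy
  have hx0 : 0 < x := hx
  exact Real.rpow_le_rpow_of_nonpos (by linarith) (by linarith) (by linarith)

lemma sing_antitoneOn {α r : ℝ} (hα : 0 ≤ α) (hr : 0 ≤ r) : AntitoneOn (sing α r) (Ioi 0) := by
  intro x hx y _ hxy
  have hx0 : 0 < x := hx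
  apply mul_le_mul
  · exact Real.rpow_le_rpow_of_nonpos hx0 hxy (by linarith)
  · exact Real.rpow_le_rpow_of_nonpos (by linarith) (by linarith) (by linarith)
  · exact Real.rpow_nonneg (by linarith) _
  · exact Real.rpow_nonneg hx0.le _

lemma integrable_decay_abs {r : ℝ} (hr : 1 < r) : Integrable (fun s : ℝ => decay r |s|) := by
  have := integrable_one_add_norm (E := ℝ) (μ := volume) (r := r) (by simpa using hr)
  simpa [decay, Real.norm_eq_abs] using this

lemma integrable_sing_abs {α r : ℝ} (hα0 : 0 ≤ α) (hα : α < 1) (hr : 1 < r) :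
    Integrable (fun s : ℝ => sing α r |s|) := by
  have h01 : IntervalIntegrable (fun x : ℝ => |x| ^ (-α)) volume 0 1 := by
    have h := intervalIntegral.intervalIntegrable_rpow' (a := 0) (b := 1) (r := -α) (by linarith)
    refine (intervalIntegrable_congr ?_).mp h
    intro x hx
    rw [uIoc_of_le zero_le_one] at hx
    simp only [abs_of_pos hx.1]
  have h10 : IntervalIntegrable (fun x : ℝ => |x| ^ (-α)) volume (-1) 0 := by
    rw [IntervalIntegrable.iff_comp_neg]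
    simpa using h01.symm
  have hI : IntegrableOn (fun x : ℝ => |x| ^ (-α)) (Ioc (-1) 1) := by
    have h := h10.trans h01
    rwa [intervalIntegrable_iff_integrableOn_Ioc_of_le (by norm_num)] at h
  have hind : Integrable ((Ioc (-1 : ℝ) 1).indicator fun x : ℝ => |x| ^ (-α)) :=
    hI.integrable_indicator measurableSet_Ioc
  refine (hind.add (integrable_decay_abs hr)).mono' ?_ (Eventually.of_forall fun s => ?_)
  · apply Measurable.aestronglyMeasurable
    unfold sing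
    fun_prop
  · rw [Real.norm_of_nonneg (sing_nonneg (abs_nonneg s))]
    simp only [Pi.add_apply]
    by_cases hs : s ∈ Ioc (-1 : ℝ) 1
    · rw [indicator_of_mem hs]
      have h1 : sing α r |s| ≤ |s| ^ (-α) := by
        unfold sing
        exact mul_le_of_le_one_right (Real.rpow_nonneg (abs_nonneg s) _)
          (Real.rpow_le_one_of_one_le_of_nonpos (by linarith [abs_nonneg s]) (by linarith))
      linarith [decay_nonneg (r := r) (abs_nonneg s)]
    · rw [indicator_of_notMem hs]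
      have h1 : 1 ≤ |s| := by
        simp only [mem_Ioc, not_and_or, not_lt, not_le] at hs
        rcases hs with hs | hs
        · rw [le_abs]; right; linarith
        · rw [le_abs]; left; linarith
      have h2 : sing α r |s| ≤ decay r |s| := by
        unfold sing decay
        exact mul_le_of_le_one_left (Real.rpow_nonneg (by positivity) _)
          (Real.rpow_le_one_of_one_le_of_nonpos h1 (by linarith))
      linarith

/-! ### Integrals of radial majorants along a segment -/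

/-- Projection inequality: along the line `linePt p q`, the distance to a centre `c` is at
least the distance measured along the line from the foot of the perpendicular. -/
lemma exists_proj (p q c : ℂ) :
    ∃ tc : ℝ, ∀ t : ℝ, ‖q - p‖ * |t - tc| ≤ ‖linePt p q t - c‖ := by
  by_cases hpq : q - p = 0
  · exact ⟨0, fun t => by simp [hpq]⟩
  have hL : 0 < ‖q - p‖ := norm_pos_iff.mpr hpq
  refine ⟨((c - p) * (starRingEnd ℂ) (q - p)).re / ‖q - p‖ ^ 2, fun t => ?_⟩
  have key : ((linePt p q t - c) * (starRingEnd ℂ) (q - p)).re =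
      ‖q - p‖ ^ 2 * (t - ((c - p) * (starRingEnd ℂ) (q - p)).re / ‖q - p‖ ^ 2) := by
    have h1 : (linePt p q t - c) * (starRingEnd ℂ) (q - p) =
        (t : ℂ) * ((q - p) * (starRingEnd ℂ) (q - p)) - (c - p) * (starRingEnd ℂ) (q - p) := by
      simp only [linePt]; ring
    rw [h1, Complex.mul_conj, Complex.normSq_eq_norm_sq, Complex.sub_re, ← Complex.ofReal_mul,
      Complex.ofReal_re]
    field_simp
  have h2 : |((linePt p q t - c) * (starRingEnd ℂ) (q - p)).re| ≤ ‖linePt p q t - c‖ * ‖q - p‖ := by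
    calc |((linePt p q t - c) * (starRingEnd ℂ) (q - p)).re|
        ≤ ‖(linePt p q t - c) * (starRingEnd ℂ) (q - p)‖ := Complex.abs_re_le_norm _
      _ = ‖linePt p q t - c‖ * ‖q - p‖ := by rw [norm_mul, RCLike.norm_conj]
  rw [key, abs_mul, abs_of_nonneg (by positivity)] at h2
  have h3 : ‖q - p‖ * (‖q - p‖ * |t - ((c - p) * (starRingEnd ℂ) (q - p)).re / ‖q - p‖ ^ 2|) ≤
      ‖q - p‖ * ‖linePt p q t - c‖ := by nlinarith
  exact le_of_mul_le_mul_left h3 hL

/-- The integral of a radial nonincreasing majorant along any segment is at most its integral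
over the real line. -/
lemma segment_integral_le {f : ℝ → ℝ} (hf0 : ∀ x, 0 ≤ x → 0 ≤ f x)
    (hanti : AntitoneOn f (Ioi 0)) (hint : Integrable (fun s : ℝ => f |s|)) (p q c : ℂ)
    (hfi : IntervalIntegrable (fun t : ℝ => f ‖linePt p q t - c‖ * ‖q - p‖) volume 0 1) :
    ∫ t in (0 : ℝ)..1, f ‖linePt p q t - c‖ * ‖q - p‖ ≤ ∫ s, f |s| := by
  have hI0 : 0 ≤ ∫ s, f |s| := integral_nonneg fun s => hf0 _ (abs_nonneg s)
  by_cases hpq : q - p = 0
  · simp [hpq, hI0]
  have hL : 0 < ‖q - p‖ := norm_pos_iff.mpr hpq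
  obtain ⟨tc, htc⟩ := exists_proj p q c
  set L := ‖q - p‖ with hLdef
  have hcomp : Integrable (fun t : ℝ => f |L * t - L * tc|) :=
    (hint.comp_sub_right (L * tc)).comp_mul_left' hL.ne'
  have hle : ∫ t in (0 : ℝ)..1, f ‖linePt p q t - c‖ * L ≤
      ∫ t in (0 : ℝ)..1, f |L * t - L * tc| * L := by
    apply intervalIntegral.integral_mono_ae zero_le_one hfi ((hcomp.mul_const L).intervalIntegrable)
    have hne : ∀ᵐ t : ℝ, t ≠ tc := by
      rw [ae_iff]
      simp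
    filter_upwards [hne] with t ht
    have hpos : 0 < L * |t - tc| := mul_pos hL (abs_pos.mpr (sub_ne_zero.mpr ht))
    have h1 : f ‖linePt p q t - c‖ ≤ f (L * |t - tc|) :=
      hanti hpos (lt_of_lt_of_le hpos (htc t)) (htc t)
    have h2 : L * |t - tc| = |L * t - L * tc| := by rw [← mul_sub, abs_mul, abs_of_pos hL]
    rw [← h2]
    exact mul_le_mul_of_nonneg_right h1 hL.le
  refine hle.trans ?_
  have hsub : ∫ t in (0 : ℝ)..1, f |L * t - L * tc| * L =
      ∫ s in (L * 0 - L * tc)..(L * 1 - L * tc), f |s| := by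
    rw [intervalIntegral.integral_mul_const, mul_comm]
    exact intervalIntegral.mul_integral_comp_mul_sub (f := fun s => f |s|) L (L * tc)
  rw [hsub, intervalIntegral.integral_of_le (by nlinarith)]
  exact setIntegral_le_integral hint (Eventually.of_forall fun s => hf0 _ (abs_nonneg s))


/-! ### The pointwise majorant from the raw pole bound -/

/-- Root extraction. -/
lemma le_rpow_of_pow_mul_pow_le {d e : ℕ} (hd : d ≠ 0) {w x A : ℝ} (hw : 0 ≤ w) (hx : 0 < x)
    (h : w ^ d * x ^ e ≤ A) :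
    w ≤ A ^ ((d : ℝ)⁻¹) * x ^ (-((e : ℝ) / d)) := by
  have hA : 0 ≤ A := le_trans (by positivity) h
  have hd' : (d : ℝ) ≠ 0 := Nat.cast_ne_zero.mpr hd
  have hT : 0 ≤ A ^ ((d : ℝ)⁻¹) * x ^ (-((e : ℝ) / d)) :=
    mul_nonneg (Real.rpow_nonneg hA _) (Real.rpow_nonneg hx.le _)
  refine le_of_pow_le_pow_left₀ hd hT ?_
  rw [mul_pow, Real.rpow_inv_natCast_pow hA hd, ← Real.rpow_natCast (x ^ (-((e : ℝ) / d))) d,
    ← Real.rpow_mul hx.le]
  have he : -((e : ℝ) / d) * d = -(e : ℝ) := by field_simp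
  rw [he, Real.rpow_neg hx.le, Real.rpow_natCast, ← div_eq_mul_inv, le_div_iff₀ (by positivity)]
  exact h

/-- A separation radius for a finite set. -/
lemma exists_sep (S : Finset ℂ) :
    ∃ ρ : ℝ, 0 < ρ ∧ ρ ≤ 1 ∧ ∀ σ ∈ S, ∀ σ' ∈ S, σ ≠ σ' → 2 * ρ ≤ ‖σ - σ'‖ := by
  classical
  let P := (S ×ˢ S).filter fun x => x.1 ≠ x.2
  by_cases hP : P.Nonempty
  · obtain ⟨x, hx, hmin⟩ := P.exists_min_image (fun x => ‖x.1 - x.2‖) hP
    have hx' : x.1 ≠ x.2 := (Finset.mem_filter.mp hx).2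
    have hpos : 0 < ‖x.1 - x.2‖ := norm_pos_iff.mpr (sub_ne_zero.mpr hx')
    refine ⟨min 1 (‖x.1 - x.2‖ / 2), by positivity, min_le_left _ _, fun σ hσ σ' hσ' hne => ?_⟩
    have h1 := hmin (σ, σ') (Finset.mem_filter.mpr ⟨Finset.mem_product.mpr ⟨hσ, hσ'⟩, hne⟩)
    have h2 : min 1 (‖x.1 - x.2‖ / 2) ≤ ‖x.1 - x.2‖ / 2 := min_le_right _ _
    simp only at h1
    linarith
  · refine ⟨1, one_pos, le_rfl, fun σ hσ σ' hσ' hne => ?_⟩
    exact absurd ⟨(σ, σ'), Finset.mem_filter.mpr ⟨Finset.mem_product.mpr ⟨hσ, hσ'⟩, hne⟩⟩ hP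

/-- The raw pole bound gives a pointwise majorant by radial integrable functions. -/
lemma exists_pointwise_bound (S : Finset ℂ) {d e₁ e₂ : ℕ} (N : ℕ) (hd₁ : e₁ < d) (_hd₂ : d < e₂)
    (C₁ C₂ R : ℝ) :
    ∃ K : ℝ, 0 ≤ K ∧ ∀ z : ℂ, z ∉ S → ∀ w : ℝ, 0 ≤ w →
      w ^ d * ∏ σ ∈ S, ‖z - σ‖ ^ e₁ ≤ C₁ * (1 + ‖z‖) ^ N →
      (R ≤ ‖z‖ → w ^ d * ‖z‖ ^ e₂ ≤ C₂) →
      w ≤ K * (decay ((e₂ : ℝ) / d) ‖z‖ +
        ∑ σ ∈ S, sing ((e₁ : ℝ) / d) ((e₂ : ℝ) / d) ‖z - σ‖) := by
  classical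
  have hd : d ≠ 0 := by omega
  obtain ⟨ρ, hρ0, hρ1, hsep⟩ := exists_sep S
  set α : ℝ := (e₁ : ℝ) / d with hα
  set r : ℝ := (e₂ : ℝ) / d with hr
  have hr0 : 0 ≤ r := by positivity
  set R' : ℝ := max R 1 with hR'
  have hR'1 : 1 ≤ R' := le_max_right _ _
  set κ : ℝ := ρ ^ (e₁ * S.card) with hκ
  have hκ0 : 0 < κ := by positivity
  set A₁ : ℝ := |C₁| * (1 + R') ^ N / κ with hA₁
  have hA₁0 : 0 ≤ A₁ := by positivity
  set a₁ : ℝ := A₁ ^ ((d : ℝ)⁻¹) with ha₁
  set a₂ : ℝ := |C₂| ^ ((d : ℝ)⁻¹) with ha₂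
  have ha₁0 : 0 ≤ a₁ := Real.rpow_nonneg hA₁0 _
  have ha₂0 : 0 ≤ a₂ := Real.rpow_nonneg (abs_nonneg _) _
  have h2r : (0 : ℝ) < 2 ^ r := Real.rpow_pos_of_pos (by norm_num) _
  have hRr : (0 : ℝ) < (1 + R') ^ r := Real.rpow_pos_of_pos (by linarith) _
  set k₁ : ℝ := a₂ * 2 ^ r with hk₁
  set k₂ : ℝ := a₁ * 2 ^ r with hk₂
  set k₃ : ℝ := a₁ * (1 + R') ^ r with hk₃
  have hk₁0 : 0 ≤ k₁ := mul_nonneg ha₂0 h2r.le
  have hk₂0 : 0 ≤ k₂ := mul_nonneg ha₁0 h2r.le
  have hk₃0 : 0 ≤ k₃ := mul_nonneg ha₁0 hRr.le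
  refine ⟨k₁ + k₂ + k₃, by positivity, ?_⟩
  intro z hz w hw h₁ h₂
  have hdec0 : 0 ≤ decay r ‖z‖ := decay_nonneg (norm_nonneg _)
  have hsum0 : 0 ≤ ∑ σ ∈ S, sing α r ‖z - σ‖ :=
    Finset.sum_nonneg fun σ _ => sing_nonneg (norm_nonneg _)
  -- generic product bound
  have hprod : ∀ T : Finset ℂ, T ⊆ S → (∀ σ ∈ T, ρ ≤ ‖z - σ‖) →
      κ ≤ ∏ σ ∈ T, ‖z - σ‖ ^ e₁ := by
    intro T hT hTρ
    calc κ = ρ ^ (e₁ * S.card) := rfl
      _ ≤ ρ ^ (e₁ * T.card) :=
          pow_le_pow_of_le_one hρ0.le hρ1 (Nat.mul_le_mul_left _ (Finset.card_le_card hT))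
      _ = ∏ σ ∈ T, ρ ^ e₁ := by rw [Finset.prod_const, ← pow_mul]
      _ ≤ ∏ σ ∈ T, ‖z - σ‖ ^ e₁ :=
          Finset.prod_le_prod (fun σ _ => by positivity)
            (fun σ hσ => pow_le_pow_left₀ hρ0.le (hTρ σ hσ) _)
  by_cases hzR : R' ≤ ‖z‖
  · -- far region
    have hz1 : 1 ≤ ‖z‖ := hR'1.trans hzR
    have hz0 : 0 < ‖z‖ := by linarith
    have hb := h₂ ((le_max_left _ _).trans hzR)
    have hw1 : w ≤ a₂ * ‖z‖ ^ (-r) :=
      le_rpow_of_pow_mul_pow_le hd hw hz0 (hb.trans (le_abs_self _))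
    have hz2 : ‖z‖ ^ (-r) ≤ 2 ^ r * decay r ‖z‖ := by
      have h3 : (2 * ‖z‖) ^ (-r) ≤ (1 + ‖z‖) ^ (-r) :=
        Real.rpow_le_rpow_of_nonpos (by linarith) (by linarith) (by linarith)
      rw [Real.mul_rpow (by norm_num) hz0.le, Real.rpow_neg (by norm_num : (0 : ℝ) ≤ 2)] at h3
      unfold decay
      calc ‖z‖ ^ (-r) = 2 ^ r * ((2 ^ r)⁻¹ * ‖z‖ ^ (-r)) := by field_simp
        _ ≤ 2 ^ r * (1 + ‖z‖) ^ (-r) := mul_le_mul_of_nonneg_left h3 h2r.le
    have hw2 : w ≤ k₁ * decay r ‖z‖ := by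
      calc w ≤ a₂ * ‖z‖ ^ (-r) := hw1
        _ ≤ a₂ * (2 ^ r * decay r ‖z‖) := mul_le_mul_of_nonneg_left hz2 ha₂0
        _ = k₁ * decay r ‖z‖ := by rw [hk₁]; ring
    nlinarith [mul_nonneg hk₁0 hsum0, mul_nonneg hk₂0 hdec0, mul_nonneg hk₂0 hsum0,
      mul_nonneg hk₃0 hdec0, mul_nonneg hk₃0 hsum0]
  · -- near region
    rw [not_le] at hzR
    have hC : C₁ * (1 + ‖z‖) ^ N ≤ |C₁| * (1 + R') ^ N :=
      mul_le_mul (le_abs_self _) (pow_le_pow_left₀ (by positivity) (by linarith) _)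
        (by positivity) (abs_nonneg _)
    by_cases hnear : ∃ σ₀ ∈ S, ‖z - σ₀‖ < ρ
    · obtain ⟨σ₀, hσ₀, hlt⟩ := hnear
      have hx0 : 0 < ‖z - σ₀‖ := norm_pos_iff.mpr (sub_ne_zero.mpr fun h => hz (h ▸ hσ₀))
      have hother : ∀ σ ∈ S.erase σ₀, ρ ≤ ‖z - σ‖ := by
        intro σ hσ
        have hne := (Finset.mem_erase.mp hσ).1
        have h1 := hsep σ₀ hσ₀ σ (Finset.mem_erase.mp hσ).2 (Ne.symm hne)
        have htri : ‖σ₀ - σ‖ ≤ ‖z - σ₀‖ + ‖z - σ‖ := by
          calc ‖σ₀ - σ‖ = ‖(z - σ) - (z - σ₀)‖ := by ring_nf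
            _ ≤ ‖z - σ‖ + ‖z - σ₀‖ := norm_sub_le _ _
            _ = ‖z - σ₀‖ + ‖z - σ‖ := add_comm _ _
        linarith
      have hk := hprod (S.erase σ₀) (Finset.erase_subset _ _) hother
      have hsplit : ∏ σ ∈ S, ‖z - σ‖ ^ e₁ =
          ‖z - σ₀‖ ^ e₁ * ∏ σ ∈ S.erase σ₀, ‖z - σ‖ ^ e₁ :=
        (Finset.mul_prod_erase S (fun σ => ‖z - σ‖ ^ e₁) hσ₀).symm
      have hmain : w ^ d * ‖z - σ₀‖ ^ e₁ ≤ A₁ := by
        rw [hA₁, le_div_iff₀ hκ0]
        calc w ^ d * ‖z - σ₀‖ ^ e₁ * κ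
            ≤ w ^ d * ‖z - σ₀‖ ^ e₁ * ∏ σ ∈ S.erase σ₀, ‖z - σ‖ ^ e₁ :=
              mul_le_mul_of_nonneg_left hk (by positivity)
          _ = w ^ d * ∏ σ ∈ S, ‖z - σ‖ ^ e₁ := by rw [hsplit]; ring
          _ ≤ |C₁| * (1 + R') ^ N := h₁.trans hC
      have hw1 : w ≤ a₁ * ‖z - σ₀‖ ^ (-α) := le_rpow_of_pow_mul_pow_le hd hw hx0 hmain
      have hxa : 0 ≤ ‖z - σ₀‖ ^ (-α) := Real.rpow_nonneg hx0.le _
      have hs1 : ‖z - σ₀‖ ^ (-α) ≤ 2 ^ r * sing α r ‖z - σ₀‖ := by
        have h3 : (2 : ℝ) ^ (-r) ≤ (1 + ‖z - σ₀‖) ^ (-r) :=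
          Real.rpow_le_rpow_of_nonpos (by linarith) (by linarith) (by linarith)
        rw [Real.rpow_neg (by norm_num : (0 : ℝ) ≤ 2)] at h3
        unfold sing
        calc ‖z - σ₀‖ ^ (-α) = 2 ^ r * (‖z - σ₀‖ ^ (-α) * (2 ^ r)⁻¹) := by field_simp
          _ ≤ 2 ^ r * (‖z - σ₀‖ ^ (-α) * (1 + ‖z - σ₀‖) ^ (-r)) :=
              mul_le_mul_of_nonneg_left (mul_le_mul_of_nonneg_left h3 hxa) h2r.le
      have hs2 : sing α r ‖z - σ₀‖ ≤ ∑ σ ∈ S, sing α r ‖z - σ‖ :=
        Finset.single_le_sum (f := fun σ => sing α r ‖z - σ‖)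
          (fun σ _ => sing_nonneg (norm_nonneg _)) hσ₀
      have hw2 : w ≤ k₂ * ∑ σ ∈ S, sing α r ‖z - σ‖ := by
        calc w ≤ a₁ * ‖z - σ₀‖ ^ (-α) := hw1
          _ ≤ a₁ * (2 ^ r * ∑ σ ∈ S, sing α r ‖z - σ‖) :=
              mul_le_mul_of_nonneg_left
                (hs1.trans (mul_le_mul_of_nonneg_left hs2 h2r.le)) ha₁0
          _ = k₂ * ∑ σ ∈ S, sing α r ‖z - σ‖ := by rw [hk₂]; ring
      nlinarith [mul_nonneg hk₁0 hsum0, mul_nonneg hk₁0 hdec0, mul_nonneg hk₂0 hdec0,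
        mul_nonneg hk₃0 hdec0, mul_nonneg hk₃0 hsum0]
    · simp only [not_exists, not_and, not_lt] at hnear
      have hk := hprod S (Finset.Subset.refl _) hnear
      have hmain : w ^ d * (1 : ℝ) ^ 0 ≤ A₁ := by
        rw [hA₁, le_div_iff₀ hκ0, pow_zero, mul_one]
        calc w ^ d * κ ≤ w ^ d * ∏ σ ∈ S, ‖z - σ‖ ^ e₁ :=
              mul_le_mul_of_nonneg_left hk (by positivity)
          _ ≤ |C₁| * (1 + R') ^ N := h₁.trans hC
      have hw1 : w ≤ a₁ := by
        have h := le_rpow_of_pow_mul_pow_le hd hw one_pos hmain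
        simpa using h
      have hdec : 1 ≤ (1 + R') ^ r * decay r ‖z‖ := by
        have h3 : (1 + R') ^ (-r) ≤ (1 + ‖z‖) ^ (-r) :=
          Real.rpow_le_rpow_of_nonpos (by positivity) (by linarith) (by linarith)
        rw [Real.rpow_neg (by linarith : 0 ≤ 1 + R')] at h3
        unfold decay
        calc (1 : ℝ) = (1 + R') ^ r * ((1 + R') ^ r)⁻¹ := by field_simp
          _ ≤ (1 + R') ^ r * (1 + ‖z‖) ^ (-r) := mul_le_mul_of_nonneg_left h3 hRr.le
      have hw2 : w ≤ k₃ * decay r ‖z‖ := by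
        calc w ≤ a₁ := hw1
          _ ≤ a₁ * ((1 + R') ^ r * decay r ‖z‖) := le_mul_of_one_le_right ha₁0 hdec
          _ = k₃ * decay r ‖z‖ := by rw [hk₃]; ring
      nlinarith [mul_nonneg hk₁0 hsum0, mul_nonneg hk₁0 hdec0, mul_nonneg hk₂0 hdec0,
        mul_nonneg hk₂0 hsum0, mul_nonneg hk₃0 hsum0]

/-- **Uniform segment bound.** From the raw shape of the pole bound
(`w ^ d * ∏ |z - σ| ^ e₁ ≤ C₁ (1 + |z|) ^ N` and `w ^ d * |z| ^ e₂ ≤ C₂` for `|z| ≥ R`, with
`e₁ < d < e₂`), integrals along segments missing `S` of functions dominated by `w * |q - p|`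
are bounded by a constant independent of the segment. -/
theorem exists_uniform_segment_bound {V : Type*} [NormedAddCommGroup V] [NormedSpace ℝ V]
    (S : Finset ℂ) {d e₁ e₂ : ℕ} (N : ℕ) (hd₁ : e₁ < d) (hd₂ : d < e₂) (C₁ C₂ R : ℝ) :
    ∃ M : ℝ, 0 ≤ M ∧ ∀ (p q : ℂ), (∀ t ∈ Icc (0 : ℝ) 1, linePt p q t ∉ S) →
      ∀ g : ℝ → V,
        (∀ t ∈ Icc (0 : ℝ) 1, ∃ w : ℝ, 0 ≤ w ∧ ‖g t‖ ≤ w * ‖q - p‖ ∧
          w ^ d * ∏ σ ∈ S, ‖linePt p q t - σ‖ ^ e₁ ≤ C₁ * (1 + ‖linePt p q t‖) ^ N ∧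
          (R ≤ ‖linePt p q t‖ → w ^ d * ‖linePt p q t‖ ^ e₂ ≤ C₂)) →
        ‖∫ t in (0 : ℝ)..1, g t‖ ≤ M := by
  classical
  have hd : d ≠ 0 := by omega
  have hdpos : (0 : ℝ) < d := by positivity
  set α : ℝ := (e₁ : ℝ) / d with hα
  set r : ℝ := (e₂ : ℝ) / d with hr
  have hα0 : 0 ≤ α := by positivity
  have hα1 : α < 1 := by rw [hα, div_lt_one hdpos]; exact_mod_cast hd₁
  have hr1 : 1 < r := by rw [hr, one_lt_div hdpos]; exact_mod_cast hd₂
  obtain ⟨K, hK0, hK⟩ := exists_pointwise_bound S N hd₁ hd₂ C₁ C₂ R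
  set I₁ := ∫ s : ℝ, decay r |s| with hI₁def
  set I₃ := ∫ s : ℝ, sing α r |s| with hI₃def
  have hI₁ : 0 ≤ I₁ := integral_nonneg fun s => decay_nonneg (abs_nonneg s)
  have hI₃ : 0 ≤ I₃ := integral_nonneg fun s => sing_nonneg (abs_nonneg s)
  refine ⟨K * (I₁ + S.card * I₃), by positivity, fun p q hseg g hg => ?_⟩
  set L := ‖q - p‖ with hL
  -- continuity of the majorants along the segment
  have hc₁ : ContinuousOn (fun t : ℝ => decay r ‖linePt p q t‖ * L) (uIcc 0 1) := by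
    refine ContinuousOn.mul ?_ continuousOn_const
    unfold decay
    refine ContinuousOn.rpow_const ?_ ?_
    · exact (continuous_const.add (continuous_linePt p q).norm).continuousOn
    · intro t _; left; positivity
  have hc₃ : ∀ σ ∈ S,
      ContinuousOn (fun t : ℝ => sing α r ‖linePt p q t - σ‖ * L) (uIcc 0 1) := by
    intro σ hσ
    refine ContinuousOn.mul ?_ continuousOn_const
    unfold sing
    refine ContinuousOn.mul ?_ ?_
    · refine ContinuousOn.rpow_const ?_ ?_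
      · exact ((continuous_linePt p q).sub continuous_const).norm.continuousOn
      · intro t ht; left
        rw [uIcc_of_le zero_le_one] at ht
        exact norm_ne_zero_iff.mpr (sub_ne_zero.mpr fun h => hseg t ht (h ▸ hσ))
    · refine ContinuousOn.rpow_const ?_ ?_
      · exact (continuous_const.add
          ((continuous_linePt p q).sub continuous_const).norm).continuousOn
      · intro t _; left; positivity
  have hi₁ : IntervalIntegrable (fun t : ℝ => decay r ‖linePt p q t‖ * L) volume 0 1 :=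
    hc₁.intervalIntegrable
  have hi₃ : ∀ σ ∈ S,
      IntervalIntegrable (fun t : ℝ => sing α r ‖linePt p q t - σ‖ * L) volume 0 1 :=
    fun σ hσ => (hc₃ σ hσ).intervalIntegrable
  have hb₁ : ∫ t in (0 : ℝ)..1, decay r ‖linePt p q t‖ * L ≤ I₁ := by
    have h := segment_integral_le (f := decay r) (fun x hx => decay_nonneg hx)
      (decay_antitoneOn (by linarith)) (integrable_decay_abs hr1) p q 0 (by simpa using hi₁)
    simpa using h
  have hb₃ : ∀ σ ∈ S, ∫ t in (0 : ℝ)..1, sing α r ‖linePt p q t - σ‖ * L ≤ I₃ := fun σ hσ =>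
    segment_integral_le (fun x hx => sing_nonneg hx) (sing_antitoneOn hα0 (by linarith))
      (integrable_sing_abs hα0 hα1 hr1) p q σ (hi₃ σ hσ)
  -- the majorant
  set G : ℝ → ℝ := fun t =>
    K * (decay r ‖linePt p q t‖ * L + ∑ σ ∈ S, sing α r ‖linePt p q t - σ‖ * L) with hG
  have hsumi : IntervalIntegrable
      (fun t : ℝ => ∑ σ ∈ S, sing α r ‖linePt p q t - σ‖ * L) volume 0 1 := by
    have h := IntervalIntegrable.sum S hi₃
    have e : (∑ σ ∈ S, fun t : ℝ => sing α r ‖linePt p q t - σ‖ * L) =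
        fun t : ℝ => ∑ σ ∈ S, sing α r ‖linePt p q t - σ‖ * L := by
      ext t; simp [Finset.sum_apply]
    rwa [e] at h
  have hGi : IntervalIntegrable G volume 0 1 := (hi₁.add hsumi).const_mul K
  have hle : ‖∫ t in (0 : ℝ)..1, g t‖ ≤ ∫ t in (0 : ℝ)..1, G t := by
    refine intervalIntegral.norm_integral_le_of_norm_le zero_le_one ?_ hGi
    refine Eventually.of_forall fun t ht => ?_
    obtain ⟨w, hw0, hgw, h₁, h₂⟩ := hg t (Ioc_subset_Icc_self ht)
    have hwK := hK (linePt p q t) (hseg t (Ioc_subset_Icc_self ht)) w hw0 h₁ h₂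
    calc ‖g t‖ ≤ w * L := hgw
      _ ≤ K * (decay r ‖linePt p q t‖ + ∑ σ ∈ S, sing α r ‖linePt p q t - σ‖) * L :=
          mul_le_mul_of_nonneg_right hwK (norm_nonneg _)
      _ = G t := by
          show _ = K * (decay r ‖linePt p q t‖ * L + ∑ σ ∈ S, sing α r ‖linePt p q t - σ‖ * L)
          rw [← Finset.sum_mul]; ring
  refine hle.trans ?_
  have hGint : ∫ t in (0 : ℝ)..1, G t = K * ((∫ t in (0 : ℝ)..1, decay r ‖linePt p q t‖ * L) +
      ∑ σ ∈ S, ∫ t in (0 : ℝ)..1, sing α r ‖linePt p q t - σ‖ * L) := by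
    simp only [hG]
    rw [intervalIntegral.integral_const_mul, intervalIntegral.integral_add hi₁ hsumi,
      intervalIntegral.integral_finsetSum hi₃]
  rw [hGint]
  refine mul_le_mul_of_nonneg_left ?_ hK0
  have hsum : ∑ σ ∈ S, ∫ t in (0 : ℝ)..1, sing α r ‖linePt p q t - σ‖ * L ≤ ∑ _σ ∈ S, I₃ :=
    Finset.sum_le_sum hb₃
  rw [Finset.sum_const, nsmul_eq_mul] at hsum
  linarith


/-! ### Lifting a segment and the class identity along the lift -/

section Lift

variable {V J : Type*} [NormedAddCommGroup V] [NormedSpace ℂ V] [CompleteSpace V]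
  [AddCommGroup J]

/-- `X` is evenly covered over `U` by holomorphic branches: every point `a ∈ U` has a ball
inside `U` such that every point of `X` over the ball lies on a holomorphic branch defined on
the whole ball. -/
def EvenlyCovered (X : Set (ℂ × ℂ)) (U : Set ℂ) : Prop :=
  ∀ a ∈ U, ∃ ρ > 0, Metric.ball a ρ ⊆ U ∧ ∀ t ∈ Metric.ball a ρ, ∀ y, (t, y) ∈ X →
    ∃ br : ℂ → ℂ, DifferentiableOn ℂ br (Metric.ball a ρ) ∧ br t = y ∧
      ∀ s ∈ Metric.ball a ρ, (s, br s) ∈ X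

/-- Local Abel lemma in one-point primitive form: along every holomorphic branch of `X` over
a ball in `U`, the class map is locally `E` of a primitive of `ω` along the branch. -/
def LocalAbel (X : Set (ℂ × ℂ)) (U : Set ℂ) (E : V →+ J) (cls : ℂ × ℂ → J)
    (ω : ℂ × ℂ → V) : Prop :=
  ∀ (c : ℂ) (ρ : ℝ) (br : ℂ → ℂ), Metric.ball c ρ ⊆ U →
    DifferentiableOn ℂ br (Metric.ball c ρ) → (∀ s ∈ Metric.ball c ρ, (s, br s) ∈ X) →
    ∀ s₀ ∈ Metric.ball c ρ, ∃ ε > 0, ∃ P : ℂ → V,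
      (∀ s ∈ Metric.ball s₀ ε, s ∈ Metric.ball c ρ → HasDerivAt P (ω (s, br s)) s) ∧
      ∀ s ∈ Metric.ball s₀ ε, s ∈ Metric.ball c ρ →
        cls (s, br s) - cls (s₀, br s₀) = E (P s - P s₀)

lemma LocalAbel.continuousOn {X : Set (ℂ × ℂ)} {U : Set ℂ} {E : V →+ J} {cls : ℂ × ℂ → J}
    {ω : ℂ × ℂ → V} (h : LocalAbel X U E cls ω) {c : ℂ} {ρ : ℝ} {br : ℂ → ℂ}
    (hU : Metric.ball c ρ ⊆ U) (hbr : DifferentiableOn ℂ br (Metric.ball c ρ))
    (hX : ∀ s ∈ Metric.ball c ρ, (s, br s) ∈ X) :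
    ContinuousOn (fun s => ω (s, br s)) (Metric.ball c ρ) := by
  intro s₀ hs₀
  obtain ⟨ε, hε, P, hP, -⟩ := h c ρ br hU hbr hX s₀ hs₀
  set W := Metric.ball s₀ ε ∩ Metric.ball c ρ with hWdef
  have hW : IsOpen W := Metric.isOpen_ball.inter Metric.isOpen_ball
  have hs₀W : s₀ ∈ W := ⟨Metric.mem_ball_self hε, hs₀⟩
  have hPd : DifferentiableOn ℂ P W := fun s hs =>
    (hP s hs.1 hs.2).differentiableAt.differentiableWithinAt
  have hd : ContinuousOn (deriv P) W := (hPd.deriv hW).continuousOn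
  have hd' : ContinuousOn (fun s => ω (s, br s)) W :=
    hd.congr fun s hs => ((hP s hs.1 hs.2).deriv).symm
  exact (hd'.continuousAt (hW.mem_nhds hs₀W)).continuousWithinAt

lemma hasDerivAt_linePt (p q : ℂ) (u : ℝ) : HasDerivAt (linePt p q) (q - p) u := by
  have h1 : HasDerivAt (fun t : ℝ => (t : ℂ)) 1 u := (hasDerivAt_id u).ofReal_comp
  have h2 : HasDerivAt (fun t : ℝ => p + (t : ℂ) * (q - p)) (1 * (q - p)) u :=
    (h1.mul_const (q - p)).const_add p
  rw [one_mul] at h2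
  exact h2

/-- Along a single branch over a ball, the class difference between two points of a segment
is `E` of the integral of `ω` along the segment. -/
lemma branch_class_sub {X : Set (ℂ × ℂ)} {U : Set ℂ} {E : V →+ J} {cls : ℂ × ℂ → J}
    {ω : ℂ × ℂ → V} (hAbel : LocalAbel X U E cls ω) {c : ℂ} {ρ : ℝ} {br : ℂ → ℂ}
    (hU : Metric.ball c ρ ⊆ U) (hbr : DifferentiableOn ℂ br (Metric.ball c ρ))
    (hX : ∀ s ∈ Metric.ball c ρ, (s, br s) ∈ X) (p q : ℂ) {T T' : ℝ} (hTT' : T ≤ T')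
    (hseg : ∀ t ∈ Icc T T', linePt p q t ∈ Metric.ball c ρ) :
    IntervalIntegrable (fun t : ℝ => (q - p) • ω (linePt p q t, br (linePt p q t)))
        volume T T' ∧
      cls (linePt p q T', br (linePt p q T')) - cls (linePt p q T, br (linePt p q T)) =
        E (∫ t in T..T', (q - p) • ω (linePt p q t, br (linePt p q t))) := by
  set g : ℝ → V := fun t => (q - p) • ω (linePt p q t, br (linePt p q t)) with hg
  have hfc := hAbel.continuousOn hU hbr hX
  have hgc : ContinuousOn g (Icc T T') := by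
    refine ContinuousOn.const_smul ?_ _
    exact hfc.comp (continuous_linePt p q).continuousOn hseg
  have hgi : ∀ a ∈ Icc T T', ∀ b ∈ Icc T T', IntervalIntegrable g volume a b := by
    intro a ha b hb
    exact (hgc.mono (uIcc_subset_Icc ha hb)).intervalIntegrable
  have hTm : T ∈ Icc T T' := left_mem_Icc.mpr hTT'
  have hT'm : T' ∈ Icc T T' := right_mem_Icc.mpr hTT'
  refine ⟨hgi T hTm T' hT'm, ?_⟩
  -- the defect function
  let F : ℝ → J := fun t => E (∫ u in T..t, g u) -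
    (cls (linePt p q t, br (linePt p q t)) - cls (linePt p q T, br (linePt p q T)))
  have hlc : IsLocallyConstant (fun t : Icc T T' => F t) := by
    rw [IsLocallyConstant.iff_eventually_eq]
    rintro ⟨t₀, ht₀⟩
    obtain ⟨ε, hε, P, hP, hcls⟩ := hAbel c ρ br hU hbr hX (linePt p q t₀) (hseg t₀ ht₀)
    rw [Metric.eventually_nhds_iff]
    refine ⟨ε / (‖q - p‖ + 1), by positivity, ?_⟩
    rintro ⟨t, ht⟩ hdist
    have hdist' : |t - t₀| < ε / (‖q - p‖ + 1) := by
      simpa [Subtype.dist_eq, Real.dist_eq] using hdist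
    have hin : ∀ u ∈ uIcc t₀ t,
        u ∈ Icc T T' ∧ linePt p q u ∈ Metric.ball (linePt p q t₀) ε := by
      intro u hu
      have huI : u ∈ Icc T T' := uIcc_subset_Icc ht₀ ht hu
      refine ⟨huI, ?_⟩
      rw [Metric.mem_ball, dist_eq_norm, norm_linePt_sub_linePt]
      have h1 : |u - t₀| ≤ |t - t₀| := abs_sub_left_of_mem_uIcc hu
      calc |u - t₀| * ‖q - p‖ ≤ |t - t₀| * ‖q - p‖ :=
            mul_le_mul_of_nonneg_right h1 (norm_nonneg _)
        _ ≤ |t - t₀| * (‖q - p‖ + 1) := by nlinarith [abs_nonneg (t - t₀)]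
        _ < ε := by rwa [lt_div_iff₀ (by positivity)] at hdist'
    have hderiv : ∀ u ∈ uIcc t₀ t, HasDerivAt (P ∘ linePt p q) (g u) u := by
      intro u hu
      obtain ⟨huI, hub⟩ := hin u hu
      exact (hP _ hub (hseg u huI)).scomp u (hasDerivAt_linePt p q u)
    have hFTC : ∫ u in t₀..t, g u = P (linePt p q t) - P (linePt p q t₀) :=
      intervalIntegral.integral_eq_sub_of_hasDerivAt hderiv (hgi t₀ ht₀ t ht)
    have hsplit : (∫ u in T..t, g u) - ∫ u in T..t₀, g u = ∫ u in t₀..t, g u :=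
      intervalIntegral.integral_interval_sub_left (hgi T hTm t ht) (hgi T hTm t₀ ht₀)
    have hc := hcls _ (hin t right_mem_uIcc).2 (hseg t ht)
    have e1 : E (∫ u in T..t, g u) - E (∫ u in T..t₀, g u) =
        cls (linePt p q t, br (linePt p q t)) - cls (linePt p q t₀, br (linePt p q t₀)) := by
      rw [← map_sub, hsplit, hFTC, hc]
    show F t = F t₀
    have e2 : E (∫ u in T..t, g u) = E (∫ u in T..t₀, g u) +
        (cls (linePt p q t, br (linePt p q t)) - cls (linePt p q t₀, br (linePt p q t₀))) := by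
      rw [← e1]; abel
    simp only [F]
    rw [e2]; abel
  have : PreconnectedSpace (Icc T T') := Subtype.preconnectedSpace isPreconnected_Icc
  have hconst := hlc.apply_eq_of_preconnectedSpace ⟨T', hT'm⟩ ⟨T, hTm⟩
  have hFT : F T = 0 := by simp [F]
  have hFT' : F T' = 0 := hconst.trans hFT
  simp only [F] at hFT'
  exact (sub_eq_zero.mp hFT').symm

/-- **Segment lifting with the class identity.** Over an evenly covered curve, a segment in
`U` lifts through any point over its origin, and the class difference between the end point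
and the origin of the lift is `E` of the integral of `ω` along the lift. -/
theorem exists_lift_segment_class {X : Set (ℂ × ℂ)} {U : Set ℂ} {E : V →+ J}
    {cls : ℂ × ℂ → J} {ω : ℂ × ℂ → V} (hcov : EvenlyCovered X U)
    (hAbel : LocalAbel X U E cls ω) {p q b : ℂ}
    (hseg : ∀ t ∈ Icc (0 : ℝ) 1, linePt p q t ∈ U) (hb : (p, b) ∈ X) :
    ∃ β : ℝ → ℂ, β 0 = b ∧ (∀ t ∈ Icc (0 : ℝ) 1, (linePt p q t, β t) ∈ X) ∧
      IntervalIntegrable (fun t : ℝ => (q - p) • ω (linePt p q t, β t)) volume 0 1 ∧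
      cls (q, β 1) - cls (p, b) = E (∫ t in (0 : ℝ)..1, (q - p) • ω (linePt p q t, β t)) := by
  classical
  -- Lebesgue number
  choose! ρ hρ using hcov
  have hK : IsCompact (linePt p q '' Icc (0 : ℝ) 1) :=
    isCompact_Icc.image (continuous_linePt p q)
  obtain ⟨δ, hδ, hleb⟩ := lebesgue_number_lemma_of_metric
    (c := fun a : U => Metric.ball (a : ℂ) (ρ a)) hK (fun a => Metric.isOpen_ball) (by
      rintro x ⟨t, ht, rfl⟩
      exact mem_iUnion.mpr ⟨⟨linePt p q t, hseg t ht⟩,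
        Metric.mem_ball_self (hρ _ (hseg t ht)).1⟩)
  -- the invariant
  let P : ℝ → Prop := fun T => ∃ β : ℝ → ℂ, β 0 = b ∧
      (∀ t ∈ Icc (0 : ℝ) T, (linePt p q t, β t) ∈ X) ∧
      IntervalIntegrable (fun t : ℝ => (q - p) • ω (linePt p q t, β t)) volume 0 T ∧
      cls (linePt p q T, β T) - cls (p, b) =
        E (∫ t in (0 : ℝ)..T, (q - p) • ω (linePt p q t, β t))
  have hP0 : P 0 := by
    refine ⟨fun _ => b, rfl, ?_, IntervalIntegrable.refl, ?_⟩
    · intro t ht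
      have ht0 : t = 0 := le_antisymm ht.2 ht.1
      subst ht0
      simpa using hb
    · simp
  have hstep : ∀ T T' : ℝ, 0 ≤ T → T ≤ T' → T' ≤ 1 → (T' - T) * (‖q - p‖ + 1) < δ →
      P T → P T' := by
    rintro T T' hT0 hTT' hT'1 hsmall ⟨β, hβ0, hβX, hβi, hβc⟩
    have hTmem : T ∈ Icc (0 : ℝ) 1 := ⟨hT0, hTT'.trans hT'1⟩
    obtain ⟨a, ha⟩ := hleb (linePt p q T) ⟨T, hTmem, rfl⟩
    obtain ⟨hρ0, hρU, hρbr⟩ := hρ _ a.2
    have hin : ∀ t ∈ Icc T T', linePt p q t ∈ Metric.ball (a : ℂ) (ρ a) := by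
      intro t ht
      apply ha
      rw [Metric.mem_ball, dist_eq_norm, norm_linePt_sub_linePt]
      have h1 : |t - T| ≤ T' - T := by
        rw [abs_of_nonneg (by linarith [ht.1])]; linarith [ht.2]
      calc |t - T| * ‖q - p‖ ≤ (T' - T) * (‖q - p‖ + 1) := by
            nlinarith [norm_nonneg (q - p), abs_nonneg (t - T)]
        _ < δ := hsmall
    obtain ⟨br, hbrd, hbrT, hbrX⟩ := hρbr (linePt p q T) (hin T (left_mem_Icc.mpr hTT'))
      (β T) (hβX T (right_mem_Icc.mpr hT0))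
    obtain ⟨hbi, hbc⟩ := branch_class_sub hAbel hρU hbrd hbrX p q hTT' hin
    let β' : ℝ → ℂ := fun t => if t ≤ T then β t else br (linePt p q t)
    have hβ'1 : ∀ t, t ≤ T → β' t = β t := fun t ht => if_pos ht
    have hβ'2 : ∀ t ∈ Icc T T', β' t = br (linePt p q t) := by
      intro t ht
      by_cases h : t ≤ T
      · have htT : t = T := le_antisymm h ht.1
        subst htT
        rw [hβ'1 _ le_rfl, hbrT]
      · exact if_neg h
    have hi1 : IntervalIntegrable (fun t : ℝ => (q - p) • ω (linePt p q t, β' t))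
        volume 0 T := by
      refine (intervalIntegrable_congr ?_).mp hβi
      intro t ht
      rw [uIoc_of_le hT0] at ht
      simp only [hβ'1 t ht.2]
    have hi2 : IntervalIntegrable (fun t : ℝ => (q - p) • ω (linePt p q t, β' t))
        volume T T' := by
      refine (intervalIntegrable_congr ?_).mp hbi
      intro t ht
      rw [uIoc_of_le hTT'] at ht
      simp only [hβ'2 t (Ioc_subset_Icc_self ht)]
    have he1 : ∫ t in (0 : ℝ)..T, (q - p) • ω (linePt p q t, β' t) =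
        ∫ t in (0 : ℝ)..T, (q - p) • ω (linePt p q t, β t) := by
      refine intervalIntegral.integral_congr fun t ht => ?_
      rw [uIcc_of_le hT0] at ht
      simp only [hβ'1 t ht.2]
    have he2 : ∫ t in T..T', (q - p) • ω (linePt p q t, β' t) =
        ∫ t in T..T', (q - p) • ω (linePt p q t, br (linePt p q t)) := by
      refine intervalIntegral.integral_congr fun t ht => ?_
      rw [uIcc_of_le hTT'] at ht
      simp only [hβ'2 t ht]
    refine ⟨β', ?_, ?_, hi1.trans hi2, ?_⟩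
    · rw [hβ'1 0 hT0, hβ0]
    · intro t ht
      by_cases h : t ≤ T
      · rw [hβ'1 t h]; exact hβX t ⟨ht.1, h⟩
      · rw [hβ'2 t ⟨(not_le.mp h).le, ht.2⟩]
        exact hbrX _ (hin t ⟨(not_le.mp h).le, ht.2⟩)
    · rw [← intervalIntegral.integral_add_adjacent_intervals hi1 hi2, he1, he2, map_add,
        ← hβc, ← hbc, hβ'2 T' (right_mem_Icc.mpr hTT'), hbrT]
      abel
  -- induction with a uniform step
  set η : ℝ := δ / (2 * (‖q - p‖ + 1)) with hη
  have hη0 : 0 < η := by positivity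
  have hind : ∀ n : ℕ, P (min (n * η) 1) := by
    intro n
    induction n with
    | zero =>
      have h0 : min (((0 : ℕ) : ℝ) * η) 1 = 0 := by simp
      rw [h0]; exact hP0
    | succ n ih =>
      refine hstep _ _ (le_min (by positivity) zero_le_one) ?_ (min_le_right _ _) ?_ ih
      · exact min_le_min_right _ (by push_cast; nlinarith)
      · have h1 : min (((n + 1 : ℕ) : ℝ) * η) 1 - min ((n : ℝ) * η) 1 ≤ η := by
          push_cast
          rcases le_total ((n : ℝ) * η) 1 with h | h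
          · rw [min_eq_left h]
            have h2 := min_le_left (((n : ℝ) + 1) * η) 1
            linarith
          · rw [min_eq_right h, min_eq_right (by nlinarith)]
            linarith
        calc (min (((n + 1 : ℕ) : ℝ) * η) 1 - min ((n : ℝ) * η) 1) * (‖q - p‖ + 1)
            ≤ η * (‖q - p‖ + 1) := mul_le_mul_of_nonneg_right h1 (by positivity)
          _ = δ / 2 := by rw [hη]; field_simp
          _ < δ := by linarith
  obtain ⟨n, hn⟩ := exists_nat_ge (1 / η)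
  have hn' : 1 ≤ (n : ℝ) * η := by rwa [div_le_iff₀ hη0] at hn
  have h1 := hind n
  rw [min_eq_right hn'] at h1
  obtain ⟨β, hβ0, hβX, hβi, hβc⟩ := h1
  refine ⟨β, hβ0, hβX, hβi, ?_⟩
  simpa using hβc

end Lift


/-! ### Bounded preimages of the classes of generic points -/

section Bounded

variable {V J : Type*} [NormedAddCommGroup V] [NormedSpace ℂ V] [CompleteSpace V]
  [AddCommGroup J]

/-- **Bounded periods.** Over the complement of a finite set `S`, with an evenly covered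
curve `X`, the local Abel lemma and the raw pole bound for `ω`: the class of every generic
point differs from the class of one of the points over the fixed base value `a0` by `E v`
with `‖v‖ ≤ M`, where `M` does not depend on the point. -/
theorem exists_bounded_preimage {X : Set (ℂ × ℂ)} (S : Finset ℂ) {E : V →+ J}
    {cls : ℂ × ℂ → J} {ω : ℂ × ℂ → V}
    (hcov : EvenlyCovered X ((S : Set ℂ)ᶜ)) (hAbel : LocalAbel X ((S : Set ℂ)ᶜ) E cls ω)
    {d e₁ e₂ : ℕ} (N : ℕ) (hd₁ : e₁ < d) (hd₂ : d < e₂) (C₁ C₂ R : ℝ)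
    (hω : ∀ z y, (z, y) ∈ X → z ∉ S → ∃ w : ℝ, 0 ≤ w ∧ ‖ω (z, y)‖ ≤ w ∧
      w ^ d * ∏ σ ∈ S, ‖z - σ‖ ^ e₁ ≤ C₁ * (1 + ‖z‖) ^ N ∧
      (R ≤ ‖z‖ → w ^ d * ‖z‖ ^ e₂ ≤ C₂))
    {a0 : ℂ} (ha0 : a0 ∉ S) :
    ∃ M : ℝ, 0 ≤ M ∧ ∀ a b, (a, b) ∈ X → a ∉ S →
      ∃ b0 : ℂ, ∃ v : V, (a0, b0) ∈ X ∧ ‖v‖ ≤ M ∧ cls (a0, b0) - cls (a, b) = E v := by
  obtain ⟨M, hM0, hM⟩ := exists_uniform_segment_bound (V := V) S N hd₁ hd₂ C₁ C₂ R
  refine ⟨M + M, by positivity, fun a b hab ha => ?_⟩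
  obtain ⟨m, hm₁, hm₂⟩ := exists_two_segments S ha ha0
  -- one segment
  have hone : ∀ p q y : ℂ, (∀ t ∈ Icc (0 : ℝ) 1, linePt p q t ∉ S) → (p, y) ∈ X →
      ∃ y' : ℂ, ∃ v : V, (q, y') ∈ X ∧ ‖v‖ ≤ M ∧ cls (q, y') - cls (p, y) = E v := by
    intro p q y hseg hy
    obtain ⟨β, -, hβX, -, hβc⟩ := exists_lift_segment_class hcov hAbel
      (p := p) (q := q) (fun t ht => by simpa using hseg t ht) hy
    refine ⟨β 1, _, ?_, ?_, hβc⟩
    · simpa using hβX 1 (right_mem_Icc.mpr zero_le_one)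
    · refine hM p q hseg _ fun t ht => ?_
      obtain ⟨w, hw0, hw, h₁, h₂⟩ := hω _ _ (hβX t ht) (hseg t ht)
      refine ⟨w, hw0, ?_, h₁, h₂⟩
      rw [norm_smul, mul_comm]
      exact mul_le_mul_of_nonneg_right hw (norm_nonneg _)
  obtain ⟨y₁, v₁, hy₁, hv₁, hc₁⟩ := hone a m b hm₁ hab
  obtain ⟨y₂, v₂, hy₂, hv₂, hc₂⟩ := hone m a0 y₁ hm₂ hy₁
  refine ⟨y₂, v₂ + v₁, hy₂, (norm_add_le _ _).trans (add_le_add hv₂ hv₁), ?_⟩
  rw [map_add, ← hc₁, ← hc₂]
  abel

end Bounded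

/-! ### From bounded preimages to the spanning property -/

section Span

variable {V J : Type*} [NormedAddCommGroup V] [NormedSpace ℝ V] [FiniteDimensional ℝ V]
  [AddCommGroup J]

/-- If every element of `J` is `E v` with `‖v‖ ≤ M`, the kernel of `E` spans `V` over `ℝ`. -/
theorem span_ker_eq_top_of_bounded (E : V →+ J) (M : ℝ)
    (h : ∀ x : J, ∃ v : V, ‖v‖ ≤ M ∧ E v = x) :
    Submodule.span ℝ (E.ker : Set V) = ⊤ := by
  by_contra hne
  obtain ⟨f, hf0, hf⟩ := Submodule.exists_le_ker_of_lt_top _ (lt_top_iff_ne_top.mpr hne)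
  obtain ⟨v₀, hv₀⟩ : ∃ v₀, f v₀ ≠ 0 := by
    by_contra hall
    simp only [not_exists, not_not] at hall
    exact hf0 (LinearMap.ext hall)
  set fc : V →L[ℝ] ℝ := LinearMap.toContinuousLinearMap f with hfc
  have hbound : ∀ v : V, |f v| ≤ ‖fc‖ * ‖v‖ := fun v => by
    simpa [hfc, Real.norm_eq_abs] using fc.le_opNorm v
  set c : ℝ := (‖fc‖ * M + 1) / |f v₀| with hc
  obtain ⟨v, hvM, hv⟩ := h (E (c • v₀))
  have hker : c • v₀ - v ∈ E.ker := by
    rw [AddMonoidHom.mem_ker, map_sub, hv, sub_self]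
  have hfz : f (c • v₀ - v) = 0 := LinearMap.mem_ker.mp (hf (Submodule.subset_span hker))
  have hfe : c * f v₀ = f v := by
    have h1 : f (c • v₀ - v) = c * f v₀ - f v := by simp
    linarith [hfz, h1]
  have h1 : |f v| ≤ ‖fc‖ * M := (hbound v).trans (mul_le_mul_of_nonneg_left hvM (norm_nonneg _))
  have h2 : |c * f v₀| = ‖fc‖ * M + 1 := by
    have hpos : 0 < |f v₀| := abs_pos.mpr hv₀
    have hnum : 0 ≤ ‖fc‖ * M + 1 := by
      have := (abs_nonneg (f v)).trans h1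
      linarith
    rw [abs_mul, hc, abs_div, abs_abs, abs_of_nonneg hnum]
    field_simp
  rw [hfe] at h2
  linarith

/-- Variant with finitely many exceptional classes and sums of at most `n` bounded classes:
if `G` is a set of elements of `J` having preimages of norm at most `M`, `F` is a finite set
of elements in the range of `E`, and every element of `J` is a sum of at most `n` elements of
`G ∪ F` or their negatives, then the kernel of `E` spans `V` over `ℝ`. -/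
theorem span_ker_eq_top_of_generators (E : V →+ J) (G : Set J) (F : Set J) (hF : F.Finite)
    (M : ℝ) (n : ℕ) (hG : ∀ x ∈ G, ∃ v : V, ‖v‖ ≤ M ∧ E v = x)
    (hFE : ∀ x ∈ F, ∃ v : V, E v = x)
    (hgen : ∀ x : J, ∃ l : List J, l.length ≤ n ∧ l.sum = x ∧
      ∀ y ∈ l, y ∈ G ∨ -y ∈ G ∨ y ∈ F ∨ -y ∈ F) :
    Submodule.span ℝ (E.ker : Set V) = ⊤ := by
  classical
  -- a uniform bound for the exceptional classes
  choose! wF hwF using hFE
  obtain ⟨B, hB⟩ : ∃ B : ℝ, ∀ x ∈ F, ‖wF x‖ ≤ B := by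
    obtain ⟨B, hB⟩ := (hF.image fun x => ‖wF x‖).bddAbove
    exact ⟨B, fun x hx => hB ⟨x, hx, rfl⟩⟩
  set M' : ℝ := max (max M B) 0 with hM'
  have hM'0 : 0 ≤ M' := le_max_right _ _
  have hMM' : M ≤ M' := (le_max_left _ _).trans (le_max_left _ _)
  have hBM' : B ≤ M' := (le_max_right _ _).trans (le_max_left _ _)
  have hone : ∀ y : J, (y ∈ G ∨ -y ∈ G ∨ y ∈ F ∨ -y ∈ F) → ∃ v : V, ‖v‖ ≤ M' ∧ E v = y := by
    rintro y (hy | hy | hy | hy)
    · obtain ⟨v, hv, hEv⟩ := hG y hy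
      exact ⟨v, hv.trans hMM', hEv⟩
    · obtain ⟨v, hv, hEv⟩ := hG (-y) hy
      exact ⟨-v, by rw [norm_neg]; exact hv.trans hMM', by rw [map_neg, hEv, neg_neg]⟩
    · exact ⟨wF y, (hB y hy).trans hBM', hwF y hy⟩
    · exact ⟨-wF (-y), by rw [norm_neg]; exact (hB _ hy).trans hBM',
        by rw [map_neg, hwF _ hy, neg_neg]⟩
  have hlist : ∀ l : List J, (∀ y ∈ l, y ∈ G ∨ -y ∈ G ∨ y ∈ F ∨ -y ∈ F) →
      ∃ v : V, ‖v‖ ≤ l.length * M' ∧ E v = l.sum := by
    intro l
    induction l with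
    | nil => intro _; exact ⟨0, by simp, by simp⟩
    | cons y l ih =>
      intro hl
      obtain ⟨v, hv, hEv⟩ := ih fun z hz => hl z (List.mem_cons_of_mem _ hz)
      obtain ⟨u, hu, hEu⟩ := hone y (hl y List.mem_cons_self)
      refine ⟨u + v, ?_, by rw [map_add, hEu, hEv, List.sum_cons]⟩
      calc ‖u + v‖ ≤ ‖u‖ + ‖v‖ := norm_add_le _ _
        _ ≤ M' + l.length * M' := add_le_add hu hv
        _ = ((y :: l).length : ℝ) * M' := by rw [List.length_cons]; push_cast; ring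
  refine span_ker_eq_top_of_bounded E (n * M') fun x => ?_
  obtain ⟨l, hln, hsum, hl⟩ := hgen x
  obtain ⟨v, hv, hEv⟩ := hlist l hl
  refine ⟨v, hv.trans (mul_le_mul_of_nonneg_right (by exact_mod_cast hln) hM'0), ?_⟩
  rw [hEv, hsum]

end Span


/-! ### The assembled statement -/

section Master

variable {V J : Type*} [NormedAddCommGroup V] [NormedSpace ℂ V] [CompleteSpace V]
  [FiniteDimensional ℝ V] [AddCommGroup J]

/-- **Variant (D) of "the kernel spans".** Data: a surjective hom `E : V →+ J`, a plane curve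
`X` evenly covered over the complement of the finite set `S`, a class map `cls` on the points
of `X`, and values `ω` (of the holomorphic differentials) on `X`, such that
* the local Abel lemma holds along every holomorphic branch (`LocalAbel`);
* `ω` satisfies the raw pole bound with exponents `e₁ < d < e₂`;
* the fibre of `X` over one value `a0 ∉ S` is finite;
* every element of `J` is a sum of at most `n` terms, each of which is plus or minus the
  class of a generic point of `X`, or plus or minus one of finitely many exceptional classes.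
Then the kernel of `E` spans `V` over `ℝ`. -/
theorem span_ker_eq_top_of_plane_model {X : Set (ℂ × ℂ)} (S : Finset ℂ) (E : V →+ J)
    (hE : Function.Surjective E) {cls : ℂ × ℂ → J} {ω : ℂ × ℂ → V}
    (hcov : EvenlyCovered X ((S : Set ℂ)ᶜ)) (hAbel : LocalAbel X ((S : Set ℂ)ᶜ) E cls ω)
    {d e₁ e₂ : ℕ} (N : ℕ) (hd₁ : e₁ < d) (hd₂ : d < e₂) (C₁ C₂ R : ℝ)
    (hω : ∀ z y, (z, y) ∈ X → z ∉ S → ∃ w : ℝ, 0 ≤ w ∧ ‖ω (z, y)‖ ≤ w ∧
      w ^ d * ∏ σ ∈ S, ‖z - σ‖ ^ e₁ ≤ C₁ * (1 + ‖z‖) ^ N ∧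
      (R ≤ ‖z‖ → w ^ d * ‖z‖ ^ e₂ ≤ C₂))
    {a0 : ℂ} (ha0 : a0 ∉ S) (hfib : {b0 : ℂ | (a0, b0) ∈ X}.Finite)
    (F : Set J) (hF : F.Finite) (n : ℕ)
    (hgen : ∀ x : J, ∃ l : List J, l.length ≤ n ∧ l.sum = x ∧
      ∀ y ∈ l, (∃ a b, (a, b) ∈ X ∧ a ∉ S ∧ (y = cls (a, b) ∨ y = -cls (a, b))) ∨
        y ∈ F ∨ -y ∈ F) :
    Submodule.span ℝ (E.ker : Set V) = ⊤ := by
  classical
  obtain ⟨M, hM0, hM⟩ := exists_bounded_preimage S hcov hAbel N hd₁ hd₂ C₁ C₂ R hω ha0
  -- preimages of the classes over `a0`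
  choose w hw using hE
  obtain ⟨B, hB⟩ : ∃ B : ℝ, ∀ b0, (a0, b0) ∈ X → ‖w (cls (a0, b0))‖ ≤ B := by
    obtain ⟨B, hB⟩ := (hfib.image fun b0 => ‖w (cls (a0, b0))‖).bddAbove
    exact ⟨B, fun b0 hb0 => hB ⟨b0, hb0, rfl⟩⟩
  set G : Set J := {y | ∃ a b, (a, b) ∈ X ∧ a ∉ S ∧ y = cls (a, b)} with hG
  refine span_ker_eq_top_of_generators E G F hF (B + M) n ?_ (fun x _ => ⟨w x, hw x⟩) ?_
  · rintro x ⟨a, b, hab, ha, rfl⟩
    obtain ⟨b0, v, hb0, hv, hc⟩ := hM a b hab ha
    refine ⟨w (cls (a0, b0)) - v, (norm_sub_le _ _).trans (add_le_add (hB b0 hb0) hv), ?_⟩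
    rw [map_sub, hw, ← hc]
    abel
  · intro x
    obtain ⟨l, hln, hsum, hl⟩ := hgen x
    refine ⟨l, hln, hsum, fun y hy => ?_⟩
    rcases hl y hy with ⟨a, b, hab, ha, rfl | rfl⟩ | h | h
    · exact Or.inl ⟨a, b, hab, ha, rfl⟩
    · exact Or.inr (Or.inl ⟨a, b, hab, ha, by rw [neg_neg]⟩)
    · exact Or.inr (Or.inr (Or.inl h))
    · exact Or.inr (Or.inr (Or.inr h))

end Master


end Fermat.Agent.S27.helper157
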