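import Fermat.Agent.S27.helper5871_LefSpec

/-!
# S27 / L-BCP (board row 1297, owner helper1587): abstract wrapper for `Stmt_BC_Pic`

`exists_pic0Hom_of_ext`: from an injective, degree preserving, order preserving map of places
`ext : Place K1 F1 → Place K2 F2` such that
* functions coming from `F1` have no zeros or poles at the places outside `range ext` (`hnew`),
* a degree zero divisor of `F1` which becomes principal in `F2` is principal (`hprin`;
  base change of `L(D)`),
* every `n`-torsion class of `F2` has a representative `D` with `n • D = div (f)`,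
  `f ∈ F1` (`hrig`; rigidity by derivations),
we get an injective homomorphism `Pic⁰(F1) → Pic⁰(F2)` whose range contains all torsion.
-/

set_option autoImplicit false

open AlgebraicCurve

namespace Fermat.Agent.S27.helper1587

section Abstract

variable {K1 F1 K2 F2 : Type*} [Field K1] [Field F1] [Field K2] [Field F2]
  [Algebra K1 F1] [Algebra K2 F2]

/-- The divisor map induced by a map of places. -/
noncomputable def mapDiv (ext : Place K1 F1 → Place K2 F2) : Divisor K1 F1 →+ Divisor K2 F2 :=
  Finsupp.mapDomain.addMonoidHom ext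

theorem mapDiv_apply_ext {ext : Place K1 F1 → Place K2 F2} (hinj : Function.Injective ext)
    (D : Divisor K1 F1) (v : Place K1 F1) : mapDiv ext D (ext v) = D v :=
  Finsupp.mapDomain_apply hinj D v

theorem mapDiv_apply_of_notMem_range {ext : Place K1 F1 → Place K2 F2}
    (D : Divisor K1 F1) {w : Place K2 F2} (hw : w ∉ Set.range ext) : mapDiv ext D w = 0 :=
  Finsupp.mapDomain_of_notMem_range D w hw

theorem degree_mapDiv {ext : Place K1 F1 → Place K2 F2} (hdeg : ∀ v, (ext v).deg = v.deg)
    (D : Divisor K1 F1) : Divisor.degree (mapDiv ext D) = Divisor.degree D := by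
  induction D using Finsupp.induction with
  | zero => simp
  | single_add v n D _ _ ih =>
      rw [map_add, map_add, map_add, ih]
      congr 1
      show Divisor.degree (Finsupp.mapDomain ext (Finsupp.single v n)) = _
      rw [Finsupp.mapDomain_single, Divisor.degree_single, Divisor.degree_single, hdeg]

variable [Algebra F1 F2]

theorem isPrincipal_mapDiv {ext : Place K1 F1 → Place K2 F2} (hinj : Function.Injective ext)
    (hord : ∀ v (f : F1), (ext v).ord (algebraMap F1 F2 f) = v.ord f)
    (hnew : ∀ w : Place K2 F2, w ∉ Set.range ext → ∀ f : F1, w.ord (algebraMap F1 F2 f) = 0)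
    {D : Divisor K1 F1} (hD : Divisor.IsPrincipal D) : Divisor.IsPrincipal (mapDiv ext D) := by
  obtain ⟨f, hf, hDf⟩ := hD
  refine ⟨algebraMap F1 F2 f, (map_ne_zero _).mpr hf, fun w => ?_⟩
  by_cases hw : w ∈ Set.range ext
  · obtain ⟨v, rfl⟩ := hw
    rw [mapDiv_apply_ext hinj, hord, hDf]
  · rw [mapDiv_apply_of_notMem_range D hw, hnew w hw]

/-- **Abstract wrapper** for `Stmt_BC_Pic`. -/
theorem exists_pic0Hom_of_ext (ext : Place K1 F1 → Place K2 F2) (hinj : Function.Injective ext)
    (hdeg : ∀ v, (ext v).deg = v.deg)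
    (hord : ∀ v (f : F1), (ext v).ord (algebraMap F1 F2 f) = v.ord f)
    (hnew : ∀ w : Place K2 F2, w ∉ Set.range ext → ∀ f : F1, w.ord (algebraMap F1 F2 f) = 0)
    (hprin : ∀ D : Divisor K1 F1, Divisor.degree D = 0 → Divisor.IsPrincipal (mapDiv ext D) →
      Divisor.IsPrincipal D)
    (hrig : ∀ n : ℕ, 0 < n → ∀ T : Pic0 K2 F2, (n : ℤ) • T = 0 →
      ∃ (D : Divisor.degZero (K := K2) (F := F2)) (f : F1), Pic0.mk D = T ∧
        ∀ w : Place K2 F2, (n : ℤ) * (D : Divisor K2 F2) w = w.ord (algebraMap F1 F2 f)) :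
    ∃ φ : Pic0 K1 F1 →+ Pic0 K2 F2, Function.Injective φ ∧
      ∀ n : ℕ, 0 < n → ∀ t : Pic0 K2 F2, t ∈ Pic0.torsion K2 F2 n → t ∈ Set.range φ := by
  -- the map on degree zero divisors
  let ψ : Divisor.degZero (K := K1) (F := F1) →+ Divisor.degZero (K := K2) (F := F2) :=
    ((mapDiv ext).comp (Divisor.degZero (K := K1) (F := F1)).subtype).codRestrict _ (fun D => by
      rw [Divisor.mem_degZero]
      show Divisor.degree (mapDiv ext (D : Divisor K1 F1)) = 0
      rw [degree_mapDiv hdeg]
      exact D.2)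
  have hψ : ∀ D : Divisor.degZero (K := K1) (F := F1),
      ((ψ D : Divisor.degZero (K := K2) (F := F2)) : Divisor K2 F2)
        = mapDiv ext (D : Divisor K1 F1) := fun _ => rfl
  have hmap : (Divisor.principal (K := K1) (F := F1)).addSubgroupOf
      (Divisor.degZero (K := K1) (F := F1)) ≤
      ((Divisor.principal (K := K2) (F := F2)).addSubgroupOf
        (Divisor.degZero (K := K2) (F := F2))).comap ψ := by
    intro D hD
    rw [AddSubgroup.mem_comap, AddSubgroup.mem_addSubgroupOf, hψ]
    rw [AddSubgroup.mem_addSubgroupOf] at hD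
    exact isPrincipal_mapDiv hinj hord hnew hD
  let φ : Pic0 K1 F1 →+ Pic0 K2 F2 := QuotientAddGroup.map _ _ ψ hmap
  have hφ : ∀ D : Divisor.degZero (K := K1) (F := F1), φ (Pic0.mk D) = Pic0.mk (ψ D) :=
    fun _ => rfl
  refine ⟨φ, ?_, ?_⟩
  · rw [injective_iff_map_eq_zero]
    intro a ha
    obtain ⟨D, rfl⟩ := Pic0.mk_surjective a
    rw [hφ] at ha
    have h1 : ψ D ∈ (Divisor.principal (K := K2) (F := F2)).addSubgroupOf
        (Divisor.degZero (K := K2) (F := F2)) := (QuotientAddGroup.eq_zero_iff _).mp ha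
    rw [AddSubgroup.mem_addSubgroupOf, hψ] at h1
    have h2 : Divisor.IsPrincipal (D : Divisor K1 F1) := hprin _ D.2 h1
    exact (QuotientAddGroup.eq_zero_iff _).mpr (by
      rw [AddSubgroup.mem_addSubgroupOf]; exact h2)
  · intro n hn t ht
    rw [Pic0.mem_torsion] at ht
    obtain ⟨D₂, f, rfl, hf⟩ := hrig n hn t ht
    have hn0 : (n : ℤ) ≠ 0 := by exact_mod_cast hn.ne'
    -- `D₂` is supported on the old places
    have hsupp : ∀ w : Place K2 F2, w ∉ Set.range ext → (D₂ : Divisor K2 F2) w = 0 := by
      intro w hw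
      have := hf w
      rw [hnew w hw, mul_eq_zero] at this
      exact this.resolve_left hn0
    let D₁ : Divisor K1 F1 := Finsupp.comapDomain ext (D₂ : Divisor K2 F2) hinj.injOn
    have hD₁ : mapDiv ext D₁ = (D₂ : Divisor K2 F2) := by
      show Finsupp.mapDomain ext (Finsupp.comapDomain ext (D₂ : Divisor K2 F2) hinj.injOn) = _
      apply Finsupp.mapDomain_comapDomain ext hinj
      intro w hw
      by_contra hw'
      exact (Finsupp.mem_support_iff.mp hw) (hsupp w hw')
    have hdeg₁ : D₁ ∈ Divisor.degZero (K := K1) (F := F1) := by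
      rw [Divisor.mem_degZero, ← degree_mapDiv hdeg, hD₁]
      exact D₂.2
    refine ⟨Pic0.mk ⟨D₁, hdeg₁⟩, ?_⟩
    rw [hφ]
    congr 1
    exact Subtype.ext hD₁

end Abstract

end Fermat.Agent.S27.helper1587
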