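import Mathlib

/-!
# S27-E2-AJ : the local Abel–Jacobi map, analytic core (Mathlib only)

Setting (consumer: step E2/E3 of the analytic route for S27).  `ι` indexes the points
`Q_i` of a reduced divisor, `κ` indexes the differentials, `c i` is the `x`-coordinate of
`Q_i`, and `om i j : ℂ → ℂ` is holomorphic on the disc `ball (c i) r` (in the application
`om i j = φ_j ∘ b_i`, the `j`-th differential along the branch through `Q_i`).

* `prim f c` : the primitive of `f` on a disc centred at `c`, vanishing at `c`.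
* `Phi om c a j = ∑ i, prim (om i j) (c i) (a i)` : the local Abel–Jacobi map.
* `hasStrictFDerivAt_Phi` : its (strict, complex) derivative on the polydisc is
  `dPhi om a`, `dPhi om a v j = ∑ i, om i j (a i) * v i`.
* `ajHomeo` : if `det (om i j (c i)) ≠ 0` the map `Phi om c` is a local biholomorphism at `c`
  (an `OpenPartialHomeomorph` with holomorphic inverse); `exists_local_inverse` is the
  unbundled form, with the source inside any prescribed neighbourhood of `c`.
* `hasDerivAt_Phi_comp` (`_real`) : chain rule along curves.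
* `Phi_sub_base` : change of base point.
-/

set_option autoImplicit false

namespace Fermat.Agent.S27.helper1644

open Complex Metric Set Topology Filter

noncomputable section

/-! ### Primitives on a disc -/

/-- The primitive of `f` on a disc centred at `c` that vanishes at `c`
(it is a primitive as soon as `f` is holomorphic on some `ball c r`). -/
def prim (f : ℂ → ℂ) (c z : ℂ) : ℂ := Complex.wedgeIntegral c z f

@[simp] lemma prim_self (f : ℂ → ℂ) (c : ℂ) : prim f c c = 0 := by
  simp [prim, Complex.wedgeIntegral]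

section prim

variable {f : ℂ → ℂ} {c : ℂ} {r : ℝ}

lemma hasDerivAt_prim (hf : DifferentiableOn ℂ f (ball c r)) {z : ℂ} (hz : z ∈ ball c r) :
    HasDerivAt (prim f c) (f z) z :=
  hf.isConservativeOn.hasDerivAt_wedgeIntegral hf.continuousOn hz

lemma differentiableOn_prim (hf : DifferentiableOn ℂ f (ball c r)) :
    DifferentiableOn ℂ (prim f c) (ball c r) :=
  fun _ hz => (hasDerivAt_prim hf hz).differentiableAt.differentiableWithinAt

lemma analyticAt_prim (hf : DifferentiableOn ℂ f (ball c r)) {z : ℂ} (hz : z ∈ ball c r) :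
    AnalyticAt ℂ (prim f c) z :=
  (differentiableOn_prim hf).analyticAt (isOpen_ball.mem_nhds hz)

lemma hasStrictDerivAt_prim (hf : DifferentiableOn ℂ f (ball c r)) {z : ℂ}
    (hz : z ∈ ball c r) : HasStrictDerivAt (prim f c) (f z) z := by
  have h := (analyticAt_prim hf hz).hasStrictDerivAt
  rwa [(hasDerivAt_prim hf hz).deriv] at h

lemma deriv_prim (hf : DifferentiableOn ℂ f (ball c r)) {z : ℂ} (hz : z ∈ ball c r) :
    deriv (prim f c) z = f z :=
  (hasDerivAt_prim hf hz).deriv

/-- Uniqueness of primitives on a disc. -/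
lemma sub_eq_prim_of_hasDerivAt (hf : DifferentiableOn ℂ f (ball c r)) {G : ℂ → ℂ}
    (hG : ∀ z ∈ ball c r, HasDerivAt G (f z) z) {z : ℂ} (hz : z ∈ ball c r) :
    G z - G c = prim f c z := by
  have hc : c ∈ ball c r := mem_ball_self (pos_of_mem_ball hz)
  have hd : DifferentiableOn ℂ (fun w => G w - prim f c w) (ball c r) := fun w hw =>
    ((hG w hw).fun_sub (hasDerivAt_prim hf hw)).differentiableAt.differentiableWithinAt
  have hd' : (ball c r).EqOn (deriv fun w => G w - prim f c w) 0 := fun w hw => by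
    have := ((hG w hw).fun_sub (hasDerivAt_prim hf hw)).deriv
    simpa using this
  have h := isOpen_ball.is_const_of_deriv_eq_zero (convex_ball c r).isPreconnected hd hd' hz hc
  simp only [prim_self, sub_zero] at h
  linear_combination h

/-- The primitive only depends on the values of `f` on the disc. -/
lemma prim_congr {f' : ℂ → ℂ} (hf : DifferentiableOn ℂ f (ball c r))
    (hff' : (ball c r).EqOn f f') {z : ℂ} (hz : z ∈ ball c r) :
    prim f c z = prim f' c z := by
  have hf' : DifferentiableOn ℂ f' (ball c r) := hf.congr fun w hw => (hff' hw).symm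
  have h := sub_eq_prim_of_hasDerivAt hf' (G := prim f c)
    (fun _ hw => by rw [← hff' hw]; exact hasDerivAt_prim hf hw) hz
  simpa using h

/-- Change of base point for primitives. -/
lemma prim_sub_base {c' : ℂ} {r' : ℝ} (hf : DifferentiableOn ℂ f (ball c r))
    (hsub : ball c' r' ⊆ ball c r) {z : ℂ} (hz : z ∈ ball c' r') :
    prim f c' z = prim f c z - prim f c c' :=
  (sub_eq_prim_of_hasDerivAt (hf.mono hsub) (G := prim f c)
    (fun _ hw => hasDerivAt_prim hf (hsub hw)) hz).symm

end prim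

/-! ### The local Abel–Jacobi map -/

section AJ

variable {ι κ : Type*} [Fintype ι]

/-- The local Abel–Jacobi map `a ↦ (∑ i, ∫_{c i}^{a i} om i j)_j`. -/
def Phi (om : ι → κ → ℂ → ℂ) (c : ι → ℂ) (a : ι → ℂ) : κ → ℂ :=
  fun j => ∑ i, prim (om i j) (c i) (a i)

lemma Phi_apply (om : ι → κ → ℂ → ℂ) (c a : ι → ℂ) (j : κ) :
    Phi om c a j = ∑ i, prim (om i j) (c i) (a i) := rfl

@[simp] lemma Phi_base (om : ι → κ → ℂ → ℂ) (c : ι → ℂ) : Phi om c c = 0 := by
  funext j; simp [Phi]

/-- The derivative of the local Abel–Jacobi map at `a`. -/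
def dPhi (om : ι → κ → ℂ → ℂ) (a : ι → ℂ) : (ι → ℂ) →L[ℂ] (κ → ℂ) :=
  ContinuousLinearMap.pi fun j =>
    ∑ i, om i j (a i) • ContinuousLinearMap.proj (R := ℂ) (φ := fun _ : ι => ℂ) i

@[simp] lemma dPhi_apply (om : ι → κ → ℂ → ℂ) (a v : ι → ℂ) (j : κ) :
    dPhi om a v j = ∑ i, om i j (a i) * v i := by
  simp [dPhi]

variable {om : ι → κ → ℂ → ℂ} {c : ι → ℂ} {r : ℝ}

/-- **(AJ1)** On the polydisc the local Abel–Jacobi map is strictly complex differentiable,
with derivative `dPhi om a`. -/
theorem hasStrictFDerivAt_Phi (hom : ∀ i j, DifferentiableOn ℂ (om i j) (ball (c i) r))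
    {a : ι → ℂ} (ha : ∀ i, a i ∈ ball (c i) r) :
    HasStrictFDerivAt (Phi om c) (dPhi om a) a := by
  rw [hasStrictFDerivAt_pi']
  intro j
  have key : ∀ i ∈ (Finset.univ : Finset ι),
      HasStrictFDerivAt (fun a : ι → ℂ => prim (om i j) (c i) (a i))
        (om i j (a i) • ContinuousLinearMap.proj (R := ℂ) (φ := fun _ : ι => ℂ) i) a := by
    intro i _
    exact (hasStrictDerivAt_prim (hom i j) (ha i)).comp_hasStrictFDerivAt a
      (ContinuousLinearMap.proj (R := ℂ) (φ := fun _ : ι => ℂ) i).hasStrictFDerivAt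
  have h := HasStrictFDerivAt.fun_sum key
  have e : (ContinuousLinearMap.proj (R := ℂ) (φ := fun _ : κ => ℂ) j).comp (dPhi om a) =
      ∑ i, om i j (a i) • ContinuousLinearMap.proj (R := ℂ) (φ := fun _ : ι => ℂ) i := by
    ext v; simp [dPhi]
  rw [e]
  exact h

theorem hasFDerivAt_Phi (hom : ∀ i j, DifferentiableOn ℂ (om i j) (ball (c i) r))
    {a : ι → ℂ} (ha : ∀ i, a i ∈ ball (c i) r) :
    HasFDerivAt (Phi om c) (dPhi om a) a :=
  (hasStrictFDerivAt_Phi hom ha).hasFDerivAt

/-- The local Abel–Jacobi map is holomorphic on the polydisc `ball c r` (sup metric). -/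
theorem differentiableOn_Phi (hom : ∀ i j, DifferentiableOn ℂ (om i j) (ball (c i) r)) :
    DifferentiableOn ℂ (Phi om c) (ball c r) := fun a ha =>
  (hasFDerivAt_Phi hom fun i =>
    mem_ball.2 (lt_of_le_of_lt (dist_le_pi_dist a c i) (mem_ball.1 ha))).differentiableAt.differentiableWithinAt

/-- The local Abel–Jacobi map is analytic on the polydisc. -/
theorem analyticAt_Phi [Fintype κ] (hom : ∀ i j, DifferentiableOn ℂ (om i j) (ball (c i) r))
    {a : ι → ℂ} (ha : ∀ i, a i ∈ ball (c i) r) : AnalyticAt ℂ (Phi om c) a := by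
  refine AnalyticAt.pi (f := fun j (x : ι → ℂ) => ∑ i, prim (om i j) (c i) (x i)) fun j => ?_
  refine Finset.analyticAt_fun_sum _ fun i _ => ?_
  have h1 : AnalyticAt ℂ (fun x : ι → ℂ => x i) a :=
    (ContinuousLinearMap.proj (R := ℂ) (φ := fun _ : ι => ℂ) i).analyticAt a
  exact AnalyticAt.comp (f := fun x : ι → ℂ => x i) (x := a)
    (analyticAt_prim (hom i j) (ha i)) h1

/-- **(AJ3)** chain rule, general form: `a` depends differentiably on a parameter in any
normed space. -/
theorem hasFDerivAt_Phi_comp [Fintype κ] {E : Type*} [NormedAddCommGroup E] [NormedSpace ℂ E]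
    (hom : ∀ i j, DifferentiableOn ℂ (om i j) (ball (c i) r))
    {a : E → ι → ℂ} {a' : E →L[ℂ] (ι → ℂ)} {t₀ : E} (ha : HasFDerivAt a a' t₀)
    (hmem : ∀ i, a t₀ i ∈ ball (c i) r) :
    HasFDerivAt (fun t => Phi om c (a t)) ((dPhi om (a t₀)).comp a') t₀ := by
  have h1 : HasFDerivAt (Phi om c) (dPhi om (a t₀)) (a t₀) := hasFDerivAt_Phi hom hmem
  exact HasFDerivAt.comp t₀ h1 ha

/-- **(AJ3)** chain rule along a holomorphic curve. -/
theorem hasDerivAt_Phi_comp (hom : ∀ i j, DifferentiableOn ℂ (om i j) (ball (c i) r))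
    {a : ι → ℂ → ℂ} {a' : ι → ℂ} {t₀ : ℂ} (ha : ∀ i, HasDerivAt (a i) (a' i) t₀)
    (hmem : ∀ i, a i t₀ ∈ ball (c i) r) (j : κ) :
    HasDerivAt (fun t => Phi om c (fun i => a i t) j) (∑ i, om i j (a i t₀) * a' i) t₀ := by
  simp only [Phi]
  exact HasDerivAt.fun_sum fun i _ => (hasDerivAt_prim (hom i j) (hmem i)).comp t₀ (ha i)

/-- **(AJ3)** chain rule along a real curve. -/
theorem hasDerivAt_Phi_comp_real (hom : ∀ i j, DifferentiableOn ℂ (om i j) (ball (c i) r))
    {a : ι → ℝ → ℂ} {a' : ι → ℂ} {t₀ : ℝ} (ha : ∀ i, HasDerivAt (a i) (a' i) t₀)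
    (hmem : ∀ i, a i t₀ ∈ ball (c i) r) (j : κ) :
    HasDerivAt (fun t : ℝ => Phi om c (fun i => a i t) j)
      (∑ i, om i j (a i t₀) * a' i) t₀ := by
  simp only [Phi]
  refine HasDerivAt.fun_sum fun i _ => ?_
  have h := (hasDerivAt_prim (hom i j) (hmem i)).scomp t₀ (ha i)
  simpa [mul_comm, Function.comp_def] using h

/-- Change of base point: the Abel–Jacobi map based at `c'` (inside the polydisc of `c`)
differs from the one based at `c` by the constant `Phi om c c'`.  The functions `om'` used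
near `c'` only need to agree with `om` on the small discs. -/
theorem Phi_sub_base {om' : ι → κ → ℂ → ℂ} {c' : ι → ℂ} {r' : ℝ}
    (hom : ∀ i j, DifferentiableOn ℂ (om i j) (ball (c i) r))
    (hsub : ∀ i, ball (c' i) r' ⊆ ball (c i) r)
    (hom' : ∀ i j, (ball (c' i) r').EqOn (om' i j) (om i j))
    {a : ι → ℂ} (ha : ∀ i, a i ∈ ball (c' i) r') :
    Phi om' c' a = Phi om c a - Phi om c c' := by
  funext j
  simp only [Phi, Pi.sub_apply, ← Finset.sum_sub_distrib]
  refine Finset.sum_congr rfl fun i _ => ?_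
  rw [← prim_sub_base (hom i j) (hsub i) (ha i)]
  exact (prim_congr ((hom i j).mono (hsub i)) (fun w hw => (hom' i j hw).symm) (ha i)).symm

end AJ

/-! ### The local inverse -/

section inverse

/-- The Jacobian matrix `(om i j (a i))_{i j}` of the local Abel–Jacobi map. -/
def jac {ι : Type*} (om : ι → ι → ℂ → ℂ) (a : ι → ℂ) : Matrix ι ι ℂ :=
  Matrix.of fun i j => om i j (a i)

@[simp] lemma jac_apply {ι : Type*} (om : ι → ι → ℂ → ℂ) (a : ι → ℂ) (i j : ι) :
    jac om a i j = om i j (a i) := rfl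

variable {ι : Type*} [Fintype ι] [DecidableEq ι]

lemma dPhi_det (om : ι → ι → ℂ → ℂ) (a : ι → ℂ) : (dPhi om a).det = (jac om a).det := by
  have h : (dPhi om a : (ι → ℂ) →ₗ[ℂ] (ι → ℂ)) = Matrix.toLin' (jac om a).transpose := by
    refine LinearMap.ext fun v => funext fun j => ?_
    simp [Matrix.toLin'_apply, Matrix.mulVec, dotProduct]
  rw [ContinuousLinearMap.det, h, LinearMap.det_toLin', Matrix.det_transpose]

variable {om : ι → ι → ℂ → ℂ} {c : ι → ℂ} {r : ℝ}

omit [DecidableEq ι] in
lemma mem_ball_of_mem_ball_pi {a : ι → ℂ} (ha : a ∈ ball c r) (i : ι) : a i ∈ ball (c i) r :=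
  mem_ball.2 (lt_of_le_of_lt (dist_le_pi_dist a c i) (mem_ball.1 ha))

lemma continuousOn_jac_det (hom : ∀ i j, DifferentiableOn ℂ (om i j) (ball (c i) r)) :
    ContinuousOn (fun a : ι → ℂ => (jac om a).det) (ball c r) := by
  rw [continuousOn_iff_continuous_domRestrict]
  refine Continuous.matrix_det ?_
  refine continuous_matrix fun i j => ?_
  have h1 : ContinuousOn (fun a : ι → ℂ => om i j (a i)) (ball c r) :=
    (hom i j).continuousOn.comp (continuous_apply i).continuousOn
      fun a ha => mem_ball_of_mem_ball_pi ha i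
  exact continuousOn_iff_continuous_domRestrict.1 h1

/-- The open set on which the local Abel–Jacobi map is defined and has invertible derivative. -/
def regSet (om : ι → ι → ℂ → ℂ) (c : ι → ℂ) (r : ℝ) : Set (ι → ℂ) :=
  ball c r ∩ (fun a : ι → ℂ => (jac om a).det) ⁻¹' {0}ᶜ

lemma isOpen_regSet (hom : ∀ i j, DifferentiableOn ℂ (om i j) (ball (c i) r)) :
    IsOpen (regSet om c r) :=
  (continuousOn_jac_det hom).isOpen_inter_preimage isOpen_ball isOpen_compl_singleton

lemma mem_regSet {a : ι → ℂ} : a ∈ regSet om c r ↔ a ∈ ball c r ∧ (jac om a).det ≠ 0 := Iff.rfl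

/-- The derivative of the Abel–Jacobi map as a continuous linear equivalence. -/
def dPhiEquiv (om : ι → ι → ℂ → ℂ) (a : ι → ℂ) (h : (jac om a).det ≠ 0) :
    (ι → ℂ) ≃L[ℂ] (ι → ℂ) :=
  (dPhi om a).toContinuousLinearEquivOfDetNeZero (by rwa [dPhi_det])

@[simp] lemma coe_dPhiEquiv (om : ι → ι → ℂ → ℂ) (a : ι → ℂ) (h : (jac om a).det ≠ 0) :
    (dPhiEquiv om a h : (ι → ℂ) →L[ℂ] (ι → ℂ)) = dPhi om a :=
  ContinuousLinearMap.coe_toContinuousLinearEquivOfDetNeZero _ _

lemma hasStrictFDerivAt_Phi_equiv (hom : ∀ i j, DifferentiableOn ℂ (om i j) (ball (c i) r))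
    {a : ι → ℂ} (ha : a ∈ regSet om c r) :
    HasStrictFDerivAt (Phi om c)
      (dPhiEquiv om a (mem_regSet.1 ha).2 : (ι → ℂ) →L[ℂ] (ι → ℂ)) a := by
  rw [coe_dPhiEquiv]
  exact hasStrictFDerivAt_Phi hom fun i => mem_ball_of_mem_ball_pi (mem_regSet.1 ha).1 i

/-- **(AJ2)** the local Abel–Jacobi map as an open partial homeomorphism near the base point,
when the Jacobian determinant at the base point does not vanish. -/
def ajHomeo (om : ι → ι → ℂ → ℂ) (c : ι → ℂ) {r : ℝ} (hr : 0 < r)
    (hom : ∀ i j, DifferentiableOn ℂ (om i j) (ball (c i) r)) (hdet : (jac om c).det ≠ 0) :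
    OpenPartialHomeomorph (ι → ℂ) (ι → ℂ) :=
  ((hasStrictFDerivAt_Phi_equiv hom
    (mem_regSet.2 ⟨mem_ball_self hr, hdet⟩)).toOpenPartialHomeomorph (Phi om c)).restrOpen
    (regSet om c r) (isOpen_regSet hom)

section ajHomeo

variable (hr : 0 < r) (hom : ∀ i j, DifferentiableOn ℂ (om i j) (ball (c i) r))
  (hdet : (jac om c).det ≠ 0)

@[simp] lemma coe_ajHomeo : ⇑(ajHomeo om c hr hom hdet) = Phi om c := rfl

lemma base_mem_ajHomeo_source : c ∈ (ajHomeo om c hr hom hdet).source :=
  ⟨HasStrictFDerivAt.mem_toOpenPartialHomeomorph_source _,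
    mem_regSet.2 ⟨mem_ball_self hr, hdet⟩⟩

lemma ajHomeo_source_subset_regSet : (ajHomeo om c hr hom hdet).source ⊆ regSet om c r :=
  fun _ ha => ha.2

lemma ajHomeo_source_subset_ball : (ajHomeo om c hr hom hdet).source ⊆ ball c r :=
  fun _ ha => ha.2.1

lemma jac_det_ne_zero_of_mem_ajHomeo_source {a : ι → ℂ}
    (ha : a ∈ (ajHomeo om c hr hom hdet).source) : (jac om a).det ≠ 0 :=
  ha.2.2

lemma zero_mem_ajHomeo_target : (0 : ι → ℂ) ∈ (ajHomeo om c hr hom hdet).target := by
  have h := (ajHomeo om c hr hom hdet).map_source (base_mem_ajHomeo_source hr hom hdet)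
  simpa using h

lemma ajHomeo_symm_zero : (ajHomeo om c hr hom hdet).symm 0 = c := by
  have h := (ajHomeo om c hr hom hdet).left_inv (base_mem_ajHomeo_source hr hom hdet)
  simpa using h

/-- The local inverse of the Abel–Jacobi map is strictly complex differentiable, with
derivative the inverse of `dPhi`. -/
lemma hasStrictFDerivAt_ajHomeo_symm {v : ι → ℂ} (hv : v ∈ (ajHomeo om c hr hom hdet).target) :
    HasStrictFDerivAt (ajHomeo om c hr hom hdet).symm
      ((dPhiEquiv om ((ajHomeo om c hr hom hdet).symm v)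
        (jac_det_ne_zero_of_mem_ajHomeo_source hr hom hdet
          ((ajHomeo om c hr hom hdet).map_target hv))).symm : (ι → ℂ) →L[ℂ] (ι → ℂ)) v :=
  (ajHomeo om c hr hom hdet).hasStrictFDerivAt_symm hv
    (hasStrictFDerivAt_Phi_equiv hom
      (ajHomeo_source_subset_regSet hr hom hdet ((ajHomeo om c hr hom hdet).map_target hv)))

/-- The local inverse of the Abel–Jacobi map is analytic. -/
lemma analyticAt_ajHomeo_symm {v : ι → ℂ} (hv : v ∈ (ajHomeo om c hr hom hdet).target) :
    AnalyticAt ℂ (ajHomeo om c hr hom hdet).symm v := by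
  have hs := ajHomeo_source_subset_regSet hr hom hdet ((ajHomeo om c hr hom hdet).map_target hv)
  refine (ajHomeo om c hr hom hdet).analyticAt_symm
    (i := dPhiEquiv om ((ajHomeo om c hr hom hdet).symm v) (mem_regSet.1 hs).2) hv ?_ ?_
  · exact analyticAt_Phi hom fun i => mem_ball_of_mem_ball_pi (mem_regSet.1 hs).1 i
  · exact (hasStrictFDerivAt_Phi_equiv hom hs).hasFDerivAt.fderiv

lemma differentiableOn_ajHomeo_symm :
    DifferentiableOn ℂ (ajHomeo om c hr hom hdet).symm (ajHomeo om c hr hom hdet).target :=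
  fun _ hv => (hasStrictFDerivAt_ajHomeo_symm hr hom hdet
    hv).hasFDerivAt.differentiableAt.differentiableWithinAt

end ajHomeo

/-- **(AJ2), unbundled.**  If the Jacobian determinant `det (om i j (c i))` does not vanish,
then inside any neighbourhood `N` of the base point there is an open `U ∋ c` on which the local
Abel–Jacobi map is a biholomorphism onto an open `V ∋ 0`, with holomorphic inverse `s`. -/
theorem exists_local_inverse (om : ι → ι → ℂ → ℂ) (c : ι → ℂ) {r : ℝ} (hr : 0 < r)
    (hom : ∀ i j, DifferentiableOn ℂ (om i j) (ball (c i) r))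
    (hdet : (Matrix.of fun i j => om i j (c i)).det ≠ 0)
    {N : Set (ι → ℂ)} (hN : N ∈ 𝓝 c) :
    ∃ (U V : Set (ι → ℂ)) (s : (ι → ℂ) → (ι → ℂ)),
      IsOpen U ∧ c ∈ U ∧ U ⊆ N ∧ U ⊆ ball c r ∧ IsOpen V ∧ (0 : ι → ℂ) ∈ V ∧
      MapsTo (Phi om c) U V ∧ MapsTo s V U ∧
      (∀ a ∈ U, s (Phi om c a) = a) ∧ (∀ v ∈ V, Phi om c (s v) = v) ∧
      s 0 = c ∧ InjOn (Phi om c) U ∧ DifferentiableOn ℂ s V ∧ ContinuousOn s V ∧
      (∀ a ∈ U, (Matrix.of fun i j => om i j (a i)).det ≠ 0) ∧ AnalyticOnNhd ℂ s V := by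
  have hdet' : (jac om c).det ≠ 0 := hdet
  set e := (ajHomeo om c hr hom hdet').restrOpen (interior N) isOpen_interior with he
  have hsrc : e.source = (ajHomeo om c hr hom hdet').source ∩ interior N := rfl
  have hcoe : ⇑e = Phi om c := rfl
  have hsymm : ⇑e.symm = (ajHomeo om c hr hom hdet').symm := rfl
  have hc : c ∈ e.source :=
    ⟨base_mem_ajHomeo_source hr hom hdet', mem_interior_iff_mem_nhds.2 hN⟩
  have htgt : e.target ⊆ (ajHomeo om c hr hom hdet').target := fun v hv => by
    have h1 := e.map_target hv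
    have h2 := e.right_inv hv
    rw [hcoe] at h2
    rw [← h2]
    exact (ajHomeo om c hr hom hdet').map_source h1.1
  refine ⟨e.source, e.target, e.symm, e.open_source, hc, ?_, ?_, e.open_target, ?_, ?_, ?_, ?_, ?_,
    ?_, ?_, ?_, ?_, ?_, ?_⟩
  · exact fun a ha => interior_subset ha.2
  · exact fun a ha => ajHomeo_source_subset_ball hr hom hdet' ha.1
  · have h := e.map_source hc
    rw [hcoe, Phi_base] at h
    exact h
  · intro a ha
    have h := e.map_source ha
    rwa [hcoe] at h
  · exact fun v hv => e.map_target hv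
  · intro a ha
    have h := e.left_inv ha
    rwa [hcoe] at h
  · intro v hv
    have h := e.right_inv hv
    rwa [hcoe] at h
  · have h := e.left_inv hc
    rw [hcoe, Phi_base] at h
    exact h
  · have h := e.injOn
    rwa [hcoe] at h
  · rw [hsymm]
    exact (differentiableOn_ajHomeo_symm hr hom hdet').mono htgt
  · exact e.continuousOn_symm
  · exact fun a ha => jac_det_ne_zero_of_mem_ajHomeo_source hr hom hdet' ha.1
  · intro v hv
    rw [hsymm]
    exact analyticAt_ajHomeo_symm hr hom hdet' (htgt hv)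

end inverse

end

end Fermat.Agent.S27.helper1644
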