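import Fermat.Agent.S27.helper6247_Spec
import Fermat.Agent.S27.helper1445_LatticeTorsion
import Fermat.Agent.S27.helper1644_LocalAJ

/-!
# S27 : two small Spec leaves of `helper6247_Spec`

* `stmt_IntChartExists_of` : `Stmt_ChartCoefAnalytic → Stmt_IntChartExists` (M5f): every chart
  has an abelian integral (componentwise primitive on the disc, `helper1644.prim`).
* `stmt_LatticeCount` : `Stmt_LatticeCount` (M6c), from `helper1445_LatticeTorsion`.
-/

set_option autoImplicit false

open AlgebraicCurve

namespace Fermat.Agent.S27.helper1644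

open Fermat.Agent.S27.helper6247

/-- M5f of the Spec: every chart has an abelian integral. -/
theorem stmt_IntChartExists_of (h : Stmt_ChartCoefAnalytic) : Stmt_IntChartExists := by
  intro F _ _ x hx _ e u Q r hQ
  have han := h F x hx e u Q r hQ
  have hd : ∀ j, DifferentiableOn ℂ (fun s' => chartCoef e u Q s' j) (Metric.ball (0 : ℂ) r) :=
    fun j s' hs' =>
      (differentiableAt_pi.1 (han s' hs').differentiableAt j).differentiableWithinAt
  refine ⟨fun s j => prim (fun s' => chartCoef e u Q s' j) 0 s, hQ, ?_, ?_⟩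
  · funext j
    simp
  · intro s hs
    rw [hasDerivAt_pi]
    intro j
    exact hasDerivAt_prim (hd j) hs

/-- M6c of the Spec: the lattice count. -/
theorem stmt_LatticeCount : Stmt_LatticeCount := by
  intro g n A _ E hE hdisc hB hn
  have hspan : Submodule.span ℝ {x : Fin g → ℂ | E x = 0} = ⊤ := by
    refine helper1445.span_ker_eq_top_of_bounded E ?_
    obtain ⟨B, hB⟩ := hB
    refine ⟨B, fun v => ?_⟩
    obtain ⟨w', hw', hn'⟩ := hB v
    exact ⟨v - w', by simp [hw'], by simpa using hn'⟩
  have hdisc' : ∃ ε : ℝ, 0 < ε ∧ ∀ x : Fin g → ℂ, E x = 0 → ‖x‖ < ε → x = 0 := by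
    obtain ⟨ε, hε, h⟩ := hdisc
    exact ⟨ε, hε, h⟩
  have h := helper1445.card_torsionBy_of_span E hE hdisc' hspan (n := n) hn.ne'
  rw [h]
  congr 1
  have : FiniteDimensional ℝ (Fin g → ℂ) := FiniteDimensional.complexToReal _
  rw [← Module.finrank_mul_finrank ℝ ℂ (Fin g → ℂ)]
  simp

end Fermat.Agent.S27.helper1644
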