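import Fermat.Agent.S27.helper6247_Spec
import Fermat.Agent.S27.helper1644_SpecLeaves

/-!
# S27 Spec leaf M5e : `Stmt_WeilCoeff → Stmt_ChartCoefAnalytic`

`chartCoef e u Q s = e (pp (Q s) (u - s)⁻¹)`; each coordinate is a linear form `lam_j` on
`H¹(0)`, so by `Stmt_WeilCoeff` it is the value `ev (Q s) φ_j` of a function `φ_j : F` regular
at every place where `u - c` is a uniformizer, and the chart property makes it analytic.

Also `stmt_IntChartExists_of_weilCoeff : Stmt_WeilCoeff → Stmt_IntChartExists` (M5e + M5f).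
-/

set_option autoImplicit false

open AlgebraicCurve IntermediateField

namespace Fermat.Agent.S27.helper1644

open Fermat.Agent.S27.helper6247

/-- A nonzero constant has order `0` at every place. -/
lemma ord_algebraMap_eq_zero' {K F : Type*} [Field K] [Field F] [Algebra K F] (v : Place K F)
    (a : K) : v.ord (algebraMap K F a) = 0 := by
  rcases eq_or_ne a 0 with rfl | ha
  · simp
  · have hmem : algebraMap K F a ∈ v.toValuationSubring := v.algebraMap_mem' a
    have hmem' : algebraMap K F a⁻¹ ∈ v.toValuationSubring := v.algebraMap_mem' a⁻¹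
    let w : v.toValuationSubringˣ :=
      ⟨⟨algebraMap K F a, hmem⟩, ⟨algebraMap K F a⁻¹, hmem'⟩,
        Subtype.ext (by
          have h0 : algebraMap K F a ≠ 0 := (map_ne_zero _).mpr ha
          simp [mul_inv_cancel₀ h0]),
        Subtype.ext (by
          have h0 : algebraMap K F a ≠ 0 := (map_ne_zero _).mpr ha
          simp [inv_mul_cancel₀ h0])⟩
    exact v.ord_coe_unit w

/-- The coordinate of a chart is transcendental over `ℂ`. -/
lemma transcendental_of_isChart {F : Type*} [Field F] [Algebra ℂ F] {u : F}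
    {Q : ℂ → Place ℂ F} {r : ℝ} (h : IsChart u Q r) : Transcendental ℂ u := by
  intro halg
  have hint : IsIntegral ℂ u := halg.isIntegral
  have hdeg : (minpoly ℂ u).degree = 1 :=
    IsAlgClosed.degree_eq_one_of_irreducible ℂ (minpoly.irreducible hint)
  obtain ⟨c, hc⟩ := minpoly.mem_range_of_degree_eq_one ℂ u hdeg
  have h1 := h.unif 0 (Metric.mem_ball_self h.pos)
  rw [← hc, ← map_sub, ord_algebraMap_eq_zero'] at h1
  exact zero_ne_one h1

/-- M5e of the Spec: the integrand `chartCoef` is analytic along every chart. -/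
theorem stmt_ChartCoefAnalytic_of (hW : Stmt_WeilCoeff.{0, 0}) : Stmt_ChartCoefAnalytic := by
  intro F _ _ x hx _ e u Q r hQ s₀ hs₀
  have hu : Transcendental ℂ u := transcendental_of_isChart hQ
  -- the coordinate linear forms
  let lam : Fin (genusFF ℂ F) → Module.Dual ℂ (H1 (0 : Divisor ℂ F)) := fun j =>
    (LinearMap.proj j : (Fin (genusFF ℂ F) → ℂ) →ₗ[ℂ] ℂ) ∘ₗ e.toLinearMap
  have hφ : ∀ j, ∃ φ : F, ∀ (P : Place ℂ F) (c : ℂ), P.ord (u - algebraMap ℂ F c) = 1 →
      0 ≤ P.ord φ ∧ lam j (pp P (u - algebraMap ℂ F c)⁻¹) = ev P φ :=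
    fun j => hW ℂ F x hx (lam j) u hu
  choose φ hφ using hφ
  have han : AnalyticAt ℂ (fun s j => ev (Q s) (φ j)) s₀ := by
    refine AnalyticAt.pi (f := fun j s => ev (Q s) (φ j)) fun j => ?_
    exact (hQ.analytic (φ j) s₀ hs₀ (hφ j (Q s₀) s₀ (hQ.unif s₀ hs₀)).1).2
  refine han.congr ?_
  filter_upwards [Metric.isOpen_ball.mem_nhds hs₀] with s hs
  funext j
  exact ((hφ j (Q s) s (hQ.unif s hs)).2).symm

/-- M5e + M5f of the Spec. -/
theorem stmt_IntChartExists_of_weilCoeff (hW : Stmt_WeilCoeff.{0, 0}) : Stmt_IntChartExists :=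
  stmt_IntChartExists_of (stmt_ChartCoefAnalytic_of hW)

end Fermat.Agent.S27.helper1644
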