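import Fermat.Agent.S27.helper3351_TabAlg

/-!
# S27, algebraic route, leaf W0-1: the abstract Weierstrass basis (helper1658)

A commutative `K`-algebra `B` with a "pole order at one rational place" `N : B → WithBot ℕ`
(multiplicative, ultrametric, trivial on `K^×`, residue field `K`) containing an element `x0`
with `N x0 = m > 0` such that every residue class modulo `m` contains a value of `N`, is the
algebra of a table: there are a type `τ = (m; ρ)`, a table `T : Tab τ K` with `T.PreValid` and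
a `K`-algebra isomorphism `e : T.Alg ≃ₐ[K] B` with `e x = x0` and `N (e a) = wt a`.

Main results: `exists_table` and the interface `Stmt_W0Basis` with its proof `stmt_W0Basis`.
-/

set_option autoImplicit false

noncomputable section

open Polynomial

namespace Fermat.Agent.S27.helper1658

open Fermat.Agent.S27.helper3351

universe u v

/-- **W0-1** (abstract Weierstrass basis): a filtered algebra is a table algebra. -/
def Stmt_W0Basis : Prop :=
  ∀ (K : Type u) (B : Type v) [Field K] [CommRing B] [Algebra K B]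
    (N : B → WithBot ℕ) (x0 : B) (m : ℕ),
    (∀ b : B, N b = ⊥ ↔ b = 0) →
    (∀ a b : B, N (a * b) = N a + N b) →
    (∀ a b : B, N (a + b) ≤ max (N a) (N b)) →
    (∀ c : K, c ≠ 0 → N (algebraMap K B c) = 0) →
    (∀ a b : B, a ≠ 0 → N a = N b → ∃ c : K, N (a - c • b) < N a) →
    0 < m → N x0 = (m : WithBot ℕ) →
    (∀ i : ℕ, i < m → ∃ (b : B) (t : ℕ), N b = (t : WithBot ℕ) ∧ t % m = i) →
    ∃ (τ : WType) (T : Tab τ K) (hT : T.PreValid), τ.m = m ∧
      haveI : Fact T.PreValid := ⟨hT⟩
      ∃ e : T.Alg ≃ₐ[K] B, e (Tab.Alg.x T) = x0 ∧ ∀ a : T.Alg, N (e a) = T.wt a.toElt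

/-! ### Weights -/

/-- The hypotheses of `Stmt_W0Basis` on the weight `N`, bundled. -/
structure IsWeight (K : Type u) {B : Type v} [Field K] [CommRing B] [Algebra K B]
    (N : B → WithBot ℕ) (x0 : B) (m : ℕ) : Prop where
  bot_iff : ∀ b : B, N b = ⊥ ↔ b = 0
  map_mul : ∀ a b : B, N (a * b) = N a + N b
  map_add : ∀ a b : B, N (a + b) ≤ max (N a) (N b)
  map_const : ∀ c : K, c ≠ 0 → N (algebraMap K B c) = 0
  res : ∀ a b : B, a ≠ 0 → N a = N b → ∃ c : K, N (a - c • b) < N a
  pos : 0 < m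
  map_x0 : N x0 = (m : WithBot ℕ)
  cls : ∀ i : ℕ, i < m → ∃ (b : B) (t : ℕ), N b = (t : WithBot ℕ) ∧ t % m = i

namespace IsWeight

variable {K : Type u} {B : Type v} [Field K] [CommRing B] [Algebra K B]
  {N : B → WithBot ℕ} {x0 : B} {m : ℕ}

theorem map_zero (h : IsWeight K N x0 m) : N 0 = ⊥ := (h.bot_iff 0).2 rfl

theorem map_one (h : IsWeight K N x0 m) : N 1 = 0 := by
  have := h.map_const 1 one_ne_zero
  rwa [_root_.map_one] at this

theorem map_smul (h : IsWeight K N x0 m) (c : K) (hc : c ≠ 0) (a : B) : N (c • a) = N a := by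
  rw [Algebra.smul_def, h.map_mul, h.map_const c hc, zero_add]

theorem map_neg (h : IsWeight K N x0 m) (a : B) : N (-a) = N a := by
  have h1 : -a = (-1 : K) • a := by simp
  rw [h1, h.map_smul _ (neg_ne_zero.2 one_ne_zero)]

theorem map_sub (h : IsWeight K N x0 m) (a b : B) : N (a - b) ≤ max (N a) (N b) := by
  rw [sub_eq_add_neg]
  have := h.map_add a (-b)
  rwa [h.map_neg] at this

theorem map_x0_pow (h : IsWeight K N x0 m) (e : ℕ) :
    N (x0 ^ e) = ((e * m : ℕ) : WithBot ℕ) := by
  induction e with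
  | zero => simp [h.map_one]
  | succ e ih =>
    rw [pow_succ, h.map_mul, ih, h.map_x0, ← Nat.cast_add]
    congr 1
    ring

theorem map_add_of_lt (h : IsWeight K N x0 m) {a b : B} (hab : N a < N b) :
    N (a + b) = N b := by
  apply le_antisymm
  · exact (h.map_add a b).trans (max_le hab.le le_rfl)
  · have h1 : N b ≤ max (N (a + b)) (N a) := by
      have := h.map_sub (a + b) a
      simpa using this
    rcases le_max_iff.1 h1 with h2 | h2
    · exact h2
    · exact absurd h2 (not_le.2 hab)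

theorem map_sum_eq (h : IsWeight K N x0 m) {ι : Type*} (s : Finset ι) (f : ι → B)
    (hf : ∀ i ∈ s, ∀ j ∈ s, i ≠ j → f i ≠ 0 → N (f i) ≠ N (f j)) :
    N (∑ i ∈ s, f i) = s.sup fun i => N (f i) := by
  classical
  induction s using Finset.induction_on with
  | empty => simp [h.map_zero]
  | insert a s ha ih =>
    have ih' := ih fun i hi j hj =>
      hf i (Finset.mem_insert_of_mem hi) j (Finset.mem_insert_of_mem hj)
    rw [Finset.sum_insert ha, Finset.sup_insert]
    by_cases h0 : f a = 0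
    · rw [h0, zero_add, h.map_zero, bot_sup_eq, ih']
    · have hne : N (f a) ≠ N (∑ i ∈ s, f i) := by
        rw [ih']
        intro heq
        rcases s.eq_empty_or_nonempty with hs | hs
        · subst hs
          rw [Finset.sup_empty] at heq
          exact h0 ((h.bot_iff _).1 heq)
        · obtain ⟨j, hj, hj'⟩ := Finset.exists_mem_eq_sup s hs (fun i => N (f i))
          exact hf a (Finset.mem_insert_self a s) j (Finset.mem_insert_of_mem hj)
            (by rintro rfl; exact ha hj) h0 (heq.trans hj')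
      rcases lt_or_gt_of_ne hne with hlt | hgt
      · rw [h.map_add_of_lt hlt, ← ih', sup_eq_right.2 hlt.le]
      · rw [add_comm, h.map_add_of_lt hgt, ← ih', sup_eq_left.2 hgt.le]

theorem map_term (h : IsWeight K N x0 m) (c : K) (hc : c ≠ 0) (e : ℕ) :
    N (c • x0 ^ e) = ((e * m : ℕ) : WithBot ℕ) := by
  rw [h.map_smul c hc, h.map_x0_pow]

/-- The weight of a polynomial in `x0`. -/
theorem map_aeval (h : IsWeight K N x0 m) (p : K[X]) (hp : p ≠ 0) :
    N (aeval x0 p) = ((m * p.natDegree : ℕ) : WithBot ℕ) := by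
  rw [aeval_eq_sum_range, h.map_sum_eq]
  · apply le_antisymm
    · refine Finset.sup_le fun e he => ?_
      by_cases hc : p.coeff e = 0
      · rw [hc, zero_smul, h.map_zero]
        exact bot_le
      · rw [h.map_term _ hc, Nat.cast_le, mul_comm]
        exact Nat.mul_le_mul_left _ (Nat.lt_succ_iff.1 (Finset.mem_range.1 he))
    · have hl : p.coeff p.natDegree ≠ 0 := by
        rw [coeff_natDegree]
        exact leadingCoeff_ne_zero.2 hp
      have := Finset.le_sup (f := fun e => N (p.coeff e • x0 ^ e))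
        (Finset.self_mem_range_succ p.natDegree)
      rw [h.map_term _ hl, mul_comm] at this
      exact this
  · intro i _ j _ hij hi heq
    have hci : p.coeff i ≠ 0 := by
      intro hc
      exact hi (by rw [hc, zero_smul])
    have hcj : p.coeff j ≠ 0 := by
      intro hc
      rw [hc, zero_smul, h.map_zero, h.map_term _ hci] at heq
      exact WithBot.natCast_ne_bot _ heq
    rw [h.map_term _ hci, h.map_term _ hcj, Nat.cast_inj] at heq
    exact hij (Nat.eq_of_mul_eq_mul_right h.pos heq)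

theorem eq_bot_or_natCast (x : WithBot ℕ) : x = ⊥ ∨ ∃ t : ℕ, x = (t : WithBot ℕ) := by
  cases x with
  | bot => exact Or.inl rfl
  | coe t => exact Or.inr ⟨t, rfl⟩

end IsWeight

/-! ### The basis and the map `phi` -/

/-- The map `a ↦ ∑ a_i(x0) w_i`. -/
def phi {K : Type u} {B : Type v} [Field K] [CommRing B] [Algebra K B] (x0 : B) {τ : WType}
    (w : Fin τ.m → B) (a : Elt τ K) : B :=
  ∑ i, aeval x0 (a i) * w i

section phi

variable {K : Type u} {B : Type v} [Field K] [CommRing B] [Algebra K B] (x0 : B) {τ : WType}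
  (w : Fin τ.m → B)

theorem phi_zero : phi x0 w (0 : Elt τ K) = 0 := by
  simp [phi]

theorem phi_add (a b : Elt τ K) : phi x0 w (a + b) = phi x0 w a + phi x0 w b := by
  simp [phi, add_mul, Finset.sum_add_distrib]

theorem phi_sub (a b : Elt τ K) : phi x0 w (a - b) = phi x0 w a - phi x0 w b := by
  simp [phi, sub_mul, Finset.sum_sub_distrib]

theorem phi_smul (r : K[X]) (a : Elt τ K) : phi x0 w (r • a) = aeval x0 r * phi x0 w a := by
  simp [phi, Finset.mul_sum, mul_assoc]

theorem phi_single (i : Fin τ.m) (p : K[X]) :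
    phi x0 w (Pi.single i p : Elt τ K) = aeval x0 p * w i := by
  unfold phi
  rw [Finset.sum_eq_single i]
  · simp
  · intro j _ hj
    simp [Pi.single_eq_of_ne hj]
  · intro h
    exact absurd (Finset.mem_univ i) h

end phi

/-- A Weierstrass basis `w` of a weighted algebra, of type `τ`. -/
structure IsWBasis (K : Type u) {B : Type v} [Field K] [CommRing B] [Algebra K B]
    (N : B → WithBot ℕ) (x0 : B) (τ : WType) (w : Fin τ.m → B) : Prop where
  wt : IsWeight K N x0 τ.m
  map_w : ∀ i, N (w i) = (τ.ρ i : WithBot ℕ)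
  mod : ∀ i : Fin τ.m, τ.ρ i % τ.m = (i : ℕ)
  min : ∀ (i : Fin τ.m) (b : B) (t : ℕ), N b = (t : WithBot ℕ) → t % τ.m = (i : ℕ) → τ.ρ i ≤ t
  w_zero : ∀ i : Fin τ.m, (i : ℕ) = 0 → w i = 1

theorem IsWeight.exists_basis {K : Type u} {B : Type v} [Field K] [CommRing B] [Algebra K B]
    {N : B → WithBot ℕ} {x0 : B} {m : ℕ} (h : IsWeight K N x0 m) :
    ∃ (τ : WType) (w : Fin τ.m → B), τ.m = m ∧ IsWBasis K N x0 τ w := by
  classical
  let S : Fin m → Set ℕ := fun i => {t | ∃ b : B, N b = (t : WithBot ℕ) ∧ t % m = (i : ℕ)}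
  have hS : ∀ i, (S i).Nonempty := fun i => by
    obtain ⟨b, t, hb, ht⟩ := h.cls i i.2
    exact ⟨t, b, hb, ht⟩
  let ρ : Fin m → ℕ := fun i => sInf (S i)
  have hρ : ∀ i, ρ i ∈ S i := fun i => Nat.sInf_mem (hS i)
  have hρ0 : ∀ i : Fin m, (i : ℕ) = 0 → ρ i = 0 := by
    intro i hi
    have h0 : 0 ∈ S i := ⟨1, by simpa using h.map_one, by simp [hi]⟩
    exact Nat.le_zero.1 (Nat.sInf_le h0)
  have hw : ∀ i : Fin m, ∃ b : B, N b = (ρ i : WithBot ℕ) ∧ ((i : ℕ) = 0 → b = 1) := by
    intro i
    by_cases hi : (i : ℕ) = 0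
    · exact ⟨1, by rw [hρ0 i hi]; simpa using h.map_one, fun _ => rfl⟩
    · obtain ⟨b, hb, _⟩ := hρ i
      exact ⟨b, hb, fun h0 => absurd h0 hi⟩
  choose w hw1 hw2 using hw
  refine ⟨⟨m, ρ⟩, w, rfl, ?_⟩
  exact
    { wt := h
      map_w := hw1
      mod := fun i => by
        obtain ⟨_, _, h2⟩ := hρ i
        exact h2
      min := fun i b t hb ht => Nat.sInf_le ⟨b, hb, ht⟩
      w_zero := hw2 }

/-- A tuple of weight `⊥` is zero. -/
theorem wt_eq_bot {K : Type u} [Field K] {τ : WType} (T : Tab τ K) (a : Elt τ K)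
    (h : T.wt a = ⊥) : a = 0 := by
  unfold Tab.wt at h
  funext i
  have h1 := (Finset.sup_eq_bot_iff _ _).1 h i (Finset.mem_univ i)
  show a i = 0
  by_contra h0
  rw [if_neg h0] at h1
  exact WithBot.natCast_ne_bot _ h1

namespace IsWBasis

variable {K : Type u} {B : Type v} [Field K] [CommRing B] [Algebra K B]
  {N : B → WithBot ℕ} {x0 : B} {τ : WType} {w : Fin τ.m → B}

theorem map_term (hb : IsWBasis K N x0 τ w) (i : Fin τ.m) (p : K[X]) (hp : p ≠ 0) :
    N (aeval x0 p * w i) = ((τ.m * p.natDegree + τ.ρ i : ℕ) : WithBot ℕ) := by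
  rw [hb.wt.map_mul, hb.wt.map_aeval p hp, hb.map_w, Nat.cast_add]

/-- The weight formula: `N (∑ a_i(x0) w_i) = max_i (m deg a_i + ρ_i)`. -/
theorem map_phi (hb : IsWBasis K N x0 τ w) (T : Tab τ K) (a : Elt τ K) :
    N (phi x0 w a) = T.wt a := by
  unfold phi Tab.wt
  rw [hb.wt.map_sum_eq]
  · refine Finset.sup_congr rfl fun i _ => ?_
    by_cases h0 : a i = 0
    · rw [if_pos h0, h0, _root_.map_zero, zero_mul, hb.wt.map_zero]
    · rw [if_neg h0, hb.map_term i (a i) h0]
  · intro i _ j _ hij hi heq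
    have hai : a i ≠ 0 := by
      intro h0
      exact hi (by rw [h0, _root_.map_zero, zero_mul])
    have haj : a j ≠ 0 := by
      intro h0
      rw [h0, _root_.map_zero, zero_mul, hb.wt.map_zero, hb.map_term i _ hai] at heq
      exact WithBot.natCast_ne_bot _ heq
    rw [hb.map_term i _ hai, hb.map_term j _ haj, Nat.cast_inj] at heq
    apply hij
    apply Fin.ext
    have h1 := congrArg (· % τ.m) heq
    simp only [Nat.mul_add_mod] at h1
    rw [hb.mod i, hb.mod j] at h1
    exact h1

theorem phi_injective (hb : IsWBasis K N x0 τ w) :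
    Function.Injective (phi (K := K) x0 w) := by
  intro a b hab
  have h1 : phi x0 w (a - b) = 0 := by rw [phi_sub, hab, sub_self]
  have h2 : (0 : Tab τ K).wt (a - b) = ⊥ := by
    rw [← hb.map_phi, h1, hb.wt.map_zero]
  exact sub_eq_zero.1 (wt_eq_bot _ _ h2)

theorem phi_surjective (hb : IsWBasis K N x0 τ w) :
    Function.Surjective (phi (K := K) x0 w) := by
  have key : ∀ n : ℕ, ∀ b : B, N b < (n : WithBot ℕ) → ∃ a : Elt τ K, phi x0 w a = b := by
    intro n
    induction n with
    | zero =>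
      intro b hlt
      rcases IsWeight.eq_bot_or_natCast (N b) with hN | ⟨t, hN⟩
      · exact ⟨0, by rw [phi_zero, (hb.wt.bot_iff b).1 hN]⟩
      · rw [hN] at hlt
        exact absurd (Nat.cast_lt.1 hlt) (Nat.not_lt_zero t)
    | succ n ih =>
      intro b hlt
      rcases IsWeight.eq_bot_or_natCast (N b) with hN | ⟨t, hN⟩
      · exact ⟨0, by rw [phi_zero, (hb.wt.bot_iff b).1 hN]⟩
      · rw [hN] at hlt
        have htn : t < n + 1 := Nat.cast_lt.1 hlt
        let i : Fin τ.m := ⟨t % τ.m, Nat.mod_lt _ hb.wt.pos⟩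
        have hρ : τ.ρ i ≤ t := hb.min i b t hN rfl
        have hmod : (t - τ.ρ i) % τ.m = 0 :=
          Nat.sub_mod_eq_zero_of_mod_eq (by rw [hb.mod i])
        have he : (t - τ.ρ i) / τ.m * τ.m + τ.ρ i = t := by
          have := Nat.div_mul_cancel (Nat.dvd_of_mod_eq_zero hmod)
          omega
        have hb' : N (x0 ^ ((t - τ.ρ i) / τ.m) * w i) = (t : WithBot ℕ) := by
          rw [hb.wt.map_mul, hb.wt.map_x0_pow, hb.map_w, ← Nat.cast_add, he]
        have hb0 : b ≠ 0 := by
          intro h0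
          rw [h0, hb.wt.map_zero] at hN
          exact WithBot.natCast_ne_bot _ hN.symm
        obtain ⟨c, hc⟩ := hb.wt.res b _ hb0 (hN.trans hb'.symm)
        rw [hN] at hc
        obtain ⟨a', ha'⟩ := ih (b - c • (x0 ^ ((t - τ.ρ i) / τ.m) * w i))
          (lt_of_lt_of_le hc (Nat.cast_le.2 (Nat.lt_succ_iff.1 htn)))
        refine ⟨a' + Pi.single i (C c * X ^ ((t - τ.ρ i) / τ.m)), ?_⟩
        rw [phi_add, ha', phi_single, _root_.map_mul, aeval_C, _root_.map_pow, aeval_X,
          Algebra.smul_def]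
        ring
  intro b
  rcases IsWeight.eq_bot_or_natCast (N b) with hN | ⟨t, hN⟩
  · exact ⟨0, by rw [phi_zero, (hb.wt.bot_iff b).1 hN]⟩
  · exact key (t + 1) b (by rw [hN]; exact Nat.cast_lt.2 (Nat.lt_succ_self t))

/-- The weight as a supremum of weights of the terms. -/
theorem map_phi' (hb : IsWBasis K N x0 τ w) (a : Elt τ K) :
    N (phi x0 w a) = Finset.univ.sup fun i => N (aeval x0 (a i) * w i) := by
  have h1 := hb.map_phi (0 : Tab τ K) a
  rw [h1]
  unfold Tab.wt
  refine Finset.sup_congr rfl fun i _ => ?_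
  by_cases h0 : a i = 0
  · rw [if_pos h0, h0, _root_.map_zero, zero_mul, hb.wt.map_zero]
  · rw [if_neg h0, hb.map_term i (a i) h0]

theorem exists_term_eq (hb : IsWBasis K N x0 τ w) (a : Elt τ K) (t : ℕ)
    (ht : N (phi x0 w a) = (t : WithBot ℕ)) :
    ∃ k, a k ≠ 0 ∧ τ.m * (a k).natDegree + τ.ρ k = t := by
  rw [hb.map_phi'] at ht
  have : Nonempty (Fin τ.m) := ⟨⟨0, hb.wt.pos⟩⟩
  obtain ⟨k, -, hk⟩ := Finset.exists_mem_eq_sup (Finset.univ : Finset (Fin τ.m))
    Finset.univ_nonempty (fun i => N (aeval x0 (a i) * w i))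
  rw [ht] at hk
  have hak : a k ≠ 0 := by
    intro h0
    simp only [h0, _root_.map_zero, zero_mul, hb.wt.map_zero] at hk
    exact WithBot.natCast_ne_bot _ hk
  simp only [hb.map_term k _ hak, Nat.cast_inj] at hk
  exact ⟨k, hak, hk.symm⟩

theorem term_le (hb : IsWBasis K N x0 τ w) (a : Elt τ K) (t : ℕ)
    (ht : N (phi x0 w a) = (t : WithBot ℕ)) (k : Fin τ.m) (hk : a k ≠ 0) :
    τ.m * (a k).natDegree + τ.ρ k ≤ t := by
  rw [hb.map_phi'] at ht
  have h1 := Finset.le_sup (f := fun i => N (aeval x0 (a i) * w i)) (Finset.mem_univ k)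
  simp only [ht, hb.map_term k _ hk, Nat.cast_le] at h1
  exact h1

end IsWBasis

/-! ### The table -/

theorem polyOf_coeff {K : Type u} [Field K] (p : K[X]) (d : ℕ) (hp : p.natDegree ≤ d) :
    polyOf (fun e : Fin (d + 1) => p.coeff e) = p := by
  unfold polyOf
  rw [Fin.sum_univ_eq_sum_range (fun e => C (p.coeff e) * X ^ e) (d + 1)]
  exact (as_sum_range_C_mul_X_pow' p (Nat.lt_succ_of_le hp)).symm

theorem IsWBasis.exists_table {K : Type u} {B : Type v} [Field K] [CommRing B] [Algebra K B]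
    {N : B → WithBot ℕ} {x0 : B} {τ : WType} {w : Fin τ.m → B} (hb : IsWBasis K N x0 τ w) :
    ∃ (T : Tab τ K) (hT : T.PreValid),
      haveI : Fact T.PreValid := ⟨hT⟩
      ∃ e : T.Alg ≃ₐ[K] B, e (Tab.Alg.x T) = x0 ∧ ∀ a : T.Alg, N (e a) = T.wt a.toElt := by
  have hsurj := hb.phi_surjective
  choose cc hcc using fun i j : Fin τ.m => hsurj (w i * w j)
  let T : Tab τ K := fun i j k e => (cc i j k).coeff e
  have hNcc : ∀ i j, N (phi x0 w (cc i j)) = ((τ.ρ i + τ.ρ j : ℕ) : WithBot ℕ) := by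
    intro i j
    rw [hcc, hb.wt.map_mul, hb.map_w, hb.map_w, Nat.cast_add]
  have hwt : ∀ i j k, cc i j k ≠ 0 →
      τ.m * (cc i j k).natDegree + τ.ρ k ≤ τ.ρ i + τ.ρ j :=
    fun i j k hk => hb.term_le (cc i j) _ (hNcc i j) k hk
  have hdeg : ∀ i j k, (cc i j k).natDegree ≤ τ.D := by
    intro i j k
    by_cases hk : cc i j k = 0
    · rw [hk]
      simp
    · have h1 := hwt i j k hk
      have h2 : (cc i j k).natDegree ≤ τ.m * (cc i j k).natDegree :=
        Nat.le_mul_of_pos_left _ hb.wt.pos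
      have h3 : τ.ρ i ≤ ∑ l, τ.ρ l :=
        Finset.single_le_sum (fun _ _ => Nat.zero_le _) (Finset.mem_univ i)
      have h4 : τ.ρ j ≤ ∑ l, τ.ρ l :=
        Finset.single_le_sum (fun _ _ => Nat.zero_le _) (Finset.mem_univ j)
      unfold WType.D
      omega
  have hc : ∀ i j k, T.c i j k = cc i j k := fun i j k => polyOf_coeff _ _ (hdeg i j k)
  have h1 : ∀ i j, ∑ k, aeval x0 (T.c i j k) * w k = w i * w j := by
    intro i j
    have h2 := hcc i j
    unfold phi at h2
    simp only [hc]
    exact h2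
  have hmul : ∀ a b : Elt τ K, phi x0 w (T.mul a b) = phi x0 w a * phi x0 w b := by
    intro a b
    calc phi x0 w (T.mul a b)
        = ∑ k, ∑ i, ∑ j, aeval x0 (a i) * aeval x0 (b j) * (aeval x0 (T.c i j k) * w k) := by
          unfold phi
          refine Finset.sum_congr rfl fun k _ => ?_
          rw [Tab.mul_apply, map_sum, Finset.sum_mul]
          refine Finset.sum_congr rfl fun i _ => ?_
          rw [map_sum, Finset.sum_mul]
          refine Finset.sum_congr rfl fun j _ => ?_
          rw [_root_.map_mul, _root_.map_mul]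
          ring
      _ = ∑ i, ∑ j, aeval x0 (a i) * aeval x0 (b j) * (w i * w j) := by
          rw [Finset.sum_comm]
          refine Finset.sum_congr rfl fun i _ => ?_
          rw [Finset.sum_comm]
          refine Finset.sum_congr rfl fun j _ => ?_
          rw [← Finset.mul_sum, h1]
      _ = phi x0 w a * phi x0 w b := by
          unfold phi
          rw [Finset.sum_mul_sum]
          refine Finset.sum_congr rfl fun i _ => Finset.sum_congr rfl fun j _ => ?_
          ring
  have hone : phi x0 w (Elt.one : Elt τ K) = 1 := by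
    unfold phi Elt.one
    rw [Finset.sum_eq_single (⟨0, hb.wt.pos⟩ : Fin τ.m)]
    · simp [hb.w_zero ⟨0, hb.wt.pos⟩ rfl]
    · intro j _ hj
      have hj' : (j : ℕ) ≠ 0 := fun h => hj (Fin.ext h)
      simp [hj']
    · intro h
      exact absurd (Finset.mem_univ _) h
  have hT : T.PreValid :=
    { good := ⟨hb.wt.pos, fun i => ⟨hb.mod i, fun hi => by
        have h2 := hb.map_w i
        rw [hb.w_zero i hi, hb.wt.map_one] at h2
        exact_mod_cast h2.symm⟩⟩
      one_mul := fun j => hb.phi_injective (by rw [hmul, hone, one_mul])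
      comm := fun i j k => by
        rw [hc, hc]
        have h2 : cc i j = cc j i := hb.phi_injective (by rw [hcc, hcc, mul_comm])
        rw [h2]
      assoc := fun i j k => hb.phi_injective (by rw [hmul, hmul, hmul, hmul, mul_assoc])
      wt := fun i j k hk => by
        rw [hc] at hk ⊢
        exact hwt i j k hk
      lead := fun i j k hijk => by
        obtain ⟨k', hk'0, hk'⟩ := hb.exists_term_eq (cc i j) _ (hNcc i j)
        have h2 : k' = k := by
          apply Fin.ext
          have h3 := congrArg (· % τ.m) hk'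
          simp only [Nat.mul_add_mod] at h3
          rw [hb.mod k', Nat.add_mod, hb.mod i, hb.mod j] at h3
          rw [h3]
          exact hijk
        subst h2
        rw [hc]
        exact ⟨hk'0, hk'⟩ }
  refine ⟨T, hT, ?_⟩
  have : Fact T.PreValid := ⟨hT⟩
  let f : T.Alg →ₐ[K] B :=
    { toFun := fun a => phi x0 w a.toElt
      map_one' := hone
      map_mul' := fun a b => hmul a.toElt b.toElt
      map_zero' := phi_zero x0 w
      map_add' := fun a b => phi_add x0 w a.toElt b.toElt
      commutes' := fun c => by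
        show phi x0 w ((algebraMap K T.Alg c).toElt) = algebraMap K B c
        have h2 : (algebraMap K T.Alg c).toElt = (C c : K[X]) • (Elt.one : Elt τ K) := rfl
        rw [h2, phi_smul, hone, mul_one, aeval_C] }
  have hf : Function.Bijective f :=
    ⟨fun a b hab => hb.phi_injective hab, fun b => hb.phi_surjective b⟩
  refine ⟨AlgEquiv.ofBijective f hf, ?_, ?_⟩
  · show phi x0 w (Tab.Alg.x T).toElt = x0
    have h2 : (Tab.Alg.x T).toElt = (X : K[X]) • (Elt.one : Elt τ K) := rfl
    rw [h2, phi_smul, hone, mul_one, aeval_X]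
  · intro a
    exact hb.map_phi T a.toElt

/-- The abstract Weierstrass basis theorem. -/
theorem exists_table {K : Type u} {B : Type v} [Field K] [CommRing B] [Algebra K B]
    {N : B → WithBot ℕ} {x0 : B} {m : ℕ} (h : IsWeight K N x0 m) :
    ∃ (τ : WType) (T : Tab τ K) (hT : T.PreValid), τ.m = m ∧
      haveI : Fact T.PreValid := ⟨hT⟩
      ∃ e : T.Alg ≃ₐ[K] B, e (Tab.Alg.x T) = x0 ∧ ∀ a : T.Alg, N (e a) = T.wt a.toElt := by
  obtain ⟨τ, w, hτ, hb⟩ := h.exists_basis
  obtain ⟨T, hT, he⟩ := hb.exists_table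
  exact ⟨τ, T, hT, hτ, he⟩

/-- **W0-1** is proved. -/
theorem stmt_W0Basis : Stmt_W0Basis.{u, v} := by
  intro K B _ _ _ N x0 m h1 h2 h3 h4 h5 h6 h7 h8
  exact exists_table ⟨h1, h2, h3, h4, h5, h6, h7, h8⟩

end Fermat.Agent.S27.helper1658

end
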