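import Mathlib
import Fermat.Prelude.Def_AlgebraicCurve_Repartitions

/-!
# S27, CORE B (route LA): value calculus, kernel semicontinuity and the twin lemma INJ

Hypothesis-passing, Prelude vocabulary only (`Place`, `ord`, `Divisor`, `riemannRochSpace`).

* `OrdGE v f n`      : `f = 0 ∨ n ≤ v.ord f`
* `HasValue v f c`   : `f` is regular at `v` with value `c`
* `eventually_finrank_ker_le` : upper semicontinuity of the kernel dimension of a
  pointwise-continuous family of linear maps out of a finite-dimensional space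
* `coreB_inj`        : local injectivity of `q ↦ [∑ k, pl (main k) (q k)]` at a base divisor
  `C0 = ∑ k, pl (main k) 0` with `L(C0) = constants`.
-/

set_option autoImplicit false

open AlgebraicCurve

namespace Fermat.Agent.S27.helper1718

noncomputable section

/-! ## Order calculus -/

section OrdCalculus

variable {K F : Type*} [Field K] [Field F] [Algebra K F]

/-- `f` vanishes to order at least `n` at `v` (`f = 0` allowed). -/
def OrdGE (v : Place K F) (f : F) (n : ℤ) : Prop := f = 0 ∨ n ≤ v.ord f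

theorem ordGE_iff_val (v : Place K F) (f : F) (n : ℤ) :
    OrdGE v f n ↔ v.adicValuation f ≤ WithZero.exp (-n) := by
  rw [v.adicValuation_le_exp_iff, neg_neg]; rfl

theorem ordGE_zero_left (v : Place K F) (n : ℤ) : OrdGE v (0 : F) n := Or.inl rfl

theorem OrdGE.mono {v : Place K F} {f : F} {n m : ℤ} (h : OrdGE v f n) (hm : m ≤ n) :
    OrdGE v f m := h.imp id fun h => hm.trans h

theorem OrdGE.le_ord {v : Place K F} {f : F} {n : ℤ} (h : OrdGE v f n) (hf : f ≠ 0) :
    n ≤ v.ord f := h.resolve_left hf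

theorem ordGE_of_le_ord {v : Place K F} {f : F} {n : ℤ} (h : n ≤ v.ord f) : OrdGE v f n :=
  Or.inr h

theorem OrdGE.add {v : Place K F} {f g : F} {n : ℤ} (hf : OrdGE v f n) (hg : OrdGE v g n) :
    OrdGE v (f + g) n := by
  rw [ordGE_iff_val] at *
  exact (Valuation.map_add _ _ _).trans (max_le hf hg)

theorem OrdGE.neg {v : Place K F} {f : F} {n : ℤ} (hf : OrdGE v f n) : OrdGE v (-f) n := by
  rw [ordGE_iff_val] at *
  rwa [Valuation.map_neg]

theorem OrdGE.sub {v : Place K F} {f g : F} {n : ℤ} (hf : OrdGE v f n) (hg : OrdGE v g n) :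
    OrdGE v (f - g) n := by
  rw [sub_eq_add_neg]; exact hf.add hg.neg

theorem OrdGE.mul {v : Place K F} {f g : F} {n m : ℤ} (hf : OrdGE v f n) (hg : OrdGE v g m) :
    OrdGE v (f * g) (n + m) := by
  rcases eq_or_ne f 0 with rfl | hf0
  · simp [OrdGE]
  rcases eq_or_ne g 0 with rfl | hg0
  · simp [OrdGE]
  refine Or.inr ?_
  rw [v.ord_mul hf0 hg0]
  exact add_le_add (hf.le_ord hf0) (hg.le_ord hg0)

theorem ordGE_algebraMap (v : Place K F) (c : K) : OrdGE v (algebraMap K F c) 0 := by
  rw [ordGE_iff_val]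
  simpa using v.adicValuation_algebraMap_le_one c

theorem ord_algebraMap_eq_zero (v : Place K F) (c : K) : v.ord (algebraMap K F c) = 0 := by
  rcases eq_or_ne c 0 with rfl | hc
  · simp
  have h0 : algebraMap K F c ≠ 0 := by simpa using hc
  have h1 : 0 ≤ v.ord (algebraMap K F c) := (ordGE_algebraMap v c).le_ord h0
  have h2 : 0 ≤ v.ord (algebraMap K F c⁻¹) :=
    (ordGE_algebraMap v c⁻¹).le_ord (by simpa using hc)
  rw [map_inv₀, v.ord_inv] at h2
  omega

theorem OrdGE.smul {v : Place K F} {f : F} {n : ℤ} (c : K) (hf : OrdGE v f n) :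
    OrdGE v (c • f) n := by
  rw [Algebra.smul_def]
  simpa using (ordGE_algebraMap v c).mul hf

theorem OrdGE.sum {v : Place K F} {ι : Type*} (s : Finset ι) (f : ι → F) {n : ℤ}
    (h : ∀ i ∈ s, OrdGE v (f i) n) : OrdGE v (∑ i ∈ s, f i) n := by
  classical
  induction s using Finset.induction_on with
  | empty => simp [OrdGE]
  | insert a s ha ih =>
    rw [Finset.sum_insert ha]
    exact (h a (Finset.mem_insert_self a s)).add
      (ih fun i hi => h i (Finset.mem_insert_of_mem hi))

theorem ord_eq_zero_of_ordGE_of_inv {v : Place K F} {f : F} (h1 : OrdGE v f 0)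
    (h2 : OrdGE v f⁻¹ 0) : v.ord f = 0 := by
  rcases eq_or_ne f 0 with rfl | hf
  · simp
  have a1 := h1.le_ord hf
  have a2 := h2.le_ord (inv_ne_zero hf)
  rw [v.ord_inv] at a2
  omega

/-- `f` is regular at `v` with value `c`. -/
def HasValue (v : Place K F) (f : F) (c : K) : Prop := OrdGE v (f - algebraMap K F c) 1

theorem hasValue_iff (v : Place K F) (f : F) (c : K) :
    HasValue v f c ↔ (f = algebraMap K F c ∨ 0 < v.ord (f - algebraMap K F c)) := by
  unfold HasValue OrdGE
  rw [sub_eq_zero]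
  constructor <;> rintro (h | h)
  · exact Or.inl h
  · exact Or.inr (by omega)
  · exact Or.inl h
  · exact Or.inr (by omega)

theorem hasValue_zero_iff (v : Place K F) (f : F) : HasValue v f 0 ↔ OrdGE v f 1 := by
  unfold HasValue; rw [map_zero, sub_zero]

theorem hasValue_algebraMap (v : Place K F) (c : K) : HasValue v (algebraMap K F c) c := by
  unfold HasValue; rw [sub_self]; exact ordGE_zero_left v 1

theorem HasValue.add {v : Place K F} {f g : F} {c d : K} (hf : HasValue v f c)
    (hg : HasValue v g d) : HasValue v (f + g) (c + d) := by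
  unfold HasValue at *
  have : f + g - algebraMap K F (c + d) = (f - algebraMap K F c) + (g - algebraMap K F d) := by
    rw [map_add]; ring
  rw [this]; exact OrdGE.add hf hg

theorem HasValue.smul {v : Place K F} {f : F} {c : K} (a : K) (hf : HasValue v f c) :
    HasValue v (a • f) (a * c) := by
  unfold HasValue at *
  have : a • f - algebraMap K F (a * c) = a • (f - algebraMap K F c) := by
    rw [map_mul, smul_sub, Algebra.smul_def a (algebraMap K F c)]
  rw [this]; exact OrdGE.smul a hf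

theorem HasValue.ordGE {v : Place K F} {f : F} {c : K} (hf : HasValue v f c) : OrdGE v f 0 := by
  have : f = (f - algebraMap K F c) + algebraMap K F c := by ring
  rw [this]
  exact (OrdGE.mono hf (by norm_num)).add (ordGE_algebraMap v c)

theorem HasValue.unique {v : Place K F} {f : F} {c d : K} (hc : HasValue v f c)
    (hd : HasValue v f d) : c = d := by
  by_contra hne
  have h : OrdGE v (algebraMap K F (d - c)) 1 := by
    have : algebraMap K F (d - c) = (f - algebraMap K F c) - (f - algebraMap K F d) := by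
      rw [map_sub]; ring
    rw [this]; exact OrdGE.sub hc hd
  have h0 : algebraMap K F (d - c) ≠ 0 := by
    simpa [sub_eq_zero] using fun h : d = c => hne h.symm
  have := h.le_ord h0
  rw [ord_algebraMap_eq_zero] at this
  omega

theorem HasValue.sum {v : Place K F} {ι : Type*} (s : Finset ι) (x : ι → K) (b : ι → F)
    (c : ι → K) (h : ∀ i ∈ s, HasValue v (b i) (c i)) :
    HasValue v (∑ i ∈ s, x i • b i) (∑ i ∈ s, x i * c i) := by
  classical
  induction s using Finset.induction_on with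
  | empty => simpa using hasValue_algebraMap v (0 : K)
  | insert a s ha ih =>
    rw [Finset.sum_insert ha, Finset.sum_insert ha]
    exact ((h a (Finset.mem_insert_self a s)).smul (x a)).add
      (ih fun i hi => h i (Finset.mem_insert_of_mem hi))

theorem HasValue.mul {v : Place K F} {f g : F} {c d : K} (hf : HasValue v f c)
    (hg : HasValue v g d) : HasValue v (f * g) (c * d) := by
  unfold HasValue at *
  have : f * g - algebraMap K F (c * d)
      = (f - algebraMap K F c) * g + algebraMap K F c * (g - algebraMap K F d) := by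
    rw [map_mul]; ring
  rw [this]
  have hg0 : OrdGE v g 0 := HasValue.ordGE hg
  exact (by simpa using OrdGE.mul hf hg0 : OrdGE v ((f - algebraMap K F c) * g) 1).add
    (by simpa using OrdGE.mul (ordGE_algebraMap v c) hg)

theorem OrdGE.prod_zero {K F : Type*} [Field K] [Field F] [Algebra K F] {v : Place K F}
    {ι : Type*} (s : Finset ι) (f : ι → F) (h : ∀ i ∈ s, OrdGE v (f i) 0) :
    OrdGE v (∏ i ∈ s, f i) 0 := by
  classical
  induction s using Finset.induction_on with
  | empty => simpa using ordGE_algebraMap v (1 : K)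
  | insert a s ha ih =>
    rw [Finset.prod_insert ha]
    simpa using (h a (Finset.mem_insert_self a s)).mul
      (ih fun i hi => h i (Finset.mem_insert_of_mem hi))

end OrdCalculus

/-! ## Upper semicontinuity of the kernel dimension -/

section Semicont

open Filter Topology

/-- Upper semicontinuity of the kernel dimension for a pointwise continuous family of linear
maps out of a finite-dimensional space. -/
theorem eventually_finrank_ker_le {T : Type*} [TopologicalSpace T]
    {W E : Type*} [AddCommGroup W] [Module ℂ W] [FiniteDimensional ℂ W]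
    [NormedAddCommGroup E] [NormedSpace ℂ E]
    (A : T → W →ₗ[ℂ] E) (q0 : T) (hA : ∀ w, ContinuousAt (fun q => A q w) q0) :
    ∀ᶠ q in 𝓝 q0, Module.finrank ℂ (LinearMap.ker (A q))
      ≤ Module.finrank ℂ (LinearMap.ker (A q0)) := by
  obtain ⟨U, hU⟩ := Submodule.exists_isCompl (LinearMap.ker (A q0))
  let b := Module.finBasis ℂ U
  have hli : LinearIndependent ℂ (fun j => A q0 (b j : W)) := by
    have h1 : LinearIndependent ℂ (fun j => (b j : W)) :=
      b.linearIndependent.map' U.subtype (Submodule.ker_subtype U)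
    refine h1.map (f := A q0) ?_
    refine Disjoint.mono_left ?_ hU.disjoint.symm
    rw [Submodule.span_le]
    rintro _ ⟨j, rfl⟩
    exact (b j).2
  have hcont : ContinuousAt (fun q => fun j => A q (b j : W)) q0 :=
    continuousAt_pi.2 fun j => hA _
  have hev := hcont.eventually (LinearIndependent.eventually hli)
  filter_upwards [hev] with q hq
  have hdisj : Disjoint (LinearMap.ker (A q)) U := by
    rw [Submodule.disjoint_def]
    intro x hxk hxU
    have hx := b.sum_repr ⟨x, hxU⟩
    have hx' : x = ∑ j, (b.repr ⟨x, hxU⟩ j) • (b j : W) := by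
      have h3 : ((∑ j, (b.repr ⟨x, hxU⟩ j) • b j : U) : W) = x := congrArg (Subtype.val) hx
      rw [Submodule.coe_sum] at h3
      simp only [Submodule.coe_smul] at h3
      exact h3.symm
    have h0 : ∑ j, (b.repr ⟨x, hxU⟩ j) • A q (b j : W) = 0 := by
      have h2 : A q x = 0 := LinearMap.mem_ker.mp hxk
      rw [hx', map_sum] at h2
      simpa using h2
    have hc := Fintype.linearIndependent_iff.mp hq _ h0
    rw [hx']
    simp [hc]
  have h1 := Submodule.finrank_add_finrank_le_of_disjoint hdisj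
  have h2 := Submodule.finrank_add_eq_of_isCompl hU
  omega

end Semicont

/-! ## Base sheets -/

section Sheets

variable {F : Type*} [Field F] [Algebra ℂ F]
variable {ι S : Type*}

/-- Fibre-sheet data at finitely many base points `k : ι`: `t k` is a coordinate, the sheets
`pl s` (`s : S`, `base s = k`) parametrise the whole fibre `t k = z` for `‖z‖ < ρ` by places at
which `t k - z` is a uniformizer, distinct (sheet, parameter) pairs give distinct places, and
`main k` is a distinguished sheet over `k`. -/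
structure BaseSheets (base : S → ι) (main : ι → S) (t : ι → F) (pl : S → ℂ → Place ℂ F)
    (ρ : ℝ) : Prop where
  pos : 0 < ρ
  main_base : ∀ k, base (main k) = k
  unif : ∀ s, ∀ z : ℂ, ‖z‖ < ρ → (pl s z).ord (t (base s) - algebraMap ℂ F z) = 1
  fibre : ∀ k, ∀ z : ℂ, ‖z‖ < ρ → ∀ v : Place ℂ F, 0 < v.ord (t k - algebraMap ℂ F z) →
    ∃ s, base s = k ∧ v = pl s z
  sep : ∀ s s' (z z' : ℂ), ‖z‖ < ρ → ‖z'‖ < ρ → pl s z = pl s' z' → s = s' ∧ z = z'

/-- The normalising factor `(t k - q k) / t k`. -/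
def ufac (t : ι → F) (q : ι → ℂ) (k : ι) : F := (t k - algebraMap ℂ F (q k)) * (t k)⁻¹

namespace BaseSheets

variable {base : S → ι} {main : ι → S} {t : ι → F} {pl : S → ℂ → Place ℂ F} {ρ : ℝ}

theorem ord_t (h : BaseSheets base main t pl ρ) (s : S) : (pl s 0).ord (t (base s)) = 1 := by
  have := h.unif s 0 (by simpa using h.pos)
  simpa using this

theorem t_ne_zero (h : BaseSheets base main t pl ρ) (k : ι) : t k ≠ 0 := by
  intro h0
  have := h.ord_t (main k)
  rw [h.main_base, h0, Place.ord_zero] at this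
  exact zero_ne_one this

theorem sub_ne_zero (h : BaseSheets base main t pl ρ) (k : ι) {z : ℂ} (hz : ‖z‖ < ρ) :
    t k - algebraMap ℂ F z ≠ 0 := by
  intro h0
  have := h.unif (main k) z hz
  rw [h.main_base, h0, Place.ord_zero] at this
  exact zero_ne_one this

theorem ordGE_inv_t_of_not_fibre (h : BaseSheets base main t pl ρ) {v : Place ℂ F} {k : ι}
    (hv : ∀ s, base s = k → v ≠ pl s 0) : OrdGE v (t k)⁻¹ 0 := by
  refine Or.inr ?_
  rw [Place.ord_inv]
  by_contra hlt
  have hpos : 0 < v.ord (t k) := by omega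
  obtain ⟨s, hs, rfl⟩ := h.fibre k 0 (by simpa using h.pos) v (by simpa using hpos)
  exact hv s hs rfl

theorem ufac_eq (h : BaseSheets base main t pl ρ) (q : ι → ℂ) (k : ι) :
    ufac t q k = 1 - algebraMap ℂ F (q k) * (t k)⁻¹ := by
  have := h.t_ne_zero k
  unfold ufac
  field_simp

theorem t_mul_ufac (h : BaseSheets base main t pl ρ) (q : ι → ℂ) (k : ι) :
    t k * ufac t q k = t k - algebraMap ℂ F (q k) := by
  have := h.t_ne_zero k
  unfold ufac
  field_simp

theorem ufac_ne_zero (h : BaseSheets base main t pl ρ) (q : ι → ℂ) (k : ι) (hq : ‖q k‖ < ρ) :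
    ufac t q k ≠ 0 :=
  mul_ne_zero (h.sub_ne_zero k hq) (inv_ne_zero (h.t_ne_zero k))

theorem ufac_of_eq_zero (h : BaseSheets base main t pl ρ) (q : ι → ℂ) (k : ι) (hq : q k = 0) :
    ufac t q k = 1 := by
  have := h.t_ne_zero k
  unfold ufac
  rw [hq, map_zero, sub_zero, mul_inv_cancel₀ this]

theorem ordGE_ufac_of_not_fibre (h : BaseSheets base main t pl ρ) (q : ι → ℂ)
    {v : Place ℂ F} {k : ι} (hv : ∀ s, base s = k → v ≠ pl s 0) : OrdGE v (ufac t q k) 0 := by
  have h1 : OrdGE v (t k)⁻¹ 0 := h.ordGE_inv_t_of_not_fibre hv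
  rw [h.ufac_eq]
  refine OrdGE.sub (by simpa using ordGE_algebraMap v (1 : ℂ)) ?_
  simpa using (ordGE_algebraMap v (q k)).mul h1

theorem ordGE_ufac_neg_one (h : BaseSheets base main t pl ρ) (q : ι → ℂ) (v : Place ℂ F)
    (k : ι) : OrdGE v (ufac t q k) (-1) := by
  by_cases hv : ∀ s, base s = k → v ≠ pl s 0
  · exact (h.ordGE_ufac_of_not_fibre q hv).mono (by norm_num)
  · obtain ⟨s, hs, rfl⟩ : ∃ s, base s = k ∧ v = pl s 0 := by
      by_contra hcon
      exact hv fun s hs hvs => hcon ⟨s, hs, hvs⟩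
    have h1 : (pl s 0).ord (t k) = 1 := hs ▸ h.ord_t s
    have h2 : OrdGE (pl s 0) (t k)⁻¹ (-1) := Or.inr (by rw [Place.ord_inv, h1])
    have h3 : OrdGE (pl s 0) (t k - algebraMap ℂ F (q k)) 0 :=
      OrdGE.sub (ordGE_of_le_ord (by rw [h1]; norm_num)) (ordGE_algebraMap _ _)
    simpa [ufac] using h3.mul h2

theorem ordGE_ufac_one (h : BaseSheets base main t pl ρ) (q : ι → ℂ) (s : S) (k : ι)
    (hs : base s = k) (hq : ‖q k‖ < ρ) (hqk : q k ≠ 0) :
    OrdGE (pl s (q k)) (ufac t q k) 1 := by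
  subst hs
  set v := pl s (q (base s)) with hv
  have h1 : v.ord (t (base s) - algebraMap ℂ F (q (base s))) = 1 := h.unif s _ hq
  have h2 : OrdGE v (t (base s))⁻¹ 0 := by
    refine Or.inr ?_
    rw [Place.ord_inv]
    by_contra hlt
    have hpos : 1 ≤ v.ord (t (base s)) := by omega
    have h3 : OrdGE v (algebraMap ℂ F (q (base s))) 1 := by
      have : algebraMap ℂ F (q (base s))
          = t (base s) - (t (base s) - algebraMap ℂ F (q (base s))) := by ring
      rw [this]
      exact OrdGE.sub (ordGE_of_le_ord hpos) (ordGE_of_le_ord h1.ge)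
    have h4 := h3.le_ord (by simpa using hqk)
    rw [ord_algebraMap_eq_zero] at h4
    omega
  simpa [ufac] using OrdGE.mul (ordGE_of_le_ord h1.ge) h2

end BaseSheets

/-- `f ∈ L(∑ k, pl (main k) (q k))`, stated place by place. -/
def InL (main : ι → S) (pl : S → ℂ → Place ℂ F) (q : ι → ℂ) (f : F) : Prop :=
  (∀ v : Place ℂ F, (∀ k, v ≠ pl (main k) (q k)) → OrdGE v f 0) ∧
    ∀ k, OrdGE (pl (main k) (q k)) f (-1)

theorem inL_one (main : ι → S) (pl : S → ℂ → Place ℂ F) (q : ι → ℂ) : InL main pl q (1 : F) := by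
  have h1 : ∀ v : Place ℂ F, OrdGE v (1 : F) 0 := fun v => by
    simpa using ordGE_algebraMap v (1 : ℂ)
  exact ⟨fun v _ => h1 v, fun k => (h1 _).mono (by norm_num)⟩

namespace BaseSheets

variable {base : S → ι} {main : ι → S} {t : ι → F} {pl : S → ℂ → Place ℂ F} {ρ : ℝ}
variable [Fintype ι]

theorem ordGE_mul_prod_of_not_zero (h : BaseSheets base main t pl ρ) (q : ι → ℂ)
    (hq : ∀ k, ‖q k‖ < ρ) {f : F} (hf : InL main pl q f) {v : Place ℂ F}
    (hv : ∀ s, v ≠ pl s 0) : OrdGE v (f * ∏ k, ufac t q k) 0 := by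
  classical
  have hu : ∀ k, OrdGE v (ufac t q k) 0 := fun k =>
    h.ordGE_ufac_of_not_fibre q fun s _ => hv s
  by_cases hm : ∀ k, v ≠ pl (main k) (q k)
  · simpa using (hf.1 v hm).mul (OrdGE.prod_zero Finset.univ _ fun k _ => hu k)
  · obtain ⟨k0, rfl⟩ : ∃ k0, v = pl (main k0) (q k0) := by
      by_contra hcon
      exact hm fun k hk => hcon ⟨k, hk⟩
    have hq0 : q k0 ≠ 0 := fun h0 => hv (main k0) (by rw [h0])
    have h1 : OrdGE (pl (main k0) (q k0)) (ufac t q k0) 1 :=
      h.ordGE_ufac_one q (main k0) k0 (h.main_base k0) (hq k0) hq0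
    rw [← Finset.mul_prod_erase Finset.univ _ (Finset.mem_univ k0)]
    have h2 := OrdGE.prod_zero (Finset.univ.erase k0) (ufac t q) fun k _ => hu k
    have h3 := (hf.2 k0).mul (h1.mul h2)
    have e : (-1 : ℤ) + (1 + 0) = 0 := by norm_num
    rw [e] at h3
    exact h3

theorem ordGE_mul_prod_at_zero (h : BaseSheets base main t pl ρ) (q : ι → ℂ)
    (hq : ∀ k, ‖q k‖ < ρ) {f : F} (hf : InL main pl q f) (s : S) :
    OrdGE (pl s 0) (f * ∏ k, ufac t q k) (-1) := by
  classical
  have h0ρ : ‖(0 : ℂ)‖ < ρ := by simpa using h.pos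
  have hu : ∀ k ∈ Finset.univ.erase (base s), OrdGE (pl s 0) (ufac t q k) 0 := by
    intro k hk
    refine h.ordGE_ufac_of_not_fibre q fun s' hs' heq => ?_
    have := (h.sep s s' 0 0 h0ρ h0ρ heq).1
    exact (Finset.ne_of_mem_erase hk) (by rw [← hs', this])
  rw [← Finset.mul_prod_erase Finset.univ _ (Finset.mem_univ (base s))]
  have h2 := OrdGE.prod_zero _ (ufac t q) hu
  by_cases hm : ∀ k, pl s 0 ≠ pl (main k) (q k)
  · have h3 := (hf.1 _ hm).mul ((h.ordGE_ufac_neg_one q (pl s 0) (base s)).mul h2)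
    have e : (0 : ℤ) + (-1 + 0) = -1 := by norm_num
    rw [e] at h3
    exact h3
  · obtain ⟨k1, hk1⟩ : ∃ k1, pl s 0 = pl (main k1) (q k1) := by
      by_contra hcon
      exact hm fun k hk => hcon ⟨k, hk⟩
    obtain ⟨hs1, hq1⟩ := h.sep s (main k1) 0 (q k1) h0ρ (hq k1) hk1
    have hb : base s = k1 := by rw [hs1, h.main_base]
    have hu1 : ufac t q (base s) = 1 := h.ufac_of_eq_zero q _ (by rw [hb]; exact hq1.symm)
    rw [hu1, one_mul]
    have hf1 : OrdGE (pl s 0) f (-1) := by rw [hk1]; exact hf.2 k1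
    have h3 := hf1.mul h2
    have e : (-1 : ℤ) + 0 = -1 := by norm_num
    rw [e] at h3
    exact h3

theorem ordGE_t_mul_at_sheet (h : BaseSheets base main t pl ρ) (q : ι → ℂ)
    (hq : ∀ k, ‖q k‖ < ρ) {f : F} (hf : InL main pl q f) (s : S) (hs : s ≠ main (base s)) :
    OrdGE (pl s (q (base s))) (t (base s) * (f * ∏ k, ufac t q k)) 1 := by
  classical
  have h0ρ : ‖(0 : ℂ)‖ < ρ := by simpa using h.pos
  have hu : ∀ k ∈ Finset.univ.erase (base s),
      OrdGE (pl s (q (base s))) (ufac t q k) 0 := by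
    intro k hk
    refine h.ordGE_ufac_of_not_fibre q fun s' hs' heq => ?_
    have := (h.sep s s' _ 0 (hq _) h0ρ heq).1
    exact (Finset.ne_of_mem_erase hk) (by rw [← hs', this])
  have hf0 : OrdGE (pl s (q (base s))) f 0 := hf.1 _ fun k heq => hs (by
    have := (h.sep s (main k) _ _ (hq _) (hq _) heq).1
    rw [this, h.main_base])
  have h1 : OrdGE (pl s (q (base s))) (t (base s) - algebraMap ℂ F (q (base s))) 1 :=
    ordGE_of_le_ord (h.unif s _ (hq _)).ge
  have h2 := OrdGE.prod_zero _ (ufac t q) hu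
  have key : t (base s) * (f * ∏ k, ufac t q k)
      = f * ((t (base s) - algebraMap ℂ F (q (base s)))
          * ∏ k ∈ Finset.univ.erase (base s), ufac t q k) := by
    rw [← Finset.mul_prod_erase Finset.univ _ (Finset.mem_univ (base s)),
      ← h.t_mul_ufac q (base s)]
    ring
  rw [key]
  have h3 := hf0.mul (h1.mul h2)
  have e : (0 : ℤ) + (1 + 0) = 1 := by norm_num
  rw [e] at h3
  exact h3

end BaseSheets

open Filter Topology in
/-- **`l(D_q) = 1` near a base divisor with `l(C0) = 1`.**  `C0 = ∑ k, pl (main k) 0`,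
`D_q = ∑ k, pl (main k) (q k)`; `W = L(Z0)` with `Z0` the sum of all sheet centres `pl s 0`
(finite-dimensional by Riemann's theorem).  If `L(C0)` consists of constants, then so does
`L(D_q)` for all small `q`. -/
theorem exists_radius_forall_inL_eq_const
    {base : S → ι} {main : ι → S} {t : ι → F} {pl : S → ℂ → Place ℂ F} {ρ : ℝ}
    [Fintype ι] [Fintype S]
    (h : BaseSheets base main t pl ρ)
    (hHol : ∀ s (f : F), OrdGE (pl s 0) f 0 → ∃ r > 0, ∃ φ : ℂ → ℂ, ContinuousAt φ 0 ∧
      ∀ z : ℂ, ‖z‖ < r → HasValue (pl s z) f (φ z))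
    (W : Submodule ℂ F) [FiniteDimensional ℂ W]
    (hW : ∀ b : F, b ∈ W ↔
      ((∀ v : Place ℂ F, (∀ s, v ≠ pl s 0) → OrdGE v b 0) ∧ ∀ s, OrdGE (pl s 0) b (-1)))
    (hNS : ∀ f : F, InL main pl 0 f → ∃ c : ℂ, f = algebraMap ℂ F c) :
    ∃ ρ' > 0, ρ' ≤ ρ ∧ ∀ q : ι → ℂ, (∀ k, ‖q k‖ < ρ') → ∀ f : F, InL main pl q f →
      ∃ c : ℂ, f = algebraMap ℂ F c := by
  classical
  have h0ρ : ‖(0 : ℂ)‖ < ρ := by simpa using h.pos
  set N := Module.finrank ℂ W with hN
  let β : Module.Basis (Fin N) ℂ W := Module.finBasis ℂ W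
  have hreg : ∀ s l, OrdGE (pl s 0) (t (base s) * (β l : F)) 0 := by
    intro s l
    have h1 := ((hW _).1 (β l).2).2 s
    have h2 : OrdGE (pl s 0) (t (base s)) 1 := ordGE_of_le_ord (h.ord_t s).ge
    have h3 := h2.mul h1
    have e : (1 : ℤ) + -1 = 0 := by norm_num
    rw [e] at h3
    exact h3
  choose r hr φ hφc hφ using fun s l => hHol s _ (hreg s l)
  -- coordinates on `W`
  let bx : (Fin N → ℂ) → F := fun x => ∑ l, x l • (β l : F)
  have hbxW : ∀ x, bx x ∈ W := fun x =>
    Submodule.sum_mem _ fun l _ => Submodule.smul_mem _ _ (β l).2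
  have hbx_repr : ∀ w : W, bx (β.equivFun w) = w := by
    intro w
    have h3 := congrArg Subtype.val (β.sum_equivFun w)
    rw [Submodule.coe_sum] at h3
    simpa only [Submodule.coe_smul] using h3
  have hrepr_bx : ∀ x, β.equivFun ⟨bx x, hbxW x⟩ = x := by
    intro x
    have h3 : (⟨bx x, hbxW x⟩ : W) = β.equivFun.symm x := by
      apply Subtype.ext
      rw [Module.Basis.equivFun_symm_apply, Submodule.coe_sum]
      simp only [Submodule.coe_smul, bx]
    rw [h3, LinearEquiv.apply_symm_apply]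
  have hbx_smul : ∀ (a : ℂ) x, bx (a • x) = a • bx x := by
    intro a x
    simp only [bx, Pi.smul_apply, smul_eq_mul, Finset.smul_sum, smul_smul]
  -- value formula
  have hval : ∀ (s : S) (x : Fin N → ℂ) (z : ℂ), (∀ l, ‖z‖ < r s l) →
      HasValue (pl s z) (t (base s) * bx x) (∑ l, x l * φ s l z) := by
    intro s x z hz
    have e : t (base s) * bx x = ∑ l, x l • (t (base s) * (β l : F)) := by
      simp only [bx, Finset.mul_sum, mul_smul_comm]
    rw [e]
    exact HasValue.sum _ _ _ _ fun l _ => hφ s l z (hz l)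
  -- the family of condition maps
  let A : (ι → ℂ) → (Fin N → ℂ) →ₗ[ℂ] (S → ℂ) := fun q =>
    LinearMap.pi fun s => if s = main (base s) then 0
      else ∑ l, φ s l (q (base s)) • LinearMap.proj l
  have hAapp : ∀ q x s, A q x s
      = if s = main (base s) then 0 else ∑ l, x l * φ s l (q (base s)) := by
    intro q x s
    simp only [A, LinearMap.pi_apply]
    split_ifs
    · simp
    · simp [mul_comm]
  have hAcont : ∀ x, ContinuousAt (fun q => A q x) 0 := by
    intro x
    refine continuousAt_pi.2 fun s => ?_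
    simp only [hAapp]
    split_ifs
    · exact continuousAt_const
    · refine tendsto_finsetSum _ fun l _ => ?_
      refine Tendsto.mul tendsto_const_nhds ?_
      have h1 : ContinuousAt (fun q : ι → ℂ => q (base s)) 0 :=
        (continuous_apply (base s)).continuousAt
      exact ContinuousAt.comp (f := fun q : ι → ℂ => q (base s)) (g := φ s l) (hφc s l) h1
  -- kernel membership criterion
  have hmemker : ∀ (q : ι → ℂ) (x : Fin N → ℂ), (∀ s l, ‖q (base s)‖ < r s l) →
      (∀ s, s ≠ main (base s) → OrdGE (pl s (q (base s))) (t (base s) * bx x) 1) →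
      x ∈ LinearMap.ker (A q) := by
    intro q x hqr hx
    rw [LinearMap.mem_ker]
    funext s
    rw [hAapp]
    split_ifs with hs
    · rfl
    · exact HasValue.unique (hval s x _ (hqr s)) ((hasValue_zero_iff _ _).2 (hx s hs))
  -- the kernel at `0`
  have h1W : (1 : F) ∈ W := by
    have h1 : ∀ v : Place ℂ F, OrdGE v (1 : F) 0 := fun v => by
      simpa using ordGE_algebraMap v (1 : ℂ)
    exact (hW 1).2 ⟨fun v _ => h1 v, fun s => (h1 _).mono (by norm_num)⟩
  have hr0 : ∀ s l, ‖(0 : ι → ℂ) (base s)‖ < r s l := fun s l => by simpa using hr s l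
  have hker0 : Module.finrank ℂ (LinearMap.ker (A 0)) ≤ 1 := by
    set x1 : Fin N → ℂ := β.equivFun ⟨1, h1W⟩ with hx1
    have hbx1 : bx x1 = 1 := hbx_repr ⟨1, h1W⟩
    have hx1ker : x1 ∈ LinearMap.ker (A 0) := by
      refine hmemker 0 x1 hr0 fun s _ => ?_
      rw [hbx1, mul_one]
      simpa using ordGE_of_le_ord (h.ord_t s).ge
    refine finrank_le_one (⟨x1, hx1ker⟩ : LinearMap.ker (A 0)) fun w => ?_
    obtain ⟨x, hx⟩ := w
    have hxs : ∀ s, s ≠ main (base s) → OrdGE (pl s 0) (bx x) 0 := by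
      intro s hs
      have h2 : A 0 x s = 0 := by rw [LinearMap.mem_ker.mp hx]; rfl
      rw [hAapp, if_neg hs] at h2
      have h3 := hval s x 0 (fun l => by simpa using hr s l)
      have h2' : ∑ l, x l * φ s l 0 = 0 := by simpa using h2
      rw [h2', hasValue_zero_iff] at h3
      have h4 : OrdGE (pl s 0) (t (base s))⁻¹ (-1) :=
        ordGE_of_le_ord (by rw [Place.ord_inv, h.ord_t s])
      have h5 := h3.mul h4
      have e : (1 : ℤ) + -1 = 0 := by norm_num
      have e2 : t (base s) * bx x * (t (base s))⁻¹ = bx x := by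
        have := h.t_ne_zero (base s)
        field_simp
      rw [e, e2] at h5
      exact h5
    have hInL : InL main pl 0 (bx x) := by
      refine ⟨fun v hv => ?_, fun k => ((hW _).1 (hbxW x)).2 _⟩
      by_cases hv0 : ∀ s, v ≠ pl s 0
      · exact ((hW _).1 (hbxW x)).1 v hv0
      · obtain ⟨s, rfl⟩ : ∃ s, v = pl s 0 := by
          by_contra hcon
          exact hv0 fun s hs => hcon ⟨s, hs⟩
        refine hxs s fun hs => hv (base s) ?_
        rw [← hs]
        rfl
    obtain ⟨a, ha⟩ := hNS _ hInL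
    refine ⟨a, Subtype.ext ?_⟩
    show a • x1 = x
    rw [← hrepr_bx x, ← hrepr_bx (a • x1)]
    congr 2
    rw [hbx_smul, hbx1, ha, Algebra.smul_def, mul_one]
  -- semicontinuity
  have hev : ∀ᶠ q in 𝓝 (0 : ι → ℂ), Module.finrank ℂ (LinearMap.ker (A q)) ≤ 1 :=
    (eventually_finrank_ker_le A 0 hAcont).mono fun q hq => hq.trans hker0
  obtain ⟨ε, hε, hεb⟩ := Metric.eventually_nhds_iff.mp hev
  obtain ⟨δ, hδ, hδr⟩ : ∃ δ > 0, ∀ s l, δ ≤ r s l := by
    rcases isEmpty_or_nonempty (S × Fin N) with hemp | hne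
    · exact ⟨1, one_pos, fun s l => (hemp.false (s, l)).elim⟩
    · obtain ⟨p0, hp0⟩ := Finite.exists_min (fun p : S × Fin N => r p.1 p.2)
      exact ⟨r p0.1 p0.2, hr _ _, fun s l => hp0 (s, l)⟩
  refine ⟨min ρ (min ε δ), lt_min h.pos (lt_min hε hδ), min_le_left _ _, ?_⟩
  intro q hq f hf
  have hqρ : ∀ k, ‖q k‖ < ρ := fun k => (hq k).trans_le (min_le_left _ _)
  have hqε : ∀ k, ‖q k‖ < ε := fun k =>
    (hq k).trans_le ((min_le_right _ _).trans (min_le_left _ _))
  have hqr : ∀ s l, ‖q (base s)‖ < r s l := fun s l =>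
    ((hq _).trans_le ((min_le_right _ _).trans (min_le_right _ _))).trans_le (hδr s l)
  have hfin : Module.finrank ℂ (LinearMap.ker (A q)) ≤ 1 := by
    apply hεb
    rw [dist_zero_right]
    exact (pi_norm_lt_iff hε).2 hqε
  -- the two kernel vectors
  set U : F := ∏ k, ufac t q k with hU
  have hU0 : U ≠ 0 := Finset.prod_ne_zero_iff.2 fun k _ => h.ufac_ne_zero q k (hqρ k)
  have hmem : ∀ g : F, InL main pl q g → g * U ∈ W := fun g hg =>
    (hW _).2 ⟨fun v hv => h.ordGE_mul_prod_of_not_zero q hqρ hg hv,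
      fun s => h.ordGE_mul_prod_at_zero q hqρ hg s⟩
  have hkermem : ∀ (g : F) (hg : InL main pl q g),
      (β.equivFun ⟨g * U, hmem g hg⟩ : Fin N → ℂ) ∈ LinearMap.ker (A q) := by
    intro g hg
    refine hmemker q _ hqr fun s hs => ?_
    rw [hbx_repr]
    exact h.ordGE_t_mul_at_sheet q hqρ hg s hs
  obtain ⟨v0, hv0⟩ := (finrank_le_one_iff (K := ℂ) (V := LinearMap.ker (A q))).1 hfin
  obtain ⟨a, ha⟩ := hv0 ⟨_, hkermem f hf⟩
  obtain ⟨a1, ha1⟩ := hv0 ⟨_, hkermem 1 (inL_one main pl q)⟩
  have ha' : a • (v0 : Fin N → ℂ) = β.equivFun ⟨f * U, hmem f hf⟩ := congrArg Subtype.val ha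
  have ha1' : a1 • (v0 : Fin N → ℂ) = β.equivFun ⟨1 * U, hmem 1 (inL_one main pl q)⟩ :=
    congrArg Subtype.val ha1
  have hb1 : bx (a1 • (v0 : Fin N → ℂ)) = U := by
    rw [ha1', hbx_repr]
    exact one_mul U
  have hb : bx (a • (v0 : Fin N → ℂ)) = f * U := by
    rw [ha', hbx_repr]
  have ha10 : a1 ≠ 0 := by
    rintro rfl
    rw [zero_smul] at hb1
    have : bx 0 = 0 := by simp [bx]
    exact hU0 (hb1 ▸ this)
  refine ⟨a / a1, ?_⟩
  have h5 : f * U = algebraMap ℂ F (a / a1) * U := by
    rw [← hb, ← hb1, hbx_smul, hbx_smul, Algebra.smul_def, Algebra.smul_def, ← mul_assoc,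
      ← map_mul, div_mul_cancel₀ a ha10]
  exact mul_right_cancel₀ hU0 h5

/-! ### Divisor form -/

theorem sum_single_apply_of_ne {σ : Type*} [Fintype σ] (P : σ → Place ℂ F) (v : Place ℂ F)
    (hv : ∀ s, v ≠ P s) : (∑ s, Finsupp.single (P s) (1 : ℤ)) v = 0 := by
  classical
  rw [Finsupp.finsetSum_apply]
  refine Finset.sum_eq_zero fun s _ => ?_
  rw [Finsupp.single_apply, if_neg fun hs => hv s hs.symm]

theorem sum_single_apply_nonneg {σ : Type*} [Fintype σ] (P : σ → Place ℂ F) (v : Place ℂ F) :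
    0 ≤ (∑ s, Finsupp.single (P s) (1 : ℤ)) v := by
  classical
  rw [Finsupp.finsetSum_apply]
  refine Finset.sum_nonneg fun s _ => ?_
  rw [Finsupp.single_apply]
  split_ifs <;> norm_num

theorem sum_single_apply_self {σ : Type*} [Fintype σ] (P : σ → Place ℂ F)
    (hP : Function.Injective P) (s0 : σ) : (∑ s, Finsupp.single (P s) (1 : ℤ)) (P s0) = 1 := by
  classical
  rw [Finsupp.finsetSum_apply]
  have : ∀ s, (Finsupp.single (P s) (1 : ℤ)) (P s0) = if s = s0 then 1 else 0 := by
    intro s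
    rw [Finsupp.single_apply]
    by_cases hs : s = s0
    · rw [if_pos hs, if_pos (by rw [hs])]
    · rw [if_neg hs, if_neg fun hh => hs (hP hh)]
  simp [this]

/-- Membership in `L(∑ s, P s)` place by place, for an injective family of places. -/
theorem mem_riemannRochSpace_sum_single_iff {σ : Type*} [Fintype σ] (P : σ → Place ℂ F)
    (hP : Function.Injective P) (b : F) :
    b ∈ riemannRochSpace (∑ s, Finsupp.single (P s) (1 : ℤ)) ↔
      ((∀ v : Place ℂ F, (∀ s, v ≠ P s) → OrdGE v b 0) ∧ ∀ s, OrdGE (P s) b (-1)) := by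
  rw [mem_riemannRochSpace_iff]
  constructor
  · intro hb
    refine ⟨fun v hv => ?_, fun s => ?_⟩
    · have := hb v
      rwa [sum_single_apply_of_ne P v hv, neg_zero] at this
    · have := hb (P s)
      rwa [sum_single_apply_self P hP s] at this
  · rintro ⟨h1, h2⟩ v
    by_cases hv : ∀ s, v ≠ P s
    · have := h1 v hv
      rw [sum_single_apply_of_ne P v hv, neg_zero]
      exact this
    · obtain ⟨s, rfl⟩ : ∃ s, v = P s := by
        by_contra hcon
        exact hv fun s hs => hcon ⟨s, hs⟩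
      rw [sum_single_apply_self P hP s]
      exact h2 s

theorem BaseSheets.injective_main {base : S → ι} {main : ι → S} {t : ι → F}
    {pl : S → ℂ → Place ℂ F} {ρ : ℝ} (h : BaseSheets base main t pl ρ) (q : ι → ℂ)
    (hq : ∀ k, ‖q k‖ < ρ) : Function.Injective fun k => pl (main k) (q k) := by
  intro k k' hkk
  have := (h.sep _ _ _ _ (hq k) (hq k') hkk).1
  have h2 := congrArg base this
  rwa [h.main_base, h.main_base] at h2

theorem BaseSheets.injective_zero {base : S → ι} {main : ι → S} {t : ι → F}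
    {pl : S → ℂ → Place ℂ F} {ρ : ℝ} (h : BaseSheets base main t pl ρ) :
    Function.Injective fun s => pl s 0 := by
  intro s s' hss
  exact (h.sep _ _ _ _ (by simpa using h.pos) (by simpa using h.pos) hss).1

/-- **INJ (CORE B).**  Base sheets over the points of `C0 = ∑ k, pl (main k) 0` with
`L(C0) = constants` and `L(Z0)` finite-dimensional (`Z0` = all sheet centres): for `q, q'` near
`0`, `L(∑ k, pl (main k) (q k))` consists of constants, and a linear equivalence
`∑ k, pl (main k) (q k) ∼ ∑ k, pl (main k) (q' k)` forces `q = q'`. -/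
theorem coreB_inj
    {base : S → ι} {main : ι → S} {t : ι → F} {pl : S → ℂ → Place ℂ F} {ρ : ℝ}
    [Fintype ι] [Fintype S]
    (h : BaseSheets base main t pl ρ)
    (hHol : ∀ s (f : F), OrdGE (pl s 0) f 0 → ∃ r > 0, ∃ φ : ℂ → ℂ, ContinuousAt φ 0 ∧
      ∀ z : ℂ, ‖z‖ < r → HasValue (pl s z) f (φ z))
    (hfin : Module.Finite ℂ (riemannRochSpace (∑ s, Finsupp.single (pl s 0) (1 : ℤ))))
    (hNS : ∀ f ∈ riemannRochSpace (∑ k, Finsupp.single (pl (main k) 0) (1 : ℤ)),
      ∃ c : ℂ, f = algebraMap ℂ F c) :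
    ∃ ρ' > 0, ρ' ≤ ρ ∧
      (∀ q : ι → ℂ, (∀ k, ‖q k‖ < ρ') →
        ∀ f ∈ riemannRochSpace (∑ k, Finsupp.single (pl (main k) (q k)) (1 : ℤ)),
          ∃ c : ℂ, f = algebraMap ℂ F c) ∧
      ∀ q q' : ι → ℂ, (∀ k, ‖q k‖ < ρ') → (∀ k, ‖q' k‖ < ρ') →
        (∑ k, Finsupp.single (pl (main k) (q k)) (1 : ℤ)
            - ∑ k, Finsupp.single (pl (main k) (q' k)) (1 : ℤ))
          ∈ Divisor.principal (K := ℂ) (F := F) → q = q' := by
  classical
  have h0ρ : ∀ k : ι, ‖(0 : ι → ℂ) k‖ < ρ := fun k => by simpa using h.pos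
  obtain ⟨ρ', hρ', hρ'ρ, hmain⟩ := exists_radius_forall_inL_eq_const h hHol
    (riemannRochSpace (∑ s, Finsupp.single (pl s 0) (1 : ℤ)))
    (fun b => mem_riemannRochSpace_sum_single_iff _ h.injective_zero b)
    (fun f hf => hNS f ((mem_riemannRochSpace_sum_single_iff _
      (h.injective_main 0 h0ρ) f).2 hf))
  have hconst : ∀ q : ι → ℂ, (∀ k, ‖q k‖ < ρ') →
      ∀ f ∈ riemannRochSpace (∑ k, Finsupp.single (pl (main k) (q k)) (1 : ℤ)),
        ∃ c : ℂ, f = algebraMap ℂ F c := by
    intro q hq f hf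
    have hqρ : ∀ k, ‖q k‖ < ρ := fun k => (hq k).trans_le hρ'ρ
    exact hmain q hq f ((mem_riemannRochSpace_sum_single_iff _ (h.injective_main q hqρ) f).1 hf)
  refine ⟨ρ', hρ', hρ'ρ, hconst, ?_⟩
  intro q q' hq hq' hprin
  have hqρ : ∀ k, ‖q k‖ < ρ := fun k => (hq k).trans_le hρ'ρ
  have hq'ρ : ∀ k, ‖q' k‖ < ρ := fun k => (hq' k).trans_le hρ'ρ
  obtain ⟨f, hf0, hf⟩ := hprin
  -- `f ∈ L(D_{q'})`
  have hfL : f ∈ riemannRochSpace (∑ k, Finsupp.single (pl (main k) (q' k)) (1 : ℤ)) := by
    rw [mem_riemannRochSpace_iff]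
    intro v
    refine Or.inr ?_
    have h1 := hf v
    rw [Finsupp.sub_apply] at h1
    have h2 := sum_single_apply_nonneg (fun k => pl (main k) (q k)) v
    omega
  obtain ⟨a, ha⟩ := hconst q' hq' f hfL
  have hord : ∀ v : Place ℂ F, v.ord f = 0 := fun v => by
    rw [ha]; exact ord_algebraMap_eq_zero v a
  funext k
  have h1 := hf (pl (main k) (q k))
  rw [Finsupp.sub_apply, hord, sum_single_apply_self (fun k => pl (main k) (q k))
    (h.injective_main q hqρ) k] at h1
  by_contra hne
  have h2 : (∑ k', Finsupp.single (pl (main k') (q' k')) (1 : ℤ)) (pl (main k) (q k)) = 0 := by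
    refine sum_single_apply_of_ne _ _ fun k' hk' => hne ?_
    obtain ⟨hm, hz⟩ := h.sep _ _ _ _ (hqρ k) (hq'ρ k') hk'
    have h3 := congrArg base hm
    rw [h.main_base, h.main_base] at h3
    rw [hz, h3]
  rw [h2] at h1
  norm_num at h1

end Sheets

end

end Fermat.Agent.S27.helper1718
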