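import Fermat.Agent.S27.helper6247_Spec

/-!
# CORE B (route LA): the two function-field statements `Stmt_T2` and `Stmt_INJ`

Vocabulary of `helper6247_Spec` only (`IsChart`, `ev`, `pt`, `sumDiv`, `IsNonspecial`).

## Data (both statements)

* `ι` : finite index type of the BASE points; `t k : F` the coordinate used at the base point `k`.
* `S` : finite type of all SHEETS; the sheet `s` belongs to the coordinate `t (κ s)` and carries a
  chart `Qb s` with `IsChart (t (κ s)) (Qb s) rb`.  The centres `Qb s 0` with `κ s = k` are ALL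
  zeros of `t k` (so all zeros of `t k` are simple: the fibre of `t k` over `0` is unramified).
* `main k : S` is the sheet through the base point `P_k = Qb (main k) 0`.

No global coordinate, no point at infinity: the only condition on the poles of the `t k` is that
`t k` is regular at every centre.

## `Stmt_T2` (linear-algebra group law)

Target: a nonspecial reduced tuple `C⁰ = (Qc i 0)`, `i : Fin g`, `g = genusFF`, with ARBITRARY
charts `(u i, Qc i, rc)`.  All centres (base sheets and target points) are pairwise distinct.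
Then the classes `∑_k [Qb (main k) (q k)] - [P_k]` are the classes `[C(E q)] - [C⁰]` for an
analytic `E` with `E 0 = 0`.

## `Stmt_INJ` (local injectivity at a nonspecial base)

If the base points themselves form a nonspecial tuple (`ι = Fin g`), then
`q ↦ ∑_k [Qb (main k) (q k)]` is injective modulo linear equivalence near `0`.
-/

set_option autoImplicit false

open AlgebraicCurve IntermediateField

namespace Fermat.Agent.S27.helper3813

open Fermat.Agent.S27.helper6247

noncomputable section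

/-- **T2** (route LA / CORE B). -/
def Stmt_T2 : Prop :=
  ∀ (F : Type) [Field F] [Algebra ℂ F] (x : F), Transcendental ℂ x →
    ∀ [FiniteDimensional ℂ⟮x⟯ F]
    (ι : Type) [Fintype ι] (S : Type) [Fintype S] [DecidableEq S]
    (κ : S → ι) (main : ι → S) (t : ι → F) (Qb : S → ℂ → Place ℂ F) (rb : ℝ)
    (u : Fin (genusFF ℂ F) → F) (Qc : Fin (genusFF ℂ F) → ℂ → Place ℂ F) (rc : ℝ),
    (∀ k, κ (main k) = k) →
    (∀ s, IsChart (t (κ s)) (Qb s) rb) →
    (∀ (k : ι) (v : Place ℂ F), 0 < v.ord (t k) → ∃ s, κ s = k ∧ v = Qb s 0) →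
    (∀ i, IsChart (u i) (Qc i) rc) →
    Function.Injective (Sum.elim (fun s => Qb s 0) (fun i => Qc i 0)) →
    (∀ k s, 0 ≤ (Qb s 0).ord (t k)) →
    (∀ k i, 0 ≤ (Qc i 0).ord (t k)) →
    IsNonspecial (sumDiv fun i => Qc i 0) →
    ∃ ε > 0, ∃ E : (ι → ℂ) → (Fin (genusFF ℂ F) → ℂ),
      AnalyticOnNhd ℂ E (Metric.ball 0 ε) ∧ E 0 = 0 ∧
      (∀ q ∈ Metric.ball (0 : ι → ℂ) ε, (∀ k, ‖q k‖ < rb) ∧ ∀ i, ‖E q i‖ < rc) ∧
      ∀ q ∈ Metric.ball (0 : ι → ℂ) ε,
        sumDiv (fun k => Qb (main k) (q k)) - sumDiv (fun k => Qb (main k) 0)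
          - sumDiv (fun i => Qc i (E q i)) + sumDiv (fun i => Qc i 0)
          ∈ Divisor.principal (K := ℂ) (F := F)

/-- **INJ** (route LA / CORE B). -/
def Stmt_INJ : Prop :=
  ∀ (F : Type) [Field F] [Algebra ℂ F] (x : F), Transcendental ℂ x →
    ∀ [FiniteDimensional ℂ⟮x⟯ F]
    (S : Type) [Fintype S] [DecidableEq S]
    (κ : S → Fin (genusFF ℂ F)) (main : Fin (genusFF ℂ F) → S)
    (t : Fin (genusFF ℂ F) → F) (Qb : S → ℂ → Place ℂ F) (rb : ℝ),
    (∀ k, κ (main k) = k) →
    (∀ s, IsChart (t (κ s)) (Qb s) rb) →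
    (∀ (k : Fin (genusFF ℂ F)) (v : Place ℂ F), 0 < v.ord (t k) → ∃ s, κ s = k ∧ v = Qb s 0) →
    Function.Injective (fun s => Qb s 0) →
    (∀ k s, 0 ≤ (Qb s 0).ord (t k)) →
    IsNonspecial (sumDiv fun k => Qb (main k) 0) →
    ∃ ε > 0, ε ≤ rb ∧ ∀ q q' : Fin (genusFF ℂ F) → ℂ, (∀ k, ‖q k‖ < ε) → (∀ k, ‖q' k‖ < ε) →
      sumDiv (fun k => Qb (main k) (q k)) - sumDiv (fun k => Qb (main k) (q' k))
        ∈ Divisor.principal (K := ℂ) (F := F) →
      q = q'

end

end Fermat.Agent.S27.helper3813
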