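import Fermat.Agent.S27.helper1718_CoreBInj
import Fermat.Agent.S27.helper3813_CoreBStmt
import Fermat.Agent.S27.helper1070_FibreUnram

/-!
# S27, CORE B: `Stmt_INJ` in the captain's vocabulary

`helper3813.Stmt_INJ` as landed is false in genus `0` (take `S = Empty`, `rb ≤ 0`: the
conclusion asks for `0 < ε ≤ rb`).  `Stmt_INJ2` is the same statement with the one extra
hypothesis `0 < rb`; it is proved here from `Stmt_Ev`, `Stmt_Riemann`, `Stmt_FibreUnram`:

* `inj_of_charts` : general index type, `L(C0) = constants` as a hypothesis; also gives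
  `L(∑ k, Qb (main k) (q k)) = constants` for small `q`;
* `inj2_of : Stmt_Ev → Stmt_Riemann → Stmt_FibreUnram → Stmt_INJ2`.
-/

set_option autoImplicit false

open AlgebraicCurve IntermediateField
open scoped Topology

namespace Fermat.Agent.S27.helper1718

open Fermat.Agent.S27.helper6247

noncomputable section

section Adapter

variable {F : Type} [Field F] [Algebra ℂ F]

/-- From `Stmt_Ev`: a function regular at `P` has the value `ev P f` there. -/
theorem hasValue_ev (hEv : Stmt_Ev.{0, 0}) (x : F) (hx : Transcendental ℂ x)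
    [FiniteDimensional ℂ⟮x⟯ F] (P : Place ℂ F) {f : F} (hf : 0 ≤ P.ord f) :
    HasValue P f (ev P f) := by
  obtain ⟨h1, h2, h3, -⟩ := hEv ℂ F x hx P
  have hc : 0 ≤ P.ord (algebraMap ℂ F (-(ev P f))) := by rw [ord_algebraMap_eq_zero]
  have hg : OrdGE P (f - algebraMap ℂ F (ev P f)) 0 :=
    (ordGE_of_le_ord hf).sub (ordGE_algebraMap P _)
  have hg0 : 0 ≤ P.ord (f - algebraMap ℂ F (ev P f)) := by
    rcases hg with h | h
    · rw [h, Place.ord_zero]
    · exact h
  have hev : ev P (f - algebraMap ℂ F (ev P f)) = 0 := by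
    have e : f - algebraMap ℂ F (ev P f) = f + algebraMap ℂ F (-(ev P f)) := by
      rw [map_neg]; ring
    rw [e, (h2 f _ hf hc).1, h1]
    ring
  rcases (h3 _ hg0).1 hev with h | h
  · exact Or.inl h
  · exact Or.inr (by omega)

/-- `L(A_1 + … + A_g)` consists of constants for a nonspecial tuple of `g = genusFF` places. -/
theorem const_of_mem_rr_of_nonspecial (hR : Stmt_Riemann.{0, 0}) (x : F)
    (hx : Transcendental ℂ x) [FiniteDimensional ℂ⟮x⟯ F]
    (A : Fin (genusFF ℂ F) → Place ℂ F) (hA : IsNonspecial (sumDiv A)) {f : F}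
    (hf : f ∈ riemannRochSpace (sumDiv A)) : ∃ a : ℂ, f = algebraMap ℂ F a := by
  obtain ⟨hfin, hrr, -⟩ := hR ℂ F x hx
  have := (hfin (sumDiv A)).1
  have := (hfin (sumDiv A)).2
  have hH : Module.finrank ℂ (H1 (sumDiv A)) = 0 := by
    rw [Module.finrank_zero_iff, Submodule.Quotient.subsingleton_iff]
    exact hA
  have hdeg : Divisor.degree (sumDiv A) = (genusFF ℂ F : ℤ) := by
    unfold sumDiv pt
    rw [map_sum]
    simp [Divisor.degree_single, Fermat.Agent.S24.helper483.place_deg_eq_one x hx]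
  have h := hrr (sumDiv A)
  rw [hH, hdeg] at h
  have hL : Module.finrank ℂ (riemannRochSpace (sumDiv A)) = 1 := by
    have h' : (Module.finrank ℂ (riemannRochSpace (sumDiv A)) : ℤ) = 1 := by
      push_cast at h
      linarith
    exact_mod_cast h'
  have h1 : (1 : F) ∈ riemannRochSpace (sumDiv A) := by
    rw [mem_riemannRochSpace_iff]
    intro v
    refine Or.inr ?_
    rw [Place.ord_one]
    have h2 : 0 ≤ (sumDiv A) v := sum_single_apply_nonneg A v
    omega
  obtain ⟨a, ha⟩ := (finrank_eq_one_iff_of_nonzero' (⟨1, h1⟩ : riemannRochSpace (sumDiv A))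
    (by simp [Subtype.ext_iff])).1 hL ⟨f, hf⟩
  refine ⟨a, ?_⟩
  have h3 : a • (1 : F) = f := congrArg Subtype.val ha
  rw [← h3, Algebra.smul_def, mul_one]

/-- **INJ from charts** (general index type; `L(C0) = constants` as a hypothesis). -/
theorem inj_of_charts (hEv : Stmt_Ev.{0, 0}) (hR : Stmt_Riemann.{0, 0}) (hFU : Stmt_FibreUnram)
    (x : F) (hx : Transcendental ℂ x) [FiniteDimensional ℂ⟮x⟯ F]
    {ι S : Type*} [Fintype ι] [Fintype S]
    (κ : S → ι) (main : ι → S) (t : ι → F) (Qb : S → ℂ → Place ℂ F) (rb : ℝ) (hrb : 0 < rb)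
    (hκ : ∀ k, κ (main k) = k) (hch : ∀ s, IsChart (t (κ s)) (Qb s) rb)
    (hz : ∀ (k : ι) (v : Place ℂ F), 0 < v.ord (t k) → ∃ s, κ s = k ∧ v = Qb s 0)
    (hinj : Function.Injective (fun s => Qb s 0))
    (hNS : ∀ f ∈ riemannRochSpace (sumDiv fun k => Qb (main k) 0),
      ∃ a : ℂ, f = algebraMap ℂ F a) :
    ∃ ε > 0, ε ≤ rb ∧
      (∀ q : ι → ℂ, (∀ k, ‖q k‖ < ε) →
        ∀ f ∈ riemannRochSpace (sumDiv fun k => Qb (main k) (q k)),
          ∃ a : ℂ, f = algebraMap ℂ F a) ∧
      ∀ q q' : ι → ℂ, (∀ k, ‖q k‖ < ε) → (∀ k, ‖q' k‖ < ε) →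
        sumDiv (fun k => Qb (main k) (q k)) - sumDiv (fun k => Qb (main k) (q' k))
          ∈ Divisor.principal (K := ℂ) (F := F) → q = q' := by
  classical
  -- Step 1: the fibres of `t k` near `0` are exhausted by the sheets
  have hfib : ∀ k : ι, ∃ δ > 0, ∀ z : ℂ, ‖z‖ < δ → ∀ v : Place ℂ F,
      0 < v.ord (t k - algebraMap ℂ F z) → ∃ s, κ s = k ∧ v = Qb s z := by
    intro k
    let e : {s : S // κ s = k} ≃ Fin (Fintype.card {s : S // κ s = k}) := Fintype.equivFin _
    obtain ⟨δ, hδ, hδf⟩ := hFU F x hx (t k) (Fintype.card {s : S // κ s = k})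
      (fun j => Qb (e.symm j).1) (fun _ => rb)
      (fun j => by
        have := hch (e.symm j).1
        rwa [(e.symm j).2] at this)
      (fun v hv => by
        obtain ⟨s, hs, rfl⟩ := hz k v hv
        exact ⟨e ⟨s, hs⟩, by simp⟩)
    exact ⟨δ, hδ, fun z hzδ v hv => by
      obtain ⟨j, rfl⟩ := hδf z hzδ v hv
      exact ⟨(e.symm j).1, (e.symm j).2, rfl⟩⟩
  choose δ hδ hδf using hfib
  obtain ⟨δ0, hδ0, hδ0le⟩ := helper1070.exists_pos_le_of_fintype δ hδ
  -- Step 2: separation of distinct sheets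
  have hpair : ∀ p : S × S, ∃ d > 0, p.1 ≠ p.2 →
      ∀ z z' : ℂ, ‖z‖ < d → ‖z'‖ < d → Qb p.1 z ≠ Qb p.2 z' := by
    intro p
    by_cases hp : p.1 = p.2
    · exact ⟨1, one_pos, fun h => absurd hp h⟩
    · obtain ⟨d, hd, hdd⟩ := helper1070.exists_delta_ne hEv x hx (hch p.1) (hch p.2)
        (fun h => hp (hinj h))
      exact ⟨d, hd, fun _ => hdd⟩
  choose d hd hdd using hpair
  obtain ⟨δ1, hδ1, hδ1le⟩ := helper1070.exists_pos_le_of_fintype d hd
  have hρpos : 0 < min rb (min δ0 δ1) := lt_min hrb (lt_min hδ0 hδ1)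
  have hunif : ∀ s, ∀ z : ℂ, ‖z‖ < min rb (min δ0 δ1) →
      (Qb s z).ord (t (κ s) - algebraMap ℂ F z) = 1 := fun s z hz' =>
    (hch s).unif z (by
      rw [Metric.mem_ball, dist_zero_right]
      exact hz'.trans_le (min_le_left _ _))
  have hB : BaseSheets κ main t Qb (min rb (min δ0 δ1)) :=
    { pos := hρpos
      main_base := hκ
      unif := hunif
      fibre := fun k z hz' v hv => hδf k z
        (hz'.trans_le ((min_le_right _ _).trans ((min_le_left _ _).trans (hδ0le k)))) v hv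
      sep := by
        intro s s' z z' hz1 hz2 heq
        have hss : s = s' := by
          by_contra hne
          exact hdd (s, s') hne z z'
            (hz1.trans_le ((min_le_right _ _).trans ((min_le_right _ _).trans (hδ1le (s, s')))))
            (hz2.trans_le ((min_le_right _ _).trans ((min_le_right _ _).trans (hδ1le (s, s')))))
            heq
        subst hss
        refine ⟨rfl, ?_⟩
        have h1 : HasValue (Qb s z) (t (κ s)) z := ordGE_of_le_ord (hunif s z hz1).ge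
        have h2 : HasValue (Qb s z) (t (κ s)) z' := by
          rw [heq]
          exact ordGE_of_le_ord (hunif s z' hz2).ge
        exact h1.unique h2 }
  -- Step 3: regular functions have continuous values along the sheets
  have hHol : ∀ s (f : F), OrdGE (Qb s 0) f 0 → ∃ r > 0, ∃ φ : ℂ → ℂ, ContinuousAt φ 0 ∧
      ∀ z : ℂ, ‖z‖ < r → HasValue (Qb s z) f (φ z) := by
    intro s f hf
    have hf0 : 0 ≤ (Qb s 0).ord f := by
      rcases hf with h | h
      · rw [h, Place.ord_zero]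
      · exact h
    obtain ⟨hev, han⟩ := (hch s).analytic f 0 (Metric.mem_ball_self (hch s).pos) hf0
    obtain ⟨r, hr, hrb'⟩ := Metric.eventually_nhds_iff.mp hev
    exact ⟨r, hr, fun z => ev (Qb s z) f, han.continuousAt, fun z hz' =>
      hasValue_ev hEv x hx _ (hrb' (by rw [dist_zero_right]; exact hz'))⟩
  -- Step 4: the core
  have hfin : Module.Finite ℂ (riemannRochSpace (∑ s, Finsupp.single (Qb s 0) (1 : ℤ))) :=
    ((hR ℂ F x hx).1 _).2
  obtain ⟨ρ', hρ', hρ'ρ, hconst, hmain⟩ := coreB_inj hB hHol hfin hNS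
  exact ⟨ρ', hρ', hρ'ρ.trans (min_le_left _ _), hconst, hmain⟩

end Adapter

/-- **INJ** (route LA / CORE B): `helper3813.Stmt_INJ` with the extra hypothesis `0 < rb`
(without it the landed statement fails in genus `0` with `S = Empty`). -/
def Stmt_INJ2 : Prop :=
  ∀ (F : Type) [Field F] [Algebra ℂ F] (x : F), Transcendental ℂ x →
    ∀ [FiniteDimensional ℂ⟮x⟯ F]
    (S : Type) [Fintype S] [DecidableEq S]
    (κ : S → Fin (genusFF ℂ F)) (main : Fin (genusFF ℂ F) → S)
    (t : Fin (genusFF ℂ F) → F) (Qb : S → ℂ → Place ℂ F) (rb : ℝ),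
    0 < rb →
    (∀ k, κ (main k) = k) →
    (∀ s, IsChart (t (κ s)) (Qb s) rb) →
    (∀ (k : Fin (genusFF ℂ F)) (v : Place ℂ F), 0 < v.ord (t k) → ∃ s, κ s = k ∧ v = Qb s 0) →
    Function.Injective (fun s => Qb s 0) →
    (∀ k s, 0 ≤ (Qb s 0).ord (t k)) →
    IsNonspecial (sumDiv fun k => Qb (main k) 0) →
    ∃ ε > 0, ε ≤ rb ∧ ∀ q q' : Fin (genusFF ℂ F) → ℂ, (∀ k, ‖q k‖ < ε) → (∀ k, ‖q' k‖ < ε) →
      sumDiv (fun k => Qb (main k) (q k)) - sumDiv (fun k => Qb (main k) (q' k))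
        ∈ Divisor.principal (K := ℂ) (F := F) →
      q = q'

/-- `Stmt_INJ2` from the Spec statements `Stmt_Ev`, `Stmt_Riemann`, `Stmt_FibreUnram`. -/
theorem inj2_of (hEv : Stmt_Ev.{0, 0}) (hR : Stmt_Riemann.{0, 0}) (hFU : Stmt_FibreUnram) :
    Stmt_INJ2 := by
  intro F _ _ x hx _ S _ _ κ main t Qb rb hrb hκ hch hz hinj _ hns
  obtain ⟨ε, hε, hεrb, -, hmain⟩ := inj_of_charts hEv hR hFU x hx κ main t Qb rb hrb hκ hch hz
    hinj (fun f hf => const_of_mem_rr_of_nonspecial hR x hx _ hns hf)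
  exact ⟨ε, hε, hεrb, hmain⟩

/-- The landed `helper3813.Stmt_INJ` implies `Stmt_INJ2` (so consumers of `Stmt_INJ2` lose
nothing). -/
theorem inj2_of_inj (h : Fermat.Agent.S27.helper3813.Stmt_INJ) : Stmt_INJ2 := by
  intro F _ _ x hx _ S _ _ κ main t Qb rb _ hκ hch hz hinj hreg hns
  exact h F x hx S κ main t Qb rb hκ hch hz hinj hreg hns

end

end Fermat.Agent.S27.helper1718
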