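import Fermat.Agent.S27.helper8746_KoenigsLog
import Fermat.Agent.S27.helper1445_LatticeTorsion

/-!
# S27, CORE B, piece (LOG), homomorphism form

`exists_addMonoidHom_of_group_chunk`: a local analytic group chunk `m` on a complex Banach space
`V`, turned into addition by a map `ψ : V → J` which is injective near `0`, gives a homomorphism
`E : V →+ J` with discrete kernel and a continuous change of coordinates `G` near `0` with
`ψ a = E (G a)`.  (Koenigs logarithm `helper8746_KoenigsLog` + extension of local homomorphisms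
`helper1445.exists_addMonoidHom_of_local`.)
-/

namespace Fermat.Agent.S27.helper8746

open Metric Set

variable {V : Type*} [NormedAddCommGroup V] [NormedSpace ℂ V] [CompleteSpace V]
  {J : Type*} [AddCommGroup J]

/-- **(LOG), hom form.**  `ψ : V → J` injective on `ball 0 r`, `m` holomorphic on
`ball 0 r ×ˢ ball 0 r` with `m 0 0 = 0` and `ψ (m a b) = ψ a + ψ b`.  Then there is a
homomorphism `E : V →+ J`, injective at `0` on `ball 0 eps` (so its kernel is discrete), with
`E (ball 0 eps) ⊆ ψ (ball 0 r)`, and a continuous `G` on `ball 0 delta`, `G 0 = 0`, with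
`ψ a = E (G a)`. -/
theorem exists_addMonoidHom_of_group_chunk {ψ : V → J} {m : V → V → V} {r : ℝ} (hr : 0 < r)
    (hm : DifferentiableOn ℂ (fun p : V × V => m p.1 p.2) (ball 0 r ×ˢ ball 0 r))
    (hm00 : m 0 0 = 0)
    (hadd : ∀ a ∈ ball (0 : V) r, ∀ b ∈ ball (0 : V) r, ψ (m a b) = ψ a + ψ b)
    (hinj : InjOn ψ (ball (0 : V) r)) :
    ∃ (E : V →+ J) (eps delta : ℝ) (G : V → V), 0 < eps ∧ 0 < delta ∧ delta ≤ r ∧
      (∀ w : V, E w = 0 → ‖w‖ < eps → w = 0) ∧
      (∀ v : V, ‖v‖ < eps → ∃ a ∈ ball (0 : V) r, E v = ψ a) ∧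
      ContinuousOn G (ball (0 : V) delta) ∧ G 0 = 0 ∧
      ∀ a ∈ ball (0 : V) delta, ‖G a‖ < eps ∧ ψ a = E (G a) := by
  obtain ⟨eps, heps, e, he_add, he_inj, he_img, delta, hdelta, hdr, G, hGc, hG0, hG⟩ :=
    exists_local_chart hr hm hm00 hadd hinj
  obtain ⟨E, hE⟩ := helper1445.exists_addMonoidHom_of_local heps e he_add
  refine ⟨E, eps, delta, G, heps, hdelta, hdr, ?_, ?_, hGc, hG0, ?_⟩
  · intro w hw hwn
    rw [hE w hwn] at hw
    exact he_inj w hwn hw
  · intro v hv
    obtain ⟨a, ha, hav⟩ := he_img v hv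
    exact ⟨a, ha, by rw [hE v hv, hav]⟩
  · intro a ha
    obtain ⟨h1, h2⟩ := hG a ha
    exact ⟨h1, by rw [hE _ h1, h2]⟩

end Fermat.Agent.S27.helper8746
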