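import Fermat.Agent.S27.helper6247_Spec
import Fermat.Agent.S27.helper3813_CoreBStmt
import Fermat.Agent.S27.helper8746_KoenigsHom
import Fermat.Agent.S24.helper483_PlacesFF

/-!
# S27, CORE B (architect helper27; route LA, findings #2048 of helper3813)

Second, independent proof of the core interface `helper6247.Stmt_AJ` of the captain's Spec
(`Fermat/Agent/S27/helper6247_Spec.lean`), with NO Weil differentials, NO abelian integrals and
NO derivative identity ("infinitesimal Abel").  Vocabulary = the captain's (`IsChart`, `ev`,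
`cls`, `pt`, `sumDiv`, `IsNonspecial`); nothing new is defined except `Prop`-valued statements.

```
 helper3813.Stmt_T2   Stmt_INJpos   helper3093.Stmt_GoodCoord   (+ captain: ChartExists,
        \                |               /                         GoodTuple, FibreUnram, Ev)
         +------------ Stmt_Chunk  (analytic group chunk at a nonspecial base;
                           |        assembly `chunk_of` in `helper27_CoreBChunk.lean`)
                           |   + Koenigs logarithm (helper8746, on main, used directly)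
                      Stmt_AJloc                     Stmt_Lift (pure topology; helper9146)
                           +----------------------------+
                                        |
                            helper6247.Stmt_AJ   (core interface, verbatim)
```

Proved in this file: `ajloc_of_chunk : Stmt_Chunk → Stmt_AJloc` and
`aj_of_ajloc : Stmt_Lift → Stmt_AJloc → helper6247.Stmt_AJ`, hence
`aj_of_coreB : Stmt_Chunk → Stmt_Lift → helper6247.Stmt_AJ`.
-/

set_option autoImplicit false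

open AlgebraicCurve IntermediateField
open scoped Topology

namespace Fermat.Agent.S27.helper27

open Fermat.Agent.S27.helper6247

noncomputable section

/-! ## Pure analysis / topology leaves (Mathlib only) -/

/-- **LIFT (monodromy on a disc).**  `E : ℂ^g → J` a homomorphism with discrete kernel,
`c : ℂ → J` a map on the disc of radius `r` which is locally (around every `s₀` of the disc)
of the form `c (s₀ + s) = c s₀ + E (G₀ s)` with `G₀` continuous, `G₀ 0 = 0`.  Then `c = E ∘ G`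
on the whole disc for ONE continuous `G`.

Proof sketch: two continuous lifts on a connected set which agree at one point agree everywhere
(their difference is continuous with values in the discrete kernel).  For `ρ < r` the closed
disc of radius `ρ` is compact, so there is a Lebesgue number `λ` such that every disc of radius
`λ` centred in it carries a local lift; extend a lift from `ball 0 (k λ / 2)` to
`ball 0 ((k+1) λ / 2)` using the local lift on `ball s' λ` (`‖s'‖ < k λ / 2`) normalised to agree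
at `s'`; two such extensions agree on overlaps because the midpoint of the two centres lies in
both discs and in the old ball.  Finally glue over `ρ → r`. -/
def Stmt_Lift : Prop :=
  ∀ (g : ℕ) (J : Type) [AddCommGroup J] (E : (Fin g → ℂ) →+ J),
    (∃ ε > 0, ∀ w : Fin g → ℂ, E w = 0 → ‖w‖ < ε → w = 0) →
    ∀ (r : ℝ) (c : ℂ → J), c 0 = 0 →
    (∀ s₀ ∈ Metric.ball (0 : ℂ) r, ∃ δ > 0, ∃ G₀ : ℂ → Fin g → ℂ,
        ContinuousOn G₀ (Metric.ball (0 : ℂ) δ) ∧ G₀ 0 = 0 ∧
        ∀ s ∈ Metric.ball (0 : ℂ) δ, c (s₀ + s) - c s₀ = E (G₀ s)) →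
    ∃ G : ℂ → Fin g → ℂ, ContinuousOn G (Metric.ball (0 : ℂ) r) ∧
      ∀ s ∈ Metric.ball (0 : ℂ) r, c s = E (G s)

/-! ## Curve statements (`K = ℂ`, captain's vocabulary) -/

/-- **CHUNK.**  The analytic group chunk of the curve at a nonspecial base: a map `ψ` from a ball
of `ℂ^g` to `Pic⁰`, injective, with a holomorphic local group law `m` (`ψ (m a b) = ψ a + ψ b`,
`m 0 0 = 0`), such that along EVERY chart the class `[Q s - Q 0]` is `ψ` of a continuous function
of `s` near `0`.  (This is exactly the input of `helper8746.exists_addMonoidHom_of_group_chunk`.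
Output of the geometric assembly `chunk_of`: `ψ q = [∑ C_i(q_i) - ∑ C_i]` for a nonspecial
reduced `C`; `m` from three uses of `helper3813.Stmt_T2`, injectivity from `Stmt_INJpos`.) -/
def Stmt_Chunk : Prop :=
  ∀ (F : Type) [Field F] [Algebra ℂ F] (x : F), Transcendental ℂ x →
    ∀ [FiniteDimensional ℂ⟮x⟯ F],
    ∃ (ψ : (Fin (genusFF ℂ F) → ℂ) → Pic0 ℂ F)
      (m : (Fin (genusFF ℂ F) → ℂ) → (Fin (genusFF ℂ F) → ℂ) → (Fin (genusFF ℂ F) → ℂ))
      (r : ℝ), 0 < r ∧
      Set.InjOn ψ (Metric.ball 0 r) ∧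
      DifferentiableOn ℂ
        (fun p : (Fin (genusFF ℂ F) → ℂ) × (Fin (genusFF ℂ F) → ℂ) => m p.1 p.2)
        (Metric.ball 0 r ×ˢ Metric.ball 0 r) ∧
      m 0 0 = 0 ∧
      (∀ a ∈ Metric.ball (0 : Fin (genusFF ℂ F) → ℂ) r,
        ∀ b ∈ Metric.ball (0 : Fin (genusFF ℂ F) → ℂ) r, ψ (m a b) = ψ a + ψ b) ∧
      ∀ (u : F) (Q : ℂ → Place ℂ F) (ρ : ℝ), IsChart u Q ρ →
        ∃ δ > 0, ∃ w : ℂ → Fin (genusFF ℂ F) → ℂ,
          ContinuousOn w (Metric.ball (0 : ℂ) δ) ∧ w 0 = 0 ∧
          ∀ s ∈ Metric.ball (0 : ℂ) δ, ‖w s‖ < r ∧ cls (pt (Q s) - pt (Q 0)) = ψ (w s)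

/-- **INJ, corrected.**  `helper3813.Stmt_INJ` with the extra hypothesis `0 < rb`.
(As landed, `helper3813.Stmt_INJ` is FALSE for a function field of genus `0`: then
`κ : S → Fin 0` forces `S` empty, there is no chart, `rb` is arbitrary, and the conclusion
`∃ ε > 0, ε ≤ rb` fails for `rb ≤ 0`.  With `0 < rb` the statement is true; for `g = 0` trivially.)
This is the statement consumed by the assembly `chunk_of`. -/
def Stmt_INJpos : Prop :=
  ∀ (F : Type) [Field F] [Algebra ℂ F] (x : F), Transcendental ℂ x →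
    ∀ [FiniteDimensional ℂ⟮x⟯ F]
    (S : Type) [Fintype S] [DecidableEq S]
    (κ : S → Fin (genusFF ℂ F)) (main : Fin (genusFF ℂ F) → S)
    (t : Fin (genusFF ℂ F) → F) (Qb : S → ℂ → Place ℂ F) (rb : ℝ),
    0 < rb →
    (∀ k, κ (main k) = k) →
    (∀ s, IsChart (t (κ s)) (Qb s) rb) →
    (∀ (k : Fin (genusFF ℂ F)) (v : Place ℂ F), 0 < v.ord (t k) → ∃ s, κ s = k ∧ v = Qb s 0) →
    Function.Injective (fun s => Qb s 0) →
    (∀ k s, 0 ≤ (Qb s 0).ord (t k)) →
    IsNonspecial (sumDiv fun k => Qb (main k) 0) →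
    ∃ ε > 0, ε ≤ rb ∧ ∀ q q' : Fin (genusFF ℂ F) → ℂ, (∀ k, ‖q k‖ < ε) → (∀ k, ‖q' k‖ < ε) →
      sumDiv (fun k => Qb (main k) (q k)) - sumDiv (fun k => Qb (main k) (q' k))
        ∈ Divisor.principal (K := ℂ) (F := F) →
      q = q'

/-- The uncorrected statement implies the corrected one (trivially). -/
theorem injpos_of_inj (h : helper3813.Stmt_INJ) : Stmt_INJpos := by
  intro F _ _ x hx _ S _ _ κ main t Qb rb _ h1 h2 h3 h4 h5 h6
  exact h F x hx S κ main t Qb rb h1 h2 h3 h4 h5 h6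

/-- Local form of the core interface `helper6247.Stmt_AJ`: the continuous function `G` is only
required near the centre of each chart. -/
def Stmt_AJloc : Prop :=
  ∀ (F : Type) [Field F] [Algebra ℂ F] (x : F), Transcendental ℂ x →
    ∀ [FiniteDimensional ℂ⟮x⟯ F],
    ∃ E : (Fin (genusFF ℂ F) → ℂ) →+ Pic0 ℂ F,
      (∀ (u : F) (Q : ℂ → Place ℂ F) (r : ℝ), IsChart u Q r →
        ∃ δ > 0, ∃ G : ℂ → Fin (genusFF ℂ F) → ℂ,
          ContinuousOn G (Metric.ball (0 : ℂ) δ) ∧ G 0 = 0 ∧
          ∀ s ∈ Metric.ball (0 : ℂ) δ, cls (pt (Q s) - pt (Q 0)) = E (G s)) ∧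
      (∃ ε > 0, ∀ w : Fin (genusFF ℂ F) → ℂ, E w = 0 → ‖w‖ < ε → w = 0)

/-! ## Small lemmas on the captain's vocabulary -/

section Lemmas

variable {K : Type*} {F : Type*} [Field K] [Field F] [Algebra K F]

theorem pt_sub_pt_mem_degZero (hdeg : ∀ v : Place K F, v.deg = 1) (P P' : Place K F) :
    pt P - pt P' ∈ Divisor.degZero (K := K) (F := F) := by
  rw [Divisor.mem_degZero, map_sub, pt, pt, Divisor.degree_single, Divisor.degree_single,
    hdeg, hdeg]
  simp

theorem cls_zero : cls (0 : Divisor K F) = 0 := by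
  have h : (0 : Divisor K F) ∈ Divisor.degZero (K := K) (F := F) := zero_mem _
  rw [cls, dif_pos h]
  rfl

theorem cls_sub {D₁ D₂ : Divisor K F} (h₁ : D₁ ∈ Divisor.degZero (K := K) (F := F))
    (h₂ : D₂ ∈ Divisor.degZero (K := K) (F := F)) :
    cls (D₁ - D₂) = cls D₁ - cls D₂ := by
  have h₃ : D₁ - D₂ ∈ Divisor.degZero (K := K) (F := F) := sub_mem h₁ h₂
  rw [cls, cls, cls, dif_pos h₁, dif_pos h₂, dif_pos h₃]
  rfl

theorem cls_add {D₁ D₂ : Divisor K F} (h₁ : D₁ ∈ Divisor.degZero (K := K) (F := F))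
    (h₂ : D₂ ∈ Divisor.degZero (K := K) (F := F)) :
    cls (D₁ + D₂) = cls D₁ + cls D₂ := by
  have h₃ : D₁ + D₂ ∈ Divisor.degZero (K := K) (F := F) := add_mem h₁ h₂
  rw [cls, cls, cls, dif_pos h₁, dif_pos h₂, dif_pos h₃]
  rfl

/-- A degree zero divisor with trivial class is principal. -/
theorem mem_principal_of_cls_eq_zero {D : Divisor K F}
    (h : D ∈ Divisor.degZero (K := K) (F := F)) (h0 : cls D = 0) :
    D ∈ Divisor.principal (K := K) (F := F) := by
  rw [cls, dif_pos h] at h0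
  have := (QuotientAddGroup.eq_zero_iff (⟨D, h⟩ : Divisor.degZero (K := K) (F := F))).mp h0
  exact this

theorem cls_eq_zero_of_mem_principal {D : Divisor K F}
    (h : D ∈ Divisor.degZero (K := K) (F := F))
    (hp : D ∈ Divisor.principal (K := K) (F := F)) : cls D = 0 := by
  rw [cls, dif_pos h]
  exact (QuotientAddGroup.eq_zero_iff (⟨D, h⟩ : Divisor.degZero (K := K) (F := F))).mpr hp

end Lemmas

section ChartLemmas

variable {F : Type*} [Field F] [Algebra ℂ F]

/-- Re-centring a chart at one of its points. -/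
theorem isChart_recenter {u : F} {Q : ℂ → Place ℂ F} {r : ℝ} (h : IsChart u Q r) {s₀ : ℂ}
    (hs₀ : ‖s₀‖ < r) :
    IsChart (u - algebraMap ℂ F s₀) (fun s => Q (s₀ + s)) (r - ‖s₀‖) where
  pos := sub_pos.mpr hs₀
  unif := by
    intro s hs
    have hs' : s₀ + s ∈ Metric.ball (0 : ℂ) r := by
      rw [Metric.mem_ball, dist_zero_right] at hs ⊢
      calc ‖s₀ + s‖ ≤ ‖s₀‖ + ‖s‖ := norm_add_le _ _
        _ < r := by linarith
    have := h.unif _ hs'
    rwa [map_add, ← sub_sub] at this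
  analytic := by
    intro f s₁ hs₁ hord
    have hs' : s₀ + s₁ ∈ Metric.ball (0 : ℂ) r := by
      rw [Metric.mem_ball, dist_zero_right] at hs₁ ⊢
      calc ‖s₀ + s₁‖ ≤ ‖s₀‖ + ‖s₁‖ := norm_add_le _ _
        _ < r := by linarith
    obtain ⟨h1, h2⟩ := h.analytic f (s₀ + s₁) hs' hord
    refine ⟨?_, ?_⟩
    · have hc : Filter.Tendsto (fun s : ℂ => s₀ + s) (𝓝 s₁) (𝓝 (s₀ + s₁)) :=
        (continuous_const.add continuous_id).tendsto s₁
      exact hc.eventually h1
    · have hf : AnalyticAt ℂ (fun s : ℂ => s₀ + s) s₁ := analyticAt_const.add analyticAt_id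
      exact AnalyticAt.comp (g := fun s => ev (Q s) f) (f := fun s : ℂ => s₀ + s) h2 hf

/-- Shrinking the radius of a chart. -/
theorem isChart_mono {u : F} {Q : ℂ → Place ℂ F} {r r' : ℝ} (h : IsChart u Q r)
    (hr' : 0 < r') (hle : r' ≤ r) : IsChart u Q r' where
  pos := hr'
  unif := fun s hs => h.unif s (Metric.ball_subset_ball hle hs)
  analytic := fun f s₀ hs₀ hord => h.analytic f s₀ (Metric.ball_subset_ball hle hs₀) hord

end ChartLemmas

/-! ## Assembly: chunk + logarithm ⟹ local core interface ⟹ core interface -/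

theorem ajloc_of_chunk (hC : Stmt_Chunk) : Stmt_AJloc := by
  intro F _ _ x hx _
  obtain ⟨ψ, m, r, hr, hinj, hm, hm00, hadd, hchart⟩ := hC F x hx
  obtain ⟨E, ε, δ, L, hε, hδ, -, hker, -, hLc, hL0, hLe⟩ :=
    helper8746.exists_addMonoidHom_of_group_chunk hr hm hm00 hadd hinj
  refine ⟨E, ?_, ⟨ε, hε, hker⟩⟩
  intro u Q ρ hQ
  obtain ⟨δ₁, hδ₁, w, hwc, hw0, hw⟩ := hchart u Q ρ hQ
  have hcont : ContinuousAt w 0 := hwc.continuousAt (Metric.ball_mem_nhds 0 hδ₁)
  have hev : ∀ᶠ s in 𝓝 (0 : ℂ), ‖w s‖ < δ := by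
    have h1 : Filter.Tendsto (fun s => ‖w s‖) (𝓝 (0 : ℂ)) (𝓝 ‖w 0‖) := hcont.norm
    rw [hw0, norm_zero] at h1
    exact h1.eventually (gt_mem_nhds hδ)
  obtain ⟨δ₂, hδ₂, hball⟩ := Metric.eventually_nhds_iff.mp hev
  have hsmall : ∀ s ∈ Metric.ball (0 : ℂ) (min δ₁ δ₂),
      w s ∈ Metric.ball (0 : Fin (genusFF ℂ F) → ℂ) δ := by
    intro s hs
    have h2 : dist s 0 < δ₂ := lt_of_lt_of_le (Metric.mem_ball.mp hs) (min_le_right _ _)
    have := hball h2
    rwa [Metric.mem_ball, dist_zero_right]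
  refine ⟨min δ₁ δ₂, lt_min hδ₁ hδ₂, fun s => L (w s), ?_, by show L (w 0) = 0; rw [hw0, hL0], ?_⟩
  · exact hLc.comp (hwc.mono (Metric.ball_subset_ball (min_le_left _ _))) hsmall
  · intro s hs
    have hs1 : s ∈ Metric.ball (0 : ℂ) δ₁ := Metric.ball_subset_ball (min_le_left _ _) hs
    obtain ⟨_, h2⟩ := hw s hs1
    obtain ⟨_, h4⟩ := hLe (w s) (hsmall s hs)
    rw [h2, h4]

theorem aj_of_ajloc (hLift : Stmt_Lift) (h : Stmt_AJloc) : Stmt_AJ := by
  intro F _ _ x hx _
  obtain ⟨E, hE, hdisc⟩ := h F x hx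
  have hdeg : ∀ v : Place ℂ F, v.deg = 1 := fun v =>
    Fermat.Agent.S24.helper483.place_deg_eq_one x hx v
  refine ⟨E, fun u Q r hQ => ?_, hdisc⟩
  refine hLift (genusFF ℂ F) (Pic0 ℂ F) E hdisc r (fun s => cls (pt (Q s) - pt (Q 0)))
    (by rw [sub_self, cls_zero]) ?_
  intro s₀ hs₀
  have hs₀' : ‖s₀‖ < r := by simpa [Metric.mem_ball, dist_zero_right] using hs₀
  obtain ⟨δ, hδ, G₀, hG₀c, hG₀0, hG₀⟩ := hE _ _ _ (isChart_recenter hQ hs₀')
  refine ⟨δ, hδ, G₀, hG₀c, hG₀0, fun s hs => ?_⟩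
  have h1 := hG₀ s hs
  simp only [add_zero] at h1
  rw [← h1, ← cls_sub (pt_sub_pt_mem_degZero hdeg _ _) (pt_sub_pt_mem_degZero hdeg _ _)]
  congr 1
  abel

/-- **CORE B delivers the core interface.** -/
theorem aj_of_coreB (hC : Stmt_Chunk) (hLift : Stmt_Lift) : Stmt_AJ :=
  aj_of_ajloc hLift (ajloc_of_chunk hC)

end

end Fermat.Agent.S27.helper27
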