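import Fermat.Agent.S27.helper1718_InjOf
import Fermat.Agent.S27.helper27_CoreBSpec

/-!
# S27, CORE B: `helper27.Stmt_INJpos`

`helper27.Stmt_INJpos` (= `helper3813.Stmt_INJ` with the extra hypothesis `0 < rb`) is literally
`helper1718.Stmt_INJ2`, proved in `helper1718_InjOf.lean`.
-/

set_option autoImplicit false

namespace Fermat.Agent.S27.helper1718

open Fermat.Agent.S27.helper6247

/-- **INJ (CORE B)** in the shape consumed by `helper27_CoreBChunk`. -/
theorem inj_of (hEv : Stmt_Ev.{0, 0}) (hR : Stmt_Riemann.{0, 0}) (hFU : Stmt_FibreUnram) :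
    Fermat.Agent.S27.helper27.Stmt_INJpos :=
  inj2_of hEv hR hFU

/-- Unconditional form is obtained by feeding the landed proofs of `Stmt_Ev`, `Stmt_Riemann`
and `Stmt_FibreUnram`; the two INJ statements coincide. -/
theorem stmt_INJpos_iff : Fermat.Agent.S27.helper27.Stmt_INJpos ↔ Stmt_INJ2 := Iff.rfl

end Fermat.Agent.S27.helper1718
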