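import Fermat.Agent.S27.helper3351_TabAlg

/-!
# S27, algebraic route: second-level specification (architect helper3351)

Interfaces below the top-level `Spec_W` and `Spec_Fp` of `helper3351_AlgSpec`, with the two
assemblies proved:

* `spec_W_of`  : `Stmt_Dedekind → Stmt_CountIff → Stmt_FF → Stmt_Transport → Stmt_W0 → Spec_W`
* `spec_Fp_of` : `Stmt_Dedekind → Stmt_CountIff → Stmt_FF → Stmt_Frob → Stmt_CharP → Spec_Fp`

Table-algebra library (W1): `Stmt_Domain`, `Stmt_Dedekind`, `Stmt_Regular`, `Stmt_CountIff`,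
`Stmt_FF`.  Characteristic `0` side: `Stmt_W0` (+ `Stmt_Transport`).  Characteristic `p` side:
`Stmt_Frob` (Frobenius datum on the function field of a table over `𝔽̄_p`) and `Stmt_CharP`
(the semilinear zeta-function core, sub-architect helper5747).
-/

set_option autoImplicit false

open Polynomial AlgebraicCurve IntermediateField

namespace Fermat.Agent.S27.helper3351

universe u v w

/-! ## W1: the table-algebra library -/

/-- **W1a** The algebra of a table is a domain (the weight is multiplicative). -/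
def Stmt_Domain : Prop :=
  ∀ (K : Type u) [Field K] (τ : WType) (T : Tab τ K) [Fact T.PreValid], IsDomain T.Alg

/-- **W1b** Over an algebraically closed field the algebra of a valid table is a Dedekind
domain. -/
def Stmt_Dedekind : Prop :=
  ∀ (K : Type u) [Field K] [IsAlgClosed K] (τ : WType) (T : Tab τ K) [Fact T.Valid],
    IsDedekindDomain T.Alg

/-- **W1b'** Conversely, an integrally closed table algebra over an algebraically closed field
is regular at every point, i.e. the table is valid. -/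
def Stmt_Regular : Prop :=
  ∀ (K : Type u) [Field K] [IsAlgClosed K] (τ : WType) (T : Tab τ K) [Fact T.PreValid]
    [IsDomain T.Alg], IsIntegrallyClosed T.Alg → T.Valid

/-- **W1c** `Count n` says that the class group of the table algebra has exactly `n^(2g)`
elements killed by `n`. -/
def Stmt_CountIff : Prop :=
  ∀ (K : Type u) [Field K] [IsAlgClosed K] (τ : WType) (T : Tab τ K) [Fact T.Valid]
    [IsDedekindDomain T.Alg] (n : ℕ), 0 < n →
    (T.Count n ↔ Nat.card {c : ClassGroup T.Alg // c ^ n = 1} = n ^ (2 * τ.genus))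

/-- **W1d** The function field `F = Frac (Alg T)` of a valid table over an algebraically closed
field, in the Prelude language: principal divisors, residue fields, genus, `Pic⁰ = Cl`,
constants, and `F` is finite over `K(x)`. -/
def Stmt_FF : Prop :=
  ∀ (K : Type u) [Field K] [IsAlgClosed K] (τ : WType) (T : Tab τ K) [Fact T.Valid]
    [IsDedekindDomain T.Alg],
    HasPrincipalDivisors K (FractionRing T.Alg) ∧
    (∀ v : Place K (FractionRing T.Alg), Module.Finite K v.ResidueField) ∧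
    genusFF K (FractionRing T.Alg) = τ.genus ∧
    (∀ n : ℕ, Nat.card (Pic0.torsion K (FractionRing T.Alg) n)
      = Nat.card {c : ClassGroup T.Alg // c ^ n = 1}) ∧
    (∀ f : FractionRing T.Alg, (∀ v : Place K (FractionRing T.Alg), 0 ≤ v.ord f) →
      f ∈ Set.range (algebraMap K (FractionRing T.Alg))) ∧
    Transcendental K (algebraMap T.Alg (FractionRing T.Alg) (Tab.Alg.x T)) ∧
    FiniteDimensional K⟮algebraMap T.Alg (FractionRing T.Alg) (Tab.Alg.x T)⟯
      (FractionRing T.Alg)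

/-! ### W1 API: exact shapes of the lemmas exported by W1a/W1b (consumed by W1c, W1d, W0,
`Stmt_Frob`); hypothesis-passing: consumers take these `Prop`s as hypotheses. -/

/-- The number of non-gaps `≤ t` of a type. -/
def WType.nongaps (τ : WType) (t : ℕ) : ℕ :=
  ((Finset.range (t + 1)).filter fun s => ∃ i : Fin τ.m, (i : ℕ) = s % τ.m ∧ τ.ρ i ≤ s).card

/-- (combinatorics of a good type) `#nongaps ≤ t` is `≥ t + 1 - g`, with equality for large `t`. -/
def Stmt_Nongaps : Prop :=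
  ∀ τ : WType, τ.Good →
    (∀ t : ℕ, t + 1 ≤ τ.nongaps t + τ.genus) ∧
    (∀ t : ℕ, (∀ i, τ.ρ i ≤ t + τ.m) → τ.nongaps t + τ.genus = t + 1)

/-- **W1a-1** The weight is multiplicative. -/
def Stmt_WtMul : Prop :=
  ∀ (K : Type u) [Field K] (τ : WType) (T : Tab τ K) [Fact T.PreValid] (a b : T.Alg),
    T.wt (a * b).toElt = T.wt a.toElt + T.wt b.toElt

/-- **W1a-2** `wtLE` is `wt ≤`; `wt a = ⊥ ↔ a = 0`; weight of a sum. -/
def Stmt_WtBasic : Prop :=
  ∀ (K : Type u) [Field K] (τ : WType) (T : Tab τ K) [Fact T.PreValid],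
    (∀ (a : T.Alg) (t : ℕ), wtLE a.toElt t ↔ T.wt a.toElt ≤ (t : WithBot ℕ)) ∧
    (∀ a : T.Alg, T.wt a.toElt = ⊥ ↔ a = 0) ∧
    (∀ a b : T.Alg, T.wt (a + b).toElt ≤ max (T.wt a.toElt) (T.wt b.toElt)) ∧
    (∀ (c : K) (a : T.Alg), c ≠ 0 → T.wt (c • a).toElt = T.wt a.toElt) ∧
    (∀ a b : T.Alg, a ≠ 0 → T.wt a.toElt = T.wt b.toElt →
      ∃ c : K, c ≠ 0 ∧ T.wt (a - c • b).toElt < T.wt a.toElt)

/-- **W1a-3** Dimension of `L(t·∞)` and of `B/bB`. -/
def Stmt_WtDim : Prop :=
  ∀ (K : Type u) [Field K] (τ : WType) (T : Tab τ K) [Fact T.PreValid],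
    (∀ t : ℕ, Module.Finite K (T.Lspace t) ∧ Module.finrank K (T.Lspace t) = τ.nongaps t) ∧
    (∀ b : T.Alg, b ≠ 0 → Module.Finite K (T.Alg ⧸ Ideal.span {b}) ∧
      ((Module.finrank K (T.Alg ⧸ Ideal.span {b}) : ℕ) : WithBot ℕ) = T.wt b.toElt) ∧
    (∀ a : T.Alg, IsUnit a ↔ T.wt a.toElt = 0)

/-- **W1b-1** The ideal of a point is the kernel of the evaluation, and is maximal. -/
def Stmt_PtIdeal : Prop :=
  ∀ (K : Type u) [Field K] (τ : WType) (T : Tab τ K) [Fact T.PreValid]
    (x₀ : K) (ψ : Fin τ.m → K), T.IsPoint x₀ ψ →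
    (T.ptIdeal x₀ ψ).IsMaximal ∧
    (∀ a : T.Alg, a ∈ T.ptIdeal x₀ ψ ↔ T.evalPt x₀ ψ a.toElt = 0) ∧
    (∀ a b : T.Alg, T.evalPt x₀ ψ (a * b).toElt = T.evalPt x₀ ψ a.toElt * T.evalPt x₀ ψ b.toElt)

/-- **W1b-2** Over an algebraically closed field every maximal ideal is the ideal of a point. -/
def Stmt_MaxIdeal : Prop :=
  ∀ (K : Type u) [Field K] [IsAlgClosed K] (τ : WType) (T : Tab τ K) [Fact T.PreValid]
    (M : Ideal T.Alg), M.IsMaximal → ∃ (x₀ : K) (ψ : Fin τ.m → K), T.IsPoint x₀ ψ ∧ M = T.ptIdeal x₀ ψ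

/-- **W1b-3** `OrdGE` is membership in the power of the ideal of the point. -/
def Stmt_OrdGE : Prop :=
  ∀ (K : Type u) [Field K] (τ : WType) (T : Tab τ K) [Fact T.PreValid]
    (x₀ : K) (ψ : Fin τ.m → K), T.IsPoint x₀ ψ → ∀ (h : T.Alg) (j : ℕ),
    (T.OrdGE x₀ ψ h.toElt j ↔ h ∈ (T.ptIdeal x₀ ψ) ^ j)

/-- **W1b-4** `RegularAt` says that the ideal of the point is principal modulo its square. -/
def Stmt_RegularAt : Prop :=
  ∀ (K : Type u) [Field K] (τ : WType) (T : Tab τ K) [Fact T.PreValid]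
    (x₀ : K) (ψ : Fin τ.m → K), T.IsPoint x₀ ψ →
    (T.RegularAt x₀ ψ ↔
      ∃ π ∈ T.ptIdeal x₀ ψ, T.ptIdeal x₀ ψ = Ideal.span {π} ⊔ (T.ptIdeal x₀ ψ) ^ 2)

/-! ## Characteristic `0`: existence of a table -/

/-- Invariance of the genus and of the torsion of `Pic⁰` under isomorphisms of function
fields. -/
def Stmt_Transport : Prop :=
  ∀ (K : Type u) (F : Type v) (F' : Type w) [Field K] [Field F] [Field F'] [Algebra K F]
    [Algebra K F'],
    (F ≃ₐ[K] F') →
    genusFF K F = genusFF K F' ∧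
      ∀ n : ℕ, Nat.card (Pic0.torsion K F n) = Nat.card (Pic0.torsion K F' n)

/-- **W0** Every function field as in S27 is the function field of a valid table
(Weierstrass normal form at a place). -/
def Stmt_W0 : Prop :=
  ∀ (K : Type u) (F : Type v) [Field K] [Field F] [Algebra K F] [IsAlgClosed K] [CharZero K]
    [IsCurveOver K F] [Algebra.EssFiniteType K F],
    ∃ (τ : WType) (T : Tab τ K) (hT : T.Valid),
      haveI : Fact T.Valid := ⟨hT⟩
      Nonempty (F ≃ₐ[K] FractionRing T.Alg)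

/-! ## Characteristic `p` -/

/-- **Frobenius datum** on the function field of a valid table over `𝔽̄_p`: the coefficientwise
`q`-Frobenius for a `q = p^f` such that all table coefficients lie in `𝔽_q`; it fixes `x` and
the place at infinity `P₀`. -/
def Stmt_Frob : Prop :=
  ∀ (p : ℕ) [Fact p.Prime] (τ : WType) (T : Tab τ (AlgebraicClosure (ZMod p))) [Fact T.Valid]
    [IsDedekindDomain T.Alg],
    ∃ (q f : ℕ) (φ : FractionRing T.Alg ≃+* FractionRing T.Alg)
      (P₀ : Place (AlgebraicClosure (ZMod p)) (FractionRing T.Alg)),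
      0 < f ∧ q = p ^ f ∧
      (∀ a : AlgebraicClosure (ZMod p),
        φ (algebraMap _ (FractionRing T.Alg) a) = algebraMap _ (FractionRing T.Alg) (a ^ q)) ∧
      φ (algebraMap T.Alg (FractionRing T.Alg) (Tab.Alg.x T))
        = algebraMap T.Alg (FractionRing T.Alg) (Tab.Alg.x T) ∧
      (∀ g : FractionRing T.Alg, g ∈ P₀.toValuationSubring ↔ φ g ∈ P₀.toValuationSubring)

/-- **The characteristic-`p` core** (semilinear zeta-function route, #2190): a function field
over an algebraically closed field `k` which is an algebraic closure of a finite field, with a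
Frobenius datum fixing `x` and a place, has `ℓ^(2gn)` classes of `ℓ^n`-torsion, `ℓ ≠ p`. -/
def Stmt_CharP : Prop :=
  ∀ (p : ℕ) [Fact p.Prime] (k F : Type) [Field k] [Field F] [Algebra k F] [CharP k p]
    [IsAlgClosed k] [HasPrincipalDivisors k F]
    (_hres : ∀ v : Place k F, Module.Finite k v.ResidueField)
    (_hconst : ∀ f : F, (∀ v : Place k F, 0 ≤ v.ord f) → f ∈ Set.range (algebraMap k F))
    (q f : ℕ) (_hf : 0 < f) (_hq : q = p ^ f)
    (_hloc : ∀ a : k, ∃ m : ℕ, 0 < m ∧ a ^ (q ^ m) = a)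
    (x : F) (_hx : Transcendental k x) (_hfin : FiniteDimensional k⟮x⟯ F)
    (φ : F ≃+* F) (_hφk : ∀ a : k, φ (algebraMap k F a) = algebraMap k F (a ^ q))
    (_hφx : φ x = x)
    (P₀ : Place k F) (_hP₀ : ∀ g : F, g ∈ P₀.toValuationSubring ↔ φ g ∈ P₀.toValuationSubring)
    (ℓ : ℕ) [Fact ℓ.Prime] (_hℓ : ℓ ≠ p) (n : ℕ),
    Nat.card (Pic0.torsion k F (ℓ ^ n)) = ℓ ^ (2 * genusFF k F * n)

/-! ## Assemblies -/

/-- `Spec_W` from the table-algebra library and the existence of tables. -/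
theorem spec_W_of (hDed : Stmt_Dedekind.{u}) (hCount : Stmt_CountIff.{u}) (hFF : Stmt_FF.{u})
    (hTr : Stmt_Transport.{u, v, u}) (hW0 : Stmt_W0.{u, v}) :
    Spec_W.{u, v} := by
  intro K F _ _ _ _ _ _ _
  obtain ⟨τ, T, hT, ⟨e⟩⟩ := hW0 K F
  have : Fact T.Valid := ⟨hT⟩
  have : IsDedekindDomain T.Alg := hDed K τ T
  obtain ⟨_, _, hgen, hpic, _, _, _⟩ := hFF K τ T
  obtain ⟨htg, htp⟩ := hTr K F (FractionRing T.Alg) e
  refine ⟨τ, T, hT, ?_, ?_⟩
  · rw [htg, hgen]
  · intro n hn hc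
    rw [htp n, hpic n]
    exact (hCount K τ T n hn).1 hc

/-- Every element of `𝔽̄_p` lies in a finite subfield. -/
theorem exists_pow_eq_self (p : ℕ) [Fact p.Prime] (q f : ℕ) (_hf : 0 < f) (hq : q = p ^ f)
    (a : AlgebraicClosure (ZMod p)) : ∃ m : ℕ, 0 < m ∧ a ^ (q ^ m) = a := by
  have halg : IsAlgebraic (ZMod p) a := Algebra.IsAlgebraic.isAlgebraic a
  have hfd : FiniteDimensional (ZMod p) (ZMod p)⟮a⟯ :=
    IntermediateField.adjoin.finiteDimensional halg.isIntegral
  have hfinite : Finite (ZMod p)⟮a⟯ := Module.finite_of_finite (ZMod p)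
  let _ : Fintype (ZMod p)⟮a⟯ := Fintype.ofFinite _
  obtain ⟨n, -, hn⟩ := FiniteField.card (ZMod p)⟮a⟯ p
  have h1 : (⟨a, mem_adjoin_simple_self _ a⟩ : (ZMod p)⟮a⟯) ^ (p ^ (n : ℕ))
      = ⟨a, mem_adjoin_simple_self _ a⟩ := by
    rw [← hn]
    exact FiniteField.pow_card _
  have h2 : a ^ (p ^ (n : ℕ)) = a := by
    have := congrArg (Subtype.val) h1
    simpa using this
  have h3 : ∀ j : ℕ, a ^ (p ^ ((n : ℕ) * j)) = a := by
    intro j
    induction j with
    | zero => simp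
    | succ j ih => rw [Nat.mul_succ, pow_add, pow_mul, ih, h2]
  refine ⟨n, n.pos, ?_⟩
  rw [hq, ← pow_mul, mul_comm f (n : ℕ)]
  exact h3 f

/-- `Spec_Fp` from the table-algebra library, the Frobenius datum and the char-`p` core. -/
theorem spec_Fp_of (hDed : Stmt_Dedekind.{0}) (hCount : Stmt_CountIff.{0}) (hFF : Stmt_FF.{0})
    (hFrob : Stmt_Frob) (hCore : Stmt_CharP) : Spec_Fp := by
  intro p _ τ ℓ _ k hℓ T hT
  have : Fact T.Valid := ⟨hT⟩
  have : IsDedekindDomain T.Alg := hDed _ τ T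
  obtain ⟨hpd, hres, hgen, hpic, hconst, hx, hfin⟩ := hFF _ τ T
  obtain ⟨q, f, φ, P₀, hf, hq, hφk, hφx, hP₀⟩ := hFrob p τ T
  have hpos : 0 < ℓ ^ k := pow_pos (Fact.out : ℓ.Prime).pos k
  have key := hCore p (AlgebraicClosure (ZMod p)) (FractionRing T.Alg) hres hconst q f hf hq
    (exists_pow_eq_self p q f hf hq) _ hx hfin φ hφk hφx P₀ hP₀ ℓ hℓ k
  rw [hCount _ τ T (ℓ ^ k) hpos, ← hpic (ℓ ^ k), key, hgen, ← pow_mul]
  congr 1
  ring

end Fermat.Agent.S27.helper3351
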