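/-
S27, algebraic track, leaf W1a-2 DIMENSIONS (board row 1189, seat helper1913):
`Stmt_WtBasic → Stmt_WtMul → Stmt_Nongaps → Stmt_WtDim` (hypothesis-passing; the `Prop`s are
those of `helper3351_WSpec`).

* `dim L(t) = #nongaps ≤ t`: `L(t) ≃ ∏_i K[x]_{< cnt i}` and a fibrewise count;
* `dim B/bB = wt b`: rank–nullity for `L(t + w) → B/bB` (kernel `b·L(t)`) and stabilisation of
  the images for `t` in the equality range of `Stmt_Nongaps`;
* `IsUnit a ↔ wt a = 0`.
-/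
import Fermat.Agent.S27.helper3351_WSpec

set_option autoImplicit false

noncomputable section

open Polynomial

namespace Fermat.Agent.S27.helper1913

open Fermat.Agent.S27.helper3351

universe u

/-! ### Combinatorics: counting non-gaps fibrewise -/

/-- The number of exponents `e` with `m * e + ρ ≤ t`. -/
def cnt (m ρ t : ℕ) : ℕ := if ρ ≤ t then (t - ρ) / m + 1 else 0

theorem lt_cnt_iff {m : ℕ} (hm : 0 < m) (ρ t n : ℕ) : n < cnt m ρ t ↔ m * n + ρ ≤ t := by
  unfold cnt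
  split_ifs with h
  · rw [Nat.lt_succ_iff, Nat.le_div_iff_mul_le hm, Nat.mul_comm n m]
    omega
  · constructor
    · intro h'
      omega
    · intro h'
      have := Nat.zero_le (m * n)
      omega

theorem nongaps_eq_sum (τ : WType) (hτ : τ.Good) (t : ℕ) :
    τ.nongaps t = ∑ i : Fin τ.m, cnt τ.m (τ.ρ i) t := by
  classical
  have hm : 0 < τ.m := hτ.1
  unfold WType.nongaps
  rw [Finset.card_eq_sum_card_fiberwise (f := fun s => (⟨s % τ.m, Nat.mod_lt _ hm⟩ : Fin τ.m))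
    (t := Finset.univ) (fun _ _ => Finset.mem_univ _)]
  refine Finset.sum_congr rfl fun i _ => ?_
  have himg : (Finset.filter (fun s => (⟨s % τ.m, Nat.mod_lt _ hm⟩ : Fin τ.m) = i)
      ((Finset.range (t + 1)).filter fun s => ∃ i : Fin τ.m, (i : ℕ) = s % τ.m ∧ τ.ρ i ≤ s)) =
      (Finset.range (cnt τ.m (τ.ρ i) t)).image (fun e => τ.ρ i + τ.m * e) := by
    ext s
    simp only [Finset.mem_filter, Finset.mem_range, Finset.mem_image]
    constructor
    · rintro ⟨⟨hst, j, hj, hρ⟩, hsi⟩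
      have hji : j = i := by
        rw [← hsi]
        exact Fin.ext hj
      subst hji
      have hmod : s % τ.m = τ.ρ j % τ.m := by
        rw [(hτ.2 j).1, ← hj]
      have hdvd : (s - τ.ρ j) % τ.m = 0 := Nat.sub_mod_eq_zero_of_mod_eq hmod
      have hdvd' : τ.m ∣ s - τ.ρ j := Nat.dvd_of_mod_eq_zero hdvd
      refine ⟨(s - τ.ρ j) / τ.m, ?_, ?_⟩
      · rw [lt_cnt_iff hm, Nat.mul_div_cancel' hdvd']
        omega
      · rw [Nat.mul_div_cancel' hdvd']
        omega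
    · rintro ⟨e, he, rfl⟩
      rw [lt_cnt_iff hm] at he
      have hmod : (τ.ρ i + τ.m * e) % τ.m = (i : ℕ) := by
        rw [Nat.add_mul_mod_self_left, (hτ.2 i).1]
      refine ⟨⟨by omega, i, hmod.symm, by omega⟩, ?_⟩
      exact Fin.ext hmod
  rw [himg, Finset.card_image_of_injective, Finset.card_range]
  intro e e' h
  have h' : τ.m * e = τ.m * e' := by
    have h'' : τ.ρ i + τ.m * e = τ.ρ i + τ.m * e' := h
    omega
  exact Nat.eq_of_mul_eq_mul_left hm h'

/-! ### `dim L(t)` -/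

section Lspace

variable {K : Type u} [Field K] {τ : WType} (T : Tab τ K) [hT : Fact T.PreValid]

theorem mem_Lspace_iff (t : ℕ) (a : T.Alg) : a ∈ T.Lspace t ↔ wtLE a.toElt t := Iff.rfl

theorem smul_toElt (c : K) (a : T.Alg) (i : Fin τ.m) : (c • a).toElt i = C c * a.toElt i := rfl

omit hT in
theorem wtLE_iff_degreeLT (hm : 0 < τ.m) (a : Elt τ K) (t : ℕ) :
    wtLE a t ↔ ∀ i, a i ∈ Polynomial.degreeLT K (cnt τ.m (τ.ρ i) t) := by
  refine forall_congr' fun i => ?_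
  rw [Polynomial.mem_degreeLT]
  by_cases h0 : a i = 0
  · simp [h0]
  · rw [Polynomial.degree_eq_natDegree h0, Nat.cast_lt, lt_cnt_iff hm]
    simp [h0]

/-- `L(t) ≃ ∏_i K[x]_{< cnt i}`. -/
def lspaceEquiv (t : ℕ) :
    T.Lspace t ≃ₗ[K] (∀ i : Fin τ.m, Polynomial.degreeLT K (cnt τ.m (τ.ρ i) t)) where
  toFun a := fun i => ⟨a.1.toElt i, (wtLE_iff_degreeLT hT.out.good.1 a.1.toElt t).mp a.2 i⟩
  invFun f := ⟨Tab.Alg.ofElt T (fun i => (f i).1),
    (wtLE_iff_degreeLT hT.out.good.1 _ t).mpr fun i => (f i).2⟩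
  map_add' a b := by
    funext i
    rfl
  map_smul' c a := by
    funext i
    apply Subtype.ext
    simp only [RingHom.id_apply, Pi.smul_apply, Submodule.coe_smul]
    rw [Polynomial.smul_eq_C_mul]
    rfl
  left_inv a := by
    apply Subtype.ext
    rfl
  right_inv f := by
    funext i
    rfl

/-- `L(t) ≃ ∏_i K^(cnt i)`. -/
def lspaceEquiv' (t : ℕ) :
    T.Lspace t ≃ₗ[K] (∀ i : Fin τ.m, (Fin (cnt τ.m (τ.ρ i) t) → K)) :=
  (lspaceEquiv T t).trans
    (LinearEquiv.piCongrRight fun i => Polynomial.degreeLTEquiv K (cnt τ.m (τ.ρ i) t))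

theorem finite_Lspace (t : ℕ) : Module.Finite K (T.Lspace t) :=
  Module.Finite.equiv (lspaceEquiv' T t).symm

theorem finrank_Lspace (t : ℕ) : Module.finrank K (T.Lspace t) = τ.nongaps t := by
  rw [(lspaceEquiv' T t).finrank_eq, Module.finrank_pi_fintype,
    nongaps_eq_sum τ hT.out.good t]
  refine Finset.sum_congr rfl fun i _ => ?_
  exact Module.finrank_fin_fun K

end Lspace

/-! ### `dim B/bB` and units -/

section Quot

variable {K : Type u} [Field K] {τ : WType} (T : Tab τ K) [hT : Fact T.PreValid]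

/-- The hypotheses (`Stmt_WtBasic`, `Stmt_WtMul`, `Stmt_Nongaps`) in unpacked form, for one
table. -/
structure WtHyp : Prop where
  le_iff : ∀ (a : T.Alg) (t : ℕ), wtLE a.toElt t ↔ T.wt a.toElt ≤ (t : WithBot ℕ)
  bot_iff : ∀ a : T.Alg, T.wt a.toElt = ⊥ ↔ a = 0
  mul : ∀ a b : T.Alg, T.wt (a * b).toElt = T.wt a.toElt + T.wt b.toElt
  sub : ∀ a b : T.Alg, a ≠ 0 → T.wt a.toElt = T.wt b.toElt →
    ∃ c : K, c ≠ 0 ∧ T.wt (a - c • b).toElt < T.wt a.toElt
  nongaps_eq : ∀ t : ℕ, (∀ i, τ.ρ i ≤ t + τ.m) → τ.nongaps t + τ.genus = t + 1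

variable {T}

omit hT in
theorem withBot_cases (x : WithBot ℕ) : x = ⊥ ∨ ∃ n : ℕ, x = (n : WithBot ℕ) := by
  induction x using WithBot.recBotCoe with
  | bot => exact Or.inl rfl
  | coe n => exact Or.inr ⟨n, rfl⟩

theorem WtHyp.mem_Lspace (H : WtHyp T) (a : T.Alg) (t : ℕ) :
    a ∈ T.Lspace t ↔ T.wt a.toElt ≤ (t : WithBot ℕ) := H.le_iff a t

theorem Lspace_mono {s s' : ℕ} (h : s ≤ s') : T.Lspace s ≤ T.Lspace s' :=
  fun _ ha i hi => le_trans (ha i hi) h

theorem WtHyp.exists_mem_Lspace (H : WtHyp T) (a : T.Alg) : ∃ n : ℕ, a ∈ T.Lspace n := by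
  rcases withBot_cases (T.wt a.toElt) with h | ⟨n, h⟩
  · exact ⟨0, (H.mem_Lspace a 0).mpr (by rw [h]; exact bot_le)⟩
  · exact ⟨n, (H.mem_Lspace a n).mpr (by rw [h])⟩

theorem withBot_le_of_add_le (x : WithBot ℕ) (w t : ℕ)
    (h : x + (w : WithBot ℕ) ≤ ((t + w : ℕ) : WithBot ℕ)) : x ≤ (t : WithBot ℕ) := by
  rcases withBot_cases x with rfl | ⟨n, rfl⟩
  · exact bot_le
  · have h' : n + w ≤ t + w := by exact_mod_cast h
    have : n ≤ t := by omega
    exact_mod_cast this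

/-- Multiplication by `b` as a linear map `L(t) → L(t + w)`, `w = wt b`. -/
def mulL (H : WtHyp T) (b : T.Alg) (w : ℕ) (hw : T.wt b.toElt = (w : WithBot ℕ)) (t : ℕ) :
    T.Lspace t →ₗ[K] T.Lspace (t + w) where
  toFun a := ⟨a.1 * b, by
    rw [H.mem_Lspace, H.mul, hw, Nat.cast_add]
    exact add_le_add ((H.mem_Lspace a.1 t).mp a.2) le_rfl⟩
  map_add' a a' := by
    apply Subtype.ext
    simp [add_mul]
  map_smul' c a := by
    apply Subtype.ext
    simp

theorem mulL_injective (H : WtHyp T) (b : T.Alg) (w : ℕ)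
    (hw : T.wt b.toElt = (w : WithBot ℕ)) (t : ℕ) : Function.Injective (mulL H b w hw t) := by
  rw [← LinearMap.ker_eq_bot, LinearMap.ker_eq_bot']
  intro a ha
  have h1 : a.1 * b = 0 := congrArg Subtype.val ha
  have h2 : T.wt (a.1 * b).toElt = ⊥ := (H.bot_iff _).mpr h1
  rw [H.mul, hw, WithBot.add_eq_bot] at h2
  rcases h2 with h2 | h2
  · exact Subtype.ext ((H.bot_iff _).mp h2)
  · exact absurd h2 (WithBot.natCast_ne_bot w)

variable (T) in
/-- The map `L(t) → B/bB`. -/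
def quotL (b : T.Alg) (t : ℕ) : T.Lspace t →ₗ[K] (T.Alg ⧸ Ideal.span {b}) :=
  (Ideal.Quotient.mkₐ K (Ideal.span {b})).toLinearMap.comp (T.Lspace t).subtype

theorem quotL_apply (b : T.Alg) (t : ℕ) (a : T.Lspace t) :
    quotL T b t a = Ideal.Quotient.mk (Ideal.span {b}) a.1 := rfl

theorem range_mulL_eq_ker (H : WtHyp T) (b : T.Alg) (w : ℕ)
    (hw : T.wt b.toElt = (w : WithBot ℕ)) (t : ℕ) :
    LinearMap.range (mulL H b w hw t) = LinearMap.ker (quotL T b (t + w)) := by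
  ext x
  rw [LinearMap.mem_range, LinearMap.mem_ker, quotL_apply, Ideal.Quotient.eq_zero_iff_mem,
    Ideal.mem_span_singleton']
  constructor
  · rintro ⟨a, rfl⟩
    exact ⟨a.1, rfl⟩
  · rintro ⟨c, hc⟩
    have h1 : T.wt (c * b).toElt ≤ ((t + w : ℕ) : WithBot ℕ) := by
      rw [hc]
      exact (H.mem_Lspace x.1 (t + w)).mp x.2
    rw [H.mul, hw] at h1
    have h2 : c ∈ T.Lspace t := (H.mem_Lspace c t).mpr (withBot_le_of_add_le _ w t h1)
    exact ⟨⟨c, h2⟩, Subtype.ext hc⟩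

theorem finrank_range_quotL (H : WtHyp T) (b : T.Alg) (w : ℕ)
    (hw : T.wt b.toElt = (w : WithBot ℕ)) (t : ℕ) :
    Module.finrank K (LinearMap.range (quotL T b (t + w))) + τ.nongaps t = τ.nongaps (t + w) := by
  have := finite_Lspace T (t + w)
  have := finite_Lspace T t
  have h := LinearMap.finrank_range_add_finrank_ker (quotL T b (t + w))
  rw [← range_mulL_eq_ker H b w hw t, LinearMap.finrank_range_of_inj (mulL_injective H b w hw t),
    finrank_Lspace, finrank_Lspace] at h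
  exact h

theorem range_quotL_mono (b : T.Alg) {s s' : ℕ} (h : s ≤ s') :
    LinearMap.range (quotL T b s) ≤ LinearMap.range (quotL T b s') := by
  rintro _ ⟨a, rfl⟩
  exact ⟨⟨a.1, Lspace_mono h a.2⟩, rfl⟩

theorem quotL_surjective (H : WtHyp T) (b : T.Alg) (w : ℕ)
    (hw : T.wt b.toElt = (w : WithBot ℕ)) :
    Function.Surjective (quotL T b ((∑ i, τ.ρ i) + w)) ∧
      Module.finrank K (LinearMap.range (quotL T b ((∑ i, τ.ρ i) + w))) = w := by
  have hT0 : ∀ t : ℕ, (∑ i, τ.ρ i) ≤ t → ∀ i, τ.ρ i ≤ t + τ.m := fun t ht i =>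
    le_trans (Finset.single_le_sum (f := τ.ρ) (fun _ _ => Nat.zero_le _) (Finset.mem_univ i))
      (le_trans ht (Nat.le_add_right _ _))
  have hrank : ∀ t : ℕ, (∑ i, τ.ρ i) ≤ t →
      Module.finrank K (LinearMap.range (quotL T b (t + w))) = w := by
    intro t ht
    have h1 := finrank_range_quotL H b w hw t
    have h2 := H.nongaps_eq t (hT0 t ht)
    have h3 := H.nongaps_eq (t + w) (hT0 (t + w) (le_trans ht (Nat.le_add_right _ _)))
    omega
  refine ⟨?_, hrank _ le_rfl⟩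
  intro q
  obtain ⟨a, rfl⟩ := Ideal.Quotient.mk_surjective q
  obtain ⟨n, hn⟩ := H.exists_mem_Lspace a
  -- a common level `s = t + w` with `t ≥ T₀` and `s ≥ n`
  obtain ⟨t, ht, hnt⟩ : ∃ t : ℕ, (∑ i, τ.ρ i) ≤ t ∧ n ≤ t + w :=
    ⟨max n (∑ i, τ.ρ i), le_max_right _ _, le_trans (le_max_left _ _) (Nat.le_add_right _ _)⟩
  have hle : LinearMap.range (quotL T b ((∑ i, τ.ρ i) + w)) ≤
      LinearMap.range (quotL T b (t + w)) := range_quotL_mono b (by omega)
  have := finite_Lspace T (t + w)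
  have heq : LinearMap.range (quotL T b ((∑ i, τ.ρ i) + w)) =
      LinearMap.range (quotL T b (t + w)) :=
    Submodule.eq_of_le_of_finrank_eq hle (by rw [hrank _ le_rfl, hrank t ht])
  have hmem : Ideal.Quotient.mk (Ideal.span {b}) a ∈ LinearMap.range (quotL T b (t + w)) :=
    ⟨⟨a, Lspace_mono hnt hn⟩, rfl⟩
  rw [← heq] at hmem
  exact hmem

theorem WtHyp.quot (H : WtHyp T) (b : T.Alg) (hb : b ≠ 0) :
    Module.Finite K (T.Alg ⧸ Ideal.span {b}) ∧
      ((Module.finrank K (T.Alg ⧸ Ideal.span {b}) : ℕ) : WithBot ℕ) = T.wt b.toElt := by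
  obtain ⟨w, hw⟩ : ∃ w : ℕ, T.wt b.toElt = (w : WithBot ℕ) := by
    rcases withBot_cases (T.wt b.toElt) with h | ⟨n, h⟩
    · exact absurd ((H.bot_iff b).mp h) hb
    · exact ⟨n, h⟩
  obtain ⟨hsurj, hrank⟩ := quotL_surjective H b w hw
  have := finite_Lspace T ((∑ i, τ.ρ i) + w)
  refine ⟨Module.Finite.of_surjective _ hsurj, ?_⟩
  rw [hw, ← hrank, LinearMap.range_eq_top.mpr hsurj, finrank_top]

theorem WtHyp.wt_one (H : WtHyp T) : T.wt (1 : T.Alg).toElt = 0 := by
  have hm : 0 < τ.m := hT.out.good.1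
  have h1 : (1 : T.Alg) ≠ 0 := by
    intro h
    have h2 := congrFun (congrArg Tab.Alg.toElt h) ⟨0, hm⟩
    rw [Tab.Alg.toElt_one] at h2
    simp [Elt.one] at h2
  have h2 := H.mul 1 1
  rw [one_mul] at h2
  rcases withBot_cases (T.wt (1 : T.Alg).toElt) with h | ⟨n, h⟩
  · exact absurd ((H.bot_iff 1).mp h) h1
  · rw [h] at h2 ⊢
    have h3 : n = n + n := by exact_mod_cast h2
    have h4 : n = 0 := by omega
    rw [h4]
    rfl

theorem WtHyp.isUnit_iff (H : WtHyp T) (a : T.Alg) : IsUnit a ↔ T.wt a.toElt = 0 := by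
  constructor
  · rintro ⟨u, rfl⟩
    have h1 := H.mul (u : T.Alg) ((u⁻¹ : (T.Alg)ˣ) : T.Alg)
    rw [Units.mul_inv, H.wt_one] at h1
    rcases withBot_cases (T.wt (u : T.Alg).toElt) with h | ⟨n, h⟩
    · rw [h, WithBot.bot_add] at h1
      exact absurd h1.symm WithBot.bot_ne_zero
    · rcases withBot_cases (T.wt ((u⁻¹ : (T.Alg)ˣ) : T.Alg).toElt) with h' | ⟨n', h'⟩
      · rw [h', WithBot.add_bot] at h1
        exact absurd h1.symm WithBot.bot_ne_zero
      · rw [h, h'] at h1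
        have h2 : (0 : ℕ) = n + n' := by exact_mod_cast h1
        rw [h]
        have h3 : n = 0 := by omega
        rw [h3]
        rfl
  · intro h
    have ha : a ≠ 0 := by
      intro h0
      rw [(H.bot_iff a).mpr h0] at h
      exact WithBot.bot_ne_zero h
    obtain ⟨c, hc, hlt⟩ := H.sub a 1 ha (by rw [h, H.wt_one])
    rw [h] at hlt
    have h2 : T.wt (a - c • (1 : T.Alg)).toElt = ⊥ := by
      rcases withBot_cases (T.wt (a - c • (1 : T.Alg)).toElt) with h' | ⟨n, h'⟩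
      · exact h'
      · rw [h'] at hlt
        have h3 : n < 0 := by exact_mod_cast hlt
        omega
    have h3 : a = c • (1 : T.Alg) := sub_eq_zero.mp ((H.bot_iff _).mp h2)
    rw [h3, ← Algebra.algebraMap_eq_smul_one]
    exact (IsUnit.mk0 c hc).map (algebraMap K T.Alg)

end Quot

/-- **W1a-2 DIMENSIONS** (board row 1189): `Stmt_WtBasic → Stmt_WtMul → Stmt_Nongaps →
Stmt_WtDim`. -/
theorem stmt_WtDim (h1 : Stmt_WtBasic.{u}) (h2 : Stmt_WtMul.{u}) (h3 : Stmt_Nongaps) :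
    Stmt_WtDim.{u} := by
  intro K _ τ T hT
  obtain ⟨hle, hbot, _, _, hsub⟩ := h1 K τ T
  have H : WtHyp T :=
    { le_iff := hle
      bot_iff := hbot
      mul := h2 K τ T
      sub := hsub
      nongaps_eq := (h3 τ hT.out.good).2 }
  exact ⟨fun t => ⟨finite_Lspace T t, finrank_Lspace T t⟩, fun b hb => H.quot b hb,
    fun a => H.isUnit_iff a⟩

end Fermat.Agent.S27.helper1913

end
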