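import Fermat.Agent.S27.helper197_Gauss

/-!
# S27-L-CMP, part II: the place dictionary of a constant-field extension

Setting: `F₁ / K₁` and `F₂ / K₂` function fields, `K₁ → K₂`, `F₁ → F₂` compatible, such that
`F₂ = Frac (F₁ ⊗[K₁] K₂)` (structure `IsConstExt`), and all places of `F₁ / K₁` have residue
field `K₁`.

* (C1) `ext h : Place K₁ F₁ → Place K₂ F₂`, the Gauss extension; `ord_ext_algebraMap`,
  `ord_ext_mu` (Gauss formula), `ext_injective`.
* (C2) `mem_range_ext_iff`: the old places are exactly the places where some element of `F₁`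
  has non-zero order.
* (C3) `mapDiv h : Divisor K₁ F₁ →+ Divisor K₂ F₂`.
-/

set_option autoImplicit false

noncomputable section

open AlgebraicCurve TensorProduct
open scoped Classical

namespace Fermat.Agent.S27.helper197

open Fermat.Agent.S24.helper1370

section Setting

variable (K₁ F₁ K₂ F₂ : Type*) [Field K₁] [Field F₁] [Field K₂] [Field F₂]
  [Algebra K₁ F₁] [Algebra K₂ F₂] [Algebra K₁ K₂] [Algebra F₁ F₂] [Algebra K₁ F₂]
  [IsScalarTower K₁ K₂ F₂] [IsScalarTower K₁ F₁ F₂]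

/-- The product map `F₁ ⊗[K₁] K₂ → F₂`. -/
def mu : F₁ ⊗[K₁] K₂ →ₐ[K₁] F₂ :=
  Algebra.TensorProduct.productMap (IsScalarTower.toAlgHom K₁ F₁ F₂)
    (IsScalarTower.toAlgHom K₁ K₂ F₂)

/-- The constant-field-extension setting: `F₂` is the fraction field of `F₁ ⊗[K₁] K₂`, and the
places of `F₁ / K₁` have residue field `K₁`. -/
structure IsConstExt : Prop where
  inj : Function.Injective (mu K₁ F₁ K₂ F₂)
  frac : ∀ g : F₂, ∃ t s : F₁ ⊗[K₁] K₂, s ≠ 0 ∧ g * mu K₁ F₁ K₂ F₂ s = mu K₁ F₁ K₂ F₂ t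
  res : ∀ v : Place K₁ F₁, Function.Bijective (algebraMap K₁ v.ResidueField)

variable {K₁ F₁ K₂ F₂}

theorem mu_tmul (f : F₁) (c : K₂) :
    mu K₁ F₁ K₂ F₂ (f ⊗ₜ c) = algebraMap F₁ F₂ f * algebraMap K₂ F₂ c := by
  simp [mu]

theorem mu_tmul_one (f : F₁) : mu K₁ F₁ K₂ F₂ (f ⊗ₜ (1 : K₂)) = algebraMap F₁ F₂ f := by
  rw [mu_tmul, map_one, mul_one]

theorem mu_one_tmul (c : K₂) : mu K₁ F₁ K₂ F₂ ((1 : F₁) ⊗ₜ c) = algebraMap K₂ F₂ c := by
  rw [mu_tmul, map_one, one_mul]

variable (h : IsConstExt K₁ F₁ K₂ F₂)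

include h in
theorem IsConstExt.mu_ne_zero {t : F₁ ⊗[K₁] K₂} (ht : t ≠ 0) : mu K₁ F₁ K₂ F₂ t ≠ 0 := by
  intro h0
  exact ht (h.inj (by rw [h0, map_zero]))

include h in
theorem IsConstExt.isDomain : IsDomain (F₁ ⊗[K₁] K₂) :=
  h.inj.isDomain (mu K₁ F₁ K₂ F₂).toRingHom

include h in
theorem IsConstExt.isFractionRing :
    letI : Algebra (F₁ ⊗[K₁] K₂) F₂ := (mu K₁ F₁ K₂ F₂).toRingHom.toAlgebra
    IsFractionRing (F₁ ⊗[K₁] K₂) F₂ := by
  letI : Algebra (F₁ ⊗[K₁] K₂) F₂ := (mu K₁ F₁ K₂ F₂).toRingHom.toAlgebra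
  have : FaithfulSMul (F₁ ⊗[K₁] K₂) F₂ :=
    (faithfulSMul_iff_algebraMap_injective (F₁ ⊗[K₁] K₂) F₂).mpr h.inj
  refine IsFractionRing.of_field (F₁ ⊗[K₁] K₂) F₂ (fun z => ?_)
  obtain ⟨t, s, hs, hz⟩ := h.frac z
  exact ⟨t, s, (eq_div_iff (h.mu_ne_zero hs)).mpr hz⟩

/-- `gaussT` seen as a multiplicative valuation. -/
def gaussTV (v : Place K₁ F₁) (hres : Function.Bijective (algebraMap K₁ v.ResidueField)) :
    Valuation (F₁ ⊗[K₁] K₂) (Multiplicative (WithTop ℤ)ᵒᵈ) :=
  gaussT v hres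

include h in
theorem IsConstExt.le_primeCompl (v : Place K₁ F₁) :
    nonZeroDivisors (F₁ ⊗[K₁] K₂) ≤ (gaussTV (K₂ := K₂) v (h.res v)).supp.primeCompl := by
  intro s hs hmem
  haveI := h.isDomain
  have hs0 : s ≠ 0 := nonZeroDivisors.ne_zero hs
  exact gaussFun_ne_top v s hs0 ((AddValuation.mem_supp_iff (gaussT v (h.res v)) s).mp hmem)

/-- The Gauss valuation on `F₂` extending a place `v` of `F₁`. -/
def gaussF (v : Place K₁ F₁) : AddValuation F₂ (WithTop ℤ) :=
  letI : Algebra (F₁ ⊗[K₁] K₂) F₂ := (mu K₁ F₁ K₂ F₂).toRingHom.toAlgebra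
  haveI : IsFractionRing (F₁ ⊗[K₁] K₂) F₂ := h.isFractionRing
  (Valuation.extendToLocalization (gaussTV v (h.res v)) (h.le_primeCompl v) F₂ :
    Valuation F₂ (Multiplicative (WithTop ℤ)ᵒᵈ))

theorem gaussF_mu (v : Place K₁ F₁) (t : F₁ ⊗[K₁] K₂) :
    gaussF h v (mu K₁ F₁ K₂ F₂ t) = gaussFun K₂ v t := by
  letI : Algebra (F₁ ⊗[K₁] K₂) F₂ := (mu K₁ F₁ K₂ F₂).toRingHom.toAlgebra
  haveI : IsFractionRing (F₁ ⊗[K₁] K₂) F₂ := h.isFractionRing
  exact Valuation.extendToLocalization_apply_map_apply (gaussTV v (h.res v)) (h.le_primeCompl v) F₂ t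

theorem gaussFun_one_tmul (v : Place K₁ F₁)
    (hres : Function.Bijective (algebraMap K₁ v.ResidueField)) {c : K₂} (hc : c ≠ 0) :
    gaussFun K₂ v ((1 : F₁) ⊗ₜ[K₁] c) = 0 := by
  have h1 : (1 : F₁) ⊗ₜ[K₁] c = jO K₂ v ((1 : v.toValuationSubring) ⊗ₜ[K₁] c) := by
    rw [jO_tmul]
    rfl
  rw [h1]
  apply gaussFun_jO_eq_zero v hres
  rw [rho_tmul, map_one, one_smul]
  exact hc

theorem gaussFun_tmul_one (v : Place K₁ F₁)
    (hres : Function.Bijective (algebraMap K₁ v.ResidueField)) {f : F₁} (hf : f ≠ 0) :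
    gaussFun K₂ v (f ⊗ₜ[K₁] (1 : K₂)) = ((v.ord f : ℤ) : WithTop ℤ) := by
  have h1 := gaussFun_tmul_one_mul (K₂ := K₂) v hf 1
  rw [mul_one, gaussFun_one v hres, add_zero] at h1
  exact h1

theorem gaussF_algebraMap_const (v : Place K₁ F₁) (c : K₂) (hc : c ≠ 0) :
    gaussF h v (algebraMap K₂ F₂ c) = 0 := by
  rw [← mu_one_tmul (K₁ := K₁) (F₁ := F₁), gaussF_mu, gaussFun_one_tmul v (h.res v) hc]

theorem gaussF_algebraMap (v : Place K₁ F₁) {f : F₁} (hf : f ≠ 0) :
    gaussF h v (algebraMap F₁ F₂ f) = ((v.ord f : ℤ) : WithTop ℤ) := by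
  rw [← mu_tmul_one (K₁ := K₁) (K₂ := K₂), gaussF_mu, gaussFun_tmul_one v (h.res v) hf]

theorem gaussF_nontrivial (v : Place K₁ F₁) : ∃ g : F₂, g ≠ 0 ∧ gaussF h v g ≠ 0 := by
  obtain ⟨π, hπ⟩ := exists_uniformizer v
  have hπ0 := uniformizer_ne_zero v hπ
  refine ⟨algebraMap F₁ F₂ π, (map_ne_zero _).mpr hπ0, ?_⟩
  rw [gaussF_algebraMap h v hπ0, hπ]
  exact WithTop.coe_ne_zero.mpr one_ne_zero

/-- **(C1)** The Gauss extension of a place of `F₁ / K₁` to `F₂ / K₂`. -/
def ext (v : Place K₁ F₁) : Place K₂ F₂ :=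
  ofAddValuation (gaussF h v) (gaussF_algebraMap_const h v) (gaussF_nontrivial h v)

theorem valueIndex_gaussF (v : Place K₁ F₁) :
    valueIndex (gaussF h v) (gaussF_nontrivial h v) = 1 := by
  obtain ⟨π, hπ⟩ := exists_uniformizer v
  have hπ0 := uniformizer_ne_zero v hπ
  have hι0 : algebraMap F₁ F₂ π ≠ 0 := (map_ne_zero _).mpr hπ0
  have h1 := valueIndex_dvd (gaussF h v) (gaussF_nontrivial h v) hι0
  have h2 : wInt (gaussF h v) (algebraMap F₁ F₂ π) = 1 := by
    have h3 := coe_wInt (gaussF h v) hι0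
    rw [gaussF_algebraMap h v hπ0, hπ] at h3
    exact_mod_cast h3
  rw [h2] at h1
  have h4 := valueIndex_pos (gaussF h v) (gaussF_nontrivial h v)
  have h5 : ((valueIndex (gaussF h v) (gaussF_nontrivial h v) : ℕ) : ℤ) = 1 :=
    Int.eq_one_of_dvd_one (by positivity) h1
  exact_mod_cast h5

/-- The order at the Gauss extension is the Gauss valuation. -/
theorem gaussF_eq_ord (v : Place K₁ F₁) {g : F₂} (hg : g ≠ 0) :
    gaussF h v g = (((ext h v).ord g : ℤ) : WithTop ℤ) := by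
  have h1 := ofAddValuation_apply (gaussF h v) (gaussF_algebraMap_const h v)
    (gaussF_nontrivial h v) hg
  rw [valueIndex_gaussF h v] at h1
  rw [h1]
  simp [ext]

/-- **(C1), Gauss formula**: the order of `μ t` at the extended place is the minimum of the orders
of the coordinates of `t`. -/
theorem ord_ext_mu (v : Place K₁ F₁) {t : F₁ ⊗[K₁] K₂} (ht : t ≠ 0) :
    (((ext h v).ord (mu K₁ F₁ K₂ F₂ t) : ℤ) : WithTop ℤ) = gaussFun K₂ v t := by
  rw [← gaussF_eq_ord h v (h.mu_ne_zero ht), gaussF_mu]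

/-- **(C1)** The extended place restricts to the original one. -/
theorem ord_ext_algebraMap (v : Place K₁ F₁) (f : F₁) :
    (ext h v).ord (algebraMap F₁ F₂ f) = v.ord f := by
  rcases eq_or_ne f 0 with rfl | hf
  · simp
  have h1 := gaussF_eq_ord h v ((map_ne_zero (algebraMap F₁ F₂)).mpr hf)
  rw [gaussF_algebraMap h v hf] at h1
  exact_mod_cast h1.symm

/-- **(C1)** `ext` is injective. -/
theorem ext_injective : Function.Injective (ext h) := by
  intro v v' hvv
  apply ext_ord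
  intro f
  rw [← ord_ext_algebraMap h v f, ← ord_ext_algebraMap h v' f, hvv]

/-- Key congruence: `μ (j a) ≡ ρ a` modulo the maximal ideal of any place `w` of `F₂` whose
maximal ideal contains that of `v`. -/
theorem pos_ordAddValuation_sub (v : Place K₁ F₁)
    (hres : Function.Bijective (algebraMap K₁ v.ResidueField)) (w : Place K₂ F₂)
    (hvw : ∀ f : F₁, 0 < v.ord f → 0 < w.ord (algebraMap F₁ F₂ f))
    (a : v.toValuationSubring ⊗[K₁] K₂) :
    0 < ordAddValuation w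
      (mu K₁ F₁ K₂ F₂ (jO K₂ v a) - algebraMap K₂ F₂ (rho K₂ v hres a)) := by
  induction a using TensorProduct.induction_on with
  | zero => simp
  | tmul m c =>
    have hm' : resK v hres (m - algebraMap K₁ v.toValuationSubring (resK v hres m)) = 0 := by
      rw [map_sub, AlgHom.commutes]
      simp
    have key : mu K₁ F₁ K₂ F₂ (jO K₂ v (m ⊗ₜ c)) - algebraMap K₂ F₂ (rho K₂ v hres (m ⊗ₜ c)) =
        algebraMap F₁ F₂ (((m - algebraMap K₁ v.toValuationSubring (resK v hres m) :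
          v.toValuationSubring) : F₁)) * algebraMap K₂ F₂ c := by
      rw [jO_tmul, mu_tmul, rho_tmul, Algebra.smul_def, map_mul,
        ← IsScalarTower.algebraMap_apply K₁ K₂ F₂, IsScalarTower.algebraMap_apply K₁ F₁ F₂]
      have h1 : ((m - algebraMap K₁ v.toValuationSubring (resK v hres m) :
          v.toValuationSubring) : F₁) = (m : F₁) - algebraMap K₁ F₁ (resK v hres m) := rfl
      rw [h1, map_sub]
      ring
    rw [key, (ordAddValuation w).map_mul]
    have h2 : (0 : WithTop ℤ) ≤ ordAddValuation w (algebraMap K₂ F₂ c) :=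
      (ordAddValuation_nonneg_iff w).mpr (w.algebraMap_mem' c)
    rcases (resK_eq_zero_iff_ord v hres _).mp hm' with h0 | hpos
    · rw [h0]
      simp
    · have hne : ((m - algebraMap K₁ v.toValuationSubring (resK v hres m) :
          v.toValuationSubring) : F₁) ≠ 0 := by
        intro h
        rw [h, Place.ord_zero] at hpos
        exact lt_irrefl _ hpos
      have h1 := hvw _ hpos
      rw [ordAddValuation_apply w ((map_ne_zero _).mpr hne)]
      exact add_pos_of_pos_of_nonneg (WithTop.coe_pos.mpr h1) h2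
  | add x y hx hy =>
    have h1 : mu K₁ F₁ K₂ F₂ (jO K₂ v (x + y)) - algebraMap K₂ F₂ (rho K₂ v hres (x + y)) =
        (mu K₁ F₁ K₂ F₂ (jO K₂ v x) - algebraMap K₂ F₂ (rho K₂ v hres x)) +
        (mu K₁ F₁ K₂ F₂ (jO K₂ v y) - algebraMap K₂ F₂ (rho K₂ v hres y)) := by
      simp only [map_add]
      ring
    rw [h1]
    exact lt_of_lt_of_le (lt_min hx hy) ((ordAddValuation w).map_add _ _)

theorem ordAddValuation_mu_jO_eq_zero (v : Place K₁ F₁)
    (hres : Function.Bijective (algebraMap K₁ v.ResidueField)) (w : Place K₂ F₂)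
    (hvw : ∀ f : F₁, 0 < v.ord f → 0 < w.ord (algebraMap F₁ F₂ f))
    (a : v.toValuationSubring ⊗[K₁] K₂) (ha : rho K₂ v hres a ≠ 0) :
    ordAddValuation w (mu K₁ F₁ K₂ F₂ (jO K₂ v a)) = 0 := by
  have h1 := pos_ordAddValuation_sub v hres w hvw a
  have h2 : ordAddValuation w (algebraMap K₂ F₂ (rho K₂ v hres a)) = 0 :=
    ordAddValuation_algebraMap w ha
  have h3 : mu K₁ F₁ K₂ F₂ (jO K₂ v a) = algebraMap K₂ F₂ (rho K₂ v hres a) +
      (mu K₁ F₁ K₂ F₂ (jO K₂ v a) - algebraMap K₂ F₂ (rho K₂ v hres a)) := by ring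
  rw [h3, AddValuation.map_add_eq_of_lt_left _ (by rw [h2]; exact h1), h2]

/-- If a place `w` of `F₂` restricts to `k • ord_v` on `F₁`, then `ord_w = k • ord_{ext v}` on the
image of the tensor product. -/
theorem ord_mu_eq_mul (v : Place K₁ F₁) (w : Place K₂ F₂) (k : ℤ) (hk : 0 < k)
    (hvw : ∀ f : F₁, w.ord (algebraMap F₁ F₂ f) = k * v.ord f) {t : F₁ ⊗[K₁] K₂} (ht : t ≠ 0) :
    w.ord (mu K₁ F₁ K₂ F₂ t) = k * (ext h v).ord (mu K₁ F₁ K₂ F₂ t) := by
  have h2 := ord_ext_mu h v ht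
  obtain ⟨f, t', hf, ht1, ht', hft⟩ := exists_normal_form v t ht
  obtain ⟨a, rfl⟩ := exists_jO_eq v t' ht'.ge
  have ha := rho_ne_zero_of_gaussFun_eq_zero v (h.res v) a ht'
  have hpos : ∀ f : F₁, 0 < v.ord f → 0 < w.ord (algebraMap F₁ F₂ f) := fun f hf => by
    rw [hvw]
    positivity
  have h1 := ordAddValuation_mu_jO_eq_zero v (h.res v) w hpos a ha
  have hne : mu K₁ F₁ K₂ F₂ (jO K₂ v a) ≠ 0 := h.mu_ne_zero (by
    intro h0
    rw [h0, gaussFun_zero] at ht'
    exact WithTop.top_ne_zero ht')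
  rw [ordAddValuation_apply w hne] at h1
  have h1' : w.ord (mu K₁ F₁ K₂ F₂ (jO K₂ v a)) = 0 := by exact_mod_cast h1
  rw [hft] at h2
  have h2' : (ext h v).ord (mu K₁ F₁ K₂ F₂ t) = v.ord f := by exact_mod_cast h2
  rw [h2', ht1, map_mul, mu_tmul_one, w.ord_mul ((map_ne_zero _).mpr hf) hne, h1', add_zero, hvw]

/-- **(C2), uniqueness**: a place of `F₂` restricting to (a multiple of) `ord_v` on `F₁` is the
Gauss extension of `v`. -/
theorem ext_eq_of_restrict (v : Place K₁ F₁) (w : Place K₂ F₂) (k : ℤ) (hk : 0 < k)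
    (hvw : ∀ f : F₁, w.ord (algebraMap F₁ F₂ f) = k * v.ord f) : ext h v = w := by
  apply eq_of_ord_nonneg_imp
  intro g hg
  rcases eq_or_ne g 0 with rfl | hg0
  · simp
  obtain ⟨t, s, hs, hgs⟩ := h.frac g
  have ht : t ≠ 0 := by
    rintro rfl
    rw [map_zero] at hgs
    exact (mul_ne_zero hg0 (h.mu_ne_zero hs)) hgs
  have e1 := (ext h v).ord_mul hg0 (h.mu_ne_zero hs)
  have e2 := w.ord_mul hg0 (h.mu_ne_zero hs)
  rw [hgs] at e1 e2
  rw [ord_mu_eq_mul h v w k hk hvw ht, ord_mu_eq_mul h v w k hk hvw hs] at e2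
  have e3 : w.ord g = k * (ext h v).ord g := by
    rw [e1] at e2
    linarith
  rw [e3]
  positivity

/-- **(C2)** The old places are exactly the places of `F₂` at which some element of `F₁` has
non-zero order. -/
theorem mem_range_ext_iff (w : Place K₂ F₂) :
    w ∈ Set.range (ext h) ↔ ∃ f : F₁, w.ord (algebraMap F₁ F₂ f) ≠ 0 := by
  constructor
  · rintro ⟨v, rfl⟩
    obtain ⟨π, hπ⟩ := exists_uniformizer v
    exact ⟨π, by rw [ord_ext_algebraMap, hπ]; exact one_ne_zero⟩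
  · rintro ⟨f, hf⟩
    have hf0 : f ≠ 0 := by
      rintro rfl
      simp at hf
    have hK : ∀ a : K₁, a ≠ 0 → ordAddValuation w (algebraMap K₁ F₂ a) = 0 := by
      intro a ha
      rw [IsScalarTower.algebraMap_apply K₁ K₂ F₂]
      exact ordAddValuation_algebraMap w ((map_ne_zero _).mpr ha)
    have hnt : ∃ f : F₁, f ≠ 0 ∧ ordAddValuation w (IsScalarTower.toAlgHom K₁ F₁ F₂ f) ≠ 0 := by
      refine ⟨f, hf0, ?_⟩
      rw [IsScalarTower.coe_toAlgHom', ordAddValuation_apply w ((map_ne_zero _).mpr hf0)]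
      exact_mod_cast hf
    refine ⟨ofAlgHom (ordAddValuation w) hK (IsScalarTower.toAlgHom K₁ F₁ F₂) hnt,
      ext_eq_of_restrict h _ w (algHomIndex (ordAddValuation w) (IsScalarTower.toAlgHom K₁ F₁ F₂) hnt)
        (by exact_mod_cast algHomIndex_pos _ _ hnt) ?_⟩
    intro f'
    rcases eq_or_ne f' 0 with rfl | hf'
    · simp
    have h1 := ofAlgHom_apply (ordAddValuation w) hK (IsScalarTower.toAlgHom K₁ F₁ F₂) hnt hf'
    rw [IsScalarTower.coe_toAlgHom', ordAddValuation_apply w ((map_ne_zero _).mpr hf')] at h1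
    exact_mod_cast h1

/-- **(C2)** At a new place every element of `F₁` has order `0`. -/
theorem ord_algebraMap_eq_zero_of_notMem_range {w : Place K₂ F₂} (hw : w ∉ Set.range (ext h))
    (f : F₁) : w.ord (algebraMap F₁ F₂ f) = 0 := by
  by_contra hne
  exact hw ((mem_range_ext_iff h w).mpr ⟨f, hne⟩)

/-! ### The residue field of the Gauss extension is `K₂` -/

theorem gaussFun_jO_pos (v : Place K₁ F₁)
    (hres : Function.Bijective (algebraMap K₁ v.ResidueField))
    (a : v.toValuationSubring ⊗[K₁] K₂) (ha : rho K₂ v hres a = 0) :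
    0 < gaussFun K₂ v (jO K₂ v a) := by
  rcases (gaussFun_jO_nonneg v a).eq_or_lt with h0 | h0
  · exact absurd ha (rho_ne_zero_of_gaussFun_eq_zero v hres a h0.symm)
  · exact h0

theorem exists_const_sub_pos (v : Place K₁ F₁) (g : F₂) (hg : 0 ≤ gaussF h v g) :
    ∃ c : K₂, 0 < gaussF h v (g - algebraMap K₂ F₂ c) := by
  rcases eq_or_ne g 0 with rfl | hg0
  · exact ⟨0, by simp⟩
  obtain ⟨t, s, hs, hgs⟩ := h.frac g
  have ht : t ≠ 0 := by
    rintro rfl
    rw [map_zero] at hgs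
    exact (mul_ne_zero hg0 (h.mu_ne_zero hs)) hgs
  have hval : gaussF h v g + gaussFun K₂ v s = gaussFun K₂ v t := by
    rw [← gaussF_mu h v s, ← gaussF_mu h v t, ← hgs, (gaussF h v).map_mul]
  obtain ⟨f, t', hf, ht1, ht', hft⟩ := exists_normal_form v t ht
  obtain ⟨f', s', hf', hs1, hs', hfs⟩ := exists_normal_form v s hs
  obtain ⟨a, rfl⟩ := exists_jO_eq v t' ht'.ge
  obtain ⟨b, rfl⟩ := exists_jO_eq v s' hs'.ge
  have hρb := rho_ne_zero_of_gaussFun_eq_zero v (h.res v) b hs'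
  have hb0 : mu K₁ F₁ K₂ F₂ (jO K₂ v b) ≠ 0 := h.mu_ne_zero (by
    intro h0
    rw [h0, gaussFun_zero] at hs'
    exact WithTop.top_ne_zero hs')
  -- `u = f / f'` is integral at `v`
  have hu : 0 ≤ v.ord (f / f') := by
    rw [ord_div v hf hf']
    rw [hft, hfs] at hval
    have h1 : ((v.ord f' : ℤ) : WithTop ℤ) ≤ ((v.ord f : ℤ) : WithTop ℤ) := by
      rw [← hval]
      exact le_add_of_nonneg_left hg
    have h2 : v.ord f' ≤ v.ord f := by exact_mod_cast h1
    omega
  set u' : v.toValuationSubring := ⟨f / f', mem_of_ord_nonneg v hu⟩ with hu'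
  set c : K₂ := rho K₂ v (h.res v) ((u' ⊗ₜ[K₁] (1 : K₂)) * a) / rho K₂ v (h.res v) b with hc
  set x : v.toValuationSubring ⊗[K₁] K₂ :=
    (u' ⊗ₜ[K₁] (1 : K₂)) * a - (((1 : v.toValuationSubring) ⊗ₜ[K₁] c)) * b with hx
  have hρx : rho K₂ v (h.res v) x = 0 := by
    rw [hx, map_sub, map_mul, map_mul (rho K₂ v (h.res v)) _ b, rho_tmul (c := c), map_one,
      one_smul, hc, div_mul_cancel₀ _ hρb, map_mul, sub_self]
  have hxpos := gaussFun_jO_pos v (h.res v) x hρx
  have hgu : g * mu K₁ F₁ K₂ F₂ (jO K₂ v b) =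
      algebraMap F₁ F₂ (f / f') * mu K₁ F₁ K₂ F₂ (jO K₂ v a) := by
    rw [ht1, hs1, map_mul, map_mul, mu_tmul_one, mu_tmul_one] at hgs
    have hf'0 : algebraMap F₁ F₂ f' ≠ 0 := (map_ne_zero _).mpr hf'
    rw [map_div₀]
    field_simp
    linear_combination hgs
  have key : (g - algebraMap K₂ F₂ c) * mu K₁ F₁ K₂ F₂ (jO K₂ v b) =
      mu K₁ F₁ K₂ F₂ (jO K₂ v x) := by
    rw [hx, map_sub, map_mul, map_mul (jO K₂ v) _ b, jO_tmul, jO_tmul, map_sub, map_mul,
      map_mul (mu K₁ F₁ K₂ F₂) _ (jO K₂ v b), mu_tmul_one, sub_mul, hgu]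
    have h1 : ((1 : v.toValuationSubring) : F₁) = 1 := rfl
    rw [h1, mu_one_tmul]
  refine ⟨c, ?_⟩
  have h3 : gaussF h v (g - algebraMap K₂ F₂ c) + gaussFun K₂ v (jO K₂ v b) =
      gaussFun K₂ v (jO K₂ v x) := by
    rw [← gaussF_mu h v (jO K₂ v b), ← gaussF_mu h v (jO K₂ v x), ← key, (gaussF h v).map_mul]
  rw [hs', add_zero] at h3
  rw [h3]
  exact hxpos

/-- The residue field of the Gauss extension is `K₂`. -/
theorem ext_res (v : Place K₁ F₁) :
    Function.Bijective (algebraMap K₂ (ext h v).ResidueField) := by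
  refine ⟨(algebraMap K₂ (ext h v).ResidueField).injective, ?_⟩
  intro r
  obtain ⟨g, rfl⟩ := IsLocalRing.residue_surjective r
  obtain ⟨c, hc⟩ := exists_const_sub_pos h v (g : F₂)
    ((mem_ofAddValuation_iff (gaussF h v) (gaussF_algebraMap_const h v)
      (gaussF_nontrivial h v)).mp g.2)
  refine ⟨c, ?_⟩
  rw [IsScalarTower.algebraMap_apply K₂ (ext h v).toValuationSubring (ext h v).ResidueField]
  symm
  rw [← sub_eq_zero]
  have h1 : IsLocalRing.residue (ext h v).toValuationSubring g -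
      algebraMap (ext h v).toValuationSubring (ext h v).ResidueField
        (algebraMap K₂ (ext h v).toValuationSubring c) =
      IsLocalRing.residue (ext h v).toValuationSubring
        (g - algebraMap K₂ (ext h v).toValuationSubring c) := by
    rw [map_sub]
    rfl
  rw [h1, IsLocalRing.residue_eq_zero_iff]
  rcases eq_or_ne (g - algebraMap K₂ (ext h v).toValuationSubring c) 0 with h0 | h0
  · rw [h0]
    exact zero_mem _
  · rw [← ord_pos_iff_mem_maximalIdeal (ext h v) h0]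
    have h2 : ((g - algebraMap K₂ (ext h v).toValuationSubring c :
        (ext h v).toValuationSubring) : F₂) = (g : F₂) - algebraMap K₂ F₂ c := rfl
    have h3 : (g : F₂) - algebraMap K₂ F₂ c ≠ 0 := by
      rw [← h2]
      intro h4
      exact h0 (Subtype.ext h4)
    rw [h2]
    rw [gaussF_eq_ord h v h3] at hc
    exact_mod_cast hc

theorem deg_eq_one_of_bijective {K F : Type*} [Field K] [Field F] [Algebra K F] (v : Place K F)
    (hres : Function.Bijective (algebraMap K v.ResidueField)) : v.deg = 1 := by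
  show Module.finrank K v.ResidueField = 1
  rw [← Module.finrank_self K]
  exact ((AlgEquiv.ofBijective (Algebra.ofId K v.ResidueField) hres).toLinearEquiv.finrank_eq).symm

theorem deg_ext (v : Place K₁ F₁) : (ext h v).deg = 1 :=
  deg_eq_one_of_bijective _ (ext_res h v)

/-! ### (C3) The map on divisors -/

/-- **(C3)** The map on divisors induced by `ext`. -/
def mapDiv : Divisor K₁ F₁ →+ Divisor K₂ F₂ :=
  Finsupp.mapDomain.addMonoidHom (ext h)

theorem mapDiv_apply_ext (D : Divisor K₁ F₁) (v : Place K₁ F₁) : mapDiv h D (ext h v) = D v :=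
  Finsupp.mapDomain_apply (ext_injective h) D v

theorem mapDiv_apply_of_notMem_range (D : Divisor K₁ F₁) {w : Place K₂ F₂}
    (hw : w ∉ Set.range (ext h)) : mapDiv h D w = 0 :=
  Finsupp.mapDomain_of_notMem_range D w hw

theorem mapDiv_single (v : Place K₁ F₁) (n : ℤ) :
    mapDiv h (Finsupp.single v n) = Finsupp.single (ext h v) n :=
  Finsupp.mapDomain_single

theorem mapDiv_injective : Function.Injective (mapDiv h) :=
  Finsupp.mapDomain_injective (ext_injective h)

/-- **(C3)** `mapDiv` preserves degrees. -/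
theorem degree_mapDiv (D : Divisor K₁ F₁) :
    Divisor.degree (mapDiv h D) = Divisor.degree D := by
  induction D using Finsupp.induction_linear with
  | zero => simp
  | add x y hx hy => rw [map_add, map_add, map_add, hx, hy]
  | single v n =>
    rw [mapDiv_single, Divisor.degree_single, Divisor.degree_single, deg_ext,
      deg_eq_one_of_bijective v (h.res v)]

/-- **(C3)** `mapDiv` sends the divisor of `f` to the divisor of `algebraMap F₁ F₂ f`. -/
theorem mapDiv_eq_ord (D : Divisor K₁ F₁) (f : F₁) (hD : ∀ v : Place K₁ F₁, D v = v.ord f)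
    (w : Place K₂ F₂) : mapDiv h D w = w.ord (algebraMap F₁ F₂ f) := by
  by_cases hw : w ∈ Set.range (ext h)
  · obtain ⟨v, rfl⟩ := hw
    rw [mapDiv_apply_ext, ord_ext_algebraMap, hD]
  · rw [mapDiv_apply_of_notMem_range h D hw, ord_algebraMap_eq_zero_of_notMem_range h hw]

theorem mapDiv_mem_principal {D : Divisor K₁ F₁} (hD : D ∈ Divisor.principal (K := K₁) (F := F₁)) :
    mapDiv h D ∈ Divisor.principal (K := K₂) (F := F₂) := by
  obtain ⟨f, hf, hfD⟩ := hD
  exact ⟨algebraMap F₁ F₂ f, (map_ne_zero _).mpr hf, mapDiv_eq_ord h D f hfD⟩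

/-- The easy half of (C4). -/
theorem algebraMap_mem_riemannRochSpace_iff (D : Divisor K₁ F₁) (f : F₁) :
    algebraMap F₁ F₂ f ∈ riemannRochSpace (mapDiv h D) ↔ f ∈ riemannRochSpace D := by
  rw [mem_riemannRochSpace_iff, mem_riemannRochSpace_iff]
  constructor
  · intro hf v
    rcases hf (ext h v) with h0 | h0
    · exact Or.inl ((map_eq_zero _).mp h0)
    · rw [mapDiv_apply_ext, ord_ext_algebraMap] at h0
      exact Or.inr h0
  · intro hf w
    by_cases hw : w ∈ Set.range (ext h)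
    · obtain ⟨v, rfl⟩ := hw
      rcases hf v with h0 | h0
      · exact Or.inl (by rw [h0, map_zero])
      · rw [mapDiv_apply_ext, ord_ext_algebraMap]
        exact Or.inr h0
    · rw [mapDiv_apply_of_notMem_range h D hw, ord_algebraMap_eq_zero_of_notMem_range h hw]
      exact Or.inr (by simp)

end Setting

end Fermat.Agent.S27.helper197
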