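import Mathlib
import Fermat.Prelude.Def_AlgebraicCurve_DivisorClassGroup
import Fermat.Prelude.Def_AlgebraicCurve_IsCurveOver
import Fermat.Prelude.Def_AlgebraicCurve_Repartitions
import Fermat.Prelude.Def_AlgebraicCurve_BaseChangeGalois
import Fermat.Agent.S24.helper1370_PlaceBasics

/-!
# S27-L-CMP, part I: the Gauss extension of a place under a constant-field extension

`F₁ / K₁` a function field, `K₂ / K₁` a field extension, `T := F₁ ⊗[K₁] K₂`.
For a place `v` of `F₁ / K₁` whose residue field is `K₁` we construct the additive valuation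
`gaussT v` on `T` (minimum of the orders of the coordinates with respect to a `K₁`-basis of `K₂`)
and prove that it is multiplicative.
-/

set_option autoImplicit false

noncomputable section

open AlgebraicCurve TensorProduct
open scoped Classical

namespace Fermat.Agent.S27.helper197

open Fermat.Agent.S24.helper1370

section Coords

variable (K₁ K₂ : Type*) [Field K₁] [Field K₂] [Algebra K₁ K₂]

/-- The index set of the chosen `K₁`-basis of `K₂`. -/
abbrev CIdx : Type _ := Module.Basis.ofVectorSpaceIndex K₁ K₂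

/-- The chosen `K₁`-basis of `K₂`. -/
abbrev cbasis : Module.Basis (CIdx K₁ K₂) K₁ K₂ := Module.Basis.ofVectorSpace K₁ K₂

variable (M : Type*) [AddCommGroup M] [Module K₁ M]

/-- Coordinates of an element of `M ⊗[K₁] K₂` with respect to the chosen basis of `K₂`. -/
def coords : M ⊗[K₁] K₂ ≃ₗ[K₁] (CIdx K₁ K₂ →₀ M) :=
  TensorProduct.equivFinsuppOfBasisRight (cbasis K₁ K₂)

variable {K₁ K₂ M}

theorem coords_tmul (m : M) (c : K₂) (i : CIdx K₁ K₂) :
    coords K₁ K₂ M (m ⊗ₜ c) i = (cbasis K₁ K₂).repr c i • m := by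
  simp [coords]

theorem coords_symm_apply (c : CIdx K₁ K₂ →₀ M) :
    (coords K₁ K₂ M).symm c = c.sum fun i m => m ⊗ₜ[K₁] (cbasis K₁ K₂ i) := by
  simp [coords]

theorem eq_sum_coords (t : M ⊗[K₁] K₂) :
    t = (coords K₁ K₂ M t).sum fun i m => m ⊗ₜ[K₁] (cbasis K₁ K₂ i) := by
  rw [← coords_symm_apply, LinearEquiv.symm_apply_apply]

end Coords

section GaussFun

variable {K₁ F₁ : Type*} [Field K₁] [Field F₁] [Algebra K₁ F₁]
variable (K₂ : Type*) [Field K₂] [Algebra K₁ K₂]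
variable (v : Place K₁ F₁)

/-- The Gauss function on `F₁ ⊗[K₁] K₂`: minimum of the orders of the coordinates. -/
def gaussFun (t : F₁ ⊗[K₁] K₂) : WithTop ℤ :=
  (coords K₁ K₂ F₁ t).support.inf fun i => ordAddValuation v (coords K₁ K₂ F₁ t i)

variable {K₂}

theorem le_gaussFun_iff (t : F₁ ⊗[K₁] K₂) (n : WithTop ℤ) :
    n ≤ gaussFun K₂ v t ↔ ∀ i, n ≤ ordAddValuation v (coords K₁ K₂ F₁ t i) := by
  unfold gaussFun
  rw [Finset.le_inf_iff]
  constructor
  · intro h i
    by_cases hi : i ∈ (coords K₁ K₂ F₁ t).support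
    · exact h i hi
    · rw [Finsupp.notMem_support_iff.mp hi, ordAddValuation_zero]
      exact le_top
  · intro h i _
    exact h i

theorem gaussFun_le (t : F₁ ⊗[K₁] K₂) (i : CIdx K₁ K₂) :
    gaussFun K₂ v t ≤ ordAddValuation v (coords K₁ K₂ F₁ t i) :=
  (le_gaussFun_iff v t _).mp le_rfl i

theorem gaussFun_zero : gaussFun K₂ v (0 : F₁ ⊗[K₁] K₂) = ⊤ := by
  simp [gaussFun]

theorem exists_coord_eq_gaussFun (t : F₁ ⊗[K₁] K₂) (ht : t ≠ 0) :
    ∃ i, coords K₁ K₂ F₁ t i ≠ 0 ∧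
      gaussFun K₂ v t = ((v.ord (coords K₁ K₂ F₁ t i) : ℤ) : WithTop ℤ) := by
  have hne : (coords K₁ K₂ F₁ t).support.Nonempty := by
    rw [Finsupp.support_nonempty_iff]
    intro h
    exact ht ((coords K₁ K₂ F₁).injective (by rw [h, map_zero]))
  obtain ⟨i, hi, h⟩ := Finset.exists_mem_eq_inf (coords K₁ K₂ F₁ t).support hne
    (fun i => ordAddValuation v (coords K₁ K₂ F₁ t i))
  have hi0 : coords K₁ K₂ F₁ t i ≠ 0 := Finsupp.mem_support_iff.mp hi
  exact ⟨i, hi0, by rw [gaussFun, h, ordAddValuation_apply v hi0]⟩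

theorem gaussFun_ne_top (t : F₁ ⊗[K₁] K₂) (ht : t ≠ 0) : gaussFun K₂ v t ≠ ⊤ := by
  obtain ⟨i, -, h⟩ := exists_coord_eq_gaussFun v t ht
  rw [h]
  exact WithTop.coe_ne_top

theorem gaussFun_add (t s : F₁ ⊗[K₁] K₂) :
    min (gaussFun K₂ v t) (gaussFun K₂ v s) ≤ gaussFun K₂ v (t + s) := by
  rw [le_gaussFun_iff]
  intro i
  rw [map_add, Finsupp.add_apply]
  exact (min_le_min (gaussFun_le v t i) (gaussFun_le v s i)).trans
    ((ordAddValuation v).map_add _ _)

theorem coords_tmul_one_mul (f : F₁) (t : F₁ ⊗[K₁] K₂) (i : CIdx K₁ K₂) :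
    coords K₁ K₂ F₁ ((f ⊗ₜ[K₁] (1 : K₂)) * t) i = f * coords K₁ K₂ F₁ t i := by
  induction t using TensorProduct.induction_on with
  | zero => simp
  | tmul m c =>
    rw [Algebra.TensorProduct.tmul_mul_tmul, one_mul, coords_tmul, coords_tmul]
    simp
  | add x y hx hy =>
    rw [mul_add, map_add, map_add, Finsupp.add_apply, Finsupp.add_apply, hx, hy, mul_add]

theorem gaussFun_tmul_one_mul {f : F₁} (hf : f ≠ 0) (t : F₁ ⊗[K₁] K₂) :
    gaussFun K₂ v ((f ⊗ₜ[K₁] (1 : K₂)) * t) = ((v.ord f : ℤ) : WithTop ℤ) + gaussFun K₂ v t := by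
  apply le_antisymm
  · rcases eq_or_ne t 0 with rfl | ht
    · simp [gaussFun_zero]
    obtain ⟨i, hi0, h⟩ := exists_coord_eq_gaussFun v t ht
    refine (gaussFun_le v _ i).trans ?_
    rw [coords_tmul_one_mul, h, ordAddValuation_apply v (mul_ne_zero hf hi0), v.ord_mul hf hi0,
      WithTop.coe_add]
  · rw [le_gaussFun_iff]
    intro i
    rw [coords_tmul_one_mul, (ordAddValuation v).map_mul, ordAddValuation_apply v hf]
    exact add_le_add_right (gaussFun_le v t i) _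

end GaussFun

section Integral

variable {K₁ F₁ : Type*} [Field K₁] [Field F₁] [Algebra K₁ F₁]
variable (K₂ : Type*) [Field K₂] [Algebra K₁ K₂]
variable (v : Place K₁ F₁)

/-- The inclusion `𝒪_v ⊗ K₂ → F₁ ⊗ K₂`. -/
def jO : v.toValuationSubring ⊗[K₁] K₂ →ₐ[K₁] F₁ ⊗[K₁] K₂ :=
  Algebra.TensorProduct.map (IsScalarTower.toAlgHom K₁ v.toValuationSubring F₁) (AlgHom.id K₁ K₂)

variable {K₂}

theorem jO_tmul (a : v.toValuationSubring) (c : K₂) :
    jO K₂ v (a ⊗ₜ c) = (a : F₁) ⊗ₜ[K₁] c := by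
  simp [jO]

theorem coords_jO (a : v.toValuationSubring ⊗[K₁] K₂) (i : CIdx K₁ K₂) :
    coords K₁ K₂ F₁ (jO K₂ v a) i = ((coords K₁ K₂ v.toValuationSubring a i : v.toValuationSubring) : F₁) := by
  induction a using TensorProduct.induction_on with
  | zero => simp
  | tmul m c =>
    rw [jO_tmul, coords_tmul, coords_tmul]
    rw [Algebra.smul_def, Algebra.smul_def]
    rfl
  | add x y hx hy =>
    rw [map_add, map_add, map_add, Finsupp.add_apply, Finsupp.add_apply, hx, hy]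
    rfl

theorem gaussFun_jO_nonneg (a : v.toValuationSubring ⊗[K₁] K₂) : 0 ≤ gaussFun K₂ v (jO K₂ v a) := by
  rw [le_gaussFun_iff]
  intro i
  rw [coords_jO, ordAddValuation_nonneg_iff]
  exact (coords K₁ K₂ v.toValuationSubring a i).2

theorem exists_jO_eq (t : F₁ ⊗[K₁] K₂) (ht : 0 ≤ gaussFun K₂ v t) :
    ∃ a : v.toValuationSubring ⊗[K₁] K₂, jO K₂ v a = t := by
  have hmem : ∀ i, coords K₁ K₂ F₁ t i ∈ v.toValuationSubring := fun i =>
    (ordAddValuation_nonneg_iff v).mp (ht.trans (gaussFun_le v t i))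
  refine ⟨(coords K₁ K₂ F₁ t).sum fun i m =>
    if h : m ∈ v.toValuationSubring then (⟨m, h⟩ : v.toValuationSubring) ⊗ₜ[K₁] (cbasis K₁ K₂ i)
    else 0, ?_⟩
  conv_rhs => rw [eq_sum_coords t]
  rw [Finsupp.sum, Finsupp.sum, map_sum]
  refine Finset.sum_congr rfl fun i _ => ?_
  rw [dif_pos (hmem i), jO_tmul]

end Integral

section Residue

variable {K₁ F₁ : Type*} [Field K₁] [Field F₁] [Algebra K₁ F₁]
variable (K₂ : Type*) [Field K₂] [Algebra K₁ K₂]
variable (v : Place K₁ F₁) (hres : Function.Bijective (algebraMap K₁ v.ResidueField))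

/-- The residue map `𝒪_v → K₁` at a place with residue field `K₁`. -/
def resK : v.toValuationSubring →ₐ[K₁] K₁ :=
  ((AlgEquiv.ofBijective (Algebra.ofId K₁ v.ResidueField) hres).symm :
      v.ResidueField →ₐ[K₁] K₁).comp
    (IsScalarTower.toAlgHom K₁ v.toValuationSubring v.ResidueField)

theorem resK_eq_zero_iff (a : v.toValuationSubring) :
    resK v hres a = 0 ↔ a ∈ IsLocalRing.maximalIdeal v.toValuationSubring := by
  have h1 : resK v hres a = (AlgEquiv.ofBijective (Algebra.ofId K₁ v.ResidueField) hres).symm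
      (IsLocalRing.residue _ a) := rfl
  rw [h1, map_eq_zero_iff _ (AlgEquiv.injective _)]
  exact IsLocalRing.residue_eq_zero_iff a

theorem resK_eq_zero_iff_ord (a : v.toValuationSubring) :
    resK v hres a = 0 ↔ a = 0 ∨ 0 < v.ord (a : F₁) := by
  rw [resK_eq_zero_iff]
  rcases eq_or_ne a 0 with rfl | ha
  · simp
  · rw [← ord_pos_iff_mem_maximalIdeal v ha]
    simp [ha]

/-- The reduction map `𝒪_v ⊗ K₂ → K₂`. -/
def rho : v.toValuationSubring ⊗[K₁] K₂ →ₐ[K₁] K₂ :=
  Algebra.TensorProduct.productMap ((Algebra.ofId K₁ K₂).comp (resK v hres)) (AlgHom.id K₁ K₂)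

variable {K₂}

theorem rho_tmul (a : v.toValuationSubring) (c : K₂) :
    rho K₂ v hres (a ⊗ₜ c) = resK v hres a • c := by
  simp [rho, Algebra.smul_def]

theorem rho_eq_sum (a : v.toValuationSubring ⊗[K₁] K₂) :
    rho K₂ v hres a = Finsupp.linearCombination K₁ (cbasis K₁ K₂)
      ((coords K₁ K₂ v.toValuationSubring a).mapRange (resK v hres) (map_zero _)) := by
  conv_lhs => rw [eq_sum_coords a]
  rw [Finsupp.sum, map_sum, Finsupp.linearCombination_apply, Finsupp.sum_mapRange_index (by simp)]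
  rw [Finsupp.sum]
  refine Finset.sum_congr rfl fun i _ => ?_
  rw [rho_tmul]

theorem rho_eq_zero_iff (a : v.toValuationSubring ⊗[K₁] K₂) :
    rho K₂ v hres a = 0 ↔ ∀ i, resK v hres (coords K₁ K₂ v.toValuationSubring a i) = 0 := by
  rw [rho_eq_sum]
  constructor
  · intro h i
    have h0 := (linearIndependent_iff.mp (cbasis K₁ K₂).linearIndependent) _ h
    have := DFunLike.congr_fun h0 i
    simpa using this
  · intro h
    have h0 : (coords K₁ K₂ v.toValuationSubring a).mapRange (resK v hres) (map_zero _) = 0 := by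
      ext i
      simpa using h i
    rw [h0, map_zero]

theorem gaussFun_jO_eq_zero (a : v.toValuationSubring ⊗[K₁] K₂) (ha : rho K₂ v hres a ≠ 0) :
    gaussFun K₂ v (jO K₂ v a) = 0 := by
  apply le_antisymm _ (gaussFun_jO_nonneg v a)
  rw [Ne, rho_eq_zero_iff] at ha
  push Not at ha
  obtain ⟨i, hi⟩ := ha
  refine (gaussFun_le v _ i).trans ?_
  rw [coords_jO]
  rw [Ne, resK_eq_zero_iff_ord, not_or, not_lt] at hi
  have hne : ((coords K₁ K₂ v.toValuationSubring a i : v.toValuationSubring) : F₁) ≠ 0 := by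
    intro h
    exact hi.1 (Subtype.ext h)
  rw [ordAddValuation_apply v hne]
  exact_mod_cast hi.2

theorem rho_ne_zero_of_gaussFun_eq_zero (a : v.toValuationSubring ⊗[K₁] K₂)
    (ha : gaussFun K₂ v (jO K₂ v a) = 0) : rho K₂ v hres a ≠ 0 := by
  intro h
  rw [rho_eq_zero_iff] at h
  have hne : jO K₂ v a ≠ 0 := by
    intro h0
    rw [h0, gaussFun_zero] at ha
    exact WithTop.top_ne_zero ha
  obtain ⟨i, hi0, hi⟩ := exists_coord_eq_gaussFun v _ hne
  rw [ha, coords_jO] at hi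
  have h1 := (resK_eq_zero_iff_ord v hres _).mp (h i)
  rw [coords_jO] at hi0
  rcases h1 with h1 | h1
  · exact hi0 (by rw [h1]; rfl)
  · have : (0 : ℤ) = v.ord ((coords K₁ K₂ v.toValuationSubring a i : v.toValuationSubring) : F₁) := by
      exact_mod_cast hi
    omega

end Residue

section Mult

variable {K₁ F₁ : Type*} [Field K₁] [Field F₁] [Algebra K₁ F₁]
variable {K₂ : Type*} [Field K₂] [Algebra K₁ K₂]
variable (v : Place K₁ F₁) (hres : Function.Bijective (algebraMap K₁ v.ResidueField))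

include hres in
theorem gaussFun_one : gaussFun K₂ v (1 : F₁ ⊗[K₁] K₂) = 0 := by
  have h := gaussFun_jO_eq_zero v hres (1 : v.toValuationSubring ⊗[K₁] K₂)
    (by rw [map_one]; exact one_ne_zero)
  rwa [map_one] at h

include hres in
theorem gaussFun_mul_of_eq_zero (t s : F₁ ⊗[K₁] K₂) (ht : gaussFun K₂ v t = 0)
    (hs : gaussFun K₂ v s = 0) : gaussFun K₂ v (t * s) = 0 := by
  obtain ⟨a, rfl⟩ := exists_jO_eq v t ht.ge
  obtain ⟨b, rfl⟩ := exists_jO_eq v s hs.ge
  rw [← map_mul]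
  apply gaussFun_jO_eq_zero v hres
  rw [map_mul]
  exact mul_ne_zero (rho_ne_zero_of_gaussFun_eq_zero v hres a ht)
    (rho_ne_zero_of_gaussFun_eq_zero v hres b hs)

theorem exists_normal_form (t : F₁ ⊗[K₁] K₂) (ht : t ≠ 0) :
    ∃ (f : F₁) (t' : F₁ ⊗[K₁] K₂), f ≠ 0 ∧ t = (f ⊗ₜ[K₁] (1 : K₂)) * t' ∧
      gaussFun K₂ v t' = 0 ∧ gaussFun K₂ v t = ((v.ord f : ℤ) : WithTop ℤ) := by
  obtain ⟨i, hi0, hi⟩ := exists_coord_eq_gaussFun v t ht
  refine ⟨coords K₁ K₂ F₁ t i, ((coords K₁ K₂ F₁ t i)⁻¹ ⊗ₜ[K₁] (1 : K₂)) * t, hi0, ?_, ?_, hi⟩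
  · rw [← mul_assoc, Algebra.TensorProduct.tmul_mul_tmul, mul_inv_cancel₀ hi0, one_mul]
    exact (one_mul t).symm
  · rw [gaussFun_tmul_one_mul v (inv_ne_zero hi0), hi, v.ord_inv, ← WithTop.coe_add]
    simp

include hres in
theorem gaussFun_mul (t s : F₁ ⊗[K₁] K₂) :
    gaussFun K₂ v (t * s) = gaussFun K₂ v t + gaussFun K₂ v s := by
  rcases eq_or_ne t 0 with rfl | ht
  · simp [gaussFun_zero]
  rcases eq_or_ne s 0 with rfl | hs
  · simp [gaussFun_zero]
  obtain ⟨f, t', hf, ht1, ht', hft⟩ := exists_normal_form v t ht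
  obtain ⟨g, s', hg, hs1, hs', hgs⟩ := exists_normal_form v s hs
  have h1 : t * s = ((f * g) ⊗ₜ[K₁] (1 : K₂)) * (t' * s') := by
    rw [ht1, hs1, mul_mul_mul_comm, Algebra.TensorProduct.tmul_mul_tmul, one_mul]
  rw [h1, gaussFun_tmul_one_mul v (mul_ne_zero hf hg), gaussFun_mul_of_eq_zero v hres _ _ ht' hs',
    hft, hgs, v.ord_mul hf hg]
  push_cast
  simp

/-- The Gauss valuation on `F₁ ⊗[K₁] K₂` attached to a place of `F₁` with residue field `K₁`. -/
def gaussT : AddValuation (F₁ ⊗[K₁] K₂) (WithTop ℤ) :=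
  AddValuation.of (gaussFun K₂ v) (gaussFun_zero v) (gaussFun_one v hres) (gaussFun_add v)
    (gaussFun_mul v hres)

theorem gaussT_apply (t : F₁ ⊗[K₁] K₂) : gaussT v hres t = gaussFun K₂ v t := rfl

end Mult

end Fermat.Agent.S27.helper197
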