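import Mathlib
import Fermat.Agent.S27.helper1545_AnalyticKit

/-!
# S27, pencil form of the local Abel theorem: the analytic core (helper2178)

Mathlib-only (plus the analytic root kit of helper1545).  See findings #2419.

Data: analytic functions `GA i k`, `GB j k` near `0` (think: `GA i k s = ev (Q_i s) (u_i * f_k)`,
the value of `u_i * f_k` along the `i`-th chart, for a basis `f_k` of the pencil), integrands
`ωA i`, `ωB j` with primitives `JA i`, `JB j`.  For a parameter `t` the *moving points* are the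
solutions of `s i = ∑ k, t k * GA i k (s i)` and `γ j = ∑ k, t k * GB j k (γ j)` near `0`.

Hypothesis `hT` (the trace identity, supplied by the function field side).
Conclusion: every small `s` is a tuple of moving points for some `t`, and for the corresponding
`γ` the abelian sums cancel: `∑ i, JA i (s i) + ∑ j, JB j (γ j) = 0`.
-/

set_option autoImplicit false

open Filter Topology

namespace Fermat.Agent.S27.helper2178

/-- The moving point: the root of `z = ∑ k, t k * G k z` near `0`, as an analytic function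
of the parameter `t`, with uniqueness in a disc. -/
theorem exists_moving_root {m : ℕ} (G : Fin m → ℂ → ℂ) (hG : ∀ k, AnalyticAt ℂ (G k) 0) :
    ∃ (U : Set (Fin m → ℂ)) (δ : ℝ) (z : (Fin m → ℂ) → ℂ), IsOpen U ∧ (0 : Fin m → ℂ) ∈ U ∧
      0 < δ ∧ AnalyticOnNhd ℂ z U ∧ z 0 = 0 ∧
      (∀ t ∈ U, ‖z t‖ < δ ∧ z t = ∑ k, t k * G k (z t)) ∧
      ∀ t ∈ U, ∀ w : ℂ, ‖w‖ < δ → w = ∑ k, t k * G k w → w = z t := by
  set F : (Fin m → ℂ) × ℂ → ℂ := fun p => p.2 - ∑ k, p.1 k * G k p.2 with hF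
  have hFan : AnalyticAt ℂ F ((0 : Fin m → ℂ), (0 : ℂ)) := by
    refine analyticAt_snd.sub (Finset.analyticAt_fun_sum _ fun k _ => ?_)
    refine AnalyticAt.mul ?_ ?_
    · exact ((ContinuousLinearMap.proj (R := ℂ) (φ := fun _ : Fin m => ℂ) k).analyticAt _).comp
        analyticAt_fst
    · have h2 : AnalyticAt ℂ (G k)
          ((fun p : (Fin m → ℂ) × ℂ => p.2) ((0 : Fin m → ℂ), (0 : ℂ))) := hG k
      exact h2.fun_comp analyticAt_snd
  have hF0 : F ((0 : Fin m → ℂ), (0 : ℂ)) = 0 := by simp [hF]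
  have hd : deriv (fun z => F ((0 : Fin m → ℂ), z)) 0 ≠ 0 := by
    have : (fun z : ℂ => F ((0 : Fin m → ℂ), z)) = fun z => z := by
      funext z
      simp [hF]
    rw [this]
    simp
  obtain ⟨U, δ, z, hU, h0U, hδ, hzan, hz0, hzroot, hzuniq⟩ :=
    Fermat.Agent.S27.helper1545.exists_analytic_root F 0 0 hFan hF0 hd
  refine ⟨U, δ, z, hU, h0U, hδ, hzan, hz0, ?_, ?_⟩
  · intro t ht
    obtain ⟨h1, h2⟩ := hzroot t ht
    refine ⟨by simpa using h1, ?_⟩
    have : z t - ∑ k, t k * G k (z t) = 0 := h2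
    exact sub_eq_zero.mp this
  · intro t ht w hw hwroot
    refine hzuniq t ht w (by simpa using hw) ?_
    show w - ∑ k, t k * G k w = 0
    exact sub_eq_zero.mpr hwroot

/-- Derivative of the moving point along a ray `τ ↦ τ • t`: differentiating the root equation. -/
theorem moving_root_deriv {m : ℕ} (G : Fin m → ℂ → ℂ) (U : Set (Fin m → ℂ)) (hU : IsOpen U)
    (z : (Fin m → ℂ) → ℂ) (hz : AnalyticOnNhd ℂ z U)
    (hroot : ∀ t ∈ U, z t = ∑ k, t k * G k (z t))
    (t : Fin m → ℂ) (σ : ℂ) (hσ : σ • t ∈ U) (hG : ∀ k, AnalyticAt ℂ (G k) (z (σ • t))) :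
    ∃ S' : ℂ, HasDerivAt (fun τ : ℂ => z (τ • t)) S' σ ∧
      S' * (1 - ∑ k, (σ • t) k * deriv (G k) (z (σ • t))) = ∑ k, t k * G k (z (σ • t)) := by
  set S : ℂ → ℂ := fun τ => z (τ • t) with hS
  have hray : HasDerivAt (fun τ : ℂ => τ • t) t σ := by
    simpa using (hasDerivAt_id σ).smul_const t
  have hzd : DifferentiableAt ℂ z (σ • t) := (hz (σ • t) hσ).differentiableAt
  have hSd : HasDerivAt S (deriv S σ) σ := by
    have : DifferentiableAt ℂ S σ :=
      DifferentiableAt.comp σ (g := z) (f := fun τ : ℂ => τ • t) hzd hray.differentiableAt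
    exact this.hasDerivAt
  refine ⟨deriv S σ, hSd, ?_⟩
  have hev : ∀ᶠ τ in 𝓝 σ, S τ - ∑ k, (τ * t k) * G k (S τ) = 0 := by
    have : ∀ᶠ τ in 𝓝 σ, τ • t ∈ U := hray.continuousAt.eventually (hU.mem_nhds hσ)
    filter_upwards [this] with τ hτ
    have := hroot (τ • t) hτ
    simp only [Pi.smul_apply, smul_eq_mul] at this
    exact sub_eq_zero.mpr this
  have hGd : ∀ k, HasDerivAt (fun τ => G k (S τ)) (deriv (G k) (S σ) * deriv S σ) σ := fun k =>
    HasDerivAt.comp σ (h₂ := G k) (h := S) ((hG k).differentiableAt.hasDerivAt) hSd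
  have hterm : ∀ k, HasDerivAt (fun τ => (τ * t k) * G k (S τ))
      (t k * G k (S σ) + (σ * t k) * (deriv (G k) (S σ) * deriv S σ)) σ := fun k => by
    have h1 : HasDerivAt (fun τ : ℂ => τ * t k) (t k) σ := by
      simpa using (hasDerivAt_id σ).mul_const (t k)
    exact h1.mul (hGd k)
  have hsum : HasDerivAt (fun τ => ∑ k, (τ * t k) * G k (S τ))
      (∑ k, (t k * G k (S σ) + (σ * t k) * (deriv (G k) (S σ) * deriv S σ))) σ :=
    HasDerivAt.fun_sum fun k _ => hterm k
  have hΨ := hSd.sub hsum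
  have h0 : HasDerivAt (fun τ => S τ - ∑ k, (τ * t k) * G k (S τ)) 0 σ :=
    (hasDerivAt_const σ (0 : ℂ)).congr_of_eventuallyEq hev
  have key := hΨ.unique h0
  rw [Finset.sum_add_distrib] at key
  have e : ∑ k, (σ * t k) * (deriv (G k) (S σ) * deriv S σ)
      = deriv S σ * ∑ k, (σ • t) k * deriv (G k) (z (σ • t)) := by
    rw [Finset.mul_sum]
    refine Finset.sum_congr rfl fun k _ => ?_
    simp only [Pi.smul_apply, smul_eq_mul, hS]
    ring
  rw [e] at key
  have hSσ : S σ = z (σ • t) := rfl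
  rw [hSσ] at key
  linear_combination key

/-- **Analytic core of the pencil form of local Abel** (findings #2419).

`GA i k`, `GB j k` are analytic near `0` with `GA i k 0 = δ_ik`; `JA i`, `JB j` are primitives of
`ωA i`, `ωB j` vanishing at `0`.  Assume the trace identity `hT`: whenever `s`, `γ` are moving
points for the parameter `t` (all small), the weighted sum of the integrands vanishes.
Then every small `s` is a tuple of moving points for some small `t`, and the corresponding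
`γ` (small) satisfies `∑ i, JA i (s i) + ∑ j, JB j (γ j) = 0`. -/
theorem pencil_core {m n : ℕ} {V : Type*} [NormedAddCommGroup V] [NormedSpace ℂ V]
    (GA : Fin m → Fin m → ℂ → ℂ) (GB : Fin n → Fin m → ℂ → ℂ)
    (ωA JA : Fin m → ℂ → V) (ωB JB : Fin n → ℂ → V)
    (r : ℝ) (hr : 0 < r)
    (hGA : ∀ i k, ∀ z ∈ Metric.ball (0 : ℂ) r, AnalyticAt ℂ (GA i k) z)
    (hGB : ∀ j k, ∀ z ∈ Metric.ball (0 : ℂ) r, AnalyticAt ℂ (GB j k) z)
    (hGA0 : ∀ i k, GA i k 0 = if i = k then 1 else 0)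
    (hJA : ∀ i, ∀ z ∈ Metric.ball (0 : ℂ) r, HasDerivAt (JA i) (ωA i z) z)
    (hJB : ∀ j, ∀ z ∈ Metric.ball (0 : ℂ) r, HasDerivAt (JB j) (ωB j z) z)
    (hJA0 : ∀ i, JA i 0 = 0) (hJB0 : ∀ j, JB j 0 = 0)
    (hT : ∀ (t : Fin m → ℂ) (s : Fin m → ℂ) (γ : Fin n → ℂ),
      (∀ k, ‖t k‖ < r) → (∀ i, ‖s i‖ < r) → (∀ j, ‖γ j‖ < r) →
      (∀ i, s i = ∑ k, t k * GA i k (s i)) → (∀ j, γ j = ∑ k, t k * GB j k (γ j)) →
      (∀ i, 1 - ∑ k, t k * deriv (GA i k) (s i) ≠ 0) →
      (∀ j, 1 - ∑ k, t k * deriv (GB j k) (γ j) ≠ 0) →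
      ∑ i, (s i / (1 - ∑ k, t k * deriv (GA i k) (s i))) • ωA i (s i)
        + ∑ j, (γ j / (1 - ∑ k, t k * deriv (GB j k) (γ j))) • ωB j (γ j) = 0)
    (ρ : ℝ) (hρ : 0 < ρ) :
    ∃ ε > 0, ∀ s : Fin m → ℂ, (∀ i, ‖s i‖ < ε) →
      ∃ (t : Fin m → ℂ) (γ : Fin n → ℂ), (∀ k, ‖t k‖ < ρ) ∧ (∀ j, ‖γ j‖ < ρ) ∧
        (∀ i, s i = ∑ k, t k * GA i k (s i)) ∧ (∀ j, γ j = ∑ k, t k * GB j k (γ j)) ∧
        ∑ i, JA i (s i) + ∑ j, JB j (γ j) = 0 := by
  have h0r : (0 : ℂ) ∈ Metric.ball (0 : ℂ) r := Metric.mem_ball_self hr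
  choose UA δA zA hUA h0UA hδA hzAan hzA0 hzAroot hzAuniq using
    fun i => exists_moving_root (GA i) (fun k => hGA i k 0 h0r)
  choose UB δB zB hUB h0UB hδB hzBan hzB0 hzBroot hzBuniq using
    fun j => exists_moving_root (GB j) (fun k => hGB j k 0 h0r)
  -- nonvanishing of the denominators near the origin
  have hP : ∀ᶠ p : (Fin m → ℂ) × ℂ in 𝓝 ((0 : Fin m → ℂ), (0 : ℂ)),
      (∀ i, 1 - ∑ k, p.1 k * deriv (GA i k) p.2 ≠ 0) ∧
      (∀ j, 1 - ∑ k, p.1 k * deriv (GB j k) p.2 ≠ 0) := by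
    have hcont : ∀ (G : Fin m → ℂ → ℂ), (∀ k, AnalyticAt ℂ (G k) 0) →
        ∀ᶠ p : (Fin m → ℂ) × ℂ in 𝓝 ((0 : Fin m → ℂ), (0 : ℂ)),
          1 - ∑ k, p.1 k * deriv (G k) p.2 ≠ 0 := by
      intro G hG
      have hc : ContinuousAt (fun p : (Fin m → ℂ) × ℂ => 1 - ∑ k, p.1 k * deriv (G k) p.2)
          ((0 : Fin m → ℂ), (0 : ℂ)) := by
        refine continuousAt_const.sub (tendsto_finsetSum _ fun k _ => ?_)
        refine ContinuousAt.mul ?_ ?_
        · exact ((continuous_apply k).comp continuous_fst).continuousAt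
        · exact ContinuousAt.comp (g := deriv (G k)) (f := Prod.snd)
            ((hG k).deriv.continuousAt) continuousAt_snd
      refine hc.eventually_ne ?_
      simp
    have hA := fun i => hcont (GA i) (fun k => hGA i k 0 h0r)
    have hB := fun j => hcont (GB j) (fun k => hGB j k 0 h0r)
    filter_upwards [eventually_all.mpr hA, eventually_all.mpr hB] with p h1 h2 using ⟨h1, h2⟩
  obtain ⟨η, hη, hPη⟩ := Metric.eventually_nhds_iff.mp hP
  have hPη' : ∀ (τ : Fin m → ℂ) (z : ℂ), ‖τ‖ < η → ‖z‖ < η →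
      (∀ i, 1 - ∑ k, τ k * deriv (GA i k) z ≠ 0) ∧
      (∀ j, 1 - ∑ k, τ k * deriv (GB j k) z ≠ 0) := by
    intro τ z hτ hz
    refine hPη (y := (τ, z)) ?_
    rw [Prod.dist_eq]
    simp only [dist_zero_right]
    exact max_lt hτ hz
  set c : ℝ := min r (min η ρ) with hcdef
  have hc : 0 < c := lt_min hr (lt_min hη hρ)
  have hcr : c ≤ r := min_le_left _ _
  have hcη : c ≤ η := (min_le_right _ _).trans (min_le_left _ _)
  have hcρ : c ≤ ρ := (min_le_right _ _).trans (min_le_right _ _)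
  -- good parameters
  have hQ : ∀ᶠ τ : Fin m → ℂ in 𝓝 0, ‖τ‖ < c ∧ (∀ i, τ ∈ UA i ∧ ‖zA i τ‖ < c) ∧
      (∀ j, τ ∈ UB j ∧ ‖zB j τ‖ < c) := by
    have h1 : ∀ᶠ τ : Fin m → ℂ in 𝓝 0, ‖τ‖ < c := by
      have hn : ContinuousAt (fun τ : Fin m → ℂ => ‖τ‖) 0 := continuous_norm.continuousAt
      exact hn.eventually_lt continuousAt_const (by simpa using hc)
    have h2 : ∀ i, ∀ᶠ τ : Fin m → ℂ in 𝓝 0, τ ∈ UA i ∧ ‖zA i τ‖ < c := fun i => by
      have hcont : ContinuousAt (zA i) 0 := (hzAan i 0 (h0UA i)).continuousAt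
      have e1 : ∀ᶠ τ in 𝓝 (0 : Fin m → ℂ), ‖zA i τ‖ < c :=
        hcont.norm.eventually_lt continuousAt_const (by rw [hzA0 i]; simpa using hc)
      filter_upwards [(hUA i).mem_nhds (h0UA i), e1] with τ a b using ⟨a, b⟩
    have h3 : ∀ j, ∀ᶠ τ : Fin m → ℂ in 𝓝 0, τ ∈ UB j ∧ ‖zB j τ‖ < c := fun j => by
      have hcont : ContinuousAt (zB j) 0 := (hzBan j 0 (h0UB j)).continuousAt
      have e1 : ∀ᶠ τ in 𝓝 (0 : Fin m → ℂ), ‖zB j τ‖ < c :=
        hcont.norm.eventually_lt continuousAt_const (by rw [hzB0 j]; simpa using hc)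
      filter_upwards [(hUB j).mem_nhds (h0UB j), e1] with τ a b using ⟨a, b⟩
    filter_upwards [h1, eventually_all.mpr h2, eventually_all.mpr h3] with τ a b d
      using ⟨a, b, d⟩
  obtain ⟨ε0, hε0, hQε⟩ := Metric.eventually_nhds_iff.mp hQ
  -- the abelian sum vanishes along the pencil
  have hH : ∀ t : Fin m → ℂ, ‖t‖ < ε0 / 2 →
      ∑ i, JA i (zA i t) + ∑ j, JB j (zB j t) = 0 := by
    intro t ht
    set φ : ℂ → V := fun σ => ∑ i, JA i (zA i (σ • t)) + ∑ j, JB j (zB j (σ • t)) with hφ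
    have hgood : ∀ σ ∈ Metric.ball (1 : ℂ) 1, dist (σ • t) 0 < ε0 := by
      intro σ hσ
      rw [dist_zero_right, norm_smul]
      have hσ2 : ‖σ‖ < 2 := by
        have h1 := norm_sub_norm_le σ 1
        rw [Metric.mem_ball, dist_eq_norm] at hσ
        rw [norm_one] at h1
        linarith
      nlinarith [norm_nonneg t, norm_nonneg σ]
    have hderiv : ∀ σ ∈ Metric.ball (1 : ℂ) 1, HasDerivAt φ 0 σ := by
      intro σ hσ
      obtain ⟨hτc, hQA, hQB⟩ := hQε (hgood σ hσ)
      have hσ0 : σ ≠ 0 := by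
        rintro rfl
        simp [Metric.mem_ball] at hσ
      have hzAr : ∀ i, zA i (σ • t) ∈ Metric.ball (0 : ℂ) r := fun i => by
        rw [Metric.mem_ball, dist_zero_right]
        exact lt_of_lt_of_le (hQA i).2 hcr
      have hzBr : ∀ j, zB j (σ • t) ∈ Metric.ball (0 : ℂ) r := fun j => by
        rw [Metric.mem_ball, dist_zero_right]
        exact lt_of_lt_of_le (hQB j).2 hcr
      choose SA' hSA' hSAeq using fun i =>
        moving_root_deriv (GA i) (UA i) (hUA i) (zA i) (hzAan i)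
          (fun t ht => (hzAroot i t ht).2) t σ (hQA i).1 (fun k => hGA i k _ (hzAr i))
      choose SB' hSB' hSBeq using fun j =>
        moving_root_deriv (GB j) (UB j) (hUB j) (zB j) (hzBan j)
          (fun t ht => (hzBroot j t ht).2) t σ (hQB j).1 (fun k => hGB j k _ (hzBr j))
      have hA : ∀ i, HasDerivAt (fun τ : ℂ => JA i (zA i (τ • t)))
          (SA' i • ωA i (zA i (σ • t))) σ := fun i =>
        HasDerivAt.scomp σ (hJA i _ (hzAr i)) (hSA' i)
      have hB : ∀ j, HasDerivAt (fun τ : ℂ => JB j (zB j (τ • t)))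
          (SB' j • ωB j (zB j (σ • t))) σ := fun j =>
        HasDerivAt.scomp σ (hJB j _ (hzBr j)) (hSB' j)
      have hsum : HasDerivAt φ (∑ i, SA' i • ωA i (zA i (σ • t))
          + ∑ j, SB' j • ωB j (zB j (σ • t))) σ :=
        (HasDerivAt.fun_sum fun i _ => hA i).add (HasDerivAt.fun_sum fun j _ => hB j)
      have hτη : ‖σ • t‖ < η := lt_of_lt_of_le hτc hcη
      have hnzA : ∀ i, 1 - ∑ k, (σ • t) k * deriv (GA i k) (zA i (σ • t)) ≠ 0 := fun i =>
        (hPη' (σ • t) (zA i (σ • t)) hτη (lt_of_lt_of_le (hQA i).2 hcη)).1 i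
      have hnzB : ∀ j, 1 - ∑ k, (σ • t) k * deriv (GB j k) (zB j (σ • t)) ≠ 0 := fun j =>
        (hPη' (σ • t) (zB j (σ • t)) hτη (lt_of_lt_of_le (hQB j).2 hcη)).2 j
      have key := hT (σ • t) (fun i => zA i (σ • t)) (fun j => zB j (σ • t))
        (fun k => lt_of_le_of_lt (norm_le_pi_norm (σ • t) k) (lt_of_lt_of_le hτc hcr))
        (fun i => lt_of_lt_of_le (hQA i).2 hcr) (fun j => lt_of_lt_of_le (hQB j).2 hcr)
        (fun i => (hzAroot i (σ • t) (hQA i).1).2) (fun j => (hzBroot j (σ • t) (hQB j).1).2)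
        hnzA hnzB
      have hD : σ • (∑ i, SA' i • ωA i (zA i (σ • t)) + ∑ j, SB' j • ωB j (zB j (σ • t))) = 0 := by
        rw [smul_add, Finset.smul_sum, Finset.smul_sum, ← key]
        congr 1
        · refine Finset.sum_congr rfl fun i _ => ?_
          rw [smul_smul]
          congr 1
          rw [eq_div_iff (hnzA i)]
          calc σ * SA' i * (1 - ∑ k, (σ • t) k * deriv (GA i k) (zA i (σ • t)))
              = σ * (SA' i * (1 - ∑ k, (σ • t) k * deriv (GA i k) (zA i (σ • t)))) := by ring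
            _ = σ * ∑ k, t k * GA i k (zA i (σ • t)) := by rw [hSAeq i]
            _ = ∑ k, (σ • t) k * GA i k (zA i (σ • t)) := by
                rw [Finset.mul_sum]
                refine Finset.sum_congr rfl fun k _ => ?_
                simp only [Pi.smul_apply, smul_eq_mul]
                ring
            _ = zA i (σ • t) := ((hzAroot i (σ • t) (hQA i).1).2).symm
        · refine Finset.sum_congr rfl fun j _ => ?_
          rw [smul_smul]
          congr 1
          rw [eq_div_iff (hnzB j)]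
          calc σ * SB' j * (1 - ∑ k, (σ • t) k * deriv (GB j k) (zB j (σ • t)))
              = σ * (SB' j * (1 - ∑ k, (σ • t) k * deriv (GB j k) (zB j (σ • t)))) := by ring
            _ = σ * ∑ k, t k * GB j k (zB j (σ • t)) := by rw [hSBeq j]
            _ = ∑ k, (σ • t) k * GB j k (zB j (σ • t)) := by
                rw [Finset.mul_sum]
                refine Finset.sum_congr rfl fun k _ => ?_
                simp only [Pi.smul_apply, smul_eq_mul]
                ring
            _ = zB j (σ • t) := ((hzBroot j (σ • t) (hQB j).1).2).symm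
      have hz : (∑ i, SA' i • ωA i (zA i (σ • t)) + ∑ j, SB' j • ωB j (zB j (σ • t))) = 0 :=
        (smul_eq_zero.mp hD).resolve_left hσ0
      rw [hz] at hsum
      exact hsum
    have hconst : ∀ σ ∈ Metric.ball (1 : ℂ) 1, φ σ = φ 1 := by
      intro σ hσ
      exact IsOpen.is_const_of_deriv_eq_zero Metric.isOpen_ball
        (convex_ball (1 : ℂ) 1).isPreconnected
        (fun τ hτ => (hderiv τ hτ).differentiableAt.differentiableWithinAt)
        (fun τ hτ => (hderiv τ hτ).deriv) hσ (Metric.mem_ball_self one_pos)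
    have hcont : ContinuousAt φ 0 := by
      have hray : ContinuousAt (fun τ : ℂ => τ • t) 0 :=
        (continuous_id.smul continuous_const).continuousAt
      refine ContinuousAt.add (tendsto_finsetSum _ fun i _ => ?_)
        (tendsto_finsetSum _ fun j _ => ?_)
      · have h1 : ContinuousAt (zA i) ((0 : ℂ) • t) := by
          rw [zero_smul]; exact (hzAan i 0 (h0UA i)).continuousAt
        have h2 : ContinuousAt (JA i) (zA i ((0 : ℂ) • t)) := by
          rw [zero_smul, hzA0 i]; exact (hJA i 0 h0r).continuousAt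
        exact ContinuousAt.comp (g := JA i) (f := fun τ : ℂ => zA i (τ • t)) h2
          (ContinuousAt.comp (g := zA i) (f := fun τ : ℂ => τ • t) h1 hray)
      · have h1 : ContinuousAt (zB j) ((0 : ℂ) • t) := by
          rw [zero_smul]; exact (hzBan j 0 (h0UB j)).continuousAt
        have h2 : ContinuousAt (JB j) (zB j ((0 : ℂ) • t)) := by
          rw [zero_smul, hzB0 j]; exact (hJB j 0 h0r).continuousAt
        exact ContinuousAt.comp (g := JB j) (f := fun τ : ℂ => zB j (τ • t)) h2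
          (ContinuousAt.comp (g := zB j) (f := fun τ : ℂ => τ • t) h1 hray)
    have hφ0 : φ 0 = 0 := by simp [hφ, hzA0, hzB0, hJA0, hJB0]
    have h0cl : (0 : ℂ) ∈ closure (Metric.ball (1 : ℂ) 1) := by
      rw [closure_ball (1 : ℂ) one_ne_zero]
      simp [Metric.mem_closedBall]
    have : (𝓝[Metric.ball (1 : ℂ) 1] (0 : ℂ)).NeBot := mem_closure_iff_nhdsWithin_neBot.mp h0cl
    have hlim1 : Tendsto φ (𝓝[Metric.ball (1 : ℂ) 1] 0) (𝓝 (φ 0)) :=
      hcont.tendsto.mono_left nhdsWithin_le_nhds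
    have hlim2 : Tendsto φ (𝓝[Metric.ball (1 : ℂ) 1] 0) (𝓝 (φ 1)) := by
      refine tendsto_const_nhds.congr' ?_
      filter_upwards [self_mem_nhdsWithin] with σ hσ using (hconst σ hσ).symm
    have huniq := tendsto_nhds_unique hlim1 hlim2
    have h1 : φ 1 = ∑ i, JA i (zA i t) + ∑ j, JB j (zB j t) := by simp [hφ]
    rw [← h1, ← huniq, hφ0]
  -- Cramer: every small `s` is a tuple of moving points
  set Gm : (Fin m → ℂ) → Matrix (Fin m) (Fin m) ℂ := fun s => Matrix.of fun i k => GA i k (s i)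
    with hGm
  have hGm0 : Gm 0 = 1 := by
    ext i k
    simp [hGm, hGA0, Matrix.one_apply]
  have hGmc : ContinuousAt Gm 0 := by
    refine continuousAt_pi.mpr fun i => continuousAt_pi.mpr fun k => ?_
    exact ContinuousAt.comp (g := GA i k) (f := fun s : Fin m → ℂ => s i)
      ((hGA i k 0 h0r).continuousAt) (continuous_apply i).continuousAt
  set tt : (Fin m → ℂ) → (Fin m → ℂ) := fun s => ((Gm s).det)⁻¹ • (Gm s).adjugate.mulVec s
    with htt
  have hdetc : ContinuousAt (fun s => (Gm s).det) 0 :=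
    ContinuousAt.comp (g := fun M : Matrix (Fin m) (Fin m) ℂ => M.det) (f := Gm)
      (continuous_id.matrix_det).continuousAt hGmc
  have hadjc : ContinuousAt (fun s => (Gm s).adjugate) 0 :=
    ContinuousAt.comp (g := fun M : Matrix (Fin m) (Fin m) ℂ => M.adjugate) (f := Gm)
      (continuous_id.matrix_adjugate).continuousAt hGmc
  have hmulc : ContinuousAt (fun s => (Gm s).adjugate.mulVec s) 0 := by
    have hpair : Continuous (fun p : Matrix (Fin m) (Fin m) ℂ × (Fin m → ℂ) => p.1.mulVec p.2) :=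
      Continuous.matrix_mulVec continuous_fst continuous_snd
    exact ContinuousAt.comp (g := fun p : Matrix (Fin m) (Fin m) ℂ × (Fin m → ℂ) => p.1.mulVec p.2)
      (f := fun s => ((Gm s).adjugate, s)) hpair.continuousAt (hadjc.prodMk continuousAt_id)
  have hdet0 : (Gm 0).det ≠ 0 := by rw [hGm0]; simp
  have httc : ContinuousAt tt 0 := (hdetc.inv₀ hdet0).smul hmulc
  have htt0 : tt 0 = 0 := by simp [htt]
  have hR : ∀ᶠ s : Fin m → ℂ in 𝓝 0, (Gm s).det ≠ 0 ∧ ‖tt s‖ < ε0 / 2 ∧ ∀ i, ‖s i‖ < δA i := by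
    have e1 : ∀ᶠ s : Fin m → ℂ in 𝓝 0, (Gm s).det ≠ 0 := hdetc.eventually_ne hdet0
    have e2 : ∀ᶠ s : Fin m → ℂ in 𝓝 0, ‖tt s‖ < ε0 / 2 :=
      httc.norm.eventually_lt continuousAt_const (by rw [htt0]; simpa using half_pos hε0)
    have e3 : ∀ i, ∀ᶠ s : Fin m → ℂ in 𝓝 0, ‖s i‖ < δA i := fun i => by
      have hci : ContinuousAt (fun s : Fin m → ℂ => ‖s i‖) 0 :=
        ((continuous_apply i).norm).continuousAt
      exact hci.eventually_lt continuousAt_const (by simpa using hδA i)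
    filter_upwards [e1, e2, eventually_all.mpr e3] with s a b d using ⟨a, b, d⟩
  obtain ⟨ε, hε, hRε⟩ := Metric.eventually_nhds_iff.mp hR
  refine ⟨ε, hε, fun s hs => ?_⟩
  have hsn : dist s 0 < ε := by
    rw [dist_zero_right]
    exact (pi_norm_lt_iff hε).mpr hs
  obtain ⟨hdet, htts, hsδ⟩ := hRε hsn
  obtain ⟨hτc, hQA, hQB⟩ := hQε (y := tt s) (by rw [dist_zero_right]; linarith)
  have hmv : (Gm s).mulVec (tt s) = s := by
    simp only [htt]
    rw [Matrix.mulVec_smul, Matrix.mulVec_mulVec, Matrix.mul_adjugate, Matrix.smul_mulVec,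
      Matrix.one_mulVec, smul_smul, inv_mul_cancel₀ hdet, one_smul]
  have hsroot : ∀ i, s i = ∑ k, tt s k * GA i k (s i) := fun i => by
    have h := congrFun hmv i
    simp only [Matrix.mulVec, dotProduct, hGm, Matrix.of_apply] at h
    exact h.symm.trans (Finset.sum_congr rfl fun k _ => mul_comm _ _)
  have hsz : ∀ i, s i = zA i (tt s) := fun i =>
    hzAuniq i (tt s) (hQA i).1 (s i) (hsδ i) (hsroot i)
  refine ⟨tt s, fun j => zB j (tt s), ?_, ?_, hsroot,
    fun j => (hzBroot j (tt s) (hQB j).1).2, ?_⟩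
  · intro k
    exact lt_of_le_of_lt (norm_le_pi_norm (tt s) k) (lt_of_lt_of_le hτc hcρ)
  · intro j
    exact lt_of_lt_of_le (hQB j).2 hcρ
  · have h := hH (tt s) htts
    have e : ∑ i, JA i (s i) = ∑ i, JA i (zA i (tt s)) :=
      Finset.sum_congr rfl fun i _ => by rw [← hsz i]
    rw [e]
    exact h

end Fermat.Agent.S27.helper2178
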