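import Mathlib
import Fermat.Prelude.Def_AlgebraicCurve_Repartitions

/-!
# S27 (algebraic track): full Riemann–Roch with duality from weak Riemann–Roch

Stichtenoth §1.5 in the Prelude repartition language.  Characteristic free, no Kähler
differentials, no plane model.  Input: the weak Riemann–Roch package `WeakRR` (module A2);
all places of degree one; at least one place.

Output: `rr_duality` — there is a divisor `W` of degree `2g - 2` with
`l(D) = deg D + 1 - g + l(W - D)` for every divisor `D`.
-/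

set_option autoImplicit false

open AlgebraicCurve Module

namespace Fermat.Agent.S27.helper2184

variable {K F : Type*} [Field K] [Field F] [Algebra K F]

/-- The weak Riemann–Roch package (output of module A2). -/
structure WeakRR (K F : Type*) [Field K] [Field F] [Algebra K F] : Prop where
  finite_L : ∀ D : Divisor K F, Module.Finite K (riemannRochSpace D)
  finite_H1 : ∀ D : Divisor K F, Module.Finite K (H1 D)
  rr : ∀ D : Divisor K F,
    (finrank K (riemannRochSpace D) : ℤ) - finrank K (H1 D) =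
      Divisor.degree D + 1 - genusFF K F
  vanish : ∃ c : ℤ, ∀ D : Divisor K F, c ≤ Divisor.degree D → finrank K (H1 D) = 0

/-- Multiplication by `x : F` on repartitions, as a `K`-linear map. -/
def lsmul (x : F) : ↥(repartitions K F) →ₗ[K] ↥(repartitions K F) where
  toFun α := x • α
  map_add' α β := smul_add x α β
  map_smul' c α := by
    apply Subtype.ext
    funext v
    simp only [RingHom.id_apply]
    show x • (c • (α : Place K F → F)) v = c • (x • (α : Place K F → F)) v
    simp only [Pi.smul_apply, smul_eq_mul, Algebra.smul_def]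
    ring

@[simp] lemma lsmul_apply_coe (x : F) (α : ↥(repartitions K F)) (v : Place K F) :
    ((lsmul (K := K) x α : ↥(repartitions K F)) : Place K F → F) v =
      x * (α : Place K F → F) v := rfl

/-- The action of `F` on `K`-linear functionals on repartitions: `(x • ω)(α) = ω(x α)`. -/
def act (x : F) : Dual K ↥(repartitions K F) →ₗ[K] Dual K ↥(repartitions K F) where
  toFun ω := ω.comp (lsmul x)
  map_add' ω ω' := by ext α; simp
  map_smul' c ω := by ext α; simp

@[simp] lemma act_apply (x : F) (ω : Dual K ↥(repartitions K F)) (α : ↥(repartitions K F)) :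
    act x ω α = ω (lsmul x α) := rfl

lemma lsmul_lsmul (x y : F) (α : ↥(repartitions K F)) :
    lsmul (K := K) x (lsmul y α) = lsmul (x * y) α := by
  apply Subtype.ext
  funext v
  simp [mul_assoc]

lemma lsmul_one (α : ↥(repartitions K F)) : lsmul (K := K) (1 : F) α = α := by
  apply Subtype.ext
  funext v
  simp

lemma lsmul_add_left (x y : F) (α : ↥(repartitions K F)) :
    lsmul (K := K) (x + y) α = lsmul x α + lsmul y α := by
  apply Subtype.ext
  funext v
  simp [add_mul]

lemma lsmul_zero_left (α : ↥(repartitions K F)) : lsmul (K := K) (0 : F) α = 0 := by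
  apply Subtype.ext
  funext v
  simp

lemma lsmul_algebraMap (c : K) (α : ↥(repartitions K F)) :
    lsmul (K := K) (algebraMap K F c) α = c • α := by
  apply Subtype.ext
  funext v
  show algebraMap K F c * (α : Place K F → F) v = (c • (α : Place K F → F)) v
  simp [Algebra.smul_def]

lemma act_act (x y : F) (ω : Dual K ↥(repartitions K F)) :
    act x (act y ω) = act (x * y) ω := by
  ext α
  simp [lsmul_lsmul, mul_comm]

lemma act_one (ω : Dual K ↥(repartitions K F)) : act (1 : F) ω = ω := by
  ext α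
  simp [lsmul_one]

lemma act_add_left (x y : F) (ω : Dual K ↥(repartitions K F)) :
    act (x + y) ω = act x ω + act y ω := by
  ext α
  simp [lsmul_add_left]

lemma act_zero_left (ω : Dual K ↥(repartitions K F)) : act (0 : F) ω = 0 := by
  ext α
  simp [lsmul_zero_left]

lemma act_algebraMap (c : K) (ω : Dual K ↥(repartitions K F)) :
    act (algebraMap K F c) ω = c • ω := by
  ext α
  simp [lsmul_algebraMap]

lemma act_smul_left (c : K) (x : F) (ω : Dual K ↥(repartitions K F)) :
    act (c • x) ω = c • act x ω := by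
  rw [Algebra.smul_def, ← act_act, act_algebraMap]

/-- Weil differentials vanishing on `A(D) + F`. -/
def weil (D : Divisor K F) : Submodule K (Dual K ↥(repartitions K F)) :=
  (repartitionsOf D ⊔ principalRepartitions K F).dualAnnihilator

lemma mem_weil_iff {D : Divisor K F} {ω : Dual K ↥(repartitions K F)} :
    ω ∈ weil D ↔ (∀ α ∈ repartitionsOf D, ω α = 0) ∧
      ∀ α ∈ principalRepartitions K F, ω α = 0 := by
  unfold weil
  rw [Submodule.dualAnnihilator_sup_eq, Submodule.mem_inf, Submodule.mem_dualAnnihilator,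
    Submodule.mem_dualAnnihilator]

lemma weil_antitone {D D' : Divisor K F} (h : D ≤ D') : weil D' ≤ weil D := by
  intro ω hω
  rw [mem_weil_iff] at hω ⊢
  exact ⟨fun α hα => hω.1 α (repartitionsOf_mono h hα), hω.2⟩


/-! ### Divisor degree lemmas -/

lemma degree_eq_sum (D : Divisor K F) :
    Divisor.degree D = D.sum fun v n => n * (v.deg : ℤ) := by
  simp [Divisor.degree, Finsupp.liftAddHom_apply]

lemma degree_nonneg {D : Divisor K F} (h : 0 ≤ D) : 0 ≤ Divisor.degree D := by
  rw [degree_eq_sum]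
  refine Finset.sum_nonneg fun v _ => ?_
  have : (0 : ℤ) ≤ D v := by simpa using Finsupp.le_def.mp h v
  positivity

lemma degree_mono {D D' : Divisor K F} (h : D ≤ D') :
    Divisor.degree D ≤ Divisor.degree D' := by
  have h0 : (0 : Divisor K F) ≤ D' - D := sub_nonneg.mpr h
  have := degree_nonneg h0
  rw [map_sub] at this
  linarith

lemma eq_of_le_of_degree_le (hdeg : ∀ v : Place K F, v.deg = 1) {D D' : Divisor K F}
    (h : D ≤ D') (hd : Divisor.degree D' ≤ Divisor.degree D) : D = D' := by
  have h0 : (0 : Divisor K F) ≤ D' - D := sub_nonneg.mpr h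
  have hz : Divisor.degree (D' - D) = 0 := by
    have := degree_nonneg h0
    rw [map_sub] at this ⊢
    linarith
  rw [degree_eq_sum] at hz
  have hterm : ∀ v ∈ (D' - D).support, (D' - D) v * (v.deg : ℤ) = 0 := by
    have hnn : ∀ v ∈ (D' - D).support, (0 : ℤ) ≤ (D' - D) v * (v.deg : ℤ) := by
      intro v _
      have : (0 : ℤ) ≤ (D' - D) v := by simpa using Finsupp.le_def.mp h0 v
      positivity
    exact (Finset.sum_eq_zero_iff_of_nonneg hnn).mp hz
  have hzero : D' - D = 0 := by
    ext v
    by_cases hv : v ∈ (D' - D).support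
    · have := hterm v hv
      rw [hdeg v] at this
      simpa using this
    · simpa using Finsupp.notMem_support_iff.mp hv
  exact (sub_eq_zero.mp hzero).symm

/-! ### Riemann–Roch spaces of negative degree -/

lemma riemannRochSpace_eq_bot_of_degree_neg [HasPrincipalDivisors K F] {D : Divisor K F}
    (hD : Divisor.degree D < 0) : riemannRochSpace D = ⊥ := by
  rw [eq_bot_iff]
  intro f hf
  rw [Submodule.mem_bot]
  by_contra hf0
  obtain ⟨Df, hDf, hdeg0⟩ := HasPrincipalDivisors.exists_divisor (K := K) f hf0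
  rw [mem_riemannRochSpace_iff] at hf
  have hnn : (0 : Divisor K F) ≤ D + Df := by
    rw [Finsupp.le_def]
    intro v
    rcases hf v with h | h
    · exact absurd h hf0
    · simp only [Finsupp.coe_zero, Pi.zero_apply, Finsupp.coe_add, Pi.add_apply, hDf v]
      linarith
  have := degree_nonneg hnn
  rw [map_add, hdeg0] at this
  linarith

/-! ### The action and the spaces `weil D` -/

lemma lsmul_mem_principal (x : F) {α : ↥(repartitions K F)}
    (hα : α ∈ principalRepartitions K F) : lsmul (K := K) x α ∈ principalRepartitions K F := by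
  rw [mem_principalRepartitions_iff] at hα ⊢
  obtain ⟨f, hf⟩ := hα
  refine ⟨x * f, ?_⟩
  funext v
  rw [lsmul_apply_coe, hf]

lemma lsmul_mem_repartitionsOf {B E : Divisor K F} {x : F} (hx : x ∈ riemannRochSpace B)
    {α : ↥(repartitions K F)} (hα : α ∈ repartitionsOf (E - B)) :
    lsmul (K := K) x α ∈ repartitionsOf E := by
  rw [mem_repartitionsOf_iff] at hα ⊢
  rw [mem_riemannRochSpace_iff] at hx
  intro v
  rw [lsmul_apply_coe]
  rcases hx v with hx0 | hxv
  · left; rw [hx0, zero_mul]
  rcases hα v with hα0 | hαv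
  · left; rw [hα0, mul_zero]
  by_cases hx0 : x = 0
  · left; rw [hx0, zero_mul]
  by_cases hα0 : (α : Place K F → F) v = 0
  · left; rw [hα0, mul_zero]
  right
  rw [v.ord_mul hx0 hα0]
  simp only [Finsupp.coe_sub, Pi.sub_apply] at hαv
  linarith

lemma act_mem_weil {B E : Divisor K F} {x : F} (hx : x ∈ riemannRochSpace B)
    {ω : Dual K ↥(repartitions K F)} (hω : ω ∈ weil E) : act x ω ∈ weil (E - B) := by
  rw [mem_weil_iff] at hω ⊢
  refine ⟨fun α hα => ?_, fun α hα => ?_⟩
  · rw [act_apply]
    exact hω.1 _ (lsmul_mem_repartitionsOf hx hα)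
  · rw [act_apply]
    exact hω.2 _ (lsmul_mem_principal x hα)

lemma finrank_weil (D : Divisor K F) : finrank K (weil D) = finrank K (H1 D) := by
  have e := Submodule.dualQuotEquivDualAnnihilator
    (repartitionsOf D ⊔ principalRepartitions K F)
  have h1 : finrank K (weil D) = finrank K (Dual K (H1 D)) := (LinearEquiv.finrank_eq e).symm
  rw [h1, Subspace.dual_finrank_eq]

lemma finite_weil (h : WeakRR K F) (D : Divisor K F) : Module.Finite K (weil D) := by
  have := h.finite_H1 D
  have e := Submodule.dualQuotEquivDualAnnihilator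
    (repartitionsOf D ⊔ principalRepartitions K F)
  exact Module.Finite.equiv e

lemma act_eq_zero_iff {x : F} (hx : x ≠ 0) (ω : Dual K ↥(repartitions K F)) :
    act x ω = 0 ↔ ω = 0 := by
  constructor
  · intro h
    have : act x⁻¹ (act x ω) = 0 := by rw [h, map_zero]
    rwa [act_act, inv_mul_cancel₀ hx, act_one] at this
  · intro h
    rw [h, map_zero]


lemma act_neg_left (x : F) (ω : Dual K ↥(repartitions K F)) : act (-x) ω = -act x ω := by
  have h := act_add_left x (-x) ω
  rw [add_neg_cancel, act_zero_left] at h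
  exact eq_neg_of_add_eq_zero_right h.symm

/-- `x ↦ x • ω` as a `K`-linear map `L(B) → weil T`, `T = E - B`, for `ω ∈ weil E`. -/
def actL (ω : Dual K ↥(repartitions K F)) {E B T : Divisor K F} (hω : ω ∈ weil E)
    (hT : T = E - B) : ↥(riemannRochSpace B) →ₗ[K] ↥(weil T) where
  toFun x := ⟨act (x : F) ω, hT ▸ act_mem_weil x.2 hω⟩
  map_add' x y := by
    apply Subtype.ext
    simp [act_add_left]
  map_smul' c x := by
    apply Subtype.ext
    simp [act_smul_left]

@[simp] lemma actL_apply_coe (ω : Dual K ↥(repartitions K F)) {E B T : Divisor K F}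
    (hω : ω ∈ weil E) (hT : T = E - B) (x : ↥(riemannRochSpace B)) :
    ((actL ω hω hT x : ↥(weil T)) : Dual K ↥(repartitions K F)) = act (x : F) ω := rfl

lemma actL_injective {ω : Dual K ↥(repartitions K F)} (hω0 : ω ≠ 0) {E B T : Divisor K F}
    (hω : ω ∈ weil E) (hT : T = E - B) : Function.Injective (actL ω hω hT) := by
  refine (injective_iff_map_eq_zero _).mpr ?_
  intro x hx
  have hx' : act (x : F) ω = 0 := by
    have := congrArg Subtype.val hx
    simpa using this
  by_contra hne
  have hx0 : (x : F) ≠ 0 := fun h0 => hne (Subtype.ext h0)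
  exact hω0 ((act_eq_zero_iff hx0 ω).mp hx')

/-! ### The space of Weil differentials is one-dimensional over `F` -/

theorem exists_act_eq [HasPrincipalDivisors K F] (hdeg : ∀ v : Place K F, v.deg = 1)
    (hne : Nonempty (Place K F)) (h : WeakRR K F)
    {D₁ D₂ : Divisor K F} {ω₁ ω₂ : Dual K ↥(repartitions K F)}
    (h₁ : ω₁ ∈ weil D₁) (h₂ : ω₂ ∈ weil D₂) (hω₁ : ω₁ ≠ 0) :
    ∃ y : F, ω₂ = act y ω₁ := by
  by_contra hno
  push Not at hno
  obtain ⟨P⟩ := hne
  -- choose `n` large
  set g : ℤ := (genusFF K F : ℤ) with hg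
  set n : ℕ := (3 * g - 2 - Divisor.degree D₁ - Divisor.degree D₂).toNat + 1 with hn
  have hn1 : (1 : ℤ) ≤ n := by rw [hn]; push_cast; omega
  have hn2 : 3 * g - 2 - Divisor.degree D₁ - Divisor.degree D₂ < (n : ℤ) := by
    rw [hn]; push_cast
    have := Int.self_le_toNat (3 * g - 2 - Divisor.degree D₁ - Divisor.degree D₂)
    omega
  set B : Divisor K F := Finsupp.single P (n : ℤ) with hB
  have hdegB : Divisor.degree B = n := by
    rw [hB, Divisor.degree_single, hdeg P]; simp
  -- the two maps
  have hT₁ : -B = D₁ - (D₁ + B) := by abel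
  have hT₂ : -B = D₂ - (D₂ + B) := by abel
  set φ₁ := actL ω₁ h₁ hT₁ with hφ₁
  set φ₂ := actL ω₂ h₂ hT₂ with hφ₂
  set Φ := φ₁.coprod φ₂ with hΦ
  have hinj : Function.Injective Φ := by
    refine (injective_iff_map_eq_zero _).mpr ?_
    rintro ⟨x₁, x₂⟩ hx
    have hx' : act (x₁ : F) ω₁ + act (x₂ : F) ω₂ = 0 := by
      have := congrArg Subtype.val hx
      simpa [hΦ, hφ₁, hφ₂] using this
    by_cases hx₂ : (x₂ : F) = 0
    · rw [hx₂, act_zero_left, add_zero] at hx'
      by_cases hx₁ : (x₁ : F) = 0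
      · exact Prod.ext (Subtype.ext hx₁) (Subtype.ext hx₂)
      · exact absurd ((act_eq_zero_iff hx₁ ω₁).mp hx') hω₁
    · exfalso
      apply hno (-((x₂ : F)⁻¹ * (x₁ : F)))
      have h2 : act (x₂ : F)⁻¹ (act (x₁ : F) ω₁ + act (x₂ : F) ω₂) = 0 := by
        rw [hx', map_zero]
      rw [map_add, act_act, act_act, inv_mul_cancel₀ hx₂, act_one] at h2
      rw [act_neg_left]
      exact eq_neg_of_add_eq_zero_right h2
  -- dimension count
  have hfL₁ := h.finite_L (D₁ + B)
  have hfL₂ := h.finite_L (D₂ + B)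
  have hfW := finite_weil h (-B)
  have hle : finrank K (↥(riemannRochSpace (D₁ + B)) × ↥(riemannRochSpace (D₂ + B))) ≤
      finrank K ↥(weil (-B)) := LinearMap.finrank_le_finrank_of_injective hinj
  rw [Module.finrank_prod, finrank_weil] at hle
  have hr₁ := h.rr (D₁ + B)
  have hr₂ := h.rr (D₂ + B)
  have hr₃ := h.rr (-B)
  have hLB : finrank K ↥(riemannRochSpace (-B)) = 0 := by
    have hneg : Divisor.degree (-B) < 0 := by rw [map_neg, hdegB]; omega
    rw [riemannRochSpace_eq_bot_of_degree_neg hneg]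
    exact finrank_bot K F
  rw [hLB] at hr₃
  rw [map_add, hdegB] at hr₁ hr₂
  rw [map_neg, hdegB] at hr₃
  have hle' : (finrank K ↥(riemannRochSpace (D₁ + B)) : ℤ) +
      finrank K ↥(riemannRochSpace (D₂ + B)) ≤ finrank K (H1 (-B)) := by exact_mod_cast hle
  have hp₁ : (0 : ℤ) ≤ finrank K (H1 (D₁ + B)) := Int.natCast_nonneg _
  have hp₂ : (0 : ℤ) ≤ finrank K (H1 (D₂ + B)) := Int.natCast_nonneg _
  push_cast at hr₃
  linarith


/-! ### The divisor of a Weil differential -/

lemma weil_sup {D₁ D₂ : Divisor K F} {ω : Dual K ↥(repartitions K F)}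
    (h₁ : ω ∈ weil D₁) (h₂ : ω ∈ weil D₂) : ω ∈ weil (D₁ ⊔ D₂) := by
  classical
  rw [mem_weil_iff] at h₁ h₂ ⊢
  refine ⟨fun α hα => ?_, h₁.2⟩
  have hα' : ∀ v : Place K F,
      v.adicValuation ((α : Place K F → F) v) ≤ WithZero.exp ((D₁ ⊔ D₂) v) := hα
  set a₁ : Place K F → F := fun v => if D₂ v ≤ D₁ v then (α : Place K F → F) v else 0 with ha₁
  set a₂ : Place K F → F := fun v => if D₂ v ≤ D₁ v then 0 else (α : Place K F → F) v with ha₂
  have hb₁ : ∀ v : Place K F, v.adicValuation (a₁ v) ≤ WithZero.exp (D₁ v) := by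
    intro v
    by_cases hv : D₂ v ≤ D₁ v
    · have := hα' v
      rw [Finsupp.sup_apply, sup_eq_left.mpr hv] at this
      simpa [ha₁, hv] using this
    · simp [ha₁, hv]
  have hb₂ : ∀ v : Place K F, v.adicValuation (a₂ v) ≤ WithZero.exp (D₂ v) := by
    intro v
    by_cases hv : D₂ v ≤ D₁ v
    · simp [ha₂, hv]
    · have := hα' v
      rw [Finsupp.sup_apply, sup_eq_right.mpr (le_of_not_ge hv)] at this
      simpa [ha₂, hv] using this
  set α₁ : ↥(repartitions K F) := ⟨a₁, mem_repartitions_of_forall_le_exp D₁ a₁ hb₁⟩ with hα₁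
  set α₂ : ↥(repartitions K F) := ⟨a₂, mem_repartitions_of_forall_le_exp D₂ a₂ hb₂⟩ with hα₂
  have hsum : α = α₁ + α₂ := by
    apply Subtype.ext
    funext v
    show (α : Place K F → F) v = a₁ v + a₂ v
    by_cases hv : D₂ v ≤ D₁ v <;> simp [ha₁, ha₂, hv]
  have hm₁ : α₁ ∈ repartitionsOf D₁ := hb₁
  have hm₂ : α₂ ∈ repartitionsOf D₂ := hb₂
  rw [hsum, map_add, h₁.1 α₁ hm₁, h₂.1 α₂ hm₂, add_zero]

lemma weil_eq_bot_of_finrank_H1 (h : WeakRR K F) {D : Divisor K F}
    (hD : finrank K (H1 D) = 0) : weil D = ⊥ := by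
  have := finite_weil h D
  have h0 : finrank K ↥(weil D) = 0 := by rw [finrank_weil, hD]
  exact (Submodule.finrank_eq_zero (R := K)).mp h0

theorem exists_max_divisor (hdeg : ∀ v : Place K F, v.deg = 1) (h : WeakRR K F)
    {ω : Dual K ↥(repartitions K F)} (hω : ω ≠ 0) {D₀ : Divisor K F} (h₀ : ω ∈ weil D₀) :
    ∃ W : Divisor K F, ω ∈ weil W ∧ ∀ D : Divisor K F, ω ∈ weil D → D ≤ W := by
  obtain ⟨c, hc⟩ := h.vanish
  have hbound : ∀ D : Divisor K F, ω ∈ weil D → Divisor.degree D < c := by
    intro D hD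
    by_contra hlt
    have hbot := weil_eq_bot_of_finrank_H1 h (hc D (not_lt.mp hlt))
    rw [hbot, Submodule.mem_bot] at hD
    exact hω hD
  obtain ⟨d, ⟨W, hW, hWd⟩, hmax⟩ :=
    Int.exists_greatest_of_bdd (P := fun d : ℤ => ∃ D : Divisor K F, ω ∈ weil D ∧
      Divisor.degree D = d)
      ⟨c, fun z ⟨D, hD, hz⟩ => hz ▸ (hbound D hD).le⟩ ⟨Divisor.degree D₀, D₀, h₀, rfl⟩
  refine ⟨W, hW, fun D hD => ?_⟩
  have hsup : ω ∈ weil (W ⊔ D) := weil_sup hW hD
  have hle : Divisor.degree (W ⊔ D) ≤ Divisor.degree W := by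
    rw [hWd]
    exact hmax _ ⟨W ⊔ D, hsup, rfl⟩
  have heq : W = W ⊔ D := eq_of_le_of_degree_le hdeg le_sup_left hle
  rw [heq]
  exact le_sup_right

/-! ### Duality and the Riemann–Roch theorem -/

theorem exists_duality [HasPrincipalDivisors K F] (hdeg : ∀ v : Place K F, v.deg = 1)
    (hne : Nonempty (Place K F)) (h : WeakRR K F) :
    ∃ W : Divisor K F, ∀ D : Divisor K F,
      finrank K ↥(riemannRochSpace (W - D)) = finrank K (H1 D) := by
  obtain ⟨P⟩ := hne
  -- a nonzero Weil differential
  set D₀ : Divisor K F := Finsupp.single P (-2 : ℤ) with hD₀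
  have hdegD₀ : Divisor.degree D₀ = -2 := by
    rw [hD₀, Divisor.degree_single, hdeg P]; simp
  have hL₀ : finrank K ↥(riemannRochSpace D₀) = 0 := by
    have hneg : Divisor.degree D₀ < 0 := by rw [hdegD₀]; norm_num
    rw [riemannRochSpace_eq_bot_of_degree_neg hneg]
    exact finrank_bot K F
  have hr₀ := h.rr D₀
  rw [hL₀, hdegD₀] at hr₀
  have hpos : 0 < finrank K ↥(weil D₀) := by
    rw [finrank_weil]
    have : (0 : ℤ) < finrank K (H1 D₀) := by
      have hg : (0 : ℤ) ≤ genusFF K F := Int.natCast_nonneg _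
      push_cast at hr₀
      linarith
    exact_mod_cast this
  have hfin₀ := finite_weil h D₀
  have hnb : weil (K := K) (F := F) D₀ ≠ ⊥ := by
    intro hb
    rw [hb, finrank_bot] at hpos
    exact lt_irrefl _ hpos
  obtain ⟨ω, hω₀, hω⟩ := Submodule.exists_mem_ne_zero_of_ne_bot hnb
  obtain ⟨W, hW, hWmax⟩ := exists_max_divisor hdeg h hω hω₀
  refine ⟨W, fun D => ?_⟩
  have hT : D = W - (W - D) := by abel
  set Ψ := actL ω hW hT with hΨ
  have hinj : Function.Injective Ψ := actL_injective hω hW hT
  have hsurj : Function.Surjective Ψ := by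
    rintro ⟨ω', hω'⟩
    by_cases hz : ω' = 0
    · refine ⟨0, ?_⟩
      apply Subtype.ext
      simp [hz]
    obtain ⟨y, hy⟩ := exists_act_eq hdeg ⟨P⟩ h hW hω' hω
    have hy0 : y ≠ 0 := by
      rintro rfl
      rw [act_zero_left] at hy
      exact hz hy
    obtain ⟨Dy, hDy, -⟩ := HasPrincipalDivisors.exists_divisor (K := K) y hy0
    have hyinv : y⁻¹ ∈ riemannRochSpace Dy := by
      rw [mem_riemannRochSpace_iff]
      intro v
      right
      rw [v.ord_inv, hDy v]
    have hmem : act y⁻¹ ω' ∈ weil (D - Dy) := act_mem_weil hyinv hω'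
    rw [hy, act_act, inv_mul_cancel₀ hy0, act_one] at hmem
    have hle := hWmax _ hmem
    have hyL : y ∈ riemannRochSpace (W - D) := by
      rw [mem_riemannRochSpace_iff]
      intro v
      right
      have := Finsupp.le_def.mp hle v
      simp only [Finsupp.coe_sub, Pi.sub_apply, hDy v] at this ⊢
      linarith
    refine ⟨⟨y, hyL⟩, ?_⟩
    apply Subtype.ext
    rw [hΨ, actL_apply_coe]
    exact hy.symm
  have e := LinearEquiv.ofBijective Ψ ⟨hinj, hsurj⟩
  rw [LinearEquiv.finrank_eq e, finrank_weil]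

/-- **Riemann–Roch with duality**: there is a (canonical) divisor `W` of degree `2g - 2`
with `l(D) = deg D + 1 - g + l(W - D)` for every divisor `D`. -/
theorem rr_duality [HasPrincipalDivisors K F] (hdeg : ∀ v : Place K F, v.deg = 1)
    (hne : Nonempty (Place K F)) (h : WeakRR K F) :
    ∃ W : Divisor K F, Divisor.degree W = 2 * (genusFF K F : ℤ) - 2 ∧
      ∀ D : Divisor K F, (finrank K ↥(riemannRochSpace D) : ℤ) =
        Divisor.degree D + 1 - genusFF K F + finrank K ↥(riemannRochSpace (W - D)) := by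
  obtain ⟨W, hW⟩ := exists_duality hdeg hne h
  have hrr : ∀ D : Divisor K F, (finrank K ↥(riemannRochSpace D) : ℤ) =
      Divisor.degree D + 1 - genusFF K F + finrank K ↥(riemannRochSpace (W - D)) := by
    intro D
    have := h.rr D
    rw [hW D]
    linarith
  refine ⟨W, ?_, hrr⟩
  have h0 := hrr 0
  have hWW := hrr W
  have hH0 : finrank K (H1 (0 : Divisor K F)) = genusFF K F := rfl
  have hr0 := h.rr 0
  rw [hH0, map_zero] at hr0
  rw [map_zero, sub_zero] at h0
  rw [sub_self] at hWW
  linarith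

/-- The dimension of `L(W)` is the genus. -/
theorem exists_canonical [HasPrincipalDivisors K F] (hdeg : ∀ v : Place K F, v.deg = 1)
    (hne : Nonempty (Place K F)) (h : WeakRR K F) :
    ∃ W : Divisor K F, Divisor.degree W = 2 * (genusFF K F : ℤ) - 2 ∧
      finrank K ↥(riemannRochSpace W) = genusFF K F ∧
      (∀ D : Divisor K F, (finrank K ↥(riemannRochSpace D) : ℤ) =
        Divisor.degree D + 1 - genusFF K F + finrank K ↥(riemannRochSpace (W - D))) ∧
      ∀ D : Divisor K F, 2 * (genusFF K F : ℤ) - 2 < Divisor.degree D →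
        (finrank K ↥(riemannRochSpace D) : ℤ) = Divisor.degree D + 1 - genusFF K F := by
  obtain ⟨W, hdW, hrr⟩ := rr_duality hdeg hne h
  refine ⟨W, hdW, ?_, hrr, fun D hD => ?_⟩
  · have h0 := hrr 0
    have hr0 := h.rr 0
    have hH0 : finrank K (H1 (0 : Divisor K F)) = genusFF K F := rfl
    rw [hH0, map_zero] at hr0
    rw [map_zero, sub_zero] at h0
    have : (finrank K ↥(riemannRochSpace W) : ℤ) = genusFF K F := by linarith
    exact_mod_cast this
  · have hneg : Divisor.degree (W - D) < 0 := by rw [map_sub, hdW]; linarith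
    have := hrr D
    rw [riemannRochSpace_eq_bot_of_degree_neg hneg, finrank_bot] at this
    simpa using this

end Fermat.Agent.S27.helper2184
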