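/-
S27, step E3 in the "linear system" design (team_s27_chat #138), analytic core.

Abstract setting (no curve objects).  Points are indexed by `A ⊕ B` (`A` = free points,
`B` = the points of a good base divisor), centres `x m : ℂ`.  For every parameter index `k : κ`
and point `m` a function `r k m`, holomorphic on `ball (x m) ρ`
(consumer: `r k m z = (z - x m) * f_k (z, β_m z)` for a basis `1, f_k` of `L(A + D)`), and the
linear family
  `gfun (x m) (fun k => r k m) c z = (z - x m) + ∑ k, c k * r k m z`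
(consumer: `= (z - x m) * f_c (z, β_m z)` with `f_c = 1 + ∑ c_k f_k`).
`om j m` are the differentials along the branches and `P j m` primitives vanishing at `x m`.

Hypotheses: the residue map `c ↦ (∑ k, c k * r k m (x m))_{m ∈ A}` is injective and
`card κ = card A`; and (RES): at every common zero `(z, c)` of the family,
`∑ m, om j m (z m) * ((∑ k, c' k * r k m (z m)) / ∂_z g_m (z m, c)) = 0`.

Conclusion: for every `a` near `x|A` there are `b` near `x|B` and `c` near `0` with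
`g_m (a m, c) = 0` on `A`, `g_m (b m, c) = 0` on `B` and
`∑_{m ∈ A} P j m (a m) + ∑_{m ∈ B} P j m (b m) = 0` for all `j`.
-/
import Mathlib

set_option autoImplicit false

open Metric Set Filter Topology

namespace Fermat.Agent.S27.helper2260

noncomputable section

variable {κ : Type*} [Fintype κ]

/-- The linear family along one branch: `gfun x r c z = (z - x) + ∑ k, c k * r k z`. -/
def gfun (x : ℂ) (r : κ → ℂ → ℂ) (c : κ → ℂ) (z : ℂ) : ℂ := (z - x) + ∑ k, c k * r k z

/-- The `z`-derivative of `gfun`. -/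
def gder (r : κ → ℂ → ℂ) (c : κ → ℂ) (z : ℂ) : ℂ := 1 + ∑ k, c k * deriv (r k) z

theorem gfun_zero (x : ℂ) (r : κ → ℂ → ℂ) (z : ℂ) : gfun x r 0 z = z - x := by
  simp [gfun]

theorem gder_zero (r : κ → ℂ → ℂ) (z : ℂ) : gder r 0 z = 1 := by
  simp [gder]

/-- Chain rule for `gfun` along a curve `s ↦ (α s, γ s)`. -/
theorem hasDerivAt_gfun_comp {x : ℂ} {r : κ → ℂ → ℂ} {α : ℂ → ℂ} {γ : ℂ → κ → ℂ} {α' : ℂ}
    {γ' : κ → ℂ} {t : ℂ} (hα : HasDerivAt α α' t)
    (hγ : ∀ k, HasDerivAt (fun s => γ s k) (γ' k) t)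
    (hr : ∀ k, DifferentiableAt ℂ (r k) (α t)) :
    HasDerivAt (fun s => gfun x r (γ s) (α s))
      (gder r (γ t) (α t) * α' + ∑ k, γ' k * r k (α t)) t := by
  have h1 : HasDerivAt (fun s => α s - x) α' t := hα.sub_const x
  have h2 : ∀ k, HasDerivAt (fun s => γ s k * r k (α s))
      (γ' k * r k (α t) + γ t k * (deriv (r k) (α t) * α')) t := by
    intro k
    have h := (hr k).hasDerivAt.comp t hα
    exact (hγ k).mul h
  have h3 := h1.add (HasDerivAt.fun_sum fun k (_ : k ∈ Finset.univ) => h2 k)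
  have e : gder r (γ t) (α t) * α' + ∑ k, γ' k * r k (α t) =
      α' + ∑ k, (γ' k * r k (α t) + γ t k * (deriv (r k) (α t) * α')) := by
    simp only [gder, add_mul, one_mul, Finset.sum_mul, Finset.sum_add_distrib]
    have : ∑ k, γ t k * deriv (r k) (α t) * α' = ∑ k, γ t k * (deriv (r k) (α t) * α') :=
      Finset.sum_congr rfl fun k _ => by ring
    rw [this]; ring
  rw [e]
  exact h3


/-- `ContDiffAt` of `gfun` along a `C¹` map. -/
theorem contDiffAt_gfun_comp {E : Type*} [NormedAddCommGroup E] [NormedSpace ℂ E] {x : ℂ}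
    {r : κ → ℂ → ℂ} {u : E → ℂ} {v : E → κ → ℂ} {p : E} (hu : ContDiffAt ℂ 1 u p)
    (hv : ContDiffAt ℂ 1 v p) (hr : ∀ k, ContDiffAt ℂ 1 (r k) (u p)) :
    ContDiffAt ℂ 1 (fun q => gfun x r (v q) (u q)) p := by
  unfold gfun
  refine (hu.sub contDiffAt_const).add (ContDiffAt.sum fun k _ => ?_)
  exact (contDiffAt_pi.mp hv k).mul ((hr k).comp p hu)

variable {A B J : Type*} [Fintype A] [Fintype B]

/-- Domain of the map `Tmap`: (free points, dependent points, parameters). -/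
abbrev Dom (A B κ : Type*) := (A → ℂ) × (B → ℂ) × (κ → ℂ)

/-- Codomain of the map `Tmap`. -/
abbrev Cod (A B : Type*) := (A → ℂ) × (B → ℂ) × (A → ℂ)

/-- The map to which the inverse function theorem is applied. -/
def Tmap (x : A ⊕ B → ℂ) (r : κ → A ⊕ B → ℂ → ℂ) (p : Dom A B κ) : Cod A B :=
  (fun i => gfun (x (Sum.inl i)) (fun k => r k (Sum.inl i)) p.2.2 (p.1 i),
   fun i => gfun (x (Sum.inr i)) (fun k => r k (Sum.inr i)) p.2.2 (p.2.1 i),
   p.1)

/-- The base point. -/
def basePt (x : A ⊕ B → ℂ) : Dom A B κ :=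
  (fun i => x (Sum.inl i), fun i => x (Sum.inr i), 0)

theorem contDiffAt_Tmap (x : A ⊕ B → ℂ) (r : κ → A ⊕ B → ℂ → ℂ) (p : Dom A B κ)
    (hrA : ∀ k i, ContDiffAt ℂ 1 (r k (Sum.inl i)) (p.1 i))
    (hrB : ∀ k i, ContDiffAt ℂ 1 (r k (Sum.inr i)) (p.2.1 i)) :
    ContDiffAt ℂ 1 (Tmap x r) p := by
  have hfst : ContDiffAt ℂ 1 (fun q : Dom A B κ => q.1) p := contDiffAt_fst
  have hsnd1 : ContDiffAt ℂ 1 (fun q : Dom A B κ => q.2.1) p := contDiffAt_snd.fst
  have hsnd2 : ContDiffAt ℂ 1 (fun q : Dom A B κ => q.2.2) p := contDiffAt_snd.snd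
  refine ContDiffAt.prodMk ?_ (ContDiffAt.prodMk ?_ hfst)
  · refine contDiffAt_pi.mpr fun i => ?_
    exact contDiffAt_gfun_comp (u := fun q : Dom A B κ => q.1 i) (contDiffAt_pi.mp hfst i) hsnd2
      (fun k => hrA k i)
  · refine contDiffAt_pi.mpr fun i => ?_
    exact contDiffAt_gfun_comp (u := fun q : Dom A B κ => q.2.1 i) (contDiffAt_pi.mp hsnd1 i)
      hsnd2 (fun k => hrB k i)

/-- Components of the derivative of a curve in `Dom`. -/
theorem hasDerivAt_comp_fst {c : ℂ → Dom A B κ} {c' : Dom A B κ} {t : ℂ}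
    (hc : HasDerivAt c c' t) (i : A) : HasDerivAt (fun s => (c s).1 i) (c'.1 i) t :=
  ((ContinuousLinearMap.proj (R := ℂ) (φ := fun _ : A => ℂ) i).comp
    (ContinuousLinearMap.fst ℂ (A → ℂ) ((B → ℂ) × (κ → ℂ)))).hasFDerivAt.comp_hasDerivAt t hc

theorem hasDerivAt_comp_snd_fst {c : ℂ → Dom A B κ} {c' : Dom A B κ} {t : ℂ}
    (hc : HasDerivAt c c' t) (i : B) : HasDerivAt (fun s => (c s).2.1 i) (c'.2.1 i) t :=
  ((ContinuousLinearMap.proj (R := ℂ) (φ := fun _ : B => ℂ) i).comp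
    ((ContinuousLinearMap.fst ℂ (B → ℂ) (κ → ℂ)).comp
      (ContinuousLinearMap.snd ℂ (A → ℂ) ((B → ℂ) × (κ → ℂ))))).hasFDerivAt.comp_hasDerivAt t hc

theorem hasDerivAt_comp_snd_snd {c : ℂ → Dom A B κ} {c' : Dom A B κ} {t : ℂ}
    (hc : HasDerivAt c c' t) (k : κ) : HasDerivAt (fun s => (c s).2.2 k) (c'.2.2 k) t :=
  ((ContinuousLinearMap.proj (R := ℂ) (φ := fun _ : κ => ℂ) k).comp
    ((ContinuousLinearMap.snd ℂ (B → ℂ) (κ → ℂ)).comp
      (ContinuousLinearMap.snd ℂ (A → ℂ) ((B → ℂ) × (κ → ℂ))))).hasFDerivAt.comp_hasDerivAt t hc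

/-- Derivative of `Tmap` along a differentiable curve. -/
theorem hasDerivAt_Tmap_comp (x : A ⊕ B → ℂ) (r : κ → A ⊕ B → ℂ → ℂ) {c : ℂ → Dom A B κ}
    {c' : Dom A B κ} {t : ℂ} (hc : HasDerivAt c c' t)
    (hrA : ∀ k i, DifferentiableAt ℂ (r k (Sum.inl i)) ((c t).1 i))
    (hrB : ∀ k i, DifferentiableAt ℂ (r k (Sum.inr i)) ((c t).2.1 i)) :
    HasDerivAt (fun s => Tmap x r (c s))
      (fun i => gder (fun k => r k (Sum.inl i)) (c t).2.2 ((c t).1 i) * c'.1 i +
          ∑ k, c'.2.2 k * r k (Sum.inl i) ((c t).1 i),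
       fun i => gder (fun k => r k (Sum.inr i)) (c t).2.2 ((c t).2.1 i) * c'.2.1 i +
          ∑ k, c'.2.2 k * r k (Sum.inr i) ((c t).2.1 i),
       c'.1) t := by
  refine HasDerivAt.prodMk ?_ (HasDerivAt.prodMk ?_ ?_)
  · refine hasDerivAt_pi.mpr fun i => ?_
    exact hasDerivAt_gfun_comp (α := fun s => (c s).1 i) (γ := fun s => (c s).2.2)
      (hasDerivAt_comp_fst hc i) (fun k => hasDerivAt_comp_snd_snd hc k) (fun k => hrA k i)
  · refine hasDerivAt_pi.mpr fun i => ?_
    exact hasDerivAt_gfun_comp (α := fun s => (c s).2.1 i) (γ := fun s => (c s).2.2)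
      (hasDerivAt_comp_snd_fst hc i) (fun k => hasDerivAt_comp_snd_snd hc k) (fun k => hrB k i)
  · exact hasDerivAt_pi.mpr fun i => hasDerivAt_comp_fst hc i


/-- Formula for the Fréchet derivative of `Tmap` at the base point. -/
theorem fderiv_Tmap_basePt (x : A ⊕ B → ℂ) {ρ : ℝ} (hρ : 0 < ρ) (r : κ → A ⊕ B → ℂ → ℂ)
    (hr : ∀ k m, DifferentiableOn ℂ (r k m) (ball (x m) ρ))
    (hD : DifferentiableAt ℂ (Tmap x r) (basePt x)) (v : Dom A B κ) :
    fderiv ℂ (Tmap x r) (basePt x) v =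
      (fun i => v.1 i + ∑ k, v.2.2 k * r k (Sum.inl i) (x (Sum.inl i)),
       fun i => v.2.1 i + ∑ k, v.2.2 k * r k (Sum.inr i) (x (Sum.inr i)),
       v.1) := by
  have hrd : ∀ k m, DifferentiableAt ℂ (r k m) (x m) := fun k m =>
    (hr k m).differentiableAt (isOpen_ball.mem_nhds (mem_ball_self hρ))
  have hline : HasDerivAt (fun t : ℂ => basePt (κ := κ) x + t • v) v 0 := by
    simpa using ((hasDerivAt_id (0 : ℂ)).smul_const v).const_add (basePt (κ := κ) x)
  have hb : basePt (κ := κ) x + (0 : ℂ) • v = basePt x := by simp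
  have h1 : HasDerivAt (fun t : ℂ => Tmap x r (basePt x + t • v))
      (fderiv ℂ (Tmap x r) (basePt x) v) 0 :=
    HasFDerivAt.comp_hasDerivAt_of_eq (0 : ℂ) hD.hasFDerivAt hline hb.symm
  have h2 := hasDerivAt_Tmap_comp x r hline
    (fun k i => by rw [hb]; exact hrd k (Sum.inl i))
    (fun k i => by rw [hb]; exact hrd k (Sum.inr i))
  have h3 := h1.unique h2
  rw [h3, hb]
  simp [basePt, gder_zero]


/-- The embedding `a ↦ (0, 0, a)` of the free coordinates into the codomain. -/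
def iotaA (A B : Type*) (a : A → ℂ) : Cod A B := (0, 0, a)

omit [Fintype A] [Fintype B] in
theorem continuous_iotaA : Continuous (iotaA A B) := by
  unfold iotaA; fun_prop

/-- **Abstract Abel theorem for a linear family** (analytic core of step E3, design #138). -/
theorem abel_lin (x : A ⊕ B → ℂ) {ρ : ℝ} (hρ : 0 < ρ) (r : κ → A ⊕ B → ℂ → ℂ)
    (hr : ∀ k m, DifferentiableOn ℂ (r k m) (ball (x m) ρ))
    (om : J → A ⊕ B → ℂ → ℂ) (P : J → A ⊕ B → ℂ → ℂ)
    (hP : ∀ j m, ∀ z ∈ ball (x m) ρ, HasDerivAt (P j m) (om j m z) z)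
    (hP0 : ∀ j m, P j m (x m) = 0)
    (hinj : Function.Injective
      (fun (c : κ → ℂ) (i : A) => ∑ k, c k * r k (Sum.inl i) (x (Sum.inl i))))
    (hcard : Fintype.card κ = Fintype.card A)
    (hres : ∀ (c : κ → ℂ) (z : A ⊕ B → ℂ), (∀ m, z m ∈ ball (x m) ρ) →
      (∀ m, gfun (x m) (fun k => r k m) c (z m) = 0) →
      (∀ m, gder (fun k => r k m) c (z m) ≠ 0) →
      ∀ (c' : κ → ℂ) (j : J),
        ∑ m, om j m (z m) * ((∑ k, c' k * r k m (z m)) / gder (fun k => r k m) c (z m)) = 0) :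
    ∀ η > 0, ∃ ε > 0, ∀ a : A → ℂ, (∀ i, dist (a i) (x (Sum.inl i)) < ε) →
      ∃ (b : B → ℂ) (c : κ → ℂ), (∀ i, dist (b i) (x (Sum.inr i)) < η) ∧ ‖c‖ < η ∧
        (∀ i, gfun (x (Sum.inl i)) (fun k => r k (Sum.inl i)) c (a i) = 0) ∧
        (∀ i, gfun (x (Sum.inr i)) (fun k => r k (Sum.inr i)) c (b i) = 0) ∧
        ∀ j, ∑ i, P j (Sum.inl i) (a i) + ∑ i, P j (Sum.inr i) (b i) = 0 := by
  intro η hη
  classical
  -- basic regularity of the `r k m`
  have hrC : ∀ k m, ∀ z ∈ ball (x m) ρ, ContDiffAt ℂ 1 (r k m) z := fun k m z hz =>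
    ((hr k m).contDiffOn isOpen_ball).contDiffAt (isOpen_ball.mem_nhds hz)
  have hrd : ∀ k m, ∀ z ∈ ball (x m) ρ, DifferentiableAt ℂ (r k m) z := fun k m z hz =>
    (hr k m).differentiableAt (isOpen_ball.mem_nhds hz)
  have hx : ∀ m, x m ∈ ball (x m) ρ := fun m => mem_ball_self hρ
  set p0 : Dom A B κ := basePt x with hp0
  -- Step 1: `Tmap` is `C¹` at the base point, with invertible derivative
  have hC : ContDiffAt ℂ 1 (Tmap x r) p0 :=
    contDiffAt_Tmap x r p0 (fun k i => hrC k _ _ (hx _)) (fun k i => hrC k _ _ (hx _))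
  have hD : DifferentiableAt ℂ (Tmap x r) p0 := hC.differentiableAt one_ne_zero
  have hT'v := fderiv_Tmap_basePt x hρ r hr hD
  have hT'inj : Function.Injective (fderiv ℂ (Tmap x r) p0) := by
    rw [injective_iff_map_eq_zero]
    intro v hv
    rw [hT'v] at hv
    have hv1 : v.1 = 0 := congrArg (fun q : Cod A B => q.2.2) hv
    have hvA : (fun i : A => v.1 i + ∑ k, v.2.2 k * r k (Sum.inl i) (x (Sum.inl i))) = 0 :=
      congrArg (fun q : Cod A B => q.1) hv
    have hvB : (fun i : B => v.2.1 i + ∑ k, v.2.2 k * r k (Sum.inr i) (x (Sum.inr i))) = 0 :=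
      congrArg (fun q : Cod A B => q.2.1) hv
    have hv3 : v.2.2 = 0 := by
      apply hinj
      funext i
      have := congrFun hvA i
      simp only [hv1, Pi.zero_apply, zero_add] at this
      simpa using this
    have hv2 : v.2.1 = 0 := by
      funext i
      have := congrFun hvB i
      simpa [hv3] using this
    exact Prod.ext hv1 (Prod.ext hv2 hv3)
  have hfr : Module.finrank ℂ (Dom A B κ) = Module.finrank ℂ (Cod A B) := by
    simp [Module.finrank_prod, Module.finrank_fintype_fun_eq_card, hcard]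
  let eL : Dom A B κ ≃ₗ[ℂ] Cod A B :=
    LinearMap.linearEquivOfInjective
      ((fderiv ℂ (Tmap x r) p0 : Dom A B κ →L[ℂ] Cod A B) : Dom A B κ →ₗ[ℂ] Cod A B) hT'inj hfr
  let e : Dom A B κ ≃L[ℂ] Cod A B := eL.toContinuousLinearEquiv
  have he : (e : Dom A B κ →L[ℂ] Cod A B) = fderiv ℂ (Tmap x r) p0 := by
    ext v <;> rfl
  have hT' : HasFDerivAt (Tmap x r) (e : Dom A B κ →L[ℂ] Cod A B) p0 := by
    rw [he]; exact hD.hasFDerivAt
  -- Step 2: the local inverse
  have h10 : (1 : WithTop ℕ∞) ≠ 0 := one_ne_zero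
  set σ : Cod A B → Dom A B κ := hC.localInverse hT' h10 with hσ
  have hσ0 : σ (Tmap x r p0) = p0 := hC.localInverse_apply_image hT' h10
  have hσC : ContDiffAt ℂ 1 σ (Tmap x r p0) := hC.to_localInverse hT' h10
  have hright : ∀ᶠ q in 𝓝 (Tmap x r p0), Tmap x r (σ q) = q :=
    (hC.hasStrictFDerivAt' hT' h10).eventually_right_inverse
  have hσd : ∀ᶠ q in 𝓝 (Tmap x r p0), DifferentiableAt ℂ σ q :=
    (hσC.eventually (by simp)).mono fun q hq => hq.differentiableAt one_ne_zero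
  have hq0 : Tmap x r p0 = iotaA A B (fun i => x (Sum.inl i)) := by
    simp only [hp0, Tmap, basePt, gfun_zero, sub_self, iotaA]
    rfl
  -- Step 3: a neighbourhood `W` of the base point where everything is under control
  set ρ' : ℝ := min ρ η with hρ'
  have hρ'pos : 0 < ρ' := lt_min hρ hη
  have hderivC : ∀ k m, ContinuousAt (deriv (r k m)) (x m) := fun k m =>
    (((hr k m).deriv isOpen_ball).differentiableAt (isOpen_ball.mem_nhds (hx m))).continuousAt
  have hcA : ∀ i : A, ContinuousAt (fun p : Dom A B κ => p.1 i) p0 := fun i => by fun_prop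
  have hcB : ∀ i : B, ContinuousAt (fun p : Dom A B κ => p.2.1 i) p0 := fun i => by fun_prop
  have hcK : ContinuousAt (fun p : Dom A B κ => p.2.2) p0 := by fun_prop
  have hW1 : ∀ᶠ p in 𝓝 p0, ∀ i : A, p.1 i ∈ ball (x (Sum.inl i)) ρ' := by
    rw [eventually_all]
    intro i
    exact (hcA i).eventually (ball_mem_nhds _ hρ'pos)
  have hW2 : ∀ᶠ p in 𝓝 p0, ∀ i : B, p.2.1 i ∈ ball (x (Sum.inr i)) ρ' := by
    rw [eventually_all]
    intro i
    exact (hcB i).eventually (ball_mem_nhds _ hρ'pos)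
  have hW3 : ∀ᶠ p in 𝓝 p0, ‖p.2.2‖ < η := by
    have : ContinuousAt (fun p : Dom A B κ => ‖p.2.2‖) p0 := hcK.norm
    have h0 : ‖p0.2.2‖ < η := by simpa [hp0, basePt] using hη
    exact this.eventually (gt_mem_nhds h0)
  have hW4 : ∀ᶠ p in 𝓝 p0, ∀ i : A,
      gder (fun k => r k (Sum.inl i)) p.2.2 (p.1 i) ≠ 0 := by
    rw [eventually_all]
    intro i
    have hc : ContinuousAt
        (fun p : Dom A B κ => gder (fun k => r k (Sum.inl i)) p.2.2 (p.1 i)) p0 := by
      unfold gder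
      refine continuousAt_const.add (tendsto_finsetSum _ fun k _ => ?_)
      refine ContinuousAt.mul ((continuous_apply k).continuousAt.comp hcK) ?_
      exact ContinuousAt.comp (g := deriv (r k (Sum.inl i)))
        (f := fun p : Dom A B κ => p.1 i) (hderivC k (Sum.inl i)) (hcA i)
    have h1 : gder (fun k => r k (Sum.inl i)) p0.2.2 (p0.1 i) ≠ 0 := by
      simp [hp0, basePt, gder_zero]
    exact hc.eventually_ne h1
  have hW5 : ∀ᶠ p in 𝓝 p0, ∀ i : B,
      gder (fun k => r k (Sum.inr i)) p.2.2 (p.2.1 i) ≠ 0 := by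
    rw [eventually_all]
    intro i
    have hc : ContinuousAt
        (fun p : Dom A B κ => gder (fun k => r k (Sum.inr i)) p.2.2 (p.2.1 i)) p0 := by
      unfold gder
      refine continuousAt_const.add (tendsto_finsetSum _ fun k _ => ?_)
      refine ContinuousAt.mul ((continuous_apply k).continuousAt.comp hcK) ?_
      exact ContinuousAt.comp (g := deriv (r k (Sum.inr i)))
        (f := fun p : Dom A B κ => p.2.1 i) (hderivC k (Sum.inr i)) (hcB i)
    have h1 : gder (fun k => r k (Sum.inr i)) p0.2.2 (p0.2.1 i) ≠ 0 := by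
      simp [hp0, basePt, gder_zero]
    exact hc.eventually_ne h1
  have hW : ∀ᶠ p in 𝓝 p0, (∀ i : A, p.1 i ∈ ball (x (Sum.inl i)) ρ') ∧
      (∀ i : B, p.2.1 i ∈ ball (x (Sum.inr i)) ρ') ∧ ‖p.2.2‖ < η ∧
      (∀ i : A, gder (fun k => r k (Sum.inl i)) p.2.2 (p.1 i) ≠ 0) ∧
      (∀ i : B, gder (fun k => r k (Sum.inr i)) p.2.2 (p.2.1 i) ≠ 0) := by
    filter_upwards [hW1, hW2, hW3, hW4, hW5] with p h1 h2 h3 h4 h5
    exact ⟨h1, h2, h3, h4, h5⟩
  have hσW : ∀ᶠ q in 𝓝 (Tmap x r p0), (∀ i : A, (σ q).1 i ∈ ball (x (Sum.inl i)) ρ') ∧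
      (∀ i : B, (σ q).2.1 i ∈ ball (x (Sum.inr i)) ρ') ∧ ‖(σ q).2.2‖ < η ∧
      (∀ i : A, gder (fun k => r k (Sum.inl i)) (σ q).2.2 ((σ q).1 i) ≠ 0) ∧
      (∀ i : B, gder (fun k => r k (Sum.inr i)) (σ q).2.2 ((σ q).2.1 i) ≠ 0) := by
    have hcont : ContinuousAt σ (Tmap x r p0) := hσC.continuousAt
    have : Tendsto σ (𝓝 (Tmap x r p0)) (𝓝 p0) := by
      have h := hcont.tendsto
      rwa [hσ0] at h
    exact this.eventually hW
  -- Step 4: pull everything back along `a ↦ (0, 0, a)`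
  have hN : ∀ᶠ a in 𝓝 (fun i : A => x (Sum.inl i)),
      Tmap x r (σ (iotaA A B a)) = iotaA A B a ∧ DifferentiableAt ℂ σ (iotaA A B a) ∧
      (∀ i : A, (σ (iotaA A B a)).1 i ∈ ball (x (Sum.inl i)) ρ') ∧
      (∀ i : B, (σ (iotaA A B a)).2.1 i ∈ ball (x (Sum.inr i)) ρ') ∧
      ‖(σ (iotaA A B a)).2.2‖ < η ∧
      (∀ i : A, gder (fun k => r k (Sum.inl i)) (σ (iotaA A B a)).2.2
        ((σ (iotaA A B a)).1 i) ≠ 0) ∧
      (∀ i : B, gder (fun k => r k (Sum.inr i)) (σ (iotaA A B a)).2.2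
        ((σ (iotaA A B a)).2.1 i) ≠ 0) := by
    have ht : Tendsto (iotaA A B) (𝓝 (fun i : A => x (Sum.inl i))) (𝓝 (Tmap x r p0)) := by
      rw [hq0]
      exact (continuous_iotaA (A := A) (B := B)).continuousAt.tendsto
    have := ht.eventually (hright.and (hσd.and hσW))
    filter_upwards [this] with a ha
    exact ⟨ha.1, ha.2.1, ha.2.2⟩
  obtain ⟨ε, hε, hball⟩ := Metric.eventually_nhds_iff.mp hN
  refine ⟨ε, hε, fun a ha => ?_⟩
  set xA : A → ℂ := fun i => x (Sum.inl i) with hxA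
  have hρ'ρ : ρ' ≤ ρ := min_le_left _ _
  have hρ'η : ρ' ≤ η := min_le_right _ _
  have haU : a ∈ ball xA ε := by
    rw [mem_ball, dist_pi_lt_iff hε]; exact ha
  -- zeros of the family along `σ ∘ iotaA`
  have hzeroA : ∀ a' ∈ ball xA ε, ∀ i : A, gfun (x (Sum.inl i)) (fun k => r k (Sum.inl i))
      (σ (iotaA A B a')).2.2 ((σ (iotaA A B a')).1 i) = 0 := fun a' ha' i =>
    congrFun (congrArg (fun q : Cod A B => q.1) (hball ha').1) i
  have hzeroB : ∀ a' ∈ ball xA ε, ∀ i : B, gfun (x (Sum.inr i)) (fun k => r k (Sum.inr i))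
      (σ (iotaA A B a')).2.2 ((σ (iotaA A B a')).2.1 i) = 0 := fun a' ha' i =>
    congrFun (congrArg (fun q : Cod A B => q.2.1) (hball ha').1) i
  have hfstA : ∀ a' ∈ ball xA ε, (σ (iotaA A B a')).1 = a' := fun a' ha' =>
    congrArg (fun q : Cod A B => q.2.2) (hball ha').1
  have hmemA : ∀ a' ∈ ball xA ε, ∀ i : A, (σ (iotaA A B a')).1 i ∈ ball (x (Sum.inl i)) ρ :=
    fun a' ha' i => ball_subset_ball hρ'ρ ((hball ha').2.2.1 i)
  have hmemB : ∀ a' ∈ ball xA ε, ∀ i : B, (σ (iotaA A B a')).2.1 i ∈ ball (x (Sum.inr i)) ρ :=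
    fun a' ha' i => ball_subset_ball hρ'ρ ((hball ha').2.2.2.1 i)
  -- the function which has to vanish
  set hfun : J → (A → ℂ) → ℂ := fun j a' =>
    ∑ i, P j (Sum.inl i) ((σ (iotaA A B a')).1 i) +
      ∑ i, P j (Sum.inr i) ((σ (iotaA A B a')).2.1 i) with hhfun
  have hι : ∀ a' : A → ℂ, DifferentiableAt ℂ (iotaA A B) a' := fun a' => by
    unfold iotaA; fun_prop
  have hdiff : ∀ j, ∀ a' ∈ ball xA ε, DifferentiableAt ℂ (hfun j) a' := by
    intro j a' ha'
    have hsι : DifferentiableAt ℂ (fun a'' => σ (iotaA A B a'')) a' :=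
      DifferentiableAt.comp a' (hball ha').2.1 (hι a')
    have h1 : ∀ i : A, DifferentiableAt ℂ (fun a'' => (σ (iotaA A B a'')).1 i) a' := fun i =>
      differentiableAt_pi.mp hsι.fst i
    have h2 : ∀ i : B, DifferentiableAt ℂ (fun a'' => (σ (iotaA A B a'')).2.1 i) a' := fun i =>
      differentiableAt_pi.mp hsι.snd.fst i
    refine DifferentiableAt.add (DifferentiableAt.fun_sum fun i _ => ?_)
      (DifferentiableAt.fun_sum fun i _ => ?_)
    · exact DifferentiableAt.comp a' (hP j (Sum.inl i) _ (hmemA a' ha' i)).differentiableAt (h1 i)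
    · exact DifferentiableAt.comp a' (hP j (Sum.inr i) _ (hmemB a' ha' i)).differentiableAt (h2 i)
  have hfderiv : ∀ j, ∀ a' ∈ ball xA ε, fderiv ℂ (hfun j) a' = 0 := by
    intro j a' ha'
    refine ContinuousLinearMap.ext fun da => ?_
    have hline : HasDerivAt (fun t : ℂ => a' + t • da) da 0 := by
      simpa using ((hasDerivAt_id (0 : ℂ)).smul_const da).const_add a'
    have hb : a' + (0 : ℂ) • da = a' := by simp
    have h1 : HasDerivAt (fun t : ℂ => hfun j (a' + t • da)) (fderiv ℂ (hfun j) a' da) 0 :=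
      HasFDerivAt.comp_hasDerivAt_of_eq (0 : ℂ) (hdiff j a' ha').hasFDerivAt hline hb.symm
    -- the curve
    set cv : ℂ → Dom A B κ := fun t => σ (iotaA A B (a' + t • da)) with hcvdef
    have hcv0 : cv 0 = σ (iotaA A B a') := by simp [hcvdef]
    have hιline : HasDerivAt (fun t : ℂ => iotaA A B (a' + t • da)) (iotaA A B da) 0 := by
      unfold iotaA
      exact (hasDerivAt_const (0 : ℂ) (0 : A → ℂ)).prodMk
        ((hasDerivAt_const (0 : ℂ) (0 : B → ℂ)).prodMk hline)
    set w : Dom A B κ := fderiv ℂ σ (iotaA A B a') (iotaA A B da) with hw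
    have hcv : HasDerivAt cv w 0 :=
      HasFDerivAt.comp_hasDerivAt_of_eq (0 : ℂ) (hball ha').2.1.hasFDerivAt hιline
        (by simp)
    have hev : ∀ᶠ t : ℂ in 𝓝 0, a' + t • da ∈ ball xA ε := by
      have hc : ContinuousAt (fun t : ℂ => a' + t • da) 0 := by fun_prop
      have h0 : a' + (0 : ℂ) • da ∈ ball xA ε := by rw [hb]; exact ha'
      exact hc.eventually (isOpen_ball.mem_nhds h0)
    have hevT : (fun t : ℂ => Tmap x r (cv t)) =ᶠ[𝓝 0] fun t => iotaA A B (a' + t • da) :=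
      hev.mono fun t ht => (hball ht).1
    have hTcv := hasDerivAt_Tmap_comp x r hcv
      (fun k i => by rw [hcv0]; exact hrd k _ _ (hmemA a' ha' i))
      (fun k i => by rw [hcv0]; exact hrd k _ _ (hmemB a' ha' i))
    have hTcv' : HasDerivAt (fun t : ℂ => Tmap x r (cv t)) (iotaA A B da) 0 :=
      hιline.congr_of_eventuallyEq hevT
    have hEq := hTcv.unique hTcv'
    rw [hcv0] at hEq
    have hEA : ∀ i : A, gder (fun k => r k (Sum.inl i)) (σ (iotaA A B a')).2.2
        ((σ (iotaA A B a')).1 i) * w.1 i +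
        ∑ k, w.2.2 k * r k (Sum.inl i) ((σ (iotaA A B a')).1 i) = 0 := fun i =>
      congrFun (congrArg (fun q : Cod A B => q.1) hEq) i
    have hEB : ∀ i : B, gder (fun k => r k (Sum.inr i)) (σ (iotaA A B a')).2.2
        ((σ (iotaA A B a')).2.1 i) * w.2.1 i +
        ∑ k, w.2.2 k * r k (Sum.inr i) ((σ (iotaA A B a')).2.1 i) = 0 := fun i =>
      congrFun (congrArg (fun q : Cod A B => q.2.1) hEq) i
    have hh : HasDerivAt (fun t : ℂ => hfun j (a' + t • da))
        (∑ i, om j (Sum.inl i) ((σ (iotaA A B a')).1 i) * w.1 i +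
          ∑ i, om j (Sum.inr i) ((σ (iotaA A B a')).2.1 i) * w.2.1 i) 0 := by
      refine HasDerivAt.add (HasDerivAt.fun_sum fun i _ => ?_)
        (HasDerivAt.fun_sum fun i _ => ?_)
      · have hPi := hP j (Sum.inl i) _ (hmemA a' ha' i)
        rw [← hcv0] at hPi ⊢
        exact HasDerivAt.comp (0 : ℂ) hPi (hasDerivAt_comp_fst hcv i)
      · have hPi := hP j (Sum.inr i) _ (hmemB a' ha' i)
        rw [← hcv0] at hPi ⊢
        exact HasDerivAt.comp (0 : ℂ) hPi (hasDerivAt_comp_snd_fst hcv i)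
    have hval : ∑ i, om j (Sum.inl i) ((σ (iotaA A B a')).1 i) * w.1 i +
        ∑ i, om j (Sum.inr i) ((σ (iotaA A B a')).2.1 i) * w.2.1 i = 0 := by
      have hgA := (hball ha').2.2.2.2.2.1
      have hgB := (hball ha').2.2.2.2.2.2
      have hz := hres (σ (iotaA A B a')).2.2
        (Sum.elim (σ (iotaA A B a')).1 (σ (iotaA A B a')).2.1)
        (by rintro (i | i)
            · exact hmemA a' ha' i
            · exact hmemB a' ha' i)
        (by rintro (i | i)
            · exact hzeroA a' ha' i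
            · exact hzeroB a' ha' i)
        (by rintro (i | i)
            · exact hgA i
            · exact hgB i) w.2.2 j
      rw [Fintype.sum_sum_type] at hz
      simp only [Sum.elim_inl, Sum.elim_inr] at hz
      have e1 : ∀ i : A, om j (Sum.inl i) ((σ (iotaA A B a')).1 i) * w.1 i =
          -(om j (Sum.inl i) ((σ (iotaA A B a')).1 i) *
            ((∑ k, w.2.2 k * r k (Sum.inl i) ((σ (iotaA A B a')).1 i)) /
              gder (fun k => r k (Sum.inl i)) (σ (iotaA A B a')).2.2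
                ((σ (iotaA A B a')).1 i))) := by
        intro i
        have hne := hgA i
        have hE := hEA i
        field_simp
        linear_combination (om j (Sum.inl i) ((σ (iotaA A B a')).1 i)) * hE
      have e2 : ∀ i : B, om j (Sum.inr i) ((σ (iotaA A B a')).2.1 i) * w.2.1 i =
          -(om j (Sum.inr i) ((σ (iotaA A B a')).2.1 i) *
            ((∑ k, w.2.2 k * r k (Sum.inr i) ((σ (iotaA A B a')).2.1 i)) /
              gder (fun k => r k (Sum.inr i)) (σ (iotaA A B a')).2.2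
                ((σ (iotaA A B a')).2.1 i))) := by
        intro i
        have hne := hgB i
        have hE := hEB i
        field_simp
        linear_combination (om j (Sum.inr i) ((σ (iotaA A B a')).2.1 i)) * hE
      rw [Finset.sum_congr rfl fun i _ => e1 i, Finset.sum_congr rfl fun i _ => e2 i,
        Finset.sum_neg_distrib, Finset.sum_neg_distrib, ← neg_add, hz, neg_zero]
    rw [hval] at hh
    exact h1.unique hh
  -- conclusion
  have hconst : ∀ j, hfun j a = hfun j xA := fun j =>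
    IsOpen.is_const_of_fderiv_eq_zero isOpen_ball (convex_ball xA ε).isPreconnected
      (fun a' ha' => (hdiff j a' ha').differentiableWithinAt) (fun a' ha' => hfderiv j a' ha')
      haU (mem_ball_self hε)
  have hσxA : σ (iotaA A B xA) = p0 := by rw [← hq0]; exact hσ0
  refine ⟨(σ (iotaA A B a)).2.1, (σ (iotaA A B a)).2.2, ?_, (hball haU).2.2.2.2.1, ?_, ?_, ?_⟩
  · intro i
    exact lt_of_lt_of_le (mem_ball.mp ((hball haU).2.2.2.1 i)) hρ'η
  · intro i
    have h := hzeroA a haU i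
    rwa [hfstA a haU] at h
  · exact hzeroB a haU
  · intro j
    have h := hconst j
    have h0 : hfun j xA = 0 := by
      simp only [hhfun, hσxA, hp0, basePt, hP0, Finset.sum_const_zero, add_zero]
    rw [h0] at h
    have hfa := hfstA a haU
    simp only [hhfun] at h
    rwa [hfa] at h

end

end Fermat.Agent.S27.helper2260
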