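/-
S27 Spec leaf M5a (helper6428): `Stmt_ChartExists` of `helper6247_Spec`, VERBATIM.

  theorem chartExists_of (hSep : Stmt_SepCoord.{0,0}) (hSP : Stmt_SimplePoint.{0,0})
      (hEv : Stmt_Ev.{0,0}) : Stmt_ChartExists

Proof: `Stmt_SepCoord` gives a monic plane model `(u, y, χ)` in which the place `P` is the simple
point `(0, ev P y)`; the holomorphic implicit function theorem (`helper9531.exists_branch`) gives
the branch `b` with `χ(s, b s) = 0`; `Q s` is the place of `Stmt_SimplePoint` at `(s, b s)`.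
Regular functions are quotients `N(u,y)/M(u,y)` and `ev (Q s)` is a ring homomorphism on the
valuation ring (`Stmt_Ev`), so `ev (Q s) f = N(s, b s)/M(s, b s)` is analytic.

Exported helper lemmas (any algebraically closed `K` of characteristic `0`, hypothesis
`hEv : Stmt_Ev`): `ord_nonneg_add`, `ord_nonneg_mul`, `ev_aeval`, `ev_aevalAeval`,
`ord_eq_zero_of_ev_ne_zero`, `ev_of_mul_eq`, `transcendental_of_ord_pos`, `ev_of_ord_sub_eq_one`.
-/
import Fermat.Agent.S27.helper6247_Spec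
import Fermat.Agent.S27.helper9531_Branch

set_option autoImplicit false

open AlgebraicCurve IntermediateField Polynomial
open scoped Polynomial.Bivariate Topology

namespace Fermat.Agent.S27.helper6428

open Fermat.Agent.S27.helper6247

noncomputable section

/-! ### Regularity (`0 ≤ ord`) is closed under ring operations -/

section Ord

variable {K : Type*} {F : Type*} [Field K] [Field F] [Algebra K F] (P : Place K F)

theorem ord_nonneg_iff {f : F} : 0 ≤ P.ord f ↔ P.adicValuation f ≤ 1 := by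
  rw [← not_lt, ← P.not_adicValuation_le_one_iff, not_not]

theorem ord_nonneg_add {f g : F} (hf : 0 ≤ P.ord f) (hg : 0 ≤ P.ord g) : 0 ≤ P.ord (f + g) := by
  rw [ord_nonneg_iff] at *
  exact (P.adicValuation.map_add f g).trans (max_le hf hg)

theorem ord_nonneg_mul {f g : F} (hf : 0 ≤ P.ord f) (hg : 0 ≤ P.ord g) : 0 ≤ P.ord (f * g) := by
  rw [ord_nonneg_iff] at *
  rw [map_mul]
  exact mul_le_one' hf hg

theorem ord_nonneg_algebraMap (c : K) : 0 ≤ P.ord (algebraMap K F c) :=
  (ord_nonneg_iff P).mpr (P.adicValuation_algebraMap_le_one c)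

theorem ord_nonneg_of_ord_sub_pos {f : F} {c : K} (h : 0 < P.ord (f - algebraMap K F c)) :
    0 ≤ P.ord f := by
  have h1 := ord_nonneg_add P h.le (ord_nonneg_algebraMap P c)
  rwa [sub_add_cancel] at h1

end Ord

/-! ### `ev P` as a ring homomorphism on the valuation ring (from `Stmt_Ev`) -/

section EvHom

universe uK uF

variable {K : Type uK} {F : Type uF} [Field K] [Field F] [Algebra K F] [IsAlgClosed K] [CharZero K]

/-- The four clauses of `Stmt_Ev` at a place, as one structure-free conjunction. -/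
theorem ev_spec (hEv : Stmt_Ev.{uK, uF}) (x : F) (hx : Transcendental K x)
    [FiniteDimensional K⟮x⟯ F] (P : Place K F) :
    (∀ c : K, ev P (algebraMap K F c) = c) ∧
    (∀ f g : F, 0 ≤ P.ord f → 0 ≤ P.ord g →
      ev P (f + g) = ev P f + ev P g ∧ ev P (f * g) = ev P f * ev P g) ∧
    (∀ f : F, 0 ≤ P.ord f → (ev P f = 0 ↔ f = 0 ∨ 0 < P.ord f)) ∧
    (∀ (f : F) (c : K), 0 < P.ord (f - algebraMap K F c) → ev P f = c) :=
  hEv K F x hx P

/-- One-variable polynomials in a regular function are regular, and `ev` commutes with them. -/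
theorem ev_aeval (hEv : Stmt_Ev.{uK, uF}) (x : F) (hx : Transcendental K x)
    [FiniteDimensional K⟮x⟯ F] (P : Place K F) {u : F} (hu : 0 ≤ P.ord u) (a : K[X]) :
    0 ≤ P.ord (aeval u a) ∧ ev P (aeval u a) = a.eval (ev P u) := by
  obtain ⟨h1, h2, -, -⟩ := ev_spec hEv x hx P
  induction a using Polynomial.induction_on with
  | C c =>
    rw [aeval_C, eval_C]
    exact ⟨ord_nonneg_algebraMap P c, h1 c⟩
  | add p q hp hq =>
    rw [map_add, eval_add]
    exact ⟨ord_nonneg_add P hp.1 hq.1, by rw [(h2 _ _ hp.1 hq.1).1, hp.2, hq.2]⟩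
  | monomial n c ih =>
    have e1 : aeval u (C c * X ^ (n + 1) : K[X]) = aeval u (C c * X ^ n : K[X]) * u := by
      rw [pow_succ, ← mul_assoc, map_mul, aeval_X]
    have e2 : (C c * X ^ (n + 1) : K[X]).eval (ev P u) =
        (C c * X ^ n : K[X]).eval (ev P u) * ev P u := by
      rw [pow_succ, ← mul_assoc, eval_mul, eval_X]
    rw [e1, e2]
    exact ⟨ord_nonneg_mul P ih.1 hu, by rw [(h2 _ _ ih.1 hu).2, ih.2]⟩

/-- Two-variable polynomials in regular functions are regular, and `ev` commutes with them. -/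
theorem ev_aevalAeval (hEv : Stmt_Ev.{uK, uF}) (x : F) (hx : Transcendental K x)
    [FiniteDimensional K⟮x⟯ F] (P : Place K F) {u y : F} (hu : 0 ≤ P.ord u) (hy : 0 ≤ P.ord y)
    (G : K[X][Y]) :
    0 ≤ P.ord (aevalAeval u y G) ∧
      ev P (aevalAeval u y G) = G.evalEval (ev P u) (ev P y) := by
  obtain ⟨-, h2, -, -⟩ := ev_spec hEv x hx P
  induction G using Polynomial.induction_on with
  | C a =>
    rw [aevalAeval_C, evalEval_C]
    exact ev_aeval hEv x hx P hu a
  | add p q hp hq =>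
    rw [map_add, evalEval_add]
    exact ⟨ord_nonneg_add P hp.1 hq.1, by rw [(h2 _ _ hp.1 hq.1).1, hp.2, hq.2]⟩
  | monomial n a ih =>
    have e1 : aevalAeval u y (C a * X ^ (n + 1) : K[X][Y]) =
        aevalAeval u y (C a * X ^ n : K[X][Y]) * y := by
      rw [pow_succ, ← mul_assoc, map_mul, aevalAeval_Y]
    have e2 : (C a * X ^ (n + 1) : K[X][Y]).evalEval (ev P u) (ev P y) =
        (C a * X ^ n : K[X][Y]).evalEval (ev P u) (ev P y) * ev P y := by
      rw [pow_succ, ← mul_assoc, evalEval_mul, evalEval_X]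
    rw [e1, e2]
    exact ⟨ord_nonneg_mul P ih.1 hy, by rw [(h2 _ _ ih.1 hy).2, ih.2]⟩

/-- A regular function with nonzero value is a unit of the valuation ring. -/
theorem ord_eq_zero_of_ev_ne_zero (hEv : Stmt_Ev.{uK, uF}) (x : F) (hx : Transcendental K x)
    [FiniteDimensional K⟮x⟯ F] (P : Place K F) {f : F} (hf : 0 ≤ P.ord f) (h : ev P f ≠ 0) :
    f ≠ 0 ∧ P.ord f = 0 := by
  obtain ⟨-, -, h3, -⟩ := ev_spec hEv x hx P
  have h' := mt (h3 f hf).mpr h
  rw [not_or, not_lt] at h'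
  exact ⟨h'.1, le_antisymm h'.2 hf⟩

/-- If `f * m = n` with `m, n` regular and `m` of nonzero value at `P`, then `f` is regular at
`P` and its value is `ev P n / ev P m`. -/
theorem ev_of_mul_eq (hEv : Stmt_Ev.{uK, uF}) (x : F) (hx : Transcendental K x)
    [FiniteDimensional K⟮x⟯ F] (P : Place K F) {f m n : F} (hm : 0 ≤ P.ord m)
    (hn : 0 ≤ P.ord n) (hm0 : ev P m ≠ 0) (h : f * m = n) :
    0 ≤ P.ord f ∧ ev P f = ev P n / ev P m := by
  obtain ⟨-, h2, -, -⟩ := ev_spec hEv x hx P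
  obtain ⟨hmne, hmord⟩ := ord_eq_zero_of_ev_ne_zero hEv x hx P hm hm0
  have hf : 0 ≤ P.ord f := by
    rcases eq_or_ne f 0 with rfl | hf0
    · simp
    · have := P.ord_mul hf0 hmne
      rw [h, hmord, add_zero] at this
      rw [← this]
      exact hn
  refine ⟨hf, ?_⟩
  rw [eq_div_iff hm0, ← (h2 _ _ hf hm).2, h]

/-- A function with a zero at some place is transcendental over the (algebraically closed)
constant field. -/
theorem transcendental_of_ord_pos (hEv : Stmt_Ev.{uK, uF}) (x : F) (hx : Transcendental K x)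
    [FiniteDimensional K⟮x⟯ F] (P : Place K F) {u : F} (hu : 0 < P.ord u) :
    Transcendental K u := by
  obtain ⟨h1, -, h3, -⟩ := ev_spec hEv x hx P
  intro halg
  have hint : IsIntegral K u := halg.isIntegral
  have hdeg : (minpoly K u).degree = 1 :=
    IsAlgClosed.degree_eq_one_of_irreducible K (minpoly.irreducible hint)
  obtain ⟨c, rfl⟩ := (minpoly.degree_eq_one_iff).mp hdeg
  have hc : ev P (algebraMap K F c) = 0 := (h3 _ hu.le).mpr (Or.inr hu)
  rw [h1 c] at hc
  rw [hc, map_zero, Place.ord_zero] at hu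
  exact lt_irrefl _ hu

/-- At a place where `u - c` is a uniformizer, `u` is regular with value `c`. -/
theorem ev_of_ord_sub_eq_one (hEv : Stmt_Ev.{uK, uF}) (x : F) (hx : Transcendental K x)
    [FiniteDimensional K⟮x⟯ F] (P : Place K F) {u : F} {c : K}
    (h : P.ord (u - algebraMap K F c) = 1) : 0 ≤ P.ord u ∧ ev P u = c := by
  obtain ⟨-, -, -, h4⟩ := ev_spec hEv x hx P
  have hpos : 0 < P.ord (u - algebraMap K F c) := by rw [h]; exact one_pos
  exact ⟨ord_nonneg_of_ord_sub_pos P hpos, h4 u c hpos⟩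

end EvHom

/-! ### Analyticity of polynomial expressions along a branch -/

section Branch

/-- `s ↦ G(s, b s)` is holomorphic where `b` is. -/
theorem differentiableOn_evalEval_branch (G : ℂ[X][Y]) {b : ℂ → ℂ} {U : Set ℂ}
    (hb : DifferentiableOn ℂ b U) :
    DifferentiableOn ℂ (fun s => G.evalEval s (b s)) U := by
  have h1 : DifferentiableOn ℂ (fun s : ℂ => ((s, b s) : ℂ × ℂ)) U :=
    differentiableOn_id.prodMk hb
  have h2 := (helper9531.ev_differentiable G).comp_differentiableOn h1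
  exact h2

theorem analyticAt_evalEval_branch (G : ℂ[X][Y]) {b : ℂ → ℂ} {U : Set ℂ}
    (hb : DifferentiableOn ℂ b U) {s₀ : ℂ} (hU : U ∈ 𝓝 s₀) :
    AnalyticAt ℂ (fun s => G.evalEval s (b s)) s₀ :=
  (differentiableOn_evalEval_branch G hb).analyticAt hU

theorem continuousAt_evalEval_branch (G : ℂ[X][Y]) {b : ℂ → ℂ} {U : Set ℂ}
    (hb : DifferentiableOn ℂ b U) {s₀ : ℂ} (hU : U ∈ 𝓝 s₀) :
    ContinuousAt (fun s => G.evalEval s (b s)) s₀ :=
  (analyticAt_evalEval_branch G hb hU).continuousAt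

end Branch

/-! ### The chart theorem -/

/-- **M5a** (`Stmt_ChartExists`): charts exist at every place, for every uniformizer. -/
theorem chartExists_of (hSep : Stmt_SepCoord.{0, 0}) (hSP : Stmt_SimplePoint.{0, 0})
    (hEv : Stmt_Ev.{0, 0}) : Stmt_ChartExists := by
  intro F _ _ x hx _ P u hu
  -- the plane model in which `P` is a simple point
  obtain ⟨y, χ, -, hgen, hrel, hker, hy, h0, h1⟩ := hSep ℂ F x hx P u hu
  have hutr : Transcendental ℂ u :=
    transcendental_of_ord_pos hEv x hx P (by rw [hu]; exact one_pos)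
  -- the holomorphic branch through `(0, ev P y)`
  obtain ⟨r₀, ε, b, hr₀, -, hb, hb0, hbz, -⟩ := helper9531.exists_branch χ 0 (ev P y) h0 h1
  have hball₀ : ∀ {s : ℂ}, s ∈ Metric.ball (0 : ℂ) r₀ → Metric.ball (0 : ℂ) r₀ ∈ 𝓝 s :=
    fun hs => Metric.isOpen_ball.mem_nhds hs
  -- shrink the disc so that `χ_Y(s, b s) ≠ 0`
  have hcont : ContinuousAt (fun s => (derivative χ).evalEval s (b s)) 0 :=
    continuousAt_evalEval_branch _ hb (hball₀ (Metric.mem_ball_self hr₀))
  have hne0 : (derivative χ).evalEval 0 (b 0) ≠ 0 := by rw [hb0]; exact h1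
  have hev : ∀ᶠ s in 𝓝 (0 : ℂ), (derivative χ).evalEval s (b s) ≠ 0 :=
    hcont.eventually_ne hne0
  obtain ⟨r₁, hr₁, hr₁sub⟩ := Metric.eventually_nhds_iff_ball.mp hev
  set r : ℝ := min r₀ r₁ with hr_def
  have hr : 0 < r := lt_min hr₀ hr₁
  have hsub₀ : Metric.ball (0 : ℂ) r ⊆ Metric.ball (0 : ℂ) r₀ :=
    Metric.ball_subset_ball (min_le_left _ _)
  have hsub₁ : Metric.ball (0 : ℂ) r ⊆ Metric.ball (0 : ℂ) r₁ :=
    Metric.ball_subset_ball (min_le_right _ _)
  -- the places at the simple points `(s, b s)`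
  have hplace : ∀ s : ℂ, s ∈ Metric.ball (0 : ℂ) r →
      ∃ P' : Place ℂ F, P'.ord (u - algebraMap ℂ F s) = 1 ∧ 0 ≤ P'.ord y ∧ ev P' y = b s ∧
        (∀ P'' : Place ℂ F, 0 < P''.ord (u - algebraMap ℂ F s) → 0 ≤ P''.ord y →
          ev P'' y = b s → P'' = P') ∧
        (∀ f : F, 0 ≤ P'.ord f → ∃ N M : ℂ[X][Y], M.evalEval s (b s) ≠ 0 ∧
          f * aevalAeval u y M = aevalAeval u y N) :=
    fun s hs => hSP ℂ F u y χ s (b s) hutr hgen hrel hker (hbz s (hsub₀ hs)).1
      (hr₁sub s (hsub₁ hs))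
  classical
  let Q : ℂ → Place ℂ F := fun s =>
    if hs : s ∈ Metric.ball (0 : ℂ) r then (hplace s hs).choose else P
  have hQ : ∀ s (hs : s ∈ Metric.ball (0 : ℂ) r), Q s = (hplace s hs).choose := fun s hs => by
    simp only [Q, dif_pos hs]
  have hQspec : ∀ s : ℂ, s ∈ Metric.ball (0 : ℂ) r →
      (Q s).ord (u - algebraMap ℂ F s) = 1 ∧ 0 ≤ (Q s).ord y ∧ ev (Q s) y = b s ∧
        (∀ P'' : Place ℂ F, 0 < P''.ord (u - algebraMap ℂ F s) → 0 ≤ P''.ord y →
          ev P'' y = b s → P'' = Q s) ∧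
        (∀ f : F, 0 ≤ (Q s).ord f → ∃ N M : ℂ[X][Y], M.evalEval s (b s) ≠ 0 ∧
          f * aevalAeval u y M = aevalAeval u y N) := fun s hs => by
    rw [hQ s hs]
    exact (hplace s hs).choose_spec
  -- values of polynomial expressions at `Q s`
  have hval : ∀ s : ℂ, s ∈ Metric.ball (0 : ℂ) r → ∀ G : ℂ[X][Y],
      0 ≤ (Q s).ord (aevalAeval u y G) ∧ ev (Q s) (aevalAeval u y G) = G.evalEval s (b s) :=
    fun s hs G => by
      obtain ⟨hu1, hy1, hy2, -, -⟩ := hQspec s hs
      obtain ⟨hu2, hu3⟩ := ev_of_ord_sub_eq_one hEv x hx (Q s) hu1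
      have := ev_aevalAeval hEv x hx (Q s) hu2 hy1 G
      rwa [hu3, hy2] at this
  refine ⟨Q, r, ⟨hr, fun s hs => (hQspec s hs).1, ?_⟩, ?_⟩
  · -- the analytic clause
    intro f s₀ hs₀ hf
    obtain ⟨N, M, hM, hfM⟩ := (hQspec s₀ hs₀).2.2.2.2 f hf
    have hballr : Metric.ball (0 : ℂ) r ∈ 𝓝 s₀ := Metric.isOpen_ball.mem_nhds hs₀
    have hballr₀ : Metric.ball (0 : ℂ) r₀ ∈ 𝓝 s₀ := hball₀ (hsub₀ hs₀)
    have hMc : ContinuousAt (fun s => M.evalEval s (b s)) s₀ :=
      continuousAt_evalEval_branch M hb hballr₀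
    have hMev : ∀ᶠ s in 𝓝 s₀, M.evalEval s (b s) ≠ 0 := hMc.eventually_ne hM
    have key : ∀ᶠ s in 𝓝 s₀, 0 ≤ (Q s).ord f ∧
        ev (Q s) f = N.evalEval s (b s) / M.evalEval s (b s) := by
      filter_upwards [hMev, hballr] with s hMs hs
      obtain ⟨hM1, hM2⟩ := hval s hs M
      obtain ⟨hN1, hN2⟩ := hval s hs N
      have := ev_of_mul_eq hEv x hx (Q s) hM1 hN1 (by rw [hM2]; exact hMs) hfM
      rwa [hM2, hN2] at this
    refine ⟨key.mono fun s hs => hs.1, ?_⟩
    have han : AnalyticAt ℂ (fun s => N.evalEval s (b s) / M.evalEval s (b s)) s₀ :=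
      (analyticAt_evalEval_branch N hb hballr₀).div (analyticAt_evalEval_branch M hb hballr₀) hM
    exact han.congr (key.mono fun s hs => hs.2.symm)
  · -- the centre of the chart is `P`
    have h00 : (0 : ℂ) ∈ Metric.ball (0 : ℂ) r := Metric.mem_ball_self hr
    have hu0 : 0 < P.ord (u - algebraMap ℂ F 0) := by
      rw [map_zero, sub_zero, hu]; exact one_pos
    exact ((hQspec 0 h00).2.2.2.1 P hu0 hy hb0.symm).symm

end

end Fermat.Agent.S27.helper6428
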