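/-
S27 sub-leaf S27-E3-INFABEL (helper5721): the INFINITESIMAL ABEL THEOREM in the chart language of
`helper6247_Spec`, in pointwise form (no family, no parameter derivative inside).  It is the
`ξ = H'/H` step (M5) of `Stmt_GLS` / `Stmt_GLSMove`, for every design of the family `H`.

Exported surface (namespace `Fermat.Agent.S27.helper5721`):

* any fields `K`, `F`: `rsingle_apply`, `pp_add`, `pp_smul`, `pp_neg`, `pp_sub`,
  `pp_eq_zero_of_ord_nonneg`, `pp_eq_of_ord_sub_nonneg`,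
  `sum_pp_eq_zero` (residue theorem by definition: the principal parts of a function over a finite
  set containing its poles sum to `0` in `H¹(0)`),
  `sum_smul_pp_eq_zero` (indexed polar part form; gives the fibre-sum identity at once).
* `EvOK F` (the four clauses of `Stmt_Ev` at every place), `evOK_of`, and the ring-hom API
  `ev_const`, `ev_add`, `ev_mul`, `ev_smul`, `ev_neg`, `ev_sub`, `ev_zero`, `ev_sum`,
  `ev_eq_zero_iff`, `ev_of_ord_sub_pos`, `ne_zero_and_ord_eq_zero_of_ev_ne_zero`,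
  `ord_nonneg_smul/neg/sub/sum`, `ord_div_nonneg`.
* chart calculus: `chart_coord` (`ev (Q s) u = s`), `chart_coord_sub`, `chart_unif_ne_zero`,
  `hasDerivAt_ev_chart` / `deriv_ev_chart` (division value lemma:
  `d/ds f(Q s) at s₀ = ((f - f(Q s₀)) / (u - s₀))(Q s₀)`),
  `ord_eq_one_iff_deriv_ne_zero` (simple zero iff nonzero derivative along the chart),
  `polar_part_of_velocity` (polar part of `H'/H` at a moving simple zero),
  `ev_mul_sum_smul`, `deriv_ev_mul_sum_smul` (linear combinations along a chart).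
* `infAbel_core`, `infAbel_core_chartCoef` (functions `H`, `H'`), and
  `infAbel`, `infAbel_chartCoef` (coefficient form `H = ∑ c j • w j`, `H' = ∑ c' j • w j`, whose
  velocity hypothesis is the output of the moving-zero lemma of the analytic kits with
  `W j := fun s => ev (Q k s) (μ k * w j)`).
-/
import Fermat.Agent.S27.helper6428_ChartExists
import Fermat.Agent.S24.helper1370_PlaceBasics

set_option autoImplicit false

open AlgebraicCurve IntermediateField
open scoped Topology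

namespace Fermat.Agent.S27.helper5721

open Fermat.Agent.S27.helper6247
open Fermat.Agent.S24.helper1370

noncomputable section

/-! ## Principal parts in `H¹(0)` (any base field) -/

section PP

variable {K F : Type*} [Field K] [Field F] [Algebra K F]

open Classical in
theorem rsingle_apply (P R : Place K F) (f : F) :
    (rsingle P f : Place K F → F) R = if R = P then f else 0 := rfl

theorem rsingle_add (P : Place K F) (f g : F) : rsingle P (f + g) = rsingle P f + rsingle P g := by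
  apply Subtype.ext
  funext R
  show (rsingle P (f + g) : Place K F → F) R
    = (rsingle P f : Place K F → F) R + (rsingle P g : Place K F → F) R
  simp only [rsingle_apply]
  split_ifs <;> simp

theorem rsingle_smul (P : Place K F) (a : K) (f : F) : rsingle P (a • f) = a • rsingle P f := by
  apply Subtype.ext
  funext R
  show (rsingle P (a • f) : Place K F → F) R = a • (rsingle P f : Place K F → F) R
  simp only [rsingle_apply]
  split_ifs <;> simp

theorem pp_add (P : Place K F) (f g : F) : pp P (f + g) = pp P f + pp P g := by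
  unfold pp
  rw [rsingle_add]
  rfl

theorem pp_smul (P : Place K F) (a : K) (f : F) : pp P (a • f) = a • pp P f := by
  unfold pp
  rw [rsingle_smul]
  rfl

theorem pp_eq_zero_of_ord_nonneg (P : Place K F) {f : F} (hf : 0 ≤ P.ord f) : pp P f = 0 := by
  unfold pp
  rw [Submodule.Quotient.mk_eq_zero]
  apply Submodule.mem_sup_left
  rw [mem_repartitionsOf_iff]
  intro R
  rw [rsingle_apply]
  split_ifs with h
  · right
    subst h
    simpa using hf
  · left; rfl

theorem pp_neg (P : Place K F) (f : F) : pp P (-f) = -pp P f := by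
  have h := pp_smul P (-1 : K) f
  simpa using h

theorem pp_sub (P : Place K F) (f g : F) : pp P (f - g) = pp P f - pp P g := by
  rw [sub_eq_add_neg, pp_add, pp_neg, sub_eq_add_neg]

/-- Principal parts only depend on the function modulo regular functions. -/
theorem pp_eq_of_ord_sub_nonneg (P : Place K F) {f g : F} (h : 0 ≤ P.ord (f - g)) :
    pp P f = pp P g := by
  have h1 := pp_eq_zero_of_ord_nonneg P h
  rw [pp_sub, sub_eq_zero] at h1
  exact h1

/-- **Residue theorem by definition**: the principal parts of a function `ξ : F`, summed over a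
finite set of places containing all poles of `ξ`, vanish in `H¹(0) = A / (A(0) + F)`. -/
theorem sum_pp_eq_zero (ξ : F) (S : Finset (Place K F)) (h : ∀ P, P ∉ S → 0 ≤ P.ord ξ) :
    ∑ P ∈ S, pp P ξ = 0 := by
  classical
  have e1 : ∑ P ∈ S, pp P ξ
      = (Submodule.Quotient.mk (∑ P ∈ S, rsingle P ξ) : H1 (0 : Divisor K F)) := by
    unfold pp
    rw [← Submodule.mkQ_apply, map_sum]
    rfl
  rw [e1, Submodule.Quotient.mk_eq_zero]
  -- the constant repartition `ξ`
  set ι : ↥(repartitions K F) := algebraMap F ↥(repartitions K F) ξ with hι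
  have hιmem : ι ∈ principalRepartitions K F := by
    rw [mem_principalRepartitions_iff]
    exact ⟨ξ, rfl⟩
  have hval : ∀ R : Place K F,
      ((∑ P ∈ S, rsingle P ξ : ↥(repartitions K F)) : Place K F → F) R
        = if R ∈ S then ξ else 0 := by
    intro R
    rw [AddSubmonoidClass.coe_finsetSum, Finset.sum_apply]
    simp only [rsingle_apply]
    rw [Finset.sum_ite_eq]
  have hdiff : (∑ P ∈ S, rsingle P ξ) - ι ∈ repartitionsOf (0 : Divisor K F) := by
    rw [mem_repartitionsOf_iff]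
    intro R
    have hR : (((∑ P ∈ S, rsingle P ξ) - ι : ↥(repartitions K F)) : Place K F → F) R
        = (if R ∈ S then ξ else 0) - ξ := by
      rw [← hval R]
      rfl
    rw [hR]
    split_ifs with hRS
    · left; simp
    · right
      rw [zero_sub, ord_neg]
      simpa using h R hRS
  have : ∑ P ∈ S, rsingle P ξ = ((∑ P ∈ S, rsingle P ξ) - ι) + ι := by abel
  rw [this]
  exact Submodule.add_mem _ (Submodule.mem_sup_left hdiff) (Submodule.mem_sup_right hιmem)

/-- Residue theorem, indexed polar-part form: if `ξ` has polar part `a k • (τ k)⁻¹` at the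
pairwise distinct places `P k` and is regular at all other places, then
`∑ k, a k • pp (P k) (τ k)⁻¹ = 0`. -/
theorem sum_smul_pp_eq_zero {ι : Type*} [Fintype ι] (ξ : F) (P : ι → Place K F)
    (hinj : Function.Injective P) (a : ι → K) (τ : ι → F)
    (hS : ∀ k, 0 ≤ (P k).ord (ξ - a k • (τ k)⁻¹))
    (h : ∀ R : Place K F, (∀ k, R ≠ P k) → 0 ≤ R.ord ξ) :
    ∑ k, a k • pp (P k) (τ k)⁻¹ = 0 := by
  classical
  have e1 : ∀ k, a k • pp (P k) (τ k)⁻¹ = pp (P k) ξ := by
    intro k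
    rw [← pp_smul]
    exact (pp_eq_of_ord_sub_nonneg (P k) (hS k)).symm
  rw [Finset.sum_congr rfl fun k _ => e1 k]
  have e2 : ∑ k, pp (P k) ξ = ∑ R ∈ Finset.univ.image P, pp R ξ := by
    rw [Finset.sum_image]
    intro k _ l _ hkl
    exact hinj hkl
  rw [e2]
  apply sum_pp_eq_zero
  intro R hR
  apply h
  intro k hk
  apply hR
  rw [Finset.mem_image]
  exact ⟨k, Finset.mem_univ k, hk.symm⟩

end PP

/-! ## `ev` as a ring homomorphism on the valuation ring (from `Stmt_Ev`) -/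

section Ev

variable {F : Type} [Field F] [Algebra ℂ F]

/-- The four clauses of `Stmt_Ev` at every place of `F`. -/
def EvOK (F : Type) [Field F] [Algebra ℂ F] : Prop :=
  ∀ P : Place ℂ F,
    (∀ c : ℂ, ev P (algebraMap ℂ F c) = c) ∧
    (∀ f g : F, 0 ≤ P.ord f → 0 ≤ P.ord g →
      ev P (f + g) = ev P f + ev P g ∧ ev P (f * g) = ev P f * ev P g) ∧
    (∀ f : F, 0 ≤ P.ord f → (ev P f = 0 ↔ f = 0 ∨ 0 < P.ord f)) ∧
    (∀ (f : F) (c : ℂ), 0 < P.ord (f - algebraMap ℂ F c) → ev P f = c)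

theorem evOK_of (hEv : Stmt_Ev.{0, 0}) (x : F) (hx : Transcendental ℂ x)
    [FiniteDimensional ℂ⟮x⟯ F] : EvOK F := fun P => hEv ℂ F x hx P

variable (hE : EvOK F) (P : Place ℂ F)

include hE in
theorem ev_const (c : ℂ) : ev P (algebraMap ℂ F c) = c := (hE P).1 c

include hE in
theorem ev_add {f g : F} (hf : 0 ≤ P.ord f) (hg : 0 ≤ P.ord g) :
    ev P (f + g) = ev P f + ev P g := ((hE P).2.1 f g hf hg).1

include hE in
theorem ev_mul {f g : F} (hf : 0 ≤ P.ord f) (hg : 0 ≤ P.ord g) :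
    ev P (f * g) = ev P f * ev P g := ((hE P).2.1 f g hf hg).2

include hE in
theorem ev_eq_zero_iff {f : F} (hf : 0 ≤ P.ord f) : ev P f = 0 ↔ f = 0 ∨ 0 < P.ord f :=
  (hE P).2.2.1 f hf

include hE in
theorem ev_of_ord_sub_pos {f : F} {c : ℂ} (h : 0 < P.ord (f - algebraMap ℂ F c)) :
    ev P f = c := (hE P).2.2.2 f c h

theorem ord_nonneg_smul (a : ℂ) {f : F} (hf : 0 ≤ P.ord f) : 0 ≤ P.ord (a • f) := by
  rw [Algebra.smul_def]
  exact helper6428.ord_nonneg_mul P (helper6428.ord_nonneg_algebraMap P a) hf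

include hE in
theorem ev_smul (a : ℂ) {f : F} (hf : 0 ≤ P.ord f) : ev P (a • f) = a * ev P f := by
  rw [Algebra.smul_def, ev_mul hE P (helper6428.ord_nonneg_algebraMap P a) hf, ev_const hE]

theorem ord_nonneg_neg {f : F} (hf : 0 ≤ P.ord f) : 0 ≤ P.ord (-f) := by
  rw [ord_neg]; exact hf

include hE in
theorem ev_neg {f : F} (hf : 0 ≤ P.ord f) : ev P (-f) = -ev P f := by
  have h := ev_smul hE P (-1) hf
  simpa using h

theorem ord_nonneg_sub {f g : F} (hf : 0 ≤ P.ord f) (hg : 0 ≤ P.ord g) : 0 ≤ P.ord (f - g) := by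
  rw [sub_eq_add_neg]
  exact helper6428.ord_nonneg_add P hf (ord_nonneg_neg P hg)

include hE in
theorem ev_sub {f g : F} (hf : 0 ≤ P.ord f) (hg : 0 ≤ P.ord g) :
    ev P (f - g) = ev P f - ev P g := by
  rw [sub_eq_add_neg, ev_add hE P hf (ord_nonneg_neg P hg), ev_neg hE P hg, sub_eq_add_neg]

include hE in
theorem ev_zero : ev P (0 : F) = 0 := by
  have h := ev_const hE P 0
  simpa using h

theorem ord_nonneg_sum {κ : Type*} (s : Finset κ) (f : κ → F) (h : ∀ j ∈ s, 0 ≤ P.ord (f j)) :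
    0 ≤ P.ord (∑ j ∈ s, f j) := by
  classical
  induction s using Finset.induction_on with
  | empty => simp
  | insert a s ha ih =>
    rw [Finset.sum_insert ha]
    exact helper6428.ord_nonneg_add P (h a (Finset.mem_insert_self a s))
      (ih fun j hj => h j (Finset.mem_insert_of_mem hj))

include hE in
theorem ev_sum {κ : Type*} (s : Finset κ) (f : κ → F) (h : ∀ j ∈ s, 0 ≤ P.ord (f j)) :
    ev P (∑ j ∈ s, f j) = ∑ j ∈ s, ev P (f j) := by
  classical
  induction s using Finset.induction_on with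
  | empty => simpa using ev_zero hE P
  | insert a s ha ih =>
    rw [Finset.sum_insert ha, Finset.sum_insert ha,
      ev_add hE P (h a (Finset.mem_insert_self a s))
        (ord_nonneg_sum P s f fun j hj => h j (Finset.mem_insert_of_mem hj)),
      ih fun j hj => h j (Finset.mem_insert_of_mem hj)]

include hE in
/-- A regular function with nonzero value is a unit of the valuation ring. -/
theorem ne_zero_and_ord_eq_zero_of_ev_ne_zero {f : F} (hf : 0 ≤ P.ord f) (h : ev P f ≠ 0) :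
    f ≠ 0 ∧ P.ord f = 0 := by
  have h' := mt (ev_eq_zero_iff hE P hf).mpr h
  rw [not_or, not_lt] at h'
  exact ⟨h'.1, le_antisymm h'.2 hf⟩

/-- `0 ≤ ord (H' / H)` from the order inequality. -/
theorem ord_div_nonneg {H H' : F} (hH : H ≠ 0) (h : H' = 0 ∨ P.ord H ≤ P.ord H') :
    0 ≤ P.ord (H' / H) := by
  rcases eq_or_ne H' 0 with rfl | hH'
  · simp
  · rw [ord_div P hH' hH]
    have := h.resolve_left hH'
    omega

end Ev

/-! ## Chart calculus -/

section Chart

variable {F : Type} [Field F] [Algebra ℂ F] (hE : EvOK F)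
variable {u : F} {Q : ℂ → Place ℂ F} {r : ℝ}

include hE in
/-- Along a chart the coordinate `u` has value `s` at `Q s`. -/
theorem chart_coord (hc : IsChart u Q r) {s : ℂ} (hs : s ∈ Metric.ball (0 : ℂ) r) :
    0 ≤ (Q s).ord u ∧ ev (Q s) u = s := by
  have h := hc.unif s hs
  have hpos : 0 < (Q s).ord (u - algebraMap ℂ F s) := by rw [h]; exact one_pos
  exact ⟨helper6428.ord_nonneg_of_ord_sub_pos (Q s) hpos, ev_of_ord_sub_pos hE (Q s) hpos⟩

include hE in
theorem chart_coord_sub (hc : IsChart u Q r) {s : ℂ} (hs : s ∈ Metric.ball (0 : ℂ) r) (s₀ : ℂ) :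
    0 ≤ (Q s).ord (u - algebraMap ℂ F s₀) ∧ ev (Q s) (u - algebraMap ℂ F s₀) = s - s₀ := by
  obtain ⟨h1, h2⟩ := chart_coord hE hc hs
  refine ⟨ord_nonneg_sub (Q s) h1 (helper6428.ord_nonneg_algebraMap (Q s) s₀), ?_⟩
  rw [ev_sub hE (Q s) h1 (helper6428.ord_nonneg_algebraMap (Q s) s₀), h2, ev_const hE]

theorem chart_unif_ne_zero (hc : IsChart u Q r) {s : ℂ} (hs : s ∈ Metric.ball (0 : ℂ) r) :
    u - algebraMap ℂ F s ≠ 0 := by
  intro h
  have h1 := hc.unif s hs
  rw [h, Place.ord_zero] at h1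
  exact zero_ne_one h1

include hE in
/-- **Division value lemma**: along a chart, the derivative of `s ↦ f(Q s)` at `s₀` is the value
at `Q s₀` of the difference quotient `(f - f(Q s₀)) / (u - s₀)`, which is regular there. -/
theorem hasDerivAt_ev_chart (hc : IsChart u Q r) {s₀ : ℂ} (hs₀ : s₀ ∈ Metric.ball (0 : ℂ) r)
    {f : F} (hf : 0 ≤ (Q s₀).ord f) :
    0 ≤ (Q s₀).ord ((f - algebraMap ℂ F (ev (Q s₀) f)) / (u - algebraMap ℂ F s₀)) ∧
    HasDerivAt (fun s => ev (Q s) f)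
      (ev (Q s₀) ((f - algebraMap ℂ F (ev (Q s₀) f)) / (u - algebraMap ℂ F s₀))) s₀ := by
  set c : ℂ := ev (Q s₀) f with hcdef
  set τ : F := u - algebraMap ℂ F s₀ with hτdef
  set g : F := (f - algebraMap ℂ F c) / τ with hgdef
  have hτ1 : (Q s₀).ord τ = 1 := hc.unif s₀ hs₀
  have hτ0 : τ ≠ 0 := chart_unif_ne_zero hc hs₀
  have hfc : 0 ≤ (Q s₀).ord (f - algebraMap ℂ F c) :=
    ord_nonneg_sub (Q s₀) hf (helper6428.ord_nonneg_algebraMap (Q s₀) c)
  have hev : ev (Q s₀) (f - algebraMap ℂ F c) = 0 := by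
    rw [ev_sub hE (Q s₀) hf (helper6428.ord_nonneg_algebraMap (Q s₀) c), ev_const hE, sub_self]
  have hg : 0 ≤ (Q s₀).ord g := by
    rcases (ev_eq_zero_iff hE (Q s₀) hfc).mp hev with h0 | hpos
    · rw [hgdef, h0, zero_div, Place.ord_zero]
    · have hne : f - algebraMap ℂ F c ≠ 0 := by
        intro h0
        rw [h0, Place.ord_zero] at hpos
        exact lt_irrefl _ hpos
      rw [hgdef, ord_div (Q s₀) hne hτ0, hτ1]
      omega
  have hfg : f = algebraMap ℂ F c + τ * g := by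
    rw [hgdef, mul_div_cancel₀ _ hτ0]
    ring
  obtain ⟨hreg, hψ⟩ := hc.analytic g s₀ hs₀ hg
  refine ⟨hg, ?_⟩
  have hball : ∀ᶠ s in 𝓝 s₀, s ∈ Metric.ball (0 : ℂ) r := Metric.isOpen_ball.mem_nhds hs₀
  have heq : (fun s => ev (Q s) f) =ᶠ[𝓝 s₀] fun s => c + (s - s₀) * ev (Q s) g := by
    filter_upwards [hreg, hball] with s hs hsb
    obtain ⟨h1, h2⟩ := chart_coord_sub hE hc hsb s₀
    have h3 : 0 ≤ (Q s).ord (τ * g) := helper6428.ord_nonneg_mul (Q s) h1 hs
    show ev (Q s) f = c + (s - s₀) * ev (Q s) g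
    rw [hfg, ev_add hE (Q s) (helper6428.ord_nonneg_algebraMap (Q s) c) h3, ev_const hE,
      ev_mul hE (Q s) h1 hs, h2]
  have h1 : HasDerivAt (fun s : ℂ => s - s₀) 1 s₀ := (hasDerivAt_id s₀).sub_const s₀
  have h2 := (h1.mul hψ.differentiableAt.hasDerivAt).const_add c
  have h3 : HasDerivAt (fun s => c + (s - s₀) * ev (Q s) g) (ev (Q s₀) g) s₀ := by
    have h2' : HasDerivAt (fun s => c + (s - s₀) * ev (Q s) g)
        (1 * ev (Q s₀) g + (s₀ - s₀) * deriv (fun s => ev (Q s) g) s₀) s₀ := h2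
    simpa using h2'
  exact h3.congr_of_eventuallyEq heq

include hE in
theorem deriv_ev_chart (hc : IsChart u Q r) {s₀ : ℂ} (hs₀ : s₀ ∈ Metric.ball (0 : ℂ) r)
    {f : F} (hf : 0 ≤ (Q s₀).ord f) :
    deriv (fun s => ev (Q s) f) s₀
      = ev (Q s₀) ((f - algebraMap ℂ F (ev (Q s₀) f)) / (u - algebraMap ℂ F s₀)) :=
  (hasDerivAt_ev_chart hE hc hs₀ hf).2.deriv

include hE in
/-- A zero of `f` at the chart point `Q s₀` is simple iff the derivative of `s ↦ f(Q s)` does
not vanish at `s₀`. -/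
theorem ord_eq_one_iff_deriv_ne_zero (hc : IsChart u Q r) {s₀ : ℂ}
    (hs₀ : s₀ ∈ Metric.ball (0 : ℂ) r) {f : F} (hf : 0 ≤ (Q s₀).ord f) (hf0 : f ≠ 0)
    (hev : ev (Q s₀) f = 0) :
    (Q s₀).ord f = 1 ↔ deriv (fun s => ev (Q s) f) s₀ ≠ 0 := by
  obtain ⟨hg, hder⟩ := hasDerivAt_ev_chart hE hc hs₀ hf
  rw [hder.deriv]
  rw [hev, map_zero, sub_zero] at hg ⊢
  have hτ1 : (Q s₀).ord (u - algebraMap ℂ F s₀) = 1 := hc.unif s₀ hs₀
  have hτ0 : u - algebraMap ℂ F s₀ ≠ 0 := chart_unif_ne_zero hc hs₀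
  have hord : (Q s₀).ord (f / (u - algebraMap ℂ F s₀)) = (Q s₀).ord f - 1 := by
    rw [ord_div (Q s₀) hf0 hτ0, hτ1]
  have hg0 : f / (u - algebraMap ℂ F s₀) ≠ 0 := div_ne_zero hf0 hτ0
  rw [Ne, ev_eq_zero_iff hE (Q s₀) hg, not_or, not_lt]
  constructor
  · intro h
    exact ⟨hg0, by rw [hord, h]; norm_num⟩
  · rintro ⟨-, h⟩
    rw [hord] at h hg
    omega

include hE in
/-- **Polar part of a logarithmic derivative at a moving simple zero.**  `H` has a simple zero at
the chart point `Q s₀` (after multiplication by the regularising factor `m`), and `H'` satisfies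
the velocity identity `v · ∂_s (m H)(Q s) + (m H')(Q s₀) = 0`.  Then `H'/H + v/(u - s₀)` is
regular at `Q s₀`. -/
theorem polar_part_of_velocity (hc : IsChart u Q r) {s₀ : ℂ} (hs₀ : s₀ ∈ Metric.ball (0 : ℂ) r)
    {m H H' : F} (hm : m ≠ 0) (hH : 0 ≤ (Q s₀).ord (m * H)) (hH' : 0 ≤ (Q s₀).ord (m * H'))
    (hzero : ev (Q s₀) (m * H) = 0)
    (hsimple : deriv (fun s => ev (Q s) (m * H)) s₀ ≠ 0) {v : ℂ}
    (hvel : v * deriv (fun s => ev (Q s) (m * H)) s₀ + ev (Q s₀) (m * H') = 0) :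
    0 ≤ (Q s₀).ord (H' / H - (-v) • (u - algebraMap ℂ F s₀)⁻¹) := by
  obtain ⟨hg, hder⟩ := hasDerivAt_ev_chart hE hc hs₀ hH
  rw [hder.deriv] at hsimple hvel
  rw [hzero, map_zero, sub_zero] at hg hsimple hvel
  set τ : F := u - algebraMap ℂ F s₀ with hτdef
  set g : F := m * H / τ with hgdef
  have hτ1 : (Q s₀).ord τ = 1 := hc.unif s₀ hs₀
  have hτ0 : τ ≠ 0 := chart_unif_ne_zero hc hs₀
  obtain ⟨hg0, hgord⟩ := ne_zero_and_ord_eq_zero_of_ev_ne_zero hE (Q s₀) hg hsimple
  have hmH : m * H = τ * g := by rw [hgdef, mul_div_cancel₀ _ hτ0]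
  set N : F := m * H' + v • g with hNdef
  have hN : 0 ≤ (Q s₀).ord N :=
    helper6428.ord_nonneg_add (Q s₀) hH' (ord_nonneg_smul (Q s₀) v hg)
  have hNev : ev (Q s₀) N = 0 := by
    rw [hNdef, ev_add hE (Q s₀) hH' (ord_nonneg_smul (Q s₀) v hg), ev_smul hE (Q s₀) v hg]
    linear_combination hvel
  have hkey : H' / H - (-v) • τ⁻¹ = N / (τ * g) := by
    have e1 : H' / H = (m * H') / (τ * g) := by rw [← hmH, mul_div_mul_left _ _ hm]
    have e2 : v • τ⁻¹ = (v • g) / (τ * g) := by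
      rw [Algebra.smul_def, Algebra.smul_def]
      field_simp
    rw [neg_smul, sub_neg_eq_add, e1, e2, ← add_div]
  rw [hkey]
  rcases (ev_eq_zero_iff hE (Q s₀) hN).mp hNev with h0 | hpos
  · rw [h0, zero_div, Place.ord_zero]
  · have hne : N ≠ 0 := by
      intro h0
      rw [h0, Place.ord_zero] at hpos
      exact lt_irrefl _ hpos
    rw [ord_div (Q s₀) hne (mul_ne_zero hτ0 hg0), (Q s₀).ord_mul hτ0 hg0, hτ1, hgord]
    omega

end Chart

/-! ## The infinitesimal Abel theorem -/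

section InfAbel

variable {F : Type} [Field F] [Algebra ℂ F]

/-- **Infinitesimal Abel theorem, pointwise form.**  `H ≠ 0` and `H'` are functions (think of a
point of a family in a fixed finite dimensional space and its derivative in a parameter
direction).  The zeros of `H` that are tracked along charts are the places `Q k (σ k)`; they are
simple zeros of `μ k * H` (`μ k` a regularising multiplier), and the velocity identity
`v k · ∂_s (μ H)(Q s) + (μ H')(Q σ) = 0` holds there (`v k = 0` for a zero that does not move).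
At all other places `H'/H` is regular.  Then `∑ k, v k • [1/(u k - σ k) at Q k (σ k)] = 0` in
`H¹(0)`. -/
theorem infAbel_core (hE : EvOK F) {ι : Type*} [Fintype ι] (H H' : F) (u μ : ι → F)
    (Q : ι → ℂ → Place ℂ F) (r : ι → ℝ) (σ v : ι → ℂ)
    (hch : ∀ k, IsChart (u k) (Q k) (r k)) (hσ : ∀ k, ‖σ k‖ < r k) (hμ : ∀ k, μ k ≠ 0)
    (hregH : ∀ k, 0 ≤ (Q k (σ k)).ord (μ k * H)) (hregH' : ∀ k, 0 ≤ (Q k (σ k)).ord (μ k * H'))
    (hzero : ∀ k, ev (Q k (σ k)) (μ k * H) = 0)
    (hsimple : ∀ k, deriv (fun s => ev (Q k s) (μ k * H)) (σ k) ≠ 0)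
    (hvel : ∀ k, v k * deriv (fun s => ev (Q k s) (μ k * H)) (σ k)
      + ev (Q k (σ k)) (μ k * H') = 0)
    (hinj : Function.Injective fun k => Q k (σ k))
    (hrest : ∀ P : Place ℂ F, (∀ k, P ≠ Q k (σ k)) → 0 ≤ P.ord (H' / H)) :
    ∑ k, v k • pp (Q k (σ k)) (u k - algebraMap ℂ F (σ k))⁻¹ = 0 := by
  have hmem : ∀ k, σ k ∈ Metric.ball (0 : ℂ) (r k) := fun k => mem_ball_zero_iff.mpr (hσ k)
  have h := sum_smul_pp_eq_zero (H' / H) (fun k => Q k (σ k)) hinj (fun k => -v k)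
    (fun k => u k - algebraMap ℂ F (σ k))
    (fun k => polar_part_of_velocity hE (hch k) (hmem k) (hμ k) (hregH k) (hregH' k) (hzero k)
      (hsimple k) (hvel k)) hrest
  simp only [neg_smul, Finset.sum_neg_distrib, neg_eq_zero] at h
  exact h

/-- Evaluation of a linear combination along a chart, and its derivative. -/
theorem ev_mul_sum_smul (hE : EvOK F) (P : Place ℂ F) {κ : Type*} [Fintype κ] (m : F)
    (w : κ → F) (c : κ → ℂ) (hreg : ∀ j, 0 ≤ P.ord (m * w j)) :
    0 ≤ P.ord (m * ∑ j, c j • w j) ∧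
      ev P (m * ∑ j, c j • w j) = ∑ j, c j * ev P (m * w j) := by
  have e : m * ∑ j, c j • w j = ∑ j, c j • (m * w j) := by
    rw [Finset.mul_sum]
    exact Finset.sum_congr rfl fun j _ => mul_smul_comm _ _ _
  rw [e]
  refine ⟨ord_nonneg_sum P _ _ fun j _ => ord_nonneg_smul P (c j) (hreg j), ?_⟩
  rw [ev_sum hE P _ _ fun j _ => ord_nonneg_smul P (c j) (hreg j)]
  exact Finset.sum_congr rfl fun j _ => ev_smul hE P (c j) (hreg j)

theorem deriv_ev_mul_sum_smul (hE : EvOK F) {u : F} {Q : ℂ → Place ℂ F} {r : ℝ}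
    (hc : IsChart u Q r) {s₀ : ℂ} (hs₀ : s₀ ∈ Metric.ball (0 : ℂ) r) {κ : Type*} [Fintype κ]
    (m : F) (w : κ → F) (c : κ → ℂ) (hreg : ∀ j, 0 ≤ (Q s₀).ord (m * w j)) :
    deriv (fun s => ev (Q s) (m * ∑ j, c j • w j)) s₀
      = ∑ j, c j * deriv (fun s => ev (Q s) (m * w j)) s₀ := by
  have hev : ∀ᶠ s in 𝓝 s₀, ∀ j, 0 ≤ (Q s).ord (m * w j) :=
    Filter.eventually_all.mpr fun j => (hc.analytic (m * w j) s₀ hs₀ (hreg j)).1
  have heq : (fun s => ev (Q s) (m * ∑ j, c j • w j))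
      =ᶠ[𝓝 s₀] fun s => ∑ j, c j * ev (Q s) (m * w j) := by
    filter_upwards [hev] with s hs
    exact (ev_mul_sum_smul hE (Q s) m w c hs).2
  rw [heq.deriv_eq]
  have hd : ∀ j ∈ (Finset.univ : Finset κ),
      HasDerivAt (fun s => c j * ev (Q s) (m * w j))
        (c j * deriv (fun s => ev (Q s) (m * w j)) s₀) s₀ := fun j _ =>
    ((hc.analytic (m * w j) s₀ hs₀ (hreg j)).2.differentiableAt.hasDerivAt).const_mul (c j)
  exact (HasDerivAt.fun_sum hd).deriv

/-- **Infinitesimal Abel theorem, coefficient form** (plugs into the output of the moving-zero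
lemma of the analytic kits: `W j := fun s => ev (Q k s) (μ k * w j)`).  `H = ∑ c j • w j`,
`H' = ∑ c' j • w j`. -/
theorem infAbel (hEv : Stmt_Ev.{0, 0}) (x : F) (hx : Transcendental ℂ x)
    [FiniteDimensional ℂ⟮x⟯ F] {κ ι : Type} [Fintype κ] [Fintype ι] (w : κ → F) (c c' : κ → ℂ)
    (u μ : ι → F) (Q : ι → ℂ → Place ℂ F) (r : ι → ℝ) (σ v : ι → ℂ)
    (hch : ∀ k, IsChart (u k) (Q k) (r k)) (hσ : ∀ k, ‖σ k‖ < r k) (hμ : ∀ k, μ k ≠ 0)
    (hreg : ∀ k j, 0 ≤ (Q k (σ k)).ord (μ k * w j))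
    (hzero : ∀ k, ∑ j, c j * ev (Q k (σ k)) (μ k * w j) = 0)
    (hsimple : ∀ k, ∑ j, c j * deriv (fun s => ev (Q k s) (μ k * w j)) (σ k) ≠ 0)
    (hvel : ∀ k, v k * ∑ j, c j * deriv (fun s => ev (Q k s) (μ k * w j)) (σ k)
      + ∑ j, c' j * ev (Q k (σ k)) (μ k * w j) = 0)
    (hinj : Function.Injective fun k => Q k (σ k))
    (hrest : ∀ P : Place ℂ F, (∀ k, P ≠ Q k (σ k)) →
      0 ≤ P.ord ((∑ j, c' j • w j) / ∑ j, c j • w j)) :
    ∑ k, v k • pp (Q k (σ k)) (u k - algebraMap ℂ F (σ k))⁻¹ = 0 := by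
  have hE : EvOK F := evOK_of hEv x hx
  have hmem : ∀ k, σ k ∈ Metric.ball (0 : ℂ) (r k) := fun k => mem_ball_zero_iff.mpr (hσ k)
  refine infAbel_core hE (∑ j, c j • w j) (∑ j, c' j • w j) u μ Q r σ v hch hσ hμ
    (fun k => (ev_mul_sum_smul hE _ (μ k) w c (hreg k)).1)
    (fun k => (ev_mul_sum_smul hE _ (μ k) w c' (hreg k)).1) ?_ ?_ ?_ hinj hrest
  · intro k
    rw [(ev_mul_sum_smul hE _ (μ k) w c (hreg k)).2]
    exact hzero k
  · intro k
    rw [deriv_ev_mul_sum_smul hE (hch k) (hmem k) (μ k) w c (hreg k)]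
    exact hsimple k
  · intro k
    rw [deriv_ev_mul_sum_smul hE (hch k) (hmem k) (μ k) w c (hreg k),
      (ev_mul_sum_smul hE _ (μ k) w c' (hreg k)).2]
    exact hvel k

/-- The infinitesimal Abel theorem in the coordinates `e : H¹(0) ≃ ℂ^g`:
`∑ k, v k • chartCoef e (u k) (Q k) (σ k) = 0`. -/
theorem infAbel_chartCoef (hEv : Stmt_Ev.{0, 0}) (x : F) (hx : Transcendental ℂ x)
    [FiniteDimensional ℂ⟮x⟯ F] (e : H1 (0 : Divisor ℂ F) ≃ₗ[ℂ] (Fin (genusFF ℂ F) → ℂ))
    {κ ι : Type} [Fintype κ] [Fintype ι] (w : κ → F) (c c' : κ → ℂ)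
    (u μ : ι → F) (Q : ι → ℂ → Place ℂ F) (r : ι → ℝ) (σ v : ι → ℂ)
    (hch : ∀ k, IsChart (u k) (Q k) (r k)) (hσ : ∀ k, ‖σ k‖ < r k) (hμ : ∀ k, μ k ≠ 0)
    (hreg : ∀ k j, 0 ≤ (Q k (σ k)).ord (μ k * w j))
    (hzero : ∀ k, ∑ j, c j * ev (Q k (σ k)) (μ k * w j) = 0)
    (hsimple : ∀ k, ∑ j, c j * deriv (fun s => ev (Q k s) (μ k * w j)) (σ k) ≠ 0)
    (hvel : ∀ k, v k * ∑ j, c j * deriv (fun s => ev (Q k s) (μ k * w j)) (σ k)
      + ∑ j, c' j * ev (Q k (σ k)) (μ k * w j) = 0)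
    (hinj : Function.Injective fun k => Q k (σ k))
    (hrest : ∀ P : Place ℂ F, (∀ k, P ≠ Q k (σ k)) →
      0 ≤ P.ord ((∑ j, c' j • w j) / ∑ j, c j • w j)) :
    ∑ k, v k • chartCoef e (u k) (Q k) (σ k) = 0 := by
  have h := infAbel hEv x hx w c c' u μ Q r σ v hch hσ hμ hreg hzero hsimple hvel hinj hrest
  have h2 := congrArg e h
  rw [map_sum, map_zero] at h2
  rw [← h2]
  exact Finset.sum_congr rfl fun k _ => (map_smul e (v k) _).symm

/-- Core form of the infinitesimal Abel theorem in the coordinates `e`. -/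
theorem infAbel_core_chartCoef (hE : EvOK F)
    (e : H1 (0 : Divisor ℂ F) ≃ₗ[ℂ] (Fin (genusFF ℂ F) → ℂ)) {ι : Type*} [Fintype ι]
    (H H' : F) (u μ : ι → F) (Q : ι → ℂ → Place ℂ F) (r : ι → ℝ) (σ v : ι → ℂ)
    (hch : ∀ k, IsChart (u k) (Q k) (r k)) (hσ : ∀ k, ‖σ k‖ < r k) (hμ : ∀ k, μ k ≠ 0)
    (hregH : ∀ k, 0 ≤ (Q k (σ k)).ord (μ k * H)) (hregH' : ∀ k, 0 ≤ (Q k (σ k)).ord (μ k * H'))
    (hzero : ∀ k, ev (Q k (σ k)) (μ k * H) = 0)
    (hsimple : ∀ k, deriv (fun s => ev (Q k s) (μ k * H)) (σ k) ≠ 0)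
    (hvel : ∀ k, v k * deriv (fun s => ev (Q k s) (μ k * H)) (σ k)
      + ev (Q k (σ k)) (μ k * H') = 0)
    (hinj : Function.Injective fun k => Q k (σ k))
    (hrest : ∀ P : Place ℂ F, (∀ k, P ≠ Q k (σ k)) → 0 ≤ P.ord (H' / H)) :
    ∑ k, v k • chartCoef e (u k) (Q k) (σ k) = 0 := by
  have h := infAbel_core hE H H' u μ Q r σ v hch hσ hμ hregH hregH' hzero hsimple hvel hinj hrest
  have h2 := congrArg e h
  rw [map_sum, map_zero] at h2
  rw [← h2]
  exact Finset.sum_congr rfl fun k _ => (map_smul e (v k) _).symm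

end InfAbel

end

end Fermat.Agent.S27.helper5721
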