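/-
S27, Spec node M6a' (`helper6247.Stmt_LocalAbel`, the primary core lemma): the LOCAL ABEL
THEOREM for a linear system with fixed base, VERBATIM, from `Stmt_Riemann` and `Stmt_Ev`.

Design (team_s27_chat #138): all the analysis is in `helper2260.abel_lin` (Mathlib-only,
`helper2260_AbelLin.lean`); this file is the function field half.

* `la_exists_dual`  : dual functions `w_k ∈ L(Δ⁰)` with residue matrix `1` at the free points
                      (rank-nullity on the residue map; Riemann + `IsNonspecial B⁰`).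
* `la_ord_eq_of_effective` : exact divisor by the degree count.
* `la_family`       : the chart-family form of the theorem (index types `A ⊕ B`).
* `localAbel_of`    : `Stmt_Riemann → Stmt_Ev → Stmt_LocalAbel`.

The residue relation (RES) of `abel_lin` is `helper5721.infAbel_chartCoef` (on main) applied to
`H = 1 + ∑ c_k w_k`, `H' = ∑ c'_k w_k`.
-/
import Fermat.Agent.S27.helper1423_Tuples
import Fermat.Agent.S27.helper5721_InfAbel
import Fermat.Agent.S27.helper5831_ChartKit
import Fermat.Agent.S27.helper2950_GenusZero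
import Fermat.Agent.S27.helper2260_AbelLin

set_option autoImplicit false

open AlgebraicCurve IntermediateField
open scoped Topology

namespace Fermat.Agent.S27.helper2260

open Fermat.Agent.S27.helper6247

noncomputable section

/-! ## Generic lemmas -/

section Generic

variable {K : Type*} {F : Type*} [Field K] [Field F] [Algebra K F]

/-- A finite family of positive reals has a positive lower bound. -/
theorem la_exists_pos_le {I : Type*} [Finite I] (f : I → ℝ) (hf : ∀ i, 0 < f i) :
    ∃ ε > 0, ∀ i, ε ≤ f i := by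
  have h : ∀ᶠ ε in 𝓝[>] (0 : ℝ), ∀ i, ε ≤ f i := by
    rw [Filter.eventually_all]
    intro i
    filter_upwards [Ioo_mem_nhdsGT (hf i)] with ε hε using hε.2.le
  obtain ⟨ε, hε, hpos⟩ := (h.and self_mem_nhdsWithin).exists
  exact ⟨ε, hpos, hε⟩

theorem la_degree_sumDiv (hdeg : ∀ v : Place K F, v.deg = 1) {ι : Type*} [Fintype ι]
    (R : ι → Place K F) : Divisor.degree (sumDiv R) = Fintype.card ι := by
  unfold sumDiv pt
  rw [map_sum]
  simp [Divisor.degree_single, hdeg]

theorem la_sumDiv_nonneg {ι : Type*} [Fintype ι] (R : ι → Place K F) (v : Place K F) :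
    0 ≤ sumDiv R v := by
  unfold sumDiv
  rw [Finsupp.finsetSum_apply]
  exact Finset.sum_nonneg fun i _ => by
    have := helper1423.pt_nonneg (R i) v
    simpa using this

theorem la_sumDiv_sum {ι κ : Type*} [Fintype ι] [Fintype κ] (R : ι ⊕ κ → Place K F) :
    sumDiv R = sumDiv (fun i => R (Sum.inl i)) + sumDiv (fun k => R (Sum.inr k)) := by
  unfold sumDiv
  rw [Fintype.sum_sum_type]

/-- **Exact divisor by the degree count.**  If `f ≠ 0` lies in `L(∑ R i)` and vanishes (after
the correction by `∑ R i`) at the pairwise distinct places `R' i`, then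
`div f = ∑ R' i - ∑ R i`. -/
theorem la_ord_eq_of_effective (hP : HasPrincipalDivisors K F)
    (hdeg : ∀ v : Place K F, v.deg = 1)
    {ι : Type*} [Fintype ι] (R R' : ι → Place K F) (hR' : Function.Injective R')
    (f : F) (hf : f ≠ 0) (h1 : ∀ v : Place K F, 0 ≤ v.ord f + sumDiv R v)
    (h2 : ∀ i, 1 ≤ (R' i).ord f + sumDiv R (R' i)) :
    ∀ v : Place K F, v.ord f = sumDiv R' v - sumDiv R v := by
  obtain ⟨D, hD, hD0⟩ := hP.exists_divisor f hf
  have hE : D + sumDiv R - sumDiv R' = 0 := by
    refine helper2950.eq_zero_of_nonneg_of_degree_eq_zero hdeg (fun v => ?_) ?_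
    · rw [Finsupp.sub_apply, Finsupp.add_apply, hD v]
      by_cases hv : ∃ i, R' i = v
      · obtain ⟨i, rfl⟩ := hv
        rw [helper1423.sumDiv_apply_of_injective R' hR' i]
        linarith [h2 i]
      · rw [helper1423.sumDiv_apply_of_forall_ne R' v (fun i hi => hv ⟨i, hi.symm⟩)]
        linarith [h1 v]
    · rw [map_sub, map_add, hD0, la_degree_sumDiv hdeg, la_degree_sumDiv hdeg]
      ring
  intro v
  have h := DFunLike.congr_fun hE v
  rw [Finsupp.sub_apply, Finsupp.add_apply, hD v] at h
  simp only [Finsupp.coe_zero, Pi.zero_apply] at h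
  linarith

end Generic

/-! ## Dual functions -/

section Dual

variable {K : Type*} {F : Type*} [Field K] [Field F] [Algebra K F]

/-- **Dual functions.**  `R` is an injective family of places indexed by `A ⊕ B`, `t i` is a
uniformizer at the free point `R (inl i)`, and the base divisor `∑_B R (inr k)` is nonspecial.
Then there are `w k ∈ L(∑ R)` (`k : A`) whose residue matrix at the free points is the
identity.  (Rank-nullity: the kernel of the residue map lies in `L(B⁰)`.) -/
theorem la_exists_dual (hp : helper1423.RiemannPkg K F) (hE : helper5831.EvOK K F)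
    {A B : Type*} [Fintype A] [Fintype B] [DecidableEq A]
    (R : A ⊕ B → Place K F) (hR : Function.Injective R)
    (t : A → F) (ht : ∀ i, (R (Sum.inl i)).ord (t i) = 1)
    (hns : IsNonspecial (sumDiv fun k => R (Sum.inr k))) :
    ∃ w : A → F, (∀ k, w k ∈ riemannRochSpace (sumDiv R)) ∧
      ∀ i k, ev (R (Sum.inl i)) (t i * w k) = if i = k then 1 else 0 := by
  have := hp.finL (sumDiv R)
  have := hp.finL (sumDiv fun k => R (Sum.inr k))
  have := hp.finH (sumDiv R)
  have := hp.finH (sumDiv fun k => R (Sum.inr k))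
  have ht0 : ∀ i, t i ≠ 0 := by
    intro i h0
    have := ht i
    rw [h0, Place.ord_zero] at this
    exact zero_ne_one this
  -- regularity of `t i * f` at the free points
  have hreg : ∀ (i : A) (f : F), f ∈ riemannRochSpace (sumDiv R) →
      0 ≤ (R (Sum.inl i)).ord (t i * f) := by
    intro i f hf
    rcases eq_or_ne f 0 with rfl | hf0
    · simp
    · have h1 := (mem_riemannRochSpace_iff.mp hf (R (Sum.inl i))).resolve_left hf0
      rw [helper1423.sumDiv_apply_of_injective R hR] at h1
      rw [Place.ord_mul _ (ht0 i) hf0, ht i]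
      linarith
  -- the residue map
  let Res : riemannRochSpace (sumDiv R) →ₗ[K] (A → K) :=
    { toFun := fun f i => ev (R (Sum.inl i)) (t i * (f : F))
      map_add' := by
        intro f g
        funext i
        show ev (R (Sum.inl i)) (t i * ((f + g : riemannRochSpace (sumDiv R)) : F)) = _
        rw [Submodule.coe_add, mul_add]
        exact hE.ev_add _ (hreg i f f.2) (hreg i g g.2)
      map_smul' := by
        intro c f
        funext i
        show ev (R (Sum.inl i)) (t i * ((c • f : riemannRochSpace (sumDiv R)) : F))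
          = c * ev (R (Sum.inl i)) (t i * (f : F))
        rw [Submodule.coe_smul, mul_smul_comm]
        exact hE.ev_smul _ c (hreg i f f.2) }
  have hRes : ∀ (f : riemannRochSpace (sumDiv R)) (i : A),
      Res f i = ev (R (Sum.inl i)) (t i * (f : F)) := fun _ _ => rfl
  -- the kernel lies in `L(B⁰)`
  have hker : ∀ f : riemannRochSpace (sumDiv R), Res f = 0 →
      (f : F) ∈ riemannRochSpace (sumDiv fun k => R (Sum.inr k)) := by
    intro f hf
    rw [mem_riemannRochSpace_iff]
    intro v
    rcases eq_or_ne (f : F) 0 with h0 | h0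
    · exact Or.inl h0
    right
    by_cases hv : ∃ i, R (Sum.inl i) = v
    · obtain ⟨i, rfl⟩ := hv
      have h1 : ev (R (Sum.inl i)) (t i * (f : F)) = 0 := by
        rw [← hRes, hf]; rfl
      rcases (hE.ev_eq_zero_iff _ (hreg i f f.2)).mp h1 with h2 | h2
      · exact absurd h2 (mul_ne_zero (ht0 i) h0)
      · rw [Place.ord_mul _ (ht0 i) h0, ht i] at h2
        have h3 := la_sumDiv_nonneg (fun k => R (Sum.inr k)) (R (Sum.inl i))
        omega
    · have h1 := (mem_riemannRochSpace_iff.mp f.2 v).resolve_left h0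
      have h2 : sumDiv R v = sumDiv (fun k => R (Sum.inr k)) v := by
        rw [la_sumDiv_sum R, Finsupp.add_apply,
          helper1423.sumDiv_apply_of_forall_ne _ v (fun i hi => hv ⟨i, hi.symm⟩), zero_add]
      omega
  -- dimension count
  have hrank : Module.finrank K (LinearMap.range Res) + Module.finrank K (LinearMap.ker Res)
      = Module.finrank K (riemannRochSpace (sumDiv R)) :=
    LinearMap.finrank_range_add_finrank_ker Res
  have hkerle : Module.finrank K (LinearMap.ker Res)
      ≤ Module.finrank K (riemannRochSpace (sumDiv fun k => R (Sum.inr k))) := by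
    rw [← Submodule.finrank_map_subtype_eq (riemannRochSpace (sumDiv R)) (LinearMap.ker Res)]
    apply Submodule.finrank_mono
    rintro _ ⟨f, hf, rfl⟩
    exact hker f (LinearMap.mem_ker.mp hf)
  have hrr1 := hp.rr (sumDiv R)
  have hrr2 := hp.rr (sumDiv fun k => R (Sum.inr k))
  have hh0 : Module.finrank K (H1 (sumDiv fun k => R (Sum.inr k))) = 0 :=
    helper1423.isNonspecial_iff_finrank.mp hns
  rw [la_degree_sumDiv hp.deg] at hrr1 hrr2
  rw [hh0] at hrr2
  have hcardAB : Fintype.card (A ⊕ B) = Fintype.card A + Fintype.card B := Fintype.card_sum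
  have hge : Fintype.card A ≤ Module.finrank K (LinearMap.range Res) := by
    have h1 : (Module.finrank K (riemannRochSpace (sumDiv R)) : ℤ)
        = Module.finrank K (LinearMap.range Res) + Module.finrank K (LinearMap.ker Res) := by
      exact_mod_cast hrank.symm
    have h2 : (Module.finrank K (LinearMap.ker Res) : ℤ)
        ≤ Module.finrank K (riemannRochSpace (sumDiv fun k => R (Sum.inr k))) := by
      exact_mod_cast hkerle
    have h3 : (0 : ℤ) ≤ Module.finrank K (H1 (sumDiv R)) := Int.natCast_nonneg _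
    have h4 : (Fintype.card (A ⊕ B) : ℤ) = Fintype.card A + Fintype.card B := by
      exact_mod_cast hcardAB
    have h5 : (Fintype.card A : ℤ) ≤ Module.finrank K (LinearMap.range Res) := by
      push_cast at hrr2
      linarith
    exact_mod_cast h5
  have hsurj : Function.Surjective Res := by
    rw [← LinearMap.range_eq_top]
    apply Submodule.eq_top_of_finrank_eq
    have hle : Module.finrank K (LinearMap.range Res) ≤ Module.finrank K (A → K) :=
      Submodule.finrank_le _
    rw [Module.finrank_fintype_fun_eq_card] at hle ⊢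
    omega
  choose w hw using fun k : A => hsurj (Pi.single k 1)
  refine ⟨fun k => (w k : F), fun k => (w k).2, fun i k => ?_⟩
  have h := congrFun (hw k) i
  rw [Pi.single_apply, hRes] at h
  exact h

end Dual

/-! ## The chart family form -/

section Family

variable {F : Type} [Field F] [Algebra ℂ F]

/-- The functions `1, w_k` indexed by `Option κ`. -/
def laW {κ : Type} (w : κ → F) : Option κ → F := fun j => j.elim 1 w

/-- The coefficients `a, c_k` indexed by `Option κ`. -/
def laC {κ : Type} (a : ℂ) (c : κ → ℂ) : Option κ → ℂ := fun j => j.elim a c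

theorem la_sum_option {κ : Type} [Fintype κ] (w : κ → F) (a : ℂ) (c : κ → ℂ) :
    ∑ j, laC a c j • laW w j = a • (1 : F) + ∑ k, c k • w k := by
  rw [Fintype.sum_option]
  rfl

/-- **Local Abel theorem for a linear system, chart family form.**  Integral charts indexed by
`A ⊕ B` with pairwise distinct centres, `Δ⁰` the sum of the centres, and functions
`w k ∈ L(Δ⁰)` (`k : A`) whose residue matrix at the `A`-centres is the identity.  Then the
`A`-points can be moved freely, compensated by a small move of the `B`-points, inside one linear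
equivalence class and with abelian sum zero. -/
theorem la_family (hEv : Stmt_Ev.{0, 0}) (x : F) (hx : Transcendental ℂ x)
    [FiniteDimensional ℂ⟮x⟯ F] (e : H1 (0 : Divisor ℂ F) ≃ₗ[ℂ] (Fin (genusFF ℂ F) → ℂ))
    {A B : Type} [Fintype A] [Fintype B] [DecidableEq A]
    (UU : A ⊕ B → F) (QQ : A ⊕ B → ℂ → Place ℂ F) (RR : A ⊕ B → ℝ)
    (JJ : A ⊕ B → ℂ → Fin (genusFF ℂ F) → ℂ)
    (hI : ∀ p, IsIntChart e (UU p) (QQ p) (RR p) (JJ p))
    (hinj : Function.Injective fun p => QQ p 0)
    (w : A → F) (hw : ∀ k, w k ∈ riemannRochSpace (sumDiv fun p => QQ p 0))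
    (hdual : ∀ i k, ev (QQ (Sum.inl i) 0) (UU (Sum.inl i) * w k) = if i = k then 1 else 0) :
    ∀ ε > 0, ∃ δ > 0, ∀ a : A → ℂ, (∀ i, ‖a i‖ < δ) →
      ∃ b : B → ℂ, (∀ k, ‖b k‖ < ε) ∧
        sumDiv (fun p => QQ p (Sum.elim a b p)) - sumDiv (fun p => QQ p 0)
          ∈ Divisor.principal (K := ℂ) (F := F) ∧
        ∑ i, JJ (Sum.inl i) (a i) + ∑ k, JJ (Sum.inr k) (b k) = 0 := by
  classical
  have hE : helper5831.EvOK ℂ F := helper5831.evOK_of hEv x hx
  have hE' : helper5721.EvOK F := helper5721.evOK_of hEv x hx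
  have hP : HasPrincipalDivisors ℂ F := Fermat.Agent.S24.helper204.hasPrincipalDivisors x hx
  have hdeg : ∀ v : Place ℂ F, v.deg = 1 :=
    fun v => Fermat.Agent.S24.helper204.place_deg_eq_one x hx v
  have hc : ∀ p, IsChart (UU p) (QQ p) (RR p) := fun p => (hI p).chart
  have h0mem : ∀ p, (0 : ℂ) ∈ Metric.ball (0 : ℂ) (RR p) :=
    fun p => Metric.mem_ball_self (hc p).pos
  have hordU0 : ∀ p, (QQ p 0).ord (UU p) = 1 := by
    intro p
    have := (hc p).unif 0 (h0mem p)
    simpa using this
  have hU0 : ∀ p, UU p ≠ 0 := by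
    intro p h0
    have := hordU0 p
    rw [h0, Place.ord_zero] at this
    exact zero_ne_one this
  -- regularity of `u * w k` at the centres
  have hreg0 : ∀ p k, 0 ≤ (QQ p 0).ord (UU p * w k) := by
    intro p k
    rcases eq_or_ne (w k) 0 with h0 | h0
    · rw [h0, mul_zero, Place.ord_zero]
    · have h1 := (mem_riemannRochSpace_iff.mp (hw k) (QQ p 0)).resolve_left h0
      rw [helper1423.sumDiv_apply_of_injective (fun p => QQ p 0) hinj p] at h1
      rw [Place.ord_mul _ (hU0 p) h0, hordU0 p]
      linarith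
  -- a common radius: regularity, chart radii, separation
  have hev2 : ∀ᶠ s in 𝓝 (0 : ℂ), ∀ p k, 0 ≤ (QQ p s).ord (UU p * w k) := by
    rw [Filter.eventually_all]
    intro p
    rw [Filter.eventually_all]
    intro k
    exact ((hc p).analytic _ 0 (h0mem p) (hreg0 p k)).1
  obtain ⟨ρ₁, hρ₁, Hreg⟩ := Metric.eventually_nhds_iff.mp hev2
  have hsep : ∀ pq : {pq : (A ⊕ B) × (A ⊕ B) // pq.1 ≠ pq.2}, ∃ δ > 0, ∀ s s' : ℂ,
      ‖s‖ < δ → ‖s'‖ < δ → QQ pq.1.1 s ≠ QQ pq.1.2 s' := by
    intro pq
    obtain ⟨δ, hδ, h⟩ := helper5831.chart_separation hE (hc pq.1.1) (hc pq.1.2)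
      (h0mem _) (h0mem _) (fun h => pq.2 (hinj h))
    exact ⟨δ, hδ, fun s s' hs hs' => h s s' (by simpa using hs) (by simpa using hs')⟩
  choose δs hδs Hsep using hsep
  obtain ⟨ρ₂, hρ₂, Hρ₂⟩ := la_exists_pos_le δs hδs
  obtain ⟨ρ₃, hρ₃, Hρ₃⟩ := la_exists_pos_le RR (fun p => (hc p).pos)
  obtain ⟨ρ, hρ, hρ1, hρ2, hρ3⟩ : ∃ ρ > 0, ρ ≤ ρ₁ ∧ ρ ≤ ρ₂ ∧ ρ ≤ ρ₃ :=
    ⟨min ρ₁ (min ρ₂ ρ₃), lt_min hρ₁ (lt_min hρ₂ hρ₃), min_le_left _ _,
      (min_le_right _ _).trans (min_le_left _ _), (min_le_right _ _).trans (min_le_right _ _)⟩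
  have hρR : ∀ p, ρ ≤ RR p := fun p => hρ3.trans (Hρ₃ p)
  have hball : ∀ p (s : ℂ), ‖s‖ < ρ → s ∈ Metric.ball (0 : ℂ) (RR p) := by
    intro p s hs
    rw [Metric.mem_ball, dist_zero_right]
    exact lt_of_lt_of_le hs (hρR p)
  have hregρ : ∀ p k (s : ℂ), ‖s‖ < ρ → 0 ≤ (QQ p s).ord (UU p * w k) := by
    intro p k s hs
    exact Hreg (by rw [dist_zero_right]; exact lt_of_lt_of_le hs hρ1) p k
  have hsepρ : ∀ p q, p ≠ q → ∀ s s' : ℂ, ‖s‖ < ρ → ‖s'‖ < ρ → QQ p s ≠ QQ q s' := by
    intro p q hpq s s' hs hs'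
    have hle : ρ ≤ δs ⟨(p, q), hpq⟩ := hρ2.trans (Hρ₂ _)
    exact Hsep ⟨(p, q), hpq⟩ s s' (lt_of_lt_of_le hs hle) (lt_of_lt_of_le hs' hle)
  have hcoord : ∀ p (s : ℂ), ‖s‖ < ρ → 0 ≤ (QQ p s).ord (UU p) ∧ ev (QQ p s) (UU p) = s :=
    fun p s hs => helper5721.chart_coord hE' (hc p) (hball p s hs)
  have hderiv1 : ∀ p (s : ℂ), ‖s‖ < ρ → deriv (fun s => ev (QQ p s) (UU p * 1)) s = 1 := by
    intro p s hs
    have heq : (fun s => ev (QQ p s) (UU p * 1)) =ᶠ[𝓝 s] fun s => s := by
      filter_upwards [Metric.isOpen_ball.mem_nhds (hball p s hs)] with t ht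
      rw [mul_one]
      exact (helper5721.chart_coord hE' (hc p) ht).2
    rw [heq.deriv_eq]
    simp
  -- the abstract data of `abel_lin`
  set r : A → A ⊕ B → ℂ → ℂ := fun k p s => ev (QQ p s) (UU p * w k) with hr_def
  set om : Fin (genusFF ℂ F) → A ⊕ B → ℂ → ℂ :=
    fun j p s => chartCoef e (UU p) (QQ p) s j with hom_def
  set PP : Fin (genusFF ℂ F) → A ⊕ B → ℂ → ℂ := fun j p s => JJ p s j with hPP_def
  -- the exact divisor of `f_c` at a common zero
  have key : ∀ (c : A → ℂ) (z : A ⊕ B → ℂ), (∀ p, ‖z p‖ < ρ) →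
      (∀ p, gfun 0 (fun k => r k p) c (z p) = 0) →
      (1 + ∑ k, c k • w k : F) ≠ 0 ∧ (Function.Injective fun p => QQ p (z p)) ∧
      ∀ v : Place ℂ F, v.ord (1 + ∑ k, c k • w k : F)
        = sumDiv (fun p => QQ p (z p)) v - sumDiv (fun p => QQ p 0) v := by
    intro c z hz hzero
    set f : F := 1 + ∑ k, c k • w k with hf
    have hval : ∀ p (s : ℂ), ‖s‖ < ρ → 0 ≤ (QQ p s).ord (UU p * f) ∧
        ev (QQ p s) (UU p * f) = s + ∑ k, c k * r k p s := by
      intro p s hs
      have h1 := hcoord p s hs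
      have h2 := helper5721.ev_mul_sum_smul hE' (QQ p s) (UU p) w c
        (fun k => hregρ p k s hs)
      have e1 : UU p * f = UU p + UU p * ∑ k, c k • w k := by rw [hf]; ring
      rw [e1]
      refine ⟨helper5831.ord_nonneg_add h1.1 h2.1, ?_⟩
      rw [helper5721.ev_add hE' (QQ p s) h1.1 h2.1, h1.2, h2.2]
    have hf0 : f ≠ 0 := by
      intro h0
      have hc0 : ∀ i, c i = 0 := by
        intro i
        have h := (hval (Sum.inl i) 0 (by simpa using hρ)).2
        rw [h0, mul_zero, helper5721.ev_zero hE', zero_add] at h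
        have h' : ∑ k, c k * r k (Sum.inl i) 0 = c i := by
          simp only [hr_def, hdual]
          simp
        rw [h'] at h
        exact h.symm
      have h1 : f = 1 := by
        rw [hf]
        simp [hc0]
      rw [h1] at h0
      exact one_ne_zero h0
    have hinjz : Function.Injective fun p => QQ p (z p) := by
      intro p q hpq
      by_contra hne
      exact hsepρ p q hne (z p) (z q) (hz p) (hz q) hpq
    have hfL : f ∈ riemannRochSpace (sumDiv fun p => QQ p 0) := by
      rw [hf]
      refine Submodule.add_mem _ ?_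
        (Submodule.sum_mem _ fun k _ => Submodule.smul_mem _ _ (hw k))
      rw [mem_riemannRochSpace_iff]
      intro v
      right
      rw [Place.ord_one]
      have := la_sumDiv_nonneg (fun p => QQ p 0) v
      linarith
    refine ⟨hf0, hinjz, la_ord_eq_of_effective hP hdeg (fun p => QQ p 0)
      (fun p => QQ p (z p)) hinjz f hf0 ?_ ?_⟩
    · intro v
      have := (mem_riemannRochSpace_iff.mp hfL v).resolve_left hf0
      linarith
    · intro p
      obtain ⟨hreg, hev⟩ := hval p (z p) (hz p)
      have hz0 : ev (QQ p (z p)) (UU p * f) = 0 := by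
        rw [hev]
        have := hzero p
        simpa [gfun] using this
      have hpos : 0 < (QQ p (z p)).ord (UU p * f) := by
        rcases (helper5721.ev_eq_zero_iff hE' _ hreg).mp hz0 with h | h
        · exact absurd h (mul_ne_zero (hU0 p) hf0)
        · exact h
      rw [Place.ord_mul _ (hU0 p) hf0] at hpos
      show 1 ≤ (QQ p (z p)).ord f + sumDiv (fun p => QQ p 0) (QQ p (z p))
      by_cases h0 : z p = 0
      · rw [h0] at hpos ⊢
        rw [hordU0 p] at hpos
        rw [helper1423.sumDiv_apply_of_injective (fun p => QQ p 0) hinj p]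
        linarith
      · have hu : (QQ p (z p)).ord (UU p) = 0 := by
          have := helper5831.chart_ord_u_sub_of_ne hE (hc p) (hball p _ (hz p)) h0
          simpa using this
        rw [hu] at hpos
        have := la_sumDiv_nonneg (fun p => QQ p 0) (QQ p (z p))
        linarith
  -- the residue relation
  have hres : ∀ (c : A → ℂ) (z : A ⊕ B → ℂ), (∀ p, z p ∈ Metric.ball (0 : ℂ) ρ) →
      (∀ p, gfun 0 (fun k => r k p) c (z p) = 0) →
      (∀ p, gder (fun k => r k p) c (z p) ≠ 0) →
      ∀ (c' : A → ℂ) (j : Fin (genusFF ℂ F)),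
        ∑ p, om j p (z p) * ((∑ k, c' k * r k p (z p)) / gder (fun k => r k p) c (z p)) = 0 := by
    intro c z hzb hzero hder c' j
    have hz : ∀ p, ‖z p‖ < ρ := fun p => by simpa using hzb p
    obtain ⟨hf0, hinjz, hord⟩ := key c z hz hzero
    have hA1 : ∀ p (j : Option A), 0 ≤ (QQ p (z p)).ord (UU p * laW w j) := by
      intro p j
      cases j with
      | none =>
        show 0 ≤ (QQ p (z p)).ord (UU p * 1)
        rw [mul_one]
        exact (hcoord p _ (hz p)).1
      | some k => exact hregρ p k _ (hz p)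
    have hA2 : ∀ p, ∑ j, laC 1 c j * ev (QQ p (z p)) (UU p * laW w j) = 0 := by
      intro p
      rw [Fintype.sum_option]
      show 1 * ev (QQ p (z p)) (UU p * 1) + ∑ k, c k * ev (QQ p (z p)) (UU p * w k) = 0
      rw [mul_one, one_mul, (hcoord p _ (hz p)).2]
      have := hzero p
      simpa [gfun] using this
    have hA3' : ∀ p, ∑ j, laC 1 c j * deriv (fun s => ev (QQ p s) (UU p * laW w j)) (z p)
        = gder (fun k => r k p) c (z p) := by
      intro p
      rw [Fintype.sum_option]
      show 1 * deriv (fun s => ev (QQ p s) (UU p * 1)) (z p)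
        + ∑ k, c k * deriv (fun s => ev (QQ p s) (UU p * w k)) (z p) = _
      rw [hderiv1 p (z p) (hz p), one_mul]
      rfl
    have hA3 : ∀ p, ∑ j, laC 1 c j * deriv (fun s => ev (QQ p s) (UU p * laW w j)) (z p) ≠ 0 :=
      fun p => by rw [hA3' p]; exact hder p
    have hA4 : ∀ p, -((∑ k, c' k * r k p (z p)) / gder (fun k => r k p) c (z p))
        * ∑ j, laC 1 c j * deriv (fun s => ev (QQ p s) (UU p * laW w j)) (z p)
        + ∑ j, laC 0 c' j * ev (QQ p (z p)) (UU p * laW w j) = 0 := by
      intro p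
      rw [hA3' p, Fintype.sum_option]
      show -((∑ k, c' k * r k p (z p)) / gder (fun k => r k p) c (z p))
          * gder (fun k => r k p) c (z p)
        + (0 * ev (QQ p (z p)) (UU p * 1) + ∑ k, c' k * r k p (z p)) = 0
      have hG := hder p
      field_simp
      ring
    have hA5 : ∀ P : Place ℂ F, (∀ p, P ≠ QQ p (z p)) →
        0 ≤ P.ord ((∑ j, laC 0 c' j • laW w j) / ∑ j, laC 1 c j • laW w j) := by
      intro P hPne
      rw [la_sum_option, la_sum_option]
      simp only [zero_smul, zero_add, one_smul]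
      rcases eq_or_ne (∑ k, c' k • w k) 0 with h0 | h0
      · rw [h0, zero_div, Place.ord_zero]
      · have hhL : (∑ k, c' k • w k) ∈ riemannRochSpace (sumDiv fun p => QQ p 0) :=
          Submodule.sum_mem _ fun k _ => Submodule.smul_mem _ _ (hw k)
        have h1 := (mem_riemannRochSpace_iff.mp hhL P).resolve_left h0
        rw [helper5831.ord_div P h0 hf0, hord P,
          helper1423.sumDiv_apply_of_forall_ne _ P hPne]
        linarith
    have hmain := helper5721.infAbel_chartCoef hEv x hx e (laW w) (laC 1 c) (laC 0 c') UU UU QQ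
      RR z (fun p => -((∑ k, c' k * r k p (z p)) / gder (fun k => r k p) c (z p)))
      hc (fun p => lt_of_lt_of_le (hz p) (hρR p)) hU0 hA1 hA2 hA3 hA4 hinjz hA5
    have h1 := congrFun hmain j
    simp only [Finset.sum_apply, Pi.smul_apply, smul_eq_mul, Pi.zero_apply] at h1
    have h2 : ∑ p, om j p (z p) * ((∑ k, c' k * r k p (z p)) / gder (fun k => r k p) c (z p))
        = -∑ p, -((∑ k, c' k * r k p (z p)) / gder (fun k => r k p) c (z p))
            * chartCoef e (UU p) (QQ p) (z p) j := by
      rw [← Finset.sum_neg_distrib]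
      refine Finset.sum_congr rfl fun p _ => ?_
      simp only [hom_def]
      ring
    rw [h2, h1, neg_zero]
  -- the analytic hypotheses
  have hr : ∀ k p, DifferentiableOn ℂ (r k p) (Metric.ball (0 : ℂ) ρ) := by
    intro k p s hs
    have hs' : ‖s‖ < ρ := by simpa using hs
    exact ((hc p).analytic _ s (hball p s hs')
      (hregρ p k s hs')).2.differentiableAt.differentiableWithinAt
  have hPd : ∀ j p, ∀ s ∈ Metric.ball (0 : ℂ) ρ, HasDerivAt (PP j p) (om j p s) s := by
    intro j p s hs
    have hs' : ‖s‖ < ρ := by simpa using hs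
    have h := (hI p).deriv s (hball p s hs')
    exact (hasDerivAt_pi.mp h) j
  have hP0 : ∀ j p, PP j p 0 = 0 := by
    intro j p
    show JJ p 0 j = 0
    rw [(hI p).zero]
    rfl
  have hinjc : Function.Injective
      (fun (c : A → ℂ) (i : A) => ∑ k, c k * r k (Sum.inl i) 0) := by
    have h : (fun (c : A → ℂ) (i : A) => ∑ k, c k * r k (Sum.inl i) 0) = id := by
      funext c i
      simp only [hr_def, hdual]
      simp
    rw [h]
    exact Function.injective_id
  have habel := abel_lin (A := A) (B := B) (κ := A) (J := Fin (genusFF ℂ F))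
    (fun _ : A ⊕ B => (0 : ℂ)) hρ r hr om PP hPd hP0 hinjc rfl hres
  -- conclusion
  intro ε hε
  obtain ⟨ε', hε', H⟩ := habel (min ε ρ) (lt_min hε hρ)
  refine ⟨min ε' ρ, lt_min hε' hρ, fun a ha => ?_⟩
  obtain ⟨b, c, hb, -, hza, hzb, hsum⟩ := H a (fun i => by
    rw [dist_zero_right]
    exact lt_of_lt_of_le (ha i) (min_le_left _ _))
  have hb' : ∀ k, ‖b k‖ < min ε ρ := fun k => by
    have := hb k
    rwa [dist_zero_right] at this
  refine ⟨b, fun k => lt_of_lt_of_le (hb' k) (min_le_left _ _), ?_, ?_⟩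
  · have hz : ∀ p, ‖Sum.elim a b p‖ < ρ := by
      rintro (i | k)
      · exact lt_of_lt_of_le (ha i) (min_le_right _ _)
      · exact lt_of_lt_of_le (hb' k) (min_le_right _ _)
    have hzero : ∀ p, gfun 0 (fun k => r k p) c (Sum.elim a b p) = 0 := by
      rintro (i | k)
      · exact hza i
      · exact hzb k
    obtain ⟨hf0, -, hord⟩ := key c (Sum.elim a b) hz hzero
    exact ⟨1 + ∑ k, c k • w k, hf0, fun v => by
      rw [Finsupp.sub_apply]
      exact (hord v).symm⟩
  · funext j
    have h := hsum j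
    simpa [hPP_def, Finset.sum_apply] using h

end Family

/-! ## The Spec statement -/

/-- **M6a' `Stmt_LocalAbel`**, verbatim, from Riemann's theorem and the `ev` calculus. -/
theorem localAbel_of (hR : Stmt_Riemann.{0, 0}) (hEv : Stmt_Ev.{0, 0}) : Stmt_LocalAbel := by
  intro F _ _ x hx _ e m u Q r J u' Q' r' J' hI hI' hinj hinj' hdisj hns ε hε
  have hp := helper1423.riemannPkg_of hR ℂ F x hx
  have hE : helper5831.EvOK ℂ F := helper5831.evOK_of hEv x hx
  have hII : ∀ p : Fin m ⊕ Fin (genusFF ℂ F),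
      IsIntChart e (Sum.elim u u' p) (Sum.elim Q Q' p) (Sum.elim r r' p) (Sum.elim J J' p) := by
    rintro (i | k)
    · exact hI i
    · exact hI' k
  have hQQinj : Function.Injective
      fun p : Fin m ⊕ Fin (genusFF ℂ F) => Sum.elim Q Q' p 0 := by
    rintro (i | k) (i' | k') h
    · exact congrArg Sum.inl (hinj h)
    · exact absurd h (hdisj i k')
    · exact absurd h.symm (hdisj i' k)
    · exact congrArg Sum.inr (hinj' h)
  obtain ⟨w, hw, hdual⟩ := la_exists_dual hp hE
    (fun p : Fin m ⊕ Fin (genusFF ℂ F) => Sum.elim Q Q' p 0) hQQinj (fun i => u i)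
    (fun i => by
      have := (hI i).chart.unif 0 (Metric.mem_ball_self (hI i).chart.pos)
      simpa using this) hns
  obtain ⟨δ, hδ, H⟩ := la_family hEv x hx e (Sum.elim u u') (Sum.elim Q Q') (Sum.elim r r')
    (Sum.elim J J') hII hQQinj w hw hdual ε hε
  refine ⟨δ, hδ, fun a ha => ?_⟩
  obtain ⟨c, hc, hprin, hsum⟩ := H a ha
  refine ⟨c, hc, ?_, hsum⟩
  have e1 : sumDiv (fun p : Fin m ⊕ Fin (genusFF ℂ F) => Sum.elim Q Q' p (Sum.elim a c p))
      = sumDiv (fun i => Q i (a i)) + sumDiv (fun k => Q' k (c k)) := la_sumDiv_sum _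
  have e2 : sumDiv (fun p : Fin m ⊕ Fin (genusFF ℂ F) => Sum.elim Q Q' p 0)
      = sumDiv (fun i => Q i 0) + sumDiv (fun k => Q' k 0) := la_sumDiv_sum _
  rw [e1, e2] at hprin
  have e3 : (sumDiv (fun i => Q i (a i)) - sumDiv (fun i => Q i 0))
      + (sumDiv (fun k => Q' k (c k)) - sumDiv (fun k => Q' k 0))
      = sumDiv (fun i => Q i (a i)) + sumDiv (fun k => Q' k (c k))
        - (sumDiv (fun i => Q i 0) + sumDiv (fun k => Q' k 0)) := by abel
  rw [e3]
  exact hprin

end

end Fermat.Agent.S27.helper2260
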