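/-
S27, algebraic second track, leaf S27-ALG-RRD (seat helper2613):
RIEMANN–ROCH DUALITY in the Prelude repartition language, hypothesis-passing on weak Riemann–Roch.

Inputs (hypotheses, exactly the outputs of the weak Riemann–Roch leaves A2):
* `h1fin : ∀ D, Module.Finite K (H1 D)`,
* `hrr   : ∀ D, (finrank K L(D) : ℤ) - finrank K (H1 D) = deg D + 1 - genusFF K F`,
* `hvan  : ∃ c, ∀ D, c ≤ deg D → Subsingleton (H1 D)`,
plus `[HasPrincipalDivisors K F]`, positivity of the degrees of places and one place.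

Output (`exists_canonical`): a canonical divisor `W` with `deg W = 2g - 2` and
`l(D) = deg D + 1 - g + l(W - D)` for every divisor `D`.

Route: Stichtenoth, *Algebraic function fields and codes*, 1.5.4–1.5.16 (Weil differentials).
-/
import Mathlib
import Fermat.Prelude.Def_AlgebraicCurve_Repartitions

set_option autoImplicit false

open AlgebraicCurve WithZero Module

namespace Fermat.Agent.S27.helper2613

noncomputable section

/-- Two injective maps into a finite-dimensional space whose sources are too big have a common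
nonzero value. -/
theorem exists_common_of_finrank_lt {K V W₁ W₂ : Type*} [Field K] [AddCommGroup V] [Module K V]
    [Module.Finite K V] [AddCommGroup W₁] [Module K W₁] [AddCommGroup W₂] [Module K W₂]
    (f₁ : W₁ →ₗ[K] V) (f₂ : W₂ →ₗ[K] V) (hf₁ : Function.Injective f₁)
    (hf₂ : Function.Injective f₂) (h : finrank K V < finrank K W₁ + finrank K W₂) :
    ∃ x₁ x₂, f₁ x₁ = f₂ x₂ ∧ f₁ x₁ ≠ 0 := by
  have hsum := Submodule.finrank_sup_add_finrank_inf_eq (LinearMap.range f₁) (LinearMap.range f₂)
  rw [LinearMap.finrank_range_of_inj hf₁, LinearMap.finrank_range_of_inj hf₂] at hsum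
  have hle : finrank K ↥(LinearMap.range f₁ ⊔ LinearMap.range f₂) ≤ finrank K V :=
    Submodule.finrank_le _
  have hpos : 0 < finrank K ↥(LinearMap.range f₁ ⊓ LinearMap.range f₂) := by omega
  obtain ⟨η, hη⟩ := Module.finrank_pos_iff_exists_ne_zero.mp hpos
  obtain ⟨x₁, hx₁⟩ := (Submodule.mem_inf.mp η.2).1
  obtain ⟨x₂, hx₂⟩ := (Submodule.mem_inf.mp η.2).2
  refine ⟨x₁, x₂, hx₁.trans hx₂.symm, ?_⟩
  rw [hx₁]
  intro h0
  exact hη (Subtype.ext h0)

variable {K F : Type*} [Field K] [Field F] [Algebra K F]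

/-! ## Basic facts on divisors and Riemann–Roch spaces -/

theorem degree_nonneg_of_nonneg {D : Divisor K F} (hD : ∀ v, 0 ≤ D v) :
    0 ≤ Divisor.degree D := by
  have h : Divisor.degree D = D.sum fun v n => n * (v.deg : ℤ) := by
    simp [Divisor.degree, Finsupp.liftAddHom_apply]
  rw [h]
  exact Finset.sum_nonneg fun v _ => mul_nonneg (hD v) (Int.natCast_nonneg _)

theorem mem_riemannRochSpace {D : Divisor K F} {f : F} :
    f ∈ riemannRochSpace D ↔ ∀ v : Place K F, v.adicValuation f ≤ exp (D v) := Iff.rfl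

theorem mem_repartitionsOf {D : Divisor K F} {α : ↥(repartitions K F)} :
    α ∈ repartitionsOf D ↔ ∀ v : Place K F, v.adicValuation ((α : Place K F → F) v) ≤ exp (D v) :=
  Iff.rfl

/-- `L(D) = 0` when `deg D < 0`. -/
theorem riemannRochSpace_eq_bot_of_degree_neg [HasPrincipalDivisors K F] {D : Divisor K F}
    (hD : Divisor.degree D < 0) : riemannRochSpace D = ⊥ := by
  rw [eq_bot_iff]
  intro f hf
  rw [Submodule.mem_bot]
  by_contra hf0
  obtain ⟨E, hE, hE0⟩ := HasPrincipalDivisors.exists_divisor (K := K) f hf0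
  have hnn : 0 ≤ Divisor.degree (D + E) := by
    apply degree_nonneg_of_nonneg
    intro v
    have h := (mem_riemannRochSpace_iff.mp hf v).resolve_left hf0
    rw [Finsupp.add_apply, hE v]
    linarith
  rw [map_add, hE0, add_zero] at hnn
  exact absurd hnn (not_le.mpr hD)

/-! ## Weil differentials -/

/-- The space `Ω(D)` of Weil differentials vanishing on `A(D) + F`. -/
def Omega (D : Divisor K F) : Submodule K (Dual K ↥(repartitions K F)) :=
  (repartitionsOf D ⊔ principalRepartitions K F).dualAnnihilator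

theorem mem_Omega {D : Divisor K F} {ω : Dual K ↥(repartitions K F)} :
    ω ∈ Omega D ↔ (∀ α ∈ repartitionsOf D, ω α = 0) ∧
      ∀ α ∈ principalRepartitions K F, ω α = 0 := by
  rw [Omega, Submodule.mem_dualAnnihilator]
  constructor
  · intro h
    exact ⟨fun α hα => h α (Submodule.mem_sup_left hα),
      fun α hα => h α (Submodule.mem_sup_right hα)⟩
  · rintro ⟨h1, h2⟩ w hw
    obtain ⟨a, ha, b, hb, rfl⟩ := Submodule.mem_sup.mp hw
    rw [map_add, h1 a ha, h2 b hb, add_zero]

theorem Omega_anti {D D' : Divisor K F} (h : D ≤ D') : Omega D' ≤ Omega D := by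
  intro ω hω
  rw [mem_Omega] at hω ⊢
  exact ⟨fun α hα => hω.1 α (repartitionsOf_mono h hα), hω.2⟩

instance finite_Omega (D : Divisor K F) [Module.Finite K (H1 D)] : Module.Finite K ↥(Omega D) :=
  Module.Finite.equiv (Submodule.dualQuotEquivDualAnnihilator
    (repartitionsOf D ⊔ principalRepartitions K F))

/-- `dim Ω(D) = h¹(D)`. -/
theorem finrank_Omega (D : Divisor K F) [Module.Finite K (H1 D)] :
    finrank K ↥(Omega D) = finrank K (H1 D) := by
  have h := (Submodule.dualQuotEquivDualAnnihilator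
    (repartitionsOf D ⊔ principalRepartitions K F)).finrank_eq
  have h2 : finrank K (Dual K (H1 D)) = finrank K (H1 D) := Subspace.dual_finrank_eq
  exact h.symm.trans h2

/-- Multiplication by `x : F` on repartitions, as a `K`-linear map. -/
def mulRep (x : F) : ↥(repartitions K F) →ₗ[K] ↥(repartitions K F) where
  toFun α := x • α
  map_add' := smul_add x
  map_smul' c α := smul_comm x c α

@[simp] theorem mulRep_apply (x : F) (α : ↥(repartitions K F)) : mulRep (K := K) x α = x • α := rfl

theorem coe_mulRep_apply (x : F) (α : ↥(repartitions K F)) (v : Place K F) :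
    ((mulRep (K := K) x α : ↥(repartitions K F)) : Place K F → F) v
      = x * (α : Place K F → F) v := by
  simp

theorem mulRep_mul (x y : F) :
    mulRep (K := K) (F := F) (x * y) = (mulRep x).comp (mulRep y) := by
  ext α : 1
  simp [mul_smul]

theorem mulRep_one : mulRep (K := K) (F := F) 1 = LinearMap.id := by
  ext α : 1
  simp

/-- The differential `x • ω`, as a `K`-linear map in `x`. -/
def smulDiff (ω : Dual K ↥(repartitions K F)) : F →ₗ[K] Dual K ↥(repartitions K F) where
  toFun x := ω.comp (mulRep x)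
  map_add' x y := by
    ext α
    simp [add_smul]
  map_smul' c x := by
    ext α
    simp

theorem smulDiff_apply (ω : Dual K ↥(repartitions K F)) (x : F) (α : ↥(repartitions K F)) :
    smulDiff ω x α = ω (x • α) := rfl

theorem smulDiff_smulDiff (ω : Dual K ↥(repartitions K F)) (x y : F) :
    smulDiff (smulDiff ω x) y = smulDiff ω (x * y) := by
  ext α
  simp [smulDiff_apply, mul_smul]

theorem smulDiff_one (ω : Dual K ↥(repartitions K F)) : smulDiff ω 1 = ω := by
  ext α
  simp [smulDiff_apply]

theorem smulDiff_injective {ω : Dual K ↥(repartitions K F)} (hω : ω ≠ 0) :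
    Function.Injective (smulDiff ω) := by
  rw [← LinearMap.ker_eq_bot, LinearMap.ker_eq_bot']
  intro x hx
  by_contra hx0
  apply hω
  have h := smulDiff_smulDiff ω x x⁻¹
  rw [hx, mul_inv_cancel₀ hx0, smulDiff_one] at h
  rw [← h]
  ext α
  simp [smulDiff_apply]

/-- **Shift lemma**: if `ω` vanishes on `A(A) + F` and `x ∈ L(A - A')` then `x • ω` vanishes on
`A(A') + F`. -/
theorem smulDiff_mem_Omega {A A' : Divisor K F} {ω : Dual K ↥(repartitions K F)}
    (hω : ω ∈ Omega A) {x : F} (hx : x ∈ riemannRochSpace (A - A')) :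
    smulDiff ω x ∈ Omega A' := by
  rw [mem_Omega] at hω ⊢
  constructor
  · intro α hα
    rw [smulDiff_apply]
    apply hω.1
    intro v
    have h1 := mem_riemannRochSpace.mp hx v
    have h2 := mem_repartitionsOf.mp hα v
    have h3 : ((x • α : ↥(repartitions K F)) : Place K F → F) v
        = x * (α : Place K F → F) v := by simp
    rw [h3, map_mul]
    calc v.adicValuation x * v.adicValuation ((α : Place K F → F) v)
        ≤ exp ((A - A') v) * exp (A' v) := mul_le_mul' h1 h2
      _ = exp (A v) := by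
        rw [← exp_add, Finsupp.sub_apply, sub_add_cancel]
  · intro α hα
    rw [smulDiff_apply]
    apply hω.2
    rw [mem_principalRepartitions_iff] at hα ⊢
    obtain ⟨f, hf⟩ := hα
    refine ⟨x * f, ?_⟩
    funext v
    have h3 : ((x • α : ↥(repartitions K F)) : Place K F → F) v
        = x * (α : Place K F → F) v := by simp
    rw [h3, hf]


/-- The map `L(A - A') → Ω(A')`, `x ↦ x • ω`, for `ω ∈ Ω(A)`. -/
def phi {A : Divisor K F} {ω : Dual K ↥(repartitions K F)} (hω : ω ∈ Omega A)
    (A' : Divisor K F) : ↥(riemannRochSpace (A - A')) →ₗ[K] ↥(Omega A') :=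
  ((smulDiff ω).comp (riemannRochSpace (A - A')).subtype).codRestrict (Omega A')
    (fun x => smulDiff_mem_Omega hω x.2)

theorem coe_phi_apply {A : Divisor K F} {ω : Dual K ↥(repartitions K F)} (hω : ω ∈ Omega A)
    (A' : Divisor K F) (x : ↥(riemannRochSpace (A - A'))) :
    ((phi hω A' x : ↥(Omega A')) : Dual K ↥(repartitions K F)) = smulDiff ω (x : F) := rfl

theorem phi_injective {A : Divisor K F} {ω : Dual K ↥(repartitions K F)} (hω : ω ∈ Omega A)
    (hne : ω ≠ 0) (A' : Divisor K F) : Function.Injective (phi hω A') := by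
  intro x y hxy
  have h := congrArg Subtype.val hxy
  rw [coe_phi_apply, coe_phi_apply] at h
  exact Subtype.ext (smulDiff_injective hne h)

/-! ## Consequences of weak Riemann–Roch -/

section RR

variable [HasPrincipalDivisors K F]
  (h1fin : ∀ D : Divisor K F, Module.Finite K (H1 D))
  (hrr : ∀ D : Divisor K F, (finrank K ↥(riemannRochSpace D) : ℤ) - (finrank K (H1 D) : ℤ)
    = Divisor.degree D + 1 - (genusFF K F : ℤ))

omit [HasPrincipalDivisors K F] in
include hrr in
/-- Riemann's inequality. -/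
theorem riemann_ineq (D : Divisor K F) :
    Divisor.degree D + 1 - (genusFF K F : ℤ) ≤ (finrank K ↥(riemannRochSpace D) : ℤ) := by
  have h := hrr D
  have h0 : (0 : ℤ) ≤ (finrank K (H1 D) : ℤ) := Int.natCast_nonneg _
  linarith

include h1fin hrr in
/-- `dim Ω(D) = -deg D - 1 + g` when `deg D < 0`. -/
theorem finrank_Omega_of_degree_neg {D : Divisor K F} (hD : Divisor.degree D < 0) :
    (finrank K ↥(Omega D) : ℤ) = -Divisor.degree D - 1 + (genusFF K F : ℤ) := by
  have := h1fin D
  rw [finrank_Omega]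
  have h := hrr D
  rw [riemannRochSpace_eq_bot_of_degree_neg hD, finrank_bot] at h
  push_cast at h
  linarith

include h1fin hrr in
/-- **`Ω_F` is one-dimensional over `F`** (Stichtenoth 1.5.9). -/
theorem exists_smulDiff_eq (P : Place K F) (hP : 0 < P.deg)
    {A₁ A₂ : Divisor K F} {ω₁ ω₂ : Dual K ↥(repartitions K F)}
    (h₁ : ω₁ ∈ Omega A₁) (h₂ : ω₂ ∈ Omega A₂) (hne : ω₁ ≠ 0) :
    ∃ z : F, ω₂ = smulDiff ω₁ z := by
  by_cases h20 : ω₂ = 0
  · exact ⟨0, by rw [h20, map_zero]⟩
  obtain ⟨n, hn1, hn⟩ : ∃ n : ℕ, 1 ≤ n ∧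
      3 * (genusFF K F : ℤ) - 3 - Divisor.degree A₁ - Divisor.degree A₂ < n := by
    refine ⟨(3 * (genusFF K F : ℤ) - 2 - Divisor.degree A₁ - Divisor.degree A₂).toNat + 1,
      by omega, ?_⟩
    have := Int.self_le_toNat (3 * (genusFF K F : ℤ) - 2 - Divisor.degree A₁ - Divisor.degree A₂)
    push_cast
    linarith
  obtain ⟨B, hB⟩ : ∃ B : Divisor K F, (n : ℤ) ≤ Divisor.degree B := by
    refine ⟨Finsupp.single P (n : ℤ), ?_⟩
    rw [Divisor.degree_single]
    have hP' : (1 : ℤ) ≤ (P.deg : ℤ) := by exact_mod_cast hP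
    have hn0 : (0 : ℤ) ≤ (n : ℤ) := Int.natCast_nonneg _
    nlinarith
  have hn1' : (1 : ℤ) ≤ (n : ℤ) := by exact_mod_cast hn1
  have := h1fin (-B)
  have hΩ : (finrank K ↥(Omega (-B)) : ℤ) = Divisor.degree B - 1 + (genusFF K F : ℤ) := by
    rw [finrank_Omega_of_degree_neg h1fin hrr (by rw [map_neg]; linarith), map_neg]
    ring
  have hi₁ := phi_injective h₁ hne (-B)
  have hi₂ := phi_injective h₂ h20 (-B)
  have hd₁ : Divisor.degree A₁ + Divisor.degree B + 1 - (genusFF K F : ℤ)
      ≤ (finrank K ↥(riemannRochSpace (A₁ - -B)) : ℤ) := by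
    have h := riemann_ineq hrr (A₁ - -B)
    rw [map_sub, map_neg] at h
    linarith
  have hd₂ : Divisor.degree A₂ + Divisor.degree B + 1 - (genusFF K F : ℤ)
      ≤ (finrank K ↥(riemannRochSpace (A₂ - -B)) : ℤ) := by
    have h := riemann_ineq hrr (A₂ - -B)
    rw [map_sub, map_neg] at h
    linarith
  have hlt : finrank K ↥(Omega (-B))
      < finrank K ↥(riemannRochSpace (A₁ - -B)) + finrank K ↥(riemannRochSpace (A₂ - -B)) := by
    have : (finrank K ↥(Omega (-B)) : ℤ)
        < (finrank K ↥(riemannRochSpace (A₁ - -B)) : ℤ)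
          + (finrank K ↥(riemannRochSpace (A₂ - -B)) : ℤ) := by linarith
    exact_mod_cast this
  have hfin : Module.Finite K ↥(Omega (-B)) := finite_Omega (-B)
  obtain ⟨x₁, x₂, hx, hx0⟩ := @exists_common_of_finrank_lt K ↥(Omega (-B)) _ _ _ _ _ hfin _ _ _ _
    (phi h₁ (-B)) (phi h₂ (-B)) hi₁ hi₂ hlt
  have e₁ : smulDiff ω₁ (x₁ : F) ≠ 0 := by
    intro h
    apply hx0
    apply Subtype.ext
    rw [coe_phi_apply, h]
    rfl
  have e₂ : smulDiff ω₂ (x₂ : F) = smulDiff ω₁ (x₁ : F) := by
    rw [← coe_phi_apply h₁ (-B) x₁, ← coe_phi_apply h₂ (-B) x₂, hx]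
  have hx₂0 : (x₂ : F) ≠ 0 := by
    intro h
    rw [h, map_zero] at e₂
    exact e₁ e₂.symm
  refine ⟨(x₁ : F) * (x₂ : F)⁻¹, ?_⟩
  have h := smulDiff_smulDiff ω₂ (x₂ : F) (x₂ : F)⁻¹
  rw [mul_inv_cancel₀ hx₂0, smulDiff_one, e₂, smulDiff_smulDiff] at h
  exact h.symm

end RR

/-! ## The divisor of a Weil differential -/

/-- If `H1 A` is trivial then `Ω(A) = 0`. -/
theorem eq_zero_of_mem_Omega_of_subsingleton {A : Divisor K F} [Subsingleton (H1 A)]
    {ω : Dual K ↥(repartitions K F)} (hω : ω ∈ Omega A) : ω = 0 := by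
  have htop : repartitionsOf A ⊔ principalRepartitions K F = ⊤ :=
    Submodule.Quotient.subsingleton_iff.mp ‹_›
  rw [Omega, Submodule.mem_dualAnnihilator] at hω
  ext α
  have h := hω α (by rw [htop]; exact Submodule.mem_top)
  simpa using h

open Classical in
/-- The repartition with value `f` at `Q` and `0` elsewhere. -/
def singleRep (Q : Place K F) (f : F) : ↥(repartitions K F) :=
  ⟨fun v => if v = Q then f else 0, mem_repartitions_of_finite (by
    apply (Set.finite_singleton Q).subset
    intro v hv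
    by_contra hne
    simp only [Set.mem_singleton_iff] at hne
    simp [hne] at hv)⟩

theorem singleRep_apply_self (Q : Place K F) (f : F) :
    ((singleRep Q f : ↥(repartitions K F)) : Place K F → F) Q = f := by
  simp [singleRep]

theorem singleRep_apply_of_ne (Q : Place K F) (f : F) {v : Place K F} (hv : v ≠ Q) :
    ((singleRep Q f : ↥(repartitions K F)) : Place K F → F) v = 0 := by
  simp [singleRep, hv]

/-- **The divisor of a Weil differential** (Stichtenoth 1.5.10): a nonzero Weil differential `ω`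
has a largest divisor `W` such that `ω` vanishes on `A(W) + F`. -/
theorem exists_max_divisor (hpos : ∀ v : Place K F, 0 < v.deg)
    (hvan : ∃ c : ℤ, ∀ D : Divisor K F, c ≤ Divisor.degree D → Subsingleton (H1 D))
    {A₀ : Divisor K F} {ω : Dual K ↥(repartitions K F)} (h₀ : ω ∈ Omega A₀) (hne : ω ≠ 0) :
    ∃ W : Divisor K F, ω ∈ Omega W ∧ ∀ A : Divisor K F, ω ∈ Omega A → A ≤ W := by
  classical
  obtain ⟨c, hc⟩ := hvan
  have hbdd : ∃ b : ℤ, ∀ z : ℤ,
      (∃ A : Divisor K F, ω ∈ Omega A ∧ Divisor.degree A = z) → z ≤ b := by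
    refine ⟨c, ?_⟩
    rintro z ⟨A, hA, rfl⟩
    by_contra hlt
    have := hc A (not_le.mp hlt).le
    exact hne (eq_zero_of_mem_Omega_of_subsingleton hA)
  obtain ⟨ub, ⟨W, hW, hWdeg⟩, hmax⟩ := Int.exists_greatest_of_bdd hbdd ⟨_, A₀, h₀, rfl⟩
  refine ⟨W, hW, ?_⟩
  intro A hA
  rw [Finsupp.le_def]
  intro Q
  by_contra hQ
  replace hQ := not_le.mp hQ
  have hmem : ω ∈ Omega (W + Finsupp.single Q 1) := by
    rw [mem_Omega] at hW hA ⊢
    refine ⟨?_, hW.2⟩
    intro α hα
    have hsplit : α = (α - singleRep Q ((α : Place K F → F) Q))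
        + singleRep Q ((α : Place K F → F) Q) := by abel
    have h1 : α - singleRep Q ((α : Place K F → F) Q) ∈ repartitionsOf W := by
      intro v
      have hcoe : ((α - singleRep Q ((α : Place K F → F) Q) : ↥(repartitions K F)) :
          Place K F → F) v = (α : Place K F → F) v
            - ((singleRep Q ((α : Place K F → F) Q) : ↥(repartitions K F)) : Place K F → F) v := by
        simp
      rw [hcoe]
      by_cases hv : v = Q
      · subst hv
        rw [singleRep_apply_self, sub_self, map_zero]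
        exact zero_le
      · rw [singleRep_apply_of_ne _ _ hv, sub_zero]
        have h := mem_repartitionsOf.mp hα v
        rwa [Finsupp.add_apply, Finsupp.single_apply, if_neg (Ne.symm hv), add_zero] at h
    have h2 : singleRep Q ((α : Place K F → F) Q) ∈ repartitionsOf A := by
      intro v
      by_cases hv : v = Q
      · subst hv
        rw [singleRep_apply_self]
        have h := mem_repartitionsOf.mp hα v
        rw [Finsupp.add_apply, Finsupp.single_apply, if_pos rfl] at h
        refine h.trans ?_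
        rw [exp_le_exp]
        omega
      · rw [singleRep_apply_of_ne _ _ hv, map_zero]
        exact zero_le
    rw [hsplit, map_add, hW.1 _ h1, hA.1 _ h2, add_zero]
  have h := hmax _ ⟨_, hmem, rfl⟩
  rw [map_add, Divisor.degree_single, hWdeg, one_mul] at h
  have hQpos : (0 : ℤ) < (Q.deg : ℤ) := by exact_mod_cast hpos Q
  linarith

/-! ## Duality and the Riemann–Roch theorem -/

section Duality

variable [HasPrincipalDivisors K F]
  (hpos : ∀ v : Place K F, 0 < v.deg)
  (h1fin : ∀ D : Divisor K F, Module.Finite K (H1 D))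
  (hrr : ∀ D : Divisor K F, (finrank K ↥(riemannRochSpace D) : ℤ) - (finrank K (H1 D) : ℤ)
    = Divisor.degree D + 1 - (genusFF K F : ℤ))
  (hvan : ∃ c : ℤ, ∀ D : Divisor K F, c ≤ Divisor.degree D → Subsingleton (H1 D))

include hpos h1fin hrr in
/-- There is a nonzero Weil differential. -/
theorem exists_ne_zero_mem_Omega (P : Place K F) :
    ∃ (A : Divisor K F) (ω : Dual K ↥(repartitions K F)), ω ∈ Omega A ∧ ω ≠ 0 := by
  have hP : (1 : ℤ) ≤ (P.deg : ℤ) := by exact_mod_cast hpos P
  have hdeg : Divisor.degree (Finsupp.single P (-2 : ℤ)) < 0 := by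
    rw [Divisor.degree_single]
    linarith
  have h := finrank_Omega_of_degree_neg h1fin hrr hdeg
  rw [Divisor.degree_single] at h
  have hg : (0 : ℤ) ≤ (genusFF K F : ℤ) := Int.natCast_nonneg _
  have hpos' : 0 < finrank K ↥(Omega (Finsupp.single P (-2 : ℤ))) := by
    have : (0 : ℤ) < (finrank K ↥(Omega (Finsupp.single P (-2 : ℤ))) : ℤ) := by linarith
    exact_mod_cast this
  obtain ⟨η, hη⟩ := (Module.finrank_pos_iff_exists_ne_zero (R := K)
    (M := ↥(Omega (Finsupp.single P (-2 : ℤ))))).mp hpos'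
  exact ⟨_, η.1, η.2, fun h0 => hη (Subtype.ext h0)⟩

include hpos h1fin hrr hvan in
/-- **Duality** (Stichtenoth 1.5.14): there is a divisor `W` (a canonical divisor) such that
`Ω(D) ≃ L(W - D)` for every divisor `D`; here in dimension form. -/
theorem exists_duality (P : Place K F) :
    ∃ W : Divisor K F, ∀ D : Divisor K F,
      finrank K ↥(Omega D) = finrank K ↥(riemannRochSpace (W - D)) := by
  obtain ⟨A₀, ω, h₀, hne⟩ := exists_ne_zero_mem_Omega hpos h1fin hrr P
  obtain ⟨W, hW, hWmax⟩ := exists_max_divisor hpos hvan h₀ hne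
  refine ⟨W, fun D => ?_⟩
  have hinj := phi_injective hW hne D
  have hsurj : Function.Surjective (phi hW D) := by
    intro η
    obtain ⟨z, hz⟩ := exists_smulDiff_eq h1fin hrr P (hpos P) hW η.2 hne
    have hzmem : z ∈ riemannRochSpace (W - D) := by
      by_cases hz0 : z = 0
      · rw [hz0]
        exact Submodule.zero_mem _
      obtain ⟨E, hE, -⟩ := HasPrincipalDivisors.exists_divisor (K := K) z hz0
      have hω' : ω ∈ Omega (D - E) := by
        have h1 : smulDiff (η : Dual K ↥(repartitions K F)) z⁻¹ ∈ Omega (D - E) := by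
          apply smulDiff_mem_Omega η.2
          intro v
          rw [v.adicValuation_eq_exp_neg_ord (inv_ne_zero hz0), v.ord_inv, neg_neg,
            Finsupp.sub_apply, Finsupp.sub_apply, hE v]
          apply le_of_eq
          congr 1
          ring
        rwa [hz, smulDiff_smulDiff, mul_inv_cancel₀ hz0, smulDiff_one] at h1
      have hle := Finsupp.le_def.mp (hWmax _ hω')
      intro v
      rw [v.adicValuation_le_exp_iff]
      right
      have h := hle v
      rw [Finsupp.sub_apply, hE v] at h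
      rw [Finsupp.sub_apply]
      linarith
    exact ⟨⟨z, hzmem⟩, Subtype.ext (by rw [coe_phi_apply]; exact hz.symm)⟩
  exact (LinearEquiv.ofBijective (phi hW D) ⟨hinj, hsurj⟩).finrank_eq.symm

include hpos h1fin hrr hvan in
/-- **Riemann–Roch theorem with duality** in the Prelude repartition language, from weak
Riemann–Roch: there is a canonical divisor `W` with `deg W = 2g - 2`, `l(W) = g`,
`h¹(D) = l(W - D)` and `l(D) = deg D + 1 - g + l(W - D)` for every divisor `D`. -/
theorem exists_canonical (P : Place K F) :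
    ∃ W : Divisor K F, Divisor.degree W = 2 * (genusFF K F : ℤ) - 2 ∧
      finrank K ↥(riemannRochSpace W) = genusFF K F ∧
      (∀ D : Divisor K F, finrank K (H1 D) = finrank K ↥(riemannRochSpace (W - D))) ∧
      ∀ D : Divisor K F, (finrank K ↥(riemannRochSpace D) : ℤ)
        = Divisor.degree D + 1 - (genusFF K F : ℤ)
          + (finrank K ↥(riemannRochSpace (W - D)) : ℤ) := by
  obtain ⟨W, hW⟩ := exists_duality hpos h1fin hrr hvan P
  have hH1 : ∀ D : Divisor K F, finrank K (H1 D) = finrank K ↥(riemannRochSpace (W - D)) := by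
    intro D
    have := h1fin D
    rw [← finrank_Omega D, hW D]
  have hRR : ∀ D : Divisor K F, (finrank K ↥(riemannRochSpace D) : ℤ)
      = Divisor.degree D + 1 - (genusFF K F : ℤ)
        + (finrank K ↥(riemannRochSpace (W - D)) : ℤ) := by
    intro D
    have h := hrr D
    rw [hH1 D] at h
    linarith
  have hl0 : (finrank K ↥(riemannRochSpace (0 : Divisor K F)) : ℤ) = 1 := by
    have h := hrr 0
    have hg : (finrank K (H1 (0 : Divisor K F)) : ℤ) = (genusFF K F : ℤ) := rfl
    rw [hg, map_zero] at h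
    linarith
  have h0 := hRR 0
  rw [sub_zero, map_zero, hl0] at h0
  have hWW := hRR W
  rw [sub_self, hl0] at hWW
  have hlW : (finrank K ↥(riemannRochSpace W) : ℤ) = (genusFF K F : ℤ) := by linarith
  exact ⟨W, by linarith, by exact_mod_cast hlW, hH1, hRR⟩

end Duality

end

end Fermat.Agent.S27.helper2613
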