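import Fermat.Prelude.Def_AlgebraicCurve_IsCurveOver
import Fermat.Agent.S27.helper5747_AlgSpec
import Fermat.Agent.S27.helper3372_WeakRRMain
import Fermat.Agent.S27.helper4996_RiemannData
import Fermat.Agent.S27.helper2613_RRDuality

/-!
# S27, algebraic track: the glue theorem `helper5747.Stmt_RRD`

Riemann–Roch with duality for a function field `F` over an algebraically closed field `K` of
ANY characteristic, in the Prelude repartition language, from

* `helper3372` : weak Riemann–Roch from a `RiemannData` (characteristic free),
* `helper4996.exists_indep_family` : the `K(x)`-basis half of the Riemann data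
  (characteristic free),
* `helper2613.exists_canonical` : duality (Weil differentials, characteristic free),
* the pole-degree bound `deg (x)_∞ ≤ [F : K(x)]` (the only input that is not on main in a
  characteristic-free form; it is a hypothesis `hle` of `rrd_of_degree_le` below).
-/

set_option autoImplicit false

open AlgebraicCurve IntermediateField Module

namespace Fermat.Agent.S27.helper2613

universe u v

variable {K : Type u} {F : Type v} [Field K] [Field F] [Algebra K F]

/-- Over an algebraically closed field a finite residue field is `K` itself. -/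
theorem residue_surjective_of_finite [IsAlgClosed K] (v : Place K F)
    (h : Module.Finite K v.ResidueField) :
    Function.Surjective (algebraMap K v.ResidueField) := by
  have : Algebra.IsIntegral K v.ResidueField := Algebra.IsIntegral.of_finite K v.ResidueField
  exact (IsAlgClosed.algebraMap_bijective_of_isIntegral (k := K) (K := v.ResidueField)).2

/-- The Riemann data of `helper3372` from the pole-degree bound for one transcendental `x`. -/
theorem riemannData_of_degree_le (hP : HasPrincipalDivisors K F)
    (hfin : ∀ D : Divisor K F, Module.Finite K (riemannRochSpace D))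
    (x : F) (hx : Transcendental K x) [FiniteDimensional K⟮x⟯ F]
    (hle : ∀ B : Divisor K F, (∀ v : Place K F, B v = max 0 (-(v.ord x))) →
      Divisor.degree B ≤ (Module.finrank K⟮x⟯ F : ℤ)) :
    Fermat.Agent.S27.helper3372.RiemannData K F := by
  obtain ⟨B, C, hB0, hC0, hB, hfam⟩ := Fermat.Agent.S27.helper4996.exists_indep_family hP x hx
  refine ⟨B, C, Module.finrank K⟮x⟯ F, Module.finrank_pos, hB0, hC0, hle B hB, fun l => ?_⟩
  obtain ⟨s, hs, hmem⟩ := hfam l
  have := hfin (l • B + C)
  exact Fermat.Agent.S27.helper4996.le_finrank_of_indep_family s hs hmem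

/-- **Riemann–Roch with duality, characteristic free**, from the pole-degree bound for one
transcendental `x` with `F` finite over `K(x)`. -/
theorem rrd_of_degree_le [IsAlgClosed K] [hP : HasPrincipalDivisors K F]
    (hresfin : ∀ v : Place K F, Module.Finite K v.ResidueField)
    (hne : Nonempty (Place K F))
    (x : F) (hx : Transcendental K x) [FiniteDimensional K⟮x⟯ F]
    (hle : ∀ B : Divisor K F, (∀ v : Place K F, B v = max 0 (-(v.ord x))) →
      Divisor.degree B ≤ (Module.finrank K⟮x⟯ F : ℤ)) :
    (∀ D : Divisor K F, Module.Finite K (riemannRochSpace D)) ∧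
    (∀ D : Divisor K F, Module.Finite K (H1 D)) ∧
    (∀ D : Divisor K F, (Module.finrank K (riemannRochSpace D) : ℤ) - Module.finrank K (H1 D)
      = Divisor.degree D + 1 - genusFF K F) ∧
    ∃ W : Divisor K F, Divisor.degree W = 2 * (genusFF K F : ℤ) - 2 ∧
      Module.finrank K (riemannRochSpace W) = genusFF K F ∧
      (∀ D : Divisor K F, Module.finrank K (H1 D)
        = Module.finrank K (riemannRochSpace (W - D))) ∧
      ∀ D : Divisor K F, (Module.finrank K (riemannRochSpace D) : ℤ)
        = Divisor.degree D + 1 - genusFF K F + Module.finrank K (riemannRochSpace (W - D)) := by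
  have hres : ∀ v : Place K F, Function.Surjective (algebraMap K v.ResidueField) :=
    fun v => residue_surjective_of_finite v (hresfin v)
  have hdeg : ∀ v : Place K F, v.deg = 1 := fun v =>
    haveI := hresfin v
    v.deg_eq_one_of_isAlgClosed_of_finite
  have hfinL := Fermat.Agent.S27.helper3372.finite_riemannRochSpace hP hres hdeg hne
  have hR := riemannData_of_degree_le hP hfinL x hx hle
  obtain ⟨h1, h2, h3, h4⟩ :=
    Fermat.Agent.S27.helper3372.weak_riemann_roch hP hres hdeg hne hR
  obtain ⟨P⟩ := hne
  have hpos : ∀ v : Place K F, 0 < v.deg := fun v => by rw [hdeg v]; exact Nat.one_pos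
  exact ⟨h1, h2, h3, exists_canonical hpos h2 h3 h4 P⟩

/-- The characteristic-free pole-degree bound `deg (x)_∞ ≤ [F : K(x)]`, as a `Prop`
(universe `0`, the setting of `helper5747.Stmt_RRD`). -/
def PoleDegLe : Prop :=
  ∀ (K F : Type) [Field K] [Field F] [Algebra K F] [IsAlgClosed K] [HasPrincipalDivisors K F],
    (∀ v : Place K F, Function.Surjective (algebraMap K v.ResidueField)) →
    (∀ v : Place K F, v.deg = 1) →
    ∀ x : F, Transcendental K x → FiniteDimensional K⟮x⟯ F →
    ∀ B : Divisor K F, (∀ v : Place K F, B v = max 0 (-(v.ord x))) →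
      Divisor.degree B ≤ (Module.finrank K⟮x⟯ F : ℤ)

/-- **The glue theorem**: `helper5747.Stmt_RRD` verbatim, from the pole-degree bound. -/
theorem stmt_RRD_of (hP2 : PoleDegLe) : Fermat.Agent.S27.helper5747.Stmt_RRD := by
  intro K F _ _ _ _ _ hresfin _ hne x hx hfd
  have hres : ∀ v : Place K F, Function.Surjective (algebraMap K v.ResidueField) :=
    fun v => residue_surjective_of_finite v (hresfin v)
  have hdeg : ∀ v : Place K F, v.deg = 1 := fun v =>
    haveI := hresfin v
    v.deg_eq_one_of_isAlgClosed_of_finite
  obtain ⟨h1, -, -, W, hW, -, -, hD⟩ :=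
    rrd_of_degree_le hresfin hne x hx (hP2 K F hres hdeg x hx hfd)
  exact ⟨h1, W, hW, hD⟩

end Fermat.Agent.S27.helper2613
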