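import Mathlib
import Fermat.Agent.S27.helper5747_AlgSpec
import Fermat.Agent.S27.helper3351_WSpec
import Fermat.Agent.S27.helper6854_MatrixGrowth
import Fermat.Agent.S27.helper1121_FrobStmts
import Fermat.Agent.S27.helper1017_Exh
import Fermat.Agent.S27.helper2605_ZetaAbs

/-!
# S27, algebraic track: assembly of the characteristic `p` core (helper2673)

Backup of the assembly announced by the sub-architect helper5747 (`helper5747_AlgAsm`):
from the leaf interfaces of `helper5747_AlgSpec` to `helper3351.Stmt_CharP`.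

* `zetaMatrix_of : Stmt_Fin → Stmt_Count → Stmt_ZetaAbs → Stmt_ZetaMatrix`
* `growth_of : Stmt_Fin → Stmt_ZetaMatrix → Stmt_Growth`
* `frobSetting_of` : the Frobenius datum `g : SemilinearAut k F` and `FrobSetting k F q g` from
  the hypotheses of `helper3351.Stmt_CharP` and `Stmt_RRD`
* `stmt_CharP_of : Stmt_RRD → Stmt_Fin → Stmt_Exh → Stmt_Norm → Stmt_Count → Stmt_ZetaAbs →
    helper3351.Stmt_CharP`
* `stmt_CharP_of_open : Stmt_RRD → Stmt_Norm → helper3351.Stmt_CharP` (the landed leaves
  `helper1121.stmt_Fin`, `helper1121.stmt_Count`, `helper1017.stmt_Exh`,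
  `helper2605.stmt_ZetaAbs` plugged in).
-/

set_option autoImplicit false

open AlgebraicCurve IntermediateField

namespace Fermat.Agent.S27.helper2673

open Fermat.Agent.S27.helper5747

/-- **ZETA**: the integral Frobenius matrix, from the counts and the abstract zeta theorem. -/
theorem zetaMatrix_of (hFin : Stmt_Fin) (hCount : Stmt_Count) (hZ : Stmt_ZetaAbs) :
    Stmt_ZetaMatrix := by
  intro K F _ _ _ _ _ q g hS
  obtain ⟨hfix, hbig, htop⟩ := hCount K F q g hS
  have hq : 2 ≤ q := by
    obtain ⟨p, f, hp, -, hf, rfl⟩ := hS.pow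
    calc 2 ≤ p := hp.two_le
      _ = p ^ 1 := (pow_one p).symm
      _ ≤ p ^ f := Nat.pow_le_pow_right hp.pos hf
  have hperm : ∀ m : ℕ, MulAction.toPerm (g ^ m)
      = (MulAction.toPerm g : Equiv.Perm (Place K F)) ^ m := fun m =>
    map_pow (MulAction.toPermHom (SemilinearAut K F) (Place K F)) g m
  refine hZ (Place K F) (MulAction.toPerm g) q (genusFF K F) (fun r => Nat.card (Gam g r)) hq
    ?_ ?_ ?_ ?_
  · intro m hm
    have h1 : {v : Place K F | ((MulAction.toPerm g : Equiv.Perm (Place K F)) ^ m) v = v}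
        = {v : Place K F | (g ^ m) • v = v} := by
      ext v
      rw [← hperm m]
      rfl
    rw [h1]
    exact hfix m hm
  · intro r hr
    have := hFin K F q g hS r hr
    exact Nat.card_pos
  · intro r n hr hn
    exact hbig r n hr hn
  · intro r hr hγ
    exact htop r hr hγ

/-- **GROWTH**: the `ℓ`-adic growth of `#Γ_r`, from the Frobenius matrix. -/
theorem growth_of (hFin : Stmt_Fin) (hZM : Stmt_ZetaMatrix) : Stmt_Growth := by
  intro K F _ _ _ _ _ q g hS ℓ _ hℓ
  obtain ⟨A, hdet, hA⟩ := hZM K F q g hS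
  have hℓA : ¬ (ℓ : ℤ) ∣ A.det := by
    rw [hdet]
    intro h
    have h1 : (ℓ : ℤ) ∣ (q : ℤ) :=
      (Nat.prime_iff_prime_int.mp (Fact.out : ℓ.Prime)).dvd_of_dvd_pow h
    exact hℓ (Int.natCast_dvd_natCast.mp h1)
  obtain ⟨M, hM, -, c, hc⟩ := helper6854.exists_period_padicValNat_of_cast ℓ A hℓA
    (fun r => Nat.card (Gam g r)) hA
    (fun r hr => by
      have := hFin K F q g hS r hr
      exact Nat.card_pos) 1 Nat.one_pos
  exact ⟨M, hM, c, hc⟩

section Setting

variable {k F : Type*} [Field k] [Field F] [Algebra k F]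

/-- Over an algebraically closed field, a place with finite residue field is rational. -/
theorem residue_surjective_of_finite [IsAlgClosed k] (v : Place k F)
    (h : Module.Finite k v.ResidueField) :
    Function.Surjective (algebraMap k v.ResidueField) := by
  have : Algebra.IsIntegral k v.ResidueField := Algebra.IsIntegral.of_finite k _
  exact IsAlgClosed.algebraMap_bijective_of_isIntegral.2

/-- A rational place has degree one. -/
theorem deg_eq_one_of_surjective (v : Place k F)
    (h : Function.Surjective (algebraMap k v.ResidueField)) : v.deg = 1 := by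
  have e : k ≃ₗ[k] v.ResidueField :=
    (AlgEquiv.ofBijective (Algebra.ofId k v.ResidueField)
      ⟨(algebraMap k v.ResidueField).injective, h⟩).toLinearEquiv
  show Module.finrank k v.ResidueField = 1
  rw [← e.finrank_eq, Module.finrank_self]

/-- The semilinear automorphism attached to a ring automorphism `φ` of `F` inducing `σ` on the
constants. -/
def semilinearOf (φ : F ≃+* F) (σ : k ≃+* k)
    (h : ∀ a : k, φ (algebraMap k F a) = algebraMap k F (σ a)) : SemilinearAut k F :=
  ⟨(φ, σ), h⟩

@[simp] theorem semilinearOf_smul (φ : F ≃+* F) (σ : k ≃+* k)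
    (h : ∀ a : k, φ (algebraMap k F a) = algebraMap k F (σ a)) (y : F) :
    semilinearOf φ σ h • y = φ y := rfl

@[simp] theorem baseAut_semilinearOf (φ : F ≃+* F) (σ : k ≃+* k)
    (h : ∀ a : k, φ (algebraMap k F a) = algebraMap k F (σ a)) (a : k) :
    SemilinearAut.baseAut (semilinearOf φ σ h) a = σ a := rfl

/-- A place whose valuation ring is stable under `φ` is fixed by the attached semilinear
automorphism. -/
theorem semilinearOf_smul_place (φ : F ≃+* F) (σ : k ≃+* k)
    (h : ∀ a : k, φ (algebraMap k F a) = algebraMap k F (σ a)) (P₀ : Place k F)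
    (hP₀ : ∀ y : F, y ∈ P₀.toValuationSubring ↔ φ y ∈ P₀.toValuationSubring) :
    semilinearOf φ σ h • P₀ = P₀ := by
  ext1
  rw [SemilinearAut.smul_toValuationSubring]
  ext y
  rw [ValuationSubring.mem_pointwise_smul_iff_inv_smul_mem]
  have h1 : (semilinearOf φ σ h)⁻¹ • y = φ.symm y := rfl
  rw [h1, hP₀ (φ.symm y), RingEquiv.apply_symm_apply]

end Setting

/-- **The Frobenius setting** from the hypotheses of `helper3351.Stmt_CharP`. -/
theorem frobSetting_of (hRRD : Stmt_RRD) (p : ℕ) [Fact p.Prime] (k F : Type) [Field k] [Field F]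
    [Algebra k F] [CharP k p] [IsAlgClosed k] [HasPrincipalDivisors k F]
    (hres : ∀ v : Place k F, Module.Finite k v.ResidueField)
    (hconst : ∀ f : F, (∀ v : Place k F, 0 ≤ v.ord f) → f ∈ Set.range (algebraMap k F))
    (q f : ℕ) (hf : 0 < f) (hq : q = p ^ f)
    (hloc : ∀ a : k, ∃ m : ℕ, 0 < m ∧ a ^ (q ^ m) = a)
    (x : F) (hx : Transcendental k x) (hfin : FiniteDimensional k⟮x⟯ F)
    (φ : F ≃+* F) (hφk : ∀ a : k, φ (algebraMap k F a) = algebraMap k F (a ^ q))
    (hφx : φ x = x)
    (P₀ : Place k F) (hP₀ : ∀ g : F, g ∈ P₀.toValuationSubring ↔ φ g ∈ P₀.toValuationSubring) :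
    ∃ g : SemilinearAut k F, FrobSetting k F q g := by
  have : ExpChar k p := ExpChar.prime Fact.out
  have hσ : ∀ a : k, iterateFrobeniusEquiv k p f a = a ^ q := fun a => by
    rw [hq]
    exact iterateFrobeniusEquiv_def k p f a
  have hcomm : ∀ a : k, φ (algebraMap k F a)
      = algebraMap k F (iterateFrobeniusEquiv k p f a) := fun a => by rw [hφk a, hσ a]
  have hsurj : ∀ v : Place k F, Function.Surjective (algebraMap k v.ResidueField) :=
    fun v => residue_surjective_of_finite v (hres v)
  obtain ⟨hfinL, hrrd⟩ := hRRD k F hres hconst ⟨P₀⟩ x hx hfin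
  refine ⟨semilinearOf φ (iterateFrobeniusEquiv k p f) hcomm, ?_⟩
  exact
    { pow := ⟨p, f, Fact.out, inferInstance, hf, hq⟩
      base := fun a => hσ a
      alg := hloc
      res := hsurj
      deg := fun v => deg_eq_one_of_surjective v (hsurj v)
      const := hconst
      fixedFun := ⟨x, hx, hfin, hφx⟩
      fixedPlace := ⟨P₀, semilinearOf_smul_place φ _ hcomm P₀ hP₀⟩
      finiteL := hfinL
      rrd := hrrd }

/-- **Assembly of the characteristic `p` core**: `helper3351.Stmt_CharP` from the leaf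
interfaces of `helper5747_AlgSpec`. -/
theorem stmt_CharP_of (hRRD : Stmt_RRD) (hFin : Stmt_Fin) (hExh : Stmt_Exh) (hNorm : Stmt_Norm)
    (hCount : Stmt_Count) (hZ : Stmt_ZetaAbs) : helper3351.Stmt_CharP := by
  intro p _ k F _ _ _ _ _ _ hres hconst q f hf hq hloc x hx hfin φ hφk hφx P₀ hP₀ ℓ _ hℓ n
  obtain ⟨g, hS⟩ := frobSetting_of hRRD p k F hres hconst q f hf hq hloc x hx hfin φ hφk hφx
    P₀ hP₀
  have hℓq : ¬ ℓ ∣ q := by
    rw [hq]
    intro h
    have h1 : ℓ ∣ p := (Fact.out : ℓ.Prime).dvd_of_dvd_pow h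
    exact hℓ ((Nat.prime_dvd_prime_iff_eq Fact.out Fact.out).mp h1)
  exact core_of hFin hExh hNorm (growth_of hFin (zetaMatrix_of hFin hCount hZ)) k F q g hS ℓ
    hℓq n

/-- The characteristic `p` core with all landed leaves plugged in: only Riemann–Roch with
duality (characteristic free) and the surjectivity of the trace remain as hypotheses. -/
theorem stmt_CharP_of_open (hRRD : Stmt_RRD) (hNorm : Stmt_Norm) : helper3351.Stmt_CharP :=
  stmt_CharP_of hRRD helper1121.stmt_Fin helper1017.stmt_Exh hNorm helper1121.stmt_Count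
    helper2605.stmt_ZetaAbs

end Fermat.Agent.S27.helper2673
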