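import Mathlib
import Fermat.Prelude.Def_AlgebraicCurve_IsCurveOver
import Fermat.Prelude.Def_AlgebraicCurve_Repartitions
import Fermat.Agent.S24.helper204_Places
import Fermat.Agent.S24.helper1370_PlaceBasics
import Fermat.Agent.S27.helper5411_Reduce

/-!
# S27-SC: every place is a simple point of some plane model (special-point charts)

`K` algebraically closed of characteristic zero, `F / K` a curve function field, `v` a place
of `F` and `t` a uniformizer at `v`.  Then there are `y : F` and `p : K[X][Y]` (monic,
irreducible) such that `(t, y)` is a plane model of `F` (`F = K(t, y)`, `p` generates the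
relations), `t` and `y` vanish at `v`, and `(0, 0)` is a SIMPLE point of the model:
`p(0,0) = 0`, `(∂p/∂Y)(0,0) ≠ 0`.

Proof: `B` = integral closure of `K[t]` in `F`.  By the Chinese remainder theorem choose
`u ∈ B` vanishing at `v` and `≡ 1` at the other zeros of `t`; `y = u + c t y₀` is primitive
for some constant `c`.  Nakayama (Cayley-Hamilton form) for the finite `K[X][Y]`-module `B`
gives `r` with `r(0,0) = 1` and `r(t,y) B ⊆ K[t,y]`; hence `y H(t,y) = t G(t,y)` with
`H(0,0) = 1`, and differentiating `p ∣ Y H - X G` in `Y` at the origin gives the claim.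
-/

set_option autoImplicit false
set_option linter.style.haveILetI false

open AlgebraicCurve Polynomial
open scoped Polynomial.Bivariate

namespace Fermat.Agent.S27.helper2737

/-! ### Part A: Nakayama in conductor form -/

/-- **Nakayama, conductor form.** `N` a finitely generated `P`-submodule of a `P`-algebra `M`
such that every `b ∈ N` satisfies `d (b - c) ∈ x N` for some scalar `c`.  Then some `r` with
`r ≡ 1` modulo `(1 - d, x)` multiplies `N` into the image of `P`. -/
theorem exists_conductor {P M : Type*} [CommRing P] [CommRing M] [Algebra P M]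
    (N : Submodule P M) (hfg : N.FG) (x d : P)
    (h : ∀ b ∈ N, ∃ c : P, ∃ b' ∈ N,
      algebraMap P M d * (b - algebraMap P M c) = algebraMap P M x * b') :
    ∃ r : P, r - 1 ∈ Ideal.span ({1 - d, x} : Set P) ∧
      ∀ b ∈ N, ∃ c : P, algebraMap P M r * b = algebraMap P M c := by
  classical
  set U : Submodule P M := LinearMap.range (Algebra.linearMap P M) with hU
  set I : Ideal P := Ideal.span ({1 - d, x} : Set P) with hI
  set N' : Submodule P (M ⧸ U) := N.map U.mkQ with hN'
  have hfg' : N'.FG := hfg.map _
  have hd : 1 - d ∈ I := Ideal.subset_span (by simp)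
  have hx : x ∈ I := Ideal.subset_span (by simp)
  have hle : N' ≤ I • N' := by
    rintro _ ⟨b, hb, rfl⟩
    obtain ⟨c, b', hb', hbb'⟩ := h b hb
    have hdec : b = (1 - d) • b + x • b' + d • algebraMap P M c := by
      simp only [Algebra.smul_def, map_sub, map_one]
      linear_combination hbb'
    have hc0 : U.mkQ (d • algebraMap P M c) = 0 := by
      rw [Submodule.mkQ_apply, Submodule.Quotient.mk_eq_zero]
      exact ⟨d * c, by simp [Algebra.smul_def]⟩
    have : U.mkQ b = (1 - d) • U.mkQ b + x • U.mkQ b' := by
      conv_lhs => rw [hdec]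
      rw [map_add, map_add, hc0, add_zero, map_smul, map_smul]
    rw [this]
    exact add_mem (Submodule.smul_mem_smul hd (Submodule.mem_map_of_mem hb))
      (Submodule.smul_mem_smul hx (Submodule.mem_map_of_mem hb'))
  obtain ⟨r, hr1, hr2⟩ :=
    Submodule.exists_sub_one_mem_and_smul_eq_zero_of_fg_of_le_smul I N' hfg' hle
  refine ⟨r, hr1, fun b hb => ?_⟩
  have h0 := hr2 (U.mkQ b) (Submodule.mem_map_of_mem hb)
  rw [← map_smul, Submodule.mkQ_apply, Submodule.Quotient.mk_eq_zero] at h0
  obtain ⟨c, hc⟩ := h0
  exact ⟨c, by rw [← Algebra.smul_def]; exact hc.symm⟩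

/-! ### Part B: bivariate polynomial lemmas -/

section Bivariate

variable {K F : Type*} [Field K] [CommRing F] [Algebra K F]

/-- Values of bivariate polynomials at points of a subalgebra stay in the subalgebra. -/
theorem aevalAeval_mem (S : Subalgebra K F) {t y : F} (ht : t ∈ S) (hy : y ∈ S)
    (P : K[X][Y]) : aevalAeval t y P ∈ S := by
  have h : aevalAeval t y = S.val.comp (aevalAeval (⟨t, ht⟩ : S) ⟨y, hy⟩) := by
    apply (aevalAevalEquiv K F).symm.injective
    simp [aevalAevalEquiv_symm_apply]
  rw [h]
  exact SetLike.coe_mem _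

/-- Splitting off the value at the origin. -/
theorem eq_Y_mul_add_X_mul_add_const (P : K[X][Y]) :
    P = Y * P.divX + C X * C (P.coeff 0).divX + C (C ((P.coeff 0).coeff 0)) := by
  have h1 := Polynomial.divX_mul_X_add P
  have h2 := Polynomial.divX_mul_X_add (P.coeff 0)
  conv_lhs => rw [← h1, ← h2]
  simp only [map_add, map_mul]
  ring

theorem evalEval_zero_zero (P : K[X][Y]) : evalEval 0 0 P = (P.coeff 0).coeff 0 := by
  rw [evalEval, map_zero, ← Polynomial.coeff_zero_eq_eval_zero,
    ← Polynomial.coeff_zero_eq_eval_zero]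

/-- The value at `(t, y)` differs from the value at the origin by an element of `(t, y)`. -/
theorem aevalAeval_eq_add (t y : F) (P : K[X][Y]) :
    aevalAeval t y P = y * aevalAeval t y P.divX + t * aevalAeval t y (C (P.coeff 0).divX)
      + algebraMap K F (evalEval 0 0 P) := by
  conv_lhs => rw [eq_Y_mul_add_X_mul_add_const P]
  rw [map_add, map_add, map_mul, map_mul, aevalAeval_Y, aevalAeval_X, evalEval_zero_zero]
  congr 1
  rw [aevalAeval_C, Polynomial.aeval_C]

/-- If `p ∣ H Y - X G`, `p(0,0) = 0` and `H(0,0) ≠ 0` then `(∂p/∂Y)(0,0) ≠ 0`. -/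
theorem evalEval_derivative_ne_zero {p c H G : K[X][Y]}
    (hQ : H * Y - C X * G = p * c) (hp : evalEval 0 0 p = 0) (hH : evalEval 0 0 H ≠ 0) :
    evalEval 0 0 (derivative p) ≠ 0 := by
  have hd := congrArg (fun Q => evalEvalRingHom (0 : K) 0 (derivative Q)) hQ
  simp only [derivative_mul, derivative_X, derivative_C, map_sub, map_add,
    map_mul, mul_one, zero_mul, zero_add] at hd
  simp only [coe_evalEvalRingHom] at hd
  have hY : evalEval (0 : K) 0 (Y : K[X][Y]) = 0 := by simp [evalEval]
  have hX : evalEval (0 : K) 0 (C X : K[X][Y]) = 0 := by simp [evalEval]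
  rw [hY, hX, hp] at hd
  simp only [mul_zero, zero_mul, zero_add, sub_zero, add_zero] at hd
  intro h0
  rw [h0, zero_mul] at hd
  exact hH hd

end Bivariate

/-! ### Part C: the minimal relation of a plane model -/

section Minpoly

variable {K F : Type*} [Field K] [Field F] [Algebra K F]

/-- The monic irreducible generator of the relations between `t` (transcendental) and `y`
(integral over `K[t]`). -/
theorem exists_minimal_relation {t y : F} (htr : Transcendental K t)
    (hy : IsIntegral (Algebra.adjoin K {t}) y) :
    ∃ p : K[X][Y], p.Monic ∧ Irreducible p ∧ aevalAeval t y p = 0 ∧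
      ∀ Q : K[X][Y], aevalAeval t y Q = 0 → p ∣ Q := by
  letI : Algebra K[X] F := (aeval t : K[X] →ₐ[K] F).toRingHom.toAlgebra
  have halg : ∀ q : K[X], algebraMap K[X] F q = aeval t q := fun q => rfl
  haveI : IsScalarTower K K[X] F := IsScalarTower.of_algebraMap_eq fun c => by
    rw [halg, Polynomial.algebraMap_apply, Polynomial.aeval_C]
    simp
  have hinj : Function.Injective (algebraMap K[X] F) := transcendental_iff_injective.mp htr
  haveI : Module.IsTorsionFree K[X] F := Module.isTorsionFree_iff_algebraMap_injective.mpr hinj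
  -- `y` is integral over `K[X]`
  have hyint : IsIntegral K[X] y := by
    obtain ⟨q, hqm, hq⟩ := hy
    have hsurj : Function.Surjective
        ((aeval t : K[X] →ₐ[K] F).rangeRestrict) := AlgHom.rangeRestrict_surjective _
    have hrange : (aeval t : K[X] →ₐ[K] F).range = Algebra.adjoin K {t} :=
      (Algebra.adjoin_singleton_eq_range_aeval K t).symm
    -- lift `q` coefficientwise
    have hlift : ∀ a : Algebra.adjoin K {t}, ∃ b : K[X], aeval t b = (a : F) := by
      intro a
      have : (a : F) ∈ (aeval t : K[X] →ₐ[K] F).range := by rw [hrange]; exact a.2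
      exact this
    choose g hg using hlift
    refine ⟨X ^ q.natDegree
      + ∑ i ∈ Finset.range q.natDegree, Polynomial.monomial i (g (q.coeff i)), ?_, ?_⟩
    · apply Polynomial.monic_X_pow_add
      refine (Polynomial.degree_sum_le _ _).trans_lt ?_
      rw [Finset.sup_lt_iff (WithBot.bot_lt_coe _)]
      intro i hi
      exact (Polynomial.degree_monomial_le _ _).trans_lt
        (WithBot.coe_lt_coe.mpr (Finset.mem_range.mp hi))
    · rw [Polynomial.eval₂_add, Polynomial.eval₂_finsetSum]
      simp only [Polynomial.eval₂_monomial, Polynomial.eval₂_X_pow, halg, hg]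
      have h2 := hq
      rw [Polynomial.eval₂_eq_sum_range, Finset.sum_range_succ, hqm.coeff_natDegree, map_one,
        one_mul] at h2
      rw [add_comm]
      exact h2
  refine ⟨minpoly K[X] y, minpoly.monic hyint, (minpoly.prime_of_isIntegrallyClosed hyint).irreducible,
    ?_, ?_⟩
  all_goals
    have hφ : (aevalAeval t y : K[X][Y] →ₐ[K] F)
        = (Polynomial.aeval (R := K[X]) y).restrictScalars K := by
      apply (aevalAevalEquiv K F).symm.injective
      simp [aevalAevalEquiv_symm_apply, halg]
  · rw [hφ]
    exact minpoly.aeval K[X] y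
  · intro Q hQ
    rw [hφ] at hQ
    exact minpoly.isIntegrallyClosed_dvd hyint hQ

end Minpoly

/-! ### Part D: places -/

section Places

open IntermediateField IsDedekindDomain WithZero
open scoped IntermediateField.algebraAdjoinAdjoin
open Fermat.Agent.S24

variable {K F : Type*} [Field K] [Field F] [Algebra K F]

/-- The valuation ring of a place as a `K`-subalgebra. -/
def valSubalgebra (v : Place K F) : Subalgebra K F :=
  { v.toValuationSubring.toSubring with algebraMap_mem' := v.algebraMap_mem' }

theorem mem_valSubalgebra (v : Place K F) (f : F) :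
    f ∈ valSubalgebra v ↔ f ∈ v.toValuationSubring := Iff.rfl

theorem mem_iff_val_le_one (v : Place K F) (f : F) :
    f ∈ v.toValuationSubring ↔ v.adicValuation f ≤ 1 := by
  rw [v.adicValuation_le_one_iff]
  constructor
  · intro h
    exact Or.inr (helper204.ord_nonneg_of_mem v h)
  · rintro (rfl | h)
    · exact zero_mem _
    · exact helper204.mem_of_ord_nonneg v h

theorem val_lt_one_iff (v : Place K F) (f : F) :
    v.adicValuation f < 1 ↔ f = 0 ∨ 0 < v.ord f := by
  rcases eq_or_ne f 0 with rfl | hf
  · simp
  · rw [v.adicValuation_eq_exp_neg_ord hf, ← exp_zero, exp_lt_exp, or_iff_right hf]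
    constructor <;> intro h <;> omega

theorem val_lt_one_of_ord_pos (v : Place K F) {f : F} (h : 0 < v.ord f) :
    v.adicValuation f < 1 := (val_lt_one_iff v f).mpr (Or.inr h)

/-- The sum of something small and something small is small. -/
theorem val_add_lt_one (v : Place K F) {f g : F} (hf : v.adicValuation f < 1)
    (hg : v.adicValuation g < 1) : v.adicValuation (f + g) < 1 :=
  Valuation.map_add_lt _ hf hg

theorem val_mul_lt_one (v : Place K F) {f g : F} (hf : v.adicValuation f ≤ 1)
    (hg : v.adicValuation g < 1) : v.adicValuation (f * g) < 1 := by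
  rw [map_mul]
  calc v.adicValuation f * v.adicValuation g ≤ 1 * v.adicValuation g := by gcongr
    _ = v.adicValuation g := one_mul _
    _ < 1 := hg

/-- Residue field `= K`: every element of `O_v` is a constant modulo `m_v`. -/
theorem exists_const_val_lt_one [IsAlgClosed K] [IsCurveOver K F] (v : Place K F) {b : F}
    (hb : b ∈ v.toValuationSubring) :
    ∃ c : K, v.adicValuation (b - algebraMap K F c) < 1 := by
  haveI : Module.Finite K v.ResidueField := IsCurveOver.finiteResidue v
  haveI : Algebra.IsIntegral K v.ResidueField := Algebra.IsIntegral.of_finite K v.ResidueField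
  have hbij : Function.Bijective (algebraMap K v.ResidueField) :=
    IsAlgClosed.algebraMap_bijective_of_isIntegral
  obtain ⟨c, hc⟩ := hbij.2 (IsLocalRing.residue v.toValuationSubring ⟨b, hb⟩)
  refine ⟨c, ?_⟩
  have hmem : (⟨b, hb⟩ - algebraMap K v.toValuationSubring c : v.toValuationSubring)
      ∈ IsLocalRing.maximalIdeal v.toValuationSubring := by
    rw [← IsLocalRing.residue_eq_zero_iff, map_sub, sub_eq_zero, ← hc]
    rfl
  have h1 := v.adicValuation_coe (⟨b, hb⟩ - algebraMap K v.toValuationSubring c)
  have h2 : v.heightOneSpectrum.intValuation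
      (⟨b, hb⟩ - algebraMap K v.toValuationSubring c) < 1 := by
    rw [HeightOneSpectrum.intValuation_lt_one_iff_mem, Place.heightOneSpectrum_asIdeal]
    exact hmem
  rw [← h1] at h2
  simpa using h2

/-- Nonzero constants are units at every place. -/
theorem const_eq_zero_of_val_lt_one (v : Place K F) {c : K}
    (h : v.adicValuation (algebraMap K F c) < 1) : c = 0 := by
  by_contra hc
  rcases (val_lt_one_iff v _).mp h with h0 | h0
  · exact hc ((map_eq_zero _).mp h0)
  · rw [helper204.ord_algebraMap_eq_zero] at h0
    exact lt_irrefl _ h0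

variable {R : Type*} [CommRing R] [IsDedekindDomain R] [Algebra R F] [IsFractionRing R F]
  [Algebra K R] [IsScalarTower K R F]

/-- The valuation of the place attached to a height-one prime is the adic valuation. -/
theorem adicValuation_ofHeightOneSpectrum (w : HeightOneSpectrum R) (f : F) :
    (Place.ofHeightOneSpectrum (K := K) (F := F) w).adicValuation f = w.valuation F f := by
  rcases eq_or_ne f 0 with rfl | hf
  · simp
  · rw [Place.adicValuation_eq_exp_neg_ord _ hf, helper204.ord_ofHeightOneSpectrum, neg_neg,
      exp_log ((Valuation.ne_zero_iff _).mpr hf)]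

end Places

section Core

open IntermediateField IsDedekindDomain WithZero
open scoped IntermediateField.algebraAdjoinAdjoin
open Fermat.Agent.S24

variable {K F : Type*} [Field K] [Field F] [Algebra K F]

theorem self_mem_integralClosure (t : F) : t ∈ integralClosure (Algebra.adjoin K {t}) F :=
  (integralClosure (Algebra.adjoin K {t}) F).algebraMap_mem
    ⟨t, Algebra.self_mem_adjoin_singleton K t⟩

/-- An element regular at every place where `t` is regular is integral over `K[t]`. -/
theorem isIntegral_of_forall_place [CharZero K] {t : F} [FiniteDimensional K⟮t⟯ F] {g : F}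
    (h : ∀ w : Place K F, t ∈ w.toValuationSubring → g ∈ w.toValuationSubring) :
    IsIntegral (Algebra.adjoin K {t}) g := by
  have hmem := HeightOneSpectrum.mem_integers_of_valuation_le_one
    (R := integralClosure (Algebra.adjoin K {t}) F) F g (fun 𝔮 => ?_)
  · obtain ⟨b, rfl⟩ := hmem
    exact b.2
  · have htq : t ∈ (Place.ofHeightOneSpectrum (K := K) (F := F) 𝔮).toValuationSubring := by
      rw [Place.ofHeightOneSpectrum_toValuationSubring, Valuation.mem_valuationSubring_iff]
      exact 𝔮.valuation_le_one (⟨t, self_mem_integralClosure t⟩ :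
        integralClosure (Algebra.adjoin K {t}) F)
    have := h _ htq
    rwa [Place.ofHeightOneSpectrum_toValuationSubring, Valuation.mem_valuationSubring_iff] at this

/-- **Local relation at a separated zero of `t`.**  If `y` is integral over `K[t]`, vanishes at
the place `v` (a simple zero of `t`) and is `≡ 1` at all other zeros of `t`, then
`y H(t,y) = t G(t,y)` for polynomials `H, G` with `H(0,0) = 1`. -/
theorem exists_local_relation [IsAlgClosed K] [CharZero K] [IsCurveOver K F] (v : Place K F)
    {t y : F} (htr : Transcendental K t) [FiniteDimensional K⟮t⟯ F]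
    (ht : v.ord t = 1) (hy : IsIntegral (Algebra.adjoin K {t}) y)
    (hyv : v.adicValuation y < 1)
    (hyw : ∀ w : Place K F, 0 < w.ord t → w ≠ v → w.adicValuation (y - 1) < 1) :
    ∃ H G : K[X][Y], evalEval 0 0 H = 1 ∧ aevalAeval t y (H * Y - C X * G) = 0 := by
  classical
  have ht0 : t ≠ 0 := by
    rintro rfl
    simp at ht
  -- `B`, the integral closure of `K[t]`, as a `K`-subalgebra
  let B : Subalgebra K F := (integralClosure (Algebra.adjoin K {t}) F).restrictScalars K
  have hB : ∀ f : F, f ∈ B ↔ IsIntegral (Algebra.adjoin K {t}) f := fun f => Iff.rfl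
  have htB : t ∈ B := self_mem_integralClosure t
  have hyB : y ∈ B := hy
  have hBw : ∀ w : Place K F, t ∈ w.toValuationSubring → ∀ f ∈ B, f ∈ w.toValuationSubring :=
    fun w hw f hf => helper204.integralClosure_le_of_mem w hw ⟨f, hf⟩
  -- the zeros of `t`
  obtain ⟨s, hs, hsum⟩ := helper204.exists_finset_zeros (K := K) (F := F) htr 0
  simp only [map_zero, sub_zero] at hs hsum
  set n' : ℕ := Module.finrank K⟮t⟯ F with hn'def
  have hn' : ∀ w : Place K F, 0 < w.ord t → w.ord t ≤ n' := by
    intro w hw
    have h1 := Finset.single_le_sum (f := fun w : Place K F => w.ord t)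
      (fun w hw => ((hs w).mp hw).le) ((hs w).mpr hw)
    rw [hsum] at h1
    exact h1
  have hy1 : (1 : F) - y ≠ 0 := by
    intro h
    have : y = 1 := (sub_eq_zero.mp h).symm
    rw [this, map_one] at hyv
    exact lt_irrefl _ hyv
  -- the key membership
  have key : ∀ z : F, z ∈ B → v.adicValuation z < 1 → (1 - y) ^ n' * z / t ∈ B := by
    intro z hz hzv
    rw [hB]
    apply isIntegral_of_forall_place
    intro w htw
    have hyw' : y ∈ w.toValuationSubring := hBw w htw y hyB
    have hzw : z ∈ w.toValuationSubring := hBw w htw z hz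
    have h1yw : (1 : F) - y ∈ w.toValuationSubring := sub_mem (one_mem _) hyw'
    by_cases hw : 0 < w.ord t
    · by_cases hwv : w = v
      · -- at `v`: `z / t` is regular
        rw [hwv] at h1yw ⊢
        have hzt : z / t ∈ v.toValuationSubring := by
          rcases (val_lt_one_iff v z).mp hzv with rfl | hz0
          · simp [zero_mem]
          · have hzne : z ≠ 0 := by
              rintro rfl
              simp at hz0
            apply helper204.mem_of_ord_nonneg
            rw [helper1370.ord_div v hzne ht0, ht]
            omega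
        have : (1 - y) ^ n' * z / t = (1 - y) ^ n' * (z / t) := by ring
        rw [this]
        exact mul_mem (pow_mem h1yw _) hzt
      · -- at the other zeros of `t`: `(1 - y)^n' / t` is regular
        have h1 : w.adicValuation (1 - y) < 1 := by
          have := hyw w hw hwv
          rwa [← neg_sub, Valuation.map_neg] at this
        have h2 : (1 - y) ^ n' / t ∈ w.toValuationSubring := by
          apply helper204.mem_of_ord_nonneg
          rw [helper1370.ord_div w (pow_ne_zero _ hy1) ht0, helper1370.ord_pow]
          have h3 : 0 < w.ord (1 - y) := ((val_lt_one_iff w _).mp h1).resolve_left hy1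
          have h4 := hn' w hw
          have h5 : (n' : ℤ) * 1 ≤ (n' : ℤ) * w.ord (1 - y) :=
            mul_le_mul_of_nonneg_left (by omega) (by positivity)
          omega
        have : (1 - y) ^ n' * z / t = (1 - y) ^ n' / t * z := by ring
        rw [this]
        exact mul_mem h2 hzw
    · -- `t` is a unit at `w`
      have hw0 : w.ord t = 0 := le_antisymm (not_lt.mp hw) (helper204.ord_nonneg_of_mem w htw)
      have htinv : t⁻¹ ∈ w.toValuationSubring := by
        apply helper204.mem_of_ord_nonneg
        rw [w.ord_inv, hw0, neg_zero]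
      rw [div_eq_mul_inv]
      exact mul_mem (mul_mem (pow_mem h1yw _) hzw) htinv
  -- the module structure
  let φ : K[X][Y] →ₐ[K] F := aevalAeval t y
  letI : Algebra K[X][Y] F := φ.toRingHom.toAlgebra
  have halg : ∀ Q : K[X][Y], algebraMap K[X][Y] F Q = φ Q := fun _ => rfl
  have hφB : ∀ Q : K[X][Y], φ Q ∈ B := aevalAeval_mem B htB hyB
  obtain ⟨S, hS⟩ := (Module.Finite.fg_top :
    (⊤ : Submodule (Algebra.adjoin K {t}) (integralClosure (Algebra.adjoin K {t}) F)).FG)
  let N : Submodule K[X][Y] F := Submodule.span K[X][Y]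
    ((fun b : integralClosure (Algebra.adjoin K {t}) F => (b : F)) '' (S : Set _))
  have hNfg : N.FG := Submodule.fg_span ((S.finite_toSet).image _)
  have hNB : ∀ f : F, f ∈ N → f ∈ B := by
    intro f hf
    induction hf using Submodule.span_induction with
    | mem x hx =>
      obtain ⟨b, -, rfl⟩ := hx
      exact b.2
    | zero => exact B.zero_mem
    | add x y _ _ hx hy => exact B.add_mem hx hy
    | smul a x _ hx =>
      rw [Algebra.smul_def, halg]
      exact B.mul_mem (hφB a) hx
  have hBN : ∀ f : F, f ∈ B → f ∈ N := by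
    intro f hf
    have hmem : (⟨f, hf⟩ : integralClosure (Algebra.adjoin K {t}) F)
        ∈ Submodule.span (Algebra.adjoin K {t}) (S : Set _) := by
      rw [hS]
      trivial
    have hgen : ∀ b : integralClosure (Algebra.adjoin K {t}) F,
        b ∈ Submodule.span (Algebra.adjoin K {t}) (S : Set _) → (b : F) ∈ N := by
      intro b hb
      induction hb using Submodule.span_induction with
      | mem x hx => exact Submodule.subset_span ⟨x, hx, rfl⟩
      | zero => exact N.zero_mem
      | add x y _ _ hx hy => exact N.add_mem hx hy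
      | smul a x _ hx =>
        have ha : (a : F) ∈ (aeval t : K[X] →ₐ[K] F).range := by
          rw [← Algebra.adjoin_singleton_eq_range_aeval]
          exact a.2
        obtain ⟨q, hq⟩ := ha
        have h1 : ((a • x : integralClosure (Algebra.adjoin K {t}) F) : F) = (a : F) * (x : F) := rfl
        have h2 : (C q : K[X][Y]) • (x : F) = aevalAeval t y (C q) * (x : F) := by
          rw [Algebra.smul_def (C q : K[X][Y]) (x : F), halg]
        have : ((a • x : integralClosure (Algebra.adjoin K {t}) F) : F)
            = (C q : K[X][Y]) • (x : F) := by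
          rw [h1, h2, aevalAeval_C]
          exact congrArg (· * (x : F)) hq.symm
        rw [this]
        exact N.smul_mem _ hx
    exact hgen _ hmem
  have htv : t ∈ v.toValuationSubring := helper204.mem_of_ord_nonneg v (by omega)
  -- Nakayama
  obtain ⟨r, hr1, hr2⟩ := exists_conductor N hNfg (C X : K[X][Y]) ((1 - Y) ^ n') (by
    intro b hb
    have hbB := hNB b hb
    obtain ⟨c0, hc0⟩ := exists_const_val_lt_one v (hBw v htv b hbB)
    refine ⟨C (C c0), (1 - y) ^ n' * (b - algebraMap K F c0) / t,
      hBN _ (key _ (B.sub_mem hbB (B.algebraMap_mem c0)) hc0), ?_⟩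
    rw [halg, halg, halg]
    show aevalAeval t y ((1 - Y) ^ n') * (b - aevalAeval t y (C (C c0)))
      = aevalAeval t y (C X) * ((1 - y) ^ n' * (b - algebraMap K F c0) / t)
    rw [map_pow, map_sub, map_one, aevalAeval_Y, aevalAeval_X, aevalAeval_C, aeval_C]
    field_simp)
  -- the value of `r` at the origin
  have hε : evalEvalRingHom (0 : K) 0 r = 1 := by
    have hker : Ideal.span ({1 - (1 - Y) ^ n', C X} : Set K[X][Y])
        ≤ RingHom.ker (evalEvalRingHom (0 : K) 0) := by
      rw [Ideal.span_le]
      rintro _ (rfl | rfl)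
      · simp [RingHom.mem_ker]
      · simp [RingHom.mem_ker]
    have := hker hr1
    rw [RingHom.mem_ker, map_sub, map_one, sub_eq_zero] at this
    exact this
  obtain ⟨G, hG⟩ := hr2 _ (hBN _ (key y hyB hyv))
  rw [halg, halg] at hG
  refine ⟨r * (1 - Y) ^ n', G, ?_, ?_⟩
  · have : evalEvalRingHom (0 : K) 0 (r * (1 - Y) ^ n') = 1 := by
      rw [map_mul, hε, map_pow, map_sub, map_one, one_mul]
      simp
    exact this
  · have hG' : aevalAeval t y r * ((1 - y) ^ n' * y / t) = aevalAeval t y G := hG
    rw [map_sub, map_mul, map_mul, map_mul, map_pow, map_sub, map_one, aevalAeval_Y, aevalAeval_X,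
      ← hG']
    field_simp
    ring

/-- A primitive element of `F / K(t)`, integral over `K[t]`, vanishing at the zero `v` of `t`
and `≡ 1` at all other zeros of `t`. -/
theorem exists_separating_primitive [IsAlgClosed K] [CharZero K] (v : Place K F) {t : F}
    (htr : Transcendental K t) [FiniteDimensional K⟮t⟯ F] (hv : 0 < v.ord t) :
    ∃ y : F, IsIntegral (Algebra.adjoin K {t}) y ∧ K⟮t⟯⟮y⟯ = ⊤ ∧ v.adicValuation y < 1 ∧
      ∀ w : Place K F, 0 < w.ord t → w ≠ v → w.adicValuation (y - 1) < 1 := by
  classical
  have ht0 : t ≠ 0 := by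
    rintro rfl
    simp at hv
  obtain ⟨s, hs, -⟩ := helper204.exists_finset_zeros (K := K) (F := F) htr 0
  simp only [map_zero, sub_zero] at hs
  -- the primes of the zeros of `t`
  have hq : ∀ w : Place K F, 0 < w.ord t →
      ∃ 𝔮 : HeightOneSpectrum (integralClosure (Algebra.adjoin K {t}) F),
        Place.ofHeightOneSpectrum (K := K) (F := F) 𝔮 = w := by
    intro w hw
    obtain ⟨𝔮, -, h𝔮⟩ := helper204.exists_heightOneSpectrum_of_ord_pos htr 0 w (by simpa using hw)
    exact ⟨𝔮, h𝔮⟩
  let Q : Place K F → Ideal (integralClosure (Algebra.adjoin K {t}) F) := fun w =>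
    if h : 0 < w.ord t then (Classical.choose (hq w h)).asIdeal else ⊥
  have hQ : ∀ w : Place K F, 0 < w.ord t →
      ∃ 𝔮 : HeightOneSpectrum (integralClosure (Algebra.adjoin K {t}) F),
        Q w = 𝔮.asIdeal ∧ Place.ofHeightOneSpectrum (K := K) (F := F) 𝔮 = w := fun w h =>
    ⟨Classical.choose (hq w h), by simp only [Q, dif_pos h], Classical.choose_spec (hq w h)⟩
  obtain ⟨u, hu⟩ := IsDedekindDomain.exists_forall_sub_mem_ideal (s := s) Q (fun _ => 1)
    (fun w hw => by
      obtain ⟨𝔮, h1, -⟩ := hQ w ((hs w).mp hw)
      rw [h1]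
      exact 𝔮.prime)
    (fun w hw w' hw' hne h => by
      obtain ⟨𝔮, h1, h2⟩ := hQ w ((hs w).mp hw)
      obtain ⟨𝔮', h1', h2'⟩ := hQ w' ((hs w').mp hw')
      rw [h1, h1'] at h
      have : 𝔮 = 𝔮' := HeightOneSpectrum.ext h
      exact hne (by rw [← h2, ← h2', this]))
    (fun w => if (w : Place K F) = v then 0 else 1)
  have huval : ∀ w : Place K F, ∀ hw : 0 < w.ord t,
      w.adicValuation ((u : F) - if w = v then 0 else 1) < 1 := by
    intro w hw
    obtain ⟨𝔮, h1, h2⟩ := hQ w hw
    have hmem := hu w ((hs w).mpr hw)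
    rw [pow_one, h1] at hmem
    have hlt := (𝔮.valuation_lt_one_iff_mem (K := F) _).mpr hmem
    rw [← adicValuation_ofHeightOneSpectrum (K := K), h2] at hlt
    convert hlt using 2
    simp only [map_sub]
    congr 1
    split_ifs <;> simp
  have huv : v.adicValuation (u : F) < 1 := by
    have := huval v hv
    rwa [if_pos rfl, sub_zero] at this
  have huw : ∀ w : Place K F, 0 < w.ord t → w ≠ v → w.adicValuation ((u : F) - 1) < 1 := by
    intro w hw hne
    have := huval w hw
    rwa [if_neg hne] at this
  -- a primitive element and an integral multiple of it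
  obtain ⟨y00, hy00⟩ := Field.exists_primitive_element K⟮t⟯ F
  have halg : IsAlgebraic (Algebra.adjoin K {t}) y00 :=
    (IsFractionRing.isAlgebraic_iff (Algebra.adjoin K {t}) K⟮t⟯ F).mpr
      (Algebra.IsAlgebraic.isAlgebraic y00)
  obtain ⟨a, ha0, ha⟩ := halg.exists_integral_multiple
  have haF : (a : F) ≠ 0 := fun h => ha0 (Subtype.ext h)
  have hay : a • y00 = (a : F) * y00 := rfl
  rw [hay] at ha
  -- the family `u + c t y0`
  let yc : K → F := fun c => (u : F) + algebraMap K F c * t * ((a : F) * y00)
  haveI : Finite (IntermediateField K⟮t⟯ F) :=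
    Field.finite_intermediateField_of_exists_primitive_element K⟮t⟯ F ⟨y00, hy00⟩
  obtain ⟨c1, c2, hne, heq⟩ := Finite.exists_ne_map_eq_of_infinite (fun c : K => K⟮t⟯⟮yc c⟯)
  have htL : ∀ L : IntermediateField K⟮t⟯ F, t ∈ L := fun L => by
    have := L.algebraMap_mem (AdjoinSimple.gen K t)
    rwa [AdjoinSimple.algebraMap_gen] at this
  have hcL : ∀ (L : IntermediateField K⟮t⟯ F) (c : K), algebraMap K F c ∈ L := fun L c => by
    have := L.algebraMap_mem (algebraMap K K⟮t⟯ c)
    rwa [← IsScalarTower.algebraMap_apply] at this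
  have haL : ∀ L : IntermediateField K⟮t⟯ F, (a : F) ∈ L := fun L => by
    have h1 : (a : F) ∈ K⟮t⟯ := IntermediateField.algebra_adjoin_le_adjoin K _ a.2
    exact L.algebraMap_mem ⟨(a : F), h1⟩
  have htv : t ∈ v.toValuationSubring := helper204.mem_of_ord_nonneg v hv.le
  have hsmall : ∀ (w : Place K F) (c : K), 0 < w.ord t →
      w.adicValuation (algebraMap K F c * t * ((a : F) * y00)) < 1 := by
    intro w c hw
    have htw : t ∈ w.toValuationSubring := helper204.mem_of_ord_nonneg w hw.le
    have h1 : (a : F) * y00 ∈ w.toValuationSubring :=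
      helper204.integralClosure_le_of_mem w htw ⟨_, ha⟩
    have h2 : w.adicValuation (algebraMap K F c * ((a : F) * y00)) ≤ 1 :=
      (mem_iff_val_le_one w _).mp (mul_mem (w.algebraMap_mem' c) h1)
    have h3 : algebraMap K F c * t * ((a : F) * y00)
        = algebraMap K F c * ((a : F) * y00) * t := by ring
    rw [h3]
    exact val_mul_lt_one w h2 (val_lt_one_of_ord_pos w hw)
  refine ⟨yc c1, ?_, ?_, ?_, ?_⟩
  · -- integrality
    have h1 : IsIntegral (Algebra.adjoin K {t}) (u : F) := u.2
    have h2 : IsIntegral (Algebra.adjoin K {t}) (algebraMap K F c1 * t) := by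
      have : algebraMap K F c1 * t = algebraMap (Algebra.adjoin K {t}) F
          (algebraMap K (Algebra.adjoin K {t}) c1 * ⟨t, Algebra.self_mem_adjoin_singleton K t⟩) := rfl
      rw [this]
      exact isIntegral_algebraMap
    exact h1.add (h2.mul ha)
  · -- primitivity
    set L : IntermediateField K⟮t⟯ F := K⟮t⟯⟮yc c1⟯ with hL
    have h1 : yc c1 ∈ L := mem_adjoin_simple_self K⟮t⟯ (yc c1)
    have h2 : yc c2 ∈ L := by
      have : yc c2 ∈ K⟮t⟯⟮yc c2⟯ := mem_adjoin_simple_self K⟮t⟯ (yc c2)
      rwa [← heq] at this
    have hdiff : yc c1 - yc c2 = (algebraMap K F (c1 - c2) * t * (a : F)) * y00 := by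
      simp only [yc, map_sub]
      ring
    have he : algebraMap K F (c1 - c2) * t * (a : F) ∈ L :=
      L.mul_mem (L.mul_mem (hcL L _) (htL L)) (haL L)
    have he0 : algebraMap K F (c1 - c2) * t * (a : F) ≠ 0 :=
      mul_ne_zero (mul_ne_zero (by simpa [sub_eq_zero] using hne) ht0) haF
    have hy00L : y00 ∈ L := by
      have h3 : (algebraMap K F (c1 - c2) * t * (a : F))⁻¹ * (yc c1 - yc c2) ∈ L :=
        L.mul_mem (L.inv_mem he) (L.sub_mem h1 h2)
      rwa [hdiff, inv_mul_cancel_left₀ he0] at h3
    have hle : K⟮t⟯⟮y00⟯ ≤ L := adjoin_simple_le_iff.mpr hy00L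
    rw [hy00] at hle
    exact top_le_iff.mp hle
  · exact val_add_lt_one v huv (hsmall v c1 hv)
  · intro w hw hwv
    have : yc c1 - 1 = ((u : F) - 1) + algebraMap K F c1 * t * ((a : F) * y00) := by
      simp only [yc]
      ring
    rw [this]
    exact val_add_lt_one w (huw w hw hwv) (hsmall w c1 hw)

/-! ### The main theorem -/

/-- **S27-SC, relative form.**  `t` transcendental with `F` finite over `K(t)`, `v` a simple zero
of `t`.  Then there is a plane model `(t, y)` of `F` in which `v` is the simple point `(0, 0)`. -/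
theorem exists_simple_chart_of_finite [IsAlgClosed K] [CharZero K] [IsCurveOver K F]
    (v : Place K F) (t : F) (htr : Transcendental K t) [FiniteDimensional K⟮t⟯ F]
    (ht : v.ord t = 1) :
    ∃ (y : F) (p : K[X][Y]),
      v.adicValuation y < 1 ∧
      (∀ w : Place K F, 0 < w.ord t → w ≠ v → w.adicValuation (y - 1) < 1) ∧
      IsIntegral (Algebra.adjoin K {t}) y ∧
      p.Monic ∧ Irreducible p ∧ aevalAeval t y p = 0 ∧
      IntermediateField.adjoin K ({t, y} : Set F) = ⊤ ∧
      (∀ Q : K[X][Y], aevalAeval t y Q = 0 → p ∣ Q) ∧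
      evalEval 0 0 p = 0 ∧ evalEval 0 0 (derivative p) ≠ 0 := by
  obtain ⟨y, hyint, hyprim, hyv, hyw⟩ := exists_separating_primitive v htr (by omega : 0 < v.ord t)
  obtain ⟨H, G, hH, hHG⟩ := exists_local_relation v htr ht hyint hyv hyw
  obtain ⟨p, hpm, hpirr, hp0, hpker⟩ := exists_minimal_relation htr hyint
  obtain ⟨c, hc⟩ := hpker _ hHG
  have htv : v.adicValuation t < 1 := val_lt_one_of_ord_pos v (by omega)
  -- `p(0,0) = 0`
  have hp00 : evalEval 0 0 p = 0 := by
    apply const_eq_zero_of_val_lt_one v
    have h1 := aevalAeval_eq_add t y p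
    rw [hp0] at h1
    have h2 : algebraMap K F (evalEval 0 0 p)
        = -(y * aevalAeval t y p.divX + t * aevalAeval t y (C (p.coeff 0).divX)) := by
      linear_combination -h1
    rw [h2, Valuation.map_neg]
    have hmem : ∀ Q : K[X][Y], v.adicValuation (aevalAeval t y Q) ≤ 1 := fun Q =>
      (mem_iff_val_le_one v _).mp ((mem_valSubalgebra v _).mp
        (aevalAeval_mem (valSubalgebra v) ((mem_iff_val_le_one v _).mpr htv.le)
          ((mem_iff_val_le_one v _).mpr hyv.le) Q))
    refine val_add_lt_one v ?_ ?_
    · rw [mul_comm]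
      exact val_mul_lt_one v (hmem _) hyv
    · rw [mul_comm]
      exact val_mul_lt_one v (hmem _) htv
  refine ⟨y, p, hyv, hyw, hyint, hpm, hpirr, hp0, ?_, hpker, hp00, ?_⟩
  · have h := IntermediateField.adjoin_adjoin_left K ({t} : Set F) ({y} : Set F)
    rw [hyprim, IntermediateField.restrictScalars_top] at h
    rw [Set.insert_eq, ← h]
  · exact evalEval_derivative_ne_zero hc hp00 (by rw [hH]; exact one_ne_zero)

/-- **S27-SC: every place is a simple point of some plane model.**  `K` algebraically closed of
characteristic zero, `F / K` a curve function field, `v` a place and `t` ANY uniformizer at `v`.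
Then there are `y : F` and a monic irreducible `p : K[X][Y]` such that `F = K(t, y)`, `p`
generates the relations between `t` and `y`, both `t` and `y` vanish at `v` (and `y ≡ 1` at all
other zeros of `t`, so `v` is the only place over the origin), and the origin is a SIMPLE point:
`p(0,0) = 0`, `(∂p/∂Y)(0,0) ≠ 0`. -/
theorem exists_simple_chart [IsAlgClosed K] [CharZero K] [IsCurveOver K F]
    [Algebra.EssFiniteType K F] (v : Place K F) (t : F) (ht : v.ord t = 1) :
    ∃ (y : F) (p : K[X][Y]),
      v.adicValuation y < 1 ∧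
      (∀ w : Place K F, 0 < w.ord t → w ≠ v → w.adicValuation (y - 1) < 1) ∧
      IsIntegral (Algebra.adjoin K {t}) y ∧
      p.Monic ∧ Irreducible p ∧ aevalAeval t y p = 0 ∧
      IntermediateField.adjoin K ({t, y} : Set F) = ⊤ ∧
      (∀ Q : K[X][Y], aevalAeval t y Q = 0 → p ∣ Q) ∧
      evalEval 0 0 p = 0 ∧ evalEval 0 0 (derivative p) ≠ 0 := by
  have htr : Transcendental K t := helper1370.transcendental_of_ord_ne_zero v (by omega)
  haveI : FiniteDimensional K⟮t⟯ F := Fermat.Agent.S27.helper5411.finite_adjoin_simple htr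
  exact exists_simple_chart_of_finite v t htr ht

/-- Every place has a chart: a uniformizer `t` and a plane model `(t, y)` with `v` at the simple
point `(0, 0)`. -/
theorem exists_simple_chart' [IsAlgClosed K] [CharZero K] [IsCurveOver K F]
    [Algebra.EssFiniteType K F] (v : Place K F) :
    ∃ (t y : F) (p : K[X][Y]), v.ord t = 1 ∧
      v.adicValuation y < 1 ∧
      (∀ w : Place K F, 0 < w.ord t → w ≠ v → w.adicValuation (y - 1) < 1) ∧
      IsIntegral (Algebra.adjoin K {t}) y ∧
      p.Monic ∧ Irreducible p ∧ aevalAeval t y p = 0 ∧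
      IntermediateField.adjoin K ({t, y} : Set F) = ⊤ ∧
      (∀ Q : K[X][Y], aevalAeval t y Q = 0 → p ∣ Q) ∧
      evalEval 0 0 p = 0 ∧ evalEval 0 0 (derivative p) ≠ 0 := by
  obtain ⟨t, ht⟩ := helper1370.exists_uniformizer v
  obtain ⟨y, p, h⟩ := exists_simple_chart v t ht
  exact ⟨t, y, p, ht, h⟩

/-- `v` is the ONLY place at which both chart coordinates vanish. -/
theorem eq_of_val_lt_one_of_chart (v : Place K F) {t y : F}
    (hyw : ∀ w : Place K F, 0 < w.ord t → w ≠ v → w.adicValuation (y - 1) < 1)
    (w : Place K F) (hwt : 0 < w.ord t) (hwy : w.adicValuation y < 1) : w = v := by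
  by_contra hne
  have h1 := hyw w hwt hne
  have h2 : w.adicValuation (1 : F) < 1 := by
    have h3 : (1 : F) = y + -(y - 1) := by ring
    rw [h3]
    exact val_add_lt_one w hwy (by rwa [Valuation.map_neg])
  rw [map_one] at h2
  exact lt_irrefl _ h2

end Core

end Fermat.Agent.S27.helper2737
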