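import Fermat.Agent.S27.helper27_CoreBSpec
import Fermat.Agent.S27.helper3093_GoodCoord
import Fermat.Agent.S27.helper5831_ChartKit

/-!
# S27, CORE B: the chunk assembly (helper27)

`chunk_of : helper3813.Stmt_T2 → Stmt_INJpos → helper3093.Stmt_GoodCoord → Stmt_ChartExists →
  Stmt_GoodTuple → Stmt_FibreUnram → Stmt_Ev → Stmt_Chunk`.

Construction.  Fix a place `Pinf` and three pairwise disjoint nonspecial reduced tuples
`A, B, C` off `Pinf` (`Stmt_GoodTuple`).  Choose good coordinates at the `3g` points with pairwise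
disjoint zero sets and poles only at `Pinf` (`exists_goodCoord_family`), and charts at all their
zeros (`Stmt_ChartExists`); the chart through a base point is its "main sheet".

* `ψ q := [∑ C_i(q_i) - ∑ C_i]` along the main sheets of `C`;
* `m a b := E₃ (Sum.elim (E₁ a) (E₂ b))`, where `E₁ : C → A`, `E₂ : C → B`, `E₃ : A ⊔ B → C` are
  the three maps given by `helper3813.Stmt_T2`;
* injectivity of `ψ` is `Stmt_INJpos`;
* for an arbitrary chart `(u, Q, ρ)`, `P = Q 0`: a good coordinate `t_P` at `P`, `Stmt_T2` with one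
  moving point onto the target `A` (or `B` if `P` is a point of `A`), and
  `Q s = R_P (ev (Q s) t_P)` for small `s` (`Stmt_FibreUnram` + separation of charts).
-/

set_option autoImplicit false

open AlgebraicCurve IntermediateField
open scoped Topology

namespace Fermat.Agent.S27.helper27

open Fermat.Agent.S27.helper6247 Fermat.Agent.S24

noncomputable section

/-! ## Generalities -/

/-- A finite family of positive reals has a positive lower bound. -/
theorem exists_pos_le_of_fintype {S : Type*} [Fintype S] (f : S → ℝ) (hf : ∀ s, 0 < f s) :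
    ∃ r > 0, ∀ s, r ≤ f s := by
  classical
  refine ⟨(insert (1 : ℝ) (Finset.univ.image f)).inf' (Finset.insert_nonempty _ _) id, ?_, ?_⟩
  · rw [gt_iff_lt, Finset.lt_inf'_iff]
    intro b hb
    rcases Finset.mem_insert.mp hb with rfl | hb
    · exact one_pos
    · obtain ⟨s, -, rfl⟩ := Finset.mem_image.mp hb
      exact hf s
  · intro s
    exact Finset.inf'_le id
      (Finset.mem_insert_of_mem (Finset.mem_image_of_mem f (Finset.mem_univ s)))

section Divisors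

variable {K : Type*} {F : Type*} [Field K] [Field F] [Algebra K F]

theorem sumDiv_sum_elim {ι ι' : Type*} [Fintype ι] [Fintype ι'] (P : ι → Place K F)
    (P' : ι' → Place K F) : sumDiv (Sum.elim P P') = sumDiv P + sumDiv P' := by
  simp [sumDiv, Fintype.sum_sum_type]

theorem sumDiv_unit (P : Unit → Place K F) : sumDiv P = pt (P ()) := by
  simp [sumDiv]

theorem degree_sumDiv (hdeg : ∀ v : Place K F, v.deg = 1) {ι : Type*} [Fintype ι]
    (P : ι → Place K F) : Divisor.degree (sumDiv P) = Fintype.card ι := by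
  rw [sumDiv, map_sum]
  simp [pt, Divisor.degree_single, hdeg]

theorem sumDiv_sub_mem_degZero (hdeg : ∀ v : Place K F, v.deg = 1) {ι : Type*} [Fintype ι]
    (P P' : ι → Place K F) : sumDiv P - sumDiv P' ∈ Divisor.degZero (K := K) (F := F) := by
  rw [Divisor.mem_degZero, map_sub, degree_sumDiv hdeg, degree_sumDiv hdeg, sub_self]

/-- Two degree zero divisors whose difference is principal have the same class. -/
theorem cls_eq_of_principal {D₁ D₂ : Divisor K F}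
    (h₁ : D₁ ∈ Divisor.degZero (K := K) (F := F)) (h₂ : D₂ ∈ Divisor.degZero (K := K) (F := F))
    (hp : D₁ - D₂ ∈ Divisor.principal (K := K) (F := F)) : cls D₁ = cls D₂ := by
  have h := cls_eq_zero_of_mem_principal (sub_mem h₁ h₂) hp
  rw [cls_sub h₁ h₂] at h
  exact sub_eq_zero.mp h

end Divisors

section FF

variable {F : Type} [Field F] [Algebra ℂ F]

/-- The zeros of a transcendental function are finitely many. -/
theorem finite_zeros (x : F) [FiniteDimensional ℂ⟮x⟯ F] {t : F} (ht : Transcendental ℂ t) :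
    {v : Place ℂ F | 0 < v.ord t}.Finite := by
  have : FiniteDimensional ℂ⟮t⟯ F :=
    helper483.finiteDimensional_adjoin_simple_of_transcendental x ht
  obtain ⟨s, hs, -⟩ := helper483.exists_finset_zeros_self t ht
  exact s.finite_toSet.subset fun v hv => (hs v).mpr hv

/-- There are places outside any finite set. -/
theorem exists_place_notMem (x : F) (hx : Transcendental ℂ x) [FiniteDimensional ℂ⟮x⟯ F]
    (T : Set (Place ℂ F)) (hT : T.Finite) : ∃ v : Place ℂ F, v ∉ T := by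
  have hz : ∀ c : ℂ, ∃ v : Place ℂ F, 0 < v.ord (x - algebraMap ℂ F c) := by
    intro c
    obtain ⟨s, hs1, hs2⟩ := helper483.exists_finset_zeros x hx c
    have hpos : 0 < Module.finrank ℂ⟮x⟯ F := Module.finrank_pos
    have hne : s.Nonempty := by
      rw [Finset.nonempty_iff_ne_empty]
      rintro rfl
      rw [Finset.sum_empty] at hs2
      omega
    obtain ⟨v, hv⟩ := hne
    exact ⟨v, (hs1 v).mp hv⟩
  choose f hf using hz
  have hinj : Function.Injective f := by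
    intro c c' h
    have h2 := hf c'
    rw [← h] at h2
    exact helper483.ord_sub_algebraMap_pos_unique (f c) (hf c) h2
  by_contra hall
  have hall' : ∀ v : Place ℂ F, v ∈ T := fun v => by
    by_contra hv
    exact hall ⟨v, hv⟩
  have huniv : (Set.univ : Set (Place ℂ F)).Finite := hT.subset fun v _ => hall' v
  have h1 : Finite (Place ℂ F) := Set.finite_univ_iff.mp huniv
  have h2 : Finite ℂ := Finite.of_injective f hinj
  exact not_finite ℂ

/-- **Family of good coordinates**: pairwise distinct places `P k ≠ Pinf` off a finite set `T`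
carry coordinates `t k` with `ord_(P k) (t k) = 1`, only simple zeros, no zero in `T`, poles only
at `Pinf`, and pairwise disjoint zero sets. -/
theorem exists_goodCoord_family (hGC : helper3093.Stmt_GoodCoord.{0, 0}) (x : F)
    (hx : Transcendental ℂ x) [FiniteDimensional ℂ⟮x⟯ F] {ι : Type} [Fintype ι]
    (P : ι → Place ℂ F) (hP : Function.Injective P) (Pinf : Place ℂ F)
    (hPinf : ∀ k, P k ≠ Pinf) (T : Set (Place ℂ F)) (hT : T.Finite) (hPT : ∀ k, P k ∉ T) :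
    ∃ t : ι → F, (∀ k, Transcendental ℂ (t k)) ∧ (∀ k, (P k).ord (t k) = 1) ∧
      (∀ k (v : Place ℂ F), 0 < v.ord (t k) → v.ord (t k) = 1) ∧
      (∀ k, ∀ v ∈ T, v.ord (t k) ≤ 0) ∧
      (∀ k (v : Place ℂ F), v ≠ Pinf → 0 ≤ v.ord (t k)) ∧
      (∀ k k' (v : Place ℂ F), 0 < v.ord (t k) → 0 < v.ord (t k') → k = k') := by
  classical
  have key : ∀ s : Finset ι, ∀ T : Set (Place ℂ F), T.Finite → (∀ k ∈ s, P k ∉ T) →
      ∃ t : ι → F, (∀ k ∈ s, Transcendental ℂ (t k) ∧ (P k).ord (t k) = 1 ∧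
        (∀ v : Place ℂ F, 0 < v.ord (t k) → v.ord (t k) = 1) ∧
        (∀ v ∈ T, v.ord (t k) ≤ 0) ∧ (∀ v : Place ℂ F, v ≠ Pinf → 0 ≤ v.ord (t k))) ∧
        (∀ k ∈ s, ∀ k' ∈ s, ∀ v : Place ℂ F, 0 < v.ord (t k) → 0 < v.ord (t k') → k = k') := by
    intro s
    induction s using Finset.induction_on with
    | empty =>
      intro T _ _
      exact ⟨fun _ => 0, fun k hk => absurd hk (Finset.notMem_empty k),
        fun k hk => absurd hk (Finset.notMem_empty k)⟩
    | insert a s ha ih =>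
      intro T hT hPT
      have hT' : (T ∪ {P a}).Finite := hT.union (Set.finite_singleton _)
      have hPT' : ∀ k ∈ s, P k ∉ T ∪ {P a} := by
        intro k hk hmem
        rcases hmem with hmem | hmem
        · exact hPT k (Finset.mem_insert_of_mem hk) hmem
        · have : k = a := hP hmem
          exact ha (this ▸ hk)
      obtain ⟨t', ht', hdisj'⟩ := ih (T ∪ {P a}) hT' hPT'
      set Z : Set (Place ℂ F) := ⋃ k ∈ s, {v : Place ℂ F | 0 < v.ord (t' k)} with hZ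
      have hZfin : Z.Finite :=
        Set.Finite.biUnion s.finite_toSet fun k hk => finite_zeros x (ht' k hk).1
      have hPaT : P a ∉ T ∪ Z := by
        rintro (hmem | hmem)
        · exact hPT a (Finset.mem_insert_self a s) hmem
        · rw [hZ, Set.mem_iUnion₂] at hmem
          obtain ⟨k, hk, hv⟩ := hmem
          have := (ht' k hk).2.2.2.1 (P a) (Or.inr rfl)
          exact absurd hv (not_lt.mpr this)
      obtain ⟨ta, hta1, hta2, hta3, hta4, hta5⟩ :=
        hGC ℂ F x hx (P a) Pinf (T ∪ Z) (hT.union hZfin) hPaT (hPinf a).symm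
      refine ⟨Function.update t' a ta, ?_, ?_⟩
      · intro k hk
        rcases Finset.mem_insert.mp hk with rfl | hk
        · rw [Function.update_self]
          exact ⟨hta1, hta2, hta3, fun v hv => hta4 v (Or.inl hv), hta5⟩
        · have hka : k ≠ a := fun h => ha (h ▸ hk)
          rw [Function.update_of_ne hka]
          obtain ⟨h1, h2, h3, h4, h5⟩ := ht' k hk
          exact ⟨h1, h2, h3, fun v hv => h4 v (Or.inl hv), h5⟩
      · have hcross : ∀ k ∈ s, ∀ v : Place ℂ F, 0 < v.ord ta → 0 < v.ord (t' k) → False := by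
          intro k hk v hva hvk
          have hvZ : v ∈ Z := by
            rw [hZ, Set.mem_iUnion₂]
            exact ⟨k, hk, hvk⟩
          exact absurd hva (not_lt.mpr (hta4 v (Or.inr hvZ)))
        intro k hk k' hk' v hv hv'
        by_cases hka : k = a
        · by_cases hka' : k' = a
          · rw [hka, hka']
          · have hks' : k' ∈ s := (Finset.mem_insert.mp hk').resolve_left hka'
            rw [hka, Function.update_self] at hv
            rw [Function.update_of_ne hka'] at hv'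
            exact (hcross k' hks' v hv hv').elim
        · have hks : k ∈ s := (Finset.mem_insert.mp hk).resolve_left hka
          rw [Function.update_of_ne hka] at hv
          by_cases hka' : k' = a
          · rw [hka', Function.update_self] at hv'
            exact (hcross k hks v hv' hv).elim
          · have hks' : k' ∈ s := (Finset.mem_insert.mp hk').resolve_left hka'
            rw [Function.update_of_ne hka'] at hv'
            exact hdisj' k hks k' hks' v hv hv'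
  obtain ⟨t, ht, hdisj⟩ := key Finset.univ T hT fun k _ => hPT k
  exact ⟨t, fun k => (ht k (Finset.mem_univ k)).1, fun k => (ht k (Finset.mem_univ k)).2.1,
    fun k => (ht k (Finset.mem_univ k)).2.2.1, fun k => (ht k (Finset.mem_univ k)).2.2.2.1,
    fun k => (ht k (Finset.mem_univ k)).2.2.2.2,
    fun k k' v hv hv' => hdisj k (Finset.mem_univ k) k' (Finset.mem_univ k') v hv hv'⟩

/-! ## Sheets over a family of good coordinates -/

/-- **Sheet package**: for a family of good coordinates `t k` (simple zeros, pairwise disjoint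
zero sets, `Pinf` not a zero), the charts `ch v (t k)` at all zeros `v` of `t k`, with a common
radius.  The main sheet of `k` is the chart `ch (P k) (t k)`. -/
theorem exists_sheets (x : F) [FiniteDimensional ℂ⟮x⟯ F]
    (ch : Place ℂ F → F → ℂ → Place ℂ F) (rad : Place ℂ F → F → ℝ)
    (hch : ∀ (v : Place ℂ F) (u : F), v.ord u = 1 → IsChart u (ch v u) (rad v u) ∧ ch v u 0 = v)
    {ι : Type} [Fintype ι] (P : ι → Place ℂ F) (t : ι → F) (Pinf : Place ℂ F)
    (htr : ∀ k, Transcendental ℂ (t k)) (hP1 : ∀ k, (P k).ord (t k) = 1)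
    (hsimple : ∀ k (v : Place ℂ F), 0 < v.ord (t k) → v.ord (t k) = 1)
    (hpole : ∀ k (v : Place ℂ F), v ≠ Pinf → 0 ≤ v.ord (t k))
    (hPinf : ∀ k, Pinf.ord (t k) ≤ 0)
    (hdisj : ∀ k k' (v : Place ℂ F), 0 < v.ord (t k) → 0 < v.ord (t k') → k = k') :
    ∃ (S : Type) (_ : Fintype S) (_ : DecidableEq S) (κ : S → ι) (main : ι → S)
      (Qb : S → ℂ → Place ℂ F) (rb : ℝ), 0 < rb ∧ (∀ k, κ (main k) = k) ∧
      (∀ s, IsChart (t (κ s)) (Qb s) rb) ∧
      (∀ (k : ι) (v : Place ℂ F), 0 < v.ord (t k) → ∃ s, κ s = k ∧ v = Qb s 0) ∧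
      Function.Injective (fun s => Qb s 0) ∧ (∀ s, 0 < (Qb s 0).ord (t (κ s))) ∧
      (∀ k s, 0 ≤ (Qb s 0).ord (t k)) ∧
      (∀ k, Qb (main k) = ch (P k) (t k)) ∧ (∀ k, rb ≤ rad (P k) (t k)) := by
  classical
  let hfin : ∀ k, Fintype {v : Place ℂ F // 0 < v.ord (t k)} := fun k =>
    (finite_zeros x (htr k)).fintype
  have hone : ∀ s : (Σ k : ι, {v : Place ℂ F // 0 < v.ord (t k)}), s.2.1.ord (t s.1) = 1 :=
    fun s => hsimple s.1 s.2.1 s.2.2
  have h0 : ∀ s : (Σ k : ι, {v : Place ℂ F // 0 < v.ord (t k)}),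
      ch s.2.1 (t s.1) 0 = s.2.1 := fun s => (hch _ _ (hone s)).2
  obtain ⟨rb, hrb, hle⟩ := exists_pos_le_of_fintype
    (fun s : (Σ k : ι, {v : Place ℂ F // 0 < v.ord (t k)}) => rad s.2.1 (t s.1))
    (fun s => (hch _ _ (hone s)).1.pos)
  refine ⟨Σ k : ι, {v : Place ℂ F // 0 < v.ord (t k)}, inferInstance, Classical.decEq _,
    Sigma.fst, fun k => ⟨k, ⟨P k, by rw [hP1 k]; exact one_pos⟩⟩,
    fun s => ch s.2.1 (t s.1), rb, hrb, fun _ => rfl, ?_, ?_, ?_, ?_, ?_, fun _ => rfl,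
    fun k => hle ⟨k, ⟨P k, by rw [hP1 k]; exact one_pos⟩⟩⟩
  · intro s
    exact helper5831.chart_shrink (hch _ _ (hone s)).1 hrb (hle s)
  · intro k v hv
    exact ⟨⟨k, ⟨v, hv⟩⟩, rfl, (h0 ⟨k, ⟨v, hv⟩⟩).symm⟩
  · intro s s' h
    simp only at h
    rw [h0, h0] at h
    obtain ⟨k, v, hv⟩ := s
    obtain ⟨k', v', hv'⟩ := s'
    simp only at h
    subst h
    have hk : k = k' := hdisj k k' v hv hv'
    subst hk
    rfl
  · intro s
    show 0 < (ch s.2.1 (t s.1) 0).ord (t s.1)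
    rw [h0]
    exact s.2.2
  · intro k s
    show 0 ≤ (ch s.2.1 (t s.1) 0).ord (t k)
    rw [h0]
    refine hpole k _ fun hEq => ?_
    have h1 := s.2.2
    rw [hEq] at h1
    exact absurd h1 (not_lt.mpr (hPinf s.1))

/-- `helper3813.Stmt_T2` applied to a sheet package and a nonspecial target. -/
theorem t2_apply (hT2 : helper3813.Stmt_T2) (x : F) (hx : Transcendental ℂ x)
    [FiniteDimensional ℂ⟮x⟯ F] {ι : Type} [Fintype ι] (t : ι → F) (Pinf : Place ℂ F)
    (hpole : ∀ k (v : Place ℂ F), v ≠ Pinf → 0 ≤ v.ord (t k))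
    {S : Type} [Fintype S] [DecidableEq S] (κ : S → ι) (main : ι → S)
    (Qb : S → ℂ → Place ℂ F) (rb : ℝ)
    (h1 : ∀ k, κ (main k) = k) (h2 : ∀ s, IsChart (t (κ s)) (Qb s) rb)
    (h3 : ∀ (k : ι) (v : Place ℂ F), 0 < v.ord (t k) → ∃ s, κ s = k ∧ v = Qb s 0)
    (h4 : Function.Injective (fun s => Qb s 0)) (h5 : ∀ s, 0 < (Qb s 0).ord (t (κ s)))
    (h6 : ∀ k s, 0 ≤ (Qb s 0).ord (t k))
    (uC : Fin (genusFF ℂ F) → F) (QC : Fin (genusFF ℂ F) → ℂ → Place ℂ F) (rC : ℝ)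
    (hC : ∀ i, IsChart (uC i) (QC i) rC) (hCinj : Function.Injective (fun i => QC i 0))
    (hCns : IsNonspecial (sumDiv fun i => QC i 0))
    (hCz : ∀ i k, (QC i 0).ord (t k) ≤ 0) (hCinf : ∀ i, QC i 0 ≠ Pinf) :
    ∃ ε > 0, ∃ E : (ι → ℂ) → (Fin (genusFF ℂ F) → ℂ),
      AnalyticOnNhd ℂ E (Metric.ball 0 ε) ∧ E 0 = 0 ∧
      (∀ q ∈ Metric.ball (0 : ι → ℂ) ε, (∀ k, ‖q k‖ < rb) ∧ ∀ i, ‖E q i‖ < rC) ∧
      ∀ q ∈ Metric.ball (0 : ι → ℂ) ε,
        sumDiv (fun k => Qb (main k) (q k)) - sumDiv (fun k => Qb (main k) 0)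
          - sumDiv (fun i => QC i (E q i)) + sumDiv (fun i => QC i 0)
          ∈ Divisor.principal (K := ℂ) (F := F) := by
  refine hT2 F x hx ι S κ main t Qb rb uC QC rC h1 h2 h3 hC ?_ h6
    (fun k i => hpole k _ (hCinf i)) hCns
  rintro (s | i) (s' | i') h
  · exact congrArg Sum.inl (h4 h)
  · exfalso
    simp only [Sum.elim_inl, Sum.elim_inr] at h
    have h7 := h5 s
    rw [h] at h7
    exact absurd h7 (not_lt.mpr (hCz i' _))
  · exfalso
    simp only [Sum.elim_inl, Sum.elim_inr] at h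
    have h7 := h5 s'
    rw [← h] at h7
    exact absurd h7 (not_lt.mpr (hCz i _))
  · exact congrArg Sum.inr (hCinj h)

/-- **Sheet lemma**: an arbitrary chart `Q` centred at a zero of a coordinate `t` with a full
unramified fibre coincides near its centre with the sheet through that zero, reparametrised by
`s ↦ t (Q s)`. -/
theorem chart_eq_sheet (hFU : Stmt_FibreUnram) (hE : helper5831.EvOK ℂ F) (x : F)
    (hx : Transcendental ℂ x) [FiniteDimensional ℂ⟮x⟯ F]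
    {u : F} {Q : ℂ → Place ℂ F} {ρ : ℝ} (hQ : IsChart u Q ρ) (t : F) (htr : Transcendental ℂ t)
    {S : Type} [Fintype S] (Qb : S → ℂ → Place ℂ F) (rb : ℝ) (hb : ∀ s, IsChart t (Qb s) rb)
    (hex : ∀ v : Place ℂ F, 0 < v.ord t → ∃ s, v = Qb s 0)
    (hinj : Function.Injective (fun s => Qb s 0)) (s₀ : S) (hs₀ : Qb s₀ 0 = Q 0)
    (η : ℝ) (hη : 0 < η) :
    ∃ δ > 0, ContinuousOn (fun s => ev (Q s) t) (Metric.ball 0 δ) ∧ ev (Q 0) t = 0 ∧
      ∀ s ∈ Metric.ball (0 : ℂ) δ, ‖ev (Q s) t‖ < η ∧ Q s = Qb s₀ (ev (Q s) t) := by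
  classical
  have h0ρ : (0 : ℂ) ∈ Metric.ball (0 : ℂ) ρ := Metric.mem_ball_self hQ.pos
  have hrb : 0 < rb := (hb s₀).pos
  have h0rb : (0 : ℂ) ∈ Metric.ball (0 : ℂ) rb := Metric.mem_ball_self hrb
  have hord1 : (Q 0).ord t = 1 := by
    have := (hb s₀).unif 0 h0rb
    rwa [map_zero, sub_zero, hs₀] at this
  have hreg : 0 ≤ (Q 0).ord t := by rw [hord1]; norm_num
  have hθ0 : ev (Q 0) t = 0 := by
    have := helper5831.chart_ev_u hE (hb s₀) h0rb
    rwa [hs₀] at this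
  obtain ⟨hev1, han⟩ := hQ.analytic t 0 h0ρ hreg
  -- the fibre of `t` over small values
  obtain ⟨δ₁, hδ₁, hfib⟩ := hFU F x hx t (Fintype.card S)
    (fun k => Qb ((Fintype.equivFin S).symm k)) (fun _ => rb)
    (fun k => hb ((Fintype.equivFin S).symm k)) (fun v hv => by
      obtain ⟨s, hs⟩ := hex v hv
      exact ⟨Fintype.equivFin S s, by rw [Equiv.symm_apply_apply]; exact hs⟩)
  -- separation from the other sheets
  have hsep : ∀ s : S, ∃ d > 0, s ≠ s₀ →
      ∀ z z' : ℂ, ‖z‖ < d → ‖z'‖ < d → Q z ≠ Qb s z' := by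
    intro s
    by_cases hs : s = s₀
    · exact ⟨1, one_pos, fun h => absurd hs h⟩
    · have hne : Q 0 ≠ Qb s 0 := by
        rw [← hs₀]
        exact fun h => hs (hinj h.symm)
      obtain ⟨d, hd, hd'⟩ := helper5831.chart_separation hE hQ (hb s) h0ρ h0rb hne
      exact ⟨d, hd, fun _ z z' hz hz' =>
        hd' z z' (by rwa [sub_zero]) (by rwa [sub_zero])⟩
  choose d hd hd' using hsep
  obtain ⟨δ₂, hδ₂, hδ₂le⟩ := exists_pos_le_of_fintype d hd
  have hcont : ContinuousAt (fun s => ev (Q s) t) 0 := han.continuousAt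
  have hsmall : ∀ᶠ s in 𝓝 (0 : ℂ), ‖ev (Q s) t‖ < min η (min δ₁ δ₂) := by
    have h1 : Filter.Tendsto (fun s => ‖ev (Q s) t‖) (𝓝 (0 : ℂ)) (𝓝 ‖ev (Q 0) t‖) := hcont.norm
    rw [hθ0, norm_zero] at h1
    exact h1.eventually (gt_mem_nhds (lt_min hη (lt_min hδ₁ hδ₂)))
  have han' : ∀ᶠ s in 𝓝 (0 : ℂ), AnalyticAt ℂ (fun s => ev (Q s) t) s :=
    han.eventually_analyticAt
  have hnear : ∀ᶠ s in 𝓝 (0 : ℂ), ‖s‖ < δ₂ := by
    have h1 : Filter.Tendsto (fun s : ℂ => ‖s‖) (𝓝 0) (𝓝 ‖(0 : ℂ)‖) :=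
      (continuous_norm.tendsto (0 : ℂ))
    rw [norm_zero] at h1
    exact h1.eventually (gt_mem_nhds hδ₂)
  obtain ⟨δ, hδ, hball⟩ :=
    Metric.eventually_nhds_iff.mp (hev1.and (hsmall.and (han'.and hnear)))
  refine ⟨δ, hδ, ?_, hθ0, ?_⟩
  · intro s hs
    exact (hball (Metric.mem_ball.mp hs)).2.2.1.continuousAt.continuousWithinAt
  · intro s hs
    obtain ⟨hreg_s, hsm, -, hs2⟩ := hball (Metric.mem_ball.mp hs)
    refine ⟨lt_of_lt_of_le hsm (min_le_left _ _), ?_⟩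
    have hzero : 0 < (Q s).ord (t - algebraMap ℂ F (ev (Q s) t)) := by
      rcases hE.ev_spec (Q s) hreg_s with h | h
      · exfalso
        apply htr
        rw [sub_eq_zero] at h
        rw [h]
        exact isAlgebraic_algebraMap _
      · exact h
    obtain ⟨k, hk⟩ := hfib (ev (Q s) t)
      (lt_of_lt_of_le hsm ((min_le_right _ _).trans (min_le_left _ _))) (Q s) hzero
    by_cases hks : (Fintype.equivFin S).symm k = s₀
    · rw [hks] at hk
      exact hk
    · exfalso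
      exact hd' _ hks s (ev (Q s) t) (lt_of_lt_of_le hs2 (hδ₂le _))
        (lt_of_lt_of_le hsm (((min_le_right _ _).trans (min_le_right _ _)).trans (hδ₂le _))) hk

/-- **Local step**: along an arbitrary chart `Q`, the class `[Q s - Q 0]` is the class
`[∑ RX i (w s i) - ∑ RX i 0]` for a continuous `w`, for any nonspecial reduced target with charts
`RX` whose centres differ from `Q 0`. -/
theorem chart_to_target (hT2 : helper3813.Stmt_T2) (hGC : helper3093.Stmt_GoodCoord.{0, 0})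
    (hCE : Stmt_ChartExists) (hFU : Stmt_FibreUnram) (hE : helper5831.EvOK ℂ F) (x : F)
    (hx : Transcendental ℂ x) [FiniteDimensional ℂ⟮x⟯ F]
    {u : F} {Q : ℂ → Place ℂ F} {ρ : ℝ} (hQ : IsChart u Q ρ)
    (uX : Fin (genusFF ℂ F) → F) (RX : Fin (genusFF ℂ F) → ℂ → Place ℂ F) (rX : ℝ)
    (hX : ∀ i, IsChart (uX i) (RX i) rX) (hXinj : Function.Injective (fun i => RX i 0))
    (hXns : IsNonspecial (sumDiv fun i => RX i 0)) (hXP : ∀ i, RX i 0 ≠ Q 0) :
    ∃ δ > 0, ∃ w : ℂ → Fin (genusFF ℂ F) → ℂ,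
      ContinuousOn w (Metric.ball (0 : ℂ) δ) ∧ w 0 = 0 ∧
      ∀ s ∈ Metric.ball (0 : ℂ) δ,
        pt (Q s) - pt (Q 0) - sumDiv (fun i => RX i (w s i)) + sumDiv (fun i => RX i 0)
          ∈ Divisor.principal (K := ℂ) (F := F) := by
  classical
  have : Nonempty (Place ℂ F) := ⟨Q 0⟩
  have hce : ∀ (v : Place ℂ F) (u : F), v.ord u = 1 →
      ∃ (Q : ℂ → Place ℂ F) (r : ℝ), IsChart u Q r ∧ Q 0 = v := fun v u h => hCE F x hx v u h
  choose! ch rad hch using hce
  have hTXfin : (Set.range fun i => RX i 0).Finite := Set.finite_range _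
  obtain ⟨Pinf, hPinf⟩ := exists_place_notMem x hx ({Q 0} ∪ Set.range fun i => RX i 0)
    ((Set.finite_singleton _).union hTXfin)
  have hPinfQ : Pinf ≠ Q 0 := fun h => hPinf (Or.inl h)
  have hPinfX : ∀ i, RX i 0 ≠ Pinf := fun i h => hPinf (Or.inr ⟨i, h⟩)
  obtain ⟨tP, htr, hP1, hsimple, hT, hpole⟩ := hGC ℂ F x hx (Q 0) Pinf
    ({Pinf} ∪ Set.range fun i => RX i 0) ((Set.finite_singleton _).union hTXfin)
    (by
      rintro (h | ⟨i, h⟩)
      · exact hPinfQ h.symm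
      · exact hXP i h) hPinfQ
  obtain ⟨S, hSf, hSd, κ, main, Qb, rb, hrb, h1, h2, h3, h4, h5, h6, h7, h8⟩ :=
    exists_sheets x ch rad hch (fun _ : Unit => Q 0) (fun _ => tP) Pinf (fun _ => htr)
      (fun _ => hP1) (fun _ => hsimple) (fun _ => hpole) (fun _ => hT Pinf (Or.inl rfl))
      (fun _ _ _ _ _ => rfl)
  obtain ⟨ε, hε, E, hEan, hE0, hEsm, hEpr⟩ := t2_apply hT2 x hx (fun _ : Unit => tP) Pinf
    (fun _ => hpole) κ main Qb rb h1 h2 h3 h4 h5 h6 uX RX rX hX hXinj hXns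
    (fun i _ => hT (RX i 0) (Or.inr ⟨i, rfl⟩)) hPinfX
  have hmain0 : Qb (main ()) 0 = Q 0 := by
    rw [h7 ()]
    exact (hch (Q 0) tP hP1).2
  obtain ⟨δ, hδ, hθc, hθ0, hθ⟩ := chart_eq_sheet hFU hE x hx hQ tP htr Qb rb h2
    (fun v hv => by
      obtain ⟨s, -, hs⟩ := h3 () v hv
      exact ⟨s, hs⟩) h4 (main ()) hmain0 ε hε
  have hmem : ∀ s ∈ Metric.ball (0 : ℂ) δ,
      (fun _ : Unit => ev (Q s) tP) ∈ Metric.ball (0 : Unit → ℂ) ε := by
    intro s hs
    rw [Metric.mem_ball, dist_zero_right, pi_norm_lt_iff hε]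
    exact fun _ => (hθ s hs).1
  refine ⟨δ, hδ, fun s => E (fun _ => ev (Q s) tP), ?_, ?_, ?_⟩
  · exact hEan.continuousOn.comp (continuousOn_pi.mpr fun _ => hθc) hmem
  · show E (fun _ => ev (Q 0) tP) = 0
    rw [hθ0]
    exact hE0
  · intro s hs
    have h9 := hEpr _ (hmem s hs)
    rw [sumDiv_unit, sumDiv_unit, ← (hθ s hs).2, hmain0] at h9
    exact h9

/-! ## The chunk from its analytic data -/

/-- The group chunk from the three `T2` maps, the injectivity statement and the local step.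
(Pure bookkeeping: classes in `Pic⁰`, composition of holomorphic maps.) -/
theorem chunk_core {g : ℕ} (hdeg : ∀ v : Place ℂ F, v.deg = 1)
    (RA RB RC : Fin g → ℂ → Place ℂ F) (ε₁ ε₂ ε₃ ε₄ : ℝ)
    (hε₁ : 0 < ε₁) (hε₂ : 0 < ε₂) (hε₃ : 0 < ε₃) (hε₄ : 0 < ε₄)
    (E₁ E₂ : (Fin g → ℂ) → (Fin g → ℂ)) (E₃ : (Fin g ⊕ Fin g → ℂ) → (Fin g → ℂ))
    (hE₁an : AnalyticOnNhd ℂ E₁ (Metric.ball 0 ε₁)) (hE₁0 : E₁ 0 = 0)
    (hE₁ : ∀ q ∈ Metric.ball (0 : Fin g → ℂ) ε₁,
      sumDiv (fun k => RC k (q k)) - sumDiv (fun k => RC k 0)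
        - sumDiv (fun i => RA i (E₁ q i)) + sumDiv (fun i => RA i 0)
        ∈ Divisor.principal (K := ℂ) (F := F))
    (hE₂an : AnalyticOnNhd ℂ E₂ (Metric.ball 0 ε₂)) (hE₂0 : E₂ 0 = 0)
    (hE₂ : ∀ q ∈ Metric.ball (0 : Fin g → ℂ) ε₂,
      sumDiv (fun k => RC k (q k)) - sumDiv (fun k => RC k 0)
        - sumDiv (fun i => RB i (E₂ q i)) + sumDiv (fun i => RB i 0)
        ∈ Divisor.principal (K := ℂ) (F := F))
    (hE₃an : AnalyticOnNhd ℂ E₃ (Metric.ball 0 ε₃)) (hE₃0 : E₃ 0 = 0)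
    (hE₃ : ∀ a b : Fin g → ℂ, Sum.elim a b ∈ Metric.ball (0 : Fin g ⊕ Fin g → ℂ) ε₃ →
      sumDiv (fun i => RA i (a i)) + sumDiv (fun i => RB i (b i))
        - (sumDiv (fun i => RA i 0) + sumDiv (fun i => RB i 0))
        - sumDiv (fun i => RC i (E₃ (Sum.elim a b) i)) + sumDiv (fun i => RC i 0)
        ∈ Divisor.principal (K := ℂ) (F := F))
    (hinj : ∀ q q' : Fin g → ℂ, (∀ k, ‖q k‖ < ε₄) → (∀ k, ‖q' k‖ < ε₄) →
      sumDiv (fun k => RC k (q k)) - sumDiv (fun k => RC k (q' k))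
        ∈ Divisor.principal (K := ℂ) (F := F) → q = q')
    (hloc : ∀ (u : F) (Q : ℂ → Place ℂ F) (ρ : ℝ), IsChart u Q ρ →
      (∃ δ > 0, ∃ w : ℂ → Fin g → ℂ, ContinuousOn w (Metric.ball (0 : ℂ) δ) ∧ w 0 = 0 ∧
        ∀ s ∈ Metric.ball (0 : ℂ) δ,
          pt (Q s) - pt (Q 0) - sumDiv (fun i => RA i (w s i)) + sumDiv (fun i => RA i 0)
            ∈ Divisor.principal (K := ℂ) (F := F)) ∨
      (∃ δ > 0, ∃ w : ℂ → Fin g → ℂ, ContinuousOn w (Metric.ball (0 : ℂ) δ) ∧ w 0 = 0 ∧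
        ∀ s ∈ Metric.ball (0 : ℂ) δ,
          pt (Q s) - pt (Q 0) - sumDiv (fun i => RB i (w s i)) + sumDiv (fun i => RB i 0)
            ∈ Divisor.principal (K := ℂ) (F := F))) :
    ∃ (ψ : (Fin g → ℂ) → Pic0 ℂ F) (m : (Fin g → ℂ) → (Fin g → ℂ) → (Fin g → ℂ)) (r : ℝ),
      0 < r ∧ Set.InjOn ψ (Metric.ball 0 r) ∧
      DifferentiableOn ℂ (fun p : (Fin g → ℂ) × (Fin g → ℂ) => m p.1 p.2)
        (Metric.ball 0 r ×ˢ Metric.ball 0 r) ∧
      m 0 0 = 0 ∧
      (∀ a ∈ Metric.ball (0 : Fin g → ℂ) r, ∀ b ∈ Metric.ball (0 : Fin g → ℂ) r,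
        ψ (m a b) = ψ a + ψ b) ∧
      ∀ (u : F) (Q : ℂ → Place ℂ F) (ρ : ℝ), IsChart u Q ρ →
        ∃ δ > 0, ∃ w : ℂ → Fin g → ℂ, ContinuousOn w (Metric.ball (0 : ℂ) δ) ∧ w 0 = 0 ∧
          ∀ s ∈ Metric.ball (0 : ℂ) δ, ‖w s‖ < r ∧ cls (pt (Q s) - pt (Q 0)) = ψ (w s) := by
  classical
  -- the three class maps
  obtain ⟨ψ, hψ⟩ : ∃ ψ : (Fin g → ℂ) → Pic0 ℂ F, ∀ q, ψ q =
      cls (sumDiv (fun i => RC i (q i)) - sumDiv (fun i => RC i 0)) := ⟨_, fun _ => rfl⟩
  obtain ⟨ΨA, hΨA⟩ : ∃ Ψ : (Fin g → ℂ) → Pic0 ℂ F, ∀ q, Ψ q =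
      cls (sumDiv (fun i => RA i (q i)) - sumDiv (fun i => RA i 0)) := ⟨_, fun _ => rfl⟩
  obtain ⟨ΨB, hΨB⟩ : ∃ Ψ : (Fin g → ℂ) → Pic0 ℂ F, ∀ q, Ψ q =
      cls (sumDiv (fun i => RB i (q i)) - sumDiv (fun i => RB i 0)) := ⟨_, fun _ => rfl⟩
  have dz : ∀ P P' : Fin g → Place ℂ F,
      sumDiv P - sumDiv P' ∈ Divisor.degZero (K := ℂ) (F := F) :=
    fun P P' => sumDiv_sub_mem_degZero hdeg P P'
  have k1 : ∀ q ∈ Metric.ball (0 : Fin g → ℂ) ε₁, ψ q = ΨA (E₁ q) := by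
    intro q hq
    rw [hψ, hΨA]
    refine cls_eq_of_principal (dz _ _) (dz _ _) ?_
    convert hE₁ q hq using 1
    abel
  have k2 : ∀ q ∈ Metric.ball (0 : Fin g → ℂ) ε₂, ψ q = ΨB (E₂ q) := by
    intro q hq
    rw [hψ, hΨB]
    refine cls_eq_of_principal (dz _ _) (dz _ _) ?_
    convert hE₂ q hq using 1
    abel
  have k3 : ∀ a b : Fin g → ℂ, Sum.elim a b ∈ Metric.ball (0 : Fin g ⊕ Fin g → ℂ) ε₃ →
      ΨA a + ΨB b = ψ (E₃ (Sum.elim a b)) := by
    intro a b hab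
    rw [hψ, hΨA, hΨB, ← cls_add (dz _ _) (dz _ _)]
    refine cls_eq_of_principal (add_mem (dz _ _) (dz _ _)) (dz _ _) ?_
    convert hE₃ a b hab using 1
    abel
  have hΨA0 : ΨA 0 = 0 := by
    rw [hΨA]
    simp only [Pi.zero_apply, sub_self]
    exact cls_zero
  have hΨB0 : ΨB 0 = 0 := by
    rw [hΨB]
    simp only [Pi.zero_apply, sub_self]
    exact cls_zero
  -- radii
  have hE₁c : ContinuousAt E₁ 0 := (hE₁an 0 (Metric.mem_ball_self hε₁)).continuousAt
  have hE₂c : ContinuousAt E₂ 0 := (hE₂an 0 (Metric.mem_ball_self hε₂)).continuousAt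
  have hE₃c : ContinuousAt E₃ 0 := (hE₃an 0 (Metric.mem_ball_self hε₃)).continuousAt
  have hc1 : ∀ᶠ a in 𝓝 (0 : Fin g → ℂ), ‖E₁ a‖ < ε₃ := by
    have h1 : Filter.Tendsto (fun a => ‖E₁ a‖) (𝓝 (0 : Fin g → ℂ)) (𝓝 ‖E₁ 0‖) := hE₁c.norm
    rw [hE₁0, norm_zero] at h1
    exact h1.eventually (gt_mem_nhds hε₃)
  have hc2 : ∀ᶠ a in 𝓝 (0 : Fin g → ℂ), ‖E₂ a‖ < ε₃ := by
    have h1 : Filter.Tendsto (fun a => ‖E₂ a‖) (𝓝 (0 : Fin g → ℂ)) (𝓝 ‖E₂ 0‖) := hE₂c.norm
    rw [hE₂0, norm_zero] at h1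
    exact h1.eventually (gt_mem_nhds hε₃)
  obtain ⟨r₁, hr₁, hb₁⟩ := Metric.eventually_nhds_iff.mp (hc1.and hc2)
  obtain ⟨r, hr, hr1, hr2, hr4, hrr⟩ : ∃ r > 0, r ≤ ε₁ ∧ r ≤ ε₂ ∧ r ≤ ε₄ ∧ r ≤ r₁ :=
    ⟨min (min ε₁ ε₂) (min ε₄ r₁), lt_min (lt_min hε₁ hε₂) (lt_min hε₄ hr₁),
      (min_le_left _ _).trans (min_le_left _ _), (min_le_left _ _).trans (min_le_right _ _),
      (min_le_right _ _).trans (min_le_left _ _), (min_le_right _ _).trans (min_le_right _ _)⟩
  have hmaps : ∀ a ∈ Metric.ball (0 : Fin g → ℂ) r, ∀ b ∈ Metric.ball (0 : Fin g → ℂ) r,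
      Sum.elim (E₁ a) (E₂ b) ∈ Metric.ball (0 : Fin g ⊕ Fin g → ℂ) ε₃ := by
    intro a ha b hb
    have ha' : dist a 0 < r₁ := lt_of_lt_of_le (Metric.mem_ball.mp ha) hrr
    have hb' : dist b 0 < r₁ := lt_of_lt_of_le (Metric.mem_ball.mp hb) hrr
    rw [Metric.mem_ball, dist_zero_right, pi_norm_lt_iff hε₃]
    rintro (i | i)
    · exact lt_of_le_of_lt (norm_le_pi_norm (E₁ a) i) (hb₁ ha').1
    · exact lt_of_le_of_lt (norm_le_pi_norm (E₂ b) i) (hb₁ hb').2
  have hz : (Sum.elim (0 : Fin g → ℂ) (0 : Fin g → ℂ) : Fin g ⊕ Fin g → ℂ) = 0 := by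
    funext k
    cases k <;> rfl
  refine ⟨ψ, fun a b => E₃ (Sum.elim (E₁ a) (E₂ b)), r, hr, ?_, ?_, ?_, ?_, ?_⟩
  · -- injectivity
    intro q hq q' hq' h
    have hq4 : ∀ k, ‖q k‖ < ε₄ := fun k =>
      lt_of_le_of_lt (norm_le_pi_norm q k) (lt_of_lt_of_le (mem_ball_zero_iff.mp hq) hr4)
    have hq4' : ∀ k, ‖q' k‖ < ε₄ := fun k =>
      lt_of_le_of_lt (norm_le_pi_norm q' k) (lt_of_lt_of_le (mem_ball_zero_iff.mp hq') hr4)
    refine hinj q q' hq4 hq4' (mem_principal_of_cls_eq_zero (dz _ _) ?_)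
    have e : sumDiv (fun k => RC k (q k)) - sumDiv (fun k => RC k (q' k)) =
        (sumDiv (fun k => RC k (q k)) - sumDiv (fun k => RC k 0))
          - (sumDiv (fun k => RC k (q' k)) - sumDiv (fun k => RC k 0)) := by abel
    rw [e, cls_sub (dz _ _) (dz _ _), ← hψ, ← hψ]
    exact sub_eq_zero.mpr h
  · -- holomorphy of the group law
    have hΦ : DifferentiableOn ℂ (fun p : (Fin g → ℂ) × (Fin g → ℂ) =>
        (Sum.elim (E₁ p.1) (E₂ p.2) : Fin g ⊕ Fin g → ℂ))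
        (Metric.ball 0 r ×ˢ Metric.ball 0 r) := by
      rw [differentiableOn_pi]
      rintro (i | i)
      · have h1 : DifferentiableOn ℂ (fun p : (Fin g → ℂ) × (Fin g → ℂ) => E₁ p.1)
            (Metric.ball 0 r ×ˢ Metric.ball 0 r) :=
          (hE₁an.differentiableOn.mono (Metric.ball_subset_ball hr1)).comp
            differentiableOn_fst (fun p hp => hp.1)
        exact (differentiableOn_pi.mp h1) i
      · have h1 : DifferentiableOn ℂ (fun p : (Fin g → ℂ) × (Fin g → ℂ) => E₂ p.2)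
            (Metric.ball 0 r ×ˢ Metric.ball 0 r) :=
          (hE₂an.differentiableOn.mono (Metric.ball_subset_ball hr2)).comp
            differentiableOn_snd (fun p hp => hp.2)
        exact (differentiableOn_pi.mp h1) i
    exact hE₃an.differentiableOn.comp hΦ (fun p hp => hmaps p.1 hp.1 p.2 hp.2)
  · show E₃ (Sum.elim (E₁ 0) (E₂ 0)) = 0
    rw [hE₁0, hE₂0, hz, hE₃0]
  · intro a ha b hb
    show ψ (E₃ (Sum.elim (E₁ a) (E₂ b))) = ψ a + ψ b
    rw [← k3 _ _ (hmaps a ha b hb), k1 a (Metric.ball_subset_ball hr1 ha),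
      k2 b (Metric.ball_subset_ball hr2 hb)]
  · -- the chart clause
    intro u Q ρ hQ
    have finish : ∀ (RX : Fin g → ℂ → Place ℂ F)
        (emb : (Fin g → ℂ) → (Fin g ⊕ Fin g → ℂ)),
        (∀ a : Fin g → ℂ, ‖a‖ < ε₃ → emb a ∈ Metric.ball (0 : Fin g ⊕ Fin g → ℂ) ε₃) →
        Continuous emb → emb 0 = 0 →
        (∀ a : Fin g → ℂ, ‖a‖ < ε₃ →
          cls (sumDiv (fun i => RX i (a i)) - sumDiv (fun i => RX i 0)) = ψ (E₃ (emb a))) →
        (∃ δ > 0, ∃ w : ℂ → Fin g → ℂ, ContinuousOn w (Metric.ball (0 : ℂ) δ) ∧ w 0 = 0 ∧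
          ∀ s ∈ Metric.ball (0 : ℂ) δ,
            pt (Q s) - pt (Q 0) - sumDiv (fun i => RX i (w s i)) + sumDiv (fun i => RX i 0)
              ∈ Divisor.principal (K := ℂ) (F := F)) →
        ∃ δ > 0, ∃ w : ℂ → Fin g → ℂ, ContinuousOn w (Metric.ball (0 : ℂ) δ) ∧ w 0 = 0 ∧
          ∀ s ∈ Metric.ball (0 : ℂ) δ, ‖w s‖ < r ∧ cls (pt (Q s) - pt (Q 0)) = ψ (w s) := by
      intro RX emb hemb hembc hemb0 hΨ ⟨δ, hδ, w, hwc, hw0, hw⟩
      have hwc0 : ContinuousAt w 0 := hwc.continuousAt (Metric.ball_mem_nhds 0 hδ)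
      have hw1 : ∀ᶠ s in 𝓝 (0 : ℂ), ‖w s‖ < ε₃ := by
        have h1 : Filter.Tendsto (fun s => ‖w s‖) (𝓝 (0 : ℂ)) (𝓝 ‖w 0‖) := hwc0.norm
        rw [hw0, norm_zero] at h1
        exact h1.eventually (gt_mem_nhds hε₃)
      have hcomp0 : ContinuousAt (fun s => E₃ (emb (w s))) 0 := by
        have h1 : ContinuousAt (fun s => emb (w s)) 0 := hembc.continuousAt.comp hwc0
        have h2 : ContinuousAt E₃ (emb (w 0)) := by
          rw [hw0, hemb0]
          exact hE₃c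
        exact ContinuousAt.comp (g := E₃) (f := fun s => emb (w s)) h2 h1
      have hw2 : ∀ᶠ s in 𝓝 (0 : ℂ), ‖E₃ (emb (w s))‖ < r := by
        have h1 : Filter.Tendsto (fun s => ‖E₃ (emb (w s))‖) (𝓝 (0 : ℂ))
            (𝓝 ‖E₃ (emb (w 0))‖) := hcomp0.norm
        rw [hw0, hemb0, hE₃0, norm_zero] at h1
        exact h1.eventually (gt_mem_nhds hr)
      obtain ⟨δ₁, hδ₁, hb⟩ := Metric.eventually_nhds_iff.mp (hw1.and hw2)
      have hsub : Metric.ball (0 : ℂ) (min δ δ₁) ⊆ Metric.ball (0 : ℂ) δ :=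
        Metric.ball_subset_ball (min_le_left _ _)
      have hb' : ∀ s ∈ Metric.ball (0 : ℂ) (min δ δ₁),
          ‖w s‖ < ε₃ ∧ ‖E₃ (emb (w s))‖ < r := fun s hs =>
        hb (lt_of_lt_of_le (Metric.mem_ball.mp hs) (min_le_right _ _))
      refine ⟨min δ δ₁, lt_min hδ hδ₁, fun s => E₃ (emb (w s)), ?_, ?_, ?_⟩
      · exact hE₃an.continuousOn.comp (hembc.comp_continuousOn (hwc.mono hsub))
          (fun s hs => hemb _ (hb' s hs).1)
      · show E₃ (emb (w 0)) = 0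
        rw [hw0, hemb0, hE₃0]
      · intro s hs
        refine ⟨(hb' s hs).2, ?_⟩
        rw [← hΨ (w s) (hb' s hs).1]
        refine cls_eq_of_principal (pt_sub_pt_mem_degZero hdeg _ _) (dz _ _) ?_
        convert hw s (hsub hs) using 1
        abel
    rcases hloc u Q ρ hQ with h | h
    · refine finish RA (fun a => Sum.elim a 0) ?_ ?_ ?_ ?_ h
      · intro a ha
        rw [Metric.mem_ball, dist_zero_right, pi_norm_lt_iff hε₃]
        rintro (i | i)
        · exact lt_of_le_of_lt (norm_le_pi_norm a i) ha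
        · simpa using hε₃
      · refine continuous_pi fun k => ?_
        cases k with
        | inl i => exact continuous_apply i
        | inr i => exact continuous_const
      · exact hz
      · intro a ha
        have h1 : Sum.elim a (0 : Fin g → ℂ) ∈ Metric.ball (0 : Fin g ⊕ Fin g → ℂ) ε₃ := by
          rw [Metric.mem_ball, dist_zero_right, pi_norm_lt_iff hε₃]
          rintro (i | i)
          · exact lt_of_le_of_lt (norm_le_pi_norm a i) ha
          · simpa using hε₃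
        rw [← k3 a 0 h1, hΨB0, add_zero, hΨA]
    · refine finish RB (fun b => Sum.elim 0 b) ?_ ?_ ?_ ?_ h
      · intro b hb
        rw [Metric.mem_ball, dist_zero_right, pi_norm_lt_iff hε₃]
        rintro (i | i)
        · simpa using hε₃
        · exact lt_of_le_of_lt (norm_le_pi_norm b i) hb
      · refine continuous_pi fun k => ?_
        cases k with
        | inl i => exact continuous_const
        | inr i => exact continuous_apply i
      · exact hz
      · intro b hb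
        have h1 : Sum.elim (0 : Fin g → ℂ) b ∈ Metric.ball (0 : Fin g ⊕ Fin g → ℂ) ε₃ := by
          rw [Metric.mem_ball, dist_zero_right, pi_norm_lt_iff hε₃]
          rintro (i | i)
          · simpa using hε₃
          · exact lt_of_le_of_lt (norm_le_pi_norm b i) hb
        rw [← k3 0 b h1, hΨA0, zero_add, hΨB]

end FF

/-! ## The assembly -/

/-- **CORE B, chunk assembly.** -/
theorem chunk_of (hT2 : helper3813.Stmt_T2) (hInj : Stmt_INJpos)
    (hGC : helper3093.Stmt_GoodCoord.{0, 0}) (hCE : Stmt_ChartExists)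
    (hGT : Stmt_GoodTuple.{0, 0}) (hFU : Stmt_FibreUnram) (hEv : Stmt_Ev.{0, 0}) :
    Stmt_Chunk := by
  intro F _ _ x hx _
  classical
  have hE : helper5831.EvOK ℂ F := helper5831.evOK_of hEv x hx
  have hdeg : ∀ v : Place ℂ F, v.deg = 1 := fun v => helper483.place_deg_eq_one x hx v
  obtain ⟨Pinf, -⟩ := exists_place_notMem x hx ∅ Set.finite_empty
  have : Nonempty (Place ℂ F) := ⟨Pinf⟩
  have hce : ∀ (v : Place ℂ F) (u : F), v.ord u = 1 →
      ∃ (Q : ℂ → Place ℂ F) (r : ℝ), IsChart u Q r ∧ Q 0 = v := fun v u h => hCE F x hx v u h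
  choose! ch rad hch using hce
  -- three pairwise disjoint nonspecial reduced tuples off `Pinf`
  have htuple : ∀ S : Set (Place ℂ F), S.Finite → ∃ A : Fin (genusFF ℂ F) → Place ℂ F,
      Function.Injective A ∧ (∀ i, A i ∉ S) ∧ IsNonspecial (sumDiv A) := by
    intro S hS
    obtain ⟨A, c, hc, hAS, hAns, hA1, -⟩ := hGT ℂ F x hx S hS
    refine ⟨A, ?_, hAS, hAns⟩
    intro i j hij
    apply hc
    have h1 : 0 < (A i).ord (x - algebraMap ℂ F (c i)) := by rw [hA1 i]; exact one_pos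
    have h2 : 0 < (A i).ord (x - algebraMap ℂ F (c j)) := by rw [hij, hA1 j]; exact one_pos
    exact helper483.ord_sub_algebraMap_pos_unique (A i) h1 h2
  obtain ⟨A, hAinj, hAS, hAns⟩ := htuple {Pinf} (Set.finite_singleton _)
  obtain ⟨B, hBinj, hBS, hBns⟩ := htuple ({Pinf} ∪ Set.range A)
    ((Set.finite_singleton _).union (Set.finite_range _))
  obtain ⟨C, hCinj, hCS, hCns⟩ := htuple (({Pinf} ∪ Set.range A) ∪ Set.range B)
    (((Set.finite_singleton _).union (Set.finite_range _)).union (Set.finite_range _))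
  have hAP : ∀ i, A i ≠ Pinf := fun i h => hAS i h
  have hBP : ∀ i, B i ≠ Pinf := fun i h => hBS i (Or.inl h)
  have hCP : ∀ i, C i ≠ Pinf := fun i h => hCS i (Or.inl (Or.inl h))
  have hAB : ∀ i j, A i ≠ B j := fun i j h => hBS j (Or.inr ⟨i, h⟩)
  have hAC : ∀ i j, A i ≠ C j := fun i j h => hCS j (Or.inl (Or.inr ⟨i, h⟩))
  have hBC : ∀ i j, B i ≠ C j := fun i j h => hCS j (Or.inr ⟨i, h⟩)
  have hP₀inj : Function.Injective (Sum.elim (Sum.elim A B) C) := by
    rintro ((i | i) | i) ((j | j) | j) h <;> simp only [Sum.elim_inl, Sum.elim_inr] at h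
    · rw [hAinj h]
    · exact (hAB i j h).elim
    · exact (hAC i j h).elim
    · exact (hAB j i h.symm).elim
    · rw [hBinj h]
    · exact (hBC i j h).elim
    · exact (hAC j i h.symm).elim
    · exact (hBC j i h.symm).elim
    · rw [hCinj h]
  have hP₀P : ∀ k, Sum.elim (Sum.elim A B) C k ≠ Pinf := by
    rintro ((i | i) | i)
    · exact hAP i
    · exact hBP i
    · exact hCP i
  -- good coordinates at the `3g` points, pairwise disjoint zero sets, poles only at `Pinf`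
  obtain ⟨t₀, htr, hP1, hsimple, hT, hpole, hdisj⟩ := exists_goodCoord_family hGC x hx
    (Sum.elim (Sum.elim A B) C) hP₀inj Pinf hP₀P {Pinf} (Set.finite_singleton _)
    (fun k h => hP₀P k h)
  have hPinf0 : ∀ k, Pinf.ord (t₀ k) ≤ 0 := fun k => hT k Pinf rfl
  have hzd : ∀ k k', k ≠ k' → (Sum.elim (Sum.elim A B) C k).ord (t₀ k') ≤ 0 := by
    intro k k' hkk'
    by_contra h
    exact hkk' (hdisj k k' _ (by rw [hP1 k]; exact one_pos) (not_le.mp h))
  -- the main charts of `A`, `B`, `C`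
  have hRA : ∀ i, IsChart (t₀ (Sum.inl (Sum.inl i))) (ch (A i) (t₀ (Sum.inl (Sum.inl i))))
      (rad (A i) (t₀ (Sum.inl (Sum.inl i)))) ∧ ch (A i) (t₀ (Sum.inl (Sum.inl i))) 0 = A i :=
    fun i => hch _ _ (hP1 (Sum.inl (Sum.inl i)))
  have hRB : ∀ i, IsChart (t₀ (Sum.inl (Sum.inr i))) (ch (B i) (t₀ (Sum.inl (Sum.inr i))))
      (rad (B i) (t₀ (Sum.inl (Sum.inr i)))) ∧ ch (B i) (t₀ (Sum.inl (Sum.inr i))) 0 = B i :=
    fun i => hch _ _ (hP1 (Sum.inl (Sum.inr i)))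
  have hRC : ∀ i, IsChart (t₀ (Sum.inr i)) (ch (C i) (t₀ (Sum.inr i)))
      (rad (C i) (t₀ (Sum.inr i))) ∧ ch (C i) (t₀ (Sum.inr i)) 0 = C i :=
    fun i => hch _ _ (hP1 (Sum.inr i))
  obtain ⟨rA, hrA, hrAle⟩ := exists_pos_le_of_fintype
    (fun i => rad (A i) (t₀ (Sum.inl (Sum.inl i)))) (fun i => (hRA i).1.pos)
  obtain ⟨rB, hrB, hrBle⟩ := exists_pos_le_of_fintype
    (fun i => rad (B i) (t₀ (Sum.inl (Sum.inr i)))) (fun i => (hRB i).1.pos)
  obtain ⟨rC, hrC, hrCle⟩ := exists_pos_le_of_fintype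
    (fun i => rad (C i) (t₀ (Sum.inr i))) (fun i => (hRC i).1.pos)
  have hRA' : ∀ i, IsChart (t₀ (Sum.inl (Sum.inl i))) (ch (A i) (t₀ (Sum.inl (Sum.inl i)))) rA :=
    fun i => helper5831.chart_shrink (hRA i).1 hrA (hrAle i)
  have hRB' : ∀ i, IsChart (t₀ (Sum.inl (Sum.inr i))) (ch (B i) (t₀ (Sum.inl (Sum.inr i)))) rB :=
    fun i => helper5831.chart_shrink (hRB i).1 hrB (hrBle i)
  have hRC' : ∀ i, IsChart (t₀ (Sum.inr i)) (ch (C i) (t₀ (Sum.inr i))) rC :=
    fun i => helper5831.chart_shrink (hRC i).1 hrC (hrCle i)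
  have hA0 : (fun i => ch (A i) (t₀ (Sum.inl (Sum.inl i))) 0) = A := funext fun i => (hRA i).2
  have hB0 : (fun i => ch (B i) (t₀ (Sum.inl (Sum.inr i))) 0) = B := funext fun i => (hRB i).2
  have hC0 : (fun i => ch (C i) (t₀ (Sum.inr i)) 0) = C := funext fun i => (hRC i).2
  have hAinj' : Function.Injective (fun i => ch (A i) (t₀ (Sum.inl (Sum.inl i))) 0) := by
    rw [hA0]; exact hAinj
  have hBinj' : Function.Injective (fun i => ch (B i) (t₀ (Sum.inl (Sum.inr i))) 0) := by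
    rw [hB0]; exact hBinj
  have hCinj' : Function.Injective (fun i => ch (C i) (t₀ (Sum.inr i)) 0) := by
    rw [hC0]; exact hCinj
  have hAns' : IsNonspecial (sumDiv fun i => ch (A i) (t₀ (Sum.inl (Sum.inl i))) 0) := by
    rw [hA0]; exact hAns
  have hBns' : IsNonspecial (sumDiv fun i => ch (B i) (t₀ (Sum.inl (Sum.inr i))) 0) := by
    rw [hB0]; exact hBns
  have hCns' : IsNonspecial (sumDiv fun i => ch (C i) (t₀ (Sum.inr i)) 0) := by
    rw [hC0]; exact hCns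
  -- the sheets over `C` and over `A ⊔ B`
  obtain ⟨SC, hSCf, hSCd, κC, mainC, QbC, rbC, hrbC, c1, c2, c3, c4, c5, c6, c7, c8⟩ :=
    exists_sheets x ch rad hch C (fun k => t₀ (Sum.inr k)) Pinf (fun k => htr _)
      (fun k => hP1 (Sum.inr k)) (fun k => hsimple _) (fun k => hpole _) (fun k => hPinf0 _)
      (fun k k' v hv hv' => Sum.inr_injective (hdisj _ _ v hv hv'))
  obtain ⟨SAB, hSABf, hSABd, κAB, mainAB, QbAB, rbAB, hrbAB, d1, d2, d3, d4, d5, d6, d7, d8⟩ :=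
    exists_sheets x ch rad hch (Sum.elim A B) (fun k => t₀ (Sum.inl k)) Pinf (fun k => htr _)
      (fun k => hP1 (Sum.inl k)) (fun k => hsimple _) (fun k => hpole _) (fun k => hPinf0 _)
      (fun k k' v hv hv' => Sum.inl_injective (hdisj _ _ v hv hv'))
  -- `T2` three times
  obtain ⟨ε₁, hε₁, E₁, hE₁an, hE₁0, -, hE₁pr⟩ := t2_apply hT2 x hx (fun k => t₀ (Sum.inr k)) Pinf
    (fun k => hpole _) κC mainC QbC rbC c1 c2 c3 c4 c5 c6
    (fun i => t₀ (Sum.inl (Sum.inl i))) (fun i => ch (A i) (t₀ (Sum.inl (Sum.inl i)))) rA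
    hRA' hAinj' hAns'
    (fun i k => by
      rw [(hRA i).2]
      exact hzd (Sum.inl (Sum.inl i)) (Sum.inr k) (by simp))
    (fun i => by rw [(hRA i).2]; exact hAP i)
  obtain ⟨ε₂, hε₂, E₂, hE₂an, hE₂0, -, hE₂pr⟩ := t2_apply hT2 x hx (fun k => t₀ (Sum.inr k)) Pinf
    (fun k => hpole _) κC mainC QbC rbC c1 c2 c3 c4 c5 c6
    (fun i => t₀ (Sum.inl (Sum.inr i))) (fun i => ch (B i) (t₀ (Sum.inl (Sum.inr i)))) rB
    hRB' hBinj' hBns'
    (fun i k => by
      rw [(hRB i).2]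
      exact hzd (Sum.inl (Sum.inr i)) (Sum.inr k) (by simp))
    (fun i => by rw [(hRB i).2]; exact hBP i)
  obtain ⟨ε₃, hε₃, E₃, hE₃an, hE₃0, -, hE₃pr⟩ := t2_apply hT2 x hx (fun k => t₀ (Sum.inl k)) Pinf
    (fun k => hpole _) κAB mainAB QbAB rbAB d1 d2 d3 d4 d5 d6
    (fun i => t₀ (Sum.inr i)) (fun i => ch (C i) (t₀ (Sum.inr i))) rC
    hRC' hCinj' hCns'
    (fun i k => by
      rw [(hRC i).2]
      exact hzd (Sum.inr i) (Sum.inl k) (by simp))
    (fun i => by rw [(hRC i).2]; exact hCP i)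
  -- injectivity at `C`
  obtain ⟨ε₄, hε₄, -, hinj⟩ := hInj F x hx SC κC mainC (fun k => t₀ (Sum.inr k)) QbC rbC hrbC
    c1 c2 c3 c4 c6 (by simp only [c7]; exact hCns')
  simp only [c7] at hE₁pr hE₂pr hinj
  simp only [d7] at hE₃pr
  refine chunk_core hdeg (fun i => ch (A i) (t₀ (Sum.inl (Sum.inl i))))
    (fun i => ch (B i) (t₀ (Sum.inl (Sum.inr i)))) (fun i => ch (C i) (t₀ (Sum.inr i)))
    ε₁ ε₂ ε₃ ε₄ hε₁ hε₂ hε₃ hε₄ E₁ E₂ E₃ hE₁an hE₁0 hE₁pr hE₂an hE₂0 hE₂pr hE₃an hE₃0 ?_ hinj ?_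
  · intro a b hab
    have h := hE₃pr (Sum.elim a b) hab
    have e1 : (fun k : Fin (genusFF ℂ F) ⊕ Fin (genusFF ℂ F) =>
        ch (Sum.elim A B k) (t₀ (Sum.inl k)) (Sum.elim a b k)) =
        Sum.elim (fun i => ch (A i) (t₀ (Sum.inl (Sum.inl i))) (a i))
          (fun i => ch (B i) (t₀ (Sum.inl (Sum.inr i))) (b i)) := by
      funext k
      cases k <;> rfl
    have e2 : (fun k : Fin (genusFF ℂ F) ⊕ Fin (genusFF ℂ F) =>
        ch (Sum.elim A B k) (t₀ (Sum.inl k)) 0) =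
        Sum.elim (fun i => ch (A i) (t₀ (Sum.inl (Sum.inl i))) 0)
          (fun i => ch (B i) (t₀ (Sum.inl (Sum.inr i))) 0) := by
      funext k
      cases k <;> rfl
    rw [e1, e2, sumDiv_sum_elim, sumDiv_sum_elim] at h
    exact h
  · intro u Q ρ hQ
    by_cases hPA : ∃ i, A i = Q 0
    · right
      obtain ⟨j, hj⟩ := hPA
      exact chart_to_target hT2 hGC hCE hFU hE x hx hQ (fun i => t₀ (Sum.inl (Sum.inr i)))
        (fun i => ch (B i) (t₀ (Sum.inl (Sum.inr i)))) rB hRB' hBinj' hBns'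
        (fun i => by
          show ch (B i) (t₀ (Sum.inl (Sum.inr i))) 0 ≠ Q 0
          rw [(hRB i).2, ← hj]
          exact (hAB j i).symm)
    · left
      exact chart_to_target hT2 hGC hCE hFU hE x hx hQ (fun i => t₀ (Sum.inl (Sum.inl i)))
        (fun i => ch (A i) (t₀ (Sum.inl (Sum.inl i)))) rA hRA' hAinj' hAns'
        (fun i => by
          show ch (A i) (t₀ (Sum.inl (Sum.inl i))) 0 ≠ Q 0
          rw [(hRA i).2]
          exact fun h => hPA ⟨i, h⟩)

end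

end Fermat.Agent.S27.helper27
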