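import Mathlib
import Fermat.Prelude.Def_AlgebraicCurve_DivisorClassGroup
import Fermat.Prelude.Def_AlgebraicCurve_IsCurveOver
import Fermat.Prelude.Def_AlgebraicCurve_Repartitions

/-!
# S27-L-TRANSPORT: semilinear transport of the Prelude curve objects

`σ : K ≃+* K'`, `τ : F ≃+* F'` with `τ (algebraMap K F a) = algebraMap K' F' (σ a)`.
Everything attached to the "curve" `F / K` by the Prelude (places, `ord`, `deg`, divisors,
principal divisors, `Pic0`, Riemann-Roch spaces, `H1`, `genusFF`, `IsCurveOver`) is transported
to `F' / K'`.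
-/

set_option autoImplicit false

noncomputable section

open AlgebraicCurve

namespace Fermat.Agent.S27.helper7214

universe u₁ u₂ u₃ u₄

variable {K : Type u₁} {K' : Type u₂} {F : Type u₃} {F' : Type u₄}
variable [Field K] [Field K'] [Field F] [Field F'] [Algebra K F] [Algebra K' F']

/-- Compatibility of a pair of ring isomorphisms with the structure maps. -/
structure Compat (σ : K ≃+* K') (τ : F ≃+* F') : Prop where
  comm : ∀ a : K, τ (algebraMap K F a) = algebraMap K' F' (σ a)

namespace Compat

variable {σ : K ≃+* K'} {τ : F ≃+* F'}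

theorem symm (h : Compat σ τ) : Compat σ.symm τ.symm where
  comm a := by
    apply τ.injective
    rw [RingEquiv.apply_symm_apply, h.comm, RingEquiv.apply_symm_apply]

theorem comm_symm (h : Compat σ τ) (a : K') :
    τ.symm (algebraMap K' F' a) = algebraMap K F (σ.symm a) := h.symm.comm a

end Compat

/-! ### Valuation subrings -/

/-- Transport of a valuation subring along a ring isomorphism. -/
def mapVS (τ : F ≃+* F') (A : ValuationSubring F) : ValuationSubring F' :=
  A.comap (τ.symm : F' →+* F)

theorem mem_mapVS {τ : F ≃+* F'} {A : ValuationSubring F} {y : F'} :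
    y ∈ mapVS τ A ↔ τ.symm y ∈ A := Iff.rfl

theorem apply_mem_mapVS {τ : F ≃+* F'} {A : ValuationSubring F} {x : F} :
    τ x ∈ mapVS τ A ↔ x ∈ A := by
  rw [mem_mapVS, RingEquiv.symm_apply_apply]

theorem mapVS_symm_mapVS (τ : F ≃+* F') (A : ValuationSubring F) :
    mapVS τ.symm (mapVS τ A) = A := by
  ext x
  rw [mem_mapVS, mem_mapVS, RingEquiv.symm_symm, RingEquiv.symm_apply_apply]

theorem mapVS_mapVS_symm (τ : F ≃+* F') (A : ValuationSubring F') :
    mapVS τ (mapVS τ.symm A) = A := by
  ext x
  rw [mem_mapVS, mem_mapVS, RingEquiv.symm_symm, RingEquiv.apply_symm_apply]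

/-- The ring isomorphism `A ≃+* mapVS τ A` induced by `τ`. -/
def vsEquiv (τ : F ≃+* F') (A : ValuationSubring F) : A ≃+* mapVS τ A where
  toFun x := ⟨τ x, apply_mem_mapVS.mpr x.2⟩
  invFun y := ⟨τ.symm y, mem_mapVS.mp y.2⟩
  left_inv x := by ext; simp
  right_inv y := by ext; simp
  map_mul' x y := by ext; simp
  map_add' x y := by ext; simp

@[simp]
theorem coe_vsEquiv_apply (τ : F ≃+* F') (A : ValuationSubring F) (x : A) :
    ((vsEquiv τ A x : mapVS τ A) : F') = τ x := rfl

/-! ### Places -/

variable {σ : K ≃+* K'} {τ : F ≃+* F'}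

/-- Transport of a place. -/
def placeMap (h : Compat σ τ) (v : Place K F) : Place K' F' where
  toValuationSubring := mapVS τ v.toValuationSubring
  algebraMap_mem' a := by
    rw [mem_mapVS, h.comm_symm]
    exact v.algebraMap_mem' _
  ne_top' hT := v.ne_top' <| by
    ext x
    refine ⟨fun _ => ValuationSubring.mem_top x, fun _ => ?_⟩
    have : τ x ∈ mapVS τ v.toValuationSubring := by rw [hT]; exact ValuationSubring.mem_top _
    exact apply_mem_mapVS.mp this
  isPrincipalIdealRing' :=
    IsPrincipalIdealRing.of_surjective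
      (vsEquiv τ v.toValuationSubring : _ ≃+* _)
      (vsEquiv τ v.toValuationSubring).surjective

@[simp]
theorem placeMap_toValuationSubring (h : Compat σ τ) (v : Place K F) :
    (placeMap h v).toValuationSubring = mapVS τ v.toValuationSubring := rfl

theorem placeMap_symm_placeMap (h : Compat σ τ) (v : Place K F) :
    placeMap h.symm (placeMap h v) = v := by
  ext1
  exact mapVS_symm_mapVS τ _

theorem placeMap_placeMap_symm (h : Compat σ τ) (v : Place K' F') :
    placeMap h (placeMap h.symm v) = v := by
  ext1
  exact mapVS_mapVS_symm τ _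

/-- (T1) The bijection between places. -/
def placeEquiv (h : Compat σ τ) : Place K F ≃ Place K' F' where
  toFun := placeMap h
  invFun := placeMap h.symm
  left_inv := placeMap_symm_placeMap h
  right_inv := placeMap_placeMap_symm h

@[simp]
theorem placeEquiv_apply (h : Compat σ τ) (v : Place K F) : placeEquiv h v = placeMap h v := rfl

@[simp]
theorem placeEquiv_symm_apply (h : Compat σ τ) (v : Place K' F') :
    (placeEquiv h).symm v = placeMap h.symm v := rfl

theorem mem_placeMap_iff (h : Compat σ τ) (v : Place K F) (f : F) :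
    τ f ∈ (placeMap h v).toValuationSubring ↔ f ∈ v.toValuationSubring :=
  apply_mem_mapVS

/-- (T2) Orders are preserved. -/
theorem ord_placeMap (h : Compat σ τ) (v : Place K F) (f : F) :
    (placeMap h v).ord (τ f) = v.ord f := by
  rcases eq_or_ne f 0 with rfl | hf
  · simp
  obtain ⟨π, hπ⟩ := IsDiscreteValuationRing.exists_irreducible v.toValuationSubring
  obtain ⟨u, hu⟩ := v.exists_unit_mul_zpow hf hπ
  set n := v.ord f with hn
  let e : v.toValuationSubring ≃+* (placeMap h v).toValuationSubring :=
    vsEquiv τ v.toValuationSubring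
  have hπ' : Irreducible (e π) := (MulEquiv.irreducible_iff e).mpr hπ
  have hu' : IsUnit (e (u : v.toValuationSubring)) := u.isUnit.map e
  have hcoeu : ((hu'.unit : (placeMap h v).toValuationSubring) : F')
      = τ ((u : v.toValuationSubring) : F) := by
    rw [IsUnit.unit_spec]
    rfl
  have hcoeπ : ((e π : (placeMap h v).toValuationSubring) : F') = τ (π : F) := rfl
  have key : τ f = ((hu'.unit : (placeMap h v).toValuationSubring) : F')
      * (((e π : (placeMap h v).toValuationSubring) : F') ^ n) := by
    rw [hcoeu, hcoeπ, hu, map_mul, map_zpow₀]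
  rw [key, (placeMap h v).ord_unit_smul_zpow hu'.unit hπ' n]

theorem ord_placeMap_symm (h : Compat σ τ) (v : Place K' F') (f : F) :
    v.ord (τ f) = (placeMap h.symm v).ord f := by
  conv_lhs => rw [← placeMap_placeMap_symm h v]
  exact ord_placeMap h _ f

/-- Valuations are preserved. -/
theorem adicValuation_placeMap (h : Compat σ τ) (v : Place K F) (f : F) :
    (placeMap h v).adicValuation (τ f) = v.adicValuation f := by
  rcases eq_or_ne f 0 with rfl | hf
  · simp
  have hf' : τ f ≠ 0 := by simpa using hf
  rw [Place.adicValuation_eq_exp_neg_ord _ hf', Place.adicValuation_eq_exp_neg_ord _ hf,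
    ord_placeMap]

/-- The ring isomorphism between the valuation rings of `v` and of its transport. -/
def placeRingEquiv (h : Compat σ τ) (v : Place K F) :
    v.toValuationSubring ≃+* (placeMap h v).toValuationSubring where
  toFun x := ⟨τ x, (mem_placeMap_iff h v x).mpr x.2⟩
  invFun y := ⟨τ.symm y, mem_mapVS.mp y.2⟩
  left_inv x := Subtype.ext (τ.symm_apply_apply (x : F))
  right_inv y := Subtype.ext (τ.apply_symm_apply (y : F'))
  map_mul' x y := Subtype.ext (map_mul τ (x : F) (y : F))
  map_add' x y := Subtype.ext (map_add τ (x : F) (y : F))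

@[simp]
theorem coe_placeRingEquiv_apply (h : Compat σ τ) (v : Place K F) (x : v.toValuationSubring) :
    ((placeRingEquiv h v x : (placeMap h v).toValuationSubring) : F') = τ x := rfl

theorem placeRingEquiv_algebraMap (h : Compat σ τ) (v : Place K F) (a : K) :
    placeRingEquiv h v (algebraMap K v.toValuationSubring a)
      = algebraMap K' (placeMap h v).toValuationSubring (σ a) := by
  ext
  rw [coe_placeRingEquiv_apply, Place.coe_algebraMap, h.comm]
  rfl

/-- The induced ring isomorphism of residue fields. -/
def residueEquiv (h : Compat σ τ) (v : Place K F) :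
    v.ResidueField ≃+* (placeMap h v).ResidueField :=
  IsLocalRing.ResidueField.mapEquiv (placeRingEquiv h v)

theorem residueEquiv_algebraMap (h : Compat σ τ) (v : Place K F) (a : K) :
    residueEquiv h v (algebraMap K v.ResidueField a) =
      algebraMap K' (placeMap h v).ResidueField (σ a) := by
  show IsLocalRing.ResidueField.mapEquiv (placeRingEquiv h v) (IsLocalRing.residue _ _)
    = IsLocalRing.residue _ _
  rw [IsLocalRing.ResidueField.mapEquiv_apply, IsLocalRing.ResidueField.map_residue]
  exact congrArg _ (placeRingEquiv_algebraMap h v a)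

/-- (T3) Degrees are preserved. -/
theorem deg_placeMap (h : Compat σ τ) (v : Place K F) : (placeMap h v).deg = v.deg := by
  symm
  refine Algebra.finrank_eq_of_equiv_equiv σ (residueEquiv h v) ?_
  ext a
  exact (residueEquiv_algebraMap h v a).symm

/-- Finiteness of residue fields is preserved. -/
theorem finite_residueField_placeMap (h : Compat σ τ) (v : Place K F)
    [hv : Module.Finite K v.ResidueField] : Module.Finite K' (placeMap h v).ResidueField := by
  have hpos : 0 < Module.finrank K v.ResidueField := Module.finrank_pos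
  have hdeg : Module.finrank K' (placeMap h v).ResidueField = Module.finrank K v.ResidueField :=
    deg_placeMap h v
  exact Module.finite_of_finrank_pos (by rw [hdeg]; exact hpos)

/-! ### Divisors -/

/-- (T4) The isomorphism of divisor groups. -/
def divisorEquiv (h : Compat σ τ) : Divisor K F ≃+ Divisor K' F' :=
  Finsupp.domCongr (placeEquiv h)

theorem divisorEquiv_apply (h : Compat σ τ) (D : Divisor K F) (w : Place K' F') :
    divisorEquiv h D w = D (placeMap h.symm w) := by
  simp [divisorEquiv, Finsupp.domCongr_apply, Finsupp.equivMapDomain_apply]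

@[simp]
theorem divisorEquiv_apply_placeMap (h : Compat σ τ) (D : Divisor K F) (v : Place K F) :
    divisorEquiv h D (placeMap h v) = D v := by
  rw [divisorEquiv_apply, placeMap_symm_placeMap]

@[simp]
theorem divisorEquiv_single (h : Compat σ τ) (v : Place K F) (n : ℤ) :
    divisorEquiv h (Finsupp.single v n) = Finsupp.single (placeMap h v) n := by
  simp [divisorEquiv, Finsupp.domCongr_apply, Finsupp.equivMapDomain_single]

theorem divisorEquiv_symm_apply (h : Compat σ τ) (D : Divisor K' F') (v : Place K F) :
    (divisorEquiv h).symm D v = D (placeMap h v) := by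
  simp [divisorEquiv, Finsupp.domCongr_apply, Finsupp.equivMapDomain_apply]

theorem divisorEquiv_symm (h : Compat σ τ) : (divisorEquiv h).symm = divisorEquiv h.symm := by
  ext D v
  rw [divisorEquiv_symm_apply, divisorEquiv_apply]
  rfl

@[simp]
theorem degree_divisorEquiv (h : Compat σ τ) (D : Divisor K F) :
    Divisor.degree (divisorEquiv h D) = Divisor.degree D := by
  induction D using Finsupp.induction with
  | zero => simp
  | single_add v n D _ _ ih =>
      rw [map_add, map_add, map_add, ih, divisorEquiv_single, Divisor.degree_single,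
        Divisor.degree_single, deg_placeMap]

theorem divisorEquiv_mem_degZero (h : Compat σ τ) {D : Divisor K F}
    (hD : D ∈ Divisor.degZero (K := K) (F := F)) :
    divisorEquiv h D ∈ Divisor.degZero (K := K') (F := F') := by
  rwa [Divisor.mem_degZero, degree_divisorEquiv]

/-- The divisor of `f` is sent to the divisor of `τ f`. -/
theorem divisorEquiv_eq_ord (h : Compat σ τ) {D : Divisor K F} {f : F}
    (hD : ∀ v : Place K F, D v = v.ord f) (w : Place K' F') :
    divisorEquiv h D w = w.ord (τ f) := by
  rw [divisorEquiv_apply, hD, ord_placeMap_symm h]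

theorem isPrincipal_divisorEquiv (h : Compat σ τ) {D : Divisor K F} (hD : D.IsPrincipal) :
    (divisorEquiv h D).IsPrincipal := by
  obtain ⟨f, hf, hD⟩ := hD
  exact ⟨τ f, by simpa using hf, divisorEquiv_eq_ord h hD⟩

theorem isPrincipal_divisorEquiv_iff (h : Compat σ τ) {D : Divisor K F} :
    (divisorEquiv h D).IsPrincipal ↔ D.IsPrincipal := by
  refine ⟨fun hD => ?_, isPrincipal_divisorEquiv h⟩
  have := isPrincipal_divisorEquiv h.symm hD
  rwa [← divisorEquiv_symm h, AddEquiv.symm_apply_apply] at this

/-! ### `Pic0` -/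

/-- The isomorphism of the groups of degree-zero divisors. -/
def degZeroEquiv (h : Compat σ τ) :
    Divisor.degZero (K := K) (F := F) ≃+ Divisor.degZero (K := K') (F := F') where
  toFun D := ⟨divisorEquiv h D, divisorEquiv_mem_degZero h D.2⟩
  invFun D := ⟨(divisorEquiv h).symm D, by
    rw [divisorEquiv_symm]; exact divisorEquiv_mem_degZero h.symm D.2⟩
  left_inv D := by ext1; simp
  right_inv D := by ext1; simp
  map_add' D E := by ext1; simp

@[simp]
theorem coe_degZeroEquiv (h : Compat σ τ) (D : Divisor.degZero (K := K) (F := F)) :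
    (degZeroEquiv h D : Divisor K' F') = divisorEquiv h (D : Divisor K F) := rfl

/-- (T5) The isomorphism of the groups `Pic0`. -/
def pic0Equiv (h : Compat σ τ) : Pic0 K F ≃+ Pic0 K' F' :=
  QuotientAddGroup.congr _ _ (degZeroEquiv h) <| by
    ext D
    simp only [AddSubgroup.mem_map, AddSubgroup.mem_addSubgroupOf]
    constructor
    · rintro ⟨E, hE, rfl⟩
      exact isPrincipal_divisorEquiv h hE
    · intro hD
      refine ⟨(degZeroEquiv h).symm D, ?_, by simp⟩
      have : (divisorEquiv h ((degZeroEquiv h).symm D : Divisor K F)).IsPrincipal := by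
        have h1 : divisorEquiv h ((degZeroEquiv h).symm D : Divisor K F) = (D : Divisor K' F') := by
          rw [← coe_degZeroEquiv, AddEquiv.apply_symm_apply]
        rw [h1]; exact hD
      exact (isPrincipal_divisorEquiv_iff h).mp this

@[simp]
theorem pic0Equiv_mk (h : Compat σ τ) (D : Divisor.degZero (K := K) (F := F)) :
    pic0Equiv h (Pic0.mk D) = Pic0.mk (degZeroEquiv h D) := rfl

theorem pic0Equiv_mem_torsion_iff (h : Compat σ τ) (n : ℕ) (x : Pic0 K F) :
    pic0Equiv h x ∈ Pic0.torsion K' F' n ↔ x ∈ Pic0.torsion K F n := by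
  rw [Pic0.mem_torsion, Pic0.mem_torsion, ← map_zsmul, map_eq_zero_iff _ (pic0Equiv h).injective]

/-- (T5) The torsion subgroups have the same cardinality. -/
theorem natCard_torsion_eq (h : Compat σ τ) (n : ℕ) :
    Nat.card (Pic0.torsion K F n) = Nat.card (Pic0.torsion K' F' n) :=
  Nat.card_congr <| (pic0Equiv h).toEquiv.subtypeEquiv fun x =>
    (pic0Equiv_mem_torsion_iff h n x).symm

/-! ### Riemann-Roch spaces, repartitions, `H1`, genus -/

/-- `finrank` is invariant under a semilinear additive equivalence. -/
theorem finrank_eq_of_addEquiv {R R' M M' : Type*} [Semiring R] [Semiring R']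
    [AddCommMonoid M] [AddCommMonoid M'] [Module R M] [Module R' M']
    (i : R → R') (j : M ≃+ M') (hi : Function.Bijective i)
    (hc : ∀ (r : R) (m : M), j (r • m) = i r • j m) :
    Module.finrank R M = Module.finrank R' M' := by
  have := lift_rank_eq_of_equiv_equiv i j hi hc
  simpa [Module.finrank] using congr_arg Cardinal.toNat this

theorem adicValuation_apply (h : Compat σ τ) (w : Place K' F') (x : F) :
    w.adicValuation (τ x) = (placeMap h.symm w).adicValuation x := by
  conv_lhs => rw [← placeMap_placeMap_symm h w]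
  exact adicValuation_placeMap h _ x

theorem apply_mem_riemannRochSpace_iff (h : Compat σ τ) (D : Divisor K F) (f : F) :
    τ f ∈ riemannRochSpace (divisorEquiv h D) ↔ f ∈ riemannRochSpace D := by
  constructor
  · intro hf v
    have := hf (placeMap h v)
    rwa [adicValuation_placeMap, divisorEquiv_apply_placeMap] at this
  · intro hf w
    rw [adicValuation_apply h, divisorEquiv_apply]
    exact hf _

/-- The `τ`-semilinear additive equivalence `L(D) ≃ L(D')`. -/
def rrEquiv (h : Compat σ τ) (D : Divisor K F) :
    riemannRochSpace D ≃+ riemannRochSpace (divisorEquiv h D) where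
  toFun f := ⟨τ f, (apply_mem_riemannRochSpace_iff h D f).mpr f.2⟩
  invFun g := ⟨τ.symm g, by
    have := g.2
    rwa [← τ.apply_symm_apply (g : F'), apply_mem_riemannRochSpace_iff] at this⟩
  left_inv f := Subtype.ext (τ.symm_apply_apply (f : F))
  right_inv g := Subtype.ext (τ.apply_symm_apply (g : F'))
  map_add' f g := Subtype.ext (map_add τ (f : F) (g : F))

@[simp]
theorem coe_rrEquiv (h : Compat σ τ) (D : Divisor K F) (f : riemannRochSpace D) :
    (rrEquiv h D f : F') = τ f := rfl

/-- (T6) `l(D)` is preserved. -/
theorem finrank_riemannRochSpace (h : Compat σ τ) (D : Divisor K F) :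
    Module.finrank K (riemannRochSpace D) =
      Module.finrank K' (riemannRochSpace (divisorEquiv h D)) :=
  finrank_eq_of_addEquiv σ (rrEquiv h D) σ.bijective fun r m => by
    apply Subtype.ext
    show τ (r • (m : F)) = σ r • τ (m : F)
    rw [Algebra.smul_def, Algebra.smul_def, map_mul, h.comm]

/-- The ring isomorphism between the rings of all families `Place → field`. -/
def funEquiv (h : Compat σ τ) : (Place K F → F) ≃+* (Place K' F' → F') where
  toFun α := fun w => τ (α (placeMap h.symm w))
  invFun β := fun v => τ.symm (β (placeMap h v))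
  left_inv α := by
    funext v
    simp [placeMap_symm_placeMap]
  right_inv β := by
    funext w
    simp [placeMap_placeMap_symm]
  map_mul' α β := by
    funext w
    simp
  map_add' α β := by
    funext w
    simp

@[simp]
theorem funEquiv_apply (h : Compat σ τ) (α : Place K F → F) (w : Place K' F') :
    funEquiv h α w = τ (α (placeMap h.symm w)) := rfl

@[simp]
theorem funEquiv_symm_apply (h : Compat σ τ) (β : Place K' F' → F') (v : Place K F) :
    (funEquiv h).symm β v = τ.symm (β (placeMap h v)) := rfl

theorem funEquiv_apply_placeMap (h : Compat σ τ) (α : Place K F → F) (v : Place K F) :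
    funEquiv h α (placeMap h v) = τ (α v) := by
  rw [funEquiv_apply, placeMap_symm_placeMap]

theorem funEquiv_symm_eq (h : Compat σ τ) (β : Place K' F' → F') :
    (funEquiv h).symm β = funEquiv h.symm β := rfl

theorem funEquiv_mem_repartitions (h : Compat σ τ) {α : Place K F → F}
    (hα : α ∈ repartitions K F) : funEquiv h α ∈ repartitions K' F' := by
  refine Algebra.adjoin_induction (p := fun α _ => funEquiv h α ∈ repartitions K' F')
    ?_ ?_ ?_ ?_ hα
  · intro α hα
    refine mem_repartitions_of_finite ?_
    have hset : {w : Place K' F' | ¬ w.adicValuation (funEquiv h α w) ≤ 1}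
        = placeMap h.symm ⁻¹' {v : Place K F | ¬ v.adicValuation (α v) ≤ 1} := by
      ext w
      simp only [Set.mem_ofPred_eq, Set.mem_preimage, funEquiv_apply, adicValuation_apply h]
    rw [hset]
    exact Set.Finite.preimage ((placeEquiv h.symm).injective.injOn) hα
  · intro r
    have : funEquiv h (algebraMap F (Place K F → F) r)
        = algebraMap F' (Place K' F' → F') (τ r) := by
      funext w
      simp
    rw [this]
    exact Subalgebra.algebraMap_mem _ _
  · intro x y _ _ hx hy
    rw [map_add]
    exact add_mem hx hy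
  · intro x y _ _ hx hy
    rw [map_mul]
    exact mul_mem hx hy

theorem funEquiv_mem_repartitions_iff (h : Compat σ τ) {α : Place K F → F} :
    funEquiv h α ∈ repartitions K' F' ↔ α ∈ repartitions K F := by
  refine ⟨fun hα => ?_, funEquiv_mem_repartitions h⟩
  have := funEquiv_mem_repartitions h.symm hα
  rwa [← funEquiv_symm_eq h, RingEquiv.symm_apply_apply] at this

/-- The ring isomorphism of repartition rings. -/
def repEquiv (h : Compat σ τ) : ↥(repartitions K F) ≃+* ↥(repartitions K' F') where
  toFun α := ⟨funEquiv h α, funEquiv_mem_repartitions h α.2⟩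
  invFun β := ⟨(funEquiv h).symm β, by
    have := β.2
    rwa [← (funEquiv h).apply_symm_apply (β : Place K' F' → F'),
      funEquiv_mem_repartitions_iff] at this⟩
  left_inv α := Subtype.ext ((funEquiv h).symm_apply_apply _)
  right_inv β := Subtype.ext ((funEquiv h).apply_symm_apply _)
  map_mul' α β := Subtype.ext (map_mul (funEquiv h) _ _)
  map_add' α β := Subtype.ext (map_add (funEquiv h) _ _)

@[simp]
theorem coe_repEquiv (h : Compat σ τ) (α : ↥(repartitions K F)) :
    ((repEquiv h α : ↥(repartitions K' F')) : Place K' F' → F')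
      = funEquiv h (α : Place K F → F) := rfl

theorem repEquiv_smul (h : Compat σ τ) (r : K) (α : ↥(repartitions K F)) :
    repEquiv h (r • α) = σ r • repEquiv h α := by
  apply Subtype.ext
  funext w
  show τ ((r • (α : Place K F → F)) (placeMap h.symm w))
    = (σ r • (funEquiv h (α : Place K F → F))) w
  rw [Pi.smul_apply, Pi.smul_apply, Algebra.smul_def, Algebra.smul_def, map_mul, h.comm]
  rfl

theorem repEquiv_mem_repartitionsOf_iff (h : Compat σ τ) (D : Divisor K F)
    (α : ↥(repartitions K F)) :
    repEquiv h α ∈ repartitionsOf (divisorEquiv h D) ↔ α ∈ repartitionsOf D := by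
  constructor
  · intro hα v
    have := hα (placeMap h v)
    rwa [coe_repEquiv, funEquiv_apply_placeMap, adicValuation_placeMap,
      divisorEquiv_apply_placeMap] at this
  · intro hα w
    rw [coe_repEquiv, funEquiv_apply, adicValuation_apply h, divisorEquiv_apply]
    exact hα _

theorem repEquiv_mem_principalRepartitions_iff (h : Compat σ τ) (α : ↥(repartitions K F)) :
    repEquiv h α ∈ principalRepartitions K' F' ↔ α ∈ principalRepartitions K F := by
  rw [mem_principalRepartitions_iff, mem_principalRepartitions_iff]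
  constructor
  · rintro ⟨f', hf'⟩
    refine ⟨τ.symm f', ?_⟩
    funext v
    have := congrFun hf' (placeMap h v)
    rw [coe_repEquiv, funEquiv_apply_placeMap] at this
    rw [← this, RingEquiv.symm_apply_apply]
  · rintro ⟨f, hf⟩
    refine ⟨τ f, ?_⟩
    funext w
    rw [coe_repEquiv, funEquiv_apply, hf]

theorem repEquiv_mem_sup_iff (h : Compat σ τ) (D : Divisor K F) (α : ↥(repartitions K F)) :
    repEquiv h α ∈ repartitionsOf (divisorEquiv h D) ⊔ principalRepartitions K' F' ↔
      α ∈ repartitionsOf D ⊔ principalRepartitions K F := by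
  rw [Submodule.mem_sup, Submodule.mem_sup]
  constructor
  · rintro ⟨y, hy, z, hz, hyz⟩
    refine ⟨(repEquiv h).symm y, ?_, (repEquiv h).symm z, ?_, ?_⟩
    · rw [← repEquiv_mem_repartitionsOf_iff h, RingEquiv.apply_symm_apply]; exact hy
    · rw [← repEquiv_mem_principalRepartitions_iff h, RingEquiv.apply_symm_apply]; exact hz
    · rw [← map_add, hyz, RingEquiv.symm_apply_apply]
  · rintro ⟨y, hy, z, hz, rfl⟩
    exact ⟨repEquiv h y, (repEquiv_mem_repartitionsOf_iff h D y).mpr hy, repEquiv h z,
      (repEquiv_mem_principalRepartitions_iff h z).mpr hz, (map_add _ _ _).symm⟩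

/-- The additive equivalence `H1(D) ≃ H1(D')`. -/
def h1Equiv (h : Compat σ τ) (D : Divisor K F) : H1 D ≃+ H1 (divisorEquiv h D) :=
  QuotientAddGroup.congr
    (repartitionsOf D ⊔ principalRepartitions K F).toAddSubgroup
    (repartitionsOf (divisorEquiv h D) ⊔ principalRepartitions K' F').toAddSubgroup
    (repEquiv h).toAddEquiv <| by
      ext β
      simp only [AddSubgroup.mem_map, Submodule.mem_toAddSubgroup]
      constructor
      · rintro ⟨α, hα, rfl⟩
        exact (repEquiv_mem_sup_iff h D α).mpr hα
      · intro hβ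
        refine ⟨(repEquiv h).symm β, ?_, (repEquiv h).apply_symm_apply β⟩
        rw [← repEquiv_mem_sup_iff h, RingEquiv.apply_symm_apply]
        exact hβ

theorem h1Equiv_mk (h : Compat σ τ) (D : Divisor K F) (α : ↥(repartitions K F)) :
    h1Equiv h D (Submodule.Quotient.mk α) = Submodule.Quotient.mk (repEquiv h α) := rfl

/-- (T6) `h¹(D)` is preserved. -/
theorem finrank_H1 (h : Compat σ τ) (D : Divisor K F) :
    Module.finrank K (H1 D) = Module.finrank K' (H1 (divisorEquiv h D)) :=
  finrank_eq_of_addEquiv σ (h1Equiv h D) σ.bijective fun r m => by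
    induction m using Submodule.Quotient.induction_on with
    | _ α =>
      rw [← Submodule.Quotient.mk_smul, h1Equiv_mk, h1Equiv_mk, repEquiv_smul,
        Submodule.Quotient.mk_smul]

/-- (T6) The genus is preserved. -/
theorem genusFF_eq (h : Compat σ τ) : genusFF K F = genusFF K' F' := by
  unfold genusFF
  rw [finrank_H1 h 0, map_zero]

/-! ### Kähler differentials -/

section Kaehler

open KaehlerDifferential

/-- `Ω[F'⁄K']` regarded as a module over `F` (through `τ`) and over `K` (through `σ`). -/
def TwM (_h : Compat σ τ) : Type u₄ := Ω[F'⁄K']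

instance (h : Compat σ τ) : AddCommGroup (TwM h) := inferInstanceAs (AddCommGroup Ω[F'⁄K'])

instance (h : Compat σ τ) : Module F (TwM h) :=
  Module.compHom Ω[F'⁄K'] (τ : F →+* F')

instance (h : Compat σ τ) : Module K (TwM h) :=
  Module.compHom Ω[F'⁄K'] ((algebraMap K' F').comp (σ : K →+* K'))

/-- The identity map `Ω[F'⁄K'] → TwM h`. -/
def toTw (h : Compat σ τ) (x : Ω[F'⁄K']) : TwM h := x

/-- The identity map `TwM h → Ω[F'⁄K']`. -/
def ofTw (h : Compat σ τ) (x : TwM h) : Ω[F'⁄K'] := x

theorem ofTw_smul (h : Compat σ τ) (c : F) (x : TwM h) : ofTw h (c • x) = τ c • ofTw h x := rfl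

theorem ofTw_add (h : Compat σ τ) (x y : TwM h) : ofTw h (x + y) = ofTw h x + ofTw h y := rfl

theorem ofTw_zero (h : Compat σ τ) : ofTw h (0 : TwM h) = 0 := rfl

instance (h : Compat σ τ) : IsScalarTower K F (TwM h) where
  smul_assoc a f m := by
    show (τ (a • f)) • ofTw h m = (algebraMap K' F' (σ a)) • (τ f • ofTw h m)
    rw [Algebra.smul_def, map_mul, h.comm, mul_smul]

/-- The `K`-derivation `f ↦ d (τ f)` of `F` with values in `TwM h`. -/
def twDer (h : Compat σ τ) : Derivation K F (TwM h) where
  toFun f := toTw h (D K' F' (τ f))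
  map_add' f g := by
    show D K' F' (τ (f + g)) = D K' F' (τ f) + D K' F' (τ g)
    rw [map_add, map_add]
  map_smul' a f := by
    show D K' F' (τ (a • f)) = (algebraMap K' F' (σ a)) • D K' F' (τ f)
    rw [Algebra.smul_def, map_mul, h.comm, Derivation.leibniz, Derivation.map_algebraMap,
      smul_zero, add_zero]
  map_one_eq_zero' := by
    show D K' F' (τ 1) = 0
    rw [map_one, Derivation.map_one_eq_zero]
  leibniz' f g := by
    show D K' F' (τ (f * g)) = τ f • D K' F' (τ g) + τ g • D K' F' (τ f)
    rw [map_mul, Derivation.leibniz]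

/-- The `τ`-semilinear map `Ω[F⁄K] → Ω[F'⁄K']`, `d f ↦ d (τ f)`. -/
def kaehlerMap (h : Compat σ τ) (x : Ω[F⁄K]) : Ω[F'⁄K'] :=
  ofTw h ((twDer h).liftKaehlerDifferential x)

theorem kaehlerMap_D (h : Compat σ τ) (f : F) : kaehlerMap h (D K F f) = D K' F' (τ f) := by
  unfold kaehlerMap
  rw [Derivation.liftKaehlerDifferential_comp_D]
  rfl

theorem kaehlerMap_add (h : Compat σ τ) (x y : Ω[F⁄K]) :
    kaehlerMap h (x + y) = kaehlerMap h x + kaehlerMap h y := by
  unfold kaehlerMap
  rw [map_add, ofTw_add]

theorem kaehlerMap_zero (h : Compat σ τ) : kaehlerMap h (0 : Ω[F⁄K]) = 0 := by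
  unfold kaehlerMap
  rw [map_zero, ofTw_zero]

theorem kaehlerMap_smul (h : Compat σ τ) (c : F) (x : Ω[F⁄K]) :
    kaehlerMap h (c • x) = τ c • kaehlerMap h x := by
  unfold kaehlerMap
  rw [map_smul, ofTw_smul]

theorem kaehlerMap_symm_kaehlerMap (h : Compat σ τ) (x : Ω[F⁄K]) :
    kaehlerMap h.symm (kaehlerMap h x) = x := by
  have hx : x ∈ Submodule.span F (Set.range (D K F)) := by
    rw [span_range_derivation]; trivial
  induction hx using Submodule.span_induction with
  | mem x hx =>
    obtain ⟨f, rfl⟩ := hx
    rw [kaehlerMap_D, kaehlerMap_D, RingEquiv.symm_apply_apply]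
  | zero => rw [kaehlerMap_zero, kaehlerMap_zero]
  | add x y _ _ hx hy => rw [kaehlerMap_add, kaehlerMap_add, hx, hy]
  | smul c x _ hx => rw [kaehlerMap_smul, kaehlerMap_smul, hx, RingEquiv.symm_apply_apply]

/-- The `τ`-semilinear additive equivalence `Ω[F⁄K] ≃ Ω[F'⁄K']`. -/
def kaehlerEquiv (h : Compat σ τ) : Ω[F⁄K] ≃+ Ω[F'⁄K'] where
  toFun := kaehlerMap h
  invFun := kaehlerMap h.symm
  left_inv := kaehlerMap_symm_kaehlerMap h
  right_inv := kaehlerMap_symm_kaehlerMap h.symm
  map_add' := kaehlerMap_add h

/-- The rank of the module of differentials is preserved. -/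
theorem finrank_kaehler (h : Compat σ τ) :
    Module.finrank F Ω[F⁄K] = Module.finrank F' Ω[F'⁄K'] :=
  finrank_eq_of_addEquiv τ (kaehlerEquiv h) τ.bijective (kaehlerMap_smul h)

end Kaehler

/-! ### `IsCurveOver`, `EssFiniteType`, and the S27 statement -/

theorem hasPrincipalDivisors (h : Compat σ τ) [HasPrincipalDivisors K F] :
    HasPrincipalDivisors K' F' where
  exists_divisor f' hf' := by
    obtain ⟨D, hD, hdeg⟩ := HasPrincipalDivisors.exists_divisor (K := K) (τ.symm f')
      (by simpa using hf')
    refine ⟨divisorEquiv h D, fun w => ?_, by rw [degree_divisorEquiv, hdeg]⟩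
    rw [divisorEquiv_eq_ord h hD, RingEquiv.apply_symm_apply]

/-- (T7) `IsCurveOver` is transported. -/
theorem isCurveOver (h : Compat σ τ) [hC : IsCurveOver K F] : IsCurveOver K' F' :=
  { hasPrincipalDivisors h with
    finiteResidue := fun w => by
      have : Module.Finite K (placeMap h.symm w).ResidueField :=
        IsCurveOver.finiteResidue (placeMap h.symm w)
      have := finite_residueField_placeMap h (placeMap h.symm w)
      rwa [placeMap_placeMap_symm] at this
    kaehler_free_rank_one :=
      ⟨inferInstance, by rw [← finrank_kaehler h]; exact hC.kaehler_free_rank_one.2⟩ }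

theorem apply_mem_adjoin (h : Compat σ τ) {s : Set F} {x : F} (hx : x ∈ Algebra.adjoin K s) :
    τ x ∈ Algebra.adjoin K' (τ '' s) := by
  refine Algebra.adjoin_induction (p := fun x _ => τ x ∈ Algebra.adjoin K' (τ '' s))
    ?_ ?_ ?_ ?_ hx
  · intro x hx
    exact Algebra.subset_adjoin (Set.mem_image_of_mem _ hx)
  · intro r
    rw [h.comm]
    exact Subalgebra.algebraMap_mem _ _
  · intro x y _ _ hx hy
    rw [map_add]
    exact add_mem hx hy
  · intro x y _ _ hx hy
    rw [map_mul]
    exact mul_mem hx hy

/-- (T7) `Algebra.EssFiniteType` is transported. -/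
theorem essFiniteType (h : Compat σ τ) [hE : Algebra.EssFiniteType K F] :
    Algebra.EssFiniteType K' F' := by
  classical
  obtain ⟨s, hs⟩ := (Algebra.essFiniteType_iff (R := K) (S := F)).mp hE
  refine (Algebra.essFiniteType_iff (R := K') (S := F')).mpr ⟨s.image τ, fun x' => ?_⟩
  obtain ⟨t, ht, htu, hxt⟩ := hs (τ.symm x')
  have hcoe : ((s.image τ : Finset F') : Set F') = τ '' (s : Set F) := by
    ext y; simp
  rw [hcoe]
  refine ⟨τ t, apply_mem_adjoin h ht, htu.map τ, ?_⟩
  have := apply_mem_adjoin h hxt
  rwa [map_mul, RingEquiv.apply_symm_apply] at this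

/-- (T8) The S27 statement is transported (from `(K', F')` to `(K, F)`). -/
theorem torsion_card_transport (h : Compat σ τ)
    (H : ∀ (ℓ : ℕ) [Fact ℓ.Prime] (k : ℕ),
      Nat.card (Pic0.torsion K' F' (ℓ ^ k)) = ℓ ^ (2 * genusFF K' F' * k))
    (ℓ : ℕ) [Fact ℓ.Prime] (k : ℕ) :
    Nat.card (Pic0.torsion K F (ℓ ^ k)) = ℓ ^ (2 * genusFF K F * k) := by
  rw [natCard_torsion_eq h, genusFF_eq h]
  exact H ℓ k

/-! ### Special case: change of the base field along an isomorphism, same top field -/

/-- If `F` carries a `K'`-algebra structure which is the `K`-structure composed with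
`e.symm`, then `(e, id)` is a compatible pair. -/
theorem compat_refl {K'' : Type u₂} [Field K''] [Algebra K'' F] (e : K ≃+* K'')
    (he : ∀ a : K, algebraMap K'' F (e a) = algebraMap K F a) :
    Compat e (RingEquiv.refl F) where
  comm a := by
    rw [RingEquiv.refl_apply, he]

end Fermat.Agent.S27.helper7214
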