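import Fermat.Agent.S27.helper8094_LefSpec
import Fermat.Agent.S27.helper7214_Semi
import Fermat.Agent.S27.helper7214_Transport
import Fermat.Agent.S27.helper1618_AutFixed
import Fermat.Agent.S27.helper5411_Reduce
import Fermat.Agent.S24.helper1370_PlaceBasics
import Fermat.Agent.S24.helper204_Places

/-!
# S27, module L: descent of torsion classes by `Aut(K1/K0)`-orbits (helper2848)

A second, independent proof of `helper8094.Stmt_DESC` (board row 1427), in the exact shape of
`helper8094_LefSpec`:

  `theorem desc_of (h1 : Stmt_CFE1) : Stmt_DESC`.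

Idea ("unique effective divisor").  Let `P0 = ι v0` be an old place and `D1` a degree-zero divisor
of `F1` with `n • D1` principal.  Take `N` minimal with `L(D1 + (N - 1) P0) ≠ 0`; then this space
is a line `K1 f0`, so `E := D1 + (N - 1) P0 + div f0` is the *unique* effective divisor in its
class.  Every `σ ∈ Aut(K1/K0)` extends to `τ_σ` on `F1` fixing `F0` (`helper7214.extRing`), and
`τ_σ` fixes every old place.  Hence `τ_σ E` is the unique effective divisor of the class
`τ_σ [D1] + (N - 1) [P0]`; there are only finitely many such classes (`Pic0[n]` is finite), so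
the `τ_σ E` form a finite set and every place in the support of `E` has a finite orbit.  A place
which is trivial on `F0` has an infinite orbit (its `x0`-value `b ∉ K0` has infinitely many
conjugates), so the support of `E` consists of old places: `E = ι_* E0` and
`D1 ~ ι_* (E0 - (N - 1) v0)`.
-/

set_option autoImplicit false

open AlgebraicCurve IntermediateField

namespace Fermat.Agent.S27.helper2848


universe u v u' v'

/-! ## Generic lemmas on a curve over an algebraically closed field -/

section Generic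

variable {K : Type u} {F : Type v} [Field K] [Field F] [Algebra K F]

/-- Residue field `= K`: a function regular at `w` has a value there. -/
theorem exists_value [IsAlgClosed K] [IsCurveOver K F] (w : Place K F) {f : F}
    (hf : 0 ≤ w.ord f) :
    ∃ a : K, f = algebraMap K F a ∨ 0 < w.ord (f - algebraMap K F a) := by
  have hmem : f ∈ w.toValuationSubring := Fermat.Agent.S24.helper1370.mem_of_ord_nonneg w hf
  have hfinres : Module.Finite K w.ResidueField := IsCurveOver.finiteResidue w
  have : Algebra.IsIntegral K w.ResidueField := Algebra.IsIntegral.of_finite K w.ResidueField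
  have hbij : Function.Bijective (algebraMap K w.ResidueField) :=
    IsAlgClosed.algebraMap_bijective_of_isIntegral
  obtain ⟨c, hc⟩ := hbij.2 (IsLocalRing.residue w.toValuationSubring ⟨f, hmem⟩)
  refine ⟨c, ?_⟩
  by_cases hfc : f = algebraMap K F c
  · exact Or.inl hfc
  right
  have h1 : IsLocalRing.residue w.toValuationSubring
      (⟨f, hmem⟩ - algebraMap K w.toValuationSubring c) = 0 := by
    rw [map_sub, sub_eq_zero]
    exact hc.symm
  rw [IsLocalRing.residue_eq_zero_iff] at h1
  rw [Fermat.Agent.S24.helper1370.ord_pos_iff]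
  exact ⟨sub_ne_zero.mpr hfc, sub_mem hmem (w.algebraMap_mem' c), h1⟩

/-- The degree of a divisor with nonnegative coefficients is nonnegative. -/
theorem degree_nonneg_of_forall {X : Divisor K F} (hX : ∀ v, 0 ≤ X v) :
    0 ≤ Divisor.degree X := by
  have h : Divisor.degree X = X.sum fun v n => n * (v.deg : ℤ) := by
    simp [Divisor.degree, Finsupp.liftAddHom_apply]
  rw [h]
  exact Finset.sum_nonneg fun v _ => mul_nonneg (hX v) (Int.natCast_nonneg _)

/-- A Riemann–Roch space of a divisor of negative degree is zero. -/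
theorem eq_zero_of_mem_of_degree_neg [HasPrincipalDivisors K F] {D : Divisor K F}
    (hD : Divisor.degree D < 0) {f : F} (hf : f ∈ riemannRochSpace D) : f = 0 := by
  by_contra hf0
  obtain ⟨Df, hDf, hdeg⟩ := HasPrincipalDivisors.exists_divisor (K := K) f hf0
  have hnn : 0 ≤ Divisor.degree (D + Df) := by
    apply degree_nonneg_of_forall
    intro v
    rw [Finsupp.add_apply, hDf v]
    rcases (mem_riemannRochSpace_iff.mp hf) v with h | h
    · exact absurd h hf0
    · linarith
  rw [map_add, hdeg, add_zero] at hnn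
  exact absurd hnn (not_le.mpr hD)

/-- If `L(D - P) = 0`, every nonzero element of `L(D)` has order exactly `-D P` at `P`. -/
theorem ord_eq_of_mem {D : Divisor K F} {P : Place K F}
    (h0 : ∀ f ∈ riemannRochSpace (D - Finsupp.single P 1), f = 0)
    {f : F} (hf : f ∈ riemannRochSpace D) (hf0 : f ≠ 0) : P.ord f = -D P := by
  have hle : -D P ≤ P.ord f := ((mem_riemannRochSpace_iff.mp hf) P).resolve_left hf0
  by_contra hne
  have hlt : -D P < P.ord f := lt_of_le_of_ne hle (Ne.symm hne)
  apply hf0
  apply h0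
  rw [mem_riemannRochSpace_iff]
  intro v
  right
  by_cases hv : v = P
  · subst hv
    rw [Finsupp.sub_apply, Finsupp.single_eq_same]
    omega
  · rw [Finsupp.sub_apply, Finsupp.single_eq_of_ne hv, sub_zero]
    exact ((mem_riemannRochSpace_iff.mp hf) v).resolve_left hf0

/-- If `L(D - P) = 0`, then `L(D)` is at most a line. -/
theorem exists_smul_eq_of_mem [IsAlgClosed K] [IsCurveOver K F] {D : Divisor K F}
    {P : Place K F} (h0 : ∀ f ∈ riemannRochSpace (D - Finsupp.single P 1), f = 0)
    {f g : F} (hf : f ∈ riemannRochSpace D) (hg : g ∈ riemannRochSpace D) (hf0 : f ≠ 0)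
    (hg0 : g ≠ 0) : ∃ a : K, a ≠ 0 ∧ f = algebraMap K F a * g := by
  have hordf := ord_eq_of_mem h0 hf hf0
  have hordg := ord_eq_of_mem h0 hg hg0
  have hq : P.ord (f / g) = 0 := by
    rw [Fermat.Agent.S24.helper1370.ord_div P hf0 hg0, hordf, hordg, sub_self]
  obtain ⟨a, ha⟩ := exists_value P hq.ge
  have ha0 : f = algebraMap K F a * g → a ≠ 0 := by
    rintro h rfl
    rw [map_zero, zero_mul] at h
    exact hf0 h
  by_cases hfa : f = algebraMap K F a * g
  · exact ⟨a, ha0 hfa, hfa⟩
  exfalso
  have hh0 : f - algebraMap K F a * g ≠ 0 := sub_ne_zero.mpr hfa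
  have hhmem : f - algebraMap K F a * g ∈ riemannRochSpace D := by
    have := (riemannRochSpace D).sub_mem hf ((riemannRochSpace D).smul_mem a hg)
    rwa [Algebra.smul_def] at this
  have hordh := ord_eq_of_mem h0 hhmem hh0
  have hfact : f - algebraMap K F a * g = (f / g - algebraMap K F a) * g := by
    field_simp
  have hqa0 : f / g - algebraMap K F a ≠ 0 := by
    intro h
    rw [hfact, h, zero_mul] at hh0
    exact hh0 rfl
  rcases ha with ha | ha
  · exact hqa0 (sub_eq_zero.mpr ha)
  · rw [hfact, P.ord_mul hqa0 hg0, hordg] at hordh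
    omega

/-- If `L(D - P) = 0`, an effective divisor linearly equivalent to `D` is unique. -/
theorem eff_unique [IsAlgClosed K] [IsCurveOver K F] {D : Divisor K F} {P : Place K F}
    (h0 : ∀ f ∈ riemannRochSpace (D - Finsupp.single P 1), f = 0)
    {E E' : Divisor K F} (hE : ∀ v, 0 ≤ E v) (hE' : ∀ v, 0 ≤ E' v)
    (h : E - D ∈ Divisor.principal (K := K) (F := F))
    (h' : E' - D ∈ Divisor.principal (K := K) (F := F)) : E = E' := by
  obtain ⟨f, hf0, hf⟩ := h
  obtain ⟨g, hg0, hg⟩ := h'
  have hfm : f ∈ riemannRochSpace D := by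
    rw [mem_riemannRochSpace_iff]
    intro v
    right
    have := hf v
    rw [Finsupp.sub_apply] at this
    have := hE v
    omega
  have hgm : g ∈ riemannRochSpace D := by
    rw [mem_riemannRochSpace_iff]
    intro v
    right
    have := hg v
    rw [Finsupp.sub_apply] at this
    have := hE' v
    omega
  obtain ⟨a, ha0, hfa⟩ := exists_smul_eq_of_mem h0 hfm hgm hf0 hg0
  ext v
  have h1 := hf v
  have h2 := hg v
  rw [Finsupp.sub_apply] at h1 h2
  have h3 : v.ord f = v.ord g := by
    rw [hfa, Fermat.Agent.S24.helper1370.ord_algebraMap_mul v ha0]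
  omega

end Generic

/-! ## `Pic0` plumbing -/

section Pic

variable {K : Type u} {F : Type v} [Field K] [Field F] [Algebra K F]

theorem pic0_mk_eq_iff (A B : Divisor.degZero (K := K) (F := F)) :
    Pic0.mk A = Pic0.mk B ↔
      (B : Divisor K F) - (A : Divisor K F) ∈ Divisor.principal (K := K) (F := F) := by
  show (QuotientAddGroup.mk A : Pic0 K F) = QuotientAddGroup.mk B ↔ _
  rw [QuotientAddGroup.eq, AddSubgroup.mem_addSubgroupOf]
  have : ((-A + B : Divisor.degZero (K := K) (F := F)) : Divisor K F)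
      = (B : Divisor K F) - (A : Divisor K F) := by
    push_cast
    abel
  rw [this]

theorem pic0_mk_mem_torsion {n : ℕ} (A : Divisor.degZero (K := K) (F := F))
    (h : n • (A : Divisor K F) ∈ Divisor.principal (K := K) (F := F)) :
    Pic0.mk A ∈ Pic0.torsion K F n := by
  rw [Pic0.mem_torsion]
  show (n : ℤ) • (QuotientAddGroup.mk A : Pic0 K F) = 0
  rw [← QuotientAddGroup.mk_zsmul, QuotientAddGroup.eq_zero_iff, AddSubgroup.mem_addSubgroupOf]
  have : (((n : ℤ) • A : Divisor.degZero (K := K) (F := F)) : Divisor K F)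
      = n • (A : Divisor K F) := by
    push_cast
    rw [natCast_zsmul]
  rw [this]
  exact h

end Pic

/-! ## The descent -/

section Main

variable {K0 : Type u} {F0 : Type v} {K1 : Type u'} {F1 : Type v'}
  [Field K0] [Field F0] [Field K1] [Field F1]
  [Algebra K0 F0] [Algebra K1 F1] [Algebra K0 K1] [Algebra F0 F1] [Algebra K0 F1]
  [IsScalarTower K0 F0 F1] [IsScalarTower K0 K1 F1]

/-- The extension of `σ ∈ Aut(K1/K0)` to `F1` is `σ`-semilinear. -/
theorem compat_extRing (hC : helper8094.IsConstExt K0 F0 K1 F1) (σ : K1 ≃ₐ[K0] K1) :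
    helper7214.Compat σ.toRingEquiv (helper7214.extRing hC σ) :=
  ⟨fun a => helper7214.extRing_algebraMap_right hC σ a⟩

/-- Extensions of places of `F0` are fixed by the extended automorphisms. -/
theorem placeMap_eq_of_isExtOf (hC : helper8094.IsConstExt K0 F0 K1 F1)
    (hext : ∀ v : Place K0 F0, ∃! w : Place K1 F1, helper8094.IsExtOf w v)
    (σ : K1 ≃ₐ[K0] K1) {v : Place K0 F0} {w : Place K1 F1} (hw : helper8094.IsExtOf w v) :
    helper7214.placeMap (compat_extRing hC σ) w = w := by
  obtain ⟨w', -, huniq⟩ := hext v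
  have h1 : helper8094.IsExtOf (helper7214.placeMap (compat_extRing hC σ) w) v := by
    intro f
    have h := helper7214.ord_placeMap (compat_extRing hC σ) w (algebraMap F0 F1 f)
    rw [helper7214.extRing_algebraMap_left] at h
    rw [h]
    exact hw f
  rw [huniq _ h1, huniq _ hw]

omit [Algebra K0 K1] [Algebra F0 F1] [Algebra K0 F1] [IsScalarTower K0 F0 F1]
  [IsScalarTower K0 K1 F1] in
/-- The degree is preserved by the push-forward along extensions of places (all degrees are 1). -/
theorem degree_mapDomain [IsAlgClosed K0] [IsAlgClosed K1] [IsCurveOver K0 F0] [IsCurveOver K1 F1]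
    (ι : Place K0 F0 → Place K1 F1) (D : Divisor K0 F0) :
    Divisor.degree (Finsupp.mapDomain ι D) = Divisor.degree D := by
  induction D using Finsupp.induction_linear with
  | zero => simp
  | add f g hf hg => rw [Finsupp.mapDomain_add, map_add, map_add, hf, hg]
  | single v n =>
    rw [Finsupp.mapDomain_single, Divisor.degree_single, Divisor.degree_single,
      IsCurveOver.deg_eq_one_of_isAlgClosed, IsCurveOver.deg_eq_one_of_isAlgClosed]

/-- Core of the descent (all hypotheses explicit). -/
theorem desc_core [IsAlgClosed K0] [CharZero K0] [IsAlgClosed K1] [IsCurveOver K0 F0]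
    [Algebra.EssFiniteType K0 F0] [IsCurveOver K1 F1]
    (hC : helper8094.IsConstExt K0 F0 K1 F1)
    (hext : ∀ v : Place K0 F0, ∃! w : Place K1 F1, helper8094.IsExtOf w v)
    (hold : ∀ w : Place K1 F1, (∃ f : F0, f ≠ 0 ∧ w.ord (algebraMap F0 F1 f) ≠ 0) →
      ∃ v : Place K0 F0, helper8094.IsExtOf w v)
    (hW : helper8094.WeakRR K1 F1) (n : ℕ)
    (hfin : (Pic0.torsion K1 F1 n : Set (Pic0 K1 F1)).Finite)
    (ι : Place K0 F0 → Place K1 F1) (hι : ∀ v, helper8094.IsExtOf (ι v) v)
    (D1 : Divisor K1 F1) (hdeg : Divisor.degree D1 = 0)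
    (hn : n • D1 ∈ Divisor.principal (K := K1) (F := F1)) :
    ∃ D0 : Divisor K0 F0, Divisor.degree D0 = 0 ∧
      D1 - Finsupp.mapDomain ι D0 ∈ Divisor.principal (K := K1) (F := F1) := by
  classical
  -- a transcendental element and a place of `F0`
  obtain ⟨x0, hx0, hx0fin⟩ := helper5411.exists_transcendental_finite (K := K0) (F := F0)
  have : FiniteDimensional K0⟮x0⟯ F0 := hx0fin
  obtain ⟨v0⟩ : Nonempty (Place K0 F0) := by
    obtain ⟨s, -, hs2⟩ := Fermat.Agent.S24.helper204.exists_finset_poles x0 hx0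
    have hpos : 0 < Module.finrank K0⟮x0⟯ F0 := Module.finrank_pos
    by_contra hemp
    rw [not_nonempty_iff] at hemp
    have hs : s = ∅ := Finset.eq_empty_of_isEmpty s
    rw [hs, Finset.sum_empty] at hs2
    omega
  have hdeg1 : ∀ w : Place K1 F1, w.deg = 1 := IsCurveOver.deg_eq_one_of_isAlgClosed
  have hdeg0 : ∀ v : Place K0 F0, v.deg = 1 := IsCurveOver.deg_eq_one_of_isAlgClosed
  have hιinj : Function.Injective ι := by
    intro v v' hvv
    apply Fermat.Agent.S24.helper1370.ext_ord
    intro f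
    rw [← hι v f, ← hι v' f, hvv]
  -- the base point and the family `D1 + (N - 1) P0`
  obtain ⟨P0, hP0⟩ : ∃ P0 : Place K1 F1, P0 = ι v0 := ⟨_, rfl⟩
  obtain ⟨B, hB⟩ : ∃ B : ℕ → Divisor K1 F1,
      ∀ N : ℕ, B N = ((N : ℤ) - 1) • Finsupp.single P0 (1 : ℤ) := ⟨_, fun _ => rfl⟩
  have hBdeg : ∀ N : ℕ, Divisor.degree (B N) = (N : ℤ) - 1 := by
    intro N
    rw [hB, map_zsmul, Divisor.degree_single, hdeg1]
    simp
  have hDNdeg : ∀ N : ℕ, Divisor.degree (D1 + B N) = (N : ℤ) - 1 := by
    intro N
    rw [map_add, hdeg, zero_add, hBdeg]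
  have hex : ∃ N : ℕ, ∃ f ∈ riemannRochSpace (D1 + B N), f ≠ 0 := by
    obtain ⟨c, hc⟩ := hW
    have hN : c ≤ Divisor.degree (D1 + B ((max c 0).toNat + genusFF K1 F1 + 1)) := by
      rw [hDNdeg]
      have h1 : ((max c 0).toNat : ℤ) = max c 0 := Int.toNat_of_nonneg (le_max_right c 0)
      have h2 : c ≤ max c 0 := le_max_left c 0
      push_cast
      omega
    have hfr := hc _ hN
    rw [hDNdeg] at hfr
    have hne : riemannRochSpace (D1 + B ((max c 0).toNat + genusFF K1 F1 + 1)) ≠ ⊥ := by
      intro hbot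
      rw [hbot, finrank_bot] at hfr
      push_cast at hfr
      omega
    obtain ⟨f, hf, hf0⟩ := (Submodule.ne_bot_iff _).mp hne
    exact ⟨_, f, hf, hf0⟩
  obtain ⟨N, ⟨f0, hf0mem, hf0⟩, hNmin⟩ :
      ∃ N : ℕ, (∃ f ∈ riemannRochSpace (D1 + B N), f ≠ 0) ∧
        ∀ M < N, ¬ ∃ f ∈ riemannRochSpace (D1 + B M), f ≠ 0 :=
    ⟨Nat.find hex, Nat.find_spec hex, fun M hM => Nat.find_min hex hM⟩
  have hNpos : N ≠ 0 := by
    intro hN0
    have hneg : Divisor.degree (D1 + B N) < 0 := by
      rw [hDNdeg, hN0]
      simp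
    exact hf0 (eq_zero_of_mem_of_degree_neg hneg hf0mem)
  have hBpred : B (N - 1) = B N - Finsupp.single P0 (1 : ℤ) := by
    rw [hB, hB]
    have hc : ((N - 1 : ℕ) : ℤ) = (N : ℤ) - 1 := by omega
    rw [hc, sub_smul ((N : ℤ) - 1) 1, one_smul]
  have hmin : ∀ f ∈ riemannRochSpace (D1 + B N - Finsupp.single P0 (1 : ℤ)), f = 0 := by
    intro f hf
    by_contra hfne
    refine hNmin (N - 1) (by omega) ⟨f, ?_, hfne⟩
    rw [hBpred, ← add_sub_assoc]
    exact hf
  -- the unique effective divisor `E`
  obtain ⟨Df, hDf, -⟩ := HasPrincipalDivisors.exists_divisor (K := K1) f0 hf0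
  obtain ⟨E, hE⟩ : ∃ E : Divisor K1 F1, E = D1 + B N + Df := ⟨_, rfl⟩
  have hEnn : ∀ w, 0 ≤ E w := by
    intro w
    rw [hE, Finsupp.add_apply, hDf w]
    have h := ((mem_riemannRochSpace_iff.mp hf0mem) w).resolve_left hf0
    omega
  have hEprin : E - (D1 + B N) ∈ Divisor.principal (K := K1) (F := F1) := by
    rw [hE, add_sub_cancel_left]
    exact ⟨f0, hf0, hDf⟩
  have hEdeg : Divisor.degree E = (N : ℤ) - 1 := by
    obtain ⟨g, hg0, hg⟩ := hEprin
    obtain ⟨Dg, hDg, hDgdeg⟩ := HasPrincipalDivisors.exists_divisor (K := K1) g hg0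
    have : E - (D1 + B N) = Dg := by
      ext w
      rw [hg w, hDg w]
    have h2 : Divisor.degree (E - (D1 + B N)) = 0 := by rw [this, hDgdeg]
    rw [map_sub, hDNdeg] at h2
    omega
  -- the semilinear automorphisms
  have hτ : ∀ σ : K1 ≃ₐ[K0] K1,
      helper7214.Compat σ.toRingEquiv (helper7214.extRing hC σ) := fun σ => compat_extRing hC σ
  have hfixP0 : ∀ σ : K1 ≃ₐ[K0] K1, helper7214.placeMap (hτ σ) P0 = P0 := by
    intro σ
    rw [hP0]
    exact placeMap_eq_of_isExtOf hC hext σ (hι v0)
  have hfixB : ∀ σ : K1 ≃ₐ[K0] K1, helper7214.divisorEquiv (hτ σ) (B N) = B N := by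
    intro σ
    rw [hB, map_zsmul, helper7214.divisorEquiv_single, hfixP0]
  -- translates of `E`
  have hEσ : ∀ σ : K1 ≃ₐ[K0] K1,
      helper7214.divisorEquiv (hτ σ) E - B N - helper7214.divisorEquiv (hτ σ) D1
        ∈ Divisor.principal (K := K1) (F := F1) := by
    intro σ
    have h := helper7214.isPrincipal_divisorEquiv (hτ σ) hEprin
    have h2 : helper7214.divisorEquiv (hτ σ) (E - (D1 + B N))
        = helper7214.divisorEquiv (hτ σ) E - B N - helper7214.divisorEquiv (hτ σ) D1 := by
      rw [map_sub, map_add, hfixB]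
      abel
    rw [← h2]
    exact h
  have hEσdeg : ∀ σ : K1 ≃ₐ[K0] K1,
      Divisor.degree (helper7214.divisorEquiv (hτ σ) E - B N) = 0 := by
    intro σ
    rw [map_sub, helper7214.degree_divisorEquiv, hEdeg, hBdeg, sub_self]
  have hEσnn : ∀ (σ : K1 ≃ₐ[K0] K1) (w : Place K1 F1),
      0 ≤ helper7214.divisorEquiv (hτ σ) E w := by
    intro σ w
    rw [helper7214.divisorEquiv_apply]
    exact hEnn _
  -- uniqueness: translates in the same class are equal
  have hinj : ∀ σ σ' : K1 ≃ₐ[K0] K1,
      helper7214.divisorEquiv (hτ σ') E - helper7214.divisorEquiv (hτ σ) E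
        ∈ Divisor.principal (K := K1) (F := F1) →
      helper7214.divisorEquiv (hτ σ') E = helper7214.divisorEquiv (hτ σ) E := by
    intro σ σ' hp
    obtain ⟨X, hX⟩ : ∃ X : Divisor K1 F1,
        X = (helper7214.divisorEquiv (hτ σ)).symm (helper7214.divisorEquiv (hτ σ') E) := ⟨_, rfl⟩
    have hXE : helper7214.divisorEquiv (hτ σ) X = helper7214.divisorEquiv (hτ σ') E := by
      rw [hX, AddEquiv.apply_symm_apply]
    have hXnn : ∀ w, 0 ≤ X w := by
      intro w
      rw [hX, helper7214.divisorEquiv_symm_apply]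
      exact hEσnn σ' _
    have hXp : X - E ∈ Divisor.principal (K := K1) (F := F1) := by
      have h3 : (helper7214.divisorEquiv (hτ σ) (X - E)).IsPrincipal := by
        rw [map_sub, hXE]
        exact hp
      exact (helper7214.isPrincipal_divisorEquiv_iff (hτ σ)).mp h3
    have hXp' : X - (D1 + B N) ∈ Divisor.principal (K := K1) (F := F1) := by
      have := add_mem hXp hEprin
      rwa [sub_add_sub_cancel] at this
    have hXeq : X = E := eff_unique hmin hXnn hEnn hXp' hEprin
    rw [← hXE, hXeq]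
  -- finitely many translates
  have hfinE : (Set.range fun σ : K1 ≃ₐ[K0] K1 => helper7214.divisorEquiv (hτ σ) E).Finite := by
    obtain ⟨Ψ, hΨ⟩ : ∃ Ψ : Divisor K1 F1 → Pic0 K1 F1, ∀ X : Divisor K1 F1,
        Ψ X = if h : Divisor.degree (X - B N) = 0 then Pic0.mk ⟨X - B N, h⟩ else 0 :=
      ⟨_, fun _ => rfl⟩
    have hΨσ : ∀ σ : K1 ≃ₐ[K0] K1, Ψ (helper7214.divisorEquiv (hτ σ) E)
        = Pic0.mk ⟨helper7214.divisorEquiv (hτ σ) E - B N, hEσdeg σ⟩ := by
      intro σ
      rw [hΨ, dif_pos (hEσdeg σ)]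
    apply Set.Finite.of_finite_image (f := Ψ)
    · apply hfin.subset
      rintro _ ⟨_, ⟨σ, rfl⟩, rfl⟩
      rw [hΨσ]
      apply pic0_mk_mem_torsion
      show n • (helper7214.divisorEquiv (hτ σ) E - B N) ∈ Divisor.principal (K := K1) (F := F1)
      have h1 := nsmul_mem (hEσ σ) n
      have h2 : n • helper7214.divisorEquiv (hτ σ) D1
          ∈ Divisor.principal (K := K1) (F := F1) := by
        rw [← map_nsmul]
        exact helper7214.isPrincipal_divisorEquiv (hτ σ) hn
      have h3 := add_mem h1 h2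
      rwa [← nsmul_add, sub_add_cancel] at h3
    · rintro _ ⟨σ, rfl⟩ _ ⟨σ', rfl⟩ heq
      rw [hΨσ, hΨσ, pic0_mk_eq_iff] at heq
      have h4 : helper7214.divisorEquiv (hτ σ') E - helper7214.divisorEquiv (hτ σ) E
          ∈ Divisor.principal (K := K1) (F := F1) := by
        have h5 : helper7214.divisorEquiv (hτ σ') E - B N
            - (helper7214.divisorEquiv (hτ σ) E - B N)
            = helper7214.divisorEquiv (hτ σ') E - helper7214.divisorEquiv (hτ σ) E := by abel
        rw [← h5]
        exact heq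
      exact (hinj σ σ' h4).symm
  -- the finite set of places containing all orbits of the support of `E`
  obtain ⟨S, hS⟩ : ∃ S : Set (Place K1 F1), S = ⋃ X ∈ (Set.range fun σ : K1 ≃ₐ[K0] K1 =>
      helper7214.divisorEquiv (hτ σ) E), ((X.support : Finset (Place K1 F1)) : Set (Place K1 F1)) :=
    ⟨_, rfl⟩
  have hSfin : S.Finite := by
    rw [hS]
    exact Set.Finite.biUnion hfinE fun X _ => X.support.finite_toSet
  have hSmem : ∀ (σ : K1 ≃ₐ[K0] K1) (w : Place K1 F1), E w ≠ 0 →
      helper7214.placeMap (hτ σ) w ∈ S := by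
    intro σ w hw
    rw [hS]
    refine Set.mem_biUnion ⟨σ, rfl⟩ ?_
    rw [Finset.mem_coe, Finsupp.mem_support_iff, helper7214.divisorEquiv_apply_placeMap]
    exact hw
  -- every place of the support of `E` is nontrivial on `F0`
  have hnontriv : ∀ w : Place K1 F1, E w ≠ 0 →
      ∃ f : F0, f ≠ 0 ∧ w.ord (algebraMap F0 F1 f) ≠ 0 := by
    intro w hw
    by_contra hcon
    push Not at hcon
    have hx00 : x0 ≠ 0 := by
      rintro rfl
      exact hx0 isAlgebraic_zero
    obtain ⟨b, hb⟩ := exists_value w (hcon x0 hx00).ge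
    -- the orbit of `b` is finite
    have horb : (Set.range fun σ : K1 ≃ₐ[K0] K1 => σ b).Finite := by
      rcases hb with hb | hb
      · apply (Set.finite_singleton b).subset
        rintro _ ⟨σ, rfl⟩
        have h1 := helper7214.extRing_algebraMap_left hC σ x0
        rw [hb, helper7214.extRing_algebraMap_right] at h1
        exact (algebraMap K1 F1).injective h1
      · have hfinU : (⋃ w' ∈ S, {a : K1 |
            0 < w'.ord (algebraMap F0 F1 x0 - algebraMap K1 F1 a)}).Finite := by
          apply Set.Finite.biUnion hSfin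
          intro w' _
          apply Set.Subsingleton.finite
          intro a ha a' ha'
          exact Fermat.Agent.S24.helper1370.eq_of_ord_sub_algebraMap_pos w' ha ha'
        apply hfinU.subset
        rintro _ ⟨σ, rfl⟩
        refine Set.mem_biUnion (hSmem σ w hw) ?_
        show 0 < (helper7214.placeMap (hτ σ) w).ord
          (algebraMap F0 F1 x0 - algebraMap K1 F1 (σ b))
        have h1 := helper7214.ord_placeMap (hτ σ) w (algebraMap F0 F1 x0 - algebraMap K1 F1 b)
        rw [map_sub, helper7214.extRing_algebraMap_left, helper7214.extRing_algebraMap_right]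
          at h1
        rw [h1]
        exact hb
    obtain ⟨b0, rfl⟩ := helper1618.mem_range_algebraMap_of_finite_orbit b horb
    have hxb : x0 - algebraMap K0 F0 b0 ≠ 0 := by
      intro h
      apply hx0
      rw [sub_eq_zero.mp h]
      exact isAlgebraic_algebraMap b0
    have hmap : algebraMap F0 F1 x0 - algebraMap K1 F1 (algebraMap K0 K1 b0)
        = algebraMap F0 F1 (x0 - algebraMap K0 F0 b0) := by
      rw [map_sub, ← IsScalarTower.algebraMap_apply K0 K1 F1,
        ← IsScalarTower.algebraMap_apply K0 F0 F1]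
    rcases hb with hb | hb
    · have h2 : algebraMap F0 F1 (x0 - algebraMap K0 F0 b0) = 0 := by
        rw [← hmap, hb, sub_self]
      exact hxb ((algebraMap F0 F1).injective (h2.trans (map_zero _).symm))
    · rw [hmap, hcon _ hxb] at hb
      exact lt_irrefl _ hb
  -- hence the support of `E` consists of extended places
  have hsupp : ((E.support : Finset (Place K1 F1)) : Set (Place K1 F1)) ⊆ Set.range ι := by
    intro w hw
    rw [Finset.mem_coe, Finsupp.mem_support_iff] at hw
    obtain ⟨v, hv⟩ := hold w (hnontriv w hw)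
    obtain ⟨w', -, huniq⟩ := hext v
    exact ⟨v, by rw [huniq _ (hι v), huniq _ hv]⟩
  have hmapE : Finsupp.mapDomain ι (Finsupp.comapDomain ι E hιinj.injOn) = E :=
    Finsupp.mapDomain_comapDomain ι hιinj E hsupp
  refine ⟨Finsupp.comapDomain ι E hιinj.injOn - ((N : ℤ) - 1) • Finsupp.single v0 (1 : ℤ), ?_, ?_⟩
  · rw [map_sub, ← degree_mapDomain ι (Finsupp.comapDomain ι E hιinj.injOn), hmapE, hEdeg,
      map_zsmul, Divisor.degree_single, hdeg0]
    simp
  · have h1 : Finsupp.mapDomain ι
        (Finsupp.comapDomain ι E hιinj.injOn - ((N : ℤ) - 1) • Finsupp.single v0 (1 : ℤ))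
        = E - B N := by
      have h2 := (Finsupp.mapDomain.addMonoidHom (M := ℤ) ι).map_sub
        (Finsupp.comapDomain ι E hιinj.injOn) (((N : ℤ) - 1) • Finsupp.single v0 (1 : ℤ))
      have h3 := (Finsupp.mapDomain.addMonoidHom (M := ℤ) ι).map_zsmul
        ((N : ℤ) - 1) (Finsupp.single v0 (1 : ℤ))
      simp only [Finsupp.mapDomain.addMonoidHom_apply] at h2 h3
      rw [h2, h3, hmapE, Finsupp.mapDomain_single, hB, hP0]
    rw [h1]
    have h4 : D1 - (E - B N) = -(E - (D1 + B N)) := by abel
    rw [h4]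
    exact neg_mem hEprin

/-- **DESC** (second proof, by `Aut(K1/K0)`-orbits): `helper8094.Stmt_DESC` from the place
extension statement `helper8094.Stmt_CFE1`. -/
theorem desc_of (h1 : helper8094.Stmt_CFE1.{u, v, u', v'}) :
    helper8094.Stmt_DESC.{u, v, u', v'} := by
  intro K0 F0 K1 F1 _ _ _ _ _ _ _ _ _ _ _ _ _ _ _ _ _ _ _ hC hW n hfin ι hι D1 hdeg hn
  obtain ⟨hext, hold, -⟩ := h1 K0 F0 K1 F1 hC
  exact desc_core hC hext hold hW n hfin ι hι D1 hdeg hn

end Main


end Fermat.Agent.S27.helper2848
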