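import Mathlib

/-!
# S27, algebraic track: the tower-torsion endgame (GRP), abstract form

Pure group theory (Mathlib only).  Let `A` be an abelian group, `ℓ` a prime and
`B 0 ≤ B 1 ≤ …` finite subgroups with `#B j = ℓ^(c + 2 g j)`.  Assume that for every `j`
there is an endomorphism `σ j` of `A` fixing `B j` pointwise such that the "trace"
`Tr_j = ∑_{i < ℓ} (σ j)^i` maps `B (j+1)` onto `B j`.  Then the union `U = ⋃ B j` has exactly
`ℓ^(2 g k)` elements killed by `ℓ^k`, for every `k`.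

Consumer (char-`p` core of the algebraic route, findings #2190 (2)): `A = Pic⁰`,
`B j` = the `ℓ`-part of the classes of `φ^(m₀ ℓ^j)`-fixed divisors, `σ j = φ^(m₀ ℓ^j)`.

Main results:
* `card_tor_of_tower` (T1): towers of `ℓ`-groups;
* `card_primary` : the `ℓ`-primary part of a finite abelian group `G` has `ℓ^(v_ℓ #G)` elements;
* `card_tor_of_tower'` (T2): towers of arbitrary finite subgroups `Γ j` with
  `v_ℓ (#Γ j) = c + 2 g j`;
* `card_tor_of_system` (T3) and `card_torsionBy_of_system`: the consumer form for a system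
  `Γ r` (`r ≥ 1`) with one endomorphism `φ`.
-/

set_option autoImplicit false

namespace Fermat.Agent.S27.helper2988

open Finset

/-! ## Basic vocabulary -/

section Basic

variable {A : Type*} [AddCommGroup A]

/-- The subgroup of elements killed by `n`. -/
def tor (A : Type*) [AddCommGroup A] (n : ℕ) : AddSubgroup A :=
  (nsmulAddMonoidHom (α := A) n).ker

@[simp] lemma mem_tor {n : ℕ} {x : A} : x ∈ tor A n ↔ n • x = 0 := Iff.rfl

lemma tor_mono {m n : ℕ} (h : m ∣ n) : tor A m ≤ tor A n := by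
  intro x hx
  obtain ⟨d, rfl⟩ := h
  rw [mem_tor] at hx ⊢
  rw [mul_nsmul, hx, nsmul_zero]

/-- The trace `∑_{i < ℓ} σ^i` of an endomorphism. -/
def trace (σ : A →+ A) (ℓ : ℕ) : A →+ A where
  toFun y := ∑ i ∈ range ℓ, σ^[i] y
  map_zero' := by simp [iterate_map_zero]
  map_add' x y := by simp [iterate_map_add, sum_add_distrib]

@[simp] lemma trace_apply (σ : A →+ A) (ℓ : ℕ) (y : A) :
    trace σ ℓ y = ∑ i ∈ range ℓ, σ^[i] y := rfl

lemma trace_of_fixed (σ : A →+ A) (ℓ : ℕ) {x : A} (hx : σ x = x) : trace σ ℓ x = ℓ • x := by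
  simp [Function.iterate_fixed hx]

/-- The `n`-th iterate of an endomorphism, as a homomorphism. -/
def iter (φ : A →+ A) (n : ℕ) : A →+ A where
  toFun := φ^[n]
  map_zero' := iterate_map_zero φ n
  map_add' := iterate_map_add φ n

@[simp] lemma iter_apply (φ : A →+ A) (n : ℕ) (y : A) : iter φ n y = φ^[n] y := rfl

lemma iter_iterate (φ : A →+ A) (n i : ℕ) (y : A) : (iter φ n)^[i] y = φ^[n * i] y := by
  rw [Function.iterate_mul]
  rfl

/-- Cardinality of a finite subgroup = kernel part times image. -/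
lemma card_eq_card_inf_ker_mul_card_map {B : Type*} [AddCommGroup B] (H : AddSubgroup A)
    (F : A →+ B) :
    Nat.card H = Nat.card ↥(H ⊓ F.ker) * Nat.card ↥(H.map F) := by
  have h1 := AddSubgroup.card_mul_index (F.domRestrict H).ker
  rw [AddSubgroup.index_ker, AddMonoidHom.domRestrict_range, AddMonoidHom.ker_domRestrict] at h1
  have h2 : Nat.card ↥(F.ker.addSubgroupOf H) = Nat.card ↥(H ⊓ F.ker) := by
    rw [inf_comm, ← AddSubgroup.inf_addSubgroupOf_right]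
    exact Nat.card_congr (AddSubgroup.addSubgroupOfEquivOfLe inf_le_right).toEquiv
  rw [← h1, h2]

end Basic

/-! ## Numeric lemmas -/

section Numeric

lemma numeric_upper (L : ℕ) (t a : ℕ → ℕ) (h0 : t 0 = 1) (hs : ∀ k, t (k + 1) = t k * a k)
    (ha : ∀ k, a k ≤ L) : ∀ k, t k ≤ L ^ k := by
  intro k
  induction k with
  | zero => simp [h0]
  | succ k ih =>
    rw [hs, pow_succ]
    exact Nat.mul_le_mul ih (ha k)

lemma numeric_small (L : ℕ) (t a : ℕ → ℕ) (h0 : t 0 = 1) (hs : ∀ k, t (k + 1) = t k * a k)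
    (hanti : ∀ k, a (k + 1) ≤ a k) : ∀ k, t k < L ^ k → a k < L := by
  intro k
  induction k with
  | zero => intro h; simp [h0] at h
  | succ k ih =>
    intro h
    rw [hs, pow_succ] at h
    have hak : a k < L := by
      by_contra hcon
      replace hcon := not_lt.mp hcon
      have h1 : t k * L ≤ t k * a k := Nat.mul_le_mul_left _ hcon
      have h2 : t k * L < L ^ k * L := lt_of_le_of_lt h1 h
      have hL : 0 < L := by
        rcases Nat.eq_zero_or_pos L with h0' | h0'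
        · rw [h0'] at h2; simp at h2
        · exact h0'
      have h3 : t k < L ^ k := lt_of_mul_lt_mul_right h2 (Nat.zero_le L)
      exact absurd (ih h3) (not_lt.mpr hcon)
    exact lt_of_le_of_lt (hanti k) hak

lemma numeric_gap (ℓ d : ℕ) (hℓ : ℓ.Prime) (t a : ℕ → ℕ) (h0 : t 0 = 1)
    (hs : ∀ k, t (k + 1) = t k * a k) (hanti : ∀ k, a (k + 1) ≤ a k)
    (hpow : ∀ k, ∃ e, a k = ℓ ^ e) (k : ℕ) (hk : t k < (ℓ ^ d) ^ k) :
    ∀ m, t (k + m) * ℓ ^ m < (ℓ ^ d) ^ (k + m) := by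
  intro m
  induction m with
  | zero => simpa using hk
  | succ m ih =>
    have hpos : 0 < ℓ ^ m := pow_pos hℓ.pos m
    have h1 : t (k + m) < (ℓ ^ d) ^ (k + m) :=
      lt_of_le_of_lt (Nat.le_mul_of_pos_right _ hpos) ih
    have h2 : a (k + m) < ℓ ^ d := numeric_small (ℓ ^ d) t a h0 hs hanti (k + m) h1
    obtain ⟨e, he⟩ := hpow (k + m)
    have h3 : a (k + m) * ℓ ≤ ℓ ^ d := by
      rw [he] at h2 ⊢
      have : e < d := (Nat.pow_lt_pow_iff_right hℓ.one_lt).mp h2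
      rw [← pow_succ]
      exact Nat.pow_le_pow_right hℓ.pos this
    have h4 : t (k + (m + 1)) * ℓ ^ (m + 1) = (t (k + m) * ℓ ^ m) * (a (k + m) * ℓ) := by
      rw [← add_assoc, hs, pow_succ]
      ring
    rw [h4, ← add_assoc, pow_succ]
    exact Nat.mul_lt_mul_of_lt_of_le ih h3 (pow_pos hℓ.pos d)

/-- A bounded monotone sequence of natural numbers is eventually constant. -/
lemma exists_stable (f : ℕ → ℕ) (M : ℕ) (hmono : Monotone f) (hb : ∀ j, f j ≤ M) :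
    ∃ j₀, ∀ j, j₀ ≤ j → f j = f j₀ := by
  have hne : (Set.range f).Nonempty := ⟨f 0, Set.mem_range_self 0⟩
  have hbdd : BddAbove (Set.range f) := ⟨M, by rintro _ ⟨j, rfl⟩; exact hb j⟩
  obtain ⟨j₀, hj₀⟩ := Nat.sSup_mem hne hbdd
  refine ⟨j₀, fun j hj => le_antisymm ?_ (hmono hj)⟩
  rw [hj₀]
  exact le_csSup hbdd (Set.mem_range_self j)

end Numeric

/-! ## Finite subgroups: the filtration by `ℓ^k`-torsion -/

section Filtration

variable {A : Type*} [AddCommGroup A]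

/-- `G[ℓ^k]`. -/
def T (ℓ : ℕ) (G : AddSubgroup A) (k : ℕ) : AddSubgroup A := G ⊓ tor A (ℓ ^ k)

/-- `ℓ^k G[ℓ^(k+1)]`. -/
def I (ℓ : ℕ) (G : AddSubgroup A) (k : ℕ) : AddSubgroup A :=
  (T ℓ G (k + 1)).map (nsmulAddMonoidHom (ℓ ^ k))

lemma mem_T {ℓ : ℕ} {G : AddSubgroup A} {k : ℕ} {x : A} :
    x ∈ T ℓ G k ↔ x ∈ G ∧ ℓ ^ k • x = 0 := Iff.rfl

lemma T_le (ℓ : ℕ) (G : AddSubgroup A) (k : ℕ) : T ℓ G k ≤ G := inf_le_left

lemma T_mono_left (ℓ : ℕ) {G G' : AddSubgroup A} (h : G ≤ G') (k : ℕ) : T ℓ G k ≤ T ℓ G' k :=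
  inf_le_inf_right _ h

lemma T_mono_right (ℓ : ℕ) (G : AddSubgroup A) {k k' : ℕ} (h : k ≤ k') : T ℓ G k ≤ T ℓ G k' :=
  inf_le_inf_left _ (tor_mono (pow_dvd_pow ℓ h))

lemma T_zero (ℓ : ℕ) (G : AddSubgroup A) : T ℓ G 0 = ⊥ := by
  ext x
  simp only [mem_T, pow_zero, one_nsmul, AddSubgroup.mem_bot]
  exact ⟨fun h => h.2, fun h => ⟨h ▸ G.zero_mem, h⟩⟩

lemma card_T_succ (ℓ : ℕ) (G : AddSubgroup A) (k : ℕ) :
    Nat.card (T ℓ G (k + 1)) = Nat.card (T ℓ G k) * Nat.card (I ℓ G k) := by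
  have h := card_eq_card_inf_ker_mul_card_map (T ℓ G (k + 1)) (nsmulAddMonoidHom (α := A) (ℓ ^ k))
  have h2 : T ℓ G (k + 1) ⊓ (nsmulAddMonoidHom (α := A) (ℓ ^ k)).ker = T ℓ G k := by
    ext x
    simp only [AddSubgroup.mem_inf, mem_T, AddMonoidHom.mem_ker, nsmulAddMonoidHom_apply]
    constructor
    · rintro ⟨⟨hx, -⟩, h0⟩
      exact ⟨hx, h0⟩
    · rintro ⟨hx, h0⟩
      refine ⟨⟨hx, ?_⟩, h0⟩
      rw [pow_succ, mul_nsmul, h0, nsmul_zero]
  rw [h2] at h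
  exact h

lemma I_anti (ℓ : ℕ) (G : AddSubgroup A) (k : ℕ) : I ℓ G (k + 1) ≤ I ℓ G k := by
  rintro _ ⟨x, hx, rfl⟩
  rw [SetLike.mem_coe, mem_T] at hx
  refine ⟨ℓ • x, ?_, ?_⟩
  · rw [SetLike.mem_coe, mem_T]
    refine ⟨G.nsmul_mem hx.1 _, ?_⟩
    rw [← mul_nsmul', ← pow_succ]
    exact hx.2
  · simp only [nsmulAddMonoidHom_apply]
    rw [← mul_nsmul', ← pow_succ]

lemma I_le (ℓ : ℕ) (G : AddSubgroup A) (k : ℕ) : I ℓ G k ≤ T ℓ G 1 := by
  rintro _ ⟨x, hx, rfl⟩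
  rw [SetLike.mem_coe, mem_T] at hx
  rw [mem_T]
  refine ⟨G.nsmul_mem hx.1 _, ?_⟩
  simp only [nsmulAddMonoidHom_apply, pow_one]
  rw [← mul_nsmul', ← pow_succ']
  exact hx.2

lemma I_le' (ℓ : ℕ) (G : AddSubgroup A) (k : ℕ) : I ℓ G k ≤ G :=
  (I_le ℓ G k).trans (T_le ℓ G 1)

/-- Upper bound `#G[ℓ^k] ≤ (#G[ℓ])^k`. -/
lemma card_T_le (ℓ : ℕ) (G : AddSubgroup A) [Finite G] (L : ℕ)
    (h1 : Nat.card (T ℓ G 1) ≤ L) (k : ℕ) : Nat.card (T ℓ G k) ≤ L ^ k := by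
  have : Finite (T ℓ G 1) := Finite.of_injective _ (AddSubgroup.inclusion_injective (T_le ℓ G 1))
  refine numeric_upper L (fun k => Nat.card (T ℓ G k)) (fun k => Nat.card (I ℓ G k)) ?_
    (card_T_succ ℓ G) (fun k => ?_) k
  · simp [T_zero]
  · exact (AddSubgroup.card_le_of_le (I_le ℓ G k)).trans h1

/-- **Counting lemma**: if `G` is a finite `ℓ`-group of order `ℓ^n`, killed by `ℓ^N`, with
`#G[ℓ] ≤ ℓ^d` and `d N + k ≤ n + N`, `k ≤ N`, then `#G[ℓ^k] = ℓ^(d k)`. -/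
lemma card_T_eq (ℓ : ℕ) (hℓ : ℓ.Prime) (G : AddSubgroup A) [Finite G] (n d N k : ℕ)
    (hG : Nat.card G = ℓ ^ n) (h1 : Nat.card (T ℓ G 1) ≤ ℓ ^ d)
    (hN : ∀ x ∈ G, ℓ ^ N • x = 0) (hk : k ≤ N) (hineq : d * N + k ≤ n + N) :
    Nat.card (T ℓ G k) = (ℓ ^ d) ^ k := by
  have hfin1 : Finite (T ℓ G 1) :=
    Finite.of_injective _ (AddSubgroup.inclusion_injective (T_le ℓ G 1))
  refine le_antisymm (card_T_le ℓ G (ℓ ^ d) h1 k) ?_
  by_contra hcon
  replace hcon := not_le.mp hcon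
  have h0 : Nat.card (T ℓ G 0) = 1 := by simp [T_zero]
  have hpow : ∀ j, ∃ e, Nat.card (I ℓ G j) = ℓ ^ e := by
    intro j
    have hdvd : Nat.card (I ℓ G j) ∣ ℓ ^ n := hG ▸ AddSubgroup.card_dvd_of_le (I_le' ℓ G j)
    obtain ⟨e, -, he⟩ := (Nat.dvd_prime_pow hℓ).mp hdvd
    exact ⟨e, he⟩
  have hanti : ∀ j, Nat.card (I ℓ G (j + 1)) ≤ Nat.card (I ℓ G j) := by
    intro j
    have : Finite (I ℓ G j) :=
      Finite.of_injective _ (AddSubgroup.inclusion_injective (I_le' ℓ G j))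
    exact AddSubgroup.card_le_of_le (I_anti ℓ G j)
  have key := numeric_gap ℓ d hℓ (fun k => Nat.card (T ℓ G k)) (fun k => Nat.card (I ℓ G k)) h0
    (card_T_succ ℓ G) hanti hpow k hcon (N - k)
  have hTN : T ℓ G N = G := by
    ext x
    rw [mem_T]
    exact ⟨fun h => h.1, fun h => ⟨h, hN x h⟩⟩
  beta_reduce at key
  rw [Nat.add_sub_cancel' hk, hTN, hG, ← pow_add, ← pow_mul] at key
  have := (Nat.pow_lt_pow_iff_right hℓ.one_lt).mp key
  omega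

end Filtration

/-! ## (T1) Towers of `ℓ`-groups -/

section Tower

variable {A : Type*} [AddCommGroup A]

lemma nsmul_eq_zero_of_card {G : AddSubgroup A} {N : ℕ} (hG : Nat.card G = N) {y : A}
    (hy : y ∈ G) : N • y = 0 := by
  have h : Nat.card G • (⟨y, hy⟩ : G) = 0 := card_nsmul_eq_zero'
  rw [hG] at h
  simpa using congrArg Subtype.val h

/-- **(T1)** Tower of finite `ℓ`-groups `B j` of orders `ℓ^(c + 2 g j)` with surjective traces
`B (j+1) → B j`: the union has exactly `ℓ^(2 g k)` elements killed by `ℓ^k`. -/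
theorem card_tor_of_tower (ℓ : ℕ) (hℓ : ℓ.Prime) (g c : ℕ) (B : ℕ → AddSubgroup A)
    (hmono : ∀ j, B j ≤ B (j + 1))
    (hcard : ∀ j, Nat.card (B j) = ℓ ^ (c + 2 * g * j))
    (σ : ℕ → A →+ A)
    (hfix : ∀ j, ∀ x ∈ B j, σ j x = x)
    (hTr : ∀ j, ∀ y ∈ B (j + 1), ∑ i ∈ range ℓ, (σ j)^[i] y ∈ B j)
    (hsurj : ∀ j, ∀ b ∈ B j, ∃ y ∈ B (j + 1), ∑ i ∈ range ℓ, (σ j)^[i] y = b)
    (k : ℕ) :
    Nat.card ↥((⨆ j, B j) ⊓ tor A (ℓ ^ k)) = ℓ ^ (2 * g * k) := by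
  have hfin : ∀ j, Finite (B j) := fun j =>
    Nat.finite_of_card_ne_zero (by rw [hcard]; exact (pow_pos hℓ.pos _).ne')
  have hM : Monotone B := monotone_nat_of_le_succ hmono
  have hfinT : ∀ j i, Finite (T ℓ (B j) i) := fun j i =>
    Finite.of_injective _ (AddSubgroup.inclusion_injective (T_le ℓ (B j) i))
  -- (S1) `#B_j[ℓ] ≤ ℓ^(2g)`
  have hS1 : ∀ j, Nat.card (T ℓ (B j) 1) ≤ ℓ ^ (2 * g) := by
    intro j
    have hmap : (B (j + 1)).map (trace (σ j) ℓ) = B j := by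
      ext b
      constructor
      · rintro ⟨y, hy, rfl⟩
        exact hTr j y hy
      · intro hb
        obtain ⟨y, hy, rfl⟩ := hsurj j b hb
        exact ⟨y, hy, rfl⟩
    have h := card_eq_card_inf_ker_mul_card_map (B (j + 1)) (trace (σ j) ℓ)
    rw [hmap, hcard, hcard] at h
    have hK : Nat.card ↥(B (j + 1) ⊓ (trace (σ j) ℓ).ker) = ℓ ^ (2 * g) := by
      have e : ℓ ^ (c + 2 * g * (j + 1)) = ℓ ^ (2 * g) * ℓ ^ (c + 2 * g * j) := by
        rw [← pow_add]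
        congr 1
        ring
      rw [e] at h
      exact (Nat.eq_of_mul_eq_mul_right (pow_pos hℓ.pos _) h).symm
    have hle : T ℓ (B j) 1 ≤ B (j + 1) ⊓ (trace (σ j) ℓ).ker := by
      intro x hx
      rw [mem_T, pow_one] at hx
      refine AddSubgroup.mem_inf.mpr ⟨hmono j hx.1, ?_⟩
      rw [AddMonoidHom.mem_ker, trace_of_fixed _ _ (hfix j x hx.1)]
      exact hx.2
    have : Finite ↥(B (j + 1) ⊓ (trace (σ j) ℓ).ker) :=
      Finite.of_injective _ (AddSubgroup.inclusion_injective inf_le_left)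
    exact (AddSubgroup.card_le_of_le hle).trans hK.le
  -- (S3) `U[ℓ²]` is contained in some `B j₂`
  have hT2mono : Monotone (fun j => Nat.card (T ℓ (B j) 2)) := by
    intro j j' h
    exact AddSubgroup.card_le_of_le (T_mono_left ℓ (hM h) 2)
  obtain ⟨j₂, hj₂⟩ := exists_stable _ _ hT2mono (fun j => card_T_le ℓ (B j) _ (hS1 j) 2)
  have hT2 : ∀ j, j₂ ≤ j → T ℓ (B j) 2 ≤ B j₂ := by
    intro j hj
    have : T ℓ (B j₂) 2 = T ℓ (B j) 2 :=
      AddSubgroup.eq_of_le_of_card_ge (T_mono_left ℓ (hM hj) 2) (hj₂ j hj).le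
    rw [← this]
    exact T_le _ _ _
  -- (S4) exponent bound: `ℓ^(i + c')` kills `B (j₂ + i)`
  obtain ⟨c', hc'def⟩ : ∃ c', c' = c + 2 * g * j₂ + 2 := ⟨_, rfl⟩
  have hexp : ∀ i, ∀ y ∈ B (j₂ + i), ℓ ^ (i + c') • y = 0 := by
    intro i
    induction i with
    | zero =>
      intro y hy
      have h2 : ℓ ^ (c + 2 * g * j₂) • y = 0 := nsmul_eq_zero_of_card (hcard j₂) hy
      have : y ∈ tor A (ℓ ^ (c + 2 * g * j₂)) := h2
      exact tor_mono (pow_dvd_pow ℓ (by omega)) this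
    | succ i ih =>
      intro y hy
      have hy' : y ∈ B (j₂ + i + 1) := hy
      have hn2 : 2 ≤ i + c' := by omega
      have htr : ℓ ^ (i + c') • trace (σ (j₂ + i)) ℓ y = 0 := ih _ (hTr (j₂ + i) y hy')
      have hdesc : ∀ m, i + c' + 1 ≤ m → ℓ ^ (m + 1) • y = 0 → ℓ ^ m • y = 0 := by
        intro m hm h
        have hz : ℓ ^ (m - 1) • y ∈ T ℓ (B (j₂ + i + 1)) 2 := by
          refine mem_T.mpr ⟨(B (j₂ + i + 1)).nsmul_mem hy' _, ?_⟩
          rw [← mul_nsmul, ← pow_add, show m - 1 + 2 = m + 1 by omega]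
          exact h
        have hzB : ℓ ^ (m - 1) • y ∈ B (j₂ + i) :=
          hM (Nat.le_add_right _ _) (hT2 (j₂ + i + 1) (by omega) hz)
        have h1 : trace (σ (j₂ + i)) ℓ (ℓ ^ (m - 1) • y) = ℓ • (ℓ ^ (m - 1) • y) :=
          trace_of_fixed _ _ (hfix (j₂ + i) _ hzB)
        have h2 : trace (σ (j₂ + i)) ℓ (ℓ ^ (m - 1) • y)
            = ℓ ^ (m - 1) • trace (σ (j₂ + i)) ℓ y := map_nsmul _ _ _
        have h3 : ℓ ^ (m - 1) • trace (σ (j₂ + i)) ℓ y = 0 := by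
          have : trace (σ (j₂ + i)) ℓ y ∈ tor A (ℓ ^ (i + c')) := htr
          exact tor_mono (pow_dvd_pow ℓ (by omega)) this
        have h4 : ℓ • (ℓ ^ (m - 1) • y) = ℓ ^ m • y := by
          rw [← mul_nsmul, ← pow_succ, show m - 1 + 1 = m by omega]
        rw [← h4, ← h1, h2, h3]
      have hN : ℓ ^ (c + 2 * g * (j₂ + i + 1)) • y = 0 :=
        nsmul_eq_zero_of_card (hcard (j₂ + i + 1)) hy'
      have hall : ∀ d, ℓ ^ (i + c' + 1 + d) • y = 0 → ℓ ^ (i + c' + 1) • y = 0 := by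
        intro d
        induction d with
        | zero => exact id
        | succ d ihd =>
          intro h
          exact ihd (hdesc (i + c' + 1 + d) (by omega) h)
      have goal : ℓ ^ (i + c' + 1) • y = 0 := by
        by_cases hle : c + 2 * g * (j₂ + i + 1) ≤ i + c' + 1
        · have : y ∈ tor A (ℓ ^ (c + 2 * g * (j₂ + i + 1))) := hN
          exact tor_mono (pow_dvd_pow ℓ hle) this
        · apply hall (c + 2 * g * (j₂ + i + 1) - (i + c' + 1))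
          rw [Nat.add_sub_cancel' (by omega)]
          exact hN
      rw [show i + 1 + c' = i + c' + 1 by omega]
      exact goal
  -- (S5) the count
  obtain ⟨J, hJdef⟩ : ∃ J, J = j₂ + (2 * g * c' + k) := ⟨_, rfl⟩
  have hJ : Nat.card (T ℓ (B J) k) = (ℓ ^ (2 * g)) ^ k := by
    refine card_T_eq ℓ hℓ (B J) (c + 2 * g * J) (2 * g) (2 * g * c' + k + c') k (hcard J) (hS1 J)
      ?_ (by omega) ?_
    · intro x hx
      rw [hJdef] at hx
      exact hexp _ x hx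
    · have e1 : 2 * g * (2 * g * c' + k + c') = 2 * g * (2 * g * c' + k) + 2 * g * c' := by ring
      have e2 : 2 * g * J = 2 * g * j₂ + 2 * g * (2 * g * c' + k) := by rw [hJdef]; ring
      rw [e1, e2]
      generalize 2 * g * (2 * g * c' + k) = P
      generalize 2 * g * c' = Q
      generalize 2 * g * j₂ = R
      omega
  have hEq : ∀ j, J ≤ j → T ℓ (B J) k = T ℓ (B j) k := by
    intro j hj
    refine AddSubgroup.eq_of_le_of_card_ge (T_mono_left ℓ (hM hj) k) ?_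
    rw [hJ]
    exact card_T_le ℓ (B j) _ (hS1 j) k
  have hU : (⨆ j, B j) ⊓ tor A (ℓ ^ k) = T ℓ (B J) k := by
    ext x
    constructor
    · intro hx
      obtain ⟨hx, hk⟩ := AddSubgroup.mem_inf.mp hx
      rw [AddSubgroup.mem_iSup_of_directed hM.directed_le] at hx
      obtain ⟨j, hj⟩ := hx
      rw [hEq (max j J) (le_max_right _ _)]
      exact mem_T.mpr ⟨hM (le_max_left _ _) hj, hk⟩
    · intro hx
      obtain ⟨hx, hk⟩ := mem_T.mp hx
      exact AddSubgroup.mem_inf.mpr ⟨le_iSup B J hx, hk⟩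
  rw [hU, hJ, ← pow_mul]

end Tower

/-! ## The `ℓ`-primary part of a finite abelian group -/

section Primary

variable {A : Type*} [AddCommGroup A]

/-- The `ℓ`-primary subgroup: elements killed by a power of `ℓ`. -/
def primary (A : Type*) [AddCommGroup A] (ℓ : ℕ) : AddSubgroup A where
  carrier := {x | ∃ n : ℕ, ℓ ^ n • x = 0}
  zero_mem' := ⟨0, by simp⟩
  add_mem' := by
    rintro x y ⟨n, hn⟩ ⟨m, hm⟩
    refine ⟨n + m, ?_⟩
    have h1 : ℓ ^ (n + m) • x = 0 := by rw [pow_add, mul_nsmul, hn, nsmul_zero]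
    have h2 : ℓ ^ (n + m) • y = 0 := by rw [pow_add, mul_comm, mul_nsmul, hm, nsmul_zero]
    rw [nsmul_add, h1, h2, add_zero]
  neg_mem' := by
    rintro x ⟨n, hn⟩
    exact ⟨n, by rw [smul_neg, hn, neg_zero]⟩

lemma mem_primary {ℓ : ℕ} {x : A} : x ∈ primary A ℓ ↔ ∃ n : ℕ, ℓ ^ n • x = 0 := Iff.rfl

lemma tor_le_primary (ℓ k : ℕ) : tor A (ℓ ^ k) ≤ primary A ℓ := fun _ hx => ⟨k, hx⟩

/-- For a finite subgroup `G` of order `ℓ^a m`, `ℓ ∤ m`: `#G[ℓ^a] = ℓ^a` and `G[ℓ^a]` is the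
`ℓ`-primary part. -/
lemma card_T_of_card_eq (ℓ : ℕ) (hℓ : ℓ.Prime) (G : AddSubgroup A) [Finite G] (a m : ℕ)
    (hm : ¬ ℓ ∣ m) (hM : Nat.card G = ℓ ^ a * m) :
    Nat.card (T ℓ G a) = ℓ ^ a ∧ G ⊓ primary A ℓ = T ℓ G a := by
  have hfinT : Finite (T ℓ G a) :=
    Finite.of_injective _ (AddSubgroup.inclusion_injective (T_le ℓ G a))
  have hcop : Nat.Coprime ℓ m := (Nat.Prime.coprime_iff_not_dvd hℓ).mpr hm
  constructor
  · have h := card_eq_card_inf_ker_mul_card_map G (nsmulAddMonoidHom (α := A) (ℓ ^ a))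
    change Nat.card G = Nat.card (T ℓ G a) * _ at h
    set Q : AddSubgroup A := G.map (nsmulAddMonoidHom (α := A) (ℓ ^ a)) with hQ
    have hfinQ : Finite Q := by
      have : Q ≤ G := by
        rintro _ ⟨y, hy, rfl⟩
        exact G.nsmul_mem hy _
      exact Finite.of_injective _ (AddSubgroup.inclusion_injective this)
    -- `#G[ℓ^a]` is a power of `ℓ`
    have hP : ∃ b, Nat.card (T ℓ G a) = ℓ ^ b := by
      refine ⟨_, Nat.eq_prime_pow_of_unique_prime_dvd Nat.card_pos.ne' ?_⟩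
      intro d hd hdvd
      have : Fact d.Prime := ⟨hd⟩
      obtain ⟨x, hx⟩ := exists_prime_addOrderOf_dvd_card' d hdvd
      have hx0 : ℓ ^ a • x = 0 := by
        apply Subtype.ext
        rw [AddSubgroup.coe_nsmul]
        exact (mem_T.mp x.2).2
      have h1 : d ∣ ℓ ^ a := hx ▸ addOrderOf_dvd_iff_nsmul_eq_zero.mpr hx0
      exact (Nat.prime_dvd_prime_iff_eq hd hℓ).mp (hd.dvd_of_dvd_pow h1)
    -- `#(ℓ^a G)` is prime to `ℓ`
    have hQc : ¬ ℓ ∣ Nat.card Q := by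
      intro hdvd
      have : Fact ℓ.Prime := ⟨hℓ⟩
      obtain ⟨x, hx⟩ := exists_prime_addOrderOf_dvd_card' ℓ hdvd
      have hx0 : m • x = 0 := by
        apply Subtype.ext
        rw [AddSubgroup.coe_nsmul]
        obtain ⟨y, hy, hyx⟩ := x.2
        rw [← hyx, nsmulAddMonoidHom_apply, ← mul_nsmul, ← hM]
        exact nsmul_eq_zero_of_card rfl hy
      exact hm (hx ▸ addOrderOf_dvd_iff_nsmul_eq_zero.mpr hx0)
    obtain ⟨b, hb⟩ := hP
    rw [hb]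
    congr 1
    rw [hM, hb] at h
    have hQcop : Nat.Coprime ℓ (Nat.card Q) := (Nat.Prime.coprime_iff_not_dvd hℓ).mpr hQc
    apply le_antisymm
    · have : ℓ ^ b ∣ ℓ ^ a * m := ⟨_, h⟩
      exact (Nat.pow_dvd_pow_iff_le_right hℓ.one_lt).mp
        ((Nat.Coprime.pow_left b hcop).dvd_of_dvd_mul_right this)
    · have : ℓ ^ a ∣ ℓ ^ b * Nat.card Q := ⟨_, h.symm⟩
      exact (Nat.pow_dvd_pow_iff_le_right hℓ.one_lt).mp
        ((Nat.Coprime.pow_left a hQcop).dvd_of_dvd_mul_right this)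
  · ext x
    constructor
    · intro hx
      obtain ⟨hxG, n, hn⟩ := AddSubgroup.mem_inf.mp hx
      refine mem_T.mpr ⟨hxG, ?_⟩
      have h1 : addOrderOf x ∣ ℓ ^ n := addOrderOf_dvd_iff_nsmul_eq_zero.mpr hn
      have h2 : addOrderOf x ∣ ℓ ^ a * m :=
        addOrderOf_dvd_iff_nsmul_eq_zero.mpr (nsmul_eq_zero_of_card hM hxG)
      obtain ⟨e, -, he⟩ := (Nat.dvd_prime_pow hℓ).mp h1
      rw [he] at h2
      have h3 : ℓ ^ e ∣ ℓ ^ a := (Nat.Coprime.pow_left e hcop).dvd_of_dvd_mul_right h2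
      exact addOrderOf_dvd_iff_nsmul_eq_zero.mp (he ▸ h3)
    · intro hx
      obtain ⟨hxG, h0⟩ := mem_T.mp hx
      exact AddSubgroup.mem_inf.mpr ⟨hxG, a, h0⟩

/-- The `ℓ`-primary part of a finite abelian group `G` has `ℓ^(v_ℓ #G)` elements. -/
theorem card_primary (ℓ : ℕ) (hℓ : ℓ.Prime) (G : AddSubgroup A) [Finite G] :
    Nat.card ↥(G ⊓ primary A ℓ) = ℓ ^ padicValNat ℓ (Nat.card G) := by
  have : Fact ℓ.Prime := ⟨hℓ⟩
  obtain ⟨a, m, hm, hM⟩ := Nat.exists_eq_pow_mul_and_not_dvd (Nat.card_pos (α := G)).ne' ℓ hℓ.ne_one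
  obtain ⟨h1, h2⟩ := card_T_of_card_eq ℓ hℓ G a m hm hM
  have hm0 : m ≠ 0 := by
    rintro rfl
    exact hm (dvd_zero ℓ)
  rw [h2, h1, hM, padicValNat.mul (pow_pos hℓ.pos a).ne' hm0, padicValNat.prime_pow,
    padicValNat.eq_zero_of_not_dvd hm, add_zero]

/-- A homomorphism maps the `ℓ`-primary part of a finite subgroup onto the `ℓ`-primary part of
its image. -/
theorem map_primary {A' : Type*} [AddCommGroup A'] (ℓ : ℕ) (hℓ : ℓ.Prime) (G : AddSubgroup A)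
    [Finite G] (F : A →+ A') :
    (G ⊓ primary A ℓ).map F = G.map F ⊓ primary A' ℓ := by
  ext b
  constructor
  · rintro ⟨x, hx, rfl⟩
    obtain ⟨hxG, n, hn⟩ := AddSubgroup.mem_inf.mp hx
    exact AddSubgroup.mem_inf.mpr ⟨⟨x, hxG, rfl⟩, n, by rw [← map_nsmul, hn, map_zero]⟩
  · intro hb
    obtain ⟨⟨y, hy, rfl⟩, n, hn⟩ := AddSubgroup.mem_inf.mp hb
    obtain ⟨a, m, hm, hM⟩ :=
      Nat.exists_eq_pow_mul_and_not_dvd (Nat.card_pos (α := G)).ne' ℓ hℓ.ne_one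
    have hcop : Nat.Coprime m (ℓ ^ n) :=
      (Nat.Coprime.pow_left n ((Nat.Prime.coprime_iff_not_dvd hℓ).mpr hm)).symm
    rcases Nat.eq_zero_or_pos n with rfl | hnpos
    · rw [pow_zero, one_nsmul] at hn
      exact ⟨0, (G ⊓ primary A ℓ).zero_mem, by rw [map_zero, hn]⟩
    · have h1 : 1 < ℓ ^ n := Nat.one_lt_pow hnpos.ne' hℓ.one_lt
      obtain ⟨u, -, hu⟩ := Nat.exists_mul_mod_eq_one_of_coprime hcop h1
      refine ⟨(m * u) • y, AddSubgroup.mem_inf.mpr ⟨G.nsmul_mem hy _, a, ?_⟩, ?_⟩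
      · have : ℓ ^ a • (m * u) • y = u • (ℓ ^ a * m) • y := by
          rw [← mul_nsmul, ← mul_nsmul]
          congr 1
          ring
        rw [this, nsmul_eq_zero_of_card hM hy, nsmul_zero]
      · rw [map_nsmul]
        have e : m * u = ℓ ^ n * (m * u / ℓ ^ n) + 1 := by
          have := Nat.div_add_mod (m * u) (ℓ ^ n)
          rw [hu] at this
          exact this.symm
        rw [e, add_nsmul, one_nsmul, mul_nsmul, hn, nsmul_zero, zero_add]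

end Primary

/-! ## (T2) Towers of arbitrary finite subgroups -/

section Tower2

variable {A : Type*} [AddCommGroup A]

/-- **(T2)** Tower of finite subgroups `Γ j` with `v_ℓ (#Γ j) = c + 2 g j` and surjective traces
`Γ (j+1) → Γ j`: the union has exactly `ℓ^(2 g k)` elements killed by `ℓ^k`. -/
theorem card_tor_of_tower' (ℓ : ℕ) (hℓ : ℓ.Prime) (g c : ℕ) (Γ : ℕ → AddSubgroup A)
    (hfin : ∀ j, Finite (Γ j))
    (hmono : ∀ j, Γ j ≤ Γ (j + 1))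
    (hval : ∀ j, padicValNat ℓ (Nat.card (Γ j)) = c + 2 * g * j)
    (σ : ℕ → A →+ A)
    (hfix : ∀ j, ∀ x ∈ Γ j, σ j x = x)
    (hTr : ∀ j, ∀ y ∈ Γ (j + 1), ∑ i ∈ range ℓ, (σ j)^[i] y ∈ Γ j)
    (hsurj : ∀ j, ∀ b ∈ Γ j, ∃ y ∈ Γ (j + 1), ∑ i ∈ range ℓ, (σ j)^[i] y = b)
    (k : ℕ) :
    Nat.card ↥((⨆ j, Γ j) ⊓ tor A (ℓ ^ k)) = ℓ ^ (2 * g * k) := by
  have hM : Monotone Γ := monotone_nat_of_le_succ hmono
  have hmap : ∀ j, (Γ (j + 1)).map (trace (σ j) ℓ) = Γ j := by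
    intro j
    ext b
    constructor
    · rintro ⟨y, hy, rfl⟩
      exact hTr j y hy
    · intro hb
      obtain ⟨y, hy, rfl⟩ := hsurj j b hb
      exact ⟨y, hy, rfl⟩
  have hprim : ∀ j, (Γ (j + 1) ⊓ primary A ℓ).map (trace (σ j) ℓ) = Γ j ⊓ primary A ℓ := by
    intro j
    rw [map_primary ℓ hℓ, hmap]
  have key := card_tor_of_tower ℓ hℓ g c (fun j => Γ j ⊓ primary A ℓ)
    (fun j => inf_le_inf_right _ (hmono j))
    (fun j => by rw [card_primary ℓ hℓ, hval])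
    σ (fun j x hx => hfix j x (AddSubgroup.mem_inf.mp hx).1)
    (fun j y hy => by
      have : trace (σ j) ℓ y ∈ (Γ (j + 1) ⊓ primary A ℓ).map (trace (σ j) ℓ) := ⟨y, hy, rfl⟩
      rw [hprim] at this
      exact this)
    (fun j b hb => by
      have : b ∈ (Γ (j + 1) ⊓ primary A ℓ).map (trace (σ j) ℓ) := by rw [hprim]; exact hb
      obtain ⟨y, hy, rfl⟩ := this
      exact ⟨y, hy, rfl⟩) k
  have hEq : (⨆ j, Γ j) ⊓ tor A (ℓ ^ k) = (⨆ j, Γ j ⊓ primary A ℓ) ⊓ tor A (ℓ ^ k) := by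
    apply le_antisymm
    · intro x hx
      obtain ⟨hx, hk⟩ := AddSubgroup.mem_inf.mp hx
      rw [AddSubgroup.mem_iSup_of_directed hM.directed_le] at hx
      obtain ⟨j, hj⟩ := hx
      refine AddSubgroup.mem_inf.mpr ⟨?_, hk⟩
      exact le_iSup (fun j => Γ j ⊓ primary A ℓ) j (AddSubgroup.mem_inf.mpr ⟨hj, k, hk⟩)
    · exact inf_le_inf_right _ (iSup_mono fun j => inf_le_left)
  rw [hEq]
  exact key

end Tower2

/-! ## (T3) Consumer form: a system `Γ r` with one endomorphism `φ` -/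

section System

variable {A : Type*} [AddCommGroup A]

/-- **(T3)** Let `Γ r` (`r ≥ 1`) be finite subgroups with `Γ r ≤ Γ (r s)`, `φ` an endomorphism
with `φ^r = id` on `Γ r` such that the trace `∑_{i<ℓ} φ^(r i)` maps `Γ (r ℓ)` onto `Γ r`, and
assume the growth law `v_ℓ #Γ (m₀ ℓ^j t) = c + 2 g j` for `ℓ ∤ t`.  Then the union of the `Γ r`
has exactly `ℓ^(2 g k)` elements killed by `ℓ^k`. -/
theorem card_tor_of_system (ℓ : ℕ) (hℓ : ℓ.Prime) (g c m₀ : ℕ) (hm₀ : 0 < m₀)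
    (Γ : ℕ → AddSubgroup A)
    (hfin : ∀ r, 0 < r → Finite (Γ r))
    (hdvd : ∀ r s, 0 < r → 0 < s → Γ r ≤ Γ (r * s))
    (φ : A →+ A)
    (hfix : ∀ r, 0 < r → ∀ x ∈ Γ r, φ^[r] x = x)
    (hTr : ∀ r, 0 < r → ∀ y ∈ Γ (r * ℓ), ∑ i ∈ range ℓ, φ^[r * i] y ∈ Γ r)
    (hsurj : ∀ r, 0 < r → ∀ b ∈ Γ r, ∃ y ∈ Γ (r * ℓ), ∑ i ∈ range ℓ, φ^[r * i] y = b)
    (hgrow : ∀ j t, 0 < t → ¬ ℓ ∣ t →
      padicValNat ℓ (Nat.card (Γ (m₀ * ℓ ^ j * t))) = c + 2 * g * j)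
    (k : ℕ) :
    Set.ncard {x : A | (∃ r, 0 < r ∧ x ∈ Γ r) ∧ ℓ ^ k • x = 0} = ℓ ^ (2 * g * k) := by
  have hpos : ∀ j, 0 < m₀ * ℓ ^ j := fun j => Nat.mul_pos hm₀ (pow_pos hℓ.pos j)
  have hσ : ∀ (j i : ℕ) (y : A), (iter φ (m₀ * ℓ ^ j))^[i] y = φ^[m₀ * ℓ ^ j * i] y :=
    fun j i y => iter_iterate φ _ i y
  have hgrow1 : ∀ j, padicValNat ℓ (Nat.card (Γ (m₀ * ℓ ^ j))) = c + 2 * g * j := by
    intro j
    have := hgrow j 1 Nat.one_pos hℓ.not_dvd_one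
    rwa [mul_one] at this
  have hsucc : ∀ j, m₀ * ℓ ^ (j + 1) = m₀ * ℓ ^ j * ℓ := fun j => by rw [pow_succ, mul_assoc]
  have key := card_tor_of_tower' ℓ hℓ g c (fun j => Γ (m₀ * ℓ ^ j)) (fun j => hfin _ (hpos j))
    (fun j => by
      rw [hsucc]
      exact hdvd _ _ (hpos j) hℓ.pos)
    hgrow1
    (fun j => iter φ (m₀ * ℓ ^ j))
    (fun j x hx => hfix _ (hpos j) x hx)
    (fun j y hy => by
      change y ∈ Γ (m₀ * ℓ ^ (j + 1)) at hy
      rw [hsucc] at hy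
      simp only [hσ]
      exact hTr _ (hpos j) y hy)
    (fun j b hb => by
      obtain ⟨y, hy, hyb⟩ := hsurj _ (hpos j) b hb
      refine ⟨y, ?_, ?_⟩
      · rw [hsucc]
        exact hy
      · simp only [hσ]
        exact hyb) k
  have hM : Monotone (fun j => Γ (m₀ * ℓ ^ j)) := by
    apply monotone_nat_of_le_succ
    intro j
    rw [hsucc]
    exact hdvd _ _ (hpos j) hℓ.pos
  have hset : {x : A | (∃ r, 0 < r ∧ x ∈ Γ r) ∧ ℓ ^ k • x = 0}
      = ↑((⨆ j, Γ (m₀ * ℓ ^ j)) ⊓ tor A (ℓ ^ k)) := by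
    ext x
    simp only [Set.mem_ofPred_eq, SetLike.mem_coe, AddSubgroup.mem_inf, mem_tor]
    constructor
    · rintro ⟨⟨r, hr, hx⟩, hk⟩
      refine ⟨?_, hk⟩
      obtain ⟨j, t, ht, hrt⟩ := Nat.exists_eq_pow_mul_and_not_dvd hr.ne' ℓ hℓ.ne_one
      have ht0 : 0 < t := by
        rcases Nat.eq_zero_or_pos t with rfl | h
        · exact absurd (dvd_zero ℓ) ht
        · exact h
      have hx' : x ∈ Γ (m₀ * ℓ ^ j * t) := by
        have h1 := hdvd r m₀ hr hm₀ hx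
        have e : r * m₀ = m₀ * ℓ ^ j * t := by rw [hrt]; ring
        rwa [e] at h1
      have hfin' : Finite (Γ (m₀ * ℓ ^ j * t)) := hfin _ (Nat.mul_pos (hpos j) ht0)
      have hfin'' : Finite (Γ (m₀ * ℓ ^ j)) := hfin _ (hpos j)
      have hle : Γ (m₀ * ℓ ^ j) ⊓ primary A ℓ ≤ Γ (m₀ * ℓ ^ j * t) ⊓ primary A ℓ :=
        inf_le_inf_right _ (hdvd _ _ (hpos j) ht0)
      have hfinP : Finite ↥(Γ (m₀ * ℓ ^ j * t) ⊓ primary A ℓ) :=
        Finite.of_injective _ (AddSubgroup.inclusion_injective inf_le_left)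
      have hPeq : Γ (m₀ * ℓ ^ j) ⊓ primary A ℓ = Γ (m₀ * ℓ ^ j * t) ⊓ primary A ℓ := by
        refine AddSubgroup.eq_of_le_of_card_ge hle ?_
        rw [card_primary ℓ hℓ, card_primary ℓ hℓ, hgrow j t ht0 ht, hgrow1 j]
      have hxP : x ∈ Γ (m₀ * ℓ ^ j) ⊓ primary A ℓ := by
        rw [hPeq]
        exact AddSubgroup.mem_inf.mpr ⟨hx', k, hk⟩
      exact le_iSup (fun j => Γ (m₀ * ℓ ^ j)) j (AddSubgroup.mem_inf.mp hxP).1
    · rintro ⟨hx, hk⟩
      rw [AddSubgroup.mem_iSup_of_directed hM.directed_le] at hx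
      obtain ⟨j, hj⟩ := hx
      exact ⟨⟨_, hpos j, hj⟩, hk⟩
  rw [hset]
  exact key

/-- **(T3), `torsionBy` form** (shape of the Prelude `Pic0.torsion`): if moreover every
`ℓ`-power torsion element of `A` lies in some `Γ r`, then `#A[ℓ^k] = ℓ^(2 g k)`. -/
theorem card_torsionBy_of_system (ℓ : ℕ) (hℓ : ℓ.Prime) (g c m₀ : ℕ) (hm₀ : 0 < m₀)
    (Γ : ℕ → AddSubgroup A)
    (hfin : ∀ r, 0 < r → Finite (Γ r))
    (hdvd : ∀ r s, 0 < r → 0 < s → Γ r ≤ Γ (r * s))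
    (φ : A →+ A)
    (hfix : ∀ r, 0 < r → ∀ x ∈ Γ r, φ^[r] x = x)
    (hTr : ∀ r, 0 < r → ∀ y ∈ Γ (r * ℓ), ∑ i ∈ range ℓ, φ^[r * i] y ∈ Γ r)
    (hsurj : ∀ r, 0 < r → ∀ b ∈ Γ r, ∃ y ∈ Γ (r * ℓ), ∑ i ∈ range ℓ, φ^[r * i] y = b)
    (hgrow : ∀ j t, 0 < t → ¬ ℓ ∣ t →
      padicValNat ℓ (Nat.card (Γ (m₀ * ℓ ^ j * t))) = c + 2 * g * j)
    (hall : ∀ x : A, (∃ n : ℕ, ℓ ^ n • x = 0) → ∃ r, 0 < r ∧ x ∈ Γ r)
    (k : ℕ) :
    Nat.card ↥(Submodule.torsionBy ℤ A ((ℓ ^ k : ℕ) : ℤ)).toAddSubgroup = ℓ ^ (2 * g * k) := by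
  rw [← card_tor_of_system ℓ hℓ g c m₀ hm₀ Γ hfin hdvd φ hfix hTr hsurj hgrow k,
    ← Nat.card_coe_set_eq]
  apply Nat.card_congr
  refine Equiv.subtypeEquivRight fun x => ?_
  rw [Submodule.mem_toAddSubgroup, Submodule.mem_torsionBy_iff, natCast_zsmul, Set.mem_ofPred_eq]
  exact ⟨fun h => ⟨hall x ⟨k, h⟩, h⟩, fun h => h.2⟩

end System

end Fermat.Agent.S27.helper2988
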