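import Fermat.Agent.S27.helper27_CoreBSpec

/-!
# S27-AJ-LIFT (helper3093): whole-disc continuous lift through a hom with discrete kernel

`E : V →+ J` a homomorphism from a normed group to an abstract abelian group with discrete
kernel, `c : ℂ → J` with `c 0 = 0` which is locally (around every point of the disc `‖s‖ < r`)
of the form `c (s₀ + s) - c s₀ = E (G₀ s)` with `G₀` continuous.  Then `c = E ∘ G` on the whole
disc for a continuous `G` with `G 0 = 0`.

Proof by covering-space theory (Mathlib): `Λ := ker E` is a discrete subgroup, so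
`V → V ⧸ Λ` is a covering map; `c` takes values in `range E` on the disc (its class modulo
`range E` is locally constant on a connected set); the induced map `disc → V ⧸ Λ` is continuous
by the local lifts; it lifts to `V` because the disc is simply connected and locally path
connected (`IsCoveringMap.existsUnique_continuousMap_lifts`).

Main results: `exists_continuousOn_lift_ball`, `stmt_Lift : helper27.Stmt_Lift`.
-/

set_option autoImplicit false

open scoped Topology

namespace Fermat.Agent.S27.helper3093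

/-- **Whole-disc lift.** -/
theorem exists_continuousOn_lift_ball {V J : Type*} [NormedAddCommGroup V] [AddCommGroup J]
    (E : V →+ J) (hker : ∃ ε > 0, ∀ w : V, E w = 0 → ‖w‖ < ε → w = 0) (r : ℝ) (c : ℂ → J)
    (hc0 : c 0 = 0)
    (hloc : ∀ s₀ ∈ Metric.ball (0 : ℂ) r, ∃ δ > 0, ∃ G₀ : ℂ → V,
      ContinuousOn G₀ (Metric.ball (0 : ℂ) δ) ∧ G₀ 0 = 0 ∧
      ∀ s ∈ Metric.ball (0 : ℂ) δ, c (s₀ + s) - c s₀ = E (G₀ s)) :
    ∃ G : ℂ → V, ContinuousOn G (Metric.ball (0 : ℂ) r) ∧ G 0 = 0 ∧
      ∀ s ∈ Metric.ball (0 : ℂ) r, c s = E (G s) := by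
  classical
  rcases le_or_gt r 0 with hr | hr
  · refine ⟨fun _ => 0, continuousOn_const, rfl, fun s hs => ?_⟩
    rw [Metric.ball_eq_empty.mpr hr] at hs
    exact hs.elim
  obtain ⟨ε, hε, hE⟩ := hker
  -- the kernel is a discrete subgroup
  have hdisc : IsDiscrete ((E.ker : AddSubgroup V) : Set V) := by
    rw [isDiscrete_iff_forall_mem_exists_isOpen]
    intro y hy
    refine ⟨Metric.ball y ε, Metric.isOpen_ball, ?_⟩
    ext z
    constructor
    · rintro ⟨hz, hzΛ⟩
      have h1 : E (z - y) = 0 := by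
        rw [map_sub, AddMonoidHom.mem_ker.mp hzΛ, AddMonoidHom.mem_ker.mp hy, sub_zero]
      have h2 : ‖z - y‖ < ε := by rwa [Metric.mem_ball, dist_eq_norm] at hz
      exact sub_eq_zero.mp (hE _ h1 h2)
    · intro hz
      rw [Set.mem_singleton_iff] at hz
      subst hz
      exact ⟨Metric.mem_ball_self hε, hy⟩
  have hcov : IsCoveringMap (QuotientAddGroup.mk : V → V ⧸ E.ker) :=
    (E.ker.isAddQuotientCoveringMap_of_comm hdisc).isCoveringMap
  -- the disc as a space
  have h0 : (0 : ℂ) ∈ Metric.ball (0 : ℂ) r := Metric.mem_ball_self hr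
  have : ContractibleSpace (Metric.ball (0 : ℂ) r) := Metric.contractibleSpace_ball hr
  have : LocallyPathConnectedSpace (Metric.ball (0 : ℂ) r) :=
    Metric.isOpen_ball.locallyPathConnectedSpace
  have hnhds : ∀ (a : Metric.ball (0 : ℂ) r) (δ : ℝ), 0 < δ →
      {b : Metric.ball (0 : ℂ) r | dist (b : ℂ) (a : ℂ) < δ} ∈ 𝓝 a := fun a δ hδ =>
    (isOpen_lt (continuous_subtype_val.dist continuous_const) continuous_const).mem_nhds
      (by simpa using hδ)
  -- `c` takes values in `range E` on the disc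
  have hrange : ∀ a : Metric.ball (0 : ℂ) r, ∃ w : V, E w = c a := by
    let q : Metric.ball (0 : ℂ) r → J ⧸ E.range := fun a => QuotientAddGroup.mk (c a)
    have hq : IsLocallyConstant q := by
      rw [IsLocallyConstant.iff_eventually_eq]
      intro a
      obtain ⟨δ, hδ, G₀, -, -, hG₀⟩ := hloc a a.2
      filter_upwards [hnhds a δ hδ] with b hb
      have hb' : (b : ℂ) - a ∈ Metric.ball (0 : ℂ) δ := by
        simpa [dist_eq_norm] using hb
      have h1 := hG₀ _ hb'
      rw [add_sub_cancel] at h1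
      show (QuotientAddGroup.mk (c b) : J ⧸ E.range) = QuotientAddGroup.mk (c a)
      rw [QuotientAddGroup.eq]
      refine ⟨-G₀ ((b : ℂ) - a), ?_⟩
      rw [map_neg, ← h1]
      abel
    intro a
    have h1 : q a = q ⟨0, h0⟩ := hq.apply_eq_of_preconnectedSpace a ⟨0, h0⟩
    have h2 : q ⟨0, h0⟩ = 0 := by
      show (QuotientAddGroup.mk (c 0) : J ⧸ E.range) = 0
      rw [hc0]
      rfl
    rw [h2] at h1
    have h3 : c a ∈ E.range := (QuotientAddGroup.eq_zero_iff _).mp h1
    exact h3
  choose w hw using hrange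
  -- the induced map to the quotient is continuous
  let f : Metric.ball (0 : ℂ) r → V ⧸ E.ker := fun a => QuotientAddGroup.mk (w a)
  have hf : Continuous f := by
    rw [continuous_iff_continuousAt]
    intro a
    obtain ⟨δ, hδ, G₀, hG₀c, -, hG₀⟩ := hloc a a.2
    have hev : ∀ᶠ b in 𝓝 a, f b = QuotientAddGroup.mk (w a + G₀ ((b : ℂ) - a)) := by
      filter_upwards [hnhds a δ hδ] with b hb
      have hb' : (b : ℂ) - a ∈ Metric.ball (0 : ℂ) δ := by
        simpa [dist_eq_norm] using hb
      have h1 := hG₀ _ hb'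
      rw [add_sub_cancel] at h1
      show (QuotientAddGroup.mk (w b) : V ⧸ E.ker) = QuotientAddGroup.mk (w a + G₀ ((b : ℂ) - a))
      rw [QuotientAddGroup.eq, AddMonoidHom.mem_ker, map_add, map_neg, map_add, hw, hw, ← h1]
      abel
    have hcont : ContinuousAt
        (fun b : Metric.ball (0 : ℂ) r =>
          (QuotientAddGroup.mk (w a + G₀ ((b : ℂ) - a)) : V ⧸ E.ker)) a := by
      have hG0 : ContinuousAt G₀ 0 := hG₀c.continuousAt (Metric.ball_mem_nhds 0 hδ)
      have h2 : ContinuousAt (fun b : Metric.ball (0 : ℂ) r => (b : ℂ) - a) a :=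
        (continuous_subtype_val.sub continuous_const).continuousAt
      have h3 : ContinuousAt G₀ ((a : ℂ) - a) := by
        rw [sub_self]
        exact hG0
      have h4 : ContinuousAt (fun b : Metric.ball (0 : ℂ) r => G₀ ((b : ℂ) - a)) a :=
        ContinuousAt.comp (g := G₀) h3 h2
      exact (QuotientAddGroup.continuous_mk.continuousAt).comp (continuousAt_const.add h4)
    exact hcont.congr (hev.mono fun b hb => hb.symm)
  -- lift through the covering
  have he : (QuotientAddGroup.mk (0 : V) : V ⧸ E.ker) = f ⟨0, h0⟩ := by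
    show (QuotientAddGroup.mk (0 : V) : V ⧸ E.ker) = QuotientAddGroup.mk (w ⟨0, h0⟩)
    rw [QuotientAddGroup.eq, AddMonoidHom.mem_ker, neg_zero, zero_add, hw]
    exact hc0
  obtain ⟨F, ⟨hF0, hFf⟩, -⟩ :=
    hcov.existsUnique_continuousMap_lifts ⟨f, hf⟩ ⟨0, h0⟩ 0 he
  refine ⟨fun s => if h : s ∈ Metric.ball (0 : ℂ) r then F ⟨s, h⟩ else 0, ?_, ?_, ?_⟩
  · rw [continuousOn_iff_continuous_domRestrict]
    convert F.continuous using 1
    funext a
    show (if h : (a : ℂ) ∈ Metric.ball (0 : ℂ) r then F ⟨a, h⟩ else 0) = F a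
    rw [dif_pos a.2]
  · beta_reduce
    rw [dif_pos h0]
    exact hF0
  · intro s hs
    beta_reduce
    rw [dif_pos hs]
    have h1 : (QuotientAddGroup.mk (F ⟨s, hs⟩) : V ⧸ E.ker) = f ⟨s, hs⟩ := congrFun hFf ⟨s, hs⟩
    have h2 : -(F ⟨s, hs⟩) + w ⟨s, hs⟩ ∈ E.ker := QuotientAddGroup.eq.mp h1
    rw [AddMonoidHom.mem_ker, map_add, map_neg, hw] at h2
    exact (neg_add_eq_zero.mp h2).symm

/-- **S27-AJ-LIFT**: `helper27.Stmt_Lift`, verbatim and unconditional. -/
theorem stmt_Lift : Fermat.Agent.S27.helper27.Stmt_Lift := by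
  intro g J _ E hker r c hc0 hloc
  obtain ⟨G, hG, -, hG'⟩ := exists_continuousOn_lift_ball E hker r c hc0 hloc
  exact ⟨G, hG, hG'⟩

end Fermat.Agent.S27.helper3093
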