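/-
S27 — E4-COMPACT, part CP1 (helper3147).

Compactness of the space of places of a function field `F/ℂ` in the "function topology"
(the coarsest topology making every value map `P ↦ f(P) ∈ ℂ ∪ {∞}` continuous), by Tychonoff:
the value maps embed `Place ℂ F` as a closed subset of `F → OnePoint ℂ`.

Exports (instance-free):
* `val`, `HasVal`            : value of a function at a place (general alg. closed `K`)
* `IsPt`, `exists_place_of_isPt` : abstract "points" are places
* `placeTopology`, `compactSpace_place`, `t2Space_place`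
* `exists_finset_cover` (FINCOVER), `exists_nhds_tube` (TUBE), `exists_disjoint_nhds`
-/
import Mathlib
import Fermat.Prelude.Def_AlgebraicCurve_DivisorClassGroup
import Fermat.Prelude.Def_AlgebraicCurve_Repartitions
import Fermat.Agent.S24.helper204_Places
import Fermat.Agent.S24.helper483_PlacesFF

set_option autoImplicit false
set_option linter.style.haveILetI false

open AlgebraicCurve IsDedekindDomain OnePoint IntermediateField

namespace Fermat.Agent.S27.helper3147

noncomputable section

section Val

variable {K F : Type*} [Field K] [Field F] [Algebra K F]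

/-- `c` is the value of `f` at the place `v`: `f - c` lies in the maximal ideal. -/
def HasVal (v : Place K F) (f : F) (c : K) : Prop :=
  v.adicValuation (f - algebraMap K F c) < 1

theorem adicValuation_const (v : Place K F) {a : K} (ha : a ≠ 0) :
    v.adicValuation (algebraMap K F a) = 1 :=
  Fermat.Agent.S24.helper483.adicValuation_algebraMap v ha

theorem adicValuation_const_le (v : Place K F) (a : K) :
    v.adicValuation (algebraMap K F a) ≤ 1 :=
  v.adicValuation_algebraMap_le_one a

theorem mem_iff_le_one (v : Place K F) {f : F} :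
    f ∈ v.toValuationSubring ↔ v.adicValuation f ≤ 1 :=
  Fermat.Agent.S24.helper483.mem_iff_adicValuation_le_one v

theorem HasVal.unique {v : Place K F} {f : F} {c c' : K} (h : HasVal v f c)
    (h' : HasVal v f c') : c = c' := by
  by_contra hne
  have hne' : c' - c ≠ 0 := sub_ne_zero.mpr (Ne.symm hne)
  have h1 : v.adicValuation (algebraMap K F (c' - c)) < 1 := by
    have : algebraMap K F (c' - c) = (f - algebraMap K F c) - (f - algebraMap K F c') := by
      rw [map_sub]; ring
    rw [this]
    exact lt_of_le_of_lt (Valuation.map_sub _ _ _) (max_lt h h')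
  rw [adicValuation_const v hne'] at h1
  exact lt_irrefl _ h1

theorem HasVal.le_one {v : Place K F} {f : F} {c : K} (h : HasVal v f c) :
    v.adicValuation f ≤ 1 := by
  have : f = (f - algebraMap K F c) + algebraMap K F c := by ring
  rw [this]
  exact le_trans (Valuation.map_add _ _ _) (max_le h.le (adicValuation_const_le v c))

theorem HasVal.mem {v : Place K F} {f : F} {c : K} (h : HasVal v f c) :
    f ∈ v.toValuationSubring :=
  (mem_iff_le_one v).mpr h.le_one

theorem hasVal_const (v : Place K F) (c : K) : HasVal v (algebraMap K F c) c := by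
  unfold HasVal
  rw [sub_self, map_zero]
  exact zero_lt_one

theorem HasVal.add {v : Place K F} {f g : F} {a b : K} (hf : HasVal v f a) (hg : HasVal v g b) :
    HasVal v (f + g) (a + b) := by
  unfold HasVal at *
  have : f + g - algebraMap K F (a + b) = (f - algebraMap K F a) + (g - algebraMap K F b) := by
    rw [map_add]; ring
  rw [this]
  exact lt_of_le_of_lt (Valuation.map_add _ _ _) (max_lt hf hg)

theorem HasVal.mul {v : Place K F} {f g : F} {a b : K} (hf : HasVal v f a) (hg : HasVal v g b) :
    HasVal v (f * g) (a * b) := by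
  have hg1 := hg.le_one
  unfold HasVal at *
  have : f * g - algebraMap K F (a * b)
      = (f - algebraMap K F a) * g + algebraMap K F a * (g - algebraMap K F b) := by
    rw [map_mul]; ring
  rw [this]
  refine lt_of_le_of_lt (Valuation.map_add _ _ _) (max_lt ?_ ?_)
  · rw [map_mul]
    exact lt_of_le_of_lt (mul_le_of_le_one_right' hg1) hf
  · rw [map_mul]
    exact lt_of_le_of_lt (mul_le_of_le_one_left' (adicValuation_const_le v a)) hg

theorem HasVal.neg {v : Place K F} {f : F} {a : K} (hf : HasVal v f a) :
    HasVal v (-f) (-a) := by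
  unfold HasVal at *
  have : -f - algebraMap K F (-a) = -(f - algebraMap K F a) := by
    rw [map_neg]; ring
  rw [this, Valuation.map_neg]
  exact hf

theorem HasVal.sub {v : Place K F} {f g : F} {a b : K} (hf : HasVal v f a) (hg : HasVal v g b) :
    HasVal v (f - g) (a - b) := by
  have := hf.add hg.neg
  rwa [← sub_eq_add_neg, ← sub_eq_add_neg] at this

/-- The valuation of a function with nonzero value is one. -/
theorem HasVal.adicValuation_eq_one {v : Place K F} {f : F} {a : K} (hf : HasVal v f a)
    (ha : a ≠ 0) : v.adicValuation f = 1 := by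
  have h1 : v.adicValuation (algebraMap K F a) = 1 := adicValuation_const v ha
  have h2 : v.adicValuation (f - algebraMap K F a) < v.adicValuation (algebraMap K F a) := by
    rw [h1]; exact hf
  have h3 := Valuation.map_add_eq_of_lt_right v.adicValuation h2
  rw [sub_add_cancel] at h3
  rw [h3, h1]

theorem hasVal_zero_iff {v : Place K F} {f : F} : HasVal v f 0 ↔ v.adicValuation f < 1 := by
  unfold HasVal
  rw [map_zero, sub_zero]

theorem HasVal.inv {v : Place K F} {f : F} {a : K} (hf : HasVal v f a) (ha : a ≠ 0) :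
    HasVal v f⁻¹ a⁻¹ := by
  have h1 := hf.adicValuation_eq_one ha
  have hf0 : f ≠ 0 := by
    rintro rfl
    rw [map_zero] at h1
    exact zero_ne_one h1
  have hca : algebraMap K F a ≠ 0 := by
    simpa using ha
  unfold HasVal at *
  have : f⁻¹ - algebraMap K F a⁻¹
      = -(f - algebraMap K F a) * (f⁻¹ * algebraMap K F a⁻¹) := by
    rw [map_inv₀]
    field_simp
    ring
  rw [this, map_mul, Valuation.map_neg, map_mul, map_inv₀, h1, inv_one, one_mul,
    adicValuation_const v (inv_ne_zero ha), mul_one]
  exact hf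

/-- Values of the inverse of a function vanishing at the place do not exist. -/
theorem not_hasVal_inv_of_hasVal_zero {v : Place K F} {f : F} (hf0 : f ≠ 0) (hf : HasVal v f 0)
    (c : K) : ¬ HasVal v f⁻¹ c := by
  intro h
  have h1 := h.le_one
  rw [hasVal_zero_iff] at hf
  rw [map_inv₀] at h1
  have hne : v.adicValuation f ≠ 0 := v.adicValuation_ne_zero hf0
  have : (1 : WithZero (Multiplicative ℤ)) < (v.adicValuation f)⁻¹ := by
    rw [one_lt_inv₀ (zero_lt_iff.mpr hne)]
    exact hf
  exact absurd h1 (not_le.mpr this)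

/-- The value of `f` at `v` as a point of the projective line `K ∪ {∞}`. -/
def val (v : Place K F) (f : F) : OnePoint K :=
  open Classical in
  if h : ∃ c : K, HasVal v f c then ((Classical.choose h : K) : OnePoint K) else ∞

theorem val_eq_coe_iff {v : Place K F} {f : F} {c : K} :
    val v f = (c : OnePoint K) ↔ HasVal v f c := by
  classical
  unfold val
  split_ifs with h
  · rw [OnePoint.coe_eq_coe]
    constructor
    · intro hc
      rw [← hc]
      exact Classical.choose_spec h
    · intro hc
      exact (Classical.choose_spec h).unique hc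
  · constructor
    · intro hc
      exact absurd hc (OnePoint.infty_ne_coe c)
    · intro hc
      exact absurd ⟨c, hc⟩ h

theorem val_eq_infty_iff {v : Place K F} {f : F} :
    val v f = ∞ ↔ ¬ ∃ c : K, HasVal v f c := by
  classical
  unfold val
  split_ifs with h
  · constructor
    · intro hc
      exact absurd hc (OnePoint.coe_ne_infty _)
    · intro hc
      exact absurd h hc
  · simp [h]

theorem val_const (v : Place K F) (c : K) : val v (algebraMap K F c) = (c : OnePoint K) :=
  val_eq_coe_iff.mpr (hasVal_const v c)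

theorem mem_of_val_ne_infty {v : Place K F} {f : F} (h : val v f ≠ ∞) :
    f ∈ v.toValuationSubring := by
  rw [Ne, val_eq_infty_iff, not_not] at h
  obtain ⟨c, hc⟩ := h
  exact hc.mem

/-- The residue field hypothesis: every element of a valuation ring of a place has a value
in `K`. (True when `K` is algebraically closed and `F` is algebraic over `K(x)`.) -/
def ResK (K F : Type*) [Field K] [Field F] [Algebra K F] : Prop :=
  ∀ (v : Place K F) (f : F), f ∈ v.toValuationSubring → ∃ c : K, HasVal v f c

theorem resK_of_isAlgebraic [IsAlgClosed K] (x : F) [Algebra.IsAlgebraic K⟮x⟯ F] : ResK K F := by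
  intro v f hf
  obtain ⟨c, hc⟩ := Fermat.Agent.S24.helper483.exists_sub_mem_maximalIdeal x v ⟨f, hf⟩
  refine ⟨c, ?_⟩
  unfold HasVal
  set a : v.toValuationSubring := ⟨f, hf⟩ - algebraMap K v.toValuationSubring c with ha
  have hcoe : (a : F) = f - algebraMap K F c := by
    rw [ha]; push_cast; rw [v.coe_algebraMap]
  rw [← hcoe]
  have hle : v.adicValuation (a : F) ≤ 1 := v.adicValuation_le_one_of_mem a.2
  refine lt_of_le_of_ne hle fun h1 => ?_
  have hu : IsUnit a := (v.adicValuation_coe_eq_one_iff a).mp h1
  exact hc hu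

theorem val_ne_infty_iff_mem (hres : ResK K F) {v : Place K F} {f : F} :
    val v f ≠ ∞ ↔ f ∈ v.toValuationSubring := by
  refine ⟨mem_of_val_ne_infty, fun hf => ?_⟩
  rw [Ne, val_eq_infty_iff, not_not]
  exact hres v f hf

end Val

section Pt

variable {K F : Type*} [Field K] [Field F] [Algebra K F]

/-- Inversion on the projective line `K ∪ {∞}`. -/
def pinv (u : OnePoint K) : OnePoint K :=
  open Classical in
  u.elim ((0 : K) : OnePoint K) (fun z => if z = 0 then ∞ else ((z⁻¹ : K) : OnePoint K))

@[simp] theorem pinv_infty : pinv (∞ : OnePoint K) = ((0 : K) : OnePoint K) := rfl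

@[simp] theorem pinv_coe_zero : pinv ((0 : K) : OnePoint K) = ∞ := by
  classical
  simp [pinv]

theorem pinv_coe_of_ne {z : K} (hz : z ≠ 0) :
    pinv (z : OnePoint K) = ((z⁻¹ : K) : OnePoint K) := by
  classical
  simp [pinv, hz]

theorem val_inv (hres : ResK K F) (v : Place K F) {f : F} (hf : f ≠ 0) :
    val v f⁻¹ = pinv (val v f) := by
  induction h : val v f using OnePoint.rec with
  | infty =>
    rw [pinv_infty, val_eq_coe_iff, hasVal_zero_iff]
    have hnm : f ∉ v.toValuationSubring := fun hm => (val_ne_infty_iff_mem hres).mpr hm h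
    rw [mem_iff_le_one, not_le] at hnm
    rw [map_inv₀]
    exact inv_lt_one_of_one_lt₀ hnm
  | coe c =>
    rw [val_eq_coe_iff] at h
    by_cases hc : c = 0
    · subst hc
      rw [pinv_coe_zero, val_eq_infty_iff]
      rintro ⟨c, hc⟩
      exact not_hasVal_inv_of_hasVal_zero hf h c hc
    · rw [pinv_coe_of_ne hc, val_eq_coe_iff]
      exact h.inv hc

/-- An abstract point of the function field: a `K ∪ {∞}`-valued place. -/
structure IsPt (φ : F → OnePoint K) : Prop where
  map_const : ∀ c : K, φ (algebraMap K F c) = (c : OnePoint K)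
  map_add : ∀ (f g : F) (a b : K), φ f = (a : OnePoint K) → φ g = (b : OnePoint K) →
    φ (f + g) = ((a + b : K) : OnePoint K)
  map_mul : ∀ (f g : F) (a b : K), φ f = (a : OnePoint K) → φ g = (b : OnePoint K) →
    φ (f * g) = ((a * b : K) : OnePoint K)
  map_inv : ∀ f : F, f ≠ 0 → φ f⁻¹ = pinv (φ f)

theorem isPt_val (hres : ResK K F) (v : Place K F) : IsPt (val v) where
  map_const := val_const v
  map_add f g a b hf hg := by
    rw [val_eq_coe_iff] at *
    exact hf.add hg
  map_mul f g a b hf hg := by
    rw [val_eq_coe_iff] at *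
    exact hf.mul hg
  map_inv f hf := val_inv hres v hf

theorem val_injective (hres : ResK K F) :
    Function.Injective (fun (v : Place K F) (f : F) => val v f) := by
  intro v w h
  apply Place.ext
  ext f
  rw [← val_ne_infty_iff_mem hres, ← val_ne_infty_iff_mem hres]
  have := congrFun h f
  simp only at this
  rw [this]

namespace IsPt

variable {φ : F → OnePoint K} (hφ : IsPt φ)
include hφ

theorem map_zero : φ 0 = ((0 : K) : OnePoint K) := by
  have := hφ.map_const 0
  rwa [_root_.map_zero] at this

theorem map_one : φ 1 = ((1 : K) : OnePoint K) := by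
  have := hφ.map_const 1
  rwa [_root_.map_one] at this

theorem map_neg {f : F} {a : K} (hf : φ f = (a : OnePoint K)) :
    φ (-f) = ((-a : K) : OnePoint K) := by
  have h := hφ.map_mul (algebraMap K F (-1)) f (-1) a (hφ.map_const (-1)) hf
  have e1 : algebraMap K F (-1) * f = -f := by
    rw [_root_.map_neg, _root_.map_one]; ring
  have e2 : (-1 : K) * a = -a := by ring
  rwa [e1, e2] at h

theorem map_sub {f g : F} {a b : K} (hf : φ f = (a : OnePoint K)) (hg : φ g = (b : OnePoint K)) :
    φ (f - g) = ((a - b : K) : OnePoint K) := by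
  have := hφ.map_add f (-g) a (-b) hf (hφ.map_neg hg)
  rwa [← sub_eq_add_neg, ← sub_eq_add_neg] at this

/-- The valuation ring of an abstract point. -/
def valuationSubring : ValuationSubring F where
  carrier := {f | φ f ≠ ∞}
  mul_mem' := by
    intro f g hf hg
    obtain ⟨a, ha⟩ := OnePoint.ne_infty_iff_exists.mp hf
    obtain ⟨b, hb⟩ := OnePoint.ne_infty_iff_exists.mp hg
    show φ (f * g) ≠ ∞
    rw [hφ.map_mul f g a b ha.symm hb.symm]
    exact OnePoint.coe_ne_infty _
  one_mem' := by
    show φ 1 ≠ ∞
    rw [hφ.map_one]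
    exact OnePoint.coe_ne_infty _
  add_mem' := by
    intro f g hf hg
    obtain ⟨a, ha⟩ := OnePoint.ne_infty_iff_exists.mp hf
    obtain ⟨b, hb⟩ := OnePoint.ne_infty_iff_exists.mp hg
    show φ (f + g) ≠ ∞
    rw [hφ.map_add f g a b ha.symm hb.symm]
    exact OnePoint.coe_ne_infty _
  zero_mem' := by
    show φ 0 ≠ ∞
    rw [hφ.map_zero]
    exact OnePoint.coe_ne_infty _
  neg_mem' := by
    intro f hf
    obtain ⟨a, ha⟩ := OnePoint.ne_infty_iff_exists.mp hf
    show φ (-f) ≠ ∞
    rw [hφ.map_neg ha.symm]
    exact OnePoint.coe_ne_infty _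
  mem_or_inv_mem' := by
    intro f
    by_cases hf0 : f = 0
    · left
      subst hf0
      show φ 0 ≠ ∞
      rw [hφ.map_zero]
      exact OnePoint.coe_ne_infty _
    · by_cases hf : φ f = ∞
      · right
        show φ f⁻¹ ≠ ∞
        rw [hφ.map_inv f hf0, hf, pinv_infty]
        exact OnePoint.coe_ne_infty _
      · left
        exact hf

theorem mem_valuationSubring {f : F} : f ∈ hφ.valuationSubring ↔ φ f ≠ ∞ := Iff.rfl

theorem map_inv_of_ne {f : F} {a : K} (hf : φ f = (a : OnePoint K)) (ha : a ≠ 0) :
    φ f⁻¹ = ((a⁻¹ : K) : OnePoint K) := by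
  have hf0 : f ≠ 0 := by
    rintro rfl
    rw [hφ.map_zero, OnePoint.coe_eq_coe] at hf
    exact ha hf.symm
  rw [hφ.map_inv f hf0, hf, pinv_coe_of_ne ha]

end IsPt

end Pt

section Surj

open scoped IntermediateField.algebraAdjoinAdjoin

variable {K F : Type*} [Field K] [Field F] [Algebra K F]

theorem exists_place_of_isPt_aux [IsAlgClosed K] [CharZero K] (x : F) (hx : Transcendental K x)
    [FiniteDimensional K⟮x⟯ F] {φ : F → OnePoint K} (hφ : IsPt φ) (c : K)
    (hxc : φ x = (c : OnePoint K)) : ∃ v : Place K F, ∀ f, val v f = φ f := by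
  classical
  have hres : ResK K F := resK_of_isAlgebraic x
  -- the valuation ring as a `K`-subalgebra
  let Oalg : Subalgebra K F :=
    { hφ.valuationSubring.toSubring with
      algebraMap_mem' := fun a => by
        show φ (algebraMap K F a) ≠ ∞
        rw [hφ.map_const]; exact OnePoint.coe_ne_infty _ }
  have hAO : ∀ a ∈ Algebra.adjoin K {x}, a ∈ hφ.valuationSubring := by
    have h : Algebra.adjoin K {x} ≤ Oalg := Algebra.adjoin_le (Set.singleton_subset_iff.mpr (by
      show φ x ≠ ∞
      rw [hxc]; exact OnePoint.coe_ne_infty _))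
    exact fun a ha => h ha
  have hBO : ∀ b : integralClosure (Algebra.adjoin K {x}) F, φ (b : F) ≠ ∞ := fun b =>
    Fermat.Agent.S24.helper204.mem_of_isIntegral_of_le hφ.valuationSubring
      (Algebra.adjoin K {x}) hAO b.2
  -- the prime ideal of the Dedekind ring `B`
  let 𝔭 : Ideal (integralClosure (Algebra.adjoin K {x}) F) :=
    { carrier := {b | φ (b : F) = ((0 : K) : OnePoint K)}
      add_mem' := by
        intro a b ha hb
        have := hφ.map_add _ _ _ _ ha hb
        simpa using this
      zero_mem' := hφ.map_zero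
      smul_mem' := by
        intro r b hb
        obtain ⟨t, ht⟩ := OnePoint.ne_infty_iff_exists.mp (hBO r)
        have := hφ.map_mul _ _ _ _ ht.symm hb
        simpa using this }
  have hmem𝔭 : ∀ b : integralClosure (Algebra.adjoin K {x}) F,
      b ∈ 𝔭 ↔ φ (b : F) = ((0 : K) : OnePoint K) := fun b => Iff.rfl
  have h𝔭prime : 𝔭.IsPrime := by
    refine ⟨?_, ?_⟩
    · rw [Ideal.ne_top_iff_one, hmem𝔭]
      have : φ ((1 : integralClosure (Algebra.adjoin K {x}) F) : F) = ((1 : K) : OnePoint K) := by
        simpa using hφ.map_one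
      rw [this, OnePoint.coe_eq_coe]
      exact one_ne_zero
    · intro a b hab
      obtain ⟨s, hs⟩ := OnePoint.ne_infty_iff_exists.mp (hBO a)
      obtain ⟨t, ht⟩ := OnePoint.ne_infty_iff_exists.mp (hBO b)
      have h1 := hφ.map_mul _ _ _ _ hs.symm ht.symm
      rw [hmem𝔭] at hab
      have h2 : φ ((a : F) * (b : F)) = ((0 : K) : OnePoint K) := by simpa using hab
      rw [h1, OnePoint.coe_eq_coe] at h2
      rcases mul_eq_zero.mp h2 with h | h
      · left; rw [hmem𝔭, ← hs, h]
      · right; rw [hmem𝔭, ← ht, h]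
  -- the element `x - c`
  have hxc0 : x - algebraMap K F c ≠ 0 :=
    Fermat.Agent.S24.helper204.sub_ne_zero_of_transcendental hx c
  have hφxc : φ (x - algebraMap K F c) = ((0 : K) : OnePoint K) := by
    have := hφ.map_sub hxc (hφ.map_const c)
    rwa [sub_self] at this
  have hxcA : x - algebraMap K F c ∈ Algebra.adjoin K {x} :=
    Subalgebra.sub_mem _ (Algebra.self_mem_adjoin_singleton K x) (Subalgebra.algebraMap_mem _ c)
  have hxcB : x - algebraMap K F c ∈ integralClosure (Algebra.adjoin K {x}) F :=
    (integralClosure (Algebra.adjoin K {x}) F).algebraMap_mem ⟨_, hxcA⟩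
  have h𝔭bot : 𝔭 ≠ ⊥ := by
    intro hbot
    have hm : (⟨x - algebraMap K F c, hxcB⟩ : integralClosure (Algebra.adjoin K {x}) F) ∈ 𝔭 :=
      (hmem𝔭 _).mpr hφxc
    rw [hbot, Ideal.mem_bot] at hm
    exact hxc0 (congrArg Subtype.val hm)
  let w : HeightOneSpectrum (integralClosure (Algebra.adjoin K {x}) F) := ⟨𝔭, h𝔭prime, h𝔭bot⟩
  let v : Place K F := Place.ofHeightOneSpectrum (K := K) (F := F) w
  -- the two valuation rings agree
  have hle : v.toValuationSubring ≤ hφ.valuationSubring := by
    intro f hf
    have hf' : w.valuation F f ≤ 1 := hf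
    obtain ⟨n, d, hnd⟩ := w.exists_primeCompl_mul_eq_of_integer f hf'
    have hd𝔭 : φ ((d : integralClosure (Algebra.adjoin K {x}) F) : F) ≠ ((0 : K) : OnePoint K) :=
      fun h => d.2 ((hmem𝔭 _).mpr h)
    obtain ⟨t, ht⟩ := OnePoint.ne_infty_iff_exists.mp (hBO d)
    obtain ⟨s, hs⟩ := OnePoint.ne_infty_iff_exists.mp (hBO n)
    have ht0 : t ≠ 0 := by
      rintro rfl
      exact hd𝔭 ht.symm
    have hd0 : ((d : integralClosure (Algebra.adjoin K {x}) F) : F) ≠ 0 := by
      intro h
      rw [h, hφ.map_zero, OnePoint.coe_eq_coe] at ht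
      exact ht0 ht
    have hfeq : f = (n : F) * ((d : integralClosure (Algebra.adjoin K {x}) F) : F)⁻¹ := by
      have h1 : f * ((d : integralClosure (Algebra.adjoin K {x}) F) : F) = (n : F) := hnd
      rw [← h1, mul_assoc, mul_inv_cancel₀ hd0, mul_one]
    show φ f ≠ ∞
    rw [hfeq, hφ.map_mul _ _ s t⁻¹ hs.symm (hφ.map_inv_of_ne ht.symm ht0)]
    exact OnePoint.coe_ne_infty _
  have hne_top : hφ.valuationSubring ≠ ⊤ := by
    intro htop
    have hm : (x - algebraMap K F c)⁻¹ ∈ hφ.valuationSubring := by
      rw [htop]; exact ValuationSubring.mem_top _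
    have : φ (x - algebraMap K F c)⁻¹ = ∞ := by
      rw [hφ.map_inv _ hxc0, hφxc, pinv_coe_zero]
    exact hm this
  have heq : v.toValuationSubring = hφ.valuationSubring :=
    ValuationSubring.eq_of_le_of_ne_top _ hle hne_top
  refine ⟨v, fun f => ?_⟩
  induction h : φ f using OnePoint.rec with
  | infty =>
    by_contra hne
    have hm : f ∈ v.toValuationSubring := mem_of_val_ne_infty hne
    rw [heq] at hm
    exact hm h
  | coe a =>
    have hm : f ∈ v.toValuationSubring := by
      rw [heq]
      show φ f ≠ ∞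
      rw [h]; exact OnePoint.coe_ne_infty _
    obtain ⟨c', hc'⟩ := hres v f hm
    rw [val_eq_coe_iff]
    suffices hac : a = c' by rw [hac]; exact hc'
    by_contra hne
    have hne' : a - c' ≠ 0 := sub_ne_zero.mpr hne
    have hg : φ (f - algebraMap K F c') = ((a - c' : K) : OnePoint K) :=
      hφ.map_sub h (hφ.map_const c')
    have hginv := hφ.map_inv_of_ne hg hne'
    have hgm : (f - algebraMap K F c')⁻¹ ∈ v.toValuationSubring := by
      rw [heq]
      show φ (f - algebraMap K F c')⁻¹ ≠ ∞
      rw [hginv]; exact OnePoint.coe_ne_infty _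
    rw [mem_iff_le_one, map_inv₀] at hgm
    have hg0 : f - algebraMap K F c' ≠ 0 := by
      intro h0
      rw [h0, hφ.map_zero, OnePoint.coe_eq_coe] at hg
      exact hne' hg.symm
    have hpos : 0 < v.adicValuation (f - algebraMap K F c') :=
      zero_lt_iff.mpr (v.adicValuation_ne_zero hg0)
    have : (1 : WithZero (Multiplicative ℤ)) < (v.adicValuation (f - algebraMap K F c'))⁻¹ := by
      rw [one_lt_inv₀ hpos]
      exact hc'
    exact absurd hgm (not_le.mpr this)

/-- **Abstract points are places.** If `F` is a finite extension of `K(x)`, `K` algebraically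
closed of characteristic zero, then every `K ∪ {∞}`-valued place of `F` is the value map of a
(unique) place of `F/K` in the sense of the Prelude. -/
theorem exists_place_of_isPt [IsAlgClosed K] [CharZero K] (x : F) (hx : Transcendental K x)
    [FiniteDimensional K⟮x⟯ F] {φ : F → OnePoint K} (hφ : IsPt φ) :
    ∃ v : Place K F, ∀ f, val v f = φ f := by
  induction h : φ x using OnePoint.rec with
  | infty =>
    have hx0 : x ≠ 0 := by
      rintro rfl
      exact hx (isAlgebraic_zero)
    have : FiniteDimensional K⟮x⁻¹⟯ F := Fermat.Agent.S24.helper204.finiteDimensional_adjoin_inv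
    refine exists_place_of_isPt_aux x⁻¹ (Fermat.Agent.S24.helper204.transcendental_inv hx) hφ 0 ?_
    rw [hφ.map_inv x hx0, h, pinv_infty]
  | coe c => exact exists_place_of_isPt_aux x hx hφ c h

theorem range_val_eq [IsAlgClosed K] [CharZero K] (x : F) (hx : Transcendental K x)
    [FiniteDimensional K⟮x⟯ F] :
    Set.range (fun (v : Place K F) (f : F) => val v f) = {φ | IsPt φ} := by
  ext φ
  constructor
  · rintro ⟨v, rfl⟩
    exact isPt_val (resK_of_isAlgebraic x) v
  · intro hφ
    obtain ⟨v, hv⟩ := exists_place_of_isPt x hx hφ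
    exact ⟨v, funext hv⟩

end Surj

section Topology

open Filter Topology

/-- Inversion is continuous on the Riemann sphere. -/
theorem continuous_pinv : Continuous (pinv : OnePoint ℂ → OnePoint ℂ) := by
  rw [OnePoint.continuous_iff]
  constructor
  · rw [pinv_infty]
    have h1 : Tendsto (fun z : ℂ => z⁻¹) (Filter.coclosedCompact ℂ) (𝓝 0) := by
      rw [Filter.coclosedCompact_eq_cocompact, ← Metric.cobounded_eq_cocompact]
      exact tendsto_inv₀_cobounded
    have h2 : Tendsto (fun z : ℂ => ((z⁻¹ : ℂ) : OnePoint ℂ)) (Filter.coclosedCompact ℂ)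
        (𝓝 ((0 : ℂ) : OnePoint ℂ)) :=
      (OnePoint.continuous_coe.tendsto _).comp h1
    refine h2.congr' ?_
    have hne : ∀ᶠ z in Filter.coclosedCompact ℂ, z ≠ 0 := by
      rw [Filter.coclosedCompact_eq_cocompact, ← Metric.cobounded_eq_cocompact]
      have hb : ({0} : Set ℂ)ᶜ ∈ Bornology.cobounded ℂ := Bornology.isBounded_singleton.compl
      exact Filter.eventually_of_mem hb (fun z hz => by simpa using hz)
    filter_upwards [hne] with z hz
    rw [pinv_coe_of_ne hz]
  · rw [continuous_iff_continuousAt]
    intro z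
    by_cases hz : z = 0
    · subst hz
      show Tendsto (fun y : ℂ => pinv (y : OnePoint ℂ)) (𝓝 0) (𝓝 (pinv ((0 : ℂ) : OnePoint ℂ)))
      rw [pinv_coe_zero]
      refine OnePoint.hasBasis_nhds_infty.tendsto_right_iff.mpr ?_
      rintro s ⟨-, hs⟩
      have hb : sᶜ ∈ Bornology.cobounded ℂ := hs.isBounded.compl
      have h1 : ∀ᶠ y in 𝓝[≠] (0 : ℂ), y⁻¹ ∈ sᶜ := tendsto_inv₀_nhdsNE_zero hb
      rw [eventually_nhdsWithin_iff] at h1
      filter_upwards [h1] with y hy
      by_cases hy0 : y = 0
      · subst hy0
        rw [pinv_coe_zero]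
        exact Or.inr rfl
      · rw [pinv_coe_of_ne hy0]
        exact Or.inl ⟨y⁻¹, hy hy0, rfl⟩
    · have h1 : ∀ᶠ y : ℂ in 𝓝 z, pinv (y : OnePoint ℂ) = ((y⁻¹ : ℂ) : OnePoint ℂ) := by
        filter_upwards [isOpen_ne.mem_nhds hz] with y hy
        exact pinv_coe_of_ne hy
      refine ContinuousAt.congr ?_ (Filter.EventuallyEq.symm h1)
      exact (OnePoint.continuous_coe.continuousAt).comp (continuousAt_inv₀ hz)

/-- The graph-type relation of a continuous binary operation on `ℂ`, extended to the Riemann
sphere by "no condition at infinity". -/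
def relSet (op : ℂ → ℂ → ℂ) : Set (OnePoint ℂ × OnePoint ℂ × OnePoint ℂ) :=
  {p | ∀ a b : ℂ, p.1 = (a : OnePoint ℂ) → p.2.1 = (b : OnePoint ℂ) →
    p.2.2 = ((op a b : ℂ) : OnePoint ℂ)}

theorem isClosed_relSet (op : ℂ → ℂ → ℂ) (hop : Continuous fun p : ℂ × ℂ => op p.1 p.2) :
    IsClosed (relSet op) := by
  rw [← isOpen_compl_iff]
  have hΦ : IsOpenMap (fun q : ℂ × ℂ × OnePoint ℂ =>
      (((q.1 : ℂ) : OnePoint ℂ), ((q.2.1 : ℂ) : OnePoint ℂ), q.2.2)) :=
    (OnePoint.isOpenMap_coe).prodMap ((OnePoint.isOpenMap_coe).prodMap IsOpenMap.id)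
  have hS : IsOpen {q : ℂ × ℂ × OnePoint ℂ | q.2.2 ≠ ((op q.1 q.2.1 : ℂ) : OnePoint ℂ)} := by
    refine isOpen_ne_fun (continuous_snd.comp continuous_snd) ?_
    exact OnePoint.continuous_coe.comp
      (hop.comp (continuous_fst.prodMk (continuous_fst.comp continuous_snd)))
  convert hΦ _ hS using 1
  ext p
  simp only [relSet, Set.mem_compl_iff, Set.mem_ofPred_eq, Set.mem_image, not_forall]
  constructor
  · rintro ⟨a, b, ha, hb, hne⟩
    refine ⟨(a, b, p.2.2), hne, ?_⟩
    rw [← ha, ← hb]
  · rintro ⟨⟨a, b, w⟩, hne, rfl⟩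
    exact ⟨a, b, rfl, rfl, hne⟩

variable {F : Type*} [Field F] [Algebra ℂ F]

/-- The set of abstract points is closed in the product space `F → ℂ ∪ {∞}`. -/
theorem isClosed_setOf_isPt : IsClosed {φ : F → OnePoint ℂ | IsPt φ} := by
  have hset : {φ : F → OnePoint ℂ | IsPt φ} =
      (⋂ c : ℂ, {φ | φ (algebraMap ℂ F c) = (c : OnePoint ℂ)}) ∩
      (⋂ (f : F) (g : F), (fun φ : F → OnePoint ℂ => (φ f, φ g, φ (f + g))) ⁻¹'
        relSet (fun a b => a + b)) ∩
      (⋂ (f : F) (g : F), (fun φ : F → OnePoint ℂ => (φ f, φ g, φ (f * g))) ⁻¹'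
        relSet (fun a b => a * b)) ∩
      (⋂ (f : F) (_ : f ≠ 0), {φ | φ f⁻¹ = pinv (φ f)}) := by
    ext φ
    simp only [Set.mem_ofPred_eq, Set.mem_inter_iff, Set.mem_iInter, Set.mem_preimage, relSet]
    constructor
    · intro h
      exact ⟨⟨⟨h.map_const, fun f g a b => h.map_add f g a b⟩,
        fun f g a b => h.map_mul f g a b⟩, h.map_inv⟩
    · rintro ⟨⟨⟨h1, h2⟩, h3⟩, h4⟩
      exact ⟨h1, fun f g a b => h2 f g a b, fun f g a b => h3 f g a b, h4⟩
  rw [hset]
  refine ((IsClosed.inter ?_ ?_).inter ?_).inter ?_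
  · exact isClosed_iInter fun c => isClosed_eq (continuous_apply _) continuous_const
  · refine isClosed_iInter fun f => isClosed_iInter fun g => ?_
    exact (isClosed_relSet _ continuous_add).preimage
      ((continuous_apply f).prodMk ((continuous_apply g).prodMk (continuous_apply (f + g))))
  · refine isClosed_iInter fun f => isClosed_iInter fun g => ?_
    exact (isClosed_relSet _ continuous_mul).preimage
      ((continuous_apply f).prodMk ((continuous_apply g).prodMk (continuous_apply (f * g))))
  · exact isClosed_iInter fun f => isClosed_iInter fun _ =>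
      isClosed_eq (continuous_apply _) (continuous_pinv.comp (continuous_apply _))

variable (F) in
/-- The function topology on the set of places: the coarsest topology for which every
value map `P ↦ f(P) ∈ ℂ ∪ {∞}` is continuous. -/
@[reducible] def placeTopology : TopologicalSpace (Place ℂ F) :=
  TopologicalSpace.induced (fun (v : Place ℂ F) (f : F) => val v f) inferInstance

theorem continuous_val (f : F) :
    @Continuous (Place ℂ F) (OnePoint ℂ) (placeTopology F) _ (fun v : Place ℂ F => val v f) := by
  letI := placeTopology F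
  have h1 : Continuous (fun (v : Place ℂ F) (g : F) => val v g) := continuous_induced_dom
  exact (continuous_apply (A := fun _ : F => OnePoint ℂ) f).comp h1

/-- **Compactness of the space of places** (Tychonoff). -/
theorem compactSpace_place (x : F) (hx : Transcendental ℂ x) [FiniteDimensional ℂ⟮x⟯ F] :
    @CompactSpace (Place ℂ F) (placeTopology F) := by
  letI := placeTopology F
  have hind : Topology.IsInducing (fun (v : Place ℂ F) (f : F) => val v f) := ⟨rfl⟩
  refine ⟨?_⟩
  rw [hind.isCompact_iff, Set.image_univ, range_val_eq x hx]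
  exact isClosed_setOf_isPt.isCompact

theorem t2Space_place (hres : ResK ℂ F) : @T2Space (Place ℂ F) (placeTopology F) := by
  letI := placeTopology F
  have hemb : Topology.IsEmbedding (fun (v : Place ℂ F) (f : F) => val v f) :=
    ⟨⟨rfl⟩, val_injective hres⟩
  exact hemb.t2Space

/-- Open sets of the function topology (instance-free form). -/
def IsOpenF (U : Set (Place ℂ F)) : Prop := IsOpen[placeTopology F] U

theorem isOpenF_val (f : F) {W : Set (OnePoint ℂ)} (hW : IsOpen W) :
    IsOpenF {v : Place ℂ F | val v f ∈ W} := by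
  letI := placeTopology F
  exact hW.preimage (continuous_val f)

theorem isOpenF_univ : IsOpenF (Set.univ : Set (Place ℂ F)) := by
  letI := placeTopology F
  exact isOpen_univ

theorem IsOpenF.inter {U V : Set (Place ℂ F)} (hU : IsOpenF U) (hV : IsOpenF V) :
    IsOpenF (U ∩ V) := by
  letI := placeTopology F
  exact IsOpen.inter hU hV

theorem IsOpenF.union {U V : Set (Place ℂ F)} (hU : IsOpenF U) (hV : IsOpenF V) :
    IsOpenF (U ∪ V) := by
  letI := placeTopology F
  exact IsOpen.union hU hV

theorem isOpenF_iUnion {ι : Sort*} {U : ι → Set (Place ℂ F)} (hU : ∀ i, IsOpenF (U i)) :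
    IsOpenF (⋃ i, U i) := by
  letI := placeTopology F
  exact isOpen_iUnion hU

theorem isOpenF_biInter_finset {ι : Type*} (s : Finset ι) {U : ι → Set (Place ℂ F)}
    (hU : ∀ i ∈ s, IsOpenF (U i)) : IsOpenF (⋂ i ∈ s, U i) := by
  letI := placeTopology F
  exact isOpen_biInter_finset hU

/-- **FINCOVER**: any choice of an open neighbourhood of every place has a finite subcover. -/
theorem exists_finset_cover (x : F) (hx : Transcendental ℂ x) [FiniteDimensional ℂ⟮x⟯ F]
    (U : Place ℂ F → Set (Place ℂ F)) (hU : ∀ P, IsOpenF (U P)) (hmem : ∀ P, P ∈ U P) :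
    ∃ T : Finset (Place ℂ F), ∀ Q, ∃ P ∈ T, Q ∈ U P := by
  letI := placeTopology F
  haveI := compactSpace_place x hx
  obtain ⟨T, hT⟩ := isCompact_univ.elim_finite_subcover U hU
    (fun Q _ => Set.mem_iUnion.mpr ⟨Q, hmem Q⟩)
  refine ⟨T, fun Q => ?_⟩
  have := hT (Set.mem_univ Q)
  simpa using this

/-- **TUBE**: if an open set of places contains the fibre of `f` over `c₀`, it contains the
fibres over all `c` in a neighbourhood of `c₀`. -/
theorem exists_nhds_tube (x : F) (hx : Transcendental ℂ x) [FiniteDimensional ℂ⟮x⟯ F]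
    (f : F) (c₀ : OnePoint ℂ) {U : Set (Place ℂ F)} (hU : IsOpenF U)
    (h : ∀ P, val P f = c₀ → P ∈ U) :
    ∃ W : Set (OnePoint ℂ), IsOpen W ∧ c₀ ∈ W ∧ ∀ Q, val Q f ∈ W → Q ∈ U := by
  letI := placeTopology F
  haveI := compactSpace_place x hx
  have hc : IsCompact ((fun v : Place ℂ F => val v f) '' Uᶜ) :=
    (IsClosed.isCompact (isClosed_compl_iff.mpr hU)).image (continuous_val f)
  refine ⟨((fun v : Place ℂ F => val v f) '' Uᶜ)ᶜ, hc.isClosed.isOpen_compl, ?_, ?_⟩
  · rintro ⟨P, hP, hPc⟩
    exact hP (h P hPc)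
  · intro Q hQ
    by_contra hQU
    exact hQ ⟨Q, hQU, rfl⟩

/-- Finitely many places have pairwise disjoint open neighbourhoods. -/
theorem exists_pairwiseDisjoint_isOpenF (hres : ResK ℂ F) (T : Finset (Place ℂ F)) :
    ∃ U : Place ℂ F → Set (Place ℂ F), (∀ P, P ∈ U P ∧ IsOpenF (U P)) ∧
      (T : Set (Place ℂ F)).PairwiseDisjoint U := by
  letI := placeTopology F
  haveI := t2Space_place hres
  exact T.finite_toSet.t2_separation

end Topology

end

end Fermat.Agent.S27.helper3147
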