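import Fermat.Agent.S27.helper3351_AlgSpec

/-!
# S27, algebraic route: the algebra of a table (architect helper3351)

`Tab.Alg T` is the type `Fin m → K[X]` equipped with the multiplication `Tab.mul T`.
For a valid table (`[Fact T.PreValid]`) it is a commutative ring, an algebra over `K[X]`
(free with basis `ω_i = Alg.ω i`) and over `K`.

Definitions for the leaves of the table-algebra library (W1) are collected here so that the
types are fixed once; the theorems about them are the board rows W1a–W1d.
-/

set_option autoImplicit false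

noncomputable section

open Polynomial

namespace Fermat.Agent.S27.helper3351

variable {τ : WType} {K : Type*} [CommRing K]

/-! ### Bilinearity of `Tab.mul` (no validity needed) -/

namespace Tab

variable (T : Tab τ K)

theorem mul_apply (a b : Elt τ K) (k : Fin τ.m) :
    T.mul a b k = ∑ i, ∑ j, a i * b j * T.c i j k := rfl

theorem add_mul' (a a' b : Elt τ K) : T.mul (a + a') b = T.mul a b + T.mul a' b := by
  funext k
  simp only [mul_apply, Pi.add_apply, add_mul, Finset.sum_add_distrib]

theorem mul_add' (a b b' : Elt τ K) : T.mul a (b + b') = T.mul a b + T.mul a b' := by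
  funext k
  simp only [mul_apply, Pi.add_apply, mul_add, add_mul, Finset.sum_add_distrib]

theorem smul_mul' (r : K[X]) (a b : Elt τ K) : T.mul (r • a) b = r • T.mul a b := by
  funext k
  simp only [mul_apply, Pi.smul_apply, smul_eq_mul, Finset.mul_sum, mul_assoc]

theorem mul_smul' (r : K[X]) (a b : Elt τ K) : T.mul a (r • b) = r • T.mul a b := by
  funext k
  simp only [mul_apply, Pi.smul_apply, smul_eq_mul, Finset.mul_sum]
  refine Finset.sum_congr rfl fun i _ => Finset.sum_congr rfl fun j _ => ?_
  ring

theorem zero_mul' (b : Elt τ K) : T.mul 0 b = 0 := by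
  funext k
  simp [mul_apply]

theorem mul_zero' (a : Elt τ K) : T.mul a 0 = 0 := by
  funext k
  simp [mul_apply]

theorem sum_mul' {ι : Type*} (s : Finset ι) (f : ι → Elt τ K) (b : Elt τ K) :
    T.mul (∑ x ∈ s, f x) b = ∑ x ∈ s, T.mul (f x) b := by
  classical
  induction s using Finset.induction_on with
  | empty => simp [zero_mul']
  | insert x s hx ih => rw [Finset.sum_insert hx, Finset.sum_insert hx, add_mul', ih]

theorem mul_sum' {ι : Type*} (s : Finset ι) (a : Elt τ K) (f : ι → Elt τ K) :
    T.mul a (∑ x ∈ s, f x) = ∑ x ∈ s, T.mul a (f x) := by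
  classical
  induction s using Finset.induction_on with
  | empty => simp [mul_zero']
  | insert x s hx ih => rw [Finset.sum_insert hx, Finset.sum_insert hx, mul_add', ih]

theorem mul_e_e (i j : Fin τ.m) : T.mul (Elt.e i) (Elt.e j) = fun k => T.c i j k := by
  funext k
  simp only [mul_apply, Elt.e]
  rw [Finset.sum_eq_single i, Finset.sum_eq_single j]
  · simp
  · intro b _ hb
    simp [hb]
  · intro h
    exact absurd (Finset.mem_univ j) h
  · intro b _ hb
    simp [hb]
  · intro h
    exact absurd (Finset.mem_univ i) h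

end Tab

theorem Elt.eq_sum (a : Elt τ K) : a = ∑ i, a i • (Elt.e i : Elt τ K) := by
  funext k
  simp only [Finset.sum_apply, Pi.smul_apply, Elt.e, smul_eq_mul, mul_ite, mul_one, mul_zero]
  simp

namespace Tab

variable (T : Tab τ K)

/-- The purely algebraic part of `Valid` (everything except regularity at the points):
exactly what is needed for `Tab.Alg T` to be a commutative ring with multiplicative weight. -/
structure PreValid : Prop where
  good : τ.Good
  one_mul : ∀ j, T.mul Elt.one (Elt.e j) = Elt.e j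
  comm : ∀ i j k, T.c i j k = T.c j i k
  assoc : ∀ i j k,
    T.mul (T.mul (Elt.e i) (Elt.e j)) (Elt.e k) = T.mul (Elt.e i) (T.mul (Elt.e j) (Elt.e k))
  wt : ∀ i j k, T.c i j k ≠ 0 → τ.m * (T.c i j k).natDegree + τ.ρ k ≤ τ.ρ i + τ.ρ j
  lead : ∀ i j k : Fin τ.m, ((i : ℕ) + j) % τ.m = k →
    T.c i j k ≠ 0 ∧ τ.m * (T.c i j k).natDegree + τ.ρ k = τ.ρ i + τ.ρ j

variable {T} in
theorem Valid.pre (h : T.Valid) : T.PreValid :=
  ⟨h.good, h.one_mul, h.comm, h.assoc, h.wt, h.lead⟩

variable {T} in
theorem Valid.of_pre (h : T.PreValid)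
    (hreg : ∀ (x₀ : K) (ψ : Fin τ.m → K), T.IsPoint x₀ ψ → T.RegularAt x₀ ψ) : T.Valid :=
  ⟨h.good, h.one_mul, h.comm, h.assoc, h.wt, h.lead, hreg⟩

instance instFactPreValid [h : Fact T.Valid] : Fact T.PreValid := ⟨h.out.pre⟩

theorem mul_comm' (hT : T.PreValid) (a b : Elt τ K) : T.mul a b = T.mul b a := by
  funext k
  simp only [mul_apply]
  rw [Finset.sum_comm]
  refine Finset.sum_congr rfl fun i _ => Finset.sum_congr rfl fun j _ => ?_
  rw [hT.comm j i k]
  ring

theorem one_mul' (hT : T.PreValid) (a : Elt τ K) : T.mul Elt.one a = a := by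
  have h1 : ∀ j, T.mul Elt.one (Elt.e j) = Elt.e j := hT.one_mul
  conv_lhs => rw [Elt.eq_sum a]
  rw [mul_sum']
  conv_rhs => rw [Elt.eq_sum a]
  refine Finset.sum_congr rfl fun j _ => ?_
  rw [mul_smul', h1]

theorem mul_one' (hT : T.PreValid) (a : Elt τ K) : T.mul a Elt.one = a := by
  rw [mul_comm' T hT, one_mul' T hT]

theorem mul_assoc' (hT : T.PreValid) (a b d : Elt τ K) :
    T.mul (T.mul a b) d = T.mul a (T.mul b d) := by
  have key : ∀ α β γ : Fin τ.m → K[X],
      T.mul (T.mul (∑ i, α i • (Elt.e i : Elt τ K)) (∑ j, β j • (Elt.e j : Elt τ K)))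
          (∑ k, γ k • (Elt.e k : Elt τ K)) =
        T.mul (∑ i, α i • (Elt.e i : Elt τ K))
          (T.mul (∑ j, β j • (Elt.e j : Elt τ K)) (∑ k, γ k • (Elt.e k : Elt τ K))) := by
    intro α β γ
    simp only [sum_mul', mul_sum', smul_mul', mul_smul', Finset.smul_sum]
    refine Finset.sum_congr rfl fun i _ => Finset.sum_congr rfl fun j _ =>
      Finset.sum_congr rfl fun k _ => ?_
    rw [hT.assoc k j i]
  have h := key a b d
  rwa [← Elt.eq_sum a, ← Elt.eq_sum b, ← Elt.eq_sum d] at h

/-! ### The algebra -/

/-- The algebra `B = ⊕_i K[x] ω_i` of the table `T` (as a type: tuples of polynomials). -/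
def Alg (_T : Tab τ K) : Type _ := Elt τ K

namespace Alg

variable {T}

/-- The underlying tuple of polynomials (coordinates in the basis `ω_i`). -/
def toElt (a : T.Alg) : Elt τ K := a

/-- The element with given coordinates. -/
def ofElt (T : Tab τ K) (a : Elt τ K) : T.Alg := a

@[simp] theorem toElt_ofElt (a : Elt τ K) : (ofElt T a).toElt = a := rfl

@[simp] theorem ofElt_toElt (a : T.Alg) : ofElt T a.toElt = a := rfl

@[ext] theorem ext {a b : T.Alg} (h : ∀ i, a.toElt i = b.toElt i) : a = b := funext h

instance : AddCommGroup T.Alg := inferInstanceAs (AddCommGroup (Fin τ.m → K[X]))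

instance : Module K[X] T.Alg := inferInstanceAs (Module K[X] (Fin τ.m → K[X]))

instance : Mul T.Alg := ⟨fun a b => T.mul a b⟩

instance : One T.Alg := ⟨(Elt.one : Elt τ K)⟩

@[simp] theorem toElt_zero : (0 : T.Alg).toElt = 0 := rfl

@[simp] theorem toElt_add (a b : T.Alg) : (a + b).toElt = a.toElt + b.toElt := rfl

@[simp] theorem toElt_neg (a : T.Alg) : (-a).toElt = -a.toElt := rfl

@[simp] theorem toElt_sub (a b : T.Alg) : (a - b).toElt = a.toElt - b.toElt := rfl

@[simp] theorem toElt_smul (r : K[X]) (a : T.Alg) : (r • a).toElt = r • a.toElt := rfl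

theorem toElt_mul (a b : T.Alg) : (a * b).toElt = T.mul a.toElt b.toElt := rfl

theorem toElt_one : (1 : T.Alg).toElt = Elt.one := rfl

/-- The basis vector `ω_i`. -/
def ω (T : Tab τ K) (i : Fin τ.m) : T.Alg := ofElt T (Elt.e i)

/-- The element `x` (as `x • 1`). -/
def x (T : Tab τ K) : T.Alg := ofElt T ((X : K[X]) • (Elt.one : Elt τ K))

instance instCommRing [hT : Fact T.PreValid] : CommRing T.Alg :=
  { (inferInstance : AddCommGroup T.Alg) with
    mul := (· * ·)
    one := 1
    left_distrib := fun a b c => Tab.mul_add' T a b c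
    right_distrib := fun a b c => Tab.add_mul' T a b c
    zero_mul := fun a => Tab.zero_mul' T a
    mul_zero := fun a => Tab.mul_zero' T a
    mul_assoc := fun a b c => Tab.mul_assoc' T hT.out a b c
    one_mul := fun a => Tab.one_mul' T hT.out a
    mul_one := fun a => Tab.mul_one' T hT.out a
    mul_comm := fun a b => Tab.mul_comm' T hT.out a b }

instance instAlgebraPoly [Fact T.PreValid] : Algebra K[X] T.Alg :=
  Algebra.ofModule (fun r a b => Tab.smul_mul' T r a b) (fun r a b => Tab.mul_smul' T r a b)

instance instAlgebra [Fact T.PreValid] : Algebra K T.Alg :=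
  Algebra.compHom T.Alg (C : K →+* K[X])

instance instIsScalarTower [Fact T.PreValid] : IsScalarTower K K[X] T.Alg :=
  IsScalarTower.of_algebraMap_eq fun _ => rfl

theorem algebraMap_poly_apply [Fact T.PreValid] (r : K[X]) :
    algebraMap K[X] T.Alg r = r • (1 : T.Alg) := by
  rw [Algebra.algebraMap_eq_smul_one]

theorem x_eq_algebraMap [Fact T.PreValid] : x T = algebraMap K[X] T.Alg X := by
  rw [algebraMap_poly_apply]
  rfl

/-- The `K[X]`-basis `ω_i` of the algebra. -/
def basis (T : Tab τ K) : Module.Basis (Fin τ.m) K[X] T.Alg :=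
  Pi.basisFun K[X] (Fin τ.m)

end Alg

/-! ### Weight (pole order at infinity) -/

open scoped Classical in
/-- The weight `wt (∑ a_i ω_i) = max_i (m deg a_i + ρ i)` (`⊥` for `0`). -/
def wt (_T : Tab τ K) (a : Elt τ K) : WithBot ℕ :=
  Finset.univ.sup fun i : Fin τ.m =>
    if a i = 0 then (⊥ : WithBot ℕ) else ((τ.m * (a i).natDegree + τ.ρ i : ℕ) : WithBot ℕ)

/-- The elements of weight `≤ t`, as a `K`-submodule `L(t·∞)` of the algebra. -/
def Lspace (T : Tab τ K) [Fact T.PreValid] (t : ℕ) : Submodule K T.Alg where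
  carrier := {a | wtLE a.toElt t}
  zero_mem' := fun i h => absurd rfl h
  add_mem' := by
    intro a b ha hb i hi
    by_cases h1 : a.toElt i = 0
    · have h2 : b.toElt i ≠ 0 := by
        intro h2
        apply hi
        simp [h1, h2]
      have : (a + b).toElt i = b.toElt i := by simp [h1]
      rw [this]
      exact hb i h2
    by_cases h2 : b.toElt i = 0
    · have : (a + b).toElt i = a.toElt i := by simp [h2]
      rw [this]
      exact ha i h1
    have hdeg : ((a + b).toElt i).natDegree ≤ max (a.toElt i).natDegree (b.toElt i).natDegree :=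
      Polynomial.natDegree_add_le _ _
    rcases le_max_iff.1 hdeg with h | h
    · exact le_trans (Nat.add_le_add_right (Nat.mul_le_mul_left _ h) _) (ha i h1)
    · exact le_trans (Nat.add_le_add_right (Nat.mul_le_mul_left _ h) _) (hb i h2)
  smul_mem' := by
    intro c a ha i hi
    have hsm : (c • a).toElt i = C c * a.toElt i := rfl
    have h1 : a.toElt i ≠ 0 := by
      intro h1
      apply hi
      rw [hsm, h1, mul_zero]
    rw [hsm]
    exact le_trans (Nat.add_le_add_right (Nat.mul_le_mul_left _
      (Polynomial.natDegree_C_mul_le _ _)) _) (ha i h1)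

/-! ### Points and their maximal ideals -/

/-- Evaluation at a point `(x₀, ψ)` (a ring hom when `IsPoint` holds; here as a function). -/
def evalPt (_T : Tab τ K) (x₀ : K) (ψ : Fin τ.m → K) (a : Elt τ K) : K :=
  ∑ i, (a i).eval x₀ * ψ i

/-- The ideal of elements vanishing at the point `(x₀, ψ)`. -/
def ptIdeal (T : Tab τ K) [Fact T.PreValid] (x₀ : K) (ψ : Fin τ.m → K) : Ideal T.Alg :=
  Ideal.span (Set.range fun a : Option (Fin τ.m) => Alg.ofElt T (genElt x₀ ψ a))

/-! ### Change of coefficients -/

/-- Apply a ring hom to the coefficients of a table. -/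
def map {L : Type*} [CommRing L] (f : K →+* L) (T : Tab τ K) : Tab τ L :=
  fun i j k e => f (T i j k e)

end Tab

/-- Apply a ring hom to the coefficients of an element. -/
def Elt.map {L : Type*} [CommRing L] (f : K →+* L) (a : Elt τ K) : Elt τ L :=
  fun i => (a i).map f

end Fermat.Agent.S27.helper3351

end
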