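import Mathlib
import Fermat.Prelude.Def_AlgebraicCurve_DivisorClassGroup
import Fermat.Agent.S24.helper204_Places

/-!
# S27-A3-POLE : pole bound of trace-dual functions (helper340)

Algebraic source of the pole bound `(P)` for the functions `phi_lambda` attached to Weil
differentials:  if `Tr_{F/K(x)}(phi * b)` is a polynomial in `x` for every `b` integral over
`K[x]`, then `ord_P(phi) >= 1 - e_P` at every place `P` where `x` is finite.
-/

set_option autoImplicit false
set_option linter.overlappingInstances false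

namespace Fermat.Agent.S27.helper340

open IsDedekindDomain

section Different

attribute [local instance] FractionRing.liftAlgebra FractionRing.isScalarTower_liftAlgebra
  Ideal.Quotient.field

/-- **Tame bound for the different.** If `p B = P * Q` with `P`, `Q` coprime, `P ≠ ⊤`, and the
residue field `A ⧸ p` has characteristic zero, then `P` does not divide the different.
(Applied to `P = 𝔓 ^ e` with `e` the ramification index, this is the upper bound `e - 1` for
the different exponent in the tame case; Mathlib has the lower bound.) -/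
theorem not_dvd_differentIdeal_of_isCoprime_of_charZero
    (A : Type*) {B : Type*} [CommRing A] [CommRing B] [Algebra A B] [IsDomain A]
    [IsDedekindDomain A] [IsDedekindDomain B] [Module.IsTorsionFree A B] [Module.Finite A B]
    [Algebra.IsSeparable (FractionRing A) (FractionRing B)]
    {p : Ideal A} [p.IsMaximal] [CharZero (A ⧸ p)] (P Q : Ideal B) (hPtop : P ≠ ⊤)
    (hPQ : IsCoprime P Q) (hP : P * Q = Ideal.map (algebraMap A B) p) :
    ¬ P ∣ differentIdeal A B := by
  have hpP : p ≤ Ideal.comap (algebraMap A B) P := by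
    rw [← Ideal.map_le_iff_le_comap, ← hP]; exact Ideal.mul_le_left
  have hpQ : p ≤ Ideal.comap (algebraMap A B) Q := by
    rw [← Ideal.map_le_iff_le_comap, ← hP]; exact Ideal.mul_le_right
  let _ : Algebra (A ⧸ p) (B ⧸ P) := Ideal.Quotient.algebraQuotientOfLEComap hpP
  let _ : Algebra (A ⧸ p) (B ⧸ Q) := Ideal.Quotient.algebraQuotientOfLEComap hpQ
  have : IsScalarTower A (A ⧸ p) (B ⧸ Q) := .of_algebraMap_eq' rfl
  have : IsScalarTower A (A ⧸ p) (B ⧸ P) := .of_algebraMap_eq' rfl
  have : Module.Finite (A ⧸ p) (B ⧸ Q) :=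
    Module.Finite.of_restrictScalars_finite A (A ⧸ p) (B ⧸ Q)
  have : Module.Finite (A ⧸ p) (B ⧸ P) :=
    Module.Finite.of_restrictScalars_finite A (A ⧸ p) (B ⧸ P)
  let e : (B ⧸ p.map (algebraMap A B)) ≃ₐ[A ⧸ p] ((B ⧸ P) × B ⧸ Q) :=
    { __ := (Ideal.quotEquivOfEq hP.symm).trans (Ideal.quotientMulEquivQuotientProd P Q hPQ),
      commutes' := Quotient.ind fun _ ↦ rfl }
  obtain ⟨y, hy⟩ := Ideal.Quotient.mk_surjective (e.symm (1, 0))
  refine not_dvd_differentIdeal_of_intTrace_not_mem A P Q hP y ?_ ?_
  · have := congr((e $hy).2)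
    simp at this
    simpa [e, Ideal.Quotient.eq_zero_iff_mem] using this
  · rw [← Ideal.Quotient.eq_zero_iff_mem, ← Algebra.trace_quotient_eq_of_isDedekindDomain,
      hy, Algebra.trace_eq_of_algEquiv, Algebra.trace_prod_apply]
    have hnt : Nontrivial (B ⧸ P) := Ideal.Quotient.nontrivial_iff.mpr hPtop
    have h1 : Algebra.trace (A ⧸ p) (B ⧸ P) 1 = (Module.finrank (A ⧸ p) (B ⧸ P) : A ⧸ p) := by
      have := Algebra.trace_algebraMap (R := A ⧸ p) (S := B ⧸ P) 1
      simpa using this
    have hpos : 0 < Module.finrank (A ⧸ p) (B ⧸ P) := Module.finrank_pos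
    simp only [map_zero, add_zero, h1]
    exact_mod_cast hpos.ne'

end Different

section AKLB

attribute [local instance] FractionRing.liftAlgebra FractionRing.isScalarTower_liftAlgebra
  Ideal.Quotient.field

open nonZeroDivisors WithZero

variable (A K L B : Type*) [CommRing A] [Field K] [CommRing B] [Field L]
  [Algebra A K] [Algebra B L] [Algebra A B] [Algebra K L] [Algebra A L]
  [IsScalarTower A K L] [IsScalarTower A B L]
  [IsDomain A] [IsFractionRing A K] [FiniteDimensional K L] [Algebra.IsSeparable K L]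
  [IsIntegralClosure B A L] [IsDedekindDomain A] [IsDedekindDomain B] [Module.IsTorsionFree A B]
  [IsFractionRing B L]

include K L in
omit [FiniteDimensional K L] [IsIntegralClosure B A L] [IsDedekindDomain A] in
/-- Separability transfers from `L / K` to the canonical fraction fields. -/
theorem isSeparable_fractionRing :
    Algebra.IsSeparable (FractionRing A) (FractionRing B) := by
  have H : RingHom.comp (algebraMap (FractionRing A) (FractionRing B))
      ↑(FractionRing.algEquiv A K).symm.toRingEquiv =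
        RingHom.comp ↑(FractionRing.algEquiv B L).symm.toRingEquiv (algebraMap K L) := by
    apply IsLocalization.ringHom_ext A⁰
    ext
    simp only [RingHom.coe_comp, RingHom.coe_coe,
      AlgEquiv.coe_ringEquiv, Function.comp_apply, AlgEquiv.commutes,
      ← IsScalarTower.algebraMap_apply]
    rw [IsScalarTower.algebraMap_apply A B L, AlgEquiv.commutes, ← IsScalarTower.algebraMap_apply]
  exact Algebra.IsSeparable.of_equiv_equiv _ _ H

variable {L} in
/-- An element of the trace dual of `B` times an element of the different is integral. -/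
theorem mul_mem_range_of_trace_mem_of_mem_differentIdeal (φ : L)
    (hφ : ∀ b : B, Algebra.trace K L (φ * algebraMap B L b) ∈ (algebraMap A K).range)
    (d : B) (hd : d ∈ differentIdeal A B) :
    φ * algebraMap B L d ∈ (algebraMap B L).range := by
  have h1 : φ ∈ FractionalIdeal.dual A K (1 : FractionalIdeal B⁰ L) := by
    rw [FractionalIdeal.mem_dual (by simp)]
    intro a ha
    obtain ⟨b, rfl⟩ := (FractionalIdeal.mem_one_iff _).mp ha
    simpa [Algebra.traceForm_apply] using hφ b
  have h2 : algebraMap B L d ∈ (FractionalIdeal.dual A K (1 : FractionalIdeal B⁰ L))⁻¹ := by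
    rw [← coeIdeal_differentIdeal A K L B]
    exact (FractionalIdeal.mem_coeIdeal _).mpr ⟨d, hd, rfl⟩
  have h3 := FractionalIdeal.mul_mem_mul h1 h2
  rw [mul_inv_cancel₀ (FractionalIdeal.dual_ne_zero A K (by simp))] at h3
  obtain ⟨b, hb⟩ := (FractionalIdeal.mem_one_iff _).mp h3
  exact ⟨b, hb⟩

variable {L B} in
/-- **Pole bound, abstract form.**  If `φ` lies in the trace dual of `B`, `p B = 𝔓 ^ e * Q` with
`𝔓 ^ e` and `Q` coprime, `e ≠ 0` and `A ⧸ p` of characteristic zero, then the `𝔓`-adic valuation
of `φ` is at most `exp (e - 1)`, i.e. `ord_𝔓 φ ≥ 1 - e`. -/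
theorem valuation_le_of_trace_mem [Module.Finite A B] (φ : L)
    (hφ : ∀ b : B, Algebra.trace K L (φ * algebraMap B L b) ∈ (algebraMap A K).range)
    {p : Ideal A} [p.IsMaximal] [CharZero (A ⧸ p)]
    (w : HeightOneSpectrum B) (e : ℕ) (he : e ≠ 0) (Q : Ideal B)
    (hcop : IsCoprime (w.asIdeal ^ e) Q)
    (hfac : w.asIdeal ^ e * Q = p.map (algebraMap A B)) :
    w.valuation L φ ≤ exp ((e : ℤ) - 1) := by
  have := isSeparable_fractionRing A K L B
  have htop : w.asIdeal ^ e ≠ ⊤ := by
    intro h
    have h1 : w.asIdeal ^ e ≤ w.asIdeal := Ideal.pow_le_self he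
    rw [h] at h1
    exact w.isPrime.ne_top (top_le_iff.mp h1)
  have hnd := not_dvd_differentIdeal_of_isCoprime_of_charZero A (w.asIdeal ^ e) Q htop hcop hfac
  rw [Ideal.dvd_iff_le] at hnd
  obtain ⟨d, hd, hdw⟩ := SetLike.not_le_iff_exists.mp hnd
  have hd0 : d ≠ 0 := by
    rintro rfl
    exact hdw (Ideal.zero_mem _)
  have hvd : exp (-(e : ℤ)) < w.intValuation d := by
    rw [← not_le, w.intValuation_le_pow_iff_mem]
    exact hdw
  obtain ⟨b, hb⟩ := mul_mem_range_of_trace_mem_of_mem_differentIdeal A K B φ hφ d hd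
  have hvb : w.valuation L (φ * algebraMap B L d) ≤ 1 := by
    rw [← hb]
    exact w.valuation_le_one b
  rw [map_mul, w.valuation_of_algebraMap] at hvb
  have hvd0 : w.intValuation d ≠ 0 := w.intValuation_ne_zero d hd0
  -- val φ ≤ (val d)⁻¹ < exp e
  have h5 : w.valuation L φ ≤ (w.intValuation d)⁻¹ := by
    have := (le_mul_inv_iff₀ (zero_lt_iff.mpr hvd0)).mpr hvb
    simpa using this
  have h6 : (w.intValuation d)⁻¹ ≤ exp ((e : ℤ) - 1) := by
    rw [← WithZero.exp_log hvd0] at hvd ⊢
    rw [WithZero.exp_lt_exp] at hvd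
    rw [← WithZero.exp_neg, WithZero.exp_le_exp]
    omega
  exact h5.trans h6

end AKLB

section Factor

/-- In a Dedekind domain a nonzero ideal factors as `𝔓 ^ m * Q` with `𝔓 ^ m`, `Q` coprime,
where `m` is the multiplicity of the prime `𝔓`. -/
theorem exists_isCoprime_pow_multiplicity_mul_eq {B : Type*} [CommRing B] [IsDedekindDomain B]
    (w : HeightOneSpectrum B) (I : Ideal B) (hI : I ≠ ⊥) :
    ∃ Q : Ideal B, IsCoprime (w.asIdeal ^ multiplicity w.asIdeal I) Q ∧
      w.asIdeal ^ multiplicity w.asIdeal I * Q = I := by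
  have hfin : FiniteMultiplicity w.asIdeal I :=
    FiniteMultiplicity.of_not_isUnit (fun h => w.isPrime.ne_top (Ideal.isUnit_iff.mp h)) hI
  obtain ⟨Q, hQ, hnd⟩ := hfin.exists_eq_pow_mul_and_not_dvd
  refine ⟨Q, IsCoprime.pow_left ?_, hQ.symm⟩
  rw [Ideal.isCoprime_iff_sup_eq]
  by_contra hne
  have h1 : w.asIdeal = w.asIdeal ⊔ Q := w.isMaximal.eq_of_le hne le_sup_left
  have h2 : Q ≤ w.asIdeal := by
    rw [h1]; exact le_sup_right
  exact hnd (Ideal.dvd_iff_le.mpr h2)

end Factor

section Concrete

open AlgebraicCurve IntermediateField WithZero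
open Fermat.Agent.S24.helper204
open scoped IntermediateField.algebraAdjoinAdjoin

variable {K F : Type*} [Field K] [Field F] [Algebra K F]
variable {x : F} [CharZero K] [FiniteDimensional K⟮x⟯ F]

omit [FiniteDimensional K⟮x⟯ F] in
theorem charZero_quotient_pc (hx : Transcendental K x) (c : K) :
    CharZero (Algebra.adjoin K {x} ⧸ pc K x c) := by
  have := pc_isMaximal hx c
  have : Nontrivial (Algebra.adjoin K {x} ⧸ pc K x c) :=
    Ideal.Quotient.nontrivial_iff.mpr (Ideal.IsMaximal.ne_top inferInstance)
  exact charZero_of_injective_algebraMap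
    (algebraMap K (Algebra.adjoin K {x} ⧸ pc K x c)).injective

/-- **Pole bound (P), finite places.**  `K` of characteristic zero, `x` transcendental,
`F` finite over `K(x)`, `B` the integral closure of `K[x]` in `F`.  If `Tr_{F/K(x)}(φ b)` is a
polynomial in `x` for every `b ∈ B`, then at every place `v` with `x(v) = c` finite one has
`ord_v φ ≥ 1 - e_v`, where `e_v = ord_v (x - c)` is the ramification index. -/
theorem one_sub_ord_le_ord_of_trace_mem (hx : Transcendental K x) (φ : F)
    (hφ : ∀ b : integralClosure (Algebra.adjoin K {x}) F,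
      Algebra.trace K⟮x⟯ F (φ * (b : F)) ∈ (algebraMap (Algebra.adjoin K {x}) K⟮x⟯).range)
    (c : K) (v : Place K F) (hv : 0 < v.ord (x - algebraMap K F c)) :
    1 - v.ord (x - algebraMap K F c) ≤ v.ord φ := by
  obtain ⟨w, _, rfl⟩ := exists_heightOneSpectrum_of_ord_pos hx c v hv
  have := pc_isMaximal hx c
  have := charZero_quotient_pc hx c
  have hp0 := pc_ne_bot hx c
  have hmap0 : Ideal.map (algebraMap (Algebra.adjoin K {x})
      (integralClosure (Algebra.adjoin K {x}) F)) (pc K x c) ≠ ⊥ := by
    have hinj : Function.Injective (algebraMap (Algebra.adjoin K {x})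
        (integralClosure (Algebra.adjoin K {x}) F)) :=
      fun a b h => Subtype.ext (by
        have := congrArg (fun z : integralClosure (Algebra.adjoin K {x}) F => (z : F)) h
        exact this)
    rw [Ne, Ideal.map_eq_bot_iff_of_injective hinj]
    exact hp0
  have he := ord_ofHeightOneSpectrum_eq_ramificationIdx hx c w
  rw [he] at hv ⊢
  rw [Ideal.IsDedekindDomain.ramificationIdx'_eq_multiplicity hmap0 w.isPrime] at hv ⊢
  obtain ⟨Q, hcop, hfac⟩ := exists_isCoprime_pow_multiplicity_mul_eq w _ hmap0
  have hφ' : ∀ b : integralClosure (Algebra.adjoin K {x}) F,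
      Algebra.trace K⟮x⟯ F (φ * algebraMap (integralClosure (Algebra.adjoin K {x}) F) F b) ∈
        (algebraMap (Algebra.adjoin K {x}) K⟮x⟯).range := fun b => hφ b
  have hval := valuation_le_of_trace_mem (Algebra.adjoin K {x}) K⟮x⟯
    (L := F) (B := integralClosure (Algebra.adjoin K {x}) F) φ hφ' w _
    (by exact_mod_cast hv.ne') Q hcop hfac
  rw [ord_ofHeightOneSpectrum]
  rcases eq_or_ne φ 0 with rfl | hφ0
  · simp only [map_zero, log_zero, neg_zero]
    omega
  · have hv0 : w.valuation F φ ≠ 0 := (Valuation.ne_zero_iff _).mpr hφ0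
    have := (log_le_iff_le_exp hv0).mpr hval
    omega

end Concrete

end Fermat.Agent.S27.helper340
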