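import Fermat.Agent.S27.helper3351_WSpec

/-!
# S27 algebraic track, W1a-1: nongaps and weight basics (helper4272, board row 1188)

Proved here (no hypotheses, universe polymorphic):

* `stmt_Nongaps : Stmt_Nongaps`
* `stmt_WtBasic : Stmt_WtBasic.{u}`
* `stmt_WtMul   : Stmt_WtMul.{u}`
* `stmt_Domain  : Stmt_Domain.{u}`

Exported API on tuples `a : Elt τ K` (`K` a field):

* `cw τ k p` : the weight `m deg p + ρ k` of a component (`⊥` for `p = 0`), `wt_eq_sup`;
* `good_inj` : monomial weights `m e + ρ i` are pairwise distinct;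
* `IsLead a i`, `exists_lead`, `IsLead.unique`, `IsLead.wt_eq` : the leading component of a
  nonzero element;
* `IsLead.mul` : the leading component of a product (index, degree, leading coefficient);
* `wt_mul`, `wtLE_iff`, `wt_eq_bot_iff`, `wt_add_le`, `wt_C_mul`, `exists_sub_lt`.
-/

set_option autoImplicit false

noncomputable section

open Polynomial

namespace Fermat.Agent.S27.helper4272

open Fermat.Agent.S27.helper3351

universe u

/-! ## Combinatorics of a good type -/

theorem good_gap_iff (τ : WType) (hG : τ.Good) (s : ℕ) :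
    (¬ ∃ i : Fin τ.m, (i : ℕ) = s % τ.m ∧ τ.ρ i ≤ s) ↔
      s < τ.ρ ⟨s % τ.m, Nat.mod_lt _ hG.1⟩ := by
  constructor
  · intro h
    by_contra h'
    exact h ⟨⟨s % τ.m, Nat.mod_lt _ hG.1⟩, rfl, not_lt.1 h'⟩
  · rintro h ⟨i, hi, hle⟩
    have hi' : i = ⟨s % τ.m, Nat.mod_lt _ hG.1⟩ := Fin.ext hi
    subst hi'
    omega

/-- The gaps `≤ t` of a type. -/
def gapsLE (τ : WType) (t : ℕ) : Finset ℕ :=
  (Finset.range (t + 1)).filter fun s => ¬ ∃ i : Fin τ.m, (i : ℕ) = s % τ.m ∧ τ.ρ i ≤ s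

theorem nongaps_add_gapsLE (τ : WType) (t : ℕ) :
    τ.nongaps t + (gapsLE τ t).card = t + 1 := by
  unfold WType.nongaps gapsLE
  rw [Finset.card_filter_add_card_filter_not, Finset.card_range]

/-- A parametrisation of all gaps: `(i, q)` with `q < ρ i / m` stands for the gap `i + m q`. -/
def gapIdx (τ : WType) : Finset (Σ _ : Fin τ.m, ℕ) :=
  Finset.univ.sigma fun i => Finset.range (τ.ρ i / τ.m)

theorem card_gapIdx (τ : WType) : (gapIdx τ).card = τ.genus := by
  unfold gapIdx WType.genus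
  rw [Finset.card_sigma]
  simp

theorem gapsLE_card_le (τ : WType) (hG : τ.Good) (t : ℕ) : (gapsLE τ t).card ≤ τ.genus := by
  rw [← card_gapIdx]
  have hm := hG.1
  refine Finset.card_le_card_of_injOn (fun s => ⟨⟨s % τ.m, Nat.mod_lt _ hm⟩, s / τ.m⟩) ?_ ?_
  · intro s hs
    have hs' := (Finset.mem_filter.1 hs).2
    rw [good_gap_iff τ hG] at hs'
    simp only [gapIdx, Finset.coe_sigma, Finset.coe_univ, Finset.coe_range, Set.mem_sigma_iff,
      Set.mem_univ, Set.mem_Iio, true_and]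
    have h1 := (hG.2 ⟨s % τ.m, Nat.mod_lt _ hm⟩).1
    have h2 := Nat.div_add_mod (τ.ρ ⟨s % τ.m, Nat.mod_lt _ hm⟩) τ.m
    have h3 := Nat.div_add_mod s τ.m
    simp only at h1
    rw [h1] at h2
    by_contra hlt
    have hlt' := not_lt.1 hlt
    have := Nat.mul_le_mul_left τ.m hlt'
    omega
  · intro s _ s' _ h
    simp only [Sigma.mk.injEq, Fin.mk.injEq, heq_eq_eq] at h
    have h3 := Nat.div_add_mod s τ.m
    have h4 := Nat.div_add_mod s' τ.m
    rw [h.1, h.2] at h3
    omega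

theorem genus_le_gapsLE_card (τ : WType) (hG : τ.Good) (t : ℕ)
    (ht : ∀ i, τ.ρ i ≤ t + τ.m) : τ.genus ≤ (gapsLE τ t).card := by
  rw [← card_gapIdx]
  have hm := hG.1
  refine Finset.card_le_card_of_injOn (fun x => (x.1 : ℕ) + τ.m * x.2) ?_ ?_
  · rintro ⟨i, q⟩ hx
    simp only [gapIdx, Finset.coe_sigma, Finset.coe_univ, Finset.coe_range, Set.mem_sigma_iff,
      Set.mem_univ, Set.mem_Iio, true_and] at hx
    have h1 := (hG.2 i).1
    have h2 := Nat.div_add_mod (τ.ρ i) τ.m
    rw [h1] at h2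
    have h5 : τ.m * (q + 1) ≤ τ.m * (τ.ρ i / τ.m) := Nat.mul_le_mul_left _ hx
    have hmod : ((i : ℕ) + τ.m * q) % τ.m = i := by
      rw [Nat.add_mul_mod_self_left, Nat.mod_eq_of_lt i.2]
    have hlt : (i : ℕ) + τ.m * q + τ.m ≤ τ.ρ i := by
      rw [Nat.mul_add, Nat.mul_one] at h5
      omega
    have hti := ht i
    rw [Finset.mem_coe]
    simp only [gapsLE, Finset.mem_filter, Finset.mem_range]
    refine ⟨by omega, ?_⟩
    rintro ⟨i', hi', hle⟩
    rw [hmod] at hi'
    have hii : i' = i := Fin.ext hi'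
    subst hii
    omega
  · rintro ⟨i, q⟩ _ ⟨i', q'⟩ _ h
    simp only at h
    have e1 : ((i : ℕ) + τ.m * q) % τ.m = i := by
      rw [Nat.add_mul_mod_self_left, Nat.mod_eq_of_lt i.2]
    have e2 : ((i' : ℕ) + τ.m * q') % τ.m = i' := by
      rw [Nat.add_mul_mod_self_left, Nat.mod_eq_of_lt i'.2]
    have hii : (i : ℕ) = i' := by rw [← e1, ← e2, h]
    have hi : i = i' := Fin.ext hii
    subst hi
    have hq : τ.m * q = τ.m * q' := by omega
    have hq' : q = q' := Nat.eq_of_mul_eq_mul_left hm hq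
    subst hq'
    rfl

/-- **W1a-1, combinatorics**: `#nongaps ≤ t` is `≥ t + 1 - g`, with equality for large `t`. -/
theorem stmt_Nongaps : Stmt_Nongaps := by
  intro τ hG
  refine ⟨fun t => ?_, fun t ht => ?_⟩
  · have h1 := nongaps_add_gapsLE τ t
    have h2 := gapsLE_card_le τ hG t
    omega
  · have h1 := nongaps_add_gapsLE τ t
    have h2 := gapsLE_card_le τ hG t
    have h3 := genus_le_gapsLE_card τ hG t ht
    omega


/-! ## The weight of a component -/

section Weight

variable {τ : WType} {K : Type u} [Field K]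

open scoped Classical in
/-- The weight `m deg p + ρ k` of the component `p ω_k` (`⊥` for `p = 0`). -/
def cw (τ : WType) (k : Fin τ.m) (p : K[X]) : WithBot ℕ :=
  if p = 0 then (⊥ : WithBot ℕ) else ((τ.m * p.natDegree + τ.ρ k : ℕ) : WithBot ℕ)

theorem wt_eq_sup (T : Tab τ K) (a : Elt τ K) :
    T.wt a = Finset.univ.sup fun i : Fin τ.m => cw τ i (a i) := rfl

theorem cw_zero (k : Fin τ.m) : cw τ k (0 : K[X]) = ⊥ := if_pos rfl

theorem cw_of_ne (k : Fin τ.m) {p : K[X]} (hp : p ≠ 0) :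
    cw τ k p = ((τ.m * p.natDegree + τ.ρ k : ℕ) : WithBot ℕ) := if_neg hp

theorem cw_eq_bot_iff (k : Fin τ.m) (p : K[X]) : cw τ k p = ⊥ ↔ p = 0 := by
  constructor
  · intro h
    by_contra hp
    rw [cw_of_ne k hp] at h
    exact WithBot.coe_ne_bot h
  · rintro rfl
    exact cw_zero k

theorem cw_le_coe_iff (k : Fin τ.m) (p : K[X]) (W : ℕ) :
    cw τ k p ≤ (W : WithBot ℕ) ↔ (p ≠ 0 → τ.m * p.natDegree + τ.ρ k ≤ W) := by
  by_cases hp : p = 0
  · subst hp
    simp [cw_zero]
  · rw [cw_of_ne k hp]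
    exact ⟨fun h _ => WithBot.coe_le_coe.1 h, fun h => WithBot.coe_le_coe.2 (h hp)⟩

theorem cw_lt_coe_iff (k : Fin τ.m) (p : K[X]) (W : ℕ) :
    cw τ k p < (W : WithBot ℕ) ↔ (p ≠ 0 → τ.m * p.natDegree + τ.ρ k < W) := by
  by_cases hp : p = 0
  · subst hp
    simp [cw_zero]
  · rw [cw_of_ne k hp]
    exact ⟨fun h _ => WithBot.coe_lt_coe.1 h, fun h => WithBot.coe_lt_coe.2 (h hp)⟩

theorem cw_add_le (k : Fin τ.m) (p q : K[X]) :
    cw τ k (p + q) ≤ max (cw τ k p) (cw τ k q) := by
  by_cases hp0 : p = 0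
  · subst hp0
    rw [zero_add]
    exact le_max_right _ _
  by_cases hq0 : q = 0
  · subst hq0
    rw [add_zero]
    exact le_max_left _ _
  by_cases hpq : p + q = 0
  · rw [hpq, cw_zero]
    exact bot_le
  rw [cw_of_ne k hp0, cw_of_ne k hq0, cw_of_ne k hpq]
  have := Polynomial.natDegree_add_le p q
  rcases le_max_iff.1 this with h | h
  · exact le_max_of_le_left
      (WithBot.coe_le_coe.2 (Nat.add_le_add_right (Nat.mul_le_mul_left _ h) _))
  · exact le_max_of_le_right
      (WithBot.coe_le_coe.2 (Nat.add_le_add_right (Nat.mul_le_mul_left _ h) _))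

theorem cw_neg (k : Fin τ.m) (p : K[X]) : cw τ k (-p) = cw τ k p := by
  by_cases hp : p = 0
  · subst hp
    rw [neg_zero]
  · rw [cw_of_ne k hp, cw_of_ne k (neg_ne_zero.2 hp), Polynomial.natDegree_neg]

theorem cw_sub_le (k : Fin τ.m) (p q : K[X]) :
    cw τ k (p - q) ≤ max (cw τ k p) (cw τ k q) := by
  have h := cw_add_le k p (-q)
  rwa [cw_neg, ← sub_eq_add_neg] at h

theorem cw_sum_le {ι : Type*} (k : Fin τ.m) (s : Finset ι) (f : ι → K[X]) :
    cw τ k (∑ x ∈ s, f x) ≤ s.sup fun x => cw τ k (f x) := by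
  classical
  induction s using Finset.induction_on with
  | empty => simp [cw_zero]
  | insert x s hx ih =>
    rw [Finset.sum_insert hx, Finset.sup_insert]
    exact le_trans (cw_add_le k _ _) (max_le_max le_rfl ih)

theorem cw_C_mul (k : Fin τ.m) {c : K} (hc : c ≠ 0) (p : K[X]) :
    cw τ k (C c * p) = cw τ k p := by
  by_cases hp : p = 0
  · subst hp
    rw [mul_zero]
  · have h : C c * p ≠ 0 := mul_ne_zero (fun h => hc (Polynomial.C_eq_zero.1 h)) hp
    rw [cw_of_ne k h, cw_of_ne k hp, Polynomial.natDegree_C_mul hc]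

/-- Monomial weights are pairwise distinct. -/
theorem good_inj (hG : τ.Good) {i j : Fin τ.m} {e f : ℕ}
    (h : τ.m * e + τ.ρ i = τ.m * f + τ.ρ j) : i = j ∧ e = f := by
  have hi := (hG.2 i).1
  have hj := (hG.2 j).1
  have h1 : (τ.m * e + τ.ρ i) % τ.m = (τ.m * f + τ.ρ j) % τ.m := by rw [h]
  rw [Nat.mul_add_mod, Nat.mul_add_mod, hi, hj] at h1
  have hij : i = j := Fin.ext h1
  subst hij
  refine ⟨rfl, ?_⟩
  have h2 : τ.m * e = τ.m * f := by omega
  exact Nat.eq_of_mul_eq_mul_left hG.1 h2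

/-! ## Products with a structure constant -/

theorem natDegree_mul_c (T : Tab τ K) (hT : T.PreValid) (i j k : Fin τ.m) (p q : K[X])
    (h : p * q * T.c i j k ≠ 0) :
    p ≠ 0 ∧ q ≠ 0 ∧ τ.m * (p * q * T.c i j k).natDegree + τ.ρ k ≤
      (τ.m * p.natDegree + τ.ρ i) + (τ.m * q.natDegree + τ.ρ j) := by
  have hp0 : p ≠ 0 := by
    rintro rfl
    simp at h
  have hq0 : q ≠ 0 := by
    rintro rfl
    simp at h
  have hc0 : T.c i j k ≠ 0 := by
    intro h0
    rw [h0] at h
    simp at h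
  refine ⟨hp0, hq0, ?_⟩
  rw [Polynomial.natDegree_mul (mul_ne_zero hp0 hq0) hc0, Polynomial.natDegree_mul hp0 hq0]
  have h3 := hT.wt i j k hc0
  have h4 : τ.m * (p.natDegree + q.natDegree + (T.c i j k).natDegree) =
      τ.m * p.natDegree + τ.m * q.natDegree + τ.m * (T.c i j k).natDegree := by ring
  omega

theorem natDegree_mul_c_lead (T : Tab τ K) (hT : T.PreValid) (i j k : Fin τ.m)
    (hk : ((i : ℕ) + j) % τ.m = k) (p q : K[X]) (hp : p ≠ 0) (hq : q ≠ 0) :
    p * q * T.c i j k ≠ 0 ∧ τ.m * (p * q * T.c i j k).natDegree + τ.ρ k =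
      (τ.m * p.natDegree + τ.ρ i) + (τ.m * q.natDegree + τ.ρ j) := by
  obtain ⟨hc0, h3⟩ := hT.lead i j k hk
  refine ⟨mul_ne_zero (mul_ne_zero hp hq) hc0, ?_⟩
  rw [Polynomial.natDegree_mul (mul_ne_zero hp hq) hc0, Polynomial.natDegree_mul hp hq]
  have h4 : τ.m * (p.natDegree + q.natDegree + (T.c i j k).natDegree) =
      τ.m * p.natDegree + τ.m * q.natDegree + τ.m * (T.c i j k).natDegree := by ring
  omega

/-! ## The leading component of an element -/

/-- `i` is a leading component of `a`: `a i ≠ 0` and `m deg (a i) + ρ i` is maximal. -/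
def IsLead (a : Elt τ K) (i : Fin τ.m) : Prop :=
  a i ≠ 0 ∧ ∀ j, a j ≠ 0 →
    τ.m * (a j).natDegree + τ.ρ j ≤ τ.m * (a i).natDegree + τ.ρ i

theorem IsLead.wt_eq (T : Tab τ K) {a : Elt τ K} {i : Fin τ.m} (h : IsLead a i) :
    T.wt a = ((τ.m * (a i).natDegree + τ.ρ i : ℕ) : WithBot ℕ) := by
  apply le_antisymm
  · rw [wt_eq_sup, Finset.sup_le_iff]
    intro j _
    rw [cw_le_coe_iff]
    exact h.2 j
  · rw [← cw_of_ne i h.1]
    exact Finset.le_sup (f := fun i => cw τ i (a i)) (Finset.mem_univ i)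

theorem IsLead.eq_of_weight (hG : τ.Good) {a : Elt τ K} {i j : Fin τ.m} (_h : IsLead a i)
    (hj : τ.m * (a j).natDegree + τ.ρ j = τ.m * (a i).natDegree + τ.ρ i) : j = i :=
  (good_inj hG hj).1

theorem IsLead.lt_of_ne (hG : τ.Good) {a : Elt τ K} {i j : Fin τ.m} (h : IsLead a i)
    (hji : j ≠ i) (hj : a j ≠ 0) :
    τ.m * (a j).natDegree + τ.ρ j < τ.m * (a i).natDegree + τ.ρ i :=
  lt_of_le_of_ne (h.2 j hj) fun e => hji (h.eq_of_weight hG e)

theorem IsLead.unique (hG : τ.Good) {a : Elt τ K} {i j : Fin τ.m} (hi : IsLead a i)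
    (hj : IsLead a j) : i = j :=
  hj.eq_of_weight hG (le_antisymm (hj.2 i hi.1) (hi.2 j hj.1))

theorem exists_lead (hG : τ.Good) {a : Elt τ K} (ha : a ≠ 0) : ∃ i : Fin τ.m, IsLead a i := by
  have hne : (Finset.univ : Finset (Fin τ.m)).Nonempty := ⟨⟨0, hG.1⟩, Finset.mem_univ _⟩
  obtain ⟨i, -, hi⟩ := Finset.exists_mem_eq_sup Finset.univ hne (fun i => cw τ i (a i))
  have hai : a i ≠ 0 := by
    intro h0
    rw [h0, cw_zero] at hi
    apply ha
    funext j
    exact (cw_eq_bot_iff j _).1 ((Finset.sup_eq_bot_iff _ _).1 hi j (Finset.mem_univ _))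
  refine ⟨i, hai, fun j hj => ?_⟩
  have hle : cw τ j (a j) ≤ cw τ i (a i) := by
    rw [← hi]
    exact Finset.le_sup (f := fun i => cw τ i (a i)) (Finset.mem_univ j)
  rw [cw_of_ne j hj, cw_of_ne i hai] at hle
  exact WithBot.coe_le_coe.1 hle

/-! ## Basic properties of the weight -/

theorem wtLE_iff (T : Tab τ K) (a : Elt τ K) (t : ℕ) :
    wtLE a t ↔ T.wt a ≤ (t : WithBot ℕ) := by
  rw [wt_eq_sup, Finset.sup_le_iff]
  constructor
  · intro h i _
    rw [cw_le_coe_iff]
    exact h i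
  · intro h i
    have := h i (Finset.mem_univ _)
    rwa [cw_le_coe_iff] at this

theorem wt_eq_bot_iff (T : Tab τ K) (a : Elt τ K) : T.wt a = ⊥ ↔ a = 0 := by
  rw [wt_eq_sup, Finset.sup_eq_bot_iff]
  constructor
  · intro h
    funext i
    exact (cw_eq_bot_iff i _).1 (h i (Finset.mem_univ _))
  · rintro rfl i _
    exact cw_zero i

theorem wt_zero (T : Tab τ K) : T.wt (0 : Elt τ K) = ⊥ := (wt_eq_bot_iff T 0).2 rfl

theorem wt_add_le (T : Tab τ K) (a b : Elt τ K) :
    T.wt (a + b) ≤ max (T.wt a) (T.wt b) := by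
  rw [wt_eq_sup, Finset.sup_le_iff]
  intro i _
  refine le_trans (cw_add_le i _ _) (max_le_max ?_ ?_)
  · exact Finset.le_sup (f := fun i => cw τ i (a i)) (Finset.mem_univ i)
  · exact Finset.le_sup (f := fun i => cw τ i (b i)) (Finset.mem_univ i)

theorem wt_C_mul (T : Tab τ K) {c : K} (hc : c ≠ 0) (a : Elt τ K) :
    T.wt (fun i => C c * a i) = T.wt a := by
  rw [wt_eq_sup, wt_eq_sup]
  exact Finset.sup_congr rfl fun i _ => cw_C_mul i hc _

/-- Two elements of the same weight: a `K`-multiple of the second cancels the leading term of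
the first (with the explicit constant: the quotient of the leading coefficients). -/
theorem exists_sub_lt (hG : τ.Good) (T : Tab τ K) (a b : Elt τ K) (ha : a ≠ 0)
    (hab : T.wt a = T.wt b) :
    ∃ c : K, c ≠ 0 ∧ T.wt (fun i => a i - C c * b i) < T.wt a := by
  have hb : b ≠ 0 := by
    rintro rfl
    rw [wt_zero] at hab
    exact ha ((wt_eq_bot_iff T a).1 hab)
  obtain ⟨i, hla⟩ := exists_lead hG ha
  obtain ⟨j, hlb⟩ := exists_lead hG hb
  have hwa := hla.wt_eq T
  have hwb := hlb.wt_eq T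
  have hW : τ.m * (a i).natDegree + τ.ρ i = τ.m * (b j).natDegree + τ.ρ j := by
    rw [hwa, hwb] at hab
    exact WithBot.coe_injective hab
  obtain ⟨hij, hdeg⟩ := good_inj hG hW
  subst hij
  have hai := hla.1
  have hbi := hlb.1
  have hc0 : (a i).leadingCoeff / (b i).leadingCoeff ≠ 0 :=
    div_ne_zero (leadingCoeff_ne_zero.2 hai) (leadingCoeff_ne_zero.2 hbi)
  refine ⟨(a i).leadingCoeff / (b i).leadingCoeff, hc0, ?_⟩
  rw [hwa, wt_eq_sup, Finset.sup_lt_iff (WithBot.bot_lt_coe _)]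
  intro k _
  rw [cw_lt_coe_iff]
  intro hk
  by_cases hki : k = i
  · subst hki
    have hdeg' : (a k - C ((a k).leadingCoeff / (b k).leadingCoeff) * b k).degree
        < (a k).degree := by
      apply Polynomial.degree_sub_lt_left
      · rw [Polynomial.degree_C_mul hc0, degree_eq_natDegree hai, degree_eq_natDegree hbi, hdeg]
      · exact hai
      · rw [Polynomial.leadingCoeff_mul, Polynomial.leadingCoeff_C,
          div_mul_cancel₀ _ (leadingCoeff_ne_zero.2 hbi)]
    have hnat : (a k - C ((a k).leadingCoeff / (b k).leadingCoeff) * b k).natDegree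
        < (a k).natDegree := Polynomial.natDegree_lt_natDegree hk hdeg'
    have := Nat.mul_lt_mul_of_pos_left hnat hG.1
    omega
  · have h1 : cw τ k (a k) < ((τ.m * (a i).natDegree + τ.ρ i : ℕ) : WithBot ℕ) := by
      rw [cw_lt_coe_iff]
      exact fun h => hla.lt_of_ne hG hki h
    have h2 : cw τ k (C ((a i).leadingCoeff / (b i).leadingCoeff) * b k)
        < ((τ.m * (a i).natDegree + τ.ρ i : ℕ) : WithBot ℕ) := by
      rw [cw_C_mul k hc0, cw_lt_coe_iff, hW]
      exact fun h => hlb.lt_of_ne hG hki h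
    have h4 := lt_of_le_of_lt (cw_sub_le k (a k) _) (max_lt h1 h2)
    rw [cw_lt_coe_iff] at h4
    exact h4 hk


/-! ## The weight is multiplicative -/

/-- The leading component of a product: index `(i + j) % m`, degree
`deg (a i) + deg (b j) + deg (c i j k)`, leading coefficient the product of the three leading
coefficients, and the weight is the sum of the weights. -/
theorem IsLead.mul (T : Tab τ K) (hT : T.PreValid) {a b : Elt τ K} {i j : Fin τ.m}
    (hla : IsLead a i) (hlb : IsLead b j) (k : Fin τ.m) (hk : ((i : ℕ) + j) % τ.m = k) :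
    IsLead (T.mul a b) k ∧
      (T.mul a b k).natDegree = (a i).natDegree + (b j).natDegree + (T.c i j k).natDegree ∧
      (T.mul a b k).leadingCoeff
        = (a i).leadingCoeff * (b j).leadingCoeff * (T.c i j k).leadingCoeff ∧
      τ.m * (T.mul a b k).natDegree + τ.ρ k
        = (τ.m * (a i).natDegree + τ.ρ i) + (τ.m * (b j).natDegree + τ.ρ j) := by
  have hG := hT.good
  have hai := hla.1
  have hbj := hlb.1
  obtain ⟨hmain0, hmain⟩ := natDegree_mul_c_lead T hT i j k hk (a i) (b j) hai hbj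
  obtain ⟨hc0, -⟩ := hT.lead i j k hk
  -- split off the main term
  have hsplit : T.mul a b k = a i * b j * T.c i j k +
      ∑ x ∈ (Finset.univ ×ˢ Finset.univ : Finset (Fin τ.m × Fin τ.m)).erase (i, j),
        a x.1 * b x.2 * T.c x.1 x.2 k := by
    have hmem : (i, j) ∈ (Finset.univ ×ˢ Finset.univ : Finset (Fin τ.m × Fin τ.m)) :=
      Finset.mem_product.2 ⟨Finset.mem_univ _, Finset.mem_univ _⟩
    have h := Finset.add_sum_erase (Finset.univ ×ˢ Finset.univ : Finset (Fin τ.m × Fin τ.m))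
      (fun x : Fin τ.m × Fin τ.m => a x.1 * b x.2 * T.c x.1 x.2 k) hmem
    rw [Tab.mul_apply, ← Finset.sum_product']
    exact h.symm
  have hrest : cw τ k (∑ x ∈ (Finset.univ ×ˢ Finset.univ : Finset (Fin τ.m × Fin τ.m)).erase
      (i, j), a x.1 * b x.2 * T.c x.1 x.2 k) <
      (((τ.m * (a i).natDegree + τ.ρ i) + (τ.m * (b j).natDegree + τ.ρ j) : ℕ) : WithBot ℕ) := by
    refine lt_of_le_of_lt (cw_sum_le k _ _) ?_
    rw [Finset.sup_lt_iff (WithBot.bot_lt_coe _)]
    intro x hx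
    rw [cw_lt_coe_iff]
    intro h
    obtain ⟨hp, hq, hle⟩ := natDegree_mul_c T hT x.1 x.2 k (a x.1) (b x.2) h
    have h1 := hla.2 x.1 hp
    have h2 := hlb.2 x.2 hq
    have hne : x ≠ (i, j) := Finset.ne_of_mem_erase hx
    by_contra hcon
    have e1 : τ.m * (a x.1).natDegree + τ.ρ x.1 = τ.m * (a i).natDegree + τ.ρ i := by omega
    have e2 : τ.m * (b x.2).natDegree + τ.ρ x.2 = τ.m * (b j).natDegree + τ.ρ j := by omega
    exact hne (Prod.ext (hla.eq_of_weight hG e1) (hlb.eq_of_weight hG e2))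
  have hdeg : (∑ x ∈ (Finset.univ ×ˢ Finset.univ : Finset (Fin τ.m × Fin τ.m)).erase (i, j),
      a x.1 * b x.2 * T.c x.1 x.2 k).degree < (a i * b j * T.c i j k).degree := by
    by_cases hr : (∑ x ∈ (Finset.univ ×ˢ Finset.univ : Finset (Fin τ.m × Fin τ.m)).erase (i, j),
      a x.1 * b x.2 * T.c x.1 x.2 k) = 0
    · rw [hr, degree_zero]
      exact bot_lt_iff_ne_bot.2 (degree_ne_bot.2 hmain0)
    · rw [cw_lt_coe_iff] at hrest
      have h1 := hrest hr
      rw [degree_eq_natDegree hr, degree_eq_natDegree hmain0]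
      have h2 : (∑ x ∈ (Finset.univ ×ˢ Finset.univ : Finset (Fin τ.m × Fin τ.m)).erase (i, j),
          a x.1 * b x.2 * T.c x.1 x.2 k).natDegree < (a i * b j * T.c i j k).natDegree := by
        by_contra hcon
        have h3 := Nat.mul_le_mul_left τ.m (not_lt.1 hcon)
        omega
      exact_mod_cast h2
  have hdegeq : (T.mul a b k).degree = (a i * b j * T.c i j k).degree := by
    rw [hsplit]
    exact degree_add_eq_left_of_degree_lt hdeg
  have hne0 : T.mul a b k ≠ 0 := by
    intro h0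
    rw [h0, degree_zero] at hdegeq
    exact degree_ne_bot.2 hmain0 hdegeq.symm
  have hnat : (T.mul a b k).natDegree = (a i * b j * T.c i j k).natDegree :=
    natDegree_eq_of_degree_eq hdegeq
  have hlc : (T.mul a b k).leadingCoeff = (a i * b j * T.c i j k).leadingCoeff := by
    rw [hsplit]
    exact leadingCoeff_add_of_degree_lt' hdeg
  refine ⟨⟨hne0, ?_⟩, ?_, ?_, ?_⟩
  · intro k' hk'
    rw [hnat, hmain]
    -- every term of the `k'` component has weight at most the sum
    have hle : cw τ k' (T.mul a b k') ≤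
        (((τ.m * (a i).natDegree + τ.ρ i) + (τ.m * (b j).natDegree + τ.ρ j) : ℕ) : WithBot ℕ) := by
      rw [Tab.mul_apply]
      refine le_trans (cw_sum_le k' _ _) (Finset.sup_le fun i' _ =>
        le_trans (cw_sum_le k' _ _) (Finset.sup_le fun j' _ => ?_))
      rw [cw_le_coe_iff]
      intro h
      obtain ⟨hp, hq, hle⟩ := natDegree_mul_c T hT i' j' k' (a i') (b j') h
      have h1 := hla.2 i' hp
      have h2 := hlb.2 j' hq
      omega
    rw [cw_le_coe_iff] at hle
    exact hle hk'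
  · rw [hnat, Polynomial.natDegree_mul (mul_ne_zero hai hbj) hc0, Polynomial.natDegree_mul hai hbj]
  · rw [hlc, Polynomial.leadingCoeff_mul, Polynomial.leadingCoeff_mul]
  · rw [hnat, hmain]

/-- **The weight is multiplicative** (tuple form). -/
theorem wt_mul (T : Tab τ K) (hT : T.PreValid) (a b : Elt τ K) :
    T.wt (T.mul a b) = T.wt a + T.wt b := by
  have hG := hT.good
  by_cases ha : a = 0
  · subst ha
    rw [Tab.zero_mul', wt_zero, WithBot.bot_add]
  by_cases hb : b = 0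
  · subst hb
    rw [Tab.mul_zero', wt_zero, WithBot.add_bot]
  obtain ⟨i, hla⟩ := exists_lead hG ha
  obtain ⟨j, hlb⟩ := exists_lead hG hb
  obtain ⟨hl, -, -, hw⟩ := hla.mul T hT hlb ⟨((i : ℕ) + j) % τ.m, Nat.mod_lt _ hG.1⟩ rfl
  rw [hl.wt_eq T, hla.wt_eq T, hlb.wt_eq T, hw]
  exact Nat.cast_add _ _

theorem mul_ne_zero' (T : Tab τ K) (hT : T.PreValid) {a b : Elt τ K} (ha : a ≠ 0) (hb : b ≠ 0) :
    T.mul a b ≠ 0 := by
  intro h
  have h1 := wt_mul T hT a b
  rw [h, wt_zero] at h1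
  rcases WithBot.add_eq_bot.1 h1.symm with h2 | h2
  · exact ha ((wt_eq_bot_iff T a).1 h2)
  · exact hb ((wt_eq_bot_iff T b).1 h2)

end Weight

/-! ## The statements of W1a-1 -/

section Statements

variable {τ : WType} {K : Type u} [Field K]

/-- `K` acts on the algebra coefficientwise. -/
theorem toElt_smul_K (T : Tab τ K) [Fact T.PreValid] (c : K) (a : T.Alg) :
    (c • a).toElt = fun i => C c * a.toElt i := rfl

/-- **W1a-2**. -/
theorem stmt_WtBasic : Stmt_WtBasic.{u} := by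
  intro K _ τ T hT
  have hG := hT.out.good
  refine ⟨fun a t => wtLE_iff T a.toElt t, fun a => wt_eq_bot_iff T a.toElt,
    fun a b => wt_add_le T a.toElt b.toElt, fun c a hc => ?_, fun a b ha hab => ?_⟩
  · rw [toElt_smul_K]
    exact wt_C_mul T hc a.toElt
  · obtain ⟨c, hc, hlt⟩ := exists_sub_lt hG T a.toElt b.toElt ha hab
    exact ⟨c, hc, hlt⟩

/-- **W1a-1**: the weight is multiplicative. -/
theorem stmt_WtMul : Stmt_WtMul.{u} := by
  intro K _ τ T hT a b
  exact wt_mul T hT.out a.toElt b.toElt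

/-- **W1a**: the algebra of a table is a domain. -/
theorem stmt_Domain : Stmt_Domain.{u} := by
  intro K _ τ T hT
  have hG := hT.out.good
  have : Nontrivial T.Alg := by
    refine ⟨⟨1, 0, fun h => ?_⟩⟩
    have h1 := congrFun (congrArg Tab.Alg.toElt h) ⟨0, hG.1⟩
    rw [Tab.Alg.toElt_one] at h1
    simp [Elt.one] at h1
  have : NoZeroDivisors T.Alg := by
    refine ⟨fun {a b} hab => ?_⟩
    by_contra hcon
    rw [not_or] at hcon
    exact mul_ne_zero' T hT.out (a := a.toElt) (b := b.toElt) hcon.1 hcon.2 hab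
  exact NoZeroDivisors.to_isDomain _

end Statements

end Fermat.Agent.S27.helper4272

end
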