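import Fermat.Agent.S27.helper3351_WSpec

/-!
# S27, algebraic route, leaf W1b-2 (helper4551, backup of board row 1191)

`Stmt_OrdGE` and `Stmt_RegularAt` of `helper3351_WSpec`, verbatim:

* `Tab.OrdGE x₀ ψ h j ↔ h ∈ 𝔪 ^ j`,
* `Tab.RegularAt x₀ ψ ↔ ∃ π ∈ 𝔪, 𝔪 = span {π} ⊔ 𝔪 ^ 2`,

where `𝔪 = Tab.ptIdeal T x₀ ψ` is the ideal generated by `x - x₀` and the `ω_j - ψ j`.
Both equivalences hold for every pair `(x₀, ψ)` (the point hypothesis is not used).
-/

set_option autoImplicit false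

noncomputable section

open Polynomial

namespace Fermat.Agent.S27.helper4551

open Fermat.Agent.S27.helper3351

universe u

variable {K : Type u} [Field K] {τ : WType} {T : Tab τ K} [Fact T.PreValid]

/-- The generators of the ideal of a point, as elements of the algebra. -/
def gen (T : Tab τ K) (x₀ : K) (ψ : Fin τ.m → K) (a : Option (Fin τ.m)) : T.Alg :=
  Tab.Alg.ofElt T (genElt x₀ ψ a)

theorem gen_mem (x₀ : K) (ψ : Fin τ.m → K) (a : Option (Fin τ.m)) :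
    gen T x₀ ψ a ∈ T.ptIdeal x₀ ψ :=
  Ideal.subset_span ⟨a, rfl⟩

theorem ptIdeal_eq_span (x₀ : K) (ψ : Fin τ.m → K) :
    T.ptIdeal x₀ ψ = Ideal.span (Set.range (gen T x₀ ψ)) := rfl

theorem toElt_sum {ι : Type*} (s : Finset ι) (f : ι → T.Alg) :
    (∑ x ∈ s, f x).toElt = ∑ x ∈ s, (f x).toElt := rfl

theorem toElt_smul_apply (r : K[X]) (c : T.Alg) (i : Fin τ.m) :
    (r • c).toElt i = r * c.toElt i := rfl

/-- `x - x₀` as an element of the algebra is the generator indexed by `none`. -/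
theorem gen_none (x₀ : K) (ψ : Fin τ.m → K) :
    gen T x₀ ψ none = algebraMap K[X] T.Alg (X - C x₀) := by
  rw [Tab.Alg.algebraMap_poly_apply]
  apply Tab.Alg.ext
  intro i
  rw [toElt_smul_apply, Tab.Alg.toElt_one]
  simp only [gen, Tab.Alg.toElt_ofElt, genElt, Elt.one]
  split_ifs <;> simp

/-- The generator indexed by `some j` is `ω_j - ψ j`. -/
theorem gen_some (x₀ : K) (ψ : Fin τ.m → K) (j : Fin τ.m) :
    gen T x₀ ψ (some j) = Tab.Alg.ω T j - C (ψ j) • (1 : T.Alg) := by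
  apply Tab.Alg.ext
  intro i
  rw [Tab.Alg.toElt_sub, Pi.sub_apply, toElt_smul_apply, Tab.Alg.toElt_one]
  simp only [gen, Tab.Alg.toElt_ofElt, genElt, Elt.one, Tab.Alg.ω, Elt.e]
  split_ifs <;> simp

/-- Multiples of `(x - x₀)^j` lie in `𝔪^j`. -/
theorem smul_mem_pow (x₀ : K) (ψ : Fin τ.m → K) (j : ℕ) (c : T.Alg) :
    ((X - C x₀) ^ j : K[X]) • c ∈ (T.ptIdeal x₀ ψ) ^ j := by
  rw [Algebra.smul_def, map_pow, ← gen_none x₀ ψ]
  exact Ideal.mul_mem_right _ _ (Ideal.pow_mem_pow (gen_mem x₀ ψ none) j)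

/-- Componentwise divisibility by `r` is divisibility by `r` in the algebra. -/
theorem forall_dvd_iff (r : K[X]) (d : T.Alg) :
    (∀ i, r ∣ d.toElt i) ↔ ∃ c : T.Alg, d = r • c := by
  constructor
  · intro h
    choose c hc using h
    refine ⟨Tab.Alg.ofElt T c, ?_⟩
    apply Tab.Alg.ext
    intro i
    rw [toElt_smul_apply, Tab.Alg.toElt_ofElt]
    exact hc i
  · rintro ⟨c, rfl⟩ i
    exact ⟨c.toElt i, rfl⟩

/-- The left-fold product of the Spec is the product of the algebra. -/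
theorem ofElt_lprod (l : List (Elt τ K)) :
    Tab.Alg.ofElt T (T.lprod l) = (l.map (Tab.Alg.ofElt T)).prod := by
  rw [List.prod_eq_foldl]
  have key : ∀ (l : List (Elt τ K)) (acc : Elt τ K),
      Tab.Alg.ofElt T (l.foldl T.mul acc)
        = (l.map (Tab.Alg.ofElt T)).foldl (· * ·) (Tab.Alg.ofElt T acc) := by
    intro l
    induction l with
    | nil => intro acc; rfl
    | cons a l ih =>
      intro acc
      rw [List.foldl_cons, List.map_cons, List.foldl_cons, ih]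
      rfl
  exact key l Elt.one

theorem ofElt_prodGen (x₀ : K) (ψ : Fin τ.m → K) {j : ℕ} (a : Fin j → Option (Fin τ.m)) :
    Tab.Alg.ofElt T (T.prodGen x₀ ψ a) = ∏ s, gen T x₀ ψ (a s) := by
  unfold Tab.prodGen
  rw [ofElt_lprod, List.map_ofFn, List.prod_ofFn]
  rfl

theorem prodGen_mem_pow (x₀ : K) (ψ : Fin τ.m → K) {j : ℕ} (a : Fin j → Option (Fin τ.m)) :
    Tab.Alg.ofElt T (T.prodGen x₀ ψ a) ∈ (T.ptIdeal x₀ ψ) ^ j := by
  rw [ofElt_prodGen]
  have h := Ideal.prod_mem_prod (s := Finset.univ) (I := fun _ : Fin j => T.ptIdeal x₀ ψ)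
    (x := fun s => gen T x₀ ψ (a s)) (fun s _ => gen_mem x₀ ψ (a s))
  simpa using h

/-- A polynomial of degree `≤ d` is `polyOf` of its coefficient tuple. -/
theorem polyOf_coeff (d : ℕ) (r : K[X]) (hr : r.natDegree ≤ d) :
    polyOf (fun e : Fin (d + 1) => r.coeff (e : ℕ)) = r := by
  unfold polyOf
  rw [Fin.sum_univ_eq_sum_range (fun e => C (r.coeff e) * X ^ e) (d + 1)]
  conv_rhs => rw [r.as_sum_range' (d + 1) (Nat.lt_succ_of_le hr)]
  exact Finset.sum_congr rfl fun e _ => C_mul_X_pow_eq_monomial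

/-- Division with remainder by `(X - C x₀)^j`, the remainder given by a coefficient tuple. -/
theorem exists_polyOf_add (x₀ : K) (j d : ℕ) (hjd : j ≤ d + 1) (p : K[X]) :
    ∃ (a : Fin (d + 1) → K) (q : K[X]), p = polyOf a + (X - C x₀) ^ j * q := by
  have hg : ((X - C x₀) ^ j : K[X]).Monic := (monic_X_sub_C x₀).pow j
  have hdeg : ((X - C x₀) ^ j : K[X]).natDegree = j := by
    rw [(monic_X_sub_C x₀).natDegree_pow, natDegree_X_sub_C, mul_one]
  refine ⟨fun e => (p %ₘ (X - C x₀) ^ j).coeff (e : ℕ), p /ₘ (X - C x₀) ^ j, ?_⟩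
  rw [polyOf_coeff, modByMonic_add_div]
  rcases Nat.eq_zero_or_pos j with rfl | hj
  · simp
  · have h1 : ((X - C x₀) ^ j : K[X]) ≠ 1 := by
      intro h
      rw [h, natDegree_one] at hdeg
      omega
    have := natDegree_modByMonic_lt p hg h1
    omega

/-- Reduction of an element of the algebra modulo `(x - x₀)^j`. -/
theorem exists_belt_add (x₀ : K) (j d : ℕ) (hjd : j ≤ d + 1) (c : T.Alg) :
    ∃ (b : BElt τ K d) (q : T.Alg),
      c = Tab.Alg.ofElt T b.toElt + ((X - C x₀) ^ j : K[X]) • q := by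
  have h := fun i => exists_polyOf_add x₀ j d hjd (c.toElt i)
  choose a q hq using h
  refine ⟨a, Tab.Alg.ofElt T q, ?_⟩
  apply Tab.Alg.ext
  intro i
  rw [Tab.Alg.toElt_add, Pi.add_apply, toElt_smul_apply, Tab.Alg.toElt_ofElt,
    Tab.Alg.toElt_ofElt]
  exact hq i

/-- `𝔪^j` is generated by the products of `j` generators. -/
theorem pow_le_span (x₀ : K) (ψ : Fin τ.m → K) (j : ℕ) :
    (T.ptIdeal x₀ ψ) ^ j
      ≤ Ideal.span (Set.range fun a : Fin j → Option (Fin τ.m) => ∏ s, gen T x₀ ψ (a s)) := by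
  induction j with
  | zero =>
    have : (1 : T.Alg) ∈ Ideal.span
        (Set.range fun a : Fin 0 → Option (Fin τ.m) => ∏ s, gen T x₀ ψ (a s)) :=
      Ideal.subset_span ⟨fun s => s.elim0, by simp⟩
    rw [(Ideal.eq_top_iff_one _).2 this]
    exact le_top
  | succ j ih =>
    rw [pow_succ]
    refine (Ideal.mul_mono_left ih).trans ?_
    rw [ptIdeal_eq_span, Ideal.span_mul_span']
    apply Ideal.span_mono
    rintro _ ⟨_, ⟨a, rfl⟩, _, ⟨b, rfl⟩, rfl⟩
    refine ⟨Fin.snoc a b, ?_⟩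
    simp only
    rw [Fin.prod_univ_castSucc]
    simp

theorem mem_pow_iff_exists (x₀ : K) (ψ : Fin τ.m → K) (j : ℕ) (h : T.Alg) :
    h ∈ (T.ptIdeal x₀ ψ) ^ j ↔
      ∃ c : (Fin j → Option (Fin τ.m)) → T.Alg,
        h = ∑ a, Tab.Alg.ofElt T (T.prodGen x₀ ψ a) * c a := by
  constructor
  · intro hh
    obtain ⟨c, hc⟩ := (Submodule.mem_span_range_iff_exists_fun _).1 (pow_le_span x₀ ψ j hh)
    refine ⟨c, ?_⟩
    rw [← hc]
    refine Finset.sum_congr rfl fun a _ => ?_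
    rw [ofElt_prodGen, smul_eq_mul, mul_comm]
  · rintro ⟨c, rfl⟩
    exact Ideal.sum_mem _ fun a _ => Ideal.mul_mem_right _ _ (prodGen_mem_pow x₀ ψ a)

/-- **W1b-3** `OrdGE` is membership in the power of the ideal of the point (for every pair
`(x₀, ψ)`). -/
theorem ordGE_iff (x₀ : K) (ψ : Fin τ.m → K) (h : T.Alg) (j : ℕ) :
    T.OrdGE x₀ ψ h.toElt j ↔ h ∈ (T.ptIdeal x₀ ψ) ^ j := by
  constructor
  · rintro ⟨b, hb⟩
    have hs : (∑ a, Tab.Alg.ofElt T (T.prodGen x₀ ψ a) * Tab.Alg.ofElt T (b a).toElt)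
        ∈ (T.ptIdeal x₀ ψ) ^ j :=
      Ideal.sum_mem _ fun a _ => Ideal.mul_mem_right _ _ (prodGen_mem_pow x₀ ψ a)
    obtain ⟨c, hc⟩ := (forall_dvd_iff ((X - C x₀) ^ j)
      (h - ∑ a, Tab.Alg.ofElt T (T.prodGen x₀ ψ a) * Tab.Alg.ofElt T (b a).toElt)).1 hb
    have h2 := smul_mem_pow (T := T) x₀ ψ j c
    rw [← hc] at h2
    have h3 := Ideal.add_mem _ h2 hs
    rwa [sub_add_cancel] at h3
  · intro hh
    obtain ⟨c, hc⟩ := (mem_pow_iff_exists x₀ ψ j h).1 hh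
    have hred := fun a => exists_belt_add (T := T) x₀ j j (Nat.le_succ j) (c a)
    choose b q hq using hred
    refine ⟨b, ?_⟩
    refine (forall_dvd_iff ((X - C x₀) ^ j)
      (h - ∑ a, Tab.Alg.ofElt T (T.prodGen x₀ ψ a) * Tab.Alg.ofElt T (b a).toElt)).2
      ⟨∑ a, Tab.Alg.ofElt T (T.prodGen x₀ ψ a) * q a, ?_⟩
    rw [hc, ← Finset.sum_sub_distrib, Finset.smul_sum]
    refine Finset.sum_congr rfl fun a _ => ?_
    rw [← mul_sub, hq a, add_sub_cancel_left, mul_smul_comm]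

theorem stmt_OrdGE : Stmt_OrdGE.{u} := by
  intro K _ τ T _ x₀ ψ _ h j
  exact ordGE_iff x₀ ψ h j

/-! ### Regularity -/

/-- Every element of the algebra is congruent to a constant modulo `𝔪`. -/
theorem exists_sub_const_mem (x₀ : K) (ψ : Fin τ.m → K) (c : T.Alg) :
    ∃ k : K, c - C k • (1 : T.Alg) ∈ T.ptIdeal x₀ ψ := by
  have hc : c = ∑ i, c.toElt i • Tab.Alg.ω T i := Elt.eq_sum c.toElt
  have key : ∀ f : Fin τ.m → K[X],
      (∑ i, f i • Tab.Alg.ω T i) - C (∑ i, (f i).eval x₀ * ψ i) • (1 : T.Alg)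
        = ∑ i, ((f i - C ((f i).eval x₀)) • Tab.Alg.ω T i
            + C ((f i).eval x₀) • gen T x₀ ψ (some i)) := by
    intro f
    rw [map_sum, Finset.sum_smul, ← Finset.sum_sub_distrib]
    refine Finset.sum_congr rfl fun i _ => ?_
    rw [gen_some, map_mul, mul_smul, sub_smul, smul_sub]
    abel
  refine ⟨∑ i, (c.toElt i).eval x₀ * ψ i, ?_⟩
  have h := key c.toElt
  rw [← hc] at h
  rw [h]
  refine Ideal.sum_mem _ fun i _ => Ideal.add_mem _ ?_ ?_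
  · obtain ⟨q, hq⟩ := X_sub_C_dvd_sub_C_eval (a := x₀) (p := c.toElt i)
    rw [hq, mul_smul]
    have := smul_mem_pow (T := T) x₀ ψ 1 (q • Tab.Alg.ω T i)
    simpa [pow_one] using this
  · exact Submodule.smul_of_tower_mem _ _ (gen_mem x₀ ψ (some i))

/-- The `K`-linear combination of the generators with coefficients `lam`. -/
def lin (T : Tab τ K) (x₀ : K) (ψ : Fin τ.m → K) (lam : Option (Fin τ.m) → K) : T.Alg :=
  Tab.Alg.ofElt T (fun i' => ∑ a', C (lam a') * genElt x₀ ψ a' i')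

theorem lin_eq (x₀ : K) (ψ : Fin τ.m → K) (lam : Option (Fin τ.m) → K) :
    lin T x₀ ψ lam = ∑ a', C (lam a') • gen T x₀ ψ a' := by
  apply Tab.Alg.ext
  intro i
  rw [toElt_sum, Finset.sum_apply]
  rfl

theorem lin_mem (x₀ : K) (ψ : Fin τ.m → K) (lam : Option (Fin τ.m) → K) :
    lin T x₀ ψ lam ∈ T.ptIdeal x₀ ψ := by
  rw [lin_eq]
  exact Ideal.sum_mem _ fun a _ => Submodule.smul_of_tower_mem _ _ (gen_mem x₀ ψ a)

theorem gen_mul_gen_mem (x₀ : K) (ψ : Fin τ.m → K) (a' a'' : Option (Fin τ.m)) :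
    gen T x₀ ψ a' * gen T x₀ ψ a'' ∈ (T.ptIdeal x₀ ψ) ^ 2 := by
  rw [pow_two]
  exact Ideal.mul_mem_mul (gen_mem x₀ ψ a') (gen_mem x₀ ψ a'')

/-- `𝔪^2` is generated by the products of two generators. -/
theorem exists_of_mem_sq (x₀ : K) (ψ : Fin τ.m → K) {μ : T.Alg}
    (hμ : μ ∈ (T.ptIdeal x₀ ψ) ^ 2) :
    ∃ γ : Option (Fin τ.m) → Option (Fin τ.m) → T.Alg,
      μ = ∑ a', ∑ a'', gen T x₀ ψ a' * gen T x₀ ψ a'' * γ a' a'' := by
  have hle : (T.ptIdeal x₀ ψ) ^ 2 ≤ Ideal.span (Set.range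
      fun p : Option (Fin τ.m) × Option (Fin τ.m) => gen T x₀ ψ p.1 * gen T x₀ ψ p.2) := by
    rw [pow_two, ptIdeal_eq_span, Ideal.span_mul_span']
    apply Ideal.span_mono
    rintro _ ⟨_, ⟨a, rfl⟩, _, ⟨b, rfl⟩, rfl⟩
    exact ⟨(a, b), rfl⟩
  obtain ⟨c, hc⟩ := (Submodule.mem_span_range_iff_exists_fun _).1 (hle hμ)
  refine ⟨fun a' a'' => c (a', a''), ?_⟩
  rw [← hc, Fintype.sum_prod_type]
  refine Finset.sum_congr rfl fun a' _ => Finset.sum_congr rfl fun a'' _ => ?_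
  rw [smul_eq_mul, mul_comm]

/-- **W1b-4** `RegularAt` says that the ideal of the point is principal modulo its square (for
every pair `(x₀, ψ)`). -/
theorem regularAt_iff (x₀ : K) (ψ : Fin τ.m → K) :
    T.RegularAt x₀ ψ ↔
      ∃ π ∈ T.ptIdeal x₀ ψ, T.ptIdeal x₀ ψ = Ideal.span {π} ⊔ (T.ptIdeal x₀ ψ) ^ 2 := by
  constructor
  · rintro ⟨lam, hlam⟩
    refine ⟨lin T x₀ ψ lam, lin_mem x₀ ψ lam, le_antisymm ?_ ?_⟩
    · have hgen : ∀ a, gen T x₀ ψ a ∈ Ideal.span {lin T x₀ ψ lam} ⊔ (T.ptIdeal x₀ ψ) ^ 2 := by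
        intro a
        obtain ⟨b, b2, hb⟩ := hlam a
        obtain ⟨c, hc⟩ := (forall_dvd_iff ((X - C x₀) ^ 2)
          (gen T x₀ ψ a - lin T x₀ ψ lam * Tab.Alg.ofElt T b.toElt
            - ∑ a', ∑ a'', gen T x₀ ψ a' * gen T x₀ ψ a'' * Tab.Alg.ofElt T (b2 a' a'').toElt)).1 hb
        have h2 := smul_mem_pow (T := T) x₀ ψ 2 c
        have e : gen T x₀ ψ a = Tab.Alg.ofElt T b.toElt * lin T x₀ ψ lam
            + ((∑ a', ∑ a'', gen T x₀ ψ a' * gen T x₀ ψ a'' * Tab.Alg.ofElt T (b2 a' a'').toElt)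
              + ((X - C x₀) ^ 2 : K[X]) • c) := by
          rw [← hc]
          ring
        rw [e]
        exact Ideal.mem_span_singleton_sup.2 ⟨_, _, Ideal.add_mem _
          (Ideal.sum_mem _ fun a' _ => Ideal.sum_mem _ fun a'' _ =>
            Ideal.mul_mem_right _ _ (gen_mul_gen_mem x₀ ψ a' a'')) h2, rfl⟩
      show Ideal.span (Set.range (gen T x₀ ψ)) ≤ _
      refine Ideal.span_le.2 ?_
      rintro _ ⟨a, rfl⟩
      exact hgen a
    · exact sup_le ((Ideal.span_singleton_le_iff_mem _).2 (lin_mem x₀ ψ lam))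
        (Ideal.pow_le_self two_ne_zero)
  · rintro ⟨π, hπ, hm⟩
    obtain ⟨c, hc⟩ := (Submodule.mem_span_range_iff_exists_fun _).1
      (show π ∈ Ideal.span (Set.range (gen T x₀ ψ)) from hπ)
    choose lam hlam using fun a => exists_sub_const_mem (T := T) x₀ ψ (c a)
    refine ⟨lam, ?_⟩
    have hdiff : π - lin T x₀ ψ lam ∈ (T.ptIdeal x₀ ψ) ^ 2 := by
      rw [← hc, lin_eq, ← Finset.sum_sub_distrib]
      refine Ideal.sum_mem _ fun a _ => ?_
      have e : c a • gen T x₀ ψ a - C (lam a) • gen T x₀ ψ a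
          = (c a - C (lam a) • (1 : T.Alg)) * gen T x₀ ψ a := by
        rw [sub_mul, smul_mul_assoc, one_mul, smul_eq_mul]
      rw [e, pow_two]
      exact Ideal.mul_mem_mul (hlam a) (gen_mem x₀ ψ a)
    have hm' : ∀ y ∈ T.ptIdeal x₀ ψ,
        y ∈ Ideal.span {lin T x₀ ψ lam} ⊔ (T.ptIdeal x₀ ψ) ^ 2 := by
      intro y hy
      rw [hm] at hy
      obtain ⟨a, b, hb, rfl⟩ := Ideal.mem_span_singleton_sup.1 hy
      have e : a * π + b = a * lin T x₀ ψ lam + (a * (π - lin T x₀ ψ lam) + b) := by ring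
      rw [e]
      exact Ideal.mem_span_singleton_sup.2
        ⟨a, _, Ideal.add_mem _ (Ideal.mul_mem_left _ _ hdiff) hb, rfl⟩
    intro a
    obtain ⟨β, μ, hμ, hβ⟩ := Ideal.mem_span_singleton_sup.1 (hm' _ (gen_mem x₀ ψ a))
    obtain ⟨γ, hγ⟩ := exists_of_mem_sq x₀ ψ hμ
    obtain ⟨b, q, hq⟩ := exists_belt_add (T := T) x₀ 2 1 le_rfl β
    choose b2 q2 hq2 using fun a' a'' => exists_belt_add (T := T) x₀ 2 1 le_rfl (γ a' a'')
    refine ⟨b, b2, ?_⟩
    refine (forall_dvd_iff ((X - C x₀) ^ 2)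
      (gen T x₀ ψ a - lin T x₀ ψ lam * Tab.Alg.ofElt T b.toElt
        - ∑ a', ∑ a'', gen T x₀ ψ a' * gen T x₀ ψ a'' * Tab.Alg.ofElt T (b2 a' a'').toElt)).2
      ⟨lin T x₀ ψ lam * q + ∑ a', ∑ a'', gen T x₀ ψ a' * gen T x₀ ψ a'' * q2 a' a'', ?_⟩
    have hsum : (∑ a', ∑ a'', gen T x₀ ψ a' * gen T x₀ ψ a'' * γ a' a'')
        = (∑ a', ∑ a'', gen T x₀ ψ a' * gen T x₀ ψ a'' * Tab.Alg.ofElt T (b2 a' a'').toElt)
          + ((X - C x₀) ^ 2 : K[X]) •
            ∑ a', ∑ a'', gen T x₀ ψ a' * gen T x₀ ψ a'' * q2 a' a'' := by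
      rw [Finset.smul_sum, ← Finset.sum_add_distrib]
      refine Finset.sum_congr rfl fun a' _ => ?_
      rw [Finset.smul_sum, ← Finset.sum_add_distrib]
      refine Finset.sum_congr rfl fun a'' _ => ?_
      rw [hq2 a' a'', mul_add, mul_smul_comm]
    rw [← hβ, hγ, hsum, hq, smul_add, add_mul, smul_mul_assoc,
      mul_comm (Tab.Alg.ofElt T b.toElt) (lin T x₀ ψ lam), mul_comm q (lin T x₀ ψ lam)]
    abel

theorem stmt_RegularAt : Stmt_RegularAt.{u} := by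
  intro K _ τ T _ x₀ ψ _
  exact regularAt_iff x₀ ψ

/-- Hypothesis-passing shapes of the board row (the hypothesis is not needed). -/
theorem stmt_OrdGE_of (_h : Stmt_PtIdeal.{u}) : Stmt_OrdGE.{u} := stmt_OrdGE

theorem stmt_RegularAt_of (_h : Stmt_PtIdeal.{u}) : Stmt_RegularAt.{u} := stmt_RegularAt

end Fermat.Agent.S27.helper4551

end
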