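import Fermat.Agent.S27.helper3351_WSpec

/-!
# S27, algebraic route, leaf W1b-3 (helper7028): the table algebra is Dedekind

* `stmt_Dedekind` : `Stmt_Domain → Stmt_PtIdeal → Stmt_MaxIdeal → Stmt_RegularAt → Stmt_Dedekind`
* `stmt_Regular`  : `Stmt_Domain → Stmt_PtIdeal → Stmt_MaxIdeal → Stmt_RegularAt → Stmt_Regular`

The algebra `B = Alg T` of a (pre)valid table is a finite free `K[X]`-module, hence noetherian,
integral over `K[X]`, of Krull dimension `≤ 1` and not a field.  Over an algebraically closed
field every maximal ideal is the ideal `𝔪` of a point, and regularity of the point says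
`𝔪 = π B + 𝔪²`; Nakayama in `B_𝔪` makes the maximal ideal principal, so `B_𝔪` is a discrete
valuation ring.  Conversely, in a Dedekind domain there is no ideal strictly between `𝔪²` and
`𝔪`, which gives `𝔪 = π B + 𝔪²` for every `π ∈ 𝔪 \ 𝔪²`.
-/

set_option autoImplicit false

open Polynomial

namespace Fermat.Agent.S27.helper7028

open Fermat.Agent.S27.helper3351

universe u

/-! ### Generalities on the table algebra (no regularity needed) -/

section Basic

variable {K : Type u} [Field K] {τ : WType} (T : Tab τ K) [Fact T.PreValid]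

/-- The table algebra is a finite `K[X]`-module. -/
theorem finite_poly : Module.Finite K[X] T.Alg :=
  Module.Finite.of_basis (Tab.Alg.basis T)

/-- The table algebra is integral over `K[X]`. -/
theorem isIntegral_poly : Algebra.IsIntegral K[X] T.Alg :=
  have := finite_poly T
  Algebra.IsIntegral.of_finite K[X] T.Alg

/-- The table algebra is a noetherian ring. -/
theorem isNoetherianRing : IsNoetherianRing T.Alg :=
  have := finite_poly T
  isNoetherian_of_tower K[X] (isNoetherian_of_isNoetherianRing_of_finite K[X] T.Alg)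

/-- `K[X] → Alg T` is injective. -/
theorem algebraMap_poly_injective : Function.Injective (algebraMap K[X] T.Alg) := by
  have hT : T.PreValid := Fact.out
  rw [injective_iff_map_eq_zero]
  intro r hr
  rw [Tab.Alg.algebraMap_poly_apply] at hr
  have h0 := congrArg (fun a : T.Alg => a.toElt ⟨0, hT.good.1⟩) hr
  simpa [Tab.Alg.toElt_one, Elt.one] using h0

/-- The table algebra has Krull dimension `≤ 1`. -/
theorem dimensionLEOne [IsDomain T.Alg] : Ring.DimensionLEOne T.Alg :=
  have := isIntegral_poly T
  Ring.DimensionLEOne.of_isIntegral K[X] T.Alg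

/-- The table algebra is not a field. -/
theorem not_isField : ¬ IsField T.Alg := fun h =>
  have := isIntegral_poly T
  Polynomial.not_isField K (isField_of_isIntegral_of_isField (algebraMap_poly_injective T) h)

end Basic

/-! ### Principal modulo the square ⟹ DVR -/

section Local

variable {B : Type u} [CommRing B] [IsDomain B] [IsNoetherianRing B]

/-- If a nonzero prime `P` of a noetherian domain is principal modulo its square, then the
localization at `P` is a discrete valuation ring. -/
theorem isDVR_of_principal_mod_sq (P : Ideal B) [hP : P.IsPrime] (hP0 : P ≠ ⊥)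
    (π : B) (hπ : P = Ideal.span {π} ⊔ P ^ 2) :
    IsDiscreteValuationRing (Localization.AtPrime P) := by
  set R := Localization.AtPrime P
  have hinj : Function.Injective (algebraMap B R) :=
    IsLocalization.injective R P.primeCompl_le_nonZeroDivisors
  have hmax : Ideal.map (algebraMap B R) P = IsLocalRing.maximalIdeal R :=
    Localization.AtPrime.map_eq_maximalIdeal
  have hnf : ¬ IsField R := by
    rw [IsLocalRing.isField_iff_maximalIdeal_eq, ← hmax, Ideal.map_eq_bot_iff_of_injective hinj]
    exact hP0
  have hm : IsLocalRing.maximalIdeal R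
      = Ideal.span {algebraMap B R π} ⊔ IsLocalRing.maximalIdeal R ^ 2 := by
    have h' : Ideal.map (algebraMap B R) P
        = Ideal.map (algebraMap B R) (Ideal.span {π} ⊔ P ^ 2) :=
      congrArg (fun I => Ideal.map (algebraMap B R) I) hπ
    rw [Ideal.map_sup, Ideal.map_pow, Ideal.map_span, Set.image_singleton, hmax] at h'
    exact h'
  have hle : IsLocalRing.maximalIdeal R ≤ Ideal.span {algebraMap B R π} := by
    refine Submodule.le_of_le_smul_of_le_jacobson_bot (I := IsLocalRing.maximalIdeal R)
      (IsNoetherian.noetherian _) ?_ ?_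
    · rw [IsLocalRing.jacobson_eq_maximalIdeal _ bot_ne_top]
    · conv_lhs => rw [hm]
      rw [sq, smul_eq_mul]
  have hmem : algebraMap B R π ∈ IsLocalRing.maximalIdeal R := by
    rw [hm]
    exact Ideal.mem_sup_left (Ideal.subset_span rfl)
  have hprinc : (IsLocalRing.maximalIdeal R).IsPrincipal :=
    ⟨⟨algebraMap B R π, le_antisymm hle ((Ideal.span_singleton_le_iff_mem _).mpr hmem)⟩⟩
  exact ((IsDiscreteValuationRing.TFAE R hnf).out 4 0).mp hprinc

end Local

/-! ### The two statements -/

/-- **W1b** Over an algebraically closed field the algebra of a valid table is a Dedekind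
domain. -/
theorem stmt_Dedekind (hDom : Stmt_Domain.{u}) (_hPt : Stmt_PtIdeal.{u})
    (hMax : Stmt_MaxIdeal.{u}) (hReg : Stmt_RegularAt.{u}) : Stmt_Dedekind.{u} := by
  intro K _ _ τ T hV
  have : IsDomain T.Alg := hDom K τ T
  have : IsNoetherianRing T.Alg := isNoetherianRing T
  have : Ring.DimensionLEOne T.Alg := dimensionLEOne T
  have : IsDedekindDomainDvr T.Alg :=
    { is_dvr_at_nonzero_prime := by
        intro P hP0 hPp
        have hPm : P.IsMaximal := hPp.isMaximal hP0
        obtain ⟨x₀, ψ, hpt, rfl⟩ := hMax K τ T P hPm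
        obtain ⟨π, _, hπ⟩ := (hReg K τ T x₀ ψ hpt).1 (hV.out.regular x₀ ψ hpt)
        exact isDVR_of_principal_mod_sq _ hP0 π hπ }
  exact IsDedekindDomainDvr.isDedekindDomain T.Alg

/-- **W1b'** Conversely, an integrally closed table algebra over an algebraically closed field
is regular at every point, i.e. the table is valid. -/
theorem stmt_Regular (_hDom : Stmt_Domain.{u}) (hPt : Stmt_PtIdeal.{u})
    (_hMax : Stmt_MaxIdeal.{u}) (hReg : Stmt_RegularAt.{u}) : Stmt_Regular.{u} := by
  intro K _ _ τ T hPV _ hIC
  have : IsNoetherianRing T.Alg := isNoetherianRing T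
  have : Ring.DimensionLEOne T.Alg := dimensionLEOne T
  have : IsIntegrallyClosed T.Alg := hIC
  have : IsDedekindDomain T.Alg := { }
  refine Tab.Valid.of_pre hPV.out fun x₀ ψ hpt => ?_
  obtain ⟨hmax, _, _⟩ := hPt K τ T x₀ ψ hpt
  set M := T.ptIdeal x₀ ψ with hM
  have : M.IsPrime := hmax.isPrime
  have hM0 : M ≠ ⊥ := by
    intro h0
    apply not_isField T
    rw [h0] at hmax
    exact Ring.isField_iff_maximal_bot.mpr hmax
  have hlt : M ^ 2 < M := by
    have := Ideal.pow_succ_lt_pow hM0 1
    simpa using this
  obtain ⟨π, hπM, hπ2⟩ := SetLike.exists_of_lt hlt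
  refine (hReg K τ T x₀ ψ hpt).2 ⟨π, hπM, ?_⟩
  have h1 : M ^ (1 + 1) < Ideal.span {π} ⊔ M ^ 2 := by
    refine lt_of_le_of_ne le_sup_right fun h => hπ2 ?_
    have : π ∈ Ideal.span {π} ⊔ M ^ 2 := Ideal.mem_sup_left (Ideal.subset_span rfl)
    rw [← h] at this
    exact this
  have h2 : Ideal.span {π} ⊔ M ^ 2 ≤ M ^ 1 := by
    rw [pow_one]
    exact sup_le ((Ideal.span_singleton_le_iff_mem _).mpr hπM) hlt.le
  have := Ideal.eq_prime_pow_of_succ_lt_of_le hM0 h1 h2
  rw [pow_one] at this
  exact this.symm

end Fermat.Agent.S27.helper7028
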