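import Fermat.Agent.S27.helper3528_W0Field
import Fermat.Agent.S27.helper4996_Riemann
import Fermat.Agent.S27.helper5411_Reduce
import Fermat.Agent.S27.helper4272_W1aWeight
import Fermat.Agent.S27.helper1017_W1bPoints
import Fermat.Agent.S27.helper4551_W1bOrd
import Fermat.Agent.S27.helper7028_W1bDedekind

/-!
# S27, algebraic route: `Stmt_W0`, unconditional (helper3528)

Every function field as in S27 is the function field of a valid table.  Assembly of

* `helper3528.exists_filtered` (functions regular off a place, with the pole order, form a
  filtered integrally closed domain with fraction field `F`; from weak Riemann–Roch),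
* `helper4996.riemannData` and `helper5411.exists_transcendental_finite` (Riemann data),
* `helper1658.stmt_W0Basis` (abstract Weierstrass basis),
* `helper7028.stmt_Regular` with `helper4272.stmt_Domain`, `helper1017.stmt_PtIdeal`,
  `helper1017.stmt_MaxIdeal`, `helper4551.stmt_RegularAt` (an integrally closed table algebra
  is valid).
-/

set_option autoImplicit false

open AlgebraicCurve IntermediateField

namespace Fermat.Agent.S27.helper3528

open Fermat.Agent.S27.helper3351

universe u v

/-- The function-field half of W0 from the Riemann data of a finite map to the line. -/
theorem w0Affine_of_riemannData (hRD : helper3372.Stmt_RiemannData.{u, v}) :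
    W0Affine.{u, v} := by
  intro K F _ _ _ _ _ _ _
  obtain ⟨x, hx, hfin⟩ := helper5411.exists_transcendental_finite (K := K) (F := F)
  have hR : helper3372.RiemannData K F := hRD K F x hx
  have hP : HasPrincipalDivisors K F := inferInstance
  have hdeg : ∀ v : Place K F, v.deg = 1 := IsCurveOver.forall_deg_eq_one_of_isAlgClosed
  have hres : ∀ v : Place K F, Function.Surjective (algebraMap K v.ResidueField) := by
    intro v
    have : Module.Finite K v.ResidueField := IsCurveOver.finiteResidue v
    have : Algebra.IsIntegral K v.ResidueField := Algebra.IsIntegral.of_finite K v.ResidueField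
    exact IsAlgClosed.algebraMap_bijective_of_isIntegral.2
  obtain ⟨P⟩ := nonempty_place_of_riemannData hR
  obtain ⟨N, x0, m, h⟩ := exists_filtered hP hres hdeg hR P
  exact ⟨regularOff P, N, x0, m, h⟩

/-- The function-field half of W0. -/
theorem w0Affine : W0Affine.{u, v} :=
  w0Affine_of_riemannData helper4996.riemannData

/-- An integrally closed table algebra over an algebraically closed field is valid. -/
theorem stmt_Regular : Stmt_Regular.{u} :=
  helper7028.stmt_Regular helper4272.stmt_Domain helper1017.stmt_PtIdeal
    helper1017.stmt_MaxIdeal helper4551.stmt_RegularAt

/-- **W0** Every function field as in S27 is the function field of a valid table. -/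
theorem stmt_W0 : Stmt_W0.{u, v} :=
  stmt_W0_of helper1658.stmt_W0Basis stmt_Regular w0Affine

end Fermat.Agent.S27.helper3528
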