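import Fermat.Agent.S27.helper3351_WSpec
import Fermat.Agent.S27.helper1658_W0Basis
import Fermat.Agent.S27.helper3372_WeakRRMain

/-!
# S27, algebraic route, leaf W0-2: from a function field to a filtered domain (helper3528)

Board row 1197.  Let `K` be a field and `F` a function field over `K`, `P` a place of `F`.

* `regularOff P` is the `K`-subalgebra `B_P` of `F` of the functions regular at every place
  different from `P`, and `poleOrd P b = -ord_P b` (`⊥` for `b = 0`) is the pole order at `P`.
* `W0Affine` is the interface "the function field contains a filtered, integrally closed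
  domain with fraction field `F`" consumed by the assembly.
* `stmt_W0_of` : the abstract Weierstrass basis (`helper1658.Stmt_W0Basis`), the regularity
  criterion (`helper3351.Stmt_Regular`) and `W0Affine` give `helper3351.Stmt_W0` verbatim.
-/

set_option autoImplicit false

noncomputable section

open AlgebraicCurve Polynomial

namespace Fermat.Agent.S27.helper3528

open Fermat.Agent.S27.helper3351

universe u v

/-! ## The interface between the function-field side and the table side -/

/-- The hypotheses of the abstract Weierstrass basis theorem (`helper1658.Stmt_W0Basis`) for a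
filtered algebra `(B, N)` with a distinguished element `x0` of weight `m`. -/
structure IsFiltered (K : Type u) (B : Type v) [Field K] [CommRing B] [Algebra K B]
    (N : B → WithBot ℕ) (x0 : B) (m : ℕ) : Prop where
  bot_iff : ∀ b : B, N b = ⊥ ↔ b = 0
  map_mul : ∀ a b : B, N (a * b) = N a + N b
  map_add : ∀ a b : B, N (a + b) ≤ max (N a) (N b)
  map_const : ∀ c : K, c ≠ 0 → N (algebraMap K B c) = 0
  residue : ∀ a b : B, a ≠ 0 → N a = N b → ∃ c : K, N (a - c • b) < N a
  pos : 0 < m
  map_x0 : N x0 = (m : WithBot ℕ)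
  classes : ∀ i : ℕ, i < m → ∃ (b : B) (t : ℕ), N b = (t : WithBot ℕ) ∧ t % m = i

/-- **W0-2, function-field half**: every function field as in S27 contains a `K`-subalgebra
`B` which is a filtered algebra, integrally closed, with fraction field `F`. -/
def W0Affine : Prop :=
  ∀ (K : Type u) (F : Type v) [Field K] [Field F] [Algebra K F] [IsAlgClosed K] [CharZero K]
    [IsCurveOver K F] [Algebra.EssFiniteType K F],
    ∃ (B : Subalgebra K F) (N : B → WithBot ℕ) (x0 : B) (m : ℕ),
      IsFiltered K B N x0 m ∧ IsIntegrallyClosed B ∧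
        ∀ f : F, ∃ a b : B, b ≠ 0 ∧ f * (b : F) = (a : F)

/-! ## The assembly -/

/-- A subalgebra of a field all of whose elements are fractions of elements of the subalgebra
has that field as its fraction field. -/
theorem isFractionRing_of_forall_exists {K : Type u} {F : Type v} [Field K] [Field F]
    [Algebra K F] (B : Subalgebra K F)
    (hfrac : ∀ f : F, ∃ a b : B, b ≠ 0 ∧ f * (b : F) = (a : F)) : IsFractionRing B F := by
  refine IsFractionRing.of_field (R := B) F fun z => ?_
  obtain ⟨a, b, hb, hab⟩ := hfrac z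
  refine ⟨a, b, ?_⟩
  have hb' : (algebraMap B F b) ≠ 0 := fun h => hb (Subtype.ext h)
  rw [eq_div_iff hb']
  exact hab

/-- **W0 assembly**: the abstract Weierstrass basis, the regularity criterion for integrally
closed table algebras, and the function-field half give `Stmt_W0`. -/
theorem stmt_W0_of (hBasis : helper1658.Stmt_W0Basis.{u, v}) (hReg : Stmt_Regular.{u})
    (hAff : W0Affine.{u, v}) : Stmt_W0.{u, v} := by
  intro K F _ _ _ _ _ _ _
  obtain ⟨B, N, x0, m, hN, hIC, hfrac⟩ := hAff K F
  obtain ⟨τ, T, hT, -, h⟩ := hBasis K B N x0 m hN.bot_iff hN.map_mul hN.map_add hN.map_const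
    hN.residue hN.pos hN.map_x0 hN.classes
  haveI : Fact T.PreValid := ⟨hT⟩
  obtain ⟨e, -, -⟩ := h
  haveI : IsDomain T.Alg := MulEquiv.isDomain B e.toMulEquiv
  haveI : IsIntegrallyClosed T.Alg := IsIntegrallyClosed.of_equiv e.symm.toRingEquiv
  have hV : T.Valid := hReg K τ T inferInstance
  haveI : IsFractionRing B F := isFractionRing_of_forall_exists B hfrac
  refine ⟨τ, T, hV, ⟨?_⟩⟩
  exact IsFractionRing.algEquivOfAlgEquiv (K := F) (L := FractionRing T.Alg) e.symm

/-! ## The function-field half: functions regular off a place -/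

section FF

open WithZero

variable {K : Type u} {F : Type v} [Field K] [Field F] [Algebra K F]

theorem ord_nonneg_of_le_one (v : Place K F) {f : F} (h : v.adicValuation f ≤ 1) :
    0 ≤ v.ord f := by
  rcases v.adicValuation_le_one_iff.mp h with rfl | h'
  · simp
  · exact h'

theorem ord_nonneg_iff_mem (v : Place K F) {f : F} :
    0 ≤ v.ord f ↔ f ∈ v.toValuationSubring :=
  ⟨fun h => helper3372.mem_of_adicValuation_le_one v
      (v.adicValuation_le_one_iff.mpr (Or.inr h)),
    fun h => ord_nonneg_of_le_one v (v.adicValuation_le_one_of_mem h)⟩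

theorem ord_algebraMap (v : Place K F) (c : K) : v.ord (algebraMap K F c) = 0 := by
  have h1 := ord_nonneg_of_le_one v (v.adicValuation_algebraMap_le_one c)
  have h2 := ord_nonneg_of_le_one v (v.adicValuation_algebraMap_le_one c⁻¹)
  rw [map_inv₀, v.ord_inv] at h2
  omega

theorem min_le_ord_add (v : Place K F) {f g : F} (hf : f ≠ 0) (hg : g ≠ 0) (hfg : f + g ≠ 0) :
    min (v.ord f) (v.ord g) ≤ v.ord (f + g) := by
  have h := Valuation.map_add v.adicValuation f g
  rw [v.adicValuation_eq_exp_neg_ord hf, v.adicValuation_eq_exp_neg_ord hg,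
    v.adicValuation_eq_exp_neg_ord hfg] at h
  rcases le_max_iff.mp h with h | h
  · rw [exp_le_exp] at h
    omega
  · rw [exp_le_exp] at h
    omega

/-- The `K`-algebra `B_P` of the functions regular at all places different from `P`. -/
def regularOff (P : Place K F) : Subalgebra K F where
  carrier := {f | ∀ v : Place K F, v ≠ P → v.adicValuation f ≤ 1}
  mul_mem' := by
    intro a b ha hb v hv
    rw [map_mul]
    exact mul_le_one' (ha v hv) (hb v hv)
  add_mem' := by
    intro a b ha hb v hv
    exact (Valuation.map_add _ _ _).trans (max_le (ha v hv) (hb v hv))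
  algebraMap_mem' := fun c v _ => v.adicValuation_algebraMap_le_one c

theorem mem_regularOff_iff {P : Place K F} {f : F} :
    f ∈ regularOff P ↔ ∀ v : Place K F, v ≠ P → 0 ≤ v.ord f :=
  ⟨fun h v hv => ord_nonneg_of_le_one v (h v hv),
    fun h v hv => v.adicValuation_le_one_iff.mpr (Or.inr (h v hv))⟩

open scoped Classical in
/-- The pole order at `P` (`⊥` for the zero function). -/
def poleOrd (P : Place K F) (f : F) : WithBot ℕ :=
  if f = 0 then ⊥ else (((-P.ord f).toNat : ℕ) : WithBot ℕ)

theorem poleOrd_zero (P : Place K F) : poleOrd P (0 : F) = ⊥ := if_pos rfl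

theorem poleOrd_of_ne_zero (P : Place K F) {f : F} (hf : f ≠ 0) :
    poleOrd P f = (((-P.ord f).toNat : ℕ) : WithBot ℕ) := if_neg hf

theorem poleOrd_eq_bot_iff (P : Place K F) {f : F} : poleOrd P f = ⊥ ↔ f = 0 := by
  constructor
  · intro h
    by_contra hf
    rw [poleOrd_of_ne_zero P hf, Nat.cast_withBot] at h
    exact WithBot.coe_ne_bot h
  · rintro rfl
    exact poleOrd_zero P

section Deg

variable (hP : HasPrincipalDivisors K F) (hdeg : ∀ v : Place K F, v.deg = 1)
include hP hdeg

/-- A nonzero function regular off `P` has no zero at `P`. -/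
theorem ord_le_zero_of_mem {P : Place K F} {f : F} (hf : f ∈ regularOff P) (hf0 : f ≠ 0) :
    P.ord f ≤ 0 := by
  by_contra hcon
  obtain ⟨D, hD, hD0⟩ := hP.exists_divisor f hf0
  have hD' : (0 : Divisor K F) ≤ D := by
    rw [Finsupp.le_def]
    intro v
    rw [hD v]
    by_cases hv : v = P
    · subst hv
      simp only [Finsupp.coe_zero, Pi.zero_apply]
      omega
    · exact mem_regularOff_iff.mp hf v hv
  have h0 := helper3372.eq_zero_of_degree_eq_zero hdeg hD' hD0
  have h2 := hD P
  rw [h0] at h2
  simp only [Finsupp.coe_zero, Pi.zero_apply] at h2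
  omega

theorem poleOrd_mul {P : Place K F} {f g : F} (hf : f ∈ regularOff P)
    (hg : g ∈ regularOff P) : poleOrd P (f * g) = poleOrd P f + poleOrd P g := by
  rcases eq_or_ne f 0 with rfl | hf0
  · simp [poleOrd_zero]
  rcases eq_or_ne g 0 with rfl | hg0
  · simp [poleOrd_zero]
  rw [poleOrd_of_ne_zero P (mul_ne_zero hf0 hg0), poleOrd_of_ne_zero P hf0,
    poleOrd_of_ne_zero P hg0, P.ord_mul hf0 hg0, ← Nat.cast_add]
  have h1 := ord_le_zero_of_mem hP hdeg hf hf0
  have h2 := ord_le_zero_of_mem hP hdeg hg hg0
  congr 1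
  omega

theorem poleOrd_add {P : Place K F} {f g : F} (hf : f ∈ regularOff P)
    (hg : g ∈ regularOff P) : poleOrd P (f + g) ≤ max (poleOrd P f) (poleOrd P g) := by
  rcases eq_or_ne f 0 with rfl | hf0
  · simp
  rcases eq_or_ne g 0 with rfl | hg0
  · simp
  rcases eq_or_ne (f + g) 0 with h | hfg
  · rw [h, poleOrd_zero]
    exact bot_le
  rw [poleOrd_of_ne_zero P hfg, poleOrd_of_ne_zero P hf0, poleOrd_of_ne_zero P hg0]
  have h1 := ord_le_zero_of_mem hP hdeg hf hf0
  have h2 := ord_le_zero_of_mem hP hdeg hg hg0
  have h3 := ord_le_zero_of_mem hP hdeg (add_mem hf hg) hfg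
  have h4 := min_le_ord_add P hf0 hg0 hfg
  simp only [Nat.cast_withBot]
  rw [← WithBot.coe_max, WithBot.coe_le_coe]
  omega

omit hP hdeg in
theorem poleOrd_algebraMap (P : Place K F) {c : K} (hc : c ≠ 0) :
    poleOrd P (algebraMap K F c) = 0 := by
  rw [poleOrd_of_ne_zero P (by simpa using hc), ord_algebraMap]
  simp

/-- The residue field at `P` is `K`: two functions with the same pole order at `P` differ, up
to a constant factor, by a function with a smaller pole order. -/
theorem exists_poleOrd_sub_lt {P : Place K F}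
    (hres : Function.Surjective (algebraMap K P.ResidueField)) {f g : F}
    (hf : f ∈ regularOff P) (hg : g ∈ regularOff P) (hf0 : f ≠ 0)
    (h : poleOrd P f = poleOrd P g) : ∃ c : K, poleOrd P (f - c • g) < poleOrd P f := by
  have hg0 : g ≠ 0 := by
    rintro rfl
    rw [poleOrd_zero, poleOrd_eq_bot_iff] at h
    exact hf0 h
  have h1 := ord_le_zero_of_mem hP hdeg hf hf0
  have h2 := ord_le_zero_of_mem hP hdeg hg hg0
  have hord : P.ord f = P.ord g := by
    rw [poleOrd_of_ne_zero P hf0, poleOrd_of_ne_zero P hg0] at h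
    have h' : (-P.ord f).toNat = (-P.ord g).toNat := by exact_mod_cast h
    omega
  have hq : P.adicValuation (f / g) ≤ 1 := by
    rw [P.adicValuation_le_one_iff]
    right
    rw [div_eq_mul_inv, P.ord_mul hf0 (inv_ne_zero hg0), P.ord_inv]
    omega
  obtain ⟨c, hc⟩ := helper3372.exists_const_sub_lt P hres hq
  refine ⟨c, ?_⟩
  have hfg : f - c • g = (f / g - algebraMap K F c) * g := by
    rw [Algebra.smul_def]
    field_simp
  rcases eq_or_ne (f / g - algebraMap K F c) 0 with h0 | h0
  · rw [hfg, h0, zero_mul, poleOrd_zero, poleOrd_of_ne_zero P hf0, Nat.cast_withBot]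
    exact WithBot.bot_lt_coe _
  · have hc' := (P.adicValuation_le_exp_iff.mp hc).resolve_left h0
    have hne : f - c • g ≠ 0 := by
      rw [hfg]
      exact mul_ne_zero h0 hg0
    have hmem : f - c • g ∈ regularOff P := sub_mem hf ((regularOff P).smul_mem hg c)
    have h3 := ord_le_zero_of_mem hP hdeg hmem hne
    have h4 : P.ord (f - c • g) = P.ord (f / g - algebraMap K F c) + P.ord g := by
      rw [hfg, P.ord_mul h0 hg0]
    rw [poleOrd_of_ne_zero P hne, poleOrd_of_ne_zero P hf0]
    simp only [Nat.cast_withBot]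
    rw [WithBot.coe_lt_coe]
    omega

end Deg

/-- A subalgebra cut out by regularity at a set of places is integrally closed. -/
theorem isIntegrallyClosed_of_mem_iff (B : Subalgebra K F) (S : Set (Place K F))
    (hB : ∀ f : F, f ∈ B ↔ ∀ v ∈ S, 0 ≤ v.ord f) [IsFractionRing B F] :
    IsIntegrallyClosed B := by
  refine (isIntegrallyClosed_iff F).mpr fun {x} hx => ?_
  suffices hxB : x ∈ B from ⟨⟨x, hxB⟩, rfl⟩
  rw [hB]
  intro v hv
  have hle : ∀ b : B, (b : F) ∈ v.toValuationSubring := fun b =>
    (ord_nonneg_iff_mem v).mp ((hB b).mp b.2 v hv)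
  let φ : B →+* v.toValuationSubring :=
    { toFun := fun b => ⟨b, hle b⟩
      map_one' := rfl
      map_mul' := fun _ _ => rfl
      map_zero' := rfl
      map_add' := fun _ _ => rfl }
  have hint : IsIntegral v.toValuationSubring x := by
    have := IsIntegral.map_of_comp_eq φ (RingHom.id F) (by ext b; rfl) hx
    simpa using this
  obtain ⟨y, hy⟩ := IsIntegrallyClosed.isIntegral_iff.mp hint
  rw [← hy]
  exact (ord_nonneg_iff_mem v).mpr y.2

/-! ### Consequences of weak Riemann–Roch -/

section RR

open helper3372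

/-- Riemann data can only exist when there is a place. -/
theorem nonempty_place_of_riemannData (hR : RiemannData K F) : Nonempty (Place K F) := by
  by_contra hemp
  rw [not_nonempty_iff] at hemp
  obtain ⟨B, C, n, hn, -, -, -, hl⟩ := hR
  have hsub : ∀ l : ℕ, (l • B + C : Divisor K F) = C := fun l => Subsingleton.elim _ _
  have h := hl (Module.finrank K (riemannRochSpace C))
  rw [hsub] at h
  have h2 : Module.finrank K (riemannRochSpace C) + 1
      ≤ n * (Module.finrank K (riemannRochSpace C) + 1) := Nat.le_mul_of_pos_left _ hn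
  omega

variable (hP : HasPrincipalDivisors K F)
  (hres : ∀ v : Place K F, Function.Surjective (algebraMap K v.ResidueField))
  (hdeg : ∀ v : Place K F, v.deg = 1) (hR : RiemannData K F)
include hP hres hdeg hR

/-- Every large integer is the pole order at `P` of a function regular off `P`. -/
theorem exists_ord_eq_neg (P : Place K F) :
    ∃ t₀ : ℕ, ∀ t : ℕ, t₀ ≤ t → ∃ b : F, b ∈ regularOff P ∧ b ≠ 0 ∧ P.ord b = -(t : ℤ) := by
  have hne := nonempty_place_of_riemannData hR
  obtain ⟨c, hc⟩ := exists_H1_subsingleton hP hres hdeg hne hR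
  refine ⟨c.toNat + 1, fun t ht => ?_⟩
  set D₁ : Divisor K F := Finsupp.single P (t : ℤ) with hD₁
  set D₀ : Divisor K F := Finsupp.single P ((t : ℤ) - 1) with hD₀
  have hd₁ : Divisor.degree D₁ = t := by rw [hD₁, Divisor.degree_single, hdeg]; simp
  have hd₀ : Divisor.degree D₀ = (t : ℤ) - 1 := by
    rw [hD₀, Divisor.degree_single, hdeg]; simp
  have hs₁ : Subsingleton (H1 D₁) := hc D₁ (by rw [hd₁]; omega)
  have hs₀ : Subsingleton (H1 D₀) := hc D₀ (by rw [hd₀]; omega)
  have hw₁ := weak_rr hP hres hdeg hne hR D₁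
  have hw₀ := weak_rr hP hres hdeg hne hR D₀
  have he₁ : Module.finrank K (H1 D₁) = 0 := Module.finrank_zero_of_subsingleton
  have he₀ : Module.finrank K (H1 D₀) = 0 := Module.finrank_zero_of_subsingleton
  rw [he₁, hd₁] at hw₁
  rw [he₀, hd₀] at hw₀
  have hlt : Module.finrank K (riemannRochSpace D₀) < Module.finrank K (riemannRochSpace D₁) := by
    have : (Module.finrank K (riemannRochSpace D₀) : ℤ)
        < Module.finrank K (riemannRochSpace D₁) := by
      push_cast at hw₁ hw₀
      linarith
    exact_mod_cast this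
  have hfin₀ : Module.Finite K (riemannRochSpace D₀) := finite_riemannRochSpace hP hres hdeg hne D₀
  have hex : ∃ b : F, b ∈ riemannRochSpace D₁ ∧ b ∉ riemannRochSpace D₀ := by
    by_contra hcon
    have hle : riemannRochSpace D₁ ≤ riemannRochSpace D₀ := by
      intro b hb
      by_contra hb0
      exact hcon ⟨b, hb, hb0⟩
    have := Submodule.finrank_mono hle
    omega
  obtain ⟨b, hb₁, hb₀⟩ := hex
  have hb0 : b ≠ 0 := by
    rintro rfl
    exact hb₀ (zero_mem _)
  rw [mem_riemannRochSpace_iff] at hb₁ hb₀
  have hoff : ∀ v : Place K F, v ≠ P → 0 ≤ v.ord b := by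
    intro v hv
    have h := (hb₁ v).resolve_left hb0
    rw [hD₁, Finsupp.single_eq_of_ne hv] at h
    simpa using h
  have hP₁ : -(t : ℤ) ≤ P.ord b := by
    have h := (hb₁ P).resolve_left hb0
    rwa [hD₁, Finsupp.single_eq_same] at h
  have hP₀ : P.ord b < -((t : ℤ) - 1) := by
    by_contra hcon
    rw [not_lt] at hcon
    apply hb₀
    intro v
    right
    by_cases hv : v = P
    · subst hv
      rw [hD₀, Finsupp.single_eq_same]
      exact hcon
    · rw [hD₀, Finsupp.single_eq_of_ne hv]
      simpa using hoff v hv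
  exact ⟨b, mem_regularOff_iff.mpr hoff, hb0, by omega⟩

/-- Every function is a quotient of two functions regular off `P`. -/
theorem exists_mul_mem_regularOff (P : Place K F) (f : F) :
    ∃ a b : regularOff P, b ≠ 0 ∧ f * (b : F) = (a : F) := by
  have hne := nonempty_place_of_riemannData hR
  rcases eq_or_ne f 0 with rfl | hf
  · exact ⟨0, 1, one_ne_zero, by simp⟩
  obtain ⟨D, hD, -⟩ := hP.exists_divisor f hf
  set E : Divisor K F := Finsupp.mapRange (fun n : ℤ => max 0 (-n)) (by simp) D with hE
  set t : ℕ := (genusFF K F + Divisor.degree E).toNat with ht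
  have hdeg' : (genusFF K F : ℤ) ≤ Divisor.degree (Finsupp.single P (t : ℤ) - E) := by
    rw [map_sub, Divisor.degree_single, hdeg]
    have := Int.self_le_toNat (genusFF K F + Divisor.degree E)
    rw [← ht] at this
    push_cast
    linarith
  obtain ⟨b, hb0, hb⟩ := exists_ne_zero_mem hP hres hdeg hne hR hdeg'
  rw [mem_riemannRochSpace_iff] at hb
  have hoff : ∀ v : Place K F, v ≠ P → max 0 (-v.ord f) ≤ v.ord b := by
    intro v hv
    have h := (hb v).resolve_left hb0
    rw [Finsupp.sub_apply, Finsupp.single_eq_of_ne hv, hE, Finsupp.mapRange_apply, hD v] at h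
    simpa using h
  have hbmem : b ∈ regularOff P :=
    mem_regularOff_iff.mpr fun v hv => (le_max_left _ _).trans (hoff v hv)
  have hfbmem : f * b ∈ regularOff P := by
    refine mem_regularOff_iff.mpr fun v hv => ?_
    rw [v.ord_mul hf hb0]
    have := (le_max_right _ _).trans (hoff v hv)
    linarith
  exact ⟨⟨f * b, hfbmem⟩, ⟨b, hbmem⟩, fun h => hb0 (congrArg Subtype.val h), rfl⟩

/-- **W0-2, function-field half**, for any field of constants: if all places are rational and
Riemann's theorem holds, the functions regular off a place `P` form, with the pole order at `P`,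
a filtered algebra which is integrally closed and has fraction field `F`. -/
theorem exists_filtered (P : Place K F) :
    ∃ (N : regularOff P → WithBot ℕ) (x0 : regularOff P) (m : ℕ),
      IsFiltered K (regularOff P) N x0 m ∧ IsIntegrallyClosed (regularOff P) ∧
        ∀ f : F, ∃ a b : regularOff P, b ≠ 0 ∧ f * (b : F) = (a : F) := by
  have hfrac := exists_mul_mem_regularOff hP hres hdeg hR P
  obtain ⟨t₀, ht₀⟩ := exists_ord_eq_neg hP hres hdeg hR P
  obtain ⟨x, hxmem, hx0, hx⟩ := ht₀ (t₀ + 1) (Nat.le_succ _)
  refine ⟨fun b => poleOrd P (b : F), ⟨x, hxmem⟩, t₀ + 1, ?_, ?_, hfrac⟩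
  · refine ⟨?_, ?_, ?_, ?_, ?_, Nat.succ_pos _, ?_, ?_⟩
    · intro b
      rw [poleOrd_eq_bot_iff]
      exact ⟨fun h => Subtype.ext h, fun h => congrArg Subtype.val h⟩
    · intro a b
      exact poleOrd_mul hP hdeg a.2 b.2
    · intro a b
      exact poleOrd_add hP hdeg a.2 b.2
    · intro c hc
      exact poleOrd_algebraMap P hc
    · intro a b ha hab
      exact exists_poleOrd_sub_lt hP hdeg (hres P) a.2 b.2
        (fun h => ha (Subtype.ext h)) hab
    · show poleOrd P x = _
      rw [poleOrd_of_ne_zero P hx0, hx, neg_neg, Int.toNat_natCast]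
    · intro i hi
      obtain ⟨b, hbmem, hb0, hb⟩ := ht₀ ((t₀ + 1) * t₀ + i)
        (le_trans (Nat.le_mul_of_pos_left _ (Nat.succ_pos _)) (Nat.le_add_right _ _))
      refine ⟨⟨b, hbmem⟩, (t₀ + 1) * t₀ + i, ?_, ?_⟩
      · show poleOrd P b = _
        rw [poleOrd_of_ne_zero P hb0, hb, neg_neg, Int.toNat_natCast]
      · rw [Nat.mul_add_mod, Nat.mod_eq_of_lt hi]
  · haveI : IsFractionRing (regularOff P) F := isFractionRing_of_forall_exists _ hfrac
    exact isIntegrallyClosed_of_mem_iff (regularOff P) {v | v ≠ P}
      (fun f => mem_regularOff_iff)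

end RR

end FF

end Fermat.Agent.S27.helper3528

end
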