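import Fermat.Agent.S27.helper6247_Spec

/-!
# S27, node M6a (`Stmt_GLS`): the assembly half

`Stmt_GLSMove` is the "moving solution" form of the infinitesimal Abel theorem, in the
vocabulary of `helper6247_Spec`: for the base pair `A⁰ = (Q i 0)`, `B⁰ = (Q' j 0)` there is a
holomorphic map `γ (s', s)` on a polydisc with `γ (s', s') = 0` such that

* `A(s) - A(s') - B(γ (s', s)) + B⁰` is principal, and
* the derivative identity in the variable `s` holds:
  `∑ j, dγ_j(v) • chartCoef (Q' j) (γ_j) = ∑ i, v_i • chartCoef (Q i) (s_i)`.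

`gls_of_move` : `Stmt_NonspecialBasis → Stmt_GLSMove → Stmt_GLS`
(integration of the derivative identity along segments + local injectivity of the abelian sum
`σ ↦ ∑ j, J' j (σ j)` at a nonspecial base, by the inverse function theorem).
-/

set_option autoImplicit false

open AlgebraicCurve IntermediateField
open scoped Topology

namespace Fermat.Agent.S27.helper3591

open Fermat.Agent.S27.helper6247

noncomputable section

/-- M6a-core ("moving solution").  Hypotheses: those of `Stmt_GLS` without the abelian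
integrals and without nonspeciality of `A⁰`.  The parameter is `p = (s', s)`. -/
def Stmt_GLSMove : Prop :=
  ∀ (F : Type) [Field F] [Algebra ℂ F] (x : F), Transcendental ℂ x →
    ∀ [FiniteDimensional ℂ⟮x⟯ F] (e : H1 (0 : Divisor ℂ F) ≃ₗ[ℂ] (Fin (genusFF ℂ F) → ℂ))
    (x₀ : F) (c : Fin (genusFF ℂ F) → ℂ) (u' : Fin (genusFF ℂ F) → F)
    (Q Q' : Fin (genusFF ℂ F) → ℂ → Place ℂ F) (r r' : Fin (genusFF ℂ F) → ℝ),
    Function.Injective c →
    (∀ i, IsChart (x₀ - algebraMap ℂ F (c i)) (Q i) (r i)) →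
    (∀ j, IsChart (u' j) (Q' j) (r' j)) →
    (∀ i (P : Place ℂ F), 0 < P.ord (x₀ - algebraMap ℂ F (c i)) →
      P.ord (x₀ - algebraMap ℂ F (c i)) = 1) →
    Function.Injective (fun j => Q' j 0) →
    IsNonspecial (sumDiv fun j => Q' j 0) →
    (∀ i j, (Q' j 0).ord (x₀ - algebraMap ℂ F (c i)) ≤ 0) →
    ∃ ε > 0, ∃ γ : (Fin (genusFF ℂ F) → ℂ) × (Fin (genusFF ℂ F) → ℂ) →
        Fin (genusFF ℂ F) → ℂ,
      DifferentiableOn ℂ γ (Metric.ball 0 ε) ∧
      (∀ s' : Fin (genusFF ℂ F) → ℂ, ‖s'‖ < ε → γ (s', s') = 0) ∧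
      (∀ i, ε ≤ r i) ∧
      (∀ p ∈ Metric.ball (0 : (Fin (genusFF ℂ F) → ℂ) × (Fin (genusFF ℂ F) → ℂ)) ε,
        ∀ j, ‖γ p j‖ < r' j) ∧
      (∀ p ∈ Metric.ball (0 : (Fin (genusFF ℂ F) → ℂ) × (Fin (genusFF ℂ F) → ℂ)) ε,
        sumDiv (fun i => Q i (p.2 i)) - sumDiv (fun i => Q i (p.1 i))
          - sumDiv (fun j => Q' j (γ p j)) + sumDiv (fun j => Q' j 0)
          ∈ Divisor.principal (K := ℂ) (F := F)) ∧
      (∀ p ∈ Metric.ball (0 : (Fin (genusFF ℂ F) → ℂ) × (Fin (genusFF ℂ F) → ℂ)) ε,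
        ∀ v : Fin (genusFF ℂ F) → ℂ,
        ∑ j, (fderiv ℂ γ p (0, v)) j • chartCoef e (u' j) (Q' j) (γ p j)
          = ∑ i, v i • chartCoef e (x₀ - algebraMap ℂ F (c i)) (Q i) (p.2 i))

/-! ## Pure analysis -/

section Analysis

variable {ι : Type*} [Fintype ι]

/-- Local injectivity of an "abelian sum" `σ ↦ ∑ j, J j (σ j)` whose integrands are linearly
independent at the base point. -/
theorem exists_injOn_sum (J : ι → ℂ → ι → ℂ) (a : ι → ℂ → ι → ℂ) (r : ι → ℝ)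
    (hr : ∀ j, 0 < r j)
    (hJ : ∀ j, ∀ s ∈ Metric.ball (0 : ℂ) (r j), HasDerivAt (J j) (a j s) s)
    (hli : LinearIndependent ℂ (fun j => a j 0)) :
    ∃ δ > 0, Set.InjOn (fun σ : ι → ℂ => ∑ j, J j (σ j)) (Metric.ball 0 δ) := by
  classical
  -- strict differentiability of each `J j` at `0`
  have hstrict : ∀ j, HasStrictDerivAt (J j) (a j 0) 0 := by
    intro j
    have hd : DifferentiableOn ℂ (J j) (Metric.ball (0 : ℂ) (r j)) := fun s hs =>
      (hJ j s hs).differentiableAt.differentiableWithinAt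
    have han : AnalyticAt ℂ (J j) 0 :=
      hd.analyticAt (Metric.isOpen_ball.mem_nhds (Metric.mem_ball_self (hr j)))
    have h1 := han.hasStrictDerivAt
    have h2 : deriv (J j) 0 = a j 0 := (hJ j 0 (Metric.mem_ball_self (hr j))).deriv
    rwa [h2] at h1
  -- the derivative of the sum
  let L : (ι → ℂ) →L[ℂ] (ι → ℂ) :=
    ∑ j, (ContinuousLinearMap.smulRight (1 : ℂ →L[ℂ] ℂ) (a j 0)).comp
      (ContinuousLinearMap.proj (R := ℂ) (φ := fun _ : ι => ℂ) j)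
  have hL : ∀ v : ι → ℂ, L v = ∑ j, v j • a j 0 := by
    intro v
    simp [L]
  have hΦ : HasStrictFDerivAt (fun σ : ι → ℂ => ∑ j, J j (σ j)) L 0 := by
    refine HasStrictFDerivAt.fun_sum fun j _ => ?_
    have hp : HasStrictFDerivAt (fun σ : ι → ℂ => σ j)
        (ContinuousLinearMap.proj (R := ℂ) (φ := fun _ : ι => ℂ) j) 0 :=
      (ContinuousLinearMap.proj (R := ℂ) (φ := fun _ : ι => ℂ) j).hasStrictFDerivAt
    have hj : HasStrictFDerivAt (J j)
        (ContinuousLinearMap.smulRight (1 : ℂ →L[ℂ] ℂ) (a j 0)) ((0 : ι → ℂ) j) :=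
      (hstrict j).hasStrictFDerivAt
    exact hj.comp (0 : ι → ℂ) hp
  -- `L` is injective, hence an equivalence
  have hLinj : Function.Injective L := by
    refine (injective_iff_map_eq_zero L).mpr fun v hv => ?_
    have hv' : ∑ j, v j • a j 0 = 0 := by
      rw [← hL v]; exact hv
    exact funext (Fintype.linearIndependent_iff.mp hli v hv')
  have hLsurj : Function.Surjective L :=
    (LinearMap.injective_iff_surjective (f := (L : (ι → ℂ) →ₗ[ℂ] (ι → ℂ)))).mp hLinj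
  let Le : (ι → ℂ) ≃L[ℂ] (ι → ℂ) :=
    (LinearEquiv.ofBijective (L : (ι → ℂ) →ₗ[ℂ] (ι → ℂ)) ⟨hLinj, hLsurj⟩).toContinuousLinearEquiv
  have hLe : (Le : (ι → ℂ) →L[ℂ] (ι → ℂ)) = L := by
    ext v : 1
    rfl
  have hΦ' : HasStrictFDerivAt (fun σ : ι → ℂ => ∑ j, J j (σ j))
      (Le : (ι → ℂ) →L[ℂ] (ι → ℂ)) 0 := by
    rw [hLe]; exact hΦ
  have hev := hΦ'.eventually_left_inverse
  obtain ⟨δ, hδ, hball⟩ := Metric.eventually_nhds_iff_ball.mp hev
  refine ⟨δ, hδ, fun σ hσ τ hτ hστ => ?_⟩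
  have h1 := hball σ hσ
  have h2 := hball τ hτ
  simp only at hστ h1 h2
  rw [← h1, ← h2, hστ]

/-- Integration of the derivative identity along the `s`-variable. -/
theorem sum_eq_of_deriv_identity {G : Type*} [NormedAddCommGroup G] [NormedSpace ℂ G]
    (ε : ℝ) (γ : (ι → ℂ) × (ι → ℂ) → ι → ℂ) (J J' : ι → ℂ → G) (a a' : ι → ℂ → G)
    (r r' : ι → ℝ)
    (hγ : DifferentiableOn ℂ γ (Metric.ball 0 ε))
    (hγ0 : ∀ s' : ι → ℂ, ‖s'‖ < ε → γ (s', s') = 0)
    (hεr : ∀ i, ε ≤ r i)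
    (hγr : ∀ p ∈ Metric.ball (0 : (ι → ℂ) × (ι → ℂ)) ε, ∀ j, ‖γ p j‖ < r' j)
    (hJ : ∀ i, ∀ s ∈ Metric.ball (0 : ℂ) (r i), HasDerivAt (J i) (a i s) s)
    (hJ' : ∀ j, ∀ s ∈ Metric.ball (0 : ℂ) (r' j), HasDerivAt (J' j) (a' j s) s)
    (hJ'0 : ∀ j, J' j 0 = 0)
    (hder : ∀ p ∈ Metric.ball (0 : (ι → ℂ) × (ι → ℂ)) ε, ∀ v : ι → ℂ,
        ∑ j, (fderiv ℂ γ p (0, v)) j • a' j (γ p j) = ∑ i, v i • a i (p.2 i))
    (p : (ι → ℂ) × (ι → ℂ)) (hp : p ∈ Metric.ball (0 : (ι → ℂ) × (ι → ℂ)) ε) :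
    ∑ j, J' j (γ p j) = ∑ i, (J i (p.2 i) - J i (p.1 i)) := by
  classical
  obtain ⟨s', s⟩ := p
  have hp' : ‖s'‖ < ε ∧ ‖s‖ < ε := by
    have : ‖(s', s)‖ < ε := by simpa using hp
    rw [Prod.norm_def] at this
    exact max_lt_iff.mp this
  have hmem : ∀ w : ι → ℂ, w ∈ Metric.ball (0 : ι → ℂ) ε →
      (s', w) ∈ Metric.ball (0 : (ι → ℂ) × (ι → ℂ)) ε := by
    intro w hw
    rw [mem_ball_zero_iff] at hw ⊢
    rw [Prod.norm_def]
    exact max_lt hp'.1 hw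
  let Ψ : (ι → ℂ) → G := fun w => ∑ j, J' j (γ (s', w) j) - ∑ i, J i (w i)
  have hΨ : ∀ w ∈ Metric.ball (0 : ι → ℂ) ε, HasFDerivAt Ψ (0 : (ι → ℂ) →L[ℂ] G) w := by
    intro w hw
    have hpw := hmem w hw
    have hγw : HasFDerivAt γ (fderiv ℂ γ (s', w)) (s', w) :=
      (hγ.differentiableAt (Metric.isOpen_ball.mem_nhds hpw)).hasFDerivAt
    have hinr : HasFDerivAt (fun w : ι → ℂ => (s', w))
        (ContinuousLinearMap.inr ℂ (ι → ℂ) (ι → ℂ)) w := hasFDerivAt_prodMk_right s' w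
    have hcomp : HasFDerivAt (fun w : ι → ℂ => γ (s', w))
        ((fderiv ℂ γ (s', w)).comp (ContinuousLinearMap.inr ℂ (ι → ℂ) (ι → ℂ))) w :=
      hγw.comp w hinr
    have h1 : ∀ j, HasFDerivAt (fun w : ι → ℂ => J' j (γ (s', w) j))
        ((ContinuousLinearMap.smulRight (1 : ℂ →L[ℂ] ℂ) (a' j (γ (s', w) j))).comp
          ((ContinuousLinearMap.proj (R := ℂ) (φ := fun _ : ι => ℂ) j).comp
            ((fderiv ℂ γ (s', w)).comp (ContinuousLinearMap.inr ℂ (ι → ℂ) (ι → ℂ))))) w := by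
      intro j
      have hj : HasFDerivAt (fun w : ι → ℂ => γ (s', w) j)
          ((ContinuousLinearMap.proj (R := ℂ) (φ := fun _ : ι => ℂ) j).comp
            ((fderiv ℂ γ (s', w)).comp (ContinuousLinearMap.inr ℂ (ι → ℂ) (ι → ℂ)))) w :=
        (ContinuousLinearMap.proj (R := ℂ) (φ := fun _ : ι => ℂ) j).hasFDerivAt.comp w hcomp
      have hin : γ (s', w) j ∈ Metric.ball (0 : ℂ) (r' j) := by
        rw [mem_ball_zero_iff]; exact hγr _ hpw j
      exact (hJ' j _ hin).hasFDerivAt.comp w hj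
    have h2 : ∀ i, HasFDerivAt (fun w : ι → ℂ => J i (w i))
        ((ContinuousLinearMap.smulRight (1 : ℂ →L[ℂ] ℂ) (a i (w i))).comp
          (ContinuousLinearMap.proj (R := ℂ) (φ := fun _ : ι => ℂ) i)) w := by
      intro i
      have hin : w i ∈ Metric.ball (0 : ℂ) (r i) := by
        rw [mem_ball_zero_iff] at hw ⊢
        exact lt_of_lt_of_le (lt_of_le_of_lt (norm_le_pi_norm w i) hw) (hεr i)
      exact (hJ i _ hin).hasFDerivAt.comp w
        (ContinuousLinearMap.proj (R := ℂ) (φ := fun _ : ι => ℂ) i).hasFDerivAt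
    have h3 := (HasFDerivAt.fun_sum fun j (_ : j ∈ Finset.univ) => h1 j).sub
      (HasFDerivAt.fun_sum fun i (_ : i ∈ Finset.univ) => h2 i)
    have hzero : (∑ j, (ContinuousLinearMap.smulRight (1 : ℂ →L[ℂ] ℂ) (a' j (γ (s', w) j))).comp
          ((ContinuousLinearMap.proj (R := ℂ) (φ := fun _ : ι => ℂ) j).comp
            ((fderiv ℂ γ (s', w)).comp (ContinuousLinearMap.inr ℂ (ι → ℂ) (ι → ℂ)))))
        - (∑ i, (ContinuousLinearMap.smulRight (1 : ℂ →L[ℂ] ℂ) (a i (w i))).comp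
          (ContinuousLinearMap.proj (R := ℂ) (φ := fun _ : ι => ℂ) i))
        = (0 : (ι → ℂ) →L[ℂ] G) := by
      refine ContinuousLinearMap.ext fun v => ?_
      have hv := hder (s', w) hpw v
      have h4 : ((∑ j, (ContinuousLinearMap.smulRight (1 : ℂ →L[ℂ] ℂ) (a' j (γ (s', w) j))).comp
          ((ContinuousLinearMap.proj (R := ℂ) (φ := fun _ : ι => ℂ) j).comp
            ((fderiv ℂ γ (s', w)).comp (ContinuousLinearMap.inr ℂ (ι → ℂ) (ι → ℂ)))))
        - (∑ i, (ContinuousLinearMap.smulRight (1 : ℂ →L[ℂ] ℂ) (a i (w i))).comp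
          (ContinuousLinearMap.proj (R := ℂ) (φ := fun _ : ι => ℂ) i))) v
          = ∑ j, (fderiv ℂ γ (s', w) (0, v)) j • a' j (γ (s', w) j) - ∑ i, v i • a i (w i) := by
        simp
      rw [h4, hv]
      simp
    rw [hzero] at h3
    exact h3
  have hconst : Ψ s = Ψ s' := by
    refine (convex_ball (0 : ι → ℂ) ε).is_const_of_fderivWithin_eq_zero (𝕜 := ℂ)
      (fun w hw => (hΨ w hw).differentiableAt.differentiableWithinAt) (fun w hw => ?_)
      (mem_ball_zero_iff.mpr hp'.2) (mem_ball_zero_iff.mpr hp'.1)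
    rw [fderivWithin_of_isOpen Metric.isOpen_ball hw]
    exact (hΨ w hw).fderiv
  have hΨs' : Ψ s' = - ∑ i, J i (s' i) := by
    simp only [Ψ]
    rw [hγ0 s' hp'.1]
    simp [hJ'0]
  have hΨs : Ψ s = ∑ j, J' j (γ (s', s) j) - ∑ i, J i (s i) := rfl
  rw [hΨs, hΨs'] at hconst
  rw [Finset.sum_sub_distrib]
  have := sub_eq_iff_eq_add.mp hconst
  rw [this]
  abel

end Analysis

/-! ## The assembly -/

theorem gls_of_move (hNB : Stmt_NonspecialBasis.{0, 0}) (hM : Stmt_GLSMove) : Stmt_GLS := by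
  intro F _ _ x hx _ e x₀ c u' Q Q' r r' J J' hc hQ hQ' hunr hinj _hA hB hdisj
  obtain ⟨ε, hε, γ, hγd, hγ0, hεr, hγr, hprin, hder⟩ :=
    hM F x hx e x₀ c u' Q Q' r r' hc (fun i => (hQ i).chart) (fun j => (hQ' j).chart)
      hunr hinj hB hdisj
  -- local injectivity of the `B`-side abelian sum
  have hord : ∀ j, (Q' j 0).ord (u' j) = 1 := by
    intro j
    have := (hQ' j).chart.unif 0 (Metric.mem_ball_self (hQ' j).chart.pos)
    simpa using this
  have hli0 : LinearIndependent ℂ (fun j => pp (Q' j 0) (u' j)⁻¹) :=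
    hNB ℂ F x hx (fun j => Q' j 0) u' hinj hord hB
  have hli : LinearIndependent ℂ (fun j => chartCoef e (u' j) (Q' j) 0) := by
    have h1 := hli0.map' e.toLinearMap (LinearEquiv.ker e)
    have h2 : (fun j => chartCoef e (u' j) (Q' j) 0)
        = (e.toLinearMap ∘ fun j => pp (Q' j 0) (u' j)⁻¹) := by
      funext j
      simp [chartCoef]
    rw [h2]; exact h1
  obtain ⟨δ, hδ, hinjΦ⟩ := exists_injOn_sum J' (fun j s => chartCoef e (u' j) (Q' j) s) r'
    (fun j => (hQ' j).chart.pos) (fun j s hs => (hQ' j).deriv s hs) hli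
  -- continuity of `γ` at the origin
  have h00 : γ (0, 0) = 0 := hγ0 0 (by simpa using hε)
  have hcont : ContinuousAt γ 0 :=
    (hγd.differentiableAt (Metric.isOpen_ball.mem_nhds (Metric.mem_ball_self hε))).continuousAt
  have hev : ∀ᶠ p in 𝓝 (0 : (Fin (genusFF ℂ F) → ℂ) × (Fin (genusFF ℂ F) → ℂ)),
      γ p ∈ Metric.ball (0 : Fin (genusFF ℂ F) → ℂ) δ := by
    have h0 : γ 0 = 0 := h00
    have : Metric.ball (0 : Fin (genusFF ℂ F) → ℂ) δ ∈ 𝓝 (γ 0) := by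
      rw [h0]; exact Metric.ball_mem_nhds _ hδ
    exact hcont this
  obtain ⟨η, hη, hηball⟩ := Metric.eventually_nhds_iff_ball.mp hev
  refine ⟨min (min η ε) δ, lt_min (lt_min hη hε) hδ, ?_⟩
  intro s s' σ hs hs' hσ hsum
  have hε' : 0 < min (min η ε) δ := lt_min (lt_min hη hε) hδ
  have hsn : ‖s‖ < min (min η ε) δ := (pi_norm_lt_iff hε').mpr hs
  have hs'n : ‖s'‖ < min (min η ε) δ := (pi_norm_lt_iff hε').mpr hs'
  have hσn : ‖σ‖ < min (min η ε) δ := (pi_norm_lt_iff hε').mpr hσ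
  have hpn : ‖((s', s) : (Fin (genusFF ℂ F) → ℂ) × (Fin (genusFF ℂ F) → ℂ))‖
      < min (min η ε) δ := by
    rw [Prod.norm_def]; exact max_lt hs'n hsn
  have hpε : ((s', s) : (Fin (genusFF ℂ F) → ℂ) × (Fin (genusFF ℂ F) → ℂ))
      ∈ Metric.ball (0 : (Fin (genusFF ℂ F) → ℂ) × (Fin (genusFF ℂ F) → ℂ)) ε := by
    rw [mem_ball_zero_iff]
    exact lt_of_lt_of_le hpn (le_trans (min_le_left _ _) (min_le_right _ _))
  have hpη : ((s', s) : (Fin (genusFF ℂ F) → ℂ) × (Fin (genusFF ℂ F) → ℂ))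
      ∈ Metric.ball (0 : (Fin (genusFF ℂ F) → ℂ) × (Fin (genusFF ℂ F) → ℂ)) η := by
    rw [mem_ball_zero_iff]
    exact lt_of_lt_of_le hpn (le_trans (min_le_left _ _) (min_le_left _ _))
  have hγδ : γ (s', s) ∈ Metric.ball (0 : Fin (genusFF ℂ F) → ℂ) δ := hηball _ hpη
  have hσδ : σ ∈ Metric.ball (0 : Fin (genusFF ℂ F) → ℂ) δ := by
    rw [mem_ball_zero_iff]
    exact lt_of_lt_of_le hσn (min_le_right _ _)
  have hint := sum_eq_of_deriv_identity ε γ J J'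
    (fun i s => chartCoef e (x₀ - algebraMap ℂ F (c i)) (Q i) s)
    (fun j s => chartCoef e (u' j) (Q' j) s) r r' hγd hγ0 hεr hγr
    (fun i s hs => (hQ i).deriv s hs) (fun j s hs => (hQ' j).deriv s hs)
    (fun j => (hQ' j).zero) hder (s', s) hpε
  have hσγ : σ = γ (s', s) := by
    apply hinjΦ hσδ hγδ
    show ∑ j, J' j (σ j) = ∑ j, J' j (γ (s', s) j)
    rw [hsum, hint]
  have := hprin (s', s) hpε
  rw [hσγ]
  exact this

end

end Fermat.Agent.S27.helper3591
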