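import Fermat.Agent.S27.helper3351_WSpec
import Fermat.Agent.S27.helper931_Transport

/-!
# S27, algebraic route: `Stmt_Transport`

The interface `helper3351.Stmt_Transport` (invariance of the genus and of the torsion of `Pic⁰`
under `K`-isomorphisms of function fields) is the `AlgEquiv` case of the transport library
`helper931_Transport`.
-/

set_option autoImplicit false

namespace Fermat.Agent.S27.helper3600

universe u v w

/-- **S27-ALG-TR**: the genus and the torsion of `Pic⁰` are invariant under `K`-isomorphisms
of function fields. -/
theorem stmt_Transport : helper3351.Stmt_Transport.{u, v, w} :=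
  fun _ _ _ _ _ _ _ _ e =>
    ⟨helper931.genusFF_eq (helper931.Compat.of_algEquiv e),
      fun n => helper931.natCard_torsion_eq (helper931.Compat.of_algEquiv e) n⟩

end Fermat.Agent.S27.helper3600
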