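import Fermat.Agent.S27.helper6247_Spec
import Fermat.Agent.S24.helper204_Places

/-!
# S27, Spec leaves `Stmt_Ev` and `Stmt_GenericUnram` (helper3645)

* `ev_holds : helper6247.Stmt_Ev` : evaluation at a place is a `K`-algebra homomorphism on the
  valuation ring, with kernel the maximal ideal.
* `genericUnram_holds : helper6247.Stmt_GenericUnram` : a transcendental `u` is a local
  coordinate at all but finitely many places (the exceptions are the poles of `u` and the
  places dividing the different of the integral closure of `K[u]`).

Also exported (any field `K`, no hypotheses): `adicValuation_lt_one_iff`, `ev_eq_of_lt`,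
`ev_eq_of_ord_pos`, `ev_algebraMap`.
-/

set_option autoImplicit false

open AlgebraicCurve IntermediateField Polynomial

namespace Fermat.Agent.S27.helper3645

open Fermat.Agent.S27.helper6247

section Basic

variable {K : Type*} {F : Type*} [Field K] [Field F] [Algebra K F]

/-- The adic valuation of `g` at a place is `< 1` iff `g = 0` or `g` has positive order. -/
theorem adicValuation_lt_one_iff (P : Place K F) (g : F) :
    P.adicValuation g < 1 ↔ g = 0 ∨ 0 < P.ord g := by
  rcases eq_or_ne g 0 with rfl | hg
  · simp
  · have h0 := P.adicValuation_ne_zero hg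
    simp only [hg, false_or]
    unfold Place.ord
    rw [neg_pos, ← WithZero.log_one, WithZero.log_lt_log h0 one_ne_zero]

/-- The adic valuation of `g` at a place is `≤ 1` as soon as `g` has nonnegative order. -/
theorem adicValuation_le_one_of_ord_nonneg (P : Place K F) {g : F} (hg : 0 ≤ P.ord g) :
    P.adicValuation g ≤ 1 := by
  rcases eq_or_ne g 0 with rfl | hg0
  · simp
  · have h0 := P.adicValuation_ne_zero hg0
    unfold Place.ord at hg
    rw [neg_nonneg, ← WithZero.log_one, WithZero.log_le_log h0 one_ne_zero] at hg
    exact hg

/-- Nonzero constants have adic valuation exactly `1`; in particular a constant of adic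
valuation `< 1` is zero. -/
theorem eq_zero_of_adicValuation_algebraMap_lt_one (P : Place K F) {a : K}
    (h : P.adicValuation (algebraMap K F a) < 1) : a = 0 := by
  rcases (adicValuation_lt_one_iff P _).mp h with h0 | h0
  · exact (map_eq_zero (algebraMap K F)).mp h0
  · rw [Fermat.Agent.S24.helper204.ord_algebraMap_eq_zero] at h0
    exact absurd h0 (lt_irrefl _)

/-- `ev P f = c` as soon as `f - c` has adic valuation `< 1` at `P`. -/
theorem ev_eq_of_lt (P : Place K F) {f : F} {c : K}
    (h : P.adicValuation (f - algebraMap K F c) < 1) : ev P f = c := by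
  have hex : ∃ c : K, P.adicValuation (f - algebraMap K F c) < 1 := ⟨c, h⟩
  unfold ev
  rw [dif_pos hex]
  have h' := hex.choose_spec
  have hsub : algebraMap K F (hex.choose - c)
      = (f - algebraMap K F c) - (f - algebraMap K F hex.choose) := by
    rw [map_sub]; ring
  have hlt : P.adicValuation (algebraMap K F (hex.choose - c)) < 1 := by
    rw [hsub]
    exact lt_of_le_of_lt (Valuation.map_sub _ _ _) (max_lt h h')
  exact sub_eq_zero.mp (eq_zero_of_adicValuation_algebraMap_lt_one P hlt)

/-- `ev P f = c` as soon as `f - c` has positive order at `P`. -/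
theorem ev_eq_of_ord_pos (P : Place K F) {f : F} {c : K}
    (h : 0 < P.ord (f - algebraMap K F c)) : ev P f = c :=
  ev_eq_of_lt P ((adicValuation_lt_one_iff P _).mpr (Or.inr h))

/-- `ev P` is the identity on constants. -/
theorem ev_algebraMap (P : Place K F) (c : K) : ev P (algebraMap K F c) = c :=
  ev_eq_of_lt P (by simp)

/-- If `f - c` has adic valuation `< 1`, then `f` has nonnegative order. -/
theorem adicValuation_sub_ev_lt (P : Place K F) {f : F}
    (hex : ∃ c : K, P.adicValuation (f - algebraMap K F c) < 1) :
    P.adicValuation (f - algebraMap K F (ev P f)) < 1 := by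
  obtain ⟨c, hc⟩ := hex
  rw [ev_eq_of_lt P hc]
  exact hc

/-- Additivity of `ev` on elements having a value. -/
theorem ev_add_of_lt (P : Place K F) {f g : F} {a b : K}
    (hf : P.adicValuation (f - algebraMap K F a) < 1)
    (hg : P.adicValuation (g - algebraMap K F b) < 1) :
    ev P (f + g) = a + b := by
  apply ev_eq_of_lt
  have : f + g - algebraMap K F (a + b) = (f - algebraMap K F a) + (g - algebraMap K F b) := by
    rw [map_add]; ring
  rw [this]
  exact Valuation.map_add_lt _ hf hg

/-- Multiplicativity of `ev` on elements having a value. -/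
theorem ev_mul_of_lt (P : Place K F) {f g : F} {a b : K}
    (hf : P.adicValuation (f - algebraMap K F a) < 1)
    (hg : P.adicValuation (g - algebraMap K F b) < 1) (hg0 : P.adicValuation g ≤ 1) :
    ev P (f * g) = a * b := by
  apply ev_eq_of_lt
  have : f * g - algebraMap K F (a * b)
      = (f - algebraMap K F a) * g + algebraMap K F a * (g - algebraMap K F b) := by
    rw [map_mul]; ring
  rw [this]
  apply Valuation.map_add_lt
  · rw [map_mul]
    calc P.adicValuation (f - algebraMap K F a) * P.adicValuation g
        ≤ P.adicValuation (f - algebraMap K F a) * 1 := mul_le_mul' le_rfl hg0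
      _ = P.adicValuation (f - algebraMap K F a) := mul_one _
      _ < 1 := hf
  · rw [map_mul]
    have ha : P.adicValuation (algebraMap K F a) ≤ 1 :=
      adicValuation_le_one_of_ord_nonneg P
        (le_of_eq (Fermat.Agent.S24.helper204.ord_algebraMap_eq_zero P a).symm)
    calc P.adicValuation (algebraMap K F a) * P.adicValuation (g - algebraMap K F b)
        ≤ 1 * P.adicValuation (g - algebraMap K F b) := mul_le_mul' ha le_rfl
      _ = P.adicValuation (g - algebraMap K F b) := one_mul _
      _ < 1 := hg

end Basic

section Value

open Fermat.Agent.S24.helper204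

variable {K : Type*} {F : Type*} [Field K] [Field F] [Algebra K F]

/-- Every element of nonnegative order at a place has a value in `K`
(`K` algebraically closed, `F` finite over `K(x)`). -/
theorem exists_value [IsAlgClosed K] (x : F) [FiniteDimensional K⟮x⟯ F]
    (P : Place K F) {f : F} (hf : 0 ≤ P.ord f) :
    ∃ c : K, P.adicValuation (f - algebraMap K F c) < 1 := by
  by_cases hfK : f ∈ Set.range (algebraMap K F)
  · obtain ⟨a, rfl⟩ := hfK
    exact ⟨a, by simp⟩
  · have hft : Transcendental K f := transcendental_of_not_mem_range hfK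
    have : FiniteDimensional K⟮f⟯ F := finiteDimensional_adjoin_of_transcendental (x := x) hft
    rcases place_center f hft P with hneg | ⟨c, hc, -⟩
    · exact absurd hf (not_le.mpr hneg)
    · exact ⟨c, (adicValuation_lt_one_iff P _).mpr (Or.inr hc)⟩

end Value

/-- **Spec leaf `Stmt_Ev`.** -/
theorem ev_holds.{u, v} : Stmt_Ev.{u, v} := by
  intro K F _ _ _ _ _ x _ _ P
  refine ⟨fun c => ev_algebraMap P c, ?_, ?_, ?_⟩
  · intro f g hf hg
    obtain ⟨a, ha⟩ := exists_value x P hf
    obtain ⟨b, hb⟩ := exists_value x P hg
    rw [ev_add_of_lt P ha hb,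
      ev_mul_of_lt P ha hb (adicValuation_le_one_of_ord_nonneg P hg),
      ev_eq_of_lt P ha, ev_eq_of_lt P hb]
    exact ⟨rfl, rfl⟩
  · intro f hf
    obtain ⟨a, ha⟩ := exists_value x P hf
    rw [ev_eq_of_lt P ha]
    constructor
    · rintro rfl
      rw [map_zero, sub_zero] at ha
      exact (adicValuation_lt_one_iff P f).mp ha
    · intro h
      have h0 : P.adicValuation (f - algebraMap K F 0) < 1 := by
        rw [map_zero, sub_zero]
        exact (adicValuation_lt_one_iff P f).mpr h
      rw [← ev_eq_of_lt P ha, ev_eq_of_lt P h0]
  · intro f c h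
    exact ev_eq_of_ord_pos P h

section Unram

open scoped IntermediateField.algebraAdjoinAdjoin

open Fermat.Agent.S24.helper204 IsDedekindDomain

variable {K : Type*} {F : Type*} [Field K] [Field F] [Algebra K F]

/-- The different ideal of the integral closure of `K[u]` in `F` is nonzero (characteristic 0). -/
theorem differentIdeal_ne_bot_adjoin [CharZero K] (u : F) [FiniteDimensional K⟮u⟯ F] :
    differentIdeal (Algebra.adjoin K {u}) (integralClosure (Algebra.adjoin K {u}) F) ≠ ⊥ := by
  rw [ne_eq, ← FractionalIdeal.coeIdeal_inj (K := F),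
    coeIdeal_differentIdeal (Algebra.adjoin K {u}) K⟮u⟯ F
      (integralClosure (Algebra.adjoin K {u}) F)]
  simp

/-- A transcendental `u` with `F` finite over `K(u)` is a local coordinate at all but finitely
many places: the exceptions are poles of `u` or places dividing the different. -/
theorem genericUnram_of_finite [IsAlgClosed K] [CharZero K] (u : F) (hu : Transcendental K u)
    [FiniteDimensional K⟮u⟯ F] :
    {P : Place K F | ¬ ∃ c : K, P.ord (u - algebraMap K F c) = 1}.Finite := by
  classical
  obtain ⟨sI, hsI, -⟩ := exists_finset_poles u hu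
  have hdiff := differentIdeal_ne_bot_adjoin (K := K) u
  have hfin : {w : HeightOneSpectrum (integralClosure (Algebra.adjoin K {u}) F) |
      w.asIdeal ∣ differentIdeal (Algebra.adjoin K {u})
        (integralClosure (Algebra.adjoin K {u}) F)}.Finite := Ideal.finite_factors hdiff
  refine ((sI.finite_toSet).union
    (hfin.image (Place.ofHeightOneSpectrum (K := K) (F := F)))).subset ?_
  intro P hP
  by_cases hneg : P.ord u < 0
  · exact Or.inl ((hsI P).mpr hneg)
  · right
    rcases place_center u hu P with h | ⟨c, hc, -⟩
    · exact absurd h hneg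
    obtain ⟨w, hw1, hw2⟩ := exists_heightOneSpectrum_of_ord_pos hu c P hc
    refine ⟨w, ?_, hw2⟩
    have he := ord_ofHeightOneSpectrum_eq_ramificationIdx hu c w
    rw [hw2] at he
    have hne1 : P.ord (u - algebraMap K F c) ≠ 1 := fun h => hP ⟨c, h⟩
    have h2 : 2 ≤ (pc K u c).ramificationIdx' w.asIdeal := by omega
    have hdvd : w.asIdeal ^ 2 ∣ (pc K u c).map (algebraMap (Algebra.adjoin K {u})
        (integralClosure (Algebra.adjoin K {u}) F)) := by
      rw [Ideal.dvd_iff_le]
      exact Ideal.le_pow_ramificationIdx'.trans (Ideal.pow_le_pow_right h2)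
    have hmax := pc_isMaximal hu c
    have key := pow_sub_one_dvd_differentIdeal_aux (Algebra.adjoin K {u}) K⟮u⟯ F
      (p := pc K u c) w.asIdeal (e := 2) (by norm_num) (pc_ne_bot hu c) hdvd
    simpa using key

end Unram

/-- **Spec leaf `Stmt_GenericUnram`.** -/
theorem genericUnram_holds.{u, v} : Stmt_GenericUnram.{u, v} := by
  intro K F _ _ _ _ _ x _ _ u hu
  have : FiniteDimensional K⟮u⟯ F :=
    Fermat.Agent.S24.helper204.finiteDimensional_adjoin_of_transcendental (x := x) hu
  exact genericUnram_of_finite u hu

end Fermat.Agent.S27.helper3645
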