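import Mathlib
import Fermat.Agent.S27.helper1197_FieldKit

/-!
# S27, module L (Lefschetz transfer): DOWN — countable models (helper70)

Mathlib-only (plus the field kit `helper1197_FieldKit`).

Let `F` be a finite extension of `K⟮x⟯`, `K` algebraically closed.  For countable sets
`S ⊆ K` and `T ⊆ F` we construct a countable algebraically closed subfield `K0 ⊆ K` containing
`S` and a countable intermediate field `K0 ⊆ F0 ⊆ F` containing `x` and `T` such that `F0` is
finite over `K0(x)`, `F = K · F0` (generation) and `K`, `F0` are linearly disjoint over `K0`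
(`K0`-linearly independent families of `K` stay `F0`-linearly independent in `F`).

Design: no plane model, no primitive element.  Fix a `K⟮x⟯`-basis `b` of `F`; `F0` is the set of
elements of `F` all of whose `b`-coordinates lie in `K0(x)`, where `K0` contains the coefficients
of numerators and denominators of the coordinates of `1`, of the products `b i * b j` and of the
elements of `T`.
-/

set_option autoImplicit false
set_option linter.unusedSectionVars false

open Polynomial IntermediateField

namespace Fermat.Agent.S27.helper70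

universe u v

section Frac

variable {K : Type u} {F : Type v} [Field K] [Field F] [Algebra K F]

/-- Elements of `K⟮x⟯` are fractions of polynomial expressions in `x`. -/
theorem exists_frac {x : F} {r : F} (hr : r ∈ K⟮x⟯) :
    ∃ p q : K[X], aeval x q ≠ 0 ∧ r * aeval x q = aeval x p := by
  obtain ⟨p, q, rfl⟩ := (IntermediateField.mem_adjoin_simple_iff K r).mp hr
  by_cases hq : aeval x q = 0
  · exact ⟨0, 1, by simp, by simp [hq]⟩
  · exact ⟨p, q, hq, div_mul_cancel₀ _ hq⟩

/-- Polynomial expressions in `x` lie in `K⟮x⟯`. -/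
theorem aeval_mem_adjoin_simple (x : F) (p : K[X]) : aeval x p ∈ K⟮x⟯ :=
  IntermediateField.algebra_adjoin_le_adjoin K {x} (Polynomial.aeval_mem_adjoin_singleton K x)

/-- `K⟮x⟯` is countable when `K` is. -/
theorem countable_adjoin_simple [Countable K] (x : F) : Countable K⟮x⟯ := by
  have hK : Countable K[X] := by
    rw [← Cardinal.mk_le_aleph0_iff]
    exact Polynomial.cardinalMk_le_max.trans (max_le Cardinal.mk_le_aleph0 le_rfl)
  let φ : K[X] × K[X] → F := fun pq => aeval x pq.1 / aeval x pq.2
  have hsub : (K⟮x⟯ : Set F) ⊆ Set.range φ := by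
    intro r hr
    obtain ⟨p, q, rfl⟩ := (IntermediateField.mem_adjoin_simple_iff K r).mp hr
    exact ⟨(p, q), rfl⟩
  exact ((Set.countable_range φ).mono hsub).to_subtype

end Frac

section Model

variable {K : Type u} {F : Type v} [Field K] [Field F] [Algebra K F] (x : F)
  {ι : Type} [Fintype ι] (b : Module.Basis ι K⟮x⟯ F) (K0 : Subfield K)

/-- `K0(x)` as an intermediate field of `F / K0`. -/
abbrev subX : IntermediateField K0 F := IntermediateField.adjoin K0 {x}

theorem subX_le {r : F} (hr : r ∈ subX x K0) : r ∈ K⟮x⟯ := by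
  have h : subX x K0 ≤ (K⟮x⟯).restrictScalars K0 := by
    rw [IntermediateField.adjoin_le_iff]
    intro y hy
    rw [Set.mem_singleton_iff] at hy
    subst hy
    exact IntermediateField.mem_adjoin_simple_self K y
  exact h hr

/-- The elements of `F` all of whose `b`-coordinates lie in `K0(x)`. -/
def coordGroup : AddSubgroup F where
  carrier := {f | ∀ j, ((b.repr f j : K⟮x⟯) : F) ∈ subX x K0}
  zero_mem' := fun j => by simp
  add_mem' := fun {f g} hf hg j => by
    have h : ((b.repr (f + g) j : K⟮x⟯) : F) = (b.repr f j : F) + (b.repr g j : F) := by simp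
    rw [h]
    exact add_mem (hf j) (hg j)
  neg_mem' := fun {f} hf j => by
    have h : ((b.repr (-f) j : K⟮x⟯) : F) = -(b.repr f j : F) := by simp
    rw [h]
    exact neg_mem (hf j)

theorem mem_coordGroup {f : F} :
    f ∈ coordGroup x b K0 ↔ ∀ j, ((b.repr f j : K⟮x⟯) : F) ∈ subX x K0 := Iff.rfl

theorem smul_mem_coordGroup {r : K⟮x⟯} (hr : (r : F) ∈ subX x K0) {f : F}
    (hf : f ∈ coordGroup x b K0) : r • f ∈ coordGroup x b K0 := by
  intro j
  have h : ((b.repr (r • f) j : K⟮x⟯) : F) = (r : F) * (b.repr f j : F) := by simp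
  rw [h]
  exact mul_mem hr (hf j)

theorem basis_mem_coordGroup (i : ι) : b i ∈ coordGroup x b K0 := by
  classical
  intro j
  rw [b.repr_self, Finsupp.single_apply]
  split_ifs
  · exact one_mem _
  · exact zero_mem _

theorem mul_mem_coordGroup (hmul : ∀ i j, b i * b j ∈ coordGroup x b K0) {f g : F}
    (hf : f ∈ coordGroup x b K0) (hg : g ∈ coordGroup x b K0) :
    f * g ∈ coordGroup x b K0 := by
  have h : f * g = ∑ i, ∑ j, (b.repr f i * b.repr g j) • (b i * b j) := by
    conv_lhs => rw [← b.sum_repr f, ← b.sum_repr g]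
    rw [Finset.sum_mul_sum]
    refine Finset.sum_congr rfl fun i _ => Finset.sum_congr rfl fun j _ => ?_
    rw [smul_mul_smul_comm]
  rw [h]
  refine sum_mem fun i _ => sum_mem fun j _ => smul_mem_coordGroup x b K0 ?_ (hmul i j)
  exact mul_mem (hf i) (hg j)

theorem subX_mem_coordGroup (h1 : 1 ∈ coordGroup x b K0) {r : F} (hr : r ∈ subX x K0) :
    r ∈ coordGroup x b K0 := by
  have h : r = (⟨r, subX_le x K0 hr⟩ : K⟮x⟯) • (1 : F) := by
    rw [Algebra.smul_def, mul_one]
    rfl
  rw [h]
  exact smul_mem_coordGroup x b K0 hr h1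

/-- The coordinate set as a subalgebra over `K0(x)`. -/
def coordAlg (h1 : 1 ∈ coordGroup x b K0) (hmul : ∀ i j, b i * b j ∈ coordGroup x b K0) :
    Subalgebra (subX x K0) F where
  carrier := coordGroup x b K0
  mul_mem' := mul_mem_coordGroup x b K0 hmul
  one_mem' := h1
  add_mem' := add_mem
  zero_mem' := zero_mem _
  algebraMap_mem' := fun r => subX_mem_coordGroup x b K0 h1 r.2

theorem coordAlg_fg (h1 : 1 ∈ coordGroup x b K0)
    (hmul : ∀ i j, b i * b j ∈ coordGroup x b K0) :
    (Subalgebra.toSubmodule (coordAlg x b K0 h1 hmul)).FG := by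
  have hle : Subalgebra.toSubmodule (coordAlg x b K0 h1 hmul) ≤
      Submodule.span (subX x K0) (Set.range b) := by
    intro f hf
    have hf' : ∀ j, ((b.repr f j : K⟮x⟯) : F) ∈ subX x K0 := hf
    have h : f = ∑ j, (⟨_, hf' j⟩ : subX x K0) • b j := by
      conv_lhs => rw [← b.sum_repr f]
      refine Finset.sum_congr rfl fun j _ => ?_
      rw [Algebra.smul_def, Algebra.smul_def]
      rfl
    rw [h]
    exact Submodule.sum_mem _ fun j _ =>
      Submodule.smul_mem _ _ (Submodule.subset_span ⟨j, rfl⟩)
  have h1 : FiniteDimensional (subX x K0) (Submodule.span (subX x K0) (Set.range b)) :=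
    FiniteDimensional.span_of_finite _ (Set.finite_range b)
  have h2 := Submodule.finiteDimensional_of_le hle
  exact (Submodule.fg_iff_finiteDimensional _).mpr h2

theorem inv_mem_coordGroup (h1 : 1 ∈ coordGroup x b K0)
    (hmul : ∀ i j, b i * b j ∈ coordGroup x b K0) {f : F} (hf : f ∈ coordGroup x b K0) :
    f⁻¹ ∈ coordGroup x b K0 := by
  have hint : IsIntegral (subX x K0) f :=
    IsIntegral.of_mem_of_fg (coordAlg x b K0 h1 hmul) (coordAlg_fg x b K0 h1 hmul) f hf
  exact Subalgebra.inv_mem_of_algebraic (coordAlg x b K0 h1 hmul) (x := ⟨f, hf⟩)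
    hint.isAlgebraic

/-- The model field `F0`: elements of `F` with coordinates in `K0(x)`. -/
def modelField (h1 : 1 ∈ coordGroup x b K0) (hmul : ∀ i j, b i * b j ∈ coordGroup x b K0) :
    IntermediateField K0 F where
  carrier := coordGroup x b K0
  mul_mem' := mul_mem_coordGroup x b K0 hmul
  one_mem' := h1
  add_mem' := add_mem
  zero_mem' := zero_mem _
  algebraMap_mem' := fun a => subX_mem_coordGroup x b K0 h1 (IntermediateField.algebraMap_mem _ a)
  inv_mem' := fun _ hf => inv_mem_coordGroup x b K0 h1 hmul hf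

theorem aeval_mem_subX (p : K[X]) (hp : ∀ n, p.coeff n ∈ K0) : aeval x p ∈ subX x K0 := by
  have h : p ∈ Polynomial.lifts (algebraMap K0 K) := by
    rw [Polynomial.lifts_iff_coeff_lifts]
    intro n
    exact ⟨⟨p.coeff n, hp n⟩, rfl⟩
  obtain ⟨q, rfl⟩ := (Polynomial.mem_lifts _).mp h
  rw [Polynomial.aeval_map_algebraMap]
  exact aeval_mem_adjoin_simple x q

variable (h1 : 1 ∈ coordGroup x b K0) (hmul : ∀ i j, b i * b j ∈ coordGroup x b K0)

theorem mem_modelField {f : F} :
    f ∈ modelField x b K0 h1 hmul ↔ ∀ j, ((b.repr f j : K⟮x⟯) : F) ∈ subX x K0 := Iff.rfl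

theorem x_mem_modelField : x ∈ modelField x b K0 h1 hmul :=
  subX_mem_coordGroup x b K0 h1 (IntermediateField.mem_adjoin_simple_self K0 x)

theorem basis_mem_modelField (i : ι) : b i ∈ modelField x b K0 h1 hmul :=
  basis_mem_coordGroup x b K0 i

theorem countable_modelField [Countable K0] : Countable (modelField x b K0 h1 hmul) := by
  have hc : Countable (subX x K0) := countable_adjoin_simple x
  let φ : modelField x b K0 h1 hmul → (ι → subX x K0) := fun f j => ⟨_, f.2 j⟩
  have hφ : Function.Injective φ := by
    intro f g hfg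
    apply Subtype.ext
    apply b.repr.injective
    ext j
    have h : ((φ f j : subX x K0) : F) = ((φ g j : subX x K0) : F) := by rw [hfg]
    exact h
  exact hφ.countable

theorem transcendental_modelField (hx : Transcendental K x) :
    Transcendental K0
      (⟨x, x_mem_modelField x b K0 h1 hmul⟩ : modelField x b K0 h1 hmul) := by
  have h0 : Transcendental K0 x := hx.restrictScalars (algebraMap K0 K).injective
  exact (transcendental_algebraMap_iff (R := K0) (S := modelField x b K0 h1 hmul) (A := F)
    (a := ⟨x, x_mem_modelField x b K0 h1 hmul⟩)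
    (algebraMap (modelField x b K0 h1 hmul) F).injective).mp h0

theorem finite_modelField :
    FiniteDimensional
      (IntermediateField.adjoin K0
        {(⟨x, x_mem_modelField x b K0 h1 hmul⟩ : modelField x b K0 h1 hmul)})
      (modelField x b K0 h1 hmul) := by
  have hlift : ∀ r : F, r ∈ subX x K0 → ∃ c : modelField x b K0 h1 hmul,
      c ∈ IntermediateField.adjoin K0
        {(⟨x, x_mem_modelField x b K0 h1 hmul⟩ : modelField x b K0 h1 hmul)} ∧ (c : F) = r := by
    intro r hr
    have hmap : (IntermediateField.adjoin K0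
        {(⟨x, x_mem_modelField x b K0 h1 hmul⟩ : modelField x b K0 h1 hmul)}).map
          (modelField x b K0 h1 hmul).val = subX x K0 := by
      rw [IntermediateField.adjoin_map]
      simp
    rw [← hmap] at hr
    obtain ⟨c, hc, rfl⟩ := hr
    exact ⟨c, hc, rfl⟩
  let g : ι → modelField x b K0 h1 hmul := fun i => ⟨b i, basis_mem_modelField x b K0 h1 hmul i⟩
  have hspan : Submodule.span (IntermediateField.adjoin K0
      {(⟨x, x_mem_modelField x b K0 h1 hmul⟩ : modelField x b K0 h1 hmul)}) (Set.range g) = ⊤ := by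
    rw [eq_top_iff]
    rintro f -
    choose c hc hcr using fun j => hlift _ (f.2 j)
    have hf : f = ∑ j, (⟨c j, hc j⟩ : IntermediateField.adjoin K0
        {(⟨x, x_mem_modelField x b K0 h1 hmul⟩ : modelField x b K0 h1 hmul)}) • g j := by
      apply Subtype.ext
      rw [AddSubmonoidClass.coe_finsetSum]
      conv_lhs => rw [← b.sum_repr (f : F)]
      refine Finset.sum_congr rfl fun j _ => ?_
      rw [Algebra.smul_def, Algebra.smul_def]
      show _ = (c j : F) * b j
      rw [hcr j]
      rfl
    rw [hf]
    exact Submodule.sum_mem _ fun j _ =>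
      Submodule.smul_mem _ _ (Submodule.subset_span ⟨j, rfl⟩)
  exact Module.finite_def.mpr (hspan ▸ Submodule.fg_span (Set.finite_range g))

theorem adjoin_modelField_eq_top :
    IntermediateField.adjoin K ((modelField x b K0 h1 hmul : IntermediateField K0 F) : Set F)
      = ⊤ := by
  rw [eq_top_iff]
  rintro f -
  have hle : K⟮x⟯ ≤ IntermediateField.adjoin K
      ((modelField x b K0 h1 hmul : IntermediateField K0 F) : Set F) :=
    IntermediateField.adjoin.mono K _ _
      (Set.singleton_subset_iff.mpr (x_mem_modelField x b K0 h1 hmul))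
  rw [← b.sum_repr f]
  refine sum_mem fun j _ => ?_
  rw [Algebra.smul_def]
  exact mul_mem (hle (b.repr f j).2)
    (IntermediateField.subset_adjoin K _ (basis_mem_modelField x b K0 h1 hmul j))

end Model

section Disjoint

variable {K : Type u} {F : Type v} [Field K] [Field F] [Algebra K F]

/-- Common denominator for a finite family of elements of `K⟮x⟯`. -/
theorem exists_common_den (x : F) {n : ℕ} (r : Fin n → F) (hr : ∀ i, r i ∈ K⟮x⟯) :
    ∃ (q : K[X]) (p : Fin n → K[X]), aeval x q ≠ 0 ∧ ∀ i, r i * aeval x q = aeval x (p i) := by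
  classical
  choose p q hq hp using fun i => exists_frac (hr i)
  refine ⟨∏ i, q i, fun i => p i * ∏ k ∈ Finset.univ.erase i, q k, ?_, fun i => ?_⟩
  · rw [map_prod]
    exact Finset.prod_ne_zero_iff.mpr fun i _ => hq i
  · rw [← Finset.mul_prod_erase Finset.univ q (Finset.mem_univ i), map_mul, map_mul, ← mul_assoc,
      hp i]

/-- `K0`-linearly independent constants stay linearly independent over `K0(x)` when `x` is
transcendental over `K`. -/
theorem subX_linearIndependent (x : F) (K0 : Subfield K) (hx : Transcendental K x) {n : ℕ}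
    (c : Fin n → K) (hc : LinearIndependent K0 c) (r : Fin n → F)
    (hr : ∀ i, r i ∈ subX x K0) (h : ∑ i, r i * algebraMap K F (c i) = 0) : ∀ i, r i = 0 := by
  obtain ⟨q, p, hq, hp⟩ := exists_common_den (K := K0) x r hr
  have h2 : ∑ i, aeval x (p i) * algebraMap K F (c i) = 0 := by
    have h3 : ∑ i, aeval x (p i) * algebraMap K F (c i)
        = (∑ i, r i * algebraMap K F (c i)) * aeval x q := by
      rw [Finset.sum_mul]
      refine Finset.sum_congr rfl fun i _ => ?_
      rw [← hp i]
      ring
    rw [h3, h, zero_mul]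
  let P : K[X] := ∑ i, Polynomial.C (c i) * (p i).map (algebraMap K0 K)
  have hP : aeval x P = 0 := by
    rw [← h2]
    simp only [P, map_sum, map_mul, Polynomial.aeval_C, Polynomial.aeval_map_algebraMap]
    exact Finset.sum_congr rfl fun i _ => mul_comm _ _
  have hP0 : P = 0 := by
    by_contra hne
    exact hx ⟨P, hne, hP⟩
  have hcoef : ∀ m i, (p i).coeff m = 0 := by
    intro m
    refine Fintype.linearIndependent_iff.mp hc (fun i => (p i).coeff m) ?_
    have h4 := congrArg (fun Q : K[X] => Q.coeff m) hP0
    simp only [P, Polynomial.finsetSum_coeff, Polynomial.coeff_C_mul, Polynomial.coeff_map,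
      Polynomial.coeff_zero] at h4
    rw [← h4]
    refine Finset.sum_congr rfl fun i _ => ?_
    rw [Algebra.smul_def, mul_comm]
  intro i
  have hpi : p i = 0 := Polynomial.ext fun m => by rw [hcoef m i, Polynomial.coeff_zero]
  have h5 := hp i
  rw [hpi, map_zero] at h5
  exact (mul_eq_zero.mp h5).resolve_right hq

/-- `K0`-linearly independent constants stay linearly independent over the model field. -/
theorem linearIndependent_modelField (x : F) {ι : Type} [Fintype ι]
    (b : Module.Basis ι K⟮x⟯ F) (K0 : Subfield K) (h1 : 1 ∈ coordGroup x b K0)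
    (hmul : ∀ i j, b i * b j ∈ coordGroup x b K0) (hx : Transcendental K x) (n : ℕ)
    (c : Fin n → K) (hc : LinearIndependent K0 c) :
    LinearIndependent (modelField x b K0 h1 hmul) (fun i => algebraMap K F (c i)) := by
  rw [Fintype.linearIndependent_iff]
  intro g hg i
  have hg' : ∑ i, algebraMap K K⟮x⟯ (c i) • (g i : F) = 0 := by
    rw [← hg]
    refine Finset.sum_congr rfl fun i _ => ?_
    rw [Algebra.smul_def, Algebra.smul_def, mul_comm]
    rfl
  have key : ∀ j, ∑ i, ((b.repr (g i : F) j : K⟮x⟯) : F) * algebraMap K F (c i) = 0 := by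
    intro j
    have h2 := congrArg (fun f => ((b.repr f j : K⟮x⟯) : F)) hg'
    simp only [map_sum, map_smul, map_zero, Finsupp.coe_finsetSum, Finset.sum_apply,
      Finsupp.smul_apply, smul_eq_mul, Finsupp.zero_apply, ZeroMemClass.coe_zero,
      AddSubmonoidClass.coe_finsetSum, MulMemClass.coe_mul] at h2
    rw [← h2]
    refine Finset.sum_congr rfl fun i _ => ?_
    rw [mul_comm]
    rfl
  have h0 : ∀ j, ((b.repr (g i : F) j : K⟮x⟯) : F) = 0 := fun j =>
    subX_linearIndependent x K0 hx c hc _ (fun i => (g i).2 j) (key j) i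
  apply Subtype.ext
  apply b.repr.injective
  ext j
  rw [h0 j]
  simp

end Disjoint

/-- **DOWN** (countable models).  Let `K` be algebraically closed, `x : F` transcendental over
`K` and `F` finite over `K⟮x⟯`.  For countable `S ⊆ K`, `T ⊆ F` there are a countable
algebraically closed subfield `K0 ⊆ K` containing `S` and a countable intermediate field
`K0 ⊆ F0 ⊆ F` containing `x` and `T`, finite over `K0(x)`, generating `F` over `K` and linearly
disjoint from `K` over `K0`. -/
theorem exists_countable_model {K : Type u} {F : Type v} [Field K] [Field F] [Algebra K F]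
    [IsAlgClosed K] (x : F) (hx : Transcendental K x) [FiniteDimensional K⟮x⟯ F]
    (S : Set K) (hS : S.Countable) (T : Set F) (hT : T.Countable) :
    ∃ (K0 : Subfield K) (F0 : IntermediateField K0 F),
      Countable K0 ∧ IsAlgClosed K0 ∧ S ⊆ K0 ∧ Countable F0 ∧ T ⊆ F0 ∧
      ∃ hx0 : x ∈ F0, Transcendental K0 (⟨x, hx0⟩ : F0) ∧
        FiniteDimensional (IntermediateField.adjoin K0 {(⟨x, hx0⟩ : F0)}) F0 ∧
        IntermediateField.adjoin K (F0 : Set F) = ⊤ ∧
        ∀ (n : ℕ) (c : Fin n → K), LinearIndependent K0 c →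
          LinearIndependent F0 (fun i => algebraMap K F (c i)) := by
  classical
  let b := Module.finBasis K⟮x⟯ F
  have hfrac : ∀ r : K⟮x⟯, ∃ p q : K[X], aeval x q ≠ 0 ∧ (r : F) * aeval x q = aeval x p :=
    fun r => exists_frac r.2
  choose num den hden hnum using hfrac
  let coefSet : K⟮x⟯ → Set K := fun r => Set.range (num r).coeff ∪ Set.range (den r).coeff
  let T' : Set F := (T ∪ {1}) ∪ Set.range (fun ij : Fin (Module.finrank K⟮x⟯ F) ×
    Fin (Module.finrank K⟮x⟯ F) => b ij.1 * b ij.2)
  have hT' : T'.Countable :=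
    (hT.union (Set.countable_singleton 1)).union (Set.countable_range _)
  let C : Set K := S ∪ ⋃ t ∈ T', ⋃ j, coefSet (b.repr t j)
  have hC : C.Countable := hS.union (hT'.biUnion fun t _ => Set.countable_iUnion fun j =>
    (Set.countable_range _).union (Set.countable_range _))
  obtain ⟨K0, hCK0, hK0c, hK0a⟩ := helper1197.exists_countable_algClosed_subfield C hC
  have hcoord : ∀ t ∈ T', t ∈ coordGroup x b K0 := by
    intro t ht j
    have hsub : coefSet (b.repr t j) ⊆ K0 := fun a ha =>
      hCK0 (Or.inr (Set.mem_biUnion ht (Set.mem_iUnion.mpr ⟨j, ha⟩)))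
    have e : ((b.repr t j : K⟮x⟯) : F)
        = aeval x (num (b.repr t j)) / aeval x (den (b.repr t j)) :=
      eq_div_of_mul_eq (hden _) (hnum _)
    rw [e]
    exact div_mem (aeval_mem_subX x K0 _ fun n => hsub (Or.inl ⟨n, rfl⟩))
      (aeval_mem_subX x K0 _ fun n => hsub (Or.inr ⟨n, rfl⟩))
  have h1 : 1 ∈ coordGroup x b K0 := hcoord 1 (Or.inl (Or.inr rfl))
  have hmul : ∀ i j, b i * b j ∈ coordGroup x b K0 := fun i j =>
    hcoord _ (Or.inr ⟨(i, j), rfl⟩)
  exact ⟨K0, modelField x b K0 h1 hmul, hK0c, hK0a, fun s hs => hCK0 (Or.inl hs),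
    countable_modelField x b K0 h1 hmul, fun t ht => hcoord t (Or.inl (Or.inl ht)),
    x_mem_modelField x b K0 h1 hmul, transcendental_modelField x b K0 h1 hmul hx,
    finite_modelField x b K0 h1 hmul, adjoin_modelField_eq_top x b K0 h1 hmul,
    linearIndependent_modelField x b K0 h1 hmul hx⟩

end Fermat.Agent.S27.helper70
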