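import Mathlib
import Fermat.Agent.S27.helper5871_LefSpec
import Fermat.Agent.S27.helper70_Down

/-!
# S27, Lefschetz module, node L-DOWN in the universe-`0` form (helper3808)

`stmt_Down : helper5871.Stmt_Down` — every curve `(K, F, x)` (`K` algebraically closed of
characteristic zero, `x` transcendental, `F` finite over `K(x)`) is the constant field extension
of a countable model `(K0, F0, x0)` living in `Type`, whose constant field contains any
prescribed countable subset of `K`.

The subfield-level statement is `helper70.exists_countable_model` (a countable algebraically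
closed subfield `K0 ⊆ K` and a countable intermediate field `F0`).  This file only adds the
universe-`0` packaging:

* `exists_type0_field`: a countable field has a copy in `Type` (`Shrink`);
* `transport_model`: all the data of a model (`Transcendental`, finiteness over `K0(x0)`,
  algebraic closedness, generation and linear disjointness) are transported along two ring
  isomorphisms `K0' ≃+* K0`, `F0' ≃+* F0`;
* `stmt_Down`: the Spec node, verbatim.
-/

set_option autoImplicit false

open Polynomial IntermediateField

namespace Fermat.Agent.S27.helper3808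

universe u v a b

/-- A countable field has a copy in `Type`. -/
theorem exists_type0_field (L : Type a) [Field L] [Countable L] :
    ∃ (L' : Type) (_ : Field L'), Nonempty (L' ≃+* L) := by
  haveI : Small.{0} L := Countable.toSmall L
  exact ⟨Shrink.{0} L, inferInstance, ⟨Shrink.ringEquiv L⟩⟩

/-- Transport of a model `(K0, F0, x0)` of `(K, F, x)` along ring isomorphisms
`K0' ≃+* K0`, `F0' ≃+* F0`. -/
theorem transport_model {K : Type u} {F : Type v} [Field K] [Field F] [Algebra K F] [CharZero K]
    (x : F) (T : Set K)
    {K0 : Type a} {F0 : Type b} [Field K0] [Field F0] [Algebra K0 F0] [IsAlgClosed K0]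
    [Countable K0] [Algebra K0 K] [Algebra F0 F] [Algebra K0 F]
    [IsScalarTower K0 K F] [IsScalarTower K0 F0 F] (x0 : F0) (hx0 : algebraMap F0 F x0 = x)
    (htr : Transcendental K0 x0) (hfin : FiniteDimensional K0⟮x0⟯ F0)
    (hT : T ⊆ Set.range (algebraMap K0 K))
    (hgen : IntermediateField.adjoin K (Set.range (algebraMap F0 F)) = ⊤)
    (hld : ∀ (m : ℕ) (c : Fin m → K), LinearIndependent K0 c →
      LinearIndependent F0 (fun i => algebraMap K F (c i)))
    {K0' F0' : Type} [Field K0'] [Field F0'] (eK : K0' ≃+* K0) (eF : F0' ≃+* F0) :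
    ∃ (_ : Algebra K0' F0') (_ : IsAlgClosed K0') (_ : CharZero K0') (_ : Countable K0')
      (_ : Algebra K0' K) (_ : Algebra F0' F) (_ : Algebra K0' F) (_ : IsScalarTower K0' K F)
      (_ : IsScalarTower K0' F0' F) (x0' : F0'),
      algebraMap F0' F x0' = x ∧ Transcendental K0' x0' ∧ FiniteDimensional K0'⟮x0'⟯ F0' ∧
      T ⊆ Set.range (algebraMap K0' K) ∧ helper5871.IsConstExt K0' F0' K F := by
  classical
  letI a1 : Algebra K0' F0' :=
    (eF.symm.toRingHom.comp ((algebraMap K0 F0).comp eK.toRingHom)).toAlgebra
  letI a2 : Algebra K0' K := ((algebraMap K0 K).comp eK.toRingHom).toAlgebra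
  letI a3 : Algebra F0' F := ((algebraMap F0 F).comp eF.toRingHom).toAlgebra
  letI a4 : Algebra K0' F := ((algebraMap K0 F).comp eK.toRingHom).toAlgebra
  have h12 : ∀ c : K0', algebraMap K0' F0' c = eF.symm (algebraMap K0 F0 (eK c)) := fun _ => rfl
  have h2 : ∀ c : K0', algebraMap K0' K c = algebraMap K0 K (eK c) := fun _ => rfl
  have h3 : ∀ f : F0', algebraMap F0' F f = algebraMap F0 F (eF f) := fun _ => rfl
  have h4 : ∀ c : K0', algebraMap K0' F c = algebraMap K0 F (eK c) := fun _ => rfl
  haveI t1 : IsScalarTower K0' K F := IsScalarTower.of_algebraMap_eq fun c => by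
    rw [h4, h2, IsScalarTower.algebraMap_apply K0 K F]
  haveI t2 : IsScalarTower K0' F0' F := IsScalarTower.of_algebraMap_eq fun c => by
    rw [h4, h3, h12, RingEquiv.apply_symm_apply, IsScalarTower.algebraMap_apply K0 F0 F]
  -- evaluation of polynomials commutes with the transport
  have hE : ∀ p : K0'[X], eF (aeval (eF.symm x0) p) = aeval x0 (p.map eK.toRingHom) := by
    intro p
    have hcomp : eF.toRingHom.comp (algebraMap K0' F0') = (algebraMap K0 F0).comp eK.toRingHom := by
      ext c
      simp [h12]
    rw [aeval_def, aeval_def, eval₂_map, ← hcomp]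
    have := hom_eval₂ p (algebraMap K0' F0') eF.toRingHom (eF.symm x0)
    simpa using this
  have hmem : ∀ y : F0, y ∈ K0⟮x0⟯ → eF.symm y ∈ K0'⟮eF.symm x0⟯ := by
    intro y hy
    obtain ⟨r, s, rfl⟩ := (IntermediateField.mem_adjoin_simple_iff K0 y).1 hy
    have key : ∀ q : K0[X], eF.symm (aeval x0 q) = aeval (eF.symm x0) (q.map eK.symm.toRingHom) := by
      intro q
      apply eF.injective
      rw [RingEquiv.apply_symm_apply, hE, Polynomial.map_map]
      have : eK.toRingHom.comp eK.symm.toRingHom = RingHom.id K0 := by
        ext c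
        simp
      rw [this, Polynomial.map_id]
    rw [map_div₀, key, key]
    exact div_mem (helper70.aeval_mem_adjoin_simple _ _) (helper70.aeval_mem_adjoin_simple _ _)
  refine ⟨a1, ?_, ?_, ?_, a2, a3, a4, t1, t2, eF.symm x0, ?_, ?_, ?_, ?_, ?_⟩
  · -- algebraically closed
    refine IsAlgClosed.of_exists_root _ fun p _ hp => ?_
    have hdeg : (p.map eK.toRingHom).degree ≠ 0 := by
      rw [Polynomial.degree_map]
      exact (Polynomial.degree_pos_of_irreducible hp).ne'
    obtain ⟨z, hz⟩ := IsAlgClosed.exists_root (p.map eK.toRingHom) hdeg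
    refine ⟨eK.symm z, ?_⟩
    apply eK.injective
    have h1 : eK (p.eval (eK.symm z)) = p.eval₂ eK.toRingHom (eK.toRingHom (eK.symm z)) :=
      (Polynomial.eval₂_at_apply eK.toRingHom (eK.symm z)).symm
    rw [h1, map_zero]
    have h5 : eK.toRingHom (eK.symm z) = z := eK.apply_symm_apply z
    rw [h5, ← Polynomial.eval_map]
    exact hz
  · -- characteristic zero
    exact RingHom.charZero (algebraMap K0' K)
  · -- countable
    exact eK.injective.countable
  · rw [h3, RingEquiv.apply_symm_apply, hx0]
  · -- transcendental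
    rw [transcendental_iff]
    intro p hp
    have h1 := hE p
    rw [hp, map_zero] at h1
    have h5 := transcendental_iff.1 htr _ h1.symm
    exact Polynomial.map_injective eK.toRingHom eK.injective (by rw [h5, Polynomial.map_zero])
  · -- finite over `K0'(x0')`
    obtain ⟨n, s, hs⟩ := Module.Finite.exists_fin (R := K0⟮x0⟯) (M := F0)
    have hspan : Submodule.span K0'⟮eF.symm x0⟯ (Set.range fun i => eF.symm (s i)) = ⊤ := by
      rw [eq_top_iff]
      intro f' _
      have h1 : eF f' ∈ Submodule.span K0⟮x0⟯ (Set.range s) := by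
        rw [hs]
        exact Submodule.mem_top
      obtain ⟨c, hc⟩ := (Submodule.mem_span_range_iff_exists_fun _).1 h1
      have h5 : f' = ∑ i, (⟨eF.symm (c i : F0), hmem _ (c i).2⟩ : K0'⟮eF.symm x0⟯) • eF.symm (s i) := by
        apply eF.injective
        rw [← hc, map_sum]
        refine Finset.sum_congr rfl fun i _ => ?_
        rw [IntermediateField.smul_def, IntermediateField.smul_def, smul_eq_mul, smul_eq_mul,
          map_mul, RingEquiv.apply_symm_apply, RingEquiv.apply_symm_apply]
      rw [h5]
      exact Submodule.sum_mem _ fun i _ =>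
        Submodule.smul_mem _ _ (Submodule.subset_span ⟨i, rfl⟩)
    refine Module.finite_def.2 ?_
    rw [← hspan]
    exact Submodule.fg_span (Set.finite_range _)
  · intro t ht
    obtain ⟨c, rfl⟩ := hT ht
    exact ⟨eK.symm c, by rw [h2, RingEquiv.apply_symm_apply]⟩
  · refine ⟨?_, ?_⟩
    · have hrange : Set.range (algebraMap F0' F) = Set.range (algebraMap F0 F) := by
        ext y
        constructor
        · rintro ⟨f, rfl⟩
          exact ⟨eF f, (h3 f).symm⟩
        · rintro ⟨f, rfl⟩
          exact ⟨eF.symm f, by rw [h3, RingEquiv.apply_symm_apply]⟩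
      rw [hrange]
      exact hgen
    · intro m c hc
      have hc0 : LinearIndependent K0 c := by
        rw [Fintype.linearIndependent_iff] at hc ⊢
        intro g hg
        have h1 := hc (fun i => eK.symm (g i)) (by
          rw [← hg]
          refine Finset.sum_congr rfl fun i _ => ?_
          rw [Algebra.smul_def, Algebra.smul_def, h2, RingEquiv.apply_symm_apply])
        intro i
        exact (map_eq_zero_iff eK.symm eK.symm.injective).1 (h1 i)
      have h5 := hld m c hc0
      rw [Fintype.linearIndependent_iff] at h5 ⊢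
      intro g hg
      have h1 := h5 (fun i => eF (g i)) (by
        rw [← hg]
        refine Finset.sum_congr rfl fun i _ => ?_
        rw [Algebra.smul_def, Algebra.smul_def, h3])
      intro i
      exact (map_eq_zero_iff eF eF.injective).1 (h1 i)

/-- **L-DOWN** (Spec node `helper5871.Stmt_Down`, verbatim). -/
theorem stmt_Down : helper5871.Stmt_Down.{u, v} := by
  intro K F _ _ _ _ _ x hx _ T hT
  obtain ⟨K0, F0, hK0c, hK0a, hTK0, hF0c, -, hx0, htr, hfin, hgen, hld⟩ :=
    helper70.exists_countable_model x hx T hT (∅ : Set F) Set.countable_empty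
  haveI := hK0c
  haveI := hK0a
  haveI := hF0c
  obtain ⟨K0', instK, ⟨eK⟩⟩ := exists_type0_field (↥K0)
  obtain ⟨F0', instF, ⟨eF⟩⟩ := exists_type0_field (↥F0)
  have hT' : T ⊆ Set.range (algebraMap (↥K0) K) := fun t ht => ⟨⟨t, hTK0 ht⟩, rfl⟩
  have hgen' : IntermediateField.adjoin K (Set.range (algebraMap (↥F0) F)) = ⊤ := by
    have hrange : Set.range (algebraMap (↥F0) F) = (F0 : Set F) := by
      ext y
      constructor
      · rintro ⟨f, rfl⟩
        exact f.2
      · intro hy
        exact ⟨⟨y, hy⟩, rfl⟩
    rw [hrange]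
    exact hgen
  obtain ⟨a1, i1, i2, i3, a2, a3, a4, t1, t2, x0', h1, h2, h3, h4, h5⟩ :=
    transport_model x T (K0 := ↥K0) (F0 := ↥F0) ⟨x, hx0⟩ rfl htr hfin hT' hgen' hld eK eF
  exact ⟨K0', F0', instK, instF, a1, i1, i2, i3, a2, a3, a4, t1, t2, x0', h1, h2, h3, h4, h5⟩

end Fermat.Agent.S27.helper3808
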