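import Fermat.Agent.S27.helper3813_CoreBStmt
import Fermat.Agent.S27.helper1545_AnalyticKit
import Fermat.Agent.S27.helper1070_Approx
import Fermat.Agent.S24.helper483_PlacesFF

/-!
# CORE B (route LA): proof of `Stmt_T2` (the linear-algebra group law)

`t2_of : Stmt_Ev → Stmt_Riemann → Stmt_FibreUnram → Stmt_T2`.
-/

set_option autoImplicit false

open AlgebraicCurve IntermediateField Filter Topology

namespace Fermat.Agent.S27.helper3813

open Fermat.Agent.S27.helper6247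
open Fermat.Agent.S24

noncomputable section

/-! ## Orders -/

section Ord

variable {K F : Type*} [Field K] [Field F] [Algebra K F]

theorem ord_add_nonneg (v : Place K F) {f g : F} (hf : 0 ≤ v.ord f) (hg : 0 ≤ v.ord g) :
    0 ≤ v.ord (f + g) :=
  helper483.ord_nonneg_of_mem v
    (add_mem (helper483.mem_of_ord_nonneg v hf) (helper483.mem_of_ord_nonneg v hg))

theorem ord_mul_nonneg (v : Place K F) {f g : F} (hf : 0 ≤ v.ord f) (hg : 0 ≤ v.ord g) :
    0 ≤ v.ord (f * g) :=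
  helper483.ord_nonneg_of_mem v
    (mul_mem (helper483.mem_of_ord_nonneg v hf) (helper483.mem_of_ord_nonneg v hg))

theorem ord_sub_nonneg (v : Place K F) {f g : F} (hf : 0 ≤ v.ord f) (hg : 0 ≤ v.ord g) :
    0 ≤ v.ord (f - g) :=
  helper483.ord_nonneg_of_mem v
    (sub_mem (helper483.mem_of_ord_nonneg v hf) (helper483.mem_of_ord_nonneg v hg))

theorem ord_const_nonneg (v : Place K F) (c : K) : 0 ≤ v.ord (algebraMap K F c) :=
  (helper483.ord_algebraMap v c).ge

theorem ord_sum_nonneg (v : Place K F) {ι : Type*} (s : Finset ι) (f : ι → F)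
    (hf : ∀ i ∈ s, 0 ≤ v.ord (f i)) : 0 ≤ v.ord (∑ i ∈ s, f i) :=
  helper483.ord_nonneg_of_mem v
    (sum_mem fun i hi => helper483.mem_of_ord_nonneg v (hf i hi))

theorem ord_prod_nonneg (v : Place K F) {ι : Type*} (s : Finset ι) (f : ι → F)
    (hf : ∀ i ∈ s, 0 ≤ v.ord (f i)) : 0 ≤ v.ord (∏ i ∈ s, f i) :=
  helper483.ord_nonneg_of_mem v
    (prod_mem fun i hi => helper483.mem_of_ord_nonneg v (hf i hi))

theorem ord_div (v : Place K F) {f g : F} (hf : f ≠ 0) (hg : g ≠ 0) :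
    v.ord (f / g) = v.ord f - v.ord g := by
  rw [div_eq_mul_inv, v.ord_mul hf (inv_ne_zero hg), v.ord_inv]
  ring

theorem ord_prod (v : Place K F) {ι : Type*} (s : Finset ι) (f : ι → F)
    (hf : ∀ i ∈ s, f i ≠ 0) : v.ord (∏ i ∈ s, f i) = ∑ i ∈ s, v.ord (f i) := by
  classical
  induction s using Finset.induction_on with
  | empty => simp
  | insert a s ha ih =>
    rw [Finset.prod_insert ha, Finset.sum_insert ha,
      v.ord_mul (hf a (Finset.mem_insert_self a s))
        (Finset.prod_ne_zero_iff.mpr fun i hi => hf i (Finset.mem_insert_of_mem hi)),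
      ih fun i hi => hf i (Finset.mem_insert_of_mem hi)]

/-- At a pole of `f`, subtracting a constant does not change the order. -/
theorem ord_sub_const_of_neg (v : Place K F) {f : F} (hf : v.ord f < 0) (c : K) :
    v.ord (f - algebraMap K F c) = v.ord f := by
  have h1 : 1 < v.adicValuation f := (helper1070.one_lt_val_iff v).mpr hf
  have h2 : v.adicValuation (algebraMap K F c) ≤ 1 := v.adicValuation_algebraMap_le_one c
  have h3 : v.adicValuation (f - algebraMap K F c) = v.adicValuation f :=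
    Valuation.map_sub_eq_of_lt_left _ (lt_of_le_of_lt h2 h1)
  unfold Place.ord
  rw [h3]

/-- A positive order of `f - c` forces `f` to be regular. -/
theorem ord_nonneg_of_sub_pos (v : Place K F) {f : F} {c : K}
    (h : 0 < v.ord (f - algebraMap K F c)) : 0 ≤ v.ord f :=
  helper483.ord_nonneg_of_ord_sub_algebraMap_pos v h

end Ord

/-! ## The evaluation calculus (consequences of `Stmt_Ev`) -/

/-- The properties of `ev` delivered by `Stmt_Ev`, for one function field over `ℂ`. -/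
structure EvFacts (F : Type) [Field F] [Algebra ℂ F] : Prop where
  const : ∀ (P : Place ℂ F) (c : ℂ), ev P (algebraMap ℂ F c) = c
  add : ∀ (P : Place ℂ F) (f g : F), 0 ≤ P.ord f → 0 ≤ P.ord g →
    ev P (f + g) = ev P f + ev P g
  mul : ∀ (P : Place ℂ F) (f g : F), 0 ≤ P.ord f → 0 ≤ P.ord g →
    ev P (f * g) = ev P f * ev P g
  eq_zero : ∀ (P : Place ℂ F) (f : F), 0 ≤ P.ord f → (ev P f = 0 ↔ f = 0 ∨ 0 < P.ord f)
  of_pos : ∀ (P : Place ℂ F) (f : F) (c : ℂ), 0 < P.ord (f - algebraMap ℂ F c) → ev P f = c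

theorem evFacts_of (hEv : Stmt_Ev.{0, 0}) (F : Type) [Field F] [Algebra ℂ F] (x : F)
    (hx : Transcendental ℂ x) [FiniteDimensional ℂ⟮x⟯ F] : EvFacts F where
  const P c := (hEv ℂ F x hx P).1 c
  add P f g hf hg := ((hEv ℂ F x hx P).2.1 f g hf hg).1
  mul P f g hf hg := ((hEv ℂ F x hx P).2.1 f g hf hg).2
  eq_zero P f hf := (hEv ℂ F x hx P).2.2.1 f hf
  of_pos P f c h := (hEv ℂ F x hx P).2.2.2 f c h

namespace EvFacts

variable {F : Type} [Field F] [Algebra ℂ F] (hev : EvFacts F)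
include hev

theorem zero (P : Place ℂ F) : ev P (0 : F) = 0 := by
  simpa using hev.const P 0

theorem one (P : Place ℂ F) : ev P (1 : F) = 1 := by
  simpa using hev.const P 1

theorem sub (P : Place ℂ F) (f g : F) (hf : 0 ≤ P.ord f) (hg : 0 ≤ P.ord g) :
    ev P (f - g) = ev P f - ev P g := by
  have h := hev.add P (f - g) g (ord_sub_nonneg P hf hg) hg
  rw [sub_add_cancel] at h
  rw [h]; ring

theorem smul (P : Place ℂ F) (c : ℂ) (f : F) (hf : 0 ≤ P.ord f) :
    ev P (c • f) = c * ev P f := by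
  rw [Algebra.smul_def, hev.mul P _ _ (ord_const_nonneg P c) hf, hev.const]

theorem sum (P : Place ℂ F) {ι : Type*} (s : Finset ι) (f : ι → F)
    (hf : ∀ i ∈ s, 0 ≤ P.ord (f i)) : ev P (∑ i ∈ s, f i) = ∑ i ∈ s, ev P (f i) := by
  classical
  induction s using Finset.induction_on with
  | empty => simpa using hev.zero P
  | insert a s ha ih =>
    rw [Finset.sum_insert ha, Finset.sum_insert ha,
      hev.add P _ _ (hf a (Finset.mem_insert_self a s))
        (ord_sum_nonneg P s f fun i hi => hf i (Finset.mem_insert_of_mem hi)),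
      ih fun i hi => hf i (Finset.mem_insert_of_mem hi)]

theorem prod (P : Place ℂ F) {ι : Type*} (s : Finset ι) (f : ι → F)
    (hf : ∀ i ∈ s, 0 ≤ P.ord (f i)) : ev P (∏ i ∈ s, f i) = ∏ i ∈ s, ev P (f i) := by
  classical
  induction s using Finset.induction_on with
  | empty => simpa using hev.one P
  | insert a s ha ih =>
    rw [Finset.prod_insert ha, Finset.prod_insert ha,
      hev.mul P _ _ (hf a (Finset.mem_insert_self a s))
        (ord_prod_nonneg P s f fun i hi => hf i (Finset.mem_insert_of_mem hi)),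
      ih fun i hi => hf i (Finset.mem_insert_of_mem hi)]

/-- A regular function with nonzero value is a unit at the place. -/
theorem ord_eq_zero_of_ev_ne_zero (P : Place ℂ F) {f : F} (hf : 0 ≤ P.ord f)
    (h : ev P f ≠ 0) : P.ord f = 0 := by
  by_contra hne
  exact h ((hev.eq_zero P f hf).mpr (Or.inr (lt_of_le_of_ne hf (Ne.symm hne))))

theorem ne_zero_of_ev_ne_zero (P : Place ℂ F) {f : F} (h : ev P f ≠ 0) : f ≠ 0 := by
  rintro rfl
  exact h (hev.zero P)

theorem ev_inv (P : Place ℂ F) {f : F} (hf : 0 ≤ P.ord f) (h : ev P f ≠ 0) :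
    0 ≤ P.ord f⁻¹ ∧ ev P f⁻¹ = (ev P f)⁻¹ := by
  have h0 : P.ord f = 0 := hev.ord_eq_zero_of_ev_ne_zero P hf h
  have hf0 : f ≠ 0 := hev.ne_zero_of_ev_ne_zero P h
  have hinv : 0 ≤ P.ord f⁻¹ := by rw [P.ord_inv, h0]; simp
  refine ⟨hinv, ?_⟩
  have h1 := hev.mul P f f⁻¹ hf hinv
  rw [mul_inv_cancel₀ hf0, hev.one] at h1
  exact eq_inv_of_mul_eq_one_right h1.symm

/-- The value at `P` of `f` is `c` as soon as `f - c` vanishes at `P` or is zero. -/
theorem ev_eq_of_sub (P : Place ℂ F) (f : F) (c : ℂ)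
    (h : f = algebraMap ℂ F c ∨ 0 < P.ord (f - algebraMap ℂ F c)) : ev P f = c := by
  rcases h with rfl | h
  · exact hev.const P c
  · exact hev.of_pos P f c h

end EvFacts


/-! ## Divisors -/

section Div

variable {K F : Type*} [Field K] [Field F] [Algebra K F]

theorem pt_apply_self (P : Place K F) : pt P P = 1 := by
  simp [pt]

theorem pt_apply_of_ne {P v : Place K F} (h : v ≠ P) : pt P v = 0 := by
  simp [pt, Ne.symm h]

theorem pt_apply_nonneg (P v : Place K F) : 0 ≤ pt P v := by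
  classical
  by_cases h : v = P
  · subst h; rw [pt_apply_self]; exact zero_le_one
  · rw [pt_apply_of_ne h]

theorem sumDiv_apply {ι : Type*} [Fintype ι] (Q : ι → Place K F) (v : Place K F) :
    sumDiv Q v = ∑ i, pt (Q i) v := by
  simp [sumDiv, Finsupp.finset_sum_apply]

theorem sumDiv_apply_nonneg {ι : Type*} [Fintype ι] (Q : ι → Place K F) (v : Place K F) :
    0 ≤ sumDiv Q v := by
  rw [sumDiv_apply]
  exact Finset.sum_nonneg fun i _ => pt_apply_nonneg _ _

theorem sumDiv_apply_of_forall_ne {ι : Type*} [Fintype ι] (Q : ι → Place K F) {v : Place K F}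
    (h : ∀ i, v ≠ Q i) : sumDiv Q v = 0 := by
  rw [sumDiv_apply]
  exact Finset.sum_eq_zero fun i _ => pt_apply_of_ne (h i)

theorem sumDiv_apply_of_injective {ι : Type*} [Fintype ι] (Q : ι → Place K F)
    (hQ : Function.Injective Q) (i : ι) : sumDiv Q (Q i) = 1 := by
  classical
  rw [sumDiv_apply, Finset.sum_eq_single i]
  · exact pt_apply_self _
  · intro j _ hj
    exact pt_apply_of_ne fun h => hj (hQ h.symm)
  · intro h; exact absurd (Finset.mem_univ i) h

theorem degree_pt {P : Place K F} (hP : P.deg = 1) : Divisor.degree (pt P) = 1 := by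
  simp [pt, Divisor.degree_single, hP]

theorem degree_sumDiv (hdeg : ∀ v : Place K F, v.deg = 1) {ι : Type*} [Fintype ι]
    (Q : ι → Place K F) : Divisor.degree (sumDiv Q) = Fintype.card ι := by
  simp [sumDiv, map_sum, degree_pt (hdeg _)]

/-- With all places of degree one the degree is the sum of the coefficients. -/
theorem degree_eq_sum (hdeg : ∀ v : Place K F, v.deg = 1) (D : Divisor K F) :
    Divisor.degree D = ∑ v ∈ D.support, D v := by
  rw [Divisor.degree, Finsupp.liftAddHom_apply, Finsupp.sum]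
  refine Finset.sum_congr rfl fun v _ => ?_
  simp [hdeg v]

/-- An effective divisor of degree zero is zero (all places of degree one). -/
theorem eq_zero_of_nonneg_of_degree (hdeg : ∀ v : Place K F, v.deg = 1) (D : Divisor K F)
    (h0 : ∀ v, 0 ≤ D v) (hD : Divisor.degree D = 0) : D = 0 := by
  rw [degree_eq_sum hdeg] at hD
  have h1 := (Finset.sum_eq_zero_iff_of_nonneg fun v _ => h0 v).mp hD
  ext v
  by_cases hv : v ∈ D.support
  · exact h1 v hv
  · simpa [Finsupp.mem_support_iff] using hv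

/-- Dividing by a function with known divisor shifts the Riemann–Roch space. -/
theorem div_mem_riemannRochSpace {A T : Divisor K F} {a h : F} (ha : a ∈ riemannRochSpace A)
    (hh : h ≠ 0) (hT : ∀ v : Place K F, v.ord h = T v) : a / h ∈ riemannRochSpace (A + T) := by
  rw [mem_riemannRochSpace_iff] at ha ⊢
  intro v
  rcases eq_or_ne a 0 with rfl | ha0
  · left; simp
  · right
    rw [ord_div v ha0 hh, hT v, Finsupp.add_apply]
    rcases ha v with h | h
    · exact absurd h ha0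
    · linarith

theorem mul_mem_riemannRochSpace {A T : Divisor K F} {a h : F} (ha : a ∈ riemannRochSpace A)
    (hh : h ≠ 0) (hT : ∀ v : Place K F, v.ord h = T v) : a * h ∈ riemannRochSpace (A - T) := by
  rw [mem_riemannRochSpace_iff] at ha ⊢
  intro v
  rcases eq_or_ne a 0 with rfl | ha0
  · left; simp
  · right
    rw [v.ord_mul ha0 hh, hT v, Finsupp.sub_apply]
    rcases ha v with h | h
    · exact absurd h ha0
    · linarith

theorem ord_nonneg_of_mem_riemannRochSpace {D : Divisor K F} {a : F}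
    (ha : a ∈ riemannRochSpace D) {v : Place K F} (hv : D v ≤ 0) : 0 ≤ v.ord a := by
  rcases (mem_riemannRochSpace_iff.mp ha) v with rfl | h
  · simp
  · linarith

end Div

section DivC

variable {F : Type} [Field F] [Algebra ℂ F]

/-- A function of `L(D)` vanishing at finitely many distinct places off the support of `D`
lies in `L(D - ∑ places)`. -/
theorem mem_riemannRochSpace_sub_sumDiv (hev : EvFacts F) {D : Divisor ℂ F} {a : F}
    (ha : a ∈ riemannRochSpace D) {ι : Type*} [Fintype ι] (c : ι → Place ℂ F)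
    (hc : Function.Injective c) (hD : ∀ i, D (c i) = 0) (h0 : ∀ i, ev (c i) a = 0) :
    a ∈ riemannRochSpace (D - sumDiv c) := by
  rw [mem_riemannRochSpace_iff]
  intro v
  by_cases hv : ∃ i, v = c i
  · obtain ⟨i, rfl⟩ := hv
    have hreg : 0 ≤ (c i).ord a := ord_nonneg_of_mem_riemannRochSpace ha (hD i).le
    rcases (hev.eq_zero (c i) a hreg).mp (h0 i) with h | h
    · exact Or.inl h
    · right
      rw [Finsupp.sub_apply, hD i, sumDiv_apply_of_injective c hc i]
      omega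
  · push Not at hv
    rcases (mem_riemannRochSpace_iff.mp ha) v with h | h
    · exact Or.inl h
    · right
      rw [Finsupp.sub_apply, sumDiv_apply_of_forall_ne c hv]
      simpa using h

/-- Evaluation at a place off the support of `D`, as a linear form on `L(D)`. -/
def evLin (hev : EvFacts F) (D : Divisor ℂ F) (P : Place ℂ F) (hP : D P = 0) :
    riemannRochSpace D →ₗ[ℂ] ℂ where
  toFun w := ev P (w : F)
  map_add' w w' := by
    simpa using hev.add P w w' (ord_nonneg_of_mem_riemannRochSpace w.2 hP.le)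
      (ord_nonneg_of_mem_riemannRochSpace w'.2 hP.le)
  map_smul' c w := by
    simpa using hev.smul P c w (ord_nonneg_of_mem_riemannRochSpace w.2 hP.le)

@[simp]
theorem evLin_apply (hev : EvFacts F) (D : Divisor ℂ F) (P : Place ℂ F) (hP : D P = 0)
    (w : riemannRochSpace D) : evLin hev D P hP w = ev P (w : F) := rfl

end DivC

/-! ## Charts: monotonicity, injectivity, separation -/

section Charts

variable {F : Type} [Field F] [Algebra ℂ F]

theorem isChart_mono {u : F} {Q : ℂ → Place ℂ F} {r r' : ℝ} (h : IsChart u Q r) (hr' : 0 < r')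
    (hle : r' ≤ r) : IsChart u Q r' where
  pos := hr'
  unif s hs := h.unif s (Metric.ball_subset_ball hle hs)
  analytic f s₀ hs₀ hf := h.analytic f s₀ (Metric.ball_subset_ball hle hs₀) hf

theorem isChart_zero_mem {u : F} {Q : ℂ → Place ℂ F} {r : ℝ} (h : IsChart u Q r) :
    (0 : ℂ) ∈ Metric.ball (0 : ℂ) r := Metric.mem_ball_self h.pos

theorem isChart_ord_center {u : F} {Q : ℂ → Place ℂ F} {r : ℝ} (h : IsChart u Q r) :
    (Q 0).ord u = 1 := by
  simpa using h.unif 0 (isChart_zero_mem h)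

theorem isChart_ord_pos {u : F} {Q : ℂ → Place ℂ F} {r : ℝ} (h : IsChart u Q r) {s : ℂ}
    (hs : ‖s‖ < r) : 0 < (Q s).ord (u - algebraMap ℂ F s) := by
  rw [h.unif s (by simpa using hs)]; exact one_pos

theorem isChart_ord_coord_nonneg {u : F} {Q : ℂ → Place ℂ F} {r : ℝ} (h : IsChart u Q r) {s : ℂ}
    (hs : ‖s‖ < r) : 0 ≤ (Q s).ord u :=
  ord_nonneg_of_sub_pos _ (isChart_ord_pos h hs)

theorem isChart_ev_coord (hev : EvFacts F) {u : F} {Q : ℂ → Place ℂ F} {r : ℝ}
    (h : IsChart u Q r) {s : ℂ} (hs : ‖s‖ < r) : ev (Q s) u = s :=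
  hev.of_pos _ _ _ (isChart_ord_pos h hs)

/-- The chart is injective. -/
theorem isChart_injOn {u : F} {Q : ℂ → Place ℂ F} {r : ℝ} (h : IsChart u Q r) {s s' : ℂ}
    (hs : ‖s‖ < r) (hs' : ‖s'‖ < r) (hQ : Q s = Q s') : s = s' := by
  have h1 := isChart_ord_pos h hs
  have h2 := isChart_ord_pos h hs'
  rw [← hQ] at h2
  exact helper483.ord_sub_algebraMap_pos_unique (Q s) h1 h2

/-- Functions regular at the centre stay regular, with continuous value, near the centre. -/
theorem isChart_eventually_regular {u : F} {Q : ℂ → Place ℂ F} {r : ℝ} (h : IsChart u Q r)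
    {f : F} (hf : 0 ≤ (Q 0).ord f) : ∀ᶠ s in 𝓝 (0 : ℂ), 0 ≤ (Q s).ord f :=
  (h.analytic f 0 (isChart_zero_mem h) hf).1

theorem isChart_analyticAt_ev {u : F} {Q : ℂ → Place ℂ F} {r : ℝ} (h : IsChart u Q r)
    {f : F} (hf : 0 ≤ (Q 0).ord f) : AnalyticAt ℂ (fun s => ev (Q s) f) 0 :=
  (h.analytic f 0 (isChart_zero_mem h) hf).2

/-- A chart stays away from any place different from its centre. -/
theorem isChart_eventually_ne_place (hev : EvFacts F) {u : F} {Q : ℂ → Place ℂ F} {r : ℝ}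
    (h : IsChart u Q r) {P' : Place ℂ F} (hne : Q 0 ≠ P') : ∀ᶠ s in 𝓝 (0 : ℂ), Q s ≠ P' := by
  classical
  obtain ⟨f, hf⟩ := helper1070.exists_approx ({Q 0, P'} : Finset (Place ℂ F))
    (fun v => if v = Q 0 then 0 else 1) 1
  have hf0 := hf (Q 0) (by simp)
  have hf1 := hf P' (by simp)
  simp only [if_true, sub_zero] at hf0
  rw [if_neg (Ne.symm hne)] at hf1
  have hreg0 : 0 ≤ (Q 0).ord f := by
    rcases hf0 with rfl | h0
    · simp
    · omega
  have hev0 : ev (Q 0) f = 0 := by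
    refine (hev.eq_zero _ f hreg0).mpr ?_
    rcases hf0 with h0 | h0
    · exact Or.inl h0
    · exact Or.inr (by omega)
  have hev1 : ev P' f = 1 := by
    refine hev.ev_eq_of_sub P' f 1 ?_
    rcases hf1 with h1 | h1
    · left; simpa using h1
    · right; simp only [map_one]; omega
  have hcont : ContinuousAt (fun s => ev (Q s) f) 0 := (isChart_analyticAt_ev h hreg0).continuousAt
  have hnear : ∀ᶠ s in 𝓝 (0 : ℂ), ‖ev (Q s) f - ev (Q 0) f‖ < 1 := by
    have := hcont.tendsto.eventually (Metric.ball_mem_nhds (ev (Q 0) f) one_pos)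
    filter_upwards [this] with s hs
    simpa [Metric.mem_ball, dist_eq_norm] using hs
  filter_upwards [hnear] with s hs hQs
  rw [hQs, hev1, hev0] at hs
  simp at hs

/-- Two charts with distinct centres are disjoint near their centres. -/
theorem isChart_exists_sep (hev : EvFacts F) {u u' : F} {Q Q' : ℂ → Place ℂ F} {r r' : ℝ}
    (h : IsChart u Q r) (h' : IsChart u' Q' r') (hne : Q 0 ≠ Q' 0) :
    ∃ δ > 0, ∀ s s' : ℂ, ‖s‖ < δ → ‖s'‖ < δ → Q s ≠ Q' s' := by
  classical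
  obtain ⟨f, hf⟩ := helper1070.exists_approx ({Q 0, Q' 0} : Finset (Place ℂ F))
    (fun v => if v = Q 0 then 0 else 1) 1
  have hf0 := hf (Q 0) (by simp)
  have hf1 := hf (Q' 0) (by simp)
  simp only [if_true, sub_zero] at hf0
  rw [if_neg (Ne.symm hne)] at hf1
  have hreg0 : 0 ≤ (Q 0).ord f := by
    rcases hf0 with rfl | h0
    · simp
    · omega
  have hev0 : ev (Q 0) f = 0 := by
    refine (hev.eq_zero _ f hreg0).mpr ?_
    rcases hf0 with h0 | h0
    · exact Or.inl h0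
    · exact Or.inr (by omega)
  have hreg1 : 0 ≤ (Q' 0).ord f := by
    rcases hf1 with rfl | h1
    · simp
    · have : (0 : ℤ) < (Q' 0).ord (f - algebraMap ℂ F 1) := by simp only [map_one]; omega
      exact ord_nonneg_of_sub_pos _ this
  have hev1 : ev (Q' 0) f = 1 := by
    refine hev.ev_eq_of_sub (Q' 0) f 1 ?_
    rcases hf1 with h1 | h1
    · left; simpa using h1
    · right; simp only [map_one]; omega
  have hcont : ContinuousAt (fun s => ev (Q s) f) 0 := (isChart_analyticAt_ev h hreg0).continuousAt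
  have hcont' : ContinuousAt (fun s => ev (Q' s) f) 0 := (isChart_analyticAt_ev h' hreg1).continuousAt
  have hnear : ∀ᶠ s in 𝓝 (0 : ℂ), ‖ev (Q s) f - ev (Q 0) f‖ < 1 / 2 := by
    have := hcont.tendsto.eventually (Metric.ball_mem_nhds (ev (Q 0) f) (by norm_num : (0:ℝ) < 1/2))
    filter_upwards [this] with s hs
    simpa [Metric.mem_ball, dist_eq_norm] using hs
  have hnear' : ∀ᶠ s in 𝓝 (0 : ℂ), ‖ev (Q' s) f - ev (Q' 0) f‖ < 1 / 2 := by
    have := hcont'.tendsto.eventually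
      (Metric.ball_mem_nhds (ev (Q' 0) f) (by norm_num : (0:ℝ) < 1/2))
    filter_upwards [this] with s hs
    simpa [Metric.mem_ball, dist_eq_norm] using hs
  obtain ⟨δ₁, hδ₁, h₁⟩ := Metric.eventually_nhds_iff.mp hnear
  obtain ⟨δ₂, hδ₂, h₂⟩ := Metric.eventually_nhds_iff.mp hnear'
  refine ⟨min δ₁ δ₂, lt_min hδ₁ hδ₂, fun s s' hs hs' hQ => ?_⟩
  have e1 := h₁ (y := s) (by simpa [dist_eq_norm] using lt_of_lt_of_le hs (min_le_left _ _))
  have e2 := h₂ (y := s') (by simpa [dist_eq_norm] using lt_of_lt_of_le hs' (min_le_right _ _))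
  rw [hev0, sub_zero] at e1
  rw [hev1, ← hQ] at e2
  have : ‖(1 : ℂ)‖ ≤ ‖ev (Q s) f‖ + ‖ev (Q s) f - 1‖ := by
    have := norm_sub_le (ev (Q s) f) (ev (Q s) f - 1)
    simpa using this
  rw [norm_one] at this
  linarith

end Charts


/-! ## Unramified fibres -/

section Fibre

variable {F : Type} [Field F] [Algebra ℂ F]

/-- `Stmt_FibreUnram` for sheets indexed by an arbitrary finite type. -/
theorem fibreUnram_fintype (hFU : Stmt_FibreUnram) (x : F) (hx : Transcendental ℂ x)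
    [FiniteDimensional ℂ⟮x⟯ F] (f : F) {T : Type} [Fintype T] (Q : T → ℂ → Place ℂ F) (r : ℝ)
    (hQ : ∀ s, IsChart f (Q s) r) (hz : ∀ v : Place ℂ F, 0 < v.ord f → ∃ s, v = Q s 0) :
    ∃ δ > 0, ∀ z : ℂ, ‖z‖ < δ → ∀ v : Place ℂ F, 0 < v.ord (f - algebraMap ℂ F z) →
      ∃ s, v = Q s z := by
  classical
  let e := Fintype.equivFin T
  obtain ⟨δ, hδ, h⟩ := hFU F x hx f (Fintype.card T) (fun j => Q (e.symm j)) (fun _ => r)
    (fun j => hQ _) (fun v hv => by
      obtain ⟨s, hs⟩ := hz v hv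
      exact ⟨e s, by simpa using hs⟩)
  exact ⟨δ, hδ, fun z hz' v hv => by
    obtain ⟨j, hj⟩ := h z hz' v hv
    exact ⟨e.symm j, hj⟩⟩

/-- The divisor of `t - z` relative to the divisor of `t`, near an unramified fibre `t = 0`
all of whose points carry charts with coordinate `t`. -/
theorem fibre_ord {T : Type*} [Fintype T] (t : F) (Q : T → ℂ → Place ℂ F) (r : ℝ)
    (hQ : ∀ s, IsChart t (Q s) r)
    (hzero : ∀ v : Place ℂ F, 0 < v.ord t → ∃ s, v = Q s 0)
    (z : ℂ) (hz : ‖z‖ < r)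
    (hfib : ∀ v : Place ℂ F, 0 < v.ord (t - algebraMap ℂ F z) → ∃ s, v = Q s z)
    (hinj0 : Function.Injective fun s => Q s 0) (hinjz : Function.Injective fun s => Q s z)
    (v : Place ℂ F) :
    v.ord (t - algebraMap ℂ F z) - v.ord t
      = sumDiv (fun s => Q s z) v - sumDiv (fun s => Q s 0) v := by
  rcases eq_or_ne z 0 with rfl | hz0
  · simp
  have hr : 0 < r := lt_of_le_of_lt (norm_nonneg z) hz
  have h0r : ‖(0 : ℂ)‖ < r := by simpa using hr
  -- a place cannot lie over both `0` and `z`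
  have hexcl : ∀ w : Place ℂ F, 0 < w.ord (t - algebraMap ℂ F z) → ¬ 0 < w.ord t := by
    intro w h1 h2
    have h2' : 0 < w.ord (t - algebraMap ℂ F 0) := by simpa using h2
    exact hz0 (helper483.ord_sub_algebraMap_pos_unique w h1 h2')
  by_cases hneg : v.ord t < 0
  · -- a pole of `t`
    rw [ord_sub_const_of_neg v hneg, sub_self]
    have h1 : ∀ s, v ≠ Q s z := by
      rintro s rfl
      exact absurd (isChart_ord_coord_nonneg (hQ s) hz) (not_le.mpr hneg)
    have h2 : ∀ s, v ≠ Q s 0 := by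
      rintro s rfl
      exact absurd (isChart_ord_coord_nonneg (hQ s) h0r) (not_le.mpr hneg)
    rw [sumDiv_apply_of_forall_ne _ h1, sumDiv_apply_of_forall_ne _ h2, sub_self]
  · rw [not_lt] at hneg
    by_cases hv : ∃ s, v = Q s z
    · obtain ⟨s₀, rfl⟩ := hv
      have h1 : (Q s₀ z).ord (t - algebraMap ℂ F z) = 1 := (hQ s₀).unif z (by simpa using hz)
      have h2 : ∀ s, Q s₀ z ≠ Q s 0 := by
        intro s hs
        have : 0 < (Q s₀ z).ord t := by
          rw [hs, isChart_ord_center (hQ s)]; exact one_pos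
        exact hexcl _ (by rw [h1]; exact one_pos) this
      have h3 : (Q s₀ z).ord t = 0 := by
        refine le_antisymm (not_lt.mp fun hpos => ?_) hneg
        exact hexcl _ (by rw [h1]; exact one_pos) hpos
      rw [h1, h3, sumDiv_apply_of_injective (fun s => Q s z) hinjz s₀,
        sumDiv_apply_of_forall_ne _ h2]
    · push Not at hv
      have h1 : v.ord (t - algebraMap ℂ F z) = 0 := by
        refine le_antisymm (not_lt.mp fun hpos => ?_) (ord_sub_nonneg v hneg (ord_const_nonneg v z))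
        obtain ⟨s, hs⟩ := hfib v hpos
        exact hv s hs
      rw [h1, sumDiv_apply_of_forall_ne _ hv]
      by_cases hv0 : ∃ s, v = Q s 0
      · obtain ⟨s₀, rfl⟩ := hv0
        rw [isChart_ord_center (hQ s₀), sumDiv_apply_of_injective (fun s => Q s 0) hinj0 s₀]
      · push Not at hv0
        have h3 : v.ord t = 0 := by
          refine le_antisymm (not_lt.mp fun hpos => ?_) hneg
          obtain ⟨s, hs⟩ := hzero v hpos
          exact hv0 s hs
        rw [h3, sumDiv_apply_of_forall_ne _ hv0]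

end Fibre


/-! ## The setting of T2 -/

section Main

set_option linter.unusedSectionVars false

variable {F : Type} [Field F] [Algebra ℂ F]
  {ι : Type} [Fintype ι] {S : Type} [Fintype S] [DecidableEq S] {g : ℕ}

/-- The function `τ_q = ∏_k (t_k - q_k)`. -/
def tau (t : ι → F) (q : ι → ℂ) : F := ∏ k, (t k - algebraMap ℂ F (q k))

theorem tau_zero (t : ι → F) : tau t 0 = ∏ k, t k := by
  simp [tau]

/-- The place at which the condition `s` is imposed: the base point itself for the main sheets,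
the moving fibre point for the other sheets. -/
def cq (κ : S → ι) (main : ι → S) (Qb : S → ℂ → Place ℂ F) (q : ι → ℂ) (s : S) : Place ℂ F :=
  Qb s (if s = main (κ s) then 0 else q (κ s))

theorem sum_main {κ : S → ι} {main : ι → S} (hmain : ∀ k, κ (main k) = k) {M : Type*}
    [AddCommMonoid M] (G : ι → M) :
    ∑ s : S, (if s = main (κ s) then G (κ s) else 0) = ∑ k, G k := by
  classical
  have hinj : Function.Injective main := fun a b h => by rw [← hmain a, ← hmain b, h]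
  rw [← Finset.sum_filter]
  have hset : (Finset.univ.filter fun s : S => s = main (κ s)) = Finset.univ.image main := by
    ext s
    simp only [Finset.mem_filter, Finset.mem_univ, true_and, Finset.mem_image]
    constructor
    · intro h; exact ⟨κ s, h.symm⟩
    · rintro ⟨k, rfl⟩; rw [hmain]
  rw [hset, Finset.sum_image (fun a _ b _ h => hinj h)]
  exact Finset.sum_congr rfl fun k _ => by rw [hmain]

/-- The hypotheses of `Stmt_T2` together with a radius `δ` below which all charts are disjoint,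
the fibres are exhausted by the sheets and the coordinates are regular along all charts. -/
structure Setup (κ : S → ι) (main : ι → S) (t : ι → F) (Qb : S → ℂ → Place ℂ F) (rb : ℝ)
    (u : Fin g → F) (Qc : Fin g → ℂ → Place ℂ F) (rc : ℝ) (δ : ℝ) : Prop where
  hdeg : ∀ v : Place ℂ F, v.deg = 1
  hPD : HasPrincipalDivisors ℂ F
  hmain : ∀ k, κ (main k) = k
  hQb : ∀ s, IsChart (t (κ s)) (Qb s) rb
  hzeros : ∀ (k : ι) (v : Place ℂ F), 0 < v.ord (t k) → ∃ s, κ s = k ∧ v = Qb s 0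
  hQc : ∀ i, IsChart (u i) (Qc i) rc
  hinj : Function.Injective (Sum.elim (fun s => Qb s 0) (fun i => Qc i 0))
  δpos : 0 < δ
  lt_rb : ∀ (_ : S) (z : ℂ), ‖z‖ < δ → ‖z‖ < rb
  lt_rc : ∀ (_ : Fin g) (z : ℂ), ‖z‖ < δ → ‖z‖ < rc
  sepbb : ∀ (s s' : S) (z z' : ℂ), ‖z‖ < δ → ‖z'‖ < δ → Qb s z = Qb s' z' → s = s'
  sepbc : ∀ (s : S) (i : Fin g) (z z' : ℂ), ‖z‖ < δ → ‖z'‖ < δ → Qb s z ≠ Qc i z'
  sepcc : ∀ (i i' : Fin g) (z z' : ℂ), ‖z‖ < δ → ‖z'‖ < δ → Qc i z = Qc i' z' → i = i'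
  fib : ∀ (k : ι) (z : ℂ), ‖z‖ < δ → ∀ v : Place ℂ F, 0 < v.ord (t k - algebraMap ℂ F z) →
    ∃ s, κ s = k ∧ v = Qb s z
  regb : ∀ (k : ι) (s : S) (z : ℂ), ‖z‖ < δ → 0 ≤ (Qb s z).ord (t k)
  regc : ∀ (k : ι) (i : Fin g) (z : ℂ), ‖z‖ < δ → 0 ≤ (Qc i z).ord (t k)

namespace Setup

variable {κ : S → ι} {main : ι → S} {t : ι → F} {Qb : S → ℂ → Place ℂ F} {rb : ℝ}
  {u : Fin g → F} {Qc : Fin g → ℂ → Place ℂ F} {rc : ℝ} {δ : ℝ}
  (H : Setup κ main t Qb rb u Qc rc δ)
include H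

theorem zero_lt : ‖(0 : ℂ)‖ < δ := by simpa using H.δpos

theorem t_sub_ne_zero (k : ι) (z : ℂ) : t k - algebraMap ℂ F z ≠ 0 := by
  intro h
  have h1 := isChart_ord_center (H.hQb (main k))
  rw [H.hmain k, sub_eq_zero.mp h, helper483.ord_algebraMap] at h1
  exact zero_ne_one h1

theorem t_ne_zero (k : ι) : t k ≠ 0 := by
  simpa using H.t_sub_ne_zero k 0

theorem tau_ne_zero (q : ι → ℂ) : tau t q ≠ 0 :=
  Finset.prod_ne_zero_iff.mpr fun k _ => H.t_sub_ne_zero k (q k)

theorem u_ne_zero (i : Fin g) : u i ≠ 0 := by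
  intro h
  have h1 := isChart_ord_center (H.hQc i)
  rw [h, Place.ord_zero] at h1
  exact zero_ne_one h1

theorem injb : Function.Injective fun s => Qb s 0 := fun s s' h =>
  Sum.inl_injective (H.hinj (by simpa using h))

theorem injc : Function.Injective fun i => Qc i 0 := fun i i' h =>
  Sum.inr_injective (H.hinj (by simpa using h))

theorem ne_bc (s : S) (i : Fin g) : Qb s 0 ≠ Qc i 0 := fun h =>
  Sum.inl_ne_inr (H.hinj (by simpa using h))

/-- Relative order of `τ_q`. -/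
theorem ord_tau_sub {q : ι → ℂ} (hq : ∀ k, ‖q k‖ < δ) (v : Place ℂ F) :
    v.ord (tau t q) - v.ord (tau t 0)
      = sumDiv (fun s => Qb s (q (κ s))) v - sumDiv (fun s => Qb s 0) v := by
  classical
  rw [tau_zero, tau, ord_prod v _ _ (fun k _ => H.t_sub_ne_zero k (q k)),
    ord_prod v _ _ (fun k _ => H.t_ne_zero k), ← Finset.sum_sub_distrib]
  have hk : ∀ k, v.ord (t k - algebraMap ℂ F (q k)) - v.ord (t k)
      = ∑ s ∈ Finset.univ.filter (fun s => κ s = k),
          (pt (Qb s (q (κ s))) v - pt (Qb s 0) v) := by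
    intro k
    have hQ : ∀ s : {s // κ s = k}, IsChart (t k) (Qb s.1) rb := fun s => by
      have := H.hQb s.1
      rwa [s.2] at this
    have hzk : ‖q k‖ < rb := H.lt_rb (main k) _ (hq k)
    have h1 := fibre_ord (t k) (fun s : {s // κ s = k} => Qb s.1) rb hQ
      (fun w hw => by
        obtain ⟨s, hs, hw'⟩ := H.hzeros k w hw
        exact ⟨⟨s, hs⟩, hw'⟩)
      (q k) hzk
      (fun w hw => by
        obtain ⟨s, hs, hw'⟩ := H.fib k (q k) (hq k) w hw
        exact ⟨⟨s, hs⟩, hw'⟩)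
      (fun s s' h => Subtype.ext (H.injb h))
      (fun s s' h => Subtype.ext (H.sepbb _ _ _ _ (hq k) (hq k) h)) v
    rw [h1, sumDiv_apply, sumDiv_apply, ← Finset.sum_sub_distrib]
    rw [Finset.sum_subtype (p := fun s => κ s = k) (Finset.univ.filter fun s => κ s = k)
      (fun x => by simp) (fun s => pt (Qb s (q (κ s))) v - pt (Qb s 0) v)]
    refine Finset.sum_congr rfl fun s _ => ?_
    rw [s.2]
  rw [Finset.sum_congr rfl fun k _ => hk k,
    Finset.sum_fiberwise Finset.univ κ (fun s => pt (Qb s (q (κ s))) v - pt (Qb s 0) v),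
    sumDiv_apply, sumDiv_apply, ← Finset.sum_sub_distrib]

variable {N : Divisor ℂ F}

/-- Order of `τ_q` in terms of the pole divisor `N`. -/
theorem ord_tau (hN : ∀ v, N v = sumDiv (fun s => Qb s 0) v - v.ord (tau t 0)) {q : ι → ℂ}
    (hq : ∀ k, ‖q k‖ < δ) (v : Place ℂ F) :
    v.ord (tau t q) = (sumDiv (fun s => Qb s (q (κ s))) - N) v := by
  have h := H.ord_tau_sub hq v
  rw [Finsupp.sub_apply, hN v]
  linarith

/-- The pole divisor vanishes wherever all coordinates are regular. -/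
theorem N_eq_zero (hN : ∀ v, N v = sumDiv (fun s => Qb s 0) v - v.ord (tau t 0)) {v : Place ℂ F}
    (hv : ∀ k, 0 ≤ v.ord (t k)) : N v = 0 := by
  classical
  rw [hN v, tau_zero, ord_prod v _ _ (fun k _ => H.t_ne_zero k)]
  by_cases hc : ∃ s, v = Qb s 0
  · obtain ⟨s, rfl⟩ := hc
    rw [sumDiv_apply_of_injective _ H.injb s, Finset.sum_eq_single (κ s)]
    · rw [isChart_ord_center (H.hQb s)]; ring
    · intro k _ hk
      refine le_antisymm (not_lt.mp fun hpos => ?_) (hv k)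
      obtain ⟨s', hs', hs''⟩ := H.hzeros k _ hpos
      exact hk (by rw [← hs', H.injb hs''])
    · intro h; exact absurd (Finset.mem_univ _) h
  · push Not at hc
    rw [sumDiv_apply_of_forall_ne _ hc, Finset.sum_eq_zero, sub_zero]
    intro k _
    refine le_antisymm (not_lt.mp fun hpos => ?_) (hv k)
    obtain ⟨s', _, hs''⟩ := H.hzeros k _ hpos
    exact hc s' hs''

theorem off_b (hN : ∀ v, N v = sumDiv (fun s => Qb s 0) v - v.ord (tau t 0)) (s : S) {z : ℂ}
    (hz : ‖z‖ < δ) : (N + sumDiv fun i => Qc i 0) (Qb s z) = 0 := by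
  rw [Finsupp.add_apply, H.N_eq_zero hN (fun k => H.regb k s z hz),
    sumDiv_apply_of_forall_ne _ (fun i => H.sepbc s i z 0 hz H.zero_lt), add_zero]

theorem N_c (hN : ∀ v, N v = sumDiv (fun s => Qb s 0) v - v.ord (tau t 0)) (i : Fin g) {z : ℂ}
    (hz : ‖z‖ < δ) : N (Qc i z) = 0 :=
  H.N_eq_zero hN (fun k => H.regc k i z hz)

theorem tau0_mem (hN : ∀ v, N v = sumDiv (fun s => Qb s 0) v - v.ord (tau t 0)) :
    tau t 0 ∈ riemannRochSpace (N + sumDiv fun i => Qc i 0) := by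
  rw [mem_riemannRochSpace_iff]
  intro v
  right
  have h1 := hN v
  have h2 := sumDiv_apply_nonneg (fun s => Qb s 0) v
  have h3 := sumDiv_apply_nonneg (fun i => Qc i 0) v
  rw [Finsupp.add_apply]
  linarith

theorem cq_param_lt {q : ι → ℂ} (hq : ∀ k, ‖q k‖ < δ) (s : S) :
    ‖(if s = main (κ s) then (0 : ℂ) else q (κ s))‖ < δ := by
  split_ifs
  · exact H.zero_lt
  · exact hq _

theorem cq_injective {q : ι → ℂ} (hq : ∀ k, ‖q k‖ < δ) :
    Function.Injective (cq κ main Qb q) := fun s s' h =>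
  H.sepbb _ _ _ _ (H.cq_param_lt hq s) (H.cq_param_lt hq s') h

theorem cq_off (hN : ∀ v, N v = sumDiv (fun s => Qb s 0) v - v.ord (tau t 0)) {q : ι → ℂ}
    (hq : ∀ k, ‖q k‖ < δ) (s : S) : (N + sumDiv fun i => Qc i 0) (cq κ main Qb q s) = 0 :=
  H.off_b hN s (H.cq_param_lt hq s)

/-- The divisor bookkeeping: all fibre points minus the condition places. -/
theorem sumDiv_sub_cq (q : ι → ℂ) :
    sumDiv (fun s => Qb s (q (κ s))) - sumDiv (cq κ main Qb q)
      = sumDiv (fun k => Qb (main k) (q k)) - sumDiv (fun k => Qb (main k) 0) := by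
  classical
  simp only [sumDiv]
  rw [← Finset.sum_sub_distrib, ← Finset.sum_sub_distrib,
    ← sum_main H.hmain (fun k => pt (Qb (main k) (q k)) - pt (Qb (main k) 0))]
  refine Finset.sum_congr rfl fun s _ => ?_
  by_cases hs : s = main (κ s)
  · rw [if_pos hs, cq, if_pos hs, ← hs]
  · rw [if_neg hs, cq, if_neg hs, sub_self]

/-- A function of the fixed space vanishing at all condition places, divided by `τ_q`, lies in
`L(C⁰ + ∑ Q_k - ∑ P_k)`. -/
theorem div_tau_mem (hev : EvFacts F)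
    (hN : ∀ v, N v = sumDiv (fun s => Qb s 0) v - v.ord (tau t 0)) {q : ι → ℂ}
    (hq : ∀ k, ‖q k‖ < δ) {a : F} (ha : a ∈ riemannRochSpace (N + sumDiv fun i => Qc i 0))
    (h0 : ∀ s, ev (cq κ main Qb q s) a = 0) :
    a / tau t q ∈ riemannRochSpace ((sumDiv fun i => Qc i 0)
      + sumDiv (fun k => Qb (main k) (q k)) - sumDiv (fun k => Qb (main k) 0)) := by
  have h1 := mem_riemannRochSpace_sub_sumDiv hev ha (cq κ main Qb q) (H.cq_injective hq)
    (H.cq_off hN hq) h0
  have h2 := div_mem_riemannRochSpace h1 (H.tau_ne_zero q) (H.ord_tau hN hq)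
  have e := H.sumDiv_sub_cq q
  have e2 : N + (sumDiv fun i => Qc i 0) - sumDiv (cq κ main Qb q)
      + (sumDiv (fun s => Qb s (q (κ s))) - N)
      = (sumDiv fun i => Qc i 0) + sumDiv (fun k => Qb (main k) (q k))
        - sumDiv (fun k => Qb (main k) 0) := by
    have e' : sumDiv (fun k => Qb (main k) (q k))
        = sumDiv (fun s => Qb s (q (κ s))) - sumDiv (cq κ main Qb q)
          + sumDiv (fun k => Qb (main k) 0) := by
      rw [e]; abel
    rw [e']; abel
  rwa [e2] at h2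

/-- Degree count: a nonzero `h ∈ L(C⁰ + ∑ Q_k - ∑ P_k)` such that `u_i h` vanishes at the points
`Qc i (z i)` has divisor exactly `∑ Qc i (z i) - C⁰ - ∑ Q_k + ∑ P_k`. -/
theorem principal_of_zeros (hev : EvFacts F) {q : ι → ℂ} (hq : ∀ k, ‖q k‖ < δ) {h : F}
    (hh : h ≠ 0)
    (hmem : h ∈ riemannRochSpace ((sumDiv fun i => Qc i 0)
      + sumDiv (fun k => Qb (main k) (q k)) - sumDiv (fun k => Qb (main k) 0)))
    {z : Fin g → ℂ} (hz : ∀ i, ‖z i‖ < δ)
    (hzero : ∀ i, 0 ≤ (Qc i (z i)).ord (u i * h) ∧ ev (Qc i (z i)) (u i * h) = 0) :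
    sumDiv (fun k => Qb (main k) (q k)) - sumDiv (fun k => Qb (main k) 0)
      - sumDiv (fun i => Qc i (z i)) + sumDiv (fun i => Qc i 0) ∈ Divisor.principal := by
  classical
  have := H.hPD
  obtain ⟨Dh, hDh, hDh0⟩ := HasPrincipalDivisors.exists_divisor (K := ℂ) h hh
  have hinjz : Function.Injective fun i => Qc i (z i) := fun i i' hii =>
    H.sepcc _ _ _ _ (hz i) (hz i') hii
  have hEff_nonneg : ∀ v, 0 ≤ Dh v + ((sumDiv fun i => Qc i 0) v
      + sumDiv (fun k => Qb (main k) (q k)) v - sumDiv (fun k => Qb (main k) 0) v) := by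
    intro v
    rcases (mem_riemannRochSpace_iff.mp hmem) v with h0 | h0
    · exact absurd h0 hh
    · rw [hDh v]
      simp only [Finsupp.sub_apply, Finsupp.add_apply] at h0
      linarith
  have hEff_pt : ∀ i, 1 ≤ Dh (Qc i (z i)) + ((sumDiv fun i => Qc i 0) (Qc i (z i))
      + sumDiv (fun k => Qb (main k) (q k)) (Qc i (z i))
      - sumDiv (fun k => Qb (main k) 0) (Qc i (z i))) := by
    intro i
    have hrc : ‖z i‖ < rc := H.lt_rc i _ (hz i)
    have hDq : sumDiv (fun k => Qb (main k) (q k)) (Qc i (z i)) = 0 :=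
      sumDiv_apply_of_forall_ne _ fun k => (H.sepbc (main k) i (q k) (z i) (hq k) (hz i)).symm
    have hD0 : sumDiv (fun k => Qb (main k) 0) (Qc i (z i)) = 0 :=
      sumDiv_apply_of_forall_ne _ fun k => (H.sepbc (main k) i 0 (z i) H.zero_lt (hz i)).symm
    have hord : 1 ≤ (Qc i (z i)).ord (u i * h) := by
      rcases (hev.eq_zero _ _ (hzero i).1).mp (hzero i).2 with h0 | h0
      · exact absurd h0 (mul_ne_zero (H.u_ne_zero i) hh)
      · omega
    rw [(Qc i (z i)).ord_mul (H.u_ne_zero i) hh] at hord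
    rw [hDh, hDq, hD0]
    by_cases hzi : z i = 0
    · have h1 : (Qc i (z i)).ord (u i) = 1 := by rw [hzi]; exact isChart_ord_center (H.hQc i)
      have h2 : sumDiv (fun j => Qc j 0) (Qc i (z i)) = 1 := by
        rw [hzi]; exact sumDiv_apply_of_injective _ H.injc i
      rw [h2]; omega
    · have h1 : (Qc i (z i)).ord (u i) = 0 := by
        have hval := isChart_ev_coord hev (H.hQc i) hrc
        exact hev.ord_eq_zero_of_ev_ne_zero _ (isChart_ord_coord_nonneg (H.hQc i) hrc)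
          (by rw [hval]; exact hzi)
      have h2 := sumDiv_apply_nonneg (fun j => Qc j 0) (Qc i (z i))
      omega
  have hzero' : Dh + ((sumDiv fun i => Qc i 0) + sumDiv (fun k => Qb (main k) (q k))
      - sumDiv (fun k => Qb (main k) 0)) - sumDiv (fun i => Qc i (z i)) = 0 := by
    apply eq_zero_of_nonneg_of_degree H.hdeg
    · intro v
      simp only [Finsupp.sub_apply, Finsupp.add_apply]
      by_cases hv : ∃ i, v = Qc i (z i)
      · obtain ⟨i, rfl⟩ := hv
        rw [sumDiv_apply_of_injective (fun i => Qc i (z i)) hinjz i]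
        linarith [hEff_pt i]
      · push Not at hv
        rw [sumDiv_apply_of_forall_ne (fun i => Qc i (z i)) hv]
        linarith [hEff_nonneg v]
    · rw [map_sub, map_add, map_sub, map_add, hDh0, degree_sumDiv H.hdeg, degree_sumDiv H.hdeg,
        degree_sumDiv H.hdeg, degree_sumDiv H.hdeg]
      simp
  refine ⟨h⁻¹, inv_ne_zero hh, fun v => ?_⟩
  have h3 := DFunLike.congr_fun hzero' v
  rw [Place.ord_inv, ← hDh v]
  simp only [Finsupp.sub_apply, Finsupp.add_apply, Finsupp.coe_zero, Pi.zero_apply] at h3 ⊢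
  linarith

/-- `C⁰` vanishes at the moved points of the target charts. -/
theorem C0_c (i : Fin g) {e : ℂ} (he : ‖e‖ < δ) (he0 : e ≠ 0) :
    sumDiv (fun j => Qc j 0) (Qc i e) = 0 := by
  refine sumDiv_apply_of_forall_ne _ fun j hj => he0 ?_
  have hij : i = j := H.sepcc i j e 0 he H.zero_lt hj
  subst hij
  exact isChart_injOn (H.hQc i) (H.lt_rc i _ he) (H.lt_rc i _ H.zero_lt) hj

/-- `u_i w` is regular along the `i`-th target chart for every `w` of the fixed space. -/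
theorem reg_uw (hN : ∀ v, N v = sumDiv (fun s => Qb s 0) v - v.ord (tau t 0)) (i : Fin g)
    {w : F} (hw : w ∈ riemannRochSpace (N + sumDiv fun i => Qc i 0)) {e : ℂ} (he : ‖e‖ < δ) :
    0 ≤ (Qc i e).ord (u i * w) := by
  rcases eq_or_ne w 0 with rfl | hw0
  · simp
  rw [(Qc i e).ord_mul (H.u_ne_zero i) hw0]
  have h1 : -(N + sumDiv fun i => Qc i 0) (Qc i e) ≤ (Qc i e).ord w := by
    rcases (mem_riemannRochSpace_iff.mp hw) (Qc i e) with h | h
    · exact absurd h hw0
    · exact h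
  rw [Finsupp.add_apply, H.N_c hN i he, zero_add] at h1
  by_cases he0 : e = 0
  · subst he0
    rw [sumDiv_apply_of_injective _ H.injc i] at h1
    rw [isChart_ord_center (H.hQc i)]
    omega
  · rw [H.C0_c i he he0] at h1
    have h2 := isChart_ord_coord_nonneg (H.hQc i) (H.lt_rc i _ he)
    omega

/-- The value of `t_k - z` along the target charts. -/
theorem ev_t_sub (hev : EvFacts F) (k : ι) (i : Fin g) {z e : ℂ} (hz : ‖z‖ < δ) (he : ‖e‖ < δ) :
    0 ≤ (Qc i e).ord (t k - algebraMap ℂ F z) ∧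
      ev (Qc i e) (t k - algebraMap ℂ F z) = ev (Qc i e) (t k) - z ∧
      ev (Qc i e) (t k) - z ≠ 0 := by
  have hreg : 0 ≤ (Qc i e).ord (t k - algebraMap ℂ F z) :=
    ord_sub_nonneg _ (H.regc k i e he) (ord_const_nonneg _ z)
  have hval : ev (Qc i e) (t k - algebraMap ℂ F z) = ev (Qc i e) (t k) - z := by
    rw [hev.sub _ _ _ (H.regc k i e he) (ord_const_nonneg _ z), hev.const]
  refine ⟨hreg, hval, fun h0 => ?_⟩
  rw [← hval] at h0
  rcases (hev.eq_zero _ _ hreg).mp h0 with h | h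
  · exact H.t_sub_ne_zero k z h
  · obtain ⟨s, -, hs⟩ := H.fib k z hz _ h
    exact H.sepbc s i z e hz he hs.symm

/-- The value of `1/τ_q` along the target charts. -/
theorem ev_tau_inv (hev : EvFacts F) (i : Fin g) {q : ι → ℂ} (hq : ∀ k, ‖q k‖ < δ) {e : ℂ}
    (he : ‖e‖ < δ) :
    0 ≤ (Qc i e).ord (tau t q)⁻¹ ∧
      ev (Qc i e) (tau t q)⁻¹ = (∏ k, (ev (Qc i e) (t k) - q k))⁻¹ ∧
      ∏ k, (ev (Qc i e) (t k) - q k) ≠ 0 := by
  have hreg : 0 ≤ (Qc i e).ord (tau t q) :=
    ord_prod_nonneg _ _ _ fun k _ => (H.ev_t_sub hev k i (hq k) he).1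
  have hval : ev (Qc i e) (tau t q) = ∏ k, (ev (Qc i e) (t k) - q k) := by
    rw [tau, hev.prod _ _ _ fun k _ => (H.ev_t_sub hev k i (hq k) he).1]
    exact Finset.prod_congr rfl fun k _ => (H.ev_t_sub hev k i (hq k) he).2.1
  have hne : ∏ k, (ev (Qc i e) (t k) - q k) ≠ 0 :=
    Finset.prod_ne_zero_iff.mpr fun k _ => (H.ev_t_sub hev k i (hq k) he).2.2
  obtain ⟨h1, h2⟩ := hev.ev_inv (Qc i e) hreg (by rw [hval]; exact hne)
  exact ⟨h1, by rw [h2, hval], hne⟩

/-- The value of `u_i · w/τ_q` along the target charts. -/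
theorem ev_u_mul_div (hev : EvFacts F)
    (hN : ∀ v, N v = sumDiv (fun s => Qb s 0) v - v.ord (tau t 0)) (i : Fin g) {q : ι → ℂ}
    (hq : ∀ k, ‖q k‖ < δ) {e : ℂ} (he : ‖e‖ < δ) {w : F}
    (hw : w ∈ riemannRochSpace (N + sumDiv fun i => Qc i 0)) :
    0 ≤ (Qc i e).ord (u i * (w / tau t q)) ∧
      ev (Qc i e) (u i * (w / tau t q))
        = ev (Qc i e) (u i * w) / ∏ k, (ev (Qc i e) (t k) - q k) := by
  obtain ⟨h1, h2, -⟩ := H.ev_tau_inv hev i hq he
  have h3 := H.reg_uw hN i hw he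
  have e1 : u i * (w / tau t q) = u i * w * (tau t q)⁻¹ := by
    rw [div_eq_mul_inv, mul_assoc]
  rw [e1]
  exact ⟨ord_mul_nonneg _ h3 h1, by rw [hev.mul _ _ _ h3 h1, h2, div_eq_mul_inv]⟩

/-- The `i`-th zero of `a q / τ_q` moves analytically with `q`. -/
theorem exists_root (hev : EvFacts F)
    (hN : ∀ v, N v = sumDiv (fun s => Qb s 0) v - v.ord (tau t 0)) (i : Fin g)
    [Module.Finite ℂ (riemannRochSpace (N + sumDiv fun i => Qc i 0))]
    {U : Set (ι → ℂ)} (h0U : (0 : ι → ℂ) ∈ U)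
    (a : (ι → ℂ) → riemannRochSpace (N + sumDiv fun i => Qc i 0))
    (ha : ∀ φ : riemannRochSpace (N + sumDiv fun i => Qc i 0) →ₗ[ℂ] ℂ,
      AnalyticOnNhd ℂ (fun q => φ (a q)) U)
    (ha0 : (a 0 : F) = tau t 0) :
    ∃ z : (ι → ℂ) → ℂ, z 0 = 0 ∧ ∀ᶠ q in 𝓝 (0 : ι → ℂ), AnalyticAt ℂ z q ∧ ‖z q‖ < δ ∧
      0 ≤ (Qc i (z q)).ord (u i * ((a q : F) / tau t q)) ∧
      ev (Qc i (z q)) (u i * ((a q : F) / tau t q)) = 0 := by
  classical
  obtain ⟨b, -⟩ : ∃ b : Module.Basis (Fin (Module.finrank ℂ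
      (riemannRochSpace (N + sumDiv fun i => Qc i 0)))) ℂ
      (riemannRochSpace (N + sumDiv fun i => Qc i 0)), True := ⟨Module.finBasis ℂ _, trivial⟩
  obtain ⟨G, hG⟩ : ∃ G : (ι → ℂ) × ℂ → ℂ, G = fun p =>
      (∑ l, b.repr (a p.1) l * ev (Qc i p.2) (u i * (b l : F)))
        / ∏ k, (ev (Qc i p.2) (t k) - p.1 k) := ⟨_, rfl⟩
  have hq0 : ∀ k, ‖(0 : ι → ℂ) k‖ < δ := fun k => by simpa using H.δpos
  have hkey : ∀ q e, (∀ k, ‖q k‖ < δ) → ‖e‖ < δ →
      0 ≤ (Qc i e).ord (u i * ((a q : F) / tau t q)) ∧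
        ev (Qc i e) (u i * ((a q : F) / tau t q)) = G (q, e) := by
    intro q e hq he
    obtain ⟨h1, h2⟩ := H.ev_u_mul_div hev hN i hq he (a q).2
    refine ⟨h1, ?_⟩
    rw [h2, hG]
    congr 1
    have hsum : (a q : F) = ∑ l, b.repr (a q) l • (b l : F) := by
      have h := congrArg (Submodule.subtype _) (b.sum_repr (a q))
      rw [map_sum] at h
      simp only [map_smul, Submodule.subtype_apply] at h
      exact h.symm
    rw [hsum, Finset.mul_sum, hev.sum _ _ _ (fun l _ => ?_)]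
    · refine Finset.sum_congr rfl fun l _ => ?_
      rw [mul_smul_comm, hev.smul _ _ _ (H.reg_uw hN i (b l).2 he)]
    · rw [mul_smul_comm, Algebra.smul_def]
      exact ord_mul_nonneg _ (ord_const_nonneg _ _) (H.reg_uw hN i (b l).2 he)
  have hG_an : AnalyticAt ℂ G ((0 : ι → ℂ), (0 : ℂ)) := by
    have hfst : ∀ l, AnalyticAt ℂ (fun p : (ι → ℂ) × ℂ => b.repr (a p.1) l)
        ((0 : ι → ℂ), (0 : ℂ)) := by
      intro l
      have h1 : AnalyticAt ℂ (fun q => (b.coord l) (a q)) 0 := ha (b.coord l) 0 h0U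
      exact h1.comp_of_eq analyticAt_fst rfl
    have hβ : ∀ l, AnalyticAt ℂ (fun p : (ι → ℂ) × ℂ => ev (Qc i p.2) (u i * (b l : F)))
        ((0 : ι → ℂ), (0 : ℂ)) := by
      intro l
      have h1 : AnalyticAt ℂ (fun e => ev (Qc i e) (u i * (b l : F))) 0 :=
        isChart_analyticAt_ev (H.hQc i) (H.reg_uw hN i (b l).2 H.zero_lt)
      exact h1.comp_of_eq analyticAt_snd rfl
    have hθ : ∀ k, AnalyticAt ℂ (fun p : (ι → ℂ) × ℂ => ev (Qc i p.2) (t k) - p.1 k)
        ((0 : ι → ℂ), (0 : ℂ)) := by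
      intro k
      have h1 : AnalyticAt ℂ (fun e => ev (Qc i e) (t k)) 0 :=
        isChart_analyticAt_ev (H.hQc i) (H.regc k i 0 H.zero_lt)
      have h2 : AnalyticAt ℂ (fun p : (ι → ℂ) × ℂ => p.1 k) ((0 : ι → ℂ), (0 : ℂ)) :=
        ((ContinuousLinearMap.proj k : (ι → ℂ) →L[ℂ] ℂ).analyticAt 0).comp_of_eq
          analyticAt_fst rfl
      exact (h1.comp_of_eq analyticAt_snd rfl).sub h2
    rw [hG]
    refine AnalyticAt.div ?_ ?_ ?_
    · exact Finset.analyticAt_fun_sum _ fun l _ => (hfst l).mul (hβ l)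
    · exact Finset.analyticAt_fun_prod _ fun k _ => hθ k
    · have := (H.ev_tau_inv hev i hq0 H.zero_lt).2.2
      simpa using this
  have hG0e : ∀ e, ‖e‖ < δ → G (0, e) = e := by
    intro e he
    obtain ⟨-, h2⟩ := hkey 0 e hq0 he
    rw [← h2, ha0, div_self (H.tau_ne_zero 0), mul_one]
    exact isChart_ev_coord hev (H.hQc i) (H.lt_rc i _ he)
  have hGd : deriv (fun z => G (0, z)) 0 ≠ 0 := by
    have h1 : (fun z => G (0, z)) =ᶠ[𝓝 0] fun z => z := by
      filter_upwards [Metric.ball_mem_nhds (0 : ℂ) H.δpos] with e he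
      exact hG0e e (by simpa using he)
    have h2 : deriv (fun z : ℂ => z) 0 = 1 := by simp
    rw [h1.deriv_eq, h2]
    exact one_ne_zero
  obtain ⟨U', δ', z, hU'o, h0U', -, hz_an, hz0, hzU', -⟩ :=
    helper1545.exists_analytic_root G 0 0 hG_an (hG0e 0 H.zero_lt) hGd
  refine ⟨z, hz0, ?_⟩
  have hzc : ContinuousAt z 0 := (hz_an 0 h0U').continuousAt
  have h1 : ∀ᶠ q in 𝓝 (0 : ι → ℂ), ‖z q‖ < δ := by
    have h := hzc.preimage_mem_nhds (Metric.ball_mem_nhds (z 0) H.δpos)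
    filter_upwards [h] with q hq
    rw [Set.mem_preimage, hz0, mem_ball_zero_iff] at hq
    exact hq
  have h2 : ∀ᶠ q in 𝓝 (0 : ι → ℂ), ∀ k, ‖q k‖ < δ := by
    filter_upwards [Metric.ball_mem_nhds (0 : ι → ℂ) H.δpos] with q hq k
    exact lt_of_le_of_lt (norm_le_pi_norm q k) (by simpa using hq)
  filter_upwards [hU'o.mem_nhds h0U', h1, h2] with q hqU' hzq hqk
  obtain ⟨h3, h4⟩ := hkey q (z q) hqk hzq
  exact ⟨hz_an q hqU', hzq, h3, by rw [h4]; exact (hzU' q hqU').2⟩

end Setup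

/-- **T2, core form**: the linear-algebra group law from a `Setup`, the finiteness and Riemann
inequality for Riemann–Roch spaces, and `L(C⁰) = ℂ`. -/
theorem t2_core {κ : S → ι} {main : ι → S} {t : ι → F} {Qb : S → ℂ → Place ℂ F} {rb : ℝ}
    {u : Fin g → F} {Qc : Fin g → ℂ → Place ℂ F} {rc : ℝ} {δ : ℝ}
    (hev : EvFacts F) (H : Setup κ main t Qb rb u Qc rc δ)
    (hfin : ∀ D : Divisor ℂ F, Module.Finite ℂ (riemannRochSpace D))
    (hRI : ∀ D : Divisor ℂ F,
      Divisor.degree D + 1 - g ≤ Module.finrank ℂ (riemannRochSpace D))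
    (hL1 : ∀ f ∈ riemannRochSpace (sumDiv fun i => Qc i 0), ∃ c : ℂ, f = algebraMap ℂ F c) :
    ∃ ε > 0, ∃ E : (ι → ℂ) → (Fin g → ℂ),
      AnalyticOnNhd ℂ E (Metric.ball 0 ε) ∧ E 0 = 0 ∧
      (∀ q ∈ Metric.ball (0 : ι → ℂ) ε, (∀ k, ‖q k‖ < rb) ∧ ∀ i, ‖E q i‖ < rc) ∧
      ∀ q ∈ Metric.ball (0 : ι → ℂ) ε,
        sumDiv (fun k => Qb (main k) (q k)) - sumDiv (fun k => Qb (main k) 0)
          - sumDiv (fun i => Qc i (E q i)) + sumDiv (fun i => Qc i 0) ∈ Divisor.principal := by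
  classical
  have hPD := H.hPD
  obtain ⟨Dτ, hDτ, hDτ0⟩ :=
    HasPrincipalDivisors.exists_divisor (K := ℂ) (tau t 0) (H.tau_ne_zero 0)
  obtain ⟨N, hNdef⟩ : ∃ N : Divisor ℂ F, N = sumDiv (fun s => Qb s 0) - Dτ := ⟨_, rfl⟩
  have hN : ∀ v, N v = sumDiv (fun s => Qb s 0) v - v.ord (tau t 0) := fun v => by
    rw [hNdef, Finsupp.sub_apply, hDτ v]
  have hNdeg : Divisor.degree N = Fintype.card S := by
    rw [hNdef, map_sub, hDτ0, degree_sumDiv H.hdeg]; simp
  have : Module.Finite ℂ (riemannRochSpace (N + sumDiv fun i => Qc i 0)) := hfin _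
  have hWdim : Fintype.card S + 1
      ≤ Module.finrank ℂ (riemannRochSpace (N + sumDiv fun i => Qc i 0)) := by
    have h1 := hRI (N + sumDiv fun i => Qc i 0)
    rw [map_add, hNdeg, degree_sumDiv H.hdeg, Fintype.card_fin] at h1
    omega
  have hq0 : ∀ k, ‖(0 : ι → ℂ) k‖ < δ := fun k => by simpa using H.δpos
  -- the linear conditions
  obtain ⟨ℓ, hℓ⟩ : ∃ ℓ : (ι → ℂ) → S →
      riemannRochSpace (N + sumDiv fun i => Qc i 0) →ₗ[ℂ] ℂ,
      ∀ q, (∀ k, ‖q k‖ < δ) → ∀ s w, ℓ q s w = ev (cq κ main Qb q s) (w : F) := by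
    refine ⟨fun q s => if hq : ∀ k, ‖q k‖ < δ then
      evLin hev _ (cq κ main Qb q s) (H.cq_off hN hq s) else 0, ?_⟩
    intro q hq s w
    simp only [dif_pos hq, evLin_apply]
  have hball : ∀ᶠ q in 𝓝 (0 : ι → ℂ), ∀ k, ‖q k‖ < δ := by
    filter_upwards [Metric.ball_mem_nhds (0 : ι → ℂ) H.δpos] with q hq k
    exact lt_of_le_of_lt (norm_le_pi_norm q k) (by simpa using hq)
  have hℓ_an : ∀ s w, AnalyticAt ℂ (fun q => ℓ q s w) 0 := by
    intro s w
    have hreg : 0 ≤ (Qb s 0).ord (w : F) :=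
      ord_nonneg_of_mem_riemannRochSpace w.2 (H.off_b hN s H.zero_lt).le
    by_cases hs : s = main (κ s)
    · have h1 : (fun q => ℓ q s w) =ᶠ[𝓝 0] fun _ => ev (Qb s 0) (w : F) := by
        filter_upwards [hball] with q hq
        rw [hℓ q hq, cq, if_pos hs]
      exact analyticAt_const.congr h1.symm
    · have h1 : AnalyticAt ℂ (fun z => ev (Qb s z) (w : F)) 0 :=
        isChart_analyticAt_ev (H.hQb s) hreg
      have h2 : AnalyticAt ℂ (fun q : ι → ℂ => ev (Qb s (q (κ s))) (w : F)) 0 :=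
        h1.comp_of_eq ((ContinuousLinearMap.proj (κ s) : (ι → ℂ) →L[ℂ] ℂ).analyticAt 0) rfl
      have h3 : (fun q => ℓ q s w) =ᶠ[𝓝 0] fun q => ev (Qb s (q (κ s))) (w : F) := by
        filter_upwards [hball] with q hq
        rw [hℓ q hq, cq, if_neg hs]
      exact h2.congr h3.symm
  -- the kernel at the base point
  obtain ⟨v0, hv0def⟩ : ∃ v0 : riemannRochSpace (N + sumDiv fun i => Qc i 0),
      (v0 : F) = tau t 0 := ⟨⟨tau t 0, H.tau0_mem hN⟩, rfl⟩
  have hv0 : v0 ≠ 0 := fun h => H.tau_ne_zero 0 (by rw [← hv0def, h]; rfl)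
  have hker0 : ∀ w, (∀ s, ℓ 0 s w = 0) → ∃ c : ℂ, w = c • v0 := by
    intro w hw
    have h1 := H.div_tau_mem hev hN hq0 w.2 (fun s => by rw [← hℓ 0 hq0]; exact hw s)
    have h2 : (sumDiv fun i => Qc i 0) + sumDiv (fun k => Qb (main k) ((0 : ι → ℂ) k))
        - sumDiv (fun k => Qb (main k) 0) = sumDiv fun i => Qc i 0 := by
      simp
    rw [h2] at h1
    obtain ⟨c, hc⟩ := hL1 _ h1
    refine ⟨c, Subtype.ext ?_⟩
    rw [Submodule.coe_smul, hv0def, Algebra.smul_def, ← hc, div_mul_cancel₀ _ (H.tau_ne_zero 0)]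
  have hne : ∀ᶠ q in 𝓝 (0 : ι → ℂ), ∃ w, w ≠ 0 ∧ ∀ s, ℓ q s w = 0 := by
    refine Filter.Eventually.of_forall fun q => ?_
    have hlt : Module.finrank ℂ (S → ℂ)
        < Module.finrank ℂ (riemannRochSpace (N + sumDiv fun i => Qc i 0)) := by
      rw [Module.finrank_fintype_fun_eq_card]; omega
    have hker := LinearMap.ker_ne_bot_of_finrank_lt (f := LinearMap.pi (ℓ q)) hlt
    obtain ⟨w, hw, hw0⟩ := (Submodule.ne_bot_iff _).mp hker
    exact ⟨w, hw0, fun s => congrFun (LinearMap.mem_ker.mp hw) s⟩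
  obtain ⟨U, a, hUo, h0U, ha_an, ha0, haU⟩ :=
    helper1545.exists_analytic_kernel_line' ℓ 0 hℓ_an v0 hv0 hker0 hne
  have ha0' : (a 0 : F) = tau t 0 := by rw [ha0, hv0def]
  -- the moving zeros
  have hroot := fun i => H.exists_root hev hN i h0U a ha_an ha0'
  choose z hz0 hz using hroot
  have hUev : ∀ᶠ q in 𝓝 (0 : ι → ℂ), q ∈ U := hUo.mem_nhds h0U
  have hall := (hUev.and hball).and (Filter.eventually_all.mpr hz)
  obtain ⟨ε, hε, hεall⟩ := Metric.eventually_nhds_iff.mp hall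
  refine ⟨ε, hε, fun q i => z i q, ?_, ?_, ?_, ?_⟩
  · intro q hq
    obtain ⟨-, h2⟩ := hεall hq
    exact analyticAt_pi_iff.mpr fun i => (h2 i).1
  · funext i; exact hz0 i
  · intro q hq
    obtain ⟨⟨-, h1⟩, h2⟩ := hεall hq
    exact ⟨fun k => H.lt_rb (main k) _ (h1 k), fun i => H.lt_rc i _ (h2 i).2.1⟩
  · intro q hq
    obtain ⟨⟨hqU, h1⟩, h2⟩ := hεall hq
    obtain ⟨haq0, haq⟩ := haU q hqU
    have hcond : ∀ s, ev (cq κ main Qb q s) (a q : F) = 0 := fun s => by
      rw [← hℓ q h1]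
      exact (haq (a q)).mpr ⟨1, (one_smul _ _).symm⟩ s
    have hmem := H.div_tau_mem hev hN h1 (a q).2 hcond
    have hne0 : (a q : F) / tau t q ≠ 0 :=
      div_ne_zero (fun h => haq0 (Subtype.ext h)) (H.tau_ne_zero q)
    exact H.principal_of_zeros hev h1 hne0 hmem (z := fun i => z i q) (fun i => (h2 i).2.1)
      (fun i => ⟨(h2 i).2.2.1, (h2 i).2.2.2⟩)

/-! ## Existence of a `Setup` -/

theorem eventually_small₁ {R : ℂ → Prop} (h : ∃ δ > 0, ∀ z : ℂ, ‖z‖ < δ → R z) :
    ∀ᶠ δ in 𝓝[>] (0 : ℝ), ∀ z : ℂ, ‖z‖ < δ → R z := by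
  obtain ⟨δ, hδ, hP⟩ := h
  filter_upwards [Ioo_mem_nhdsGT hδ] with δ' hδ' z hz
  exact hP z (hz.trans hδ'.2)

theorem eventually_small₂ {R : ℂ → ℂ → Prop}
    (h : ∃ δ > 0, ∀ z z' : ℂ, ‖z‖ < δ → ‖z'‖ < δ → R z z') :
    ∀ᶠ δ in 𝓝[>] (0 : ℝ), ∀ z z' : ℂ, ‖z‖ < δ → ‖z'‖ < δ → R z z' := by
  obtain ⟨δ, hδ, hP⟩ := h
  filter_upwards [Ioo_mem_nhdsGT hδ] with δ' hδ' z z' hz hz'
  exact hP z z' (hz.trans hδ'.2) (hz'.trans hδ'.2)

theorem eventually_small_of_nhds {R : ℂ → Prop} (h : ∀ᶠ z in 𝓝 (0 : ℂ), R z) :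
    ∀ᶠ δ in 𝓝[>] (0 : ℝ), ∀ z : ℂ, ‖z‖ < δ → R z := by
  obtain ⟨ε, hε, hR⟩ := Metric.eventually_nhds_iff.mp h
  exact eventually_small₁ ⟨ε, hε, fun z hz => hR (by simpa [dist_eq_norm] using hz)⟩

/-- The hypotheses of `Stmt_T2` give a `Setup`. -/
theorem exists_setup (hev : EvFacts F) (hFU : Stmt_FibreUnram) (x : F)
    (hx : Transcendental ℂ x) [FiniteDimensional ℂ⟮x⟯ F]
    {κ : S → ι} {main : ι → S} {t : ι → F} {Qb : S → ℂ → Place ℂ F} {rb : ℝ}
    {u : Fin g → F} {Qc : Fin g → ℂ → Place ℂ F} {rc : ℝ}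
    (hmain : ∀ k, κ (main k) = k)
    (hQb : ∀ s, IsChart (t (κ s)) (Qb s) rb)
    (hzeros : ∀ (k : ι) (v : Place ℂ F), 0 < v.ord (t k) → ∃ s, κ s = k ∧ v = Qb s 0)
    (hQc : ∀ i, IsChart (u i) (Qc i) rc)
    (hinj : Function.Injective (Sum.elim (fun s => Qb s 0) (fun i => Qc i 0)))
    (hregb : ∀ k s, 0 ≤ (Qb s 0).ord (t k))
    (hregc : ∀ k i, 0 ≤ (Qc i 0).ord (t k)) :
    ∃ δ, Setup κ main t Qb rb u Qc rc δ := by
  classical
  have injb : ∀ s s', Qb s 0 = Qb s' 0 → s = s' := fun s s' h =>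
    Sum.inl_injective (hinj (a₁ := Sum.inl s) (a₂ := Sum.inl s') h)
  have injc : ∀ i i', Qc i 0 = Qc i' 0 → i = i' := fun i i' h =>
    Sum.inr_injective (hinj (a₁ := Sum.inr i) (a₂ := Sum.inr i') h)
  have nebc : ∀ s i, Qb s 0 ≠ Qc i 0 := fun s i h =>
    Sum.inl_ne_inr (hinj (a₁ := Sum.inl s) (a₂ := Sum.inr i) h)
  have e1 : ∀ᶠ δ in 𝓝[>] (0 : ℝ), ∀ (_ : S) (z : ℂ), ‖z‖ < δ → ‖z‖ < rb :=
    Filter.eventually_all.mpr fun s => eventually_small₁ ⟨rb, (hQb s).pos, fun z hz => hz⟩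
  have e2 : ∀ᶠ δ in 𝓝[>] (0 : ℝ), ∀ (_ : Fin g) (z : ℂ), ‖z‖ < δ → ‖z‖ < rc :=
    Filter.eventually_all.mpr fun i => eventually_small₁ ⟨rc, (hQc i).pos, fun z hz => hz⟩
  have e3 : ∀ᶠ δ in 𝓝[>] (0 : ℝ), ∀ (s s' : S) (z z' : ℂ), ‖z‖ < δ → ‖z'‖ < δ →
      Qb s z = Qb s' z' → s = s' := by
    refine Filter.eventually_all.mpr fun s => Filter.eventually_all.mpr fun s' => ?_
    by_cases hss : s = s'
    · exact Filter.Eventually.of_forall fun δ z z' _ _ _ => hss
    · obtain ⟨δ, hδ, h⟩ := isChart_exists_sep hev (hQb s) (hQb s') (fun h => hss (injb s s' h))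
      exact eventually_small₂ ⟨δ, hδ, fun z z' hz hz' hQ => absurd hQ (h z z' hz hz')⟩
  have e4 : ∀ᶠ δ in 𝓝[>] (0 : ℝ), ∀ (s : S) (i : Fin g) (z z' : ℂ), ‖z‖ < δ → ‖z'‖ < δ →
      Qb s z ≠ Qc i z' := by
    refine Filter.eventually_all.mpr fun s => Filter.eventually_all.mpr fun i => ?_
    exact eventually_small₂ (isChart_exists_sep hev (hQb s) (hQc i) (nebc s i))
  have e5 : ∀ᶠ δ in 𝓝[>] (0 : ℝ), ∀ (i i' : Fin g) (z z' : ℂ), ‖z‖ < δ → ‖z'‖ < δ →
      Qc i z = Qc i' z' → i = i' := by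
    refine Filter.eventually_all.mpr fun i => Filter.eventually_all.mpr fun i' => ?_
    by_cases hii : i = i'
    · exact Filter.Eventually.of_forall fun δ z z' _ _ _ => hii
    · obtain ⟨δ, hδ, h⟩ := isChart_exists_sep hev (hQc i) (hQc i') (fun h => hii (injc i i' h))
      exact eventually_small₂ ⟨δ, hδ, fun z z' hz hz' hQ => absurd hQ (h z z' hz hz')⟩
  have e6 : ∀ᶠ δ in 𝓝[>] (0 : ℝ), ∀ (k : ι) (z : ℂ), ‖z‖ < δ → ∀ v : Place ℂ F,
      0 < v.ord (t k - algebraMap ℂ F z) → ∃ s, κ s = k ∧ v = Qb s z := by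
    refine Filter.eventually_all.mpr fun k => ?_
    obtain ⟨δ, hδ, h⟩ := fibreUnram_fintype hFU x hx (t k)
      (fun s : {s // κ s = k} => Qb s.1) rb
      (fun s => by have := hQb s.1; rwa [s.2] at this)
      (fun v hv => by
        obtain ⟨s, hs, hv'⟩ := hzeros k v hv
        exact ⟨⟨s, hs⟩, hv'⟩)
    exact eventually_small₁ ⟨δ, hδ, fun z hz v hv => by
      obtain ⟨s, hs⟩ := h z hz v hv
      exact ⟨s.1, s.2, hs⟩⟩
  have e7 : ∀ᶠ δ in 𝓝[>] (0 : ℝ), ∀ (k : ι) (s : S) (z : ℂ), ‖z‖ < δ →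
      0 ≤ (Qb s z).ord (t k) := by
    refine Filter.eventually_all.mpr fun k => Filter.eventually_all.mpr fun s => ?_
    exact eventually_small_of_nhds (isChart_eventually_regular (hQb s) (hregb k s))
  have e8 : ∀ᶠ δ in 𝓝[>] (0 : ℝ), ∀ (k : ι) (i : Fin g) (z : ℂ), ‖z‖ < δ →
      0 ≤ (Qc i z).ord (t k) := by
    refine Filter.eventually_all.mpr fun k => Filter.eventually_all.mpr fun i => ?_
    exact eventually_small_of_nhds (isChart_eventually_regular (hQc i) (hregc k i))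
  have hpos : ∀ᶠ δ in 𝓝[>] (0 : ℝ), 0 < δ := eventually_mem_nhdsWithin
  obtain ⟨δ, hδ, h1, h2, h3, h4, h5, h6, h7, h8⟩ :=
    (hpos.and (e1.and (e2.and (e3.and (e4.and (e5.and (e6.and (e7.and e8)))))))).exists
  exact ⟨δ,
    { hdeg := helper483.place_deg_eq_one x hx
      hPD := helper483.hasPrincipalDivisors x hx
      hmain := hmain
      hQb := hQb
      hzeros := hzeros
      hQc := hQc
      hinj := hinj
      δpos := hδ
      lt_rb := h1
      lt_rc := h2
      sepbb := h3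
      sepbc := h4
      sepcc := h5
      fib := h6
      regb := h7
      regc := h8 }⟩

end Main

/-! ## The theorem -/

/-- **T2** from the landed interface statements. -/
theorem t2_of (hEv : Stmt_Ev.{0, 0}) (hR : Stmt_Riemann.{0, 0}) (hFU : Stmt_FibreUnram) :
    Stmt_T2 := by
  intro F _ _ x hx _ ι _ S _ _ κ main t Qb rb u Qc rc hmain hQb hzeros hQc hinj hregb hregc hns
  have hev := evFacts_of hEv F x hx
  obtain ⟨hfinR, hRR, -⟩ := hR ℂ F x hx
  obtain ⟨δ, H⟩ := exists_setup hev hFU x hx hmain hQb hzeros hQc hinj hregb hregc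
  refine t2_core hev H (fun D => (hfinR D).2) (fun D => ?_) ?_
  · have h1 := hRR D
    have h0 : (0 : ℤ) ≤ (Module.finrank ℂ (H1 D) : ℤ) := Int.natCast_nonneg _
    linarith
  · intro f hf
    have hfin1 := (hfinR (sumDiv fun i => Qc i 0)).1
    have hfin2 := (hfinR (sumDiv fun i => Qc i 0)).2
    have hH : Module.finrank ℂ (H1 (sumDiv fun i => Qc i 0)) = 0 := by
      rw [Module.finrank_zero_iff, Submodule.Quotient.subsingleton_iff]
      exact hns
    have h := hRR (sumDiv fun i => Qc i 0)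
    rw [hH, degree_sumDiv H.hdeg, Fintype.card_fin] at h
    have hL : Module.finrank ℂ (riemannRochSpace (sumDiv fun i => Qc i 0)) = 1 := by
      have h' : (Module.finrank ℂ (riemannRochSpace (sumDiv fun i => Qc i 0)) : ℤ) = 1 := by
        push_cast at h
        linarith
      exact_mod_cast h'
    have h1 : (1 : F) ∈ riemannRochSpace (sumDiv fun i => Qc i 0) := by
      rw [mem_riemannRochSpace_iff]
      intro v
      refine Or.inr ?_
      rw [Place.ord_one]
      have h2 := sumDiv_apply_nonneg (fun i => Qc i 0) v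
      omega
    obtain ⟨a, ha⟩ := (finrank_eq_one_iff_of_nonzero'
      (⟨1, h1⟩ : riemannRochSpace (sumDiv fun i => Qc i 0))
      (by simp [Subtype.ext_iff])).1 hL ⟨f, hf⟩
    refine ⟨a, ?_⟩
    have h3 : a • (1 : F) = f := congrArg Subtype.val ha
    rw [← h3, Algebra.smul_def, mul_one]

end

end Fermat.Agent.S27.helper3813
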