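import Mathlib
import Fermat.Prelude.Def_AlgebraicCurve_DivisorClassGroup
import Fermat.Prelude.Def_AlgebraicCurve_IsCurveOver
import Fermat.Prelude.Def_AlgebraicCurve_Repartitions

/-!
# S27-E4-TOP: the space of places of a function field over `ℂ` is compact Hausdorff

`ev P a : OnePoint K` is the value of `a : F` at the place `P` (`∞` at a pole).  For `K = ℂ`
the places are topologised as a subspace of the product of Riemann spheres `F → OnePoint ℂ`;
this space is Hausdorff and (as soon as every valuation subring of `F` over `ℂ` other than `F`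
is a place) compact, by Tychonoff.  A maximum principle for functions on the place space that
are locally real parts of holomorphic functions of a coordinate is derived.
-/

set_option autoImplicit false

open AlgebraicCurve OnePoint Topology Filter

namespace Fermat.Agent.S27.helper3815

noncomputable section

section Val

variable {K F : Type*} [Field K] [Field F] [Algebra K F]

/-- Nonzero constants have valuation `1` at every place. -/
theorem val_algebraMap (P : Place K F) {c : K} (hc : c ≠ 0) :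
    P.adicValuation (algebraMap K F c) = 1 := by
  have h1 := P.adicValuation_algebraMap_le_one c
  have h2 := P.adicValuation_algebraMap_le_one c⁻¹
  have h3 : P.adicValuation (algebraMap K F c) * P.adicValuation (algebraMap K F c⁻¹) = 1 := by
    rw [← map_mul, ← map_mul, mul_inv_cancel₀ hc, map_one, map_one]
  refine le_antisymm h1 ?_
  by_contra hlt
  rw [not_le] at hlt
  have : P.adicValuation (algebraMap K F c) * P.adicValuation (algebraMap K F c⁻¹) < 1 := by
    calc _ ≤ P.adicValuation (algebraMap K F c) * 1 := by gcongr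
      _ < 1 := by simpa using hlt
  exact absurd h3 (ne_of_lt this)

/-- Membership in the valuation ring of a place in terms of its valuation. -/
theorem mem_iff_val_le_one (P : Place K F) {a : F} :
    a ∈ P.toValuationSubring ↔ P.adicValuation a ≤ 1 := by
  refine ⟨P.adicValuation_le_one_of_mem, fun h => ?_⟩
  by_contra ha
  have ha0 : a ≠ 0 := fun h0 => ha (h0 ▸ zero_mem _)
  have hinv : a⁻¹ ∈ P.toValuationSubring := (P.toValuationSubring.mem_or_inv_mem a).resolve_left ha
  have h2 := P.adicValuation_le_one_of_mem hinv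
  have h3 : P.adicValuation a * P.adicValuation a⁻¹ = 1 := by
    rw [← map_mul, mul_inv_cancel₀ ha0, map_one]
  have h4 : P.adicValuation a⁻¹ = 1 := by
    refine le_antisymm h2 ?_
    by_contra hlt
    rw [not_le] at hlt
    have : P.adicValuation a * P.adicValuation a⁻¹ < 1 := by
      calc _ ≤ 1 * P.adicValuation a⁻¹ := by gcongr
        _ < 1 := by simpa using hlt
    exact absurd h3 (ne_of_lt this)
  have hu : IsUnit (⟨a⁻¹, hinv⟩ : P.toValuationSubring) :=
    (P.adicValuation_coe_eq_one_iff ⟨a⁻¹, hinv⟩).mp h4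
  obtain ⟨u, hu⟩ := hu
  apply ha
  have : a = ((u⁻¹ : P.toValuationSubringˣ) : P.toValuationSubring) := by
    have h5 : (((u⁻¹ : P.toValuationSubringˣ) : P.toValuationSubring) : F) * a⁻¹ = 1 := by
      have := congrArg (Subtype.val) (u.inv_mul)
      rw [hu] at this
      simpa using this
    field_simp at h5
    exact h5.symm
  rw [this]
  exact SetLike.coe_mem _

end Val

section Ev

variable {K F : Type*} [Field K] [Field F] [Algebra K F]

/-- The value of `a : F` at the place `P`, as a point of the one-point compactification of the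
constant field: the constant `c` with `a - c` in the maximal ideal of `P`, and `∞` if there is
none (over an algebraically closed `K` with finite residue fields: iff `a` has a pole at `P`). -/
def ev (P : Place K F) (a : F) : OnePoint K :=
  open Classical in
  if h : ∃ c : K, P.adicValuation (a - algebraMap K F c) < 1 then ((h.choose : K) : OnePoint K)
  else ∞

theorem val_sub_unique (P : Place K F) {a : F} {c d : K}
    (hc : P.adicValuation (a - algebraMap K F c) < 1)
    (hd : P.adicValuation (a - algebraMap K F d) < 1) : c = d := by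
  by_contra hne
  have h1 : P.adicValuation (algebraMap K F (c - d)) = 1 := val_algebraMap P (sub_ne_zero.mpr hne)
  have h2 : algebraMap K F (c - d) = (a - algebraMap K F d) - (a - algebraMap K F c) := by
    rw [map_sub]; ring
  rw [h2] at h1
  have h3 := Valuation.map_sub P.adicValuation (a - algebraMap K F d) (a - algebraMap K F c)
  rw [h1] at h3
  exact absurd h3 (not_le.mpr (max_lt hd hc))

theorem ev_eq_coe_iff (P : Place K F) {a : F} {c : K} :
    ev P a = (c : OnePoint K) ↔ P.adicValuation (a - algebraMap K F c) < 1 := by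
  classical
  unfold ev
  split_ifs with h
  · rw [OnePoint.coe_eq_coe]
    constructor
    · rintro rfl
      exact h.choose_spec
    · intro hc
      exact val_sub_unique P h.choose_spec hc
  · constructor
    · intro h'
      exact absurd h' (OnePoint.infty_ne_coe c)
    · intro hc
      exact absurd ⟨c, hc⟩ h

theorem ev_eq_infty_iff_forall (P : Place K F) {a : F} :
    ev P a = ∞ ↔ ∀ c : K, ¬ P.adicValuation (a - algebraMap K F c) < 1 := by
  classical
  unfold ev
  split_ifs with h
  · constructor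
    · intro h'
      exact absurd h' (OnePoint.coe_ne_infty _)
    · intro h'
      exact absurd h.choose_spec (h' _)
  · simpa using h

theorem ev_eq_zero_iff (P : Place K F) {a : F} :
    ev P a = ((0 : K) : OnePoint K) ↔ P.adicValuation a < 1 := by
  rw [ev_eq_coe_iff, map_zero, sub_zero]

@[simp]
theorem ev_algebraMap (P : Place K F) (c : K) : ev P (algebraMap K F c) = (c : OnePoint K) := by
  rw [ev_eq_coe_iff, sub_self, map_zero]
  exact zero_lt_one

@[simp]
theorem ev_zero (P : Place K F) : ev P (0 : F) = ((0 : K) : OnePoint K) := by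
  simpa using ev_algebraMap P (0 : K)

@[simp]
theorem ev_one (P : Place K F) : ev P (1 : F) = ((1 : K) : OnePoint K) := by
  simpa using ev_algebraMap P (1 : K)

/-- A finite value forces integrality. -/
theorem val_le_one_of_ev_eq_coe (P : Place K F) {a : F} {c : K} (h : ev P a = (c : OnePoint K)) :
    P.adicValuation a ≤ 1 := by
  rw [ev_eq_coe_iff] at h
  have h2 : a = (a - algebraMap K F c) + algebraMap K F c := by ring
  rw [h2]
  exact (Valuation.map_add _ _ _).trans (max_le h.le (P.adicValuation_algebraMap_le_one c))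

theorem ev_add (P : Place K F) {a b : F} {c d : K} (ha : ev P a = (c : OnePoint K))
    (hb : ev P b = (d : OnePoint K)) : ev P (a + b) = ((c + d : K) : OnePoint K) := by
  rw [ev_eq_coe_iff] at ha hb ⊢
  have h : a + b - algebraMap K F (c + d) = (a - algebraMap K F c) + (b - algebraMap K F d) := by
    rw [map_add]; ring
  rw [h]
  exact lt_of_le_of_lt (Valuation.map_add _ _ _) (max_lt ha hb)

theorem ev_neg (P : Place K F) {a : F} {c : K} (ha : ev P a = (c : OnePoint K)) :
    ev P (-a) = ((-c : K) : OnePoint K) := by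
  rw [ev_eq_coe_iff] at ha ⊢
  have h : -a - algebraMap K F (-c) = -(a - algebraMap K F c) := by
    rw [map_neg]; ring
  rw [h, Valuation.map_neg]
  exact ha

theorem ev_sub (P : Place K F) {a b : F} {c d : K} (ha : ev P a = (c : OnePoint K))
    (hb : ev P b = (d : OnePoint K)) : ev P (a - b) = ((c - d : K) : OnePoint K) := by
  rw [sub_eq_add_neg, sub_eq_add_neg]
  exact ev_add P ha (ev_neg P hb)

theorem ev_mul (P : Place K F) {a b : F} {c d : K} (ha : ev P a = (c : OnePoint K))
    (hb : ev P b = (d : OnePoint K)) : ev P (a * b) = ((c * d : K) : OnePoint K) := by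
  have hb1 := val_le_one_of_ev_eq_coe P hb
  rw [ev_eq_coe_iff] at ha hb ⊢
  have h : a * b - algebraMap K F (c * d)
      = (a - algebraMap K F c) * b + algebraMap K F c * (b - algebraMap K F d) := by
    rw [map_mul]; ring
  rw [h]
  refine lt_of_le_of_lt (Valuation.map_add _ _ _) (max_lt ?_ ?_)
  · rw [map_mul]
    calc P.adicValuation (a - algebraMap K F c) * P.adicValuation b
        ≤ P.adicValuation (a - algebraMap K F c) * 1 := by gcongr
      _ < 1 := by simpa using ha
  · rw [map_mul]
    calc P.adicValuation (algebraMap K F c) * P.adicValuation (b - algebraMap K F d)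
        ≤ 1 * P.adicValuation (b - algebraMap K F d) := by
          gcongr
          exact P.adicValuation_algebraMap_le_one c
      _ < 1 := by simpa using hb

/-- The value at a zero of `a ≠ 0`: the inverse has a pole. -/
theorem ev_inv_of_zero (P : Place K F) {a : F} (ha0 : a ≠ 0)
    (ha : ev P a = ((0 : K) : OnePoint K)) : ev P a⁻¹ = ∞ := by
  rw [ev_eq_zero_iff] at ha
  rw [ev_eq_infty_iff_forall]
  intro c hc
  have h1 : P.adicValuation a * P.adicValuation a⁻¹ = 1 := by
    rw [← map_mul, mul_inv_cancel₀ ha0, map_one]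
  have h2 : P.adicValuation a⁻¹ ≤ 1 := by
    have h3 : a⁻¹ = (a⁻¹ - algebraMap K F c) + algebraMap K F c := by ring
    rw [h3]
    exact (Valuation.map_add _ _ _).trans (max_le hc.le (P.adicValuation_algebraMap_le_one c))
  have : P.adicValuation a * P.adicValuation a⁻¹ < 1 := by
    calc _ ≤ P.adicValuation a * 1 := by gcongr
      _ < 1 := by simpa using ha
  exact absurd h1 (ne_of_lt this)

/-- The value of the inverse at a point where `a` takes a nonzero finite value. -/
theorem ev_inv_of_coe (P : Place K F) {a : F} {c : K} (hc : c ≠ 0)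
    (ha : ev P a = (c : OnePoint K)) : ev P a⁻¹ = ((c⁻¹ : K) : OnePoint K) := by
  have ha' := ha
  rw [ev_eq_coe_iff] at ha ⊢
  have hva : P.adicValuation a = 1 := by
    have h2 : a = algebraMap K F c + (a - algebraMap K F c) := by ring
    rw [h2, Valuation.map_add_eq_of_lt_left _ (by rw [val_algebraMap P hc]; exact ha)]
    exact val_algebraMap P hc
  have ha0 : a ≠ 0 := by
    rintro rfl
    rw [map_zero] at hva
    exact zero_ne_one hva
  have hc0 : algebraMap K F c ≠ 0 := by
    intro h
    have := val_algebraMap P hc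
    rw [h, map_zero] at this
    exact zero_ne_one this
  have h : a⁻¹ - algebraMap K F c⁻¹ = -(a - algebraMap K F c) * (a⁻¹ * algebraMap K F c⁻¹) := by
    rw [map_inv₀]
    field_simp
    ring
  rw [h, map_mul, Valuation.map_neg, map_mul, map_inv₀, hva, val_algebraMap P (inv_ne_zero hc)]
  simpa using ha

/-- Over an algebraically closed constant field with finite residue fields, every element of the
valuation ring is congruent to a constant modulo the maximal ideal. -/
theorem exists_val_sub_lt_one [IsAlgClosed K] (P : Place K F) [P.FiniteResidue] {a : F}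
    (ha : P.adicValuation a ≤ 1) : ∃ c : K, P.adicValuation (a - algebraMap K F c) < 1 := by
  have hmem : a ∈ P.toValuationSubring := (mem_iff_val_le_one P).mpr ha
  have : Module.Finite K P.ResidueField := Place.FiniteResidue.finite
  have : Algebra.IsIntegral K P.ResidueField := Algebra.IsIntegral.of_finite K P.ResidueField
  have hbij : Function.Bijective (algebraMap K P.ResidueField) :=
    IsAlgClosed.algebraMap_bijective_of_isIntegral
  obtain ⟨c, hc⟩ := hbij.2 (IsLocalRing.residue P.toValuationSubring ⟨a, hmem⟩)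
  refine ⟨c, ?_⟩
  have h1 : IsLocalRing.residue P.toValuationSubring
      ((⟨a, hmem⟩ : P.toValuationSubring) - algebraMap K P.toValuationSubring c) = 0 := by
    rw [map_sub, ← hc, sub_eq_zero]
    rfl
  rw [IsLocalRing.residue_eq_zero_iff] at h1
  have h2 := P.adicValuation_coe ((⟨a, hmem⟩ : P.toValuationSubring) - algebraMap K P.toValuationSubring c)
  have h3 : (((⟨a, hmem⟩ : P.toValuationSubring) - algebraMap K P.toValuationSubring c
      : P.toValuationSubring) : F) = a - algebraMap K F c := rfl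
  rw [h3] at h2
  rw [h2]
  exact (IsDedekindDomain.HeightOneSpectrum.intValuation_lt_one_iff_mem _ _).mpr h1

theorem ev_eq_infty_iff [IsAlgClosed K] (P : Place K F) [P.FiniteResidue] {a : F} :
    ev P a = ∞ ↔ 1 < P.adicValuation a := by
  rw [ev_eq_infty_iff_forall]
  constructor
  · intro h
    by_contra hle
    rw [not_lt] at hle
    obtain ⟨c, hc⟩ := exists_val_sub_lt_one P hle
    exact h c hc
  · intro h c hc
    have h3 : a = (a - algebraMap K F c) + algebraMap K F c := by ring
    have : P.adicValuation a ≤ 1 := by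
      rw [h3]
      exact (Valuation.map_add _ _ _).trans (max_le hc.le (P.adicValuation_algebraMap_le_one c))
    exact absurd h (not_lt.mpr this)

theorem ev_ne_infty_iff [IsAlgClosed K] (P : Place K F) [P.FiniteResidue] {a : F} :
    ev P a ≠ ∞ ↔ a ∈ P.toValuationSubring := by
  rw [Ne, ev_eq_infty_iff, not_lt, mem_iff_val_le_one]

theorem ev_eq_infty_iff_ord [IsAlgClosed K] (P : Place K F) [P.FiniteResidue] {a : F} :
    ev P a = ∞ ↔ P.ord a < 0 := by
  rw [ev_eq_infty_iff, ← P.not_adicValuation_le_one_iff, not_le]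

/-- The value of the inverse at a pole is `0`. -/
theorem ev_inv_of_infty [IsAlgClosed K] (P : Place K F) [P.FiniteResidue] {a : F}
    (ha : ev P a = ∞) : ev P a⁻¹ = ((0 : K) : OnePoint K) := by
  rw [ev_eq_infty_iff] at ha
  rw [ev_eq_zero_iff, map_inv₀]
  have h0 : P.adicValuation a ≠ 0 := ne_of_gt (lt_trans zero_lt_one ha)
  exact (inv_lt_one₀ (lt_of_le_of_ne zero_le (Ne.symm h0))).mpr ha

/-- A place is determined by its evaluation map. -/
theorem ev_injective [IsAlgClosed K] (hfin : ∀ P : Place K F, P.FiniteResidue) :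
    Function.Injective (fun (P : Place K F) (a : F) => ev P a) := by
  intro P Q h
  apply Place.ext
  ext a
  have hP := hfin P
  have hQ := hfin Q
  rw [← ev_ne_infty_iff P, ← ev_ne_infty_iff Q]
  have := congrFun h a
  simp only at this
  rw [this]

end Ev

section Rel

/-- For a continuous binary operation `m` on `ℂ`, the relation "if `u`, `v` are finite then
`w = m u v`" is closed in the cube of the Riemann sphere. -/
theorem isClosed_binop_rel (m : ℂ → ℂ → ℂ) (hm : Continuous (fun p : ℂ × ℂ => m p.1 p.2)) :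
    IsClosed {p : OnePoint ℂ × OnePoint ℂ × OnePoint ℂ |
      ∀ c d : ℂ, p.1 = (c : OnePoint ℂ) → p.2.1 = (d : OnePoint ℂ) →
        p.2.2 = ((m c d : ℂ) : OnePoint ℂ)} := by
  rw [← isOpen_compl_iff]
  let e : ℂ × ℂ × OnePoint ℂ → OnePoint ℂ × OnePoint ℂ × OnePoint ℂ :=
    Prod.map ((↑) : ℂ → OnePoint ℂ) (Prod.map ((↑) : ℂ → OnePoint ℂ) id)
  have he : IsOpenMap e :=
    (OnePoint.isOpenMap_coe).prodMap ((OnePoint.isOpenMap_coe).prodMap IsOpenMap.id)
  let B : Set (ℂ × ℂ × OnePoint ℂ) := {q | q.2.2 ≠ ((m q.1 q.2.1 : ℂ) : OnePoint ℂ)}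
  have hB : IsOpen B := by
    apply isOpen_ne_fun
    · exact continuous_snd.comp continuous_snd
    · refine OnePoint.continuous_coe.comp ?_
      exact hm.comp (continuous_fst.prodMk (continuous_fst.comp continuous_snd))
  have hEq : {p : OnePoint ℂ × OnePoint ℂ × OnePoint ℂ |
      ∀ c d : ℂ, p.1 = (c : OnePoint ℂ) → p.2.1 = (d : OnePoint ℂ) →
        p.2.2 = ((m c d : ℂ) : OnePoint ℂ)}ᶜ = e '' B := by
    ext ⟨u, v, w⟩
    simp only [Set.mem_compl_iff, Set.mem_ofPred_eq, not_forall, Set.mem_image, Prod.exists]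
    constructor
    · rintro ⟨c, d, hc, hd, hw⟩
      exact ⟨c, d, w, hw, by simp [e, hc, hd]⟩
    · rintro ⟨c, d, w', hw, h⟩
      simp only [e, Prod.map_apply, id, Prod.mk.injEq] at h
      obtain ⟨h1, h2, h3⟩ := h
      subst h3
      exact ⟨c, d, h1.symm, h2.symm, hw⟩
  rw [hEq]
  exact he B hB

end Rel

section Top

variable {F : Type*} [Field F] [Algebra ℂ F]

/-- The evaluation map of a place, as a point of the product of Riemann spheres. -/
def evMap (P : Place ℂ F) : F → OnePoint ℂ := fun a => ev P a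

theorem evMap_apply (P : Place ℂ F) (a : F) : evMap P a = ev P a := rfl

/-- The topology on the set of places of `F` over `ℂ`: the coarsest one making all evaluations
`P ↦ ev P a` into the Riemann sphere continuous.  Not a global instance: use
`attribute [local instance] Fermat.Agent.S27.helper3815.placeTop`. -/
@[instance_reducible]
def placeTop (F : Type*) [Field F] [Algebra ℂ F] : TopologicalSpace (Place ℂ F) :=
  TopologicalSpace.induced evMap inferInstance

attribute [local instance] placeTop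

theorem isInducing_evMap : IsInducing (evMap : Place ℂ F → F → OnePoint ℂ) := ⟨rfl⟩

theorem continuous_ev (a : F) : Continuous (fun P : Place ℂ F => ev P a) :=
  (continuous_apply a).comp isInducing_evMap.continuous

theorem isOpen_setOf_ev_mem (a : F) {U : Set (OnePoint ℂ)} (hU : IsOpen U) :
    IsOpen {P : Place ℂ F | ev P a ∈ U} :=
  hU.preimage (continuous_ev a)

theorem isEmbedding_evMap [∀ P : Place ℂ F, P.FiniteResidue] :
    IsEmbedding (evMap : Place ℂ F → F → OnePoint ℂ) :=
  ⟨isInducing_evMap, ev_injective (fun _ => inferInstance)⟩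

/-- The place space is Hausdorff. -/
theorem t2Space_place [∀ P : Place ℂ F, P.FiniteResidue] : T2Space (Place ℂ F) :=
  isEmbedding_evMap.t2Space

/-- The closed conditions cutting out the evaluation maps of places inside `F → OnePoint ℂ`. -/
def IsAbsPlace (φ : F → OnePoint ℂ) : Prop :=
  (∀ c : ℂ, φ (algebraMap ℂ F c) = (c : OnePoint ℂ)) ∧
  (∀ a b : F, ∀ c d : ℂ, φ a = (c : OnePoint ℂ) → φ b = (d : OnePoint ℂ) →
    φ (a + b) = ((c + d : ℂ) : OnePoint ℂ)) ∧
  (∀ a b : F, ∀ c d : ℂ, φ a = (c : OnePoint ℂ) → φ b = (d : OnePoint ℂ) →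
    φ (a * b) = ((c * d : ℂ) : OnePoint ℂ)) ∧
  (∀ a : F, φ a ∈ ((↑) : ℂ → OnePoint ℂ) '' Metric.closedBall 0 1 ∨
    φ a⁻¹ ∈ ((↑) : ℂ → OnePoint ℂ) '' Metric.closedBall 0 1)

theorem isClosed_setOf_isAbsPlace : IsClosed {φ : F → OnePoint ℂ | IsAbsPlace φ} := by
  have hball : IsClosed (((↑) : ℂ → OnePoint ℂ) '' Metric.closedBall 0 1) :=
    ((isCompact_closedBall (0 : ℂ) 1).image OnePoint.continuous_coe).isClosed
  have hev : ∀ a : F, Continuous (fun φ : F → OnePoint ℂ => φ a) := fun a => continuous_apply a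
  have h1 : IsClosed {φ : F → OnePoint ℂ | ∀ c : ℂ, φ (algebraMap ℂ F c) = (c : OnePoint ℂ)} := by
    have : {φ : F → OnePoint ℂ | ∀ c : ℂ, φ (algebraMap ℂ F c) = (c : OnePoint ℂ)}
        = ⋂ c : ℂ, {φ : F → OnePoint ℂ | φ (algebraMap ℂ F c) = (c : OnePoint ℂ)} := by
      ext φ; simp
    rw [this]
    exact isClosed_iInter fun c => isClosed_eq (hev _) continuous_const
  have h2 : IsClosed {φ : F → OnePoint ℂ | ∀ a b : F, ∀ c d : ℂ, φ a = (c : OnePoint ℂ) →
      φ b = (d : OnePoint ℂ) → φ (a + b) = ((c + d : ℂ) : OnePoint ℂ)} := by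
    have : {φ : F → OnePoint ℂ | ∀ a b : F, ∀ c d : ℂ, φ a = (c : OnePoint ℂ) →
        φ b = (d : OnePoint ℂ) → φ (a + b) = ((c + d : ℂ) : OnePoint ℂ)}
        = ⋂ a : F, ⋂ b : F, (fun φ : F → OnePoint ℂ => (φ a, φ b, φ (a + b))) ⁻¹'
          {p : OnePoint ℂ × OnePoint ℂ × OnePoint ℂ |
            ∀ c d : ℂ, p.1 = (c : OnePoint ℂ) → p.2.1 = (d : OnePoint ℂ) →
              p.2.2 = ((c + d : ℂ) : OnePoint ℂ)} := by
      ext φ; simp
    rw [this]
    exact isClosed_iInter fun a => isClosed_iInter fun b =>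
      IsClosed.preimage ((hev a).prodMk ((hev b).prodMk (hev (a + b))))
        (isClosed_binop_rel (fun c d => c + d) continuous_add)
  have h3 : IsClosed {φ : F → OnePoint ℂ | ∀ a b : F, ∀ c d : ℂ, φ a = (c : OnePoint ℂ) →
      φ b = (d : OnePoint ℂ) → φ (a * b) = ((c * d : ℂ) : OnePoint ℂ)} := by
    have : {φ : F → OnePoint ℂ | ∀ a b : F, ∀ c d : ℂ, φ a = (c : OnePoint ℂ) →
        φ b = (d : OnePoint ℂ) → φ (a * b) = ((c * d : ℂ) : OnePoint ℂ)}
        = ⋂ a : F, ⋂ b : F, (fun φ : F → OnePoint ℂ => (φ a, φ b, φ (a * b))) ⁻¹'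
          {p : OnePoint ℂ × OnePoint ℂ × OnePoint ℂ |
            ∀ c d : ℂ, p.1 = (c : OnePoint ℂ) → p.2.1 = (d : OnePoint ℂ) →
              p.2.2 = ((c * d : ℂ) : OnePoint ℂ)} := by
      ext φ; simp
    rw [this]
    exact isClosed_iInter fun a => isClosed_iInter fun b =>
      IsClosed.preimage ((hev a).prodMk ((hev b).prodMk (hev (a * b))))
        (isClosed_binop_rel (fun c d => c * d) continuous_mul)
  have h4 : IsClosed {φ : F → OnePoint ℂ | ∀ a : F,
      φ a ∈ ((↑) : ℂ → OnePoint ℂ) '' Metric.closedBall 0 1 ∨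
      φ a⁻¹ ∈ ((↑) : ℂ → OnePoint ℂ) '' Metric.closedBall 0 1} := by
    have : {φ : F → OnePoint ℂ | ∀ a : F,
        φ a ∈ ((↑) : ℂ → OnePoint ℂ) '' Metric.closedBall 0 1 ∨
        φ a⁻¹ ∈ ((↑) : ℂ → OnePoint ℂ) '' Metric.closedBall 0 1}
        = ⋂ a : F, ((fun φ : F → OnePoint ℂ => φ a) ⁻¹'
            (((↑) : ℂ → OnePoint ℂ) '' Metric.closedBall 0 1) ∪
          (fun φ : F → OnePoint ℂ => φ a⁻¹) ⁻¹'
            (((↑) : ℂ → OnePoint ℂ) '' Metric.closedBall 0 1)) := by
      ext φ; simp
    rw [this]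
    exact isClosed_iInter fun a =>
      (IsClosed.preimage (hev a) hball).union (IsClosed.preimage (hev a⁻¹) hball)
  exact h1.inter (h2.inter (h3.inter h4))

theorem isAbsPlace_evMap [∀ P : Place ℂ F, P.FiniteResidue] (P : Place ℂ F) :
    IsAbsPlace (evMap P) := by
  refine ⟨fun c => ev_algebraMap P c, fun a b c d ha hb => ev_add P ha hb,
    fun a b c d ha hb => ev_mul P ha hb, fun a => ?_⟩
  simp only [evMap_apply]
  by_cases h : ev P a = ∞
  · right
    exact ⟨0, by simp, (ev_inv_of_infty P h).symm⟩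
  · obtain ⟨c, hc'⟩ := OnePoint.ne_infty_iff_exists.mp h
    have h := hc'.symm
    by_cases hc : ‖c‖ ≤ 1
    · left
      exact ⟨c, by simpa using hc, hc'⟩
    · right
      have hc0 : c ≠ 0 := by
        rintro rfl
        simp at hc
      refine ⟨c⁻¹, ?_, (ev_inv_of_coe P hc0 h).symm⟩
      rw [mem_closedBall_zero_iff, norm_inv]
      exact inv_le_one_of_one_le₀ (le_of_lt (not_le.mp hc))

/-- Hypothesis (V): every valuation subring of `F` containing the constants, other than `F`
itself, is the valuation ring of a place.  (True for function fields of one variable; proved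
from `x` transcendental and `F` finite over `K(x)` in `helper3815_PlaceVal`.) -/
def ValuationSubringsArePlaces (K F : Type*) [Field K] [Field F] [Algebra K F] : Prop :=
  ∀ O : ValuationSubring F, (∀ c : K, algebraMap K F c ∈ O) → O ≠ ⊤ →
    ∃ P : Place K F, P.toValuationSubring = O

omit [Field F] [Algebra ℂ F] in
theorem IsAbsPlace.ne_infty_of_coe {φ : F → OnePoint ℂ} {a : F} {c : ℂ}
    (h : φ a = (c : OnePoint ℂ)) : φ a ≠ ∞ := by
  rw [h]; exact OnePoint.coe_ne_infty c

/-- The valuation subring `{a | φ a ≠ ∞}` of an abstract place. -/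
def IsAbsPlace.valuationSubring {φ : F → OnePoint ℂ} (hφ : IsAbsPlace φ) : ValuationSubring F where
  carrier := {a | φ a ≠ ∞}
  zero_mem' := by
    have := hφ.1 0
    rw [map_zero] at this
    exact IsAbsPlace.ne_infty_of_coe this
  one_mem' := by
    have := hφ.1 1
    rw [map_one] at this
    exact IsAbsPlace.ne_infty_of_coe this
  add_mem' := by
    intro a b ha hb
    obtain ⟨c, hc⟩ := OnePoint.ne_infty_iff_exists.mp ha
    obtain ⟨d, hd⟩ := OnePoint.ne_infty_iff_exists.mp hb
    exact IsAbsPlace.ne_infty_of_coe (hφ.2.1 a b c d hc.symm hd.symm)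
  mul_mem' := by
    intro a b ha hb
    obtain ⟨c, hc⟩ := OnePoint.ne_infty_iff_exists.mp ha
    obtain ⟨d, hd⟩ := OnePoint.ne_infty_iff_exists.mp hb
    exact IsAbsPlace.ne_infty_of_coe (hφ.2.2.1 a b c d hc.symm hd.symm)
  neg_mem' := by
    intro a ha
    obtain ⟨c, hc⟩ := OnePoint.ne_infty_iff_exists.mp ha
    have h1 := hφ.1 (-1)
    have h2 := hφ.2.2.1 (algebraMap ℂ F (-1)) a (-1) c h1 hc.symm
    have h3 : algebraMap ℂ F (-1) * a = -a := by rw [map_neg, map_one]; ring
    rw [h3] at h2
    exact IsAbsPlace.ne_infty_of_coe h2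
  mem_or_inv_mem' := by
    intro a
    rcases hφ.2.2.2 a with ⟨c, -, hc⟩ | ⟨c, -, hc⟩
    · left; exact IsAbsPlace.ne_infty_of_coe hc.symm
    · right; exact IsAbsPlace.ne_infty_of_coe hc.symm

theorem IsAbsPlace.mem_valuationSubring {φ : F → OnePoint ℂ} (hφ : IsAbsPlace φ) {a : F} :
    a ∈ hφ.valuationSubring ↔ φ a ≠ ∞ := Iff.rfl

/-- If `φ b = 0` for an abstract place and `b ≠ 0`, then `φ b⁻¹ = ∞`. -/
theorem IsAbsPlace.inv_eq_infty {φ : F → OnePoint ℂ} (hφ : IsAbsPlace φ) {b : F} (hb0 : b ≠ 0)
    (hb : φ b = ((0 : ℂ) : OnePoint ℂ)) : φ b⁻¹ = ∞ := by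
  by_contra h
  obtain ⟨d, hd⟩ := OnePoint.ne_infty_iff_exists.mp h
  have h1 := hφ.2.2.1 b b⁻¹ 0 d hb hd.symm
  rw [mul_inv_cancel₀ hb0, zero_mul] at h1
  have h2 := hφ.1 1
  rw [map_one, h1, OnePoint.coe_eq_coe] at h2
  exact zero_ne_one h2

/-- `φ (a - c) = 0` when `φ a = c`. -/
theorem IsAbsPlace.sub_const {φ : F → OnePoint ℂ} (hφ : IsAbsPlace φ) {a : F} {c : ℂ}
    (ha : φ a = (c : OnePoint ℂ)) : φ (a - algebraMap ℂ F c) = ((0 : ℂ) : OnePoint ℂ) := by
  have h1 := hφ.1 (-c)
  have h2 := hφ.2.1 a (algebraMap ℂ F (-c)) c (-c) ha h1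
  have h3 : a + algebraMap ℂ F (-c) = a - algebraMap ℂ F c := by rw [map_neg]; ring
  rw [h3, add_neg_cancel] at h2
  exact h2

/-- Under (V), an abstract place is the evaluation map of a place. -/
theorem IsAbsPlace.exists_place [∀ P : Place ℂ F, P.FiniteResidue] [Nonempty (Place ℂ F)]
    (hV : ValuationSubringsArePlaces ℂ F) {φ : F → OnePoint ℂ} (hφ : IsAbsPlace φ) :
    ∃ P : Place ℂ F, evMap P = φ := by
  have hconst : ∀ c : ℂ, algebraMap ℂ F c ∈ hφ.valuationSubring := fun c =>
    IsAbsPlace.ne_infty_of_coe (hφ.1 c)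
  have hne : hφ.valuationSubring ≠ ⊤ := by
    intro htop
    obtain ⟨P0⟩ := ‹Nonempty (Place ℂ F)›
    have hex : ∃ a : F, a ∉ P0.toValuationSubring := by
      by_contra hall
      exact P0.ne_top' (eq_top_iff.mpr fun a _ => by
        by_contra ha
        exact hall ⟨a, ha⟩)
    obtain ⟨a, ha⟩ := hex
    have hall : ∀ b : F, φ b ≠ ∞ := fun b => by
      have : b ∈ hφ.valuationSubring := by rw [htop]; exact ValuationSubring.mem_top b
      exact this
    obtain ⟨c, hc⟩ := OnePoint.ne_infty_iff_exists.mp (hall a)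
    have hb := hφ.sub_const hc.symm
    have hb0 : a - algebraMap ℂ F c ≠ 0 := by
      intro h0
      apply ha
      rw [sub_eq_zero] at h0
      rw [h0]
      exact P0.algebraMap_mem' c
    exact hall _ (hφ.inv_eq_infty hb0 hb)
  obtain ⟨P, hP⟩ := hV hφ.valuationSubring hconst hne
  refine ⟨P, ?_⟩
  funext a
  rw [evMap_apply]
  by_cases h : φ a = ∞
  · rw [h, ev_eq_infty_iff, ← not_le, ← mem_iff_val_le_one, hP]
    intro hmem
    exact hmem h
  · obtain ⟨c, hc⟩ := OnePoint.ne_infty_iff_exists.mp h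
    have h := hc.symm
    have hb := hφ.sub_const h
    rw [h, ev_eq_coe_iff]
    by_cases hb0 : a - algebraMap ℂ F c = 0
    · rw [hb0, map_zero]; exact zero_lt_one
    · have hinv := hφ.inv_eq_infty hb0 hb
      have hnot : (a - algebraMap ℂ F c)⁻¹ ∉ P.toValuationSubring := by
        rw [hP]
        intro hmem
        exact hmem hinv
      rw [mem_iff_val_le_one, not_le, map_inv₀] at hnot
      have hpos : 0 < P.adicValuation (a - algebraMap ℂ F c) :=
        lt_of_le_of_ne zero_le (Ne.symm ((Valuation.ne_zero_iff _).mpr hb0))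
      exact (one_lt_inv₀ hpos).mp hnot

/-- Under (V), the evaluation maps of places form a closed subset of the product of Riemann
spheres. -/
theorem isClosed_range_evMap [∀ P : Place ℂ F, P.FiniteResidue]
    (hV : ValuationSubringsArePlaces ℂ F) :
    IsClosed (Set.range (evMap : Place ℂ F → F → OnePoint ℂ)) := by
  by_cases hne : Nonempty (Place ℂ F)
  · have : Set.range (evMap : Place ℂ F → F → OnePoint ℂ) = {φ | IsAbsPlace φ} := by
      ext φ
      constructor
      · rintro ⟨P, rfl⟩
        exact isAbsPlace_evMap P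
      · intro hφ
        exact hφ.exists_place hV
    rw [this]
    exact isClosed_setOf_isAbsPlace
  · rw [not_nonempty_iff] at hne
    rw [Set.range_eq_empty]
    exact isClosed_empty

/-- **The place space is compact** (Tychonoff), under (V). -/
theorem compactSpace_place [∀ P : Place ℂ F, P.FiniteResidue]
    (hV : ValuationSubringsArePlaces ℂ F) : CompactSpace (Place ℂ F) := by
  refine ⟨?_⟩
  rw [isInducing_evMap.isCompact_iff, Set.image_univ]
  exact (isClosed_range_evMap hV).isCompact

/-- The finite value of `a` at `P` (`0` at a pole). -/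
def evc (P : Place ℂ F) (a : F) : ℂ := (ev P a).elim 0 id

theorem evc_of_ev_eq_coe {P : Place ℂ F} {a : F} {c : ℂ} (h : ev P a = (c : OnePoint ℂ)) :
    evc P a = c := by
  rw [evc, h]; rfl

theorem ev_eq_coe_evc {P : Place ℂ F} {a : F} (h : ev P a ≠ ∞) :
    ev P a = (evc P a : OnePoint ℂ) := by
  obtain ⟨c, hc⟩ := OnePoint.ne_infty_iff_exists.mp h
  rw [evc_of_ev_eq_coe hc.symm, hc]

/-- The finite value `Q ↦ evc Q a` is continuous at every place where `a` has no pole. -/
theorem continuousAt_evc {P : Place ℂ F} {a : F} (h : ev P a ≠ ∞) :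
    ContinuousAt (fun Q : Place ℂ F => evc Q a) P := by
  obtain ⟨c, hc⟩ := OnePoint.ne_infty_iff_exists.mp h
  have h1 : ContinuousAt (fun u : OnePoint ℂ => u.elim (0 : ℂ) id) (ev P a) := by
    rw [← hc, OnePoint.continuousAt_coe]
    exact continuousAt_id
  exact ContinuousAt.comp (f := fun Q : Place ℂ F => ev Q a) h1 (continuous_ev a).continuousAt

/-- Chart neighbourhoods: the places at which `a` takes a (finite) value in an open subset of
`ℂ` form an open set. -/
theorem isOpen_setOf_ev_mem_coe (a : F) {U : Set ℂ} (hU : IsOpen U) :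
    IsOpen {Q : Place ℂ F | ∃ z ∈ U, ev Q a = (z : OnePoint ℂ)} := by
  have h := isOpen_setOf_ev_mem (F := F) a (OnePoint.isOpen_image_coe.mpr hU)
  have hEq : {Q : Place ℂ F | ∃ z ∈ U, ev Q a = (z : OnePoint ℂ)}
      = {Q : Place ℂ F | ev Q a ∈ ((↑) : ℂ → OnePoint ℂ) '' U} := by
    ext Q
    simp only [Set.mem_ofPred_eq, Set.mem_image]
    constructor
    · rintro ⟨z, hz, h⟩; exact ⟨z, hz, h.symm⟩
    · rintro ⟨z, hz, h⟩; exact ⟨z, hz, h.symm⟩
  rw [hEq]
  exact h

/-- `h` is, near the place `P`, the real part of a holomorphic function of a coordinate `t`: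
there are an open neighbourhood `N` of `P`, an open `U ⊆ ℂ` which is exactly the set of values of
`t` on `N`, and `f` holomorphic on `U` with `h Q = Re f (t(Q))` on `N`. -/
def IsLocallyRePart (h : Place ℂ F → ℝ) (P : Place ℂ F) : Prop :=
  ∃ (t : F) (N : Set (Place ℂ F)) (U : Set ℂ) (f : ℂ → ℂ),
    IsOpen N ∧ P ∈ N ∧ IsOpen U ∧ DifferentiableOn ℂ f U ∧
    (∀ Q ∈ N, ∃ z ∈ U, ev Q t = (z : OnePoint ℂ) ∧ h Q = (f z).re) ∧
    (∀ z ∈ U, ∃ Q ∈ N, ev Q t = (z : OnePoint ℂ))

theorem IsLocallyRePart.continuousAt {h : Place ℂ F → ℝ} {P : Place ℂ F}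
    (hP : IsLocallyRePart h P) : ContinuousAt h P := by
  obtain ⟨t, N, U, f, hN, hPN, hU, hf, hrep, -⟩ := hP
  obtain ⟨z, hz, hzP, -⟩ := hrep P hPN
  have hfin : ev P t ≠ ∞ := by rw [hzP]; exact OnePoint.coe_ne_infty z
  have hzc : evc P t = z := evc_of_ev_eq_coe hzP
  have h1 : ContinuousAt (fun Q : Place ℂ F => (f (evc Q t)).re) P := by
    have hfc : ContinuousAt f (evc P t) := by
      rw [hzc]
      exact (hf.continuousOn.continuousAt (hU.mem_nhds hz))
    exact Complex.continuous_re.continuousAt.comp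
      (ContinuousAt.comp (f := fun Q : Place ℂ F => evc Q t) hfc (continuousAt_evc hfin))
  refine h1.congr ?_
  filter_upwards [hN.mem_nhds hPN] with Q hQ
  obtain ⟨w, -, hwQ, hhQ⟩ := hrep Q hQ
  rw [evc_of_ev_eq_coe hwQ, hhQ]

theorem continuous_of_isLocallyRePart {h : Place ℂ F → ℝ} (hloc : ∀ P, IsLocallyRePart h P) :
    Continuous h :=
  continuous_iff_continuousAt.mpr fun P => (hloc P).continuousAt

/-- **Local maximum principle in a chart.**  If `h ≤ h P` on a chart neighbourhood `N` of `P` on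
which `h = Re f ∘ t`, then `f` is constant near the coordinate of `P`. -/
theorem eventually_const_of_max {h : Place ℂ F → ℝ} {P : Place ℂ F}
    {t : F} {N : Set (Place ℂ F)} {U : Set ℂ} {f : ℂ → ℂ}
    (hPN : P ∈ N) (hU : IsOpen U) (hf : DifferentiableOn ℂ f U)
    (hrep : ∀ Q ∈ N, ∃ z ∈ U, ev Q t = (z : OnePoint ℂ) ∧ h Q = (f z).re)
    (hfill : ∀ z ∈ U, ∃ Q ∈ N, ev Q t = (z : OnePoint ℂ))
    (hmax : ∀ Q ∈ N, h Q ≤ h P) :
    ∃ z₀ ∈ U, ev P t = (z₀ : OnePoint ℂ) ∧ ∀ᶠ z in 𝓝 z₀, f z = f z₀ := by
  obtain ⟨z₀, hz₀, hz₀P, hhP⟩ := hrep P hPN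
  refine ⟨z₀, hz₀, hz₀P, ?_⟩
  -- `Re f ≤ Re f z₀` on `U`
  have hle : ∀ z ∈ U, (f z).re ≤ (f z₀).re := by
    intro z hz
    obtain ⟨Q, hQ, hQz⟩ := hfill z hz
    obtain ⟨w, -, hQw, hhQ⟩ := hrep Q hQ
    have hwz : w = z := by
      rw [hQz] at hQw
      exact (OnePoint.coe_eq_coe.mp hQw).symm
    rw [← hwz, ← hhQ, ← hhP]
    exact hmax Q hQ
  -- maximum modulus for `exp ∘ f`
  have hd : ∀ᶠ z in 𝓝 z₀, DifferentiableAt ℂ (fun z => Complex.exp (f z)) z := by
    filter_upwards [hU.mem_nhds hz₀] with z hz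
    exact (hf.differentiableAt (hU.mem_nhds hz)).cexp
  have hloc : IsLocalMax (norm ∘ fun z => Complex.exp (f z)) z₀ := by
    filter_upwards [hU.mem_nhds hz₀] with z hz
    simp only [Function.comp_apply, Complex.norm_exp]
    exact Real.exp_le_exp.mpr (hle z hz)
  have hexp := Complex.eventually_eq_of_isLocalMax_norm hd hloc
  -- `f` is continuous at `z₀`, so `f z` is close to `f z₀`
  have hcont : ContinuousAt f z₀ := hf.continuousOn.continuousAt (hU.mem_nhds hz₀)
  have hclose : ∀ᶠ z in 𝓝 z₀, dist (f z) (f z₀) < 2 * Real.pi :=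
    hcont.eventually (Metric.ball_mem_nhds _ (by positivity))
  filter_upwards [hexp, hclose] with z hz1 hz2
  obtain ⟨n, hn⟩ := Complex.exp_eq_exp_iff_exists_int.mp hz1
  have hn0 : n = 0 := by
    by_contra hne
    have h1 : dist (f z) (f z₀) = ‖(n : ℂ) * (2 * Real.pi * Complex.I)‖ := by
      rw [dist_eq_norm, hn]; ring_nf
    rw [h1] at hz2
    have h2 : ‖(n : ℂ) * (2 * Real.pi * Complex.I)‖ = |(n : ℝ)| * (2 * Real.pi) := by
      rw [norm_mul, norm_mul, norm_mul, Complex.norm_I, mul_one, Complex.norm_intCast]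
      simp [abs_of_pos Real.pi_pos]
    rw [h2] at hz2
    have h3 : (1 : ℝ) ≤ |(n : ℝ)| := by
      rw [← Int.cast_abs]
      exact_mod_cast Int.one_le_abs hne
    have h4 : 2 * Real.pi ≤ |(n : ℝ)| * (2 * Real.pi) := by
      have := mul_le_mul_of_nonneg_right h3 (by positivity : (0 : ℝ) ≤ 2 * Real.pi)
      linarith
    linarith
  rw [hn, hn0]
  simp

/-- **Maximum principle on the place space.**  Let `h` be a real function on the places of `F`
which is locally the real part of a holomorphic function of a coordinate.  Under (V) it attains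
its maximum at some place `P`, and in EVERY chart representation of `h` around `P` the holomorphic
function is constant near the coordinate of `P`. -/
theorem exists_max_locally_const [∀ P : Place ℂ F, P.FiniteResidue] [Nonempty (Place ℂ F)]
    (hV : ValuationSubringsArePlaces ℂ F) (h : Place ℂ F → ℝ)
    (hloc : ∀ P, IsLocallyRePart h P) :
    ∃ P : Place ℂ F, (∀ Q, h Q ≤ h P) ∧
      ∀ (t : F) (N : Set (Place ℂ F)) (U : Set ℂ) (f : ℂ → ℂ), P ∈ N → IsOpen U →
        DifferentiableOn ℂ f U →
        (∀ Q ∈ N, ∃ z ∈ U, ev Q t = (z : OnePoint ℂ) ∧ h Q = (f z).re) →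
        (∀ z ∈ U, ∃ Q ∈ N, ev Q t = (z : OnePoint ℂ)) →
        ∃ z₀ ∈ U, ev P t = (z₀ : OnePoint ℂ) ∧ ∀ᶠ z in 𝓝 z₀, f z = f z₀ := by
  have : CompactSpace (Place ℂ F) := compactSpace_place hV
  obtain ⟨P, -, hP⟩ := isCompact_univ.exists_isMaxOn (Set.univ_nonempty)
    (continuous_of_isLocallyRePart hloc).continuousOn
  refine ⟨P, fun Q => hP (Set.mem_univ Q), ?_⟩
  intro t N U f hPN hU hf hrep hfill
  exact eventually_const_of_max hPN hU hf hrep hfill (fun Q _ => hP (Set.mem_univ Q))

end Top

end

end Fermat.Agent.S27.helper3815
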