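import Mathlib
import Fermat.Prelude.Def_AlgebraicCurve_DivisorClassGroup
import Fermat.Prelude.Def_AlgebraicCurve_IsCurveOver
import Fermat.Prelude.Def_AlgebraicCurve_Repartitions
import Fermat.Agent.S24.helper204_Places
import Fermat.Agent.S27.helper3815_PlaceTop

/-!
# S27-E4-TOP, part 2: valuation subrings of a function field of one variable are places

If `F` is finite over `K(x)` (characteristic zero), every valuation subring of `F` containing
`K`, other than `F`, is the valuation ring of a place.  Consequently the place space of a
function field over `ℂ` is compact.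
-/

set_option autoImplicit false

open AlgebraicCurve IsDedekindDomain IntermediateField

namespace Fermat.Agent.S27.helper3815

open Fermat.Agent.S24.helper204

section

open scoped IntermediateField.algebraAdjoinAdjoin

variable {K F : Type*} [Field K] [Field F] [Algebra K F]

/-- A valuation subring containing the constants and `x` contains `K[x]`. -/
theorem adjoin_le_valuationSubring (O : ValuationSubring F)
    (hK : ∀ c : K, algebraMap K F c ∈ O) {x : F} (hx : x ∈ O) :
    ∀ a ∈ Algebra.adjoin K {x}, a ∈ O := by
  let Ov : Subalgebra K F :=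
    { O.toSubring with
      algebraMap_mem' := hK }
  have h : Algebra.adjoin K {x} ≤ Ov := Algebra.adjoin_le (Set.singleton_subset_iff.mpr hx)
  exact fun a ha => h ha

/-- The case `x ∈ O` of (V). -/
theorem exists_place_of_mem [CharZero K] (x : F) [FiniteDimensional K⟮x⟯ F]
    (O : ValuationSubring F) (hK : ∀ c : K, algebraMap K F c ∈ O) (hO : O ≠ ⊤) (hx : x ∈ O) :
    ∃ P : Place K F, P.toValuationSubring = O := by
  have hB : ∀ b : integralClosure (Algebra.adjoin K {x}) F, (b : F) ∈ O := fun b =>
    mem_of_isIntegral_of_le O (Algebra.adjoin K {x}) (adjoin_le_valuationSubring O hK hx) b.2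
  -- the inclusion `B → O`
  let ι : integralClosure (Algebra.adjoin K {x}) F →+* O :=
    { toFun := fun b => ⟨(b : F), hB b⟩
      map_one' := rfl
      map_mul' := fun _ _ => rfl
      map_zero' := rfl
      map_add' := fun _ _ => rfl }
  let m : Ideal (integralClosure (Algebra.adjoin K {x}) F) :=
    (IsLocalRing.maximalIdeal O).comap ι
  have hmprime : m.IsPrime := Ideal.comap_isPrime ι _
  have hunit : ∀ b : integralClosure (Algebra.adjoin K {x}) F, b ∉ m → ((b : F))⁻¹ ∈ O := by
    intro b hb
    have h1 : ι b ∉ IsLocalRing.maximalIdeal O := fun h => hb h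
    rw [IsLocalRing.mem_maximalIdeal, mem_nonunits_iff, not_not] at h1
    obtain ⟨u, hu⟩ := h1
    have h2 : ((u⁻¹ : Oˣ) : O) * ι b = 1 := by rw [← hu]; exact u.inv_mul
    have h3 : (((u⁻¹ : Oˣ) : O) : F) * (b : F) = 1 := congrArg Subtype.val h2
    have hb0 : (b : F) ≠ 0 := by
      intro h0
      rw [h0, mul_zero] at h3
      exact zero_ne_one h3
    have h4 : ((b : F))⁻¹ = (((u⁻¹ : Oˣ) : O) : F) := by
      field_simp
      rw [mul_comm]
      exact h3.symm
    rw [h4]
    exact SetLike.coe_mem _
  have hmbot : m ≠ ⊥ := by
    intro hbot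
    apply hO
    rw [eq_top_iff]
    intro f _
    obtain ⟨n, d, hd, rfl⟩ := IsFractionRing.div_surjective
      (A := integralClosure (Algebra.adjoin K {x}) F) f
    have hd0 : d ≠ 0 := nonZeroDivisors.ne_zero hd
    have hdm : d ∉ m := by
      rw [hbot, Ideal.mem_bot]
      exact hd0
    rw [div_eq_mul_inv]
    exact mul_mem (hB n) (hunit d hdm)
  let w : HeightOneSpectrum (integralClosure (Algebra.adjoin K {x}) F) := ⟨m, hmprime, hmbot⟩
  refine ⟨Place.ofHeightOneSpectrum (K := K) (F := F) w, ?_⟩
  rw [Place.ofHeightOneSpectrum_toValuationSubring,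
    ← HeightOneSpectrum.valuationSubringAtPrime_eq_valuationSubring]
  refine ValuationSubring.eq_of_le_of_ne_top _ ?_ hO
  intro f hf
  rw [HeightOneSpectrum.valuationSubringAtPrime_eq_valuationSubring,
    Valuation.mem_valuationSubring_iff] at hf
  obtain ⟨n, d, hnd⟩ := w.exists_primeCompl_mul_eq_of_integer f hf
  have hdm : (d : integralClosure (Algebra.adjoin K {x}) F) ∉ m := d.2
  have hd0 : algebraMap (integralClosure (Algebra.adjoin K {x}) F) F
      (d : integralClosure (Algebra.adjoin K {x}) F) ≠ 0 := by
    intro h0
    have := (FaithfulSMul.algebraMap_injective (integralClosure (Algebra.adjoin K {x}) F) F)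
      (h0.trans (map_zero _).symm)
    exact hdm (this ▸ m.zero_mem)
  have : f = algebraMap (integralClosure (Algebra.adjoin K {x}) F) F n *
      (algebraMap (integralClosure (Algebra.adjoin K {x}) F) F
        (d : integralClosure (Algebra.adjoin K {x}) F))⁻¹ := by
    rw [← hnd, mul_assoc, mul_inv_cancel₀ hd0, mul_one]
  rw [this]
  exact mul_mem (hB n) (hunit d hdm)

/-- **(V)**: in a field `F` finite over `K(x)` (characteristic zero), every valuation subring
containing `K`, other than `F` itself, is the valuation ring of a place. -/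
theorem valuationSubringsArePlaces_of_finite [CharZero K] (x : F) [FiniteDimensional K⟮x⟯ F] :
    ValuationSubringsArePlaces K F := by
  intro O hK hO
  rcases O.mem_or_inv_mem x with hx | hx
  · exact exists_place_of_mem x O hK hO hx
  · have : FiniteDimensional K⟮x⁻¹⟯ F := finiteDimensional_adjoin_inv
    exact exists_place_of_mem x⁻¹ O hK hO hx

end

section Complex

variable {F : Type*} [Field F] [Algebra ℂ F]

attribute [local instance] placeTop

/-- **The place space of a function field over `ℂ` is compact** (Tychonoff). -/
theorem compactSpace_place_of_finite [∀ P : Place ℂ F, P.FiniteResidue] (x : F)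
    [FiniteDimensional ℂ⟮x⟯ F] : CompactSpace (Place ℂ F) :=
  compactSpace_place (valuationSubringsArePlaces_of_finite x)

end Complex

end Fermat.Agent.S27.helper3815
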