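import Mathlib

/-!
# S27 / E3 (GLS): analytic kit (seat helper3839)

Three small Mathlib-only lemmas used by `helper3839_GLS.lean` (the infinitesimal Abel theorem):

* `exists_kernel_selector` : a polynomial (division-free Cramer) selector of a kernel vector of a
  matrix near a matrix whose kernel is a line.
* `exists_analytic_logDeriv_add` : the logarithmic `s`-derivative of a family with a moving simple
  zero has the polar part `-(velocity of the zero) / (t - t₀)`.
* `linearCombination_deriv_mem` : the derivative of a curve of linear combinations lying in a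
  submodule lies in the submodule.
-/

set_option autoImplicit false

noncomputable section

open scoped Topology

namespace Fermat.Agent.S27.helper3839

/-! ## Division-free Cramer -/

section Cramer

variable {R : Type*} [Fintype R] {N : ℕ}

/-- The square matrix used by the selector: `L * (m with the extra row)`. -/
def augMat (l₀ : Fin N) (κ : ℂ) (m : R → Fin N → ℂ) : Matrix (Option R) (Fin N) ℂ :=
  fun o l => Option.elim o (if l = l₀ then κ else 0) (fun r => m r l)

theorem contDiff_matrix_det {E : Type*} [NormedAddCommGroup E] [NormedSpace ℂ E]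
    {n : WithTop ℕ∞} {k : ℕ} (A : E → Matrix (Fin k) (Fin k) ℂ)
    (hA : ∀ i j, ContDiff ℂ n (fun e => A e i j)) : ContDiff ℂ n (fun e => (A e).det) := by
  simp only [Matrix.det_apply]
  refine ContDiff.sum fun σ _ => ?_
  refine ContDiff.const_smul _ ?_
  exact contDiff_prod fun i _ => hA _ _

theorem contDiff_matrix_adjugate {E : Type*} [NormedAddCommGroup E] [NormedSpace ℂ E]
    {n : WithTop ℕ∞} {k : ℕ} (A : E → Matrix (Fin k) (Fin k) ℂ)
    (hA : ∀ i j, ContDiff ℂ n (fun e => A e i j)) (i j : Fin k) :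
    ContDiff ℂ n (fun e => (A e).adjugate i j) := by
  simp only [Matrix.adjugate_apply]
  refine contDiff_matrix_det _ fun i' j' => ?_
  by_cases h : i' = j
  · subst h
    simp only [Matrix.updateRow_self]
    exact contDiff_const
  · simp only [Matrix.updateRow_ne h]
    exact hA _ _

/-- **Division-free Cramer.** If the kernel of the `R × N` matrix `m₀` is the line `ℂ z₀`, there is
a polynomial map `Φ` with `Φ m₀ = z₀` such that for every matrix `m` near `m₀` with a non-trivial
kernel, `Φ m` is a non-zero kernel vector of `m`. -/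
theorem exists_kernel_selector (m₀ : R → Fin N → ℂ) (z₀ : Fin N → ℂ) (hz₀ : z₀ ≠ 0)
    (hker₀ : ∀ r, ∑ l, m₀ r l * z₀ l = 0)
    (hline : ∀ z : Fin N → ℂ, (∀ r, ∑ l, m₀ r l * z l = 0) → ∃ c : ℂ, z = c • z₀) :
    ∃ Φ : (R → Fin N → ℂ) → (Fin N → ℂ), (∀ n : WithTop ℕ∞, ContDiff ℂ n Φ) ∧ Φ m₀ = z₀ ∧
      ∀ᶠ m in 𝓝 m₀, (∃ z : Fin N → ℂ, z ≠ 0 ∧ ∀ r, ∑ l, m r l * z l = 0) →
        Φ m ≠ 0 ∧ ∀ r, ∑ l, m r l * Φ m l = 0 := by
  classical
  -- a coordinate where `z₀` does not vanish
  obtain ⟨l₀, hl₀⟩ : ∃ l₀, z₀ l₀ ≠ 0 := by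
    by_contra h
    push Not at h
    exact hz₀ (funext h)
  set κ : ℂ := (z₀ l₀)⁻¹ with hκ
  have hκ0 : κ ≠ 0 := inv_ne_zero hl₀
  -- the augmented matrix is injective at `m₀`
  have haug_apply : ∀ (m : R → Fin N → ℂ) (z : Fin N → ℂ),
      (augMat l₀ κ m).mulVec z = fun o => Option.elim o (κ * z l₀) (fun r => ∑ l, m r l * z l) := by
    intro m z
    funext o
    cases o with
    | none => simp [Matrix.mulVec, dotProduct, augMat]
    | some r => simp [Matrix.mulVec, dotProduct, augMat]
  have hinj : Function.Injective (Matrix.toLin' (augMat l₀ κ m₀)) := by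
    rw [← LinearMap.ker_eq_bot, LinearMap.ker_eq_bot']
    intro z hz
    rw [Matrix.toLin'_apply, haug_apply] at hz
    have h1 : ∀ r, ∑ l, m₀ r l * z l = 0 := fun r => by simpa using congrFun hz (some r)
    have h2 : κ * z l₀ = 0 := by simpa using congrFun hz none
    obtain ⟨c, rfl⟩ := hline z h1
    have : c = 0 := by
      have h3 : κ * (c * z₀ l₀) = 0 := by simpa using h2
      rw [hκ] at h3
      field_simp at h3
      exact h3
    simp [this]
  obtain ⟨g, hg⟩ := LinearMap.exists_leftInverse_of_injective _ (LinearMap.ker_eq_bot.mpr hinj)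
  set L : Matrix (Fin N) (Option R) ℂ := LinearMap.toMatrix' g with hL
  have hLm₀ : L * augMat l₀ κ m₀ = 1 := by
    have : LinearMap.toMatrix' (g ∘ₗ Matrix.toLin' (augMat l₀ κ m₀)) = 1 := by
      rw [hg]; exact LinearMap.toMatrix'_id
    rwa [LinearMap.toMatrix'_comp, LinearMap.toMatrix'_toLin'] at this
  set u₀ : Fin N → ℂ := L.mulVec (Pi.single none 1) with hu₀
  set T : (R → Fin N → ℂ) → Matrix (Fin N) (Fin N) ℂ := fun m => L * augMat l₀ κ m with hT
  refine ⟨fun m => (T m).adjugate.mulVec u₀, ?_, ?_, ?_⟩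
  · -- smoothness
    intro n
    have hTs : ∀ i j, ContDiff ℂ n (fun m => T m i j) := by
      intro i j
      simp only [hT, Matrix.mul_apply, augMat]
      refine ContDiff.sum fun o _ => ContDiff.mul contDiff_const ?_
      cases o with
      | none => exact contDiff_const
      | some r =>
        simp only [Option.elim_some]
        exact (contDiff_apply ℂ ℂ j).comp (contDiff_apply ℂ (Fin N → ℂ) r)
    rw [contDiff_pi]
    intro i
    simp only [Matrix.mulVec, dotProduct]
    exact ContDiff.sum fun j _ => (contDiff_matrix_adjugate T hTs i j).mul contDiff_const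
  · -- value at the base
    have h1 : T m₀ = 1 := hLm₀
    simp only [h1, Matrix.adjugate_one, Matrix.one_mulVec]
    have h2 : (augMat l₀ κ m₀).mulVec z₀ = Pi.single none 1 := by
      rw [haug_apply]
      funext o
      cases o with
      | none => simp [hκ, hl₀]
      | some r => simp [hker₀ r]
    rw [hu₀, ← h2, Matrix.mulVec_mulVec, hLm₀, Matrix.one_mulVec]
  · -- kernel vectors near the base
    have hdet : ∀ᶠ m in 𝓝 m₀, (T m).det ≠ 0 := by
      have hc : Continuous fun m => (T m).det := by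
        have hTs : ∀ i j, ContDiff ℂ 0 (fun m => T m i j) := by
          intro i j
          simp only [hT, Matrix.mul_apply, augMat]
          refine ContDiff.sum fun o _ => ContDiff.mul contDiff_const ?_
          cases o with
          | none => exact contDiff_const
          | some r =>
            simp only [Option.elim_some]
            exact (contDiff_apply ℂ ℂ j).comp (contDiff_apply ℂ (Fin N → ℂ) r)
        exact (contDiff_matrix_det T hTs).continuous
      have h1 : (T m₀).det ≠ 0 := by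
        have : T m₀ = 1 := hLm₀
        rw [this, Matrix.det_one]; exact one_ne_zero
      exact hc.continuousAt.eventually_ne h1
    filter_upwards [hdet] with m hm
    rintro ⟨z, hz0, hz⟩
    -- `T m z = (κ z l₀) u₀`
    have h1 : (augMat l₀ κ m).mulVec z = (κ * z l₀) • Pi.single none 1 := by
      rw [haug_apply]
      funext o
      cases o with
      | none => simp
      | some r => simp [hz r]
    have h2 : (T m).mulVec z = (κ * z l₀) • u₀ := by
      rw [hT, ← Matrix.mulVec_mulVec, h1, Matrix.mulVec_smul]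
    have h3 : (T m).mulVec ((T m).adjugate.mulVec u₀) = (T m).det • u₀ := by
      rw [Matrix.mulVec_mulVec, Matrix.mul_adjugate, Matrix.smul_mulVec, Matrix.one_mulVec]
    have hunit : IsUnit (T m).det := isUnit_iff_ne_zero.mpr hm
    have hTinj : Function.Injective (T m).mulVec := Matrix.mulVec_injective_iff_isUnit.mpr
      ((Matrix.isUnit_iff_isUnit_det _).mpr hunit)
    have hc0 : κ * z l₀ ≠ 0 := by
      intro h0
      rw [h0, zero_smul] at h2
      exact hz0 (hTinj (by rw [h2, Matrix.mulVec_zero]))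
    have h4 : (T m).adjugate.mulVec u₀ = ((T m).det / (κ * z l₀)) • z := by
      apply hTinj
      rw [h3, Matrix.mulVec_smul, h2, smul_smul, div_mul_cancel₀ _ hc0]
    have hc1 : (T m).det / (κ * z l₀) ≠ 0 := div_ne_zero hm hc0
    refine ⟨?_, ?_⟩
    · show (T m).adjugate.mulVec u₀ ≠ 0
      rw [h4]
      exact smul_ne_zero hc1 hz0
    · intro r
      show ∑ l, m r l * ((T m).adjugate.mulVec u₀) l = 0
      rw [h4]
      simp only [Pi.smul_apply, smul_eq_mul]
      calc ∑ l, m r l * ((T m).det / (κ * z l₀) * z l)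
          = (T m).det / (κ * z l₀) * ∑ l, m r l * z l := by
            rw [Finset.mul_sum]; exact Finset.sum_congr rfl fun l _ => by ring
        _ = 0 := by rw [hz r, mul_zero]

end Cramer

/-! ## Moving simple zeros -/

theorem analyticAt_dslope {f : ℂ → ℂ} {t₀ : ℂ} (hf : AnalyticAt ℂ f t₀) :
    AnalyticAt ℂ (dslope f t₀) t₀ := by
  obtain ⟨p, hp⟩ := hf
  exact ⟨_, hp.has_fpower_series_dslope_fslope⟩

/-- If `G₀` has a simple zero at `t₀` and `G₁ t₀ + α' * G₀' t₀ = 0` (the chain rule for a zero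
moving with velocity `α'`), then `G₁ / G₀ + α' / (t - t₀)` extends analytically across `t₀`. -/
theorem exists_analytic_logDeriv_add {G₀ G₁ : ℂ → ℂ} {t₀ α' : ℂ}
    (h₀ : AnalyticAt ℂ G₀ t₀) (h₁ : AnalyticAt ℂ G₁ t₀) (hz : G₀ t₀ = 0)
    (hd : deriv G₀ t₀ ≠ 0) (hchain : G₁ t₀ + α' * deriv G₀ t₀ = 0) :
    ∃ ψ : ℂ → ℂ, AnalyticAt ℂ ψ t₀ ∧
      ∀ᶠ t in 𝓝[≠] t₀, G₀ t ≠ 0 ∧ G₁ t / G₀ t + α' / (t - t₀) = ψ t := by
  set q : ℂ → ℂ := dslope G₀ t₀ with hq
  have hqa : AnalyticAt ℂ q t₀ := analyticAt_dslope h₀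
  have hq0 : q t₀ ≠ 0 := by rw [hq, dslope_same]; exact hd
  have hG₀ : ∀ t, G₀ t = (t - t₀) * q t := by
    intro t
    have := sub_smul_dslope G₀ t₀ t
    rw [hz, sub_zero, smul_eq_mul] at this
    exact this.symm
  set Nm : ℂ → ℂ := fun t => G₁ t + α' * q t with hNm
  have hNa : AnalyticAt ℂ Nm t₀ := h₁.add (analyticAt_const.mul hqa)
  have hN0 : Nm t₀ = 0 := by
    simp only [hNm, hq, dslope_same]
    exact hchain
  set N₁ : ℂ → ℂ := dslope Nm t₀ with hN₁
  have hN₁a : AnalyticAt ℂ N₁ t₀ := analyticAt_dslope hNa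
  have hNm' : ∀ t, Nm t = (t - t₀) * N₁ t := by
    intro t
    have := sub_smul_dslope Nm t₀ t
    rw [hN0, sub_zero, smul_eq_mul] at this
    exact this.symm
  refine ⟨fun t => N₁ t / q t, hN₁a.div hqa hq0, ?_⟩
  have hqne : ∀ᶠ t in 𝓝[≠] t₀, q t ≠ 0 :=
    (hqa.continuousAt.eventually_ne hq0).filter_mono nhdsWithin_le_nhds
  filter_upwards [hqne, self_mem_nhdsWithin] with t hqt htne
  have htne' : t - t₀ ≠ 0 := sub_ne_zero.mpr htne
  refine ⟨by rw [hG₀]; exact mul_ne_zero htne' hqt, ?_⟩
  have h1 : G₁ t = (t - t₀) * N₁ t - α' * q t := by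
    have := hNm' t
    simp only [hNm] at this
    linear_combination this
  rw [hG₀ t, h1]
  field_simp
  ring

/-! ## Derivatives of curves in a submodule -/

/-- The derivative of a curve of linear combinations lying in a submodule lies in the submodule
(no finiteness assumption on the ambient module). -/
theorem linearCombination_deriv_mem {V : Type*} [AddCommGroup V] [Module ℂ V]
    (W₀ : Submodule ℂ V) {N : ℕ} (w : Fin N → V) (H : ℂ → Fin N → ℂ) (H' : Fin N → ℂ) (s₀ : ℂ)
    (hH : HasDerivAt H H' s₀) (hmem : ∀ᶠ s in 𝓝 s₀, ∑ l, H s l • w l ∈ W₀) :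
    ∑ l, H' l • w l ∈ W₀ := by
  set Z : Submodule ℂ (Fin N → ℂ) := W₀.comap (Fintype.linearCombination ℂ w) with hZ
  have hZmem : ∀ z : Fin N → ℂ, z ∈ Z ↔ ∑ l, z l • w l ∈ W₀ := by
    intro z
    rw [hZ, Submodule.mem_comap, Fintype.linearCombination_apply]
  have hclosed : IsClosed (Z : Set (Fin N → ℂ)) := Z.closed_of_finiteDimensional
  have hlim := hH.tendsto_slope_zero
  have hev : ∀ᶠ t in 𝓝[≠] (0 : ℂ), t⁻¹ • (H (s₀ + t) - H s₀) ∈ (Z : Set (Fin N → ℂ)) := by
    have h0 : H s₀ ∈ Z := (hZmem _).mpr hmem.self_of_nhds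
    have hcont : Filter.Tendsto (fun t : ℂ => s₀ + t) (𝓝 0) (𝓝 s₀) := by
      have : Continuous fun t : ℂ => s₀ + t := by fun_prop
      simpa using this.tendsto 0
    have h1 : ∀ᶠ t in 𝓝 (0 : ℂ), H (s₀ + t) ∈ Z := by
      have := hcont.eventually hmem
      filter_upwards [this] with t ht
      exact (hZmem _).mpr ht
    filter_upwards [h1.filter_mono nhdsWithin_le_nhds] with t ht
    exact Z.smul_mem _ (Z.sub_mem ht h0)
  have := hclosed.mem_of_tendsto hlim hev
  exact (hZmem _).mp this

end Fermat.Agent.S27.helper3839
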