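/-
S27, Lefschetz transfer, rigidity core (helper4889).

Abstract rigidity of torsion classes: if a function field `F` over an algebraically closed
field `Om` carries a family `DD` of derivations which kill a subfield `F0`, preserve every
valuation ring of a place of `F / Om`, and whose common constants are exactly `F0`, then every
torsion class of `Pic0 Om F` is represented by a divisor `D` with `n * D = div f` for some
`f` in `F0`.
-/
import Mathlib
import Fermat.Prelude.Def_AlgebraicCurve_IsCurveOver
import Fermat.Prelude.Def_AlgebraicCurve_Repartitions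

set_option autoImplicit false

open AlgebraicCurve

namespace Fermat.Agent.S27.helper4889

section LocalAPI

variable {Om F : Type*} [Field Om] [Field F] [Algebra Om F] (v : Place Om F)

theorem mem_of_ord_nonneg {f : F} (h : 0 ≤ v.ord f) : f ∈ v.toValuationSubring := by
  rcases eq_or_ne f 0 with rfl | hf
  · exact zero_mem _
  obtain ⟨π, hπ⟩ := IsDiscreteValuationRing.exists_irreducible v.toValuationSubring
  obtain ⟨u, hu⟩ := v.exists_unit_mul_zpow hf hπ
  rw [hu]
  obtain ⟨k, hk⟩ := Int.eq_ofNat_of_zero_le h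
  rw [hk, zpow_natCast]
  exact mul_mem (u : v.toValuationSubring).2 (pow_mem π.2 k)

theorem ord_nonneg_of_mem {f : F} (h : f ∈ v.toValuationSubring) : 0 ≤ v.ord f := by
  rcases eq_or_ne f 0 with rfl | hf
  · simp
  have h1 := v.adicValuation_le_one_of_mem h
  rw [v.adicValuation_le_one_iff] at h1
  exact h1.resolve_left hf

theorem mem_iff_ord_nonneg {f : F} : f ∈ v.toValuationSubring ↔ 0 ≤ v.ord f :=
  ⟨ord_nonneg_of_mem v, mem_of_ord_nonneg v⟩

theorem ord_div {f g : F} (hf : f ≠ 0) (hg : g ≠ 0) : v.ord (f / g) = v.ord f - v.ord g := by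
  rw [div_eq_mul_inv, v.ord_mul hf (inv_ne_zero hg), v.ord_inv]; ring

theorem ord_algebraMap {a : Om} (ha : a ≠ 0) : v.ord (algebraMap Om F a) = 0 := by
  have h1 : algebraMap Om F a ≠ 0 := by simpa using ha
  have h2 := ord_nonneg_of_mem v (v.algebraMap_mem' a)
  have h3 := ord_nonneg_of_mem v (v.algebraMap_mem' a⁻¹)
  rw [map_inv₀, v.ord_inv] at h3
  omega

/-- `ord (1 + x) = 0` when `ord x ≥ 1` or `x = 0`. -/
theorem ord_one_add {x : F} (hx : x = 0 ∨ 1 ≤ v.ord x) : v.ord (1 + x) = 0 := by
  rcases eq_or_ne x 0 with rfl | hx0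
  · simp
  have hx1 : 1 ≤ v.ord x := hx.resolve_left hx0
  have hlt : v.adicValuation x < 1 := by
    rw [v.adicValuation_eq_exp_neg_ord hx0, ← WithZero.exp_zero, WithZero.exp_lt_exp]
    omega
  have h1 : v.adicValuation (1 + x) = 1 := Valuation.map_one_add_of_lt _ hlt
  simp [Place.ord, h1]

theorem one_add_ne_zero {x : F} (hx : x = 0 ∨ 1 ≤ v.ord x) : (1 : F) + x ≠ 0 := by
  rcases eq_or_ne x 0 with rfl | hx0
  · simp
  have hx1 : 1 ≤ v.ord x := hx.resolve_left hx0
  intro h
  have hx' : x = -1 := by linear_combination h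
  have : v.ord x = 0 := by
    rw [hx', show (-1 : F) = (-1 : F) * 1 by ring]
    have hm : v.ord ((-1 : F) * (-1)) = v.ord (-1 : F) + v.ord (-1 : F) :=
      v.ord_mul (by norm_num) (by norm_num)
    have : v.ord ((-1 : F) * (-1)) = 0 := by norm_num
    simp only [mul_one]
    omega
  omega

end LocalAPI

section LocalDerivation

variable {Om F : Type*} [Field Om] [Field F] [Algebra Om F] (v : Place Om F)

/-- Logarithmic derivative at a place: `d f / f = a + ord(f) * b / π` with `a, b` integral. -/
theorem logDeriv_decomp (d : Derivation ℤ F F)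
    (hd : ∀ u : F, u ∈ v.toValuationSubring → d u ∈ v.toValuationSubring)
    {f : F} (hf : f ≠ 0) {π : v.toValuationSubring} (hπ : Irreducible π) :
    ∃ a ∈ v.toValuationSubring, ∃ b ∈ v.toValuationSubring,
      d f / f = a + ((v.ord f : ℤ) : F) * b / (π : F) := by
  obtain ⟨u, hu⟩ := v.exists_unit_mul_zpow hf hπ
  have hπ0 : (π : F) ≠ 0 := by
    simpa [ne_eq, ZeroMemClass.coe_eq_zero] using hπ.ne_zero
  have hu0 : ((u : v.toValuationSubring) : F) ≠ 0 := by
    simp [ne_eq, ZeroMemClass.coe_eq_zero]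
  have huinv : (((u : v.toValuationSubring) : F))⁻¹ ∈ v.toValuationSubring := by
    have h1 : (((u⁻¹ : v.toValuationSubringˣ) : v.toValuationSubring) : F)
        = (((u : v.toValuationSubring) : F))⁻¹ := by
      have h2 : (((u⁻¹ : v.toValuationSubringˣ) : v.toValuationSubring) : F)
          * ((u : v.toValuationSubring) : F) = 1 := by
        have h3 : ((u⁻¹ : v.toValuationSubringˣ) : v.toValuationSubring)
            * (u : v.toValuationSubring) = 1 := Units.inv_mul u
        have h4 := congrArg (fun x : v.toValuationSubring => (x : F)) h3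
        exact h4
      exact eq_inv_of_mul_eq_one_left h2
    rw [← h1]
    exact ((u⁻¹ : v.toValuationSubringˣ) : v.toValuationSubring).2
  refine ⟨d ((u : v.toValuationSubring) : F) * (((u : v.toValuationSubring) : F))⁻¹,
    mul_mem (hd _ (u : v.toValuationSubring).2) huinv, d (π : F), hd _ π.2, ?_⟩
  set m := v.ord f with hm
  have hzp : (π : F) ^ m ≠ 0 := zpow_ne_zero m hπ0
  have key : d f = ((u : v.toValuationSubring) : F) * ((m : F) * ((π : F) ^ m / (π : F)) * d (π : F))
      + (π : F) ^ m * d ((u : v.toValuationSubring) : F) := by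
    conv_lhs => rw [hu]
    rw [Derivation.leibniz, Derivation.leibniz_zpow, zpow_sub_one₀ hπ0]
    simp only [smul_eq_mul, zsmul_eq_mul, div_eq_mul_inv]
    ring
  rw [key]
  conv_lhs => rw [hu]
  field_simp
  ring

/-- The logarithmic derivative has at most a simple pole. -/
theorem logDeriv_ord_ge (d : Derivation ℤ F F)
    (hd : ∀ u : F, u ∈ v.toValuationSubring → d u ∈ v.toValuationSubring)
    {f : F} (hf : f ≠ 0) : d f / f = 0 ∨ -1 ≤ v.ord (d f / f) := by
  obtain ⟨π, hπ⟩ := IsDiscreteValuationRing.exists_irreducible v.toValuationSubring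
  obtain ⟨a, ha, b, hb, hab⟩ := logDeriv_decomp v d hd hf hπ
  have hπ0 : (π : F) ≠ 0 := by
    simpa [ne_eq, ZeroMemClass.coe_eq_zero] using hπ.ne_zero
  by_cases hg : d f / f = 0
  · exact Or.inl hg
  right
  have h1 : (π : F) * (d f / f) ∈ v.toValuationSubring := by
    have : (π : F) * (d f / f) = (π : F) * a + ((v.ord f : ℤ) : F) * b := by
      rw [hab]; field_simp
    rw [this]
    exact add_mem (mul_mem π.2 ha) (mul_mem (intCast_mem _ _) hb)
  have h2 := ord_nonneg_of_mem v h1
  rw [v.ord_mul hπ0 hg, v.ord_coe_irreducible hπ] at h2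
  omega

/-- The logarithmic derivative is integral at places where `ord f = 0`. -/
theorem logDeriv_ord_nonneg (d : Derivation ℤ F F)
    (hd : ∀ u : F, u ∈ v.toValuationSubring → d u ∈ v.toValuationSubring)
    {f : F} (hf : f ≠ 0) (h0 : v.ord f = 0) : d f / f = 0 ∨ 0 ≤ v.ord (d f / f) := by
  obtain ⟨π, hπ⟩ := IsDiscreteValuationRing.exists_irreducible v.toValuationSubring
  obtain ⟨a, ha, b, hb, hab⟩ := logDeriv_decomp v d hd hf hπ
  right
  rw [hab, h0]
  simp only [Int.cast_zero, zero_mul, zero_div, add_zero]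
  exact ord_nonneg_of_mem v ha

/-- At a place with a uniformizer `t` killed by `d`: if `f = t ^ m * (1 + t * w)` with `w`
integral then `d f / f` vanishes at the place. -/
theorem logDeriv_ord_pos (d : Derivation ℤ F F)
    (hd : ∀ u : F, u ∈ v.toValuationSubring → d u ∈ v.toValuationSubring)
    {t : F} (ht : v.ord t = 1) (hdt : d t = 0) (m : ℤ) {w : F} (hw : w ∈ v.toValuationSubring) :
    d (t ^ m * (1 + t * w)) / (t ^ m * (1 + t * w)) = 0 ∨
      1 ≤ v.ord (d (t ^ m * (1 + t * w)) / (t ^ m * (1 + t * w))) := by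
  have ht0 : t ≠ 0 := by
    rintro rfl
    simp at ht
  have htw : t * w = 0 ∨ 1 ≤ v.ord (t * w) := by
    rcases eq_or_ne w 0 with rfl | hw0
    · left; simp
    right
    rw [v.ord_mul ht0 hw0, ht]
    have := ord_nonneg_of_mem v hw
    omega
  have h1 : (1 : F) + t * w ≠ 0 := one_add_ne_zero v htw
  have h1o : v.ord (1 + t * w) = 0 := ord_one_add v htw
  have hzp : t ^ m ≠ 0 := zpow_ne_zero m ht0
  have key : d (t ^ m * (1 + t * w)) = t ^ m * (t * d w) := by
    rw [Derivation.leibniz, Derivation.leibniz_zpow, hdt, map_add, Derivation.map_one_eq_zero,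
      Derivation.leibniz, hdt]
    simp
  rw [key]
  have hdw := hd w hw
  rcases eq_or_ne (d w) 0 with h | h
  · left; rw [h]; simp
  right
  have e1 : t ^ m * (t * d w) / (t ^ m * (1 + t * w)) = t * d w / (1 + t * w) := by
    field_simp
  rw [e1, ord_div v (mul_ne_zero ht0 h) h1, v.ord_mul ht0 h, ht, h1o]
  have := ord_nonneg_of_mem v hdw
  omega

end LocalDerivation

section Residue

variable {Om F : Type*} [Field Om] [Field F] [Algebra Om F] [IsAlgClosed Om] [IsCurveOver Om F]
  (v : Place Om F)

/-- Over an algebraically closed constant field every integral element is congruent to a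
constant modulo the maximal ideal. -/
theorem exists_const_sub (w : F) (hw : w ∈ v.toValuationSubring) :
    ∃ a : Om, w - algebraMap Om F a = 0 ∨ 1 ≤ v.ord (w - algebraMap Om F a) := by
  have : Module.Finite Om v.ResidueField := IsCurveOver.finiteResidue v
  have : Algebra.IsIntegral Om v.ResidueField := Algebra.IsIntegral.of_finite Om v.ResidueField
  have hbij : Function.Bijective (algebraMap Om v.ResidueField) :=
    IsAlgClosed.algebraMap_bijective_of_isIntegral
  obtain ⟨a, ha⟩ := hbij.2 (IsLocalRing.residue v.toValuationSubring ⟨w, hw⟩)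
  refine ⟨a, ?_⟩
  by_cases h0 : w - algebraMap Om F a = 0
  · exact Or.inl h0
  right
  set x : v.toValuationSubring := ⟨w, hw⟩ - algebraMap Om v.toValuationSubring a with hx
  have hxF : (x : F) = w - algebraMap Om F a := by
    simp [hx]
  have hres : IsLocalRing.residue v.toValuationSubring x = 0 := by
    rw [hx, map_sub, ← ha]
    exact sub_self _
  have hnu : ¬ IsUnit x := by
    rw [IsLocalRing.residue_eq_zero_iff] at hres
    exact (IsLocalRing.mem_maximalIdeal x).mp hres
  have h1 : v.adicValuation (x : F) ≠ 1 := fun h => hnu ((v.adicValuation_coe_eq_one_iff x).mp h)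
  have h2 : v.adicValuation (x : F) ≤ 1 := v.adicValuation_le_one_of_mem x.2
  have h3 : v.adicValuation (x : F) < 1 := lt_of_le_of_ne h2 h1
  rw [hxF] at h3
  rw [v.adicValuation_eq_exp_neg_ord h0, ← WithZero.exp_zero, WithZero.exp_lt_exp] at h3
  omega

end Residue

section Degree

variable {Om F : Type*} [Field Om] [Field F] [Algebra Om F]

theorem degree_nonneg_of_nonneg {E : Divisor Om F} (hE : 0 ≤ E) : 0 ≤ Divisor.degree E := by
  have h : Divisor.degree E = E.sum fun v n => n * (v.deg : ℤ) := by
    simp [Divisor.degree, Finsupp.liftAddHom_apply]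
  rw [h]
  apply Finsupp.sum_nonneg
  intro v _
  exact mul_nonneg (Finsupp.le_def.mp hE v) (Int.natCast_nonneg _)

end Degree

section Main

variable {Om F : Type*} [Field Om] [Field F] [Algebra Om F] [IsAlgClosed Om] [IsCurveOver Om F]

/-- The predicate "the class `T` has an effective representative of degree `e` relative to the
base place `vinf`". -/
def HasEffRep (vinf : Place Om F) (T : Pic0 Om F) (e : ℕ) : Prop :=
  ∃ E : Divisor Om F, 0 ≤ E ∧ ∃ D' : Divisor.degZero (K := Om) (F := F),
    (D' : Divisor Om F) = E - Finsupp.single vinf (e : ℤ) ∧ Pic0.mk D' = T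

theorem exists_hasEffRep
    (hRR : ∃ c : ℤ, ∀ D : Divisor Om F, c ≤ Divisor.degree D →
      ∃ f : F, f ≠ 0 ∧ f ∈ riemannRochSpace D)
    (vinf : Place Om F) (T : Pic0 Om F) : ∃ e : ℕ, HasEffRep vinf T e := by
  obtain ⟨D0, rfl⟩ := Pic0.mk_surjective T
  obtain ⟨c, hc⟩ := hRR
  have hdeg1 : vinf.deg = 1 := IsCurveOver.deg_eq_one_of_isAlgClosed vinf
  set m : ℕ := c.toNat with hm
  have hD0 : Divisor.degree (D0 : Divisor Om F) = 0 := D0.2
  have hdeg : c ≤ Divisor.degree ((D0 : Divisor Om F) + Finsupp.single vinf (m : ℤ)) := by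
    rw [map_add, hD0, Divisor.degree_single, hdeg1]
    simp only [Nat.cast_one, mul_one, zero_add, hm]
    exact Int.self_le_toNat c
  obtain ⟨h, hh0, hh⟩ := hc _ hdeg
  obtain ⟨Dh, hDh, hDhdeg⟩ := HasPrincipalDivisors.exists_divisor (K := Om) h hh0
  rw [mem_riemannRochSpace_iff] at hh
  refine ⟨m, (D0 : Divisor Om F) + Finsupp.single vinf (m : ℤ) + Dh, ?_,
    D0 + ⟨Dh, hDhdeg⟩, ?_, ?_⟩
  · rw [Finsupp.le_def]
    intro v
    have := (hh v).resolve_left hh0
    simp only [Finsupp.coe_zero, Pi.zero_apply, Finsupp.coe_add, Pi.add_apply, hDh v] at this ⊢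
    omega
  · simp only [AddSubgroup.coe_add]
    abel
  · show Pic0.mk (D0 + ⟨Dh, hDhdeg⟩) = Pic0.mk D0
    rw [Pic0.mk_add]
    have : Pic0.mk (⟨Dh, hDhdeg⟩ : Divisor.degZero (K := Om) (F := F)) = 0 := by
      apply (QuotientAddGroup.eq_zero_iff _).mpr
      rw [AddSubgroup.mem_addSubgroupOf]
      exact ⟨h, hh0, hDh⟩
    rw [this, add_zero]

/-- **Rigidity.**  Let `F / Om` be a function field over an algebraically closed field, `F0` a
subfield, and `DD` a family of derivations of `F` killing `F0`, preserving every valuation ring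
of a place of `F / Om`, with common constants contained in `F0`.  Assume Riemann's inequality in
the weak form `hRR` and a place `vinf` with a uniformizer `t ∈ F0`.  Then every `n`-torsion class
`T` of `Pic0 Om F` is the class of a degree-zero divisor `D` with `n • D = div f`, `f ∈ F0`. -/
theorem rigidity
    (F0 : Subfield F) (DD : Set (Derivation ℤ F F))
    (h0 : ∀ d ∈ DD, ∀ a ∈ F0, d a = 0)
    (hval : ∀ d ∈ DD, ∀ (v : Place Om F) (u : F),
      u ∈ v.toValuationSubring → d u ∈ v.toValuationSubring)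
    (hconst : ∀ f : F, (∀ d ∈ DD, d f = 0) → f ∈ F0)
    (hRR : ∃ c : ℤ, ∀ D : Divisor Om F, c ≤ Divisor.degree D →
      ∃ f : F, f ≠ 0 ∧ f ∈ riemannRochSpace D)
    (vinf : Place Om F) (t : F) (ht0 : t ∈ F0) (ht : vinf.ord t = 1)
    (n : ℕ) (T : Pic0 Om F) (hT : (n : ℤ) • T = 0) :
    ∃ (D : Divisor.degZero (K := Om) (F := F)) (f : F), f ∈ F0 ∧ f ≠ 0 ∧ Pic0.mk D = T ∧
      ∀ v : Place Om F, (n : ℤ) * (D : Divisor Om F) v = v.ord f := by
  classical
  have hdeg1 : vinf.deg = 1 := IsCurveOver.deg_eq_one_of_isAlgClosed vinf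
  have hex := exists_hasEffRep hRR vinf T
  obtain ⟨E, hE, D', hD', hcls⟩ := Nat.find_spec hex
  set e := Nat.find hex with he
  have hmin : ∀ e' : ℕ, e' < e → ¬ HasEffRep vinf T e' := fun e' h => Nat.find_min hex h
  -- Step C: `L(E - vinf) = 0`
  have hL : ∀ g : F, g ∈ riemannRochSpace (E - Finsupp.single vinf (1 : ℤ)) → g = 0 := by
    intro g hg
    by_contra hg0
    obtain ⟨Dg, hDg, hDgdeg⟩ := HasPrincipalDivisors.exists_divisor (K := Om) g hg0
    rw [mem_riemannRochSpace_iff] at hg
    have hE' : 0 ≤ E - Finsupp.single vinf (1 : ℤ) + Dg := by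
      rw [Finsupp.le_def]
      intro v
      have := (hg v).resolve_left hg0
      simp only [Finsupp.coe_zero, Pi.zero_apply, Finsupp.coe_add, Pi.add_apply, hDg v] at this ⊢
      omega
    have hdegE : Divisor.degree E = e := by
      have h1 : Divisor.degree (D' : Divisor Om F) = 0 := D'.2
      rw [hD', map_sub, Divisor.degree_single, hdeg1] at h1
      simp only [Nat.cast_one, mul_one] at h1
      omega
    have hdegE' : Divisor.degree (E - Finsupp.single vinf (1 : ℤ) + Dg) = (e : ℤ) - 1 := by
      rw [map_add, map_sub, hdegE, hDgdeg, Divisor.degree_single, hdeg1]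
      simp
    have hpos : 1 ≤ e := by
      have := degree_nonneg_of_nonneg hE'
      rw [hdegE'] at this
      omega
    refine hmin (e - 1) (by omega) ⟨E - Finsupp.single vinf (1 : ℤ) + Dg, hE',
      D' + ⟨Dg, hDgdeg⟩, ?_, ?_⟩
    · simp only [AddSubgroup.coe_add, hD']
      have hsplit : Finsupp.single vinf (e : ℤ)
          = Finsupp.single vinf (1 : ℤ) + Finsupp.single vinf (((e - 1 : ℕ) : ℤ)) := by
        rw [← Finsupp.single_add]
        congr 1
        omega
      rw [hsplit]
      abel
    · rw [Pic0.mk_add, hcls]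
      have : Pic0.mk (⟨Dg, hDgdeg⟩ : Divisor.degZero (K := Om) (F := F)) = 0 := by
        apply (QuotientAddGroup.eq_zero_iff _).mpr
        rw [AddSubgroup.mem_addSubgroupOf]
        exact ⟨g, hg0, hDg⟩
      rw [this, add_zero]
  -- Step D: `n • D'` is principal
  have hprin : ∃ f : F, f ≠ 0 ∧ ∀ v : Place Om F, (n : ℤ) * (D' : Divisor Om F) v = v.ord f := by
    rw [← hcls] at hT
    have h1 : Pic0.mk ((n : ℤ) • D') = 0 := by
      rw [← hT]
      exact map_zsmul (QuotientAddGroup.mk' _) (n : ℤ) D'
    have h2 := (QuotientAddGroup.eq_zero_iff _).mp h1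
    rw [AddSubgroup.mem_addSubgroupOf] at h2
    obtain ⟨f, hf0, hf⟩ := h2
    refine ⟨f, hf0, fun v => ?_⟩
    rw [← hf v]
    simp
  obtain ⟨f, hf0, hf⟩ := hprin
  -- Step E: normalisation at `vinf`
  have htne : t ≠ 0 := by
    rintro rfl
    simp at ht
  set m := vinf.ord f with hm
  have hw0 : f * t ^ (-m) ≠ 0 := mul_ne_zero hf0 (zpow_ne_zero _ htne)
  have hword : vinf.ord (f * t ^ (-m)) = 0 := by
    rw [vinf.ord_mul hf0 (zpow_ne_zero _ htne), vinf.ord_zpow, ht]
    omega
  have hwmem : f * t ^ (-m) ∈ vinf.toValuationSubring := mem_of_ord_nonneg vinf hword.ge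
  obtain ⟨a, ha⟩ := exists_const_sub vinf _ hwmem
  have ha0 : a ≠ 0 := by
    rintro rfl
    simp only [map_zero, sub_zero] at ha
    rcases ha with h | h
    · exact hw0 h
    · omega
  have haF : algebraMap Om F a ≠ 0 := by simpa using ha0
  set x : F := (algebraMap Om F a)⁻¹ * (f * t ^ (-m) - algebraMap Om F a) with hx
  have hxo : x = 0 ∨ 1 ≤ vinf.ord x := by
    rcases ha with h | h
    · left; rw [hx, h, mul_zero]
    · by_cases hz : f * t ^ (-m) - algebraMap Om F a = 0
      · left; rw [hx, hz, mul_zero]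
      right
      rw [hx, vinf.ord_mul (inv_ne_zero haF) hz, vinf.ord_inv, ord_algebraMap vinf ha0]
      omega
  set w : F := x / t with hw
  have hwmem' : w ∈ vinf.toValuationSubring := by
    rcases eq_or_ne x 0 with h | h
    · rw [hw, h, zero_div]; exact zero_mem _
    apply mem_of_ord_nonneg
    rw [hw, ord_div vinf h htne, ht]
    have := hxo.resolve_left h
    omega
  set f1 : F := (algebraMap Om F a)⁻¹ * f with hf1
  have hf1ne : f1 ≠ 0 := mul_ne_zero (inv_ne_zero haF) hf0
  have hf1eq : f1 = t ^ m * (1 + t * w) := by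
    have hzp : t ^ m ≠ 0 := zpow_ne_zero m htne
    rw [hf1, hw, hx, zpow_neg]
    field_simp
    ring
  have hf1ord : ∀ v : Place Om F, v.ord f1 = v.ord f := by
    intro v
    rw [hf1, v.ord_mul (inv_ne_zero haF) hf0, v.ord_inv, ord_algebraMap v ha0]
    simp
  -- Step F: every derivation in `DD` kills `f1`
  have hkill : ∀ d ∈ DD, d f1 = 0 := by
    intro d hd
    have hg : d f1 / f1 ∈ riemannRochSpace (E - Finsupp.single vinf (1 : ℤ)) := by
      rw [mem_riemannRochSpace_iff]
      intro v
      by_cases hv : v = vinf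
      · subst hv
        have h1 := logDeriv_ord_pos v d (hval d hd v) ht (h0 d hd t ht0) m hwmem'
        rw [← hf1eq] at h1
        rcases h1 with h1 | h1
        · exact Or.inl h1
        right
        have hEv : 0 ≤ E v := Finsupp.le_def.mp hE v
        simp only [Finsupp.coe_sub, Pi.sub_apply, Finsupp.single_eq_same]
        omega
      · have hsingle : (Finsupp.single vinf (1 : ℤ)) v = 0 := Finsupp.single_eq_of_ne' (Ne.symm hv)
        have hsingle' : (Finsupp.single vinf (e : ℤ)) v = 0 := Finsupp.single_eq_of_ne' (Ne.symm hv)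
        have hEv : 0 ≤ E v := Finsupp.le_def.mp hE v
        have hord : v.ord f1 = (n : ℤ) * E v := by
          rw [hf1ord v, ← hf v, hD']
          simp [hsingle']
        simp only [Finsupp.coe_sub, Pi.sub_apply, hsingle, sub_zero]
        by_cases hEv0 : E v = 0
        · have h1 := logDeriv_ord_nonneg v d (hval d hd v) hf1ne (by rw [hord, hEv0, mul_zero])
          rcases h1 with h1 | h1
          · exact Or.inl h1
          · right; omega
        · have h1 := logDeriv_ord_ge v d (hval d hd v) hf1ne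
          rcases h1 with h1 | h1
          · exact Or.inl h1
          · right; omega
    have hz := hL _ hg
    rw [div_eq_zero_iff] at hz
    exact hz.resolve_right hf1ne
  refine ⟨D', f1, hconst f1 hkill, hf1ne, hcls, fun v => ?_⟩
  rw [hf1ord v, hf v]

end Main

end Fermat.Agent.S27.helper4889
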