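import Fermat.Agent.S27.helper5871_LefSpec
import Fermat.Agent.S27.helper197_ConstExt
import Fermat.Agent.S27.helper2390_CFE3
import Fermat.Agent.S24.helper483_PlacesFF
import Fermat.Agent.S27.helper4586_EvKit

/-!
# S27-L-BCG (board 1296): the genus is invariant under constant field extension (helper518)

`bc_genus : Stmt_Riemann → Stmt_Riemann → helper5871.Stmt_BC_Genus`, verbatim.

Assembly of landed leaves:

* `isConstExt197_of` : adapter `helper5871.IsConstExt` (generation + linear disjointness in
  family form) `→ helper197.IsConstExt` (injectivity of `F₁ ⊗[K₁] K₂ → F₂`, fraction form,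
  residue fields `K₁`);
* `riemannRochSpace_mapDiv` : (C4) instantiated at the Gauss extension `helper197.ext` of places:
  `L(mapDiv D) = K₂ · L(D)` and `dim_{K₂} L(mapDiv D) = dim_{K₁} L(D)`
  (`helper2390.riemannRochSpace_eq_span_and_finrank`, fixed field of `Aut(K₂/K₁)` from
  `helper1618`);
* `bc_genus` : Riemann's theorem on both sides for `D = n • P`, `n` large.
-/

set_option autoImplicit false

open AlgebraicCurve TensorProduct IntermediateField

namespace Fermat.Agent.S27.helper518

universe u₁ v₁ u₂ v₂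

section Adapter

variable {K1 : Type u₁} {F1 : Type v₁} {K2 : Type u₂} {F2 : Type v₂} [Field K1] [Field F1]
  [Field K2] [Field F2] [Algebra K1 F1] [Algebra K2 F2] [Algebra K1 K2] [Algebra F1 F2]
  [Algebra K1 F2] [IsScalarTower K1 K2 F2] [IsScalarTower K1 F1 F2]

omit [Algebra K1 F1] [Algebra K1 F2] [IsScalarTower K1 K2 F2] [IsScalarTower K1 F1 F2] in
/-- Linear disjointness in the finite-family form of `helper5871.IsConstExt` gives linear
independence over `F1` of the image of any `K1`-linearly independent family of `K2`. -/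
theorem linearIndependent_of_ld
    (ld : ∀ (m : ℕ) (c : Fin m → K2), LinearIndependent K1 c →
      LinearIndependent F1 (fun i => algebraMap K2 F2 (c i)))
    {ι : Type*} (b : ι → K2) (hb : LinearIndependent K1 b) :
    LinearIndependent F1 (fun i => algebraMap K2 F2 (b i)) := by
  classical
  rw [linearIndependent_iff_finset_linearIndependent]
  intro s
  have h1 : LinearIndependent K1 (fun k : Fin s.card => b (s.equivFin.symm k : ι)) :=
    hb.comp (fun k : Fin s.card => (s.equivFin.symm k : ι))
      (Subtype.val_injective.comp s.equivFin.symm.injective)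
  have h2 := ld s.card _ h1
  have h3 := h2.comp s.equivFin s.equivFin.injective
  convert h3 using 1
  funext i
  simp

/-- Injectivity of the product map `F1 ⊗[K1] K2 → F2` from linear disjointness. -/
theorem mu_injective_of_ld
    (ld : ∀ (m : ℕ) (c : Fin m → K2), LinearIndependent K1 c →
      LinearIndependent F1 (fun i => algebraMap K2 F2 (c i))) :
    Function.Injective (helper197.mu K1 F1 K2 F2) := by
  classical
  rw [injective_iff_map_eq_zero]
  intro t ht
  let ℬ := Module.Basis.ofVectorSpace K1 K2
  obtain ⟨b, rfl⟩ := TensorProduct.eq_repr_basis_right ℬ t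
  have hli : LinearIndependent F1 (fun i => algebraMap K2 F2 (ℬ i)) :=
    linearIndependent_of_ld ld _ ℬ.linearIndependent
  have hb : b = 0 := by
    apply (linearIndependent_iff.mp hli) b
    rw [Finsupp.linearCombination_apply]
    rw [Finsupp.sum, map_sum] at ht
    rw [Finsupp.sum, ← ht]
    refine Finset.sum_congr rfl fun i _ => ?_
    rw [helper197.mu_tmul, Algebra.smul_def]
  rw [hb]
  simp

/-- The fraction form of generation: every element of `F2` is a quotient of elements of the
image of `F1 ⊗[K1] K2`. -/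
theorem frac_of_gen (hgen : IntermediateField.adjoin K2 (Set.range (algebraMap F1 F2)) = ⊤)
    (hinj : Function.Injective (helper197.mu K1 F1 K2 F2)) (g : F2) :
    ∃ t s : F1 ⊗[K1] K2, s ≠ 0 ∧
      g * helper197.mu K1 F1 K2 F2 s = helper197.mu K1 F1 K2 F2 t := by
  have hg : g ∈ IntermediateField.adjoin K2 (Set.range (algebraMap F1 F2)) := by
    rw [hgen]
    trivial
  obtain ⟨r, hr, s, hs, rfl⟩ := IntermediateField.mem_adjoin_iff_div.mp hg
  have hmem : ∀ z ∈ Algebra.adjoin K2 (Set.range (algebraMap F1 F2)),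
      z ∈ Set.range (helper197.mu K1 F1 K2 F2) := by
    intro z hz
    induction hz using Algebra.adjoin_induction with
    | mem x hx =>
      obtain ⟨f, rfl⟩ := hx
      exact ⟨f ⊗ₜ 1, helper197.mu_tmul_one f⟩
    | algebraMap c => exact ⟨1 ⊗ₜ c, helper197.mu_one_tmul c⟩
    | add x y _ _ hx hy =>
      obtain ⟨a, rfl⟩ := hx
      obtain ⟨b, rfl⟩ := hy
      exact ⟨a + b, map_add _ _ _⟩
    | mul x y _ _ hx hy =>
      obtain ⟨a, rfl⟩ := hx
      obtain ⟨b, rfl⟩ := hy
      exact ⟨a * b, map_mul _ _ _⟩
  obtain ⟨t, rfl⟩ := hmem r hr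
  obtain ⟨s', rfl⟩ := hmem s hs
  by_cases hs0 : s' = 0
  · subst hs0
    refine ⟨0, 1, fun h => ?_, ?_⟩
    · have h1 : (1 : F2) = 0 := by
        rw [← map_one (helper197.mu K1 F1 K2 F2), h, map_zero]
      exact one_ne_zero h1
    · simp
  · refine ⟨t, s', hs0, ?_⟩
    have hne : helper197.mu K1 F1 K2 F2 s' ≠ 0 := fun h0 => hs0 (hinj (by rw [h0, map_zero]))
    rw [div_mul_cancel₀ _ hne]

/-- **Adapter** from the constant-field-extension structure of `helper5871_LefSpec`
(generation + linear disjointness) to the one of `helper197_ConstExt`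
(injectivity + fractions + residue fields). -/
theorem isConstExt197_of [IsAlgClosed K1] (x : F1) [FiniteDimensional K1⟮x⟯ F1]
    (h : helper5871.IsConstExt K1 F1 K2 F2) : helper197.IsConstExt K1 F1 K2 F2 where
  inj := mu_injective_of_ld h.ld
  frac := frac_of_gen h.gen (mu_injective_of_ld h.ld)
  res := fun v => Fermat.Agent.S24.helper483.algebraMap_residueField_bijective x v

/-- **(C4) at the Gauss extension of places.**  For the divisor `mapDiv D` of `F2 / K2` induced
by a divisor `D` of `F1 / K1`: `L(mapDiv D) = K2 · L(D)` and the dimensions agree, provided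
`L(mapDiv D)` is finite-dimensional. -/
theorem riemannRochSpace_mapDiv [CharZero K1] [IsAlgClosed K2]
    (h : helper197.IsConstExt K1 F1 K2 F2)
    (hgen : IntermediateField.adjoin K2 (Set.range (algebraMap F1 F2)) = ⊤)
    (D : Divisor K1 F1) [Module.Finite K2 (riemannRochSpace (helper197.mapDiv h D))] :
    riemannRochSpace (helper197.mapDiv h D)
        = Submodule.span K2 (algebraMap F1 F2 '' (riemannRochSpace D : Set F1)) ∧
      Module.finrank K2 (riemannRochSpace (helper197.mapDiv h D))
        = Module.finrank K1 (riemannRochSpace D) := by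
  have hfix : ∀ c : K2, (∀ σ : K2 ≃ₐ[K1] K2, σ c = c) → c ∈ Set.range (algebraMap K1 K2) :=
    fun c hc => (helper1618.mem_range_algebraMap_iff_forall_fixed c).mpr hc
  exact helper2390.riemannRochSpace_eq_span_and_finrank hfix
    (helper2390.hld_of_mulMap_injective h.inj) hgen (helper197.ext h)
    (helper197.ord_ext_algebraMap h)
    (fun w hw => (helper197.mem_range_ext_iff h w).mpr hw)
    D (helper197.mapDiv h D) (helper197.mapDiv_apply_ext h D)
    (fun w hw => helper197.mapDiv_apply_of_notMem_range h D hw)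

end Adapter

/-- A nonspecial divisor has `H¹(D) = 0`. -/
theorem finrank_H1_eq_zero {K : Type*} {F : Type*} [Field K] [Field F] [Algebra K F]
    {D : Divisor K F} (hD : helper6247.IsNonspecial D) : Module.finrank K (H1 D) = 0 := by
  have hsub : Subsingleton (H1 D) := Submodule.Quotient.subsingleton_iff.mpr hD
  exact Module.finrank_zero_of_subsingleton

/-- **L-BC-GENUS** (`helper5871.Stmt_BC_Genus`, verbatim): the genus is invariant under constant
field extension of algebraically closed fields of characteristic zero. -/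
theorem bc_genus (hR : helper6247.Stmt_Riemann.{u₁, v₁})
    (hR' : helper6247.Stmt_Riemann.{u₂, v₂}) :
    helper5871.Stmt_BC_Genus.{u₁, v₁, u₂, v₂} := by
  intro K1 F1 K2 F2 _ _ _ _ _ _ _ _ _ _ _ _ _ _ _ x hx hfin hx' hfin' hce
  have h197 : helper197.IsConstExt K1 F1 K2 F2 := isConstExt197_of x hce
  obtain ⟨-, hrr1, c1, hc1⟩ := hR K1 F1 x hx
  obtain ⟨hfin2, hrr2, c2, hc2⟩ := hR' K2 F2 (algebraMap F1 F2 x) hx'
  -- a place of `F1`, of degree one
  obtain ⟨P, -⟩ := helper4586.exists_ord_sub_pos x hx (0 : K1)
  have hdegP : P.deg = 1 := helper197.deg_eq_one_of_bijective P (h197.res P)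
  -- the divisor `n • P`, `n` large
  have hdegD : Divisor.degree (Finsupp.single P (max c1 c2) : Divisor K1 F1) = max c1 c2 := by
    rw [Divisor.degree_single, hdegP]
    simp
  have hdegD' : Divisor.degree (helper197.mapDiv h197 (Finsupp.single P (max c1 c2)))
      = max c1 c2 := by
    rw [helper197.degree_mapDiv, hdegD]
  have hns1 : helper6247.IsNonspecial (Finsupp.single P (max c1 c2) : Divisor K1 F1) :=
    hc1 _ (by rw [hdegD]; exact le_max_left _ _)
  have hns2 : helper6247.IsNonspecial (helper197.mapDiv h197 (Finsupp.single P (max c1 c2))) :=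
    hc2 _ (by rw [hdegD']; exact le_max_right _ _)
  have e1 := hrr1 (Finsupp.single P (max c1 c2))
  have e2 := hrr2 (helper197.mapDiv h197 (Finsupp.single P (max c1 c2)))
  rw [finrank_H1_eq_zero hns1, hdegD] at e1
  rw [finrank_H1_eq_zero hns2, hdegD'] at e2
  have : Module.Finite K2
      (riemannRochSpace (helper197.mapDiv h197 (Finsupp.single P (max c1 c2)))) :=
    (hfin2 _).2
  have hL := (riemannRochSpace_mapDiv h197 hce.gen (Finsupp.single P (max c1 c2))).2
  rw [hL] at e2
  have hg : (genusFF K2 F2 : ℤ) = (genusFF K1 F1 : ℤ) := by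
    push_cast at e1 e2
    linarith
  exact_mod_cast hg

/-! ### `hprin`: a degree-zero divisor which becomes principal after constant field extension
is principal (injectivity of `Pic⁰(F1) → Pic⁰(F2)`) -/

/-- An effective divisor of degree zero, all of whose places have degree one, is zero. -/
theorem eq_zero_of_nonneg_of_degree_eq_zero {K : Type*} {F : Type*} [Field K] [Field F]
    [Algebra K F] (hdeg1 : ∀ v : Place K F, v.deg = 1) {E : Divisor K F} (hE : 0 ≤ E)
    (hdeg : Divisor.degree E = 0) : E = 0 := by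
  have h : Divisor.degree E = E.sum fun v n => n * (v.deg : ℤ) := by
    simp [Divisor.degree, Finsupp.liftAddHom_apply]
  rw [h, Finsupp.sum] at hdeg
  have h2 := (Finset.sum_eq_zero_iff_of_nonneg (fun v _ =>
    mul_nonneg (Finsupp.le_def.mp hE v) (Int.natCast_nonneg _))).mp hdeg
  ext v
  by_cases hv : v ∈ E.support
  · have h3 := h2 v hv
    rw [hdeg1 v] at h3
    simpa using h3
  · simpa using Finsupp.notMem_support_iff.mp hv

section HPrin

variable {K1 : Type u₁} {F1 : Type v₁} {K2 : Type u₂} {F2 : Type v₂} [Field K1] [Field F1]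
  [Field K2] [Field F2] [Algebra K1 F1] [Algebra K2 F2] [Algebra K1 K2] [Algebra F1 F2]
  [Algebra K1 F2] [IsScalarTower K1 K2 F2] [IsScalarTower K1 F1 F2]

/-- **`hprin`, finite-dimensional form.**  If `D` has degree zero and `mapDiv D` is principal
(and `L(mapDiv D)` is finite-dimensional), then `D` is principal: `L(mapDiv D) ≠ 0` forces
`L(D) ≠ 0` by (C4), and an effective divisor of degree zero is zero. -/
theorem isPrincipal_of_isPrincipal_mapDiv [IsAlgClosed K1] [CharZero K1] [IsAlgClosed K2]
    (h : helper197.IsConstExt K1 F1 K2 F2)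
    (hgen : IntermediateField.adjoin K2 (Set.range (algebraMap F1 F2)) = ⊤)
    (x : F1) (hx : Transcendental K1 x) [FiniteDimensional K1⟮x⟯ F1]
    (D : Divisor K1 F1) [Module.Finite K2 (riemannRochSpace (helper197.mapDiv h D))]
    (hdeg : Divisor.degree D = 0) (hD : Divisor.IsPrincipal (helper197.mapDiv h D)) :
    Divisor.IsPrincipal D := by
  obtain ⟨g, hg0, hg⟩ := hD
  -- `g⁻¹ ∈ L(mapDiv D)`
  have hmem : g⁻¹ ∈ riemannRochSpace (helper197.mapDiv h D) := by
    rw [mem_riemannRochSpace_iff]
    intro w
    right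
    rw [hg w, Place.ord_inv]
  have hpos : 0 < Module.finrank K2 (riemannRochSpace (helper197.mapDiv h D)) :=
    Module.finrank_pos_iff_exists_ne_zero.mpr
      ⟨⟨g⁻¹, hmem⟩, fun h0 => inv_ne_zero hg0 (congrArg Subtype.val h0)⟩
  rw [(riemannRochSpace_mapDiv h hgen D).2] at hpos
  -- hence `L(D) ≠ 0`
  have hex : ∃ f : F1, f ≠ 0 ∧ f ∈ riemannRochSpace D := by
    by_contra hcon
    have hsub : Subsingleton (riemannRochSpace D) := by
      refine ⟨fun a b => ?_⟩
      have ha : (a : F1) = 0 := by
        by_contra ha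
        exact hcon ⟨a, ha, a.2⟩
      have hb : (b : F1) = 0 := by
        by_contra hb
        exact hcon ⟨b, hb, b.2⟩
      exact Subtype.ext (ha.trans hb.symm)
    rw [Module.finrank_zero_of_subsingleton] at hpos
    exact lt_irrefl 0 hpos
  obtain ⟨f, hf0, hf⟩ := hex
  have hPD : HasPrincipalDivisors K1 F1 := Fermat.Agent.S24.helper483.hasPrincipalDivisors x hx
  obtain ⟨Df, hDf, hDfdeg⟩ := HasPrincipalDivisors.exists_divisor (K := K1) f hf0
  rw [mem_riemannRochSpace_iff] at hf
  have hE : 0 ≤ D + Df := by
    rw [Finsupp.le_def]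
    intro v
    have h1 := (hf v).resolve_left hf0
    simp only [Finsupp.coe_zero, Pi.zero_apply, Finsupp.coe_add, Pi.add_apply, hDf v]
    omega
  have hE0 : D + Df = 0 :=
    eq_zero_of_nonneg_of_degree_eq_zero
      (fun v => helper197.deg_eq_one_of_bijective v (h.res v)) hE
      (by rw [map_add, hdeg, hDfdeg, add_zero])
  refine ⟨f⁻¹, inv_ne_zero hf0, fun v => ?_⟩
  have h1 := DFunLike.congr_fun hE0 v
  simp only [Finsupp.coe_add, Pi.add_apply, Finsupp.coe_zero, Pi.zero_apply, hDf v] at h1
  rw [Place.ord_inv]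
  omega

/-- **`hprin`** in the exact shape of `helper1587.exists_pic0Hom_of_ext` (whose
`mapDiv (helper197.ext h)` is definitionally `helper197.mapDiv h`), with the finiteness of the
Riemann–Roch spaces of `F2 / K2` supplied by Riemann's theorem. -/
theorem hprin_of_riemann (hR' : helper6247.Stmt_Riemann.{u₂, v₂})
    [IsAlgClosed K1] [CharZero K1] [IsAlgClosed K2] [CharZero K2]
    (h : helper197.IsConstExt K1 F1 K2 F2)
    (hgen : IntermediateField.adjoin K2 (Set.range (algebraMap F1 F2)) = ⊤)
    (x : F1) (hx : Transcendental K1 x) [FiniteDimensional K1⟮x⟯ F1]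
    (hx' : Transcendental K2 (algebraMap F1 F2 x))
    [FiniteDimensional K2⟮algebraMap F1 F2 x⟯ F2] :
    ∀ D : Divisor K1 F1, Divisor.degree D = 0 →
      Divisor.IsPrincipal (helper197.mapDiv h D) → Divisor.IsPrincipal D := by
  intro D hdeg hD
  obtain ⟨hfin2, -, -, -⟩ := hR' K2 F2 (algebraMap F1 F2 x) hx'
  have : Module.Finite K2 (riemannRochSpace (helper197.mapDiv h D)) := (hfin2 _).2
  exact isPrincipal_of_isPrincipal_mapDiv h hgen x hx D hdeg hD

end HPrin

end Fermat.Agent.S27.helper518
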