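import Fermat.Agent.S27.helper5871_LefSpec
import Fermat.Agent.S27.helper1587_BCPic
import Fermat.Agent.S27.helper4889_Rigidity
import Fermat.Agent.S27.helper518_BCGenus
import Fermat.Agent.S27.helper4996_Riemann
import Fermat.Agent.S27.helper1949_CurveOfFinite
import Fermat.Agent.S27.helper2950_GenusZero
import Fermat.Agent.S27.helper104_DerVal

/-!
# S27-L-BCP (board 1347, backup of row 1297): end assembly of `helper5871.Stmt_BC_Pic`

`bc_pic_of : Stmt_DerConst → Stmt_DerVal → helper5871.Stmt_BC_Pic`, verbatim;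
`stmt_DerVal : Stmt_DerVal` (from `helper104.der_mem_valuationSubring`), hence
`bc_pic_of_derConst : Stmt_DerConst → helper5871.Stmt_BC_Pic`.

For a constant field extension `F2 / K2` of `F1 / K1` let `DD` be the family of derivations
`d : F2 → F2` which kill (the image of) `F1` and map (the image of) `K2` into itself
(`IsConstDer`).  The two inputs are

* `Stmt_DerConst` : the common constants of `DD` are exactly the image of `F1`;
* `Stmt_DerVal`   : every `d ∈ DD` preserves the valuation ring of every place of `F2 / K2`.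

Everything else is taken from landed leaves: the place dictionary `helper197.ext`, the base
change of Riemann–Roch spaces `helper518.riemannRochSpace_mapDiv`, the rigidity core
`helper4889.rigidity`, Riemann's theorem `helper4996.stmt_Riemann`, and the wrapper
`helper1587.exists_pic0Hom_of_ext`.
-/

set_option autoImplicit false

open AlgebraicCurve IntermediateField

namespace Fermat.Agent.S27.helper3882

universe u₁ v₁ u₂ v₂

/-- The derivations of `F2` attached to a constant field extension `F2 / K2` of `F1`: they kill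
the image of `F1` and map the image of `K2` into itself. -/
def IsConstDer (F1 K2 : Type*) {F2 : Type*} [Field F1] [Field K2] [Field F2]
    [Algebra K2 F2] [Algebra F1 F2] (d : Derivation ℤ F2 F2) : Prop :=
  (∀ a : F1, d (algebraMap F1 F2 a) = 0) ∧
    ∀ c : K2, ∃ c' : K2, d (algebraMap K2 F2 c) = algebraMap K2 F2 c'

/-- DER (= D1 + D2 + CONST). The common constants of the derivations of a constant field
extension are the elements of the small function field. -/
def Stmt_DerConst.{w₁, t₁, w₂, t₂} : Prop :=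
  ∀ (K1 : Type w₁) (F1 : Type t₁) (K2 : Type w₂) (F2 : Type t₂) [Field K1] [Field F1]
    [Field K2] [Field F2] [Algebra K1 F1] [Algebra K2 F2] [Algebra K1 K2] [Algebra F1 F2]
    [Algebra K1 F2] [IsScalarTower K1 K2 F2] [IsScalarTower K1 F1 F2]
    [IsAlgClosed K1] [CharZero K1] [IsAlgClosed K2] [CharZero K2]
    (x : F1), Transcendental K1 x → ∀ [FiniteDimensional K1⟮x⟯ F1],
    Transcendental K2 (algebraMap F1 F2 x) →
    ∀ [FiniteDimensional K2⟮algebraMap F1 F2 x⟯ F2], helper5871.IsConstExt K1 F1 K2 F2 →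
    ∀ f : F2, (∀ d : Derivation ℤ F2 F2, IsConstDer F1 K2 d → d f = 0) →
      f ∈ Set.range (algebraMap F1 F2)

/-- VAL. The derivations of a constant field extension preserve every valuation ring. -/
def Stmt_DerVal.{w₁, t₁, w₂, t₂} : Prop :=
  ∀ (K1 : Type w₁) (F1 : Type t₁) (K2 : Type w₂) (F2 : Type t₂) [Field K1] [Field F1]
    [Field K2] [Field F2] [Algebra K1 F1] [Algebra K2 F2] [Algebra K1 K2] [Algebra F1 F2]
    [Algebra K1 F2] [IsScalarTower K1 K2 F2] [IsScalarTower K1 F1 F2]
    [IsAlgClosed K1] [CharZero K1] [IsAlgClosed K2] [CharZero K2]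
    (x : F1), Transcendental K1 x → ∀ [FiniteDimensional K1⟮x⟯ F1],
    Transcendental K2 (algebraMap F1 F2 x) →
    ∀ [FiniteDimensional K2⟮algebraMap F1 F2 x⟯ F2], helper5871.IsConstExt K1 F1 K2 F2 →
    ∀ d : Derivation ℤ F2 F2, IsConstDer F1 K2 d →
    ∀ (w : Place K2 F2) (u : F2), u ∈ w.toValuationSubring → d u ∈ w.toValuationSubring

/-- **End assembly of L-BC-PIC** (`helper5871.Stmt_BC_Pic`, verbatim) from the two derivation
inputs. -/
theorem bc_pic_of (hC : Stmt_DerConst.{u₁, v₁, u₂, v₂}) (hV : Stmt_DerVal.{u₁, v₁, u₂, v₂}) :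
    helper5871.Stmt_BC_Pic.{u₁, v₁, u₂, v₂} := by
  intro K1 F1 K2 F2 _ _ _ _ _ _ _ _ _ _ _ _ _ _ _ x hx hfin hx' hfin' hce
  have h197 : helper197.IsConstExt K1 F1 K2 F2 := helper518.isConstExt197_of x hce
  obtain ⟨hfin2, hrr2, -⟩ := helper4996.stmt_Riemann K2 F2 (algebraMap F1 F2 x) hx'
  have : IsCurveOver K2 F2 := helper1949.isCurveOver_of_finite (algebraMap F1 F2 x) hx'
  have hP1 : HasPrincipalDivisors K1 F1 :=
    Fermat.Agent.S24.helper483.hasPrincipalDivisors x hx
  have hdeg1 : ∀ v : Place K1 F1, v.deg = 1 :=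
    fun v => helper197.deg_eq_one_of_bijective v (h197.res v)
  refine helper1587.exists_pic0Hom_of_ext (helper197.ext h197) (helper197.ext_injective h197)
    (fun v => by rw [helper197.deg_ext h197 v, hdeg1 v])
    (helper197.ord_ext_algebraMap h197)
    (fun w hw f => helper197.ord_algebraMap_eq_zero_of_notMem_range h197 hw f) ?_ ?_
  · -- `hprin`: base change of `L(D)`
    intro D hD0 hDp
    obtain ⟨g, hg0, hg⟩ := hDp
    have hmem : g⁻¹ ∈ riemannRochSpace (helper197.mapDiv h197 D) := by
      rw [mem_riemannRochSpace_iff]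
      intro w
      refine Or.inr ?_
      rw [Place.ord_inv]
      exact le_of_eq (congrArg Neg.neg (hg w))
    have : Module.Finite K2 (riemannRochSpace (helper197.mapDiv h197 D)) := (hfin2 _).2
    have hspan := (helper518.riemannRochSpace_mapDiv h197 hce.gen D).1
    rw [hspan] at hmem
    have hex : ∃ f : F1, f ≠ 0 ∧ f ∈ riemannRochSpace D := by
      by_contra hcon
      push Not at hcon
      have hsub : (algebraMap F1 F2 '' (riemannRochSpace D : Set F1)) ⊆ ({0} : Set F2) := by
        rintro _ ⟨f, hf, rfl⟩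
        by_cases hf0 : f = 0
        · rw [hf0, map_zero]
          exact Set.mem_singleton 0
        · exact absurd hf (hcon f hf0)
      have h0 : g⁻¹ ∈ Submodule.span K2 ({0} : Set F2) := Submodule.span_mono hsub hmem
      rw [Submodule.span_zero_singleton, Submodule.mem_bot] at h0
      exact inv_ne_zero hg0 h0
    obtain ⟨f, hf0, hf⟩ := hex
    exact helper2950.isPrincipal_of_degree_zero_of_mem hP1 hdeg1 hD0 hf0 hf
  · -- `hrig`: rigidity by derivations
    intro n _ T hT
    obtain ⟨v₀⟩ := helper3372.nonempty_place_of_finite x hx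
    obtain ⟨π, hπ⟩ := Fermat.Agent.S24.helper1370.exists_uniformizer v₀
    have hRR : ∃ c : ℤ, ∀ D : Divisor K2 F2, c ≤ Divisor.degree D →
        ∃ f : F2, f ≠ 0 ∧ f ∈ riemannRochSpace D := by
      refine ⟨genusFF K2 F2, fun D hD => ?_⟩
      have e := hrr2 D
      have : Module.Finite K2 (riemannRochSpace D) := (hfin2 D).2
      have hpos : 0 < Module.finrank K2 (riemannRochSpace D) := by
        have h1 : (0 : ℤ) ≤ (Module.finrank K2 (H1 D) : ℤ) := Int.natCast_nonneg _
        have h2 : (0 : ℤ) < (Module.finrank K2 (riemannRochSpace D) : ℤ) := by linarith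
        exact_mod_cast h2
      obtain ⟨⟨f, hf⟩, hne⟩ := Module.finrank_pos_iff_exists_ne_zero.mp hpos
      exact ⟨f, fun h0 => hne (Subtype.ext h0), hf⟩
    obtain ⟨D, f, hfF0, -, hDT, hDf⟩ := helper4889.rigidity (Om := K2) (F := F2)
      (algebraMap F1 F2).fieldRange {d | IsConstDer F1 K2 d}
      (fun d hd a ha => by
        obtain ⟨a', rfl⟩ := RingHom.mem_fieldRange.mp ha
        exact hd.1 a')
      (fun d hd v u hu => hV K1 F1 K2 F2 x hx hx' hce d hd v u hu)
      (fun f hf => by
        obtain ⟨a, rfl⟩ := hC K1 F1 K2 F2 x hx hx' hce f (fun d hd => hf d hd)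
        exact RingHom.mem_fieldRange.mpr ⟨a, rfl⟩)
      hRR (helper197.ext h197 v₀) (algebraMap F1 F2 π) (RingHom.mem_fieldRange.mpr ⟨π, rfl⟩)
      (by rw [helper197.ord_ext_algebraMap h197, hπ]) n T hT
    obtain ⟨f₁, rfl⟩ := RingHom.mem_fieldRange.mp hfF0
    exact ⟨D, f₁, hDT, hDf⟩

/-- **VAL**, in the shape consumed by `bc_pic_of` (`helper104.der_mem_valuationSubring`). -/
theorem stmt_DerVal : Stmt_DerVal.{u₁, v₁, u₂, v₂} := by
  intro K1 F1 K2 F2 _ _ _ _ _ _ _ _ _ _ _ _ _ _ _ x hx hfin hx' hfin' hce d hd w u hu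
  exact helper104.der_mem_valuationSubring x hx hx' hce d hd.1
    (fun c => by
      obtain ⟨c', hc'⟩ := hd.2 c
      exact ⟨c', hc'.symm⟩) w u hu

/-- **L-BC-PIC from the supply of derivations alone.** -/
theorem bc_pic_of_derConst (hC : Stmt_DerConst.{u₁, v₁, u₂, v₂}) :
    helper5871.Stmt_BC_Pic.{u₁, v₁, u₂, v₂} :=
  bc_pic_of hC stmt_DerVal

end Fermat.Agent.S27.helper3882
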