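import Mathlib

/-!
# S27, Lefschetz transfer: the supply of derivations (D1 + D2 + CONST)  (helper3968)

Setting (as in `helper5871.IsConstExt`): fields `K1 ⊆ K2`, `F1 / K1`, `F2 / K2`, `F1 ⊆ F2`, with
`(gen)` `F2` generated over `K2` by `F1` and `(ld)` linear disjointness of `K2` and `F1` over `K1`.

* `exists_derivation_of_formallyEtale` (E): derivations extend along formally étale algebras;
* `exists_derivation_apply_eq_one` (D1): for `a : K2` transcendental over `K1` (characteristic
  zero) there is a `K1`-derivation `δ` of `K2` with `δ a = 1`;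
* `exists_derivation_extend` (D2): every `K1`-derivation `δ` of `K2` extends to a derivation of
  `F2` which kills `F1`;
* `linearIndependent_of_constants` (LD): constants of a family of derivations which are
  linearly independent over `K1` stay linearly independent over `K2`;
* `derConst` (CONST): an element of `F2` killed by every derivation of `F2` which kills `F1` and
  maps `K2` into itself lies in `F1`.
-/

set_option autoImplicit false

open TensorProduct

namespace Fermat.Agent.S27.helper3968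

/-- (E) Derivations extend along formally étale algebras. -/
theorem exists_derivation_of_formallyEtale (R S T M : Type*) [CommRing R] [CommRing S]
    [CommRing T] [Algebra R S] [Algebra R T] [Algebra S T] [IsScalarTower R S T]
    [Algebra.FormallyEtale S T] [AddCommGroup M] [Module R M] [Module S M] [Module T M]
    [IsScalarTower R S M] [IsScalarTower R T M] [IsScalarTower S T M]
    (d : Derivation R S M) :
    ∃ d' : Derivation R T M, ∀ s : S, d' (algebraMap S T s) = d s := by
  let l : Ω[S⁄R] →ₗ[S] M := d.liftKaehlerDifferential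
  let L : T ⊗[S] Ω[S⁄R] →ₗ[T] M := LinearMap.liftBaseChange T l
  let e := KaehlerDifferential.tensorKaehlerEquivOfFormallyEtale R S T
  let L' : Ω[T⁄R] →ₗ[T] M := L ∘ₗ e.symm.toLinearMap
  refine ⟨L'.compDer (KaehlerDifferential.D R T), fun s => ?_⟩
  simp [L', L, l, e, KaehlerDifferential.tensorKaehlerEquivOfFormallyEtale_symm_D_algebraMap]

section Mu

variable (K1 F1 K2 F2 : Type*) [Field K1] [Field F1] [Field K2] [Field F2]
  [Algebra K1 F1] [Algebra K2 F2] [Algebra K1 K2] [Algebra F1 F2] [Algebra K1 F2]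
  [IsScalarTower K1 K2 F2] [IsScalarTower K1 F1 F2]

/-- The multiplication map `K2 ⊗[K1] F1 → F2`, as a `K2`-algebra homomorphism. -/
noncomputable def mu : K2 ⊗[K1] F1 →ₐ[K2] F2 :=
  Algebra.TensorProduct.productLeftAlgHom (Algebra.ofId K2 F2) (IsScalarTower.toAlgHom K1 F1 F2)

variable {K1 F1 K2 F2}

@[simp]
theorem mu_tmul (c : K2) (a : F1) :
    mu K1 F1 K2 F2 (c ⊗ₜ[K1] a) = algebraMap K2 F2 c * algebraMap F1 F2 a := by
  simp [mu, Algebra.ofId_apply]

omit [Algebra K1 F1] [Algebra K1 F2] [IsScalarTower K1 K2 F2] [IsScalarTower K1 F1 F2] in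
/-- Linear disjointness for arbitrary index types. -/
theorem linearIndependent_of_ld
    (hld : ∀ (m : ℕ) (c : Fin m → K2), LinearIndependent K1 c →
      LinearIndependent F1 (fun i => algebraMap K2 F2 (c i)))
    {ι : Type*} (b : ι → K2) (hb : LinearIndependent K1 b) :
    LinearIndependent F1 (fun i => algebraMap K2 F2 (b i)) := by
  rw [linearIndependent_iff_finset_linearIndependent] at hb ⊢
  intro s
  have h1 := hb s
  have h2 : LinearIndependent K1 ((b ∘ (Subtype.val : s → ι)) ∘ s.equivFin.symm) :=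
    (linearIndependent_equiv s.equivFin.symm).mpr h1
  have h3 := hld s.card _ h2
  have h4 : LinearIndependent F1
      ((fun i : s => algebraMap K2 F2 (b i)) ∘ s.equivFin.symm) := h3
  exact (linearIndependent_equiv s.equivFin.symm).mp h4

theorem mu_injective
    (hld : ∀ (m : ℕ) (c : Fin m → K2), LinearIndependent K1 c →
      LinearIndependent F1 (fun i => algebraMap K2 F2 (c i))) :
    Function.Injective (mu K1 F1 K2 F2) := by
  classical
  let B := Module.Basis.ofVectorSpace K1 K2
  have hB : LinearIndependent F1 (fun i => algebraMap K2 F2 (B i)) :=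
    linearIndependent_of_ld hld _ B.linearIndependent
  let e := TensorProduct.equivFinsuppOfBasisLeft (N := F1) B
  rw [injective_iff_map_eq_zero]
  intro z hz
  have hz' : z = (e z).sum fun i n => B i ⊗ₜ[K1] n := by
    rw [← TensorProduct.equivFinsuppOfBasisLeft_symm_apply, LinearEquiv.symm_apply_apply]
  have h0 : (e z).sum (fun i n => n • algebraMap K2 F2 (B i)) = 0 := by
    rw [hz'] at hz
    rw [← hz, Finsupp.sum, Finsupp.sum, map_sum]
    refine Finset.sum_congr rfl fun i _ => ?_
    rw [mu_tmul, Algebra.smul_def, mul_comm]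
  have h1 : e z = 0 := by
    have := linearIndependent_iff.mp hB (e z)
    apply this
    rw [Finsupp.linearCombination_apply]
    exact h0
  exact (LinearEquiv.map_eq_zero_iff e).mp h1

theorem exists_quot
    (hgen : IntermediateField.adjoin K2 (Set.range (algebraMap F1 F2)) = ⊤) (h : F2) :
    ∃ p q : K2 ⊗[K1] F1, mu K1 F1 K2 F2 q ≠ 0 ∧
      h * mu K1 F1 K2 F2 q = mu K1 F1 K2 F2 p := by
  have hmem : h ∈ IntermediateField.adjoin K2 (Set.range (algebraMap F1 F2)) := by
    rw [hgen]; trivial
  induction hmem using IntermediateField.adjoin_induction with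
  | mem x hx =>
    obtain ⟨f, rfl⟩ := hx
    exact ⟨1 ⊗ₜ f, 1, by simp, by simp⟩
  | algebraMap c => exact ⟨c ⊗ₜ 1, 1, by simp, by simp⟩
  | add x y _ _ ihx ihy =>
    obtain ⟨p, q, hq, hpq⟩ := ihx
    obtain ⟨p', q', hq', hpq'⟩ := ihy
    refine ⟨p * q' + p' * q, q * q', ?_, ?_⟩
    · rw [map_mul]; exact mul_ne_zero hq hq'
    · rw [map_mul, map_add, map_mul, map_mul, ← hpq, ← hpq']; ring
  | inv x _ ih =>
    obtain ⟨p, q, hq, hpq⟩ := ih
    by_cases hx : x = 0
    · exact ⟨0, 1, by simp, by simp [hx]⟩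
    · refine ⟨q, p, ?_, ?_⟩
      · rw [← hpq]; exact mul_ne_zero hx hq
      · rw [← hpq]; field_simp
  | mul x y _ _ ihx ihy =>
    obtain ⟨p, q, hq, hpq⟩ := ihx
    obtain ⟨p', q', hq', hpq'⟩ := ihy
    refine ⟨p * p', q * q', ?_, ?_⟩
    · rw [map_mul]; exact mul_ne_zero hq hq'
    · rw [map_mul, map_mul, ← hpq, ← hpq']; ring

/-- (D2) Every `K1`-derivation of `K2` extends to a derivation of `F2` killing `F1`. -/
theorem exists_derivation_extend
    (hgen : IntermediateField.adjoin K2 (Set.range (algebraMap F1 F2)) = ⊤)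
    (hld : ∀ (m : ℕ) (c : Fin m → K2), LinearIndependent K1 c →
      LinearIndependent F1 (fun i => algebraMap K2 F2 (c i)))
    (δ : Derivation K1 K2 K2) :
    ∃ d : Derivation ℤ F2 F2, (∀ a : F1, d (algebraMap F1 F2 a) = 0) ∧
      ∀ c : K2, d (algebraMap K2 F2 c) = algebraMap K2 F2 (δ c) := by
  classical
  let m := mu K1 F1 K2 F2
  have hinj : Function.Injective m := mu_injective hld
  let _ : Algebra (K2 ⊗[K1] F1) F2 := m.toRingHom.toAlgebra
  have halg : ∀ b : K2 ⊗[K1] F1, algebraMap (K2 ⊗[K1] F1) F2 b = m b := fun b => rfl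
  have : IsScalarTower K1 (K2 ⊗[K1] F1) F2 := IsScalarTower.of_algebraMap_eq (fun k => by
    rw [halg]
    exact (AlgHom.commutes (m.restrictScalars K1) k).symm)
  have : FaithfulSMul (K2 ⊗[K1] F1) F2 :=
    (faithfulSMul_iff_algebraMap_injective _ _).mpr hinj
  have : IsFractionRing (K2 ⊗[K1] F1) F2 := IsFractionRing.of_field _ _ (fun z => by
    obtain ⟨p, q, hq, hpq⟩ := exists_quot (K1 := K1) hgen z
    exact ⟨p, q, by rw [halg, halg, eq_div_iff hq, hpq]⟩)
  have : Algebra.FormallyEtale (K2 ⊗[K1] F1) F2 :=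
    Algebra.FormallyEtale.of_isLocalization (nonZeroDivisors (K2 ⊗[K1] F1))
  let D0lin : K2 ⊗[K1] F1 →ₗ[K1] F2 :=
    (m.restrictScalars K1).toLinearMap ∘ₗ (LinearMap.rTensor F1 δ.toLinearMap)
  have hD0 : ∀ (c : K2) (a : F1), D0lin (c ⊗ₜ[K1] a) =
      algebraMap K2 F2 (δ c) * algebraMap F1 F2 a := by
    intro c a
    simp [D0lin, m]
  have hleib : ∀ x y : K2 ⊗[K1] F1, D0lin (x * y) = x • D0lin y + y • D0lin x := by
    intro x y
    induction x using TensorProduct.induction_on with
    | zero => simp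
    | tmul c a =>
      induction y using TensorProduct.induction_on with
      | zero => simp
      | tmul c' a' =>
        rw [Algebra.TensorProduct.tmul_mul_tmul, hD0, hD0, hD0, Algebra.smul_def,
          Algebra.smul_def, halg, halg]
        simp only [m, mu_tmul, Derivation.leibniz, smul_eq_mul, map_add, map_mul]
        ring
      | add y y' hy hy' => rw [mul_add, map_add, hy, hy', map_add, smul_add, add_smul]; abel
    | add x x' hx hx' => rw [add_mul, map_add, hx, hx', add_smul, map_add, smul_add]; abel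
  let D0 : Derivation K1 (K2 ⊗[K1] F1) F2 := Derivation.mk' D0lin hleib
  obtain ⟨d', hd'⟩ := exists_derivation_of_formallyEtale K1 (K2 ⊗[K1] F1) F2 F2 D0
  refine ⟨d'.restrictScalars ℤ, fun a => ?_, fun c => ?_⟩
  · have h1 : algebraMap F1 F2 a = algebraMap (K2 ⊗[K1] F1) F2 (1 ⊗ₜ[K1] a) := by
      rw [halg]; simp [m]
    rw [h1]
    show d' _ = 0
    rw [hd']
    show D0lin _ = 0
    rw [hD0]; simp
  · have h1 : algebraMap K2 F2 c = algebraMap (K2 ⊗[K1] F1) F2 (c ⊗ₜ[K1] 1) := by
      rw [halg]; simp [m]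
    rw [h1]
    show d' _ = _
    rw [hd']
    show D0lin _ = _
    rw [hD0]; simp

end Mu

section D1

variable {K1 K2 : Type*} [Field K1] [Field K2] [Algebra K1 K2] [CharZero K1]

open scoped IntermediateField.algebraAdjoinAdjoin in
/-- (D1) -/
theorem exists_derivation_apply_eq_one (a : K2) (ha : Transcendental K1 a) :
    ∃ δ : Derivation K1 K2 K2, δ a = 1 := by
  classical
  have hs : AlgebraicIndepOn K1 id ({a} : Set K2) := by
    have : AlgebraicIndependent K1 (fun x : ({a} : Set K2) => (x : K2)) := by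
      rw [algebraicIndependent_singleton_iff (⟨a, rfl⟩ : ({a} : Set K2))]
      exact ha
    exact this
  obtain ⟨t, hat, ht⟩ := exists_isTranscendenceBasis_superset hs
  have hb : AlgebraicIndependent K1 ((↑) : t → K2) := ht.1
  let i0 : t := ⟨a, hat rfl⟩
  let v : t → K2 := (↑)
  let S0 := Algebra.adjoin K1 (Set.range v)
  let E := IntermediateField.adjoin K1 (Set.range v)
  have hE : Algebra.IsAlgebraic E K2 := ht.isAlgebraic_field
  have : CharZero E := charZero_of_injective_algebraMap (algebraMap K1 E).injective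
  have : Algebra.FormallyEtale S0 E := .of_isLocalization (nonZeroDivisors S0)
  have : Algebra.FormallyEtale E K2 := Algebra.FormallyEtale.of_isSeparable E K2
  have : Algebra.FormallyEtale S0 K2 := .comp S0 E K2
  -- the derivation `∂/∂a` on `K1[t]`, transported to `S0`
  let e : MvPolynomial t K1 ≃ₐ[K1] S0 := hb.aevalEquiv
  let _ : Algebra (MvPolynomial t K1) K2 := (MvPolynomial.aeval v).toRingHom.toAlgebra
  have hsm : ∀ (p : MvPolynomial t K1) (k : K2), p • k = MvPolynomial.aeval v p * k :=
    fun p k => rfl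
  have : IsScalarTower K1 (MvPolynomial t K1) K2 := IsScalarTower.of_algebraMap_eq (fun k => by
    show algebraMap K1 K2 k = MvPolynomial.aeval v (algebraMap K1 _ k)
    simp)
  let m0 : Derivation K1 (MvPolynomial t K1) K2 :=
    MvPolynomial.mkDerivation K1 (fun i : t => if i = i0 then (1 : K2) else 0)
  have he : ∀ s : S0, MvPolynomial.aeval v (e.symm s) = (s : K2) := by
    intro s
    have := hb.aevalEquiv_apply_coe (e.symm s)
    rw [← this]
    show ((e (e.symm s) : S0) : K2) = s
    rw [AlgEquiv.apply_symm_apply]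
  let d0lin : S0 →ₗ[K1] K2 := m0.toLinearMap ∘ₗ e.symm.toLinearMap
  have hleib : ∀ x y : S0, d0lin (x * y) = x • d0lin y + y • d0lin x := by
    intro x y
    show m0 (e.symm (x * y)) = x • m0 (e.symm y) + y • m0 (e.symm x)
    rw [map_mul, Derivation.leibniz, hsm, hsm, he, he]
    rfl
  let d0 : Derivation K1 S0 K2 := Derivation.mk' d0lin hleib
  obtain ⟨δ, hδ⟩ := exists_derivation_of_formallyEtale K1 S0 K2 K2 d0
  refine ⟨δ, ?_⟩
  let s0 : S0 := ⟨a, Algebra.subset_adjoin ⟨i0, rfl⟩⟩
  have h1 : e (MvPolynomial.X i0) = s0 := by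
    apply Subtype.ext
    rw [hb.aevalEquiv_apply_coe]
    simp [s0, i0]
  have h2 : e.symm s0 = MvPolynomial.X i0 := by
    rw [← h1, AlgEquiv.symm_apply_apply]
  have h3 := hδ s0
  have h4 : d0 s0 = 1 := by
    show m0 (e.symm s0) = 1
    rw [h2, MvPolynomial.mkDerivation_X]
    simp
  rw [h4] at h3
  exact h3

end D1

section Const

variable {K1 F1 K2 F2 : Type*} [Field K1] [Field F1] [Field K2] [Field F2]
  [Algebra K1 F1] [Algebra K2 F2] [Algebra K1 K2] [Algebra F1 F2] [Algebra K1 F2]
  [IsScalarTower K1 K2 F2] [IsScalarTower K1 F1 F2]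

omit [Field F1] [Algebra K1 F1] [Algebra F1 F2] [IsScalarTower K1 F1 F2] in
/-- (LD), finite families: constants of a family `DD` of derivations of `F2` (mapping `K2` into
itself, with common constants of `K2` equal to `K1`) which are linearly independent over `K1`
are linearly independent over `K2`. -/
theorem linearIndependent_of_constants_fin
    (DD : Set (Derivation ℤ F2 F2))
    (hK : ∀ d ∈ DD, ∀ c : K2, ∃ c' : K2, d (algebraMap K2 F2 c) = algebraMap K2 F2 c')
    (hK1 : ∀ c : K2, (∀ d ∈ DD, d (algebraMap K2 F2 c) = 0) →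
      c ∈ Set.range (algebraMap K1 K2)) :
    ∀ (r : ℕ) (γ : Fin r → F2), (∀ i, ∀ d ∈ DD, d (γ i) = 0) →
      LinearIndependent K1 γ → LinearIndependent K2 γ := by
  intro r
  induction r with
  | zero => intro γ _ _; exact linearIndependent_empty_type
  | succ r ih =>
    intro γ hγ hind
    rw [linearIndependent_finSucc] at hind ⊢
    obtain ⟨htail, hnot⟩ := hind
    have htail2 : LinearIndependent K2 (Fin.tail γ) :=
      ih (Fin.tail γ) (fun i => hγ i.succ) htail
    refine ⟨htail2, fun hmem => hnot ?_⟩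
    rw [Submodule.mem_span_range_iff_exists_fun] at hmem ⊢
    obtain ⟨k, hk⟩ := hmem
    have hk1 : ∀ i, k i ∈ Set.range (algebraMap K1 K2) := by
      intro i
      apply hK1
      intro d hd
      choose c' hc' using fun j => hK d hd (k j)
      have h0 : ∑ j, c' j • Fin.tail γ j = 0 := by
        have h := congrArg d hk
        rw [hγ 0 d hd, map_sum] at h
        rw [← h]
        refine Finset.sum_congr rfl fun j _ => ?_
        have hj : d (Fin.tail γ j) = 0 := hγ j.succ d hd
        rw [Algebra.smul_def, Algebra.smul_def, Derivation.leibniz, hc', hj, smul_zero, zero_add,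
          smul_eq_mul, mul_comm]
      have h1 := Fintype.linearIndependent_iff.mp htail2 c' h0 i
      rw [hc', h1, map_zero]
    choose κ hκ using hk1
    refine ⟨κ, ?_⟩
    rw [← hk]
    refine Finset.sum_congr rfl fun j _ => ?_
    rw [← hκ j, algebraMap_smul]

omit [Field F1] [Algebra K1 F1] [Algebra F1 F2] [IsScalarTower K1 F1 F2] in
/-- (LD), arbitrary families. -/
theorem linearIndependent_of_constants
    (DD : Set (Derivation ℤ F2 F2))
    (hK : ∀ d ∈ DD, ∀ c : K2, ∃ c' : K2, d (algebraMap K2 F2 c) = algebraMap K2 F2 c')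
    (hK1 : ∀ c : K2, (∀ d ∈ DD, d (algebraMap K2 F2 c) = 0) →
      c ∈ Set.range (algebraMap K1 K2))
    {ι : Type*} (γ : ι → F2) (hγ : ∀ i, ∀ d ∈ DD, d (γ i) = 0)
    (h : LinearIndependent K1 γ) : LinearIndependent K2 γ := by
  rw [linearIndependent_iff_finset_linearIndependent] at h ⊢
  intro s
  have h2 : LinearIndependent K1 ((γ ∘ (Subtype.val : s → ι)) ∘ s.equivFin.symm) :=
    (linearIndependent_equiv s.equivFin.symm).mpr (h s)
  have h3 := linearIndependent_of_constants_fin DD hK hK1 s.card _ (fun i => hγ _) h2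
  exact (linearIndependent_equiv s.equivFin.symm).mp h3

/-- (CONST) = DER.  In a constant field extension `F2 / K2` of `F1 / K1` (`K1` algebraically
closed of characteristic zero), an element of `F2` killed by every derivation of `F2` which
kills `F1` and maps `K2` into itself lies in `F1`. -/
theorem derConst [IsAlgClosed K1] [CharZero K1]
    (hgen : IntermediateField.adjoin K2 (Set.range (algebraMap F1 F2)) = ⊤)
    (hld : ∀ (m : ℕ) (c : Fin m → K2), LinearIndependent K1 c →
      LinearIndependent F1 (fun i => algebraMap K2 F2 (c i)))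
    (f : F2)
    (hf : ∀ d : Derivation ℤ F2 F2, (∀ a : F1, d (algebraMap F1 F2 a) = 0) →
      (∀ c : K2, ∃ c' : K2, d (algebraMap K2 F2 c) = algebraMap K2 F2 c') → d f = 0) :
    f ∈ Set.range (algebraMap F1 F2) := by
  classical
  by_contra hfr
  let DD : Set (Derivation ℤ F2 F2) := {d | (∀ a : F1, d (algebraMap F1 F2 a) = 0) ∧
    ∀ c : K2, ∃ c' : K2, d (algebraMap K2 F2 c) = algebraMap K2 F2 c'}
  have hK : ∀ d ∈ DD, ∀ c : K2, ∃ c' : K2, d (algebraMap K2 F2 c) = algebraMap K2 F2 c' :=
    fun d hd => hd.2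
  have hK1 : ∀ c : K2, (∀ d ∈ DD, d (algebraMap K2 F2 c) = 0) →
      c ∈ Set.range (algebraMap K1 K2) := by
    intro c hc
    by_contra hcr
    have htr : Transcendental K1 c := by
      intro halg
      exact hcr (halg.isIntegral.mem_range_algebraMap_of_minpoly_splits (IsAlgClosed.splits _))
    obtain ⟨δ, hδ⟩ := exists_derivation_apply_eq_one c htr
    obtain ⟨d, hd0, hdK⟩ := exists_derivation_extend hgen hld δ
    have hdD : d ∈ DD := ⟨hd0, fun c' => ⟨δ c', hdK c'⟩⟩
    have h1 := hc d hdD
    rw [hdK, hδ, map_one] at h1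
    exact one_ne_zero h1
  -- the `K1`-independent family of constants `e_α, f * e_α`
  let e := Module.Basis.ofVectorSpace K1 F1
  let ι1 : F1 →ₗ[K1] F2 := (IsScalarTower.toAlgHom K1 F1 F2).toLinearMap
  let Ψ : F1 × F1 →ₗ[K1] F2 := ι1.coprod ((LinearMap.mulLeft K1 f).comp ι1)
  have hΨ : ∀ a b : F1, Ψ (a, b) = algebraMap F1 F2 a + f * algebraMap F1 F2 b := by
    intro a b
    simp [Ψ, ι1]
  have hker : LinearMap.ker Ψ = ⊥ := by
    rw [LinearMap.ker_eq_bot']
    rintro ⟨a, b⟩ hab
    rw [hΨ] at hab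
    have hb : b = 0 := by
      by_contra hb
      apply hfr
      have hb' : algebraMap F1 F2 b ≠ 0 := by simpa using hb
      refine ⟨-a / b, ?_⟩
      rw [map_div₀, map_neg, div_eq_iff hb']
      linear_combination -hab
    subst hb
    have ha : a = 0 := by simpa using hab
    rw [ha]
    rfl
  have hind1 : LinearIndependent K1 (Ψ ∘ (e.prod e)) :=
    (e.prod e).linearIndependent.map' Ψ hker
  have hconst : ∀ z : F1 × F1, ∀ d ∈ DD, d (Ψ z) = 0 := by
    rintro ⟨a, b⟩ d hd
    rw [hΨ, map_add, hd.1, Derivation.leibniz, hd.1, hf d hd.1 hd.2]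
    simp
  have hind2 : LinearIndependent K2 (Ψ ∘ (e.prod e)) :=
    linearIndependent_of_constants DD hK hK1 _ (fun i => hconst _) hind1
  -- the relation `f * mu q = mu p`
  obtain ⟨p, q, hq, hpq⟩ := exists_quot (K1 := K1) hgen f
  let mK : K2 ⊗[K1] F1 →ₗ[K2] F2 := (mu K1 F1 K2 F2).toLinearMap
  let Θ : (K2 ⊗[K1] F1) × (K2 ⊗[K1] F1) →ₗ[K2] F2 :=
    mK.coprod ((LinearMap.mulLeft K2 f).comp mK)
  let bb := (Algebra.TensorProduct.basis K2 e).prod (Algebra.TensorProduct.basis K2 e)
  have hΘb : ⇑Θ ∘ ⇑bb = ⇑Ψ ∘ ⇑(e.prod e) := by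
    funext i
    cases i <;> simp [Θ, bb, Ψ, mK, ι1, Algebra.TensorProduct.basis_apply]
  have hΘ0 : Θ (-p, q) = 0 := by
    simp only [Θ, mK, LinearMap.coprod_apply, LinearMap.comp_apply, AlgHom.toLinearMap_apply,
      LinearMap.mulLeft_apply, map_neg]
    rw [hpq]
    ring
  have hrepr : bb.repr (-p, q) = 0 := by
    have h := Finsupp.apply_linearCombination K2 Θ bb (bb.repr (-p, q))
    rw [bb.linearCombination_repr, hΘ0, hΘb] at h
    exact linearIndependent_iff.mp hind2 _ h.symm
  have hpq0 : ((-p, q) : (K2 ⊗[K1] F1) × (K2 ⊗[K1] F1)) = 0 :=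
    (LinearEquiv.map_eq_zero_iff bb.repr).mp hrepr
  have hq0 : q = 0 := (Prod.ext_iff.mp hpq0).2
  exact hq (by rw [hq0, map_zero])

end Const

end Fermat.Agent.S27.helper3968
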