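import Mathlib

/-!
# S27 / E1: local sheets and chain-connectedness of a plane model (helper400)

Mathlib-only, Spec-independent analytic core of step E1 of the S27 route (#1765 / #1968).

For `P : ℂ[X][X]` (outer variable `Y`, inner variable `x`), monic in `Y`:

* `exists_local_branch`  : holomorphic implicit function at a simple point.
* `exists_sheets`        : near `a0` with separable fibre polynomial, the `n = deg_Y P` roots are
                           `n` pairwise distinct holomorphic functions.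
* `chain`                : if `P` is irreducible, a nonempty branch-closed subset of the generic
                           part is the whole generic part.
* `chain_rel`            : any reflexive transitive relation relating points of a common local
                           branch relates all points of the generic part.
* `finite_nonseparable`  : for `P` monic irreducible, all but finitely many fibres are separable.
* `exists_sheets_full`   : sheets on a ball avoiding a finite set + uniqueness of branches.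
* `eq_sheet_of_continuousOn` : a continuous branch on a preconnected set is one of the sheets.
* analytic tools: `exists_polynomial_of_growth` (polynomial-growth Liouville),
  `exists_entire_extension` (removable singularities on a finite set),
  `exists_polynomial_of_compl_finset`.
-/

set_option autoImplicit false

open Polynomial Metric Set Filter Topology

namespace Fermat.Agent.S27.helper400

/-- Liouville for polynomial growth: an entire function with `‖F z‖ ≤ C (1 + ‖z‖)^k` is a
polynomial function. -/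
theorem exists_polynomial_of_growth (k : ℕ) : ∀ (F : ℂ → ℂ), Differentiable ℂ F →
    (∃ C : ℝ, ∀ z, ‖F z‖ ≤ C * (1 + ‖z‖) ^ k) → ∃ p : ℂ[X], ∀ z, F z = p.eval z := by
  induction k with
  | zero =>
    rintro F hF ⟨C, hC⟩
    refine ⟨Polynomial.C (F 0), fun z => ?_⟩
    rw [eval_C]
    refine hF.apply_eq_apply_of_bounded ?_ z 0
    rw [isBounded_iff_forall_norm_le]
    refine ⟨C, ?_⟩
    rintro _ ⟨w, rfl⟩
    simpa using hC w
  | succ k ih =>
    rintro F hF ⟨C, hC⟩
    have hC0 : 0 ≤ C := by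
      have := hC 0
      simp only [norm_zero, add_zero, one_pow, mul_one] at this
      exact (norm_nonneg _).trans this
    have hd : Differentiable ℂ (dslope F 0) := by
      have := (Complex.differentiableOn_dslope (f := F) (s := univ) (c := 0) univ_mem).mpr
        hF.differentiableOn
      exact differentiableOn_univ.mp this
    obtain ⟨M, hM⟩ := (isCompact_closedBall (0 : ℂ) 1).exists_bound_of_continuousOn
      hd.continuous.continuousOn
    have hbound : ∀ z, ‖dslope F 0 z‖ ≤ (2 * C + ‖F 0‖ + max M 0) * (1 + ‖z‖) ^ k := by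
      intro z
      have h1k : (1 : ℝ) ≤ (1 + ‖z‖) ^ k := one_le_pow₀ (by linarith [norm_nonneg z])
      have hpos : (0 : ℝ) ≤ (1 + ‖z‖) ^ k := le_trans zero_le_one h1k
      rcases le_or_gt ‖z‖ 1 with hz | hz
      · have h1 : ‖dslope F 0 z‖ ≤ M := hM z (by simpa using hz)
        have h2 : M ≤ max M 0 := le_max_left _ _
        have h3 : (0 : ℝ) ≤ max M 0 := le_max_right _ _
        have h4 : max M 0 ≤ max M 0 * (1 + ‖z‖) ^ k := le_mul_of_one_le_right h3 h1k
        have h5 : 0 ≤ (2 * C + ‖F 0‖) * (1 + ‖z‖) ^ k :=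
          mul_nonneg (by positivity) hpos
        nlinarith
      · have hz0 : z ≠ 0 := by
          intro h; rw [h, norm_zero] at hz; linarith
        have hzpos : 0 < ‖z‖ := by linarith
        rw [dslope_of_ne _ hz0, slope_def_field, sub_zero, norm_div]
        rw [div_le_iff₀ hzpos]
        have h1 : ‖F z - F 0‖ ≤ C * (1 + ‖z‖) ^ (k + 1) + ‖F 0‖ :=
          (norm_sub_le _ _).trans (by linarith [hC z])
        have h2 : (1 + ‖z‖) ^ (k + 1) = (1 + ‖z‖) ^ k * (1 + ‖z‖) := pow_succ _ _
        have h3 : (0 : ℝ) ≤ max M 0 := le_max_right _ _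
        have h4 : C * (1 + ‖z‖) ^ (k + 1) ≤ 2 * C * (1 + ‖z‖) ^ k * ‖z‖ := by
          rw [h2]
          have : C * ((1 + ‖z‖) ^ k * (1 + ‖z‖)) = C * (1 + ‖z‖) ^ k * (1 + ‖z‖) := by ring
          rw [this]
          have h5 : 0 ≤ C * (1 + ‖z‖) ^ k := mul_nonneg hC0 hpos
          nlinarith
        have h6 : ‖F 0‖ ≤ ‖F 0‖ * (1 + ‖z‖) ^ k * ‖z‖ := by
          have : ‖F 0‖ * 1 ≤ ‖F 0‖ * ((1 + ‖z‖) ^ k * ‖z‖) :=
            mul_le_mul_of_nonneg_left (by nlinarith) (norm_nonneg _)
          linarith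
        have h7 : 0 ≤ max M 0 * (1 + ‖z‖) ^ k * ‖z‖ := by positivity
        nlinarith
    obtain ⟨p₁, hp₁⟩ := ih (dslope F 0) hd ⟨_, hbound⟩
    refine ⟨Polynomial.C (F 0) + X * p₁, fun z => ?_⟩
    have := sub_smul_dslope F 0 z
    rw [sub_zero, smul_eq_mul] at this
    rw [eval_add, eval_C, eval_mul, eval_X, ← hp₁ z, this]
    ring


/-- Riemann's removable singularity theorem at finitely many points. -/
theorem exists_entire_extension (B : Finset ℂ) : ∀ (f : ℂ → ℂ),
    DifferentiableOn ℂ f ((B : Set ℂ)ᶜ) →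
    (∀ σ ∈ B, ∃ r > 0, ∃ M : ℝ, ∀ z ∈ ball σ r, z ∉ B → ‖f z‖ ≤ M) →
    ∃ F : ℂ → ℂ, Differentiable ℂ F ∧ ∀ z, z ∉ B → F z = f z := by
  classical
  induction B using Finset.induction_on with
  | empty =>
    intro f hf _
    refine ⟨f, ?_, fun _ _ => rfl⟩
    rw [← differentiableOn_univ]
    simpa using hf
  | insert σ B hσ ih =>
    intro f hf hb
    have hopen : IsOpen (((insert σ B : Finset ℂ) : Set ℂ)ᶜ) :=
      (Finset.finite_toSet _).isClosed.isOpen_compl
    have hopenB : IsOpen ((B : Set ℂ)ᶜ) := (Finset.finite_toSet _).isClosed.isOpen_compl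
    set L := limUnder (𝓝[≠] σ) f with hL
    set f₁ := Function.update f σ L with hf₁
    have hf₁ne : ∀ z, z ≠ σ → f₁ z = f z := fun z hz => Function.update_of_ne hz _ _
    -- differentiability of f₁ off B
    have hd : DifferentiableOn ℂ f₁ ((B : Set ℂ)ᶜ) := by
      intro z hz
      by_cases hzσ : z = σ
      · subst hzσ
        obtain ⟨r, hr, M, hM⟩ := hb z (Finset.mem_insert_self _ _)
        obtain ⟨r', hr', hball⟩ := Metric.isOpen_iff.mp hopenB z hz
        set s := ball z (min r r') with hs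
        have hsn : s ∈ 𝓝 z := ball_mem_nhds _ (lt_min hr hr')
        have hsub : s \ {z} ⊆ ((insert z B : Finset ℂ) : Set ℂ)ᶜ := by
          rintro w ⟨hw, hwz⟩
          have hwB : w ∈ (B : Set ℂ)ᶜ := hball (ball_subset_ball (min_le_right _ _) hw)
          simp only [Finset.coe_insert, mem_compl_iff, mem_insert_iff, not_or]
          exact ⟨hwz, hwB⟩
        have hdiff : DifferentiableOn ℂ f (s \ {z}) := hf.mono hsub
        have hbdd : BddAbove (norm ∘ f '' (s \ {z})) := by
          refine ⟨M, ?_⟩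
          rintro _ ⟨w, hw, rfl⟩
          have hw' := hsub hw
          exact hM w (ball_subset_ball (min_le_left _ _) hw.1) (by simpa using hw')
        have := Complex.differentiableOn_update_limUnder_of_bddAbove hsn hdiff hbdd
        exact (this.differentiableAt hsn).differentiableWithinAt
      · have hz' : z ∈ ((insert σ B : Finset ℂ) : Set ℂ)ᶜ := by
          simp only [Finset.coe_insert, mem_compl_iff, mem_insert_iff, not_or]
          exact ⟨hzσ, hz⟩
        have hfz : DifferentiableAt ℂ f z := (hf z hz').differentiableAt (hopen.mem_nhds hz')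
        have hev : f₁ =ᶠ[𝓝 z] f := by
          filter_upwards [isOpen_ne.mem_nhds hzσ] with w hw using hf₁ne w hw
        exact (hev.differentiableAt_iff.mpr hfz).differentiableWithinAt
    have hb₁ : ∀ τ ∈ B, ∃ r > 0, ∃ M : ℝ, ∀ z ∈ ball τ r, z ∉ B → ‖f₁ z‖ ≤ M := by
      intro τ hτ
      obtain ⟨r, hr, M, hM⟩ := hb τ (Finset.mem_insert_of_mem hτ)
      refine ⟨r, hr, max M ‖f₁ σ‖, fun z hz hzB => ?_⟩
      by_cases hzσ : z = σ
      · rw [hzσ]; exact le_max_right _ _
      · rw [hf₁ne z hzσ]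
        exact (hM z hz (by simp [hzσ, hzB])).trans (le_max_left _ _)
    obtain ⟨F, hF, hFf⟩ := ih f₁ hd hb₁
    refine ⟨F, hF, fun z hz => ?_⟩
    have hz' : z ≠ σ ∧ z ∉ B := by simpa using hz
    rw [hFf z hz'.2, hf₁ne z hz'.1]

/-- A function holomorphic off a finite set, with polynomial growth on the complement of that
set, is a polynomial function there. -/
theorem exists_polynomial_of_compl_finset (B : Finset ℂ) (f : ℂ → ℂ)
    (hf : DifferentiableOn ℂ f ((B : Set ℂ)ᶜ)) (k : ℕ) (C : ℝ)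
    (hbd : ∀ z, z ∉ B → ‖f z‖ ≤ C * (1 + ‖z‖) ^ k) :
    ∃ p : ℂ[X], ∀ z, z ∉ B → f z = p.eval z := by
  have hbd' : ∀ z, z ∉ B → ‖f z‖ ≤ |C| * (1 + ‖z‖) ^ k := fun z hz =>
    (hbd z hz).trans (mul_le_mul_of_nonneg_right (le_abs_self C) (by positivity))
  have hb : ∀ σ ∈ B, ∃ r > 0, ∃ M : ℝ, ∀ z ∈ ball σ r, z ∉ B → ‖f z‖ ≤ M := by
    intro σ _
    refine ⟨1, one_pos, |C| * (2 + ‖σ‖) ^ k, fun z hz hzB => (hbd' z hzB).trans ?_⟩
    have h1 : ‖z‖ ≤ ‖σ‖ + 1 := by
      have h2 : ‖z - σ‖ < 1 := by simpa [dist_eq_norm] using hz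
      have h3 : ‖z‖ ≤ ‖σ‖ + ‖z - σ‖ := by
        have := norm_add_le σ (z - σ)
        simpa using this
      linarith
    have h4 : (1 + ‖z‖) ^ k ≤ (2 + ‖σ‖) ^ k :=
      pow_le_pow_left₀ (by positivity) (by linarith) k
    exact mul_le_mul_of_nonneg_left h4 (abs_nonneg C)
  obtain ⟨F, hF, hFf⟩ := exists_entire_extension B f hf hb
  have hgrow : ∀ z, ‖F z‖ ≤ (|C| + ∑ σ ∈ B, ‖F σ‖) * (1 + ‖z‖) ^ k := by
    intro z
    have h1k : (1 : ℝ) ≤ (1 + ‖z‖) ^ k := one_le_pow₀ (by linarith [norm_nonneg z])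
    have hsum : (0 : ℝ) ≤ ∑ σ ∈ B, ‖F σ‖ := Finset.sum_nonneg fun _ _ => norm_nonneg _
    by_cases hz : z ∈ B
    · have h1 : ‖F z‖ ≤ ∑ σ ∈ B, ‖F σ‖ :=
        Finset.single_le_sum (f := fun σ => ‖F σ‖) (fun _ _ => norm_nonneg _) hz
      have h2 : 0 ≤ |C| * (1 + ‖z‖) ^ k := by positivity
      nlinarith
    · rw [hFf z hz]
      have h1 := hbd' z hz
      have h2 : 0 ≤ (∑ σ ∈ B, ‖F σ‖) * (1 + ‖z‖) ^ k := by positivity
      nlinarith
  obtain ⟨p, hp⟩ := exists_polynomial_of_growth k F hF ⟨_, hgrow⟩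
  exact ⟨p, fun z hz => by rw [← hFf z hz, hp z]⟩


theorem evalEval_eq_sum (P : ℂ[X][X]) (u : ℂ × ℂ) :
    P.evalEval u.1 u.2 = ∑ i ∈ Finset.range (P.natDegree + 1), (P.coeff i).eval u.1 * u.2 ^ i := by
  have h : eval (C u.2) P = ∑ i ∈ Finset.range (P.natDegree + 1), P.coeff i * (C u.2) ^ i :=
    eval_eq_sum_range _
  rw [evalEval, h, eval_finsetSum]
  simp [eval_mul, eval_pow, eval_C]

theorem map_eval_eq_evalEval (P : ℂ[X][X]) (a b : ℂ) :
    (P.map (evalRingHom a)).eval b = P.evalEval a b := by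
  rw [eval_map, eval₂_evalRingHom]

/-- The two-variable polynomial function is `C^1`. -/
theorem contDiff_evalEval (P : ℂ[X][X]) :
    ContDiff ℂ 1 (fun u : ℂ × ℂ => P.evalEval u.1 u.2) := by
  have : (fun u : ℂ × ℂ => P.evalEval u.1 u.2) = fun u =>
      ∑ i ∈ Finset.range (P.natDegree + 1), (P.coeff i).eval u.1 * u.2 ^ i := by
    funext u
    exact evalEval_eq_sum P u
  rw [this]
  refine ContDiff.sum fun i _ => ?_
  have h1 : ContDiff ℂ 1 (fun x : ℂ => (P.coeff i).eval x) := by
    simpa using (P.coeff i).contDiff_aeval (𝕜 := ℂ) 1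
  exact (h1.comp contDiff_fst).mul (contDiff_snd.pow i)

/-- Holomorphic implicit function at a simple point of the plane curve `P = 0`. -/
theorem exists_local_branch (P : ℂ[X][X]) (a0 b0 : ℂ) (h0 : P.evalEval a0 b0 = 0)
    (hd : ((P.map (evalRingHom a0)).derivative).eval b0 ≠ 0) :
    ∃ ψ : ℂ → ℂ, ψ a0 = b0 ∧ ContinuousAt ψ a0 ∧ (∀ᶠ t in 𝓝 a0, DifferentiableAt ℂ ψ t) ∧
      (∀ᶠ t in 𝓝 a0, P.evalEval t (ψ t) = 0) := by
  set f : ℂ × ℂ → ℂ := fun u => P.evalEval u.1 u.2 with hf
  have cdf : ContDiffAt ℂ 1 f (a0, b0) := (contDiff_evalEval P).contDiffAt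
  have pn : (1 : WithTop ℕ∞) ≠ 0 := one_ne_zero
  have hg : HasDerivAt (fun y => f (a0, y)) ((P.map (evalRingHom a0)).derivative.eval b0) b0 := by
    have : (fun y => f (a0, y)) = fun y => (P.map (evalRingHom a0)).eval y := by
      funext y
      simp only [hf]
      rw [map_eval_eq_evalEval]
    rw [this]
    exact Polynomial.hasDerivAt _ _
  have hf' : HasFDerivAt f (fderiv ℂ f (a0, b0)) (a0, b0) :=
    (cdf.differentiableAt one_ne_zero).hasFDerivAt
  have hcomp : HasFDerivAt (fun y => f (a0, y))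
      ((fderiv ℂ f (a0, b0)).comp (ContinuousLinearMap.inr ℂ ℂ ℂ)) b0 :=
    hf'.comp b0 (hasFDerivAt_prodMk_right a0 b0)
  have heq := hcomp.unique hg.hasFDerivAt
  have if₂ : (fderiv ℂ f (a0, b0) ∘L ContinuousLinearMap.inr ℂ ℂ ℂ).IsInvertible := by
    rw [heq]
    refine ⟨ContinuousLinearEquiv.unitsEquivAut ℂ (Units.mk0 _ hd), ?_⟩
    ext
    simp
  refine ⟨cdf.implicitFunction pn if₂, cdf.implicitFunction_apply_self pn if₂, ?_, ?_, ?_⟩
  · exact (cdf.contDiffAt_implicitFunction pn if₂).continuousAt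
  · have h1 := (cdf.contDiffAt_implicitFunction pn if₂).eventually (by simp)
    filter_upwards [h1] with t ht using ht.differentiableAt one_ne_zero
  · have h1 := cdf.eventually_apply_implicitFunction pn if₂
    filter_upwards [h1] with t ht
    have : f (a0, b0) = 0 := h0
    rw [this] at ht
    exact ht

/-- A monic polynomial of degree `n` with `n` distinct given roots is their product. -/
theorem eq_prod_of_injective_roots {n : ℕ} (p : ℂ[X]) (hp : p.Monic) (hn : p.natDegree = n)
    (r : Fin n → ℂ) (hr : Function.Injective r) (h0 : ∀ i, p.eval (r i) = 0) :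
    p = ∏ i, (X - C (r i)) := by
  have hdvd : (∏ i, (X - C (r i))) ∣ p := by
    have h1 : ((Finset.univ.val.map r).map (fun a => X - C a)).prod ∣ p := by
      rw [Multiset.prod_X_sub_C_dvd_iff_le_roots hp.ne_zero]
      rw [Multiset.le_iff_subset (Finset.univ.nodup.map hr)]
      intro x hx
      obtain ⟨i, -, rfl⟩ := Multiset.mem_map.mp hx
      exact (mem_roots hp.ne_zero).mpr (h0 i)
    rw [Multiset.map_map] at h1
    exact h1
  have hm : (∏ i, (X - C (r i))).Monic := monic_prod_of_monic _ _ fun i _ => monic_X_sub_C _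
  refine eq_of_monic_of_dvd_of_natDegree_le hm hp hdvd ?_
  rw [natDegree_prod_of_monic _ _ fun i _ => monic_X_sub_C _]
  simp [hn]

/-- LOCAL SHEETS: near a point `a0` where the fibre polynomial is separable, the `n = deg_Y P`
roots are given by `n` holomorphic functions which are pairwise distinct at every point. -/
theorem exists_sheets (P : ℂ[X][X]) (hP : P.Monic) (a0 : ℂ)
    (hsep : (P.map (evalRingHom a0)).Separable) :
    ∃ r > 0, ∃ β : Fin P.natDegree → ℂ → ℂ,
      (∀ i, ∀ t ∈ ball a0 r, DifferentiableAt ℂ (β i) t) ∧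
      (∀ t ∈ ball a0 r, Function.Injective fun i => β i t) ∧
      (∀ t ∈ ball a0 r, P.map (evalRingHom t) = ∏ i, (X - C (β i t))) := by
  classical
  set p0 := P.map (evalRingHom a0) with hp0
  have hp0m : p0.Monic := hP.map _
  have hdeg : p0.natDegree = P.natDegree := hP.natDegree_map _
  have hcard : p0.roots.toFinset.card = P.natDegree := by
    rw [Multiset.toFinset_card_of_nodup (nodup_roots hsep), ← hdeg]
    exact IsAlgClosed.card_roots_eq_natDegree
  let e := p0.roots.toFinset.equivFinOfCardEq hcard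
  set b : Fin P.natDegree → ℂ := fun i => ((e.symm i : p0.roots.toFinset) : ℂ) with hb
  have hbinj : Function.Injective b := Subtype.val_injective.comp e.symm.injective
  have hbroot : ∀ i, p0.eval (b i) = 0 := by
    intro i
    have h1 : b i ∈ p0.roots.toFinset := (e.symm i).2
    rw [Multiset.mem_toFinset, mem_roots hp0m.ne_zero] at h1
    exact h1
  have hbder : ∀ i, p0.derivative.eval (b i) ≠ 0 := by
    intro i
    have := hsep.eval₂_derivative_ne_zero (RingHom.id ℂ) (x := b i)
      (by rw [eval₂_id]; exact hbroot i)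
    rwa [eval₂_id] at this
  have hex : ∀ i, ∃ ψ : ℂ → ℂ, ψ a0 = b i ∧ ContinuousAt ψ a0 ∧
      (∀ᶠ t in 𝓝 a0, DifferentiableAt ℂ ψ t) ∧ (∀ᶠ t in 𝓝 a0, P.evalEval t (ψ t) = 0) := by
    intro i
    exact exists_local_branch P a0 (b i) (by rw [← map_eval_eq_evalEval]; exact hbroot i)
      (hbder i)
  choose ψ hψ0 hψc hψd hψz using hex
  have hne : ∀ i j, i ≠ j → ∀ᶠ t in 𝓝 a0, ψ i t ≠ ψ j t := by
    intro i j hij
    have hc : ContinuousAt (fun t => ψ i t - ψ j t) a0 := (hψc i).sub (hψc j)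
    have h0 : ψ i a0 - ψ j a0 ≠ 0 := by
      rw [hψ0, hψ0, sub_ne_zero]
      exact fun h => hij (hbinj h)
    filter_upwards [hc.eventually_ne h0] with t ht
    exact sub_ne_zero.mp ht
  have hall : ∀ᶠ t in 𝓝 a0, (∀ i, DifferentiableAt ℂ (ψ i) t) ∧
      (∀ i, P.evalEval t (ψ i t) = 0) ∧ (∀ i j, i ≠ j → ψ i t ≠ ψ j t) := by
    have h1 : ∀ᶠ t in 𝓝 a0, ∀ i, DifferentiableAt ℂ (ψ i) t := eventually_all.mpr hψd
    have h2 : ∀ᶠ t in 𝓝 a0, ∀ i, P.evalEval t (ψ i t) = 0 := eventually_all.mpr hψz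
    have h3 : ∀ᶠ t in 𝓝 a0, ∀ i j, i ≠ j → ψ i t ≠ ψ j t := by
      refine eventually_all.mpr fun i => eventually_all.mpr fun j => ?_
      by_cases hij : i = j
      · exact Eventually.of_forall fun t h => absurd hij h
      · filter_upwards [hne i j hij] with t ht _ using ht
    filter_upwards [h1, h2, h3] with t a1 a2 a3 using ⟨a1, a2, a3⟩
  obtain ⟨r, hr, hball⟩ := Metric.eventually_nhds_iff_ball.mp hall
  refine ⟨r, hr, ψ, fun i t ht => (hball t ht).1 i, fun t ht i j hij => ?_, fun t ht => ?_⟩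
  · by_contra hne'
    exact (hball t ht).2.2 i j hne' hij
  · refine eq_prod_of_injective_roots _ (hP.map _) (hP.natDegree_map _) (fun i => ψ i t) ?_ ?_
    · intro i j hij
      by_contra hne'
      exact (hball t ht).2.2 i j hne' hij
    · intro i
      rw [map_eval_eq_evalEval]
      exact (hball t ht).2.1 i


theorem differentiableAt_coeff_prod {ι : Type*} (I : Finset ι) (β : ι → ℂ → ℂ) (t0 : ℂ)
    (hβ : ∀ i ∈ I, DifferentiableAt ℂ (β i) t0) :
    ∀ j : ℕ, DifferentiableAt ℂ (fun t => (∏ i ∈ I, (X - C (β i t))).coeff j) t0 := by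
  classical
  induction I using Finset.induction_on with
  | empty =>
    intro j
    simp only [Finset.prod_empty]
    exact differentiableAt_const _
  | insert i I hi ih =>
    intro j
    have ih' := ih fun k hk => hβ k (Finset.mem_insert_of_mem hk)
    have hβi := hβ i (Finset.mem_insert_self _ _)
    cases j with
    | zero =>
      have : (fun t => (∏ k ∈ insert i I, (X - C (β k t))).coeff 0) =
          fun t => -β i t * (∏ k ∈ I, (X - C (β k t))).coeff 0 := by
        funext t
        rw [Finset.prod_insert hi, mul_coeff_zero]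
        simp
      rw [this]
      exact hβi.neg.mul (ih' 0)
    | succ a =>
      have : (fun t => (∏ k ∈ insert i I, (X - C (β k t))).coeff (a + 1)) =
          fun t => (∏ k ∈ I, (X - C (β k t))).coeff a -
            (∏ k ∈ I, (X - C (β k t))).coeff (a + 1) * β i t := by
        funext t
        rw [Finset.prod_insert hi, mul_comm, coeff_mul_X_sub_C]
      rw [this]
      exact (ih' a).sub ((ih' (a + 1)).mul hβi)

theorem norm_coeff_prod_le (T : Finset ℂ) :
    ∀ j : ℕ, ‖(∏ b ∈ T, (X - C b)).coeff j‖ ≤ ∏ b ∈ T, (1 + ‖b‖) := by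
  classical
  induction T using Finset.induction_on with
  | empty =>
    intro j
    simp only [Finset.prod_empty, coeff_one]
    split_ifs <;> simp
  | insert c T hc ih =>
    intro j
    have hpos : (0 : ℝ) ≤ ∏ b ∈ T, (1 + ‖b‖) :=
      Finset.prod_nonneg fun b _ => by positivity
    rw [Finset.prod_insert hc, Finset.prod_insert hc]
    cases j with
    | zero =>
      rw [mul_coeff_zero]
      have h1 : ‖(X - C c).coeff 0‖ = ‖c‖ := by simp
      rw [norm_mul, h1]
      have h2 := ih 0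
      nlinarith [norm_nonneg c]
    | succ a =>
      rw [mul_comm (X - C c), coeff_mul_X_sub_C]
      have h1 := ih a
      have h2 := ih (a + 1)
      calc ‖(∏ b ∈ T, (X - C b)).coeff a - (∏ b ∈ T, (X - C b)).coeff (a + 1) * c‖
          ≤ ‖(∏ b ∈ T, (X - C b)).coeff a‖ + ‖(∏ b ∈ T, (X - C b)).coeff (a + 1) * c‖ :=
            norm_sub_le _ _
        _ = ‖(∏ b ∈ T, (X - C b)).coeff a‖ + ‖(∏ b ∈ T, (X - C b)).coeff (a + 1)‖ * ‖c‖ := by
            rw [norm_mul]
        _ ≤ (∏ b ∈ T, (1 + ‖b‖)) + (∏ b ∈ T, (1 + ‖b‖)) * ‖c‖ := by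
            have := mul_le_mul_of_nonneg_right h2 (norm_nonneg c)
            linarith
        _ = (1 + ‖c‖) * ∏ b ∈ T, (1 + ‖b‖) := by ring

theorem norm_eval_le_of_natDegree_le (p : ℂ[X]) (k : ℕ) (hk : p.natDegree ≤ k) (z : ℂ) :
    ‖p.eval z‖ ≤ (∑ i ∈ Finset.range (p.natDegree + 1), ‖p.coeff i‖) * (1 + ‖z‖) ^ k := by
  rw [eval_eq_sum_range, Finset.sum_mul]
  refine (norm_sum_le _ _).trans (Finset.sum_le_sum fun i hi => ?_)
  rw [norm_mul, norm_pow]
  have hi' : i ≤ k := (Nat.lt_succ_iff.mp (Finset.mem_range.mp hi)).trans hk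
  have h1 : ‖z‖ ^ i ≤ (1 + ‖z‖) ^ i :=
    pow_le_pow_left₀ (norm_nonneg z) (by linarith) i
  have h2 : (1 + ‖z‖) ^ i ≤ (1 + ‖z‖) ^ k :=
    pow_le_pow_right₀ (by linarith [norm_nonneg z]) hi'
  exact mul_le_mul_of_nonneg_left (h1.trans h2) (norm_nonneg _)

/-- Uniform polynomial bound for the roots of the fibre polynomials of a monic `P`. -/
theorem exists_root_bound (P : ℂ[X][X]) (hP : P.Monic) :
    ∃ (C₀ : ℝ) (k₀ : ℕ), 0 ≤ C₀ ∧ ∀ a b : ℂ, P.evalEval a b = 0 → ‖b‖ ≤ C₀ * (1 + ‖a‖) ^ k₀ := by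
  classical
  set n := P.natDegree with hn
  set k₀ := ∑ i ∈ Finset.range n, (P.coeff i).natDegree with hk₀
  set Cc : ℕ → ℝ := fun i => ∑ l ∈ Finset.range ((P.coeff i).natDegree + 1), ‖(P.coeff i).coeff l‖
    with hCc
  have hCc0 : ∀ i, 0 ≤ Cc i := fun i => Finset.sum_nonneg fun _ _ => norm_nonneg _
  refine ⟨(∑ i ∈ Finset.range n, Cc i) + 1, k₀, by
    have := Finset.sum_nonneg fun i (_ : i ∈ Finset.range n) => hCc0 i
    linarith, fun a b hab => ?_⟩
  set p := P.map (evalRingHom a) with hp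
  have hpm : p.Monic := hP.map _
  have hpdeg : p.natDegree = n := hP.natDegree_map _
  have hroot : p.IsRoot b := by
    rw [IsRoot.def, hp, eval_map, eval₂_evalRingHom]
    exact hab
  have h1 := IsRoot.norm_lt_cauchyBound hpm.ne_zero hroot
  have h2 : cauchyBound p ≤ (∑ i ∈ Finset.range n, ‖p.coeff i‖₊) + 1 := by
    unfold cauchyBound
    rw [hpm.leadingCoeff, nnnorm_one, div_one, hpdeg]
    gcongr
    exact Finset.sup_le fun i hi =>
      Finset.single_le_sum (f := fun i => ‖p.coeff i‖₊) (fun _ _ => zero_le) hi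
  have h3 : ‖b‖ ≤ (∑ i ∈ Finset.range n, ‖p.coeff i‖) + 1 := by
    have := (h1.trans_le h2).le
    have h4 := NNReal.coe_le_coe.mpr this
    simpa using h4
  have h1k : (1 : ℝ) ≤ (1 + ‖a‖) ^ k₀ := one_le_pow₀ (by linarith [norm_nonneg a])
  have h5 : ∀ i ∈ Finset.range n, ‖p.coeff i‖ ≤ Cc i * (1 + ‖a‖) ^ k₀ := by
    intro i hi
    rw [hp, coeff_map, coe_evalRingHom]
    exact norm_eval_le_of_natDegree_le _ _
      (Finset.single_le_sum (f := fun i => (P.coeff i).natDegree) (fun _ _ => Nat.zero_le _) hi) a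
  calc ‖b‖ ≤ (∑ i ∈ Finset.range n, ‖p.coeff i‖) + 1 := h3
    _ ≤ (∑ i ∈ Finset.range n, Cc i * (1 + ‖a‖) ^ k₀) + (1 + ‖a‖) ^ k₀ :=
        add_le_add (Finset.sum_le_sum h5) h1k
    _ = ((∑ i ∈ Finset.range n, Cc i) + 1) * (1 + ‖a‖) ^ k₀ := by
        rw [add_mul, Finset.sum_mul, one_mul]

/-- The generic part of the plane curve `P = 0`: points whose `x`-coordinate is off `B`. -/
def genericPart (P : ℂ[X][X]) (B : Set ℂ) : Set (ℂ × ℂ) :=
  {q | q.1 ∉ B ∧ P.evalEval q.1 q.2 = 0}

/-- A set of points of the curve is *branch-closed* if, whenever it contains one point of the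
graph of a holomorphic branch over a ball avoiding `B`, it contains the whole graph. -/
def BranchClosed (P : ℂ[X][X]) (B : Set ℂ) (S : Set (ℂ × ℂ)) : Prop :=
  ∀ (c : ℂ) (r : ℝ) (β : ℂ → ℂ), ball c r ⊆ Bᶜ → DifferentiableOn ℂ β (ball c r) →
    (∀ t ∈ ball c r, P.evalEval t (β t) = 0) →
    ∀ t₀ ∈ ball c r, (t₀, β t₀) ∈ S → ∀ t ∈ ball c r, (t, β t) ∈ S

/-- CHAIN-CONNECTEDNESS: for `P` monic and irreducible, `B` a finite set off which the fibre
polynomials are separable, a nonempty branch-closed subset of the generic part is everything. -/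
theorem chain (P : ℂ[X][X]) (hP : P.Monic) (hirr : Irreducible P) (B : Finset ℂ)
    (hsep : ∀ a, a ∉ B → (P.map (evalRingHom a)).Separable)
    (S : Set (ℂ × ℂ)) (hS : S ⊆ genericPart P (B : Set ℂ)) (hne : S.Nonempty)
    (hbc : BranchClosed P (B : Set ℂ) S) : S = genericPart P (B : Set ℂ) := by
  classical
  set n := P.natDegree with hn
  -- fibre data
  let T : ℂ → Finset ℂ := fun a =>
    (P.map (evalRingHom a)).roots.toFinset.filter fun b => (a, b) ∈ S
  let Qf : ℂ → ℂ[X] := fun a => ∏ b ∈ T a, (X - C b)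
  have hTmem : ∀ a b, b ∈ T a ↔ P.evalEval a b = 0 ∧ (a, b) ∈ S := by
    intro a b
    simp only [T, Finset.mem_filter, Multiset.mem_toFinset, mem_roots (hP.map _).ne_zero,
      IsRoot.def, map_eval_eq_evalEval]
  have hQm : ∀ a, (Qf a).Monic := fun a =>
    monic_prod_of_monic _ _ fun b _ => monic_X_sub_C b
  have hQdeg : ∀ a, (Qf a).natDegree = (T a).card := fun a => by
    show (∏ b ∈ T a, (X - C b)).natDegree = _
    rw [natDegree_prod_of_monic _ _ fun b _ => monic_X_sub_C b]
    simp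
  have hTcard : ∀ a, (T a).card ≤ n := by
    intro a
    calc (T a).card ≤ (P.map (evalRingHom a)).roots.toFinset.card := Finset.card_filter_le _ _
      _ ≤ (P.map (evalRingHom a)).roots.card := Multiset.toFinset_card_le _
      _ ≤ (P.map (evalRingHom a)).natDegree := card_roots' _
      _ = n := hP.natDegree_map _
  have hopenB : IsOpen ((B : Set ℂ)ᶜ) := B.finite_toSet.isClosed.isOpen_compl
  -- local structure
  have hloc : ∀ a0, a0 ∉ B → ∃ r > 0, ∃ (β : Fin n → ℂ → ℂ) (I : Finset (Fin n)),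
      (∀ i, ∀ t ∈ ball a0 r, DifferentiableAt ℂ (β i) t) ∧
      ∀ t ∈ ball a0 r, Qf t = ∏ i ∈ I, (X - C (β i t)) ∧ (T t).card = I.card := by
    intro a0 ha0
    obtain ⟨r₁, hr₁, β, hβd, hβinj, hβprod⟩ := exists_sheets P hP a0 (hsep a0 ha0)
    obtain ⟨r₂, hr₂, hball₂⟩ := Metric.isOpen_iff.mp hopenB a0 (by simpa using ha0)
    set r := min r₁ r₂ with hr
    have hrpos : 0 < r := lt_min hr₁ hr₂
    have hsub₁ : ball a0 r ⊆ ball a0 r₁ := ball_subset_ball (min_le_left _ _)
    have hsubB : ball a0 r ⊆ (B : Set ℂ)ᶜ := (ball_subset_ball (min_le_right _ _)).trans hball₂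
    have hβz : ∀ i, ∀ t ∈ ball a0 r, P.evalEval t (β i t) = 0 := by
      intro i t ht
      rw [← map_eval_eq_evalEval, hβprod t (hsub₁ ht), eval_prod]
      exact Finset.prod_eq_zero (Finset.mem_univ i) (by simp)
    have hβdo : ∀ i, DifferentiableOn ℂ (β i) (ball a0 r) := fun i t ht =>
      (hβd i t (hsub₁ ht)).differentiableWithinAt
    have ha0mem : a0 ∈ ball a0 r := mem_ball_self hrpos
    set I : Finset (Fin n) := Finset.univ.filter fun i => (a0, β i a0) ∈ S with hI
    refine ⟨r, hrpos, β, I, fun i t ht => hβd i t (hsub₁ ht), fun t ht => ?_⟩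
    have hT : T t = I.image fun i => β i t := by
      ext b
      rw [hTmem, Finset.mem_image]
      constructor
      · rintro ⟨hb0, hbS⟩
        have hb0' : (P.map (evalRingHom t)).eval b = 0 := by
          rw [map_eval_eq_evalEval]; exact hb0
        rw [hβprod t (hsub₁ ht), eval_prod, Finset.prod_eq_zero_iff] at hb0'
        obtain ⟨i, -, hi⟩ := hb0'
        have hbi : b = β i t := by simpa [sub_eq_zero] using hi
        refine ⟨i, ?_, hbi.symm⟩
        rw [hI, Finset.mem_filter]
        refine ⟨Finset.mem_univ _, ?_⟩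
        exact hbc a0 r (β i) hsubB (hβdo i) (hβz i) t ht (hbi ▸ hbS) a0 ha0mem
      · rintro ⟨i, hiI, rfl⟩
        rw [hI, Finset.mem_filter] at hiI
        exact ⟨hβz i t ht, hbc a0 r (β i) hsubB (hβdo i) (hβz i) a0 ha0mem hiI.2 t ht⟩
    have hinj : Set.InjOn (fun i => β i t) (I : Set (Fin n)) := (hβinj t (hsub₁ ht)).injOn
    constructor
    · show ∏ b ∈ T t, (X - C b) = _
      rw [hT, Finset.prod_image hinj]
    · rw [hT, Finset.card_image_of_injOn hinj]
  -- connectedness of the base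
  have hconn : IsPreconnected ((B : Set ℂ)ᶜ) :=
    (Set.Countable.isConnected_compl_of_one_lt_rank (E := ℂ) (by simp)
      B.countable_toSet).isPreconnected
  -- the number of `S`-points in a fibre is locally constant, hence constant
  have hcardcont : ContinuousOn (fun a => (T a).card) ((B : Set ℂ)ᶜ) := by
    intro a0 ha0
    obtain ⟨r, hr, β, I, -, hI⟩ := hloc a0 (by simpa using ha0)
    have hev : (fun a => (T a).card) =ᶠ[𝓝 a0] fun _ => I.card := by
      filter_upwards [ball_mem_nhds a0 hr] with t ht using (hI t ht).2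
    exact (continuousAt_const.congr hev.symm).continuousWithinAt
  obtain ⟨⟨a1, b1⟩, hab1⟩ := hne
  have ha1 : a1 ∉ B := by simpa using (hS hab1).1
  set m := (T a1).card with hm
  have hcard : ∀ a, a ∉ B → (T a).card = m := fun a ha =>
    hconn.constant hcardcont (by simpa using ha) (by simpa using ha1)
  have hmpos : 0 < m := Finset.card_pos.mpr ⟨b1, (hTmem a1 b1).mpr ⟨(hS hab1).2, hab1⟩⟩
  -- the coefficient functions are holomorphic off `B`
  have hqdiff : ∀ j, DifferentiableOn ℂ (fun a => (Qf a).coeff j) ((B : Set ℂ)ᶜ) := by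
    intro j a0 ha0
    obtain ⟨r, hr, β, I, hβd, hI⟩ := hloc a0 (by simpa using ha0)
    have hev : (fun a => (Qf a).coeff j) =ᶠ[𝓝 a0]
        fun t => (∏ i ∈ I, (X - C (β i t))).coeff j := by
      filter_upwards [ball_mem_nhds a0 hr] with t ht
      rw [(hI t ht).1]
    have hd := differentiableAt_coeff_prod I β a0 (fun i _ => hβd i a0 (mem_ball_self hr)) j
    exact (hev.differentiableAt_iff.mpr hd).differentiableWithinAt
  -- polynomial growth
  obtain ⟨C₀, k₀, hC₀, hroot⟩ := exists_root_bound P hP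
  have hqbound : ∀ j a, ‖(Qf a).coeff j‖ ≤ (1 + C₀) ^ n * (1 + ‖a‖) ^ (k₀ * n) := by
    intro j a
    have h1k : (1 : ℝ) ≤ (1 + ‖a‖) ^ k₀ := one_le_pow₀ (by linarith [norm_nonneg a])
    have h1 : ‖(Qf a).coeff j‖ ≤ ∏ b ∈ T a, (1 + ‖b‖) := norm_coeff_prod_le (T a) j
    have h2 : ∏ b ∈ T a, (1 + ‖b‖) ≤ ∏ _b ∈ T a, ((1 + C₀) * (1 + ‖a‖) ^ k₀) := by
      refine Finset.prod_le_prod (fun b _ => by positivity) fun b hb => ?_
      have := hroot a b ((hTmem a b).mp hb).1
      nlinarith
    rw [Finset.prod_const] at h2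
    have hbase : (1 : ℝ) ≤ (1 + C₀) * (1 + ‖a‖) ^ k₀ := by nlinarith
    have h3 : ((1 + C₀) * (1 + ‖a‖) ^ k₀) ^ (T a).card ≤ ((1 + C₀) * (1 + ‖a‖) ^ k₀) ^ n :=
      pow_le_pow_right₀ hbase (hTcard a)
    calc ‖(Qf a).coeff j‖ ≤ ((1 + C₀) * (1 + ‖a‖) ^ k₀) ^ n := h1.trans (h2.trans h3)
      _ = (1 + C₀) ^ n * (1 + ‖a‖) ^ (k₀ * n) := by rw [mul_pow, ← pow_mul]
  have hpoly : ∀ j, ∃ p : ℂ[X], ∀ a, a ∉ B → (Qf a).coeff j = p.eval a := fun j =>
    exists_polynomial_of_compl_finset B _ (hqdiff j) (k₀ * n) _ fun a _ => hqbound j a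
  choose pq hpq using hpoly
  -- the global factor
  set Q : ℂ[X][X] := X ^ m + ∑ j ∈ Finset.range m, C (pq j) * X ^ j with hQ
  have hdeglt : (∑ j ∈ Finset.range m, C (pq j) * X ^ j : ℂ[X][X]).degree < m := by
    rw [degree_lt_iff_coeff_zero]
    intro i hi
    rw [finsetSum_coeff]
    refine Finset.sum_eq_zero fun j hj => ?_
    rw [coeff_C_mul_X_pow, if_neg]
    have := Finset.mem_range.mp hj
    omega
  have hQmonic : Q.Monic := monic_X_pow_add hdeglt
  have hQnat : Q.natDegree = m := by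
    rw [hQ, natDegree_add_eq_left_of_degree_lt (by rw [degree_X_pow]; exact hdeglt),
      natDegree_X_pow]
  have hQmap : ∀ a, a ∉ B → Q.map (evalRingHom a) = Qf a := by
    intro a ha
    have h1 := (hQm a).as_sum
    rw [hQdeg a, hcard a ha] at h1
    rw [h1, hQ]
    simp only [Polynomial.map_add, Polynomial.map_pow, map_X, Polynomial.map_sum,
      Polynomial.map_mul, map_C, coe_evalRingHom]
    congr 1
    refine Finset.sum_congr rfl fun j _ => ?_
    rw [hpq j a ha]
  have hBinf : ((B : Set ℂ)ᶜ).Infinite := B.finite_toSet.infinite_compl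
  have hdvd : Q ∣ P := by
    rw [← modByMonic_eq_zero_iff_dvd hQmonic]
    refine Polynomial.ext fun i => ?_
    rw [coeff_zero]
    apply eq_zero_of_infinite_isRoot
    refine hBinf.mono fun a ha => ?_
    have ha' : a ∉ B := by simpa using ha
    have h1 : (P %ₘ Q).map (evalRingHom a) = 0 := by
      rw [map_modByMonic _ hQmonic, hQmap a ha', modByMonic_eq_zero_iff_dvd (hQm a)]
      have h2 : ((T a).val.map fun b => X - C b).prod ∣ P.map (evalRingHom a) := by
        rw [Multiset.prod_X_sub_C_dvd_iff_le_roots (hP.map _).ne_zero,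
          Multiset.le_iff_subset (T a).nodup]
        intro b hb
        have h3 := (hTmem a b).mp (by simpa using hb)
        rw [mem_roots (hP.map _).ne_zero, IsRoot.def, map_eval_eq_evalEval]
        exact h3.1
      exact h2
    have h2 := congrArg (fun p => p.coeff i) h1
    simpa [coeff_map] using h2
  obtain ⟨A, hA⟩ := hdvd
  have hQnu : ¬ IsUnit Q := by
    intro hu
    have := natDegree_eq_zero_of_isUnit hu
    rw [hQnat] at this
    omega
  have hAu : IsUnit A := (hirr.isUnit_or_isUnit hA).resolve_left hQnu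
  have hnm : n = m := by
    have h1 := hQmonic.natDegree_mul' hAu.ne_zero
    rw [← hA, natDegree_eq_zero_of_isUnit hAu, hQnat, add_zero] at h1
    exact h1
  -- conclusion
  refine Set.Subset.antisymm hS ?_
  rintro ⟨a, b⟩ ⟨ha, hb⟩
  have ha' : a ∉ B := by simpa using ha
  have hsub : T a ⊆ (P.map (evalRingHom a)).roots.toFinset := Finset.filter_subset _ _
  have hle : (P.map (evalRingHom a)).roots.toFinset.card ≤ (T a).card := by
    rw [hcard a ha', ← hnm]
    calc (P.map (evalRingHom a)).roots.toFinset.card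
        ≤ (P.map (evalRingHom a)).roots.card := Multiset.toFinset_card_le _
      _ ≤ (P.map (evalRingHom a)).natDegree := card_roots' _
      _ = n := hP.natDegree_map _
  have heq := Finset.eq_of_subset_of_card_le hsub hle
  have hbmem : b ∈ T a := by
    rw [heq, Multiset.mem_toFinset, mem_roots (hP.map _).ne_zero, IsRoot.def,
      map_eval_eq_evalEval]
    exact hb
  exact ((hTmem a b).mp hbmem).2



/-- Relational form of `chain`: a reflexive transitive relation which relates any two points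
lying on a common holomorphic local branch relates any two points of the generic part. -/
theorem chain_rel (P : ℂ[X][X]) (hP : P.Monic) (hirr : Irreducible P) (B : Finset ℂ)
    (hsep : ∀ a, a ∉ B → (P.map (evalRingHom a)).Separable)
    (R : ℂ × ℂ → ℂ × ℂ → Prop) (hrefl : ∀ q, R q q)
    (htrans : ∀ x y z, R x y → R y z → R x z)
    (hbr : ∀ (c : ℂ) (r : ℝ) (β : ℂ → ℂ), ball c r ⊆ (B : Set ℂ)ᶜ →
      DifferentiableOn ℂ β (ball c r) → (∀ t ∈ ball c r, P.evalEval t (β t) = 0) →
      ∀ t ∈ ball c r, ∀ t' ∈ ball c r, R (t, β t) (t', β t'))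
    (q q' : ℂ × ℂ) (hq : q ∈ genericPart P (B : Set ℂ)) (hq' : q' ∈ genericPart P (B : Set ℂ)) :
    R q q' := by
  set S : Set (ℂ × ℂ) := {x | x ∈ genericPart P (B : Set ℂ) ∧ R q x} with hS
  have hsub : S ⊆ genericPart P (B : Set ℂ) := fun x hx => hx.1
  have hne : S.Nonempty := ⟨q, hq, hrefl q⟩
  have hbc : BranchClosed P (B : Set ℂ) S := by
    intro c r β hball hβ hz t₀ ht₀ h0 t ht
    refine ⟨⟨hball ht, hz t ht⟩, htrans _ _ _ h0.2 (hbr c r β hball hβ hz t₀ ht₀ t ht)⟩
  have := chain P hP hirr B hsep S hsub hne hbc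
  rw [← this] at hq'
  exact hq'.2

/-- For `P` monic and irreducible, all but finitely many fibre polynomials are separable. -/
theorem finite_nonseparable (P : ℂ[X][X]) (hP : P.Monic) (hirr : Irreducible P) :
    {a : ℂ | ¬ (P.map (evalRingHom a)).Separable}.Finite := by
  classical
  set K := FractionRing ℂ[X] with hK
  set PK : K[X] := P.map (algebraMap ℂ[X] K) with hPK
  have hirrK : Irreducible PK :=
    (Monic.irreducible_iff_irreducible_map_fraction_map hP).mp hirr
  have hsepK : PK.Separable := hirrK.separable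
  obtain ⟨u, v, huv⟩ := hsepK
  obtain ⟨b₁, hb₁m, hb₁⟩ := IsLocalization.integerNormalization_spec (nonZeroDivisors ℂ[X]) u
  obtain ⟨b₂, hb₂m, hb₂⟩ := IsLocalization.integerNormalization_spec (nonZeroDivisors ℂ[X]) v
  set U := IsLocalization.integerNormalization (nonZeroDivisors ℂ[X]) u with hU
  set V := IsLocalization.integerNormalization (nonZeroDivisors ℂ[X]) v with hV
  set d : ℂ[X] := b₁ * b₂ with hd
  have hd0 : d ≠ 0 := mul_ne_zero (nonZeroDivisors.ne_zero hb₁m) (nonZeroDivisors.ne_zero hb₂m)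
  have hinj : Function.Injective (Polynomial.map (algebraMap ℂ[X] K)) :=
    Polynomial.map_injective _ (IsFractionRing.injective ℂ[X] K)
  have key : C b₂ * U * P + C b₁ * V * derivative P = C d := by
    apply hinj
    simp only [Polynomial.map_add, Polynomial.map_mul, map_C, hb₁, hb₂, ← derivative_map]
    rw [← hPK, hd, map_mul, map_mul]
    have h1 : (C (algebraMap ℂ[X] K b₂) * (b₁ • u) * PK +
        C (algebraMap ℂ[X] K b₁) * (b₂ • v) * derivative PK) =
        C (algebraMap ℂ[X] K b₁) * C (algebraMap ℂ[X] K b₂) *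
          (u * PK + v * derivative PK) := by
      rw [Algebra.smul_def, Algebra.smul_def, Polynomial.algebraMap_apply,
        Polynomial.algebraMap_apply]
      ring
    rw [h1, huv, mul_one]
  refine (Polynomial.finite_setOfPred_isRoot hd0).subset fun a ha => ?_
  by_contra hda
  apply ha
  have hda' : d.eval a ≠ 0 := hda
  have key' := congrArg (Polynomial.map (evalRingHom a)) key
  simp only [Polynomial.map_add, Polynomial.map_mul, map_C, coe_evalRingHom,
    ← derivative_map] at key'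
  rw [separable_def]
  refine ⟨C (d.eval a)⁻¹ * (C (eval a b₂) * U.map (evalRingHom a)),
    C (d.eval a)⁻¹ * (C (eval a b₁) * V.map (evalRingHom a)), ?_⟩
  have : C (d.eval a)⁻¹ * (C (eval a b₂) * U.map (evalRingHom a)) *
      P.map (evalRingHom a) +
      C (d.eval a)⁻¹ * (C (eval a b₁) * V.map (evalRingHom a)) *
      derivative (P.map (evalRingHom a)) =
      C (d.eval a)⁻¹ * (C (eval a b₂) * U.map (evalRingHom a) * P.map (evalRingHom a) +
        C (eval a b₁) * V.map (evalRingHom a) * derivative (P.map (evalRingHom a))) := by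
    ring
  rw [this, key', ← C_mul, inv_mul_cancel₀ hda', C_1]

/-- Uniqueness of branches: a continuous function on a preconnected set whose values are always
among the values of finitely many continuous, pointwise pairwise distinct functions `β i`
coincides with one of them. -/
theorem eq_sheet_of_continuousOn {n : ℕ} (β : Fin n → ℂ → ℂ) (s : Set ℂ) (hs : IsPreconnected s)
    (hβc : ∀ i, ContinuousOn (β i) s) (hinj : ∀ t ∈ s, Function.Injective fun i => β i t)
    (γ : ℂ → ℂ) (hγ : ContinuousOn γ s) (hmem : ∀ t ∈ s, ∃ i, γ t = β i t)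
    (t0 : ℂ) (ht0 : t0 ∈ s) (i0 : Fin n) (h0 : γ t0 = β i0 t0) : ∀ t ∈ s, γ t = β i0 t := by
  classical
  have : Nonempty (Fin n) := ⟨i0⟩
  set idx : ℂ → Fin n := fun t => Classical.epsilon fun i => γ t = β i t with hidx
  have hspec : ∀ t ∈ s, γ t = β (idx t) t := fun t ht => Classical.epsilon_spec (hmem t ht)
  have hcont : ContinuousOn idx s := by
    intro t1 ht1
    have hne : ∀ j, j ≠ idx t1 → ∀ᶠ t in 𝓝[s] t1, γ t - β j t ≠ 0 := by
      intro j hj
      have hc : ContinuousWithinAt (fun t => γ t - β j t) s t1 := (hγ t1 ht1).sub (hβc j t1 ht1)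
      refine hc.eventually_ne ?_
      rw [sub_ne_zero, hspec t1 ht1]
      exact fun h => hj (hinj t1 ht1 h).symm
    have hall : ∀ᶠ t in 𝓝[s] t1, ∀ j, j ≠ idx t1 → γ t - β j t ≠ 0 := by
      refine eventually_all.mpr fun j => ?_
      by_cases hj : j = idx t1
      · exact Eventually.of_forall fun t h => absurd hj h
      · filter_upwards [hne j hj] with t ht _ using ht
    have hev : idx =ᶠ[𝓝[s] t1] fun _ => idx t1 := by
      filter_upwards [hall, eventually_mem_nhdsWithin] with t ht hts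
      by_contra hcon
      exact ht (idx t) hcon (sub_eq_zero.mpr (hspec t hts))
    exact continuousWithinAt_const.congr_of_eventuallyEq hev rfl
  have hi0 : idx t0 = i0 := hinj t0 ht0 ((hspec t0 ht0).symm.trans h0)
  intro t ht
  rw [hspec t ht, hs.constant hcont ht ht0, hi0]

/-- LOCAL SHEETS, full form: near `a0 ∉ B` (with `B` finite and the fibre polynomial at `a0`
separable) there are a ball avoiding `B` and `n` holomorphic sheets on it, pairwise distinct at
each point, giving all roots; every continuous branch on the ball is one of the sheets. -/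
theorem exists_sheets_full (P : ℂ[X][X]) (hP : P.Monic) (B : Finset ℂ) (a0 : ℂ) (ha0 : a0 ∉ B)
    (hsep : (P.map (evalRingHom a0)).Separable) :
    ∃ r > 0, ball a0 r ⊆ (B : Set ℂ)ᶜ ∧ ∃ β : Fin P.natDegree → ℂ → ℂ,
      (∀ i, DifferentiableOn ℂ (β i) (ball a0 r)) ∧
      (∀ t ∈ ball a0 r, Function.Injective fun i => β i t) ∧
      (∀ t ∈ ball a0 r, P.map (evalRingHom t) = ∏ i, (X - C (β i t))) ∧
      (∀ t ∈ ball a0 r, ∀ b : ℂ, P.evalEval t b = 0 ↔ ∃ i, b = β i t) ∧
      (∀ γ : ℂ → ℂ, ContinuousOn γ (ball a0 r) → (∀ t ∈ ball a0 r, P.evalEval t (γ t) = 0) →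
        ∃ i, ∀ t ∈ ball a0 r, γ t = β i t) := by
  obtain ⟨r₁, hr₁, β, hβd, hβinj, hβprod⟩ := exists_sheets P hP a0 hsep
  have hopenB : IsOpen ((B : Set ℂ)ᶜ) := B.finite_toSet.isClosed.isOpen_compl
  obtain ⟨r₂, hr₂, hball₂⟩ := Metric.isOpen_iff.mp hopenB a0 (by simpa using ha0)
  have hrpos : 0 < min r₁ r₂ := lt_min hr₁ hr₂
  have hsub₁ : ball a0 (min r₁ r₂) ⊆ ball a0 r₁ := ball_subset_ball (min_le_left _ _)
  have hroots : ∀ t ∈ ball a0 (min r₁ r₂), ∀ b : ℂ, P.evalEval t b = 0 ↔ ∃ i, b = β i t := by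
    intro t ht b
    rw [← map_eval_eq_evalEval, hβprod t (hsub₁ ht), eval_prod, Finset.prod_eq_zero_iff]
    constructor
    · rintro ⟨i, -, hi⟩
      exact ⟨i, by simpa [sub_eq_zero] using hi⟩
    · rintro ⟨i, rfl⟩
      exact ⟨i, Finset.mem_univ _, by simp⟩
  have hβdo : ∀ i, DifferentiableOn ℂ (β i) (ball a0 (min r₁ r₂)) := fun i t ht =>
    (hβd i t (hsub₁ ht)).differentiableWithinAt
  refine ⟨min r₁ r₂, hrpos, (ball_subset_ball (min_le_right _ _)).trans hball₂, β, hβdo,
    fun t ht => hβinj t (hsub₁ ht), fun t ht => hβprod t (hsub₁ ht), hroots, fun γ hγ hz => ?_⟩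
  have ha0mem : a0 ∈ ball a0 (min r₁ r₂) := mem_ball_self hrpos
  obtain ⟨i0, hi0⟩ := (hroots a0 ha0mem (γ a0)).mp (hz a0 ha0mem)
  exact ⟨i0, eq_sheet_of_continuousOn β _ (convex_ball a0 _).isPreconnected
    (fun i => (hβdo i).continuousOn) (fun t ht => hβinj t (hsub₁ ht)) γ hγ
    (fun t ht => (hroots t ht (γ t)).mp (hz t ht)) a0 ha0mem i0 hi0⟩

end Fermat.Agent.S27.helper400
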