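import Fermat.Agent.S27.helper6247_Spec
import Fermat.Agent.S27.helper7706_PlaneModel
import Fermat.Agent.S24.helper204_Places

/-!
# S27, Spec leaf M1c: `Stmt_GenericUnram`

A transcendental `u : F` is a local coordinate (`u - c` is a uniformizer for some `c : K`) at all
but finitely many places.

`theorem genericUnram_of (hEv : Stmt_Ev) (hSP : Stmt_SimplePoint) : Stmt_GenericUnram`

Proof (no fundamental identity, no different, no derivations).  Take a monic plane model
`χ(u, y) = 0` (`helper7706.exists_planeModel`) and put `w := χ_Y(u, y) ≠ 0`.  At a place `P`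
where `u` and `w` have order `0`, `y` is regular (integral over `K[u]`), the point
`(c, β) := (u(P), y(P))` lies on the plane curve and is simple (`χ_Y(c, β) = w(P) ≠ 0`), so by the
uniqueness clause of `Stmt_SimplePoint` the place `P` is THE place of that simple point, at which
`u - c` is a uniformizer.  The exceptional places are therefore zeros or poles of `u` or `w`:
finitely many.
-/

set_option autoImplicit false

open AlgebraicCurve IntermediateField Polynomial
open scoped Polynomial.Bivariate

namespace Fermat.Agent.S27.helper4143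

open Fermat.Agent.S27.helper6247

/-- Algebra homomorphisms commute with bivariate evaluation. -/
theorem algHom_aevalAeval {R A B : Type*} [CommSemiring R] [CommSemiring A] [CommSemiring B]
    [Algebra R A] [Algebra R B] (ψ : A →ₐ[R] B) (a b : A) (G : R[X][Y]) :
    ψ (aevalAeval a b G) = aevalAeval (ψ a) (ψ b) G := by
  have h : ψ.comp (aevalAeval a b) = aevalAeval (ψ a) (ψ b) := by
    apply (aevalAevalEquiv R B).symm.injective
    ext <;> simp
  exact DFunLike.congr_fun h G

variable {K : Type*} {F : Type*} [Field K] [Field F] [Algebra K F]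

/-- The per-place content of `Stmt_Ev`. -/
def EvProps (P : Place K F) : Prop :=
  (∀ c : K, ev P (algebraMap K F c) = c) ∧
  (∀ f g : F, 0 ≤ P.ord f → 0 ≤ P.ord g →
    ev P (f + g) = ev P f + ev P g ∧ ev P (f * g) = ev P f * ev P g) ∧
  (∀ f : F, 0 ≤ P.ord f → (ev P f = 0 ↔ f = 0 ∨ 0 < P.ord f)) ∧
  (∀ (f : F) (c : K), 0 < P.ord (f - algebraMap K F c) → ev P f = c)

/-- `ev P` as a `K`-algebra homomorphism on the valuation ring of `P`. -/
noncomputable def evAlgHom (P : Place K F) (h : EvProps P) : P.toValuationSubring →ₐ[K] K where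
  toFun a := ev P (a : F)
  map_one' := by simpa using h.1 1
  map_mul' a b := (h.2.1 a b (Fermat.Agent.S24.helper204.ord_nonneg_of_mem P a.2)
    (Fermat.Agent.S24.helper204.ord_nonneg_of_mem P b.2)).2
  map_zero' := by simpa using h.1 0
  map_add' a b := (h.2.1 a b (Fermat.Agent.S24.helper204.ord_nonneg_of_mem P a.2)
    (Fermat.Agent.S24.helper204.ord_nonneg_of_mem P b.2)).1
  commutes' c := h.1 c

@[simp] theorem evAlgHom_apply (P : Place K F) (h : EvProps P) (a : P.toValuationSubring) :
    evAlgHom P h a = ev P (a : F) := rfl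

/-- Bivariate polynomials in two regular functions are regular, and `ev` evaluates them. -/
theorem ev_aevalAeval (P : Place K F) (h : EvProps P) {u y : F} (hu : 0 ≤ P.ord u)
    (hy : 0 ≤ P.ord y) (G : K[X][Y]) :
    0 ≤ P.ord (aevalAeval u y G) ∧ ev P (aevalAeval u y G) = G.evalEval (ev P u) (ev P y) := by
  have hu' : u ∈ P.toValuationSubring := Fermat.Agent.S24.helper204.mem_of_ord_nonneg P hu
  have hy' : y ∈ P.toValuationSubring := Fermat.Agent.S24.helper204.mem_of_ord_nonneg P hy
  set ι : P.toValuationSubring →ₐ[K] F := IsScalarTower.toAlgHom K P.toValuationSubring F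
  have hι : ∀ a : P.toValuationSubring, ι a = (a : F) := fun a => rfl
  have key : ((aevalAeval (⟨u, hu'⟩ : P.toValuationSubring) ⟨y, hy'⟩ G : P.toValuationSubring) : F)
      = aevalAeval u y G := by
    rw [← hι, algHom_aevalAeval, hι, hι]
  refine ⟨?_, ?_⟩
  · rw [← key]
    exact Fermat.Agent.S24.helper204.ord_nonneg_of_mem P (Subtype.property _)
  · rw [← key, ← evAlgHom_apply P h, algHom_aevalAeval, evAlgHom_apply, evAlgHom_apply,
      coe_aevalAeval_eq_evalEval]

theorem genericUnram_of.{u, v} (hEv : Stmt_Ev.{u, v}) (hSP : Stmt_SimplePoint.{u, v}) :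
    Stmt_GenericUnram.{u, v} := by
  intro K F _ _ _ _ _ x hx _ u hu
  classical
  have : FiniteDimensional K⟮u⟯ F :=
    Fermat.Agent.S24.helper204.finiteDimensional_adjoin_of_transcendental (x := x) hu
  obtain ⟨y, χ, hχ, -⟩ := Fermat.Agent.S27.helper7706.exists_planeModel u hu
  have hPD : HasPrincipalDivisors K F := Fermat.Agent.S24.helper204.hasPrincipalDivisors x hx
  -- the `Y`-derivative of the model, evaluated on the curve, is a nonzero function
  set w : F := aevalAeval u y (derivative χ) with hw
  have hw0 : w ≠ 0 := by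
    intro h0
    have hdvd : χ ∣ derivative χ := hχ.ker _ h0
    have hpos : χ.natDegree ≠ 0 := hχ.natDegree_pos.ne'
    have hder0 : derivative χ ≠ 0 := by
      intro hd
      exact hpos (Polynomial.derivative_eq_zero.mp hd)
    have h1 := natDegree_le_of_dvd hdvd hder0
    have h2 := natDegree_derivative_lt hpos
    omega
  have hu0 : u ≠ 0 := by
    rintro rfl
    exact hu isAlgebraic_zero
  obtain ⟨Du, hDu, -⟩ := hPD.exists_divisor u hu0
  obtain ⟨Dw, hDw, -⟩ := hPD.exists_divisor w hw0
  refine ((Du.support ∪ Dw.support : Finset (Place K F)).finite_toSet).subset ?_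
  intro P hP
  by_contra hPn
  apply hP
  have hPu : P.ord u = 0 := by
    rw [← hDu P]
    by_contra hne
    exact hPn (by simp [Finsupp.mem_support_iff, hne])
  have hPw : P.ord w = 0 := by
    rw [← hDw P]
    by_contra hne
    exact hPn (by simp [Finsupp.mem_support_iff, hne])
  have hE : EvProps P := hEv K F x hx P
  have hureg : 0 ≤ P.ord u := hPu.ge
  have humem : u ∈ P.toValuationSubring := Fermat.Agent.S24.helper204.mem_of_ord_nonneg P hureg
  -- `y` is integral over `K[u]`, hence regular at `P`
  have hyreg : 0 ≤ P.ord y := by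
    let _ : Algebra K[X] F := (Polynomial.aeval u).toAlgebra
    have hint : IsIntegral K[X] y := by
      refine ⟨χ, hχ.monic, ?_⟩
      have := hχ.root
      rw [Fermat.Agent.S27.helper7706.aevalAeval_eq_eval₂] at this
      exact this
    apply Fermat.Agent.S24.helper204.ord_nonneg_of_mem
    refine Fermat.Agent.S24.helper204.mem_of_isIntegral_of_range_le P.toValuationSubring
      (S := K[X]) (fun s => ?_) hint
    exact Fermat.Agent.S24.helper204.adjoin_le_of_mem P humem _
      (Polynomial.aeval_mem_adjoin_singleton K u)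
  -- the point `(c, β)` is a simple point of the plane model
  have h1 : χ.evalEval (ev P u) (ev P y) = 0 := by
    rw [← (ev_aevalAeval P hE hureg hyreg χ).2, hχ.root]
    simpa using hE.1 0
  have h2 : (derivative χ).evalEval (ev P u) (ev P y) ≠ 0 := by
    rw [← (ev_aevalAeval P hE hureg hyreg (derivative χ)).2]
    intro h0
    rcases (hE.2.2.1 w hPw.ge).mp h0 with h | h
    · exact hw0 h
    · omega
  obtain ⟨P₀, hP₀, -, -, huniq, -⟩ :=
    hSP K F u y χ (ev P u) (ev P y) hu hχ.gen hχ.root hχ.ker h1 h2
  -- `P` lies over that point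
  have hsub0 : u - algebraMap K F (ev P u) ≠ 0 := by
    intro h0
    apply hu
    rw [sub_eq_zero.mp h0]
    exact isAlgebraic_algebraMap _
  have hcreg : 0 ≤ P.ord (algebraMap K F (-(ev P u))) :=
    Fermat.Agent.S24.helper204.ord_nonneg_of_mem P (P.algebraMap_mem' _)
  have hsubreg : 0 ≤ P.ord (u - algebraMap K F (ev P u)) := by
    have : u - algebraMap K F (ev P u) = u + algebraMap K F (-(ev P u)) := by
      rw [map_neg, sub_eq_add_neg]
    rw [this]
    exact Fermat.Agent.S24.helper204.ord_nonneg_of_mem P
      (add_mem humem (P.algebraMap_mem' _))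
  have hev0 : ev P (u - algebraMap K F (ev P u)) = 0 := by
    have : u - algebraMap K F (ev P u) = u + algebraMap K F (-(ev P u)) := by
      rw [map_neg, sub_eq_add_neg]
    rw [this, (hE.2.1 u _ hureg hcreg).1, hE.1]
    ring
  have hpos : 0 < P.ord (u - algebraMap K F (ev P u)) := by
    rcases (hE.2.2.1 _ hsubreg).mp hev0 with h | h
    · exact absurd h hsub0
    · exact h
  have hPP₀ : P = P₀ := huniq P hpos hyreg rfl
  rw [← hPP₀] at hP₀
  exact ⟨ev P u, hP₀⟩

end Fermat.Agent.S27.helper4143
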