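import Mathlib

set_option autoImplicit false

open scoped BigOperators Topology
open Metric Set Filter

noncomputable section

namespace Fermat.Agent.S27.helper4375

variable {ι : Type*} [Fintype ι] {g d : ℕ}

/-- The map `(t, c) ↦ (H_c evaluated on branch i at t i)_i`. -/
def evalMap (w : Fin d → ι → ℂ → ℂ) (p : (ι → ℂ) × (Fin d → ℂ)) : ι → ℂ :=
  fun i => ∑ l, p.2 l * w l i (p.1 i)

/-- The derivative of `evalMap` at `p`. -/
def evalMapDeriv (w : Fin d → ι → ℂ → ℂ) (p : (ι → ℂ) × (Fin d → ℂ)) :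
    ((ι → ℂ) × (Fin d → ℂ)) →L[ℂ] (ι → ℂ) :=
  ContinuousLinearMap.pi fun i => ∑ l,
    (p.2 l • (deriv (w l i) (p.1 i) •
        ((ContinuousLinearMap.proj (R := ℂ) (φ := fun _ : ι => ℂ) i).comp
          (ContinuousLinearMap.fst ℂ (ι → ℂ) (Fin d → ℂ)))) +
      w l i (p.1 i) •
        ((ContinuousLinearMap.proj (R := ℂ) (φ := fun _ : Fin d => ℂ) l).comp
          (ContinuousLinearMap.snd ℂ (ι → ℂ) (Fin d → ℂ))))

omit [Fintype ι] in
theorem evalMapDeriv_apply (w : Fin d → ι → ℂ → ℂ) (p q : (ι → ℂ) × (Fin d → ℂ)) (i : ι) :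
    evalMapDeriv w p q i =
      (∑ l, p.2 l * deriv (w l i) (p.1 i)) * q.1 i + ∑ l, q.2 l * w l i (p.1 i) := by
  simp only [evalMapDeriv, ContinuousLinearMap.pi_apply, FunLike.coe_sum,
    Finset.sum_apply, add_apply, FunLike.coe_smul,
    Pi.smul_apply, ContinuousLinearMap.comp_apply,
    ContinuousLinearMap.proj_apply, ContinuousLinearMap.coe_fst', ContinuousLinearMap.coe_snd',
    smul_eq_mul, Finset.sum_add_distrib, Finset.sum_mul]
  congr 1
  · exact Finset.sum_congr rfl fun l _ => by ring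
  · exact Finset.sum_congr rfl fun l _ => by ring

theorem hasFDerivAt_evalMap {w : Fin d → ι → ℂ → ℂ} {a : ι → ℂ} {r : ℝ}
    (hw : ∀ l i, DifferentiableOn ℂ (w l i) (ball (a i) r))
    {p : (ι → ℂ) × (Fin d → ℂ)} (hp : ∀ i, p.1 i ∈ ball (a i) r) :
    HasFDerivAt (evalMap w) (evalMapDeriv w p) p := by
  rw [hasFDerivAt_pi']
  intro i
  have key : ∀ l ∈ (Finset.univ : Finset (Fin d)),
      HasFDerivAt (fun q : (ι → ℂ) × (Fin d → ℂ) => q.2 l * w l i (q.1 i))
        (p.2 l • (deriv (w l i) (p.1 i) •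
            ((ContinuousLinearMap.proj (R := ℂ) (φ := fun _ : ι => ℂ) i).comp
              (ContinuousLinearMap.fst ℂ (ι → ℂ) (Fin d → ℂ)))) +
          w l i (p.1 i) •
            ((ContinuousLinearMap.proj (R := ℂ) (φ := fun _ : Fin d => ℂ) l).comp
              (ContinuousLinearMap.snd ℂ (ι → ℂ) (Fin d → ℂ)))) p := by
    intro l _
    have hA : HasFDerivAt (fun q : (ι → ℂ) × (Fin d → ℂ) => q.2 l)
        ((ContinuousLinearMap.proj (R := ℂ) (φ := fun _ : Fin d => ℂ) l).comp
          (ContinuousLinearMap.snd ℂ (ι → ℂ) (Fin d → ℂ))) p :=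
      ((ContinuousLinearMap.proj (R := ℂ) (φ := fun _ : Fin d => ℂ) l).comp
          (ContinuousLinearMap.snd ℂ (ι → ℂ) (Fin d → ℂ))).hasFDerivAt
    have hB0 : HasFDerivAt (fun q : (ι → ℂ) × (Fin d → ℂ) => q.1 i)
        ((ContinuousLinearMap.proj (R := ℂ) (φ := fun _ : ι => ℂ) i).comp
          (ContinuousLinearMap.fst ℂ (ι → ℂ) (Fin d → ℂ))) p :=
      ((ContinuousLinearMap.proj (R := ℂ) (φ := fun _ : ι => ℂ) i).comp
          (ContinuousLinearMap.fst ℂ (ι → ℂ) (Fin d → ℂ))).hasFDerivAt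
    have hwd : HasDerivAt (w l i) (deriv (w l i) (p.1 i)) (p.1 i) :=
      ((hw l i).differentiableAt (isOpen_ball.mem_nhds (hp i))).hasDerivAt
    have hB := hwd.comp_hasFDerivAt p hB0
    exact hA.mul hB
  have := HasFDerivAt.fun_sum key
  have h2 : (ContinuousLinearMap.proj (R := ℂ) (φ := fun _ : ι => ℂ) i).comp (evalMapDeriv w p) =
      ∑ l, (p.2 l • (deriv (w l i) (p.1 i) •
            ((ContinuousLinearMap.proj (R := ℂ) (φ := fun _ : ι => ℂ) i).comp
              (ContinuousLinearMap.fst ℂ (ι → ℂ) (Fin d → ℂ)))) +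
          w l i (p.1 i) •
            ((ContinuousLinearMap.proj (R := ℂ) (φ := fun _ : Fin d => ℂ) l).comp
              (ContinuousLinearMap.snd ℂ (ι → ℂ) (Fin d → ℂ)))) := by
    rw [evalMapDeriv, ContinuousLinearMap.proj_pi]
  rw [h2]
  exact this

theorem contDiffAt_evalMap {w : Fin d → ι → ℂ → ℂ} {a : ι → ℂ} {r : ℝ}
    (hw : ∀ l i, DifferentiableOn ℂ (w l i) (ball (a i) r))
    {p : (ι → ℂ) × (Fin d → ℂ)} (hp : ∀ i, p.1 i ∈ ball (a i) r) :
    ContDiffAt ℂ 1 (evalMap w) p := by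
  rw [contDiffAt_pi]
  intro i
  unfold evalMap
  apply ContDiffAt.sum
  intro l _
  apply ContDiffAt.mul
  · exact ((contDiff_apply ℂ ℂ l).comp contDiff_snd).contDiffAt
  · have h1 : ContDiffAt ℂ 1 (w l i) (p.1 i) :=
      ((hw l i).contDiffOn isOpen_ball).contDiffAt (isOpen_ball.mem_nhds (hp i))
    exact h1.comp p (((contDiff_apply ℂ ℂ i).comp contDiff_fst).contDiffAt)

/-- An injective continuous linear map between finite-dimensional complex spaces, the target
being of dimension at most that of the source, is a continuous linear equivalence. -/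
theorem exists_equiv_of_injective {E F : Type*} [NormedAddCommGroup E] [NormedSpace ℂ E]
    [FiniteDimensional ℂ E] [NormedAddCommGroup F] [NormedSpace ℂ F] [FiniteDimensional ℂ F]
    (L : E →L[ℂ] F) (hinj : Function.Injective L)
    (hdim : Module.finrank ℂ F ≤ Module.finrank ℂ E) :
    ∃ e : E ≃L[ℂ] F, (e : E →L[ℂ] F) = L := by
  have : CompleteSpace E := FiniteDimensional.complete ℂ E
  have : CompleteSpace F := FiniteDimensional.complete ℂ F
  have hle : Module.finrank ℂ E ≤ Module.finrank ℂ F :=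
    LinearMap.finrank_le_finrank_of_injective (f := (L : E →ₗ[ℂ] F)) hinj
  have heq : Module.finrank ℂ E = Module.finrank ℂ F := le_antisymm hle hdim
  have hsurj : Function.Surjective L :=
    (LinearMap.injective_iff_surjective_of_finrank_eq_finrank (f := (L : E →ₗ[ℂ] F)) heq).1 hinj
  refine ⟨ContinuousLinearEquiv.ofBijective L (LinearMap.ker_eq_bot.2 hinj)
    (LinearMap.range_eq_top.2 hsurj), ?_⟩
  exact ContinuousLinearEquiv.coe_ofBijective _ _ _

theorem card_compl_range {σ : Fin g → ι} (hσ : Function.Injective σ)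
    [Fintype {i : ι // i ∉ Set.range σ}] :
    Fintype.card {i : ι // i ∉ Set.range σ} + g = Fintype.card ι := by
  classical
  have h1 : Fintype.card {i : ι // i ∈ Set.range σ} = g := by
    have := Set.card_range_of_injective hσ
    rw [Fintype.card_fin] at this
    convert this
  have h2 := Fintype.card_subtype_compl (fun i : ι => i ∈ Set.range σ)
  have h3 : Fintype.card {i : ι // i ∈ Set.range σ} ≤ Fintype.card ι :=
    Fintype.card_subtype_le _
  have h4 : Fintype.card {i : ι // i ∉ Set.range σ} =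
      Fintype.card ι - Fintype.card {i : ι // i ∈ Set.range σ} := by
    convert h2
  omega

/-- The map `t ↦ (coordinates off the non-special points, sums of the primitives)`. -/
def abelMap (P : ι → Fin g → ℂ → ℂ) (σ : Fin g → ι) (t : ι → ℂ) :
    ({i : ι // i ∉ Set.range σ} → ℂ) × (Fin g → ℂ) :=
  (fun i' => t i'.1, fun j => ∑ i, P i j (t i))

theorem exists_injOn_abelMap (a : ι → ℂ) {r : ℝ} (hr : 0 < r)
    (ω P : ι → Fin g → ℂ → ℂ)
    (hP : ∀ i j, ∀ z ∈ ball (a i) r, HasDerivAt (P i j) (ω i j z) z)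
    (σ : Fin g → ι) (hσ : Function.Injective σ)
    (hdet : (Matrix.of fun k j => ω (σ k) j (a (σ k))).det ≠ 0) :
    ∃ U ∈ 𝓝 a, Set.InjOn (abelMap P σ) U := by
  classical
  let L : (ι → ℂ) →L[ℂ] ({i : ι // i ∉ Set.range σ} → ℂ) × (Fin g → ℂ) :=
    (ContinuousLinearMap.pi fun i' : {i : ι // i ∉ Set.range σ} =>
        ContinuousLinearMap.proj (R := ℂ) (φ := fun _ : ι => ℂ) i'.1).prod
      (ContinuousLinearMap.pi fun j : Fin g =>
        ∑ i, ω i j (a i) • ContinuousLinearMap.proj (R := ℂ) (φ := fun _ : ι => ℂ) i)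
  have hL : HasFDerivAt (abelMap P σ) L a := by
    refine HasFDerivAt.prodMk ?_ ?_
    · exact (ContinuousLinearMap.pi fun i' : {i : ι // i ∉ Set.range σ} =>
        ContinuousLinearMap.proj (R := ℂ) (φ := fun _ : ι => ℂ) i'.1).hasFDerivAt
    · rw [hasFDerivAt_pi']
      intro j
      have key : ∀ i ∈ (Finset.univ : Finset ι), HasFDerivAt (fun t : ι → ℂ => P i j (t i))
          (ω i j (a i) • ContinuousLinearMap.proj (R := ℂ) (φ := fun _ : ι => ℂ) i) a := by
        intro i _
        exact (hP i j (a i) (mem_ball_self hr)).comp_hasFDerivAt a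
          (ContinuousLinearMap.proj (R := ℂ) (φ := fun _ : ι => ℂ) i).hasFDerivAt
      have := HasFDerivAt.fun_sum key
      rw [ContinuousLinearMap.proj_pi]
      exact this
  have hC : ContDiffAt ℂ 1 (abelMap P σ) a := by
    refine ContDiffAt.prodMk ?_ ?_
    · exact (ContinuousLinearMap.pi fun i' : {i : ι // i ∉ Set.range σ} =>
        ContinuousLinearMap.proj (R := ℂ) (φ := fun _ : ι => ℂ) i'.1).contDiff.contDiffAt
    · rw [contDiffAt_pi]
      intro j
      apply ContDiffAt.sum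
      intro i _
      have hd : DifferentiableOn ℂ (P i j) (ball (a i) r) := fun z hz =>
        (hP i j z hz).differentiableAt.differentiableWithinAt
      have h1 : ContDiffAt ℂ 1 (P i j) (a i) :=
        (hd.contDiffOn isOpen_ball).contDiffAt (isOpen_ball.mem_nhds (mem_ball_self hr))
      exact h1.comp a (contDiff_apply ℂ ℂ i).contDiffAt
  have hinj : Function.Injective L := by
    rw [injective_iff_map_eq_zero]
    intro τ hτ
    have h1 : ∀ i, i ∉ Set.range σ → τ i = 0 := by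
      intro i hi
      have := congrFun (congrArg Prod.fst hτ) ⟨i, hi⟩
      simpa [L] using this
    have h2 : ∀ j, ∑ i, ω i j (a i) * τ i = 0 := by
      intro j
      have := congrFun (congrArg Prod.snd hτ) j
      simpa [L] using this
    have h3 : Matrix.vecMul (fun k => τ (σ k))
        (Matrix.of fun k j => ω (σ k) j (a (σ k))) = 0 := by
      funext j
      show ∑ k, τ (σ k) * ω (σ k) j (a (σ k)) = 0
      rw [← h2 j]
      refine Fintype.sum_of_injective σ hσ _ _ ?_ ?_
      · intro i hi; rw [h1 i hi, mul_zero]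
      · intro k; ring
    have h4 := Matrix.eq_zero_of_vecMul_eq_zero hdet h3
    ext i
    by_cases hi : i ∈ Set.range σ
    · obtain ⟨k, rfl⟩ := hi
      exact congrFun h4 k
    · exact h1 i hi
  have hdim : Module.finrank ℂ (({i : ι // i ∉ Set.range σ} → ℂ) × (Fin g → ℂ)) ≤
      Module.finrank ℂ (ι → ℂ) := by
    have := card_compl_range hσ
    simp only [Module.finrank_prod, Module.finrank_fintype_fun_eq_card, Fintype.card_fin]
    omega
  obtain ⟨e, he⟩ := exists_equiv_of_injective L hinj hdim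
  have hL' : HasFDerivAt (abelMap P σ) (e : (ι → ℂ) →L[ℂ] _) a := by rw [he]; exact hL
  refine ⟨(hC.toOpenPartialHomeomorph (abelMap P σ) hL' one_ne_zero).source, ?_, ?_⟩
  · exact (hC.toOpenPartialHomeomorph (abelMap P σ) hL' one_ne_zero).open_source.mem_nhds
      (hC.mem_toOpenPartialHomeomorph_source hL' one_ne_zero)
  · exact (hC.toOpenPartialHomeomorph (abelMap P σ) hL' one_ne_zero).injOn

/-- **Local Abel theorem for a complete linear system** (abstract analytic core).

`w l i` is the `l`-th basis function of a fixed finite-dimensional space `V` of functions,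
evaluated along the `i`-th branch (a disc around `a i`); `c₀` are the coordinates of a function
`H₀ ∈ V` having a simple zero at every base point `a i`; `ω i j` are the coefficient functions of
the `j`-th differential along the `i`-th branch and `P i j` their primitives vanishing at `a i`.
`σ` singles out `g` base points at which the matrix of the `ω` is invertible (a non-special
divisor). Hypotheses: `hns` (a function of `V` vanishing at all other base points is a multiple
of `H₀`), `hRiem` (Riemann's inequality `dim V ≥ N + 1 - g`), `hpencil` (the residue relation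
for `H_{c₁} / H_c`). Conclusion: every tuple `t` near the base with vanishing sums of primitives
is the set of zeros of some nonzero `H_c ∈ V`. -/
theorem localAbel [Nonempty ι]
    (a : ι → ℂ) {r : ℝ} (hr : 0 < r)
    (w : Fin d → ι → ℂ → ℂ) (hw : ∀ l i, DifferentiableOn ℂ (w l i) (ball (a i) r))
    (ω P : ι → Fin g → ℂ → ℂ)
    (hP : ∀ i j, ∀ z ∈ ball (a i) r, HasDerivAt (P i j) (ω i j z) z)
    (hP0 : ∀ i j, P i j (a i) = 0)
    (c₀ : Fin d → ℂ)
    (h0 : ∀ i, ∑ l, c₀ l * w l i (a i) = 0)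
    (h1 : ∀ i, ∑ l, c₀ l * deriv (w l i) (a i) ≠ 0)
    (σ : Fin g → ι) (hσ : Function.Injective σ)
    (hdet : (Matrix.of fun k j => ω (σ k) j (a (σ k))).det ≠ 0)
    (hns : ∀ c₁ : Fin d → ℂ, (∀ i, i ∉ Set.range σ → ∑ l, c₁ l * w l i (a i) = 0) →
      ∃ κ : ℂ, c₁ = κ • c₀)
    (hRiem : Fintype.card ι + 1 ≤ d + g)
    (hpencil : ∀ (c c₁ : Fin d → ℂ) (t : ι → ℂ), (∀ i, t i ∈ ball (a i) r) →
        (∀ i, ∑ l, c l * w l i (t i) = 0) → (∀ i, ∑ l, c l * deriv (w l i) (t i) ≠ 0) →
        ∀ j, ∑ i, ω i j (t i) *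
          ((∑ l, c₁ l * w l i (t i)) / (∑ l, c l * deriv (w l i) (t i))) = 0) :
    ∃ δ > 0, ∀ t : ι → ℂ, (∀ i, t i ∈ ball (a i) δ) → (∀ j, ∑ i, P i j (t i) = 0) →
      ∃ c : Fin d → ℂ, c ≠ 0 ∧ (∀ i, ∑ l, c l * w l i (t i) = 0) ∧
        ∀ i, ∑ l, c l * deriv (w l i) (t i) ≠ 0 := by
  classical
  obtain ⟨i₀⟩ := ‹Nonempty ι›
  obtain ⟨l₀, hl₀⟩ : ∃ l₀, c₀ l₀ ≠ 0 := by
    by_contra hcon
    simp only [not_exists, not_not] at hcon
    exact h1 i₀ (by simp [hcon])
  let E := (ι → ℂ) × (Fin d → ℂ)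
  let F := (ι → ℂ) × (({i : ι // i ∉ Set.range σ} → ℂ) × ℂ)
  let Llin : E →L[ℂ] ({i : ι // i ∉ Set.range σ} → ℂ) × ℂ :=
    ((ContinuousLinearMap.pi fun i' : {i : ι // i ∉ Set.range σ} =>
        (ContinuousLinearMap.proj (R := ℂ) (φ := fun _ : ι => ℂ) i'.1).comp
          (ContinuousLinearMap.fst ℂ (ι → ℂ) (Fin d → ℂ)))).prod
      ((ContinuousLinearMap.proj (R := ℂ) (φ := fun _ : Fin d => ℂ) l₀).comp
          (ContinuousLinearMap.snd ℂ (ι → ℂ) (Fin d → ℂ)))
  let T : E → F := fun p => (evalMap w p, Llin p)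
  let p₀ : E := (a, c₀)
  have hp₀ : ∀ i, p₀.1 i ∈ ball (a i) r := fun i => mem_ball_self hr
  have hTd : ∀ p : E, (∀ i, p.1 i ∈ ball (a i) r) →
      HasFDerivAt T ((evalMapDeriv w p).prod Llin) p := fun p hp =>
    (hasFDerivAt_evalMap hw hp).prodMk Llin.hasFDerivAt
  have hTC : ContDiffAt ℂ 1 T p₀ :=
    (contDiffAt_evalMap hw hp₀).prodMk Llin.contDiff.contDiffAt
  have hLlin : ∀ q : E,
      Llin q = (fun i' : {i : ι // i ∉ Set.range σ} => q.1 i'.1, q.2 l₀) := by
    intro q; rfl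
  have hinj : Function.Injective ((evalMapDeriv w p₀).prod Llin) := by
    rw [injective_iff_map_eq_zero]
    intro q hq
    have hq1 : ∀ i, (∑ l, c₀ l * deriv (w l i) (a i)) * q.1 i + ∑ l, q.2 l * w l i (a i) = 0 := by
      intro i
      have := congrFun (congrArg Prod.fst hq) i
      rw [ContinuousLinearMap.prod_apply] at this
      rw [← evalMapDeriv_apply w p₀ q i]
      exact this
    have hq' : Llin q = 0 := by
      have := congrArg Prod.snd hq
      rw [ContinuousLinearMap.prod_apply] at this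
      exact this
    rw [hLlin] at hq'
    have hq2 : ∀ i, i ∉ Set.range σ → q.1 i = 0 := by
      intro i hi
      exact congrFun (congrArg Prod.fst hq') ⟨i, hi⟩
    have hq3 : q.2 l₀ = 0 := congrArg Prod.snd hq'
    obtain ⟨κ, hκ⟩ := hns q.2 (fun i hi => by
      have := hq1 i
      rw [hq2 i hi, mul_zero, zero_add] at this
      exact this)
    have hκ0 : κ = 0 := by
      have := congrFun hκ l₀
      rw [hq3, Pi.smul_apply, smul_eq_mul] at this
      rcases mul_eq_zero.1 this.symm with h | h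
      · exact h
      · exact absurd h hl₀
    have hq4 : q.2 = 0 := by rw [hκ, hκ0, zero_smul]
    have hq5 : q.1 = 0 := by
      funext i
      have := hq1 i
      rw [hq4] at this
      simp only [Pi.zero_apply, zero_mul, Finset.sum_const_zero, add_zero] at this
      exact (mul_eq_zero.1 this).resolve_left (h1 i)
    exact Prod.ext hq5 hq4
  have hdim : Module.finrank ℂ F ≤ Module.finrank ℂ E := by
    have := card_compl_range hσ
    simp only [E, F, Module.finrank_prod, Module.finrank_fintype_fun_eq_card, Fintype.card_fin,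
      Module.finrank_self]
    omega
  obtain ⟨e, he⟩ := exists_equiv_of_injective ((evalMapDeriv w p₀).prod Llin) hinj hdim
  have hT' : HasFDerivAt T (e : E →L[ℂ] F) p₀ := by rw [he]; exact hTd p₀ hp₀
  let Θ : F → E := hTC.localInverse hT' one_ne_zero
  let y₀ : F := T p₀
  have hy₀ : y₀ = (0, (fun i' : {i : ι // i ∉ Set.range σ} => a i'.1, c₀ l₀)) := by
    show (evalMap w p₀, Llin p₀) = _
    rw [hLlin]
    congr 1
    funext i
    exact h0 i
  have hΘ0 : Θ y₀ = p₀ := hTC.localInverse_apply_image hT' one_ne_zero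
  have hΘC : ContDiffAt ℂ 1 Θ y₀ := hTC.to_localInverse hT' one_ne_zero
  have hΘd : ∀ᶠ y in 𝓝 y₀, DifferentiableAt ℂ Θ y := by
    filter_upwards [hΘC.eventually (by simp)] with y hy
    exact hy.differentiableAt one_ne_zero
  have hΘr : ∀ᶠ y in 𝓝 y₀, T (Θ y) = y :=
    (hTC.hasStrictFDerivAt' hT' one_ne_zero).eventually_right_inverse
  obtain ⟨U, hU, hUinj⟩ := exists_injOn_abelMap a hr ω P hP σ hσ hdet
  have hO : ∀ᶠ p in 𝓝 p₀, (∀ i, p.1 i ∈ ball (a i) r) ∧
      (∀ i, ∑ l, p.2 l * deriv (w l i) (p.1 i) ≠ 0) ∧ p.1 ∈ U := by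
    have hfst : ContinuousAt (fun p : E => p.1) p₀ := continuousAt_fst
    have e1 : ∀ᶠ p in 𝓝 p₀, ∀ i, p.1 i ∈ ball (a i) r := by
      rw [eventually_all]
      intro i
      have hci : ContinuousAt (fun p : E => p.1 i) p₀ :=
        (continuous_apply i).continuousAt.comp hfst
      exact hci (isOpen_ball.mem_nhds (mem_ball_self hr))
    have e2 : ∀ᶠ p in 𝓝 p₀, ∀ i, ∑ l, p.2 l * deriv (w l i) (p.1 i) ≠ 0 := by
      rw [eventually_all]
      intro i
      have hc : ContinuousAt (fun p : E => ∑ l, p.2 l * deriv (w l i) (p.1 i)) p₀ := by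
        apply tendsto_finsetSum
        intro l _
        have c1 : ContinuousAt (fun p : E => p.2 l) p₀ :=
          (continuous_apply l).continuousAt.comp continuousAt_snd
        have c2 : ContinuousAt (deriv (w l i)) (a i) :=
          (((hw l i).deriv isOpen_ball).continuousOn).continuousAt
            (isOpen_ball.mem_nhds (mem_ball_self hr))
        have c3 : ContinuousAt (fun p : E => deriv (w l i) (p.1 i)) p₀ :=
          ContinuousAt.comp (g := deriv (w l i)) (f := fun p : E => p.1 i) (x := p₀) c2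
            ((continuous_apply i).continuousAt.comp hfst)
        exact c1.mul c3
      exact hc.eventually_ne (h1 i)
    have e3 : ∀ᶠ p in 𝓝 p₀, p.1 ∈ U := hfst hU
    filter_upwards [e1, e2, e3] with p q1 q2 q3 using ⟨q1, q2, q3⟩
  have hΘO : ∀ᶠ y in 𝓝 y₀, (∀ i, (Θ y).1 i ∈ ball (a i) r) ∧
      (∀ i, ∑ l, (Θ y).2 l * deriv (w l i) ((Θ y).1 i) ≠ 0) ∧ (Θ y).1 ∈ U := by
    have hΘcont : ContinuousAt Θ y₀ := hΘC.continuousAt
    have htend : Tendsto Θ (𝓝 y₀) (𝓝 p₀) := by
      have := hΘcont.tendsto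
      rwa [hΘ0] at this
    exact htend.eventually hO
  obtain ⟨ε, hε, hball⟩ := Metric.eventually_nhds_iff_ball.1 (hΘd.and (hΘr.and hΘO))
  obtain ⟨δ₁, hδ₁, hUball⟩ := Metric.mem_nhds_iff.1 hU
  refine ⟨min ε δ₁, lt_min hε hδ₁, ?_⟩
  intro t ht hPt
  let y₁ : F := (0, (fun i' : {i : ι // i ∉ Set.range σ} => t i'.1, c₀ l₀))
  have hy₁ : dist y₁ y₀ < ε := by
    rw [hy₀]
    have h' : dist (fun i' : {i : ι // i ∉ Set.range σ} => t i'.1) (fun i' => a i'.1) < ε := by
      rw [dist_pi_lt_iff hε]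
      intro i'
      exact lt_of_lt_of_le (mem_ball.1 (ht i'.1)) (min_le_left _ _)
    show max (dist (0 : ι → ℂ) 0)
      (max (dist (fun i' : {i : ι // i ∉ Set.range σ} => t i'.1) (fun i' => a i'.1))
        (dist (c₀ l₀) (c₀ l₀))) < ε
    simp [h']
  let y : ℂ → F := fun s => y₀ + s • (y₁ - y₀)
  have hy0 : y 0 = y₀ := by simp [y]
  have hy1 : y 1 = y₁ := by simp [y]
  have hycont : Continuous y := by fun_prop
  let S : Set ℂ := y ⁻¹' ball y₀ ε
  have hSopen : IsOpen S := isOpen_ball.preimage hycont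
  have hS : ∀ s : ℝ, s ∈ Icc (0:ℝ) 1 → (s : ℂ) ∈ S := by
    intro s hs
    show y s ∈ ball y₀ ε
    rw [mem_ball, dist_eq_norm]
    show ‖y₀ + (s:ℂ) • (y₁ - y₀) - y₀‖ < ε
    rw [add_sub_cancel_left, norm_smul]
    have hs1 : ‖(s:ℂ)‖ ≤ 1 := by
      rw [Complex.norm_real, Real.norm_eq_abs, abs_le]
      constructor <;> linarith [hs.1, hs.2]
    calc ‖(s:ℂ)‖ * ‖y₁ - y₀‖ ≤ 1 * ‖y₁ - y₀‖ := by gcongr
      _ = dist y₁ y₀ := by rw [one_mul, dist_eq_norm]
      _ < ε := hy₁
  let γ : ℂ → E := fun s => Θ (y s)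
  let γ' : ℂ → E := fun s => fderiv ℂ Θ (y s) (y₁ - y₀)
  have hγ : ∀ s ∈ S, HasDerivAt γ (γ' s) s := by
    intro s hs
    have h1' : HasFDerivAt Θ (fderiv ℂ Θ (y s)) (y s) := (hball (y s) hs).1.hasFDerivAt
    have h2' : HasDerivAt y (y₁ - y₀) s := by
      have h3 : HasDerivAt (fun x : ℂ => x • (y₁ - y₀)) ((1:ℂ) • (y₁ - y₀)) s :=
        (hasDerivAt_id s).smul_const (y₁ - y₀)
      rw [one_smul] at h3
      exact h3.const_add y₀
    exact h1'.comp_hasDerivAt s h2'
  have hreg : ∀ s ∈ S, ∀ i, (γ s).1 i ∈ ball (a i) r := fun s hs => (hball (y s) hs).2.2.1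
  have hdne : ∀ s ∈ S, ∀ i, ∑ l, (γ s).2 l * deriv (w l i) ((γ s).1 i) ≠ 0 :=
    fun s hs => (hball (y s) hs).2.2.2.1
  have hTγ : ∀ s ∈ S, T (γ s) = y s := fun s hs => (hball (y s) hs).2.1
  have hy_fst : ∀ s, (y s).1 = 0 := by
    intro s
    show (y₀ + s • (y₁ - y₀)).1 = 0
    rw [hy₀]
    show (0 : ι → ℂ) + s • ((0 : ι → ℂ) - 0) = 0
    simp
  have hzero : ∀ s ∈ S, evalMap w (γ s) = 0 := by
    intro s hs
    have := congrArg Prod.fst (hTγ s hs)
    rw [hy_fst] at this
    exact this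
  have hderiv0 : ∀ s ∈ S, evalMapDeriv w (γ s) (γ' s) = 0 := by
    intro s hs
    have hchain : HasDerivAt (fun s' => evalMap w (γ s')) (evalMapDeriv w (γ s) (γ' s)) s :=
      (hasFDerivAt_evalMap hw (hreg s hs)).comp_hasDerivAt s (hγ s hs)
    have hz : HasDerivAt (fun s' => evalMap w (γ s')) 0 s := by
      refine (hasDerivAt_const s (0 : ι → ℂ)).congr_of_eventuallyEq ?_
      filter_upwards [hSopen.mem_nhds hs] with s' hs'
      exact hzero s' hs'
    exact hchain.unique hz
  have hFderiv : ∀ s ∈ S, ∀ j, HasDerivAt (fun s' => ∑ i, P i j ((γ s').1 i)) 0 s := by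
    intro s hs j
    have hcomp : ∀ i ∈ (Finset.univ : Finset ι),
        HasDerivAt (fun s' => P i j ((γ s').1 i)) (ω i j ((γ s).1 i) * (γ' s).1 i) s := by
      intro i _
      have hproj : HasDerivAt (fun s' => (γ s').1 i) ((γ' s).1 i) s :=
        ((ContinuousLinearMap.proj (R := ℂ) (φ := fun _ : ι => ℂ) i).comp
          (ContinuousLinearMap.fst ℂ (ι → ℂ) (Fin d → ℂ))).hasFDerivAt.comp_hasDerivAt s
            (hγ s hs)
      exact (hP i j _ (hreg s hs i)).comp s hproj
    have hsum := HasDerivAt.fun_sum hcomp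
    have hval : ∑ i, ω i j ((γ s).1 i) * (γ' s).1 i = 0 := by
      have hpen := hpencil (γ s).2 (γ' s).2 (γ s).1 (hreg s hs)
        (fun i => congrFun (hzero s hs) i) (hdne s hs) j
      have hrel : ∀ i, (γ' s).1 i = -((∑ l, (γ' s).2 l * w l i ((γ s).1 i)) /
          (∑ l, (γ s).2 l * deriv (w l i) ((γ s).1 i))) := by
        intro i
        have h := congrFun (hderiv0 s hs) i
        rw [evalMapDeriv_apply, Pi.zero_apply] at h
        have hne := hdne s hs i
        rw [eq_neg_iff_add_eq_zero]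
        field_simp
        linear_combination h
      calc ∑ i, ω i j ((γ s).1 i) * (γ' s).1 i
          = -∑ i, ω i j ((γ s).1 i) * ((∑ l, (γ' s).2 l * w l i ((γ s).1 i)) /
              (∑ l, (γ s).2 l * deriv (w l i) ((γ s).1 i))) := by
            rw [← Finset.sum_neg_distrib]
            refine Finset.sum_congr rfl fun i _ => ?_
            rw [hrel i]; ring
        _ = 0 := by rw [hpen, neg_zero]
    rw [hval] at hsum
    exact hsum
  have hconst : ∀ j, ∑ i, P i j ((γ 1).1 i) = 0 := by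
    intro j
    let f : ℝ → ℂ := fun s => ∑ i, P i j ((γ (s : ℂ)).1 i)
    have hf : ∀ s ∈ Icc (0:ℝ) 1, HasDerivAt f 0 s := by
      intro s hs
      exact (hFderiv (s : ℂ) (hS s hs) j).comp_ofReal
    have hc := constant_of_has_deriv_right_zero (f := f) (a := 0) (b := 1)
      (fun s hs => (hf s hs).continuousAt.continuousWithinAt)
      (fun s hs => (hf s ⟨hs.1, hs.2.le⟩).hasDerivWithinAt)
    have h1' := hc 1 (by simp)
    have hf0 : f 0 = 0 := by
      show ∑ i, P i j ((γ ((0:ℝ) : ℂ)).1 i) = 0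
      have hγ0 : γ ((0:ℝ):ℂ) = p₀ := by
        show Θ (y ((0:ℝ):ℂ)) = p₀
        rw [Complex.ofReal_zero, hy0, hΘ0]
      rw [hγ0]
      simp [p₀, hP0]
    have hf1 : f 1 = ∑ i, P i j ((γ 1).1 i) := by
      show ∑ i, P i j ((γ ((1:ℝ) : ℂ)).1 i) = _
      rw [Complex.ofReal_one]
    rw [← hf1, h1', hf0]
  have h1S : (1 : ℂ) ∈ S := by simpa using hS 1 (by simp)
  have hγ1 : T (γ 1) = y₁ := by rw [hTγ 1 h1S, hy1]
  have hab : abelMap P σ (γ 1).1 = abelMap P σ t := by
    unfold abelMap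
    refine Prod.ext ?_ ?_
    · exact congrArg (fun z : F => z.2.1) hγ1
    · funext j
      show ∑ i, P i j ((γ 1).1 i) = ∑ i, P i j (t i)
      rw [hconst j, hPt j]
  have htU : t ∈ U := by
    apply hUball
    rw [mem_ball, dist_pi_lt_iff hδ₁]
    intro i
    exact lt_of_lt_of_le (mem_ball.1 (ht i)) (min_le_right _ _)
  have hγU : (γ 1).1 ∈ U := (hball (y 1) h1S).2.2.2.2
  have heq : (γ 1).1 = t := hUinj hγU htU hab
  refine ⟨(γ 1).2, ?_, ?_, ?_⟩
  · intro hzero'
    have h2 : (γ 1).2 l₀ = c₀ l₀ := congrArg (fun z : F => z.2.2) hγ1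
    rw [hzero'] at h2
    exact hl₀ h2.symm
  · intro i
    have := congrFun (hzero 1 h1S) i
    rw [← heq]
    exact this
  · intro i
    have := hdne 1 h1S i
    rw [← heq]
    exact this

end Fermat.Agent.S27.helper4375
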