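import Fermat.Agent.S27.helper197_CFE
import Fermat.Agent.S27.helper4889_Rigidity

/-!
# S27, Lefschetz transfer: derivations of a constant field extension preserve valuation rings

Setting of `helper8094.IsConstExt K0 F0 K1 F1` (curves over algebraically closed fields of
characteristic zero).  Let `d` be a derivation of `F1` which kills the image of `F0` and maps the
constants `K1` into themselves.  Then `d` maps every valuation ring of a place of `F1 / K1` into
itself (`derivation_mem_valuationSubring`).  This is the hypothesis `hval` of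
`helper4889.rigidity`.

Proof (no plane model, no local analysis).  Let `ι` be the extension map of places (`CFE1`).
* For every divisor `E` of `F0`, the space `L(ι E)` is the `K1`-span of the image of `L(E)`
  (`CFE3`), hence `d` maps `L(ι E)` into itself (`d (c • b) = d c • b`).
* Let `u` be regular at the place `w`.  Pick a place `v∞` of `F0` with `ι v∞ ≠ w`.  By Riemann's
  theorem on `F1` there is `s ∈ L(n · ι v∞ - U)`, `U` the polar divisor of `u` away from `ι v∞`,
  with `ord_w s = 0`.  Then `s` and `a := u * s` lie in `L(m · ι v∞)` for `m` large, so `d s` and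
  `d a` are regular at `w`, and `d u = s⁻¹ * (d a - u * d s)` is regular at `w`.
-/

set_option autoImplicit false

open AlgebraicCurve

namespace Fermat.Agent.S27.helper440

namespace DerVal

open Fermat.Agent.S24

section Span

variable {K1 : Type*} {F0 : Type*} {F1 : Type*} [Field K1] [Field F0] [Field F1]
  [Algebra K1 F1] [Algebra F0 F1]

/-- A derivation of `F1` that kills the image of `F0` and maps constants to constants preserves
the `K1`-span of the image of any subset of `F0`. -/
theorem derivation_mem_span (d : Derivation ℤ F1 F1)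
    (h0 : ∀ a : F0, d (algebraMap F0 F1 a) = 0)
    (hK : ∀ c : K1, ∃ c' : K1, d (algebraMap K1 F1 c) = algebraMap K1 F1 c')
    (S : Set F0) {h : F1} (hh : h ∈ Submodule.span K1 (algebraMap F0 F1 '' S)) :
    d h ∈ Submodule.span K1 (algebraMap F0 F1 '' S) := by
  induction hh using Submodule.span_induction with
  | mem x hx =>
    obtain ⟨a, -, rfl⟩ := hx
    rw [h0 a]
    exact zero_mem _
  | zero =>
    rw [map_zero]
    exact zero_mem _
  | add x y _ _ hx hy =>
    rw [map_add]
    exact add_mem hx hy
  | smul c x hx hdx =>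
    obtain ⟨c', hc'⟩ := hK c
    rw [Algebra.smul_def, Derivation.leibniz, hc']
    refine add_mem ?_ ?_
    · rw [smul_eq_mul, ← Algebra.smul_def]
      exact Submodule.smul_mem _ c hdx
    · rw [smul_eq_mul, mul_comm, ← Algebra.smul_def]
      exact Submodule.smul_mem _ c' hx

end Span

section Curve

variable {K : Type*} {F : Type*} [Field K] [Field F] [Algebra K F]

theorem rrSpace_mono {D D' : Divisor K F} (h : D ≤ D') :
    riemannRochSpace D ≤ riemannRochSpace D' := by
  intro f hf
  rw [mem_riemannRochSpace_iff] at hf ⊢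
  intro v
  rcases hf v with h0 | h0
  · exact Or.inl h0
  · right
    have := Finsupp.le_def.mp h v
    omega

/-- On a curve with weak Riemann–Roch: given places `w ≠ w∞` and a divisor `U` not containing
`w`, there is a function with poles only at `w∞`, zeros of order at least `U`, and which is a
unit at `w`. -/
theorem exists_mem_rrSpace_ord_eq_zero [IsAlgClosed K] [IsCurveOver K F]
    (hW : helper8094.WeakRR K F) (w winf : Place K F) (hne : winf ≠ w) (U : Divisor K F)
    (hU : U w = 0) :
    ∃ (n : ℤ) (s : F), 0 ≤ n ∧ s ≠ 0 ∧ s ∈ riemannRochSpace (Finsupp.single winf n - U) ∧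
      w.ord s = 0 := by
  classical
  obtain ⟨c, hc⟩ := hW
  have hdeg1 : ∀ v : Place K F, v.deg = 1 := IsCurveOver.deg_eq_one_of_isAlgClosed
  set n : ℤ := max 0 (c + Divisor.degree U + 1) with hn
  set D : Divisor K F := Finsupp.single winf n - U with hD
  set D' : Divisor K F := D - Finsupp.single w 1 with hD'
  have hdegD : Divisor.degree D = n - Divisor.degree U := by
    rw [hD, map_sub, Divisor.degree_single, hdeg1 winf]
    simp
  have hdegD' : Divisor.degree D' = n - Divisor.degree U - 1 := by
    rw [hD', map_sub, hdegD, Divisor.degree_single, hdeg1 w]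
    simp
  have hn1 : c + Divisor.degree U + 1 ≤ n := le_max_right _ _
  have e1 := hc D (by rw [hdegD]; omega)
  have e2 := hc D' (by rw [hdegD']; omega)
  have hle : riemannRochSpace D' ≤ riemannRochSpace D := by
    apply rrSpace_mono
    rw [hD', Finsupp.le_def]
    intro v
    have h1 : (0 : ℤ) ≤ (Finsupp.single w (1 : ℤ)) v := by
      rw [Finsupp.single_apply]
      split_ifs <;> norm_num
    simp only [Finsupp.coe_sub, Pi.sub_apply]
    omega
  have hex : ∃ s : F, s ∈ riemannRochSpace D ∧ s ∉ riemannRochSpace D' := by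
    by_contra hcon
    push Not at hcon
    have heq : riemannRochSpace D = riemannRochSpace D' := le_antisymm hcon hle
    rw [heq, e2, hdegD, hdegD'] at e1
    omega
  obtain ⟨s, hs, hs'⟩ := hex
  have hs0 : s ≠ 0 := by
    rintro rfl
    exact hs' (zero_mem _)
  refine ⟨n, s, le_max_left _ _, hs0, hs, ?_⟩
  have hDw : D w = 0 := by
    rw [hD, Finsupp.sub_apply, hU, Finsupp.single_eq_of_ne' hne]
    simp
  rw [mem_riemannRochSpace_iff] at hs
  have h1 : 0 ≤ w.ord s := by
    have := (hs w).resolve_left hs0
    rw [hDw] at this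
    simpa using this
  have h2 : w.ord s < 1 := by
    by_contra hcon
    apply hs'
    rw [mem_riemannRochSpace_iff]
    intro v
    right
    by_cases hv : v = w
    · subst hv
      rw [hD', Finsupp.sub_apply, hDw, Finsupp.single_eq_same]
      omega
    · have := (hs v).resolve_left hs0
      rw [hD', Finsupp.sub_apply, Finsupp.single_eq_of_ne' (Ne.symm hv)]
      simpa using this
  omega

end Curve

end DerVal

section Main

universe u v u' v'

variable {K0 : Type u} {F0 : Type v} {K1 : Type u'} {F1 : Type v'}
  [Field K0] [Field F0] [Field K1] [Field F1]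
  [Algebra K0 F0] [Algebra K1 F1] [Algebra K0 K1] [Algebra F0 F1] [Algebra K0 F1]
  [IsScalarTower K0 F0 F1] [IsScalarTower K0 K1 F1]
  [IsAlgClosed K0] [CharZero K0] [IsAlgClosed K1] [CharZero K1]
  [IsCurveOver K0 F0] [Algebra.EssFiniteType K0 F0]
  [IsCurveOver K1 F1] [Algebra.EssFiniteType K1 F1]

open Fermat.Agent.S24

omit [Algebra K0 K1] [Algebra K0 F1] [IsScalarTower K0 F0 F1] [IsScalarTower K0 K1 F1]
  [IsAlgClosed K1] [CharZero K1] [IsCurveOver K1 F1] [Algebra.EssFiniteType K1 F1] in
/-- Some place of `F0` has an extension different from the given place `w` of `F1`. -/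
theorem DerVal.exists_place_ne (ι : Place K0 F0 → Place K1 F1)
    (hι : ∀ v, helper8094.IsExtOf (ι v) v) (w : Place K1 F1) :
    ∃ v : Place K0 F0, ι v ≠ w := by
  obtain ⟨x, hx, hfin⟩ := helper5411.exists_transcendental_finite (K := K0) (F := F0)
  have : FiniteDimensional (IntermediateField.adjoin K0 {x}) F0 := hfin
  have hex : ∀ c : K0, ∃ P : Place K0 F0, 0 < P.ord (x - algebraMap K0 F0 c) := by
    intro c
    obtain ⟨s, hs, hsum⟩ := helper204.exists_finset_zeros hx c
    have hpos : 0 < Module.finrank (IntermediateField.adjoin K0 {x}) F0 := Module.finrank_pos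
    rcases s.eq_empty_or_nonempty with rfl | ⟨P, hP⟩
    · rw [Finset.sum_empty] at hsum
      have : (0 : ℤ) < Module.finrank (IntermediateField.adjoin K0 {x}) F0 := by
        exact_mod_cast hpos
      omega
    · exact ⟨P, (hs P).mp hP⟩
  obtain ⟨P0, hP0⟩ := hex 0
  obtain ⟨P1, hP1⟩ := hex 1
  by_contra hcon
  push Not at hcon
  have h1 : P1.ord (x - algebraMap K0 F0 0) = P0.ord (x - algebraMap K0 F0 0) := by
    rw [← hι P1, ← hι P0, hcon P1, hcon P0]
  rw [← h1] at hP0
  exact zero_ne_one (helper1370.eq_of_ord_sub_algebraMap_pos P1 hP0 hP1)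

/-- **VAL.** In a constant field extension `(K0, F0) ⊂ (K1, F1)` of curves over algebraically
closed fields of characteristic zero, a derivation `d` of `F1` that kills `F0` and maps the
constants `K1` into themselves maps every valuation ring of a place of `F1 / K1` into itself.
Hypothesis-passing form. -/
theorem derivation_mem_valuationSubring_of
    (h1 : helper8094.Stmt_CFE1.{u, v, u', v'}) (h3 : helper8094.Stmt_CFE3.{u, v, u', v'})
    (hW : helper8094.WeakRR K1 F1)
    (hce : helper8094.IsConstExt K0 F0 K1 F1) (d : Derivation ℤ F1 F1)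
    (h0 : ∀ a : F0, d (algebraMap F0 F1 a) = 0)
    (hK : ∀ c : K1, ∃ c' : K1, d (algebraMap K1 F1 c) = algebraMap K1 F1 c')
    (w : Place K1 F1) (u : F1) (hu : u ∈ w.toValuationSubring) :
    d u ∈ w.toValuationSubring := by
  classical
  rcases eq_or_ne u 0 with rfl | hu0
  · rw [map_zero]
    exact zero_mem _
  obtain ⟨hE, -, -⟩ := h1 K0 F0 K1 F1 hce
  choose ι hι _ using hE
  obtain ⟨vinf, hvinf⟩ := DerVal.exists_place_ne ι hι w
  set winf : Place K1 F1 := ι vinf with hwinf
  -- the divisor of `u` and its polar part away from `winf`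
  obtain ⟨Du, hDu, -⟩ := HasPrincipalDivisors.exists_divisor (K := K1) u hu0
  set U : Divisor K1 F1 :=
    Finsupp.erase winf (Du.mapRange (fun z : ℤ => max 0 (-z)) (by simp)) with hUdef
  have hUinf : U winf = 0 := by rw [hUdef, Finsupp.erase_same]
  have hUne : ∀ P : Place K1 F1, P ≠ winf → U P = max 0 (-P.ord u) := by
    intro P hP
    rw [hUdef, Finsupp.erase_ne hP, Finsupp.mapRange_apply, hDu P]
  have huw : 0 ≤ w.ord u := helper1370.ord_nonneg_of_mem w hu
  have hUw : U w = 0 := by
    rw [hUne w (Ne.symm hvinf)]
    omega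
  obtain ⟨n, s, hn, hs0, hs, hsw⟩ :=
    DerVal.exists_mem_rrSpace_ord_eq_zero hW w winf hvinf U hUw
  rw [mem_riemannRochSpace_iff] at hs
  set k : ℤ := max 0 (-winf.ord u) with hk
  set m : ℤ := n + k with hm
  -- `s` and `a := u * s` lie in `L(m · winf)`
  have hsL : s ∈ riemannRochSpace (Finsupp.single winf m) := by
    rw [mem_riemannRochSpace_iff]
    intro P
    right
    have hP := (hs P).resolve_left hs0
    by_cases hPw : P = winf
    · subst hPw
      rw [Finsupp.single_eq_same]
      rw [Finsupp.sub_apply, Finsupp.single_eq_same, hUinf] at hP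
      have : 0 ≤ k := le_max_left _ _
      omega
    · rw [Finsupp.single_eq_of_ne' (Ne.symm hPw)]
      rw [Finsupp.sub_apply, Finsupp.single_eq_of_ne' (Ne.symm hPw), hUne P hPw] at hP
      have : (0 : ℤ) ≤ max 0 (-P.ord u) := le_max_left _ _
      omega
  have haL : u * s ∈ riemannRochSpace (Finsupp.single winf m) := by
    rw [mem_riemannRochSpace_iff]
    intro P
    right
    have hP := (hs P).resolve_left hs0
    rw [P.ord_mul hu0 hs0]
    by_cases hPw : P = winf
    · subst hPw
      rw [Finsupp.single_eq_same]
      rw [Finsupp.sub_apply, Finsupp.single_eq_same, hUinf] at hP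
      have : -winf.ord u ≤ k := le_max_right _ _
      omega
    · rw [Finsupp.single_eq_of_ne' (Ne.symm hPw)]
      rw [Finsupp.sub_apply, Finsupp.single_eq_of_ne' (Ne.symm hPw), hUne P hPw] at hP
      have : -P.ord u ≤ max 0 (-P.ord u) := le_max_right _ _
      omega
  -- `d` preserves `L(m · winf)`
  have hmap : Finsupp.mapDomain ι (Finsupp.single vinf m) = Finsupp.single winf m := by
    rw [Finsupp.mapDomain_single]
  have hpres : ∀ h : F1, h ∈ riemannRochSpace (Finsupp.single winf m) →
      d h ∈ riemannRochSpace (Finsupp.single winf m) := by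
    intro h hh
    have h3' := (h3 K0 F0 K1 F1 hce ι hι (Finsupp.single vinf m)).1
    rw [hmap] at h3'
    exact (h3' (d h)).mpr (DerVal.derivation_mem_span d h0 hK _ ((h3' h).mp hh))
  -- regularity at `w` of the elements of `L(m · winf)`
  have hreg : ∀ h : F1, h ∈ riemannRochSpace (Finsupp.single winf m) →
      h ∈ w.toValuationSubring := by
    intro h hh
    rw [mem_riemannRochSpace_iff] at hh
    rcases hh w with h0' | h0'
    · rw [h0']
      exact zero_mem _
    · apply helper1370.mem_of_ord_nonneg
      rw [Finsupp.single_eq_of_ne' hvinf] at h0'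
      simpa using h0'
  have hda : d (u * s) ∈ w.toValuationSubring := hreg _ (hpres _ haL)
  have hds : d s ∈ w.toValuationSubring := hreg _ (hpres _ hsL)
  have hsinv : s⁻¹ ∈ w.toValuationSubring := by
    apply helper1370.mem_of_ord_nonneg
    rw [Place.ord_inv, hsw]
    simp
  have hleib : d (u * s) = u * d s + s * d u := by
    rw [Derivation.leibniz]
    simp [smul_eq_mul]
  have hfin : d u = s⁻¹ * (d (u * s) - u * d s) := by
    rw [hleib]
    field_simp
    ring
  rw [hfin]
  exact mul_mem hsinv (sub_mem hda (mul_mem hu hds))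

/-- **VAL**, unconditional (from the landed `Stmt_CFE1`, `Stmt_CFE3`, `Stmt_Riemann`). -/
theorem derivation_mem_valuationSubring
    (hce : helper8094.IsConstExt K0 F0 K1 F1) (d : Derivation ℤ F1 F1)
    (h0 : ∀ a : F0, d (algebraMap F0 F1 a) = 0)
    (hK : ∀ c : K1, ∃ c' : K1, d (algebraMap K1 F1 c) = algebraMap K1 F1 c')
    (w : Place K1 F1) (u : F1) (hu : u ∈ w.toValuationSubring) :
    d u ∈ w.toValuationSubring := by
  have hW : helper8094.WeakRR K1 F1 := by
    obtain ⟨x, hx, hfin⟩ := helper5411.exists_transcendental_finite (K := K1) (F := F1)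
    have : FiniteDimensional (IntermediateField.adjoin K1 {x}) F1 := hfin
    obtain ⟨-, h2, c, hc⟩ := helper4996.stmt_Riemann K1 F1 x hx
    refine ⟨c, fun D hD => ?_⟩
    have hns : repartitionsOf D ⊔ principalRepartitions K1 F1 = ⊤ := hc D hD
    have hH : Module.finrank K1 (H1 D) = 0 := by
      have : Subsingleton (H1 D) := Submodule.Quotient.subsingleton_iff.mpr hns
      exact Module.finrank_zero_of_subsingleton
    have h3 := h2 D
    rw [hH] at h3
    simpa using h3
  exact derivation_mem_valuationSubring_of helper197.stmt_CFE1 helper197.stmt_CFE3 hW hce d h0 hK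
    w u hu

end Main

end Fermat.Agent.S27.helper440
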