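import Mathlib

/-!
# S27, module SPAN-MAX: the maximum-principle criterion for "the period lattice spans"

Pure Mathlib. `X` is a compact space (think: the places of a complex function field with the
weak topology of `helper440_PlaceTop`), `E : V →+ J` a surjective homomorphism from a vector
space (think `ℂ^g → Pic⁰`), `κ : X → J` (think `Q ↦ [Q - Q₀]`), and around every point `P` a chart
`t P : N P → ball 0 (r P)` (onto) together with `h P : ℂ → V` such that
`κ Q = κ P + E (h P (t P Q))` on `N P`.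

* `exists_isClopen_of_charts`: for a real functional `L` killing `ker E` such that each
  `L ∘ h P` is the real part of a holomorphic function, there is a nonempty clopen set on which
  all `L ∘ h P` vanish (maximum principle at a maximum of `Q ↦ L (E⁻¹ (κ Q))`).
* `span_ker_eq_top_of_charts`, `span_ker_eq_top_of_charts_pi`: hence `ker E` spans `V` over `ℝ`
  as soon as the images of the `h P`, `P` in any nonempty clopen set, span `V`.
* `preconnectedSpace_of_charts`: `X` is connected as soon as there is a "function" with a single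
  pole and finite fibres which is holomorphic in local parametrisations.
-/

set_option autoImplicit false

namespace Fermat.Agent.S27.helper440

open Filter Topology Set

section Core

variable {X : Type*} [TopologicalSpace X] [CompactSpace X] [Nonempty X]
  {V : Type*} [AddCommGroup V] [Module ℝ V] {J : Type*} [AddCommGroup J]

/-- **Maximum principle core.** -/
theorem exists_isClopen_of_charts (E : V →+ J) (hE : Function.Surjective E) (κ : X → J)
    (N : X → Set X) (t : X → X → ℂ) (r : X → ℝ) (h : X → ℂ → V)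
    (hN : ∀ P, IsOpen (N P)) (hPN : ∀ P, P ∈ N P)
    (ht : ∀ P, ContinuousOn (t P) (N P)) (ht0 : ∀ P, t P P = 0)
    (htN : ∀ P, MapsTo (t P) (N P) (Metric.ball 0 (r P)))
    (hsurj : ∀ P, Metric.ball (0 : ℂ) (r P) ⊆ t P '' N P)
    (hκ : ∀ P, ∀ Q ∈ N P, κ Q = κ P + E (h P (t P Q)))
    (L : V →ₗ[ℝ] ℝ) (hL : ∀ v, E v = 0 → L v = 0)
    (G : X → ℂ → ℂ) (hG : ∀ P, DifferentiableOn ℂ (G P) (Metric.ball 0 (r P)))
    (hGL : ∀ P, ∀ z ∈ Metric.ball (0 : ℂ) (r P), L (h P z) = (G P z).re) :
    ∃ M : Set X, IsClopen M ∧ M.Nonempty ∧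
      ∀ P ∈ M, ∀ z ∈ Metric.ball (0 : ℂ) (r P), L (h P z) = 0 := by
  classical
  -- the real function `u = L ∘ E⁻¹ ∘ κ`
  let s : J → V := Function.surjInv hE
  have hs : ∀ j, E (s j) = j := Function.surjInv_eq hE
  let u : X → ℝ := fun Q => L (s (κ Q))
  have h0ball : ∀ P, (0 : ℂ) ∈ Metric.ball (0 : ℂ) (r P) := fun P => by
    have := htN P (hPN P)
    rwa [ht0 P] at this
  have hloc : ∀ P, ∀ Q ∈ N P, u Q = u P + (G P (t P Q)).re := by
    intro P Q hQ
    have h1 : E (s (κ Q) - s (κ P) - h P (t P Q)) = 0 := by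
      rw [map_sub, map_sub, hs, hs, hκ P Q hQ]
      abel
    have h2 := hL _ h1
    rw [map_sub, map_sub] at h2
    rw [← hGL P _ (htN P hQ)]
    show L (s (κ Q)) = L (s (κ P)) + L (h P (t P Q))
    linarith
  have hcont : ∀ P, ContinuousOn u (N P) := by
    intro P
    have h1 : ContinuousOn (fun Q => u P + (G P (t P Q)).re) (N P) :=
      continuousOn_const.add
        (Complex.continuous_re.comp_continuousOn ((hG P).continuousOn.comp (ht P) (htN P)))
    exact h1.congr fun Q hQ => hloc P Q hQ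
  have hu : Continuous u :=
    continuous_iff_continuousAt.mpr fun P => (hcont P).continuousAt ((hN P).mem_nhds (hPN P))
  obtain ⟨P0, -, hmax⟩ := isCompact_univ.exists_isMaxOn univ_nonempty hu.continuousOn
  have hmax' : ∀ Q, u Q ≤ u P0 := fun Q => hmax (mem_univ Q)
  -- at a maximum point the local real part vanishes identically
  have key : ∀ P, u P = u P0 → ∀ z ∈ Metric.ball (0 : ℂ) (r P), (G P z).re = 0 := by
    intro P hP
    have hre0 : (G P 0).re = 0 := by
      have := hloc P P (hPN P)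
      rw [ht0 P] at this
      linarith
    have hle : ∀ z ∈ Metric.ball (0 : ℂ) (r P), (G P z).re ≤ 0 := by
      intro z hz
      obtain ⟨Q, hQ, rfl⟩ := hsurj P hz
      have h1 := hloc P Q hQ
      have h2 := hmax' Q
      linarith
    have hd : DifferentiableOn ℂ (fun z => Complex.exp (G P z)) (Metric.ball 0 (r P)) :=
      Complex.differentiable_exp.comp_differentiableOn (hG P)
    have hm : IsMaxOn (norm ∘ fun z => Complex.exp (G P z)) (Metric.ball 0 (r P)) 0 := by
      intro z hz
      show ‖Complex.exp (G P z)‖ ≤ ‖Complex.exp (G P 0)‖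
      rw [Complex.norm_exp, Complex.norm_exp, hre0]
      exact Real.exp_le_exp.mpr (hle z hz)
    have heq := Complex.eqOn_of_isPreconnected_of_isMaxOn_norm
      (convex_ball (0 : ℂ) (r P)).isPreconnected Metric.isOpen_ball hd (h0ball P) hm
    intro z hz
    have h1 : Complex.exp (G P z) = Complex.exp (G P 0) := heq hz
    have h2 := congrArg norm h1
    rw [Complex.norm_exp, Complex.norm_exp, hre0] at h2
    exact Real.exp_injective h2
  refine ⟨u ⁻¹' {u P0}, ⟨isClosed_singleton.preimage hu, ?_⟩, ⟨P0, rfl⟩, ?_⟩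
  · rw [isOpen_iff_mem_nhds]
    intro P hP
    refine Filter.mem_of_superset ((hN P).mem_nhds (hPN P)) fun Q hQ => ?_
    show u Q = u P0
    rw [hloc P Q hQ, key P hP _ (htN P hQ), add_zero]
    exact hP
  · intro P hP z hz
    rw [hGL P z hz]
    exact key P hP z hz

end Core

section Complex

variable {X : Type*} [TopologicalSpace X] [CompactSpace X] [Nonempty X]
  {V : Type*} [NormedAddCommGroup V] [NormedSpace ℂ V] [FiniteDimensional ℂ V]
  {J : Type*} [AddCommGroup J]

/-- **The kernel spans** (general finite-dimensional complex space `V`). -/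
theorem span_ker_eq_top_of_charts (E : V →+ J) (hE : Function.Surjective E) (κ : X → J)
    (N : X → Set X) (t : X → X → ℂ) (r : X → ℝ) (h : X → ℂ → V)
    (hN : ∀ P, IsOpen (N P)) (hPN : ∀ P, P ∈ N P)
    (ht : ∀ P, ContinuousOn (t P) (N P)) (ht0 : ∀ P, t P P = 0)
    (htN : ∀ P, MapsTo (t P) (N P) (Metric.ball 0 (r P)))
    (hsurj : ∀ P, Metric.ball (0 : ℂ) (r P) ⊆ t P '' N P)
    (hh : ∀ P, DifferentiableOn ℂ (h P) (Metric.ball 0 (r P)))
    (hκ : ∀ P, ∀ Q ∈ N P, κ Q = κ P + E (h P (t P Q)))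
    (hspan : ∀ M : Set X, IsClopen M → M.Nonempty →
      Submodule.span ℝ (⋃ P ∈ M, h P '' Metric.ball (0 : ℂ) (r P)) = ⊤) :
    Submodule.span ℝ ((E.ker : Set V)) = ⊤ := by
  by_contra hne
  obtain ⟨L, hL0, hLker⟩ := Submodule.exists_le_ker_of_lt_top _ (lt_top_iff_ne_top.mpr hne)
  have hL : ∀ v, E v = 0 → L v = 0 := fun v hv =>
    hLker (Submodule.subset_span (show v ∈ (E.ker : Set V) from hv))
  let c : V →ₗ[ℂ] ℂ := Module.Dual.extendRCLike (𝕜 := ℂ) L
  have hc : ∀ v, (c v).re = L v := fun v => Module.Dual.re_extendRCLike_apply (𝕜 := ℂ) L v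
  have hcd : Differentiable ℂ c := (LinearMap.toContinuousLinearMap c).differentiable
  obtain ⟨M, hM, hMne, hMz⟩ := exists_isClopen_of_charts E hE κ N t r h hN hPN ht ht0 htN hsurj hκ
    L hL (fun P z => c (h P z)) (fun P => hcd.comp_differentiableOn (hh P))
    (fun P z _ => (hc _).symm)
  apply hL0
  have h1 : Submodule.span ℝ (⋃ P ∈ M, h P '' Metric.ball (0 : ℂ) (r P)) ≤ LinearMap.ker L := by
    rw [Submodule.span_le]
    intro v hv
    simp only [mem_iUnion, mem_image] at hv
    obtain ⟨P, hP, z, hz, rfl⟩ := hv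
    exact hMz P hP z hz
  rw [hspan M hM hMne, top_le_iff] at h1
  exact LinearMap.ker_eq_top.mp h1

/-- **The kernel spans**, concrete form for `V = ℂ^g` (the shape consumed by the lattice count). -/
theorem span_ker_eq_top_of_charts_pi (g : ℕ) (E : (Fin g → ℂ) →+ J)
    (hE : Function.Surjective E) (κ : X → J)
    (N : X → Set X) (t : X → X → ℂ) (r : X → ℝ) (h : X → ℂ → (Fin g → ℂ))
    (hN : ∀ P, IsOpen (N P)) (hPN : ∀ P, P ∈ N P)
    (ht : ∀ P, ContinuousOn (t P) (N P)) (ht0 : ∀ P, t P P = 0)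
    (htN : ∀ P, MapsTo (t P) (N P) (Metric.ball 0 (r P)))
    (hsurj : ∀ P, Metric.ball (0 : ℂ) (r P) ⊆ t P '' N P)
    (hh : ∀ P, DifferentiableOn ℂ (h P) (Metric.ball 0 (r P)))
    (hκ : ∀ P, ∀ Q ∈ N P, κ Q = κ P + E (h P (t P Q)))
    (hspan : ∀ M : Set X, IsClopen M → M.Nonempty →
      Submodule.span ℝ (⋃ P ∈ M, h P '' Metric.ball (0 : ℂ) (r P)) = ⊤) :
    Submodule.span ℝ ((E.ker : Set (Fin g → ℂ))) = ⊤ :=
  span_ker_eq_top_of_charts E hE κ N t r h hN hPN ht ht0 htN hsurj hh hκ hspan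

/-- **The kernel spans**, connected case: it is enough that all chart images together span. -/
theorem span_ker_eq_top_of_charts_of_preconnected [PreconnectedSpace X]
    (E : V →+ J) (hE : Function.Surjective E) (κ : X → J)
    (N : X → Set X) (t : X → X → ℂ) (r : X → ℝ) (h : X → ℂ → V)
    (hN : ∀ P, IsOpen (N P)) (hPN : ∀ P, P ∈ N P)
    (ht : ∀ P, ContinuousOn (t P) (N P)) (ht0 : ∀ P, t P P = 0)
    (htN : ∀ P, MapsTo (t P) (N P) (Metric.ball 0 (r P)))
    (hsurj : ∀ P, Metric.ball (0 : ℂ) (r P) ⊆ t P '' N P)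
    (hh : ∀ P, DifferentiableOn ℂ (h P) (Metric.ball 0 (r P)))
    (hκ : ∀ P, ∀ Q ∈ N P, κ Q = κ P + E (h P (t P Q)))
    (hspan : Submodule.span ℝ (⋃ P, h P '' Metric.ball (0 : ℂ) (r P)) = ⊤) :
    Submodule.span ℝ ((E.ker : Set V)) = ⊤ := by
  refine span_ker_eq_top_of_charts E hE κ N t r h hN hPN ht ht0 htN hsurj hh hκ ?_
  intro M hM hMne
  rcases isClopen_iff.mp hM with h0 | h1
  · exact absurd h0 hMne.ne_empty
  · rw [h1]
    simpa using hspan

end Complex

section Connected

variable {X : Type*} [TopologicalSpace X] [CompactSpace X]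

/-- **Connectedness by the maximum modulus principle.** A compact space carrying a continuous
map `f` to the Riemann sphere with a single pole `P0` and finite fibres, such that around every
other point there is an injective continuous parametrisation `ρ` by a disc along which `f` is
holomorphic, is preconnected. -/
theorem preconnectedSpace_of_charts (f : X → OnePoint ℂ) (hf : Continuous f) (P0 : X)
    (hpole : ∀ Q, f Q = OnePoint.infty → Q = P0)
    (hfib : ∀ c : ℂ, {Q | f Q = (c : OnePoint ℂ)}.Finite)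
    (hchart : ∀ P, P ≠ P0 → ∃ (r : ℝ) (ρ : ℂ → X) (G : ℂ → ℂ), 0 < r ∧
      ContinuousOn ρ (Metric.ball 0 r) ∧ ρ 0 = P ∧ InjOn ρ (Metric.ball 0 r) ∧
      DifferentiableOn ℂ G (Metric.ball 0 r) ∧
      ∀ z ∈ Metric.ball (0 : ℂ) r, f (ρ z) = (G z : OnePoint ℂ)) :
    PreconnectedSpace X := by
  -- a clopen set missing the pole is empty
  have main : ∀ B : Set X, IsClopen B → P0 ∉ B → B = ∅ := by
    intro B hB hP0
    by_contra hne
    have hBne : B.Nonempty := nonempty_iff_ne_empty.mpr hne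
    have hfin : ∀ Q ∈ B, f Q ≠ OnePoint.infty := fun Q hQ hinf => hP0 (hpole Q hinf ▸ hQ)
    let F' : X → ℂ := fun Q => (f Q).elim 0 id
    have hF' : ∀ Q ∈ B, f Q = (F' Q : OnePoint ℂ) := by
      intro Q hQ
      obtain ⟨c, hc⟩ := OnePoint.ne_infty_iff_exists.mp (hfin Q hQ)
      show f Q = (((f Q).elim 0 id : ℂ) : OnePoint ℂ)
      rw [← hc]
      rfl
    have hF'c : ContinuousOn F' B := by
      rw [OnePoint.isOpenEmbedding_coe.isInducing.continuousOn_iff]
      exact hf.continuousOn.congr fun Q hQ => (hF' Q hQ).symm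
    obtain ⟨P, hPB, hmax⟩ := hB.1.isCompact.exists_isMaxOn hBne hF'c.norm
    have hPne : P ≠ P0 := fun h => hP0 (h ▸ hPB)
    obtain ⟨r, ρ, G, hr, hρc, hρ0, hρinj, hGd, hGf⟩ := hchart P hPne
    have hopen : IsOpen (Metric.ball (0 : ℂ) r ∩ ρ ⁻¹' B) :=
      hρc.isOpen_inter_preimage Metric.isOpen_ball hB.2
    have h0mem : (0 : ℂ) ∈ Metric.ball (0 : ℂ) r ∩ ρ ⁻¹' B :=
      ⟨Metric.mem_ball_self hr, by rw [mem_preimage, hρ0]; exact hPB⟩
    obtain ⟨δ, hδ, hδsub⟩ := Metric.isOpen_iff.mp hopen 0 h0mem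
    have hGF : ∀ z ∈ Metric.ball (0 : ℂ) δ, G z = F' (ρ z) := by
      intro z hz
      have h1 := hGf z (hδsub hz).1
      rw [hF' _ (hδsub hz).2, OnePoint.coe_eq_coe] at h1
      exact h1.symm
    have hm : IsMaxOn (norm ∘ G) (Metric.ball (0 : ℂ) δ) 0 := by
      intro z hz
      show ‖G z‖ ≤ ‖G 0‖
      rw [hGF z hz, hGF 0 (Metric.mem_ball_self hδ), hρ0]
      exact hmax (hδsub hz).2
    have hsub : Metric.ball (0 : ℂ) δ ⊆ Metric.ball (0 : ℂ) r := fun z hz => (hδsub hz).1
    have heq := Complex.eqOn_of_isPreconnected_of_isMaxOn_norm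
      (convex_ball (0 : ℂ) δ).isPreconnected Metric.isOpen_ball (hGd.mono hsub)
      (Metric.mem_ball_self hδ) hm
    -- the fibre over `G 0` is infinite: contradiction
    have hmaps : MapsTo ρ (Metric.ball (0 : ℂ) δ) {Q | f Q = ((G 0 : ℂ) : OnePoint ℂ)} := by
      intro z hz
      show f (ρ z) = ((G 0 : ℂ) : OnePoint ℂ)
      rw [hGf z (hsub hz)]
      exact congrArg _ (heq hz)
    have hinf : (Metric.ball (0 : ℂ) δ).Infinite := by
      have hne' : (Metric.ball (0 : ℂ) δ).Nonempty := ⟨0, Metric.mem_ball_self hδ⟩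
      exact infinite_of_mem_nhds (0 : ℂ) (Metric.ball_mem_nhds 0 hδ)
    exact (hinf.image (hρinj.mono hsub)).mono (image_subset_iff.mpr hmaps) |>.elim (hfib (G 0))
  rw [preconnectedSpace_iff_clopen]
  intro s hs
  by_cases hP0 : P0 ∈ s
  · right
    have := main sᶜ hs.compl (fun h => h hP0)
    rwa [compl_empty_iff] at this
  · left
    exact main s hs hP0

end Connected

end Fermat.Agent.S27.helper440
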