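/-
S27-E1c (helper4526): connectedness of the generic part of an irreducible plane curve over ℂ.
Mathlib only.  Points are pairs `(a, b) : ℂ × ℂ` with `Polynomial.evalEval a b p = 0`, where
`p : Polynomial (Polynomial ℂ)` has inner variable `x` and outer variable `Y`.
-/
import Mathlib

set_option autoImplicit false

open Polynomial Filter Topology

namespace Fermat.Agent.S27.helper4526

/-! ### Specialisation of a bivariate polynomial -/

/-- Specialise the inner variable of a bivariate polynomial. -/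
noncomputable def spec (p : Polynomial (Polynomial ℂ)) (a : ℂ) : Polynomial ℂ :=
  p.map (evalRingHom a)

lemma eval_spec (p : Polynomial (Polynomial ℂ)) (a b : ℂ) :
    (spec p a).eval b = evalEval a b p := by
  rw [spec, eval_map, eval₂_evalRingHom]

lemma spec_mul (p q : Polynomial (Polynomial ℂ)) (a : ℂ) :
    spec (p * q) a = spec p a * spec q a := by
  simp [spec]

lemma spec_add (p q : Polynomial (Polynomial ℂ)) (a : ℂ) :
    spec (p + q) a = spec p a + spec q a := by
  simp [spec]

lemma spec_derivative (p : Polynomial (Polynomial ℂ)) (a : ℂ) :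
    spec (derivative p) a = derivative (spec p a) := by
  simp [spec, derivative_map]

lemma spec_C (c : Polynomial ℂ) (a : ℂ) : spec (C c) a = C (c.eval a) := by
  simp [spec]

lemma evalEval_eq_sum (p : Polynomial (Polynomial ℂ)) (a b : ℂ) :
    evalEval a b p = ∑ i ∈ p.support, (p.coeff i).eval a * b ^ i := by
  rw [← eval_spec, spec, eval_map, eval₂_eq_sum, Polynomial.sum]
  simp

/-- The two-variable polynomial function is smooth. -/
lemma contDiff_evalEval (p : Polynomial (Polynomial ℂ)) :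
    ContDiff ℂ ⊤ (fun v : ℂ × ℂ => evalEval v.1 v.2 p) := by
  have h : (fun v : ℂ × ℂ => evalEval v.1 v.2 p)
      = fun v : ℂ × ℂ => ∑ i ∈ p.support, (p.coeff i).eval v.1 * v.2 ^ i := by
    funext v; exact evalEval_eq_sum p v.1 v.2
  rw [h]
  apply ContDiff.sum
  intro i _
  apply ContDiff.mul
  · have h1 := (Polynomial.contDiff_aeval (𝕜 := ℂ) (p.coeff i) ⊤)
    have h2 : ContDiff ℂ ⊤ (fun x : ℂ => (p.coeff i).eval x) := by simpa using h1
    exact h2.comp contDiff_fst
  · exact contDiff_snd.pow i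

/-- Derivative in the outer variable. -/
lemma hasDerivAt_evalEval_snd (p : Polynomial (Polynomial ℂ)) (a b : ℂ) :
    HasDerivAt (fun y : ℂ => evalEval a y p) (evalEval a b (derivative p)) b := by
  have h : (fun y : ℂ => evalEval a y p) = fun y => (spec p a).eval y := by
    funext y; rw [eval_spec]
  rw [h, ← eval_spec, spec_derivative]
  exact (spec p a).hasDerivAt b

/-! ### Holomorphic branches at simple points (implicit function theorem) -/

/-- **Branch at a simple point.** If `p(a,b) = 0` and `∂p/∂Y (a,b) ≠ 0` there is a holomorphic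
branch `β` on a disc around `a` through `(a,b)`, and near `(a,b)` the curve is the graph of `β`. -/
theorem exists_branch (p : Polynomial (Polynomial ℂ)) (a b : ℂ)
    (h0 : evalEval a b p = 0) (h1 : evalEval a b (derivative p) ≠ 0) :
    ∃ (r : ℝ) (β : ℂ → ℂ), 0 < r ∧ DifferentiableOn ℂ β (Metric.ball a r) ∧ β a = b ∧
      (∀ x ∈ Metric.ball a r, evalEval x (β x) p = 0) ∧
      ∃ ε : ℝ, 0 < ε ∧ ∀ x y, dist x a < ε → dist y b < ε → evalEval x y p = 0 → y = β x := by
  classical
  set f : ℂ × ℂ → ℂ := fun v => evalEval v.1 v.2 p with hf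
  set u : ℂ × ℂ := (a, b) with hu
  have cdf : ContDiffAt ℂ ⊤ f u := (contDiff_evalEval p).contDiffAt
  have pn : (⊤ : WithTop ℕ∞) ≠ 0 := by simp
  set c : ℂ := evalEval a b (derivative p) with hc
  -- the partial derivative in the second variable
  have hcomp : HasFDerivAt (fun y : ℂ => f (a, y))
      ((fderiv ℂ f u).comp (ContinuousLinearMap.inr ℂ ℂ ℂ)) b := by
    have hfd : HasFDerivAt f (fderiv ℂ f u) (a, b) :=
      (cdf.differentiableAt (by simp)).hasFDerivAt
    have hin : HasFDerivAt (fun y : ℂ => ((a, y) : ℂ × ℂ)) (ContinuousLinearMap.inr ℂ ℂ ℂ) b :=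
      hasFDerivAt_prodMk_right a b
    exact hfd.comp b hin
  have hder : HasFDerivAt (fun y : ℂ => f (a, y))
      (ContinuousLinearMap.toSpanSingleton ℂ c) b := by
    have := (hasDerivAt_evalEval_snd p a b).hasFDerivAt
    simpa [hf, ContinuousLinearMap.toSpanSingleton] using this
  have heq : (fderiv ℂ f u).comp (ContinuousLinearMap.inr ℂ ℂ ℂ)
      = ContinuousLinearMap.toSpanSingleton ℂ c := hcomp.unique hder
  have if₂ : ((fderiv ℂ f u).comp (ContinuousLinearMap.inr ℂ ℂ ℂ)).IsInvertible := by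
    rw [heq]
    refine ⟨ContinuousLinearEquiv.unitsEquivAut ℂ (Units.mk0 c h1), ?_⟩
    ext
    simp [ContinuousLinearMap.toSpanSingleton_apply]
  set ψ : ℂ → ℂ := cdf.implicitFunction pn if₂ with hψ
  have hψa : ψ a = b := cdf.implicitFunction_apply_self pn if₂
  have hfu : f u = 0 := h0
  have hev1 : ∀ᶠ x in 𝓝 a, f (x, ψ x) = 0 := by
    have := cdf.eventually_apply_implicitFunction pn if₂
    simpa [hfu] using this
  have hev2 : ∀ᶠ v in 𝓝 u, f v = 0 ↔ ψ v.1 = v.2 := by
    have := cdf.eventually_apply_eq_iff_implicitFunction pn if₂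
    simpa [hfu] using this
  have hcd : ContDiffAt ℂ ⊤ ψ a := cdf.contDiffAt_implicitFunction pn if₂
  have hev3 : ∀ᶠ x in 𝓝 a, DifferentiableAt ℂ ψ x := by
    have := hcd.eventually (by simp)
    filter_upwards [this] with x hx
    exact hx.differentiableAt (by simp)
  obtain ⟨r, hr, hball⟩ := Metric.eventually_nhds_iff_ball.mp (hev1.and hev3)
  obtain ⟨ε, hε, hball2⟩ := Metric.eventually_nhds_iff_ball.mp hev2
  refine ⟨r, ψ, hr, ?_, hψa, ?_, ε, hε, ?_⟩
  · intro x hx
    exact (hball x hx).2.differentiableWithinAt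
  · intro x hx
    exact (hball x hx).1
  · intro x y hx hy hxy
    have hmem : ((x, y) : ℂ × ℂ) ∈ Metric.ball u ε := by
      rw [Metric.mem_ball, Prod.dist_eq]
      exact max_lt hx hy
    exact ((hball2 (x, y) hmem).mp hxy).symm

/-! ### The bad set -/

/-- Bezout identity over `ℂ[x]` for an irreducible (over `ℂ(x)`) polynomial and its derivative. -/
theorem exists_bezout (p : Polynomial (Polynomial ℂ))
    (hp : Irreducible (p.map (algebraMap (Polynomial ℂ) (RatFunc ℂ)))) :
    ∃ (u v : Polynomial (Polynomial ℂ)) (d : Polynomial ℂ), d ≠ 0 ∧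
      u * p + v * derivative p = C d := by
  classical
  set φ : Polynomial ℂ →+* RatFunc ℂ := algebraMap (Polynomial ℂ) (RatFunc ℂ) with hφ
  have hφinj : Function.Injective φ := IsFractionRing.injective (Polynomial ℂ) (RatFunc ℂ)
  have hsep : (p.map φ).Separable := hp.separable
  obtain ⟨U, V, hUV⟩ := hsep
  obtain ⟨b₁, hb₁, hU⟩ := IsLocalization.integerNormalization_spec (nonZeroDivisors (Polynomial ℂ)) U
  obtain ⟨b₂, hb₂, hV⟩ := IsLocalization.integerNormalization_spec (nonZeroDivisors (Polynomial ℂ)) V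
  set U₁ := IsLocalization.integerNormalization (nonZeroDivisors (Polynomial ℂ)) U
  set V₁ := IsLocalization.integerNormalization (nonZeroDivisors (Polynomial ℂ)) V
  refine ⟨C b₂ * U₁, C b₁ * V₁, b₁ * b₂, ?_, ?_⟩
  · exact mul_ne_zero (nonZeroDivisors.ne_zero hb₁) (nonZeroDivisors.ne_zero hb₂)
  · apply Polynomial.map_injective φ hφinj
    have hU' : U₁.map φ = C (φ b₁) * U := by
      rw [hU, Algebra.smul_def, Polynomial.algebraMap_apply, ← hφ]
    have hV' : V₁.map φ = C (φ b₂) * V := by
      rw [hV, Algebra.smul_def, Polynomial.algebraMap_apply, ← hφ]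
    simp only [Polynomial.map_add, Polynomial.map_mul, Polynomial.map_C, hU', hV']
    rw [← derivative_map]
    have : C (φ b₂) * (C (φ b₁) * U) * map φ p + C (φ b₁) * (C (φ b₂) * V) * derivative (map φ p)
        = C (φ b₁) * C (φ b₂) * (U * map φ p + V * derivative (map φ p)) := by ring
    rw [this, hUV, mul_one, map_mul, C_mul]

/-- **Bad set.** Outside a finite set the specialised polynomial is separable and the leading
coefficient does not vanish. -/
theorem exists_badSet (p : Polynomial (Polynomial ℂ))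
    (hp : Irreducible (p.map (algebraMap (Polynomial ℂ) (RatFunc ℂ)))) :
    ∃ S₀ : Finset ℂ, ∀ a, a ∉ S₀ → (spec p a).Separable ∧ p.leadingCoeff.eval a ≠ 0 := by
  classical
  obtain ⟨u, v, d, hd, huv⟩ := exists_bezout p hp
  have hp0 : p ≠ 0 := by
    rintro rfl
    simp at hp
  have hl0 : p.leadingCoeff ≠ 0 := leadingCoeff_ne_zero.mpr hp0
  refine ⟨(d * p.leadingCoeff).roots.toFinset, ?_⟩
  intro a ha
  have hne : (d * p.leadingCoeff).eval a ≠ 0 := by
    intro h0
    apply ha
    rw [Multiset.mem_toFinset, mem_roots (mul_ne_zero hd hl0)]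
    exact h0
  rw [eval_mul] at hne
  have hda : d.eval a ≠ 0 := left_ne_zero_of_mul hne
  have hla : p.leadingCoeff.eval a ≠ 0 := right_ne_zero_of_mul hne
  refine ⟨?_, hla⟩
  rw [separable_def]
  have h := congrArg (fun q => spec q a) huv
  simp only [spec_add, spec_mul, spec_derivative, spec_C] at h
  refine ⟨C (d.eval a)⁻¹ * spec u a, C (d.eval a)⁻¹ * spec v a, ?_⟩
  have : C (d.eval a)⁻¹ * spec u a * spec p a + C (d.eval a)⁻¹ * spec v a * derivative (spec p a)
      = C (d.eval a)⁻¹ * (spec u a * spec p a + spec v a * derivative (spec p a)) := by ring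
  rw [this, h, ← C_mul, inv_mul_cancel₀ hda, C_1]

/-! ### Sheets over a good point -/

/-- A finite set not containing `a` is avoided by a small ball around `a`. -/
lemma eventually_notMem_finset (S : Finset ℂ) (a : ℂ) (ha : a ∉ S) :
    ∀ᶠ x in 𝓝 a, x ∉ S := by
  have hcl : IsClosed (S : Set ℂ) := S.finite_toSet.isClosed
  have : (S : Set ℂ)ᶜ ∈ 𝓝 a := hcl.isOpen_compl.mem_nhds (by simpa using ha)
  filter_upwards [this] with x hx
  simpa using hx

/-- **Sheets.** Over a small disc around a good point, the curve is the disjoint union of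
`n = deg_Y p` holomorphic graphs. -/
theorem exists_sheets (p : Polynomial (Polynomial ℂ)) (S₀ : Finset ℂ)
    (hS₀ : ∀ a, a ∉ S₀ → (spec p a).Separable ∧ p.leadingCoeff.eval a ≠ 0)
    (S : Finset ℂ) (hS : S₀ ⊆ S) (a : ℂ) (ha : a ∉ S) :
    ∃ (r : ℝ) (β : Fin p.natDegree → ℂ → ℂ), 0 < r ∧ (∀ x ∈ Metric.ball a r, x ∉ S) ∧
      (∀ i, DifferentiableOn ℂ (β i) (Metric.ball a r)) ∧
      (∀ x ∈ Metric.ball a r, Function.Injective (fun i => β i x)) ∧
      (∀ x ∈ Metric.ball a r, ∀ y, evalEval x y p = 0 ↔ ∃ i, β i x = y) := by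
  classical
  have haS₀ : a ∉ S₀ := fun h => ha (hS h)
  obtain ⟨hsep, hlc⟩ := hS₀ a haS₀
  -- degree of the specialisation
  have hdeg : ∀ x, x ∉ S₀ → (spec p x).natDegree = p.natDegree := by
    intro x hx
    exact natDegree_map_of_leadingCoeff_ne_zero _ (by simpa using (hS₀ x hx).2)
  have hne : ∀ x, x ∉ S₀ → spec p x ≠ 0 := by
    intro x hx h0
    have h1 := (hS₀ x hx).1
    rw [h0] at h1
    exact not_separable_zero h1
  -- roots at `a`
  have hcard : (spec p a).roots.toFinset.card = p.natDegree := by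
    rw [Multiset.toFinset_card_of_nodup (nodup_roots hsep),
      splits_iff_card_roots.mp (IsAlgClosed.splits (spec p a)), hdeg a haS₀]
  set e : Fin p.natDegree → ℂ :=
    fun i => (((spec p a).roots.toFinset.equivFinOfCardEq hcard).symm i : ℂ) with he
  have heinj : Function.Injective e := by
    intro i j hij
    have : ((spec p a).roots.toFinset.equivFinOfCardEq hcard).symm i
        = ((spec p a).roots.toFinset.equivFinOfCardEq hcard).symm j := Subtype.ext hij
    exact (Equiv.injective _) this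
  have heroot : ∀ i, evalEval a (e i) p = 0 := by
    intro i
    have hmem : e i ∈ (spec p a).roots.toFinset :=
      (((spec p a).roots.toFinset.equivFinOfCardEq hcard).symm i).2
    rw [Multiset.mem_toFinset, mem_roots (hne a haS₀)] at hmem
    rw [← eval_spec]
    exact hmem
  have hesimple : ∀ i, evalEval a (e i) (derivative p) ≠ 0 := by
    intro i
    rw [← eval_spec, spec_derivative]
    have h := hsep.eval₂_derivative_ne_zero (RingHom.id ℂ) (x := e i)
      (by rw [eval₂_id, eval_spec]; exact heroot i)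
    simpa [eval₂_id] using h
  -- branches
  choose r β hr hβd hβa hβz hβu using fun i => exists_branch p a (e i) (heroot i) (hesimple i)
  -- shrink
  have hev1 : ∀ᶠ x in 𝓝 a, x ∉ S := eventually_notMem_finset S a ha
  have hev2 : ∀ᶠ x in 𝓝 a, ∀ i, x ∈ Metric.ball a (r i) := by
    rw [eventually_all]
    intro i
    exact Metric.ball_mem_nhds a (hr i)
  have hcont : ∀ i, ContinuousAt (β i) a := by
    intro i
    exact ((hβd i).differentiableAt (Metric.ball_mem_nhds a (hr i))).continuousAt
  have hev3 : ∀ᶠ x in 𝓝 a, ∀ i j, i ≠ j → β i x ≠ β j x := by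
    rw [eventually_all]
    intro i
    rw [eventually_all]
    intro j
    by_cases hij : i = j
    · exact Eventually.of_forall fun x h => (h hij).elim
    · have hne' : β i a ≠ β j a := by
        rw [hβa i, hβa j]
        exact fun h => hij (heinj h)
      have := (hcont i).prodMk (hcont j)
      have hopen : IsOpen {q : ℂ × ℂ | q.1 ≠ q.2} := isOpen_ne_fun continuous_fst continuous_snd
      have hmem : {q : ℂ × ℂ | q.1 ≠ q.2} ∈ 𝓝 (β i a, β j a) := hopen.mem_nhds hne'
      filter_upwards [this.eventually hmem] with x hx _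
      exact hx
  obtain ⟨ρ, hρ, hball⟩ := Metric.eventually_nhds_iff_ball.mp (hev1.and (hev2.and hev3))
  refine ⟨ρ, β, hρ, fun x hx => (hball x hx).1, ?_, ?_, ?_⟩
  · intro i x hx
    have hxi : x ∈ Metric.ball a (r i) := (hball x hx).2.1 i
    exact ((hβd i).differentiableAt (Metric.isOpen_ball.mem_nhds hxi)).differentiableWithinAt
  · intro x hx i j hij
    by_contra hne'
    exact (hball x hx).2.2 i j hne' hij
  · intro x hx y
    have hxS₀ : x ∉ S₀ := fun h => (hball x hx).1 (hS h)
    have hinj : Function.Injective (fun i => β i x) := by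
      intro i j hij
      by_contra hne'
      exact (hball x hx).2.2 i j hne' hij
    have hsub : (Finset.univ.image (fun i => β i x)) ⊆ (spec p x).roots.toFinset := by
      intro z hz
      rw [Finset.mem_image] at hz
      obtain ⟨i, -, rfl⟩ := hz
      rw [Multiset.mem_toFinset, mem_roots (hne x hxS₀)]
      show (spec p x).eval (β i x) = 0
      rw [eval_spec]
      exact hβz i x ((hball x hx).2.1 i)
    have hcardle : (spec p x).roots.toFinset.card ≤ (Finset.univ.image (fun i => β i x)).card := by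
      rw [Finset.card_image_of_injective _ hinj, Finset.card_univ, Fintype.card_fin]
      calc (spec p x).roots.toFinset.card ≤ (spec p x).roots.card := Multiset.toFinset_card_le _
        _ ≤ (spec p x).natDegree := card_roots' _
        _ = p.natDegree := hdeg x hxS₀
    have heq := Finset.eq_of_subset_of_card_le hsub hcardle
    constructor
    · intro hy
      have : y ∈ (spec p x).roots.toFinset := by
        rw [Multiset.mem_toFinset, mem_roots (hne x hxS₀)]
        show (spec p x).eval y = 0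
        rw [eval_spec]; exact hy
      rw [← heq, Finset.mem_image] at this
      obtain ⟨i, -, hi⟩ := this
      exact ⟨i, hi⟩
    · rintro ⟨i, rfl⟩
      exact hβz i x ((hball x hx).2.1 i)

/-! ### Entire functions of polynomial growth; removable singularities on a finite set -/

/-- An entire function of polynomial growth is a polynomial. -/
theorem exists_polynomial_of_growth (N : ℕ) : ∀ (f : ℂ → ℂ) (A : ℝ), Differentiable ℂ f →
    (∀ x, ‖f x‖ ≤ A * (1 + ‖x‖) ^ N) → ∃ q : Polynomial ℂ, ∀ x, f x = q.eval x := by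
  induction N with
  | zero =>
    intro f A hf hb
    refine ⟨C (f 0), fun x => ?_⟩
    have hbdd : Bornology.IsBounded (Set.range f) := by
      rw [isBounded_iff_forall_norm_le]
      refine ⟨A, ?_⟩
      rintro _ ⟨x, rfl⟩
      simpa using hb x
    simpa using hf.apply_eq_apply_of_bounded hbdd x 0
  | succ N ih =>
    intro f A hf hb
    have hA : 0 ≤ A := by
      have := hb 0
      simp only [norm_zero, add_zero, one_pow, mul_one] at this
      exact le_trans (norm_nonneg _) this
    set g : ℂ → ℂ := dslope f 0 with hg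
    have hgd : Differentiable ℂ g := by
      rw [← differentiableOn_univ]
      exact (Complex.differentiableOn_dslope (Filter.univ_mem)).mpr hf.differentiableOn
    have hgx : ∀ x, x ≠ 0 → g x = (f x - f 0) / x := by
      intro x hx
      rw [hg, dslope_of_ne _ hx, slope_def_field, sub_zero]
    -- bound on the closed unit ball by compactness
    obtain ⟨M, hM⟩ : ∃ M : ℝ, ∀ x ∈ Metric.closedBall (0 : ℂ) 1, ‖g x‖ ≤ M :=
      (isCompact_closedBall (0 : ℂ) 1).exists_bound_of_continuousOn hgd.continuous.continuousOn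
    have hM0 : 0 ≤ M := le_trans (norm_nonneg _) (hM 0 (by simp))
    have hbound : ∀ x, ‖g x‖ ≤ (M + 2 * A + ‖f 0‖) * (1 + ‖x‖) ^ N := by
      intro x
      have h1 : (1 : ℝ) ≤ (1 + ‖x‖) ^ N := one_le_pow₀ (by linarith [norm_nonneg x])
      have hf0 : 0 ≤ ‖f 0‖ := norm_nonneg _
      by_cases hx : ‖x‖ ≤ 1
      · have := hM x (by simpa using hx)
        have h2 : M ≤ (M + 2 * A + ‖f 0‖) * (1 + ‖x‖) ^ N := by
          have : M + 2 * A + ‖f 0‖ ≤ (M + 2 * A + ‖f 0‖) * (1 + ‖x‖) ^ N :=
            le_mul_of_one_le_right (by positivity) h1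
          linarith
        linarith
      · rw [not_le] at hx
        have hx0 : x ≠ 0 := by
          rintro rfl
          simp at hx
          linarith
        have hxpos : 0 < ‖x‖ := by linarith
        rw [hgx x hx0, norm_div]
        rw [div_le_iff₀ hxpos]
        have h3 : ‖f x - f 0‖ ≤ A * (1 + ‖x‖) ^ (N + 1) + ‖f 0‖ :=
          le_trans (norm_sub_le _ _) (by linarith [hb x])
        have h4 : A * (1 + ‖x‖) ^ (N + 1) ≤ 2 * A * (1 + ‖x‖) ^ N * ‖x‖ := by
          have : (1 + ‖x‖) ^ (N + 1) = (1 + ‖x‖) ^ N * (1 + ‖x‖) := pow_succ _ _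
          rw [this]
          have h5 : (1 + ‖x‖) ≤ 2 * ‖x‖ := by linarith
          have h6 : 0 ≤ A * (1 + ‖x‖) ^ N := by positivity
          nlinarith [mul_le_mul_of_nonneg_left h5 h6]
        have h7 : ‖f 0‖ ≤ ‖f 0‖ * (1 + ‖x‖) ^ N * ‖x‖ := by
          have : (1 : ℝ) ≤ (1 + ‖x‖) ^ N * ‖x‖ := by nlinarith
          nlinarith
        have h8 : 0 ≤ M * (1 + ‖x‖) ^ N * ‖x‖ := by positivity
        nlinarith
    obtain ⟨q, hq⟩ := ih g _ hgd hbound
    refine ⟨C (f 0) + X * q, fun x => ?_⟩
    by_cases hx : x = 0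
    · subst hx; simp
    · have := hgx x hx
      rw [hq x] at this
      simp only [eval_add, eval_C, eval_mul, eval_X]
      rw [this]
      field_simp
      ring

/-- A function holomorphic off a finite set and of polynomial growth agrees with a polynomial
off that set. -/
theorem exists_polynomial_of_growth_off_finset (S : Finset ℂ) :
    ∀ (f : ℂ → ℂ) (A : ℝ) (N : ℕ), 0 ≤ A → DifferentiableOn ℂ f (↑S : Set ℂ)ᶜ →
      (∀ x, x ∉ S → ‖f x‖ ≤ A * (1 + ‖x‖) ^ N) →
      ∃ q : Polynomial ℂ, ∀ x, x ∉ S → f x = q.eval x := by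
  classical
  induction S using Finset.induction_on with
  | empty =>
    intro f A N _ hf hb
    have hf' : Differentiable ℂ f := by
      rw [← differentiableOn_univ]
      simpa using hf
    obtain ⟨q, hq⟩ := exists_polynomial_of_growth N f A hf' (fun x => hb x (by simp))
    exact ⟨q, fun x _ => hq x⟩
  | insert s S hs ih =>
    intro f A N hA hf hb
    set F : ℂ → ℂ := Function.update f s (limUnder (𝓝[≠] s) f) with hF
    have hFne : ∀ x, x ≠ s → F x = f x := fun x hx => Function.update_of_ne hx _ _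
    -- a small ball around `s` avoiding `S`
    obtain ⟨r, hr, hball⟩ := Metric.eventually_nhds_iff_ball.mp (eventually_notMem_finset S s hs)
    set U : Set ℂ := Metric.ball s r with hU
    have hUs : U ∈ 𝓝 s := Metric.ball_mem_nhds s hr
    have hopen : IsOpen ((↑(insert s S) : Set ℂ)ᶜ) :=
      (Finset.finite_toSet _).isClosed.isOpen_compl
    have hd : DifferentiableOn ℂ f (U \ {s}) := by
      apply hf.mono
      intro x hx
      have hx1 : x ∉ S := hball x hx.1
      have hx2 : x ≠ s := by simpa using hx.2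
      simp [hx1, hx2]
    have hbdd : BddAbove (norm ∘ f '' (U \ {s})) := by
      refine ⟨A * (1 + (‖s‖ + r)) ^ N, ?_⟩
      rintro _ ⟨x, hx, rfl⟩
      have hx1 : x ∉ S := hball x hx.1
      have hx2 : x ≠ s := by simpa using hx.2
      have hxn : ‖x‖ ≤ ‖s‖ + r := by
        have h1 : dist x s < r := hx.1
        rw [dist_eq_norm] at h1
        have h2 : ‖x‖ ≤ ‖x - s‖ + ‖s‖ := by
          simpa using norm_add_le (x - s) s
        linarith
      have := hb x (by simp [hx1, hx2])
      refine le_trans this ?_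
      apply mul_le_mul_of_nonneg_left _ hA
      apply pow_le_pow_left₀ (by positivity)
      linarith
    have hFU : DifferentiableOn ℂ F U :=
      Complex.differentiableOn_update_limUnder_of_bddAbove hUs hd hbdd
    have hFs : DifferentiableAt ℂ F s := hFU.differentiableAt hUs
    have hFd : DifferentiableOn ℂ F (↑S : Set ℂ)ᶜ := by
      intro x hx
      by_cases hxs : x = s
      · subst hxs; exact hFs.differentiableWithinAt
      · have hx' : x ∈ (↑(insert s S) : Set ℂ)ᶜ := by
          have : x ∉ S := by simpa using hx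
          simp [this, hxs]
        have hfx : DifferentiableAt ℂ f x := hf.differentiableAt (hopen.mem_nhds hx')
        have heq : F =ᶠ[𝓝 x] f := by
          have : ∀ᶠ y in 𝓝 x, y ≠ s := isOpen_ne.mem_nhds hxs
          filter_upwards [this] with y hy using hFne y hy
        exact (hfx.congr_of_eventuallyEq heq).differentiableWithinAt
    have hFb : ∀ x, x ∉ S → ‖F x‖ ≤ A * (1 + ‖x‖) ^ N := by
      intro x hx
      by_cases hxs : x = s
      · subst hxs
        have h1 : Tendsto (fun y => ‖F y‖) (𝓝[≠] x) (𝓝 ‖F x‖) :=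
          (hFs.continuousAt.norm.tendsto).mono_left nhdsWithin_le_nhds
        have h2 : Tendsto (fun y : ℂ => A * (1 + ‖y‖) ^ N) (𝓝[≠] x) (𝓝 (A * (1 + ‖x‖) ^ N)) := by
          have hc : Continuous (fun y : ℂ => A * (1 + ‖y‖) ^ N) := by fun_prop
          exact (hc.tendsto x).mono_left nhdsWithin_le_nhds
        have h3 : ∀ᶠ y in 𝓝[≠] x, ‖F y‖ ≤ A * (1 + ‖y‖) ^ N := by
          have hU' : ∀ᶠ y in 𝓝[≠] x, y ∈ U := nhdsWithin_le_nhds hUs
          filter_upwards [hU', self_mem_nhdsWithin] with y hy hyx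
          have hyx' : y ≠ x := hyx
          rw [hFne y hyx']
          exact hb y (by simp [hball y hy, hyx'])
        exact le_of_tendsto_of_tendsto h1 h2 h3
      · rw [hFne x hxs]
        exact hb x (by simp [hx, hxs])
    obtain ⟨q, hq⟩ := ih F A N hA hFd hFb
    refine ⟨q, fun x hx => ?_⟩
    have hx1 : x ∉ S := fun h => hx (Finset.mem_insert_of_mem h)
    have hx2 : x ≠ s := fun h => hx (h ▸ Finset.mem_insert_self _ _)
    rw [← hFne x hx2]
    exact hq x hx1

/-! ### Coefficients of `∏ (X - C y)` -/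

lemma coeff_X_sub_C_mul_zero (y : ℂ) (q : Polynomial ℂ) :
    ((X - C y) * q).coeff 0 = -(y * q.coeff 0) := by
  simp [mul_coeff_zero]

lemma coeff_X_sub_C_mul_succ (y : ℂ) (q : Polynomial ℂ) (k : ℕ) :
    ((X - C y) * q).coeff (k + 1) = q.coeff k - y * q.coeff (k + 1) := by
  rw [mul_comm, coeff_mul_X_sub_C, mul_comm]

lemma norm_coeff_prod_X_sub_C_le (s : Finset ℂ) (B : ℝ) (hB : 0 ≤ B)
    (hs : ∀ y ∈ s, ‖y‖ ≤ B) : ∀ k : ℕ, ‖(∏ y ∈ s, (X - C y)).coeff k‖ ≤ (1 + B) ^ s.card := by
  classical
  induction s using Finset.induction_on with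
  | empty =>
    intro k
    simp only [Finset.prod_empty, Finset.card_empty, pow_zero]
    rw [coeff_one]
    split_ifs <;> simp
  | insert y s hy ih =>
    intro k
    have ih' := ih (fun z hz => hs z (Finset.mem_insert_of_mem hz))
    have hyB : ‖y‖ ≤ B := hs y (Finset.mem_insert_self _ _)
    rw [Finset.prod_insert hy, Finset.card_insert_of_notMem hy, pow_succ]
    have hpos : 0 ≤ (1 + B) ^ s.card := by positivity
    cases k with
    | zero =>
      rw [coeff_X_sub_C_mul_zero, norm_neg, norm_mul]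
      have := ih' 0
      nlinarith [norm_nonneg y, norm_nonneg ((∏ y ∈ s, (X - C y)).coeff 0),
        mul_le_mul hyB this (norm_nonneg _) hB]
    | succ k =>
      rw [coeff_X_sub_C_mul_succ]
      have h1 := ih' k
      have h2 := ih' (k + 1)
      have h3 : ‖y * (∏ y ∈ s, (X - C y)).coeff (k + 1)‖ ≤ B * (1 + B) ^ s.card := by
        rw [norm_mul]
        exact mul_le_mul hyB h2 (norm_nonneg _) hB
      calc ‖(∏ y ∈ s, (X - C y)).coeff k - y * (∏ y ∈ s, (X - C y)).coeff (k + 1)‖
          ≤ ‖(∏ y ∈ s, (X - C y)).coeff k‖ + ‖y * (∏ y ∈ s, (X - C y)).coeff (k + 1)‖ :=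
            norm_sub_le _ _
        _ ≤ (1 + B) ^ s.card + B * (1 + B) ^ s.card := add_le_add h1 h3
        _ = (1 + B) ^ s.card * (1 + B) := by ring

lemma differentiableOn_coeff_prod {ι : Type*} (I : Finset ι) (β : ι → ℂ → ℂ) (U : Set ℂ)
    (hβ : ∀ i ∈ I, DifferentiableOn ℂ (β i) U) :
    ∀ k : ℕ, DifferentiableOn ℂ (fun x => (∏ i ∈ I, (X - C (β i x))).coeff k) U := by
  classical
  induction I using Finset.induction_on with
  | empty =>
    intro k
    simp only [Finset.prod_empty]
    exact differentiableOn_const _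
  | insert j I hj ih =>
    intro k
    have ih' := ih (fun i hi => hβ i (Finset.mem_insert_of_mem hi))
    have hβj : DifferentiableOn ℂ (β j) U := hβ j (Finset.mem_insert_self _ _)
    cases k with
    | zero =>
      have : (fun x => (∏ i ∈ insert j I, (X - C (β i x))).coeff 0)
          = fun x => -(β j x * (∏ i ∈ I, (X - C (β i x))).coeff 0) := by
        funext x
        rw [Finset.prod_insert hj, coeff_X_sub_C_mul_zero]
      rw [this]
      exact (hβj.mul (ih' 0)).neg
    | succ k =>
      have : (fun x => (∏ i ∈ insert j I, (X - C (β i x))).coeff (k + 1))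
          = fun x => (∏ i ∈ I, (X - C (β i x))).coeff k
              - β j x * (∏ i ∈ I, (X - C (β i x))).coeff (k + 1) := by
        funext x
        rw [Finset.prod_insert hj, coeff_X_sub_C_mul_succ]
      rw [this]
      exact (ih' k).sub (hβj.mul (ih' (k + 1)))

/-! ### Root bound for monic polynomials -/

lemma norm_root_le_of_monic (q : Polynomial ℂ) (hq : q.Monic) (y : ℂ) (hy : q.eval y = 0) :
    ‖y‖ ≤ 1 + ∑ j ∈ Finset.range q.natDegree, ‖q.coeff j‖ := by
  have hq0 : q ≠ 0 := hq.ne_zero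
  have h := IsRoot.norm_lt_cauchyBound hq0 (a := y) hy
  have h' : (‖y‖₊ : ℝ) < (cauchyBound q : ℝ) := by exact_mod_cast h
  have hcb : (cauchyBound q : ℝ) ≤ 1 + ∑ j ∈ Finset.range q.natDegree, ‖q.coeff j‖ := by
    unfold cauchyBound
    rw [hq.leadingCoeff]
    simp only [nnnorm_one, div_one, NNReal.coe_add, NNReal.coe_one]
    have hsup : ((Finset.range q.natDegree).sup (fun i => ‖q.coeff i‖₊) : NNReal)
        ≤ ∑ j ∈ Finset.range q.natDegree, ‖q.coeff j‖₊ := by
      apply Finset.sup_le
      intro i hi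
      exact Finset.single_le_sum (f := fun j => ‖q.coeff j‖₊) (fun _ _ => zero_le) hi
    have hsup' : (((Finset.range q.natDegree).sup (fun i => ‖q.coeff i‖₊) : NNReal) : ℝ)
        ≤ ∑ j ∈ Finset.range q.natDegree, ‖q.coeff j‖ := by
      have := NNReal.coe_le_coe.mpr hsup
      simpa using this
    linarith
  have : ‖y‖ < 1 + ∑ j ∈ Finset.range q.natDegree, ‖q.coeff j‖ := by
    calc ‖y‖ = (‖y‖₊ : ℝ) := (coe_nnnorm y).symm
      _ < (cauchyBound q : ℝ) := h'
      _ ≤ _ := hcb
  exact this.le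

/-! ### Auxiliary algebra for the main theorem -/

/-- Polynomial growth of the coefficients of a bivariate polynomial. -/
lemma eval_growth (c : Polynomial ℂ) (x : ℂ) :
    ‖c.eval x‖ ≤ (∑ i ∈ c.support, ‖c.coeff i‖) * (1 + ‖x‖) ^ c.natDegree := by
  rw [eval_eq_sum, Polynomial.sum, Finset.sum_mul]
  refine le_trans (norm_sum_le _ _) (Finset.sum_le_sum fun i hi => ?_)
  rw [norm_mul, norm_pow]
  apply mul_le_mul_of_nonneg_left _ (norm_nonneg _)
  calc ‖x‖ ^ i ≤ (1 + ‖x‖) ^ i := pow_le_pow_left₀ (norm_nonneg _) (by linarith) i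
    _ ≤ (1 + ‖x‖) ^ c.natDegree :=
      pow_le_pow_right₀ (by linarith [norm_nonneg x]) (le_natDegree_of_mem_supp i hi)

lemma sum_eval_growth {ι : Type*} (J : Finset ι) (c : ι → Polynomial ℂ) :
    ∃ (L : ℝ) (D : ℕ), 0 ≤ L ∧ ∀ x : ℂ, ∑ j ∈ J, ‖(c j).eval x‖ ≤ L * (1 + ‖x‖) ^ D := by
  classical
  induction J using Finset.induction_on with
  | empty => exact ⟨0, 0, le_refl _, fun x => by simp⟩
  | insert j J hj ih =>
    obtain ⟨L, D, hL, h⟩ := ih
    set L' : ℝ := ∑ i ∈ (c j).support, ‖(c j).coeff i‖ with hL'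
    have hL'0 : 0 ≤ L' := Finset.sum_nonneg fun _ _ => norm_nonneg _
    refine ⟨L' + L, max (c j).natDegree D, by positivity, fun x => ?_⟩
    rw [Finset.sum_insert hj]
    have h1 : (1 : ℝ) ≤ 1 + ‖x‖ := by linarith [norm_nonneg x]
    have h2 : ‖(c j).eval x‖ ≤ L' * (1 + ‖x‖) ^ max (c j).natDegree D :=
      le_trans (eval_growth (c j) x)
        (mul_le_mul_of_nonneg_left (pow_le_pow_right₀ h1 (le_max_left _ _)) hL'0)
    have h3 : ∑ i ∈ J, ‖(c i).eval x‖ ≤ L * (1 + ‖x‖) ^ max (c j).natDegree D :=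
      le_trans (h x) (mul_le_mul_of_nonneg_left (pow_le_pow_right₀ h1 (le_max_right _ _)) hL)
    linarith

/-- A product of distinct linear factors at roots of `f` divides `f`. -/
lemma prod_X_sub_C_dvd_of_roots (f : Polynomial ℂ) (s : Finset ℂ)
    (hs : ∀ y ∈ s, y ∈ f.roots) : (∏ y ∈ s, (X - C y)) ∣ f := by
  have h1 : (s.val.map fun a => X - C a).prod ∣ (f.roots.map fun a => X - C a).prod := by
    apply Multiset.prod_dvd_prod_of_le
    apply Multiset.map_le_map
    rw [Multiset.le_iff_subset s.nodup]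
    intro y hy
    exact hs y (by simpa using hy)
  exact dvd_trans h1 (prod_multiset_X_sub_C_dvd f)

lemma monic_prod_X_sub_C (s : Finset ℂ) : (∏ y ∈ s, (X - C y) : Polynomial ℂ).Monic :=
  monic_prod_of_monic _ _ fun y _ => monic_X_sub_C y

lemma natDegree_prod_X_sub_C' (s : Finset ℂ) :
    (∏ y ∈ s, (X - C y) : Polynomial ℂ).natDegree = s.card := by
  rw [natDegree_prod_of_monic _ _ fun y _ => monic_X_sub_C y]
  simp

/-- The monic polynomial with prescribed lower coefficients. -/
noncomputable def mkMonic {R : Type*} [CommRing R] (m : ℕ) (c : ℕ → R) : Polynomial R :=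
  X ^ m + ∑ i : Fin m, C (c i) * X ^ (i : ℕ)

lemma mkMonic_monic {R : Type*} [CommRing R] [Nontrivial R] (m : ℕ) (c : ℕ → R) :
    (mkMonic m c).Monic :=
  monic_X_pow_add (degree_sum_fin_lt fun i : Fin m => c i)

lemma mkMonic_natDegree {R : Type*} [CommRing R] [Nontrivial R] (m : ℕ) (c : ℕ → R) :
    (mkMonic m c).natDegree = m := by
  have h := degree_sum_fin_lt fun i : Fin m => c i
  unfold mkMonic
  rw [add_comm]
  exact natDegree_add_eq_right_of_degree_lt (by rw [degree_X_pow]; exact h) |>.trans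
    (natDegree_X_pow m)

lemma mkMonic_coeff_lt {R : Type*} [CommRing R] (m : ℕ) (c : ℕ → R) (k : ℕ) (hk : k < m) :
    (mkMonic m c).coeff k = c k := by
  unfold mkMonic
  rw [coeff_add, coeff_X_pow, if_neg (by omega), zero_add, finsetSum_coeff]
  simp only [coeff_C_mul_X_pow]
  rw [Finset.sum_eq_single (⟨k, hk⟩ : Fin m)]
  · simp
  · intro b _ hb
    rw [if_neg]
    intro h
    exact hb (Fin.ext h.symm)
  · intro h
    exact (h (Finset.mem_univ _)).elim

/-! ### Local structure of a clopen piece -/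

/-- The generic part of the plane curve `p = 0` over the complement of `S`. -/
def genericPart (p : Polynomial (Polynomial ℂ)) (S : Finset ℂ) : Set (ℂ × ℂ) :=
  {P | P.1 ∉ S ∧ evalEval P.1 P.2 p = 0}

lemma mem_genericPart (p : Polynomial (Polynomial ℂ)) (S : Finset ℂ) (x y : ℂ) :
    ((x, y) : ℂ × ℂ) ∈ genericPart p S ↔ x ∉ S ∧ evalEval x y p = 0 := Iff.rfl

/-- Near a good point, a relatively clopen piece `Z ∩ u` of the generic part is the union of the
graphs of a fixed sub-family of the sheets. -/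
theorem local_piece (p : Polynomial (Polynomial ℂ)) (S₀ : Finset ℂ)
    (hS₀ : ∀ a, a ∉ S₀ → (spec p a).Separable ∧ p.leadingCoeff.eval a ≠ 0)
    (S : Finset ℂ) (hS : S₀ ⊆ S) (u v : Set (ℂ × ℂ)) (hu : IsOpen u) (hv : IsOpen v)
    (hZuv : genericPart p S ⊆ u ∪ v) (hdisj : genericPart p S ∩ (u ∩ v) = ∅)
    (a : ℂ) (ha : a ∉ S) :
    ∃ (r : ℝ) (β : Fin p.natDegree → ℂ → ℂ) (I : Finset (Fin p.natDegree)),
      0 < r ∧ (∀ x ∈ Metric.ball a r, x ∉ S) ∧
      (∀ i, DifferentiableOn ℂ (β i) (Metric.ball a r)) ∧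
      (∀ x ∈ Metric.ball a r, Function.Injective (fun i => β i x)) ∧
      (∀ x ∈ Metric.ball a r, ∀ y,
        (evalEval x y p = 0 ∧ ((x, y) : ℂ × ℂ) ∈ u) ↔ ∃ i ∈ I, β i x = y) := by
  classical
  obtain ⟨r, β, hr, hrS, hβd, hβinj, hβall⟩ := exists_sheets p S₀ hS₀ S hS a ha
  have haball : a ∈ Metric.ball a r := Metric.mem_ball_self hr
  refine ⟨r, β, Finset.univ.filter (fun i => ((a, β i a) : ℂ × ℂ) ∈ u), hr, hrS, hβd, hβinj, ?_⟩
  -- each sheet lies entirely in `u` or entirely in `v`
  have hsheet : ∀ i, ∀ x ∈ Metric.ball a r,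
      (((x, β i x) : ℂ × ℂ) ∈ u ↔ ((a, β i a) : ℂ × ℂ) ∈ u) := by
    intro i x hx
    set G : Set (ℂ × ℂ) := (fun x => ((x, β i x) : ℂ × ℂ)) '' Metric.ball a r with hG
    have hGpre : IsPreconnected G := by
      apply ((convex_ball a r).isPreconnected).image
      exact continuousOn_id.prodMk (hβd i).continuousOn
    have hGZ : G ⊆ genericPart p S := by
      rintro _ ⟨z, hz, rfl⟩
      exact ⟨hrS z hz, (hβall z hz (β i z)).mpr ⟨i, rfl⟩⟩
    have hGuv : G ⊆ u ∪ v := hGZ.trans hZuv
    have hGdisj : G ∩ (u ∩ v) = ∅ := by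
      apply Set.eq_empty_of_subset_empty
      rw [← hdisj]
      exact Set.inter_subset_inter_left _ hGZ
    have hxG : ((x, β i x) : ℂ × ℂ) ∈ G := ⟨x, hx, rfl⟩
    have haG : ((a, β i a) : ℂ × ℂ) ∈ G := ⟨a, haball, rfl⟩
    have hnot : ∀ P ∈ G, P ∈ v → P ∉ u := by
      intro P hP hPv hPu
      have : P ∈ G ∩ (u ∩ v) := ⟨hP, hPu, hPv⟩
      rw [hGdisj] at this
      exact this
    rcases (isPreconnected_iff_subset_of_disjoint.mp hGpre) u v hu hv hGuv hGdisj with h | h
    · exact ⟨fun _ => h haG, fun _ => h hxG⟩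
    · exact ⟨fun hxu => (hnot _ hxG (h hxG) hxu).elim, fun hau => (hnot _ haG (h haG) hau).elim⟩
  intro x hx y
  constructor
  · rintro ⟨h0, hyu⟩
    obtain ⟨i, rfl⟩ := (hβall x hx y).mp h0
    refine ⟨i, ?_, rfl⟩
    rw [Finset.mem_filter]
    exact ⟨Finset.mem_univ _, (hsheet i x hx).mp hyu⟩
  · rintro ⟨i, hi, rfl⟩
    rw [Finset.mem_filter] at hi
    exact ⟨(hβall x hx (β i x)).mpr ⟨i, rfl⟩, (hsheet i x hx).mpr hi.2⟩

/-! ### Connectedness of the generic part -/

/-- **Connectedness of the generic part, monic case.** If `p` is monic in `Y` and irreducible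
over `ℂ(x)`, then for every finite `S` containing the bad set the set
`{(a,b) | a ∉ S ∧ p(a,b) = 0}` is preconnected. -/
theorem isPreconnected_genericPart_of_monic (p : Polynomial (Polynomial ℂ)) (hm : p.Monic)
    (hp : Irreducible (p.map (algebraMap (Polynomial ℂ) (RatFunc ℂ))))
    (S₀ : Finset ℂ) (hS₀ : ∀ a, a ∉ S₀ → (spec p a).Separable ∧ p.leadingCoeff.eval a ≠ 0)
    (S : Finset ℂ) (hS : S₀ ⊆ S) :
    IsPreconnected (genericPart p S) := by
  classical
  rw [isPreconnected_iff_subset_of_disjoint]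
  intro u v hu hv hZuv hdisj
  by_cases hne : (genericPart p S ∩ u).Nonempty
  swap
  · right
    intro P hP
    rcases hZuv hP with h | h
    · exact (hne ⟨P, hP, h⟩).elim
    · exact h
  left
  obtain ⟨⟨x₀, y₀⟩, hP₀, hP₀u⟩ := hne
  -- specialisations are monic of degree n
  have hspm : ∀ x, (spec p x).Monic := fun x => hm.map _
  have hspdeg : ∀ x, (spec p x).natDegree = p.natDegree := fun x => hm.natDegree_map _
  have hspne : ∀ x, spec p x ≠ 0 := fun x => (hspm x).ne_zero
  -- the piece
  obtain ⟨Cx, hmemC⟩ : ∃ Cx : ℂ → Finset ℂ, ∀ x y, y ∈ Cx x ↔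
      (y ∈ (spec p x).roots.toFinset ∧ ((x, y) : ℂ × ℂ) ∈ u) :=
    ⟨fun x => (spec p x).roots.toFinset.filter (fun y => ((x, y) : ℂ × ℂ) ∈ u),
      fun x y => by simp only [Finset.mem_filter]⟩
  have hmemC' : ∀ x y, y ∈ Cx x ↔ evalEval x y p = 0 ∧ ((x, y) : ℂ × ℂ) ∈ u := by
    intro x y
    rw [hmemC, Multiset.mem_toFinset, mem_roots (hspne x), IsRoot.def, eval_spec]
  have hCsub : ∀ x, Cx x ⊆ (spec p x).roots.toFinset := fun x y hy => ((hmemC x y).mp hy).1
  have hCroots : ∀ x, ∀ y ∈ Cx x, y ∈ (spec p x).roots := by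
    intro x y hy
    exact Multiset.mem_toFinset.mp (hCsub x hy)
  have hrootscard : ∀ x, (spec p x).roots.toFinset.card ≤ p.natDegree := by
    intro x
    calc (spec p x).roots.toFinset.card ≤ (spec p x).roots.card := Multiset.toFinset_card_le _
      _ ≤ (spec p x).natDegree := card_roots' _
      _ = p.natDegree := hspdeg x
  have hCcard_le : ∀ x, (Cx x).card ≤ p.natDegree := fun x =>
    le_trans (Finset.card_le_card (hCsub x)) (hrootscard x)
  -- local description
  have hloc : ∀ a, a ∉ S → ∃ (r : ℝ) (β : Fin p.natDegree → ℂ → ℂ)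
      (I : Finset (Fin p.natDegree)), 0 < r ∧
      (∀ i, DifferentiableOn ℂ (β i) (Metric.ball a r)) ∧
      (∀ x ∈ Metric.ball a r, (∏ y ∈ Cx x, (X - C y) : Polynomial ℂ) = ∏ i ∈ I, (X - C (β i x))) ∧
      (∀ x ∈ Metric.ball a r, (Cx x).card = I.card) := by
    intro a ha
    obtain ⟨r, β, I, hr, hrS, hβd, hβinj, hβu⟩ :=
      local_piece p S₀ hS₀ S hS u v hu hv hZuv hdisj a ha
    have hCI : ∀ x ∈ Metric.ball a r, Cx x = I.image (fun i => β i x) := by
      intro x hx
      ext y
      rw [hmemC', hβu x hx y, Finset.mem_image]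
    refine ⟨r, β, I, hr, hβd, ?_, ?_⟩
    · intro x hx
      rw [hCI x hx, Finset.prod_image]
      intro i _ j _ hij
      exact hβinj x hx hij
    · intro x hx
      rw [hCI x hx, Finset.card_image_of_injective _ (hβinj x hx)]
  -- the coefficient functions are holomorphic off `S`
  have hgd : ∀ k, DifferentiableOn ℂ
      (fun x => (∏ y ∈ Cx x, (X - C y) : Polynomial ℂ).coeff k) (↑S : Set ℂ)ᶜ := by
    intro k a ha
    have ha' : a ∉ S := by simpa using ha
    obtain ⟨r, β, I, hr, hβd, hP, -⟩ := hloc a ha'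
    have hd := differentiableOn_coeff_prod I β (Metric.ball a r) (fun i _ => hβd i) k
    have hda := hd.differentiableAt (Metric.ball_mem_nhds a hr)
    have heq : (fun x => (∏ y ∈ Cx x, (X - C y) : Polynomial ℂ).coeff k)
        =ᶠ[𝓝 a] fun x => (∏ i ∈ I, (X - C (β i x))).coeff k := by
      filter_upwards [Metric.ball_mem_nhds a hr] with x hx
      rw [hP x hx]
    exact (hda.congr_of_eventuallyEq heq).differentiableWithinAt
  -- the cardinality of the piece is constant
  have hpre : IsPreconnected ((↑S : Set ℂ)ᶜ) :=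
    (Set.Countable.isConnected_compl_of_one_lt_rank
      (by rw [Complex.rank_real_complex]; exact Nat.one_lt_ofNat) S.countable_toSet).isPreconnected
  have hcardcont : ContinuousOn (fun x => (Cx x).card) (↑S : Set ℂ)ᶜ := by
    intro a ha
    have ha' : a ∉ S := by simpa using ha
    obtain ⟨r, β, I, hr, -, -, hcard⟩ := hloc a ha'
    apply ContinuousAt.continuousWithinAt
    have heq : (fun x => (Cx x).card) =ᶠ[𝓝 a] fun _ => I.card := by
      filter_upwards [Metric.ball_mem_nhds a hr] with x hx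
      exact hcard x hx
    exact (continuousAt_const).congr heq.symm
  have hx₀S : x₀ ∉ S := hP₀.1
  obtain ⟨m, hcard, hm1⟩ : ∃ m : ℕ, (∀ x, x ∉ S → (Cx x).card = m) ∧ 1 ≤ m := by
    refine ⟨(Cx x₀).card, fun x hx => ?_, ?_⟩
    · exact hpre.constant hcardcont (by simpa using hx) (by simpa using hx₀S)
    · have : y₀ ∈ Cx x₀ := (hmemC' x₀ y₀).mpr ⟨hP₀.2, hP₀u⟩
      exact Finset.card_pos.mpr ⟨y₀, this⟩
  -- growth bound
  obtain ⟨L, D, hL, hLD⟩ := sum_eval_growth (Finset.range p.natDegree) (fun j => p.coeff j)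
  have hbound : ∀ k x, x ∉ S → ‖(∏ y ∈ Cx x, (X - C y) : Polynomial ℂ).coeff k‖
      ≤ (2 + L) ^ p.natDegree * (1 + ‖x‖) ^ (D * p.natDegree) := by
    intro k x hx
    obtain ⟨B, hBdef⟩ : ∃ B : ℝ, B = 1 + ∑ j ∈ Finset.range p.natDegree, ‖(p.coeff j).eval x‖ :=
      ⟨_, rfl⟩
    have hB0 : 0 ≤ B := by rw [hBdef]; positivity
    have hroot : ∀ y ∈ Cx x, ‖y‖ ≤ B := by
      intro y hy
      have h1 := norm_root_le_of_monic (spec p x) (hspm x) y
        (by rw [eval_spec]; exact ((hmemC' x y).mp hy).1)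
      rw [hspdeg x] at h1
      have h2 : ∀ j, (spec p x).coeff j = (p.coeff j).eval x := fun j => by
        simp [spec, coeff_map]
      simp only [h2] at h1
      rw [hBdef]; exact h1
    have h3 := norm_coeff_prod_X_sub_C_le (Cx x) B hB0 hroot k
    have h1x : (1 : ℝ) ≤ 1 + ‖x‖ := by linarith [norm_nonneg x]
    have hBle : 1 + B ≤ (2 + L) * (1 + ‖x‖) ^ D := by
      have h5 := hLD x
      have h4 : (1 : ℝ) ≤ (1 + ‖x‖) ^ D := one_le_pow₀ h1x
      rw [hBdef]
      nlinarith
    calc ‖(∏ y ∈ Cx x, (X - C y) : Polynomial ℂ).coeff k‖ ≤ (1 + B) ^ (Cx x).card := h3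
      _ ≤ (1 + B) ^ p.natDegree := pow_le_pow_right₀ (by linarith) (hCcard_le x)
      _ ≤ ((2 + L) * (1 + ‖x‖) ^ D) ^ p.natDegree := pow_le_pow_left₀ (by linarith) hBle _
      _ = (2 + L) ^ p.natDegree * (1 + ‖x‖) ^ (D * p.natDegree) := by rw [mul_pow, ← pow_mul]
  -- the coefficients are polynomials in `x`
  have hq : ∀ k, ∃ q : Polynomial ℂ, ∀ x, x ∉ S →
      (∏ y ∈ Cx x, (X - C y) : Polynomial ℂ).coeff k = q.eval x := fun k =>
    exists_polynomial_of_growth_off_finset S _ _ _ (by positivity) (hgd k) (hbound k)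
  choose qk hqk using hq
  -- the factor `Q`
  obtain ⟨Q, hQm, hQdeg, hQc⟩ : ∃ Q : Polynomial (Polynomial ℂ), Q.Monic ∧ Q.natDegree = m ∧
      ∀ k, k < m → Q.coeff k = qk k :=
    ⟨mkMonic m qk, mkMonic_monic m qk, mkMonic_natDegree m qk, mkMonic_coeff_lt m qk⟩
  have hQspec : ∀ x, x ∉ S → spec Q x = ∏ y ∈ Cx x, (X - C y) := by
    intro x hx
    have hPm : (∏ y ∈ Cx x, (X - C y) : Polynomial ℂ).Monic := monic_prod_X_sub_C _
    have hPdeg : (∏ y ∈ Cx x, (X - C y) : Polynomial ℂ).natDegree = m := by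
      rw [natDegree_prod_X_sub_C', hcard x hx]
    have hQxm : (spec Q x).Monic := hQm.map _
    have hQxdeg : (spec Q x).natDegree = m := by rw [spec, hQm.natDegree_map, hQdeg]
    ext k
    rcases lt_trichotomy k m with hk | hk | hk
    · rw [hqk k x hx, spec, coeff_map, hQc k hk]
      rfl
    · have h1 := hQxm.coeff_natDegree
      have h2 := hPm.coeff_natDegree
      rw [hQxdeg] at h1
      rw [hPdeg] at h2
      rw [hk, h1, h2]
    · rw [coeff_eq_zero_of_natDegree_lt (by omega), coeff_eq_zero_of_natDegree_lt (by omega)]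
  -- division with remainder
  have hQne1 : Q ≠ 1 := by
    intro h
    rw [h, natDegree_one] at hQdeg
    omega
  have hdiv : p %ₘ Q + Q * (p /ₘ Q) = p := modByMonic_add_div p Q
  have hRdeg : (p %ₘ Q).natDegree < m := by
    have := natDegree_modByMonic_lt p hQm hQne1
    rwa [hQdeg] at this
  have hRspec : ∀ x, x ∉ S → spec (p %ₘ Q) x = 0 := by
    intro x hx
    have h1 : spec p x = spec (p %ₘ Q) x + (∏ y ∈ Cx x, (X - C y)) * spec (p /ₘ Q) x := by
      rw [← hQspec x hx, ← spec_mul, ← spec_add, hdiv]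
    have h2 : (∏ y ∈ Cx x, (X - C y) : Polynomial ℂ) ∣ spec p x :=
      prod_X_sub_C_dvd_of_roots _ _ (hCroots x)
    have h3 : (∏ y ∈ Cx x, (X - C y) : Polynomial ℂ) ∣ spec (p %ₘ Q) x := by
      have : spec (p %ₘ Q) x = spec p x - (∏ y ∈ Cx x, (X - C y)) * spec (p /ₘ Q) x := by
        rw [h1]; ring
      rw [this]
      exact dvd_sub h2 (dvd_mul_right _ _)
    apply eq_zero_of_dvd_of_natDegree_lt h3
    calc (spec (p %ₘ Q) x).natDegree ≤ (p %ₘ Q).natDegree := natDegree_map_le
      _ < m := hRdeg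
      _ = (∏ y ∈ Cx x, (X - C y) : Polynomial ℂ).natDegree := by
        rw [natDegree_prod_X_sub_C', hcard x hx]
  have hR0 : p %ₘ Q = 0 := by
    refine Polynomial.ext fun j => ?_
    rw [coeff_zero]
    apply eq_zero_of_infinite_isRoot
    apply Set.Infinite.mono _ (S.finite_toSet.infinite_compl)
    intro x hx
    have hx' : x ∉ S := by simpa using hx
    have := congrArg (fun q => q.coeff j) (hRspec x hx')
    simpa [spec, coeff_map] using this
  have hpQT : p = Q * (p /ₘ Q) := by
    have := hdiv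
    rw [hR0, zero_add] at this
    exact this.symm
  -- irreducibility forces `m = n`
  have hmap : p.map (algebraMap (Polynomial ℂ) (RatFunc ℂ))
      = Q.map (algebraMap (Polynomial ℂ) (RatFunc ℂ))
        * (p /ₘ Q).map (algebraMap (Polynomial ℂ) (RatFunc ℂ)) := by
    rw [← Polynomial.map_mul, ← hpQT]
  have hQφm : (Q.map (algebraMap (Polynomial ℂ) (RatFunc ℂ))).Monic := hQm.map _
  have hQφdeg : (Q.map (algebraMap (Polynomial ℂ) (RatFunc ℂ))).natDegree = m := by
    rw [hQm.natDegree_map, hQdeg]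
  have hnotunit : ¬ IsUnit (Q.map (algebraMap (Polynomial ℂ) (RatFunc ℂ))) := by
    intro h
    have := natDegree_eq_zero_of_isUnit h
    omega
  have hTunit : IsUnit ((p /ₘ Q).map (algebraMap (Polynomial ℂ) (RatFunc ℂ))) :=
    (hp.isUnit_or_isUnit hmap).resolve_left hnotunit
  have hTdeg := natDegree_eq_zero_of_isUnit hTunit
  have hmn : m = p.natDegree := by
    have h1 : (p.map (algebraMap (Polynomial ℂ) (RatFunc ℂ))).natDegree = p.natDegree :=
      hm.natDegree_map _
    have h2 : (p.map (algebraMap (Polynomial ℂ) (RatFunc ℂ))).natDegree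
        = (Q.map (algebraMap (Polynomial ℂ) (RatFunc ℂ))).natDegree
          + ((p /ₘ Q).map (algebraMap (Polynomial ℂ) (RatFunc ℂ))).natDegree := by
      rw [hmap]
      exact natDegree_mul hQφm.ne_zero hTunit.ne_zero
    omega
  -- conclusion
  rintro ⟨x, y⟩ ⟨hxS, hxy⟩
  have hxS' : x ∉ S := hxS
  have hle : (spec p x).roots.toFinset.card ≤ (Cx x).card := by
    rw [hcard x hxS', hmn]
    exact hrootscard x
  have heq := Finset.eq_of_subset_of_card_le (hCsub x) hle
  have hy : y ∈ (spec p x).roots.toFinset := by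
    rw [Multiset.mem_toFinset, mem_roots (hspne x), IsRoot.def, eval_spec]
    exact hxy
  rw [← heq] at hy
  exact ((hmemC' x y).mp hy).2

/-- Off the bad set every point of the curve is a simple point. -/
lemma derivative_ne_zero_of_separable (p : Polynomial (Polynomial ℂ)) (a b : ℂ)
    (hsep : (spec p a).Separable) (h0 : evalEval a b p = 0) :
    evalEval a b (derivative p) ≠ 0 := by
  intro h1
  rw [← eval_spec] at h0 h1
  rw [spec_derivative] at h1
  obtain ⟨u, v, huv⟩ := hsep
  have h := congrArg (eval b) huv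
  simp [h0, h1] at h

/-- **Main theorem (monic case).** For `p` monic in `Y` and irreducible over `ℂ(x)` there is a
finite set `S₀` of `x`-values such that every point of the curve `p = 0` off `S₀` is simple and,
for every finite `S ⊇ S₀`, the part of the curve over the complement of `S` is preconnected. -/
theorem exists_badSet_isPreconnected (p : Polynomial (Polynomial ℂ)) (hm : p.Monic)
    (hp : Irreducible (p.map (algebraMap (Polynomial ℂ) (RatFunc ℂ)))) :
    ∃ S₀ : Finset ℂ,
      (∀ a b, a ∉ S₀ → evalEval a b p = 0 → evalEval a b (derivative p) ≠ 0) ∧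
      ∀ S : Finset ℂ, S₀ ⊆ S → IsPreconnected (genericPart p S) := by
  obtain ⟨S₀, hS₀⟩ := exists_badSet p hp
  exact ⟨S₀, fun a b ha h0 => derivative_ne_zero_of_separable p a b (hS₀ a ha).1 h0,
    fun S hS => isPreconnected_genericPart_of_monic p hm hp S₀ hS₀ S hS⟩

end Fermat.Agent.S27.helper4526
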