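import Mathlib

/-!
# Dimension of quotients of a Dedekind algebra with residue fields `K` (helper456)

`B` a Dedekind domain and a `K`-algebra such that every residue field `B ⧸ P` is `K`
(valuation-free form: every element is congruent to a constant modulo every maximal ideal).

* `finrank_quotient_pow` : `dim_K B ⧸ P ^ e = e`;
* `finrank_quotient_span_singleton` : `dim_K B ⧸ (b) = ∑_P ord_P b` (the "sum formula").
-/

set_option autoImplicit false

noncomputable section

open IsDedekindDomain WithZero

namespace Fermat.Agent.S27.helper456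

section Dim

variable {K B : Type*} [Field K] [CommRing B] [IsDedekindDomain B] [Algebra K B]

theorem intValuation_uniformizer_pow (w : HeightOneSpectrum B) {π : B}
    (hπ : w.intValuation π = exp (-1 : ℤ)) (e : ℕ) :
    w.intValuation (π ^ e) = exp (-(e : ℤ)) := by
  rw [map_pow, hπ, ← exp_nsmul]
  simp

theorem uniformizer_pow_mem (w : HeightOneSpectrum B) {π : B}
    (hπ : w.intValuation π = exp (-1 : ℤ)) (e : ℕ) :
    π ^ e ∈ w.asIdeal ^ e ∧ π ^ e ∉ w.asIdeal ^ (e + 1) := by
  have hπe := intValuation_uniformizer_pow w hπ e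
  constructor
  · rw [← HeightOneSpectrum.intValuation_le_pow_iff_mem, hπe]
  · rw [← HeightOneSpectrum.intValuation_le_pow_iff_mem, hπe, exp_le_exp]
    push_cast
    omega

/-- Peeling off the top coefficient of a `π`-adic expansion. -/
theorem exists_sub_smul_pow_mem (w : HeightOneSpectrum B)
    (hres : ∀ a : B, ∃ c : K, a - algebraMap K B c ∈ w.asIdeal)
    {π : B} (hπ : w.intValuation π = exp (-1 : ℤ)) (e : ℕ) {a : B}
    (ha : a ∈ w.asIdeal ^ e) : ∃ c : K, a - c • π ^ e ∈ w.asIdeal ^ (e + 1) := by
  have := w.isPrime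
  obtain ⟨h1, h2⟩ := uniformizer_pow_mem w hπ e
  obtain ⟨d, ε, hε, hsum⟩ := Ideal.exists_mul_add_mem_pow_succ w.ne_bot (π ^ e) a h1 h2 ha
  obtain ⟨c, hc⟩ := hres d
  refine ⟨c, ?_⟩
  have h3 : a - c • π ^ e = π ^ e * (d - algebraMap K B c) + ε := by
    rw [← hsum, Algebra.smul_def]
    ring
  rw [h3]
  refine Ideal.add_mem _ ?_ hε
  rw [pow_succ]
  exact Ideal.mul_mem_mul h1 hc

theorem exists_coeffs (w : HeightOneSpectrum B)
    (hres : ∀ a : B, ∃ c : K, a - algebraMap K B c ∈ w.asIdeal)
    {π : B} (hπ : w.intValuation π = exp (-1 : ℤ)) (e : ℕ) (a : B) :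
    ∃ c : Fin e → K, a - ∑ i, c i • π ^ (i : ℕ) ∈ w.asIdeal ^ e := by
  induction e with
  | zero => exact ⟨fun _ => 0, by simp⟩
  | succ e ih =>
      obtain ⟨c, hc⟩ := ih
      obtain ⟨ce, hce⟩ := exists_sub_smul_pow_mem w hres hπ e hc
      refine ⟨(Fin.snoc c ce : Fin (e + 1) → K), ?_⟩
      rw [Fin.sum_univ_castSucc]
      simp only [Fin.snoc_castSucc, Fin.snoc_last, Fin.val_castSucc, Fin.val_last]
      rw [← sub_sub]
      exact hce

theorem coeffs_eq_zero (w : HeightOneSpectrum B) {π : B}
    (hπ : w.intValuation π = exp (-1 : ℤ)) (e : ℕ) (c : Fin e → K)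
    (h : ∑ i, c i • π ^ (i : ℕ) ∈ w.asIdeal ^ e) : c = 0 := by
  induction e with
  | zero => exact Subsingleton.elim _ _
  | succ e ih =>
      rw [Fin.sum_univ_castSucc] at h
      simp only [Fin.val_castSucc, Fin.val_last] at h
      obtain ⟨hπe1, -⟩ := uniformizer_pow_mem w hπ e
      have hlow : ∑ i : Fin e, c i.castSucc • π ^ (i : ℕ) ∈ w.asIdeal ^ e := by
        have h1 := (Ideal.pow_le_pow_right (Nat.le_succ e)) h
        have h2 : c (Fin.last e) • π ^ e ∈ w.asIdeal ^ e := by
          rw [Algebra.smul_def]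
          exact Ideal.mul_mem_left _ _ hπe1
        have h3 := Ideal.sub_mem _ h1 h2
        rwa [add_sub_cancel_right] at h3
      have hc := ih (fun i => c i.castSucc) hlow
      have hzero : ∀ i : Fin e, c i.castSucc = 0 := fun i => congrFun hc i
      have hsum0 : ∑ i : Fin e, c i.castSucc • π ^ (i : ℕ) = 0 :=
        Finset.sum_eq_zero fun i _ => by rw [hzero i, zero_smul]
      rw [hsum0, zero_add] at h
      have hlast : c (Fin.last e) = 0 := by
        by_contra hne
        rw [← HeightOneSpectrum.intValuation_le_pow_iff_mem, Algebra.smul_def, map_mul,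
          intValuation_uniformizer_pow w hπ e] at h
        have hu : w.intValuation (algebraMap K B (c (Fin.last e))) = 1 := by
          rw [HeightOneSpectrum.intValuation_eq_one_iff]
          intro hmem
          exact w.isPrime.ne_top
            (Ideal.eq_top_of_isUnit_mem _ hmem ((IsUnit.mk0 _ hne).map (algebraMap K B)))
        rw [hu, one_mul, exp_le_exp] at h
        push_cast at h
        omega
      funext i
      exact Fin.lastCases hlast (fun j => hzero j) i

/-- `dim_K B ⧸ P ^ e = e` when the residue field at `P` is `K`. -/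
theorem finrank_quotient_pow (w : HeightOneSpectrum B)
    (hres : ∀ a : B, ∃ c : K, a - algebraMap K B c ∈ w.asIdeal) (e : ℕ) :
    Module.Finite K (B ⧸ w.asIdeal ^ e) ∧ Module.finrank K (B ⧸ w.asIdeal ^ e) = e := by
  obtain ⟨π, hπ⟩ := w.intValuation_exists_uniformizer
  let Ψ : (Fin e → K) →ₗ[K] (B ⧸ w.asIdeal ^ e) :=
    Fintype.linearCombination K
      (fun i : Fin e => (Ideal.Quotient.mk (w.asIdeal ^ e) (π ^ (i : ℕ))))
  have hΨ : ∀ c : Fin e → K,
      Ψ c = Ideal.Quotient.mk (w.asIdeal ^ e) (∑ i, c i • π ^ (i : ℕ)) := by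
    intro c
    rw [Fintype.linearCombination_apply, map_sum]
    rfl
  have hinj : Function.Injective Ψ := by
    rw [← LinearMap.ker_eq_bot, LinearMap.ker_eq_bot']
    intro c hc
    rw [hΨ, Ideal.Quotient.eq_zero_iff_mem] at hc
    exact coeffs_eq_zero w hπ e c hc
  have hsurj : Function.Surjective Ψ := by
    intro y
    obtain ⟨a, rfl⟩ := Ideal.Quotient.mk_surjective y
    obtain ⟨c, hc⟩ := exists_coeffs w hres hπ e a
    refine ⟨c, ?_⟩
    rw [hΨ, eq_comm, Ideal.Quotient.eq]
    exact hc
  let E := LinearEquiv.ofBijective Ψ ⟨hinj, hsurj⟩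
  exact ⟨Module.Finite.equiv E, by rw [← E.finrank_eq, Module.finrank_fin_fun]⟩

/-- **Sum formula**: `dim_K B ⧸ (b) = ∑_P ord_P b` when all residue fields are `K`. -/
theorem finrank_quotient_span_singleton
    (hres : ∀ (w : HeightOneSpectrum B) (a : B), ∃ c : K, a - algebraMap K B c ∈ w.asIdeal)
    {b : B} (hb : b ≠ 0) (S : Finset (HeightOneSpectrum B)) (e : HeightOneSpectrum B → ℕ)
    (he : ∀ w, w.intValuation b = exp (-(e w : ℤ))) (hS : ∀ w, w ∉ S → e w = 0) :
    Module.finrank K (B ⧸ Ideal.span {b}) = ∑ w ∈ S, e w := by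
  classical
  have hfinS : ∀ w : S, Module.Finite K (B ⧸ w.1.asIdeal ^ e w.1) := fun w =>
    (finrank_quotient_pow w.1 (hres w.1) (e w.1)).1
  let Φ : B →ₗ[K] (∀ w : S, B ⧸ w.1.asIdeal ^ e w.1) :=
    LinearMap.pi fun w => (Ideal.Quotient.mkₐ K (w.1.asIdeal ^ e w.1)).toLinearMap
  have hΦ : ∀ (a : B) (w : S), Φ a w = Ideal.Quotient.mk (w.1.asIdeal ^ e w.1) a :=
    fun a w => rfl
  have hsurj : Function.Surjective Φ := by
    intro y
    choose x hx using fun w : S => Ideal.Quotient.mk_surjective (y w)
    obtain ⟨a, ha⟩ := IsDedekindDomain.exists_forall_sub_mem_ideal (s := S)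
      (fun w : HeightOneSpectrum B => w.asIdeal) e (fun w _ => w.prime)
      (fun w _ w' _ hww' h => hww' (HeightOneSpectrum.ext h)) (fun w => x w)
    refine ⟨a, funext fun w => ?_⟩
    rw [hΦ, ← hx w, Ideal.Quotient.eq]
    exact ha w.1 w.2
  have hker : LinearMap.ker Φ = (Ideal.span {b}).restrictScalars K := by
    ext a
    rw [LinearMap.mem_ker, Submodule.restrictScalars_mem, Ideal.mem_span_singleton]
    constructor
    · intro h
      have hval : ∀ w : HeightOneSpectrum B, w.intValuation a ≤ w.intValuation b := by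
        intro w
        by_cases hw : w ∈ S
        · rw [he w, HeightOneSpectrum.intValuation_le_pow_iff_mem]
          have h1 := congrFun h ⟨w, hw⟩
          rw [hΦ] at h1
          exact Ideal.Quotient.eq_zero_iff_mem.1 h1
        · rw [he w, hS w hw]
          simpa using w.intValuation_le_one a
      have hbF : algebraMap B (FractionRing B) b ≠ 0 := by
        simpa using hb
      obtain ⟨c, hc⟩ := HeightOneSpectrum.mem_integers_of_valuation_le_one (R := B)
        (FractionRing B)
        (algebraMap B (FractionRing B) a / algebraMap B (FractionRing B) b) (fun w => by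
          have hpos : 0 < w.valuation (FractionRing B) (algebraMap B (FractionRing B) b) :=
            zero_lt_iff.2 ((Valuation.ne_zero_iff _).2 hbF)
          rw [map_div₀, div_le_one₀ hpos, HeightOneSpectrum.valuation_of_algebraMap,
            HeightOneSpectrum.valuation_of_algebraMap]
          exact hval w)
      refine ⟨c, ?_⟩
      apply IsFractionRing.injective B (FractionRing B)
      rw [map_mul, hc]
      field_simp
    · rintro ⟨c, rfl⟩
      funext w
      rw [hΦ]
      show _ = 0
      rw [Ideal.Quotient.eq_zero_iff_mem, ← HeightOneSpectrum.intValuation_le_pow_iff_mem, map_mul,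
        he w.1]
      exact mul_le_of_le_one_right' (w.1.intValuation_le_one c)
  let E1 := Φ.quotKerEquivOfSurjective hsurj
  let E2 := Submodule.quotEquivOfEq _ _ hker
  let E3 := Submodule.Quotient.restrictScalarsEquiv K (Ideal.span {b})
  rw [← E3.finrank_eq, ← E2.finrank_eq, E1.finrank_eq, Module.finrank_pi_fintype]
  rw [← Finset.sum_coe_sort S e]
  exact Finset.sum_congr rfl fun w _ => (finrank_quotient_pow w.1 (hres w.1) (e w.1)).2

end Dim

end Fermat.Agent.S27.helper456

end
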