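import Mathlib
import Fermat.Prelude.Def_AlgebraicCurve_Repartitions
import Fermat.Prelude.Def_AlgebraicCurve_IsCurveOver

/-!
# S27 (algebraic track): the genus of a one-point function field (helper456)

Abstract one-point setting (the setting of `helper751`'s dictionary): `B` a Dedekind domain
with fraction field `F`, the Prelude places of `F/K` are the maximal ideals of `B` plus one
extra place `Pinf`.  Then

* `genusFF_eq_finrank_quot` : `genusFF K F = finrank K (F ⧸ (B + O_inf))`
  (strong approximation in `B`);
* `genusFF_eq_card_gaps` : if the residue field of `Pinf` is `K`, this is the number of gaps.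
-/

set_option autoImplicit false

noncomputable section

open IsDedekindDomain WithZero AlgebraicCurve

namespace Fermat.Agent.S27.helper456

/-! ### Strong approximation at finitely many primes of a Dedekind domain -/

section SA

variable {B : Type*} [CommRing B] [IsDedekindDomain B] {F : Type*} [Field F] [Algebra B F]
  [IsFractionRing B F]

theorem exists_approx (S : Finset (HeightOneSpectrum B)) (a : HeightOneSpectrum B → F) :
    ∃ f : F, (∀ w ∈ S, w.valuation F (a w - f) ≤ 1) ∧ ∀ w ∉ S, w.valuation F f ≤ 1 := by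
  classical
  obtain ⟨⟨d, hdmem⟩, hd⟩ := IsLocalization.exist_integer_multiples (nonZeroDivisors B) S a
  have hd0 : d ≠ 0 := nonZeroDivisors.ne_zero hdmem
  simp only at hd
  choose! c hc using hd
  -- the target residues
  let x : HeightOneSpectrum B → B := fun w => if w ∈ S then c w else 0
  -- the exponents
  let e : HeightOneSpectrum B → ℕ := fun w =>
    (Associates.mk w.asIdeal).count (Associates.mk (Ideal.span {d} : Ideal B)).factors
  have he : ∀ w : HeightOneSpectrum B, w.intValuation d = exp (-(e w : ℤ)) := fun w =>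
    w.intValuation_if_neg hd0
  have hfin : {w : HeightOneSpectrum B | w.asIdeal ∣ Ideal.span {d}}.Finite :=
    Ideal.finite_factors (by simpa using hd0)
  let S' : Finset (HeightOneSpectrum B) := S ∪ hfin.toFinset
  obtain ⟨b, hb⟩ := IsDedekindDomain.exists_forall_sub_mem_ideal (s := S')
    (fun w : HeightOneSpectrum B => w.asIdeal) e (fun w _ => w.prime)
    (fun w _ w' _ hww' h => hww' (HeightOneSpectrum.ext h)) (fun w => x w.1)
  have key : ∀ w : HeightOneSpectrum B, w.intValuation (b - x w) ≤ w.intValuation d := by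
    intro w
    by_cases hw : w ∈ S'
    · rw [he w, HeightOneSpectrum.intValuation_le_pow_iff_mem]
      exact hb w hw
    · have hnd : d ∉ w.asIdeal := by
        intro hmem
        apply hw
        refine Finset.mem_union_right _ ((Set.Finite.mem_toFinset hfin).2 ?_)
        show w.asIdeal ∣ Ideal.span {d}
        rwa [Ideal.dvd_span_singleton]
      rw [HeightOneSpectrum.intValuation_eq_one_iff.2 hnd]
      exact w.intValuation_le_one _
  have hdF : algebraMap B F d ≠ 0 := by
    simpa using hd0
  refine ⟨algebraMap B F b / algebraMap B F d, fun w hw => ?_, fun w hw => ?_⟩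
  · have h1 : a w - algebraMap B F b / algebraMap B F d
        = algebraMap B F (c w - b) / algebraMap B F d := by
      rw [map_sub, hc w hw, Algebra.smul_def]
      field_simp
    have hpos : 0 < w.valuation F (algebraMap B F d) :=
      zero_lt_iff.2 ((Valuation.ne_zero_iff _).2 hdF)
    rw [h1, map_div₀, div_le_one₀ hpos, HeightOneSpectrum.valuation_of_algebraMap,
      HeightOneSpectrum.valuation_of_algebraMap, ← Valuation.map_sub_swap]
    have := key w
    simpa [x, hw] using this
  · have hpos : 0 < w.valuation F (algebraMap B F d) :=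
      zero_lt_iff.2 ((Valuation.ne_zero_iff _).2 hdF)
    rw [map_div₀, div_le_one₀ hpos, HeightOneSpectrum.valuation_of_algebraMap,
      HeightOneSpectrum.valuation_of_algebraMap]
    have := key w
    simpa [x, hw] using this

end SA

/-! ### Pole-order filtration at a place -/

section Pole

variable {K F : Type*} [Field K] [Field F] [Algebra K F]

/-- Functions with pole order at most `n` at the place `P`. -/
def poleLE (P : Place K F) (n : ℤ) : Submodule K F where
  carrier := {f | P.adicValuation f ≤ exp n}
  zero_mem' := by simp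
  add_mem' := by
    intro f g hf hg
    show P.adicValuation (f + g) ≤ exp n
    exact (Valuation.map_add _ _ _).trans (max_le hf hg)
  smul_mem' := fun c f hf => by
    show P.adicValuation (c • f) ≤ exp n
    rw [Algebra.smul_def, map_mul]
    exact (mul_le_of_le_one_left' (P.adicValuation_algebraMap_le_one c)).trans hf

theorem mem_poleLE {P : Place K F} {n : ℤ} {f : F} :
    f ∈ poleLE P n ↔ P.adicValuation f ≤ exp n := by
  show P.adicValuation f ≤ exp n ↔ _
  exact Iff.rfl

theorem mem_poleLE_iff_ord {P : Place K F} {n : ℤ} {f : F} :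
    f ∈ poleLE P n ↔ f = 0 ∨ -n ≤ P.ord f :=
  mem_poleLE.trans P.adicValuation_le_exp_iff

theorem mem_poleLE_of_ne {P : Place K F} {n : ℤ} {f : F} (hf : f ≠ 0) :
    f ∈ poleLE P n ↔ -n ≤ P.ord f := by
  rw [mem_poleLE_iff_ord, or_iff_right hf]

theorem poleLE_mono (P : Place K F) {m n : ℤ} (h : m ≤ n) : poleLE P m ≤ poleLE P n :=
  fun _ hf => mem_poleLE.2 (le_trans (mem_poleLE.1 hf) (exp_le_exp.2 h))

theorem mem_poleLE_zero {P : Place K F} {f : F} :
    f ∈ poleLE P 0 ↔ P.adicValuation f ≤ 1 := by
  rw [mem_poleLE, exp_zero]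

theorem val_lt_one_iff {P : Place K F} {f : F} :
    P.adicValuation f < 1 ↔ f = 0 ∨ 0 < P.ord f := by
  rcases eq_or_ne f 0 with rfl | hf
  · simp
  · rw [P.adicValuation_eq_exp_neg_ord hf, ← exp_zero, exp_lt_exp, or_iff_right hf]
    omega

/-- Every function has some pole order. -/
theorem exists_mem_poleLE (P : Place K F) (f : F) : ∃ n : ℕ, f ∈ poleLE P (n : ℤ) := by
  refine ⟨(-P.ord f).toNat, ?_⟩
  rw [mem_poleLE_iff_ord]
  right
  have := Int.self_le_toNat (-P.ord f)
  omega

/-- Reduction of the pole order by one, given that the residue field is `K`. -/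
theorem exists_sub_smul_mem_poleLE {P : Place K F}
    (hres : ∀ f : F, P.adicValuation f ≤ 1 →
      ∃ c : K, P.adicValuation (f - algebraMap K F c) < 1)
    (n : ℤ) {e h : F} (he : e ∈ poleLE P (n + 1)) (hen : e ∉ poleLE P n)
    (hh : h ∈ poleLE P (n + 1)) : ∃ c : K, h - c • e ∈ poleLE P n := by
  have he0 : e ≠ 0 := by
    rintro rfl
    exact hen (Submodule.zero_mem _)
  rw [mem_poleLE_of_ne he0] at he hen
  rcases eq_or_ne h 0 with rfl | hh0
  · exact ⟨0, by simp⟩
  rw [mem_poleLE_of_ne hh0] at hh
  have hg0 : h * e⁻¹ ≠ 0 := mul_ne_zero hh0 (inv_ne_zero he0)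
  have hg : P.adicValuation (h * e⁻¹) ≤ 1 := by
    rw [P.adicValuation_le_one_iff]
    right
    rw [P.ord_mul hh0 (inv_ne_zero he0), P.ord_inv]
    omega
  obtain ⟨c, hc⟩ := hres _ hg
  refine ⟨c, ?_⟩
  have hfac : h - c • e = e * (h * e⁻¹ - algebraMap K F c) := by
    rw [Algebra.smul_def]
    field_simp
  rw [val_lt_one_iff] at hc
  rcases hc with hc | hc
  · rw [hfac, hc, mul_zero]
    exact Submodule.zero_mem _
  · have hne : h * e⁻¹ - algebraMap K F c ≠ 0 := by
      intro h0
      rw [h0] at hc
      simp at hc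
    rw [hfac, mem_poleLE_of_ne (mul_ne_zero he0 hne), P.ord_mul he0 hne]
    omega

/-- Membership in the valuation ring of a place in terms of its valuation. -/
theorem mem_toValuationSubring_iff {P : Place K F} {f : F} :
    f ∈ P.toValuationSubring ↔ P.adicValuation f ≤ 1 := by
  refine ⟨P.adicValuation_le_one_of_mem, fun hf => ?_⟩
  by_contra hmem
  have hf0 : f ≠ 0 := by
    rintro rfl
    exact hmem (zero_mem _)
  have hinv : f⁻¹ ∈ P.toValuationSubring :=
    (P.toValuationSubring.mem_or_inv_mem f).resolve_left hmem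
  have h1 : P.adicValuation f⁻¹ ≤ 1 := P.adicValuation_le_one_of_mem hinv
  have h2 : P.adicValuation f * P.adicValuation f⁻¹ = 1 := by
    rw [← map_mul, mul_inv_cancel₀ hf0, map_one]
  have h3 : P.adicValuation f = 1 := by
    refine le_antisymm hf ?_
    calc (1 : ℤᵐ⁰) = P.adicValuation f * P.adicValuation f⁻¹ := h2.symm
      _ ≤ P.adicValuation f * 1 := by gcongr
      _ = P.adicValuation f := mul_one _
  have h4 : P.adicValuation f⁻¹ = 1 := by
    rw [h3, one_mul] at h2
    exact h2
  have h5 : IsUnit (⟨f⁻¹, hinv⟩ : P.toValuationSubring) :=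
    (P.adicValuation_coe_eq_one_iff ⟨f⁻¹, hinv⟩).1 h4
  obtain ⟨u, hu⟩ := h5
  apply hmem
  have h6 : ((((u⁻¹ : P.toValuationSubringˣ) : P.toValuationSubring) * (u : P.toValuationSubring)
      : P.toValuationSubring) : F) = ((1 : P.toValuationSubring) : F) := by
    rw [Units.inv_mul]
  rw [hu] at h6
  have h7 : (((u⁻¹ : P.toValuationSubringˣ) : P.toValuationSubring) : F) * f⁻¹ = 1 := h6
  rw [mul_inv_eq_one₀ hf0] at h7
  rw [← h7]
  exact ((u⁻¹ : P.toValuationSubringˣ) : P.toValuationSubring).2

/-- If the residue field of `P` is `K`, every integral function is congruent to a constant. -/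
theorem hres_of_surjective {P : Place K F}
    (hs : Function.Surjective (algebraMap K P.ResidueField)) :
    ∀ f : F, P.adicValuation f ≤ 1 → ∃ c : K, P.adicValuation (f - algebraMap K F c) < 1 := by
  intro f hf
  have hmem : f ∈ P.toValuationSubring := mem_toValuationSubring_iff.2 hf
  obtain ⟨c, hc⟩ := hs (IsLocalRing.residue P.toValuationSubring ⟨f, hmem⟩)
  refine ⟨c, ?_⟩
  have h1 : algebraMap K P.ResidueField c
      = IsLocalRing.residue P.toValuationSubring (algebraMap K P.toValuationSubring c) := rfl
  rw [h1] at hc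
  have h2 : (⟨f, hmem⟩ : P.toValuationSubring) - algebraMap K P.toValuationSubring c
      ∈ IsLocalRing.maximalIdeal P.toValuationSubring := by
    rw [← IsLocalRing.residue_eq_zero_iff, map_sub, hc, sub_self]
  have h3 := P.adicValuation_coe
    ((⟨f, hmem⟩ : P.toValuationSubring) - algebraMap K P.toValuationSubring c)
  have h4 : (((⟨f, hmem⟩ : P.toValuationSubring) - algebraMap K P.toValuationSubring c
      : P.toValuationSubring) : F) = f - algebraMap K F c := rfl
  rw [h4] at h3
  rw [h3, HeightOneSpectrum.intValuation_lt_one_iff_mem]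
  exact h2

theorem hres_of_deg_eq_one {P : Place K F} (hdeg : P.deg = 1) :
    ∀ f : F, P.adicValuation f ≤ 1 → ∃ c : K, P.adicValuation (f - algebraMap K F c) < 1 := by
  apply hres_of_surjective
  intro y
  have h1 : Module.finrank K P.ResidueField = 1 := hdeg
  obtain ⟨c, hc⟩ := (finrank_eq_one_iff_of_nonzero' (1 : P.ResidueField) one_ne_zero).1 h1 y
  exact ⟨c, by rw [Algebra.algebraMap_eq_smul_one, hc]⟩

theorem hres_of_isAlgClosed [IsAlgClosed K] {P : Place K F}
    (hfin : Module.Finite K P.ResidueField) :
    ∀ f : F, P.adicValuation f ≤ 1 → ∃ c : K, P.adicValuation (f - algebraMap K F c) < 1 :=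
  hres_of_deg_eq_one P.deg_eq_one_of_isAlgClosed_of_finite

end Pole

/-! ### The one-point setting -/

section OnePoint

/-- The image of `B` in `F`, as a `K`-submodule. -/
def ringImage (K B F : Type*) [Field K] [Field F] [CommRing B] [Algebra K F] [Algebra B F]
    [Algebra K B] [IsScalarTower K B F] : Submodule K F :=
  LinearMap.range (IsScalarTower.toAlgHom K B F).toLinearMap

variable {K F : Type*} [Field K] [Field F] [Algebra K F]
variable {B : Type*} [CommRing B] [IsDedekindDomain B] [Algebra B F] [IsFractionRing B F]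
  [Algebra K B] [IsScalarTower K B F]

omit [IsDedekindDomain B] [IsFractionRing B F] in
theorem mem_ringImage {f : F} : f ∈ ringImage K B F ↔ ∃ b : B, algebraMap B F b = f := by
  unfold ringImage
  rw [LinearMap.mem_range]
  rfl

open Classical in
/-- The function with value `h` at `P` and `0` elsewhere. -/
def deltaFun (P : Place K F) (h : F) : Place K F → F := fun v => if v = P then h else 0

theorem deltaFun_same (P : Place K F) (h : F) : deltaFun P h P = h := by
  simp [deltaFun]

theorem deltaFun_of_ne (P : Place K F) (h : F) {v : Place K F} (hv : v ≠ P) :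
    deltaFun P h v = 0 := by
  simp [deltaFun, hv]

theorem deltaFun_mem (P : Place K F) (h : F) : deltaFun P h ∈ repartitions K F :=
  mem_repartitions_of_finite ((Set.finite_singleton P).subset (by
    intro v hv
    by_contra hne
    apply hv
    rw [deltaFun_of_ne P h hne]
    simp))

/-- The repartition with value `h` at `P` and `0` elsewhere. -/
def delta (P : Place K F) : F →ₗ[K] ↥(repartitions K F) where
  toFun h := ⟨deltaFun P h, deltaFun_mem P h⟩
  map_add' h h' := by
    apply Subtype.ext
    show deltaFun P (h + h') = deltaFun P h + deltaFun P h'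
    funext v
    by_cases hv : v = P
    · subst hv
      simp [deltaFun_same]
    · simp [deltaFun_of_ne _ _ hv]
  map_smul' c h := by
    apply Subtype.ext
    show deltaFun P (c • h) = c • deltaFun P h
    funext v
    by_cases hv : v = P
    · subst hv
      simp [deltaFun_same]
    · simp [deltaFun_of_ne _ _ hv]

theorem delta_apply_same (P : Place K F) (h : F) :
    (delta P h : Place K F → F) P = h := deltaFun_same P h

theorem delta_apply_of_ne (P : Place K F) (h : F) {v : Place K F} (hv : v ≠ P) :
    (delta P h : Place K F → F) v = 0 := deltaFun_of_ne P h hv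

variable (Pinf : Place K F) (pl : HeightOneSpectrum B → Place K F)

omit [Algebra K B] [IsScalarTower K B F] in
include Pinf in
/-- In the one-point setting every repartition is integral at almost all places. -/
theorem finite_bad (hsurj : ∀ P : Place K F, P ≠ Pinf → ∃ w, pl w = P)
    (hval : ∀ (w : HeightOneSpectrum B) (f : F), (pl w).adicValuation f = w.valuation F f)
    (α : ↥(repartitions K F)) :
    {v : Place K F | ¬ v.adicValuation ((α : Place K F → F) v) ≤ 1}.Finite := by
  obtain ⟨α, hα⟩ := α
  show {v : Place K F | ¬ v.adicValuation (α v) ≤ 1}.Finite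
  induction hα using Algebra.adjoin_induction with
  | mem x hx => exact hx
  | algebraMap f =>
      have h1 := HeightOneSpectrum.Support.finite B f
      refine ((h1.image pl).union (Set.finite_singleton Pinf)).subset ?_
      intro v hv
      by_cases hvP : v = Pinf
      · right
        exact hvP
      · left
        obtain ⟨w, rfl⟩ := hsurj v hvP
        refine ⟨w, ?_, rfl⟩
        have hv' : ¬ (pl w).adicValuation f ≤ 1 := hv
        rw [hval] at hv'
        exact not_le.1 hv'
  | add x y hx hy ihx ihy =>
      refine (ihx.union ihy).subset ?_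
      intro v hv
      by_contra hcon
      have h1 : v.adicValuation (x v) ≤ 1 := by
        by_contra h
        exact hcon (Or.inl h)
      have h2 : v.adicValuation (y v) ≤ 1 := by
        by_contra h
        exact hcon (Or.inr h)
      exact hv ((Valuation.map_add _ _ _).trans (max_le h1 h2))
  | mul x y hx hy ihx ihy =>
      refine (ihx.union ihy).subset ?_
      intro v hv
      by_contra hcon
      have h1 : v.adicValuation (x v) ≤ 1 := by
        by_contra h
        exact hcon (Or.inl h)
      have h2 : v.adicValuation (y v) ≤ 1 := by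
        by_contra h
        exact hcon (Or.inr h)
      apply hv
      show v.adicValuation (x v * y v) ≤ 1
      rw [map_mul]
      exact mul_le_one' h1 h2

omit [Algebra K B] [IsScalarTower K B F] in
theorem pl_injective
    (hval : ∀ (w : HeightOneSpectrum B) (f : F), (pl w).adicValuation f = w.valuation F f) :
    Function.Injective pl := by
  intro w w' h
  apply HeightOneSpectrum.ext
  ext r
  rw [← HeightOneSpectrum.valuation_lt_one_iff_mem (K := F),
    ← HeightOneSpectrum.valuation_lt_one_iff_mem (K := F), ← hval, ← hval, h]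

theorem coe_sub_apply (α β : ↥(repartitions K F)) (v : Place K F) :
    ((α - β : ↥(repartitions K F)) : Place K F → F) v
      = (α : Place K F → F) v - (β : Place K F → F) v := rfl

theorem coe_add_apply (α β : ↥(repartitions K F)) (v : Place K F) :
    ((α + β : ↥(repartitions K F)) : Place K F → F) v
      = (α : Place K F → F) v + (β : Place K F → F) v := rfl

theorem coe_algebraMap_apply (f : F) (v : Place K F) :
    ((algebraMap F ↥(repartitions K F) f : ↥(repartitions K F)) : Place K F → F) v = f := rfl

theorem mem_repartitionsOf_zero {α : ↥(repartitions K F)} :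
    α ∈ repartitionsOf (0 : Divisor K F) ↔
      ∀ v : Place K F, v.adicValuation ((α : Place K F → F) v) ≤ 1 := by
  show (∀ v : Place K F, v.adicValuation ((α : Place K F → F) v) ≤ exp ((0 : Divisor K F) v)) ↔ _
  simp

theorem algebraMap_mem_principal (f : F) :
    algebraMap F ↥(repartitions K F) f ∈ principalRepartitions K F :=
  mem_principalRepartitions_iff.2 ⟨f, rfl⟩

omit [Algebra K B] [IsScalarTower K B F] in
/-- Strong approximation: every repartition is, modulo `A(0) + F`, concentrated at `Pinf`. -/
theorem exists_delta_sub_mem (hsurj : ∀ P : Place K F, P ≠ Pinf → ∃ w, pl w = P)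
    (hval : ∀ (w : HeightOneSpectrum B) (f : F), (pl w).adicValuation f = w.valuation F f)
    (α : ↥(repartitions K F)) :
    ∃ h : F, α - delta Pinf h
      ∈ repartitionsOf (0 : Divisor K F) ⊔ principalRepartitions K F := by
  classical
  have hfin := finite_bad Pinf pl hsurj hval α
  have hfin' : {w : HeightOneSpectrum B |
      ¬ (pl w).adicValuation ((α : Place K F → F) (pl w)) ≤ 1}.Finite :=
    hfin.preimage ((pl_injective pl hval).injOn)
  obtain ⟨f, hf1, hf2⟩ := exists_approx hfin'.toFinset (fun w => (α : Place K F → F) (pl w))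
  have hint : ∀ w : HeightOneSpectrum B,
      w.valuation F ((α : Place K F → F) (pl w) - f) ≤ 1 := by
    intro w
    by_cases hw : w ∈ hfin'.toFinset
    · exact hf1 w hw
    · have h2 := hf2 w hw
      have h1 : w.valuation F ((α : Place K F → F) (pl w)) ≤ 1 := by
        rw [← hval]
        by_contra hcon
        exact hw ((Set.Finite.mem_toFinset hfin').2 hcon)
      exact (Valuation.map_sub _ _ _).trans (max_le h1 h2)
  refine ⟨(α : Place K F → F) Pinf - f, ?_⟩
  rw [Submodule.mem_sup]
  refine ⟨α - delta Pinf ((α : Place K F → F) Pinf - f) - algebraMap F _ f, ?_,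
    algebraMap F _ f, algebraMap_mem_principal f, sub_add_cancel _ _⟩
  rw [mem_repartitionsOf_zero]
  intro v
  rw [coe_sub_apply, coe_sub_apply, coe_algebraMap_apply]
  by_cases hv : v = Pinf
  · subst hv
    rw [delta_apply_same]
    simp
  · rw [delta_apply_of_ne _ _ hv, sub_zero]
    obtain ⟨w, rfl⟩ := hsurj v hv
    rw [hval]
    exact hint w

/-- The repartition concentrated at `Pinf` with value `h` lies in `A(0) + F` iff
`h ∈ B + O_inf`. -/
theorem delta_mem_iff (hne : ∀ w, pl w ≠ Pinf)
    (hsurj : ∀ P : Place K F, P ≠ Pinf → ∃ w, pl w = P)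
    (hval : ∀ (w : HeightOneSpectrum B) (f : F), (pl w).adicValuation f = w.valuation F f)
    (h : F) :
    delta Pinf h ∈ repartitionsOf (0 : Divisor K F) ⊔ principalRepartitions K F ↔
      h ∈ ringImage K B F ⊔ poleLE Pinf 0 := by
  constructor
  · intro hmem
    obtain ⟨γ, hγ, β, hβ, hsum⟩ := Submodule.mem_sup.1 hmem
    obtain ⟨f, hf⟩ := mem_principalRepartitions_iff.1 hβ
    rw [mem_repartitionsOf_zero] at hγ
    have hpt : ∀ v : Place K F,
        (delta Pinf h : Place K F → F) v = (γ : Place K F → F) v + f := by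
      intro v
      rw [← hsum, coe_add_apply, hf]
    have hfB : f ∈ (algebraMap B F).range := by
      apply HeightOneSpectrum.mem_integers_of_valuation_le_one
      intro w
      have h1 := hpt (pl w)
      rw [delta_apply_of_ne _ _ (hne w)] at h1
      have h3 : f = -(γ : Place K F → F) (pl w) := by linear_combination -h1
      rw [h3, Valuation.map_neg, ← hval]
      exact hγ (pl w)
    obtain ⟨b, hb⟩ := hfB
    rw [Submodule.mem_sup]
    refine ⟨f, mem_ringImage.2 ⟨b, hb⟩, h - f, ?_, by ring⟩
    have h1 := hpt Pinf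
    rw [delta_apply_same] at h1
    have h3 : h - f = (γ : Place K F → F) Pinf := by rw [h1]; ring
    rw [h3, mem_poleLE_zero]
    exact hγ Pinf
  · intro hmem
    obtain ⟨f, hf, o, ho, rfl⟩ := Submodule.mem_sup.1 hmem
    obtain ⟨b, rfl⟩ := mem_ringImage.1 hf
    rw [map_add]
    refine Submodule.add_mem _ ?_ (Submodule.mem_sup_left ?_)
    · rw [Submodule.mem_sup]
      refine ⟨delta Pinf (algebraMap B F b) - algebraMap F _ (algebraMap B F b), ?_,
        algebraMap F _ (algebraMap B F b), algebraMap_mem_principal _, sub_add_cancel _ _⟩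
      rw [mem_repartitionsOf_zero]
      intro v
      rw [coe_sub_apply, coe_algebraMap_apply]
      by_cases hv : v = Pinf
      · subst hv
        rw [delta_apply_same]
        simp
      · rw [delta_apply_of_ne _ _ hv, zero_sub, Valuation.map_neg]
        obtain ⟨w, rfl⟩ := hsurj v hv
        rw [hval]
        exact w.valuation_le_one b
    · rw [mem_repartitionsOf_zero]
      intro v
      by_cases hv : v = Pinf
      · subst hv
        rw [delta_apply_same]
        exact mem_poleLE_zero.1 ho
      · rw [delta_apply_of_ne _ _ hv]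
        simp

/-- **(G1)** In the one-point setting, `genusFF K F = dim_K F / (B + O_inf)`. -/
theorem genusFF_eq_finrank_quot (hne : ∀ w, pl w ≠ Pinf)
    (hsurj : ∀ P : Place K F, P ≠ Pinf → ∃ w, pl w = P)
    (hval : ∀ (w : HeightOneSpectrum B) (f : F), (pl w).adicValuation f = w.valuation F f) :
    genusFF K F = Module.finrank K (F ⧸ (ringImage K B F ⊔ poleLE Pinf 0)) := by
  let U : Submodule K ↥(repartitions K F) :=
    repartitionsOf (0 : Divisor K F) ⊔ principalRepartitions K F
  let ι : F →ₗ[K] (↥(repartitions K F) ⧸ U) := U.mkQ ∘ₗ delta Pinf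
  have hsurjι : Function.Surjective ι := by
    intro y
    obtain ⟨α, rfl⟩ := U.mkQ_surjective y
    obtain ⟨h, hh⟩ := exists_delta_sub_mem Pinf pl hsurj hval α
    refine ⟨h, ?_⟩
    show U.mkQ (delta Pinf h) = U.mkQ α
    rw [eq_comm, ← sub_eq_zero, ← map_sub, Submodule.mkQ_apply, Submodule.Quotient.mk_eq_zero]
    exact hh
  have hker : LinearMap.ker ι = ringImage K B F ⊔ poleLE Pinf 0 := by
    ext h
    rw [LinearMap.mem_ker]
    show U.mkQ (delta Pinf h) = 0 ↔ _
    rw [Submodule.mkQ_apply, Submodule.Quotient.mk_eq_zero]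
    exact delta_mem_iff Pinf pl hne hsurj hval h
  have e := ι.quotKerEquivOfSurjective hsurjι
  rw [← hker]
  exact e.finrank_eq.symm

/-! ### Counting gaps -/

omit [IsDedekindDomain B] [IsFractionRing B F] in
/-- **(G2)** If the residue field of `Pinf` is `K`, then `dim_K F / (B + O_inf)` is the number
of gaps: `G` is a finite set of positive integers, no nonzero element of `B` has pole order in
`G`, and every other positive integer is the pole order of an element of `B`. -/
theorem finrank_quot_eq_card_gaps
    (hres : ∀ f : F, Pinf.adicValuation f ≤ 1 →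
      ∃ c : K, Pinf.adicValuation (f - algebraMap K F c) < 1)
    (G : Finset ℕ) (hpos : ∀ t ∈ G, 0 < t)
    (hgap : ∀ t ∈ G, ∀ b : B, algebraMap B F b ≠ 0 → Pinf.ord (algebraMap B F b) ≠ -(t : ℤ))
    (hnongap : ∀ t : ℕ, 0 < t → t ∉ G →
      ∃ b : B, algebraMap B F b ≠ 0 ∧ Pinf.ord (algebraMap B F b) = -(t : ℤ)) :
    Module.finrank K (F ⧸ (ringImage K B F ⊔ poleLE Pinf 0)) = G.card := by
  classical
  obtain ⟨ϖ, hϖ⟩ := IsDiscreteValuationRing.exists_irreducible Pinf.toValuationSubring
  have hϖ1 : Pinf.ord (ϖ : F) = 1 := Pinf.ord_coe_irreducible hϖ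
  have hϖ0 : (ϖ : F) ≠ 0 := by
    intro h0
    rw [h0] at hϖ1
    simp at hϖ1
  -- elements of exact pole order `t`
  let u : ℕ → F := fun t => (ϖ : F) ^ (-(t : ℤ))
  have hu0 : ∀ t, u t ≠ 0 := fun t => zpow_ne_zero _ hϖ0
  have hu : ∀ t, Pinf.ord (u t) = -(t : ℤ) := by
    intro t
    show Pinf.ord ((ϖ : F) ^ (-(t : ℤ))) = -(t : ℤ)
    rw [Pinf.ord_zpow, hϖ1, mul_one]
  set N : Submodule K F := ringImage K B F ⊔ poleLE Pinf 0 with hN
  let Gs : Submodule K F := Submodule.span K (Set.range fun t : G => u t)
  -- (K2) everything is in `Gs + N`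
  have hK2 : ∀ n : ℕ, poleLE Pinf (n : ℤ) ≤ N ⊔ Gs := by
    intro n
    induction n with
    | zero => exact le_trans le_sup_right le_sup_left
    | succ n ih =>
        intro h hh
        have hh' : h ∈ poleLE Pinf ((n : ℤ) + 1) := by
          simpa using hh
        obtain ⟨e, heN, he1, he2⟩ : ∃ e : F, e ∈ N ⊔ Gs ∧ e ∈ poleLE Pinf ((n : ℤ) + 1) ∧
            e ∉ poleLE Pinf (n : ℤ) := by
          by_cases ht : n + 1 ∈ G
          · refine ⟨u (n + 1), Submodule.mem_sup_right
              (Submodule.subset_span ⟨⟨n + 1, ht⟩, rfl⟩), ?_, ?_⟩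
            · rw [mem_poleLE_of_ne (hu0 _), hu]
              push_cast
              omega
            · rw [mem_poleLE_of_ne (hu0 _), hu]
              push_cast
              omega
          · obtain ⟨b, hb0, hb⟩ := hnongap (n + 1) (Nat.succ_pos n) ht
            refine ⟨algebraMap B F b, Submodule.mem_sup_left
              (Submodule.mem_sup_left (mem_ringImage.2 ⟨b, rfl⟩)), ?_, ?_⟩
            · rw [mem_poleLE_of_ne hb0, hb]
              push_cast
              omega
            · rw [mem_poleLE_of_ne hb0, hb]
              push_cast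
              omega
        obtain ⟨c, hc⟩ := exists_sub_smul_mem_poleLE hres (n : ℤ) he1 he2 hh'
        have : h = (h - c • e) + c • e := by ring
        rw [this]
        exact Submodule.add_mem _ (ih hc) (Submodule.smul_mem _ c heN)
  have hcod : N ⊔ Gs = ⊤ := by
    rw [eq_top_iff]
    intro h _
    obtain ⟨n, hn⟩ := exists_mem_poleLE Pinf h
    exact hK2 n hn
  -- (K3) a combination of the `u t` in `N` is trivial
  have hK3 : ∀ c : G → K, (∑ t, c t • u t) ∈ N → c = 0 := by
    intro c hc
    by_contra hc0
    obtain ⟨t1, ht1⟩ := Function.ne_iff.1 hc0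
    have hs : (Finset.univ.filter fun t : G => c t ≠ 0).Nonempty :=
      ⟨t1, Finset.mem_filter.2 ⟨Finset.mem_univ _, ht1⟩⟩
    obtain ⟨t0, ht0, hmax⟩ := Finset.exists_max_image _ (fun t : G => (t : ℕ)) hs
    have hct0 : c t0 ≠ 0 := (Finset.mem_filter.1 ht0).2
    obtain ⟨n, hn⟩ : ∃ n : ℕ, (t0 : ℕ) = n + 1 :=
      Nat.exists_eq_succ_of_ne_zero (Nat.pos_iff_ne_zero.1 (hpos _ t0.2))
    have hr : (∑ t ∈ Finset.univ.erase t0, c t • u t) ∈ poleLE Pinf (n : ℤ) := by
      refine Submodule.sum_mem _ fun t ht => ?_
      by_cases hct : c t = 0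
      · rw [hct, zero_smul]
        exact Submodule.zero_mem _
      · refine Submodule.smul_mem _ _ ?_
        have h1 : (t : ℕ) ≤ t0 := hmax t (Finset.mem_filter.2 ⟨Finset.mem_univ _, hct⟩)
        have h2 : (t : ℕ) ≠ t0 := fun h => (Finset.ne_of_mem_erase ht) (Subtype.ext h)
        rw [mem_poleLE_of_ne (hu0 _), hu]
        omega
    have hsplit : (∑ t, c t • u t)
        = c t0 • u t0 + ∑ t ∈ Finset.univ.erase t0, c t • u t :=
      (Finset.add_sum_erase _ _ (Finset.mem_univ t0)).symm
    obtain ⟨f, hf, o, ho, hsum⟩ := Submodule.mem_sup.1 hc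
    obtain ⟨b, rfl⟩ := mem_ringImage.1 hf
    have ho' : o ∈ poleLE Pinf (n : ℤ) := poleLE_mono Pinf (by omega) ho
    have hb : algebraMap B F b
        = c t0 • u t0 + ((∑ t ∈ Finset.univ.erase t0, c t • u t) - o) := by
      rw [← add_sub_assoc, ← hsplit, ← hsum]
      ring
    have hut0 : u t0 ∉ poleLE Pinf (n : ℤ) := by
      rw [mem_poleLE_of_ne (hu0 _), hu]
      omega
    have hut0' : u t0 ∈ poleLE Pinf ((n : ℤ) + 1) := by
      rw [mem_poleLE_of_ne (hu0 _), hu]
      omega
    have hb1 : algebraMap B F b ∈ poleLE Pinf ((n : ℤ) + 1) := by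
      rw [hb]
      exact Submodule.add_mem _ (Submodule.smul_mem _ _ hut0')
        (poleLE_mono Pinf (by omega) (Submodule.sub_mem _ hr ho'))
    have hb2 : algebraMap B F b ∉ poleLE Pinf (n : ℤ) := by
      intro hmem
      apply hut0
      have h1 : c t0 • u t0 ∈ poleLE Pinf (n : ℤ) := by
        have : c t0 • u t0
            = algebraMap B F b - ((∑ t ∈ Finset.univ.erase t0, c t • u t) - o) := by
          rw [hb]
          ring
        rw [this]
        exact Submodule.sub_mem _ hmem (Submodule.sub_mem _ hr ho')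
      have h2 := Submodule.smul_mem _ (c t0)⁻¹ h1
      rwa [smul_smul, inv_mul_cancel₀ hct0, one_smul] at h2
    have hb0 : algebraMap B F b ≠ 0 := by
      intro h0
      rw [h0] at hb2
      exact hb2 (Submodule.zero_mem _)
    rw [mem_poleLE_of_ne hb0] at hb1 hb2
    refine hgap _ t0.2 b hb0 ?_
    omega
  have hdisj : Disjoint N Gs := by
    rw [Submodule.disjoint_def]
    intro x hxN hxG
    obtain ⟨c, rfl⟩ := (Submodule.mem_span_range_iff_exists_fun K).1 hxG
    rw [hK3 c hxN]
    simp
  have hli : LinearIndependent K (fun t : G => u t) := by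
    rw [Fintype.linearIndependent_iff]
    intro c hc t
    have := hK3 c (by rw [hc]; exact Submodule.zero_mem _)
    rw [this]
    rfl
  have e := Submodule.quotientEquivOfIsCompl N Gs ⟨hdisj, codisjoint_iff.2 hcod⟩
  rw [e.finrank_eq, finrank_span_eq_card hli, Fintype.card_coe]

/-- **(G1)+(G2)** In the one-point setting with residue field `K` at `Pinf`, the genus is the
number of gaps. -/
theorem genusFF_eq_card_gaps (hne : ∀ w, pl w ≠ Pinf)
    (hsurj : ∀ P : Place K F, P ≠ Pinf → ∃ w, pl w = P)
    (hval : ∀ (w : HeightOneSpectrum B) (f : F), (pl w).adicValuation f = w.valuation F f)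
    (hres : ∀ f : F, Pinf.adicValuation f ≤ 1 →
      ∃ c : K, Pinf.adicValuation (f - algebraMap K F c) < 1)
    (G : Finset ℕ) (hpos : ∀ t ∈ G, 0 < t)
    (hgap : ∀ t ∈ G, ∀ b : B, algebraMap B F b ≠ 0 → Pinf.ord (algebraMap B F b) ≠ -(t : ℤ))
    (hnongap : ∀ t : ℕ, 0 < t → t ∉ G →
      ∃ b : B, algebraMap B F b ≠ 0 ∧ Pinf.ord (algebraMap B F b) = -(t : ℤ)) :
    genusFF K F = G.card := by
  rw [genusFF_eq_finrank_quot Pinf pl hne hsurj hval]
  exact finrank_quot_eq_card_gaps Pinf hres G hpos hgap hnongap

end OnePoint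

end Fermat.Agent.S27.helper456

end
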