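import Fermat.Agent.S27.helper456_TableGenus
import Fermat.Agent.S27.helper456_DedekindDim
import Fermat.Agent.S27.helper1913_W1aDim
import Fermat.Agent.S27.helper1017_W1bPoints
import Fermat.Agent.S27.helper751_OnePoint
import Fermat.Agent.S24.helper483_PlacesFF

/-!
# S27 (algebraic track): `Stmt_FF` from the place at infinity (helper456)

`stmt_FF_of_infCore : Stmt_InfCore → helper3351.Stmt_FF`, where `Stmt_InfCore` says that the
function field `F = Frac (Tab.Alg T)` of a valid table has a place `Pinf` with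
`ord_Pinf b = -wt b` on the table algebra which is the only pole of `x`.
-/

set_option autoImplicit false

noncomputable section

open IsDedekindDomain WithZero AlgebraicCurve Polynomial IntermediateField

namespace Fermat.Agent.S27.helper456

open Fermat.Agent.S27.helper3351

universe u

/-- The place at infinity of the function field of a valid table: `ord_Pinf b = -wt b` on the
table algebra, and `Pinf` is the only pole of `x`. -/
def Stmt_InfCore : Prop :=
  ∀ (K : Type u) [Field K] [IsAlgClosed K] (τ : WType) (T : Tab τ K) [Fact T.Valid]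
    [IsDedekindDomain T.Alg],
    ∃ Pinf : Place K (FractionRing T.Alg),
      (∀ (b : T.Alg) (t : ℕ), T.wt b.toElt = (t : WithBot ℕ) →
        Pinf.ord (algebraMap T.Alg (FractionRing T.Alg) b) = -(t : ℤ)) ∧
      (∀ P : Place K (FractionRing T.Alg),
        algebraMap T.Alg (FractionRing T.Alg) (Tab.Alg.x T) ∉ P.toValuationSubring → P = Pinf)

section Table

variable {K : Type u} [Field K] {τ : WType} (T : Tab τ K)

/-! ### The table algebra over `K[X]` -/

theorem smul_one_toElt_zero [Fact T.PreValid] (hm : 0 < τ.m) (p : K[X]) :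
    (p • (1 : T.Alg)).toElt ⟨0, hm⟩ = p := by
  rw [Tab.Alg.toElt_smul, Tab.Alg.toElt_one]
  simp [Elt.one]

theorem algebraMap_poly_injective [Fact T.PreValid] :
    Function.Injective (algebraMap K[X] T.Alg) := by
  intro p q h
  have hG := (Fact.out : T.PreValid).good
  rw [Tab.Alg.algebraMap_poly_apply, Tab.Alg.algebraMap_poly_apply] at h
  have h1 := congrArg (fun a : T.Alg => a.toElt ⟨0, hG.1⟩) h
  simpa [smul_one_toElt_zero T hG.1] using h1

/-- The weight of `1` is `0`. -/
theorem wt_one [Fact T.PreValid] : T.wt (1 : T.Alg).toElt = ((0 : ℕ) : WithBot ℕ) := by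
  have hG := (Fact.out : T.PreValid).good
  have hlead : helper4272.IsLead (1 : T.Alg).toElt ⟨0, hG.1⟩ := by
    refine ⟨by rw [Tab.Alg.toElt_one]; simp [Elt.one], fun j hj => ?_⟩
    have hj0 : (j : ℕ) = 0 := by
      by_contra hne
      apply hj
      rw [Tab.Alg.toElt_one]
      simp [Elt.one, hne]
    have : j = ⟨0, hG.1⟩ := Fin.ext hj0
    rw [this]
  rw [hlead.wt_eq T, Tab.Alg.toElt_one]
  simp [Elt.one, (hG.2 ⟨0, hG.1⟩).2 rfl]

/-- The weight of `x` is `m`. -/
theorem wt_x [Fact T.PreValid] : T.wt (Tab.Alg.x T).toElt = ((τ.m : ℕ) : WithBot ℕ) := by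
  have hG := (Fact.out : T.PreValid).good
  have hx : ∀ j : Fin τ.m, (Tab.Alg.x T).toElt j = if (j : ℕ) = 0 then X else 0 := by
    intro j
    show ((X : K[X]) • (Elt.one : Elt τ K)) j = _
    simp [Elt.one]
  have hlead : helper4272.IsLead (Tab.Alg.x T).toElt ⟨0, hG.1⟩ := by
    refine ⟨by rw [hx]; simp, fun j hj => ?_⟩
    have hj0 : (j : ℕ) = 0 := by
      by_contra hne
      apply hj
      rw [hx]
      simp [hne]
    have : j = ⟨0, hG.1⟩ := Fin.ext hj0
    rw [this]
  rw [hlead.wt_eq T, hx]
  simp [(hG.2 ⟨0, hG.1⟩).2 rfl]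

variable [Fact T.Valid] [IsDedekindDomain T.Alg]

omit [IsDedekindDomain T.Alg] in
/-- Clause 6 of `Stmt_FF`: `x` is transcendental. -/
theorem transcendental_x :
    Transcendental K (algebraMap T.Alg (FractionRing T.Alg) (Tab.Alg.x T)) := by
  rw [transcendental_iff_injective]
  have h : ∀ p : K[X], aeval (algebraMap T.Alg (FractionRing T.Alg) (Tab.Alg.x T)) p
      = algebraMap T.Alg (FractionRing T.Alg) (algebraMap K[X] T.Alg p) := by
    intro p
    rw [aeval_algebraMap_apply, helper1017.algebraMap_poly_eq_aeval]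
  intro p q hpq
  rw [h, h] at hpq
  exact algebraMap_poly_injective T (IsFractionRing.injective _ _ hpq)

/-- Clause 7 of `Stmt_FF`: `F` is finite over `K(x)`. -/
theorem finiteDimensional_adjoin_x :
    FiniteDimensional K⟮algebraMap T.Alg (FractionRing T.Alg) (Tab.Alg.x T)⟯
      (FractionRing T.Alg) := by
  have haeval : ∀ r : K[X], algebraMap T.Alg (FractionRing T.Alg) (algebraMap K[X] T.Alg r)
      = algebraMap K⟮algebraMap T.Alg (FractionRing T.Alg) (Tab.Alg.x T)⟯ (FractionRing T.Alg)
        (aeval (AdjoinSimple.gen K (algebraMap T.Alg (FractionRing T.Alg) (Tab.Alg.x T))) r) := by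
    intro r
    rw [← aeval_algebraMap_apply, AdjoinSimple.algebraMap_gen,
      helper1017.algebraMap_poly_eq_aeval, aeval_algebraMap_apply]
  have hint : ∀ y ∈ Set.range (fun i : Fin τ.m =>
      algebraMap T.Alg (FractionRing T.Alg) (Tab.Alg.ω T i)),
      IsIntegral K⟮algebraMap T.Alg (FractionRing T.Alg) (Tab.Alg.x T)⟯ y := by
    rintro _ ⟨i, rfl⟩
    have h1 : IsIntegral K[X] (Tab.Alg.ω T i) := IsIntegral.of_finite K[X] _
    exact h1.map_of_comp_eq
      (aeval (AdjoinSimple.gen K (algebraMap T.Alg (FractionRing T.Alg) (Tab.Alg.x T)))).toRingHom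
      (algebraMap T.Alg (FractionRing T.Alg)) (RingHom.ext fun r => (haeval r).symm)
  have hfinite : Finite (Set.range (fun i : Fin τ.m =>
      algebraMap T.Alg (FractionRing T.Alg) (Tab.Alg.ω T i))) := (Set.finite_range _).to_subtype
  have hfin := IntermediateField.finiteDimensional_adjoin hint
  have hB : ∀ a : T.Alg, algebraMap T.Alg (FractionRing T.Alg) a ∈
      IntermediateField.adjoin K⟮algebraMap T.Alg (FractionRing T.Alg) (Tab.Alg.x T)⟯
        (Set.range (fun i : Fin τ.m =>
          algebraMap T.Alg (FractionRing T.Alg) (Tab.Alg.ω T i))) := by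
    intro a
    have h := helper1017.alg_eq_sum a
    rw [h, map_sum]
    refine sum_mem fun i _ => ?_
    rw [Algebra.smul_def, map_mul, haeval]
    exact mul_mem (IntermediateField.algebraMap_mem _ _)
      (IntermediateField.subset_adjoin _ _ ⟨i, rfl⟩)
  have htop : IntermediateField.adjoin K⟮algebraMap T.Alg (FractionRing T.Alg) (Tab.Alg.x T)⟯
      (Set.range (fun i : Fin τ.m =>
        algebraMap T.Alg (FractionRing T.Alg) (Tab.Alg.ω T i))) = ⊤ := by
    rw [eq_top_iff]
    intro f _
    obtain ⟨a, b, -, rfl⟩ := IsFractionRing.div_surjective (A := T.Alg) f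
    exact div_mem (hB a) (hB b)
  rw [htop] at hfin
  exact Module.Finite.equiv (IntermediateField.topEquiv
    (F := K⟮algebraMap T.Alg (FractionRing T.Alg) (Tab.Alg.x T)⟯)
    (E := FractionRing T.Alg)).toLinearEquiv

/-! ### Places -/

/-- A place whose valuation ring contains `x` contains the table algebra. -/
theorem algebraMap_mem_of_x_mem (P : Place K (FractionRing T.Alg))
    (hx : algebraMap T.Alg (FractionRing T.Alg) (Tab.Alg.x T) ∈ P.toValuationSubring)
    (b : T.Alg) : algebraMap T.Alg (FractionRing T.Alg) b ∈ P.toValuationSubring := by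
  have hA : ∀ r : K[X], algebraMap K[X] (FractionRing T.Alg) r ∈ P.toValuationSubring := by
    intro r
    have h1 : algebraMap K[X] (FractionRing T.Alg) r
        = aeval (algebraMap T.Alg (FractionRing T.Alg) (Tab.Alg.x T)) r := by
      rw [IsScalarTower.algebraMap_apply K[X] T.Alg (FractionRing T.Alg),
        aeval_algebraMap_apply, helper1017.algebraMap_poly_eq_aeval]
    rw [h1]
    exact Fermat.Agent.S24.helper483.aeval_mem P hx r
  have hb : IsIntegral K[X] (algebraMap T.Alg (FractionRing T.Alg) b) :=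
    (IsIntegral.of_finite K[X] b).algebraMap
  exact Fermat.Agent.S24.helper483.integral_mem_of_mem P hA hb

/-- The one-point structure of the places of a table function field. -/
theorem table_onePoint (Pinf : Place K (FractionRing T.Alg))
    (hord : ∀ (b : T.Alg) (t : ℕ), T.wt b.toElt = (t : WithBot ℕ) →
      Pinf.ord (algebraMap T.Alg (FractionRing T.Alg) b) = -(t : ℤ))
    (huniq : ∀ P : Place K (FractionRing T.Alg),
      algebraMap T.Alg (FractionRing T.Alg) (Tab.Alg.x T) ∉ P.toValuationSubring → P = Pinf) :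
    helper751.OnePoint T.Alg Pinf
      (Fermat.Agent.S24.helper483.plc K : HeightOneSpectrum T.Alg → Place K (FractionRing T.Alg)) := by
  have hG := (Fact.out : T.Valid).pre.good
  refine ⟨fun w hw => ?_, fun P hP => ?_, fun w f => Fermat.Agent.S24.helper483.adicValuation_plc w f⟩
  · -- `x` is integral at `plc w` but has a pole at `Pinf`
    have h1 : algebraMap T.Alg (FractionRing T.Alg) (Tab.Alg.x T)
        ∈ (Fermat.Agent.S24.helper483.plc K w : Place K (FractionRing T.Alg)).toValuationSubring :=
      (Fermat.Agent.S24.helper483.mem_plc_iff w _).2 (w.valuation_le_one _)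
    have h2 := hord _ _ (wt_x T)
    rw [hw, mem_toValuationSubring_iff, Pinf.adicValuation_le_one_iff] at h1
    have hm := hG.1
    rcases h1 with h1 | h1
    · rw [h1, Place.ord_zero] at h2
      omega
    · rw [h2] at h1
      omega
  · have hx : algebraMap T.Alg (FractionRing T.Alg) (Tab.Alg.x T) ∈ P.toValuationSubring := by
      by_contra hcon
      exact hP (huniq P hcon)
    exact Fermat.Agent.S24.helper483.exists_plc_eq P (algebraMap_mem_of_x_mem T P hx)

/-- Residue fields of the table algebra are `K` (from degree one of the finite places). -/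
theorem table_hresB [IsAlgClosed K] (w : HeightOneSpectrum T.Alg) (a : T.Alg) :
    ∃ c : K, a - algebraMap K T.Alg c ∈ w.asIdeal := by
  have := finiteDimensional_adjoin_x T
  have : Algebra.IsAlgebraic
      K⟮algebraMap T.Alg (FractionRing T.Alg) (Tab.Alg.x T)⟯ (FractionRing T.Alg) :=
    Algebra.IsAlgebraic.of_finite _ _
  have hdeg := Fermat.Agent.S24.helper483.place_deg_eq_one_of_isAlgebraic
    (algebraMap T.Alg (FractionRing T.Alg) (Tab.Alg.x T))
    (Fermat.Agent.S24.helper483.plc K w : Place K (FractionRing T.Alg))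
  have h1 : (Fermat.Agent.S24.helper483.plc K w : Place K (FractionRing T.Alg)).adicValuation
      (algebraMap T.Alg (FractionRing T.Alg) a) ≤ 1 := by
    rw [Fermat.Agent.S24.helper483.adicValuation_plc]
    exact w.valuation_le_one a
  obtain ⟨c, hc⟩ := hres_of_deg_eq_one hdeg _ h1
  refine ⟨c, ?_⟩
  rw [Fermat.Agent.S24.helper483.adicValuation_plc,
    IsScalarTower.algebraMap_apply K T.Alg (FractionRing T.Alg), ← map_sub,
    HeightOneSpectrum.valuation_lt_one_iff_mem] at hc
  exact hc

/-! ### Principal divisors -/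

omit [Fact T.Valid] [IsDedekindDomain T.Alg] in
theorem exists_wt_eq [Fact T.PreValid] {b : T.Alg} (hb : b ≠ 0) :
    ∃ t : ℕ, T.wt b.toElt = (t : WithBot ℕ) := by
  have h1 : T.wt b.toElt ≠ ⊥ := fun h => hb ((helper4272.wt_eq_bot_iff T b.toElt).1 h)
  obtain ⟨t, ht⟩ := WithBot.ne_bot_iff_exists.1 h1
  exact ⟨t, ht.symm⟩

/-- The divisor of a nonzero element of the table algebra, and its degree. -/
theorem exists_divisor_algebraMap [IsAlgClosed K] (Pinf : Place K (FractionRing T.Alg))
    (hord : ∀ (b : T.Alg) (t : ℕ), T.wt b.toElt = (t : WithBot ℕ) →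
      Pinf.ord (algebraMap T.Alg (FractionRing T.Alg) b) = -(t : ℤ))
    (hOP : helper751.OnePoint T.Alg Pinf
      (Fermat.Agent.S24.helper483.plc K : HeightOneSpectrum T.Alg → Place K (FractionRing T.Alg)))
    (hdeg : ∀ P : Place K (FractionRing T.Alg), P.deg = 1)
    (b : T.Alg) (hb : b ≠ 0) :
    ∃ D : Divisor K (FractionRing T.Alg),
      (∀ v : Place K (FractionRing T.Alg),
        D v = v.ord (algebraMap T.Alg (FractionRing T.Alg) b)) ∧
      Divisor.degree D = 0 := by
  classical
  let e : HeightOneSpectrum T.Alg → ℕ := fun w =>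
    (Associates.mk w.asIdeal).count (Associates.mk (Ideal.span {b} : Ideal T.Alg)).factors
  have he : ∀ w : HeightOneSpectrum T.Alg, w.intValuation b = exp (-(e w : ℤ)) := fun w =>
    w.intValuation_if_neg hb
  have hfin : {w : HeightOneSpectrum T.Alg | w.asIdeal ∣ Ideal.span {b}}.Finite :=
    Ideal.finite_factors (by simpa using hb)
  have hS : ∀ w, w ∉ hfin.toFinset → e w = 0 := by
    intro w hw
    have hnb : b ∉ w.asIdeal := by
      intro hmem
      apply hw
      refine (Set.Finite.mem_toFinset hfin).2 ?_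
      show w.asIdeal ∣ Ideal.span {b}
      rwa [Ideal.dvd_span_singleton]
    have h1 := he w
    rw [HeightOneSpectrum.intValuation_eq_one_iff.2 hnb, ← exp_zero, exp_inj] at h1
    omega
  obtain ⟨t, ht⟩ := exists_wt_eq T hb
  have hsum : ∑ w ∈ hfin.toFinset, e w = t := by
    have h1 := finrank_quotient_span_singleton (K := K) (table_hresB T) hb hfin.toFinset e he hS
    have h2 := ((helper1913.stmt_WtDim helper4272.stmt_WtBasic helper4272.stmt_WtMul
      helper4272.stmt_Nongaps K τ T).2.1 b hb).2
    rw [h1, ht] at h2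
    exact_mod_cast h2
  refine ⟨∑ w ∈ hfin.toFinset,
      Finsupp.single (Fermat.Agent.S24.helper483.plc K w : Place K (FractionRing T.Alg)) (e w : ℤ)
      + Finsupp.single Pinf (-(t : ℤ)), fun v => ?_, ?_⟩
  · rw [Finsupp.add_apply, Finsupp.finsetSum_apply]
    simp only [Finsupp.single_apply]
    by_cases hv : v = Pinf
    · subst hv
      rw [if_pos rfl, hord b t ht, Finset.sum_eq_zero, zero_add]
      intro w _
      rw [if_neg (hOP.ne_inf w)]
    · obtain ⟨w0, rfl⟩ := hOP.surj v hv
      rw [if_neg (fun h => hOP.ne_inf w0 h.symm), add_zero,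
        Fermat.Agent.S24.helper483.ord_plc, HeightOneSpectrum.valuation_of_algebraMap, he w0,
        log_exp, neg_neg]
      have hcongr : ∀ w ∈ hfin.toFinset,
          (if (Fermat.Agent.S24.helper483.plc K w : Place K (FractionRing T.Alg))
              = Fermat.Agent.S24.helper483.plc K w0 then (e w : ℤ) else 0)
            = if w0 = w then (e w : ℤ) else 0 := by
        intro w _
        by_cases h : w0 = w
        · subst h
          simp
        · rw [if_neg h, if_neg (fun h' => h (hOP.pl_injective h').symm)]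
      rw [Finset.sum_congr rfl hcongr, Finset.sum_ite_eq]
      by_cases hw0 : w0 ∈ hfin.toFinset
      · rw [if_pos hw0]
      · rw [if_neg hw0, hS w0 hw0]
        rfl
  · rw [map_add, map_sum]
    simp only [Divisor.degree_single, hdeg, Nat.cast_one, mul_one]
    rw [← Nat.cast_sum, hsum]
    ring

/-- Clause 1 of `Stmt_FF`: principal divisors have degree zero. -/
theorem table_hasPrincipalDivisors [IsAlgClosed K] (Pinf : Place K (FractionRing T.Alg))
    (hord : ∀ (b : T.Alg) (t : ℕ), T.wt b.toElt = (t : WithBot ℕ) →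
      Pinf.ord (algebraMap T.Alg (FractionRing T.Alg) b) = -(t : ℤ))
    (hOP : helper751.OnePoint T.Alg Pinf
      (Fermat.Agent.S24.helper483.plc K : HeightOneSpectrum T.Alg → Place K (FractionRing T.Alg)))
    (hdeg : ∀ P : Place K (FractionRing T.Alg), P.deg = 1) :
    HasPrincipalDivisors K (FractionRing T.Alg) := by
  have hinj : Function.Injective (algebraMap T.Alg (FractionRing T.Alg)) :=
    IsFractionRing.injective _ _
  refine ⟨fun f hf => ?_⟩
  obtain ⟨a, b, hb, rfl⟩ := IsFractionRing.div_surjective (A := T.Alg) f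
  have hb0 : b ≠ 0 := nonZeroDivisors.ne_zero hb
  have ha0 : a ≠ 0 := by
    rintro rfl
    simp at hf
  have haF : algebraMap T.Alg (FractionRing T.Alg) a ≠ 0 := fun h =>
    ha0 (hinj (by rw [h, map_zero]))
  have hbF : algebraMap T.Alg (FractionRing T.Alg) b ≠ 0 := fun h =>
    hb0 (hinj (by rw [h, map_zero]))
  obtain ⟨Da, hDa, hdega⟩ := exists_divisor_algebraMap T Pinf hord hOP hdeg a ha0
  obtain ⟨Db, hDb, hdegb⟩ := exists_divisor_algebraMap T Pinf hord hOP hdeg b hb0
  refine ⟨Da - Db, fun v => ?_, by rw [map_sub, hdega, hdegb, sub_zero]⟩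
  rw [Finsupp.sub_apply, hDa, hDb, div_eq_mul_inv, v.ord_mul haF (inv_ne_zero hbF), v.ord_inv]
  ring

/-- Clause 5 of `Stmt_FF`: functions without poles are constant. -/
theorem table_constants (Pinf : Place K (FractionRing T.Alg))
    (hord : ∀ (b : T.Alg) (t : ℕ), T.wt b.toElt = (t : WithBot ℕ) →
      Pinf.ord (algebraMap T.Alg (FractionRing T.Alg) b) = -(t : ℤ))
    (hOP : helper751.OnePoint T.Alg Pinf
      (Fermat.Agent.S24.helper483.plc K : HeightOneSpectrum T.Alg → Place K (FractionRing T.Alg)))
    (f : FractionRing T.Alg) (hf : ∀ v : Place K (FractionRing T.Alg), 0 ≤ v.ord f) :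
    f ∈ Set.range (algebraMap K (FractionRing T.Alg)) := by
  rcases eq_or_ne f 0 with rfl | hf0
  · exact ⟨0, map_zero _⟩
  have hint : ∀ w : HeightOneSpectrum T.Alg, w.valuation (FractionRing T.Alg) f ≤ 1 := by
    intro w
    rw [← hOP.val w f, Place.adicValuation_le_one_iff]
    exact Or.inr (hf _)
  obtain ⟨b, rfl⟩ := HeightOneSpectrum.mem_integers_of_valuation_le_one (R := T.Alg)
    (FractionRing T.Alg) f hint
  have hb0 : b ≠ 0 := by
    rintro rfl
    exact hf0 (map_zero _)
  obtain ⟨t, ht⟩ := exists_wt_eq T hb0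
  have h1 := hord b t ht
  have h2 := hf Pinf
  have ht0 : t = 0 := by omega
  subst ht0
  obtain ⟨c, -, hc⟩ := (helper4272.stmt_WtBasic K τ T).2.2.2.2 b 1 hb0 (by rw [ht, wt_one])
  rw [ht] at hc
  have hbot : T.wt (b - c • (1 : T.Alg)).toElt = ⊥ := by
    rcases helper1913.withBot_cases (T.wt (b - c • (1 : T.Alg)).toElt) with h | ⟨n, hn⟩
    · exact h
    · rw [hn] at hc
      exact absurd (WithBot.coe_lt_coe.1 hc) (Nat.not_lt_zero n)
  have hzero : b - c • (1 : T.Alg) = 0 := ((helper4272.stmt_WtBasic K τ T).2.1 _).1 hbot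
  have hbc : b = algebraMap K T.Alg c := by
    rw [Algebra.algebraMap_eq_smul_one]
    exact sub_eq_zero.1 hzero
  refine ⟨c, ?_⟩
  rw [IsScalarTower.algebraMap_apply K T.Alg (FractionRing T.Alg), ← hbc]

end Table

/-! ### Assembly -/

/-- **W1d**: `Stmt_FF` from the place at infinity. -/
theorem stmt_FF_of_infCore (h : Stmt_InfCore.{u}) : Stmt_FF.{u} := by
  intro K _ _ τ T _ _
  obtain ⟨Pinf, hord, huniq⟩ := h K τ T
  have hOP := table_onePoint T Pinf hord huniq
  have hfd := finiteDimensional_adjoin_x T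
  have halg : Algebra.IsAlgebraic
      K⟮algebraMap T.Alg (FractionRing T.Alg) (Tab.Alg.x T)⟯ (FractionRing T.Alg) :=
    Algebra.IsAlgebraic.of_finite _ _
  have hdeg : ∀ P : Place K (FractionRing T.Alg), P.deg = 1 := fun P =>
    Fermat.Agent.S24.helper483.place_deg_eq_one_of_isAlgebraic
      (algebraMap T.Alg (FractionRing T.Alg) (Tab.Alg.x T)) P
  have hPD := table_hasPrincipalDivisors T Pinf hord hOP hdeg
  refine ⟨hPD, fun v => ?_, table_genusFF T Pinf _ hOP.ne_inf hOP.surj hOP.val hord, fun n => ?_,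
    table_constants T Pinf hord hOP, transcendental_x T, hfd⟩
  · have h1 : Module.finrank K v.ResidueField = 1 := hdeg v
    exact Module.finite_of_finrank_pos (by rw [h1]; exact Nat.one_pos)
  · exact hOP.natCard_torsion hdeg n

end Fermat.Agent.S27.helper456

end
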