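import Fermat.Agent.S27.helper456_StmtFF
import Fermat.Agent.S27.helper1017_InfPlace

/-!
# S27 (algebraic track): `Stmt_FF`, unconditionally (helper456)

Wiring: `helper456.stmt_FF_of_infCore` (all seven clauses from the place at infinity) applied to
`helper1017.exists_infPlace` (the place at infinity of a table algebra).
-/

set_option autoImplicit false

namespace Fermat.Agent.S27.helper456

open Fermat.Agent.S27.helper3351

universe u

/-- The place at infinity exists (`helper1017`). -/
theorem stmt_InfCore : Stmt_InfCore.{u} := by
  intro K _ _ τ T _ _
  exact helper1017.exists_infPlace T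

/-- **W1d**: `Stmt_FF` of the W-Spec, unconditionally. -/
theorem stmt_FF : Stmt_FF.{u} := stmt_FF_of_infCore stmt_InfCore

end Fermat.Agent.S27.helper456
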