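import Fermat.Agent.S27.helper456_OnePointGenus
import Fermat.Agent.S27.helper4272_W1aWeight

/-!
# S27 (algebraic track): the genus clause of `Stmt_FF` (helper456)

For a valid table `T` with Dedekind algebra `B = Tab.Alg T` and `F = Frac B`: if the places of
`F/K` are the maximal ideals of `B` plus one place `Pinf` with `ord_Pinf b = -wt b` on `B`,
then `genusFF K F = τ.genus`.  No weak Riemann-Roch, no `HasPrincipalDivisors`, no hypothesis
on `K`.
-/

set_option autoImplicit false

noncomputable section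

open IsDedekindDomain WithZero AlgebraicCurve Polynomial

namespace Fermat.Agent.S27.helper456

open Fermat.Agent.S27.helper3351

universe u

/-- The residue field at the place at infinity of a table algebra is `K` (valuation form):
consequence of `ord_Pinf b = -wt b` and of the cancellation of leading terms. -/
theorem table_hres {K : Type u} [Field K] {τ : WType} (T : Tab τ K) [Fact T.Valid]
    [IsDedekindDomain T.Alg] (Pinf : Place K (FractionRing T.Alg))
    (hord : ∀ (b : T.Alg) (t : ℕ), T.wt b.toElt = (t : WithBot ℕ) →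
      Pinf.ord (algebraMap T.Alg (FractionRing T.Alg) b) = -(t : ℤ)) :
    ∀ f : FractionRing T.Alg, Pinf.adicValuation f ≤ 1 →
      ∃ c : K, Pinf.adicValuation (f - algebraMap K (FractionRing T.Alg) c) < 1 := by
  have hwt : ∀ b : T.Alg, b ≠ 0 → ∃ t : ℕ, T.wt b.toElt = (t : WithBot ℕ) := by
    intro b hb
    have h1 : T.wt b.toElt ≠ ⊥ := fun h => hb ((helper4272.wt_eq_bot_iff T b.toElt).1 h)
    obtain ⟨t, ht⟩ := WithBot.ne_bot_iff_exists.1 h1
    exact ⟨t, ht.symm⟩
  have hinj : Function.Injective (algebraMap T.Alg (FractionRing T.Alg)) :=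
    IsFractionRing.injective _ _
  intro f hf
  obtain ⟨a, b, hb, rfl⟩ := IsFractionRing.div_surjective (A := T.Alg) f
  have hb0 : b ≠ 0 := nonZeroDivisors.ne_zero hb
  have hbF : algebraMap T.Alg (FractionRing T.Alg) b ≠ 0 := fun h =>
    hb0 (hinj (by rw [h, map_zero]))
  rcases eq_or_ne a 0 with rfl | ha0
  · exact ⟨0, by simp⟩
  have haF : algebraMap T.Alg (FractionRing T.Alg) a ≠ 0 := fun h =>
    ha0 (hinj (by rw [h, map_zero]))
  obtain ⟨ta, hta⟩ := hwt a ha0
  obtain ⟨tb, htb⟩ := hwt b hb0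
  have hoa := hord a ta hta
  have hob := hord b tb htb
  have hf0 : algebraMap T.Alg (FractionRing T.Alg) a / algebraMap T.Alg (FractionRing T.Alg) b
      ≠ 0 := div_ne_zero haF hbF
  have hordf : Pinf.ord (algebraMap T.Alg (FractionRing T.Alg) a
      / algebraMap T.Alg (FractionRing T.Alg) b) = -(ta : ℤ) + tb := by
    rw [div_eq_mul_inv, Pinf.ord_mul haF (inv_ne_zero hbF), Pinf.ord_inv, hoa, hob]
    ring
  rw [Pinf.adicValuation_le_one_iff, or_iff_right hf0, hordf] at hf
  rcases lt_or_eq_of_le (show ta ≤ tb by omega) with hlt | heq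
  · refine ⟨0, ?_⟩
    rw [map_zero, sub_zero, val_lt_one_iff]
    right
    rw [hordf]
    omega
  · have hab : T.wt a.toElt = T.wt b.toElt := by rw [hta, htb, heq]
    obtain ⟨c, -, hc⟩ := (helper4272.stmt_WtBasic K τ T).2.2.2.2 a b ha0 hab
    refine ⟨c, ?_⟩
    have hfac : algebraMap T.Alg (FractionRing T.Alg) a
        / algebraMap T.Alg (FractionRing T.Alg) b - algebraMap K (FractionRing T.Alg) c
        = algebraMap T.Alg (FractionRing T.Alg) (a - c • b)
          / algebraMap T.Alg (FractionRing T.Alg) b := by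
      rw [map_sub, Algebra.smul_def, map_mul, ← IsScalarTower.algebraMap_apply]
      field_simp
    rw [hfac, val_lt_one_iff]
    rcases eq_or_ne (a - c • b) 0 with hd | hd
    · left
      rw [hd, map_zero, zero_div]
    · right
      have hdF : algebraMap T.Alg (FractionRing T.Alg) (a - c • b) ≠ 0 := fun h =>
        hd (hinj (by rw [h, map_zero]))
      obtain ⟨td, htd⟩ := hwt _ hd
      have hod := hord _ td htd
      rw [htd, hta] at hc
      have hlt : td < ta := WithBot.coe_lt_coe.1 hc
      rw [div_eq_mul_inv, Pinf.ord_mul hdF (inv_ne_zero hbF), Pinf.ord_inv, hod, hob]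
      omega

/-- **(G3)** The genus clause of `Stmt_FF`: in the one-point setting for a table algebra, with
`ord_Pinf b = -wt b`, the genus of the function field is the genus of the type. -/
theorem table_genusFF {K : Type u} [Field K] {τ : WType} (T : Tab τ K) [Fact T.Valid]
    [IsDedekindDomain T.Alg] (Pinf : Place K (FractionRing T.Alg))
    (pl : HeightOneSpectrum T.Alg → Place K (FractionRing T.Alg))
    (hne : ∀ w, pl w ≠ Pinf)
    (hsurj : ∀ P : Place K (FractionRing T.Alg), P ≠ Pinf → ∃ w, pl w = P)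
    (hval : ∀ (w : HeightOneSpectrum T.Alg) (f : FractionRing T.Alg),
      (pl w).adicValuation f = w.valuation (FractionRing T.Alg) f)
    (hord : ∀ (b : T.Alg) (t : ℕ), T.wt b.toElt = (t : WithBot ℕ) →
      Pinf.ord (algebraMap T.Alg (FractionRing T.Alg) b) = -(t : ℤ)) :
    genusFF K (FractionRing T.Alg) = τ.genus := by
  have hT : T.PreValid := (Fact.out : T.Valid).pre
  have hG : τ.Good := hT.good
  have hinj : Function.Injective (algebraMap T.Alg (FractionRing T.Alg)) :=
    IsFractionRing.injective _ _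
  have hres := table_hres T Pinf hord
  -- the gap set
  let t0 : ℕ := ∑ i, τ.ρ i
  have ht0 : ∀ i, τ.ρ i ≤ t0 + τ.m := fun i =>
    le_trans (Finset.single_le_sum (f := fun i => τ.ρ i) (fun _ _ => Nat.zero_le _)
      (Finset.mem_univ i)) (Nat.le_add_right _ _)
  have hGcard : (helper4272.gapsLE τ t0).card = τ.genus :=
    le_antisymm (helper4272.gapsLE_card_le τ hG t0) (helper4272.genus_le_gapsLE_card τ hG t0 ht0)
  have hpos : ∀ t ∈ helper4272.gapsLE τ t0, 0 < t := by
    intro t ht
    rcases Nat.eq_zero_or_pos t with rfl | h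
    · exfalso
      apply (Finset.mem_filter.1 ht).2
      refine ⟨⟨0, hG.1⟩, by simp, ?_⟩
      rw [(hG.2 ⟨0, hG.1⟩).2 rfl]
    · exact h
  have hgap : ∀ t ∈ helper4272.gapsLE τ t0, ∀ b : T.Alg,
      algebraMap T.Alg (FractionRing T.Alg) b ≠ 0 →
      Pinf.ord (algebraMap T.Alg (FractionRing T.Alg) b) ≠ -(t : ℤ) := by
    intro t ht b hbF hcon
    have hb : b.toElt ≠ 0 := by
      intro h
      apply hbF
      have : b = 0 := h
      rw [this, map_zero]
    obtain ⟨i, hi⟩ := helper4272.exists_lead hG hb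
    have hw := hi.wt_eq T
    rw [hord b _ hw] at hcon
    have htw : τ.m * (b.toElt i).natDegree + τ.ρ i = t := by
      have := neg_injective hcon
      exact_mod_cast this
    apply (Finset.mem_filter.1 ht).2
    refine ⟨i, ?_, by omega⟩
    rw [← htw, Nat.mul_add_mod, (hG.2 i).1]
  have hnongap : ∀ t : ℕ, 0 < t → t ∉ helper4272.gapsLE τ t0 →
      ∃ b : T.Alg, algebraMap T.Alg (FractionRing T.Alg) b ≠ 0 ∧
        Pinf.ord (algebraMap T.Alg (FractionRing T.Alg) b) = -(t : ℤ) := by
    intro t _ htG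
    have hng : ∃ i : Fin τ.m, (i : ℕ) = t % τ.m ∧ τ.ρ i ≤ t := by
      by_cases hle : t ≤ t0
      · by_contra hcon
        exact htG (Finset.mem_filter.2 ⟨Finset.mem_range.2 (by omega), hcon⟩)
      · refine ⟨⟨t % τ.m, Nat.mod_lt _ hG.1⟩, rfl, ?_⟩
        have h1 := (hG.2 ⟨t % τ.m, Nat.mod_lt _ hG.1⟩).1
        have h2 := ht0 ⟨t % τ.m, Nat.mod_lt _ hG.1⟩
        have h3 := Nat.div_add_mod (τ.ρ ⟨t % τ.m, Nat.mod_lt _ hG.1⟩) τ.m
        have h4 := Nat.div_add_mod t τ.m
        simp only at h1
        by_contra hcon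
        have h5 : t / τ.m < τ.ρ ⟨t % τ.m, Nat.mod_lt _ hG.1⟩ / τ.m := by
          by_contra h
          have := Nat.mul_le_mul_left τ.m (not_lt.1 h)
          omega
        have h6 := Nat.mul_le_mul_left τ.m (Nat.succ_le_of_lt h5)
        rw [Nat.mul_succ] at h6
        omega
    obtain ⟨i, hi, hle⟩ := hng
    obtain ⟨k, hk⟩ : ∃ k : ℕ, τ.m * k + τ.ρ i = t := by
      refine ⟨(t - τ.ρ i) / τ.m, ?_⟩
      have h1 := (hG.2 i).1
      have h5 : (t - τ.ρ i) % τ.m = 0 := Nat.sub_mod_eq_zero_of_mod_eq (by rw [h1, hi])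
      have h6 := Nat.div_add_mod (t - τ.ρ i) τ.m
      omega
    let b : T.Alg := Tab.Alg.ofElt T (fun j => if j = i then (X : K[X]) ^ k else 0)
    have hbi : b.toElt i = (X : K[X]) ^ k := by simp [b]
    have hbj : ∀ j, j ≠ i → b.toElt j = 0 := fun j hj => by simp [b, hj]
    have hlead : helper4272.IsLead b.toElt i := by
      refine ⟨by rw [hbi]; exact pow_ne_zero _ X_ne_zero, fun j hj => ?_⟩
      by_cases hji : j = i
      · subst hji
        exact le_rfl
      · exact absurd (hbj j hji) hj
    have hw := hlead.wt_eq T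
    rw [hbi, natDegree_X_pow, hk] at hw
    have hb0 : b ≠ 0 := by
      intro h
      have h1 : b.toElt i = 0 := by rw [h]; rfl
      rw [hbi] at h1
      exact pow_ne_zero _ X_ne_zero h1
    exact ⟨b, fun h => hb0 (hinj (by rw [h, map_zero])), hord b t hw⟩
  rw [← hGcard]
  exact genusFF_eq_card_gaps Pinf pl hne hsurj hval hres _ hpos hgap hnongap

end Fermat.Agent.S27.helper456

end
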