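/-
S27 / E3 — LINEAR-SYSTEM ABEL (analytic core), helper4683.

Mathlib-only.  Abstract analytic core of the "linear system" proof of the local Abel theorem:
the members `f_c = f₀ + ∑ c_j w_j` of a fixed finite-dimensional linear system are followed along
finitely many branches; their simple zeros move holomorphically with `c`, and if the
"residue relation" (RES) holds, the sum of the primitives over all moving zeros is constant.
-/
import Mathlib

set_option autoImplicit false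

open Metric Set Filter Topology

namespace Fermat.Agent.S27.helper4683

noncomputable section

variable {ι : Type*} [Fintype ι]

/-- The member `f₀ + ∑ⱼ cⱼ • fⱼ` of a linear system (along one branch). -/
def lin1 (f0 : ℂ → ℂ) (f : ι → ℂ → ℂ) (c : ι → ℂ) (x : ℂ) : ℂ :=
  f0 x + ∑ j, c j * f j x

theorem lin1_zero (f0 : ℂ → ℂ) (f : ι → ℂ → ℂ) : lin1 f0 f 0 = f0 := by
  funext x; simp [lin1]

theorem lin1_hasDerivAt {f0 : ℂ → ℂ} {f : ι → ℂ → ℂ} {x : ℂ}
    (h0 : DifferentiableAt ℂ f0 x) (h : ∀ j, DifferentiableAt ℂ (f j) x) (c : ι → ℂ) :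
    HasDerivAt (lin1 f0 f c) (deriv f0 x + ∑ j, c j * deriv (f j) x) x := by
  unfold lin1
  exact h0.hasDerivAt.add (HasDerivAt.fun_sum fun j _ => (h j).hasDerivAt.const_mul (c j))

theorem lin1_deriv {f0 : ℂ → ℂ} {f : ι → ℂ → ℂ} {x : ℂ}
    (h0 : DifferentiableAt ℂ f0 x) (h : ∀ j, DifferentiableAt ℂ (f j) x) (c : ι → ℂ) :
    deriv (lin1 f0 f c) x = deriv f0 x + ∑ j, c j * deriv (f j) x :=
  (lin1_hasDerivAt h0 h c).deriv

/-- Joint regularity of `(c, x) ↦ lin1 f0 f c x`. -/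
theorem lin1_contDiffAt {f0 : ℂ → ℂ} {f : ι → ℂ → ℂ} {x : ℂ}
    (h0 : AnalyticAt ℂ f0 x) (h : ∀ j, AnalyticAt ℂ (f j) x) (c : ι → ℂ) :
    ContDiffAt ℂ 1 (fun p : (ι → ℂ) × ℂ => lin1 f0 f p.1 p.2) (c, x) := by
  unfold lin1
  have e0 : ContDiffAt ℂ 1 (fun p : (ι → ℂ) × ℂ => f0 p.2) (c, x) :=
    (h0.contDiffAt (n := 1)).comp (c, x) contDiffAt_snd
  have e1 : ∀ j, ContDiffAt ℂ 1 (fun p : (ι → ℂ) × ℂ => f j p.2) (c, x) := fun j =>
    ((h j).contDiffAt (n := 1)).comp (c, x) contDiffAt_snd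
  have e2 : ∀ j, ContDiffAt ℂ 1 (fun p : (ι → ℂ) × ℂ => p.1 j) (c, x) := fun j =>
    (contDiffAt_apply ℂ ℂ (n := 1) j c).comp (c, x) contDiffAt_fst
  exact e0.add (ContDiffAt.sum fun j _ => (e2 j).mul (e1 j))

/-- The partial derivative in `x` of `(c, x) ↦ lin1 f0 f c x` at `(0, x0)` is invertible as soon as
`deriv f0 x0 ≠ 0`. -/
theorem lin1_isInvertible {f0 : ℂ → ℂ} {f : ι → ℂ → ℂ} {x0 : ℂ}
    (h0 : AnalyticAt ℂ f0 x0) (h : ∀ j, AnalyticAt ℂ (f j) x0) (hd : deriv f0 x0 ≠ 0) :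
    (fderiv ℂ (fun p : (ι → ℂ) × ℂ => lin1 f0 f p.1 p.2) (0, x0) ∘L
      ContinuousLinearMap.inr ℂ (ι → ℂ) ℂ).IsInvertible := by
  have hF : HasFDerivAt (fun p : (ι → ℂ) × ℂ => lin1 f0 f p.1 p.2)
      (fderiv ℂ (fun p : (ι → ℂ) × ℂ => lin1 f0 f p.1 p.2) (0, x0)) (0, x0) :=
    ((lin1_contDiffAt h0 h 0).differentiableAt one_ne_zero).hasFDerivAt
  have h1 : HasFDerivAt (fun x : ℂ => lin1 f0 f (0 : ι → ℂ) x)
      (fderiv ℂ (fun p : (ι → ℂ) × ℂ => lin1 f0 f p.1 p.2) (0, x0) ∘L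
        ContinuousLinearMap.inr ℂ (ι → ℂ) ℂ) x0 :=
    hF.comp x0 (hasFDerivAt_prodMk_right (0 : ι → ℂ) x0)
  have h2 : HasFDerivAt (fun x : ℂ => lin1 f0 f (0 : ι → ℂ) x)
      (ContinuousLinearMap.smulRight (1 : ℂ →L[ℂ] ℂ) (deriv f0 x0)) x0 := by
    have : (fun x : ℂ => lin1 f0 f (0 : ι → ℂ) x) = f0 := lin1_zero f0 f
    rw [this]
    exact h0.differentiableAt.hasDerivAt.hasFDerivAt
  rw [h1.unique h2]
  refine ContinuousLinearMap.IsInvertible.of_inverse
    (g := ContinuousLinearMap.smulRight (1 : ℂ →L[ℂ] ℂ) (deriv f0 x0)⁻¹) ?_ ?_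
  · ext
    simp [hd]
  · ext
    simp [hd]

/-- IFT package for one branch: the simple zero `x0` of `f0` moves to a zero `ψ c` of
`lin1 f0 f c`, differentiably in `c`, and it is the only zero nearby. -/
theorem exists_moving_zero {f0 : ℂ → ℂ} {f : ι → ℂ → ℂ} {x0 : ℂ} {r : ℝ} (hr : 0 < r)
    (h0 : DifferentiableOn ℂ f0 (ball x0 r)) (h : ∀ j, DifferentiableOn ℂ (f j) (ball x0 r))
    (hz : f0 x0 = 0) (hd : deriv f0 x0 ≠ 0) :
    ∃ ψ : (ι → ℂ) → ℂ, ψ 0 = x0 ∧ ContinuousAt ψ 0 ∧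
      (∀ᶠ c in 𝓝 (0 : ι → ℂ), lin1 f0 f c (ψ c) = 0 ∧ DifferentiableAt ℂ ψ c) ∧
      (∀ᶠ p in 𝓝 ((0 : ι → ℂ), x0), lin1 f0 f p.1 p.2 = 0 → ψ p.1 = p.2) := by
  have a0 : AnalyticAt ℂ f0 x0 := h0.analyticAt (ball_mem_nhds x0 hr)
  have a : ∀ j, AnalyticAt ℂ (f j) x0 := fun j => (h j).analyticAt (ball_mem_nhds x0 hr)
  have cdf := lin1_contDiffAt a0 a (0 : ι → ℂ)
  have inv := lin1_isInvertible a0 a hd
  have hbase : lin1 f0 f (0 : ι → ℂ) x0 = 0 := by rw [lin1_zero]; exact hz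
  refine ⟨cdf.implicitFunction one_ne_zero inv, ?_, ?_, ?_, ?_⟩
  · exact cdf.implicitFunction_apply_self one_ne_zero inv
  · exact (cdf.contDiffAt_implicitFunction one_ne_zero inv).continuousAt
  · have e1 := cdf.eventually_apply_implicitFunction one_ne_zero inv
    have e2 := (cdf.contDiffAt_implicitFunction one_ne_zero inv).eventually (by simp)
    filter_upwards [e1, e2] with c hc1 hc2
    exact ⟨by simpa [hbase] using hc1, hc2.differentiableAt one_ne_zero⟩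
  · have e := cdf.eventually_apply_eq_iff_implicitFunction one_ne_zero inv
    filter_upwards [e] with p hp hp0
    exact hp.mp (by simpa [hbase] using hp0)

/-- Derivative of the moving zero in the coordinate direction `j`:
`(lin1 f0 f c)'(ψ c) * dψ_c(e_j) + f_j(ψ c) = 0`. -/
theorem moving_zero_deriv [DecidableEq ι] {f0 : ℂ → ℂ} {f : ι → ℂ → ℂ} {ψ : (ι → ℂ) → ℂ}
    {c : ι → ℂ}
    (h0 : DifferentiableAt ℂ f0 (ψ c)) (h : ∀ j, DifferentiableAt ℂ (f j) (ψ c))
    (hψ : DifferentiableAt ℂ ψ c) (hzero : ∀ᶠ c' in 𝓝 c, lin1 f0 f c' (ψ c') = 0) (j : ι) :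
    deriv (lin1 f0 f c) (ψ c) * fderiv ℂ ψ c (Pi.single j 1) + f j (ψ c) = 0 := by
  set a := fderiv ℂ ψ c (Pi.single j 1) with ha
  set γ : ℂ → (ι → ℂ) := fun t => c + t • (Pi.single j (1 : ℂ) : ι → ℂ) with hγdef
  have hγ0 : γ 0 = c := by simp [hγdef]
  have hγ : HasDerivAt γ (Pi.single j (1 : ℂ) : ι → ℂ) 0 := by
    have h1 : HasDerivAt (fun t : ℂ => c + t • (Pi.single j (1 : ℂ) : ι → ℂ))
        ((1 : ℂ) • (Pi.single j (1 : ℂ) : ι → ℂ)) 0 :=
      ((hasDerivAt_id (0 : ℂ)).smul_const (Pi.single j (1 : ℂ) : ι → ℂ)).const_add c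
    rw [one_smul] at h1
    exact h1
  have hψγ : HasDerivAt (fun t => ψ (γ t)) a 0 :=
    hψ.hasFDerivAt.comp_hasDerivAt_of_eq 0 hγ hγ0.symm
  have hcoord : ∀ j', HasDerivAt (fun t => γ t j') ((Pi.single j (1 : ℂ) : ι → ℂ) j') 0 :=
    fun j' => hasDerivAt_pi.1 hγ j'
  have hf0 : HasDerivAt (fun t => f0 (ψ (γ t))) (deriv f0 (ψ c) * a) 0 :=
    h0.hasDerivAt.comp_of_eq 0 hψγ (by rw [hγ0])
  have hfj : ∀ j', HasDerivAt (fun t => f j' (ψ (γ t))) (deriv (f j') (ψ c) * a) 0 :=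
    fun j' => (h j').hasDerivAt.comp_of_eq 0 hψγ (by rw [hγ0])
  have htot : HasDerivAt (fun t => lin1 f0 f (γ t) (ψ (γ t)))
      (deriv f0 (ψ c) * a + ∑ j', ((Pi.single j (1 : ℂ) : ι → ℂ) j' * f j' (ψ (γ 0))
        + γ 0 j' * (deriv (f j') (ψ c) * a))) 0 := by
    unfold lin1
    exact hf0.add (HasDerivAt.fun_sum fun j' _ => (hcoord j').mul (hfj j'))
  have hev : (fun t => lin1 f0 f (γ t) (ψ (γ t))) =ᶠ[𝓝 0] fun _ => (0 : ℂ) := by
    have : ∀ᶠ c' in 𝓝 (γ 0), lin1 f0 f c' (ψ c') = 0 := by rw [hγ0]; exact hzero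
    exact hγ.continuousAt.eventually this
  have hzero' := htot.unique ((hasDerivAt_const (0 : ℂ) (0 : ℂ)).congr_of_eventuallyEq hev)
  rw [lin1_deriv h0 h c]
  rw [hγ0] at hzero'
  have hs : ∑ j', (Pi.single j (1 : ℂ) : ι → ℂ) j' * f j' (ψ c) = f j (ψ c) := by
    simp [Pi.single_apply]
  rw [Finset.sum_add_distrib, hs] at hzero'
  rw [← hzero', add_mul, Finset.sum_mul]
  have : ∀ j', c j' * deriv (f j') (ψ c) * a = c j' * (deriv (f j') (ψ c) * a) :=
    fun j' => by ring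
  simp only [this]
  ring

/-- Solving the square linear system: for every configuration `z` near `τ` there is a small
coefficient vector `c` such that `f_c` vanishes at every `z i` (along branch `i`). -/
theorem exists_coeff_of_zeros [DecidableEq ι] (τ : ι → ℂ) (u0 : ι → ℂ → ℂ) (u : ι → ι → ℂ → ℂ)
    (hu0 : ∀ i, ContinuousAt (u0 i) (τ i)) (hu : ∀ j i, ContinuousAt (u j i) (τ i))
    (hu0z : ∀ i, u0 i (τ i) = 0)
    (hdet : (Matrix.of fun i j => u j i (τ i)).det ≠ 0) {η : ℝ} (hη : 0 < η) :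
    ∀ᶠ z in 𝓝 τ, ∃ c : ι → ℂ, ‖c‖ < η ∧ ∀ i, lin1 (u0 i) (fun j => u j i) c (z i) = 0 := by
  set U : (ι → ℂ) → Matrix ι ι ℂ := fun z => Matrix.of fun i j => u j i (z i) with hU
  set b : (ι → ℂ) → (ι → ℂ) := fun z i => u0 i (z i) with hb
  set cz : (ι → ℂ) → (ι → ℂ) := fun z => -((U z)⁻¹.mulVec (b z)) with hcz
  have hUcont : ContinuousAt U τ := by
    refine continuousAt_pi.2 fun i => continuousAt_pi.2 fun j => ?_
    exact ContinuousAt.comp (g := u j i) (f := fun z : ι → ℂ => z i) (hu j i)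
      (continuous_apply i).continuousAt
  have hbcont : ContinuousAt b τ := by
    refine continuousAt_pi.2 fun i => ?_
    exact ContinuousAt.comp (g := u0 i) (f := fun z : ι → ℂ => z i) (hu0 i)
      (continuous_apply i).continuousAt
  have hinv : ContinuousAt (fun z => (U z)⁻¹) τ := by
    have h1 : ContinuousAt Ring.inverse (U τ).det :=
      NormedRing.inverse_continuousAt (Units.mk0 _ hdet)
    exact ContinuousAt.comp (g := fun A : Matrix ι ι ℂ => A⁻¹) (continuousAt_matrix_inv (U τ) h1)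
      hUcont
  have hmv : Continuous fun p : Matrix ι ι ℂ × (ι → ℂ) => p.1.mulVec p.2 :=
    continuous_fst.matrix_mulVec continuous_snd
  have hc : ContinuousAt cz τ :=
    (ContinuousAt.comp (g := fun p : Matrix ι ι ℂ × (ι → ℂ) => p.1.mulVec p.2)
      hmv.continuousAt (hinv.prodMk hbcont)).neg
  have hcz0 : cz τ = 0 := by
    have : b τ = 0 := by funext i; simp [hb, hu0z i]
    simp [hcz, this]
  have hsmall : ∀ᶠ z in 𝓝 τ, ‖cz z‖ < η := by
    have : ∀ᶠ z in 𝓝 τ, cz z ∈ ball (0 : ι → ℂ) η :=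
      hc (by rw [hcz0]; exact ball_mem_nhds _ hη)
    filter_upwards [this] with z hz
    simpa using hz
  have hdetc : ContinuousAt (fun z => (U z).det) τ :=
    ContinuousAt.comp (g := fun A : Matrix ι ι ℂ => A.det)
      (Continuous.matrix_det continuous_id).continuousAt hUcont
  have hdet' : ∀ᶠ z in 𝓝 τ, (U z).det ≠ 0 := hdetc.eventually_ne hdet
  filter_upwards [hsmall, hdet'] with z hz1 hz2
  refine ⟨cz z, hz1, fun i => ?_⟩
  have key : (U z).mulVec (cz z) = -(b z) := by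
    simp only [hcz, Matrix.mulVec_neg, Matrix.mulVec_mulVec]
    rw [Matrix.mul_nonsing_inv _ (isUnit_iff_ne_zero.mpr hz2), Matrix.one_mulVec]
  have hi := congrFun key i
  simp only [Matrix.mulVec, dotProduct, hU, Matrix.of_apply, hb, Pi.neg_apply] at hi
  unfold lin1
  have : ∑ j, cz z j * u j i (z i) = ∑ j, u j i (z i) * cz z j :=
    Finset.sum_congr rfl fun j _ => mul_comm _ _
  rw [this, hi]
  ring

/-- Local injectivity of a "sum of primitives" map `y ↦ (∑ₖ P' l k (y k))ₗ` whose Jacobian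
`(ω' l k (ρ k))` at `ρ` is invertible. -/
theorem sumPrim_injOn {κ : Type*} [Fintype κ] [DecidableEq κ] (ρ : κ → ℂ)
    (ω' : κ → κ → ℂ → ℂ) (P' : κ → κ → ℂ → ℂ)
    (hP' : ∀ l k, HasStrictDerivAt (P' l k) (ω' l k (ρ k)) (ρ k))
    (hdet' : (Matrix.of fun l k => ω' l k (ρ k)).det ≠ 0) :
    ∃ N ∈ 𝓝 ρ, InjOn (fun (y : κ → ℂ) (l : κ) => ∑ k, P' l k (y k)) N := by
  set W : Matrix κ κ ℂ := Matrix.of fun l k => ω' l k (ρ k) with hW
  let _ : Invertible W := Matrix.invertibleOfIsUnitDet W (isUnit_iff_ne_zero.2 hdet')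
  set A : (κ → ℂ) ≃L[ℂ] (κ → ℂ) := (Matrix.toLinearEquiv' W inferInstance).toContinuousLinearEquiv
    with hA
  have each : ∀ l, HasStrictFDerivAt (fun y : κ → ℂ => ∑ k, P' l k (y k))
      (∑ k, ω' l k (ρ k) • (ContinuousLinearMap.proj k : (κ → ℂ) →L[ℂ] ℂ)) ρ := fun l =>
    HasStrictFDerivAt.fun_sum fun k _ =>
      (hP' l k).comp_hasStrictFDerivAt ρ (hasStrictFDerivAt_apply k ρ)
  have hpi := hasStrictFDerivAt_pi.2 each
  have hAeq : (ContinuousLinearMap.pi fun l => ∑ k, ω' l k (ρ k) •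
      (ContinuousLinearMap.proj k : (κ → ℂ) →L[ℂ] ℂ)) = (A : (κ → ℂ) →L[ℂ] (κ → ℂ)) := by
    ext v l
    have h1 : (Matrix.toLinearEquiv' W inferInstance) v = Matrix.toLin' W v :=
      LinearMap.congr_fun (Matrix.toLinearEquiv'_apply W inferInstance) v
    simp [hA, h1, hW, Matrix.toLin'_apply, Matrix.mulVec, dotProduct]
  rw [hAeq] at hpi
  refine ⟨(hpi.toOpenPartialHomeomorph _).source,
    (hpi.toOpenPartialHomeomorph _).open_source.mem_nhds hpi.mem_toOpenPartialHomeomorph_source, ?_⟩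
  have := (hpi.toOpenPartialHomeomorph _).injOn
  rwa [hpi.toOpenPartialHomeomorph_coe] at this

/-- Near `c = 0` the moving zero stays in any prescribed disc and stays simple. -/
theorem moving_zero_eventually {f0 : ℂ → ℂ} {f : ι → ℂ → ℂ} {x0 : ℂ} {r : ℝ} (hr : 0 < r)
    (h0 : DifferentiableOn ℂ f0 (ball x0 r)) (h : ∀ j, DifferentiableOn ℂ (f j) (ball x0 r))
    (hd : deriv f0 x0 ≠ 0) {ψ : (ι → ℂ) → ℂ} (hψ0 : ψ 0 = x0) (hψc : ContinuousAt ψ 0)
    {ε : ℝ} (hε : 0 < ε) :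
    ∀ᶠ c in 𝓝 (0 : ι → ℂ), ψ c ∈ ball x0 ε ∧ deriv (lin1 f0 f c) (ψ c) ≠ 0 := by
  have ev1 : ∀ᶠ c in 𝓝 (0 : ι → ℂ), ψ c ∈ ball x0 (min ε r) :=
    hψc (by rw [hψ0]; exact ball_mem_nhds _ (lt_min hε hr))
  have hd0 : ContinuousAt (deriv f0) (ψ 0) := by
    rw [hψ0]; exact (h0.analyticAt (ball_mem_nhds x0 hr)).deriv.continuousAt
  have hdj : ∀ j, ContinuousAt (deriv (f j)) (ψ 0) := fun j => by
    rw [hψ0]; exact ((h j).analyticAt (ball_mem_nhds x0 hr)).deriv.continuousAt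
  have hE : ContinuousAt (fun c : ι → ℂ => deriv f0 (ψ c) + ∑ j, c j * deriv (f j) (ψ c)) 0 := by
    refine (ContinuousAt.comp (g := deriv f0) hd0 hψc).add ?_
    refine tendsto_finsetSum _ fun j _ => ?_
    exact ((continuous_apply j).continuousAt).mul (ContinuousAt.comp (g := deriv (f j)) (hdj j) hψc)
  have hE0 : (fun c : ι → ℂ => deriv f0 (ψ c) + ∑ j, c j * deriv (f j) (ψ c)) 0 ≠ 0 := by
    simp [hψ0, hd]
  filter_upwards [ev1, hE.eventually_ne hE0] with c hc1 hc2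
  have hcr : ψ c ∈ ball x0 r := ball_subset_ball (min_le_right _ _) hc1
  refine ⟨ball_subset_ball (min_le_left _ _) hc1, ?_⟩
  rw [lin1_deriv ((h0 (ψ c) hcr).differentiableAt (isOpen_ball.mem_nhds hcr))
    (fun j => ((h j) (ψ c) hcr).differentiableAt (isOpen_ball.mem_nhds hcr)) c]
  exact hc2

variable {κ : Type*} [Fintype κ]

/-- **Linear-system Abel theorem, analytic core.**

* `u0 i`, `u j i` : the base function `f₀` and the further basis functions `w_j` of a linear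
  system, read along the branch through the `i`-th simple zero `τ i` of `f₀`;
* `v0 k`, `v j k` : the same functions multiplied by `x - ρ k`, read along the branch through the
  `k`-th point of the auxiliary (pole) divisor;
* `ω l i`, `ω' l k` : the `l`-th differential along these branches, with primitives `P`, `P'`;
* `hdet` : the evaluation matrix `(w_j(Z_i))` is invertible; `hdet'` : the auxiliary divisor is
  non-special;
* `hres` : the residue relation for `w_j / f_c`.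

Conclusion: on a polydisc around `τ`, two configurations `z, z'` with the same sum of primitives
are the zero configurations of two members `f_c, f_c'` of the system having the **same**
compensating zeros `y`; hence (consumer side) `div (f_c / f_c') = z - z'`. -/
theorem linSys_abel [DecidableEq ι] [DecidableEq κ]
    (τ : ι → ℂ) (ρ : κ → ℂ) {r : ℝ} (hr : 0 < r)
    (u0 : ι → ℂ → ℂ) (u : ι → ι → ℂ → ℂ)
    (v0 : κ → ℂ → ℂ) (v : ι → κ → ℂ → ℂ)
    (ω : κ → ι → ℂ → ℂ) (ω' : κ → κ → ℂ → ℂ)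
    (P : κ → ι → ℂ → ℂ) (P' : κ → κ → ℂ → ℂ)
    (hu0 : ∀ i, DifferentiableOn ℂ (u0 i) (ball (τ i) r))
    (hu : ∀ j i, DifferentiableOn ℂ (u j i) (ball (τ i) r))
    (hv0 : ∀ k, DifferentiableOn ℂ (v0 k) (ball (ρ k) r))
    (hv : ∀ j k, DifferentiableOn ℂ (v j k) (ball (ρ k) r))
    (hP : ∀ l i, ∀ x ∈ ball (τ i) r, HasDerivAt (P l i) (ω l i x) x)
    (hP' : ∀ l k, ∀ x ∈ ball (ρ k) r, HasDerivAt (P' l k) (ω' l k x) x)
    (hu0z : ∀ i, u0 i (τ i) = 0) (hu0d : ∀ i, deriv (u0 i) (τ i) ≠ 0)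
    (hv0z : ∀ k, v0 k (ρ k) = 0) (hv0d : ∀ k, deriv (v0 k) (ρ k) ≠ 0)
    (hdet : (Matrix.of fun i j => u j i (τ i)).det ≠ 0)
    (hdet' : (Matrix.of fun l k => ω' l k (ρ k)).det ≠ 0)
    {δ : ℝ} (hδ : 0 < δ)
    (hres : ∀ c : ι → ℂ, ‖c‖ < δ → ∀ (z : ι → ℂ) (y : κ → ℂ),
        (∀ i, z i ∈ ball (τ i) δ) → (∀ k, y k ∈ ball (ρ k) δ) →
        (∀ i, lin1 (u0 i) (fun j => u j i) c (z i) = 0) →
        (∀ k, lin1 (v0 k) (fun j => v j k) c (y k) = 0) →
        (∀ i, deriv (lin1 (u0 i) (fun j => u j i) c) (z i) ≠ 0) →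
        (∀ k, deriv (lin1 (v0 k) (fun j => v j k) c) (y k) ≠ 0) →
        ∀ (j : ι) (l : κ),
          ∑ i, ω l i (z i) * u j i (z i) / deriv (lin1 (u0 i) (fun j => u j i) c) (z i)
            + ∑ k, ω' l k (y k) * v j k (y k) /
                deriv (lin1 (v0 k) (fun j => v j k) c) (y k) = 0) :
    ∃ ε > 0, ∀ z z' : ι → ℂ, (∀ i, z i ∈ ball (τ i) ε) → (∀ i, z' i ∈ ball (τ i) ε) →
      (∀ l, ∑ i, (P l i (z i) - P l i (z' i)) = 0) →
      ∃ (c c' : ι → ℂ) (y : κ → ℂ), ‖c‖ < δ ∧ ‖c'‖ < δ ∧ (∀ k, y k ∈ ball (ρ k) δ) ∧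
        (∀ i, lin1 (u0 i) (fun j => u j i) c (z i) = 0) ∧
        (∀ i, lin1 (u0 i) (fun j => u j i) c' (z' i) = 0) ∧
        (∀ k, lin1 (v0 k) (fun j => v j k) c (y k) = 0) ∧
        (∀ k, lin1 (v0 k) (fun j => v j k) c' (y k) = 0) := by
  -- pointwise differentiability
  have hu0a : ∀ i, ∀ x ∈ ball (τ i) r, DifferentiableAt ℂ (u0 i) x := fun i x hx =>
    (hu0 i x hx).differentiableAt (isOpen_ball.mem_nhds hx)
  have hua : ∀ j i, ∀ x ∈ ball (τ i) r, DifferentiableAt ℂ (u j i) x := fun j i x hx =>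
    (hu j i x hx).differentiableAt (isOpen_ball.mem_nhds hx)
  have hv0a : ∀ k, ∀ x ∈ ball (ρ k) r, DifferentiableAt ℂ (v0 k) x := fun k x hx =>
    (hv0 k x hx).differentiableAt (isOpen_ball.mem_nhds hx)
  have hva : ∀ j k, ∀ x ∈ ball (ρ k) r, DifferentiableAt ℂ (v j k) x := fun j k x hx =>
    (hv j k x hx).differentiableAt (isOpen_ball.mem_nhds hx)
  -- the moving zeros
  choose X hX0 hXc hXe hXu using fun i =>
    exists_moving_zero (f0 := u0 i) (f := fun j => u j i) hr (hu0 i) (fun j => hu j i)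
      (hu0z i) (hu0d i)
  choose Y hY0 hYc hYe hYu using fun k =>
    exists_moving_zero (f0 := v0 k) (f := fun j => v j k) hr (hv0 k) (fun j => hv j k)
      (hv0z k) (hv0d k)
  -- injectivity neighbourhood for the compensating zeros
  have hP's : ∀ l k, HasStrictDerivAt (P' l k) (ω' l k (ρ k)) (ρ k) := fun l k => by
    have hd : DifferentiableOn ℂ (P' l k) (ball (ρ k) r) := fun x hx =>
      (hP' l k x hx).differentiableAt.differentiableWithinAt
    have := (hd.analyticAt (ball_mem_nhds _ hr)).hasStrictDerivAt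
    rwa [(hP' l k (ρ k) (mem_ball_self hr)).deriv] at this
  obtain ⟨N, hN, hNinj⟩ := sumPrim_injOn ρ ω' P' hP's hdet'
  -- uniqueness data
  have hXu' : ∀ i, ∃ pa : (ι → ℂ) → Prop, (∀ᶠ c in 𝓝 (0 : ι → ℂ), pa c) ∧
      ∃ pb : ℂ → Prop, (∀ᶠ x in 𝓝 (τ i), pb x) ∧ ∀ {c}, pa c → ∀ {x}, pb x →
        (lin1 (u0 i) (fun j => u j i) c x = 0 → X i c = x) := fun i => by
    have := hXu i
    rw [nhds_prod_eq, Filter.eventually_prod_iff] at this
    exact this
  choose pa hpa pb hpb hpab using hXu'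
  -- the good set of coefficients
  have hmin : 0 < min δ r := lt_min hδ hr
  have hG : ∀ᶠ c in 𝓝 (0 : ι → ℂ), ‖c‖ < δ ∧
      (∀ i, (lin1 (u0 i) (fun j => u j i) c (X i c) = 0 ∧ DifferentiableAt ℂ (X i) c) ∧
        (X i c ∈ ball (τ i) (min δ r) ∧ deriv (lin1 (u0 i) (fun j => u j i) c) (X i c) ≠ 0) ∧
        pa i c) ∧
      (∀ k, (lin1 (v0 k) (fun j => v j k) c (Y k c) = 0 ∧ DifferentiableAt ℂ (Y k) c) ∧
        (Y k c ∈ ball (ρ k) (min δ r) ∧ deriv (lin1 (v0 k) (fun j => v j k) c) (Y k c) ≠ 0)) ∧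
      (fun k => Y k c) ∈ N := by
    refine Filter.Eventually.and ?_ (Filter.Eventually.and ?_ (Filter.Eventually.and ?_ ?_))
    · filter_upwards [ball_mem_nhds (0 : ι → ℂ) hδ] with c hc
      simpa using hc
    · refine Filter.eventually_all.2 fun i => ?_
      exact (hXe i).and ((moving_zero_eventually hr (hu0 i) (fun j => hu j i) (hu0d i)
        (hX0 i) (hXc i) hmin).and (hpa i))
    · refine Filter.eventually_all.2 fun k => ?_
      exact (hYe k).and (moving_zero_eventually hr (hv0 k) (fun j => hv j k) (hv0d k)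
        (hY0 k) (hYc k) hmin)
    · have hcont : ContinuousAt (fun c : ι → ℂ => fun k => Y k c) 0 :=
        continuousAt_pi.2 hYc
      have h0 : (fun c : ι → ℂ => fun k => Y k c) 0 = ρ := funext hY0
      exact hcont (by rw [h0]; exact hN)
  obtain ⟨δ1, hδ1, hG1⟩ := Metric.eventually_nhds_iff.1 hG
  have hGb : ∀ c ∈ ball (0 : ι → ℂ) δ1, _ := fun c hc => hG1 (mem_ball.1 hc)
  -- constancy of the total sum of primitives
  have hconst : ∀ l, ∀ c ∈ ball (0 : ι → ℂ) δ1, ∀ c' ∈ ball (0 : ι → ℂ) δ1,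
      (∑ i, P l i (X i c) + ∑ k, P' l k (Y k c)) =
        (∑ i, P l i (X i c') + ∑ k, P' l k (Y k c')) := by
    intro l c hc c' hc'
    have hderiv : ∀ c ∈ ball (0 : ι → ℂ) δ1,
        HasFDerivAt (fun c : ι → ℂ => ∑ i, P l i (X i c) + ∑ k, P' l k (Y k c))
          (∑ i, ω l i (X i c) • fderiv ℂ (X i) c + ∑ k, ω' l k (Y k c) • fderiv ℂ (Y k) c) c := by
      intro c hc
      obtain ⟨-, hGX, hGY, -⟩ := hGb c hc
      refine HasFDerivAt.add (HasFDerivAt.fun_sum fun i _ => ?_)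
        (HasFDerivAt.fun_sum fun k _ => ?_)
      · have hxr : X i c ∈ ball (τ i) r := ball_subset_ball (min_le_right _ _) (hGX i).2.1.1
        exact (hP l i _ hxr).comp_hasFDerivAt c (hGX i).1.2.hasFDerivAt
      · have hyr : Y k c ∈ ball (ρ k) r := ball_subset_ball (min_le_right _ _) (hGY k).2.1
        exact (hP' l k _ hyr).comp_hasFDerivAt c (hGY k).1.2.hasFDerivAt
    refine IsOpen.is_const_of_fderiv_eq_zero (𝕜 := ℂ) isOpen_ball
      (convex_ball (0 : ι → ℂ) δ1).isPreconnected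
      (fun c hc => (hderiv c hc).differentiableAt.differentiableWithinAt) ?_ hc hc'
    intro c hc
    rw [(hderiv c hc).fderiv]
    obtain ⟨hcδ, hGX, hGY, -⟩ := hGb c hc
    have hnear : ∀ᶠ c' in 𝓝 c, c' ∈ ball (0 : ι → ℂ) δ1 := isOpen_ball.mem_nhds hc
    -- derivative of the moving zeros in coordinate directions
    have hdX : ∀ i j, fderiv ℂ (X i) c (Pi.single j 1) =
        -(u j i (X i c) / deriv (lin1 (u0 i) (fun j => u j i) c) (X i c)) := by
      intro i j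
      have hxr : X i c ∈ ball (τ i) r := ball_subset_ball (min_le_right _ _) (hGX i).2.1.1
      have hz : ∀ᶠ c' in 𝓝 c, lin1 (u0 i) (fun j => u j i) c' (X i c') = 0 := by
        filter_upwards [hnear] with c' hc'
        exact ((hGb c' hc').2.1 i).1.1
      have := moving_zero_deriv (f0 := u0 i) (f := fun j => u j i) (hu0a i _ hxr)
        (fun j => hua j i _ hxr) (hGX i).1.2 hz j
      have hD := (hGX i).2.1.2
      field_simp
      linear_combination this
    have hdY : ∀ k j, fderiv ℂ (Y k) c (Pi.single j 1) =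
        -(v j k (Y k c) / deriv (lin1 (v0 k) (fun j => v j k) c) (Y k c)) := by
      intro k j
      have hyr : Y k c ∈ ball (ρ k) r := ball_subset_ball (min_le_right _ _) (hGY k).2.1
      have hz : ∀ᶠ c' in 𝓝 c, lin1 (v0 k) (fun j => v j k) c' (Y k c') = 0 := by
        filter_upwards [hnear] with c' hc'
        exact ((hGb c' hc').2.2.1 k).1.1
      have := moving_zero_deriv (f0 := v0 k) (f := fun j => v j k) (hv0a k _ hyr)
        (fun j => hva j k _ hyr) (hGY k).1.2 hz j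
      have hD := (hGY k).2.2
      field_simp
      linear_combination this
    -- the derivative vanishes on the coordinate vectors, hence everywhere
    have hbasis : ∀ j, (∑ i, ω l i (X i c) • fderiv ℂ (X i) c +
        ∑ k, ω' l k (Y k c) • fderiv ℂ (Y k) c) (Pi.single j 1) = 0 := by
      intro j
      have hr' := hres c hcδ (fun i => X i c) (fun k => Y k c)
        (fun i => ball_subset_ball (min_le_left _ _) (hGX i).2.1.1)
        (fun k => ball_subset_ball (min_le_left _ _) (hGY k).2.1)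
        (fun i => (hGX i).1.1) (fun k => (hGY k).1.1)
        (fun i => (hGX i).2.1.2) (fun k => (hGY k).2.2) j l
      simp only [add_apply, sum_apply, smul_apply, smul_eq_mul, hdX, hdY]
      rw [← neg_eq_zero, ← hr']
      simp only [mul_neg, Finset.sum_neg_distrib, mul_div_assoc]
      ring
    show _ = (0 : (ι → ℂ) →L[ℂ] ℂ)
    refine ContinuousLinearMap.ext fun w => ?_
    conv_lhs => rw [pi_eq_sum_univ' w]
    simp only [map_sum, map_smul, hbasis, smul_zero, Finset.sum_const_zero]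
    rfl
  -- solving for the coefficients
  have hz : ∀ᶠ z in 𝓝 τ, (∀ i, pb i (z i)) ∧
      ∃ c : ι → ℂ, ‖c‖ < δ1 ∧ ∀ i, lin1 (u0 i) (fun j => u j i) c (z i) = 0 := by
    refine Filter.Eventually.and (Filter.eventually_all.2 fun i => ?_) ?_
    · exact (continuous_apply i).continuousAt.eventually (hpb i)
    · exact exists_coeff_of_zeros τ u0 u
        (fun i => (hu0a i _ (mem_ball_self hr)).continuousAt)
        (fun j i => (hua j i _ (mem_ball_self hr)).continuousAt) hu0z hdet hδ1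
  obtain ⟨ε, hε, hz1⟩ := Metric.eventually_nhds_iff.1 hz
  refine ⟨ε, hε, fun z z' hzb hzb' hsum => ?_⟩
  obtain ⟨hpbz, c, hc, hcz⟩ := hz1 ((dist_pi_lt_iff hε).2 fun i => mem_ball.1 (hzb i))
  obtain ⟨hpbz', c', hc', hcz'⟩ := hz1 ((dist_pi_lt_iff hε).2 fun i => mem_ball.1 (hzb' i))
  have hcb : c ∈ ball (0 : ι → ℂ) δ1 := by simpa using hc
  have hcb' : c' ∈ ball (0 : ι → ℂ) δ1 := by simpa using hc'
  obtain ⟨hcδ, hGX, hGY, hYN⟩ := hGb c hcb
  obtain ⟨hcδ', hGX', hGY', hYN'⟩ := hGb c' hcb'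
  have hXz : ∀ i, X i c = z i := fun i => hpab i (hGX i).2.2 (hpbz i) (hcz i)
  have hXz' : ∀ i, X i c' = z' i := fun i => hpab i (hGX' i).2.2 (hpbz' i) (hcz' i)
  have hYeq : (fun k => Y k c) = fun k => Y k c' := by
    refine hNinj hYN hYN' (funext fun l => ?_)
    have h1 := hconst l c hcb c' hcb'
    simp only [hXz, hXz'] at h1
    have h2 := hsum l
    rw [Finset.sum_sub_distrib] at h2
    show ∑ k, P' l k (Y k c) = ∑ k, P' l k (Y k c')
    linear_combination h1 - h2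
  refine ⟨c, c', fun k => Y k c, hcδ, hcδ', fun k => ball_subset_ball (min_le_left _ _) (hGY k).2.1,
    hcz, hcz', fun k => (hGY k).1.1, fun k => ?_⟩
  have := (hGY' k).1.1
  rw [← congrFun hYeq k] at this
  exact this

end

end Fermat.Agent.S27.helper4683
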