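/-
S27, Lefschetz transfer: the SUPPLY of derivations for a constant field extension (helper4889).

* `exists_derivation_ext`: derivations extend along formally étale algebras.
* `exists_derivation_ne_zero` (D1): in characteristic zero a transcendental element is not killed
  by all derivations; `mem_range_of_forall_derivation_eq_zero`: over an algebraically closed
  base field of characteristic zero the common constants of all derivations are the base field.
* `tensorDer`, `exists_extDer` (D2): for `F2 = Frac (F1 ⊗[K1] K2)` every `K1`-derivation `δ` of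
  `K2` extends to a derivation of `F2` which is `id ⊗ δ` on `F1 ⊗[K1] K2`.
* `mem_range_algebraMap_of_forall_der` (CONST): an element of `F2` killed by all derivations of
  `F2` that kill `F1` and preserve `K2` lies in `F1`.
-/
import Mathlib
import Fermat.Agent.S27.helper5411_Reduce

set_option autoImplicit false

open KaehlerDifferential TensorProduct

namespace Fermat.Agent.S27.helper4889

section Generic

/-- Derivations extend along formally étale algebras. -/
theorem exists_derivation_ext (R S T N : Type*) [CommRing R] [CommRing S] [CommRing T]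
    [Algebra R S] [Algebra R T] [Algebra S T] [IsScalarTower R S T] [Algebra.FormallyEtale S T]
    [AddCommGroup N] [Module R N] [Module S N] [Module T N] [IsScalarTower S T N]
    [IsScalarTower R T N] [IsScalarTower R S N] (d : Derivation R S N) :
    ∃ d' : Derivation R T N, ∀ s : S, d' (algebraMap S T s) = d s := by
  let e := KaehlerDifferential.tensorKaehlerEquivOfFormallyEtale R S T
  let g : T ⊗[S] Ω[S⁄R] →ₗ[T] N := LinearMap.liftBaseChange T d.liftKaehlerDifferential
  refine ⟨(g ∘ₗ e.symm.toLinearMap).compDer (KaehlerDifferential.D R T), fun s => ?_⟩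
  show g (e.symm (D R T (algebraMap S T s))) = d s
  rw [show e.symm (D R T (algebraMap S T s)) = 1 ⊗ₜ D R S s from
    KaehlerDifferential.tensorKaehlerEquivOfFormallyEtale_symm_D_algebraMap R S T s]
  simp [g]

end Generic

section D1

variable {K L : Type*} [Field K] [Field L] [Algebra K L] [CharZero K]

/-- (D1) In characteristic zero, a transcendental element is not killed by all derivations. -/
theorem exists_derivation_ne_zero (a : L) (ha : Transcendental K a) :
    ∃ δ : Derivation K L L, δ a ≠ 0 := by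
  have hs : AlgebraicIndepOn K id ({a} : Set L) := by
    show AlgebraicIndependent K (fun x : ({a} : Set L) => id (x : L))
    rw [algebraicIndependent_singleton_iff (⟨a, rfl⟩ : ({a} : Set L))]
    exact ha
  obtain ⟨t, hst, ht⟩ := exists_isTranscendenceBasis_superset hs
  let i0 : t := ⟨a, hst rfl⟩
  letI := helper5411.mvPolyAlgebra (K := K) (Subtype.val : t → L)
  have := helper5411.mvPolyAlgebra_isScalarTower (K := K) (Subtype.val : t → L)
  have := helper5411.formallyEtale_mvPolynomial (Subtype.val : t → L) ht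
  let d0 : Derivation K (MvPolynomial t K) L :=
    (Algebra.linearMap (MvPolynomial t K) L).compDer (MvPolynomial.pderiv i0)
  obtain ⟨d', hd'⟩ := exists_derivation_ext K (MvPolynomial t K) L L d0
  refine ⟨d', ?_⟩
  have h1 : algebraMap (MvPolynomial t K) L (MvPolynomial.X i0) = a := by
    show MvPolynomial.aeval (Subtype.val : t → L) (MvPolynomial.X i0) = a
    simp [i0]
  rw [← h1, hd']
  simp [d0]

/-- Over an algebraically closed field of characteristic zero, the common constants of all
derivations of an extension field are the elements of the base field. -/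
theorem mem_range_of_forall_derivation_eq_zero [IsAlgClosed K] (a : L)
    (h : ∀ δ : Derivation K L L, δ a = 0) : a ∈ Set.range (algebraMap K L) := by
  by_contra hna
  have htr : Transcendental K a := by
    intro halg
    apply hna
    have hint : IsIntegral K a := halg.isIntegral
    have hdeg : (minpoly K a).degree = 1 :=
      IsAlgClosed.degree_eq_one_of_irreducible K (minpoly.irreducible hint)
    exact minpoly.mem_range_of_degree_eq_one K a hdeg
  obtain ⟨δ, hδ⟩ := exists_derivation_ne_zero a htr
  exact hδ (h δ)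

end D1

section ConstExt

variable {K1 F1 K2 F2 : Type*} [Field K1] [Field F1] [Field K2] [Field F2]
  [Algebra K1 F1] [Algebra K2 F2] [Algebra K1 K2] [Algebra F1 F2] [Algebra K1 F2]
  [IsScalarTower K1 K2 F2] [IsScalarTower K1 F1 F2]

variable (K1 F1 K2 F2) in
/-- The multiplication map `F1 ⊗[K1] K2 → F2`. -/
noncomputable def cmu : F1 ⊗[K1] K2 →ₐ[K1] F2 :=
  Algebra.TensorProduct.productMap (IsScalarTower.toAlgHom K1 F1 F2)
    (IsScalarTower.toAlgHom K1 K2 F2)

theorem cmu_tmul (f : F1) (c : K2) :
    cmu K1 F1 K2 F2 (f ⊗ₜ[K1] c) = algebraMap F1 F2 f * algebraMap K2 F2 c := by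
  simp [cmu]

/-- `id ⊗ δ` as a derivation of `F1 ⊗[K1] K2`. -/
noncomputable def tensorDer (δ : Derivation K1 K2 K2) :
    Derivation K1 (F1 ⊗[K1] K2) (F1 ⊗[K1] K2) :=
  Derivation.mk' ((δ : K2 →ₗ[K1] K2).lTensor F1) (by
    intro a b
    induction a using TensorProduct.induction_on with
    | zero => simp
    | add a1 a2 h1 h2 =>
      simp only [add_mul, map_add, h1, h2, smul_add, add_smul]
      abel
    | tmul f c =>
      induction b using TensorProduct.induction_on with
      | zero => simp
      | add b1 b2 h1 h2 =>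
        simp only [mul_add, map_add, h1, h2, smul_add, add_smul]
        abel
      | tmul f' c' =>
        simp only [Algebra.TensorProduct.tmul_mul_tmul, LinearMap.lTensor_tmul,
          Derivation.coeFn_coe, Derivation.leibniz, smul_eq_mul, TensorProduct.tmul_add]
        rw [mul_comm f' f, mul_comm c' (δ c)])

@[simp]
theorem tensorDer_tmul (δ : Derivation K1 K2 K2) (f : F1) (c : K2) :
    tensorDer δ (f ⊗ₜ[K1] c) = f ⊗ₜ[K1] δ c := by
  simp [tensorDer]

/-- (D2) Every `K1`-derivation of `K2` extends to `F2 = Frac (F1 ⊗[K1] K2)`, acting as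
`id ⊗ δ` on the image of the tensor product. -/
theorem exists_extDer (hinj : Function.Injective (cmu K1 F1 K2 F2))
    (hfrac : ∀ g : F2, ∃ t s : F1 ⊗[K1] K2, s ≠ 0 ∧
      g * cmu K1 F1 K2 F2 s = cmu K1 F1 K2 F2 t)
    (δ : Derivation K1 K2 K2) :
    ∃ d : Derivation K1 F2 F2, ∀ t : F1 ⊗[K1] K2,
      d (cmu K1 F1 K2 F2 t) = cmu K1 F1 K2 F2 (tensorDer δ t) := by
  letI : Algebra (F1 ⊗[K1] K2) F2 := (cmu K1 F1 K2 F2).toRingHom.toAlgebra
  have hmap : ∀ t, algebraMap (F1 ⊗[K1] K2) F2 t = cmu K1 F1 K2 F2 t := fun _ => rfl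
  have : IsScalarTower K1 (F1 ⊗[K1] K2) F2 := IsScalarTower.of_algebraMap_eq fun a => by
    rw [hmap]
    exact ((cmu K1 F1 K2 F2).commutes a).symm
  have : FaithfulSMul (F1 ⊗[K1] K2) F2 := (faithfulSMul_iff_algebraMap_injective _ _).mpr hinj
  have : IsFractionRing (F1 ⊗[K1] K2) F2 := IsFractionRing.of_field (F1 ⊗[K1] K2) F2 fun z => by
    obtain ⟨t, s, hs, h⟩ := hfrac z
    refine ⟨t, s, ?_⟩
    have hs' : cmu K1 F1 K2 F2 s ≠ 0 := fun h0 => hs (hinj (by rw [h0, map_zero]))
    rw [hmap, hmap, eq_div_iff hs', h]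
  have : Algebra.FormallyEtale (F1 ⊗[K1] K2) F2 :=
    Algebra.FormallyEtale.of_isLocalization (nonZeroDivisors (F1 ⊗[K1] K2))
  let d0 : Derivation K1 (F1 ⊗[K1] K2) F2 :=
    (Algebra.linearMap (F1 ⊗[K1] K2) F2).compDer (tensorDer δ)
  obtain ⟨d, hd⟩ := exists_derivation_ext K1 (F1 ⊗[K1] K2) F2 F2 d0
  exact ⟨d, fun t => hd t⟩

end ConstExt

section Const

variable {K1 F1 K2 F2 : Type*} [Field K1] [Field F1] [Field K2] [Field F2]
  [Algebra K1 F1] [Algebra K2 F2] [Algebra K1 K2] [Algebra F1 F2] [Algebra K1 F2]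
  [IsScalarTower K1 K2 F2] [IsScalarTower K1 F1 F2]

/-- Coordinates of `F1 ⊗[K1] K2` with respect to a `K1`-basis of `F1`: `id ⊗ δ` acts
coordinatewise. -/
theorem coord_tensorDer [DecidableEq (Module.Basis.ofVectorSpaceIndex K1 F1)]
    (δ : Derivation K1 K2 K2) (t : F1 ⊗[K1] K2) (j : Module.Basis.ofVectorSpaceIndex K1 F1) :
    TensorProduct.equivFinsuppOfBasisLeft (N := K2) (Module.Basis.ofVectorSpace K1 F1)
        (tensorDer δ t) j
      = δ (TensorProduct.equivFinsuppOfBasisLeft (N := K2) (Module.Basis.ofVectorSpace K1 F1)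
        t j) := by
  induction t using TensorProduct.induction_on with
  | zero => simp
  | tmul f c =>
    rw [tensorDer_tmul, TensorProduct.equivFinsuppOfBasisLeft_apply_tmul_apply,
      TensorProduct.equivFinsuppOfBasisLeft_apply_tmul_apply, Derivation.map_smul]
  | add a b ha hb => simp only [map_add, Finsupp.add_apply, ha, hb]

/-- Right multiplication by a constant acts coordinatewise. -/
theorem coord_mul_const [DecidableEq (Module.Basis.ofVectorSpaceIndex K1 F1)]
    (c : K2) (t : F1 ⊗[K1] K2) (j : Module.Basis.ofVectorSpaceIndex K1 F1) :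
    TensorProduct.equivFinsuppOfBasisLeft (N := K2) (Module.Basis.ofVectorSpace K1 F1)
        (t * ((1 : F1) ⊗ₜ[K1] c)) j
      = TensorProduct.equivFinsuppOfBasisLeft (N := K2) (Module.Basis.ofVectorSpace K1 F1)
        t j * c := by
  induction t using TensorProduct.induction_on with
  | zero => simp
  | tmul f c' =>
    rw [Algebra.TensorProduct.tmul_mul_tmul, mul_one,
      TensorProduct.equivFinsuppOfBasisLeft_apply_tmul_apply,
      TensorProduct.equivFinsuppOfBasisLeft_apply_tmul_apply, smul_mul_assoc]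
  | add a b ha hb => simp only [add_mul, map_add, Finsupp.add_apply, ha, hb]

/-- An element of `F1 ⊗[K1] K2` killed by all `id ⊗ δ` is of the form `a ⊗ 1`. -/
theorem exists_eq_tmul_one_of_tensorDer_eq_zero [CharZero K1] [IsAlgClosed K1]
    (t : F1 ⊗[K1] K2) (h : ∀ δ : Derivation K1 K2 K2, tensorDer δ t = 0) :
    ∃ a : F1, t = a ⊗ₜ[K1] (1 : K2) := by
  classical
  have hk : ∀ j, ∃ k : K1, algebraMap K1 K2 k =
      TensorProduct.equivFinsuppOfBasisLeft (N := K2) (Module.Basis.ofVectorSpace K1 F1) t j := by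
    intro j
    apply mem_range_of_forall_derivation_eq_zero
    intro δ
    have := coord_tensorDer δ t j
    rw [h δ] at this
    simpa using this.symm
  choose k hk using hk
  refine ⟨(TensorProduct.equivFinsuppOfBasisLeft (N := K2) (Module.Basis.ofVectorSpace K1 F1)
    t).sum fun j _ => k j • Module.Basis.ofVectorSpace K1 F1 j, ?_⟩
  have h1 : (TensorProduct.equivFinsuppOfBasisLeft (N := K2)
      (Module.Basis.ofVectorSpace K1 F1)).symm
      (TensorProduct.equivFinsuppOfBasisLeft (N := K2) (Module.Basis.ofVectorSpace K1 F1) t)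
      = t := LinearEquiv.symm_apply_apply _ t
  rw [TensorProduct.equivFinsuppOfBasisLeft_symm_apply] at h1
  conv_lhs => rw [← h1]
  unfold Finsupp.sum
  rw [TensorProduct.sum_tmul]
  refine Finset.sum_congr rfl fun j _ => ?_
  rw [← hk j, Algebra.algebraMap_eq_smul_one, TensorProduct.smul_tmul]

/-- (CONST) In `F2 = Frac (F1 ⊗[K1] K2)`, with `K1` algebraically closed of characteristic zero,
an element killed by every derivation of `F2` which kills `F1` and maps `K2` into itself lies in
`F1`. -/
theorem mem_range_algebraMap_of_forall_der [CharZero K1] [IsAlgClosed K1]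
    (hinj : Function.Injective (cmu K1 F1 K2 F2))
    (hfrac : ∀ g : F2, ∃ t s : F1 ⊗[K1] K2, s ≠ 0 ∧
      g * cmu K1 F1 K2 F2 s = cmu K1 F1 K2 F2 t)
    (f : F2)
    (hf : ∀ d : Derivation ℤ F2 F2, (∀ a : F1, d (algebraMap F1 F2 a) = 0) →
      (∀ c : K2, ∃ c' : K2, d (algebraMap K2 F2 c) = algebraMap K2 F2 c') → d f = 0) :
    f ∈ Set.range (algebraMap F1 F2) := by
  classical
  -- the extended derivations kill `f`
  have hD : ∀ δ : Derivation K1 K2 K2, ∃ d : Derivation K1 F2 F2,
      (∀ t, d (cmu K1 F1 K2 F2 t) = cmu K1 F1 K2 F2 (tensorDer δ t)) ∧ d f = 0 := by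
    intro δ
    obtain ⟨d, hd⟩ := exists_extDer hinj hfrac δ
    refine ⟨d, hd, ?_⟩
    have h1 := hf (d.restrictScalars ℤ) (fun a => ?_) (fun c => ⟨δ c, ?_⟩)
    · exact h1
    · show d (algebraMap F1 F2 a) = 0
      have := hd (a ⊗ₜ[K1] (1 : K2))
      rw [cmu_tmul, tensorDer_tmul, cmu_tmul, map_one, mul_one] at this
      rw [this]
      simp
    · show d (algebraMap K2 F2 c) = algebraMap K2 F2 (δ c)
      have := hd ((1 : F1) ⊗ₜ[K1] c)
      rw [cmu_tmul, tensorDer_tmul, cmu_tmul, map_one, one_mul, one_mul] at this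
      exact this
  set e := Module.Basis.ofVectorSpace K1 F1 with he
  set Φ := TensorProduct.equivFinsuppOfBasisLeft (N := K2) e with hΦ
  -- the fraction step: a denominator in `F1`
  have key : ∀ n : ℕ, ∀ t : F1 ⊗[K1] K2, (Φ t).support.card ≤ n → t ≠ 0 →
      (∃ r, cmu K1 F1 K2 F2 t * f = cmu K1 F1 K2 F2 r) →
      ∃ a : F1, a ≠ 0 ∧ ∃ r, algebraMap F1 F2 a * f = cmu K1 F1 K2 F2 r := by
    intro n
    induction n with
    | zero =>
      intro t hcard ht _
      exfalso
      apply ht
      have h0 : Φ t = 0 := by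
        rw [← Finsupp.support_eq_empty]
        exact Finset.card_eq_zero.mp (Nat.le_zero.mp hcard)
      exact Φ.map_eq_zero_iff.mp h0
    | succ n ih =>
      intro t hcard ht hex
      have hΦt : Φ t ≠ 0 := fun h0 => ht (Φ.map_eq_zero_iff.mp h0)
      obtain ⟨j0, hj0⟩ := Finsupp.support_nonempty_iff.mpr hΦt
      have hj0' : Φ t j0 ≠ 0 := Finsupp.mem_support_iff.mp hj0
      set c := (Φ t j0)⁻¹ with hc
      set t1 := t * ((1 : F1) ⊗ₜ[K1] c) with ht1def
      have h1 : ∀ j, Φ t1 j = Φ t j * c := fun j => coord_mul_const c t j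
      have h1j0 : Φ t1 j0 = 1 := by rw [h1, hc, mul_inv_cancel₀ hj0']
      have ht1 : t1 ≠ 0 := by
        intro h0
        rw [h0, map_zero] at h1j0
        simp at h1j0
      obtain ⟨r, hr⟩ := hex
      have hr1 : cmu K1 F1 K2 F2 t1 * f = cmu K1 F1 K2 F2 (r * ((1 : F1) ⊗ₜ[K1] c)) := by
        rw [ht1def, map_mul, map_mul, ← hr]
        ring
      by_cases hall : ∀ δ : Derivation K1 K2 K2, tensorDer δ t1 = 0
      · obtain ⟨a, ha⟩ := exists_eq_tmul_one_of_tensorDer_eq_zero t1 hall
        refine ⟨a, ?_, r * ((1 : F1) ⊗ₜ[K1] c), ?_⟩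
        · rintro rfl
          apply ht1
          rw [ha, TensorProduct.zero_tmul]
        · rw [← hr1, ha, cmu_tmul, map_one, mul_one]
      · obtain ⟨δ, hδ⟩ := not_forall.mp hall
        obtain ⟨d, hd, hdf⟩ := hD δ
        refine ih (tensorDer δ t1) ?_ hδ ⟨tensorDer δ (r * ((1 : F1) ⊗ₜ[K1] c)), ?_⟩
        · have hsub : (Φ (tensorDer δ t1)).support ⊆ (Φ t).support.erase j0 := by
            intro j hj
            rw [Finsupp.mem_support_iff, hΦ, coord_tensorDer] at hj
            rw [Finset.mem_erase]
            refine ⟨?_, ?_⟩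
            · rintro rfl
              apply hj
              rw [← hΦ, h1j0]
              simp
            · rw [Finsupp.mem_support_iff]
              intro h0
              apply hj
              rw [← hΦ, h1, h0, zero_mul, map_zero]
          have hle := Finset.card_le_card hsub
          rw [Finset.card_erase_of_mem hj0] at hle
          omega
        · rw [← hd, ← hd, ← hr1, Derivation.leibniz, hdf]
          simp [mul_comm]
  -- conclude
  obtain ⟨t, s, hs, hts⟩ := hfrac f
  obtain ⟨a, ha, r, hr⟩ := key _ s le_rfl hs ⟨t, by rw [mul_comm]; exact hts⟩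
  have haF : algebraMap F1 F2 a ≠ 0 := by simpa using ha
  set r' := r * (a⁻¹ ⊗ₜ[K1] (1 : K2)) with hr'
  have hf' : f = cmu K1 F1 K2 F2 r' := by
    rw [hr', map_mul, cmu_tmul, ← hr, map_one, mul_one, map_inv₀]
    field_simp
  have hall : ∀ δ : Derivation K1 K2 K2, tensorDer δ r' = 0 := by
    intro δ
    obtain ⟨d, hd, hdf⟩ := hD δ
    apply hinj
    rw [← hd, ← hf', hdf, map_zero]
  obtain ⟨a', ha'⟩ := exists_eq_tmul_one_of_tensorDer_eq_zero r' hall
  exact ⟨a', by rw [hf', ha', cmu_tmul, map_one, mul_one]⟩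

end Const

end Fermat.Agent.S27.helper4889
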