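/-
S27, Lefschetz transfer: `helper5871.Stmt_BC_Pic` VERBATIM and UNCONDITIONAL (helper4889).

`stmt_DerConst` discharges the last open input `helper3882.Stmt_DerConst` of the end assembly
`helper3882.bc_pic_of_derConst` by the supply of derivations of `helper4889_ConstDer`
(D1 + D2 + CONST).
-/
import Fermat.Agent.S27.helper3882_BCPic
import Fermat.Agent.S27.helper4889_ConstDer

set_option autoImplicit false

open AlgebraicCurve IntermediateField

namespace Fermat.Agent.S27.helper4889

universe u₁ v₁ u₂ v₂

/-- **DER** (= D1 + D2 + CONST): the common constants of the derivations of a constant field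
extension are the elements of the small function field. -/
theorem stmt_DerConst : helper3882.Stmt_DerConst.{u₁, v₁, u₂, v₂} := by
  intro K1 F1 K2 F2 _ _ _ _ _ _ _ _ _ _ _ _ _ _ _ x hx hfin hx' hfin' hce f hf
  have h197 : helper197.IsConstExt K1 F1 K2 F2 := helper518.isConstExt197_of x hce
  exact mem_range_algebraMap_of_forall_der h197.inj h197.frac f
    (fun d h0 hK => hf d ⟨h0, hK⟩)

/-- **L-BC-PIC**, verbatim and unconditional: under constant field extension of algebraically
closed fields of characteristic zero, `Pic⁰(F1) → Pic⁰(F2)` is injective and onto the torsion. -/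
theorem stmt_BC_Pic : helper5871.Stmt_BC_Pic.{u₁, v₁, u₂, v₂} :=
  helper3882.bc_pic_of_derConst stmt_DerConst

end Fermat.Agent.S27.helper4889
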