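/-
S27 leaf M5b (helper5175): `Stmt_LocalFibre` of `helper6247_Spec`.

Local structure of the fibres of a function `f` ("properness"): given analytic charts centred at
all zeros of `f`, every zero of `f - t`, `t` small, lies in one of the charts, as close to the
centre as we like.

Proof.  Along the chart `(u, Q, r)` at a zero `P = Q 0` of order `e`, write `f = u ^ e * g` with
`g` a unit at `P`; then `ev (Q s) f = s ^ e * G s` with `G` analytic and `G 0 ≠ 0`.  An analytic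
`e`-th root `ψ s = s * c * exp (log (G s / G 0) / e)` has nonzero derivative at `0`, hence is open
at `0`, so for small `t ≠ 0` each of the `e` distinct `e`-th roots of `t` is a value `ψ s`, `s`
small: `e` distinct places `Q s` at which `f - t` vanishes.  Charts at distinct zeros have
disjoint images near their centres (weak approximation gives a function with a zero at one centre
and a nonzero value at the other).  So `f - t` has at least `∑ e = [F : ℂ(f)]` distinct zeros in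
the charts; by the fundamental identity for `f - t` there are no others.
-/
import Mathlib
import Fermat.Agent.S27.helper6247_Spec
import Fermat.Agent.S27.helper1070_Approx
import Fermat.Agent.S24.helper204_Places

set_option autoImplicit false

open AlgebraicCurve IntermediateField
open scoped Topology

namespace Fermat.Agent.S27.helper5175

open Fermat.Agent.S27.helper6247

noncomputable section

/-! ## A Mathlib-only lemma: solutions of `s ^ n * G s = t` near `0` -/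

/-- If `G` is analytic at `0` with `G 0 ≠ 0` and `n ≥ 1`, then for every neighbourhood `N` of `0`
there is `δ > 0` such that for every `t ≠ 0` with `‖t‖ < δ` the equation `s ^ n * G s = t` has
(at least) `n` distinct solutions in `N`. -/
theorem exists_solutions_pow_mul {G : ℂ → ℂ} (hG : AnalyticAt ℂ G 0) (hG0 : G 0 ≠ 0)
    {n : ℕ} (hn : 0 < n) {N : Set ℂ} (hN : N ∈ 𝓝 (0 : ℂ)) :
    ∃ δ : ℝ, 0 < δ ∧ ∀ t : ℂ, t ≠ 0 → ‖t‖ < δ →
      ∃ S : Finset ℂ, S.card = n ∧ ∀ s ∈ S, s ∈ N ∧ s ^ n * G s = t := by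
  have hnC : (n : ℂ) ≠ 0 := by exact_mod_cast hn.ne'
  -- an `n`-th root `c` of `G 0`
  set c : ℂ := G 0 ^ ((n : ℂ)⁻¹) with hc
  have hcn : c ^ n = G 0 := Complex.cpow_nat_inv_pow (G 0) hn.ne'
  have hc0 : c ≠ 0 := by
    intro h
    rw [h, zero_pow hn.ne'] at hcn
    exact hG0 hcn.symm
  -- an analytic `n`-th root `R` of `G / G 0`
  set R : ℂ → ℂ := fun s => Complex.exp (Complex.log (G s / G 0) / n) with hR
  have hRan : AnalyticAt ℂ R 0 := by
    have h1 : AnalyticAt ℂ (fun s => G s / G 0) 0 := hG.div analyticAt_const hG0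
    have h2 : AnalyticAt ℂ (fun s => Complex.log (G s / G 0)) 0 := by
      apply h1.clog
      simp [div_self hG0]
    have h3 : AnalyticAt ℂ (fun s => Complex.log (G s / G 0) / n) 0 :=
      h2.div analyticAt_const hnC
    exact h3.cexp'
  have hR0 : R 0 = 1 := by simp [hR, div_self hG0]
  have hRn : ∀ᶠ s in 𝓝 (0 : ℂ), R s ^ n = G s / G 0 := by
    have hne : ∀ᶠ s in 𝓝 (0 : ℂ), G s ≠ 0 := hG.continuousAt.eventually_ne hG0
    filter_upwards [hne] with s hs
    simp only [hR]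
    rw [← Complex.exp_nat_mul, mul_div_cancel₀ _ hnC]
    exact Complex.exp_log (div_ne_zero hs hG0)
  -- the analytic `n`-th root `ψ` of `s ^ n * G s`
  set ψ : ℂ → ℂ := fun s => s * (c * R s) with hψ
  have hψan : AnalyticAt ℂ ψ 0 := analyticAt_id.mul (analyticAt_const.mul hRan)
  have hψd : HasDerivAt ψ c 0 := by
    have h1 : HasDerivAt (fun s : ℂ => c * R s) (c * deriv R 0) 0 :=
      (hRan.differentiableAt.hasDerivAt).const_mul c
    have h2 := (hasDerivAt_id (0 : ℂ)).mul h1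
    have h3 : (1 : ℂ) * (c * R 0) + id (0 : ℂ) * (c * deriv R 0) = c := by
      rw [hR0]
      simp
    rw [h3] at h2
    exact h2
  have hψs : HasStrictDerivAt ψ c 0 := by
    have h := hψan.hasStrictDerivAt
    rwa [hψd.deriv] at h
  have hψ0 : ψ 0 = 0 := by simp [hψ]
  have hmap : Filter.map ψ (𝓝 0) = 𝓝 (ψ 0) := hψs.map_nhds_eq hc0
  have hN' : {s | s ∈ N ∧ R s ^ n = G s / G 0} ∈ 𝓝 (0 : ℂ) := Filter.inter_mem hN hRn
  have himg : ψ '' {s | s ∈ N ∧ R s ^ n = G s / G 0} ∈ 𝓝 (0 : ℂ) := by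
    have h := Filter.image_mem_map (m := ψ) hN'
    rw [hmap, hψ0] at h
    exact h
  obtain ⟨η, hη, hball⟩ := Metric.mem_nhds_iff.mp himg
  refine ⟨η ^ n, pow_pos hη n, fun t ht0 htη => ?_⟩
  -- an `n`-th root `t0` of `t` and the `n`-th roots of unity
  set t0 : ℂ := t ^ ((n : ℂ)⁻¹) with ht0def
  have ht0n : t0 ^ n = t := Complex.cpow_nat_inv_pow t hn.ne'
  have ht00 : t0 ≠ 0 := by
    intro h
    rw [h, zero_pow hn.ne'] at ht0n
    exact ht0 ht0n.symm
  have ht0η : ‖t0‖ < η := by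
    have h : ‖t0‖ ^ n < η ^ n := by
      rw [← norm_pow, ht0n]
      exact htη
    exact lt_of_pow_lt_pow_left₀ n hη.le h
  set ζ : ℂ := Complex.exp (2 * Real.pi * Complex.I / n) with hζdef
  have hζ : IsPrimitiveRoot ζ n := Complex.isPrimitiveRoot_exp n hn.ne'
  have hζnorm : ‖ζ‖ = 1 := by
    have h1 : ‖ζ‖ ^ n = 1 := by rw [← norm_pow, hζ.pow_eq_one, norm_one]
    exact (pow_eq_one_iff_of_nonneg (norm_nonneg ζ) hn.ne').mp h1
  have hmem : ∀ j : Fin n, t0 * ζ ^ (j : ℕ) ∈ ψ '' {s | s ∈ N ∧ R s ^ n = G s / G 0} := by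
    intro j
    apply hball
    rw [Metric.mem_ball, dist_zero_right, norm_mul, norm_pow, hζnorm, one_pow, mul_one]
    exact ht0η
  choose sol hsol1 hsol2 using hmem
  have hinj : Function.Injective sol := by
    intro i j hij
    have h1 : t0 * ζ ^ (i : ℕ) = t0 * ζ ^ (j : ℕ) := by rw [← hsol2 i, ← hsol2 j, hij]
    have h2 := mul_left_cancel₀ ht00 h1
    exact Fin.ext (hζ.pow_inj i.2 j.2 h2)
  refine ⟨Finset.univ.image sol, ?_, ?_⟩
  · rw [Finset.card_image_of_injective _ hinj, Finset.card_univ, Fintype.card_fin]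
  · intro s hs
    obtain ⟨j, -, rfl⟩ := Finset.mem_image.mp hs
    refine ⟨(hsol1 j).1, ?_⟩
    have h1 : ψ (sol j) ^ n = t := by
      rw [hsol2 j, mul_pow, ht0n, ← pow_mul, mul_comm (j : ℕ) n, pow_mul, hζ.pow_eq_one, one_pow,
        mul_one]
    have h2 : ψ (sol j) ^ n = sol j ^ n * G (sol j) := by
      simp only [hψ, mul_pow, (hsol1 j).2, hcn]
      field_simp
    rw [← h2, h1]

/-- A finite family of positive reals has a positive lower bound. -/
theorem exists_pos_forall_le {ι : Type*} [Fintype ι] (f : ι → ℝ) (hf : ∀ i, 0 < f i) :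
    ∃ ε : ℝ, 0 < ε ∧ ∀ i, ε ≤ f i := by
  rcases isEmpty_or_nonempty ι with h | h
  · exact ⟨1, one_pos, fun i => (h.false i).elim⟩
  · refine ⟨Finset.univ.inf' Finset.univ_nonempty f, ?_,
      fun i => Finset.inf'_le f (Finset.mem_univ i)⟩
    rw [Finset.lt_inf'_iff]
    exact fun i _ => hf i

/-! ## Evaluation along charts -/

section Charts

variable {F : Type} [Field F] [Algebra ℂ F]

/-- The four clauses of `Stmt_Ev` at every place of `F`. -/
def EvSpec (F : Type) [Field F] [Algebra ℂ F] : Prop :=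
  ∀ P : Place ℂ F,
    (∀ c : ℂ, ev P (algebraMap ℂ F c) = c) ∧
    (∀ f g : F, 0 ≤ P.ord f → 0 ≤ P.ord g →
      ev P (f + g) = ev P f + ev P g ∧ ev P (f * g) = ev P f * ev P g) ∧
    (∀ f : F, 0 ≤ P.ord f → (ev P f = 0 ↔ f = 0 ∨ 0 < P.ord f)) ∧
    (∀ (f : F) (c : ℂ), 0 < P.ord (f - algebraMap ℂ F c) → ev P f = c)

theorem evSpec_of_stmt (hEv : Stmt_Ev.{0, 0}) (x : F) (hx : Transcendental ℂ x)
    [FiniteDimensional ℂ⟮x⟯ F] : EvSpec F := fun P => hEv ℂ F x hx P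

theorem ord_nonneg_add (P : Place ℂ F) {a b : F} (ha : 0 ≤ P.ord a) (hb : 0 ≤ P.ord b) :
    0 ≤ P.ord (a + b) :=
  (Fermat.Agent.S24.helper204.ord_nonneg_iff P).mpr
    (add_mem ((Fermat.Agent.S24.helper204.ord_nonneg_iff P).mp ha)
      ((Fermat.Agent.S24.helper204.ord_nonneg_iff P).mp hb))

theorem ord_nonneg_sub (P : Place ℂ F) {a b : F} (ha : 0 ≤ P.ord a) (hb : 0 ≤ P.ord b) :
    0 ≤ P.ord (a - b) :=
  (Fermat.Agent.S24.helper204.ord_nonneg_iff P).mpr
    (sub_mem ((Fermat.Agent.S24.helper204.ord_nonneg_iff P).mp ha)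
      ((Fermat.Agent.S24.helper204.ord_nonneg_iff P).mp hb))

theorem ord_nonneg_mul (P : Place ℂ F) {a b : F} (ha : 0 ≤ P.ord a) (hb : 0 ≤ P.ord b) :
    0 ≤ P.ord (a * b) :=
  (Fermat.Agent.S24.helper204.ord_nonneg_iff P).mpr
    (mul_mem ((Fermat.Agent.S24.helper204.ord_nonneg_iff P).mp ha)
      ((Fermat.Agent.S24.helper204.ord_nonneg_iff P).mp hb))

theorem ord_nonneg_pow (P : Place ℂ F) {a : F} (ha : 0 ≤ P.ord a) (n : ℕ) :
    0 ≤ P.ord (a ^ n) :=
  (Fermat.Agent.S24.helper204.ord_nonneg_iff P).mpr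
    (pow_mem ((Fermat.Agent.S24.helper204.ord_nonneg_iff P).mp ha) n)

theorem ord_nonneg_algebraMap (P : Place ℂ F) (c : ℂ) : 0 ≤ P.ord (algebraMap ℂ F c) :=
  (Fermat.Agent.S24.helper204.ord_algebraMap_eq_zero P c).ge

theorem ev_pow (hev : EvSpec F) (P : Place ℂ F) {a : F} (ha : 0 ≤ P.ord a) (n : ℕ) :
    ev P (a ^ n) = ev P a ^ n := by
  induction n with
  | zero =>
    have h := (hev P).1 1
    simpa using h
  | succ k ih =>
    rw [pow_succ, ((hev P).2.1 (a ^ k) a (ord_nonneg_pow P ha k) ha).2, ih, pow_succ]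

theorem ev_sub_const (hev : EvSpec F) (P : Place ℂ F) {a : F} (ha : 0 ≤ P.ord a) (t : ℂ) :
    ev P (a - algebraMap ℂ F t) = ev P a - t := by
  have h := ((hev P).2.1 a (algebraMap ℂ F (-t)) ha (ord_nonneg_algebraMap P _)).1
  rw [(hev P).1] at h
  rw [sub_eq_add_neg, ← map_neg, h, sub_eq_add_neg]

/-- A regular function taking the value `t` at `P` gives a zero of `f - t` at `P`. -/
theorem ord_sub_pos_of_ev_eq (hev : EvSpec F) {f : F} (hf : Transcendental ℂ f) (P : Place ℂ F)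
    (hP : 0 ≤ P.ord f) {t : ℂ} (ht : ev P f = t) : 0 < P.ord (f - algebraMap ℂ F t) := by
  have hreg : 0 ≤ P.ord (f - algebraMap ℂ F t) := ord_nonneg_sub P hP (ord_nonneg_algebraMap P t)
  have hev0 : ev P (f - algebraMap ℂ F t) = 0 := by rw [ev_sub_const hev P hP, ht, sub_self]
  rcases ((hev P).2.2.1 _ hreg).mp hev0 with h1 | h1
  · exact absurd h1 (Fermat.Agent.S24.helper204.sub_ne_zero_of_transcendental hf t)
  · exact h1

variable {u : F} {Q : ℂ → Place ℂ F} {r : ℝ}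

/-- The coordinate `u` of a chart takes the value `s` at `Q s`. -/
theorem chart_ev_coord (hev : EvSpec F) (h : IsChart u Q r) {s : ℂ}
    (hs : s ∈ Metric.ball (0 : ℂ) r) : ev (Q s) u = s :=
  (hev (Q s)).2.2.2 u s (by rw [h.unif s hs]; exact one_pos)

theorem chart_ord_coord_nonneg (h : IsChart u Q r) {s : ℂ} (hs : s ∈ Metric.ball (0 : ℂ) r) :
    0 ≤ (Q s).ord u := by
  have h1 : 0 ≤ (Q s).ord (u - algebraMap ℂ F s) := by
    rw [h.unif s hs]
    exact zero_le_one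
  have h2 := ord_nonneg_add (Q s) h1 (ord_nonneg_algebraMap (Q s) s)
  simpa using h2

/-- A chart is injective. -/
theorem chart_injOn (hev : EvSpec F) (h : IsChart u Q r) : Set.InjOn Q (Metric.ball (0 : ℂ) r) := by
  intro s hs s' hs' hQ
  rw [← chart_ev_coord hev h hs, ← chart_ev_coord hev h hs', hQ]

/-- Local form of a function along a chart centred at a zero of order `n`:
`ev (Q s) f = s ^ n * G s` with `G` analytic and `G 0 ≠ 0`. -/
theorem chart_local_form (hev : EvSpec F) (h : IsChart u Q r) {f : F} (hf0 : f ≠ 0) {n : ℕ}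
    (hn : (Q 0).ord f = n) :
    ∃ G : ℂ → ℂ, AnalyticAt ℂ G 0 ∧ G 0 ≠ 0 ∧
      ∀ᶠ s in 𝓝 (0 : ℂ), 0 ≤ (Q s).ord f ∧ ev (Q s) f = s ^ n * G s := by
  have h0 : (0 : ℂ) ∈ Metric.ball (0 : ℂ) r := Metric.mem_ball_self h.pos
  have hu1 : (Q 0).ord u = 1 := by
    have h1 := h.unif 0 h0
    simpa using h1
  have hu0 : u ≠ 0 := by
    rintro rfl
    simp at hu1
  have hun0 : u ^ n ≠ 0 := pow_ne_zero n hu0
  obtain ⟨g, hg⟩ : ∃ g : F, g = f * (u ^ n)⁻¹ := ⟨_, rfl⟩
  have hg0 : g ≠ 0 := by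
    rw [hg]
    exact mul_ne_zero hf0 (inv_ne_zero hun0)
  have hfg : f = u ^ n * g := by
    rw [hg]
    field_simp
  have hgord : (Q 0).ord g = 0 := by
    rw [hg, (Q 0).ord_mul hf0 (inv_ne_zero hun0), (Q 0).ord_inv,
      Fermat.Agent.S27.helper1070.ord_pow, hu1, hn]
    ring
  obtain ⟨hgev, hgan⟩ := h.analytic g 0 h0 hgord.ge
  refine ⟨fun s => ev (Q s) g, hgan, ?_, ?_⟩
  · intro hz
    rcases ((hev (Q 0)).2.2.1 g hgord.ge).mp hz with h1 | h1
    · exact hg0 h1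
    · rw [hgord] at h1
      exact lt_irrefl _ h1
  · filter_upwards [hgev, Metric.ball_mem_nhds (0 : ℂ) h.pos] with s hs1 hs2
    have hur := chart_ord_coord_nonneg h hs2
    have hunr := ord_nonneg_pow (Q s) hur n
    constructor
    · rw [hfg]
      exact ord_nonneg_mul (Q s) hunr hs1
    · rw [hfg, ((hev (Q s)).2.1 (u ^ n) g hunr hs1).2, ev_pow hev (Q s) hur n,
        chart_ev_coord hev h hs2]

/-- Charts centred at distinct places have disjoint images near their centres. -/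
theorem chart_separation (hev : EvSpec F) {u' : F} {Q' : ℂ → Place ℂ F} {r' : ℝ}
    (h : IsChart u Q r) (h' : IsChart u' Q' r') (hne : Q 0 ≠ Q' 0) :
    ∃ ε : ℝ, 0 < ε ∧ ∀ s s' : ℂ, ‖s‖ < ε → ‖s'‖ < ε → Q s ≠ Q' s' := by
  classical
  obtain ⟨w, hw0, hw⟩ := Fermat.Agent.S27.helper1070.exists_ord_eq
    ({Q 0, Q' 0} : Finset (Place ℂ F)) (fun v => if v = Q 0 then 1 else 0)
  have hw1 : (Q 0).ord w = 1 := by
    have h1 := hw (Q 0) (by simp)
    simpa using h1
  have hw2 : (Q' 0).ord w = 0 := by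
    have h1 := hw (Q' 0) (by simp)
    rw [if_neg (Ne.symm hne)] at h1
    exact h1
  have h0 : (0 : ℂ) ∈ Metric.ball (0 : ℂ) r := Metric.mem_ball_self h.pos
  have h0' : (0 : ℂ) ∈ Metric.ball (0 : ℂ) r' := Metric.mem_ball_self h'.pos
  have hw1' : 0 ≤ (Q 0).ord w := by
    rw [hw1]
    exact zero_le_one
  obtain ⟨-, hA⟩ := h.analytic w 0 h0 hw1'
  obtain ⟨-, hB⟩ := h'.analytic w 0 h0' hw2.ge
  have hA0 : ev (Q 0) w = 0 :=
    ((hev (Q 0)).2.2.1 w hw1').mpr (Or.inr (by rw [hw1]; exact one_pos))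
  have hB0 : ev (Q' 0) w ≠ 0 := by
    intro hz
    rcases ((hev (Q' 0)).2.2.1 w hw2.ge).mp hz with h1 | h1
    · exact hw0 h1
    · rw [hw2] at h1
      exact lt_irrefl _ h1
  obtain ⟨b, hb⟩ : ∃ b : ℝ, b = ‖ev (Q' 0) w‖ := ⟨_, rfl⟩
  have hbpos : 0 < b := by
    rw [hb]
    exact norm_pos_iff.mpr hB0
  have hAc : ∀ᶠ s in 𝓝 (0 : ℂ), ‖ev (Q s) w‖ < b / 2 := by
    have h1 : ContinuousAt (fun s => ‖ev (Q s) w‖) 0 := hA.continuousAt.norm
    have h2 : ‖ev (Q 0) w‖ < b / 2 := by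
      rw [hA0, norm_zero]
      positivity
    exact h1.eventually_lt continuousAt_const h2
  have hBc : ∀ᶠ s in 𝓝 (0 : ℂ), b / 2 < ‖ev (Q' s) w‖ := by
    have h1 : ContinuousAt (fun s => ‖ev (Q' s) w‖) 0 := hB.continuousAt.norm
    have h2 : b / 2 < ‖ev (Q' 0) w‖ := by
      rw [← hb]
      linarith
    exact continuousAt_const.eventually_lt h1 h2
  obtain ⟨ε1, hε1, h1⟩ := Metric.eventually_nhds_iff.mp hAc
  obtain ⟨ε2, hε2, h2⟩ := Metric.eventually_nhds_iff.mp hBc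
  refine ⟨min ε1 ε2, lt_min hε1 hε2, fun s s' hs hs' hQ => ?_⟩
  have e1 := h1 (y := s) (by rw [dist_zero_right]; exact lt_of_lt_of_le hs (min_le_left _ _))
  have e2 := h2 (y := s') (by rw [dist_zero_right]; exact lt_of_lt_of_le hs' (min_le_right _ _))
  rw [hQ] at e1
  exact lt_irrefl _ (e1.trans e2)

end Charts

/-! ## The local fibre theorem -/

section Main

variable {F : Type} [Field F] [Algebra ℂ F]

/-- `Stmt_LocalFibre` for one function field, from the evaluation interface. -/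
theorem localFibre_core (hev : EvSpec F) (x : F) [FiniteDimensional ℂ⟮x⟯ F]
    (f : F) (hf : Transcendental ℂ f) (m : ℕ) (u : Fin m → F) (Q : Fin m → ℂ → Place ℂ F)
    (r ρ : Fin m → ℝ) (hch : ∀ k, IsChart (u k) (Q k) (r k)) (hρ : ∀ k, 0 < ρ k)
    (hz : ∀ v : Place ℂ F, 0 < v.ord f → ∃ k, v = Q k 0) :
    ∃ δ > 0, ∀ t : ℂ, ‖t‖ < δ → ∀ v : Place ℂ F, 0 < v.ord (f - algebraMap ℂ F t) →
      ∃ k s, ‖s‖ < ρ k ∧ ‖s‖ < r k ∧ v = Q k s := by
  classical
  have : FiniteDimensional ℂ⟮f⟯ F :=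
    Fermat.Agent.S24.helper204.finiteDimensional_adjoin_of_transcendental (x := x) hf
  have hfund : ∀ t : ℂ, ∃ s : Finset (Place ℂ F),
      (∀ v, v ∈ s ↔ 0 < v.ord (f - algebraMap ℂ F t)) ∧
      ∑ v ∈ s, v.ord (f - algebraMap ℂ F t) = Module.finrank ℂ⟮f⟯ F :=
    fun t => Fermat.Agent.S24.helper204.exists_finset_zeros hf t
  obtain ⟨Z, hZ1, hZ2⟩ := hfund 0
  simp only [map_zero, sub_zero] at hZ1 hZ2
  have hf0 : f ≠ 0 := by
    rintro rfl
    exact hf isAlgebraic_zero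
  -- a chart at each zero of `f`
  have hzZ : ∀ v : Z, ∃ k, (v : Place ℂ F) = Q k 0 := fun v => hz v ((hZ1 v).mp v.2)
  choose kz hkz using hzZ
  have hordpos : ∀ v : Z, 0 < (v : Place ℂ F).ord f := fun v => (hZ1 v).mp v.2
  obtain ⟨nz, hnz⟩ : ∃ nz : Z → ℕ, ∀ v : Z, (v : Place ℂ F).ord f = nz v :=
    ⟨fun v => ((v : Place ℂ F).ord f).toNat, fun v => (Int.toNat_of_nonneg (hordpos v).le).symm⟩
  have hnzpos : ∀ v : Z, 0 < nz v := by
    intro v
    have h1 := hordpos v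
    rw [hnz v] at h1
    exact_mod_cast h1
  -- local forms
  have hloc : ∀ v : Z, ∃ G : ℂ → ℂ, AnalyticAt ℂ G 0 ∧ G 0 ≠ 0 ∧
      ∀ᶠ s in 𝓝 (0 : ℂ), 0 ≤ (Q (kz v) s).ord f ∧ ev (Q (kz v) s) f = s ^ nz v * G s :=
    fun v => chart_local_form hev (hch (kz v)) hf0 (by rw [← hkz v]; exact hnz v)
  choose G hGan hG0 hGev using hloc
  -- separation of the charts at distinct zeros
  have hsep : ∀ p : Z × Z, ∃ ε : ℝ, 0 < ε ∧
      (p.1 ≠ p.2 → ∀ s s' : ℂ, ‖s‖ < ε → ‖s'‖ < ε → Q (kz p.1) s ≠ Q (kz p.2) s') := by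
    intro p
    by_cases hp : p.1 = p.2
    · exact ⟨1, one_pos, fun h => absurd hp h⟩
    · have hne : Q (kz p.1) 0 ≠ Q (kz p.2) 0 := by
        rw [← hkz p.1, ← hkz p.2]
        exact fun h => hp (Subtype.ext h)
      obtain ⟨ε, hε, h⟩ := chart_separation hev (hch (kz p.1)) (hch (kz p.2)) hne
      exact ⟨ε, hε, fun _ => h⟩
  choose εp hεp hεsep using hsep
  obtain ⟨ε0, hε0, hε0le⟩ := exists_pos_forall_le εp hεp
  -- the good neighbourhoods
  obtain ⟨N, hN⟩ : ∃ N : Z → Set ℂ, ∀ v : Z, N v = {s | ‖s‖ < ρ (kz v) ∧ ‖s‖ < r (kz v) ∧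
      ‖s‖ < ε0 ∧ 0 ≤ (Q (kz v) s).ord f ∧ ev (Q (kz v) s) f = s ^ nz v * G v s} :=
    ⟨_, fun _ => rfl⟩
  have hball : ∀ a : ℝ, 0 < a → ∀ᶠ s in 𝓝 (0 : ℂ), ‖s‖ < a := by
    intro a ha
    filter_upwards [Metric.ball_mem_nhds (0 : ℂ) ha] with s hs
    simpa [Metric.mem_ball, dist_zero_right] using hs
  have hNmem : ∀ v : Z, N v ∈ 𝓝 (0 : ℂ) := by
    intro v
    rw [hN v]
    filter_upwards [hball _ (hρ (kz v)), hball _ (hch (kz v)).pos, hball _ hε0, hGev v]
      with s a b c d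
    exact ⟨a, b, c, d.1, d.2⟩
  have hδ : ∀ v : Z, ∃ δ : ℝ, 0 < δ ∧ ∀ t : ℂ, t ≠ 0 → ‖t‖ < δ →
      ∃ S : Finset ℂ, S.card = nz v ∧ ∀ s ∈ S, s ∈ N v ∧ s ^ nz v * G v s = t :=
    fun v => exists_solutions_pow_mul (hGan v) (hG0 v) (hnzpos v) (hNmem v)
  choose δv hδv hsolv using hδ
  obtain ⟨δ, hδpos, hδle⟩ := exists_pos_forall_le δv hδv
  refine ⟨δ, hδpos, fun t ht v hv => ?_⟩
  by_cases ht0 : t = 0
  · subst ht0
    rw [map_zero, sub_zero] at hv
    obtain ⟨k, hk⟩ := hz v hv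
    exact ⟨k, 0, by simpa using hρ k, by simpa using (hch k).pos, hk⟩
  · have hS : ∀ w : Z, ∃ S : Finset ℂ, S.card = nz w ∧
        ∀ s ∈ S, s ∈ N w ∧ s ^ nz w * G w s = t :=
      fun w => hsolv w t ht0 (lt_of_lt_of_le ht (hδle w))
    choose S hScard hSmem using hS
    have hSN : ∀ w : Z, ∀ s ∈ S w, ‖s‖ < ρ (kz w) ∧ ‖s‖ < r (kz w) ∧
        ‖s‖ < ε0 ∧ 0 ≤ (Q (kz w) s).ord f ∧ ev (Q (kz w) s) f = s ^ nz w * G w s := by
      intro w s hs
      have h1 := (hSmem w s hs).1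
      rw [hN w] at h1
      exact h1
    obtain ⟨Zt, hZt1, hZt2⟩ := hfund t
    obtain ⟨T, hT⟩ : ∃ T : Finset (Place ℂ F),
        T = Finset.univ.biUnion (fun w : Z => (S w).image (Q (kz w))) := ⟨_, rfl⟩
    have hTsub : T ⊆ Zt := by
      intro P hP
      rw [hT] at hP
      obtain ⟨w, -, hP⟩ := Finset.mem_biUnion.mp hP
      obtain ⟨s, hs, rfl⟩ := Finset.mem_image.mp hP
      have h1 := hSN w s hs
      rw [hZt1]
      exact ord_sub_pos_of_ev_eq hev hf _ h1.2.2.2.1 (h1.2.2.2.2.trans (hSmem w s hs).2)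
    have hTcard : T.card = ∑ w : Z, nz w := by
      rw [hT, Finset.card_biUnion]
      · apply Finset.sum_congr rfl
        intro w _
        rw [Finset.card_image_of_injOn, hScard w]
        intro s hs s' hs' hQ
        have h1 := hSN w s hs
        have h1' := hSN w s' hs'
        exact chart_injOn hev (hch (kz w))
          (by rw [Metric.mem_ball, dist_zero_right]; exact h1.2.1)
          (by rw [Metric.mem_ball, dist_zero_right]; exact h1'.2.1) hQ
      · intro w _ w' _ hww'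
        show Disjoint ((S w).image (Q (kz w))) ((S w').image (Q (kz w')))
        rw [Finset.disjoint_left]
        intro P hP hP'
        obtain ⟨s, hs, rfl⟩ := Finset.mem_image.mp hP
        obtain ⟨s', hs', hQ⟩ := Finset.mem_image.mp hP'
        have h1 := hSN w s hs
        have h1' := hSN w' s' hs'
        exact hεsep (w, w') hww' s s' (lt_of_lt_of_le h1.2.2.1 (hε0le (w, w')))
          (lt_of_lt_of_le h1'.2.2.1 (hε0le (w, w'))) hQ.symm
    have hsum : ((∑ w : Z, nz w : ℕ) : ℤ) = Module.finrank ℂ⟮f⟯ F := by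
      rw [← hZ2, Nat.cast_sum, ← Finset.sum_coe_sort Z (fun v => v.ord f)]
      exact Finset.sum_congr rfl (fun w _ => (hnz w).symm)
    have hZtcard : (Zt.card : ℤ) ≤ Module.finrank ℂ⟮f⟯ F := by
      rw [← hZt2]
      have h1 : ∀ P ∈ Zt, (1 : ℤ) ≤ P.ord (f - algebraMap ℂ F t) := fun P hP => (hZt1 P).mp hP
      calc (Zt.card : ℤ) = ∑ P ∈ Zt, (1 : ℤ) := by simp
        _ ≤ _ := Finset.sum_le_sum h1
    have hle : Zt.card ≤ T.card := by
      have h1 : (Zt.card : ℤ) ≤ (T.card : ℤ) := by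
        rw [hTcard, hsum]
        exact hZtcard
      exact_mod_cast h1
    have hEq : T = Zt := Finset.eq_of_subset_of_card_le hTsub hle
    have hvT : v ∈ T := by
      rw [hEq, hZt1]
      exact hv
    rw [hT] at hvT
    obtain ⟨w, -, hP⟩ := Finset.mem_biUnion.mp hvT
    obtain ⟨s, hs, rfl⟩ := Finset.mem_image.mp hP
    have h1 := hSN w s hs
    exact ⟨kz w, s, h1.1, h1.2.1, rfl⟩

/-- **M5b** of `helper6247_Spec`: local structure of fibres. -/
theorem localFibre (hEv : Stmt_Ev.{0, 0}) : Stmt_LocalFibre := by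
  intro F _ _ x hx _ f hf m u Q r ρ hch hρ hz
  exact localFibre_core (evSpec_of_stmt hEv x hx) x f hf m u Q r ρ hch hρ hz

end Main

end

end Fermat.Agent.S27.helper5175
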