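import Mathlib

/-!
# S27-LOG: the Koenigs logarithm of a local analytic group chunk

Mathlib-only.  `V` is a complex Banach space, `P` an abstract additive commutative group.
Given a map `m : V × V → V` which is `C²` (over `ℂ`) at `(0, 0)` with `m (a, 0) = a`,
`m (0, b) = b` near `0`, and an injective map `ψ : V → P` (near `0`) with
`ψ (m (a, b)) = ψ a + ψ b`, we construct additive coordinates:
a holomorphic `L = lim 2^k • η^[k]` (`η` the local inverse of `a ↦ m (a, a)`), a bijection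
from an open neighbourhood `U` of `0` onto a ball, with `L (m (a, b)) = L a + L b`, and
`φ = ψ ∘ L⁻¹` additive and injective on that ball.
-/

set_option linter.unusedSectionVars false

namespace Fermat.Agent.S27.helper5501

open Metric Set Filter Topology

section QuadLip

variable {E F : Type*} [NormedAddCommGroup E] [NormedSpace ℂ E]
  [NormedAddCommGroup F] [NormedSpace ℂ F]

/-- A `C²` map with vanishing derivative at `0` is "quadratically Lipschitz" near `0`. -/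
theorem exists_quad_lipschitz {h : E → F} (hh : ContDiffAt ℂ 2 h 0) (hd : fderiv ℂ h 0 = 0) :
    ∃ K : ℝ, 0 ≤ K ∧ ∃ r : ℝ, 0 < r ∧ (∀ x, ‖x‖ < r → DifferentiableAt ℂ h x) ∧
      ∀ x y, ‖x‖ < r → ‖y‖ < r → ‖h x - h y‖ ≤ K * max ‖x‖ ‖y‖ * ‖x - y‖ := by
  have h1 : ContDiffAt ℂ 1 (fderiv ℂ h) 0 := hh.fderiv_right (by norm_num)
  obtain ⟨K, t, ht, hK⟩ := h1.exists_lipschitzOnWith
  have hdiff : ∀ᶠ x in 𝓝 (0 : E), DifferentiableAt ℂ h x := by
    filter_upwards [hh.eventually (by simp)] with x hx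
    exact hx.differentiableAt (by norm_num)
  obtain ⟨r, hr, hsub⟩ := Metric.mem_nhds_iff.1 (Filter.inter_mem ht hdiff)
  refine ⟨K, K.coe_nonneg, r, hr, fun x hx => ?_, fun x y hx hy => ?_⟩
  · exact (hsub (by simpa using hx)).2
  · set R := max ‖x‖ ‖y‖ with hR
    have hRr : R < r := max_lt hx hy
    have hball : closedBall (0 : E) R ⊆ ball 0 r := closedBall_subset_ball hRr
    have hbound : ∀ z ∈ closedBall (0 : E) R, ‖fderiv ℂ h z‖ ≤ K * R := by
      intro z hz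
      have hz' := (hsub (hball hz)).1
      have h0 := (hsub (mem_ball_self hr)).1
      have := hK.norm_sub_le hz' h0
      rw [hd, sub_zero, sub_zero] at this
      refine this.trans ?_
      have : ‖z‖ ≤ R := by simpa using hz
      gcongr
    have key := (convex_closedBall (0 : E) R).norm_image_sub_le_of_norm_fderiv_le
      (𝕜 := ℂ) (f := h) (fun z hz => (hsub (hball hz)).2) hbound
      (show y ∈ closedBall (0 : E) R by simp [hR])
      (show x ∈ closedBall (0 : E) R by simp [hR])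
    exact key

end QuadLip

section Iterate

variable {V : Type*} [NormedAddCommGroup V] [NormedSpace ℂ V] [CompleteSpace V]

/-- The comparison constants `c k = (2 - 2^{-k}) 2^{-k}`. -/
noncomputable def kc (k : ℕ) : ℝ := (2 - (1 / 2 : ℝ) ^ k) * (1 / 2 : ℝ) ^ k

theorem kc_zero : kc 0 = 1 := by simp [kc]; norm_num

theorem kc_nonneg (k : ℕ) : 0 ≤ kc k := by
  have h1 : (1 / 2 : ℝ) ^ k ≤ 1 := pow_le_one₀ (by norm_num) (by norm_num)
  have h2 : (0 : ℝ) < (1 / 2 : ℝ) ^ k := by positivity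
  unfold kc
  nlinarith

theorem kc_le_one (k : ℕ) : kc k ≤ 1 := by
  have h2 : (0 : ℝ) < (1 / 2 : ℝ) ^ k := by positivity
  unfold kc
  nlinarith [sq_nonneg ((1 / 2 : ℝ) ^ k - 1)]

theorem kc_le (k : ℕ) : kc k ≤ 2 * (1 / 2 : ℝ) ^ k := by
  have h2 : (0 : ℝ) < (1 / 2 : ℝ) ^ k := by positivity
  unfold kc
  nlinarith

theorem kc_succ_ge {t : ℝ} (ht : t ≤ 1 / 16) (k : ℕ) :
    (t * kc k + 1 / 2) * kc k ≤ kc (k + 1) := by
  have h1 : (1 / 2 : ℝ) ^ k ≤ 1 := pow_le_one₀ (by norm_num) (by norm_num)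
  have h2 : (0 : ℝ) < (1 / 2 : ℝ) ^ k := by positivity
  have hc := kc_nonneg k
  have hstep : (t * kc k + 1 / 2) * kc k ≤ (1 / 16 * kc k + 1 / 2) * kc k := by
    gcongr
  refine hstep.trans ?_
  unfold kc
  rw [pow_succ]
  set a := (1 / 2 : ℝ) ^ k with ha
  have h3 : 0 ≤ a ^ 3 * (4 - a) := mul_nonneg (by positivity) (by linarith)
  nlinarith [h3]

/-- Hypotheses on the "halving map" `η`. -/
structure Halving (η : V → V) (ρ K : ℝ) : Prop where
  pos : 0 < ρ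
  nonneg : 0 ≤ K
  small : K * ρ ≤ 1 / 32
  zero : η 0 = 0
  lip : ∀ x y, ‖x‖ < ρ → ‖y‖ < ρ →
    ‖(η x - (2 : ℂ)⁻¹ • x) - (η y - (2 : ℂ)⁻¹ • y)‖ ≤ K * max ‖x‖ ‖y‖ * ‖x - y‖

namespace Halving

variable {η : V → V} {ρ K : ℝ}

theorem iterate_zero (H : Halving η ρ K) (k : ℕ) : η^[k] 0 = 0 :=
  Function.iterate_fixed H.zero k

theorem step (H : Halving η ρ K) {x y : V} (hx : ‖x‖ < ρ) (hy : ‖y‖ < ρ) :
    ‖η x - η y‖ ≤ (K * max ‖x‖ ‖y‖ + 1 / 2) * ‖x - y‖ := by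
  have h1 := H.lip x y hx hy
  have h2 : η x - η y = ((η x - (2 : ℂ)⁻¹ • x) - (η y - (2 : ℂ)⁻¹ • y)) + (2 : ℂ)⁻¹ • (x - y) := by
    rw [smul_sub]; abel
  have h3 : ‖(2 : ℂ)⁻¹ • (x - y)‖ = 1 / 2 * ‖x - y‖ := by
    rw [norm_smul]; simp
  calc ‖η x - η y‖ ≤ ‖(η x - (2 : ℂ)⁻¹ • x) - (η y - (2 : ℂ)⁻¹ • y)‖ + ‖(2 : ℂ)⁻¹ • (x - y)‖ := by
        rw [h2]; exact norm_add_le _ _
    _ ≤ K * max ‖x‖ ‖y‖ * ‖x - y‖ + 1 / 2 * ‖x - y‖ := by rw [h3]; gcongr
    _ = _ := by ring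

theorem iterate_lip (H : Halving η ρ K) (k : ℕ) :
    ∀ x y : V, ‖x‖ < ρ → ‖y‖ < ρ → ‖η^[k] x - η^[k] y‖ ≤ kc k * ‖x - y‖ := by
  induction k with
  | zero => intro x y _ _; simp [kc_zero]
  | succ k ih =>
    intro x y hx hy
    have hx0 : ‖η^[k] x‖ ≤ kc k * ‖x‖ := by
      have := ih x 0 hx (by simpa using H.pos)
      simpa [H.iterate_zero] using this
    have hy0 : ‖η^[k] y‖ ≤ kc k * ‖y‖ := by
      have := ih y 0 hy (by simpa using H.pos)
      simpa [H.iterate_zero] using this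
    have hc := kc_nonneg k
    have hc1 := kc_le_one k
    have hxρ : ‖η^[k] x‖ < ρ := lt_of_le_of_lt (hx0.trans (by nlinarith [norm_nonneg x])) hx
    have hyρ : ‖η^[k] y‖ < ρ := lt_of_le_of_lt (hy0.trans (by nlinarith [norm_nonneg y])) hy
    have hmax : max ‖η^[k] x‖ ‖η^[k] y‖ ≤ kc k * ρ :=
      max_le (hx0.trans (by gcongr)) (hy0.trans (by gcongr))
    rw [Function.iterate_succ_apply', Function.iterate_succ_apply']
    have h1 := H.step hxρ hyρ
    have h2 := ih x y hx hy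
    have hK := H.nonneg
    have hKρ : K * ρ ≤ 1 / 16 := H.small.trans (by norm_num)
    have hKρ0 : 0 ≤ K * ρ := mul_nonneg hK H.pos.le
    have hpos : 0 ≤ K * (kc k * ρ) + 1 / 2 := by
      have := mul_nonneg hK (mul_nonneg hc H.pos.le); linarith
    calc ‖η (η^[k] x) - η (η^[k] y)‖
        ≤ (K * max ‖η^[k] x‖ ‖η^[k] y‖ + 1 / 2) * ‖η^[k] x - η^[k] y‖ := h1
      _ ≤ (K * (kc k * ρ) + 1 / 2) * (kc k * ‖x - y‖) := by gcongr
      _ = ((K * ρ) * kc k + 1 / 2) * kc k * ‖x - y‖ := by ring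
      _ ≤ kc (k + 1) * ‖x - y‖ := by
        gcongr
        exact kc_succ_ge hKρ k

theorem iterate_norm_le (H : Halving η ρ K) (k : ℕ) {x : V} (hx : ‖x‖ < ρ) :
    ‖η^[k] x‖ ≤ kc k * ‖x‖ := by
  have := H.iterate_lip k x 0 hx (by simpa using H.pos)
  simpa [H.iterate_zero] using this

theorem iterate_norm_lt (H : Halving η ρ K) (k : ℕ) {x : V} {s : ℝ} (hs : s ≤ ρ) (hx : ‖x‖ < s) :
    ‖η^[k] x‖ < s := by
  have h1 := H.iterate_norm_le k (lt_of_lt_of_le hx hs)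
  have h2 := kc_le_one k
  exact lt_of_le_of_lt (h1.trans (by nlinarith [norm_nonneg x])) hx

/-- The increments `2^(k+1) • (η (η^[k] x) - η^[k] x / 2)` of the Koenigs sequence. -/
noncomputable def kd (η : V → V) (k : ℕ) (x : V) : V :=
  (2 : ℂ) ^ (k + 1) • (η (η^[k] x) - (2 : ℂ)⁻¹ • η^[k] x)

/-- The Koenigs limit `lim 2^k • η^[k] x`, written as a series. -/
noncomputable def klog (η : V → V) (x : V) : V := x + ∑' k, kd η k x

theorem kd_zero (H : Halving η ρ K) (k : ℕ) : kd η k 0 = 0 := by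
  simp [kd, H.iterate_zero, H.zero]

theorem kd_lip (H : Halving η ρ K) (k : ℕ) {x y : V} (hx : ‖x‖ < ρ) (hy : ‖y‖ < ρ) :
    ‖kd η k x - kd η k y‖ ≤ 8 * K * max ‖x‖ ‖y‖ * ‖x - y‖ * (1 / 2 : ℝ) ^ k := by
  have hx0 := H.iterate_norm_le k hx
  have hy0 := H.iterate_norm_le k hy
  have hxρ := H.iterate_norm_lt k le_rfl hx
  have hyρ := H.iterate_norm_lt k le_rfl hy
  have hl := H.iterate_lip k x y hx hy
  have hc := kc_nonneg k
  have hc2 := kc_le k
  have hK := H.nonneg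
  set M := max ‖x‖ ‖y‖ with hM
  have hM0 : 0 ≤ M := le_max_of_le_left (norm_nonneg x)
  have hmax : max ‖η^[k] x‖ ‖η^[k] y‖ ≤ kc k * M :=
    max_le (hx0.trans (by gcongr; exact le_max_left _ _))
      (hy0.trans (by gcongr; exact le_max_right _ _))
  have h1 := H.lip _ _ hxρ hyρ
  have hEq : kd η k x - kd η k y = (2 : ℂ) ^ (k + 1) •
      ((η (η^[k] x) - (2 : ℂ)⁻¹ • η^[k] x) - (η (η^[k] y) - (2 : ℂ)⁻¹ • η^[k] y)) := by
    simp only [kd, smul_sub]
  have hn : ‖((2 : ℂ) ^ (k + 1))‖ = 2 * (2 : ℝ) ^ k := by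
    rw [norm_pow, Complex.norm_ofNat, pow_succ]; ring
  have hab : (2 : ℝ) ^ k * (1 / 2 : ℝ) ^ k = 1 := by rw [← mul_pow]; norm_num
  have ha : (0 : ℝ) < (1 / 2 : ℝ) ^ k := by positivity
  have hb : (0 : ℝ) < (2 : ℝ) ^ k := by positivity
  rw [hEq, norm_smul, hn]
  calc 2 * (2 : ℝ) ^ k * ‖(η (η^[k] x) - (2 : ℂ)⁻¹ • η^[k] x) - (η (η^[k] y) - (2 : ℂ)⁻¹ • η^[k] y)‖
      ≤ 2 * (2 : ℝ) ^ k * (K * max ‖η^[k] x‖ ‖η^[k] y‖ * ‖η^[k] x - η^[k] y‖) := by gcongr
    _ ≤ 2 * (2 : ℝ) ^ k * (K * (kc k * M) * (kc k * ‖x - y‖)) := by gcongr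
    _ ≤ 2 * (2 : ℝ) ^ k * (K * ((2 * (1 / 2 : ℝ) ^ k) * M) * ((2 * (1 / 2 : ℝ) ^ k) * ‖x - y‖)) := by
        gcongr
    _ = 8 * K * M * ‖x - y‖ * (1 / 2 : ℝ) ^ k * ((2 : ℝ) ^ k * (1 / 2 : ℝ) ^ k) := by ring
    _ = 8 * K * M * ‖x - y‖ * (1 / 2 : ℝ) ^ k := by rw [hab, mul_one]

theorem kd_norm_le (H : Halving η ρ K) (k : ℕ) {x : V} (hx : ‖x‖ < ρ) :
    ‖kd η k x‖ ≤ 8 * K * ‖x‖ * ‖x‖ * (1 / 2 : ℝ) ^ k := by
  have := H.kd_lip k hx (show ‖(0 : V)‖ < ρ by simpa using H.pos)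
  simpa [H.kd_zero] using this

theorem kd_summable (H : Halving η ρ K) {x : V} (hx : ‖x‖ < ρ) : Summable fun k => kd η k x :=
  Summable.of_norm_bounded (summable_geometric_two.mul_left (8 * K * ‖x‖ * ‖x‖))
    fun k => H.kd_norm_le k hx

theorem add_sum_kd (η : V → V) (x : V) (n : ℕ) :
    x + ∑ k ∈ Finset.range n, kd η k x = (2 : ℂ) ^ n • η^[n] x := by
  induction n with
  | zero => simp
  | succ n ih =>
    rw [Finset.sum_range_succ, ← add_assoc, ih, kd, Function.iterate_succ_apply', smul_sub,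
      smul_smul]
    have : (2 : ℂ) ^ (n + 1) * (2 : ℂ)⁻¹ = (2 : ℂ) ^ n := by
      rw [pow_succ, mul_assoc, mul_inv_cancel₀ (two_ne_zero), mul_one]
    rw [this]; abel

theorem tendsto_klog (H : Halving η ρ K) {x : V} (hx : ‖x‖ < ρ) :
    Tendsto (fun n => (2 : ℂ) ^ n • η^[n] x) atTop (𝓝 (klog η x)) := by
  have h1 := (H.kd_summable hx).hasSum.tendsto_sum_nat
  have h2 : Tendsto (fun n => x + ∑ k ∈ Finset.range n, kd η k x) atTop (𝓝 (klog η x)) :=
    tendsto_const_nhds.add h1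
  simpa only [add_sum_kd] using h2

theorem klog_zero (H : Halving η ρ K) : klog η 0 = 0 := by
  simp [klog, H.kd_zero]

theorem klog_lip (H : Halving η ρ K) {x y : V} (hx : ‖x‖ < ρ) (hy : ‖y‖ < ρ) :
    ‖(klog η x - x) - (klog η y - y)‖ ≤ 16 * K * max ‖x‖ ‖y‖ * ‖x - y‖ := by
  have hEq : (klog η x - x) - (klog η y - y) = ∑' k, (kd η k x - kd η k y) := by
    rw [(H.kd_summable hx).tsum_sub (H.kd_summable hy)]
    simp [klog]
  rw [hEq]
  have hg : HasSum (fun k : ℕ => 8 * K * max ‖x‖ ‖y‖ * ‖x - y‖ * (1 / 2 : ℝ) ^ k)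
      (8 * K * max ‖x‖ ‖y‖ * ‖x - y‖ * 2) := hasSum_geometric_two.mul_left _
  have := tsum_of_norm_bounded hg (fun k => H.kd_lip k hx hy)
  linarith

theorem klog_sub_le (H : Halving η ρ K) {x y : V} (hx : ‖x‖ < ρ) (hy : ‖y‖ < ρ) :
    ‖(klog η x - x) - (klog η y - y)‖ ≤ 1 / 2 * ‖x - y‖ := by
  refine (H.klog_lip hx hy).trans ?_
  have h1 : max ‖x‖ ‖y‖ ≤ ρ := max_le hx.le hy.le
  have h2 : 16 * K * max ‖x‖ ‖y‖ ≤ 1 / 2 := by
    have := mul_le_mul_of_nonneg_left h1 H.nonneg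
    have := H.small
    linarith
  gcongr

theorem klog_injOn (H : Halving η ρ K) : InjOn (klog η) (ball 0 ρ) := by
  intro x hx y hy hxy
  have hx' : ‖x‖ < ρ := by simpa using hx
  have hy' : ‖y‖ < ρ := by simpa using hy
  have h := H.klog_sub_le hx' hy'
  rw [hxy] at h
  have h2 : (klog η y - x) - (klog η y - y) = -(x - y) := by abel
  rw [h2, norm_neg] at h
  have h3 : ‖x - y‖ ≤ 0 := by linarith
  exact sub_eq_zero.1 (norm_le_zero_iff.1 h3)

theorem klog_norm_le (H : Halving η ρ K) {x : V} (hx : ‖x‖ < ρ) : ‖klog η x‖ ≤ 3 / 2 * ‖x‖ := by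
  have h := H.klog_sub_le hx (show ‖(0 : V)‖ < ρ by simpa using H.pos)
  rw [H.klog_zero] at h
  simp only [sub_zero] at h
  have h2 : ‖klog η x‖ ≤ ‖klog η x - x‖ + ‖x‖ := by
    simpa using norm_add_le (klog η x - x) x
  linarith

theorem mapsTo (H : Halving η ρ K) {s : ℝ} (hs : s ≤ ρ) : MapsTo η (ball 0 s) (ball 0 s) := by
  intro x hx
  have hx' : ‖x‖ < s := by simpa using hx
  have := H.iterate_norm_lt 1 hs hx'
  simpa using this

theorem klog_differentiableOn (H : Halving η ρ K) (hη : DifferentiableOn ℂ η (ball 0 ρ)) :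
    DifferentiableOn ℂ (klog η) (ball 0 ρ) := by
  have hiter : ∀ k, DifferentiableOn ℂ (η^[k]) (ball 0 ρ) := fun k =>
    hη.iterate (H.mapsTo le_rfl) k
  have hkd : ∀ k, DifferentiableOn ℂ (kd η k) (ball 0 ρ) := by
    intro k
    have h1 : DifferentiableOn ℂ
        (fun x => (2 : ℂ) ^ (k + 1) • (η^[k + 1] x - (2 : ℂ)⁻¹ • η^[k] x)) (ball 0 ρ) :=
      ((hiter (k + 1)).sub ((hiter k).const_smul _)).const_smul _
    refine h1.congr fun x _ => ?_
    simp only [kd, Function.iterate_succ_apply']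
  have hfd : ∀ k x, x ∈ ball (0 : V) ρ → HasFDerivAt (kd η k) (fderiv ℂ (kd η k) x) x :=
    fun k x hx => ((hkd k).differentiableAt (isOpen_ball.mem_nhds hx)).hasFDerivAt
  have hbound : ∀ k x, x ∈ ball (0 : V) ρ → ‖fderiv ℂ (kd η k) x‖ ≤ 1 / 4 * (1 / 2 : ℝ) ^ k := by
    intro k x hx
    refine norm_fderiv_le_of_lip' ℂ (by positivity) ?_
    filter_upwards [isOpen_ball.mem_nhds hx] with z hz
    have hz' : ‖z‖ < ρ := by simpa using hz
    have hx' : ‖x‖ < ρ := by simpa using hx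
    refine (H.kd_lip k hz' hx').trans ?_
    have h1 : max ‖z‖ ‖x‖ ≤ ρ := max_le hz'.le hx'.le
    have h2 : 8 * K * max ‖z‖ ‖x‖ ≤ 1 / 4 := by
      have := mul_le_mul_of_nonneg_left h1 H.nonneg
      have := H.small
      linarith
    calc 8 * K * max ‖z‖ ‖x‖ * ‖z - x‖ * (1 / 2 : ℝ) ^ k
        ≤ 1 / 4 * ‖z - x‖ * (1 / 2 : ℝ) ^ k := by gcongr
      _ = 1 / 4 * (1 / 2 : ℝ) ^ k * ‖z - x‖ := by ring
  have hu : Summable fun k : ℕ => 1 / 4 * (1 / 2 : ℝ) ^ k := summable_geometric_two.mul_left _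
  have h0 : (0 : V) ∈ ball (0 : V) ρ := mem_ball_self H.pos
  intro x hx
  have hsum := hasFDerivAt_tsum_of_isPreconnected hu isOpen_ball
    (convex_ball (0 : V) ρ).isPreconnected hfd hbound h0
    (H.kd_summable (by simpa using H.pos)) hx
  have hid : HasFDerivAt (fun y : V => y) (ContinuousLinearMap.id ℂ V) x := hasFDerivAt_id x
  exact (hid.add hsum).differentiableAt.differentiableWithinAt

/-- The identity, as a nonlinear right inverse of the identity with constant `1`. -/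
def idRightInverse (V : Type*) [NormedAddCommGroup V] [NormedSpace ℂ V] :
    (ContinuousLinearMap.id ℂ V).NonlinearRightInverse where
  toFun := id
  nnnorm := 1
  bound' := fun y => by simp
  right_inv' := fun y => by simp

theorem klog_approx (H : Halving η ρ K) :
    ApproximatesLinearOn (klog η) (ContinuousLinearMap.id ℂ V) (ball 0 ρ) (1 / 2 : NNReal) := by
  intro x hx y hy
  have hx' : ‖x‖ < ρ := by simpa using hx
  have hy' : ‖y‖ < ρ := by simpa using hy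
  have h := H.klog_sub_le hx' hy'
  have h2 : klog η x - klog η y - (ContinuousLinearMap.id ℂ V) (x - y)
      = (klog η x - x) - (klog η y - y) := by
    simp only [ContinuousLinearMap.id_apply]; abel
  rw [h2]
  simpa using h

theorem klog_surjOn (H : Halving η ρ K) {ε : ℝ} (hε0 : 0 ≤ ε) (hε : ε < ρ) :
    SurjOn (klog η) (closedBall 0 ε) (closedBall 0 (ε / 2)) := by
  have hsub : closedBall (0 : V) ε ⊆ ball 0 ρ := closedBall_subset_ball hε
  have h := H.klog_approx.surjOn_closedBall_of_nonlinearRightInverse (idRightInverse V) hε0 hsub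
  rw [H.klog_zero] at h
  have hrad : ((((idRightInverse V).nnnorm : ℝ))⁻¹ - ((1 / 2 : NNReal) : ℝ)) * ε = ε / 2 := by
    have : ((idRightInverse V).nnnorm : ℝ) = 1 := by simp [idRightInverse]
    rw [this]; push_cast; ring
  rwa [hrad] at h

theorem klog_isOpen_image (H : Halving η ρ K) {W : Set V} (hW : IsOpen W)
    (hWρ : W ⊆ ball 0 ρ) : IsOpen (klog η '' W) := by
  refine (H.klog_approx.mono_set hWρ).open_image (idRightInverse V) hW (Or.inr ?_)
  have : (idRightInverse V).nnnorm = 1 := rfl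
  rw [this, inv_one]
  norm_num

theorem klog_sub_self_le (H : Halving η ρ K) {x : V} (hx : ‖x‖ < ρ) :
    ‖klog η x - x‖ ≤ 16 * K * ‖x‖ ^ 2 := by
  have h := H.klog_lip hx (show ‖(0 : V)‖ < ρ by simpa using H.pos)
  rw [H.klog_zero] at h
  simp only [sub_zero, norm_zero] at h
  rw [max_eq_left (norm_nonneg x)] at h
  calc ‖klog η x - x‖ ≤ 16 * K * ‖x‖ * ‖x‖ := h
    _ = 16 * K * ‖x‖ ^ 2 := by ring

theorem klog_hasFDerivAt_zero (H : Halving η ρ K) :
    HasFDerivAt (klog η) (ContinuousLinearMap.id ℂ V) 0 := by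
  have hO : (fun x => klog η x - x) =O[𝓝 (0 : V)] fun x => ‖x - 0‖ ^ 2 := by
    refine Asymptotics.IsBigO.of_bound (16 * K) ?_
    filter_upwards [ball_mem_nhds (0 : V) H.pos] with x hx
    have hx' : ‖x‖ < ρ := by simpa using hx
    have h := H.klog_sub_self_le hx'
    simpa using h
  have h1 : HasFDerivAt (fun x => klog η x - x) (0 : V →L[ℂ] V) 0 :=
    hO.hasFDerivAt (n := 2) (by norm_num)
  have h2 := h1.add (hasFDerivAt_id (0 : V))
  have e1 : (fun x => klog η x - x + id x) = klog η := by funext x; simp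
  have e2 : (0 : V →L[ℂ] V) + ContinuousLinearMap.id ℂ V = ContinuousLinearMap.id ℂ V :=
    zero_add _
  rw [e2] at h2
  exact h2.congr_of_eventuallyEq (Filter.Eventually.of_forall fun x => by simp)

end Halving

end Iterate

section Chunk

variable {V P : Type*} [NormedAddCommGroup V] [NormedSpace ℂ V] [CompleteSpace V]
  [AddCommGroup P]

/-- The derivative at the origin of a map with `m (a, 0) = a`, `m (0, b) = b`. -/
theorem fderiv_chunk {m : V × V → V} {r : ℝ} (hr : 0 < r) (hm : DifferentiableAt ℂ m 0)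
    (hm0 : ∀ a, ‖a‖ < r → m (a, 0) = a) (h0m : ∀ b, ‖b‖ < r → m (0, b) = b) :
    fderiv ℂ m 0 = ContinuousLinearMap.fst ℂ V V + ContinuousLinearMap.snd ℂ V V := by
  set M := fderiv ℂ m 0 with hMdef
  have hM : HasFDerivAt m M ((0 : V), (0 : V)) := hm.hasFDerivAt
  have hev : ∀ᶠ a in 𝓝 (0 : V), ‖a‖ < r := by
    have := Metric.ball_mem_nhds (0 : V) hr
    filter_upwards [this] with a ha using by simpa using ha
  have h1 : HasFDerivAt (fun a : V => m (a, 0)) (M.comp (ContinuousLinearMap.inl ℂ V V)) 0 :=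
    HasFDerivAt.comp (g := m) (f := fun a : V => (a, (0 : V))) (0 : V) hM
      (hasFDerivAt_prodMk_left (0 : V) (0 : V))
  have h1' : HasFDerivAt (fun a : V => m (a, 0)) (ContinuousLinearMap.id ℂ V) 0 := by
    refine (hasFDerivAt_id (0 : V)).congr_of_eventuallyEq ?_
    filter_upwards [hev] with a ha using hm0 a ha
  have h2 : HasFDerivAt (fun b : V => m (0, b)) (M.comp (ContinuousLinearMap.inr ℂ V V)) 0 :=
    HasFDerivAt.comp (g := m) (f := fun b : V => ((0 : V), b)) (0 : V) hM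
      (hasFDerivAt_prodMk_right (0 : V) (0 : V))
  have h2' : HasFDerivAt (fun b : V => m (0, b)) (ContinuousLinearMap.id ℂ V) 0 := by
    refine (hasFDerivAt_id (0 : V)).congr_of_eventuallyEq ?_
    filter_upwards [hev] with b hb using h0m b hb
  have e1 := h1.unique h1'
  have e2 := h2.unique h2'
  refine ContinuousLinearMap.ext fun ⟨u, v⟩ => ?_
  have hu : M (u, 0) = u := by
    have := congrArg (fun T : V →L[ℂ] V => T u) e1
    simpa using this
  have hv : M (0, v) = v := by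
    have := congrArg (fun T : V →L[ℂ] V => T v) e2
    simpa using this
  have huv : ((u, v) : V × V) = (u, 0) + (0, v) := by simp
  rw [huv, map_add, hu, hv]
  simp

/-- Quadratic bound for the remainder `m (a, b) - a - b`. -/
theorem exists_chunk_bound {m : V × V → V} {r : ℝ} (hr : 0 < r) (hm : ContDiffAt ℂ 2 m 0)
    (hm0 : ∀ a, ‖a‖ < r → m (a, 0) = a) (h0m : ∀ b, ‖b‖ < r → m (0, b) = b) :
    ∃ K : ℝ, 0 ≤ K ∧ ∃ s : ℝ, 0 < s ∧ ∀ a b, ‖a‖ < s → ‖b‖ < s →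
      ‖m (a, b) - a - b‖ ≤ K * (max ‖a‖ ‖b‖) ^ 2 := by
  have hmd : DifferentiableAt ℂ m 0 := hm.differentiableAt (by norm_num)
  have hM := fderiv_chunk hr hmd hm0 h0m
  have hm00 : m 0 = 0 := hm0 0 (by simpa using hr)
  set f : V × V → V := fun z => m z - z.1 - z.2 with hf
  have hf2 : ContDiffAt ℂ 2 f 0 := (hm.sub contDiffAt_fst).sub contDiffAt_snd
  have hfd : fderiv ℂ f 0 = 0 := by
    have h1 : HasFDerivAt f (fderiv ℂ m 0 - ContinuousLinearMap.fst ℂ V V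
        - ContinuousLinearMap.snd ℂ V V) 0 :=
      (hmd.hasFDerivAt.sub hasFDerivAt_fst).sub hasFDerivAt_snd
    rw [h1.fderiv, hM]; abel
  obtain ⟨K, hK, s, hs, -, hlip⟩ := exists_quad_lipschitz hf2 hfd
  refine ⟨K, hK, s, hs, fun a b ha hb => ?_⟩
  have hz : ‖((a, b) : V × V)‖ < s := by rw [Prod.norm_mk]; exact max_lt ha hb
  have h0 : ‖(0 : V × V)‖ < s := by simpa using hs
  have key := hlip (a, b) 0 hz h0
  have hf0 : f 0 = 0 := by simp [hf, hm00]
  have hM0 : 0 ≤ max ‖a‖ ‖b‖ := le_max_of_le_left (norm_nonneg a)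
  rw [hf0, sub_zero, sub_zero, norm_zero, Prod.norm_mk, max_eq_left hM0] at key
  simpa [hf, pow_two, mul_assoc] using key

/-- **Koenigs logarithm of a local group chunk.**  Let `m : V × V → V` be `C²` over `ℂ` at
`(0, 0)` with `m (a, 0) = a` and `m (0, b) = b` near `0`, and let `ψ : V → P` be injective on the
ball of radius `r` with `ψ (m (a, b)) = ψ a + ψ b` there.  Then there are an open neighbourhood
`U` of `0`, a holomorphic `L` mapping `U` bijectively onto a ball `ball 0 ρ`, additive for `m`,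
and `φ : V → P` with `φ ∘ L = ψ` on `U` which is additive and injective on `ball 0 ρ`. -/
theorem exists_koenigs_log (m : V × V → V) (ψ : V → P) {r : ℝ} (hr : 0 < r)
    (hm : ContDiffAt ℂ 2 m (0, 0))
    (hm0 : ∀ a, ‖a‖ < r → m (a, 0) = a) (h0m : ∀ b, ‖b‖ < r → m (0, b) = b)
    (hψ : ∀ a b, ‖a‖ < r → ‖b‖ < r → ψ (m (a, b)) = ψ a + ψ b)
    (hinj : ∀ a b, ‖a‖ < r → ‖b‖ < r → ψ a = ψ b → a = b) :
    ∃ (U : Set V) (L : V → V) (φ : V → P) (ρ : ℝ), 0 < ρ ∧ IsOpen U ∧ (0 : V) ∈ U ∧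
      U ⊆ ball 0 r ∧ DifferentiableOn ℂ L U ∧ L 0 = 0 ∧ BijOn L U (ball 0 ρ) ∧
      (∀ a ∈ U, ∀ b ∈ U, L (m (a, b)) = L a + L b) ∧
      (∀ a ∈ U, φ (L a) = ψ a) ∧
      (∀ v w, ‖v‖ < ρ → ‖w‖ < ρ → ‖v + w‖ < ρ → φ (v + w) = φ v + φ w) ∧
      (∀ v, ‖v‖ < ρ → φ v = 0 → v = 0) ∧
      (∀ W, W ⊆ U → IsOpen W → IsOpen (L '' W)) ∧
      HasFDerivAt L (ContinuousLinearMap.id ℂ V) 0 ∧
      (∃ C : ℝ, ∀ a ∈ U, ‖L a - a‖ ≤ C * ‖a‖ ^ 2) := by
  have hm' : ContDiffAt ℂ 2 m 0 := hm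
  have hmd : DifferentiableAt ℂ m 0 := hm'.differentiableAt (by norm_num)
  have hM := fderiv_chunk hr hmd hm0 h0m
  have hm00 : m 0 = 0 := hm0 0 (by simpa using hr)
  obtain ⟨Kf, hKf, rf, hrf, hfb⟩ := exists_chunk_bound hr hm' hm0 h0m
  -- the doubling map and its local inverse
  set δ : V → V := fun x => m (x, x) with hδdef
  have hδ2 : ContDiffAt ℂ 2 δ 0 := by
    have h1 : ContDiffAt ℂ 2 (fun x : V => (x, x)) 0 := contDiffAt_id.prodMk contDiffAt_id
    exact ContDiffAt.comp (g := m) (f := fun x : V => (x, x)) (0 : V) hm' h1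
  let E2 : V ≃L[ℂ] V := ContinuousLinearEquiv.smulLeft (Units.mk0 (2 : ℂ) two_ne_zero)
  have hE2 : ∀ v : V, E2 v = (2 : ℂ) • v := fun v => rfl
  have hδ' : HasFDerivAt δ (E2 : V →L[ℂ] V) 0 := by
    have h1 : HasFDerivAt δ ((fderiv ℂ m 0).comp
        ((ContinuousLinearMap.id ℂ V).prod (ContinuousLinearMap.id ℂ V))) 0 :=
      HasFDerivAt.comp (g := m) (f := fun x : V => (x, x)) (0 : V) hmd.hasFDerivAt
        ((hasFDerivAt_id (0 : V)).prodMk (hasFDerivAt_id (0 : V)))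
    refine h1.congr_fderiv ?_
    ext v
    simp [hM, hE2, two_smul]
  have hn : (2 : WithTop ℕ∞) ≠ 0 := by norm_num
  set η : V → V := hδ2.localInverse hδ' hn with hηdef
  have hδ0 : δ 0 = 0 := hm00
  have hη0 : η 0 = 0 := by
    have := hδ2.localInverse_apply_image hδ' hn
    rwa [hδ0] at this
  have hη2 : ContDiffAt ℂ 2 η 0 := by
    have := hδ2.to_localInverse hδ' hn
    rwa [hδ0] at this
  have hη' : HasFDerivAt η (E2.symm : V →L[ℂ] V) 0 := by
    have := (hδ2.hasStrictFDerivAt' hδ' hn).to_localInverse.hasFDerivAt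
    rwa [hδ0] at this
  have hE2s : ∀ v : V, E2.symm v = (2 : ℂ)⁻¹ • v := by
    intro v
    rw [ContinuousLinearEquiv.symm_apply_eq, hE2, smul_smul, mul_inv_cancel₀ two_ne_zero,
      one_smul]
  set h : V → V := fun x => η x - (2 : ℂ)⁻¹ • x with hhdef
  have hh2 : ContDiffAt ℂ 2 h 0 := hη2.sub (contDiffAt_id.const_smul _)
  have hhd : fderiv ℂ h 0 = 0 := by
    have h1 : HasFDerivAt h ((E2.symm : V →L[ℂ] V) - (2 : ℂ)⁻¹ • ContinuousLinearMap.id ℂ V) 0 :=
      hη'.sub ((hasFDerivAt_id (0 : V)).const_smul _)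
    rw [h1.fderiv]
    ext v
    simp [hE2s]
  obtain ⟨K1, hK1, r1, hr1, hdiff1, hlip1⟩ := exists_quad_lipschitz hh2 hhd
  have hLinv : ∀ᶠ x in 𝓝 (0 : V), η (δ x) = x :=
    (hδ2.hasStrictFDerivAt' hδ' hn).eventually_left_inverse
  have hRinv : ∀ᶠ y in 𝓝 (0 : V), δ (η y) = y := by
    have := (hδ2.hasStrictFDerivAt' hδ' hn).eventually_right_inverse
    rwa [hδ0] at this
  obtain ⟨ρ1, hρ1, hρ1sub⟩ := Metric.mem_nhds_iff.1 (Filter.inter_mem hLinv hRinv)
  have hleft : ∀ x, ‖x‖ < ρ1 → η (δ x) = x := fun x hx =>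
    (hρ1sub (show x ∈ ball (0 : V) ρ1 by simpa using hx)).1
  have hright : ∀ y, ‖y‖ < ρ1 → δ (η y) = y := fun y hy =>
    (hρ1sub (show y ∈ ball (0 : V) ρ1 by simpa using hy)).2
  -- radii
  set ρ : ℝ := min (min r rf) (min (min r1 ρ1) (1 / (32 * (K1 + 1)))) with hρdef
  have hρ : 0 < ρ := by
    have h1 : 0 < 1 / (32 * (K1 + 1)) := by positivity
    simp only [hρdef, lt_min_iff]; exact ⟨⟨hr, hrf⟩, ⟨hr1, hρ1⟩, h1⟩
  have hρr : ρ ≤ r := (min_le_left _ _).trans (min_le_left _ _)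
  have hρrf : ρ ≤ rf := (min_le_left _ _).trans (min_le_right _ _)
  have hρr1 : ρ ≤ r1 := (min_le_right _ _).trans ((min_le_left _ _).trans (min_le_left _ _))
  have hρρ1 : ρ ≤ ρ1 := (min_le_right _ _).trans ((min_le_left _ _).trans (min_le_right _ _))
  have hρK : K1 * ρ ≤ 1 / 32 := by
    have h1 : ρ ≤ 1 / (32 * (K1 + 1)) := (min_le_right _ _).trans (min_le_right _ _)
    have h2 : K1 * ρ ≤ K1 * (1 / (32 * (K1 + 1))) := mul_le_mul_of_nonneg_left h1 hK1
    refine h2.trans ?_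
    rw [mul_one_div, div_le_div_iff₀ (by positivity) (by norm_num)]
    nlinarith
  have H : Halving η ρ K1 :=
    { pos := hρ, nonneg := hK1, small := hρK, zero := hη0
      lip := fun x y hx hy => hlip1 x y (lt_of_lt_of_le hx hρr1) (lt_of_lt_of_le hy hρr1) }
  have hηdiff : DifferentiableOn ℂ η (ball 0 ρ) := by
    intro x hx
    have hx' : ‖x‖ < r1 := lt_of_lt_of_le (by simpa using hx) hρr1
    have h1 : DifferentiableAt ℂ (fun x => h x + (2 : ℂ)⁻¹ • x) x :=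
      (hdiff1 x hx').add (differentiableAt_id.const_smul _)
    have h2 : (fun x => h x + (2 : ℂ)⁻¹ • x) = η := by funext y; simp [hhdef]
    rw [h2] at h1
    exact h1.differentiableWithinAt
  set ρ2 : ℝ := min (ρ / 9) (1 / (3 * (Kf + 1))) with hρ2def
  have hρ2 : 0 < ρ2 := by
    have h1 : 0 < 1 / (3 * (Kf + 1)) := by positivity
    have h2 : 0 < ρ / 9 := by positivity
    simp only [hρ2def, lt_min_iff]; exact ⟨h2, h1⟩
  have hρ2ρ : 9 * ρ2 ≤ ρ := by
    have := min_le_left (ρ / 9) (1 / (3 * (Kf + 1))); linarith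
  have hρ2K : Kf * (3 * ρ2) ≤ 1 := by
    have h1 : ρ2 ≤ 1 / (3 * (Kf + 1)) := min_le_right _ _
    have h2 : Kf * (3 * ρ2) ≤ Kf * (3 * (1 / (3 * (Kf + 1)))) := by gcongr
    refine h2.trans ?_
    have h3 : Kf * (3 * (1 / (3 * (Kf + 1)))) = Kf / (Kf + 1) := by field_simp
    rw [h3, div_le_one (by positivity)]; linarith
  have hK2 : Kf * ρ2 ≤ 1 := by nlinarith [mul_nonneg hKf hρ2.le]
  have hρ2le : ρ2 ≤ ρ := by linarith
  -- bound on `m`
  have hmb : ∀ s : ℝ, s ≤ rf → Kf * s ≤ 1 → ∀ a b, ‖a‖ < s → ‖b‖ < s → ‖m (a, b)‖ < 3 * s := by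
    intro s hs hKs a b ha hb
    have h1 := hfb a b (lt_of_lt_of_le ha hs) (lt_of_lt_of_le hb hs)
    set M := max ‖a‖ ‖b‖ with hMdef
    have hM0 : 0 ≤ M := le_max_of_le_left (norm_nonneg a)
    have hMs : M < s := max_lt ha hb
    have h2 : Kf * M ^ 2 ≤ M := by
      have : Kf * M ≤ 1 := (mul_le_mul_of_nonneg_left hMs.le hKf).trans hKs
      nlinarith
    have h3 : ‖m (a, b)‖ ≤ ‖m (a, b) - a - b‖ + ‖a‖ + ‖b‖ := by
      have e : m (a, b) = (m (a, b) - a - b) + a + b := by abel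
      calc ‖m (a, b)‖ = ‖(m (a, b) - a - b) + a + b‖ := congrArg norm e
        _ ≤ ‖(m (a, b) - a - b) + a‖ + ‖b‖ := norm_add_le _ _
        _ ≤ ‖m (a, b) - a - b‖ + ‖a‖ + ‖b‖ := by gcongr; exact norm_add_le _ _
    linarith
  have hηmap : ∀ a, ‖a‖ < ρ2 → ‖η a‖ < ρ2 := fun a ha => by
    simpa using H.mapsTo hρ2le (show a ∈ ball (0 : V) ρ2 by simpa using ha)
  -- `η` is a homomorphism of the chunk
  have hηhom : ∀ a b, ‖a‖ < ρ2 → ‖b‖ < ρ2 → η (m (a, b)) = m (η a, η b) := by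
    intro a b ha hb
    have ha' := hηmap a ha
    have hb' := hηmap b hb
    have hc : ‖m (η a, η b)‖ < 3 * ρ2 := hmb ρ2 (by linarith) hK2 _ _ ha' hb'
    have hdc : ‖m (m (η a, η b), m (η a, η b))‖ < 3 * (3 * ρ2) :=
      hmb (3 * ρ2) (by linarith) hρ2K _ _ hc hc
    have hab : ‖m (a, b)‖ < 3 * ρ2 := hmb ρ2 (by linarith) hK2 _ _ ha hb
    have e1 : ψ (m (m (η a, η b), m (η a, η b))) = ψ (m (η a, η b)) + ψ (m (η a, η b)) :=
      hψ _ _ (by linarith) (by linarith)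
    have e2 : ψ (m (η a, η b)) = ψ (η a) + ψ (η b) := hψ _ _ (by linarith) (by linarith)
    have e3 : ψ a = ψ (η a) + ψ (η a) := by
      have h4 := hψ (η a) (η a) (by linarith) (by linarith)
      have h5 : m (η a, η a) = a := hright a (by linarith)
      rw [h5] at h4; exact h4
    have e4 : ψ b = ψ (η b) + ψ (η b) := by
      have h4 := hψ (η b) (η b) (by linarith) (by linarith)
      have h5 : m (η b, η b) = b := hright b (by linarith)
      rw [h5] at h4; exact h4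
    have e5 : ψ (m (a, b)) = ψ a + ψ b := hψ a b (by linarith) (by linarith)
    have e6 : ψ (m (m (η a, η b), m (η a, η b))) = ψ (m (a, b)) := by
      rw [e1, e2, e5, e3, e4]; abel
    have e7 : m (m (η a, η b), m (η a, η b)) = m (a, b) :=
      hinj _ _ (by linarith) (by linarith) e6
    have e8 : η (m (m (η a, η b), m (η a, η b))) = m (η a, η b) :=
      hleft (m (η a, η b)) (by linarith)
    rw [← e7]; exact e8
  have hiter : ∀ k : ℕ, ∀ a b, ‖a‖ < ρ2 → ‖b‖ < ρ2 →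
      η^[k] (m (a, b)) = m (η^[k] a, η^[k] b) := by
    intro k
    induction k with
    | zero => intro a b _ _; rfl
    | succ k ih =>
      intro a b ha hb
      simp only [Function.iterate_succ_apply]
      rw [hηhom a b ha hb]
      exact ih _ _ (hηmap a ha) (hηmap b hb)
  -- the logarithm
  set L : V → V := Halving.klog η with hLdef
  have hLadd : ∀ a b, ‖a‖ < ρ2 → ‖b‖ < ρ2 → L (m (a, b)) = L a + L b := by
    intro a b ha hb
    have hab : ‖m (a, b)‖ < 3 * ρ2 := hmb ρ2 (by linarith) hK2 _ _ ha hb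
    have T1 := H.tendsto_klog (show ‖m (a, b)‖ < ρ by linarith)
    have Ta := H.tendsto_klog (show ‖a‖ < ρ by linarith)
    have Tb := H.tendsto_klog (show ‖b‖ < ρ by linarith)
    have T3 : Tendsto (fun n => (2 : ℂ) ^ n • (m (η^[n] a, η^[n] b) - η^[n] a - η^[n] b))
        atTop (𝓝 0) := by
      refine squeeze_zero_norm (a := fun n => 4 * Kf * ρ2 ^ 2 * (1 / 2 : ℝ) ^ n) (fun n => ?_) ?_
      · have han := H.iterate_norm_le n (show ‖a‖ < ρ by linarith)
        have hbn := H.iterate_norm_le n (show ‖b‖ < ρ by linarith)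
        have han' := H.iterate_norm_lt n hρ2le ha
        have hbn' := H.iterate_norm_lt n hρ2le hb
        have h1 := hfb _ _ (lt_of_lt_of_le han' (by linarith)) (lt_of_lt_of_le hbn' (by linarith))
        have hc := kc_nonneg n
        have hc2 := kc_le n
        have hale := ha.le
        have hble := hb.le
        have hmax : max ‖η^[n] a‖ ‖η^[n] b‖ ≤ 2 * (1 / 2 : ℝ) ^ n * ρ2 := by
          refine max_le ?_ ?_
          · calc ‖η^[n] a‖ ≤ kc n * ‖a‖ := han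
              _ ≤ 2 * (1 / 2 : ℝ) ^ n * ρ2 := by gcongr
          · calc ‖η^[n] b‖ ≤ kc n * ‖b‖ := hbn
              _ ≤ 2 * (1 / 2 : ℝ) ^ n * ρ2 := by gcongr
        have hmax0 : 0 ≤ max ‖η^[n] a‖ ‖η^[n] b‖ := le_max_of_le_left (norm_nonneg _)
        have hab2 : (2 : ℝ) ^ n * (1 / 2 : ℝ) ^ n = 1 := by rw [← mul_pow]; norm_num
        rw [norm_smul, norm_pow, Complex.norm_ofNat]
        calc (2 : ℝ) ^ n * ‖m (η^[n] a, η^[n] b) - η^[n] a - η^[n] b‖
            ≤ (2 : ℝ) ^ n * (Kf * (max ‖η^[n] a‖ ‖η^[n] b‖) ^ 2) := by gcongr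
          _ ≤ (2 : ℝ) ^ n * (Kf * (2 * (1 / 2 : ℝ) ^ n * ρ2) ^ 2) := by gcongr
          _ = 4 * Kf * ρ2 ^ 2 * (1 / 2 : ℝ) ^ n * ((2 : ℝ) ^ n * (1 / 2 : ℝ) ^ n) := by ring
          _ = 4 * Kf * ρ2 ^ 2 * (1 / 2 : ℝ) ^ n := by rw [hab2, mul_one]
      · have h1 := (tendsto_pow_atTop_nhds_zero_of_lt_one (r := (1 / 2 : ℝ)) (by norm_num)
          (by norm_num)).const_mul (4 * Kf * ρ2 ^ 2)
        simpa using h1
    have T2 : Tendsto (fun n => (2 : ℂ) ^ n • η^[n] (m (a, b))) atTop (𝓝 (L a + L b + 0)) := by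
      refine ((Ta.add Tb).add T3).congr fun n => ?_
      rw [hiter n a b ha hb]
      simp only [smul_sub]
      abel
    have h4 := tendsto_nhds_unique T1 T2
    simpa using h4
  have hLdiff : DifferentiableOn ℂ L (ball 0 ρ) := H.klog_differentiableOn hηdiff
  have hL0 : L 0 = 0 := H.klog_zero
  set ρo : ℝ := ρ2 / 4 with hρodef
  have hρo : 0 < ρo := by positivity
  set U : Set V := ball 0 ρ2 ∩ L ⁻¹' ball 0 ρo with hUdef
  have hU2 : U ⊆ ball 0 ρ2 := inter_subset_left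
  have hUρ : ball (0 : V) ρ2 ⊆ ball 0 ρ := ball_subset_ball hρ2le
  have hUopen : IsOpen U :=
    (hLdiff.continuousOn.mono hUρ).isOpen_inter_preimage isOpen_ball isOpen_ball
  have h0U : (0 : V) ∈ U := ⟨mem_ball_self hρ2, by simp [hL0, hρo]⟩
  have hsurj : ∀ v, ‖v‖ < ρo → ∃ a ∈ U, L a = v := by
    intro v hv
    have hs : SurjOn L (closedBall 0 (ρ2 / 2)) (closedBall 0 (ρ2 / 2 / 2)) :=
      H.klog_surjOn (ε := ρ2 / 2) (by positivity) (by linarith)
    have hv' : v ∈ closedBall (0 : V) (ρ2 / 2 / 2) := by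
      rw [mem_closedBall, dist_zero_right]; rw [hρodef] at hv; linarith
    obtain ⟨a, ha, hav⟩ := hs hv'
    refine ⟨a, ⟨?_, ?_⟩, hav⟩
    · rw [mem_ball, dist_zero_right]
      have : ‖a‖ ≤ ρ2 / 2 := by simpa using ha
      linarith
    · rw [mem_preimage, hav]; simpa using hv
  have hinjU : InjOn L U := H.klog_injOn.mono (hU2.trans hUρ)
  let φ : V → P := fun v => ψ (Function.invFunOn L U v)
  have hφ : ∀ v, ‖v‖ < ρo → Function.invFunOn L U v ∈ U ∧ L (Function.invFunOn L U v) = v := by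
    intro v hv
    obtain ⟨a, ha, hav⟩ := hsurj v hv
    exact Function.invFunOn_pos ⟨a, ha, hav⟩
  have hψ0 : ψ 0 = 0 := by
    have h1 := hψ 0 0 (by simpa using hr) (by simpa using hr)
    rw [show m ((0 : V), (0 : V)) = 0 from hm00] at h1
    exact left_eq_add.1 h1
  refine ⟨U, L, φ, ρo, hρo, hUopen, h0U, hU2.trans (ball_subset_ball (by linarith)),
    hLdiff.mono (hU2.trans hUρ), hL0, ⟨fun a ha => ha.2, hinjU, fun v hv => ?_⟩, ?_, ?_, ?_, ?_,
    fun W hWU hW => H.klog_isOpen_image hW (hWU.trans (hU2.trans hUρ)),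
    H.klog_hasFDerivAt_zero,
    ⟨16 * K1, fun a ha => H.klog_sub_self_le (by simpa using hUρ (hU2 ha))⟩⟩
  · obtain ⟨a, ha, hav⟩ := hsurj v (by simpa using hv)
    exact ⟨a, ha, hav⟩
  · intro a ha b hb
    exact hLadd a b (by simpa using hU2 ha) (by simpa using hU2 hb)
  · intro a ha
    have hLa : ‖L a‖ < ρo := by simpa using ha.2
    obtain ⟨h1, h2⟩ := hφ (L a) hLa
    have h3 : Function.invFunOn L U (L a) = a := hinjU h1 ha h2
    show ψ (Function.invFunOn L U (L a)) = ψ a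
    rw [h3]
  · intro v w hv hw hvw
    obtain ⟨hv1, hv2⟩ := hφ v hv
    obtain ⟨hw1, hw2⟩ := hφ w hw
    obtain ⟨hs1, hs2⟩ := hφ (v + w) hvw
    have ha : ‖Function.invFunOn L U v‖ < ρ2 := by simpa using hU2 hv1
    have hb : ‖Function.invFunOn L U w‖ < ρ2 := by simpa using hU2 hw1
    have hc : ‖Function.invFunOn L U (v + w)‖ < ρ2 := by simpa using hU2 hs1
    have hab := hmb ρ2 (by linarith) hK2 _ _ ha hb
    have e1 : L (m (Function.invFunOn L U v, Function.invFunOn L U w))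
        = L (Function.invFunOn L U (v + w)) := by
      rw [hLadd _ _ ha hb, hv2, hw2, hs2]
    have e2 : m (Function.invFunOn L U v, Function.invFunOn L U w)
        = Function.invFunOn L U (v + w) :=
      H.klog_injOn (by rw [mem_ball, dist_zero_right]; linarith)
        (by rw [mem_ball, dist_zero_right]; linarith) e1
    show ψ (Function.invFunOn L U (v + w))
      = ψ (Function.invFunOn L U v) + ψ (Function.invFunOn L U w)
    rw [← e2]; exact hψ _ _ (by linarith) (by linarith)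
  · intro v hv hφv
    obtain ⟨hv1, hv2⟩ := hφ v hv
    have ha : ‖Function.invFunOn L U v‖ < ρ2 := by simpa using hU2 hv1
    have h3 : Function.invFunOn L U v = 0 :=
      hinj _ _ (by linarith) (by simpa using hr) (by rw [hψ0]; exact hφv)
    rw [← hv2, h3, hL0]

/-- Analytic version of `exists_koenigs_log`. -/
theorem exists_koenigs_log_of_analyticAt (m : V × V → V) (ψ : V → P) {r : ℝ} (hr : 0 < r)
    (hm : AnalyticAt ℂ m (0, 0))
    (hm0 : ∀ a, ‖a‖ < r → m (a, 0) = a) (h0m : ∀ b, ‖b‖ < r → m (0, b) = b)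
    (hψ : ∀ a b, ‖a‖ < r → ‖b‖ < r → ψ (m (a, b)) = ψ a + ψ b)
    (hinj : ∀ a b, ‖a‖ < r → ‖b‖ < r → ψ a = ψ b → a = b) :
    ∃ (U : Set V) (L : V → V) (φ : V → P) (ρ : ℝ), 0 < ρ ∧ IsOpen U ∧ (0 : V) ∈ U ∧
      U ⊆ ball 0 r ∧ DifferentiableOn ℂ L U ∧ L 0 = 0 ∧ BijOn L U (ball 0 ρ) ∧
      (∀ a ∈ U, ∀ b ∈ U, L (m (a, b)) = L a + L b) ∧
      (∀ a ∈ U, φ (L a) = ψ a) ∧
      (∀ v w, ‖v‖ < ρ → ‖w‖ < ρ → ‖v + w‖ < ρ → φ (v + w) = φ v + φ w) ∧
      (∀ v, ‖v‖ < ρ → φ v = 0 → v = 0) ∧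
      (∀ W, W ⊆ U → IsOpen W → IsOpen (L '' W)) ∧
      HasFDerivAt L (ContinuousLinearMap.id ℂ V) 0 ∧
      (∃ C : ℝ, ∀ a ∈ U, ‖L a - a‖ ≤ C * ‖a‖ ^ 2) :=
  exists_koenigs_log m ψ hr hm.contDiffAt hm0 h0m hψ hinj

end Chunk
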