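import Fermat.Agent.S27.helper5747_AlgSpec
import Fermat.Agent.S27.helper3351_WSpec

/-!
# S27, algebraic route, characteristic `p` core: the root assembly (helper5747)

`frobSetting_of`: the hypotheses of `helper3351.Stmt_CharP` (a ring automorphism `φ` of `F`
which is the `q`-Frobenius on constants, fixes `x` and the place `P₀`) together with
Riemann–Roch with duality (`Stmt_RRD`) give a `g : SemilinearAut k F` with `FrobSetting k F q g`.

`stmt_CharP_of : Stmt_RRD → Stmt_Core → helper3351.Stmt_CharP`.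
-/

set_option autoImplicit false

open AlgebraicCurve IntermediateField

namespace Fermat.Agent.S27.helper5747

/-- The semilinear automorphism attached to a ring automorphism `φ` of `F` which acts on the
constants as `a ↦ a ^ (p ^ f)`. -/
noncomputable def frobAut {k F : Type*} [Field k] [Field F] [Algebra k F] (p : ℕ) [Fact p.Prime]
    [CharP k p] [IsAlgClosed k] (f : ℕ) (φ : F ≃+* F)
    (hφk : ∀ a : k, φ (algebraMap k F a) = algebraMap k F (a ^ (p ^ f))) : SemilinearAut k F :=
  ⟨(φ, iterateFrobeniusEquiv k p f), fun a => hφk a⟩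

theorem frobAut_smul {k F : Type*} [Field k] [Field F] [Algebra k F] (p : ℕ) [Fact p.Prime]
    [CharP k p] [IsAlgClosed k] (f : ℕ) (φ : F ≃+* F)
    (hφk : ∀ a : k, φ (algebraMap k F a) = algebraMap k F (a ^ (p ^ f))) (y : F) :
    frobAut p f φ hφk • y = φ y := rfl

theorem frobAut_inv_smul {k F : Type*} [Field k] [Field F] [Algebra k F] (p : ℕ) [Fact p.Prime]
    [CharP k p] [IsAlgClosed k] (f : ℕ) (φ : F ≃+* F)
    (hφk : ∀ a : k, φ (algebraMap k F a) = algebraMap k F (a ^ (p ^ f))) (y : F) :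
    (frobAut p f φ hφk)⁻¹ • y = φ.symm y := rfl

theorem baseAut_frobAut {k F : Type*} [Field k] [Field F] [Algebra k F] (p : ℕ) [Fact p.Prime]
    [CharP k p] [IsAlgClosed k] (f : ℕ) (φ : F ≃+* F)
    (hφk : ∀ a : k, φ (algebraMap k F a) = algebraMap k F (a ^ (p ^ f))) (a : k) :
    SemilinearAut.baseAut (frobAut p f φ hφk) a = a ^ (p ^ f) := rfl

/-- A place whose valuation ring is stable under `φ` is fixed by `frobAut`. -/
theorem frobAut_smul_place {k F : Type*} [Field k] [Field F] [Algebra k F] (p : ℕ)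
    [Fact p.Prime] [CharP k p] [IsAlgClosed k] (f : ℕ) (φ : F ≃+* F)
    (hφk : ∀ a : k, φ (algebraMap k F a) = algebraMap k F (a ^ (p ^ f)))
    (P₀ : Place k F) (hP₀ : ∀ y : F, y ∈ P₀.toValuationSubring ↔ φ y ∈ P₀.toValuationSubring) :
    frobAut p f φ hφk • P₀ = P₀ := by
  apply Place.ext
  rw [SemilinearAut.smul_toValuationSubring]
  ext y
  rw [ValuationSubring.mem_pointwise_smul_iff_inv_smul_mem, frobAut_inv_smul, hP₀ (φ.symm y),
    RingEquiv.apply_symm_apply]

/-- **The Frobenius setting** from the hypotheses of `helper3351.Stmt_CharP` and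
Riemann–Roch with duality. -/
theorem frobSetting_of (hRRD : Stmt_RRD) (p : ℕ) [Fact p.Prime] (k F : Type) [Field k] [Field F]
    [Algebra k F] [CharP k p] [IsAlgClosed k] [HasPrincipalDivisors k F]
    (hres : ∀ v : Place k F, Module.Finite k v.ResidueField)
    (hconst : ∀ f : F, (∀ v : Place k F, 0 ≤ v.ord f) → f ∈ Set.range (algebraMap k F))
    (f : ℕ) (hf : 0 < f)
    (hloc : ∀ a : k, ∃ m : ℕ, 0 < m ∧ a ^ ((p ^ f) ^ m) = a)
    (x : F) (hx : Transcendental k x) (hfin : FiniteDimensional k⟮x⟯ F)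
    (φ : F ≃+* F) (hφk : ∀ a : k, φ (algebraMap k F a) = algebraMap k F (a ^ (p ^ f)))
    (hφx : φ x = x)
    (P₀ : Place k F) (hP₀ : ∀ y : F, y ∈ P₀.toValuationSubring ↔ φ y ∈ P₀.toValuationSubring) :
    FrobSetting k F (p ^ f) (frobAut p f φ hφk) := by
  obtain ⟨hfinL, hW⟩ := hRRD k F hres hconst ⟨P₀⟩ x hx hfin
  refine
    { pow := ⟨p, f, Fact.out, inferInstance, hf, rfl⟩
      base := baseAut_frobAut p f φ hφk
      alg := hloc
      res := ?_
      deg := ?_
      const := hconst
      fixedFun := ⟨x, hx, hfin, hφx⟩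
      fixedPlace := ⟨P₀, frobAut_smul_place p f φ hφk P₀ hP₀⟩
      finiteL := hfinL
      rrd := hW }
  · intro v
    have := hres v
    have : Algebra.IsIntegral k v.ResidueField := Algebra.IsIntegral.of_finite k v.ResidueField
    exact (IsAlgClosed.algebraMap_bijective_of_isIntegral (k := k) (K := v.ResidueField)).2
  · intro v
    have := hres v
    exact v.deg_eq_one_of_isAlgClosed_of_finite

/-- **Root of the characteristic `p` core**: `helper3351.Stmt_CharP` from Riemann–Roch with
duality and the core statement `Stmt_Core`. -/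
theorem stmt_CharP_of (hRRD : Stmt_RRD) (hCore : Stmt_Core) : helper3351.Stmt_CharP := by
  intro p _ k F _ _ _ _ _ _ hres hconst q f hf hq hloc x hx hfin φ hφk hφx P₀ hP₀ ℓ _ hℓ n
  subst hq
  have hS := frobSetting_of hRRD p k F hres hconst f hf hloc x hx hfin φ hφk hφx P₀ hP₀
  have hℓq : ¬ ℓ ∣ p ^ f := by
    intro h
    exact hℓ ((Nat.prime_dvd_prime_iff_eq Fact.out Fact.out).1
      ((Fact.out : ℓ.Prime).dvd_of_dvd_pow h))
  exact hCore k F (p ^ f) (frobAut p f φ hφk) hS ℓ hℓq n

end Fermat.Agent.S27.helper5747
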