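import Mathlib
import Fermat.Agent.S27.helper8788_Compositum
import Fermat.Agent.S27.helper1197_FieldKit
import Fermat.Agent.S27.helper5871_LefSpec
import Fermat.Agent.S27.helper8094_LefSpec
import Fermat.Agent.S27.helper5411_Reduce
import Fermat.Agent.S27.helper5523_IsCurve

/-!
# S27-L-UP : extension of constants exists (`helper5871.Stmt_Up`, `helper8094.Stmt_Up`)

The constant field extension `Compositum K0 F0 K1 = Frac (F0 ⊗[K0] K1)` of
`helper8788_Compositum` satisfies both packaged notions of "constant field extension" used by
the Lefschetz sub-specifications (`helper5871.IsConstExt`, `helper8094.IsConstExt`), and gives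
the two `Stmt_Up` nodes verbatim.
-/

set_option autoImplicit false

open AlgebraicCurve IntermediateField TensorProduct

namespace Fermat.Agent.S27.helper8788

universe u v w

section Adapters

variable (K0 : Type u) (F0 : Type v) (K1 : Type w)
  [Field K0] [Field F0] [Algebra K0 F0] [Field K1] [Algebra K0 K1] [IsAlgClosed K0]

/-- The compositum is a constant field extension in the sense of `helper5871_LefSpec`. -/
theorem Compositum.isConstExt_helper5871 :
    helper5871.IsConstExt K0 F0 K1 (Compositum K0 F0 K1) :=
  ⟨Compositum.adjoin_range_left_eq_top K0 F0 K1,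
    fun _ _ hc => Compositum.linearIndependent_right K0 F0 K1 hc⟩

theorem Compositum.mulMap_eq_ofTensor (r : F0 ⊗[K0] K1) :
    helper8094.mulMap K0 F0 K1 (Compositum K0 F0 K1) r = Compositum.ofTensor K0 F0 K1 r := by
  induction r using TensorProduct.induction_on with
  | zero => simp
  | tmul f c => rw [helper8094.mulMap_tmul, Compositum.ofTensor_tmul]
  | add a b ha hb => rw [map_add, map_add, ha, hb]

/-- The compositum is a constant field extension in the sense of `helper8094_LefSpec`. -/
theorem Compositum.isConstExt_helper8094 :
    helper8094.IsConstExt K0 F0 K1 (Compositum K0 F0 K1) := by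
  refine ⟨?_, ?_⟩
  · intro a b hab
    rw [Compositum.mulMap_eq_ofTensor, Compositum.mulMap_eq_ofTensor] at hab
    exact Compositum.ofTensor_injective K0 F0 K1 hab
  · intro h
    obtain ⟨a, b, hb, rfl⟩ := Compositum.exists_div K0 F0 K1 h
    have hb' : Compositum.ofTensor K0 F0 K1 b ≠ 0 := fun h0 =>
      hb (Compositum.ofTensor_injective K0 F0 K1 (by rw [h0, map_zero]))
    refine ⟨a, b, ?_, ?_⟩
    · rw [Compositum.mulMap_eq_ofTensor]; exact hb'
    · rw [Compositum.mulMap_eq_ofTensor, Compositum.mulMap_eq_ofTensor,
        div_mul_cancel₀ _ hb']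

end Adapters

/-- **L-UP** (`helper5871_LefSpec`): every countable model has a constant field extension to
`ℂ`, in universe `0`. -/
theorem stmt_up_helper5871 : helper5871.Stmt_Up := by
  intro K0 F0 _ _ _ _ _ _ x0 hx0 hfin
  obtain ⟨φ⟩ := helper1197.nonempty_ringHom_complex_of_countable K0
  letI : Algebra K0 ℂ := φ.toAlgebra
  exact ⟨Compositum K0 F0 ℂ, inferInstance, inferInstance, inferInstance, inferInstance,
    inferInstance, inferInstance, inferInstance,
    Compositum.transcendental_algebraMap K0 F0 ℂ hx0,
    Compositum.finiteDimensional_adjoin K0 F0 ℂ x0,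
    Compositum.isConstExt_helper5871 K0 F0 ℂ⟩

/-- **UP** (`helper8094_LefSpec`): a curve over `K` extends to a curve over any algebraically
closed extension `K1`. -/
theorem stmt_up_helper8094 : helper8094.Stmt_Up.{u, v, w} := by
  intro K F K1 _ _ _ _ _ _ _ _ _ _
  obtain ⟨x, hx⟩ := helper5411.exists_transcendental (K := K) (F := F)
  have hfin : FiniteDimensional K⟮x⟯ F :=
    helper5411.finite_adjoin_simple_of_finrank_kaehler IsCurveOver.finrank_kaehler hx
  have hchar : CharZero K1 := charZero_of_injective_algebraMap (algebraMap K K1).injective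
  have htr := Compositum.transcendental_algebraMap K F K1 hx
  have hfin' := Compositum.finiteDimensional_adjoin K F K1 x
  obtain ⟨hcurve, hess⟩ :=
    helper5523.isCurveOver_and_essFiniteType_of_finite (K := K1) (F := Compositum K F K1)
      (algebraMap F (Compositum K F K1) x) htr
  exact ⟨Compositum K F K1, inferInstance, inferInstance, inferInstance, inferInstance,
    inferInstance, inferInstance, hcurve, hess, Compositum.isConstExt_helper8094 K F K1⟩

end Fermat.Agent.S27.helper8788
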