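import Fermat.Agent.S27.helper5871_LefSpec
import Fermat.Agent.S27.helper3808_Down
import Fermat.Agent.S27.helper8788_Up
import Fermat.Agent.S27.helper518_BCGenus
import Fermat.Agent.S27.helper4996_Riemann

/-!
# S27, module M4 (Lefschetz transfer): assembly (A) closed up to `Stmt_BC_Pic` (helper5871)

`helper5871.transfer_of` with every landed input plugged in:

* `Stmt_Down`      : `helper3808.stmt_Down` (countable universe-0 model),
* `Stmt_Up`        : `helper8788.stmt_up_helper5871` (constant field extension to `ℂ`),
* `Stmt_BC_Genus`  : `helper518.bc_genus` with `helper4996.stmt_Riemann` on both sides.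

So assembly (A) of `helper6247.Stmt_Transfer` needs exactly ONE open `Prop`, `Stmt_BC_Pic`
(injectivity of `Pic⁰(F1) → Pic⁰(F2)` and descent of torsion classes), at the two universe
patterns `{0, 0, u, v}` (countable model inside `(K, F)`) and `{0, 0, 0, 0}` (countable model
inside the complex compositum).
-/

set_option autoImplicit false

namespace Fermat.Agent.S27.helper5871

/-- The genus is invariant under constant field extension (all inputs landed). -/
theorem stmt_BC_Genus.{u₁, v₁, u₂, v₂} : Stmt_BC_Genus.{u₁, v₁, u₂, v₂} :=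
  Fermat.Agent.S27.helper518.bc_genus Fermat.Agent.S27.helper4996.stmt_Riemann
    Fermat.Agent.S27.helper4996.stmt_Riemann

/-- **Assembly (A) of the Lefschetz transfer, closed up to `Stmt_BC_Pic`.** -/
theorem transfer_of_bc_pic.{u, v} (hP₁ : Stmt_BC_Pic.{0, 0, u, v})
    (hP₂ : Stmt_BC_Pic.{0, 0, 0, 0}) : helper6247.Stmt_Transfer.{u, v} :=
  transfer_of Fermat.Agent.S27.helper3808.stmt_Down
    Fermat.Agent.S27.helper8788.stmt_up_helper5871 stmt_BC_Genus hP₁ stmt_BC_Genus hP₂


end Fermat.Agent.S27.helper5871
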