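import Mathlib
import Fermat.Prelude.Def_AlgebraicCurve_DivisorClassGroup
import Fermat.Agent.S24.helper384_Count

/-!
# S27: the place of a simple point of a plane model (helper5967)

`K` any field, `F/K` a field extension, `t y : F`, `p : K[X][Y]` with `K(t, y) = F` and
`{P | P(t, y) = 0} = (p)` (`IsPlaneModel t y p`).  For a simple point `(a, b)` of the curve
`p = 0` (`p(a,b) = 0`, `∂p/∂Y (a,b) ≠ 0`; `IsSimplePoint p a b`) we construct the place
`pt hM hs : Place K F` and prove:

* `pt_ord_unif`   : `t - a` is a uniformizer at `pt`;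
* `mem_pt`        : the valuation ring of `pt` is `{N(t,y)/M(t,y) | M(a,b) ≠ 0}`;
* `pt_value`      : evaluation is substitution, `N(t,y)/M(t,y) ≡ N(a,b)/M(a,b)`;
* `pt_ord_eq_zero`, `pt_ord_pos`, `pt_ord_nonneg`, `pt_t`, `pt_y`;
* `pt_residue_surjective`, `pt_deg` : the residue field is `K`;
* `pt_unique`     : `pt` is the only place at which `t ≡ a` and `y ≡ b`;
* `place_aeval_sub` : at ANY place with `t ≡ a`, `y ≡ b`: `G(t,y) ≡ G(a,b)`.

Construction: `R = K[t,y] ⊆ F` is a noetherian domain with fraction field `F`; the local ring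
of `R` at the kernel of evaluation at `(a,b)` (as a subalgebra of `F`,
`Localization.subalgebra.ofField`) has maximal ideal generated by `t - a` because
`p = (X - a) c + (Y - b) B` with `B(a,b) = ∂p/∂Y (a,b) ≠ 0`; hence it is a DVR
(`IsDiscreteValuationRing.TFAE`), i.e. a place.  A DVR is a maximal subring, which gives
uniqueness.  The first part of the file is the same statement for an abstract point
`φ : R →ₐ[K] K` of a noetherian subalgebra `R ⊆ F` with a local generator `π`.
-/

set_option autoImplicit false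

open Polynomial Polynomial.Bivariate AlgebraicCurve

namespace Fermat.Agent.S27.helper5967

variable {K F : Type*} [Field K] [Field F] [Algebra K F]

section Abstract

variable (R : Subalgebra K F) (φ : R →ₐ[K] K)

/-- The maximal ideal of the point `φ`. -/
def ptIdeal : Ideal R := RingHom.ker (φ : R →+* K)

instance ptIdeal_isMaximal : (ptIdeal R φ).IsMaximal := by
  apply RingHom.ker_isMaximal_of_surjective
  intro c
  exact ⟨algebraMap K R c, by simp⟩

theorem mem_ptIdeal {r : R} : r ∈ ptIdeal R φ ↔ φ r = 0 := RingHom.mem_ker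

theorem ptIdeal_primeCompl_le : (ptIdeal R φ).primeCompl ≤ nonZeroDivisors R := by
  intro s hs
  rw [mem_nonZeroDivisors_iff_ne_zero]
  rintro rfl
  exact hs (by simp)

theorem isFractionRing_of_hfrac (hfrac : ∀ f : F, ∃ g h : R, h ≠ 0 ∧ f * (h : F) = (g : F)) :
    IsFractionRing R F := by
  apply IsFractionRing.of_field
  intro z
  obtain ⟨g, h, hh, hz⟩ := hfrac z
  refine ⟨g, h, ?_⟩
  have hh' : (h : F) ≠ 0 := fun h0 => hh (Subtype.ext h0)
  show z = (g : F) / (h : F)
  rw [← hz, mul_div_assoc, div_self hh', mul_one]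

/-- The local ring of the point as a subalgebra of `F`. -/
noncomputable def localRing (hfr : IsFractionRing R F) : Subalgebra R F :=
  Localization.subalgebra.ofField F (ptIdeal R φ).primeCompl (ptIdeal_primeCompl_le R φ)

theorem coe_ne_zero_of_map_ne_zero {h : R} (hh : φ h ≠ 0) : (h : F) ≠ 0 := by
  intro h0
  have : h = 0 := Subtype.ext h0
  subst this
  exact hh (by simp)

theorem mem_localRing (hfr : IsFractionRing R F) {x : F} :
    x ∈ localRing R φ hfr ↔ ∃ g h : R, φ h ≠ 0 ∧ x * (h : F) = (g : F) := by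
  constructor
  · rintro ⟨g, h, hh, rfl⟩
    have hh1 : φ h ≠ 0 := fun h0 => hh (by simpa [mem_ptIdeal] using h0)
    refine ⟨g, h, hh1, ?_⟩
    have hh' : (h : F) ≠ 0 := coe_ne_zero_of_map_ne_zero R φ hh1
    show (g : F) * (h : F)⁻¹ * (h : F) = (g : F)
    rw [inv_mul_cancel_right₀ hh']
  · rintro ⟨g, h, hh, hx⟩
    have hh' : (h : F) ≠ 0 := coe_ne_zero_of_map_ne_zero R φ hh
    refine ⟨g, h, fun h0 => hh (by simpa [mem_ptIdeal] using h0), ?_⟩
    show x = (g : F) * (h : F)⁻¹
    rw [← hx, mul_inv_cancel_right₀ hh']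

theorem coe_mem_localRing (hfr : IsFractionRing R F) (r : R) : (r : F) ∈ localRing R φ hfr :=
  (mem_localRing R φ hfr).mpr ⟨r, 1, by simp, by simp⟩

theorem localRing_isDVR [IsNoetherianRing R] (π : R) (hπ0 : π ≠ 0) (hπφ : φ π = 0)
    (hgen : ∀ r : R, φ r = 0 → ∃ u w : R, φ u ≠ 0 ∧ u * r = π * w)
    (hfr : IsFractionRing R F) :
    IsDiscreteValuationRing (localRing R φ hfr) := by
  set O := localRing R φ hfr with hO
  have : IsLocalization.AtPrime O (ptIdeal R φ) :=
    Localization.subalgebra.isLocalization_ofField F _ _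
  have : IsLocalRing O := IsLocalization.AtPrime.isLocalRing O (ptIdeal R φ)
  have : IsNoetherianRing O :=
    IsLocalization.isNoetherianRing (ptIdeal R φ).primeCompl O inferInstance
  have hmax : IsLocalRing.maximalIdeal O = Ideal.span {algebraMap R O π} := by
    rw [← IsLocalization.AtPrime.map_eq_maximalIdeal (ptIdeal R φ) O]
    apply le_antisymm
    · rw [Ideal.map_le_iff_le_comap]
      intro r hr
      rw [Ideal.mem_comap, Ideal.mem_span_singleton]
      obtain ⟨u, w, hu, huw⟩ := hgen r ((mem_ptIdeal R φ).mp hr)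
      have hu' : (u : F) ≠ 0 := coe_ne_zero_of_map_ne_zero R φ hu
      have hq : (w : F) * (u : F)⁻¹ ∈ O :=
        (mem_localRing R φ hfr).mpr ⟨w, u, hu, by rw [inv_mul_cancel_right₀ hu']⟩
      refine ⟨⟨_, hq⟩, Subtype.ext ?_⟩
      have h1 : (u : F) * (r : F) = (π : F) * (w : F) := by
        have := congrArg (Subtype.val) huw
        simpa using this
      show (r : F) = (π : F) * ((w : F) * (u : F)⁻¹)
      rw [← mul_assoc, ← h1, mul_comm (u : F), mul_inv_cancel_right₀ hu']
    · rw [Ideal.span_le, Set.singleton_subset_iff]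
      exact Ideal.mem_map_of_mem _ ((mem_ptIdeal R φ).mpr hπφ)
  have hnf : ¬ IsField O := by
    rw [IsLocalRing.isField_iff_maximalIdeal_eq, hmax, Ideal.span_singleton_eq_bot]
    intro h0
    apply hπ0
    have h1 : ((algebraMap R O π : O) : F) = 0 := by rw [h0]; rfl
    exact Subtype.ext h1
  have hp : (IsLocalRing.maximalIdeal O).IsPrincipal := ⟨⟨algebraMap R O π, hmax⟩⟩
  exact ((IsDiscreteValuationRing.TFAE O hnf).out 0 4).mpr hp


/-- The local ring of the point as a valuation subring of `F`. -/
noncomputable def localValSubring (hfr : IsFractionRing R F)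
    (hdvr : IsDiscreteValuationRing (localRing R φ hfr)) : ValuationSubring F where
  toSubring := (localRing R φ hfr).toSubring
  mem_or_inv_mem' := by
    intro x
    rcases ValuationRing.isInteger_or_isInteger (localRing R φ hfr) x with ⟨o, ho⟩ | ⟨o, ho⟩
    · left; rw [← ho]; exact o.2
    · right; rw [← ho]; exact o.2

theorem mem_localValSubring (hfr : IsFractionRing R F)
    (hdvr : IsDiscreteValuationRing (localRing R φ hfr)) {x : F} :
    x ∈ localValSubring R φ hfr hdvr ↔ ∃ g h : R, φ h ≠ 0 ∧ x * (h : F) = (g : F) :=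
  mem_localRing R φ hfr

/-- The identity ring isomorphism between the two incarnations of the local ring. -/
noncomputable def localEquiv (hfr : IsFractionRing R F)
    (hdvr : IsDiscreteValuationRing (localRing R φ hfr)) :
    (localRing R φ hfr) ≃+* (localValSubring R φ hfr hdvr) where
  toFun x := ⟨x.1, x.2⟩
  invFun x := ⟨x.1, x.2⟩
  left_inv _ := rfl
  right_inv _ := rfl
  map_mul' _ _ := rfl
  map_add' _ _ := rfl

/-- The place of `F` whose valuation ring is the local ring of the point `φ`. -/
noncomputable def ptPlace (hfr : IsFractionRing R F)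
    (hdvr : IsDiscreteValuationRing (localRing R φ hfr))
    (hnt : ∃ x : F, x ∉ localRing R φ hfr) : Place K F where
  toValuationSubring := localValSubring R φ hfr hdvr
  algebraMap_mem' c := coe_mem_localRing R φ hfr (algebraMap K R c)
  ne_top' := by
    intro h
    obtain ⟨x, hx⟩ := hnt
    apply hx
    have : x ∈ localValSubring R φ hfr hdvr := by rw [h]; exact ValuationSubring.mem_top x
    exact this
  isPrincipalIdealRing' :=
    IsPrincipalIdealRing.of_surjective (localEquiv R φ hfr hdvr).toRingHom
      (localEquiv R φ hfr hdvr).surjective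

theorem mem_ptPlace (hfr : IsFractionRing R F)
    (hdvr : IsDiscreteValuationRing (localRing R φ hfr))
    (hnt : ∃ x : F, x ∉ localRing R φ hfr) {x : F} :
    x ∈ (ptPlace R φ hfr hdvr hnt).toValuationSubring ↔
      ∃ g h : R, φ h ≠ 0 ∧ x * (h : F) = (g : F) :=
  mem_localRing R φ hfr


/-! ### Properties of a place whose valuation ring is the local ring of the point -/

open Fermat.Agent.S24.helper384 in
/-- `ord` of a sum of a term of order `0` and a term of positive order. -/
theorem ord_add_eq_zero (v : Place K F) {c r : F} (hc0 : c ≠ 0) (hc : v.ord c = 0)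
    (hr : r = 0 ∨ 0 < v.ord r) : c + r ≠ 0 ∧ v.ord (c + r) = 0 := by
  rcases hr with rfl | hr
  · simpa using ⟨hc0, hc⟩
  have hr0 : r ≠ 0 := by
    rintro rfl
    simp at hr
  have hne : c + r ≠ 0 := by
    intro h
    have : c = -r := eq_neg_of_add_eq_zero_left h
    rw [this, ord_neg] at hc
    omega
  refine ⟨hne, ?_⟩
  have h1 := ord_add_ge v hne
  have h2 : min (v.ord (c + r)) (v.ord (-r)) ≤ v.ord (c + r + -r) := by
    apply ord_add_ge
    simpa using hc0
  rw [add_neg_cancel_right, ord_neg, hc] at h2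
  rw [hc] at h1
  rcases le_total (v.ord (c + r)) (v.ord r) with h | h
  · rw [min_eq_left h] at h2
    rw [min_eq_left hr.le] at h1
    omega
  · rw [min_eq_right h] at h2
    omega

section PointPlace

variable {R φ}
variable (v : Place K F)
  (hv : ∀ x : F, x ∈ v.toValuationSubring ↔ ∃ g h : R, φ h ≠ 0 ∧ x * (h : F) = (g : F))

include hv

open Fermat.Agent.S24.helper384 in
theorem ptPlace_coe_mem (r : R) : (r : F) ∈ v.toValuationSubring :=
  (hv _).mpr ⟨r, 1, by simp, by simp⟩

open Fermat.Agent.S24.helper384 in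
/-- Functions not vanishing at the point are units. -/
theorem ptPlace_ord_eq_zero {r : R} (hr : φ r ≠ 0) : v.ord (r : F) = 0 := by
  have hr0 : (r : F) ≠ 0 := coe_ne_zero_of_map_ne_zero R φ hr
  have h1 : 0 ≤ v.ord (r : F) := ord_nonneg_of_mem v (ptPlace_coe_mem v hv r)
  have h2 : (r : F)⁻¹ ∈ v.toValuationSubring :=
    (hv _).mpr ⟨1, r, hr, by simp [hr0]⟩
  have h3 := ord_nonneg_of_mem v h2
  rw [v.ord_inv] at h3
  omega

open Fermat.Agent.S24.helper384 in
theorem ptPlace_ord_quot {x : F} {g h : R} (hh : φ h ≠ 0) (hx : x * (h : F) = (g : F))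
    (hg : (g : F) ≠ 0) : v.ord x = v.ord (g : F) := by
  have hh0 : (h : F) ≠ 0 := coe_ne_zero_of_map_ne_zero R φ hh
  have hx0 : x ≠ 0 := by
    rintro rfl
    apply hg
    rw [← hx, zero_mul]
  rw [← hx, v.ord_mul hx0 hh0, ptPlace_ord_eq_zero v hv hh, add_zero]

variable {π : R} (hπ0 : π ≠ 0) (hπφ : φ π = 0)
  (hgen : ∀ r : R, φ r = 0 → ∃ u w : R, φ u ≠ 0 ∧ u * r = π * w)

include hπ0 hπφ hgen

open Fermat.Agent.S24.helper384 in
/-- `π` is a uniformizer. -/
theorem ptPlace_ord_unif : v.ord (π : F) = 1 := by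
  have hπF : (π : F) ≠ 0 := fun h => hπ0 (Subtype.ext h)
  have h0 : 0 ≤ v.ord (π : F) := ord_nonneg_of_mem v (ptPlace_coe_mem v hv π)
  have hpos : 0 < v.ord (π : F) := by
    rcases h0.lt_or_eq with h | h
    · exact h
    exfalso
    have hinv : (π : F)⁻¹ ∈ v.toValuationSubring := by
      apply mem_of_ord_nonneg
      rw [v.ord_inv, ← h, neg_zero]
    obtain ⟨g, h', hh', hx⟩ := (hv _).mp hinv
    have : (h' : F) = (π : F) * (g : F) := by
      rw [← hx, ← mul_assoc, mul_inv_cancel₀ hπF, one_mul]
    have h2 : h' = π * g := Subtype.ext this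
    apply hh'
    rw [h2, map_mul, hπφ, zero_mul]
  obtain ⟨ϖ, hϖ⟩ := IsDiscreteValuationRing.exists_irreducible v.toValuationSubring
  have hϖ1 : v.ord (ϖ : F) = 1 := v.ord_coe_irreducible hϖ
  obtain ⟨g, h', hh', hx⟩ := (hv _).mp ϖ.2
  have hϖ0 : (ϖ : F) ≠ 0 := fun h => hϖ.ne_zero (Subtype.ext h)
  have hh0 : (h' : F) ≠ 0 := coe_ne_zero_of_map_ne_zero R φ hh'
  have hg0 : (g : F) ≠ 0 := by rw [← hx]; exact mul_ne_zero hϖ0 hh0
  have hg1 : v.ord (g : F) = 1 := by rw [← ptPlace_ord_quot v hv hh' hx hg0, hϖ1]
  have hgφ : φ g = 0 := by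
    by_contra hne
    have := ptPlace_ord_eq_zero v hv hne
    omega
  obtain ⟨u, w, hu, huw⟩ := hgen g hgφ
  have huw' : (u : F) * (g : F) = (π : F) * (w : F) := by
    have := congrArg (Subtype.val) huw
    simpa using this
  have hu0 : (u : F) ≠ 0 := coe_ne_zero_of_map_ne_zero R φ hu
  have hw0 : (w : F) ≠ 0 := by
    rintro hw
    rw [hw, mul_zero] at huw'
    exact mul_ne_zero hu0 hg0 huw'
  have h3 := congrArg v.ord huw'
  rw [v.ord_mul hu0 hg0, v.ord_mul hπF hw0, ptPlace_ord_eq_zero v hv hu, hg1] at h3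
  have h4 : 0 ≤ v.ord (w : F) := ord_nonneg_of_mem v (ptPlace_coe_mem v hv w)
  omega

open Fermat.Agent.S24.helper384 in
/-- Functions vanishing at the point have positive order. -/
theorem ptPlace_ord_pos {r : R} (hr : φ r = 0) (hr0 : (r : F) ≠ 0) : 0 < v.ord (r : F) := by
  have hπF : (π : F) ≠ 0 := fun h => hπ0 (Subtype.ext h)
  obtain ⟨u, w, hu, huw⟩ := hgen r hr
  have huw' : (u : F) * (r : F) = (π : F) * (w : F) := by
    have := congrArg (Subtype.val) huw
    simpa using this
  have hu0 : (u : F) ≠ 0 := coe_ne_zero_of_map_ne_zero R φ hu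
  have hw0 : (w : F) ≠ 0 := by
    rintro hw
    rw [hw, mul_zero] at huw'
    exact mul_ne_zero hu0 hr0 huw'
  have h3 := congrArg v.ord huw'
  rw [v.ord_mul hu0 hr0, v.ord_mul hπF hw0, ptPlace_ord_eq_zero v hv hu,
    ptPlace_ord_unif v hv hπ0 hπφ hgen] at h3
  have h4 : 0 ≤ v.ord (w : F) := ord_nonneg_of_mem v (ptPlace_coe_mem v hv w)
  omega

open Fermat.Agent.S24.helper384 in
/-- The value at the point: every element of the local ring is congruent to a constant. -/
theorem ptPlace_value {x : F} {g h : R} (hh : φ h ≠ 0) (hx : x * (h : F) = (g : F)) :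
    x - algebraMap K F (φ g / φ h) = 0 ∨ 0 < v.ord (x - algebraMap K F (φ g / φ h)) := by
  set c : K := φ g / φ h with hc
  have hh0 : (h : F) ≠ 0 := coe_ne_zero_of_map_ne_zero R φ hh
  set r : R := g - algebraMap K R c * h with hr
  have hrφ : φ r = 0 := by
    rw [hr, map_sub, map_mul, AlgHom.commutes, hc]
    simp [div_mul_cancel₀ _ hh]
  have hxr : (x - algebraMap K F c) * (h : F) = (r : F) := by
    rw [hr, sub_mul, hx]
    rfl
  by_cases hr0 : (r : F) = 0
  · left
    rw [hr0] at hxr
    exact (mul_eq_zero.mp hxr).resolve_right hh0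
  · right
    rw [ptPlace_ord_quot v hv hh hxr hr0]
    exact ptPlace_ord_pos v hv hπ0 hπφ hgen hrφ hr0

end PointPlace

section PointPlace2

variable {R φ}
variable (v : Place K F)
  (hv : ∀ x : F, x ∈ v.toValuationSubring ↔ ∃ g h : R, φ h ≠ 0 ∧ x * (h : F) = (g : F))

include hv

open Fermat.Agent.S24.helper384 in
/-- Uniqueness: a place containing `R` whose maximal ideal contains the ideal of the point is
the place of the point. -/
theorem ptPlace_unique (v' : Place K F)
    (hR' : ∀ r : R, (r : F) ∈ v'.toValuationSubring)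
    (hm' : ∀ r : R, φ r = 0 → (r : F) = 0 ∨ 0 < v'.ord (r : F)) : v' = v := by
  have step1 : ∀ h : R, φ h ≠ 0 → (h : F) ≠ 0 ∧ v'.ord (h : F) = 0 := by
    intro h hh
    set c : K := φ h with hc
    set r : R := h - algebraMap K R c with hr
    have hrφ : φ r = 0 := by
      rw [hr, map_sub, AlgHom.commutes, hc]
      simp
    have hsum : (h : F) = algebraMap K F c + (r : F) := by
      rw [hr]
      show (h : F) = algebraMap K F c + ((h : F) - algebraMap K F c)
      ring
    have hc0 : algebraMap K F c ≠ 0 := by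
      intro h0
      exact hh ((map_eq_zero (algebraMap K F)).mp h0)
    rw [hsum]
    exact ord_add_eq_zero v' hc0 (ord_algebraMap v' c) (hm' r hrφ)
  apply Place.ext
  apply SetLike.ext
  intro x
  constructor
  · intro hx
    by_contra hxv
    have hx0 : x ≠ 0 := by
      rintro rfl
      exact hxv (zero_mem _)
    have hinv : x⁻¹ ∈ v.toValuationSubring :=
      (v.toValuationSubring.mem_or_inv_mem x).resolve_left hxv
    obtain ⟨g, h, hh, hxg⟩ := (hv _).mp hinv
    have hh0 := (step1 h hh).1
    have hg0 : (g : F) ≠ 0 := by rw [← hxg]; exact mul_ne_zero (inv_ne_zero hx0) hh0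
    have hgφ : φ g = 0 := by
      by_contra hne
      apply hxv
      refine (hv _).mpr ⟨h, g, hne, ?_⟩
      rw [← hxg, ← mul_assoc, mul_inv_cancel₀ hx0, one_mul]
    have h1 := (hm' g hgφ).resolve_left hg0
    have h2 := congrArg v'.ord hxg
    rw [v'.ord_mul (inv_ne_zero hx0) hh0, v'.ord_inv, (step1 h hh).2] at h2
    have h3 := ord_nonneg_of_mem v' hx
    omega
  · intro hx
    obtain ⟨g, h, hh, hxg⟩ := (hv _).mp hx
    have hh0 := (step1 h hh).1
    by_cases hx0 : x = 0
    · rw [hx0]; exact zero_mem _
    apply mem_of_ord_nonneg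
    have h2 := congrArg v'.ord hxg
    rw [v'.ord_mul hx0 hh0, (step1 h hh).2, add_zero] at h2
    rw [h2]
    exact ord_nonneg_of_mem v' (hR' g)

variable {π : R} (hπ0 : π ≠ 0) (hπφ : φ π = 0)
  (hgen : ∀ r : R, φ r = 0 → ∃ u w : R, φ u ≠ 0 ∧ u * r = π * w)

include hπ0 hπφ hgen

open Fermat.Agent.S24.helper384 in
/-- The residue field of the place of the point is `K`. -/
theorem ptPlace_residue_surjective : Function.Surjective (algebraMap K v.ResidueField) := by
  intro xbar
  obtain ⟨x, rfl⟩ := IsLocalRing.residue_surjective xbar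
  obtain ⟨g, h, hh, hxg⟩ := (hv _).mp x.2
  refine ⟨φ g / φ h, ?_⟩
  have hval := ptPlace_value v hv hπ0 hπφ hgen hh hxg
  have hmem : x - algebraMap K v.toValuationSubring (φ g / φ h) ∈
      IsLocalRing.maximalIdeal v.toValuationSubring := by
    rw [mem_maximalIdeal_iff]
    exact hval
  have h2 : IsLocalRing.residue v.toValuationSubring
      (x - algebraMap K v.toValuationSubring (φ g / φ h)) = 0 := by
    rwa [IsLocalRing.residue_eq_zero_iff]
  rw [map_sub, sub_eq_zero] at h2
  rw [h2]
  rfl

/-- The place of the point has degree one. -/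
theorem ptPlace_deg : v.deg = 1 := by
  have hbij : Function.Bijective (algebraMap K v.ResidueField) :=
    ⟨(algebraMap K v.ResidueField).injective, ptPlace_residue_surjective v hv hπ0 hπφ hgen⟩
  show Module.finrank K v.ResidueField = 1
  rw [← Module.finrank_self K]
  exact ((AlgEquiv.ofBijective (Algebra.ofId K v.ResidueField) hbij).toLinearEquiv.finrank_eq).symm

end PointPlace2

end Abstract

/-! ## Plane models -/

section Plane

variable (t y : F)

variable (K) in
/-- The coordinate ring `K[t, y]` of a plane model, as a subalgebra of `F`. -/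
noncomputable def coordRing : Subalgebra K F := (aevalAeval t y : K[X][Y] →ₐ[K] F).range

variable (K) in
/-- Evaluation at `(t, y)` as a map onto the coordinate ring. -/
noncomputable def coordMk : K[X][Y] →ₐ[K] coordRing K t y := (aevalAeval t y).rangeRestrict

theorem coordMk_surjective : Function.Surjective (coordMk K t y) :=
  AlgHom.rangeRestrict_surjective _

@[simp]
theorem coe_coordMk (G : K[X][Y]) :
    ((coordMk K t y G : coordRing K t y) : F) = aevalAeval t y G :=
  rfl

instance coordRing_isNoetherianRing : IsNoetherianRing (coordRing K t y) :=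
  isNoetherianRing_of_surjective K[X][Y] _ (coordMk K t y).toRingHom (coordMk_surjective t y)

/-- Any `K`-algebra map out of `K[X][Y]` is determined by the images of the two variables. -/
theorem bivariate_algHom_ext {A : Type*} [CommSemiring A] [Algebra K A]
    {f g : K[X][Y] →ₐ[K] A} (hX : f (C X) = g (C X)) (hY : f Y = g Y) : f = g := by
  apply (aevalAevalEquiv K A).symm.injective
  exact Prod.ext hX hY

/-- The range of evaluation at `(t, y)` lies in any subalgebra containing `t` and `y`. -/
theorem aevalAeval_mem_of_mem (S : Subalgebra K F) (ht : t ∈ S) (hy : y ∈ S) (G : K[X][Y]) :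
    aevalAeval t y G ∈ S := by
  have h : S.val.comp (aevalAeval (⟨t, ht⟩ : S) ⟨y, hy⟩) = aevalAeval t y := by
    apply bivariate_algHom_ext
    · simp
    · simp
  rw [← h]
  exact (aevalAeval (⟨t, ht⟩ : S) ⟨y, hy⟩ G).2

theorem coordRing_hfrac (hgenF : IntermediateField.adjoin K {t, y} = ⊤) (f : F) :
    ∃ g h : coordRing K t y, h ≠ 0 ∧ f * (h : F) = (g : F) := by
  have hf : f ∈ IntermediateField.adjoin K {t, y} := by rw [hgenF]; trivial
  obtain ⟨r, hr, s, hs, rfl⟩ := IntermediateField.mem_adjoin_iff_div.mp hf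
  have hle : Algebra.adjoin K {t, y} ≤ coordRing K t y := by
    apply Algebra.adjoin_le
    rintro x (rfl | rfl)
    · exact ⟨C X, by simp⟩
    · exact ⟨Y, by simp⟩
  by_cases hs0 : s = 0
  · refine ⟨0, 1, one_ne_zero, ?_⟩
    simp [hs0]
  · refine ⟨⟨r, hle hr⟩, ⟨s, hle hs⟩, fun h => hs0 (congrArg Subtype.val h), ?_⟩
    show r / s * s = r
    rw [div_mul_cancel₀ _ hs0]


/-- `p` is a plane model of `F/K` with coordinates `t`, `y`: the two coordinates generate `F`
and the polynomial relations between them are exactly the multiples of `p`. -/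
structure IsPlaneModel (t y : F) (p : K[X][Y]) : Prop where
  gen : IntermediateField.adjoin K {t, y} = ⊤
  ker : ∀ P : K[X][Y], aevalAeval t y P = 0 → p ∣ P
  zero : aevalAeval t y p = 0

/-- `(a, b)` is a simple point of the plane curve `p = 0`. -/
structure IsSimplePoint (p : K[X][Y]) (a b : K) : Prop where
  zero : p.evalEval a b = 0
  deriv : (derivative p).evalEval a b ≠ 0

variable {t y} {p : K[X][Y]} {a b : K}

/-- Evaluation at a point of the curve, as an algebra map on the coordinate ring. -/
noncomputable def ptHom (hker : ∀ P : K[X][Y], aevalAeval t y P = 0 → p ∣ P)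
    (hp : p.evalEval a b = 0) : coordRing K t y →ₐ[K] K :=
  AlgHom.liftOfSurjective (coordMk K t y) (coordMk_surjective t y) (aevalAeval a b) (by
    intro G hG
    rw [RingHom.mem_ker] at hG ⊢
    have h0 : aevalAeval t y G = 0 := congrArg Subtype.val hG
    obtain ⟨Q, rfl⟩ := hker G h0
    show aevalAeval a b (p * Q) = 0
    rw [map_mul, coe_aevalAeval_eq_evalEval, hp, zero_mul])

@[simp]
theorem ptHom_coordMk (hker : ∀ P : K[X][Y], aevalAeval t y P = 0 → p ∣ P)
    (hp : p.evalEval a b = 0) (G : K[X][Y]) :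
    ptHom hker hp (coordMk K t y G) = G.evalEval a b := by
  rw [ptHom, AlgHom.liftOfSurjective_apply, coe_aevalAeval_eq_evalEval]

/-- Splitting off the value at `(a, b)`:
`G = G(a,b) + (X - a) * q + (Y - b) * Q`. -/
theorem exists_decomp (G : K[X][Y]) (a b : K) :
    ∃ (q : K[X]) (Q : K[X][Y]),
      G = C (C (G.evalEval a b)) + C (X - C a) * C q + (Y - C (C b)) * Q := by
  obtain ⟨Q, hQ⟩ := X_sub_C_dvd_sub_C_eval (a := C b) (p := G)
  obtain ⟨q, hq⟩ := X_sub_C_dvd_sub_C_eval (a := a) (p := G.eval (C b))
  refine ⟨q, Q, ?_⟩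
  have h1 : G = C (G.eval (C b)) + (Y - C (C b)) * Q := by rw [← hQ]; ring
  have h2 : G.eval (C b) = C (G.evalEval a b) + (X - C a) * q := by
    rw [← hq]; ring
  conv_lhs => rw [h1, h2]
  rw [C_add, C_mul]

end Plane

/-! ## The place of a simple point -/

section SimplePt

variable {t y : F} {p : K[X][Y]} {a b : K}

variable (K) in
/-- The function `t - a` as an element of the coordinate ring. -/
noncomputable def unif (t y : F) (a : K) : coordRing K t y := coordMk K t y (C (X - C a))

@[simp]
theorem coe_unif : ((unif K t y a : coordRing K t y) : F) = t - algebraMap K F a := by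
  simp [unif]

theorem ptHom_unif (hker : ∀ P : K[X][Y], aevalAeval t y P = 0 → p ∣ P)
    (hp : p.evalEval a b = 0) : ptHom hker hp (unif K t y a) = 0 := by
  rw [unif, ptHom_coordMk, evalEval_C, eval_sub, eval_X, eval_C, sub_self]

theorem derivative_evalEval_of_decomp {c : K[X]} {B : K[X][Y]}
    (hB : p = C (X - C a) * C c + (Y - C (C b)) * B) :
    (derivative p).evalEval a b = B.evalEval a b := by
  have h : derivative p = B + (Y - C (C b)) * derivative B := by
    conv_lhs => rw [hB]
    simp [derivative_mul]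
  rw [h]
  simp

theorem unif_ne_zero (hM : IsPlaneModel t y p) (hs : IsSimplePoint p a b) :
    unif K t y a ≠ 0 := by
  intro h0
  have h1 : aevalAeval t y (C (X - C a) : K[X][Y]) = 0 := congrArg Subtype.val h0
  have h2 := hM.ker _ h1
  have hne : (C (X - C a) : K[X][Y]) ≠ 0 := C_ne_zero.mpr (X_sub_C_ne_zero a)
  have h3 := natDegree_le_of_dvd h2 hne
  rw [natDegree_C] at h3
  have h4 : p = C (p.coeff 0) := eq_C_of_natDegree_eq_zero (Nat.le_zero.mp h3)
  apply hs.deriv
  rw [h4, derivative_C]
  simp

theorem plane_hgen (hM : IsPlaneModel t y p) (hs : IsSimplePoint p a b)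
    (r : coordRing K t y) (hr : ptHom hM.ker hs.zero r = 0) :
    ∃ u w : coordRing K t y, ptHom hM.ker hs.zero u ≠ 0 ∧ u * r = unif K t y a * w := by
  obtain ⟨G, rfl⟩ := coordMk_surjective t y r
  rw [ptHom_coordMk] at hr
  obtain ⟨q, Q, hG⟩ := exists_decomp G a b
  rw [hr] at hG
  obtain ⟨c, B, hB⟩ := exists_decomp p a b
  rw [hs.zero] at hB
  have hG' : G = C (X - C a) * C q + (Y - C (C b)) * Q := by
    rw [hG]; simp
  have hB' : p = C (X - C a) * C c + (Y - C (C b)) * B := by
    conv_lhs => rw [hB]
    simp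
  refine ⟨coordMk K t y B, coordMk K t y (B * C q - C c * Q), ?_, ?_⟩
  · rw [ptHom_coordMk, ← derivative_evalEval_of_decomp hB']
    exact hs.deriv
  · have hid : B * G - C (X - C a) * (B * C q - C c * Q) = Q * p := by
      linear_combination B * hG' - Q * hB'
    have hp0 : coordMk K t y p = 0 := Subtype.ext hM.zero
    have h := congrArg (coordMk K t y) hid
    rw [map_sub, map_mul, map_mul, map_mul (coordMk K t y) Q p, hp0, mul_zero, sub_eq_zero] at h
    exact h

/-- The fraction field of the coordinate ring of a plane model is `F`. -/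
theorem plane_isFractionRing (hM : IsPlaneModel t y p) : IsFractionRing (coordRing K t y) F :=
  isFractionRing_of_hfrac _ (coordRing_hfrac t y hM.gen)

theorem plane_isDVR (hM : IsPlaneModel t y p) (hs : IsSimplePoint p a b) :
    IsDiscreteValuationRing
      (localRing (coordRing K t y) (ptHom hM.ker hs.zero) (plane_isFractionRing hM)) :=
  localRing_isDVR _ _ (unif K t y a) (unif_ne_zero hM hs) (ptHom_unif hM.ker hs.zero)
    (plane_hgen hM hs) _

theorem plane_hnt (hM : IsPlaneModel t y p) (hs : IsSimplePoint p a b) :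
    ∃ x : F, x ∉ localRing (coordRing K t y) (ptHom hM.ker hs.zero) (plane_isFractionRing hM) := by
  refine ⟨(t - algebraMap K F a)⁻¹, fun hmem => ?_⟩
  obtain ⟨g, h, hh, hx⟩ := (mem_localRing _ _ _).mp hmem
  have hπF : t - algebraMap K F a ≠ 0 := by
    rw [← coe_unif (y := y)]
    exact fun h0 => unif_ne_zero hM hs (Subtype.ext h0)
  have h1 : (h : F) = ((unif K t y a : coordRing K t y) : F) * (g : F) := by
    rw [← hx, coe_unif, ← mul_assoc, mul_inv_cancel₀ hπF, one_mul]
  have h2 : h = unif K t y a * g := Subtype.ext h1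
  apply hh
  rw [h2, map_mul, ptHom_unif, zero_mul]

/-- **The place of a simple point** `(a, b)` of a plane model. -/
noncomputable def pt (hM : IsPlaneModel t y p) (hs : IsSimplePoint p a b) : Place K F :=
  ptPlace (coordRing K t y) (ptHom hM.ker hs.zero) (plane_isFractionRing hM)
    (plane_isDVR hM hs) (plane_hnt hM hs)

theorem mem_pt' (hM : IsPlaneModel t y p) (hs : IsSimplePoint p a b) (x : F) :
    x ∈ (pt hM hs).toValuationSubring ↔
      ∃ g h : coordRing K t y, ptHom hM.ker hs.zero h ≠ 0 ∧ x * (h : F) = (g : F) :=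
  mem_ptPlace _ _ _ _ _

/-- Membership in the valuation ring of the place of a simple point. -/
theorem mem_pt (hM : IsPlaneModel t y p) (hs : IsSimplePoint p a b) {x : F} :
    x ∈ (pt hM hs).toValuationSubring ↔
      ∃ G H : K[X][Y], H.evalEval a b ≠ 0 ∧ x * aevalAeval t y H = aevalAeval t y G := by
  rw [mem_pt']
  constructor
  · rintro ⟨g, h, hh, hx⟩
    obtain ⟨G, rfl⟩ := coordMk_surjective t y g
    obtain ⟨H, rfl⟩ := coordMk_surjective t y h
    exact ⟨G, H, by simpa using hh, by simpa using hx⟩
  · rintro ⟨G, H, hH, hx⟩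
    exact ⟨coordMk K t y G, coordMk K t y H, by simpa using hH, by simpa using hx⟩

end SimplePt

/-! ## API of the place of a simple point (polynomial language) -/

section API

open Fermat.Agent.S24.helper384

variable {t y : F} {p : K[X][Y]} {a b : K}

/-! ### Arbitrary places through a point -/

/-- If `t ≡ a` at the place `v`, then `t` is regular at `v`. -/
theorem mem_of_sub_const (v : Place K F) {s : F} {c : K}
    (hs : s - algebraMap K F c = 0 ∨ 0 < v.ord (s - algebraMap K F c)) :
    s ∈ v.toValuationSubring := by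
  have h1 : s - algebraMap K F c ∈ v.toValuationSubring := by
    rcases hs with h | h
    · rw [h]; exact zero_mem _
    · exact mem_of_ord_nonneg v h.le
  have h2 : s = (s - algebraMap K F c) + algebraMap K F c := by ring
  rw [h2]
  exact add_mem h1 (v.algebraMap_mem' c)

/-- Polynomials in `t`, `y` are regular wherever `t` and `y` are. -/
theorem place_aeval_mem (v : Place K F) (ht : t ∈ v.toValuationSubring)
    (hy : y ∈ v.toValuationSubring) (G : K[X][Y]) :
    aevalAeval t y G ∈ v.toValuationSubring :=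
  aevalAeval_mem_of_mem t y (placeSubalgebra v) ht hy G

/-- **Evaluation is substitution**: at a place where `t ≡ a` and `y ≡ b`, every polynomial
`G(t, y)` is congruent to the constant `G(a, b)`. -/
theorem place_aeval_sub (v : Place K F)
    (ht : t - algebraMap K F a = 0 ∨ 0 < v.ord (t - algebraMap K F a))
    (hy : y - algebraMap K F b = 0 ∨ 0 < v.ord (y - algebraMap K F b)) (G : K[X][Y]) :
    aevalAeval t y G - algebraMap K F (G.evalEval a b) = 0 ∨
      0 < v.ord (aevalAeval t y G - algebraMap K F (G.evalEval a b)) := by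
  have htV := mem_of_sub_const v ht
  have hyV := mem_of_sub_const v hy
  obtain ⟨q, Q, hG⟩ := exists_decomp G a b
  have h0 : aevalAeval t y G = algebraMap K F (G.evalEval a b) +
      (t - algebraMap K F a) * aevalAeval t y (C q : K[X][Y]) +
        (y - algebraMap K F b) * aevalAeval t y Q := by
    conv_lhs => rw [hG]
    simp
  have h1 : aevalAeval t y G - algebraMap K F (G.evalEval a b) =
      (t - algebraMap K F a) * aevalAeval t y (C q : K[X][Y]) +
        (y - algebraMap K F b) * aevalAeval t y Q := by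
    rw [h0]; ring
  rw [h1]
  have hta : t - algebraMap K F a ∈ v.toValuationSubring :=
    sub_mem htV (v.algebraMap_mem' a)
  have hyb : y - algebraMap K F b ∈ v.toValuationSubring :=
    sub_mem hyV (v.algebraMap_mem' b)
  have m1 : (⟨_, hta⟩ : v.toValuationSubring) ∈ IsLocalRing.maximalIdeal v.toValuationSubring :=
    (mem_maximalIdeal_iff v _).mpr ht
  have m2 : (⟨_, hyb⟩ : v.toValuationSubring) ∈ IsLocalRing.maximalIdeal v.toValuationSubring :=
    (mem_maximalIdeal_iff v _).mpr hy
  have m3 := Ideal.add_mem _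
    (Ideal.mul_mem_right (⟨_, place_aeval_mem v htV hyV (C q)⟩ : v.toValuationSubring) _ m1)
    (Ideal.mul_mem_right (⟨_, place_aeval_mem v htV hyV Q⟩ : v.toValuationSubring) _ m2)
  exact (mem_maximalIdeal_iff v _).mp m3

/-- A nonzero constant is not congruent to `0` at any place. -/
theorem const_eq_zero_of_ord_pos (v : Place K F) {c : K}
    (h : algebraMap K F c = 0 ∨ 0 < v.ord (algebraMap K F c)) : c = 0 := by
  rcases h with h | h
  · exact (map_eq_zero (algebraMap K F)).mp h
  · rw [ord_algebraMap] at h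
    exact absurd h (lt_irrefl _)

/-- Congruence to a constant at a place determines the constant. -/
theorem const_unique (v : Place K F) {s : F} {c c' : K}
    (h : s - algebraMap K F c = 0 ∨ 0 < v.ord (s - algebraMap K F c))
    (h' : s - algebraMap K F c' = 0 ∨ 0 < v.ord (s - algebraMap K F c')) : c = c' := by
  have hV := mem_of_sub_const v h
  have e1 : s - algebraMap K F c ∈ v.toValuationSubring := sub_mem hV (v.algebraMap_mem' c)
  have e2 : s - algebraMap K F c' ∈ v.toValuationSubring := sub_mem hV (v.algebraMap_mem' c')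
  have m1 : (⟨_, e1⟩ : v.toValuationSubring) ∈ IsLocalRing.maximalIdeal v.toValuationSubring :=
    (mem_maximalIdeal_iff v _).mpr h
  have m2 : (⟨_, e2⟩ : v.toValuationSubring) ∈ IsLocalRing.maximalIdeal v.toValuationSubring :=
    (mem_maximalIdeal_iff v _).mpr h'
  have m3 := (mem_maximalIdeal_iff v _).mp (Ideal.sub_mem _ m2 m1)
  have m4 : algebraMap K F (c - c') = 0 ∨ 0 < v.ord (algebraMap K F (c - c')) := by
    have e : algebraMap K F (c - c') = s - algebraMap K F c' - (s - algebraMap K F c) := by
      rw [map_sub]; ring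
    rw [e]
    exact m3
  exact sub_eq_zero.mp (const_eq_zero_of_ord_pos v m4)

/-! ### The place of a simple point -/

variable (hM : IsPlaneModel t y p) (hs : IsSimplePoint p a b)

include hM hs in
theorem sub_const_ne_zero : t - algebraMap K F a ≠ 0 := by
  rw [← coe_unif (y := y)]
  exact fun h0 => unif_ne_zero hM hs (Subtype.ext h0)

/-- `t - a` is a uniformizer at the place of the simple point `(a, b)`. -/
theorem pt_ord_unif : (pt hM hs).ord (t - algebraMap K F a) = 1 := by
  have h := ptPlace_ord_unif (pt hM hs) (mem_pt' hM hs) (unif_ne_zero hM hs)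
    (ptHom_unif hM.ker hs.zero) (plane_hgen hM hs)
  rwa [coe_unif] at h

include hM hs in
theorem aeval_ne_zero_of_evalEval_ne_zero {H : K[X][Y]} (hH : H.evalEval a b ≠ 0) :
    aevalAeval t y H ≠ 0 := by
  intro h0
  obtain ⟨Q, rfl⟩ := hM.ker H h0
  apply hH
  rw [evalEval_mul, hs.zero, zero_mul]

/-- Polynomials not vanishing at `(a, b)` are units at the place of the point. -/
theorem pt_ord_eq_zero {H : K[X][Y]} (hH : H.evalEval a b ≠ 0) :
    (pt hM hs).ord (aevalAeval t y H) = 0 := by
  have h := ptPlace_ord_eq_zero (pt hM hs) (mem_pt' hM hs) (r := coordMk K t y H)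
    (by simpa using hH)
  simpa using h

/-- Polynomials in `t`, `y` are regular at the place of the point. -/
theorem pt_aeval_mem (G : K[X][Y]) : aevalAeval t y G ∈ (pt hM hs).toValuationSubring :=
  ptPlace_coe_mem (pt hM hs) (mem_pt' hM hs) (coordMk K t y G)

theorem pt_ord_nonneg (G : K[X][Y]) : 0 ≤ (pt hM hs).ord (aevalAeval t y G) :=
  ord_nonneg_of_mem _ (pt_aeval_mem hM hs G)

/-- Polynomials vanishing at `(a, b)` have positive order at the place of the point. -/
theorem pt_ord_pos {G : K[X][Y]} (hG : G.evalEval a b = 0) (hG0 : aevalAeval t y G ≠ 0) :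
    0 < (pt hM hs).ord (aevalAeval t y G) := by
  have h := ptPlace_ord_pos (pt hM hs) (mem_pt' hM hs) (unif_ne_zero hM hs)
    (ptHom_unif hM.ker hs.zero) (plane_hgen hM hs) (r := coordMk K t y G)
    (by simpa using hG) (by simpa using hG0)
  simpa using h

/-- **Value at the point**: a quotient `f = G(t,y)/H(t,y)` with `H(a,b) ≠ 0` is congruent to the
constant `G(a,b)/H(a,b)` at the place of the point. -/
theorem pt_value {f : F} {G H : K[X][Y]} (hH : H.evalEval a b ≠ 0)
    (hf : f * aevalAeval t y H = aevalAeval t y G) :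
    f - algebraMap K F (G.evalEval a b / H.evalEval a b) = 0 ∨
      0 < (pt hM hs).ord (f - algebraMap K F (G.evalEval a b / H.evalEval a b)) := by
  have h := ptPlace_value (pt hM hs) (mem_pt' hM hs) (unif_ne_zero hM hs)
    (ptHom_unif hM.ker hs.zero) (plane_hgen hM hs) (x := f) (g := coordMk K t y G)
    (h := coordMk K t y H) (by simpa using hH) (by simpa using hf)
  simpa using h

/-- At the place of the point, `t ≡ a`. -/
theorem pt_t : 0 < (pt hM hs).ord (t - algebraMap K F a) := by
  rw [pt_ord_unif]; exact one_pos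

/-- At the place of the point, `y ≡ b`. -/
theorem pt_y : y - algebraMap K F b = 0 ∨ 0 < (pt hM hs).ord (y - algebraMap K F b) := by
  have h := pt_value hM hs (f := y) (G := Y) (H := 1) (by simp) (by simp)
  simpa using h

/-- The residue field of the place of a simple point is `K`. -/
theorem pt_residue_surjective : Function.Surjective (algebraMap K (pt hM hs).ResidueField) :=
  ptPlace_residue_surjective (pt hM hs) (mem_pt' hM hs) (unif_ne_zero hM hs)
    (ptHom_unif hM.ker hs.zero) (plane_hgen hM hs)

/-- The place of a simple point has degree one. -/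
theorem pt_deg : (pt hM hs).deg = 1 :=
  ptPlace_deg (pt hM hs) (mem_pt' hM hs) (unif_ne_zero hM hs)
    (ptHom_unif hM.ker hs.zero) (plane_hgen hM hs)

/-- **Uniqueness**: the place of the simple point `(a, b)` is the only place of `F` at which
`t ≡ a` and `y ≡ b`. -/
theorem pt_unique (v : Place K F)
    (ht : t - algebraMap K F a = 0 ∨ 0 < v.ord (t - algebraMap K F a))
    (hy : y - algebraMap K F b = 0 ∨ 0 < v.ord (y - algebraMap K F b)) : v = pt hM hs := by
  apply ptPlace_unique (pt hM hs) (mem_pt' hM hs) v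
  · intro r
    obtain ⟨G, rfl⟩ := coordMk_surjective t y r
    exact place_aeval_mem v (mem_of_sub_const v ht) (mem_of_sub_const v hy) G
  · intro r hr
    obtain ⟨G, rfl⟩ := coordMk_surjective t y r
    rw [ptHom_coordMk] at hr
    have h := place_aeval_sub v ht hy G
    rw [hr, map_zero, sub_zero] at h
    exact h

end API

end Fermat.Agent.S27.helper5967
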