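import Mathlib
import Fermat.Prelude.Def_AlgebraicCurve_DivisorClassGroup
import Fermat.Agent.S24.helper384_Count

/-!
# S27-CHART: simple points of a plane model are places

`F/K` a field extension, `t y : F` generators, `p ∈ K[X][Y]` generating the kernel of
`K[X][Y] → F`.  At a simple point `(a, b)` of the plane model (`p(a,b) = 0`, `p_Y(a,b) ≠ 0`)
there is exactly one place of `F/K` centred at `(a, b)`; `t - a` is a uniformizer and
evaluation of functions is substitution.
-/

set_option autoImplicit false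

open Polynomial AlgebraicCurve

namespace Fermat.Agent.S27.helper6028

/-! ### Part 0 : Taylor decomposition in `K[X][Y]` -/

section Taylor

variable {K : Type*} [Field K]

/-- Every bivariate polynomial is `(X - a) * A + (Y - b) * B + G(a,b)`. -/
theorem taylor_decomp (a b : K) (G : K[X][X]) :
    G = C (X - C a) * C ((G.eval (C b)) /ₘ (X - C a)) + (X - C (C b)) * (G /ₘ (X - C (C b)))
      + C (C (G.evalEval a b)) := by
  have h1 : G = (X - C (C b)) * (G /ₘ (X - C (C b))) + C (G.eval (C b)) := by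
    have := modByMonic_add_div G (X - C (C b))
    rw [modByMonic_X_sub_C_eq_C_eval] at this
    rw [add_comm]; exact this.symm
  have h2 : G.eval (C b) = (X - C a) * ((G.eval (C b)) /ₘ (X - C a)) + C (G.evalEval a b) := by
    have := modByMonic_add_div (G.eval (C b)) (X - C a)
    rw [modByMonic_X_sub_C_eq_C_eval] at this
    rw [add_comm]; exact this.symm
  conv_lhs => rw [h1, h2]
  rw [C_add, C_mul]
  ring

/-- The `Y`-quotient of `p` by `Y - b` evaluates at `(a, b)` to the `Y`-derivative. -/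
theorem evalEval_divByMonic (a b : K) (p : K[X][X]) :
    (p /ₘ (X - C (C b))).evalEval a b = (derivative p).evalEval a b := by
  have h1 : p = (X - C (C b)) * (p /ₘ (X - C (C b))) + C (p.eval (C b)) := by
    have := modByMonic_add_div p (X - C (C b))
    rw [modByMonic_X_sub_C_eq_C_eval] at this
    rw [add_comm]; exact this.symm
  have h2 : derivative p = (p /ₘ (X - C (C b)))
      + (X - C (C b)) * derivative (p /ₘ (X - C (C b))) := by
    conv_lhs => rw [h1]
    simp [derivative_mul]
  rw [h2]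
  simp [evalEval]

end Taylor


/-! ### Part 1 : abstract local data — a maximal ideal that is locally principal -/

section Krull

variable {Q : Type*} [CommRing Q] [IsDomain Q] [IsNoetherianRing Q]

/-- If the maximal ideal `I` of a noetherian domain is generated by `π` after inverting
one element `B ∉ I`, every nonzero element is `π ^ k` times a unit at `I`. -/
theorem exists_pow_mul_unit (I : Ideal Q) [hI : I.IsMaximal] (π : Q) (hπ : π ∈ I) (B : Q)
    (hB : B ∉ I) (hgen : ∀ g ∈ I, ∃ g₂, B * g = π * g₂) (g : Q) (hg : g ≠ 0) :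
    ∃ (k : ℕ) (u h : Q), u ∉ I ∧ h ∉ I ∧ h * g = π ^ k * u := by
  have hkrull : (⨅ i : ℕ, I ^ i) = ⊥ := Ideal.iInf_pow_eq_bot_of_isDomain I hI.ne_top
  have hex : ∃ n, g ∉ I ^ n := by
    by_contra hcon
    have h1 : g ∈ (⨅ i : ℕ, I ^ i) := by
      rw [Ideal.mem_iInf]; exact fun n => by_contra fun hn => hcon ⟨n, hn⟩
    rw [hkrull] at h1
    exact hg (by simpa using h1)
  obtain ⟨n, hn⟩ := hex
  induction n generalizing g with
  | zero => simp at hn
  | succ n ih =>
    by_cases hgI : g ∈ I
    · obtain ⟨g₂, hg₂⟩ := hgen g hgI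
      have hg₂n : g₂ ∉ I ^ n := by
        intro hmem
        have h1 : π * g₂ ∈ I ^ (n + 1) := by
          rw [pow_succ']
          exact Ideal.mul_mem_mul hπ hmem
        rw [← hg₂, mul_comm] at h1
        have hrad : (I ^ (n + 1)).radical = I := by
          rw [Ideal.radical_pow I (Nat.succ_ne_zero n), hI.isPrime.radical]
        have hprim : (I ^ (n + 1)).IsPrimary :=
          Ideal.isPrimary_of_isMaximal_radical (by rw [hrad]; exact hI)
        rcases (Ideal.isPrimary_iff.mp hprim).2 h1 with h2 | h2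
        · exact hn h2
        · rw [hrad] at h2; exact hB h2
      have hg₂0 : g₂ ≠ 0 := by
        rintro rfl; exact hg₂n (zero_mem _)
      obtain ⟨k, u, h, hu, hh, e⟩ := ih g₂ hg₂0 hg₂n
      refine ⟨k + 1, u, h * B, hu, ?_, ?_⟩
      · intro hmem
        rcases hI.isPrime.mem_or_mem hmem with h1 | h1
        exacts [hh h1, hB h1]
      · rw [mul_assoc, hg₂, pow_succ]
        linear_combination π * e
    · exact ⟨0, g, 1, hgI, (Ideal.ne_top_iff_one I).mp hI.ne_top, by simp⟩

end Krull

/-- Abstract local data: a domain `Q` with fraction field `F` (through `φ`), a maximal ideal `I`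
and an element `π ∈ I` such that every nonzero element of `Q` is `π ^ k` times a unit at `I`. -/
structure LocalData (K Q F : Type*) [Field K] [CommRing Q] [Field F] [Algebra K F] where
  I : Ideal Q
  hI : I.IsMaximal
  π : Q
  hπ : π ∈ I
  hπ0 : π ≠ 0
  φ : Q →+* F
  hφ : Function.Injective φ
  hfrac : ∀ f : F, ∃ G H : Q, H ≠ 0 ∧ f * φ H = φ G
  hKP : ∀ g : Q, g ≠ 0 → ∃ (k : ℕ) (u h : Q), u ∉ I ∧ h ∉ I ∧ h * g = π ^ k * u
  hconst : ∀ c : K, c ≠ 0 → ∃ q : Q, q ∉ I ∧ φ q = algebraMap K F c

namespace LocalData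

variable {K Q F : Type*} [Field K] [CommRing Q] [Field F] [Algebra K F] (D : LocalData K Q F)

/-- The uniformizer in `F`. -/
def τ : F := D.φ D.π

theorem one_not_mem : (1 : Q) ∉ D.I := (Ideal.ne_top_iff_one D.I).mp D.hI.ne_top

theorem mul_not_mem {x y : Q} (hx : x ∉ D.I) (hy : y ∉ D.I) : x * y ∉ D.I := by
  intro h
  rcases D.hI.isPrime.mem_or_mem h with h1 | h1
  exacts [hx h1, hy h1]

theorem φ_ne_zero {q : Q} (hq : q ∉ D.I) : D.φ q ≠ 0 := by
  intro h
  apply hq
  have : q = 0 := D.hφ (by rw [h, map_zero])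
  rw [this]; exact zero_mem _

theorem φ_ne_zero' {q : Q} (hq : q ≠ 0) : D.φ q ≠ 0 := by
  intro h
  exact hq (D.hφ (by rw [h, map_zero]))

theorem τ_ne_zero : D.τ ≠ 0 := D.φ_ne_zero' D.hπ0

/-- `f` is a unit at `I`. -/
def IsU (f : F) : Prop := ∃ u h : Q, u ∉ D.I ∧ h ∉ D.I ∧ f * D.φ h = D.φ u

theorem IsU.ne_zero {D : LocalData K Q F} {f : F} (h : D.IsU f) : f ≠ 0 := by
  obtain ⟨u, h', hu, -, e⟩ := h
  rintro rfl
  rw [zero_mul] at e
  exact D.φ_ne_zero hu e.symm

theorem isU_one : D.IsU 1 := ⟨1, 1, D.one_not_mem, D.one_not_mem, by simp⟩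

theorem IsU.mul {D : LocalData K Q F} {f g : F} (hf : D.IsU f) (hg : D.IsU g) :
    D.IsU (f * g) := by
  obtain ⟨u, h, hu, hh, e⟩ := hf
  obtain ⟨u', h', hu', hh', e'⟩ := hg
  refine ⟨u * u', h * h', D.mul_not_mem hu hu', D.mul_not_mem hh hh', ?_⟩
  rw [map_mul, map_mul, ← e, ← e']; ring

theorem IsU.inv {D : LocalData K Q F} {f : F} (hf : D.IsU f) : D.IsU f⁻¹ := by
  have hf0 := hf.ne_zero
  obtain ⟨u, h, hu, hh, e⟩ := hf
  refine ⟨h, u, hh, hu, ?_⟩
  rw [← e]; field_simp

theorem isU_φ {q : Q} (hq : q ∉ D.I) : D.IsU (D.φ q) :=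
  ⟨q, 1, hq, D.one_not_mem, by simp⟩

theorem not_isU_τ_pow {n : ℕ} (hn : n ≠ 0) : ¬ D.IsU (D.τ ^ n) := by
  rintro ⟨u, h, hu, -, e⟩
  apply hu
  have : u = D.π ^ n * h := D.hφ (by rw [← e, map_mul, map_pow]; rfl)
  rw [this]
  exact Ideal.mul_mem_right _ _ (Ideal.pow_mem_of_mem _ D.hπ n (Nat.pos_of_ne_zero hn))

theorem isU_τ_zpow_iff (n : ℤ) : D.IsU (D.τ ^ n) ↔ n = 0 := by
  constructor
  · intro h
    by_contra hn
    rcases lt_or_gt_of_ne hn with hlt | hgt
    · have h' := h.inv
      rw [← zpow_neg] at h'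
      obtain ⟨m, hm⟩ := Int.eq_ofNat_of_zero_le (show 0 ≤ -n by omega)
      rw [hm, zpow_natCast] at h'
      exact D.not_isU_τ_pow (by omega) h'
    · obtain ⟨m, hm⟩ := Int.eq_ofNat_of_zero_le (show 0 ≤ n by omega)
      rw [hm, zpow_natCast] at h
      exact D.not_isU_τ_pow (by omega) h
  · rintro rfl; simpa using D.isU_one

theorem isU_of_eq {f : F} {k l : ℕ} {u h : Q} (hu : u ∉ D.I) (hh : h ∉ D.I)
    (e : f * D.τ ^ l * D.φ h = D.τ ^ k * D.φ u) : D.IsU (f * D.τ ^ (-((k : ℤ) - l))) := by
  refine ⟨u, h, hu, hh, ?_⟩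
  have hτ := D.τ_ne_zero
  have h1 : D.τ ^ (-((k : ℤ) - l)) = D.τ ^ l * (D.τ ^ k)⁻¹ := by
    rw [neg_sub, zpow_sub₀ hτ, zpow_natCast, zpow_natCast, div_eq_mul_inv]
  rw [h1]
  have h2 : D.τ ^ k ≠ 0 := pow_ne_zero _ hτ
  field_simp
  linear_combination e

theorem exists_isU {f : F} (hf : f ≠ 0) : ∃ n : ℤ, D.IsU (f * D.τ ^ (-n)) := by
  obtain ⟨G, H, hH, e⟩ := D.hfrac f
  have hG : G ≠ 0 := by
    rintro rfl
    rw [map_zero] at e
    rcases mul_eq_zero.mp e with h | h
    · exact hf h
    · exact D.φ_ne_zero' hH h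
  obtain ⟨k, u, h, hu, hh, e1⟩ := D.hKP G hG
  obtain ⟨l, u', h', hu', hh', e2⟩ := D.hKP H hH
  refine ⟨(k : ℤ) - l, D.isU_of_eq (D.mul_not_mem hu hh') (D.mul_not_mem hh hu') ?_⟩
  have e1' := congrArg D.φ e1
  have e2' := congrArg D.φ e2
  simp only [map_mul, map_pow] at e1' e2'
  simp only [map_mul, τ]
  linear_combination (-(f * D.φ h)) * e2' + (D.φ h * D.φ h') * e + D.φ h' * e1'

open Classical in
/-- The order function attached to the local data. -/
noncomputable def w (f : F) : ℤ :=
  if h : f = 0 then 0 else Classical.choose (D.exists_isU h)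

theorem w_zero : D.w 0 = 0 := by simp [w]

theorem w_spec {f : F} (hf : f ≠ 0) : D.IsU (f * D.τ ^ (-(D.w f))) := by
  simp only [w, dif_neg hf]
  exact Classical.choose_spec (D.exists_isU hf)

theorem w_eq {f : F} {n : ℤ} (h : D.IsU (f * D.τ ^ (-n))) : D.w f = n := by
  have hf : f ≠ 0 := by
    rintro rfl
    rw [zero_mul] at h
    exact h.ne_zero rfl
  have h1 := D.w_spec hf
  have h2 : D.IsU (D.τ ^ (D.w f - n)) := by
    have h3 := h.mul h1.inv
    have hτ := D.τ_ne_zero
    have h4 : f * D.τ ^ (-n) * (f * D.τ ^ (-(D.w f)))⁻¹ = D.τ ^ (D.w f - n) := by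
      rw [mul_inv, ← zpow_neg, neg_neg, sub_eq_add_neg, zpow_add₀ hτ]
      field_simp
    rwa [h4] at h3
  have := (D.isU_τ_zpow_iff _).mp h2
  omega

theorem w_eq_of_eq {f : F} {k l : ℕ} {u h : Q} (hu : u ∉ D.I) (hh : h ∉ D.I)
    (e : f * D.τ ^ l * D.φ h = D.τ ^ k * D.φ u) : D.w f = (k : ℤ) - l :=
  D.w_eq (D.isU_of_eq hu hh e)

theorem w_mul (f g : F) (hf : f ≠ 0) (hg : g ≠ 0) : D.w (f * g) = D.w f + D.w g := by
  apply D.w_eq
  have h := (D.w_spec hf).mul (D.w_spec hg)
  have hτ := D.τ_ne_zero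
  have h4 : f * D.τ ^ (-(D.w f)) * (g * D.τ ^ (-(D.w g))) = f * g * D.τ ^ (-(D.w f + D.w g)) := by
    rw [neg_add, zpow_add₀ hτ]; ring
  rwa [h4] at h

theorem w_τ_zpow (n : ℤ) : D.w (D.τ ^ n) = n := by
  apply D.w_eq
  rw [← zpow_add₀ D.τ_ne_zero, add_neg_cancel, zpow_zero]
  exact D.isU_one

theorem w_τ : D.w D.τ = 1 := by
  have := D.w_τ_zpow 1
  rwa [zpow_one] at this

theorem w_φ {q : Q} (hq : q ∉ D.I) : D.w (D.φ q) = 0 := by
  apply D.w_eq
  rw [neg_zero, zpow_zero, mul_one]
  exact D.isU_φ hq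

theorem w_const (c : K) : D.w (algebraMap K F c) = 0 := by
  rcases eq_or_ne c 0 with rfl | hc
  · rw [map_zero, w_zero]
  · obtain ⟨q, hq, e⟩ := D.hconst c hc
    rw [← e]; exact D.w_φ hq

/-- A nonzero fraction with denominator a unit at `I` has a normal form with `k : ℕ`. -/
theorem exists_repr {f : F} (hf : f ≠ 0) {N Dn : Q} (hD : Dn ∉ D.I) (e : f * D.φ Dn = D.φ N) :
    ∃ (k : ℕ) (u h : Q), u ∉ D.I ∧ h ∉ D.I ∧ (N ∈ D.I → 0 < k) ∧ f * D.φ h = D.τ ^ k * D.φ u := by
  have hN : N ≠ 0 := by
    rintro rfl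
    rw [map_zero] at e
    rcases mul_eq_zero.mp e with h | h
    · exact hf h
    · exact D.φ_ne_zero hD h
  obtain ⟨k, u, h, hu, hh, e1⟩ := D.hKP N hN
  refine ⟨k, u, h * Dn, hu, D.mul_not_mem hh hD, ?_, ?_⟩
  · intro hNI
    rcases Nat.eq_zero_or_pos k with rfl | hk
    · exfalso
      rw [pow_zero, one_mul] at e1
      exact hu (e1 ▸ Ideal.mul_mem_left _ _ hNI)
    · exact hk
  · have e1' := congrArg D.φ e1
    simp only [map_mul, map_pow] at e1'
    simp only [map_mul, τ]
    linear_combination D.φ h * e + e1'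

theorem w_nonneg_of_frac {f : F} (hf : f ≠ 0) {N Dn : Q} (hD : Dn ∉ D.I)
    (e : f * D.φ Dn = D.φ N) : 0 ≤ D.w f := by
  obtain ⟨k, u, h, hu, hh, -, e1⟩ := D.exists_repr hf hD e
  have := D.w_eq_of_eq (k := k) (l := 0) hu hh (by rw [pow_zero, mul_one]; exact e1)
  rw [this]; simp

theorem w_pos_of_frac {f : F} (hf : f ≠ 0) {N Dn : Q} (hD : Dn ∉ D.I) (hN : N ∈ D.I)
    (e : f * D.φ Dn = D.φ N) : 0 < D.w f := by
  obtain ⟨k, u, h, hu, hh, hk, e1⟩ := D.exists_repr hf hD e
  have := D.w_eq_of_eq (k := k) (l := 0) hu hh (by rw [pow_zero, mul_one]; exact e1)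
  rw [this]
  have := hk hN
  simp only [Nat.cast_zero, sub_zero]
  exact_mod_cast this

/-- Normal form of a nonzero element. -/
theorem exists_eq_of_w {f : F} (hf : f ≠ 0) :
    ∃ u h : Q, u ∉ D.I ∧ h ∉ D.I ∧ f * D.φ h = D.τ ^ (D.w f) * D.φ u := by
  obtain ⟨u, h, hu, hh, e⟩ := D.w_spec hf
  refine ⟨u, h, hu, hh, ?_⟩
  rw [← e, zpow_neg]
  have := zpow_ne_zero (D.w f) D.τ_ne_zero
  field_simp

theorem w_add (f g : F) (hf : f ≠ 0) (hg : g ≠ 0) (hfg : f + g ≠ 0) :
    min (D.w f) (D.w g) ≤ D.w (f + g) := by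
  obtain ⟨u, h, hu, hh, e⟩ := D.exists_eq_of_w hf
  obtain ⟨u', h', hu', hh', e'⟩ := D.exists_eq_of_w hg
  set m := min (D.w f) (D.w g) with hm
  have hτ := D.τ_ne_zero
  obtain ⟨i, hi⟩ := Int.eq_ofNat_of_zero_le (show 0 ≤ D.w f - m by simp [hm])
  obtain ⟨j, hj⟩ := Int.eq_ofNat_of_zero_le (show 0 ≤ D.w g - m by simp [hm])
  have hi' : D.τ ^ (D.w f) = D.τ ^ m * D.τ ^ i := by
    rw [← zpow_natCast, ← hi, ← zpow_add₀ hτ]; congr 1; ring
  have hj' : D.τ ^ (D.w g) = D.τ ^ m * D.τ ^ j := by
    rw [← zpow_natCast, ← hj, ← zpow_add₀ hτ]; congr 1; ring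
  have hne : (f + g) * D.τ ^ (-m) ≠ 0 := mul_ne_zero hfg (zpow_ne_zero _ hτ)
  have key : (f + g) * D.τ ^ (-m) * D.φ (h * h') =
      D.φ (D.π ^ i * u * h' + D.π ^ j * u' * h) := by
    rw [hi'] at e
    rw [hj'] at e'
    have hτm : D.τ ^ m ≠ 0 := zpow_ne_zero _ hτ
    simp only [map_mul, map_add, map_pow, zpow_neg]
    change (f + g) * (D.τ ^ m)⁻¹ * (D.φ h * D.φ h') =
      D.τ ^ i * D.φ u * D.φ h' + D.τ ^ j * D.φ u' * D.φ h
    field_simp
    linear_combination D.φ h' * e + D.φ h * e'
  have h1 := D.w_nonneg_of_frac hne (D.mul_not_mem hh hh') key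
  rw [D.w_mul _ _ hfg (zpow_ne_zero _ hτ), D.w_τ_zpow] at h1
  omega

/-- The place attached to the local data. -/
noncomputable def place : Place K F :=
  Fermat.Agent.S24.helper384.ivPlace D.w D.w_mul D.w_add D.w_const D.τ D.τ_ne_zero
    (by rw [D.w_τ]; exact one_pos)

theorem mem_place {f : F} : f ∈ D.place.toValuationSubring ↔ f = 0 ∨ 0 ≤ D.w f := Iff.rfl

theorem ord_place (f : F) : D.place.ord f = D.w f := by
  rcases eq_or_ne f 0 with rfl | hf
  · rw [Place.ord_zero, w_zero]
  obtain ⟨κ, hκ, h⟩ := Fermat.Agent.S24.helper384.ivPlace_ord D.w D.w_mul D.w_add D.w_const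
    D.τ D.τ_ne_zero (by rw [D.w_τ]; exact one_pos)
  have h1 := (D.w_τ).symm.trans (h D.τ D.τ_ne_zero)
  have hκ1 : κ = 1 := by
    rcases Int.eq_one_or_neg_one_of_mul_eq_one' h1.symm with h2 | h2
    · exact h2.2
    · omega
  have h2 := h f hf
  rw [hκ1, mul_one] at h2
  exact h2.symm

theorem ord_place_τ : D.place.ord D.τ = 1 := by rw [ord_place, w_τ]

end LocalData


/-! ### Part 2 : uniqueness of the place -/

section Unique

open Fermat.Agent.S24.helper384

variable {K F : Type*} [Field K] [Field F] [Algebra K F]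

/-- `f` lies in the maximal ideal of the place `v`. -/
def InMax (v : Place K F) (f : F) : Prop := f = 0 ∨ 0 < v.ord f

/-- `f` takes the value `c ∈ K` at the place `v`. -/
def HasValue (v : Place K F) (f : F) (c : K) : Prop :=
  f = algebraMap K F c ∨ 0 < v.ord (f - algebraMap K F c)

theorem hasValue_iff {v : Place K F} {f : F} {c : K} :
    HasValue v f c ↔ InMax v (f - algebraMap K F c) := by
  unfold HasValue InMax
  rw [sub_eq_zero]

theorem InMax.mem {v : Place K F} {f : F} (hf : InMax v f) : f ∈ v.toValuationSubring := by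
  rcases hf with rfl | hf
  · exact zero_mem _
  · exact mem_of_ord_nonneg v hf.le

theorem InMax.add {v : Place K F} {f g : F} (hf : InMax v f) (hg : InMax v g) :
    InMax v (f + g) := by
  rcases hf with rfl | hf
  · rwa [zero_add]
  rcases hg with rfl | hg
  · rw [add_zero]; exact Or.inr hf
  by_cases h : f + g = 0
  · exact Or.inl h
  · exact Or.inr (lt_of_lt_of_le (lt_min hf hg) (ord_add_ge v h))

theorem InMax.mul_mem {v : Place K F} {f g : F} (hf : InMax v f)
    (hg : g ∈ v.toValuationSubring) : InMax v (f * g) := by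
  rcases hf with rfl | hf
  · left; rw [zero_mul]
  rcases eq_or_ne g 0 with rfl | hg0
  · left; rw [mul_zero]
  have hf0 : f ≠ 0 := by
    rintro rfl; rw [Place.ord_zero] at hf; exact lt_irrefl _ hf
  right
  rw [Place.ord_mul v hf0 hg0]
  have := ord_nonneg_of_mem v hg
  omega

theorem InMax.neg {v : Place K F} {f : F} (hf : InMax v f) : InMax v (-f) := by
  rcases hf with rfl | hf
  · left; rw [neg_zero]
  · right; rwa [ord_neg]

theorem HasValue.mem {v : Place K F} {f : F} {c : K} (h : HasValue v f c) :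
    f ∈ v.toValuationSubring := by
  have h1 := (hasValue_iff.mp h).mem
  have h2 := v.algebraMap_mem' c
  have := add_mem h1 h2
  rwa [sub_add_cancel] at this

theorem not_inMax_one (v : Place K F) : ¬ InMax v (1 : F) := by
  rintro (h | h)
  · exact one_ne_zero h
  · rw [Place.ord_one] at h; exact lt_irrefl _ h

theorem HasValue.unique {v : Place K F} {f : F} {c c' : K} (h : HasValue v f c)
    (h' : HasValue v f c') : c = c' := by
  by_contra hne
  have h1 := (hasValue_iff.mp h').add (hasValue_iff.mp h).neg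
  have h2 : f - algebraMap K F c' + -(f - algebraMap K F c) = algebraMap K F (c - c') := by
    rw [map_sub]; ring
  rw [h2] at h1
  rcases h1 with h1 | h1
  · exact sub_ne_zero.mpr hne ((map_eq_zero _).mp h1)
  · rw [ord_algebraMap] at h1; exact lt_irrefl _ h1

theorem HasValue.ord_eq_zero {v : Place K F} {f : F} {c : K} (h : HasValue v f c) (hc : c ≠ 0) :
    v.ord f = 0 := by
  have hmem := ord_nonneg_of_mem v h.mem
  by_contra hne
  have hpos : InMax v f := Or.inr (lt_of_le_of_ne hmem (Ne.symm hne))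
  have h1 := hpos.add (hasValue_iff.mp h).neg
  have h2 : f + -(f - algebraMap K F c) = algebraMap K F c := by ring
  rw [h2] at h1
  rcases h1 with h1 | h1
  · exact hc ((map_eq_zero _).mp h1)
  · rw [ord_algebraMap] at h1; exact lt_irrefl _ h1

theorem HasValue.ne_zero {v : Place K F} {f : F} {c : K} (h : HasValue v f c) (hc : c ≠ 0) :
    f ≠ 0 := by
  rintro rfl
  rcases h with h | h
  · exact hc ((map_eq_zero _).mp h.symm)
  · rw [zero_sub, ord_neg, ord_algebraMap] at h; exact lt_irrefl _ h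

theorem LocalData.place_unique {Q : Type*} [CommRing Q] (D : LocalData K Q F) (v : Place K F)
    (h1 : ∀ q, D.φ q ∈ v.toValuationSubring) (h2 : ∀ q ∈ D.I, InMax v (D.φ q)) :
    v = D.place := by
  have hunit : ∀ q, q ∉ D.I → v.ord (D.φ q) = 0 := by
    intro q hq
    obtain ⟨y, i, hi, e⟩ := D.hI.exists_inv hq
    have e' := congrArg D.φ e
    simp only [map_add, map_mul, map_one] at e'
    have hq0 := D.φ_ne_zero hq
    have hyq : D.φ y * D.φ q ≠ 0 := by
      intro h0
      rw [h0, zero_add] at e'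
      have := h2 i hi
      rw [e'] at this
      exact not_inMax_one v this
    have hy0 : D.φ y ≠ 0 := left_ne_zero_of_mul hyq
    have hge := ord_nonneg_of_mem v (mul_mem (h1 y) (h1 q))
    have h3 : v.ord (D.φ y * D.φ q) = 0 := by
      by_contra hne
      have hpos' : InMax v (D.φ y * D.φ q) := Or.inr (lt_of_le_of_ne hge (Ne.symm hne))
      have := hpos'.add (h2 i hi)
      rw [e'] at this
      exact not_inMax_one v this
    rw [Place.ord_mul v hy0 hq0] at h3
    have := ord_nonneg_of_mem v (h1 y)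
    have := ord_nonneg_of_mem v (h1 q)
    omega
  have hτpos : 0 < v.ord D.τ := (h2 D.π D.hπ).resolve_left D.τ_ne_zero
  have hord : ∀ f, f ≠ 0 → v.ord f = D.w f * v.ord D.τ := by
    intro f hf
    obtain ⟨u, h, hu, hh, e⟩ := D.exists_eq_of_w hf
    have e' := congrArg v.ord e
    rw [Place.ord_mul v hf (D.φ_ne_zero hh),
      Place.ord_mul v (zpow_ne_zero _ D.τ_ne_zero) (D.φ_ne_zero hu), hunit h hh, hunit u hu,
      Place.ord_zpow] at e'
    linarith
  apply Place.ext
  ext f
  rw [D.mem_place, mem_iff_ord_nonneg]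
  rcases eq_or_ne f 0 with rfl | hf
  · simp
  · rw [hord f hf]
    constructor
    · intro h
      right
      by_contra hneg
      have : D.w f * v.ord D.τ < 0 := mul_neg_of_neg_of_pos (not_le.mp hneg) hτpos
      omega
    · rintro (h | h)
      · exact absurd h hf
      · exact mul_nonneg h hτpos.le

end Unique

/-! ### Part 3 : plane models and simple points -/

/-- A plane model of the function field `F/K`: generators `t, y` and a generator `p` of the
ideal of relations. -/
structure PlaneModel (K F : Type*) [Field K] [Field F] [Algebra K F] where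
  t : F
  y : F
  p : K[X][X]
  hp0 : aevalAeval t y p = 0
  hker : ∀ P : K[X][X], aevalAeval t y P = 0 → p ∣ P
  hfrac : ∀ f : F, ∃ G H : K[X][X], aevalAeval t y H ≠ 0 ∧
    f * aevalAeval t y H = aevalAeval t y G

namespace PlaneModel

open Fermat.Agent.S24.helper384

variable {K F : Type*} [Field K] [Field F] [Algebra K F] (M : PlaneModel K F)

/-- Evaluation at `(t, y)`. -/
noncomputable def ev : K[X][X] →+* F := (aevalAeval M.t M.y : K[X][X] →ₐ[K] F)

theorem ev_apply (G : K[X][X]) : M.ev G = aevalAeval M.t M.y G := rfl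

theorem ev_p : M.ev M.p = 0 := M.hp0

theorem ev_eq_zero_iff {P : K[X][X]} : M.ev P = 0 ↔ M.p ∣ P := by
  constructor
  · exact M.hker P
  · rintro ⟨R, rfl⟩
    rw [map_mul, M.ev_p, zero_mul]

@[simp]
theorem ev_C_C (c : K) : M.ev (C (C c)) = algebraMap K F c := by
  simp [ev_apply]

@[simp]
theorem ev_C_X : M.ev (C X) = M.t := by
  simp [ev_apply]

@[simp]
theorem ev_X : M.ev X = M.y := by
  simp [ev_apply]

/-- A simple point of the plane model. -/
structure SimplePoint where
  a : K
  b : K
  h0 : M.p.evalEval a b = 0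
  hd : (derivative M.p).evalEval a b ≠ 0

instance kerPrime : (RingHom.ker M.ev).IsPrime := RingHom.ker_isPrime _

/-- The coordinate ring of the plane model. -/
abbrev Q : Type _ := K[X][X] ⧸ RingHom.ker M.ev

variable {M}
variable (S : M.SimplePoint)

/-- Evaluation at the simple point. -/
noncomputable def valQ : M.Q →+* K :=
  Ideal.Quotient.lift (RingHom.ker M.ev) (evalEvalRingHom S.a S.b) (by
    intro G hG
    obtain ⟨R, rfl⟩ := M.ev_eq_zero_iff.mp hG
    rw [map_mul, coe_evalEvalRingHom, S.h0, zero_mul])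

@[simp]
theorem valQ_mk (G : K[X][X]) :
    valQ S (Ideal.Quotient.mk (RingHom.ker M.ev) G) = G.evalEval S.a S.b := by
  simp [valQ]

theorem valQ_surjective : Function.Surjective (valQ S) := fun c =>
  ⟨Ideal.Quotient.mk _ (C (C c)), by simp⟩

instance kerValMax : (RingHom.ker (valQ S)).IsMaximal :=
  RingHom.ker_isMaximal_of_surjective _ (valQ_surjective S)

theorem t_sub_ne_zero : M.t - algebraMap K F S.a ≠ 0 := by
  intro h
  have h1 : M.ev (C (X - C S.a)) = 0 := by
    simp [h]
  have h2 := M.ev_eq_zero_iff.mp h1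
  have h3 : M.p.natDegree ≤ 0 := by
    have := natDegree_le_of_dvd h2 (by
      rw [Ne, C_eq_zero]; exact X_sub_C_ne_zero S.a)
    simpa using this
  have h4 : derivative M.p = 0 := by
    rw [eq_C_of_natDegree_le_zero h3, derivative_C]
  exact S.hd (by rw [h4]; simp)


/-- The class of `X - a` in the coordinate ring. -/
noncomputable def piQ : M.Q := Ideal.Quotient.mk _ (C (X - C S.a))

theorem piQ_mem : piQ S ∈ RingHom.ker (valQ S) := by
  simp [RingHom.mem_ker, piQ, evalEval_C]

theorem kerLift_piQ : RingHom.kerLift M.ev (piQ S) = M.t - algebraMap K F S.a := by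
  simp [piQ, RingHom.kerLift_mk]

theorem piQ_ne_zero : piQ S ≠ 0 := by
  intro h
  apply t_sub_ne_zero S
  rw [← kerLift_piQ, h, map_zero]

/-- The class of the `Y`-quotient of `p` by `Y - b`; a unit at the simple point. -/
noncomputable def BQ : M.Q := Ideal.Quotient.mk _ (M.p /ₘ (X - C (C S.b)))

theorem BQ_not_mem : BQ S ∉ RingHom.ker (valQ S) := by
  rw [RingHom.mem_ker, BQ, valQ_mk, evalEval_divByMonic]
  exact S.hd

theorem BQ_gen (g : M.Q) (hg : g ∈ RingHom.ker (valQ S)) : ∃ g₂, BQ S * g = piQ S * g₂ := by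
  obtain ⟨G, rfl⟩ := Ideal.Quotient.mk_surjective g
  rw [RingHom.mem_ker, valQ_mk] at hg
  obtain ⟨AG, BG, hG⟩ : ∃ AG BG, G = C (X - C S.a) * C AG + (X - C (C S.b)) * BG :=
    ⟨_, _, by simpa [hg] using taylor_decomp S.a S.b G⟩
  obtain ⟨Ap, hp⟩ : ∃ Ap, M.p = C (X - C S.a) * C Ap
      + (X - C (C S.b)) * (M.p /ₘ (X - C (C S.b))) :=
    ⟨_, by simpa [S.h0] using taylor_decomp S.a S.b M.p⟩
  refine ⟨Ideal.Quotient.mk _ ((M.p /ₘ (X - C (C S.b))) * C AG - C Ap * BG), ?_⟩
  rw [BQ, piQ, ← map_mul, ← map_mul, Ideal.Quotient.eq, RingHom.mem_ker, M.ev_eq_zero_iff]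
  refine ⟨BG, ?_⟩
  rw [hG]
  conv_rhs => rw [hp]
  ring

theorem exists_frac (f : F) : ∃ G H : M.Q, H ≠ 0 ∧
    f * RingHom.kerLift M.ev H = RingHom.kerLift M.ev G := by
  obtain ⟨G, H, hH, e⟩ := M.hfrac f
  refine ⟨Ideal.Quotient.mk _ G, Ideal.Quotient.mk _ H, ?_, ?_⟩
  · intro h
    apply hH
    have := congrArg (RingHom.kerLift M.ev) h
    rwa [RingHom.kerLift_mk, map_zero] at this
  · rw [RingHom.kerLift_mk, RingHom.kerLift_mk]; exact e

/-- The local data of a simple point. -/
noncomputable def localData : LocalData K M.Q F where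
  I := RingHom.ker (valQ S)
  hI := kerValMax S
  π := piQ S
  hπ := piQ_mem S
  hπ0 := piQ_ne_zero S
  φ := RingHom.kerLift M.ev
  hφ := RingHom.kerLift_injective _
  hfrac := exists_frac
  hKP := exists_pow_mul_unit _ (piQ S) (piQ_mem S) (BQ S) (BQ_not_mem S) (BQ_gen S)
  hconst := fun c hc => ⟨Ideal.Quotient.mk _ (C (C c)), by
    rw [RingHom.mem_ker, valQ_mk]; simpa using hc, by
    rw [RingHom.kerLift_mk]; simp⟩

/-- The place at a simple point of a plane model. -/
noncomputable def pt : Place K F := (localData S).place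

theorem localData_τ : (localData S).τ = M.t - algebraMap K F S.a := kerLift_piQ S

theorem localData_φ_mk (G : K[X][X]) :
    (localData S).φ (Ideal.Quotient.mk _ G) = M.ev G := RingHom.kerLift_mk _ _

theorem mk_mem_localData_I (G : K[X][X]) :
    Ideal.Quotient.mk _ G ∈ (localData S).I ↔ G.evalEval S.a S.b = 0 := by
  change _ ∈ RingHom.ker (valQ S) ↔ _
  rw [RingHom.mem_ker, valQ_mk]

/-- (C2) `t - a` is a uniformizer at the simple point. -/
theorem ord_pt_t : (pt S).ord (M.t - algebraMap K F S.a) = 1 := by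
  rw [← localData_τ]; exact (localData S).ord_place_τ

/-- The order at the simple point of a regular function that does not vanish there is `0`. -/
theorem ord_pt_ev_of_ne {G : K[X][X]} (hG : G.evalEval S.a S.b ≠ 0) :
    (pt S).ord (M.ev G) = 0 := by
  rw [pt, LocalData.ord_place, ← localData_φ_mk S]
  exact (localData S).w_φ (by rwa [mk_mem_localData_I])

theorem ev_ne_zero_of_ne {G : K[X][X]} (hG : G.evalEval S.a S.b ≠ 0) : M.ev G ≠ 0 := by
  rw [← localData_φ_mk S]
  exact (localData S).φ_ne_zero (by rwa [mk_mem_localData_I])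

/-- Regular functions vanishing at the simple point lie in the maximal ideal of its place. -/
theorem inMax_pt_ev {G : K[X][X]} (hG : G.evalEval S.a S.b = 0) : InMax (pt S) (M.ev G) := by
  by_cases h0 : M.ev G = 0
  · exact Or.inl h0
  right
  rw [pt, LocalData.ord_place]
  have h1 : M.ev G * (localData S).φ 1 = (localData S).φ (Ideal.Quotient.mk _ G) := by
    rw [map_one, mul_one, localData_φ_mk]
  exact (localData S).w_pos_of_frac h0 (localData S).one_not_mem
    ((mk_mem_localData_I S G).mpr hG) h1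

/-- Regular functions are regular at the simple point. -/
theorem ev_mem_pt (G : K[X][X]) : M.ev G ∈ (pt S).toValuationSubring := by
  by_cases hG : G.evalEval S.a S.b = 0
  · exact (inMax_pt_ev S hG).mem
  · exact mem_of_ord_nonneg _ (ord_pt_ev_of_ne S hG).ge

/-- The value of a regular function at the simple point is given by substitution. -/
theorem hasValue_pt_ev (G : K[X][X]) : HasValue (pt S) (M.ev G) (G.evalEval S.a S.b) := by
  rw [hasValue_iff]
  have h := inMax_pt_ev S (G := G - C (C (G.evalEval S.a S.b))) (by simp)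
  simpa using h

/-- (C1, existence) the place sits over `(a, b)`. -/
theorem hasValue_pt_y : HasValue (pt S) M.y S.b := by
  simpa using hasValue_pt_ev S X

theorem hasValue_pt_t : HasValue (pt S) M.t S.a := by
  simpa [evalEval_C] using hasValue_pt_ev S (C X)


/-! ### Part 4 : uniqueness, evaluation of fractions, characterisation of the order -/

section General

variable (M)

theorem aeval_t_mem (v : Place K F) (ht : M.t ∈ v.toValuationSubring) (c : K[X]) :
    aeval M.t c ∈ v.toValuationSubring :=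
  mem_place_of_mem_adjoin M.t v ht (aeval_mem_adjoin_singleton K M.t)

theorem ev_eq_sum (G : K[X][X]) :
    M.ev G = ∑ i ∈ Finset.range (G.natDegree + 1), aeval M.t (G.coeff i) * M.y ^ i := by
  have h : M.ev = eval₂RingHom ((aeval M.t : K[X] →ₐ[K] F) : K[X] →+* F) M.y := by
    apply Polynomial.ringHom_ext
    · intro c; simp [ev_apply]
    · simp [ev_apply]
  rw [h, coe_eval₂RingHom, eval₂_eq_sum_range]
  rfl

/-- Regular functions are regular at every place where `t` and `y` are regular. -/
theorem ev_mem_of_mem (v : Place K F) (ht : M.t ∈ v.toValuationSubring)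
    (hy : M.y ∈ v.toValuationSubring) (G : K[X][X]) : M.ev G ∈ v.toValuationSubring := by
  rw [ev_eq_sum]
  exact sum_mem (fun i _ => mul_mem (M.aeval_t_mem v ht _) (pow_mem hy i))

/-- At any place where `t, y` take the values `a, b`, a regular function vanishing at `(a, b)`
lies in the maximal ideal. -/
theorem inMax_ev_of_hasValue (v : Place K F) {a b : K} (ht : HasValue v M.t a)
    (hy : HasValue v M.y b) {G : K[X][X]} (hG : G.evalEval a b = 0) : InMax v (M.ev G) := by
  obtain ⟨AG, BG, hG'⟩ : ∃ AG BG, G = C (X - C a) * C AG + (X - C (C b)) * BG :=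
    ⟨_, _, by simpa [hG] using taylor_decomp a b G⟩
  rw [hG']
  have h1 : M.ev (C (X - C a) * C AG + (X - C (C b)) * BG)
      = (M.t - algebraMap K F a) * M.ev (C AG) + (M.y - algebraMap K F b) * M.ev BG := by
    simp [map_add, map_mul, map_sub]
  rw [h1]
  exact ((hasValue_iff.mp ht).mul_mem (M.ev_mem_of_mem v ht.mem hy.mem _)).add
    ((hasValue_iff.mp hy).mul_mem (M.ev_mem_of_mem v ht.mem hy.mem _))

/-- At any place where `t, y` take the values `a, b`, regular functions are evaluated by
substitution. -/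
theorem hasValue_ev_of_hasValue (v : Place K F) {a b : K} (ht : HasValue v M.t a)
    (hy : HasValue v M.y b) (G : K[X][X]) : HasValue v (M.ev G) (G.evalEval a b) := by
  rw [hasValue_iff]
  have h := M.inMax_ev_of_hasValue v ht hy (G := G - C (C (G.evalEval a b))) (by simp)
  simpa using h

end General

/-- Evaluation of fractions by substitution, at any place with values `(a, b)`. -/
theorem hasValue_of_frac (M : PlaneModel K F) (v : Place K F) {a b : K} (ht : HasValue v M.t a)
    (hy : HasValue v M.y b) {f : F} {G H : K[X][X]} (hH : H.evalEval a b ≠ 0)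
    (e : f * M.ev H = M.ev G) : HasValue v f (G.evalEval a b / H.evalEval a b) := by
  rw [hasValue_iff]
  set c := G.evalEval a b / H.evalEval a b with hc
  have hHv := M.hasValue_ev_of_hasValue v ht hy H
  have hH0 : M.ev H ≠ 0 := hHv.ne_zero hH
  have hHord : v.ord (M.ev H) = 0 := hHv.ord_eq_zero hH
  have hN : InMax v (M.ev (G - C (C c) * H)) :=
    M.inMax_ev_of_hasValue v ht hy (by simp [hc, evalEval_C, hH])
  have e2 : (f - algebraMap K F c) * M.ev H = M.ev (G - C (C c) * H) := by
    simp only [map_sub, map_mul, ev_C_C]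
    rw [← e]; ring
  by_cases h0 : f - algebraMap K F c = 0
  · exact Or.inl h0
  right
  rcases hN with hN | hN
  · rw [hN] at e2
    exact absurd e2 (mul_ne_zero h0 hH0)
  · rw [← e2, Place.ord_mul v h0 hH0, hHord, add_zero] at hN
    exact hN

/-- (C1, uniqueness) a place over `(a, b)` is the place of the simple point. -/
theorem pt_unique (v : Place K F) (ht : HasValue v M.t S.a) (hy : HasValue v M.y S.b) :
    v = pt S := by
  refine (localData S).place_unique v ?_ ?_
  · intro q
    obtain ⟨G, rfl⟩ := Ideal.Quotient.mk_surjective q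
    rw [localData_φ_mk]
    exact M.ev_mem_of_mem v ht.mem hy.mem G
  · intro q hq
    obtain ⟨G, rfl⟩ := Ideal.Quotient.mk_surjective q
    rw [localData_φ_mk]
    exact M.inMax_ev_of_hasValue v ht hy ((mk_mem_localData_I S G).mp hq)

/-- (C1) there is exactly one place over a simple point. -/
theorem existsUnique_place :
    ∃! v : Place K F, HasValue v M.t S.a ∧ HasValue v M.y S.b :=
  ⟨pt S, ⟨hasValue_pt_t S, hasValue_pt_y S⟩, fun v hv => pt_unique S v hv.1 hv.2⟩

/-- (C3) evaluation of fractions at the simple point is substitution. -/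
theorem hasValue_pt_of_frac {f : F} {G H : K[X][X]} (hH : H.evalEval S.a S.b ≠ 0)
    (e : f * M.ev H = M.ev G) :
    HasValue (pt S) f (G.evalEval S.a S.b / H.evalEval S.a S.b) :=
  hasValue_of_frac M (pt S) (hasValue_pt_t S) (hasValue_pt_y S) hH e

/-- (C3) characterisation of the order at a simple point. -/
theorem ord_pt_eq_iff {f : F} (hf : f ≠ 0) (k : ℤ) :
    (pt S).ord f = k ↔ ∃ G1 H1 : K[X][X], G1.evalEval S.a S.b ≠ 0 ∧ H1.evalEval S.a S.b ≠ 0 ∧
      f * M.ev H1 = (M.t - algebraMap K F S.a) ^ k * M.ev G1 := by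
  rw [pt, LocalData.ord_place]
  constructor
  · rintro rfl
    obtain ⟨u, h, hu, hh, e⟩ := (localData S).exists_eq_of_w hf
    obtain ⟨G1, rfl⟩ := Ideal.Quotient.mk_surjective u
    obtain ⟨H1, rfl⟩ := Ideal.Quotient.mk_surjective h
    rw [mk_mem_localData_I] at hu hh
    refine ⟨G1, H1, hu, hh, ?_⟩
    rwa [localData_φ_mk, localData_φ_mk, localData_τ] at e
  · rintro ⟨G1, H1, hG1, hH1, e⟩
    apply (localData S).w_eq
    refine ⟨Ideal.Quotient.mk _ G1, Ideal.Quotient.mk _ H1, by rwa [mk_mem_localData_I],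
      by rwa [mk_mem_localData_I], ?_⟩
    rw [localData_φ_mk, localData_φ_mk, localData_τ, mul_right_comm, e, zpow_neg]
    have := zpow_ne_zero k (t_sub_ne_zero S)
    field_simp

/-- (C3) characterisation of the order of a regular function at a simple point by a
divisibility in `K[X][Y]`. -/
theorem ord_pt_ev_eq_iff {G : K[X][X]} (hG : M.ev G ≠ 0) (k : ℕ) :
    (pt S).ord (M.ev G) = k ↔ ∃ G1 H1 : K[X][X], G1.evalEval S.a S.b ≠ 0 ∧
      H1.evalEval S.a S.b ≠ 0 ∧ M.p ∣ G * H1 - C (X - C S.a) ^ k * G1 := by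
  rw [ord_pt_eq_iff S hG]
  refine exists_congr fun G1 => exists_congr fun H1 => and_congr Iff.rfl (and_congr Iff.rfl ?_)
  rw [← M.ev_eq_zero_iff, map_sub, map_mul, map_mul, map_pow, sub_eq_zero, zpow_natCast]
  simp

/-- The order of a nonzero regular function at a simple point is a natural number. -/
theorem exists_ord_pt_ev (G : K[X][X]) :
    ∃ k : ℕ, (pt S).ord (M.ev G) = k :=
  ⟨((pt S).ord (M.ev G)).toNat,
    (Int.toNat_of_nonneg (ord_nonneg_of_mem _ (ev_mem_pt S G))).symm⟩

theorem SimplePoint.ext' {S S' : M.SimplePoint} (ha : S.a = S'.a) (hb : S.b = S'.b) : S = S' := by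
  cases S; cases S'; simp_all

/-- Distinct simple points give distinct places. -/
theorem pt_injective : Function.Injective (pt : M.SimplePoint → Place K F) := by
  intro S S' h
  have h1 := hasValue_pt_t S
  have h2 := hasValue_pt_y S
  rw [h] at h1 h2
  exact SimplePoint.ext' (h1.unique (hasValue_pt_t S')) (h2.unique (hasValue_pt_y S'))

end PlaneModel


/-! ### Part 5 : the generic fibre of `t` -/

section Fibre

open Fermat.Agent.S24.helper384

variable {K F : Type*} [Field K] [Field F] [Algebra K F]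

theorem inMax_or_of_mul {v : Place K F} {f g : F} (hf : f ∈ v.toValuationSubring)
    (hg : g ∈ v.toValuationSubring) (h : InMax v (f * g)) : InMax v f ∨ InMax v g := by
  rcases eq_or_ne f 0 with rfl | hf0
  · exact Or.inl (Or.inl rfl)
  rcases eq_or_ne g 0 with rfl | hg0
  · exact Or.inr (Or.inl rfl)
  rcases h with h | h
  · exact absurd h (mul_ne_zero hf0 hg0)
  · rw [Place.ord_mul v hf0 hg0] at h
    have h1 := ord_nonneg_of_mem v hf
    have h2 := ord_nonneg_of_mem v hg
    by_cases h3 : 0 < v.ord f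
    · exact Or.inl (Or.inr h3)
    · exact Or.inr (Or.inr (by omega))

theorem exists_inMax_of_prod (v : Place K F) (s : Multiset F)
    (hs : ∀ x ∈ s, x ∈ v.toValuationSubring) (h : InMax v s.prod) : ∃ x ∈ s, InMax v x := by
  induction s using Multiset.induction with
  | empty => rw [Multiset.prod_zero] at h; exact absurd h (not_inMax_one v)
  | cons a s ih =>
    rw [Multiset.prod_cons] at h
    have ha := hs a (Multiset.mem_cons_self a s)
    have hs' : ∀ x ∈ s, x ∈ v.toValuationSubring := fun x hx => hs x (Multiset.mem_cons_of_mem hx)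
    have hp : s.prod ∈ v.toValuationSubring := multiset_prod_mem _ hs'
    rcases inMax_or_of_mul ha hp h with h1 | h1
    · exact ⟨a, Multiset.mem_cons_self a s, h1⟩
    · obtain ⟨x, hx, hx'⟩ := ih hs' h1
      exact ⟨x, Multiset.mem_cons_of_mem hx, hx'⟩

namespace PlaneModel

variable (M : PlaneModel K F)

/-- Polynomials in `t` are evaluated by substitution at any place where `t` has a value. -/
theorem hasValue_aeval_t (v : Place K F) {a : K} (ht : HasValue v M.t a) (c : K[X]) :
    HasValue v (aeval M.t c) (c.eval a) := by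
  rw [hasValue_iff]
  have h1 : c = (X - C a) * (c /ₘ (X - C a)) + C (c.eval a) := by
    have := modByMonic_add_div c (X - C a)
    rw [modByMonic_X_sub_C_eq_C_eval] at this
    rw [add_comm]; exact this.symm
  have h2 : aeval M.t c - algebraMap K F (c.eval a)
      = (M.t - algebraMap K F a) * aeval M.t (c /ₘ (X - C a)) := by
    conv_lhs => rw [h1]
    simp [map_add, map_mul, map_sub]
  rw [h2]
  exact (hasValue_iff.mp ht).mul_mem (M.aeval_t_mem v ht.mem _)

/-- If the leading coefficient of `p` does not vanish at `a`, then `y` is regular at every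
place over `t = a`. -/
theorem y_mem_of_leadingCoeff (v : Place K F) {a : K} (ht : HasValue v M.t a)
    (hlc : M.p.leadingCoeff.eval a ≠ 0) : M.y ∈ v.toValuationSubring := by
  by_contra hy
  have hyinv : M.y⁻¹ ∈ v.toValuationSubring :=
    (v.toValuationSubring.mem_or_inv_mem M.y).resolve_left hy
  have hyinvMax : InMax v M.y⁻¹ := by
    right
    have h1 := ord_nonneg_of_mem v hyinv
    rw [Place.ord_inv] at h1 ⊢
    by_contra h2
    have h3 : v.ord M.y = 0 := by omega
    exact hy (mem_of_ord_nonneg v h3.ge)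
  have hy0 : M.y ≠ 0 := fun h => hy (h ▸ zero_mem _)
  set n := M.p.natDegree with hn
  have hsum := M.ev_eq_sum M.p
  rw [M.ev_p] at hsum
  have h2 : ∑ i ∈ Finset.range (n + 1), aeval M.t (M.p.coeff i) * (M.y⁻¹) ^ (n - i) = 0 := by
    have h3 : ∑ i ∈ Finset.range (n + 1), aeval M.t (M.p.coeff i) * (M.y⁻¹) ^ (n - i)
        = (∑ i ∈ Finset.range (n + 1), aeval M.t (M.p.coeff i) * M.y ^ i) * (M.y⁻¹) ^ n := by
      rw [Finset.sum_mul]
      refine Finset.sum_congr rfl (fun i hi => ?_)
      have hi' : i ≤ n := Nat.lt_succ_iff.mp (Finset.mem_range.mp hi)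
      have h4 : (M.y⁻¹) ^ n = (M.y⁻¹) ^ (n - i) * (M.y⁻¹) ^ i := by
        rw [← pow_add, Nat.sub_add_cancel hi']
      rw [h4, inv_pow M.y i]
      have := pow_ne_zero i hy0
      field_simp
    rw [h3, ← hsum, zero_mul]
  rw [Finset.sum_range_succ, Nat.sub_self, pow_zero, mul_one] at h2
  have h4 : InMax v (aeval M.t (M.p.coeff n)) := by
    have h5 : aeval M.t (M.p.coeff n)
        = -∑ i ∈ Finset.range n, aeval M.t (M.p.coeff i) * (M.y⁻¹) ^ (n - i) := by
      linear_combination h2
    rw [h5]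
    apply InMax.neg
    refine Finset.sum_induction _ (InMax v) (fun _ _ => InMax.add) (Or.inl rfl) (fun i hi => ?_)
    have hi' : i < n := Finset.mem_range.mp hi
    obtain ⟨m, hm⟩ : ∃ m, n - i = m + 1 := ⟨n - i - 1, by omega⟩
    rw [hm, pow_succ, ← mul_assoc, mul_comm]
    exact hyinvMax.mul_mem (mul_mem (M.aeval_t_mem v ht.mem _) (pow_mem hyinv m))
  have h5 := (M.hasValue_aeval_t v ht M.p.leadingCoeff).ord_eq_zero hlc
  have h6 := (M.hasValue_aeval_t v ht M.p.leadingCoeff).ne_zero hlc
  rcases h4 with h4 | h4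
  · exact h6 h4
  · rw [show M.p.coeff n = M.p.leadingCoeff from rfl, h5] at h4; exact lt_irrefl _ h4

/-- A regular function all of whose coefficients vanish at `t = a` lies in the maximal ideal of
every place over `a` at which `y` is regular. -/
theorem inMax_ev_of_map_eq_zero (v : Place K F) {a : K} (ht : HasValue v M.t a)
    (hy : M.y ∈ v.toValuationSubring) {G : K[X][X]} (hG : G.map (evalRingHom a) = 0) :
    InMax v (M.ev G) := by
  rw [ev_eq_sum]
  refine Finset.sum_induction _ (InMax v) (fun _ _ => InMax.add) (Or.inl rfl) (fun i _ => ?_)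
  have h1 := M.hasValue_aeval_t v ht (G.coeff i)
  have h2 : (G.coeff i).eval a = 0 := by
    have := congrArg (fun q => q.coeff i) hG
    simpa [coeff_map] using this
  rw [h2, hasValue_iff, map_zero, sub_zero] at h1
  exact h1.mul_mem (pow_mem hy i)

theorem ev_map_C (q : K[X]) : M.ev (q.map C) = aeval M.y q := by
  have h : (M.ev.comp (mapRingHom C)) = ((aeval M.y : K[X] →ₐ[K] F) : K[X] →+* F) := by
    apply Polynomial.ringHom_ext
    · intro c; simp
    · simp
  exact DFunLike.congr_fun h q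

/-- (C4) if the leading coefficient of `p` does not vanish at `a` and `p(a, Y)` splits, then at
every place over `t = a` the function `y` takes a value `b` which is a root of `p(a, Y)`. -/
theorem exists_hasValue_y (v : Place K F) {a : K} (ht : HasValue v M.t a)
    (hlc : M.p.leadingCoeff.eval a ≠ 0) (hs : (M.p.map (evalRingHom a)).Splits) :
    ∃ b, M.p.evalEval a b = 0 ∧ HasValue v M.y b := by
  have hy := M.y_mem_of_leadingCoeff v ht hlc
  set q := M.p.map (evalRingHom a) with hq
  have hqlc : q.leadingCoeff = M.p.leadingCoeff.eval a := by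
    rw [hq, leadingCoeff_map_of_leadingCoeff_ne_zero _ (by simpa using hlc)]; rfl
  have h1 : InMax v (M.ev (M.p - q.map C)) := by
    apply M.inMax_ev_of_map_eq_zero v ht hy
    rw [Polynomial.map_sub, Polynomial.map_map]
    have h : (evalRingHom a).comp C = RingHom.id K := by ext; simp
    rw [h, Polynomial.map_id, sub_self]
  rw [map_sub, M.ev_p, zero_sub, M.ev_map_C] at h1
  have h2 := h1.neg
  rw [neg_neg] at h2
  have h3 : aeval M.y q = algebraMap K F q.leadingCoeff
      * (q.roots.map (fun b => M.y - algebraMap K F b)).prod := by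
    conv_lhs => rw [hs.eq_prod_roots]
    simp [map_mul, aeval_C, map_multiset_prod, Multiset.map_map]
  rw [h3] at h2
  have hc0 : q.leadingCoeff ≠ 0 := by rw [hqlc]; exact hlc
  have h4 : InMax v (q.roots.map (fun b => M.y - algebraMap K F b)).prod := by
    have h5 := h2.mul_mem (v.algebraMap_mem' (q.leadingCoeff)⁻¹)
    have e : algebraMap K F q.leadingCoeff * (q.roots.map (fun b => M.y - algebraMap K F b)).prod
        * algebraMap K F q.leadingCoeff⁻¹ = (q.roots.map (fun b => M.y - algebraMap K F b)).prod := by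
      have h6 : algebraMap K F q.leadingCoeff ≠ 0 := by
        rwa [Ne, map_eq_zero]
      rw [map_inv₀]; field_simp
    rwa [e] at h5
  obtain ⟨x, hx, hxM⟩ := exists_inMax_of_prod v _ (by
    intro x hx
    obtain ⟨b, -, rfl⟩ := Multiset.mem_map.mp hx
    exact sub_mem hy (v.algebraMap_mem' b)) h4
  obtain ⟨b, hb, rfl⟩ := Multiset.mem_map.mp hx
  refine ⟨b, ?_, hasValue_iff.mpr hxM⟩
  have h7 := (mem_roots'.mp hb).2
  rw [← map_evalRingHom_eval]; exact h7

/-- A root of a separable fibre polynomial is a simple point. -/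
def simplePointOfSeparable {a b : K} (hsep : (M.p.map (evalRingHom a)).Separable)
    (h0 : M.p.evalEval a b = 0) : M.SimplePoint where
  a := a
  b := b
  h0 := h0
  hd := by
    have h1 : (M.p.map (evalRingHom a)).eval₂ (RingHom.id K) b = 0 := by
      rw [eval₂_id, map_evalRingHom_eval]; exact h0
    have h2 := hsep.eval₂_derivative_ne_zero (RingHom.id K) h1
    rwa [eval₂_id, derivative_map, map_evalRingHom_eval] at h2

/-- (C4) over a generic `a` (leading coefficient nonzero, `p(a, Y)` split and separable) every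
place over `t = a` is the place of a simple point. -/
theorem exists_eq_pt_of_hasValue_t (v : Place K F) {a : K} (ht : HasValue v M.t a)
    (hlc : M.p.leadingCoeff.eval a ≠ 0) (hs : (M.p.map (evalRingHom a)).Splits)
    (hsep : (M.p.map (evalRingHom a)).Separable) :
    ∃ S : M.SimplePoint, S.a = a ∧ v = pt S := by
  obtain ⟨b, hb, hy⟩ := M.exists_hasValue_y v ht hlc hs
  exact ⟨M.simplePointOfSeparable hsep hb, rfl, pt_unique _ v ht hy⟩

/-- (C4) over a generic `a` the function `t - a` is a uniformizer at every place over `a`. -/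
theorem ord_t_sub_eq_one (v : Place K F) {a : K} (ht : HasValue v M.t a)
    (hlc : M.p.leadingCoeff.eval a ≠ 0) (hs : (M.p.map (evalRingHom a)).Splits)
    (hsep : (M.p.map (evalRingHom a)).Separable) :
    v.ord (M.t - algebraMap K F a) = 1 := by
  obtain ⟨S, rfl, rfl⟩ := M.exists_eq_pt_of_hasValue_t v ht hlc hs hsep
  exact ord_pt_t S

end PlaneModel

end Fibre


/-! ### Part 6 : residue field, adapters -/

section Adapters

open Fermat.Agent.S24.helper384

variable {K F : Type*} [Field K] [Field F] [Algebra K F]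

/-- A place at which every regular function takes a value in `K` has degree one. -/
theorem deg_eq_one_of_hasValue (v : Place K F)
    (h : ∀ f ∈ v.toValuationSubring, ∃ c : K, HasValue v f c) : v.deg = 1 := by
  have hsurj : Function.Surjective (algebraMap K v.ResidueField) := by
    intro x
    obtain ⟨f, rfl⟩ := IsLocalRing.residue_surjective x
    obtain ⟨c, hc⟩ := h f.1 f.2
    refine ⟨c, ?_⟩
    have h1 : algebraMap K v.ResidueField c
        = IsLocalRing.residue v.toValuationSubring (algebraMap K v.toValuationSubring c) := rfl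
    rw [h1, eq_comm, ← sub_eq_zero, ← map_sub, IsLocalRing.residue_eq_zero_iff,
      mem_maximalIdeal_iff]
    exact hasValue_iff.mp hc
  have hinj : Function.Injective (algebraMap K v.ResidueField) := (algebraMap K _).injective
  have e : K ≃ₗ[K] v.ResidueField :=
    LinearEquiv.ofBijective (Algebra.linearMap K v.ResidueField) ⟨hinj, hsurj⟩
  rw [Place.deg, ← e.finrank_eq, Module.finrank_self]

namespace PlaneModel

variable {M : PlaneModel K F} (S : M.SimplePoint)

/-- Every function regular at a simple point has a value in `K` there. -/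
theorem exists_hasValue_pt {f : F} (hf : f ∈ (pt S).toValuationSubring) :
    ∃ c : K, HasValue (pt S) f c := by
  rcases eq_or_ne f 0 with rfl | hf0
  · exact ⟨0, Or.inl (map_zero _).symm⟩
  obtain ⟨k, hk⟩ := Int.eq_ofNat_of_zero_le (ord_nonneg_of_mem _ hf)
  obtain ⟨G1, H1, -, hH1, e⟩ := (ord_pt_eq_iff S hf0 k).mp hk
  refine ⟨_, hasValue_pt_of_frac S (G := C (X - C S.a) ^ k * G1) hH1 ?_⟩
  rw [e, zpow_natCast]
  simp

/-- (C2) the residue field at a simple point is `K`. -/
theorem deg_pt : (pt S).deg = 1 :=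
  deg_eq_one_of_hasValue _ (fun _ hf => exists_hasValue_pt S hf)

end PlaneModel

/-- Adapter: a plane model from generators `t, y` of the field extension and a generator `p`
of the ideal of relations. -/
noncomputable def PlaneModel.ofAdjoin (t y : F) (p : K[X][X]) (hp0 : aevalAeval t y p = 0)
    (hker : ∀ P : K[X][X], aevalAeval t y P = 0 → p ∣ P)
    (hgen : IntermediateField.adjoin K {t, y} = ⊤) : PlaneModel K F where
  t := t
  y := y
  p := p
  hp0 := hp0
  hker := hker
  hfrac := by
    intro f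
    have hle : Algebra.adjoin K {t, y} ≤ (aevalAeval t y : K[X][X] →ₐ[K] F).range := by
      apply Algebra.adjoin_le
      rintro x (rfl | rfl)
      · exact ⟨C X, by simp⟩
      · exact ⟨X, by simp⟩
    have hf : f ∈ IntermediateField.adjoin K {t, y} := by rw [hgen]; trivial
    obtain ⟨r, hr, s, hs, rfl⟩ := IntermediateField.mem_adjoin_iff_div.mp hf
    obtain ⟨G, rfl⟩ := hle hr
    obtain ⟨H, rfl⟩ := hle hs
    by_cases h0 : aevalAeval t y H = 0
    · refine ⟨0, 1, by simp, ?_⟩
      simp only [AlgHom.toRingHom_eq_coe, RingHom.coe_coe] at h0 ⊢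
      rw [h0]; simp
    · refine ⟨G, H, h0, ?_⟩
      simp only [AlgHom.toRingHom_eq_coe, RingHom.coe_coe] at h0 ⊢
      field_simp

@[simp]
theorem PlaneModel.ofAdjoin_t (t y : F) (p : K[X][X]) (hp0 : aevalAeval t y p = 0)
    (hker : ∀ P : K[X][X], aevalAeval t y P = 0 → p ∣ P)
    (hgen : IntermediateField.adjoin K {t, y} = ⊤) :
    (PlaneModel.ofAdjoin t y p hp0 hker hgen).t = t := rfl

@[simp]
theorem PlaneModel.ofAdjoin_y (t y : F) (p : K[X][X]) (hp0 : aevalAeval t y p = 0)
    (hker : ∀ P : K[X][X], aevalAeval t y P = 0 → p ∣ P)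
    (hgen : IntermediateField.adjoin K {t, y} = ⊤) :
    (PlaneModel.ofAdjoin t y p hp0 hker hgen).y = y := rfl

@[simp]
theorem PlaneModel.ofAdjoin_p (t y : F) (p : K[X][X]) (hp0 : aevalAeval t y p = 0)
    (hker : ∀ P : K[X][X], aevalAeval t y P = 0 → p ∣ P)
    (hgen : IntermediateField.adjoin K {t, y} = ⊤) :
    (PlaneModel.ofAdjoin t y p hp0 hker hgen).p = p := rfl

/-- The evaluation `K[X][Y] → F` in the "map then aeval" convention. -/
theorem aevalAeval_eq_aeval_map (t y : F) (P : K[X][X]) :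
    aevalAeval t y P = aeval y (P.map ((aeval t : K[X] →ₐ[K] F) : K[X] →+* F)) := by
  have h : ((aevalAeval t y : K[X][X] →ₐ[K] F) : K[X][X] →+* F)
      = ((aeval y : F[X] →ₐ[F] F) : F[X] →+* F).comp
        (mapRingHom ((aeval t : K[X] →ₐ[K] F) : K[X] →+* F)) := by
    apply Polynomial.ringHom_ext
    · intro c; simp
    · simp
  exact DFunLike.congr_fun h P

end Adapters

/-! ### Part 7 : analytic order along a holomorphic branch (`K = ℂ`) -/

section Analytic

open Fermat.Agent.S24.helper384 Filter Topology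

theorem evalEval_eq_sum {K : Type*} [Field K] (G : K[X][X]) (x y : K) :
    G.evalEval x y = ∑ i ∈ Finset.range (G.natDegree + 1), (G.coeff i).eval x * y ^ i := by
  rw [evalEval, eval_eq_sum_range (p := G), eval_finsetSum]
  simp

/-- Substituting an analytic branch in a bivariate polynomial gives an analytic function. -/
theorem analyticAt_evalEval {β : ℂ → ℂ} {a : ℂ} (hβ : AnalyticAt ℂ β a) (G : ℂ[X][X]) :
    AnalyticAt ℂ (fun s => G.evalEval s (β s)) a := by
  have h : (fun s => G.evalEval s (β s))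
      = fun s => ∑ i ∈ Finset.range (G.natDegree + 1), (G.coeff i).eval s * β s ^ i := by
    funext s; exact evalEval_eq_sum G s (β s)
  rw [h]
  refine Finset.analyticAt_fun_sum _ (fun i _ => ?_)
  exact ((AnalyticOnNhd.eval_polynomial (𝕜 := ℂ) (G.coeff i)) a (Set.mem_univ a)).mul (hβ.pow i)

variable {F : Type*} [Field F] [Algebra ℂ F] {M : PlaneModel ℂ F}

/-- (AN) Along a holomorphic branch `y = β(t)` through a simple point, the order of a regular
function at the place of the simple point is the analytic order of its restriction to the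
branch. -/
theorem PlaneModel.analyticOrderAt_eq_ord (S : M.SimplePoint) {β : ℂ → ℂ}
    (hβ : AnalyticAt ℂ β S.a) (hβa : β S.a = S.b)
    (hp : ∀ᶠ s in 𝓝 S.a, M.p.evalEval s (β s) = 0) {G : ℂ[X][X]} (hG : M.ev G ≠ 0) :
    ∃ k : ℕ, (PlaneModel.pt S).ord (M.ev G) = k ∧
      analyticOrderAt (fun s => G.evalEval s (β s)) S.a = k := by
  obtain ⟨k, hk⟩ := PlaneModel.exists_ord_pt_ev S G
  refine ⟨k, hk, ?_⟩
  obtain ⟨G1, H1, hG1, hH1, ⟨R, hR⟩⟩ := (PlaneModel.ord_pt_ev_eq_iff S hG k).mp hk
  have hG1an := analyticAt_evalEval hβ G1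
  have hH1an := analyticAt_evalEval hβ H1
  have hH1a : H1.evalEval S.a (β S.a) ≠ 0 := by rw [hβa]; exact hH1
  have hG1a : G1.evalEval S.a (β S.a) ≠ 0 := by rw [hβa]; exact hG1
  rw [(analyticAt_evalEval hβ G).analyticOrderAt_eq_natCast]
  refine ⟨fun s => G1.evalEval s (β s) / H1.evalEval s (β s), hG1an.div hH1an hH1a,
    div_ne_zero hG1a hH1a, ?_⟩
  have hH1ev : ∀ᶠ s in 𝓝 S.a, H1.evalEval s (β s) ≠ 0 :=
    hH1an.continuousAt.eventually_ne hH1a
  filter_upwards [hp, hH1ev] with s hs hs'
  have h1 := congrArg (evalEval s (β s)) hR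
  simp only [evalEval_sub, evalEval_mul, evalEval_pow, evalEval_C, eval_sub, eval_X, eval_C, hs,
    zero_mul] at h1
  rw [smul_eq_mul]
  field_simp
  linear_combination h1

end Analytic

end Fermat.Agent.S27.helper6028
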