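import Mathlib

/-!
# S27 / E4-BND : bounded Abel–Jacobi image by polygonal path lifting

Abstract, Mathlib-only analytic core of variant (D) of the step "ker E spans C^g over R".

Setting (no curve objects):
* `Sg : Set ℂ` a finite set of special values, `X : Set (ℂ × ℂ)` the generic part of a plane
  model (`p.1 ∉ Sg` on `X`);
* `HasBranches Sg X` : evenly covered discs (continuous branches through every point);
* `LocallyInjFst X` : `X` is locally a graph over the first coordinate;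
* `LocalAbel X E c w` : the one-point local Abel lemma in primitive form;
* a majorant `G` of `‖w‖` with uniformly bounded line integrals (`LineBound G M`).

Main results: `exists_lift`, `abel_along_lift`, `lineBound_majorant`, `exists_midpoint`,
`bounded_image`, `bounded_image_majorant`.
-/

set_option autoImplicit false

namespace Fermat.Agent.S27.helper6111

open Set Metric Filter Topology MeasureTheory

/-- `(EC)`: every point off `Sg` has an evenly covered disc: through every point of `X` lying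
over the disc there is a continuous branch defined on the whole disc. -/
def HasBranches (Sg : Set ℂ) (X : Set (ℂ × ℂ)) : Prop :=
  ∀ a, a ∉ Sg → ∃ r > 0, ∀ p ∈ X, p.1 ∈ ball a r →
    ∃ b : ℂ → ℂ, ContinuousOn b (ball a r) ∧ b p.1 = p.2 ∧ ∀ t ∈ ball a r, (t, b t) ∈ X

/-- `(UNIQ)`: `X` is locally a graph over the first coordinate. -/
def LocallyInjFst (X : Set (ℂ × ℂ)) : Prop :=
  ∀ p ∈ X, ∃ U ∈ 𝓝 p, Set.InjOn Prod.fst (X ∩ U)

/-- The unit speed line `t ↦ a + t ω`. -/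
def line (a ω : ℂ) (t : ℝ) : ℂ := a + (t : ℂ) * ω

theorem continuous_line (a ω : ℂ) : Continuous (line a ω) := by
  unfold line; fun_prop

theorem line_zero (a ω : ℂ) : line a ω 0 = a := by simp [line]

theorem hasDerivAt_line (a ω : ℂ) (t : ℝ) : HasDerivAt (line a ω) ω t := by
  have h1 : HasDerivAt (fun t : ℝ => (t : ℂ)) 1 t := Complex.ofRealCLM.hasDerivAt
  have h2 : HasDerivAt (fun t : ℝ => (t : ℂ) * ω) (1 * ω) t := h1.mul_const ω
  have h3 : HasDerivAt (fun t : ℝ => a + (t : ℂ) * ω) (1 * ω) t := h2.const_add a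
  rw [one_mul] at h3
  exact h3

/-- One extension step for lifts. -/
theorem lift_extend {X : Set (ℂ × ℂ)} (a ω : ℂ) {T T' : ℝ} (hT0 : 0 ≤ T)
    (hTT' : T ≤ T') {c r : ℝ}
    (hball : ∀ t ∈ Icc T T', line a ω t ∈ ball (line a ω c) r)
    (hbr : ∀ p ∈ X, p.1 ∈ ball (line a ω c) r →
      ∃ b : ℂ → ℂ, ContinuousOn b (ball (line a ω c) r) ∧ b p.1 = p.2 ∧
        ∀ t ∈ ball (line a ω c) r, (t, b t) ∈ X)
    (y0 : ℂ)
    (h : ∃ y : ℝ → ℂ, ContinuousOn y (Icc 0 T) ∧ y 0 = y0 ∧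
      ∀ t ∈ Icc (0:ℝ) T, (line a ω t, y t) ∈ X) :
    ∃ y : ℝ → ℂ, ContinuousOn y (Icc 0 T') ∧ y 0 = y0 ∧
      ∀ t ∈ Icc (0:ℝ) T', (line a ω t, y t) ∈ X := by
  obtain ⟨y, hyc, hy0, hyX⟩ := h
  have hTmem : T ∈ Icc (0:ℝ) T := ⟨hT0, le_rfl⟩
  have hTmem' : T ∈ Icc T T' := ⟨le_rfl, hTT'⟩
  obtain ⟨b, hbc, hbT, hbX⟩ := hbr (line a ω T, y T) (hyX T hTmem) (hball T hTmem')
  refine ⟨fun t => if t ≤ T then y t else b (line a ω t), ?_, ?_, ?_⟩
  · have hsplit : Icc (0:ℝ) T' = Icc 0 T ∪ Icc T T' := (Icc_union_Icc_eq_Icc hT0 hTT').symm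
    rw [hsplit]
    refine ContinuousOn.union_of_isClosed ?_ ?_ isClosed_Icc isClosed_Icc
    · refine hyc.congr ?_
      intro t ht
      simp [ht.2]
    · have hcomp : ContinuousOn (fun t => b (line a ω t)) (Icc T T') :=
        hbc.comp (continuous_line a ω).continuousOn hball
      refine hcomp.congr ?_
      intro t ht
      by_cases htT : t ≤ T
      · have : t = T := le_antisymm htT ht.1
        subst this
        simpa using hbT.symm
      · simp [htT]
  · simp [hT0, hy0]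
  · intro t ht
    by_cases htT : t ≤ T
    · simpa [htT] using hyX t ⟨ht.1, htT⟩
    · simpa [htT] using hbX _ (hball t ⟨le_of_not_ge htT, ht.2⟩)

/-- `(B2)` path lifting along a unit speed segment avoiding `Sg`, with prescribed starting point. -/
theorem exists_lift {Sg : Set ℂ} {X : Set (ℂ × ℂ)} (hEC : HasBranches Sg X)
    (a ω : ℂ) (L : ℝ) (hL : 0 ≤ L) (havoid : ∀ t ∈ Icc (0:ℝ) L, line a ω t ∉ Sg)
    (y0 : ℂ) (hy0 : (a, y0) ∈ X) :
    ∃ y : ℝ → ℂ, ContinuousOn y (Icc 0 L) ∧ y 0 = y0 ∧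
      ∀ t ∈ Icc (0:ℝ) L, (line a ω t, y t) ∈ X := by
  -- radii of evenly covered discs along the segment
  have hr : ∀ t : Icc (0:ℝ) L, ∃ r > 0, ∀ p ∈ X, p.1 ∈ ball (line a ω t) r →
      ∃ b : ℂ → ℂ, ContinuousOn b (ball (line a ω t) r) ∧ b p.1 = p.2 ∧
        ∀ s ∈ ball (line a ω t) r, (s, b s) ∈ X := fun t => hEC _ (havoid t t.2)
  choose r hr0 hrb using hr
  -- Lebesgue number
  obtain ⟨δ, hδ, hleb⟩ := lebesgue_number_lemma_of_metric (s := Icc (0:ℝ) L)
    (c := fun t : Icc (0:ℝ) L => line a ω ⁻¹' ball (line a ω t) (r t)) isCompact_Icc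
    (fun t => isOpen_ball.preimage (continuous_line a ω))
    (fun t ht => mem_iUnion.2 ⟨⟨t, ht⟩, by simpa using hr0 ⟨t, ht⟩⟩)
  -- uniform partition
  obtain ⟨N, hN⟩ := exists_nat_gt (L / δ)
  have hNpos : (0:ℝ) < N := lt_of_le_of_lt (div_nonneg hL hδ.le) hN
  have hstep : L / N < δ := by
    rw [div_lt_iff₀ hNpos]
    rw [div_lt_iff₀ hδ] at hN
    linarith [mul_comm (N:ℝ) δ]
  have key : ∀ k : ℕ, k ≤ N → ∃ y : ℝ → ℂ, ContinuousOn y (Icc 0 (k * (L / N))) ∧ y 0 = y0 ∧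
      ∀ t ∈ Icc (0:ℝ) (k * (L / N)), (line a ω t, y t) ∈ X := by
    intro k
    induction k with
    | zero =>
      intro _
      refine ⟨fun _ => y0, continuousOn_const, rfl, ?_⟩
      intro t ht
      have : t = 0 := by
        have h1 := ht.1
        have h2 := ht.2
        simp at h2
        linarith
      subst this
      simpa [line_zero] using hy0
    | succ k ih =>
      intro hk
      have hkN : (k:ℝ) + 1 ≤ N := by exact_mod_cast hk
      have hstep0 : 0 ≤ L / N := div_nonneg hL hNpos.le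
      have hT0 : (0:ℝ) ≤ k * (L / N) := mul_nonneg (Nat.cast_nonneg k) hstep0
      have hTL : (k:ℝ) * (L / N) ≤ L := by
        have : (k:ℝ) * (L / N) ≤ N * (L / N) := by
          apply mul_le_mul_of_nonneg_right _ hstep0
          linarith
        have h2 : (N:ℝ) * (L / N) = L := by field_simp
        linarith
      have hT'L : ((k+1 : ℕ):ℝ) * (L / N) ≤ L := by
        have : ((k+1 : ℕ):ℝ) * (L / N) ≤ N * (L / N) := by
          apply mul_le_mul_of_nonneg_right _ hstep0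
          exact_mod_cast hk
        have h2 : (N:ℝ) * (L / N) = L := by field_simp
        linarith
      have hTT' : (k:ℝ) * (L / N) ≤ ((k+1 : ℕ):ℝ) * (L / N) := by
        push_cast
        nlinarith
      obtain ⟨i, hi⟩ := hleb (k * (L / N)) ⟨hT0, hTL⟩
      refine lift_extend a ω hT0 hTT' (c := i) (r := r i) ?_ (hrb i) y0 (ih (by omega))
      intro t ht
      have : t ∈ ball ((k:ℝ) * (L / N)) δ := by
        rw [mem_ball, Real.dist_eq, abs_lt]
        have h1 := ht.1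
        have h2 := ht.2
        push_cast at h2
        constructor <;> nlinarith
      exact hi this
  obtain ⟨y, hy⟩ := key N le_rfl
  have hNL : (N:ℝ) * (L / N) = L := by field_simp
  rw [hNL] at hy
  exact ⟨y, hy⟩

section Abel

variable {V A : Type*} [NormedAddCommGroup V] [NormedSpace ℂ V] [AddCommGroup A]

/-- `(ABEL-1)`: the one-point local Abel lemma in primitive form: through every point `p` of `X`
there are a continuous branch `b` on a disc and a holomorphic primitive `Φ` of `t ↦ w (t, b t)`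
such that `c (t, b t) - c p = E (Φ t - Φ p.1)` on the disc. -/
def LocalAbel (X : Set (ℂ × ℂ)) (E : V →+ A) (c : ℂ × ℂ → A) (w : ℂ × ℂ → V) : Prop :=
  ∀ p ∈ X, ∃ r > 0, ∃ (b : ℂ → ℂ) (Φ : ℂ → V), ContinuousOn b (ball p.1 r) ∧ b p.1 = p.2 ∧
    ∀ t ∈ ball p.1 r, (t, b t) ∈ X ∧ HasDerivAt Φ (w (t, b t)) t ∧
      c (t, b t) - c p = E (Φ t - Φ p.1)

variable {X : Set (ℂ × ℂ)} {E : V →+ A} {c : ℂ × ℂ → A} {w : ℂ × ℂ → V}

/-- Local description of a lift: near every parameter the lift runs on the branch of `(ABEL-1)`. -/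
theorem local_data (hU : LocallyInjFst X) (hAb : LocalAbel X E c w) (a ω : ℂ) (L : ℝ)
    (y : ℝ → ℂ) (hy : ContinuousOn y (Icc 0 L))
    (hyX : ∀ t ∈ Icc (0:ℝ) L, (line a ω t, y t) ∈ X) (t0 : ℝ) (ht0 : t0 ∈ Icc (0:ℝ) L) :
    ∃ ε > 0, ∃ (Φ : ℂ → V) (r : ℝ), 0 < r ∧
      (∀ s ∈ ball (line a ω t0) r, DifferentiableAt ℂ Φ s) ∧
      ∀ t ∈ Icc (0:ℝ) L, |t - t0| < ε → line a ω t ∈ ball (line a ω t0) r ∧
        HasDerivAt Φ (w (line a ω t, y t)) (line a ω t) ∧
        c (line a ω t, y t) - c (line a ω t0, y t0) = E (Φ (line a ω t) - Φ (line a ω t0)) := by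
  obtain ⟨r, hr, b, Φ, hbc, hb0, hb⟩ := hAb _ (hyX t0 ht0)
  obtain ⟨U, hUn, hinj⟩ := hU _ (hyX t0 ht0)
  simp only at hbc hb0 hb
  have hcl : ContinuousWithinAt (line a ω) (Icc 0 L) t0 :=
    (continuous_line a ω).continuousWithinAt
  have h1 : ∀ᶠ t in 𝓝[Icc 0 L] t0, line a ω t ∈ ball (line a ω t0) r :=
    hcl.eventually (ball_mem_nhds _ hr)
  have h2 : ∀ᶠ t in 𝓝[Icc 0 L] t0, (line a ω t, y t) ∈ U :=
    (hcl.prodMk (hy t0 ht0)).eventually hUn
  have hbat : ContinuousAt b (line a ω t0) := hbc.continuousAt (ball_mem_nhds _ hr)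
  have hcb : ContinuousWithinAt (fun t => (line a ω t, b (line a ω t))) (Icc 0 L) t0 :=
    hcl.prodMk (hbat.comp_continuousWithinAt hcl)
  have h3 : ∀ᶠ t in 𝓝[Icc 0 L] t0, (line a ω t, b (line a ω t)) ∈ U := by
    have hU' : U ∈ 𝓝 (line a ω t0, b (line a ω t0)) := by rw [hb0]; exact hUn
    exact hcb.eventually hU'
  have h4 : ∀ᶠ t in 𝓝[Icc 0 L] t0, line a ω t ∈ ball (line a ω t0) r ∧ y t = b (line a ω t) := by
    filter_upwards [h1, h2, h3, self_mem_nhdsWithin] with t hb1 hU1 hU2 htI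
    refine ⟨hb1, ?_⟩
    have hX2 := (hb _ hb1).1
    have := hinj ⟨hyX t htI, hU1⟩ ⟨hX2, hU2⟩ rfl
    exact congrArg Prod.snd this
  obtain ⟨ε, hε, hsub⟩ := Metric.mem_nhdsWithin_iff.1 h4
  refine ⟨ε, hε, Φ, r, hr, fun s hs => (hb s hs).2.1.differentiableAt, ?_⟩
  intro t ht hlt
  have hmem : t ∈ ball t0 ε ∩ Icc 0 L := ⟨by rw [mem_ball, Real.dist_eq]; exact hlt, ht⟩
  obtain ⟨hb1, hyt⟩ := hsub hmem
  have hy0 : y t0 = b (line a ω t0) := hb0.symm
  refine ⟨hb1, ?_, ?_⟩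
  · rw [hyt]; exact (hb _ hb1).2.1
  · rw [hyt]; exact (hb _ hb1).2.2

variable [CompleteSpace V]

/-- `(B3)`: along a lifted segment, `w` is continuous and the difference of `c` at the end points
is `E` of the path integral of `w`. -/
theorem abel_along_lift (hU : LocallyInjFst X) (hAb : LocalAbel X E c w) (a ω : ℂ) (L : ℝ)
    (y : ℝ → ℂ) (hy : ContinuousOn y (Icc 0 L))
    (hyX : ∀ t ∈ Icc (0:ℝ) L, (line a ω t, y t) ∈ X) (hL : 0 ≤ L) :
    ContinuousOn (fun t : ℝ => w (line a ω t, y t)) (Icc 0 L) ∧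
      c (line a ω L, y L) - c (line a ω 0, y 0)
        = E (∫ t in (0:ℝ)..L, ω • w (line a ω t, y t)) := by
  set g : ℝ → V := fun t => w (line a ω t, y t) with hg
  -- continuity of `g`
  have hgc : ContinuousOn g (Icc 0 L) := by
    intro t0 ht0
    obtain ⟨ε, hε, Φ, r, hr, hdiff, hloc⟩ := local_data hU hAb a ω L y hy hyX t0 ht0
    have hdo : DifferentiableOn ℂ Φ (ball (line a ω t0) r) :=
      fun s hs => (hdiff s hs).differentiableWithinAt
    have hdc : ContinuousAt (deriv Φ) (line a ω t0) :=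
      (hdo.deriv isOpen_ball).continuousOn.continuousAt (ball_mem_nhds _ hr)
    have hcomp : ContinuousWithinAt (fun t => deriv Φ (line a ω t)) (Icc 0 L) t0 :=
      hdc.comp_continuousWithinAt (continuous_line a ω).continuousWithinAt
    refine hcomp.congr_of_eventuallyEq ?_ ?_
    · have : ball t0 ε ∩ Icc 0 L ∈ 𝓝[Icc 0 L] t0 :=
        Metric.mem_nhdsWithin_iff.2 ⟨ε, hε, subset_rfl⟩
      filter_upwards [this] with t ht
      have := (hloc t ht.2 (by simpa [Real.dist_eq] using ht.1)).2.1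
      exact this.deriv.symm
    · have := (hloc t0 ht0 (by simpa using hε)).2.1
      exact this.deriv.symm
  refine ⟨hgc, ?_⟩
  have hint : ∀ s t : ℝ, s ∈ Icc (0:ℝ) L → t ∈ Icc (0:ℝ) L →
      IntervalIntegrable (fun u => ω • g u) volume s t := by
    intro s t hs ht
    refine ContinuousOn.intervalIntegrable ?_
    exact (continuousOn_const.smul hgc).mono (uIcc_subset_Icc hs ht)
  -- the defect is locally constant
  set D : ℝ → A := fun t => c (line a ω t, y t) - E (∫ u in (0:ℝ)..t, ω • g u) with hD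
  have h0L : (0:ℝ) ∈ Icc (0:ℝ) L := ⟨le_rfl, hL⟩
  have hLL : L ∈ Icc (0:ℝ) L := ⟨hL, le_rfl⟩
  have hconst : D 0 = D L := by
    refine isPreconnected_Icc.induction₂ (fun s t => D s = D t) ?_ ?_ ?_ h0L hLL
    · intro t0 ht0
      obtain ⟨ε, hε, Φ, r, hr, hdiff, hloc⟩ := local_data hU hAb a ω L y hy hyX t0 ht0
      have : ball t0 ε ∩ Icc 0 L ∈ 𝓝[Icc 0 L] t0 :=
        Metric.mem_nhdsWithin_iff.2 ⟨ε, hε, subset_rfl⟩
      filter_upwards [this] with t ht
      have htI : t ∈ Icc (0:ℝ) L := ht.2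
      have htε : |t - t0| < ε := by simpa [Real.dist_eq] using ht.1
      have hftc : ∫ u in t0..t, ω • g u = Φ (line a ω t) - Φ (line a ω t0) := by
        have := intervalIntegral.integral_eq_sub_of_hasDerivAt (f := Φ ∘ line a ω)
          (f' := fun u => ω • g u) (a := t0) (b := t) ?_ (hint t0 t ht0 htI)
        · simpa using this
        · intro u hu
          have huI : u ∈ Icc (0:ℝ) L := uIcc_subset_Icc ht0 htI hu
          have huε : |u - t0| < ε := lt_of_le_of_lt (abs_sub_left_of_mem_uIcc hu) htε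
          have hd := (hloc u huI huε).2.1
          exact HasDerivAt.scomp u hd (hasDerivAt_line a ω u)
      have hadd : ∫ u in (0:ℝ)..t, ω • g u
          = (∫ u in (0:ℝ)..t0, ω • g u) + ∫ u in t0..t, ω • g u :=
        (intervalIntegral.integral_add_adjacent_intervals (hint 0 t0 h0L ht0)
          (hint t0 t ht0 htI)).symm
      have hab := (hloc t htI htε).2.2
      simp only [hD]
      rw [hadd, map_add, hftc, ← hab]
      abel
    · intro x y z _ _ _ hxy hyz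
      exact hxy.trans hyz
    · intro x y _ _ hxy
      exact hxy.symm
  simp only [hD, intervalIntegral.integral_same, map_zero, sub_zero] at hconst
  rw [hconst]
  abel

omit [CompleteSpace V] in
/-- Norm bound for the path integral from a line-integral bound of a majorant. -/
theorem norm_integral_le {g : ℝ → V} {G : ℂ → ℝ} {a ω : ℂ} {L M : ℝ} (hω : ‖ω‖ = 1)
    (hL : 0 ≤ L) (hM : 0 ≤ M) (hg : ContinuousOn g (Icc 0 L))
    (hbound : ∀ t ∈ Icc (0:ℝ) L, ‖g t‖ ≤ G (line a ω t))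
    (hline : ∫⁻ t in Icc (0:ℝ) L, ENNReal.ofReal (G (line a ω t)) ≤ ENNReal.ofReal M) :
    ‖∫ t in (0:ℝ)..L, ω • g t‖ ≤ M := by
  have h1 : ‖∫ t in (0:ℝ)..L, ω • g t‖ ≤ ∫ t in (0:ℝ)..L, ‖ω • g t‖ :=
    intervalIntegral.norm_integral_le_integral_norm hL
  have h2 : (∫ t in (0:ℝ)..L, ‖ω • g t‖) = ∫ t in Ioc (0:ℝ) L, ‖g t‖ := by
    rw [intervalIntegral.integral_of_le hL]
    refine integral_congr_ae (Eventually.of_forall fun t => ?_)
    simp [norm_smul, hω]
  have hcont : ContinuousOn (fun t => ‖g t‖) (Icc 0 L) := hg.norm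
  have hintg : IntegrableOn (fun t => ‖g t‖) (Ioc 0 L) :=
    (hcont.integrableOn_Icc).mono_set Ioc_subset_Icc_self
  have h3 : ENNReal.ofReal (∫ t in Ioc (0:ℝ) L, ‖g t‖)
      = ∫⁻ t in Ioc (0:ℝ) L, ENNReal.ofReal ‖g t‖ :=
    ofReal_integral_eq_lintegral_ofReal hintg (Eventually.of_forall fun t => norm_nonneg _)
  have h4 : ∫⁻ t in Ioc (0:ℝ) L, ENNReal.ofReal ‖g t‖
      ≤ ∫⁻ t in Icc (0:ℝ) L, ENNReal.ofReal ‖g t‖ :=
    lintegral_mono_set Ioc_subset_Icc_self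
  have h5 : ∫⁻ t in Icc (0:ℝ) L, ENNReal.ofReal ‖g t‖
      ≤ ∫⁻ t in Icc (0:ℝ) L, ENNReal.ofReal (G (line a ω t)) :=
    setLIntegral_mono' measurableSet_Icc fun t ht => ENNReal.ofReal_le_ofReal (hbound t ht)
  have h6 : ENNReal.ofReal (∫ t in Ioc (0:ℝ) L, ‖g t‖) ≤ ENNReal.ofReal M := by
    rw [h3]; exact (h4.trans h5).trans hline
  rw [h2] at h1
  exact h1.trans ((ENNReal.ofReal_le_ofReal_iff hM).1 h6)

end Abel

/-- `G` has line integrals bounded by `M`, uniformly over all unit speed segments of `ℂ`. -/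
def LineBound (G : ℂ → ℝ) (M : ℝ) : Prop :=
  ∀ (a ω : ℂ) (L : ℝ), ‖ω‖ = 1 → 0 ≤ L →
    ∫⁻ t in Icc (0:ℝ) L, ENNReal.ofReal (G (line a ω t)) ≤ ENNReal.ofReal M

/-- `(B4)`: two points off a finite set are joined by a two-segment polygon avoiding the set. -/
theorem exists_midpoint {Sg : Set ℂ} (hSg : Sg.Finite) {a0 a' : ℂ} (h0 : a0 ∉ Sg)
    (h' : a' ∉ Sg) :
    ∃ m : ℂ, (∀ t ∈ Icc (0:ℝ) 1, a' + (t : ℂ) * (m - a') ∉ Sg) ∧
      (∀ t ∈ Icc (0:ℝ) 1, m + (t : ℂ) * (a0 - m) ∉ Sg) := by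
  set c0 : ℝ := max a0.re a'.re + 1 with hc0
  have hc0a : c0 - a0.re ≠ 0 := by
    have := le_max_left a0.re a'.re
    intro h; linarith
  have hc0a' : c0 - a'.re ≠ 0 := by
    have := le_max_right a0.re a'.re
    intro h; linarith
  let m : ℝ → ℂ := fun τ => ⟨c0, τ⟩
  let B1 : ℂ → Set ℝ := fun s => {τ | ∃ t ∈ Icc (0:ℝ) 1, a' + (t : ℂ) * (m τ - a') = s}
  let B2 : ℂ → Set ℝ := fun s => {τ | ∃ t ∈ Icc (0:ℝ) 1, m τ + (t : ℂ) * (a0 - m τ) = s}
  have hB1 : ∀ s ∈ Sg, (B1 s).Subsingleton := by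
    intro s hs τ1 h1 τ2 h2
    obtain ⟨t1, -, e1⟩ := h1
    obtain ⟨t2, -, e2⟩ := h2
    have r1 := congrArg Complex.re e1
    have r2 := congrArg Complex.re e2
    have i1 := congrArg Complex.im e1
    have i2 := congrArg Complex.im e2
    simp [m] at r1 r2 i1 i2
    have ht : t1 = t2 := by
      have : t1 * (c0 - a'.re) = t2 * (c0 - a'.re) := by linarith
      exact mul_right_cancel₀ hc0a' this
    subst ht
    have ht0 : t1 ≠ 0 := by
      rintro rfl
      apply h'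
      have : a' = s := by simpa using e1
      rw [this]; exact hs
    have : t1 * (τ1 - a'.im) = t1 * (τ2 - a'.im) := by linarith
    have := mul_left_cancel₀ ht0 this
    linarith
  have hB2 : ∀ s ∈ Sg, (B2 s).Subsingleton := by
    intro s hs τ1 h1 τ2 h2
    obtain ⟨t1, -, e1⟩ := h1
    obtain ⟨t2, -, e2⟩ := h2
    have r1 := congrArg Complex.re e1
    have r2 := congrArg Complex.re e2
    have i1 := congrArg Complex.im e1
    have i2 := congrArg Complex.im e2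
    simp [m] at r1 r2 i1 i2
    have ht : t1 = t2 := by
      have : t1 * (c0 - a0.re) = t2 * (c0 - a0.re) := by linarith
      exact mul_right_cancel₀ hc0a this
    subst ht
    have ht1 : 1 - t1 ≠ 0 := by
      intro h
      have ht1 : t1 = 1 := by linarith
      subst ht1
      apply h0
      have : a0 = s := by simpa using e1
      rw [this]; exact hs
    have : (1 - t1) * τ1 = (1 - t1) * τ2 := by linarith
    exact mul_left_cancel₀ ht1 this
  have hfin : (⋃ s ∈ Sg, (B1 s ∪ B2 s)).Finite :=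
    hSg.biUnion fun s hs => ((hB1 s hs).finite).union ((hB2 s hs).finite)
  obtain ⟨τ, hτ⟩ := hfin.infinite_compl.nonempty
  refine ⟨m τ, ?_, ?_⟩
  · intro t ht hmem
    exact hτ (mem_biUnion hmem (Or.inl ⟨t, ht, rfl⟩))
  · intro t ht hmem
    exact hτ (mem_biUnion hmem (Or.inr ⟨t, ht, rfl⟩))

section Majorant

/-- Local singular part: `‖u‖ ^ (-e)` on the unit disc, `0` outside. -/
noncomputable def sing (e : ℝ) (u : ℂ) : ℝ := if ‖u‖ < 1 then ‖u‖ ^ (-e) else 0

/-- One-dimensional comparison function for `sing`. -/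
noncomputable def k1 (e : ℝ) (x : ℝ) : ℝ := if |x| < 1 then |x| ^ (-e) else 0

/-- One-dimensional comparison function for the decay at infinity. -/
noncomputable def k2 (d : ℝ) (x : ℝ) : ℝ := (1 + ‖x‖) ^ (-(1 + d))

/-- The explicit majorant of the pole bound `(P)`:
`C0 * ∏_{s ∈ S} min(1, |z - s|)^(-e) * (1 + |z|)^(-(1+d))`. -/
noncomputable def majorant (S : Finset ℂ) (C0 e d : ℝ) (z : ℂ) : ℝ :=
  C0 * (∏ s ∈ S, (min 1 ‖z - s‖) ^ (-e)) * (1 + ‖z‖) ^ (-(1 + d))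

theorem sing_nonneg (e : ℝ) (u : ℂ) : 0 ≤ sing e u := by
  unfold sing; split_ifs
  · exact Real.rpow_nonneg (norm_nonneg _) _
  · exact le_rfl

theorem k1_nonneg (e : ℝ) (x : ℝ) : 0 ≤ k1 e x := by
  unfold k1; split_ifs
  · exact Real.rpow_nonneg (abs_nonneg _) _
  · exact le_rfl

theorem k2_nonneg (d : ℝ) (x : ℝ) : 0 ≤ k2 d x :=
  Real.rpow_nonneg (by positivity) _

/-- Distance from a point of a unit speed line to `s` dominates the parameter distance to the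
foot of the perpendicular. -/
theorem abs_sub_foot_le (a ω s : ℂ) (hω : ‖ω‖ = 1) (t : ℝ) :
    |t - ((s - a) * (starRingEnd ℂ) ω).re| ≤ ‖line a ω t - s‖ := by
  have h1 : ‖line a ω t - s‖ = ‖(line a ω t - s) * (starRingEnd ℂ) ω‖ := by
    rw [norm_mul, RCLike.norm_conj, hω, mul_one]
  have h2 : ((line a ω t - s) * (starRingEnd ℂ) ω).re
      = t - ((s - a) * (starRingEnd ℂ) ω).re := by
    have : (line a ω t - s) * (starRingEnd ℂ) ω
        = (t : ℂ) * (ω * (starRingEnd ℂ) ω) - (s - a) * (starRingEnd ℂ) ω := by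
      simp only [line]; ring
    rw [this, Complex.mul_conj, Complex.normSq_eq_norm_sq, hω]
    simp
  rw [h1, ← h2]
  exact Complex.abs_re_le_norm _

theorem exists_sep (S : Finset ℂ) :
    ∃ ρ : ℝ, 0 < ρ ∧ ρ ≤ 1 ∧ ∀ s ∈ S, ∀ s' ∈ S, s ≠ s' → 2 * ρ ≤ ‖s - s'‖ := by
  by_cases h : S.offDiag.Nonempty
  · obtain ⟨x, hx, hmin⟩ := Finset.exists_min_image S.offDiag (fun p => ‖p.1 - p.2‖) h
    have hxne : x.1 ≠ x.2 := (Finset.mem_offDiag.1 hx).2.2
    have hμ : 0 < ‖x.1 - x.2‖ := norm_pos_iff.2 (sub_ne_zero.2 hxne)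
    refine ⟨min 1 (‖x.1 - x.2‖ / 2), lt_min one_pos (by positivity), min_le_left _ _, ?_⟩
    intro s hs s' hs' hne
    have := hmin (s, s') (Finset.mem_offDiag.2 ⟨hs, hs', hne⟩)
    have h2 : min 1 (‖x.1 - x.2‖ / 2) ≤ ‖x.1 - x.2‖ / 2 := min_le_right _ _
    simp only at this
    linarith
  · refine ⟨1, one_pos, le_rfl, ?_⟩
    intro s hs s' hs' hne
    exact absurd ⟨(s, s'), Finset.mem_offDiag.2 ⟨hs, hs', hne⟩⟩ h

/-- The product of the singular factors is bounded by a constant times `1 + ∑ sing`. -/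
theorem prod_le_sing (S : Finset ℂ) {e : ℝ} (he : 0 ≤ e) :
    ∃ C1 : ℝ, 0 ≤ C1 ∧ ∀ z : ℂ,
      ∏ s ∈ S, (min 1 ‖z - s‖) ^ (-e) ≤ C1 * (1 + ∑ s ∈ S, sing e (z - s)) := by
  classical
  obtain ⟨ρ, hρ, hρ1, hsep⟩ := exists_sep S
  have hne : -e ≤ 0 := neg_nonpos.2 he
  have hone : 1 ≤ ρ ^ (-e) := Real.one_le_rpow_of_pos_of_le_one_of_nonpos hρ hρ1 hne
  refine ⟨(ρ ^ (-e)) ^ S.card, by positivity, ?_⟩
  intro z
  have hsum0 : 0 ≤ ∑ s ∈ S, sing e (z - s) := Finset.sum_nonneg fun s _ => sing_nonneg _ _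
  rw [← Finset.prod_filter_mul_prod_filter_not S (fun s => ‖z - s‖ < ρ)]
  have hfac0 : ∀ s : ℂ, 0 ≤ (min 1 ‖z - s‖) ^ (-e) := fun s =>
    Real.rpow_nonneg (le_min zero_le_one (norm_nonneg _)) _
  have h2 : ∏ s ∈ S with ¬ ‖z - s‖ < ρ, (min 1 ‖z - s‖) ^ (-e) ≤ (ρ ^ (-e)) ^ S.card := by
    calc ∏ s ∈ S with ¬ ‖z - s‖ < ρ, (min 1 ‖z - s‖) ^ (-e)
        ≤ (ρ ^ (-e)) ^ (S.filter fun s => ¬ ‖z - s‖ < ρ).card := by
          rw [← Finset.prod_const]
          refine Finset.prod_le_prod (fun s _ => hfac0 s) ?_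
          intro s hs
          have hs' : ρ ≤ ‖z - s‖ := not_lt.1 (Finset.mem_filter.1 hs).2
          exact Real.rpow_le_rpow_of_nonpos hρ (le_min hρ1 hs') hne
      _ ≤ (ρ ^ (-e)) ^ S.card := pow_le_pow_right₀ hone (Finset.card_filter_le _ _)
  have h1 : ∏ s ∈ S with ‖z - s‖ < ρ, (min 1 ‖z - s‖) ^ (-e)
      ≤ 1 + ∑ s ∈ S, sing e (z - s) := by
    rcases (S.filter fun s => ‖z - s‖ < ρ).eq_empty_or_nonempty with hN | ⟨s0, hs0⟩
    · rw [hN, Finset.prod_empty]; linarith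
    · have hs0' := Finset.mem_filter.1 hs0
      have hN : (S.filter fun s => ‖z - s‖ < ρ) = {s0} := by
        refine Finset.eq_singleton_iff_unique_mem.2 ⟨hs0, ?_⟩
        intro s' hs'
        have hs'' := Finset.mem_filter.1 hs'
        by_contra hne'
        have h := hsep s0 hs0'.1 s' hs''.1 (fun h => hne' h.symm)
        have h3 : ‖s0 - s'‖ ≤ ‖z - s0‖ + ‖z - s'‖ := by
          have : s0 - s' = (z - s') - (z - s0) := by ring
          rw [this]
          exact (norm_sub_le _ _).trans (by linarith)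
        linarith [hs0'.2, hs''.2]
      rw [hN, Finset.prod_singleton]
      have hlt1 : ‖z - s0‖ < 1 := lt_of_lt_of_le hs0'.2 hρ1
      have heq : (min 1 ‖z - s0‖) ^ (-e) = sing e (z - s0) := by
        unfold sing
        rw [if_pos hlt1, min_eq_right hlt1.le]
      rw [heq]
      have := Finset.single_le_sum (f := fun s => sing e (z - s))
        (fun s _ => sing_nonneg e (z - s)) hs0'.1
      linarith
  have h20 : 0 ≤ ∏ s ∈ S with ¬ ‖z - s‖ < ρ, (min 1 ‖z - s‖) ^ (-e) :=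
    Finset.prod_nonneg fun s _ => hfac0 s
  calc (∏ s ∈ S with ‖z - s‖ < ρ, (min 1 ‖z - s‖) ^ (-e)) *
        ∏ s ∈ S with ¬ ‖z - s‖ < ρ, (min 1 ‖z - s‖) ^ (-e)
      ≤ (1 + ∑ s ∈ S, sing e (z - s)) * (ρ ^ (-e)) ^ S.card :=
        mul_le_mul h1 h2 h20 (by linarith)
    _ = (ρ ^ (-e)) ^ S.card * (1 + ∑ s ∈ S, sing e (z - s)) := mul_comm _ _

theorem sing_le_k1 {e : ℝ} (he : 0 ≤ e) (a ω s : ℂ) (hω : ‖ω‖ = 1) (t : ℝ)
    (ht : t ≠ ((s - a) * (starRingEnd ℂ) ω).re) :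
    sing e (line a ω t - s) ≤ k1 e (t - ((s - a) * (starRingEnd ℂ) ω).re) := by
  have hle := abs_sub_foot_le a ω s hω t
  unfold sing
  by_cases h : ‖line a ω t - s‖ < 1
  · rw [if_pos h]
    unfold k1
    rw [if_pos (lt_of_le_of_lt hle h)]
    exact Real.rpow_le_rpow_of_nonpos (abs_pos.2 (sub_ne_zero.2 ht)) hle (neg_nonpos.2 he)
  · rw [if_neg h]
    exact k1_nonneg _ _

theorem dec_le_k2 {d : ℝ} (hd : 0 < d) (a ω : ℂ) (hω : ‖ω‖ = 1) (t : ℝ) :
    (1 + ‖line a ω t‖) ^ (-(1 + d)) ≤ k2 d (t - ((0 - a) * (starRingEnd ℂ) ω).re) := by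
  have hle := abs_sub_foot_le a ω 0 hω t
  rw [sub_zero] at hle
  unfold k2
  rw [Real.norm_eq_abs]
  refine Real.rpow_le_rpow_of_nonpos (by positivity) (by linarith) (by linarith)

theorem integrable_k2 {d : ℝ} (hd : 0 < d) : Integrable (k2 d) := by
  have : ((Module.finrank ℝ ℝ : ℕ) : ℝ) < 1 + d := by simp; exact hd
  exact integrable_one_add_norm (E := ℝ) (μ := volume) this

theorem integrable_k1 {e : ℝ} (he1 : e < 1) : Integrable (k1 e) := by
  have hk : k1 e = (Ioo (-1:ℝ) 1).indicator (fun x => |x| ^ (-e)) := by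
    funext x
    unfold k1
    by_cases h : |x| < 1
    · rw [if_pos h, indicator_of_mem (mem_Ioo.2 (abs_lt.1 h))]
    · rw [if_neg h, indicator_of_notMem (fun hx => h (abs_lt.2 (mem_Ioo.1 hx)))]
  rw [hk, integrable_indicator_iff measurableSet_Ioo]
  have hint : IntervalIntegrable (fun x : ℝ => x ^ (-e)) volume 0 1 :=
    intervalIntegral.intervalIntegrable_rpow' (by linarith)
  have hpos : IntegrableOn (fun x : ℝ => |x| ^ (-e)) (Ioc 0 1) := by
    have h := (intervalIntegrable_iff_integrableOn_Ioc_of_le zero_le_one).1 hint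
    exact h.congr_fun (fun x hx => by simp only; rw [abs_of_pos hx.1]) measurableSet_Ioc
  have hneg : IntegrableOn (fun x : ℝ => |x| ^ (-e)) (Ioc (-1) 0) := by
    have h := hint.comp_sub_left 0
    simp only [sub_zero, zero_sub] at h
    have h' := (intervalIntegrable_iff_integrableOn_Ioc_of_le (by norm_num : (-1:ℝ) ≤ 0)).1 h.symm
    exact h'.congr_fun (fun x hx => by simp only; rw [abs_of_nonpos hx.2]) measurableSet_Ioc
  have hun := hneg.union hpos
  rw [Ioc_union_Ioc_eq_Ioc (by norm_num) (by norm_num)] at hun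
  exact hun.mono_set Ioo_subset_Ioc_self

/-- `(B1)`: the explicit majorant has uniformly bounded line integrals. -/
theorem lineBound_majorant (S : Finset ℂ) {C0 e d : ℝ} (hC0 : 0 ≤ C0) (he : 0 ≤ e)
    (he1 : e < 1) (hd : 0 < d) :
    ∃ M : ℝ, 0 ≤ M ∧ LineBound (majorant S C0 e d) M := by
  obtain ⟨C1, hC1, hprod⟩ := prod_le_sing S he
  have hk1 := integrable_k1 he1
  have hk2 := integrable_k2 hd
  have hI1 : 0 ≤ ∫ x, k1 e x := integral_nonneg (k1_nonneg e)
  have hI2 : 0 ≤ ∫ x, k2 d x := integral_nonneg (k2_nonneg d)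
  refine ⟨C0 * C1 * ((∫ x, k2 d x) + S.card * ∫ x, k1 e x), by positivity, ?_⟩
  intro a ω L hω hL
  set τ : ℂ → ℝ := fun s => ((s - a) * (starRingEnd ℂ) ω).re with hτ
  set K : ℝ → ℝ := fun t => C0 * C1 * (k2 d (t - τ 0) + ∑ s ∈ S, k1 e (t - τ s)) with hK
  have hKint : Integrable K :=
    ((hk2.comp_sub_right (τ 0)).add
      (integrable_finsetSum _ fun s _ => hk1.comp_sub_right (τ s))).const_mul (C0 * C1)
  have hKval : ∫ t, K t = C0 * C1 * ((∫ x, k2 d x) + S.card * ∫ x, k1 e x) := by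
    simp only [hK]
    rw [integral_const_mul, integral_add (hk2.comp_sub_right (τ 0))
      (integrable_finsetSum _ fun s _ => hk1.comp_sub_right (τ s)),
      integral_finsetSum _ fun s _ => hk1.comp_sub_right (τ s)]
    simp only [integral_sub_right_eq_self, Finset.sum_const, nsmul_eq_mul]
  have hK0 : ∀ t, 0 ≤ K t := fun t =>
    mul_nonneg (mul_nonneg hC0 hC1)
      (add_nonneg (k2_nonneg _ _) (Finset.sum_nonneg fun s _ => k1_nonneg _ _))
  have hae : ∀ᵐ t : ℝ, t ∉ τ '' (S : Set ℂ) :=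
    ((S.finite_toSet.image τ).countable).ae_notMem volume
  have hpt : ∀ᵐ t : ℝ, majorant S C0 e d (line a ω t) ≤ K t := by
    filter_upwards [hae] with t ht
    have htne : ∀ s ∈ S, t ≠ τ s := fun s hs h => ht ⟨s, hs, h.symm⟩
    have hdec0 : 0 ≤ (1 + ‖line a ω t‖) ^ (-(1 + d)) := Real.rpow_nonneg (by positivity) _
    have hdec1 : (1 + ‖line a ω t‖) ^ (-(1 + d)) ≤ 1 :=
      Real.rpow_le_one_of_one_le_of_nonpos (by linarith [norm_nonneg (line a ω t)])
        (by linarith)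
    have hdeck : (1 + ‖line a ω t‖) ^ (-(1 + d)) ≤ k2 d (t - τ 0) := dec_le_k2 hd a ω hω t
    have hsum : ∑ s ∈ S, sing e (line a ω t - s) ≤ ∑ s ∈ S, k1 e (t - τ s) :=
      Finset.sum_le_sum fun s hs => sing_le_k1 he a ω s hω t (htne s hs)
    have hsum0 : 0 ≤ ∑ s ∈ S, sing e (line a ω t - s) :=
      Finset.sum_nonneg fun s _ => sing_nonneg _ _
    have hP := hprod (line a ω t)
    have h1 : (∏ s ∈ S, (min 1 ‖line a ω t - s‖) ^ (-e)) * (1 + ‖line a ω t‖) ^ (-(1 + d))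
        ≤ C1 * (k2 d (t - τ 0) + ∑ s ∈ S, k1 e (t - τ s)) := by
      calc (∏ s ∈ S, (min 1 ‖line a ω t - s‖) ^ (-e)) * (1 + ‖line a ω t‖) ^ (-(1 + d))
          ≤ (C1 * (1 + ∑ s ∈ S, sing e (line a ω t - s))) * (1 + ‖line a ω t‖) ^ (-(1 + d)) :=
            mul_le_mul_of_nonneg_right hP hdec0
        _ = C1 * ((1 + ‖line a ω t‖) ^ (-(1 + d))
              + (∑ s ∈ S, sing e (line a ω t - s)) * (1 + ‖line a ω t‖) ^ (-(1 + d))) := by ring
        _ ≤ C1 * (k2 d (t - τ 0) + ∑ s ∈ S, k1 e (t - τ s)) := by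
            refine mul_le_mul_of_nonneg_left (add_le_add hdeck ?_) hC1
            calc (∑ s ∈ S, sing e (line a ω t - s)) * (1 + ‖line a ω t‖) ^ (-(1 + d))
                ≤ (∑ s ∈ S, sing e (line a ω t - s)) * 1 :=
                  mul_le_mul_of_nonneg_left hdec1 hsum0
              _ ≤ ∑ s ∈ S, k1 e (t - τ s) := by rw [mul_one]; exact hsum
    calc majorant S C0 e d (line a ω t)
        = C0 * ((∏ s ∈ S, (min 1 ‖line a ω t - s‖) ^ (-e)) * (1 + ‖line a ω t‖) ^ (-(1 + d))) := by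
          unfold majorant; ring
      _ ≤ C0 * (C1 * (k2 d (t - τ 0) + ∑ s ∈ S, k1 e (t - τ s))) :=
          mul_le_mul_of_nonneg_left h1 hC0
      _ = K t := by simp only [hK]; ring
  calc ∫⁻ t in Icc (0:ℝ) L, ENNReal.ofReal (majorant S C0 e d (line a ω t))
      ≤ ∫⁻ t in Icc (0:ℝ) L, ENNReal.ofReal (K t) :=
        lintegral_mono_ae (ae_restrict_of_ae (hpt.mono fun t ht => ENNReal.ofReal_le_ofReal ht))
    _ ≤ ∫⁻ t, ENNReal.ofReal (K t) := setLIntegral_le_lintegral _ _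
    _ = ENNReal.ofReal (∫ t, K t) :=
        (ofReal_integral_eq_lintegral_ofReal hKint (Eventually.of_forall hK0)).symm
    _ = ENNReal.ofReal (C0 * C1 * ((∫ x, k2 d x) + S.card * ∫ x, k1 e x)) := by rw [hKval]

end Majorant

section Final

variable {V A : Type*} [NormedAddCommGroup V] [NormedSpace ℂ V] [CompleteSpace V]
  [AddCommGroup A]
variable {Sg : Set ℂ} {X : Set (ℂ × ℂ)} {E : V →+ A} {c : ℂ × ℂ → A} {w : ℂ × ℂ → V}
  {G : ℂ → ℝ} {M : ℝ}

/-- One straight segment: lift it and control the increment of `c`. -/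
theorem segment_step (hEC : HasBranches Sg X) (hU : LocallyInjFst X) (hAb : LocalAbel X E c w)
    (hG : ∀ p ∈ X, ‖w p‖ ≤ G p.1) (hLB : LineBound G M) (hM : 0 ≤ M) (a a' : ℂ)
    (havoid : ∀ t ∈ Icc (0:ℝ) 1, a + (t : ℂ) * (a' - a) ∉ Sg) (y0 : ℂ) (hy0 : (a, y0) ∈ X) :
    ∃ (y1 : ℂ) (v : V), (a', y1) ∈ X ∧ ‖v‖ ≤ M ∧ c (a', y1) - c (a, y0) = E v := by
  rcases eq_or_ne a' a with rfl | hne
  · exact ⟨y0, 0, hy0, by simpa using hM, by simp⟩
  set L : ℝ := ‖a' - a‖ with hLdef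
  have hLpos : 0 < L := norm_pos_iff.2 (sub_ne_zero.2 hne)
  set ω : ℂ := (a' - a) / (L : ℂ) with hωdef
  have hLne : (L : ℂ) ≠ 0 := by exact_mod_cast hLpos.ne'
  have hω : ‖ω‖ = 1 := by
    rw [hωdef, norm_div, Complex.norm_real, Real.norm_of_nonneg hLpos.le, hLdef]
    exact div_self (by rw [← hLdef]; exact hLpos.ne')
  have hlineL : line a ω L = a' := by
    simp only [line, hωdef]
    field_simp
    ring
  have havoid' : ∀ t ∈ Icc (0:ℝ) L, line a ω t ∉ Sg := by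
    intro t ht
    have h1 : line a ω t = a + ((t / L : ℝ) : ℂ) * (a' - a) := by
      simp only [line, hωdef]
      push_cast
      field_simp
    rw [h1]
    exact havoid _ ⟨div_nonneg ht.1 hLpos.le, (div_le_one hLpos).2 ht.2⟩
  obtain ⟨y, hyc, hy0', hyX⟩ := exists_lift hEC a ω L hLpos.le havoid' y0 hy0
  obtain ⟨hgc, hid⟩ := abel_along_lift hU hAb a ω L y hyc hyX hLpos.le
  refine ⟨y L, ∫ t in (0:ℝ)..L, ω • w (line a ω t, y t), ?_, ?_, ?_⟩
  · have := hyX L ⟨hLpos.le, le_rfl⟩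
    rwa [hlineL] at this
  · exact norm_integral_le hω hLpos.le hM hgc (fun t ht => hG _ (hyX t ht))
      (hLB a ω L hω hLpos.le)
  · rw [hlineL, line_zero, hy0'] at hid
    exact hid

/-- **Bounded Abel–Jacobi image** (variant (D)): every point of the generic part differs, in the
group `A`, from a point over the base value `a0` by `E` of a vector of norm at most `2 M`. -/
theorem bounded_image (hSg : Sg.Finite) (hX : ∀ p ∈ X, p.1 ∉ Sg) (hEC : HasBranches Sg X)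
    (hU : LocallyInjFst X) (hAb : LocalAbel X E c w) (hG : ∀ p ∈ X, ‖w p‖ ≤ G p.1)
    (hLB : LineBound G M) (hM : 0 ≤ M) {a0 : ℂ} (ha0 : a0 ∉ Sg) :
    ∀ q ∈ X, ∃ q0 ∈ X, q0.1 = a0 ∧ ∃ v : V, ‖v‖ ≤ 2 * M ∧ c q - c q0 = E v := by
  rintro ⟨a', y'⟩ hq
  obtain ⟨m, hm1, hm2⟩ := exists_midpoint hSg ha0 (hX _ hq)
  obtain ⟨y1, v1, hq1, hv1, e1⟩ := segment_step hEC hU hAb hG hLB hM a' m hm1 y' hq
  obtain ⟨y2, v2, hq2, hv2, e2⟩ := segment_step hEC hU hAb hG hLB hM m a0 hm2 y1 hq1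
  refine ⟨(a0, y2), hq2, rfl, -v1 - v2, ?_, ?_⟩
  · calc ‖-v1 - v2‖ ≤ ‖-v1‖ + ‖v2‖ := norm_sub_le _ _
      _ = ‖v1‖ + ‖v2‖ := by rw [norm_neg]
      _ ≤ 2 * M := by linarith
  · rw [map_sub, map_neg, ← e1, ← e2]
    abel

end Final

section FinalMajorant

variable {V A : Type*} [NormedAddCommGroup V] [NormedSpace ℂ V] [CompleteSpace V]
  [AddCommGroup A]
variable {X : Set (ℂ × ℂ)} {E : V →+ A} {c : ℂ × ℂ → A} {w : ℂ × ℂ → V}

/-- **Bounded Abel–Jacobi image with the explicit pole-bound majorant.**  If `‖w‖` is dominated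
on the generic part by `C0 * ∏_{s ∈ S} min(1, |x - s|)^(-e) * (1 + |x|)^(-(1+d))` with
`0 ≤ e < 1`, `0 < d`, then there is a radius `R` such that every point `q` of the generic part
satisfies `c q - c q0 = E v` for some point `q0` over `a0` and some `‖v‖ ≤ R`. -/
theorem bounded_image_majorant (S : Finset ℂ) (hX : ∀ p ∈ X, p.1 ∉ (S : Set ℂ))
    (hEC : HasBranches (S : Set ℂ) X) (hU : LocallyInjFst X) (hAb : LocalAbel X E c w)
    {C0 e d : ℝ} (hC0 : 0 ≤ C0) (he : 0 ≤ e) (he1 : e < 1) (hd : 0 < d)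
    (hP : ∀ p ∈ X, ‖w p‖ ≤ majorant S C0 e d p.1) {a0 : ℂ} (ha0 : a0 ∉ (S : Set ℂ)) :
    ∃ R : ℝ, 0 ≤ R ∧ ∀ q ∈ X, ∃ q0 ∈ X, q0.1 = a0 ∧ ∃ v : V, ‖v‖ ≤ R ∧ c q - c q0 = E v := by
  obtain ⟨M, hM, hLB⟩ := lineBound_majorant S hC0 he he1 hd
  exact ⟨2 * M, by positivity,
    bounded_image S.finite_toSet hX hEC hU hAb hP hLB hM ha0⟩

end FinalMajorant

end Fermat.Agent.S27.helper6111
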