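import Mathlib
import Fermat.Agent.S27.helper6247_Spec
import Fermat.Agent.S24.helper204_Places
import Fermat.Agent.S27.helper1070_Approx

/-!
# S27, leaf M5b (backup copy, helper6134): `Stmt_LocalFibre`

Local structure of the fibres of a function `f` ("properness"): given analytic charts centred
at all zeros of `f`, every zero of `f - t`, for `t` small, lies in one of the charts, as close
to the centre as we like.

Proof.  Along the chart `(u, Q)` at a zero `P = Q 0` of order `e`, write `f = u ^ e * h` with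
`h` a unit at `P`; then `ev (Q s) f = s ^ e * ψ s` with `ψ` analytic and `ψ 0 ≠ 0`.  The purely
analytic lemma `eventually_exists_solutions` gives, for small `t ≠ 0`, at least `e` distinct
solutions `s` near `0` of `s ^ e * ψ s = t`; each of them is a zero `Q s` of `f - t`.  Distinct
parameters give distinct places, charts at distinct zeros have disjoint images near the centres
(a separating function), so we have found `∑ e = [F : ℂ(f)]` distinct zeros of `f - t`.  By the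
fundamental identity (`helper204.exists_finset_zeros`) there are no others.

Main results (namespace `Fermat.Agent.S27.helper6134`):
* `exists_analytic_root`, `eventually_exists_solutions` (Mathlib only)
* `localFibre_of : helper6247.Stmt_Ev.{0,0} → helper6247.Stmt_LocalFibre`
-/

set_option autoImplicit false

open AlgebraicCurve IntermediateField
open scoped Topology
open Filter

namespace Fermat.Agent.S27.helper6134

open Fermat.Agent.S27.helper6247

/-! ## The analytic core (Mathlib only) -/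

/-- Analytic `e`-th root near `0` of a function that does not vanish at `0`. -/
theorem exists_analytic_root {ψ : ℂ → ℂ} (hψ : AnalyticAt ℂ ψ 0) (hψ0 : ψ 0 ≠ 0)
    {e : ℕ} (he : 0 < e) :
    ∃ θ : ℂ → ℂ, AnalyticAt ℂ θ 0 ∧ θ 0 ≠ 0 ∧ ∀ s, ψ s ≠ 0 → θ s ^ e = ψ s := by
  obtain ⟨c0, hc0⟩ := IsAlgClosed.exists_pow_nat_eq (ψ 0) he
  have hc0ne : c0 ≠ 0 := by
    rintro rfl
    rw [zero_pow he.ne'] at hc0
    exact hψ0 hc0.symm
  refine ⟨fun s => c0 * Complex.exp (Complex.log (ψ s / ψ 0) / e), ?_, ?_, ?_⟩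
  · have h1 : AnalyticAt ℂ (fun s => ψ s / ψ 0) 0 := hψ.div analyticAt_const hψ0
    have h2 : AnalyticAt ℂ (fun s => Complex.log (ψ s / ψ 0)) 0 := by
      apply h1.clog
      simp only [div_self hψ0]
      exact Complex.one_mem_slitPlane
    have h3 : AnalyticAt ℂ (fun s => Complex.log (ψ s / ψ 0) / e) 0 :=
      h2.div analyticAt_const (Nat.cast_ne_zero.mpr he.ne')
    exact analyticAt_const.mul h3.cexp
  · simp only [div_self hψ0, Complex.log_one, zero_div, Complex.exp_zero, mul_one]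
    exact hc0ne
  · intro s hs
    have hne : ψ s / ψ 0 ≠ 0 := div_ne_zero hs hψ0
    have hen : (e : ℂ) ≠ 0 := Nat.cast_ne_zero.mpr he.ne'
    rw [mul_pow, hc0, ← Complex.exp_nat_mul, mul_div_cancel₀ _ hen, Complex.exp_log hne,
      mul_div_cancel₀ _ hψ0]

/-- **Solution count.** If `ψ` is analytic at `0` with `ψ 0 ≠ 0` and `e ≥ 1`, then for every
neighbourhood `U` of `0` and every small `t ≠ 0` the equation `s ^ e * ψ s = t` has at least `e`
distinct solutions in `U`. -/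
theorem eventually_exists_solutions {ψ : ℂ → ℂ} (hψ : AnalyticAt ℂ ψ 0) (hψ0 : ψ 0 ≠ 0)
    {e : ℕ} (he : 0 < e) {U : Set ℂ} (hU : U ∈ 𝓝 (0 : ℂ)) :
    ∀ᶠ t in 𝓝 (0 : ℂ), t ≠ 0 →
      ∃ S : Finset ℂ, S.card = e ∧ ∀ s ∈ S, s ∈ U ∧ s ^ e * ψ s = t := by
  classical
  obtain ⟨θ, hθ, hθ0, hθe⟩ := exists_analytic_root hψ hψ0 he
  set χ : ℂ → ℂ := fun s => s * θ s with hχ
  have hχd : HasStrictDerivAt χ (θ 0) 0 := by
    have h1 : HasStrictDerivAt (fun s : ℂ => s) 1 0 := hasStrictDerivAt_id 0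
    have h2 : HasStrictDerivAt χ (1 * θ 0 + (0 : ℂ) * deriv θ 0) 0 :=
      h1.mul hθ.hasStrictDerivAt
    have h3 : 1 * θ 0 + (0 : ℂ) * deriv θ 0 = θ 0 := by ring
    rwa [h3] at h2
  have hmap := hχd.map_nhds_eq hθ0
  have hχ0 : χ 0 = 0 := by simp [hχ]
  rw [hχ0] at hmap
  have hV : U ∩ {s | ψ s ≠ 0} ∈ 𝓝 (0 : ℂ) :=
    inter_mem hU (hψ.continuousAt.eventually_ne hψ0)
  have himg : χ '' (U ∩ {s | ψ s ≠ 0}) ∈ 𝓝 (0 : ℂ) := by
    rw [← hmap]
    exact image_mem_map hV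
  obtain ⟨η, hη, hball⟩ := Metric.mem_nhds_iff.mp himg
  have hηe : (0 : ℝ) < η ^ e := pow_pos hη e
  filter_upwards [Metric.ball_mem_nhds (0 : ℂ) hηe] with t ht ht0
  rw [Metric.mem_ball, dist_zero_right] at ht
  obtain ⟨w0, hw0⟩ := IsAlgClosed.exists_pow_nat_eq t he
  have hw0ne : w0 ≠ 0 := by
    rintro rfl
    rw [zero_pow he.ne'] at hw0
    exact ht0 hw0.symm
  have hw0n : ‖w0‖ < η := by
    apply lt_of_pow_lt_pow_left₀ e hη.le
    rw [← norm_pow, hw0]
    exact ht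
  set ζ : ℂ := Complex.exp (2 * Real.pi * Complex.I / e) with hζ
  have hζp : IsPrimitiveRoot ζ e := Complex.isPrimitiveRoot_exp e he.ne'
  have hζn : ‖ζ‖ = 1 := hζp.norm'_eq_one he.ne'
  have hex : ∀ j : Fin e, ∃ s, s ∈ U ∩ {s | ψ s ≠ 0} ∧ χ s = w0 * ζ ^ (j : ℕ) := by
    intro j
    have hmem : w0 * ζ ^ (j : ℕ) ∈ Metric.ball (0 : ℂ) η := by
      rw [Metric.mem_ball, dist_zero_right, norm_mul, norm_pow, hζn, one_pow, mul_one]
      exact hw0n
    exact hball hmem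
  choose s hs hsχ using hex
  have hinj : Function.Injective s := by
    intro i j hij
    have h1 : w0 * ζ ^ (i : ℕ) = w0 * ζ ^ (j : ℕ) := by rw [← hsχ i, ← hsχ j, hij]
    have h2 : ζ ^ (i : ℕ) = ζ ^ (j : ℕ) := mul_left_cancel₀ hw0ne h1
    exact Fin.ext (hζp.pow_inj i.2 j.2 h2)
  refine ⟨Finset.univ.image s, ?_, ?_⟩
  · rw [Finset.card_image_of_injective _ hinj, Finset.card_fin]
  · intro s' hs'
    obtain ⟨j, -, rfl⟩ := Finset.mem_image.mp hs'
    refine ⟨(hs j).1, ?_⟩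
    have h1 : θ (s j) ^ e = ψ (s j) := hθe _ (hs j).2
    have h2 : (s j * θ (s j)) ^ e = t := by
      have := hsχ j
      simp only [hχ] at this
      rw [this, mul_pow, hw0, ← pow_mul, mul_comm (j : ℕ) e, pow_mul, hζp.pow_eq_one, one_pow,
        mul_one]
    rw [← h1, ← mul_pow]
    exact h2

/-! ## Evaluation at places -/

section Ev

variable {F : Type} [Field F] [Algebra ℂ F]

/-- The content of `Stmt_Ev` for one function field. -/
def EvProp (F : Type) [Field F] [Algebra ℂ F] : Prop :=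
  ∀ P : Place ℂ F,
    (∀ c : ℂ, ev P (algebraMap ℂ F c) = c) ∧
    (∀ f g : F, 0 ≤ P.ord f → 0 ≤ P.ord g →
      ev P (f + g) = ev P f + ev P g ∧ ev P (f * g) = ev P f * ev P g) ∧
    (∀ f : F, 0 ≤ P.ord f → (ev P f = 0 ↔ f = 0 ∨ 0 < P.ord f)) ∧
    (∀ (f : F) (c : ℂ), 0 < P.ord (f - algebraMap ℂ F c) → ev P f = c)

theorem ord_nonneg_add (P : Place ℂ F) {f g : F} (hf : 0 ≤ P.ord f) (hg : 0 ≤ P.ord g) :
    0 ≤ P.ord (f + g) := by
  rw [Fermat.Agent.S24.helper204.ord_nonneg_iff] at hf hg ⊢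
  exact add_mem hf hg

theorem ord_nonneg_sub (P : Place ℂ F) {f g : F} (hf : 0 ≤ P.ord f) (hg : 0 ≤ P.ord g) :
    0 ≤ P.ord (f - g) := by
  rw [Fermat.Agent.S24.helper204.ord_nonneg_iff] at hf hg ⊢
  exact sub_mem hf hg

theorem ord_nonneg_mul (P : Place ℂ F) {f g : F} (hf : 0 ≤ P.ord f) (hg : 0 ≤ P.ord g) :
    0 ≤ P.ord (f * g) := by
  rw [Fermat.Agent.S24.helper204.ord_nonneg_iff] at hf hg ⊢
  exact mul_mem hf hg

theorem ord_nonneg_pow (P : Place ℂ F) {f : F} (hf : 0 ≤ P.ord f) (n : ℕ) :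
    0 ≤ P.ord (f ^ n) := by
  rw [Fermat.Agent.S24.helper204.ord_nonneg_iff] at hf ⊢
  exact pow_mem hf n

theorem ord_nonneg_const (P : Place ℂ F) (c : ℂ) : 0 ≤ P.ord (algebraMap ℂ F c) :=
  (Fermat.Agent.S24.helper204.ord_algebraMap_eq_zero P c).ge

theorem ev_pow (hE : EvProp F) (P : Place ℂ F) {g : F} (hg : 0 ≤ P.ord g) (n : ℕ) :
    ev P (g ^ n) = ev P g ^ n := by
  induction n with
  | zero =>
    have h := (hE P).1 1
    rw [map_one] at h
    simpa using h
  | succ n ih =>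
    rw [pow_succ, pow_succ, ((hE P).2.1 (g ^ n) g (ord_nonneg_pow P hg n) hg).2, ih]

theorem ev_sub_const (hE : EvProp F) (P : Place ℂ F) {f : F} (hf : 0 ≤ P.ord f) (c : ℂ) :
    ev P (f - algebraMap ℂ F c) = ev P f - c := by
  have h := ((hE P).2.1 f (algebraMap ℂ F (-c)) hf (ord_nonneg_const P (-c))).1
  rw [(hE P).1 (-c), map_neg, ← sub_eq_add_neg, ← sub_eq_add_neg] at h
  exact h

/-- Along a chart, the coordinate `u` is regular with value `s` at `Q s`. -/
theorem chart_ord_u_nonneg {u : F} {Q : ℂ → Place ℂ F} {r : ℝ} (hc : IsChart u Q r) {s : ℂ}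
    (hs : s ∈ Metric.ball (0 : ℂ) r) : 0 ≤ (Q s).ord u := by
  have h1 : 0 ≤ (Q s).ord (u - algebraMap ℂ F s) := by rw [hc.unif s hs]; exact zero_le_one
  have h2 := ord_nonneg_add (Q s) h1 (ord_nonneg_const (Q s) s)
  rwa [sub_add_cancel] at h2

theorem chart_ev_u (hE : EvProp F) {u : F} {Q : ℂ → Place ℂ F} {r : ℝ} (hc : IsChart u Q r)
    {s : ℂ} (hs : s ∈ Metric.ball (0 : ℂ) r) : ev (Q s) u = s :=
  (hE (Q s)).2.2.2 u s (by rw [hc.unif s hs]; exact zero_lt_one)

/-- A chart is injective. -/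
theorem chart_injOn (hE : EvProp F) {u : F} {Q : ℂ → Place ℂ F} {r : ℝ} (hc : IsChart u Q r) :
    Set.InjOn Q (Metric.ball (0 : ℂ) r) := by
  intro s hs s' hs' h
  rw [← chart_ev_u hE hc hs, ← chart_ev_u hE hc hs', h]

/-- **One chart.** Along a chart centred at a zero of `f` of order `e`, for every small `t ≠ 0`
there are `e` distinct parameters `s`, as small as we like, with `Q s` a zero of `f - t`. -/
theorem chart_zero_package (hE : EvProp F) {f : F}
    (hft : ∀ t : ℂ, f - algebraMap ℂ F t ≠ 0)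
    {u : F} {Q : ℂ → Place ℂ F} {r : ℝ} (hc : IsChart u Q r) (hpos : 0 < (Q 0).ord f)
    {U : Set ℂ} (hU : U ∈ 𝓝 (0 : ℂ)) :
    ∀ᶠ t in 𝓝 (0 : ℂ), t ≠ 0 → ∃ S : Finset ℂ, (S.card : ℤ) = (Q 0).ord f ∧
      ∀ s ∈ S, s ∈ U ∧ 0 < (Q s).ord (f - algebraMap ℂ F t) := by
  have h0mem : (0 : ℂ) ∈ Metric.ball (0 : ℂ) r := Metric.mem_ball_self hc.pos
  have hu1 : (Q 0).ord u = 1 := by
    have := hc.unif 0 h0mem
    simpa using this
  have hu0 : u ≠ 0 := by
    rintro rfl
    simp at hu1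
  have hf0 : f ≠ 0 := by
    rintro rfl
    simp at hpos
  obtain ⟨e, he⟩ := Int.eq_ofNat_of_zero_le hpos.le
  have hepos : 0 < e := by
    rcases Nat.eq_zero_or_pos e with h | h
    · subst h
      rw [he] at hpos
      exact absurd hpos (lt_irrefl _)
    · exact h
  set h : F := f * (u ^ e)⁻¹ with hh
  have hue0 : u ^ e ≠ 0 := pow_ne_zero e hu0
  have hh0 : h ≠ 0 := mul_ne_zero hf0 (inv_ne_zero hue0)
  have hfh : f = u ^ e * h := by
    rw [hh]
    field_simp
  have hordh : (Q 0).ord h = 0 := by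
    rw [hh, (Q 0).ord_mul hf0 (inv_ne_zero hue0), (Q 0).ord_inv,
      Fermat.Agent.S27.helper1070.ord_pow, hu1, he]
    ring
  obtain ⟨hreg, hψ⟩ := hc.analytic h 0 h0mem hordh.ge
  have hψ0 : ev (Q 0) h ≠ 0 := by
    intro hz
    rcases ((hE (Q 0)).2.2.1 h hordh.ge).mp hz with h1 | h1
    · exact hh0 h1
    · rw [hordh] at h1
      exact lt_irrefl _ h1
  have hU' : U ∩ {s | 0 ≤ (Q s).ord h} ∩ Metric.ball (0 : ℂ) r ∈ 𝓝 (0 : ℂ) :=
    inter_mem (inter_mem hU hreg) (Metric.ball_mem_nhds _ hc.pos)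
  refine (eventually_exists_solutions (ψ := fun s => ev (Q s) h) hψ hψ0 hepos hU').mono ?_
  intro t ht ht0
  obtain ⟨S, hScard, hS⟩ := ht ht0
  refine ⟨S, by rw [hScard, he], fun s hs => ?_⟩
  obtain ⟨⟨⟨hsU, hsh⟩, hsr⟩, hst⟩ := hS s hs
  refine ⟨hsU, ?_⟩
  have hsh' : 0 ≤ (Q s).ord h := hsh
  have hsu : 0 ≤ (Q s).ord u := chart_ord_u_nonneg hc hsr
  have hsue : 0 ≤ (Q s).ord (u ^ e) := ord_nonneg_pow _ hsu e
  have hsf : 0 ≤ (Q s).ord f := by
    rw [hfh]
    exact ord_nonneg_mul _ hsue hsh'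
  have hevf : ev (Q s) f = t := by
    rw [hfh, ((hE (Q s)).2.1 (u ^ e) h hsue hsh').2, ev_pow hE _ hsu, chart_ev_u hE hc hsr]
    exact hst
  have hev0 : ev (Q s) (f - algebraMap ℂ F t) = 0 := by
    rw [ev_sub_const hE _ hsf, hevf, sub_self]
  have hreg' : 0 ≤ (Q s).ord (f - algebraMap ℂ F t) :=
    ord_nonneg_sub _ hsf (ord_nonneg_const _ t)
  rcases ((hE (Q s)).2.2.1 _ hreg').mp hev0 with h1 | h1
  · exact absurd h1 (hft t)
  · exact h1

end Ev

/-! ## The count -/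

section Main

variable {F : Type} [Field F] [Algebra ℂ F]

theorem norm_natCast_sub_natCast_ge_one {n n' : ℕ} (h : n ≠ n') :
    (1 : ℝ) ≤ ‖(n : ℂ) - (n' : ℂ)‖ := by
  have h1 : ((n : ℂ) - (n' : ℂ)) = (((n : ℤ) - (n' : ℤ) : ℤ) : ℂ) := by push_cast; ring
  have h2 : (n : ℤ) - (n' : ℤ) ≠ 0 := by
    intro h0
    apply h
    have : (n : ℤ) = (n' : ℤ) := by linarith
    exact_mod_cast this
  rw [h1, Complex.norm_intCast]
  exact_mod_cast Int.one_le_abs h2

/-- `Stmt_LocalFibre` for one function field, from the evaluation package. -/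
theorem localFibre_core (hE : EvProp F) (x : F)
    [FiniteDimensional ℂ⟮x⟯ F] (f : F) (hf : Transcendental ℂ f)
    (m : ℕ) (u : Fin m → F) (Q : Fin m → ℂ → Place ℂ F) (r ρ : Fin m → ℝ)
    (hc : ∀ k, IsChart (u k) (Q k) (r k)) (hρ : ∀ k, 0 < ρ k)
    (hz : ∀ v : Place ℂ F, 0 < v.ord f → ∃ k, v = Q k 0) :
    ∃ δ > 0, ∀ t : ℂ, ‖t‖ < δ → ∀ v : Place ℂ F, 0 < v.ord (f - algebraMap ℂ F t) →
      ∃ k s, ‖s‖ < ρ k ∧ ‖s‖ < r k ∧ v = Q k s := by
  classical
  have : FiniteDimensional ℂ⟮f⟯ F :=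
    Fermat.Agent.S24.helper204.finiteDimensional_adjoin_of_transcendental (x := x) hf
  have hft : ∀ t : ℂ, f - algebraMap ℂ F t ≠ 0 := by
    intro t h
    apply hf
    rw [sub_eq_zero.mp h]
    exact isAlgebraic_algebraMap t
  -- the zeros of `f`
  obtain ⟨s0, hs0, hsum0⟩ := Fermat.Agent.S24.helper204.exists_finset_zeros (x := f) hf 0
  simp only [map_zero, sub_zero] at hs0 hsum0
  -- a chart index for each zero
  have hk : ∀ v : s0, ∃ k, (v : Place ℂ F) = Q k 0 := fun v => hz v ((hs0 v).mp v.2)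
  choose k hk using hk
  -- a function separating the zeros
  let c : s0 → ℂ := fun v => ((s0.equivFin v : ℕ) : ℂ)
  let a : Place ℂ F → F := fun v => if h : v ∈ s0 then algebraMap ℂ F (c ⟨v, h⟩) else 0
  obtain ⟨w, hw⟩ := Fermat.Agent.S27.helper1070.exists_approx s0 a 1
  have ha : ∀ v : s0, a (v : Place ℂ F) = algebraMap ℂ F (c v) := by
    intro v
    simp only [a, dif_pos v.2, Subtype.coe_eta]
  have hwreg : ∀ v : s0, 0 ≤ (v : Place ℂ F).ord w := by
    intro v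
    rcases hw v v.2 with h | h
    · rw [h, ha v]
      exact ord_nonneg_const _ _
    · rw [ha v] at h
      have h1 : 0 ≤ (v : Place ℂ F).ord (w - algebraMap ℂ F (c v)) := le_trans zero_le_one h
      have h2 := ord_nonneg_add _ h1 (ord_nonneg_const (v : Place ℂ F) (c v))
      rwa [sub_add_cancel] at h2
  have hwev : ∀ v : s0, ev (v : Place ℂ F) w = c v := by
    intro v
    rcases hw v v.2 with h | h
    · rw [h, ha v]
      exact (hE _).1 (c v)
    · rw [ha v] at h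
      exact (hE _).2.2.2 w (c v) (lt_of_lt_of_le zero_lt_one h)
  -- the neighbourhoods of `0` in the parameter discs
  have h0mem : ∀ k', (0 : ℂ) ∈ Metric.ball (0 : ℂ) (r k') := fun k' =>
    Metric.mem_ball_self (hc k').pos
  have hU : ∀ v : s0, {s : ℂ | ‖s‖ < ρ (k v) ∧ ‖s‖ < r (k v) ∧
      ‖ev (Q (k v) s) w - c v‖ < 1 / 2} ∈ 𝓝 (0 : ℂ) := by
    intro v
    have h1 : ∀ᶠ s : ℂ in 𝓝 0, ‖s‖ < ρ (k v) := by
      filter_upwards [Metric.ball_mem_nhds (0 : ℂ) (hρ (k v))] with s hs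
      simpa [dist_zero_right] using hs
    have h2 : ∀ᶠ s : ℂ in 𝓝 0, ‖s‖ < r (k v) := by
      filter_upwards [Metric.ball_mem_nhds (0 : ℂ) (hc (k v)).pos] with s hs
      simpa [dist_zero_right] using hs
    have hreg0 : 0 ≤ (Q (k v) 0).ord w := by
      rw [← hk v]
      exact hwreg v
    have hcont : ContinuousAt (fun s => ev (Q (k v) s) w) 0 :=
      ((hc (k v)).analytic w 0 (h0mem _) hreg0).2.continuousAt
    have hval : ev (Q (k v) 0) w = c v := by
      rw [← hk v]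
      exact hwev v
    have h3 : ∀ᶠ s : ℂ in 𝓝 0, ‖ev (Q (k v) s) w - c v‖ < 1 / 2 := by
      have := hcont.eventually (Metric.ball_mem_nhds (ev (Q (k v) 0) w)
        (by norm_num : (0 : ℝ) < 1 / 2))
      filter_upwards [this] with s hs
      rw [dist_eq_norm, hval] at hs
      exact hs
    filter_upwards [h1, h2, h3] with s hs1 hs2 hs3
    exact ⟨hs1, hs2, hs3⟩
  -- simultaneous solutions in all charts
  have hev : ∀ᶠ t in 𝓝 (0 : ℂ), ∀ v ∈ s0.attach, t ≠ 0 →
      ∃ S : Finset ℂ, (S.card : ℤ) = (Q (k v) 0).ord f ∧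
        ∀ s ∈ S, s ∈ {s : ℂ | ‖s‖ < ρ (k v) ∧ ‖s‖ < r (k v) ∧
          ‖ev (Q (k v) s) w - c v‖ < 1 / 2} ∧
          0 < (Q (k v) s).ord (f - algebraMap ℂ F t) := by
    rw [Filter.eventually_all_finset]
    intro v _
    refine chart_zero_package hE hft (hc (k v)) ?_ (hU v)
    rw [← hk v]
    exact (hs0 v).mp v.2
  obtain ⟨δ, hδ, hδt⟩ := Metric.eventually_nhds_iff.mp hev
  refine ⟨δ, hδ, fun t ht v hv => ?_⟩
  by_cases ht0 : t = 0
  · subst ht0
    simp only [map_zero, sub_zero] at hv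
    obtain ⟨k', hk'⟩ := hz v hv
    exact ⟨k', 0, by simpa using hρ k', by simpa using (hc k').pos, hk'⟩
  · have h1 := hδt (y := t) (by simpa [dist_zero_right] using ht)
    have h2 : ∀ v : s0, ∃ S : Finset ℂ, (S.card : ℤ) = (Q (k v) 0).ord f ∧
        ∀ s ∈ S, s ∈ {s : ℂ | ‖s‖ < ρ (k v) ∧ ‖s‖ < r (k v) ∧
          ‖ev (Q (k v) s) w - c v‖ < 1 / 2} ∧
          0 < (Q (k v) s).ord (f - algebraMap ℂ F t) :=
      fun v => h1 v (Finset.mem_attach _ _) ht0
    choose S hScard hS using h2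
    obtain ⟨st, hst, hsumt⟩ := Fermat.Agent.S24.helper204.exists_finset_zeros (x := f) hf t
    set T : Finset (Place ℂ F) := s0.attach.biUnion (fun v => (S v).image (Q (k v))) with hT
    have hTsub : T ⊆ st := by
      intro P hP
      obtain ⟨v0, -, hv0⟩ := Finset.mem_biUnion.mp hP
      obtain ⟨s, hs, rfl⟩ := Finset.mem_image.mp hv0
      exact (hst _).mpr (hS v0 s hs).2
    have hdisj : ∀ v1 ∈ s0.attach, ∀ v2 ∈ s0.attach, v1 ≠ v2 →
        Disjoint ((S v1).image (Q (k v1))) ((S v2).image (Q (k v2))) := by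
      intro v1 _ v2 _ hne
      rw [Finset.disjoint_left]
      intro P hP1 hP2
      obtain ⟨s1, hs1, rfl⟩ := Finset.mem_image.mp hP1
      obtain ⟨s2, hs2, hs2eq⟩ := Finset.mem_image.mp hP2
      have hb1 : ‖ev (Q (k v1) s1) w - c v1‖ < 1 / 2 := (hS v1 s1 hs1).1.2.2
      have hb2 : ‖ev (Q (k v2) s2) w - c v2‖ < 1 / 2 := (hS v2 s2 hs2).1.2.2
      rw [hs2eq] at hb2
      have hcne : (s0.equivFin v1 : ℕ) ≠ (s0.equivFin v2 : ℕ) := by
        intro h
        exact hne (s0.equivFin.injective (Fin.ext h))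
      have hge := norm_natCast_sub_natCast_ge_one hcne
      have htri : ‖c v1 - c v2‖ ≤ ‖ev (Q (k v1) s1) w - c v1‖ + ‖ev (Q (k v1) s1) w - c v2‖ := by
        have : c v1 - c v2 = (ev (Q (k v1) s1) w - c v2) - (ev (Q (k v1) s1) w - c v1) := by ring
        rw [this]
        calc ‖(ev (Q (k v1) s1) w - c v2) - (ev (Q (k v1) s1) w - c v1)‖
            ≤ ‖ev (Q (k v1) s1) w - c v2‖ + ‖ev (Q (k v1) s1) w - c v1‖ := norm_sub_le _ _
          _ = _ := add_comm _ _
      have hc12 : ‖c v1 - c v2‖ = ‖((s0.equivFin v1 : ℕ) : ℂ) - ((s0.equivFin v2 : ℕ) : ℂ)‖ := rfl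
      rw [hc12] at htri
      linarith
    have hinj : ∀ v : s0, Set.InjOn (Q (k v)) (S v : Set ℂ) := by
      intro v s hs s' hs' h
      have hsb : s ∈ Metric.ball (0 : ℂ) (r (k v)) := by
        simpa [dist_zero_right] using (hS v s hs).1.2.1
      have hsb' : s' ∈ Metric.ball (0 : ℂ) (r (k v)) := by
        simpa [dist_zero_right] using (hS v s' hs').1.2.1
      exact chart_injOn hE (hc (k v)) hsb hsb' h
    have hTcard : (T.card : ℤ) = (Module.finrank ℂ⟮f⟯ F : ℤ) := by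
      rw [hT, Finset.card_biUnion hdisj]
      push_cast
      rw [← hsum0, ← Finset.sum_attach s0 (fun v => v.ord f)]
      refine Finset.sum_congr rfl fun v _ => ?_
      rw [Finset.card_image_of_injOn (hinj v), hScard v, ← hk v]
    have hstcard : (st.card : ℤ) ≤ (Module.finrank ℂ⟮f⟯ F : ℤ) := by
      rw [← hsumt, Finset.card_eq_sum_ones]
      push_cast
      refine Finset.sum_le_sum fun P hP => ?_
      have := (hst P).mp hP
      omega
    have hTeq : T = st := by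
      refine Finset.eq_of_subset_of_card_le hTsub ?_
      have : (st.card : ℤ) ≤ (T.card : ℤ) := by rw [hTcard]; exact hstcard
      exact_mod_cast this
    have hv' : v ∈ T := by
      rw [hTeq]
      exact (hst v).mpr hv
    obtain ⟨v0, -, hv0⟩ := Finset.mem_biUnion.mp hv'
    obtain ⟨s, hs, rfl⟩ := Finset.mem_image.mp hv0
    exact ⟨k v0, s, (hS v0 s hs).1.1, (hS v0 s hs).1.2.1, rfl⟩

/-- **M5b.** `Stmt_LocalFibre` of the specification file, from `Stmt_Ev`. -/
theorem localFibre_of (hEv : Stmt_Ev.{0, 0}) : Stmt_LocalFibre := by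
  intro F _ _ x hx _ f hf m u Q r ρ hc hρ hz
  exact localFibre_core (fun P => hEv ℂ F x hx P) x f hf m u Q r ρ hc hρ hz

end Main

end Fermat.Agent.S27.helper6134
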