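import Mathlib
import Fermat.Agent.S27.helper6247_Spec
import Fermat.Agent.S24.helper204_Places

/-!
# S27, Spec leaves M2b / M2c / M2d (helper6260, backup of board row 1007)

`Stmt_NonspecialBasis`, `Stmt_GoodTuple`, `Stmt_ExtendTuple` of `helper6247_Spec`, each derived
from `Stmt_Riemann` (and `Stmt_GenericUnram` for `Stmt_GoodTuple`) plus the landed S24 place
library (`helper204_Places`: every place has degree one, fibres of `x` are nonempty).

Core lemma (`finite_bad`): if `h¹(D) > 0` then `L(D + P) = L(D)` for all but finitely many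
places `P`, proved by a strict chain `L(D) < L(D + P₁) < … < L(D + P₁ + … + P_N)` and Riemann's
vanishing of `h¹` in large degree.  Adding such a `P` lowers `h¹` by exactly one.
-/

set_option autoImplicit false

namespace Fermat.Agent.S27.helper6260

open AlgebraicCurve IntermediateField WithZero
open Fermat.Agent.S27.helper6247
open Fermat.Agent.S24

universe u v

variable {K : Type u} {F : Type v} [Field K] [Field F] [Algebra K F]

/-! ## Basic facts on divisors and the spaces `L(D)` -/

theorem riemannRochSpace_mono {D D' : Divisor K F} (h : D ≤ D') :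
    riemannRochSpace D ≤ riemannRochSpace D' := fun _ hf v =>
  (hf v).trans (exp_le_exp.mpr (Finsupp.le_def.mp h v))

theorem pt_apply_self (P : Place K F) : (pt P : Divisor K F) P = 1 := by
  simp [pt]

theorem pt_apply_of_ne {P Q : Place K F} (h : Q ≠ P) : (pt P : Divisor K F) Q = 0 := by
  simp [pt, h.symm]

theorem pt_nonneg (P : Place K F) : (0 : Divisor K F) ≤ pt P := by
  intro Q
  by_cases h : Q = P
  · subst h
    rw [pt_apply_self]
    exact zero_le_one
  · rw [pt_apply_of_ne h]
    exact le_refl _

theorem le_add_pt (D : Divisor K F) (P : Place K F) : D ≤ D + pt P :=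
  le_add_of_nonneg_right (pt_nonneg P)

/-- The effective divisor `∑_{P ∈ s} P`. -/
noncomputable def setDiv (s : Finset (Place K F)) : Divisor K F := ∑ P ∈ s, pt P

theorem setDiv_nonneg (s : Finset (Place K F)) : (0 : Divisor K F) ≤ setDiv s :=
  Finset.sum_nonneg fun P _ => pt_nonneg P

theorem setDiv_apply_of_notMem {s : Finset (Place K F)} {Q : Place K F} (h : Q ∉ s) :
    (setDiv s : Divisor K F) Q = 0 := by
  classical
  unfold setDiv
  rw [Finsupp.finsetSum_apply]
  refine Finset.sum_eq_zero fun P hP => ?_
  exact pt_apply_of_ne (fun hQP => h (hQP ▸ hP))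

theorem setDiv_insert {s : Finset (Place K F)} {P : Place K F} [DecidableEq (Place K F)]
    (h : P ∉ s) : setDiv (insert P s) = setDiv s + pt P := by
  unfold setDiv
  rw [Finset.sum_insert h, add_comm]

theorem degree_pt (hdeg : ∀ v : Place K F, v.deg = 1) (P : Place K F) :
    Divisor.degree (pt P : Divisor K F) = 1 := by
  unfold pt
  rw [Divisor.degree_single, hdeg P]
  simp

theorem degree_setDiv (hdeg : ∀ v : Place K F, v.deg = 1) (s : Finset (Place K F)) :
    Divisor.degree (setDiv s : Divisor K F) = s.card := by
  unfold setDiv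
  rw [map_sum]
  simp [degree_pt hdeg]

theorem degree_sumDiv (hdeg : ∀ v : Place K F, v.deg = 1) {n : ℕ} (A : Fin n → Place K F) :
    Divisor.degree (sumDiv A : Divisor K F) = n := by
  unfold sumDiv
  rw [map_sum]
  simp [degree_pt hdeg]

theorem sumDiv_nonneg {n : ℕ} (A : Fin n → Place K F) : (0 : Divisor K F) ≤ sumDiv A :=
  Finset.sum_nonneg fun i _ => pt_nonneg (A i)

theorem sumDiv_cons {n : ℕ} (P : Place K F) (A : Fin n → Place K F) :
    (sumDiv (Fin.cons P A : Fin (n + 1) → Place K F) : Divisor K F) = pt P + sumDiv A := by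
  unfold sumDiv
  rw [Fin.sum_univ_succ]
  simp

theorem sumDiv_apply_of_injective {n : ℕ} {A : Fin n → Place K F} (hA : Function.Injective A)
    (j : Fin n) : (sumDiv A : Divisor K F) (A j) = 1 := by
  classical
  unfold sumDiv
  rw [Finsupp.finsetSum_apply, Finset.sum_eq_single j]
  · exact pt_apply_self _
  · intro i _ hij
    exact pt_apply_of_ne (fun h => hij (hA h).symm)
  · intro h
    exact absurd (Finset.mem_univ j) h

theorem sumDiv_apply_of_notMem {n : ℕ} {A : Fin n → Place K F} {Q : Place K F}
    (hQ : ∀ i, Q ≠ A i) : (sumDiv A : Divisor K F) Q = 0 := by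
  classical
  unfold sumDiv
  rw [Finsupp.finsetSum_apply]
  exact Finset.sum_eq_zero fun i _ => pt_apply_of_ne (hQ i)

/-! ## `h¹` and nonspeciality -/

theorem isNonspecial_iff_finrank (D : Divisor K F) [Module.Finite K (H1 D)] :
    IsNonspecial D ↔ Module.finrank K (H1 D) = 0 := by
  unfold IsNonspecial
  rw [Module.finrank_zero_iff, Submodule.Quotient.subsingleton_iff]

/-- The content of `Stmt_Riemann` for one function field, together with `deg = 1`. -/
structure RData (K : Type u) (F : Type v) [Field K] [Field F] [Algebra K F] : Prop where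
  finH : ∀ D : Divisor K F, Module.Finite K (H1 D)
  finL : ∀ D : Divisor K F, Module.Finite K (riemannRochSpace D)
  rr : ∀ D : Divisor K F,
    (Module.finrank K (riemannRochSpace D) : ℤ) - (Module.finrank K (H1 D) : ℤ)
      = Divisor.degree D + 1 - (genusFF K F : ℤ)
  van : ∃ c : ℤ, ∀ D : Divisor K F, c ≤ Divisor.degree D → IsNonspecial D
  deg : ∀ v : Place K F, v.deg = 1

theorem rdata_of [IsAlgClosed K] [CharZero K] (hR : Stmt_Riemann.{u, v}) (x : F)
    (hx : Transcendental K x) [FiniteDimensional K⟮x⟯ F] : RData K F := by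
  obtain ⟨h1, h2, h3⟩ := hR K F x hx
  exact ⟨fun D => (h1 D).1, fun D => (h1 D).2, h2, h3, helper204.place_deg_eq_one x hx⟩

theorem RData.isNonspecial_iff (h : RData K F) (D : Divisor K F) :
    IsNonspecial D ↔ Module.finrank K (H1 D) = 0 := by
  have := h.finH D
  exact isNonspecial_iff_finrank D

/-! ## Generic points -/

/-- The places `P` at which `L(D + P)` is strictly bigger than `L(D)`. -/
def Bad (D : Divisor K F) : Set (Place K F) :=
  {P | ¬ riemannRochSpace (D + pt P) ≤ riemannRochSpace D}

theorem chain_le (h : RData K F) (D : Divisor K F) (s : Finset (Place K F))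
    (hs : ∀ P ∈ s, P ∈ Bad D) :
    Module.finrank K (riemannRochSpace D) + s.card
      ≤ Module.finrank K (riemannRochSpace (D + setDiv s)) := by
  classical
  induction s using Finset.induction_on with
  | empty =>
    have h0 : (setDiv (∅ : Finset (Place K F)) : Divisor K F) = 0 := by simp [setDiv]
    rw [h0, add_zero, Finset.card_empty, add_zero]
  | insert P s hP ih =>
    have ih' := ih fun Q hQ => hs Q (Finset.mem_insert_of_mem hQ)
    have hbad : P ∈ Bad D := hs P (Finset.mem_insert_self P s)
    obtain ⟨f, hf1, hf2⟩ := SetLike.not_le_iff_exists.mp hbad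
    have hlt : riemannRochSpace (D + setDiv s) < riemannRochSpace (D + setDiv s + pt P) := by
      refine lt_of_le_of_ne (riemannRochSpace_mono (le_add_pt _ P)) fun heq => hf2 ?_
      have hf3 : f ∈ riemannRochSpace (D + setDiv s) := by
        rw [heq]
        refine riemannRochSpace_mono ?_ hf1
        rw [add_right_comm]
        exact le_add_of_nonneg_right (setDiv_nonneg s)
      intro w
      by_cases hw : w = P
      · subst hw
        have := hf3 w
        rwa [Finsupp.add_apply, setDiv_apply_of_notMem hP, add_zero] at this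
      · have := hf1 w
        rwa [Finsupp.add_apply, pt_apply_of_ne hw, add_zero] at this
    have := h.finL (D + setDiv s + pt P)
    have hlt' := Submodule.finrank_lt_finrank_of_lt hlt
    rw [setDiv_insert hP, Finset.card_insert_of_notMem hP,
      show D + (setDiv s + pt P) = D + setDiv s + pt P from (add_assoc _ _ _).symm]
    omega

/-- If `h¹(D) > 0`, all but finitely many places `P` satisfy `L(D + P) = L(D)`. -/
theorem finite_bad (h : RData K F) (D : Divisor K F) (hpos : 0 < Module.finrank K (H1 D)) :
    (Bad D).Finite := by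
  by_contra hinf
  obtain ⟨c, hc⟩ := h.van
  obtain ⟨s, hsub, hcard⟩ :=
    Set.Infinite.exists_subset_card_eq hinf (c - Divisor.degree D).toNat
  have hdeg : Divisor.degree (D + setDiv s) = Divisor.degree D + s.card := by
    rw [map_add, degree_setDiv h.deg]
  have hns : IsNonspecial (D + setDiv s) := by
    apply hc
    rw [hdeg, hcard]
    have := Int.self_le_toNat (c - Divisor.degree D)
    omega
  have h0 := (h.isNonspecial_iff _).mp hns
  have hrr := h.rr (D + setDiv s)
  have hrr0 := h.rr D
  have hchain := chain_le h D s fun P hP => hsub hP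
  rw [h0, hdeg] at hrr
  have hchain' : (Module.finrank K (riemannRochSpace D) : ℤ) + s.card
      ≤ Module.finrank K (riemannRochSpace (D + setDiv s)) := by exact_mod_cast hchain
  have hpos' : (0 : ℤ) < Module.finrank K (H1 D) := by exact_mod_cast hpos
  push_cast at hrr
  linarith

/-- Adding a generic point lowers `h¹` by one. -/
theorem finrank_H1_add_pt (h : RData K F) (D : Divisor K F) {P : Place K F} (hP : P ∉ Bad D) :
    (Module.finrank K (H1 (D + pt P)) : ℤ) = Module.finrank K (H1 D) - 1 := by
  have heq : riemannRochSpace (D + pt P) = riemannRochSpace D :=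
    le_antisymm (not_not.mp hP) (riemannRochSpace_mono (le_add_pt D P))
  have hrr := h.rr (D + pt P)
  have hrr0 := h.rr D
  rw [heq, map_add, degree_pt h.deg] at hrr
  linarith

/-! ## Choosing places by their `x`-value -/

section Values

variable [IsAlgClosed K] [CharZero K] (x : F) (hx : Transcendental K x) [FiniteDimensional K⟮x⟯ F]

include hx in
theorem exists_place_over (c : K) : ∃ P : Place K F, 0 < P.ord (x - algebraMap K F c) := by
  obtain ⟨s, hs, hsum⟩ := helper204.exists_finset_zeros hx c
  have hpos : 0 < Module.finrank K⟮x⟯ F := Module.finrank_pos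
  rcases s.eq_empty_or_nonempty with rfl | ⟨P, hP⟩
  · rw [Finset.sum_empty] at hsum
    have : (0 : ℤ) < Module.finrank K⟮x⟯ F := by exact_mod_cast hpos
    omega
  · exact ⟨P, (hs P).mp hP⟩

omit [IsAlgClosed K] [CharZero K] [FiniteDimensional K⟮x⟯ F] in
theorem value_unique (P : Place K F) {c c' : K} (h : 0 < P.ord (x - algebraMap K F c))
    (h' : 0 < P.ord (x - algebraMap K F c')) : c = c' := by
  by_contra hne
  have hsub : x - algebraMap K F c - (x - algebraMap K F c') = algebraMap K F (c' - c) := by
    rw [map_sub]
    ring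
  have hne' : x - algebraMap K F c - (x - algebraMap K F c') ≠ 0 := by
    rw [hsub]
    intro h0
    have : c' - c = 0 := (map_eq_zero (algebraMap K F)).mp h0
    exact hne (sub_eq_zero.mp this).symm
  have := helper204.ord_sub_pos P h h' hne'
  rw [hsub, helper204.ord_algebraMap_eq_zero] at this
  exact lt_irrefl _ this

omit [IsAlgClosed K] [CharZero K] [FiniteDimensional K⟮x⟯ F] in
theorem finite_values {X : Set (Place K F)} (hX : X.Finite) :
    {c : K | ∃ P ∈ X, 0 < P.ord (x - algebraMap K F c)}.Finite := by
  have hsub : {c : K | ∃ P ∈ X, 0 < P.ord (x - algebraMap K F c)}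
      ⊆ ⋃ P ∈ X, {c : K | 0 < P.ord (x - algebraMap K F c)} := by
    rintro c ⟨P, hP, hc⟩
    exact Set.mem_biUnion hP hc
  refine (Set.Finite.biUnion hX fun P _ => ?_).subset hsub
  exact Set.Subsingleton.finite fun c hc c' hc' => value_unique x P hc hc'

include hx in
/-- Adding `n ≤ h¹(D)` generic points, chosen by their `x`-values (pairwise distinct, with
fibres avoiding the finite set `T`), lowers `h¹` by `n`. -/
theorem exists_chain (h : RData K F) {S T : Set (Place K F)} (hS : S.Finite) (hT : T.Finite)
    (D : Divisor K F) :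
    ∀ n : ℕ, n ≤ Module.finrank K (H1 D) →
      ∃ (A : Fin n → Place K F) (c : Fin n → K), Function.Injective c ∧ (∀ i, A i ∉ S) ∧
        (∀ i, 0 < (A i).ord (x - algebraMap K F (c i))) ∧
        (∀ i (P : Place K F), 0 < P.ord (x - algebraMap K F (c i)) → P ∉ T) ∧
        (Module.finrank K (H1 (D + sumDiv A)) : ℤ) = Module.finrank K (H1 D) - n := by
  intro n
  induction n with
  | zero =>
    intro _
    refine ⟨Fin.elim0, Fin.elim0, fun i => i.elim0, fun i => i.elim0, fun i => i.elim0,
      fun i => i.elim0, ?_⟩
    have h0 : (sumDiv (Fin.elim0 : Fin 0 → Place K F) : Divisor K F) = 0 := by simp [sumDiv]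
    rw [h0, add_zero]
    simp
  | succ n ih =>
    intro hn
    obtain ⟨A, c, hc, hAS, hAc, hcT, hrank⟩ := ih (by omega)
    have hpos : 0 < Module.finrank K (H1 (D + sumDiv A)) := by
      have : (0 : ℤ) < Module.finrank K (H1 (D + sumDiv A)) := by
        rw [hrank]
        have : ((n + 1 : ℕ) : ℤ) ≤ Module.finrank K (H1 D) := by exact_mod_cast hn
        push_cast at this
        omega
      exact_mod_cast this
    have hbad := finite_bad h (D + sumDiv A) hpos
    have hX : (S ∪ T ∪ Bad (D + sumDiv A)).Finite := (hS.union hT).union hbad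
    have hV := (finite_values x hX).union (Set.finite_range c)
    obtain ⟨c', hc'⟩ := hV.exists_notMem
    rw [Set.mem_union, not_or] at hc'
    obtain ⟨hc'1, hc'2⟩ := hc'
    obtain ⟨P, hP⟩ := exists_place_over x hx c'
    have hPX : ∀ P' : Place K F, 0 < P'.ord (x - algebraMap K F c') →
        P' ∉ S ∪ T ∪ Bad (D + sumDiv A) := fun P' hP' hmem => hc'1 ⟨P', hmem, hP'⟩
    have hPS : P ∉ S := fun hm => hPX P hP (Or.inl (Or.inl hm))
    have hPB : P ∉ Bad (D + sumDiv A) := fun hm => hPX P hP (Or.inr hm)
    refine ⟨Fin.cons P A, Fin.cons c' c, ?_, ?_, ?_, ?_, ?_⟩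
    · exact Fin.cons_injective_iff.mpr ⟨hc'2, hc⟩
    · intro i
      refine Fin.cases ?_ (fun j => ?_) i
      · simpa using hPS
      · simpa using hAS j
    · intro i
      refine Fin.cases ?_ (fun j => ?_) i
      · simpa using hP
      · simpa using hAc j
    · intro i
      refine Fin.cases ?_ (fun j => ?_) i
      · intro P' hP'
        simp only [Fin.cons_zero] at hP'
        exact fun hm => hPX P' hP' (Or.inl (Or.inr hm))
      · intro P' hP'
        simp only [Fin.cons_succ] at hP'
        exact hcT j P' hP'
    · rw [sumDiv_cons, add_comm (pt P), ← add_assoc, finrank_H1_add_pt h _ hPB, hrank]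
      push_cast
      ring

end Values

/-! ## M2c: good base tuples -/

/-- `Stmt_GoodTuple` from `Stmt_Riemann` and `Stmt_GenericUnram`. -/
theorem goodTuple_of (hR : Stmt_Riemann.{u, v}) (hU : Stmt_GenericUnram.{u, v}) :
    Stmt_GoodTuple.{u, v} := by
  intro K F _ _ _ _ _ x hx _ S hS
  have h := rdata_of hR x hx
  have hT := hU K F x hx x hx
  obtain ⟨A, c, hc, hAS, hAc, hcT, hrank⟩ :=
    exists_chain x hx h hS hT (0 : Divisor K F) (genusFF K F) le_rfl
  have hgood : ∀ (P : Place K F) (i : Fin (genusFF K F)),
      0 < P.ord (x - algebraMap K F (c i)) → P.ord (x - algebraMap K F (c i)) = 1 := by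
    intro P i hP
    obtain ⟨c', hc'⟩ : ∃ c' : K, P.ord (x - algebraMap K F c') = 1 := not_not.mp (hcT i P hP)
    have hcc : c' = c i := value_unique x P (by omega) hP
    rw [← hcc]
    exact hc'
  refine ⟨A, c, hc, hAS, ?_, fun i => hgood (A i) i (hAc i), fun i P hP => hgood P i hP⟩
  rw [zero_add] at hrank
  apply (h.isNonspecial_iff _).mpr
  have h0 : (Module.finrank K (H1 (sumDiv A : Divisor K F)) : ℤ) = 0 := by
    rw [hrank]
    exact sub_self _
  exact_mod_cast h0

/-! ## M2d: every place lies in a nonspecial reduced tuple -/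

/-- The divisor `k • R`. -/
noncomputable def kpt (R : Place K F) (k : ℕ) : Divisor K F := Finsupp.single R (k : ℤ)

theorem kpt_apply_self (R : Place K F) (k : ℕ) : (kpt R k : Divisor K F) R = k := by
  simp [kpt]

theorem kpt_apply_of_ne {R w : Place K F} (h : w ≠ R) (k : ℕ) : (kpt R k : Divisor K F) w = 0 := by
  simp [kpt, h.symm]

theorem exp_one_pow (n : ℕ) : (exp (1 : ℤ)) ^ n = exp (n : ℤ) := by
  rw [← exp_nsmul]
  simp

/-- For `g ≥ 1`, no function has a single simple pole: `L(R) = L(0)`. -/
theorem not_bad_zero (h : RData K F) (hg : 0 < genusFF K F) (R : Place K F) :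
    R ∉ Bad (0 : Divisor K F) := by
  intro hbad
  obtain ⟨f, hf1, hf2⟩ := SetLike.not_le_iff_exists.mp hbad
  have hfw : ∀ w : Place K F, w ≠ R → w.adicValuation f ≤ 1 := by
    intro w hw
    have := hf1 w
    rwa [zero_add, pt_apply_of_ne hw, exp_zero] at this
  have hfR1 : R.adicValuation f ≤ exp (1 : ℤ) := by
    have := hf1 R
    rwa [zero_add, pt_apply_self] at this
  have hfR2 : ¬ R.adicValuation f ≤ 1 := by
    intro hle
    apply hf2
    intro w
    by_cases hw : w = R
    · subst hw
      simpa using hle
    · simpa using hfw w hw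
  have hf0 : f ≠ 0 := by
    rintro rfl
    simp at hfR2
  have hfR : R.adicValuation f = exp (1 : ℤ) := by
    rw [R.adicValuation_eq_exp_neg_ord hf0] at hfR1 hfR2 ⊢
    rw [exp_le_exp] at hfR1
    rw [← exp_zero, exp_le_exp] at hfR2
    congr 1
    omega
  have hchain : ∀ k : ℕ, Module.finrank K (riemannRochSpace (0 : Divisor K F)) + k
      ≤ Module.finrank K (riemannRochSpace (kpt R k : Divisor K F)) := by
    intro k
    induction k with
    | zero =>
      have h0 : (kpt R 0 : Divisor K F) = 0 := by simp [kpt]
      rw [h0, add_zero]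
    | succ k ih =>
      have hlt : riemannRochSpace (kpt R k : Divisor K F)
          < riemannRochSpace (kpt R (k + 1) : Divisor K F) := by
        refine lt_of_le_of_ne (riemannRochSpace_mono ?_) fun heq => ?_
        · intro w
          by_cases hw : w = R
          · subst hw
            rw [kpt_apply_self, kpt_apply_self]
            push_cast
            omega
          · rw [kpt_apply_of_ne hw, kpt_apply_of_ne hw]
        · have hmem : f ^ (k + 1) ∈ riemannRochSpace (kpt R (k + 1) : Divisor K F) := by
            intro w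
            rw [map_pow]
            by_cases hw : w = R
            · subst hw
              rw [hfR, kpt_apply_self, exp_one_pow]
            · rw [kpt_apply_of_ne hw, exp_zero]
              exact pow_le_one' (hfw w hw) _
          rw [← heq] at hmem
          have := hmem R
          rw [map_pow, hfR, kpt_apply_self, exp_one_pow, exp_le_exp] at this
          push_cast at this
          omega
      have := h.finL (kpt R (k + 1) : Divisor K F)
      have := Submodule.finrank_lt_finrank_of_lt hlt
      omega
  obtain ⟨c, hc⟩ := h.van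
  have hdeg : Divisor.degree (kpt R c.toNat : Divisor K F) = c.toNat := by
    unfold kpt
    rw [Divisor.degree_single, h.deg R]
    simp
  have hns := hc (kpt R c.toNat) (by rw [hdeg]; exact Int.self_le_toNat c)
  have h0 := (h.isNonspecial_iff _).mp hns
  have hrr := h.rr (kpt R c.toNat : Divisor K F)
  have hrr0 := h.rr (0 : Divisor K F)
  rw [h0, hdeg] at hrr
  rw [map_zero] at hrr0
  have hg' : (Module.finrank K (H1 (0 : Divisor K F)) : ℤ) = genusFF K F := rfl
  have hg'' : (0 : ℤ) < genusFF K F := by exact_mod_cast hg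
  have hc2 : (Module.finrank K (riemannRochSpace (0 : Divisor K F)) : ℤ) + c.toNat
      ≤ Module.finrank K (riemannRochSpace (kpt R c.toNat : Divisor K F)) := by
    exact_mod_cast hchain c.toNat
  push_cast at hrr
  linarith

theorem sumDiv_insertNth {n : ℕ} (i₀ : Fin (n + 1)) (R : Place K F) (A : Fin n → Place K F) :
    (sumDiv (Fin.insertNth (α := fun _ => Place K F) i₀ R A) : Divisor K F)
      = pt R + sumDiv A := by
  unfold sumDiv
  rw [Fin.sum_univ_succAbove _ i₀]
  simp

section Extend

variable [IsAlgClosed K] [CharZero K] (x : F) (hx : Transcendental K x) [FiniteDimensional K⟮x⟯ F]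

include hx in
theorem extendTuple_aux (h : RData K F) {S : Set (Place K F)} (hS : S.Finite) (R : Place K F) :
    ∀ g : ℕ, g = genusFF K F → ∀ i₀ : Fin g,
      ∃ B : Fin g → Place K F, Function.Injective B ∧ B i₀ = R ∧
        (∀ j, j ≠ i₀ → B j ∉ S) ∧ IsNonspecial (sumDiv B) := by
  intro g hg i₀
  cases g with
  | zero => exact i₀.elim0
  | succ n =>
    have hgpos : 0 < genusFF K F := by omega
    have h1 := finrank_H1_add_pt h (0 : Divisor K F) (not_bad_zero h hgpos R)
    rw [zero_add] at h1
    have hg' : (Module.finrank K (H1 (0 : Divisor K F)) : ℤ) = ((n + 1 : ℕ) : ℤ) := by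
      rw [hg]
      rfl
    have hn : n ≤ Module.finrank K (H1 (pt R : Divisor K F)) := by
      have : (Module.finrank K (H1 (pt R : Divisor K F)) : ℤ) = n := by
        rw [h1, hg']
        push_cast
        ring
      have : Module.finrank K (H1 (pt R : Divisor K F)) = n := by exact_mod_cast this
      omega
    obtain ⟨A, c, hc, hAS, hAc, -, hrank⟩ :=
      exists_chain x hx h (hS.union (Set.finite_singleton R)) Set.finite_empty
        (pt R : Divisor K F) n hn
    have hAinj : Function.Injective A := by
      intro i j hij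
      apply hc
      have hj := hAc j
      rw [← hij] at hj
      exact value_unique x (A i) (hAc i) hj
    have hAR : ∀ j, A j ≠ R := fun j hj => hAS j (Or.inr (by simpa using hj))
    refine ⟨Fin.insertNth (α := fun _ => Place K F) i₀ R A, ?_, ?_, ?_, ?_⟩
    · intro i j hij
      rcases Fin.eq_self_or_eq_succAbove i₀ i with hi | ⟨i', hi⟩ <;>
        rcases Fin.eq_self_or_eq_succAbove i₀ j with hj | ⟨j', hj⟩
      · rw [hi, hj]
      · rw [hi, hj, Fin.insertNth_apply_same, Fin.insertNth_apply_succAbove] at hij
        exact absurd hij.symm (hAR j')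
      · rw [hi, hj, Fin.insertNth_apply_same, Fin.insertNth_apply_succAbove] at hij
        exact absurd hij (hAR i')
      · rw [hi, hj, Fin.insertNth_apply_succAbove, Fin.insertNth_apply_succAbove] at hij
        rw [hi, hj, hAinj hij]
    · exact Fin.insertNth_apply_same _ _ _
    · intro j hj
      rcases Fin.eq_self_or_eq_succAbove i₀ j with hj' | ⟨j', hj'⟩
      · exact absurd hj' hj
      · rw [hj', Fin.insertNth_apply_succAbove]
        exact fun hm => hAS j' (Or.inl hm)
    · rw [sumDiv_insertNth]
      apply (h.isNonspecial_iff _).mpr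
      have : (Module.finrank K (H1 (pt R + sumDiv A : Divisor K F)) : ℤ) = 0 := by
        rw [hrank, h1, hg']
        push_cast
        ring
      exact_mod_cast this

end Extend

/-- `Stmt_ExtendTuple` from `Stmt_Riemann`. -/
theorem extendTuple_of (hR : Stmt_Riemann.{u, v}) : Stmt_ExtendTuple.{u, v} := by
  intro K F _ _ _ _ _ x hx _ S hS R i₀
  exact extendTuple_aux x hx (rdata_of hR x hx) hS R (genusFF K F) rfl i₀

/-! ## M2b: principal parts at a nonspecial reduced divisor are independent -/

/-- The component of a repartition at a place, as a `K`-linear map. -/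
noncomputable def coord (w : Place K F) : ↥(repartitions K F) →ₗ[K] F where
  toFun α := (α : Place K F → F) w
  map_add' _ _ := rfl
  map_smul' _ _ := rfl

theorem coord_rsingle_self (P : Place K F) (f : F) : coord P (rsingle P f) = f := by
  simp [coord, rsingle]

theorem coord_rsingle_of_ne {P w : Place K F} (h : w ≠ P) (f : F) :
    coord w (rsingle P f) = 0 := by
  simp [coord, rsingle, h]

/-- `Stmt_NonspecialBasis` from `Stmt_Riemann`. -/
theorem nonspecialBasis_of (hR : Stmt_Riemann.{u, v}) : Stmt_NonspecialBasis.{u, v} := by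
  intro K F _ _ _ _ _ x hx _ A t hA ht hns
  have h := rdata_of hR x hx
  rw [Fintype.linearIndependent_iff]
  intro a ha
  obtain ⟨α, hα⟩ : ∃ α : ↥(repartitions K F), α = ∑ i, a i • rsingle (A i) (t i)⁻¹ := ⟨_, rfl⟩
  have hmem : α ∈ repartitionsOf (0 : Divisor K F) ⊔ principalRepartitions K F := by
    rw [← Submodule.Quotient.mk_eq_zero, ← Submodule.mkQ_apply, hα, map_sum]
    simp only [map_smul]
    exact ha
  obtain ⟨β, hβ, γ, hγ, hsum⟩ := Submodule.mem_sup.mp hmem
  obtain ⟨f, hf⟩ := mem_principalRepartitions_iff.mp hγ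
  have hpt : ∀ w : Place K F, coord w α = coord w β + f := by
    intro w
    rw [← hsum, map_add]
    congr 1
    exact congrFun hf w
  have hαj : ∀ j, coord (A j) α = algebraMap K F (a j) * (t j)⁻¹ := by
    intro j
    rw [hα, map_sum, Finset.sum_eq_single j]
    · rw [map_smul, coord_rsingle_self, Algebra.smul_def]
    · intro i _ hij
      rw [map_smul, coord_rsingle_of_ne (fun h => hij (hA h).symm), smul_zero]
    · intro hj
      exact absurd (Finset.mem_univ j) hj
  have hα0 : ∀ w : Place K F, (∀ i, w ≠ A i) → coord w α = 0 := by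
    intro w hw
    rw [hα, map_sum]
    exact Finset.sum_eq_zero fun i _ => by rw [map_smul, coord_rsingle_of_ne (hw i), smul_zero]
  have hβ' : ∀ w : Place K F, w.adicValuation (coord w β) ≤ 1 := by
    intro w
    have := hβ w
    rwa [Finsupp.zero_apply, exp_zero] at this
  have htval : ∀ j, (A j).adicValuation (t j) = exp (-1 : ℤ) := by
    intro j
    have ht0 : t j ≠ 0 := by
      intro h0
      have := ht j
      rw [h0, Place.ord_zero] at this
      exact zero_ne_one this
    rw [(A j).adicValuation_eq_exp_neg_ord ht0, ht j]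
  have hcval : ∀ (w : Place K F) (k : K), k ≠ 0 → w.adicValuation (algebraMap K F k) = 1 := by
    intro w k hk
    rw [w.adicValuation_eq_exp_neg_ord ((map_ne_zero _).mpr hk),
      helper204.ord_algebraMap_eq_zero]
    simp
  have hD0 : ∀ w : Place K F, (1 : ℤᵐ⁰) ≤ exp ((sumDiv A : Divisor K F) w) := by
    intro w
    rw [← exp_zero, exp_le_exp]
    exact Finsupp.le_def.mp (sumDiv_nonneg A) w
  have hfL : f ∈ riemannRochSpace (sumDiv A : Divisor K F) := by
    intro w
    have hfw : f = coord w α - coord w β := by
      rw [hpt w]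
      ring
    rw [hfw]
    refine (Valuation.map_sub _ _ _).trans (max_le ?_ ((hβ' w).trans (hD0 w)))
    by_cases hw : ∃ j, w = A j
    · obtain ⟨j, rfl⟩ := hw
      rw [hαj j, sumDiv_apply_of_injective hA j, map_mul, map_inv₀, htval j, exp_neg, inv_inv]
      exact mul_le_of_le_one_left' ((A j).adicValuation_algebraMap_le_one _)
    · simp only [not_exists] at hw
      rw [hα0 w hw, map_zero]
      exact zero_le
  have hns0 := (h.isNonspecial_iff _).mp hns
  have hrr := h.rr (sumDiv A : Divisor K F)
  rw [hns0, degree_sumDiv h.deg] at hrr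
  have hl1 : Module.finrank K (riemannRochSpace (sumDiv A : Divisor K F)) = 1 := by
    have : (Module.finrank K (riemannRochSpace (sumDiv A : Divisor K F)) : ℤ) = 1 := by
      push_cast at hrr
      linarith
    exact_mod_cast this
  have h1mem : (1 : F) ∈ riemannRochSpace (sumDiv A : Divisor K F) := by
    intro w
    rw [map_one]
    exact hD0 w
  have hone : (⟨1, h1mem⟩ : riemannRochSpace (sumDiv A : Divisor K F)) ≠ 0 := by
    intro h0
    exact one_ne_zero (congrArg Subtype.val h0)
  obtain ⟨k, hk⟩ := (finrank_eq_one_iff_of_nonzero' _ hone).mp hl1 ⟨f, hfL⟩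
  have hfk : f = algebraMap K F k := by
    have := congrArg Subtype.val hk
    simp only [Submodule.coe_smul, Algebra.smul_def, mul_one] at this
    exact this.symm
  intro j
  by_contra haj
  have hle : (A j).adicValuation (coord (A j) α) ≤ 1 := by
    rw [hpt (A j), hfk]
    exact (Valuation.map_add _ _ _).trans
      (max_le (hβ' _) ((A j).adicValuation_algebraMap_le_one k))
  rw [hαj j, map_mul, map_inv₀, htval j, hcval _ _ haj, one_mul, exp_neg, inv_inv,
    ← exp_zero, exp_le_exp] at hle
  omega

end Fermat.Agent.S27.helper6260
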