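import Fermat.Agent.S27.helper6247_Spec
import Fermat.Agent.S24.helper204_Places

/-!
# S27, Spec leaf M1c: `Stmt_GenericUnram`

A transcendental `u` is a local coordinate (`u - c` a uniformizer for some `c`) at all but
finitely many places.

Proof: take a plane model `(u, y, χ)` (`χ` monic in `Y`, generating the relations).  In
characteristic `0` there is a Bezout relation `A χ + B χ_Y = d(X)` with `d ≠ 0`.  Away from the
poles of `u` and the fibres over the roots of `d`, every place is the place of a simple point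
of the plane model, where `u - c` is a uniformizer (`Stmt_SimplePoint`).
-/

set_option autoImplicit false

open AlgebraicCurve IntermediateField Polynomial
open scoped Polynomial.Bivariate

namespace Fermat.Agent.S27.helper635

open Fermat.Agent.S27.helper6247

noncomputable section

/-! ## Char-0 Bezout relation for an irreducible bivariate polynomial -/

/-- Bezout relation with a nonzero polynomial `d ∈ K[X]` (any field of characteristic `0`). -/
theorem exists_bezout_of_irreducible {K : Type*} [Field K] [CharZero K] (χ : K[X][Y])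
    (hirr : Irreducible χ) (hdeg : χ.natDegree ≠ 0) :
    ∃ (d : K[X]) (A B : K[X][Y]), d ≠ 0 ∧ A * χ + B * derivative χ = C d := by
  have hprim : χ.IsPrimitive := hirr.isPrimitive hdeg
  set L := FractionRing K[X]
  have hirrK : Irreducible (χ.map (algebraMap K[X] L)) :=
    (hprim.irreducible_iff_irreducible_map_fraction_map).mp hirr
  have hsep : (χ.map (algebraMap K[X] L)).Separable := hirrK.separable
  obtain ⟨A, B, hAB⟩ := hsep
  obtain ⟨bA, hbA, hA⟩ := IsLocalization.integerNormalization_spec (nonZeroDivisors K[X]) A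
  obtain ⟨bB, hbB, hB⟩ := IsLocalization.integerNormalization_spec (nonZeroDivisors K[X]) B
  set A' := IsLocalization.integerNormalization (nonZeroDivisors K[X]) A
  set B' := IsLocalization.integerNormalization (nonZeroDivisors K[X]) B
  refine ⟨bA * bB, C bB * A', C bA * B', mul_ne_zero (nonZeroDivisors.ne_zero hbA)
    (nonZeroDivisors.ne_zero hbB), ?_⟩
  apply Polynomial.map_injective (algebraMap K[X] L) (IsFractionRing.injective K[X] L)
  rw [Polynomial.map_add, Polynomial.map_mul, Polynomial.map_mul, Polynomial.map_mul,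
    Polynomial.map_mul, hA, hB, ← Polynomial.derivative_map, Polynomial.map_C, Polynomial.map_C,
    Polynomial.map_C]
  have h1 : C (algebraMap K[X] L bB) * (bA • A) * (χ.map (algebraMap K[X] L)) +
      C (algebraMap K[X] L bA) * (bB • B) * derivative (χ.map (algebraMap K[X] L)) =
      C (algebraMap K[X] L (bA * bB)) *
        (A * (χ.map (algebraMap K[X] L)) + B * derivative (χ.map (algebraMap K[X] L))) := by
    rw [Algebra.smul_def, Algebra.smul_def, Polynomial.algebraMap_apply,
      Polynomial.algebraMap_apply, map_mul, C_mul]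
    ring
  rw [h1, hAB, mul_one]

/-! ## Evaluation of polynomial expressions at a place -/

section EvPoly

variable {K : Type*} {F : Type*} [Field K] [Field F] [Algebra K F]

/-- Abstract evaluation lemma in one variable: `e` is additive and multiplicative on a subring
`O` containing the constants, and is the identity on constants. -/
theorem aeval_mem_and_ev (O : Subring F) (e : F → K) (hO : ∀ c : K, algebraMap K F c ∈ O)
    (he1 : ∀ c : K, e (algebraMap K F c) = c)
    (he2 : ∀ f g : F, f ∈ O → g ∈ O → e (f + g) = e f + e g ∧ e (f * g) = e f * e g)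
    {f : F} (hf : f ∈ O) (q : K[X]) :
    aeval f q ∈ O ∧ e (aeval f q) = q.eval (e f) := by
  have hpow : ∀ n : ℕ, f ^ n ∈ O ∧ e (f ^ n) = e f ^ n := by
    intro n
    induction n with
    | zero =>
      refine ⟨pow_mem hf 0, ?_⟩
      rw [pow_zero, pow_zero]
      have := he1 1
      rwa [map_one] at this
    | succ n ih =>
      refine ⟨pow_mem hf _, ?_⟩
      rw [pow_succ, (he2 _ _ ih.1 hf).2, ih.2, pow_succ]
  induction q using Polynomial.induction_on' with
  | add p q hp hq =>
    rw [map_add, eval_add]
    exact ⟨add_mem hp.1 hq.1, by rw [(he2 _ _ hp.1 hq.1).1, hp.2, hq.2]⟩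
  | monomial n a =>
    rw [aeval_monomial, eval_monomial]
    exact ⟨mul_mem (hO a) (hpow n).1, by rw [(he2 _ _ (hO a) (hpow n).1).2, he1, (hpow n).2]⟩

/-- Abstract evaluation lemma in two variables. -/
theorem aevalAeval_mem_and_ev (O : Subring F) (e : F → K) (hO : ∀ c : K, algebraMap K F c ∈ O)
    (he1 : ∀ c : K, e (algebraMap K F c) = c)
    (he2 : ∀ f g : F, f ∈ O → g ∈ O → e (f + g) = e f + e g ∧ e (f * g) = e f * e g)
    {u y : F} (hu : u ∈ O) (hy : y ∈ O) (G : K[X][Y]) :
    aevalAeval u y G ∈ O ∧ e (aevalAeval u y G) = G.evalEval (e u) (e y) := by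
  have hpow : ∀ n : ℕ, y ^ n ∈ O ∧ e (y ^ n) = e y ^ n := by
    intro n
    induction n with
    | zero =>
      refine ⟨pow_mem hy 0, ?_⟩
      rw [pow_zero, pow_zero]
      have := he1 1
      rwa [map_one] at this
    | succ n ih =>
      refine ⟨pow_mem hy _, ?_⟩
      rw [pow_succ, (he2 _ _ ih.1 hy).2, ih.2, pow_succ]
  induction G using Polynomial.induction_on' with
  | add p q hp hq =>
    rw [map_add, evalEval_add]
    exact ⟨add_mem hp.1 hq.1, by rw [(he2 _ _ hp.1 hq.1).1, hp.2, hq.2]⟩
  | monomial n a =>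
    have h1 : (monomial n a : K[X][Y]) = C a * Y ^ n := by
      rw [← Polynomial.C_mul_X_pow_eq_monomial]
    have h2 := aeval_mem_and_ev O e hO he1 he2 hu a
    rw [h1, map_mul, map_pow, aevalAeval_C, aevalAeval_Y, evalEval_mul, evalEval_pow,
      evalEval_C, evalEval_X]
    exact ⟨mul_mem h2.1 (hpow n).1, by rw [(he2 _ _ h2.1 (hpow n).1).2, h2.2, (hpow n).2]⟩

theorem aevalAeval_eq_eval₂ (u y : F) (G : K[X][Y]) :
    aevalAeval u y G = eval₂ ((aeval u : K[X] →ₐ[K] F) : K[X] →+* F) y G := by
  induction G using Polynomial.induction_on' with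
  | add p q hp hq => rw [map_add, eval₂_add, hp, hq]
  | monomial n a =>
    have h1 : (monomial n a : K[X][Y]) = C a * Y ^ n := by
      rw [← Polynomial.C_mul_X_pow_eq_monomial]
    rw [h1, map_mul, map_pow, aevalAeval_C, aevalAeval_Y, eval₂_mul, eval₂_pow, eval₂_C, eval₂_X]
    rfl

end EvPoly

/-! ## The plane model hypothesis and the theorem -/

/-- Existence of a plane model with prescribed first coordinate `u` (leaf A0b): `y` integral
over `K[u]` generating `F` over `K(u)`, with `χ` (monic in `Y`) generating the relations. -/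
def PlaneModelExists.{u, v} : Prop :=
  ∀ (K : Type u) (F : Type v) [Field K] [Field F] [Algebra K F] [IsAlgClosed K] [CharZero K]
    (u : F), Transcendental K u → ∀ [FiniteDimensional K⟮u⟯ F],
    ∃ (y : F) (χ : K[X][Y]), χ.Monic ∧ IntermediateField.adjoin K {u, y} = ⊤ ∧
      aevalAeval u y χ = 0 ∧ (∀ G : K[X][Y], aevalAeval u y G = 0 → χ ∣ G)

/-- Irreducibility of the generator of the relations of a plane model. -/
theorem irreducible_of_planeModel {K : Type*} {F : Type*} [Field K] [Field F] [Algebra K F]
    (u y : F) (χ : K[X][Y]) (hχ0 : χ ≠ 0) (hroot : aevalAeval u y χ = 0)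
    (hker : ∀ G : K[X][Y], aevalAeval u y G = 0 → χ ∣ G) : Irreducible χ := by
  refine ⟨?_, ?_⟩
  · intro hunit
    have := hunit.map (aevalAeval u y)
    rw [hroot] at this
    exact not_isUnit_zero this
  · intro a b hab
    have h0 : aevalAeval u y a * aevalAeval u y b = 0 := by
      rw [← map_mul, ← hab, hroot]
    rcases mul_eq_zero.mp h0 with h | h
    · right
      obtain ⟨c, hc⟩ := hker a h
      have : χ * 1 = χ * (c * b) := by rw [mul_one, ← mul_assoc, ← hc, ← hab]
      have h1 : 1 = c * b := mul_left_cancel₀ hχ0 this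
      exact IsUnit.of_mul_eq_one c (by rw [mul_comm]; exact h1.symm)
    · left
      obtain ⟨c, hc⟩ := hker b h
      have : χ * 1 = χ * (a * c) := by
        calc χ * 1 = χ := mul_one _
          _ = a * b := hab
          _ = a * (χ * c) := congrArg (fun t => a * t) hc
          _ = χ * (a * c) := by ring
      have h1 : 1 = a * c := mul_left_cancel₀ hχ0 this
      exact IsUnit.of_mul_eq_one c h1.symm

/-- **Spec leaf M1c.** `Stmt_GenericUnram` from `Stmt_Ev`, `Stmt_SimplePoint` and the existence
of plane models. -/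
theorem genericUnram_of.{u, v} (hEv : Stmt_Ev.{u, v}) (hSP : Stmt_SimplePoint.{u, v})
    (hPM : PlaneModelExists.{u, v}) : Stmt_GenericUnram.{u, v} := by
  intro K F _ _ _ _ _ x hx _ u hu
  classical
  have hfinu : FiniteDimensional K⟮u⟯ F :=
    Fermat.Agent.S24.helper204.finiteDimensional_adjoin_of_transcendental (x := x) hu
  obtain ⟨y, χ, hmonic, hgen, hroot, hker⟩ := hPM K F u hu
  have hχ0 : χ ≠ 0 := hmonic.ne_zero
  have hirr : Irreducible χ := irreducible_of_planeModel u y χ hχ0 hroot hker
  have hdeg : χ.natDegree ≠ 0 := by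
    intro h0
    have h1 : χ = 1 := hmonic.natDegree_eq_zero.mp h0
    rw [h1, map_one] at hroot
    exact one_ne_zero hroot
  obtain ⟨d, A, B, hd, hAB⟩ := exists_bezout_of_irreducible χ hirr hdeg
  -- the exceptional set
  obtain ⟨sp, hsp, -⟩ := Fermat.Agent.S24.helper204.exists_finset_poles u hu
  have hz : ∀ c : K, ∃ s : Finset (Place K F), ∀ v, v ∈ s ↔ 0 < v.ord (u - algebraMap K F c) :=
    fun c => (Fermat.Agent.S24.helper204.exists_finset_zeros hu c).imp fun s hs => hs.1
  choose sz hsz using hz
  have hfin : ((sp : Set (Place K F)) ∪ ⋃ c ∈ d.roots.toFinset, (sz c : Set (Place K F))).Finite :=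
    sp.finite_toSet.union (Set.Finite.biUnion (Finset.finite_toSet _)
      fun c _ => (sz c).finite_toSet)
  refine hfin.subset ?_
  intro P hP
  by_contra hPn
  apply hP
  rw [Set.mem_union, not_or] at hPn
  obtain ⟨hP1, hP2⟩ := hPn
  have hP1' : ¬ P.ord u < 0 := fun h => hP1 (Finset.mem_coe.mpr ((hsp P).mpr h))
  rcases Fermat.Agent.S24.helper204.place_center u hu P with hneg | ⟨c, hc, -⟩
  · exact absurd hneg hP1'
  refine ⟨c, ?_⟩
  have hdc : d.eval c ≠ 0 := by
    intro h0
    apply hP2
    simp only [Set.mem_iUnion, Finset.mem_coe, exists_prop]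
    exact ⟨c, Multiset.mem_toFinset.mpr ((mem_roots hd).mpr h0), (hsz c P).mpr hc⟩
  -- evaluation at `P`
  obtain ⟨hev1, hev2, -, hev4⟩ := hEv K F x hx P
  set O : Subring F := P.toValuationSubring.toSubring with hO
  have hOmem : ∀ f : F, f ∈ O ↔ 0 ≤ P.ord f := fun f =>
    (Fermat.Agent.S24.helper204.ord_nonneg_iff P).symm
  have hOc : ∀ c : K, algebraMap K F c ∈ O := fun c => P.algebraMap_mem' c
  have he2 : ∀ f g : F, f ∈ O → g ∈ O →
      ev P (f + g) = ev P f + ev P g ∧ ev P (f * g) = ev P f * ev P g :=
    fun f g hf hg => hev2 f g ((hOmem f).mp hf) ((hOmem g).mp hg)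
  have huO : u ∈ O := (hOmem u).mpr (not_lt.mp hP1')
  have hevu : ev P u = c := hev4 u c hc
  -- `y` is integral over `K[u]`, hence regular at `P`
  have hyO : y ∈ O := by
    let _ : Algebra K[X] F := ((aeval u : K[X] →ₐ[K] F) : K[X] →+* F).toAlgebra
    have hint : IsIntegral K[X] y := by
      refine ⟨χ, hmonic, ?_⟩
      have := aevalAeval_eq_eval₂ u y χ
      rw [hroot] at this
      exact this.symm
    exact Fermat.Agent.S24.helper204.mem_of_isIntegral_of_range_le P.toValuationSubring
      (S := K[X]) (fun s => (aeval_mem_and_ev O (ev P) hOc hev1 he2 huO s).1) hint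
  have hy0 : 0 ≤ P.ord y := (hOmem y).mp hyO
  set β := ev P y with hβ
  have hval : ∀ G : K[X][Y], ev P (aevalAeval u y G) = G.evalEval c β := by
    intro G
    have := (aevalAeval_mem_and_ev O (ev P) hOc hev1 he2 huO hyO G).2
    rw [hevu] at this
    exact this
  have hzero : ev P (0 : F) = 0 := by
    have := hev1 0
    rwa [map_zero] at this
  have h0 : χ.evalEval c β = 0 := by
    rw [← hval χ, hroot, hzero]
  have h1 : (derivative χ).evalEval c β ≠ 0 := by
    intro h
    have h2 := congrArg (Polynomial.evalEval c β) hAB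
    rw [evalEval_add, evalEval_mul, evalEval_mul, h0, h, mul_zero, mul_zero, add_zero,
      evalEval_C] at h2
    exact hdc h2.symm
  obtain ⟨P₀, hP₀1, -, -, hP₀uniq, -⟩ := hSP K F u y χ c β hu hgen hroot hker h0 h1
  have hPP₀ : P = P₀ := hP₀uniq P hc hy0 rfl
  rw [hPP₀]
  exact hP₀1

end

end Fermat.Agent.S27.helper635
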