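/-
Copyright: helper6620 (team Fermat). S27 leaf "S27-E4-PSI" (board row 759).

Growth majorant `psi0` for the pole bound (P) of the S27 analytic route, with:
* `segment_integral_bound` (PSI-B): the integral of `psi0` along any segment of the plane is
  bounded by a constant `segConst S al be` independent of the segment (`0 ≤ al < 1 < be`);
  consumer forms `exists_segment_integral_bound`, `norm_segment_integral_le`;
* `exists_root_bound`, `exists_root_bound_eval₂` (PSI-A): abstract "roots of monic polynomials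
  are bounded by their coefficients" form of the pole bound;
* `integrable_psi0_sq` (PSI-C): `psi0 ^ 2` is Lebesgue integrable on the plane.
Only Mathlib is used.
-/
import Mathlib

namespace Fermat.Agent.S27.helper6620

open MeasureTheory Set

/-- Majorant used for the pole bound (P). -/
noncomputable def psi0 (S : Finset ℂ) (al be : ℝ) (a : ℂ) : ℝ :=
  (∏ s ∈ S, (min 1 (dist a s)) ^ (-al)) * (1 + ‖a‖) ^ (-be)

theorem psi0_nonneg (S : Finset ℂ) (al be : ℝ) (a : ℂ) : 0 ≤ psi0 S al be a := by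
  unfold psi0
  apply mul_nonneg
  · apply Finset.prod_nonneg
    intro s _
    apply Real.rpow_nonneg
    positivity
  · apply Real.rpow_nonneg
    positivity

theorem measurable_psi0 (S : Finset ℂ) (al be : ℝ) : Measurable (psi0 S al be) := by
  unfold psi0
  fun_prop

/-- Finite product bounded by a sum, when at most one factor can be large. -/
theorem prod_le_pow_mul_one_add_sum {ι : Type*} (S : Finset ι) (x : ι → ℝ) (D : ℝ)
    (hD : 1 ≤ D) (hx : ∀ s ∈ S, 0 ≤ x s)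
    (hpair : ∀ s ∈ S, ∀ t ∈ S, s ≠ t → x s ≤ D ∨ x t ≤ D) :
    ∏ s ∈ S, x s ≤ D ^ S.card * (1 + ∑ s ∈ S, x s) := by
  classical
  induction S using Finset.induction_on with
  | empty => simp
  | insert s0 S' hs0 ih =>
    have hx' : ∀ s ∈ S', 0 ≤ x s := fun s hs => hx s (Finset.mem_insert_of_mem hs)
    have hpair' : ∀ s ∈ S', ∀ t ∈ S', s ≠ t → x s ≤ D ∨ x t ≤ D :=
      fun s hs t ht hst => hpair s (Finset.mem_insert_of_mem hs) t (Finset.mem_insert_of_mem ht) hst
    have ih' := ih hx' hpair'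
    have hx0 : 0 ≤ x s0 := hx s0 (Finset.mem_insert_self _ _)
    have hsum : 0 ≤ ∑ s ∈ S', x s := Finset.sum_nonneg hx'
    have hD0 : 0 ≤ D := le_trans zero_le_one hD
    have hDn : 1 ≤ D ^ S'.card := one_le_pow₀ hD
    rw [Finset.prod_insert hs0, Finset.sum_insert hs0, Finset.card_insert_of_notMem hs0, pow_succ]
    by_cases h0 : x s0 ≤ D
    · calc x s0 * ∏ s ∈ S', x s ≤ D * (D ^ S'.card * (1 + ∑ s ∈ S', x s)) :=
            mul_le_mul h0 ih' (Finset.prod_nonneg hx') hD0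
        _ ≤ D ^ S'.card * D * (1 + (x s0 + ∑ s ∈ S', x s)) := by
            have : 0 ≤ D ^ S'.card * D * x s0 := by positivity
            nlinarith
    · have hall : ∀ s ∈ S', x s ≤ D := by
        intro s hs
        have hne : s0 ≠ s := fun h => hs0 (h ▸ hs)
        rcases hpair s0 (Finset.mem_insert_self _ _) s (Finset.mem_insert_of_mem hs) hne with h | h
        · exact absurd h h0
        · exact h
      have hprod : ∏ s ∈ S', x s ≤ D ^ S'.card := by
        calc ∏ s ∈ S', x s ≤ ∏ _s ∈ S', D := Finset.prod_le_prod (fun s hs => hx' s hs) hall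
          _ = D ^ S'.card := by simp
      calc x s0 * ∏ s ∈ S', x s ≤ x s0 * D ^ S'.card :=
            mul_le_mul_of_nonneg_left hprod hx0
        _ ≤ D ^ S'.card * D * (1 + (x s0 + ∑ s ∈ S', x s)) := by
            have h1 : x s0 * D ^ S'.card ≤ x s0 * D ^ S'.card * D := by
              have : 0 ≤ x s0 * D ^ S'.card := by positivity
              nlinarith
            have h2 : 0 ≤ D ^ S'.card * D * (1 + ∑ s ∈ S', x s) := by positivity
            nlinarith

/-- Separation constant of a finite set. -/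
noncomputable def sepConst (S : Finset ℂ) (al : ℝ) : ℝ :=
  1 + ∑ p ∈ S.offDiag, (min 1 (dist p.1 p.2 / 2)) ^ (-al)

theorem one_le_sepConst (S : Finset ℂ) (al : ℝ) : 1 ≤ sepConst S al := by
  unfold sepConst
  have : 0 ≤ ∑ p ∈ S.offDiag, (min 1 (dist p.1 p.2 / 2)) ^ (-al) := by
    apply Finset.sum_nonneg
    intro p _
    apply Real.rpow_nonneg
    positivity
  linarith

theorem factor_pair_bound (S : Finset ℂ) {al : ℝ} (hal : 0 ≤ al) (a : ℂ) :
    ∀ s ∈ S, ∀ t ∈ S, s ≠ t →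
      (min 1 (dist a s)) ^ (-al) ≤ sepConst S al ∨ (min 1 (dist a t)) ^ (-al) ≤ sepConst S al := by
  intro s hs t ht hst
  have hpos : 0 < dist s t := dist_pos.mpr hst
  have hδ : 0 < min 1 (dist s t / 2) := by positivity
  have hterm : (min 1 (dist s t / 2)) ^ (-al) ≤ sepConst S al := by
    unfold sepConst
    have hmem : (s, t) ∈ S.offDiag := by
      rw [Finset.mem_offDiag]; exact ⟨hs, ht, hst⟩
    have h1 := Finset.single_le_sum (f := fun p : ℂ × ℂ => (min 1 (dist p.1 p.2 / 2)) ^ (-al))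
      (fun p _ => Real.rpow_nonneg (by positivity) _) hmem
    simp only at h1
    linarith
  have htri : dist s t ≤ dist a s + dist a t := by
    calc dist s t ≤ dist s a + dist a t := dist_triangle _ _ _
      _ = dist a s + dist a t := by rw [dist_comm s a]
  have key : ∀ x : ℝ, dist s t / 2 ≤ x → (min 1 x) ^ (-al) ≤ sepConst S al := by
    intro x hx
    refine le_trans ?_ hterm
    apply Real.rpow_le_rpow_of_nonpos hδ _ (by linarith)
    exact min_le_min le_rfl hx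
  by_cases h : dist s t / 2 ≤ dist a s
  · exact Or.inl (key _ h)
  · refine Or.inr (key _ ?_)
    have h' := not_le.mp h
    linarith

theorem prod_factor_le (S : Finset ℂ) {al : ℝ} (hal : 0 ≤ al) (a : ℂ) :
    ∏ s ∈ S, (min 1 (dist a s)) ^ (-al) ≤
      sepConst S al ^ S.card * (1 + ∑ s ∈ S, (min 1 (dist a s)) ^ (-al)) :=
  prod_le_pow_mul_one_add_sum S (fun s => (min 1 (dist a s)) ^ (-al)) (sepConst S al)
    (one_le_sepConst S al) (fun s _ => Real.rpow_nonneg (by positivity) _)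
    (factor_pair_bound S hal a)

/-- Local kernel `|v|^(-al)` on `0 < |v| ≤ 1`. -/
noncomputable def k1 (al : ℝ) (v : ℝ) : ℝ :=
  (Ioc (0:ℝ) 1).indicator (fun u => u ^ (-al)) v + (Ioc (0:ℝ) 1).indicator (fun u => u ^ (-al)) (-v)

/-- Decay kernel. -/
noncomputable def k2 (be : ℝ) (v : ℝ) : ℝ := (1 + |v|) ^ (-be)

theorem k1_nonneg (al v : ℝ) : 0 ≤ k1 al v := by
  unfold k1
  apply add_nonneg <;>
  · apply Set.indicator_nonneg
    intro u hu
    exact Real.rpow_nonneg hu.1.le _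

theorem k2_nonneg (be v : ℝ) : 0 ≤ k2 be v := by
  unfold k2
  apply Real.rpow_nonneg
  positivity

theorem k1_eq {al v : ℝ} (hv0 : v ≠ 0) (hv1 : |v| ≤ 1) : k1 al v = |v| ^ (-al) := by
  unfold k1
  rcases lt_or_gt_of_ne hv0 with h | h
  · have h1 : v ∉ Ioc (0:ℝ) 1 := fun hh => absurd hh.1 (not_lt.mpr h.le)
    have h2 : -v ∈ Ioc (0:ℝ) 1 := ⟨by linarith, by rw [abs_of_neg h] at hv1; exact hv1⟩
    rw [Set.indicator_of_notMem h1, Set.indicator_of_mem h2, abs_of_neg h, zero_add]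
  · have h1 : v ∈ Ioc (0:ℝ) 1 := ⟨h, by rw [abs_of_pos h] at hv1; exact hv1⟩
    have h2 : -v ∉ Ioc (0:ℝ) 1 := fun hh => absurd hh.1 (not_lt.mpr (by linarith))
    rw [Set.indicator_of_mem h1, Set.indicator_of_notMem h2, abs_of_pos h, add_zero]

theorem integrable_k1 {al : ℝ} (hal : al < 1) : Integrable (k1 al) := by
  have h0 : Integrable ((Ioc (0:ℝ) 1).indicator (fun u : ℝ => u ^ (-al))) := by
    rw [integrable_indicator_iff measurableSet_Ioc]
    have := @intervalIntegral.intervalIntegrable_rpow' 0 1 (-al) (by linarith)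
    rwa [intervalIntegrable_iff_integrableOn_Ioc_of_le zero_le_one] at this
  exact h0.add h0.comp_neg

theorem integrable_k2 {be : ℝ} (hbe : 1 < be) : Integrable (k2 be) := by
  have := integrable_one_add_norm (E := ℝ) (μ := volume) (r := be) (by simpa using hbe)
  show Integrable (fun v : ℝ => (1 + |v|) ^ (-be))
  simpa [Real.norm_eq_abs] using this

/-- decay factor bound -/
theorem decay_le_k2 {be : ℝ} (hbe : 0 ≤ be) (z : ℂ) {v0 : ℝ} (hv0 : |v0| ≤ ‖z‖) :
    (1 + ‖z‖) ^ (-be) ≤ k2 be v0 := by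
  unfold k2
  apply Real.rpow_le_rpow_of_nonpos (by positivity) (by linarith) (by linarith)

theorem decay_le_one {be : ℝ} (hbe : 0 ≤ be) (z : ℂ) : (1 + ‖z‖) ^ (-be) ≤ 1 := by
  apply Real.rpow_le_one_of_one_le_of_nonpos
  · linarith [norm_nonneg z]
  · linarith

/-- pointwise bound of one factor times the decay factor -/
theorem factor_mul_decay_le {al be : ℝ} (hal : 0 ≤ al) (hbe : 0 ≤ be) (z s : ℂ) {v v0 : ℝ}
    (hv : |v| ≤ dist z s) (hvne : v ≠ 0) (hv0 : |v0| ≤ ‖z‖) :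
    (min 1 (dist z s)) ^ (-al) * (1 + ‖z‖) ^ (-be) ≤ k1 al v + k2 be v0 := by
  have hvpos : 0 < |v| := abs_pos.mpr hvne
  have hdec0 : 0 ≤ (1 + ‖z‖) ^ (-be) := Real.rpow_nonneg (by positivity) _
  by_cases h1 : |v| ≤ 1
  · have hA : (min 1 (dist z s)) ^ (-al) ≤ |v| ^ (-al) := by
      apply Real.rpow_le_rpow_of_nonpos hvpos _ (by linarith)
      exact le_min h1 hv
    have hB : (min 1 (dist z s)) ^ (-al) * (1 + ‖z‖) ^ (-be) ≤ |v| ^ (-al) * 1 :=
      mul_le_mul hA (decay_le_one hbe z) hdec0 (Real.rpow_nonneg (abs_nonneg v) _)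
    rw [k1_eq hvne h1]
    have := k2_nonneg be v0
    linarith
  · have h1' : 1 < |v| := not_le.mp h1
    have hmin : min 1 (dist z s) = 1 := min_eq_left (by linarith)
    rw [hmin, Real.one_rpow, one_mul]
    have := k1_nonneg al v
    have := decay_le_k2 hbe z hv0
    linarith

/-- pointwise bound of `psi0` by shifted kernels. -/
theorem psi0_le_kernels (S : Finset ℂ) {al be : ℝ} (hal : 0 ≤ al) (hbe : 0 ≤ be) (z : ℂ)
    (v : ℂ → ℝ) (v0 : ℝ) (hv : ∀ s ∈ S, |v s| ≤ dist z s) (hvne : ∀ s ∈ S, v s ≠ 0)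
    (hv0 : |v0| ≤ ‖z‖) :
    psi0 S al be z ≤
      sepConst S al ^ S.card * (k2 be v0 + ∑ s ∈ S, (k1 al (v s) + k2 be v0)) := by
  unfold psi0
  have hdec0 : 0 ≤ (1 + ‖z‖) ^ (-be) := Real.rpow_nonneg (by positivity) _
  have hD : 0 ≤ sepConst S al ^ S.card := by
    have := one_le_sepConst S al
    positivity
  calc (∏ s ∈ S, (min 1 (dist z s)) ^ (-al)) * (1 + ‖z‖) ^ (-be)
      ≤ (sepConst S al ^ S.card * (1 + ∑ s ∈ S, (min 1 (dist z s)) ^ (-al))) * (1 + ‖z‖) ^ (-be) :=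
        mul_le_mul_of_nonneg_right (prod_factor_le S hal z) hdec0
    _ = sepConst S al ^ S.card * ((1 + ‖z‖) ^ (-be) +
          ∑ s ∈ S, (min 1 (dist z s)) ^ (-al) * (1 + ‖z‖) ^ (-be)) := by
        rw [← Finset.sum_mul]; ring
    _ ≤ sepConst S al ^ S.card * (k2 be v0 + ∑ s ∈ S, (k1 al (v s) + k2 be v0)) := by
        apply mul_le_mul_of_nonneg_left _ hD
        apply add_le_add (decay_le_k2 hbe z hv0)
        apply Finset.sum_le_sum
        intro s hs
        exact factor_mul_decay_le hal hbe z s (hv s hs) (hvne s hs) hv0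

/-- projection parameter estimate along a segment -/
theorem abs_proj_le (a b s : ℂ) (t : ℝ) (hab : a ≠ b) :
    |t * ‖b - a‖ - ((s - a) * (starRingEnd ℂ) (b - a)).re / ‖b - a‖| ≤
      dist (a + t * (b - a)) s := by
  have hL : 0 < ‖b - a‖ := norm_pos_iff.mpr (sub_ne_zero.mpr (Ne.symm hab))
  have h1 : ((a + t * (b - a) - s) * (starRingEnd ℂ) (b - a)).re =
      t * ‖b - a‖ ^ 2 - ((s - a) * (starRingEnd ℂ) (b - a)).re := by
    have : (a + t * (b - a) - s) * (starRingEnd ℂ) (b - a) =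
        t * ((b - a) * (starRingEnd ℂ) (b - a)) - (s - a) * (starRingEnd ℂ) (b - a) := by ring
    rw [this, Complex.mul_conj, Complex.sub_re]
    congr 1
    rw [← Complex.ofReal_mul, Complex.ofReal_re, Complex.normSq_eq_norm_sq]
  have h2 : |((a + t * (b - a) - s) * (starRingEnd ℂ) (b - a)).re| ≤
      ‖a + t * (b - a) - s‖ * ‖b - a‖ := by
    calc |((a + t * (b - a) - s) * (starRingEnd ℂ) (b - a)).re|
        ≤ ‖(a + t * (b - a) - s) * (starRingEnd ℂ) (b - a)‖ := Complex.abs_re_le_norm _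
      _ = ‖a + t * (b - a) - s‖ * ‖b - a‖ := by rw [norm_mul, Complex.norm_conj]
  rw [dist_eq_norm]
  have h3 : t * ‖b - a‖ - ((s - a) * (starRingEnd ℂ) (b - a)).re / ‖b - a‖ =
      ((a + t * (b - a) - s) * (starRingEnd ℂ) (b - a)).re / ‖b - a‖ := by
    rw [h1]; field_simp
  rw [h3, abs_div, abs_of_pos hL, div_le_iff₀ hL]
  exact h2

/-- the shifted rescaled kernel: integrable with total integral independent of the shift. -/
theorem integrable_comp_line {k : ℝ → ℝ} (hk : Integrable k) {L : ℝ} (hL : 0 < L) (u : ℝ) :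
    Integrable (fun t : ℝ => k (t * L - u)) :=
  (hk.comp_sub_right u).comp_mul_right' hL.ne'

theorem integral_comp_line (k : ℝ → ℝ) {L : ℝ} (hL : 0 < L) (u : ℝ) :
    ∫ t : ℝ, k (t * L - u) = L⁻¹ * ∫ x, k x := by
  have h1 := Measure.integral_comp_mul_right (fun x => k (x - u)) L
  rw [h1, integral_sub_right_eq_self k u, abs_of_pos (inv_pos.mpr hL), smul_eq_mul]

/-- The constant of the segment bound. -/
noncomputable def segConst (S : Finset ℂ) (al be : ℝ) : ℝ :=
  sepConst S al ^ S.card * ((∫ x, k2 be x) + ∑ _s ∈ S, ((∫ x, k1 al x) + ∫ x, k2 be x))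

theorem segConst_nonneg (S : Finset ℂ) (al be : ℝ) : 0 ≤ segConst S al be := by
  unfold segConst
  have h1 : 0 ≤ ∫ x, k1 al x := integral_nonneg (k1_nonneg al)
  have h2 : 0 ≤ ∫ x, k2 be x := integral_nonneg (k2_nonneg be)
  have h3 := one_le_sepConst S al
  have h4 : 0 ≤ ∑ _s ∈ S, ((∫ x, k1 al x) + ∫ x, k2 be x) :=
    Finset.sum_nonneg (fun _ _ => by linarith)
  positivity

/-- the dominating function along the line through `a`, `b`. -/
noncomputable def lineDom (S : Finset ℂ) (al be : ℝ) (a b : ℂ) (t : ℝ) : ℝ :=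
  sepConst S al ^ S.card *
    (k2 be (t * ‖b - a‖ - ((0 - a) * (starRingEnd ℂ) (b - a)).re / ‖b - a‖) +
      ∑ s ∈ S, (k1 al (t * ‖b - a‖ - ((s - a) * (starRingEnd ℂ) (b - a)).re / ‖b - a‖) +
        k2 be (t * ‖b - a‖ - ((0 - a) * (starRingEnd ℂ) (b - a)).re / ‖b - a‖))) * ‖b - a‖

theorem integrable_lineDom (S : Finset ℂ) {al be : ℝ} (hal : al < 1) (hbe : 1 < be) {a b : ℂ}
    (hab : a ≠ b) : Integrable (lineDom S al be a b) := by
  have hL : 0 < ‖b - a‖ := norm_pos_iff.mpr (sub_ne_zero.mpr (Ne.symm hab))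
  unfold lineDom
  apply Integrable.mul_const
  apply Integrable.const_mul
  apply Integrable.add (integrable_comp_line (integrable_k2 hbe) hL _)
  apply integrable_finsetSum
  intro s _
  exact (integrable_comp_line (integrable_k1 hal) hL _).add
    (integrable_comp_line (integrable_k2 hbe) hL _)

theorem integral_lineDom (S : Finset ℂ) {al be : ℝ} (hal : al < 1) (hbe : 1 < be) {a b : ℂ}
    (hab : a ≠ b) : ∫ t, lineDom S al be a b t = segConst S al be := by
  have hL : 0 < ‖b - a‖ := norm_pos_iff.mpr (sub_ne_zero.mpr (Ne.symm hab))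
  unfold lineDom segConst
  rw [integral_mul_const, integral_const_mul, integral_add
    (integrable_comp_line (integrable_k2 hbe) hL _), integral_finsetSum, integral_comp_line _ hL]
  · have : ∀ s ∈ S, ∫ t : ℝ, (k1 al (t * ‖b - a‖ - ((s - a) * (starRingEnd ℂ) (b - a)).re / ‖b - a‖) +
        k2 be (t * ‖b - a‖ - ((0 - a) * (starRingEnd ℂ) (b - a)).re / ‖b - a‖)) =
        ‖b - a‖⁻¹ * ((∫ x, k1 al x) + ∫ x, k2 be x) := by
      intro s _
      rw [integral_add (integrable_comp_line (integrable_k1 hal) hL _)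
        (integrable_comp_line (integrable_k2 hbe) hL _), integral_comp_line _ hL,
        integral_comp_line _ hL, mul_add]
    rw [Finset.sum_congr rfl this, ← Finset.mul_sum]
    field_simp
  · intro s _
    exact (integrable_comp_line (integrable_k1 hal) hL _).add
      (integrable_comp_line (integrable_k2 hbe) hL _)
  · apply integrable_finsetSum
    intro s _
    exact (integrable_comp_line (integrable_k1 hal) hL _).add
      (integrable_comp_line (integrable_k2 hbe) hL _)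

theorem psi0_line_le_lineDom_ae (S : Finset ℂ) {al be : ℝ} (hal : 0 ≤ al) (hbe : 0 ≤ be) {a b : ℂ}
    (hab : a ≠ b) :
    ∀ᵐ t : ℝ, psi0 S al be (a + t * (b - a)) * ‖b - a‖ ≤ lineDom S al be a b t := by
  have hL : 0 < ‖b - a‖ := norm_pos_iff.mpr (sub_ne_zero.mpr (Ne.symm hab))
  have hcount : ((S.image (fun s : ℂ =>
      ((s - a) * (starRingEnd ℂ) (b - a)).re / ‖b - a‖ / ‖b - a‖) : Finset ℝ) : Set ℝ).Countable :=
    (Finset.finite_toSet _).countable
  filter_upwards [hcount.ae_notMem volume] with t ht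
  unfold lineDom
  apply mul_le_mul_of_nonneg_right _ hL.le
  apply psi0_le_kernels S hal hbe (a + t * (b - a))
    (fun s => t * ‖b - a‖ - ((s - a) * (starRingEnd ℂ) (b - a)).re / ‖b - a‖)
  · intro s _
    exact abs_proj_le a b s t hab
  · intro s hs h0
    apply ht
    rw [Finset.mem_coe, Finset.mem_image]
    refine ⟨s, hs, ?_⟩
    have : ((s - a) * (starRingEnd ℂ) (b - a)).re / ‖b - a‖ = t * ‖b - a‖ := by linarith
    rw [this]
    field_simp
  · have := abs_proj_le a b 0 t hab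
    rwa [dist_zero_right] at this

/-- **(PSI-B)** uniform bound for the integral of `psi0` along any segment. -/
theorem segment_integral_bound (S : Finset ℂ) {al be : ℝ} (hal0 : 0 ≤ al) (hal : al < 1)
    (hbe : 1 < be) (a b : ℂ) :
    IntervalIntegrable (fun t : ℝ => psi0 S al be (a + t * (b - a)) * ‖b - a‖) volume 0 1 ∧
      ∫ t in (0:ℝ)..1, psi0 S al be (a + t * (b - a)) * ‖b - a‖ ≤ segConst S al be := by
  by_cases hab : a = b
  · subst hab
    simp only [sub_self, norm_zero, mul_zero]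
    refine ⟨intervalIntegrable_const, ?_⟩
    simp [segConst_nonneg]
  · have hmeas : Measurable (fun t : ℝ => psi0 S al be (a + t * (b - a)) * ‖b - a‖) := by
      apply Measurable.mul_const
      apply (measurable_psi0 S al be).comp
      fun_prop
    have hdom := integrable_lineDom S hal hbe hab
    have hae := psi0_line_le_lineDom_ae S hal0 (by linarith : (0:ℝ) ≤ be) hab
    have hint : Integrable (fun t : ℝ => psi0 S al be (a + t * (b - a)) * ‖b - a‖)
        (volume.restrict (Ioc (0:ℝ) 1)) := by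
      apply Integrable.mono' hdom.integrableOn hmeas.aestronglyMeasurable
      apply ae_restrict_of_ae
      filter_upwards [hae] with t ht
      rw [Real.norm_eq_abs, abs_of_nonneg (mul_nonneg (psi0_nonneg _ _ _ _) (norm_nonneg _))]
      exact ht
    have hII : IntervalIntegrable (fun t : ℝ => psi0 S al be (a + t * (b - a)) * ‖b - a‖)
        volume 0 1 := by
      rw [intervalIntegrable_iff_integrableOn_Ioc_of_le zero_le_one]
      exact hint
    refine ⟨hII, ?_⟩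
    rw [intervalIntegral.integral_of_le zero_le_one]
    calc ∫ t in Ioc (0:ℝ) 1, psi0 S al be (a + t * (b - a)) * ‖b - a‖
        ≤ ∫ t in Ioc (0:ℝ) 1, lineDom S al be a b t :=
          integral_mono_ae hint hdom.integrableOn (ae_restrict_of_ae hae)
      _ ≤ ∫ t, lineDom S al be a b t := by
          apply setIntegral_le_integral hdom
          filter_upwards with t
          unfold lineDom
          have h3 := one_le_sepConst S al
          have h4 : 0 ≤ ∑ s ∈ S, (k1 al (t * ‖b - a‖ - ((s - a) * (starRingEnd ℂ) (b - a)).re / ‖b - a‖) +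
              k2 be (t * ‖b - a‖ - ((0 - a) * (starRingEnd ℂ) (b - a)).re / ‖b - a‖)) :=
            Finset.sum_nonneg (fun _ _ => add_nonneg (k1_nonneg _ _) (k2_nonneg _ _))
          have h5 := k2_nonneg be (t * ‖b - a‖ - ((0 - a) * (starRingEnd ℂ) (b - a)).re / ‖b - a‖)
          positivity
      _ = segConst S al be := integral_lineDom S hal hbe hab

/-- Roots of the specialisations of a monic polynomial with polynomial coefficients are
uniformly bounded on compact sets of the parameter. -/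
theorem exists_bound_roots_on_compact (P : Polynomial (Polynomial ℂ)) (hP : P.Monic)
    {K : Set ℂ} (hK : IsCompact K) :
    ∃ B : ℝ, 0 ≤ B ∧ ∀ a ∈ K, ∀ z : ℂ,
      (P.map (Polynomial.evalRingHom a)).IsRoot z → ‖z‖ ≤ B := by
  obtain ⟨C, hC⟩ := hK.exists_bound_of_continuousOn
    (f := fun a : ℂ => ∑ i ∈ Finset.range (P.natDegree + 1), ‖(P.coeff i).eval a‖)
    (by fun_prop)
  refine ⟨|C| + 1, by positivity, ?_⟩
  intro a ha z hz
  have hmonic : (P.map (Polynomial.evalRingHom a)).Monic := hP.map _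
  have hne : P.map (Polynomial.evalRingHom a) ≠ 0 := hmonic.ne_zero
  have h1 := hz.norm_lt_cauchyBound hne
  have h2 : Polynomial.cauchyBound (P.map (Polynomial.evalRingHom a)) ≤ Real.toNNReal |C| + 1 := by
    unfold Polynomial.cauchyBound
    rw [hmonic.leadingCoeff, nnnorm_one, div_one]
    gcongr
    apply Finset.sup_le
    intro i hi
    rw [Finset.mem_range] at hi
    have hi' : i ∈ Finset.range (P.natDegree + 1) := by
      rw [Finset.mem_range]
      have := Polynomial.natDegree_map_le (f := Polynomial.evalRingHom a) (p := P)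
      omega
    have h3 : ‖(P.coeff i).eval a‖ ≤ ∑ i ∈ Finset.range (P.natDegree + 1), ‖(P.coeff i).eval a‖ :=
      Finset.single_le_sum (f := fun i => ‖(P.coeff i).eval a‖) (fun _ _ => norm_nonneg _) hi'
    have h4 := hC a ha
    rw [Real.norm_eq_abs] at h4
    have h5 : ‖(P.coeff i).eval a‖ ≤ |C| := by
      calc ‖(P.coeff i).eval a‖ ≤ ∑ i ∈ Finset.range (P.natDegree + 1), ‖(P.coeff i).eval a‖ := h3
        _ ≤ |∑ i ∈ Finset.range (P.natDegree + 1), ‖(P.coeff i).eval a‖| := le_abs_self _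
        _ ≤ C := h4
        _ ≤ |C| := le_abs_self _
    rw [Polynomial.coeff_map, Polynomial.coe_evalRingHom]
    rw [← NNReal.coe_le_coe, coe_nnnorm, Real.coe_toNNReal _ (abs_nonneg C)]
    exact h5
  have h6 : (‖z‖₊ : ℝ) < ((Real.toNNReal |C| + 1 : NNReal) : ℝ) := by
    exact_mod_cast lt_of_lt_of_le h1 h2
  rw [coe_nnnorm, NNReal.coe_add, Real.coe_toNNReal _ (abs_nonneg C), NNReal.coe_one] at h6
  exact h6.le

/-- from `x^d * ∏ m_s^e ≤ B` to `x ≤ max 1 B * ∏ m_s^(-(e/d))`. -/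
theorem le_of_pow_mul_prod_le {ι : Type*} (S : Finset ι) (m : ι → ℝ) (hm : ∀ s ∈ S, 0 < m s)
    {d : ℕ} (hd : 1 ≤ d) (e : ℕ) {x B : ℝ} (hx : 0 ≤ x)
    (h : x ^ d * ∏ s ∈ S, m s ^ e ≤ B) :
    x ≤ max 1 B * ∏ s ∈ S, m s ^ (-((e:ℝ) / (d:ℝ))) := by
  have hd0 : d ≠ 0 := by omega
  have hdR : (d:ℝ) ≠ 0 := by exact_mod_cast hd0
  have hTpos : 0 < ∏ s ∈ S, m s ^ (-((e:ℝ) / (d:ℝ))) :=
    Finset.prod_pos (fun s hs => Real.rpow_pos_of_pos (hm s hs) _)
  have hTd : (∏ s ∈ S, m s ^ (-((e:ℝ) / (d:ℝ)))) ^ d * ∏ s ∈ S, m s ^ e = 1 := by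
    rw [← Finset.prod_pow, ← Finset.prod_mul_distrib]
    apply Finset.prod_eq_one
    intro s hs
    have hms := hm s hs
    rw [← Real.rpow_natCast (m s ^ _) d, ← Real.rpow_mul hms.le, ← Real.rpow_natCast (m s) e,
      ← Real.rpow_add hms]
    have : -((e:ℝ) / (d:ℝ)) * d + (e : ℝ) = 0 := by
      field_simp; ring
    rw [this, Real.rpow_zero]
  have hprodpos : 0 < ∏ s ∈ S, m s ^ e := Finset.prod_pos (fun s hs => pow_pos (hm s hs) _)
  have hmax : (0:ℝ) < max 1 B := lt_of_lt_of_le zero_lt_one (le_max_left _ _)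
  rw [← pow_le_pow_iff_left₀ hx (by positivity) hd0, mul_pow]
  have h1 : x ^ d * ∏ s ∈ S, m s ^ e ≤
      (max 1 B) ^ d * (∏ s ∈ S, m s ^ (-((e:ℝ) / (d:ℝ)))) ^ d * ∏ s ∈ S, m s ^ e := by
    rw [mul_assoc, hTd, mul_one]
    calc x ^ d * ∏ s ∈ S, m s ^ e ≤ B := h
      _ ≤ max 1 B := le_max_right _ _
      _ ≤ (max 1 B) ^ d := le_self_pow₀ (le_max_left _ _) hd0
  exact le_of_mul_le_mul_right h1 hprodpos

/-- **(PSI-A)** abstract form of the pole bound: if `w ^ d * ∏ (a - s) ^ (d - 1)` is a root of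
the specialisation at `a` of a monic `P`, and `w ^ d * a ^ (d + 1)` is a root of the
specialisation at `a⁻¹` of a monic `R`, then `‖w‖ ≤ C * psi0 S (1 - 1/d) (1 + 1/d) a`. -/
theorem exists_root_bound (S : Finset ℂ) {d : ℕ} (hd : 1 ≤ d) (P R : Polynomial (Polynomial ℂ))
    (hP : P.Monic) (hR : R.Monic) :
    ∃ C : ℝ, 0 ≤ C ∧ ∀ a : ℂ, a ∉ S → ∀ w : ℂ,
      (P.map (Polynomial.evalRingHom a)).IsRoot (w ^ d * ∏ s ∈ S, (a - s) ^ (d - 1)) →
      (a ≠ 0 → (R.map (Polynomial.evalRingHom a⁻¹)).IsRoot (w ^ d * a ^ (d + 1))) →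
      ‖w‖ ≤ C * psi0 S (1 - 1 / (d:ℝ)) (1 + 1 / (d:ℝ)) a := by
  obtain ⟨B1, hB1, h1⟩ := exists_bound_roots_on_compact P hP (isCompact_closedBall (0:ℂ) 2)
  obtain ⟨B2, hB2, h2⟩ := exists_bound_roots_on_compact R hR (isCompact_closedBall (0:ℂ) (1/2))
  have hd0 : d ≠ 0 := by omega
  have hdR : (0:ℝ) < (d:ℝ) := by exact_mod_cast (by omega : 0 < d)
  have hd1 : (1:ℝ) ≤ (d:ℝ) := by exact_mod_cast hd
  have hal : (0:ℝ) ≤ 1 - 1 / (d:ℝ) := by
    rw [sub_nonneg, div_le_one hdR]; exact hd1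
  have hbe : (0:ℝ) < 1 + 1 / (d:ℝ) := by positivity
  have hm1 : (0:ℝ) < max 1 B1 := lt_of_lt_of_le zero_lt_one (le_max_left _ _)
  have hm2 : (0:ℝ) < max 1 B2 := lt_of_lt_of_le zero_lt_one (le_max_left _ _)
  refine ⟨max 1 B1 * 3 ^ (1 + 1 / (d:ℝ)) + max 1 B2 * 2 ^ (1 + 1 / (d:ℝ)), by positivity, ?_⟩
  intro a ha w hw1 hw2
  have hmpos : ∀ s ∈ S, 0 < min 1 (dist a s) := by
    intro s hs
    have : a ≠ s := fun h => ha (h ▸ hs)
    have := dist_pos.mpr this
    positivity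
  have hTpos : 0 < ∏ s ∈ S, (min 1 (dist a s)) ^ (-(1 - 1 / (d:ℝ))) :=
    Finset.prod_pos (fun s hs => Real.rpow_pos_of_pos (hmpos s hs) _)
  have hT1 : 1 ≤ ∏ s ∈ S, (min 1 (dist a s)) ^ (-(1 - 1 / (d:ℝ))) := by
    calc (1:ℝ) = ∏ _s ∈ S, (1:ℝ) := by simp
      _ ≤ _ := Finset.prod_le_prod (fun _ _ => zero_le_one) (fun s hs =>
          Real.one_le_rpow_of_pos_of_le_one_of_nonpos (hmpos s hs) (min_le_left _ _)
            (by linarith))
  have hdecpos : 0 < (1 + ‖a‖) ^ (-(1 + 1 / (d:ℝ))) := Real.rpow_pos_of_pos (by positivity) _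
  have hpsi : 0 ≤ psi0 S (1 - 1 / (d:ℝ)) (1 + 1 / (d:ℝ)) a := by
    unfold psi0; positivity
  have h3pos : (0:ℝ) < 3 ^ (1 + 1 / (d:ℝ)) := by positivity
  have h2pos : (0:ℝ) < 2 ^ (1 + 1 / (d:ℝ)) := by positivity
  by_cases hnorm : ‖a‖ ≤ 2
  · -- bounded region
    have hroot := h1 a (by rw [Metric.mem_closedBall, dist_zero_right]; exact hnorm) _ hw1
    rw [norm_mul, norm_pow, norm_prod] at hroot
    have hle : ‖w‖ ^ d * ∏ s ∈ S, (min 1 (dist a s)) ^ (d - 1) ≤ B1 := by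
      refine le_trans ?_ hroot
      apply mul_le_mul_of_nonneg_left _ (by positivity)
      apply Finset.prod_le_prod
      · intro s hs; exact pow_nonneg (hmpos s hs).le _
      · intro s hs
        rw [norm_pow, ← dist_eq_norm]
        exact pow_le_pow_left₀ (hmpos s hs).le (min_le_right _ _) _
    have hw := le_of_pow_mul_prod_le S (fun s => min 1 (dist a s)) hmpos hd (d - 1)
      (norm_nonneg w) hle
    have hexp : -(((d - 1 : ℕ) : ℝ) / (d:ℝ)) = -(1 - 1 / (d:ℝ)) := by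
      rw [Nat.cast_sub hd, Nat.cast_one]; field_simp
    rw [hexp] at hw
    have hdec : (3:ℝ) ^ (-(1 + 1 / (d:ℝ))) ≤ (1 + ‖a‖) ^ (-(1 + 1 / (d:ℝ))) := by
      apply Real.rpow_le_rpow_of_nonpos (by positivity) (by linarith) (by linarith)
    have h3 : (3:ℝ) ^ (1 + 1 / (d:ℝ)) * (3:ℝ) ^ (-(1 + 1 / (d:ℝ))) = 1 := by
      rw [← Real.rpow_add (by norm_num)]; simp
    have hTle : ∏ s ∈ S, (min 1 (dist a s)) ^ (-(1 - 1 / (d:ℝ))) ≤
        3 ^ (1 + 1 / (d:ℝ)) * psi0 S (1 - 1 / (d:ℝ)) (1 + 1 / (d:ℝ)) a := by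
      unfold psi0
      calc ∏ s ∈ S, (min 1 (dist a s)) ^ (-(1 - 1 / (d:ℝ)))
          = (∏ s ∈ S, (min 1 (dist a s)) ^ (-(1 - 1 / (d:ℝ)))) *
              ((3:ℝ) ^ (1 + 1 / (d:ℝ)) * (3:ℝ) ^ (-(1 + 1 / (d:ℝ)))) := by rw [h3, mul_one]
        _ ≤ (∏ s ∈ S, (min 1 (dist a s)) ^ (-(1 - 1 / (d:ℝ)))) *
              ((3:ℝ) ^ (1 + 1 / (d:ℝ)) * (1 + ‖a‖) ^ (-(1 + 1 / (d:ℝ)))) := by
            apply mul_le_mul_of_nonneg_left _ hTpos.le
            exact mul_le_mul_of_nonneg_left hdec h3pos.le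
        _ = _ := by ring
    calc ‖w‖ ≤ max 1 B1 * ∏ s ∈ S, (min 1 (dist a s)) ^ (-(1 - 1 / (d:ℝ))) := hw
      _ ≤ max 1 B1 * (3 ^ (1 + 1 / (d:ℝ)) * psi0 S (1 - 1 / (d:ℝ)) (1 + 1 / (d:ℝ)) a) :=
          mul_le_mul_of_nonneg_left hTle hm1.le
      _ ≤ (max 1 B1 * 3 ^ (1 + 1 / (d:ℝ)) + max 1 B2 * 2 ^ (1 + 1 / (d:ℝ))) *
            psi0 S (1 - 1 / (d:ℝ)) (1 + 1 / (d:ℝ)) a := by
          have : 0 ≤ max 1 B2 * 2 ^ (1 + 1 / (d:ℝ)) * psi0 S (1 - 1 / (d:ℝ)) (1 + 1 / (d:ℝ)) a := by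
            positivity
          nlinarith
  · -- neighbourhood of infinity
    have hnorm' : 2 < ‖a‖ := not_le.mp hnorm
    have ha0 : a ≠ 0 := by
      intro h; rw [h, norm_zero] at hnorm'; linarith
    have hapos : 0 < ‖a‖ := by linarith
    have hinv : a⁻¹ ∈ Metric.closedBall (0:ℂ) (1/2) := by
      rw [Metric.mem_closedBall, dist_zero_right, norm_inv, inv_le_comm₀ hapos (by norm_num)]
      norm_num; exact hnorm'.le
    have hroot := h2 a⁻¹ hinv _ (hw2 ha0)
    rw [norm_mul, norm_pow, norm_pow] at hroot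
    have hle : ‖w‖ ^ d * ∏ _s ∈ ({()} : Finset Unit), ‖a‖ ^ (d + 1) ≤ B2 := by
      rw [Finset.prod_singleton]; exact hroot
    have hw := le_of_pow_mul_prod_le ({()} : Finset Unit) (fun _ => ‖a‖) (fun _ _ => hapos) hd
      (d + 1) (norm_nonneg w) hle
    rw [Finset.prod_singleton] at hw
    have hexp : -(((d + 1 : ℕ) : ℝ) / (d:ℝ)) = -(1 + 1 / (d:ℝ)) := by
      rw [Nat.cast_add, Nat.cast_one]; field_simp
    rw [hexp] at hw
    have hdec : (2 * ‖a‖) ^ (-(1 + 1 / (d:ℝ))) ≤ (1 + ‖a‖) ^ (-(1 + 1 / (d:ℝ))) := by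
      apply Real.rpow_le_rpow_of_nonpos (by positivity) (by linarith) (by linarith)
    have h2' : (2:ℝ) ^ (1 + 1 / (d:ℝ)) * (2:ℝ) ^ (-(1 + 1 / (d:ℝ))) = 1 := by
      rw [← Real.rpow_add (by norm_num)]; simp
    have hale : ‖a‖ ^ (-(1 + 1 / (d:ℝ))) ≤
        2 ^ (1 + 1 / (d:ℝ)) * psi0 S (1 - 1 / (d:ℝ)) (1 + 1 / (d:ℝ)) a := by
      unfold psi0
      calc ‖a‖ ^ (-(1 + 1 / (d:ℝ)))
          = (2:ℝ) ^ (1 + 1 / (d:ℝ)) * ((2:ℝ) ^ (-(1 + 1 / (d:ℝ))) * ‖a‖ ^ (-(1 + 1 / (d:ℝ)))) := by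
            rw [← mul_assoc, h2', one_mul]
        _ = (2:ℝ) ^ (1 + 1 / (d:ℝ)) * (2 * ‖a‖) ^ (-(1 + 1 / (d:ℝ))) := by
            rw [Real.mul_rpow (by norm_num) hapos.le]
        _ ≤ (2:ℝ) ^ (1 + 1 / (d:ℝ)) * (1 + ‖a‖) ^ (-(1 + 1 / (d:ℝ))) :=
            mul_le_mul_of_nonneg_left hdec h2pos.le
        _ ≤ (2:ℝ) ^ (1 + 1 / (d:ℝ)) * ((∏ s ∈ S, (min 1 (dist a s)) ^ (-(1 - 1 / (d:ℝ)))) *
              (1 + ‖a‖) ^ (-(1 + 1 / (d:ℝ)))) := by
            apply mul_le_mul_of_nonneg_left _ h2pos.le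
            exact le_mul_of_one_le_left hdecpos.le hT1
    calc ‖w‖ ≤ max 1 B2 * ‖a‖ ^ (-(1 + 1 / (d:ℝ))) := hw
      _ ≤ max 1 B2 * (2 ^ (1 + 1 / (d:ℝ)) * psi0 S (1 - 1 / (d:ℝ)) (1 + 1 / (d:ℝ)) a) :=
          mul_le_mul_of_nonneg_left hale hm2.le
      _ ≤ (max 1 B1 * 3 ^ (1 + 1 / (d:ℝ)) + max 1 B2 * 2 ^ (1 + 1 / (d:ℝ))) *
            psi0 S (1 - 1 / (d:ℝ)) (1 + 1 / (d:ℝ)) a := by
          have : 0 ≤ max 1 B1 * 3 ^ (1 + 1 / (d:ℝ)) * psi0 S (1 - 1 / (d:ℝ)) (1 + 1 / (d:ℝ)) a := by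
            positivity
          nlinarith

/-- planar local kernel -/
noncomputable def K1 (al : ℝ) (w : ℂ) : ℝ := (Iic (1:ℝ)).indicator (fun y : ℝ => y ^ (-al)) ‖w‖

theorem K1_nonneg (al : ℝ) (w : ℂ) : 0 ≤ K1 al w := by
  unfold K1
  by_cases h : ‖w‖ ∈ Iic (1:ℝ)
  · rw [Set.indicator_of_mem h]
    exact Real.rpow_nonneg (norm_nonneg w) _
  · rw [Set.indicator_of_notMem h]

theorem integrable_K1 {al : ℝ} (hal : al < 2) : Integrable (K1 al) := by
  unfold K1
  rw [integrable_fun_norm_addHaar (volume : Measure ℂ)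
    (f := (Iic (1:ℝ)).indicator (fun y : ℝ => y ^ (-al)))]
  have hfin : Module.finrank ℝ ℂ = 2 := Complex.finrank_real_complex
  rw [hfin]
  have hU : Ioi (0:ℝ) = Ioc 0 1 ∪ Ioi 1 := (Ioc_union_Ioi_eq_Ioi zero_le_one).symm
  rw [hU]
  apply IntegrableOn.union
  · have h1 : IntegrableOn (fun y : ℝ => y ^ (1 - al)) (Ioc 0 1) := by
      have := @intervalIntegral.intervalIntegrable_rpow' 0 1 (1 - al) (by linarith)
      rwa [intervalIntegrable_iff_integrableOn_Ioc_of_le zero_le_one] at this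
    apply h1.congr_fun _ measurableSet_Ioc
    intro y hy
    simp only [smul_eq_mul]
    rw [Set.indicator_of_mem (show y ∈ Iic (1:ℝ) from hy.2)]
    rw [show (2 - 1 : ℕ) = 1 from rfl, pow_one]
    rw [sub_eq_add_neg, Real.rpow_add hy.1, Real.rpow_one]
  · apply (integrableOn_zero).congr_fun _ measurableSet_Ioi
    intro y hy
    simp only [smul_eq_mul]
    rw [Set.indicator_of_notMem (by simpa using hy), mul_zero]

theorem integrable_K2 {be : ℝ} (hbe : 2 < be) :
    Integrable (fun z : ℂ => (1 + ‖z‖) ^ (-be)) := by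
  apply integrable_one_add_norm (E := ℂ) (μ := volume) (r := be)
  rw [Complex.finrank_real_complex]
  exact_mod_cast hbe

theorem factor_mul_decay_le_K {al be : ℝ} (hbe : 0 ≤ be) (z s : ℂ) :
    (min 1 (dist z s)) ^ (-al) * (1 + ‖z‖) ^ (-be) ≤ K1 al (z - s) + (1 + ‖z‖) ^ (-be) := by
  have hdec0 : 0 ≤ (1 + ‖z‖) ^ (-be) := Real.rpow_nonneg (by positivity) _
  unfold K1
  rw [← dist_eq_norm]
  by_cases h1 : dist z s ≤ 1
  · rw [Set.indicator_of_mem (show dist z s ∈ Iic (1:ℝ) from h1), min_eq_right h1]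
    have h2 : 0 ≤ dist z s ^ (-al) := Real.rpow_nonneg dist_nonneg _
    have h3 := decay_le_one hbe z
    nlinarith
  · have h1' : 1 < dist z s := not_le.mp h1
    rw [Set.indicator_of_notMem (by simpa using h1'), min_eq_left h1'.le, Real.one_rpow, one_mul,
      zero_add]

/-- `psi0` is Lebesgue integrable on the plane for `0 ≤ al < 2 < be`. -/
theorem integrable_psi0 (S : Finset ℂ) {al be : ℝ} (hal0 : 0 ≤ al) (hal : al < 2) (hbe : 2 < be) :
    Integrable (psi0 S al be) := by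
  have hdom : Integrable (fun z : ℂ => sepConst S al ^ S.card *
      ((1 + ‖z‖) ^ (-be) + ∑ s ∈ S, (K1 al (z - s) + (1 + ‖z‖) ^ (-be)))) := by
    apply Integrable.const_mul
    apply Integrable.add (integrable_K2 hbe)
    apply integrable_finsetSum
    intro s _
    exact ((integrable_K1 hal).comp_sub_right s).add (integrable_K2 hbe)
  apply Integrable.mono' hdom (measurable_psi0 S al be).aestronglyMeasurable
  filter_upwards with z
  rw [Real.norm_eq_abs, abs_of_nonneg (psi0_nonneg _ _ _ _)]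
  unfold psi0
  have hdec0 : 0 ≤ (1 + ‖z‖) ^ (-be) := Real.rpow_nonneg (by positivity) _
  have hD : 0 ≤ sepConst S al ^ S.card := by
    have := one_le_sepConst S al
    positivity
  calc (∏ s ∈ S, (min 1 (dist z s)) ^ (-al)) * (1 + ‖z‖) ^ (-be)
      ≤ (sepConst S al ^ S.card * (1 + ∑ s ∈ S, (min 1 (dist z s)) ^ (-al))) * (1 + ‖z‖) ^ (-be) :=
        mul_le_mul_of_nonneg_right (prod_factor_le S hal0 z) hdec0
    _ = sepConst S al ^ S.card * ((1 + ‖z‖) ^ (-be) +
          ∑ s ∈ S, (min 1 (dist z s)) ^ (-al) * (1 + ‖z‖) ^ (-be)) := by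
        rw [← Finset.sum_mul]; ring
    _ ≤ sepConst S al ^ S.card *
          ((1 + ‖z‖) ^ (-be) + ∑ s ∈ S, (K1 al (z - s) + (1 + ‖z‖) ^ (-be))) := by
        apply mul_le_mul_of_nonneg_left _ hD
        apply add_le_add le_rfl
        apply Finset.sum_le_sum
        intro s _
        exact factor_mul_decay_le_K (by linarith) z s

theorem psi0_sq (S : Finset ℂ) (al be : ℝ) (a : ℂ) :
    psi0 S al be a ^ 2 = psi0 S (2 * al) (2 * be) a := by
  unfold psi0
  rw [mul_pow, ← Finset.prod_pow]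
  have h : ∀ x : ℝ, 0 ≤ x → ∀ c : ℝ, (x ^ (-c)) ^ 2 = x ^ (-(2 * c)) := by
    intro x hx c
    rw [← Real.rpow_natCast, ← Real.rpow_mul hx]
    congr 1
    push_cast; ring
  rw [h _ (by positivity) be]
  congr 1
  apply Finset.prod_congr rfl
  intro s _
  exact h _ (by positivity) al

/-- **(PSI-C)** `psi0 ^ 2` is Lebesgue integrable on the plane for `0 ≤ al < 1 < be`. -/
theorem integrable_psi0_sq (S : Finset ℂ) {al be : ℝ} (hal0 : 0 ≤ al) (hal : al < 1)
    (hbe : 1 < be) : Integrable (fun a : ℂ => psi0 S al be a ^ 2) := by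
  have : (fun a : ℂ => psi0 S al be a ^ 2) = psi0 S (2 * al) (2 * be) := by
    funext a; exact psi0_sq S al be a
  rw [this]
  exact integrable_psi0 S (by linarith) (by linarith) (by linarith)

/-- existence form of (PSI-B). -/
theorem exists_segment_integral_bound (S : Finset ℂ) {al be : ℝ} (hal0 : 0 ≤ al) (hal : al < 1)
    (hbe : 1 < be) :
    ∃ M : ℝ, 0 ≤ M ∧ ∀ a b : ℂ,
      IntervalIntegrable (fun t : ℝ => psi0 S al be (a + t * (b - a)) * ‖b - a‖) volume 0 1 ∧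
        ∫ t in (0:ℝ)..1, psi0 S al be (a + t * (b - a)) * ‖b - a‖ ≤ M :=
  ⟨segConst S al be, segConst_nonneg S al be, fun a b => segment_integral_bound S hal0 hal hbe a b⟩

/-- Consumer form of (PSI-B): a complex integrand dominated by `C * psi0` along the segment from
`a` to `b` has a line integral bounded by `C * segConst S al be`, uniformly in `a`, `b`. -/
theorem norm_segment_integral_le (S : Finset ℂ) {al be : ℝ} (hal0 : 0 ≤ al) (hal : al < 1)
    (hbe : 1 < be) (a b : ℂ) {C : ℝ} (hC : 0 ≤ C) (g : ℝ → ℂ)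
    (hg : ∀ t ∈ Ioc (0:ℝ) 1, ‖g t‖ ≤ C * psi0 S al be (a + t * (b - a))) :
    ‖∫ t in (0:ℝ)..1, g t * (b - a)‖ ≤ C * segConst S al be := by
  obtain ⟨hII, hle⟩ := segment_integral_bound S hal0 hal hbe a b
  have h1 : ‖∫ t in (0:ℝ)..1, g t * (b - a)‖ ≤
      ∫ t in (0:ℝ)..1, C * (psi0 S al be (a + t * (b - a)) * ‖b - a‖) := by
    apply intervalIntegral.norm_integral_le_of_norm_le zero_le_one _ (hII.const_mul C)
    filter_upwards with t ht
    rw [norm_mul, ← mul_assoc]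
    exact mul_le_mul_of_nonneg_right (hg t ht) (norm_nonneg _)
  rw [intervalIntegral.integral_const_mul] at h1
  exact le_trans h1 (mul_le_mul_of_nonneg_left hle hC)

/-- `eval₂` form of (PSI-A). -/
theorem exists_root_bound_eval₂ (S : Finset ℂ) {d : ℕ} (hd : 1 ≤ d)
    (P R : Polynomial (Polynomial ℂ)) (hP : P.Monic) (hR : R.Monic) :
    ∃ C : ℝ, 0 ≤ C ∧ ∀ a : ℂ, a ∉ S → ∀ w : ℂ,
      Polynomial.eval₂ (Polynomial.evalRingHom a) (w ^ d * ∏ s ∈ S, (a - s) ^ (d - 1)) P = 0 →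
      (a ≠ 0 → Polynomial.eval₂ (Polynomial.evalRingHom a⁻¹) (w ^ d * a ^ (d + 1)) R = 0) →
      ‖w‖ ≤ C * psi0 S (1 - 1 / (d:ℝ)) (1 + 1 / (d:ℝ)) a := by
  obtain ⟨C, hC, h⟩ := exists_root_bound S hd P R hP hR
  refine ⟨C, hC, fun a ha w h1 h2 => h a ha w ?_ (fun ha0 => ?_)⟩
  · rw [Polynomial.IsRoot.def, Polynomial.eval_map]; exact h1
  · rw [Polynomial.IsRoot.def, Polynomial.eval_map]; exact h2 ha0

end Fermat.Agent.S27.helper6620
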