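/-
S27 (algebraic second track, zeta module): the Euler product of the "zeta function" of a
permutation, in logarithmic-derivative form.

For a permutation `s` of a type `X` such that every power `s ^ m` (`m ≥ 1`) has finitely many
fixed points, let `A s d` be the number of finitely supported `s`-invariant functions
`D : X →₀ ℕ` of total degree `d` and `N s m` the number of fixed points of `s ^ m`.  Then
`d * A s d = ∑ m ∈ Icc 1 d, N s m * A s (d - m)`, i.e.
`X * Z' = Z * ∑_{m ≥ 1} N s m X ^ m` for `Z = ∑ A s d X ^ d`.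

Mathlib only.
-/
import Mathlib

set_option autoImplicit false

namespace Fermat.Agent.S27.helper6875

open Finset Function

variable {X : Type*}

/-- The degree (sum of the values) as an additive map. -/
noncomputable def deg : (X →₀ ℕ) →+ ℕ := Finsupp.liftAddHom (fun _ : X => AddMonoidHom.id ℕ)

theorem deg_apply (D : X →₀ ℕ) : deg D = D.sum (fun _ n => n) := rfl

theorem deg_single (x : X) (n : ℕ) : deg (Finsupp.single x n) = n := by
  simp [deg]

/-- The `s`-invariant effective divisors of degree `d`. -/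
def invDiv (s : Equiv.Perm X) (d : ℕ) : Set (X →₀ ℕ) :=
  {D | (∀ x, D (s x) = D x) ∧ D.sum (fun _ n => n) = d}

/-- The number of `s`-invariant effective divisors of degree `d`. -/
noncomputable def A (s : Equiv.Perm X) (d : ℕ) : ℕ := Nat.card (invDiv s d)

/-- The number of fixed points of `s ^ m`. -/
noncomputable def N (s : Equiv.Perm X) (m : ℕ) : ℕ := Nat.card {x : X // (s ^ m) x = x}

theorem mem_invDiv {s : Equiv.Perm X} {d : ℕ} {D : X →₀ ℕ} :
    D ∈ invDiv s d ↔ (∀ x, D (s x) = D x) ∧ deg D = d := Iff.rfl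

section orbit

variable (s : Equiv.Perm X) (x : X)

/-- The finite orbit of a periodic point, as a finset. -/
noncomputable def orbFin : Finset X := by
  classical
  exact (Finset.range (minimalPeriod s x)).image (fun i => (s ^ i) x)

variable {s x}

theorem pow_apply_eq_iterate (i : ℕ) (z : X) : (s ^ i) z = (⇑s)^[i] z := by
  rw [Equiv.Perm.iterate_eq_pow]

theorem mem_orbFin_iff (hx : x ∈ periodicPts s) {z : X} :
    z ∈ orbFin s x ↔ ∃ i : ℕ, (s ^ i) x = z := by
  classical
  unfold orbFin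
  simp only [Finset.mem_image, Finset.mem_range]
  constructor
  · rintro ⟨i, -, rfl⟩; exact ⟨i, rfl⟩
  · rintro ⟨i, rfl⟩
    refine ⟨i % minimalPeriod s x, Nat.mod_lt _ (minimalPeriod_pos_of_mem_periodicPts hx), ?_⟩
    rw [pow_apply_eq_iterate, pow_apply_eq_iterate, iterate_mod_minimalPeriod_eq]

theorem self_mem_orbFin (hx : x ∈ periodicPts s) : x ∈ orbFin s x :=
  (mem_orbFin_iff hx).2 ⟨0, by simp⟩

theorem apply_mem_orbFin_iff (hx : x ∈ periodicPts s) {z : X} :
    s z ∈ orbFin s x ↔ z ∈ orbFin s x := by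
  rw [mem_orbFin_iff hx, mem_orbFin_iff hx]
  constructor
  · rintro ⟨i, hi⟩
    rcases Nat.eq_zero_or_pos i with rfl | hpos
    · -- x = s z
      refine ⟨minimalPeriod s x - 1, ?_⟩
      apply s.injective
      have hp := minimalPeriod_pos_of_mem_periodicPts hx
      have h1 : s ((s ^ (minimalPeriod s x - 1)) x) = (s ^ minimalPeriod s x) x := by
        rw [← Equiv.Perm.mul_apply, ← pow_succ', Nat.sub_add_cancel hp]
      rw [h1, pow_apply_eq_iterate]
      have := isPeriodicPt_minimalPeriod s x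
      rw [this.eq]
      simpa using hi
    · refine ⟨i - 1, ?_⟩
      apply s.injective
      rw [← Equiv.Perm.mul_apply, ← pow_succ', Nat.sub_add_cancel hpos, hi]
  · rintro ⟨i, rfl⟩
    exact ⟨i + 1, by rw [pow_succ', Equiv.Perm.mul_apply]⟩

theorem card_orbFin : (orbFin s x).card = minimalPeriod s x := by
  classical
  unfold orbFin
  rw [Finset.card_image_of_injOn, Finset.card_range]
  intro i hi j hj hij
  simp only [Finset.coe_range, Set.mem_Iio] at hi hj
  simp only [pow_apply_eq_iterate] at hij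
  exact iterate_injOn_Iio_minimalPeriod hi hj hij

variable (s x)

/-- The indicator function of the orbit of `x`. -/
noncomputable def orbInd : X →₀ ℕ := Finsupp.indicator (orbFin s x) (fun _ _ => 1)

variable {s x}

theorem orbInd_apply (z : X) [Decidable (z ∈ orbFin s x)] :
    orbInd s x z = if z ∈ orbFin s x then 1 else 0 := by
  classical
  unfold orbInd
  rw [Finsupp.indicator_apply]
  split_ifs <;> rfl

theorem orbInd_apply_of_mem {z : X} (hz : z ∈ orbFin s x) : orbInd s x z = 1 := by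
  classical
  rw [orbInd_apply, if_pos hz]

theorem orbInd_apply_of_not_mem {z : X} (hz : z ∉ orbFin s x) : orbInd s x z = 0 := by
  classical
  rw [orbInd_apply, if_neg hz]

theorem orbInd_apply_le_one (z : X) : orbInd s x z ≤ 1 := by
  classical
  rw [orbInd_apply]; split_ifs <;> simp

theorem orbInd_invariant (hx : x ∈ periodicPts s) (z : X) : orbInd s x (s z) = orbInd s x z := by
  classical
  rw [orbInd_apply, orbInd_apply]
  simp only [apply_mem_orbFin_iff hx]

theorem orbInd_self (hx : x ∈ periodicPts s) : orbInd s x x = 1 :=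
  orbInd_apply_of_mem (self_mem_orbFin hx)

theorem support_orbInd_subset : (orbInd s x).support ⊆ orbFin s x :=
  Finsupp.support_indicator_subset _ _

theorem deg_orbInd : deg (orbInd s x) = minimalPeriod s x := by
  classical
  rw [deg_apply, Finsupp.sum_of_support_subset (orbInd s x) support_orbInd_subset _
    (fun _ _ => rfl)]
  rw [← card_orbFin (s := s) (x := x), Finset.card_eq_sum_ones]
  exact Finset.sum_congr rfl (fun z hz => orbInd_apply_of_mem hz)

end orbit

section invariant

variable {s : Equiv.Perm X} {D : X →₀ ℕ}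

theorem apply_pow_of_invariant (hD : ∀ z, D (s z) = D z) (i : ℕ) (z : X) :
    D ((s ^ i) z) = D z := by
  induction i with
  | zero => simp
  | succ i ih => rw [pow_succ', Equiv.Perm.mul_apply, hD, ih]

theorem mem_periodicPts_of_ne_zero (hD : ∀ z, D (s z) = D z) {x : X} (hx : D x ≠ 0) :
    x ∈ periodicPts s := by
  classical
  let f : ℕ → D.support := fun i =>
    ⟨(s ^ i) x, by rw [Finsupp.mem_support_iff, apply_pow_of_invariant hD]; exact hx⟩
  obtain ⟨i, j, hij, hf⟩ := Finite.exists_ne_map_eq_of_infinite f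
  have key : ∀ i j : ℕ, i < j → (s ^ i) x = (s ^ j) x → x ∈ periodicPts s := by
    intro i j hlt h
    have h2 : (s ^ j) x = (s ^ i) ((s ^ (j - i)) x) := by
      rw [← Equiv.Perm.mul_apply, ← pow_add, Nat.add_sub_cancel' hlt.le]
    rw [h2] at h
    have h3 : (s ^ (j - i)) x = x := ((s ^ i).injective h).symm
    refine mk_mem_periodicPts (Nat.sub_pos_of_lt hlt) ?_
    show (⇑s)^[j - i] x = x
    rw [← pow_apply_eq_iterate]; exact h3
  have hf' : (s ^ i) x = (s ^ j) x := congrArg Subtype.val hf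
  rcases lt_or_gt_of_ne hij with h | h
  · exact key i j h hf'
  · exact key j i h hf'.symm

theorem apply_eq_of_mem_orbFin (hD : ∀ z, D (s z) = D z) {x z : X} (hx : x ∈ periodicPts s)
    (hz : z ∈ orbFin s x) : D z = D x := by
  obtain ⟨i, rfl⟩ := (mem_orbFin_iff hx).1 hz
  exact apply_pow_of_invariant hD i x

theorem nsmul_orbInd_le (hD : ∀ z, D (s z) = D z) {x : X} (hx : x ∈ periodicPts s) {k : ℕ}
    (hk : k ≤ D x) : k • orbInd s x ≤ D := by
  classical
  intro z
  rw [Finsupp.smul_apply, smul_eq_mul]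
  by_cases hz : z ∈ orbFin s x
  · rw [orbInd_apply_of_mem hz, mul_one, apply_eq_of_mem_orbFin hD hx hz]; exact hk
  · rw [orbInd_apply_of_not_mem hz, mul_zero]; exact Nat.zero_le _

theorem deg_sub_nsmul_orbInd (hD : ∀ z, D (s z) = D z) {x : X} (hx : x ∈ periodicPts s) {k : ℕ}
    (hk : k ≤ D x) : deg (D - k • orbInd s x) + k * minimalPeriod s x = deg D := by
  have h := tsub_add_cancel_of_le (nsmul_orbInd_le hD hx hk)
  have h2 := congrArg deg h
  rw [map_add, map_nsmul, deg_orbInd, smul_eq_mul] at h2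
  exact h2

theorem invariant_sub_nsmul_orbInd (hD : ∀ z, D (s z) = D z) {x : X} (hx : x ∈ periodicPts s)
    (k : ℕ) (z : X) : (D - k • orbInd s x) (s z) = (D - k • orbInd s x) z := by
  simp only [Finsupp.coe_tsub, Pi.sub_apply, Finsupp.smul_apply, hD, orbInd_invariant hx]

theorem invariant_add_nsmul_orbInd (hD : ∀ z, D (s z) = D z) {x : X} (hx : x ∈ periodicPts s)
    (k : ℕ) (z : X) : (D + k • orbInd s x) (s z) = (D + k • orbInd s x) z := by
  simp only [Finsupp.coe_add, Pi.add_apply, Finsupp.smul_apply, hD, orbInd_invariant hx]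

/-- A point of the support of an invariant divisor of degree `d` has period at most `d`. -/
theorem minimalPeriod_mul_apply_le (hD : ∀ z, D (s z) = D z) {x : X} (hx : D x ≠ 0) :
    minimalPeriod s x * D x ≤ deg D := by
  have hp := mem_periodicPts_of_ne_zero hD hx
  have h := deg_sub_nsmul_orbInd hD hp (le_refl (D x))
  rw [mul_comm]
  omega

theorem pow_factorial_apply_of_ne_zero (hD : ∀ z, D (s z) = D z) {x : X} (hx : D x ≠ 0) :
    (s ^ (deg D).factorial) x = x := by
  have hp := mem_periodicPts_of_ne_zero hD hx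
  have hpos := minimalPeriod_pos_of_mem_periodicPts hp
  have hle : minimalPeriod s x ≤ deg D := by
    have h := minimalPeriod_mul_apply_le hD hx
    have h1 : 1 ≤ D x := Nat.one_le_iff_ne_zero.2 hx
    calc minimalPeriod s x = minimalPeriod s x * 1 := (mul_one _).symm
      _ ≤ minimalPeriod s x * D x := Nat.mul_le_mul_left _ h1
      _ ≤ deg D := h
  have hdvd : minimalPeriod s x ∣ (deg D).factorial := Nat.dvd_factorial hpos hle
  rw [pow_apply_eq_iterate]
  exact ((isPeriodicPt_minimalPeriod s x).trans_dvd hdvd).eq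

theorem apply_le_deg (hD : ∀ z, D (s z) = D z) (x : X) : D x ≤ deg D := by
  by_cases hx : D x = 0
  · rw [hx]; exact Nat.zero_le _
  · have hp := mem_periodicPts_of_ne_zero hD hx
    have hpos := minimalPeriod_pos_of_mem_periodicPts hp
    have h := minimalPeriod_mul_apply_le hD hx
    calc D x = 1 * D x := (one_mul _).symm
      _ ≤ minimalPeriod s x * D x := Nat.mul_le_mul_right _ hpos
      _ ≤ deg D := h

end invariant

section finiteness

variable (s : Equiv.Perm X)

theorem invDiv_finite (hfin : ∀ m : ℕ, 1 ≤ m → {x : X | (s ^ m) x = x}.Finite) (d : ℕ) :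
    (invDiv s d).Finite := by
  classical
  have hP := hfin d.factorial (Nat.factorial_pos d)
  refine Set.Finite.subset (Finset.finite_toSet (hP.toFinset.finsupp (fun _ => Finset.range (d + 1)))) ?_
  rintro D ⟨hD, hdeg⟩
  have hdeg' : deg D = d := hdeg
  simp only [Finset.mem_coe, Finset.mem_finsupp_iff, Finset.mem_range]
  refine ⟨fun x hx => ?_, fun x _ => ?_⟩
  · rw [Set.Finite.mem_toFinset]
    show (s ^ d.factorial) x = x
    have := pow_factorial_apply_of_ne_zero hD (Finsupp.mem_support_iff.1 hx)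
    rwa [hdeg'] at this
  · have := apply_le_deg hD x
    omega

theorem invDiv_zero : invDiv s 0 = {0} := by
  ext D
  simp only [Set.mem_singleton_iff]
  constructor
  · rintro ⟨hD, hdeg⟩
    ext x
    have h := apply_le_deg hD x
    have hdeg' : deg D = 0 := hdeg
    rw [hdeg'] at h
    simpa using h
  · rintro rfl
    exact ⟨fun _ => rfl, by simp⟩

theorem A_zero : A s 0 = 1 := by
  unfold A
  rw [invDiv_zero]
  simp

end finiteness

section count

variable (s : Equiv.Perm X) (d : ℕ)

/-- Triples `(D, x, k)` with `D` invariant of degree `d` and `1 ≤ k ≤ D x`. -/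
def LT : Set ((X →₀ ℕ) × X × ℕ) :=
  {t | t.1 ∈ invDiv s d ∧ 1 ≤ t.2.2 ∧ t.2.2 ≤ t.1 t.2.1}

/-- Triples `(m, y, D')` with `1 ≤ m ≤ d`, `y` fixed by `s ^ m`, `D'` invariant of degree
`d - m`. -/
def RT : Set (ℕ × X × (X →₀ ℕ)) :=
  {t | 1 ≤ t.1 ∧ t.1 ≤ d ∧ (s ^ t.1) t.2.1 = t.2.1 ∧ t.2.2 ∈ invDiv s (d - t.1)}

variable {s d}

theorem toR_mem {D : X →₀ ℕ} {x : X} {k : ℕ} (h : (D, x, k) ∈ LT s d) :
    (k * minimalPeriod s x, x, D - k • orbInd s x) ∈ RT s d := by
  have hD : ∀ y, D (s y) = D y := h.1.1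
  have hdeg' : deg D = d := h.1.2
  have hk1 : 1 ≤ k := h.2.1
  have hk2 : k ≤ D x := h.2.2
  have hx : D x ≠ 0 := by omega
  have hp := mem_periodicPts_of_ne_zero hD hx
  have hpos := minimalPeriod_pos_of_mem_periodicPts hp
  have hsum := deg_sub_nsmul_orbInd hD hp hk2
  have hkp : 1 ≤ k * minimalPeriod s x := Nat.mul_pos hk1 hpos
  have hle : k * minimalPeriod s x ≤ d := by omega
  refine ⟨hkp, hle, ?_, ?_, ?_⟩
  · show (s ^ (k * minimalPeriod s x)) x = x
    rw [pow_apply_eq_iterate]
    exact ((isPeriodicPt_minimalPeriod s x).trans_dvd (Dvd.intro_left k rfl)).eq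
  · exact invariant_sub_nsmul_orbInd hD hp k
  · show deg (D - k • orbInd s x) = d - k * minimalPeriod s x
    omega

theorem toL_mem {m : ℕ} {y : X} {D' : X →₀ ℕ} (h : (m, y, D') ∈ RT s d) :
    (D' + (m / minimalPeriod s y) • orbInd s y, y, m / minimalPeriod s y) ∈ LT s d := by
  obtain ⟨hm1, hmd, hfix, hD', hdeg⟩ := h
  simp only at hm1 hmd hfix hD' hdeg
  have hdeg' : deg D' = d - m := hdeg
  have hper : IsPeriodicPt s m y := by
    show (⇑s)^[m] y = y
    rw [← pow_apply_eq_iterate]; exact hfix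
  have hp : y ∈ periodicPts s := mk_mem_periodicPts hm1 hper
  have hpos := minimalPeriod_pos_of_mem_periodicPts hp
  have hdvd : minimalPeriod s y ∣ m := hper.minimalPeriod_dvd
  have hk1 : 1 ≤ m / minimalPeriod s y := Nat.div_pos (Nat.le_of_dvd hm1 hdvd) hpos
  have hkm : m / minimalPeriod s y * minimalPeriod s y = m := Nat.div_mul_cancel hdvd
  refine ⟨⟨invariant_add_nsmul_orbInd hD' hp _, ?_⟩, hk1, ?_⟩
  · show deg (D' + (m / minimalPeriod s y) • orbInd s y) = d
    rw [map_add, map_nsmul, deg_orbInd, smul_eq_mul, hkm, hdeg']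
    omega
  · show m / minimalPeriod s y ≤ (D' + (m / minimalPeriod s y) • orbInd s y) y
    rw [Finsupp.add_apply, Finsupp.smul_apply, orbInd_self hp, smul_eq_mul, mul_one]
    exact Nat.le_add_left _ _

theorem toL_toR {D : X →₀ ℕ} {x : X} {k : ℕ} (h : (D, x, k) ∈ LT s d) :
    ((D - k • orbInd s x) + (k * minimalPeriod s x / minimalPeriod s x) • orbInd s x, x,
      k * minimalPeriod s x / minimalPeriod s x) = (D, x, k) := by
  have hD : ∀ y, D (s y) = D y := h.1.1
  have hk1 : 1 ≤ k := h.2.1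
  have hk2 : k ≤ D x := h.2.2
  have hx : D x ≠ 0 := by omega
  have hp := mem_periodicPts_of_ne_zero hD hx
  have hpos := minimalPeriod_pos_of_mem_periodicPts hp
  rw [Nat.mul_div_cancel _ hpos, tsub_add_cancel_of_le (nsmul_orbInd_le hD hp hk2)]

theorem toR_toL {m : ℕ} {y : X} {D' : X →₀ ℕ} (h : (m, y, D') ∈ RT s d) :
    (m / minimalPeriod s y * minimalPeriod s y, y,
      (D' + (m / minimalPeriod s y) • orbInd s y) - (m / minimalPeriod s y) • orbInd s y)
      = (m, y, D') := by
  obtain ⟨hm1, hmd, hfix, hD', hdeg⟩ := h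
  simp only at hm1 hfix
  have hper : IsPeriodicPt s m y := by
    show (⇑s)^[m] y = y
    rw [← pow_apply_eq_iterate]; exact hfix
  have hdvd : minimalPeriod s y ∣ m := hper.minimalPeriod_dvd
  rw [Nat.div_mul_cancel hdvd, add_tsub_cancel_right]

variable (s d)

/-- The bijection behind the Euler product. -/
noncomputable def equivLR : LT s d ≃ RT s d where
  toFun t := ⟨(t.1.2.2 * minimalPeriod s t.1.2.1, t.1.2.1, t.1.1 - t.1.2.2 • orbInd s t.1.2.1),
    toR_mem t.2⟩
  invFun t := ⟨(t.1.2.2 + (t.1.1 / minimalPeriod s t.1.2.1) • orbInd s t.1.2.1, t.1.2.1,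
    t.1.1 / minimalPeriod s t.1.2.1), toL_mem t.2⟩
  left_inv t := Subtype.ext (toL_toR t.2)
  right_inv t := Subtype.ext (toR_toL t.2)

theorem card_LT_eq_card_RT : Nat.card (LT s d) = Nat.card (RT s d) :=
  Nat.card_congr (equivLR s d)

/-- The pairs `(x, k)` with `1 ≤ k ≤ D x`, as a finset-indexed type. -/
noncomputable def fibreEquiv (D : X →₀ ℕ) :
    {p : X × ℕ // 1 ≤ p.2 ∧ p.2 ≤ D p.1} ≃ (D.support.sigma fun x => Finset.Icc 1 (D x)) where
  toFun p := ⟨⟨p.1.1, p.1.2⟩, by
    have h1 : 1 ≤ p.1.2 := p.2.1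
    have h2 : p.1.2 ≤ D p.1.1 := p.2.2
    rw [Finset.mem_sigma, Finsupp.mem_support_iff, Finset.mem_Icc]
    refine ⟨?_, h1, h2⟩
    show D p.1.1 ≠ 0
    omega⟩
  invFun q := ⟨(q.1.1, q.1.2), by
    have := q.2
    rw [Finset.mem_sigma, Finset.mem_Icc] at this
    exact this.2⟩
  left_inv _ := rfl
  right_inv _ := rfl

theorem fibre_finite (D : X →₀ ℕ) : Finite {p : X × ℕ // 1 ≤ p.2 ∧ p.2 ≤ D p.1} :=
  Finite.of_equiv _ (fibreEquiv D).symm

theorem card_fibre (D : X →₀ ℕ) :
    Nat.card {p : X × ℕ // 1 ≤ p.2 ∧ p.2 ≤ D p.1} = deg D := by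
  classical
  rw [Nat.card_congr (fibreEquiv D), Nat.card_eq_fintype_card, Fintype.card_coe,
    Finset.card_sigma]
  simp [deg_apply, Finsupp.sum]

theorem card_LT (hfin : ∀ m : ℕ, 1 ≤ m → {x : X | (s ^ m) x = x}.Finite) :
    Nat.card (LT s d) = d * A s d := by
  classical
  have : Finite (invDiv s d) := (invDiv_finite s hfin d).to_subtype
  have := Fintype.ofFinite (invDiv s d)
  have : ∀ D : invDiv s d, Finite {p : X × ℕ // 1 ≤ p.2 ∧ p.2 ≤ D.1 p.1} :=
    fun D => fibre_finite D.1
  have e : LT s d ≃ Σ D : invDiv s d, {p : X × ℕ // 1 ≤ p.2 ∧ p.2 ≤ D.1 p.1} :=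
    { toFun := fun t => ⟨⟨t.1.1, t.2.1⟩, ⟨t.1.2, t.2.2⟩⟩
      invFun := fun q => ⟨(q.1.1, q.2.1), ⟨q.1.2, q.2.2⟩⟩
      left_inv := fun _ => rfl
      right_inv := fun _ => rfl }
  rw [Nat.card_congr e, Nat.card_sigma]
  have h : ∀ D : invDiv s d, Nat.card {p : X × ℕ // 1 ≤ p.2 ∧ p.2 ≤ D.1 p.1} = d := fun D => by
    rw [card_fibre]; exact D.2.2
  simp only [h, Finset.sum_const, Finset.card_univ, smul_eq_mul]
  rw [A, Nat.card_eq_fintype_card, mul_comm]

theorem card_RT (hfin : ∀ m : ℕ, 1 ≤ m → {x : X | (s ^ m) x = x}.Finite) :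
    Nat.card (RT s d) = ∑ m ∈ Finset.Icc 1 d, N s m * A s (d - m) := by
  classical
  have e : RT s d ≃ Σ m : Finset.Icc 1 d, {y : X // (s ^ m.1) y = y} × invDiv s (d - m.1) :=
    { toFun := fun t => ⟨⟨t.1.1, Finset.mem_Icc.2 ⟨t.2.1, t.2.2.1⟩⟩,
        ⟨t.1.2.1, t.2.2.2.1⟩, ⟨t.1.2.2, t.2.2.2.2⟩⟩
      invFun := fun q => ⟨(q.1.1, q.2.1.1, q.2.2.1), (Finset.mem_Icc.1 q.1.2).1,
        (Finset.mem_Icc.1 q.1.2).2, q.2.1.2, q.2.2.2⟩
      left_inv := fun _ => rfl
      right_inv := fun _ => rfl }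
  have : ∀ m : Finset.Icc 1 d, Finite ({y : X // (s ^ m.1) y = y} × invDiv s (d - m.1)) :=
    fun m => by
      have : Finite {y : X // (s ^ m.1) y = y} :=
        (hfin m.1 (Finset.mem_Icc.1 m.2).1).to_subtype
      have : Finite (invDiv s (d - m.1)) := (invDiv_finite s hfin _).to_subtype
      infer_instance
  rw [Nat.card_congr e, Nat.card_sigma]
  simp only [Nat.card_prod]
  exact Finset.sum_coe_sort (Finset.Icc 1 d) (fun m => N s m * A s (d - m))

/-- **Euler product, logarithmic-derivative form, coefficientwise.** -/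
theorem mul_A_eq_sum (hfin : ∀ m : ℕ, 1 ≤ m → {x : X | (s ^ m) x = x}.Finite) :
    d * A s d = ∑ m ∈ Finset.Icc 1 d, N s m * A s (d - m) := by
  rw [← card_LT s d hfin, card_LT_eq_card_RT, card_RT s d hfin]

/-- The same identity, indexed by `range`. -/
theorem mul_A_eq_sum_range (hfin : ∀ m : ℕ, 1 ≤ m → {x : X | (s ^ m) x = x}.Finite) :
    d * A s d = ∑ k ∈ Finset.range d, N s (k + 1) * A s (d - (k + 1)) := by
  rw [mul_A_eq_sum s d hfin, ← Finset.Ico_add_one_right_eq_Icc, Finset.sum_Ico_eq_sum_range]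
  simp only [Nat.add_sub_cancel, Nat.add_comm 1]

end count

section powerSeries

variable (R : Type*) [CommSemiring R] (s : Equiv.Perm X)

/-- The generating series `∑ A s d T ^ d` of the numbers of invariant effective divisors. -/
noncomputable def zetaSeries : PowerSeries R := PowerSeries.mk fun d => (A s d : R)

/-- The generating series `∑_{m ≥ 1} N s m T ^ m` of the numbers of fixed points. -/
noncomputable def fixSeries : PowerSeries R :=
  PowerSeries.mk fun m => if m = 0 then 0 else (N s m : R)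

@[simp] theorem coeff_zetaSeries (d : ℕ) : PowerSeries.coeff d (zetaSeries R s) = (A s d : R) :=
  PowerSeries.coeff_mk _ _

@[simp] theorem coeff_fixSeries (m : ℕ) :
    PowerSeries.coeff m (fixSeries R s) = if m = 0 then 0 else (N s m : R) :=
  PowerSeries.coeff_mk _ _

theorem coeff_fixSeries_succ (m : ℕ) :
    PowerSeries.coeff (m + 1) (fixSeries R s) = (N s (m + 1) : R) := by
  simp

theorem constantCoeff_zetaSeries : PowerSeries.constantCoeff (zetaSeries R s) = 1 := by
  rw [← PowerSeries.coeff_zero_eq_constantCoeff_apply, coeff_zetaSeries, A_zero, Nat.cast_one]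

theorem constantCoeff_fixSeries : PowerSeries.constantCoeff (fixSeries R s) = 0 := by
  rw [← PowerSeries.coeff_zero_eq_constantCoeff_apply, coeff_fixSeries, if_pos rfl]

/-- **Euler product in logarithmic-derivative form**: `T * Z' = Z * ∑_{m ≥ 1} N_m T ^ m`. -/
theorem X_mul_derivative_zetaSeries
    (hfin : ∀ m : ℕ, 1 ≤ m → {x : X | (s ^ m) x = x}.Finite) :
    (PowerSeries.X : PowerSeries R) * PowerSeries.derivative R (zetaSeries R s)
      = zetaSeries R s * fixSeries R s := by
  ext n
  rcases n with _ | n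
  · rw [PowerSeries.coeff_zero_X_mul, PowerSeries.coeff_mul]
    simp
  · rw [PowerSeries.coeff_succ_X_mul, PowerSeries.coeff_derivative, mul_comm (zetaSeries R s),
      PowerSeries.coeff_mul, Finset.Nat.sum_antidiagonal_eq_sum_range_succ_mk,
      Finset.sum_range_succ']
    have h := congrArg (Nat.cast : ℕ → R) (mul_A_eq_sum_range s (n + 1) hfin)
    push_cast at h
    simp only [coeff_zetaSeries, coeff_fixSeries_succ]
    rw [coeff_fixSeries, if_pos rfl, zero_mul, add_zero, mul_comm]
    simp only [Nat.add_sub_add_right]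
    exact h

end powerSeries

section powers

variable (R : Type*) [CommSemiring R] (s : Equiv.Perm X)

theorem N_pow (r m : ℕ) : N (s ^ r) m = N s (r * m) := by
  unfold N
  rw [← pow_mul]

theorem finite_fixed_pow (hfin : ∀ m : ℕ, 1 ≤ m → {x : X | (s ^ m) x = x}.Finite) {r : ℕ}
    (hr : 1 ≤ r) (m : ℕ) (hm : 1 ≤ m) : {x : X | ((s ^ r) ^ m) x = x}.Finite := by
  rw [← pow_mul]
  exact hfin (r * m) (Nat.mul_pos hr hm)

/-- Coefficientwise Euler product for the powers of `s`. -/
theorem mul_A_pow_eq_sum (hfin : ∀ m : ℕ, 1 ≤ m → {x : X | (s ^ m) x = x}.Finite) {r : ℕ}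
    (hr : 1 ≤ r) (d : ℕ) :
    d * A (s ^ r) d = ∑ m ∈ Finset.Icc 1 d, N s (r * m) * A (s ^ r) (d - m) := by
  rw [mul_A_eq_sum (s ^ r) d (finite_fixed_pow s hfin hr)]
  simp only [N_pow]

/-- **Euler product in logarithmic-derivative form for the powers of `s`**:
`T * Z_r' = Z_r * ∑_{m ≥ 1} N_{r m} T ^ m`, with `Z_r` the series of `s ^ r`. -/
theorem X_mul_derivative_zetaSeries_pow
    (hfin : ∀ m : ℕ, 1 ≤ m → {x : X | (s ^ m) x = x}.Finite) {r : ℕ} (hr : 1 ≤ r) :
    (PowerSeries.X : PowerSeries R) * PowerSeries.derivative R (zetaSeries R (s ^ r))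
      = zetaSeries R (s ^ r)
        * PowerSeries.mk (fun m => if m = 0 then 0 else (N s (r * m) : R)) := by
  rw [X_mul_derivative_zetaSeries R (s ^ r) (finite_fixed_pow s hfin hr)]
  congr 1
  ext m
  simp [N_pow]

end powers

/-! ### Adapters

Other shapes of the invariance condition and of the coefficients, for consumers. -/

section adapters

variable (s : Equiv.Perm X) (d : ℕ)

/-- `A s d` unfolded as the cardinality of a subtype. -/
theorem A_eq_card_subtype :
    A s d = Nat.card {D : X →₀ ℕ // (∀ x, D (s x) = D x) ∧ D.sum (fun _ n => n) = d} := rfl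

/-- Invariance under a permutation, stated with `Finsupp.mapDomain`. -/
theorem invariant_iff_mapDomain {M : Type*} [AddCommMonoid M] (D : X →₀ M) :
    (∀ x, D (s x) = D x) ↔ Finsupp.mapDomain s D = D := by
  constructor
  · intro h
    ext y
    obtain ⟨x, rfl⟩ := s.surjective y
    rw [Finsupp.mapDomain_apply s.injective, h]
  · intro h x
    conv_lhs => rw [← h]
    exact Finsupp.mapDomain_apply s.injective D x

/-- `A s d` with the invariance stated through `Finsupp.mapDomain`. -/
theorem A_eq_card_mapDomain :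
    A s d = Nat.card {D : X →₀ ℕ // Finsupp.mapDomain s D = D ∧ D.sum (fun _ n => n) = d} := by
  rw [A_eq_card_subtype]
  exact Nat.card_congr (Equiv.subtypeEquivRight fun D => by rw [invariant_iff_mapDomain])

/-- The `s`-invariant effective divisors of degree `d`, with integer coefficients. -/
def invDivInt : Set (X →₀ ℤ) :=
  {D | (∀ x, 0 ≤ D x) ∧ (∀ x, D (s x) = D x) ∧ D.sum (fun _ n => n) = (d : ℤ)}

theorem natCast_mem_invDivInt {D : X →₀ ℕ} (h : D ∈ invDiv s d) :
    D.mapRange (Nat.cast : ℕ → ℤ) Nat.cast_zero ∈ invDivInt s d := by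
  refine ⟨fun x => ?_, fun x => ?_, ?_⟩
  · rw [Finsupp.mapRange_apply]; exact Int.natCast_nonneg _
  · rw [Finsupp.mapRange_apply, Finsupp.mapRange_apply, h.1 x]
  · rw [Finsupp.sum_mapRange_index (fun _ => rfl), ← h.2, Nat.cast_finsupp_sum]

theorem toNat_mem_invDiv {D : X →₀ ℤ} (h : D ∈ invDivInt s d) :
    D.mapRange Int.toNat Int.toNat_zero ∈ invDiv s d := by
  obtain ⟨h0, hinv, hdeg⟩ := h
  refine ⟨fun x => ?_, ?_⟩
  · rw [Finsupp.mapRange_apply, Finsupp.mapRange_apply, hinv x]
  · have h1 : (((D.mapRange Int.toNat Int.toNat_zero).sum (fun _ n => n) : ℕ) : ℤ) = (d : ℤ) := by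
      rw [Nat.cast_finsupp_sum, Finsupp.sum_mapRange_index (fun _ => rfl), ← hdeg]
      exact Finsupp.sum_congr fun x _ => Int.toNat_of_nonneg (h0 x)
    exact_mod_cast h1

/-- Natural-valued and effective integer-valued invariant divisors correspond. -/
noncomputable def invDivEquivInt : invDiv s d ≃ invDivInt s d where
  toFun D := ⟨_, natCast_mem_invDivInt s d D.2⟩
  invFun D := ⟨_, toNat_mem_invDiv s d D.2⟩
  left_inv D := by
    apply Subtype.ext
    ext x
    simp
  right_inv D := by
    apply Subtype.ext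
    ext x
    simp [Int.toNat_of_nonneg (D.2.1 x)]

/-- `A s d` counted with integer-valued effective divisors (the shape of a `Divisor`). -/
theorem A_eq_card_invDivInt : A s d = Nat.card (invDivInt s d) :=
  Nat.card_congr (invDivEquivInt s d)

/-- The number of fixed points as the cardinality of the fixed-point set. -/
theorem N_eq_ncard (m : ℕ) : N s m = {x : X | (s ^ m) x = x}.ncard := rfl

/-- The number of fixed points, for `s ^ m` written as an iterate. -/
theorem N_eq_card_iterate (m : ℕ) : N s m = Nat.card {x : X // (⇑s)^[m] x = x} := by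
  unfold N
  exact Nat.card_congr (Equiv.subtypeEquivRight fun x => by rw [pow_apply_eq_iterate])

/-- The Euler product with integer coefficients and `N` as a function to `ℤ`: the hypothesis
shape `T * Z_r' = Z_r * ∑_{m ≥ 1} N (r m) T ^ m`, `Z_r (0) = 1`. -/
theorem euler_int (hfin : ∀ m : ℕ, 1 ≤ m → {x : X | (s ^ m) x = x}.Finite) :
    ∀ r : ℕ, 1 ≤ r →
      PowerSeries.constantCoeff (zetaSeries ℤ (s ^ r)) = 1 ∧
      (PowerSeries.X : PowerSeries ℤ) * PowerSeries.derivative ℤ (zetaSeries ℤ (s ^ r))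
        = zetaSeries ℤ (s ^ r)
          * PowerSeries.mk (fun m => if m = 0 then 0 else ((N s (r * m) : ℕ) : ℤ)) :=
  fun r hr => ⟨constantCoeff_zetaSeries ℤ (s ^ r), X_mul_derivative_zetaSeries_pow ℤ s hfin hr⟩

end adapters

end Fermat.Agent.S27.helper6875
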