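import Mathlib
import Fermat.Prelude.Def_AlgebraicCurve_Repartitions
import Fermat.Agent.S24.helper1370_PlaceBasics
import Fermat.Agent.S27.helper1070_Approx

/-!
# S27, algebraic track: the pole-degree bound in any characteristic (helper6882)

`K` any field, `F/K` a field extension, `x : F` with `F` finite over `K(x)`, all places of
degree one.  Then the pole divisor `B = (x)_∞` satisfies `deg B ≤ [F : K(x)]`
(Stichtenoth 1.3.3).  No separability, no integral closure:

* `ord_aeval_of_ord_neg` : at a pole `v` of `x`, `ord_v (p(x)) = deg p * ord_v x`;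
* `exists_int_ord_eq` : every nonzero `φ ∈ K(x)` has one integer `d` with
  `ord_v φ = d * ord_v x` at every pole `v` of `x`;
* `linearIndependent_poleFamily` : functions `y (v, a)` (`v` a pole, `a < -ord_v x`) with
  `ord_v (y (v, a)) = a` and `ord_w (y (v, a)) = -ord_w x` at the other poles are linearly
  independent over `K(x)`;
* `degree_poleDivisor_le` : the bound.
-/

set_option autoImplicit false

open AlgebraicCurve IntermediateField Polynomial

namespace Fermat.Agent.S27.helper6882

open Fermat.Agent.S24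

variable {K F : Type*} [Field K] [Field F] [Algebra K F]

/-- At a pole `v` of `x`, the order of a polynomial expression in `x` is `deg * ord_v x`. -/
theorem ord_aeval_of_ord_neg (v : Place K F) {x : F} (hx : v.ord x < 0) (p : K[X]) (hp : p ≠ 0) :
    aeval x p ≠ 0 ∧ v.ord (aeval x p) = p.natDegree * v.ord x := by
  have hx0 : x ≠ 0 := by
    rintro rfl
    simp at hx
  have hlc : p.coeff p.natDegree ≠ 0 := Polynomial.leadingCoeff_ne_zero.mpr hp
  have hsum : aeval x p = (∑ i ∈ Finset.range p.natDegree, p.coeff i • x ^ i)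
      + p.coeff p.natDegree • x ^ p.natDegree := by
    rw [aeval_eq_sum_range, Finset.sum_range_succ]
  have htop0 : p.coeff p.natDegree • x ^ p.natDegree ≠ 0 := smul_ne_zero hlc (pow_ne_zero _ hx0)
  have htop : v.ord (p.coeff p.natDegree • x ^ p.natDegree) = p.natDegree * v.ord x := by
    rw [helper1370.ord_const_smul v hlc, helper1370.ord_pow]
  by_cases hS : (∑ i ∈ Finset.range p.natDegree, p.coeff i • x ^ i) = 0
  · rw [hsum, hS, zero_add]
    exact ⟨htop0, htop⟩
  · have hlow : (p.natDegree : ℤ) * v.ord x + 1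
        ≤ v.ord (∑ i ∈ Finset.range p.natDegree, p.coeff i • x ^ i) := by
      apply helper1370.ord_sum_ge v _ _ _ _ hS
      intro i hi
      by_cases hc : p.coeff i = 0
      · left
        rw [hc, zero_smul]
      · right
        rw [helper1370.ord_const_smul v hc, helper1370.ord_pow]
        have hi' : (i : ℤ) + 1 ≤ p.natDegree := by exact_mod_cast Finset.mem_range.mp hi
        nlinarith [mul_nonneg (sub_nonneg.2 hi') (by linarith : (0 : ℤ) ≤ -1 - v.ord x)]
    have hlt : v.ord (p.coeff p.natDegree • x ^ p.natDegree)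
        < v.ord (∑ i ∈ Finset.range p.natDegree, p.coeff i • x ^ i) := by
      rw [htop]
      omega
    have h1 := helper1370.ord_add_eq_of_lt' v
      (f := ∑ i ∈ Finset.range p.natDegree, p.coeff i • x ^ i) htop0 hlt
    refine ⟨?_, by rw [hsum, h1, htop]⟩
    rw [hsum]
    intro h0
    have h2 : (∑ i ∈ Finset.range p.natDegree, p.coeff i • x ^ i)
        = -(p.coeff p.natDegree • x ^ p.natDegree) := eq_neg_of_add_eq_zero_left h0
    rw [h2, helper1370.ord_neg] at hlt
    exact lt_irrefl _ hlt

/-- Every nonzero element of `K(x)` has a well-defined "degree": one integer `d` with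
`ord_v φ = d * ord_v x` at every pole `v` of `x`. -/
theorem exists_int_ord_eq {x : F} (φ : K⟮x⟯) (hφ : φ ≠ 0) :
    ∃ d : ℤ, ∀ v : Place K F, v.ord x < 0 → v.ord (φ : F) = d * v.ord x := by
  obtain ⟨r, s, hrs⟩ := (IntermediateField.mem_adjoin_simple_iff K _).1 φ.2
  have hφF : (φ : F) ≠ 0 := fun h => hφ (Subtype.ext h)
  have hr0 : aeval x r ≠ 0 := by
    intro h
    apply hφF
    rw [hrs, h, zero_div]
  have hs0 : aeval x s ≠ 0 := by
    intro h
    apply hφF
    rw [hrs, h, div_zero]
  have hr : r ≠ 0 := by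
    rintro rfl
    simp at hr0
  have hs : s ≠ 0 := by
    rintro rfl
    simp at hs0
  refine ⟨(r.natDegree : ℤ) - s.natDegree, fun v hv => ?_⟩
  rw [hrs, helper1370.ord_div v hr0 hs0, (ord_aeval_of_ord_neg v hv r hr).2,
    (ord_aeval_of_ord_neg v hv s hs).2]
  ring

/-- **Independence over `K(x)`** (Stichtenoth 1.3.3, degree-one places).  `S` a finite set of
poles of `x`; `y v a` with `ord_v (y v a) = a` and `ord_w (y v a) = -ord_w x` for the other
`w ∈ S`.  Then the `y v a`, `v ∈ S`, `a < e v` (where `e v = -ord_v x`) are linearly independent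
over `K(x)`. -/
theorem linearIndependent_poleFamily [DecidableEq (Place K F)] (x : F) (S : Finset (Place K F))
    (hS : ∀ v ∈ S, v.ord x < 0) (e : Place K F → ℕ) (he : ∀ v ∈ S, (e v : ℤ) = -(v.ord x))
    (y : Place K F → ℕ → F) (hy0 : ∀ v a, y v a ≠ 0)
    (hyord : ∀ v a, ∀ w ∈ S, w.ord (y v a) = if w = v then (a : ℤ) else -(w.ord x)) :
    LinearIndependent K⟮x⟯
      (fun i : (S.sigma fun v => Finset.range (e v) : Finset (Σ _ : Place K F, ℕ)) =>
        y i.1.1 i.1.2) := by
  classical
  rw [Fintype.linearIndependent_iff]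
  intro g hg
  by_contra hne
  push Not at hne
  obtain ⟨i0, hi0⟩ := hne
  have hd : ∀ i, ∃ d : ℤ, g i ≠ 0 →
      ∀ v : Place K F, v.ord x < 0 → v.ord (g i : F) = d * v.ord x := by
    intro i
    by_cases h : g i = 0
    · exact ⟨0, fun h' => absurd h h'⟩
    · obtain ⟨d, hd⟩ := exists_int_ord_eq (g i) h
      exact ⟨d, fun _ => hd⟩
  choose d hd using hd
  -- stage 1: maximal `d` among the nonzero coefficients
  obtain ⟨i1, hi1, hmax⟩ := Finset.exists_max_image
    (Finset.univ.filter fun i => g i ≠ 0) d ⟨i0, by simp [hi0]⟩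
  -- stage 2: minimal exponent among those
  obtain ⟨i2, hi2, hmin⟩ := Finset.exists_min_image
    ((Finset.univ.filter fun i => g i ≠ 0).filter fun i => d i = d i1) (fun i => i.1.2)
    ⟨i1, Finset.mem_filter.2 ⟨hi1, rfl⟩⟩
  simp only [Finset.mem_filter, Finset.mem_univ, true_and] at hi1 hi2 hmax hmin
  obtain ⟨hg2, hd2⟩ := hi2
  -- the place `v*` and its data
  have hmem2 := i2.2
  rw [Finset.mem_sigma, Finset.mem_range] at hmem2
  obtain ⟨hv2S, ha2⟩ := hmem2
  have hv2 : i2.1.1.ord x < 0 := hS _ hv2S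
  have he2 : (e i2.1.1 : ℤ) = -(i2.1.1.ord x) := he _ hv2S
  have ha2' : (i2.1.2 : ℤ) < e i2.1.1 := by exact_mod_cast ha2
  -- orders of the terms at `v*`
  have hterm : ∀ i, g i ≠ 0 → i2.1.1.ord ((g i : F) * y i.1.1 i.1.2)
      = d i * i2.1.1.ord x + (if i2.1.1 = i.1.1 then (i.1.2 : ℤ) else -(i2.1.1.ord x)) := by
    intro i hgi
    have hgF : (g i : F) ≠ 0 := fun h => hgi (Subtype.ext h)
    rw [i2.1.1.ord_mul hgF (hy0 _ _), hd i hgi _ hv2, hyord _ _ _ hv2S]
  have hsmul : ∀ i, g i • y i.1.1 i.1.2 = (g i : F) * y i.1.1 i.1.2 := fun i => rfl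
  have hT2 : (g i2 : F) * y i2.1.1 i2.1.2 ≠ 0 :=
    mul_ne_zero (fun h => hg2 (Subtype.ext h)) (hy0 _ _)
  have hord2 : i2.1.1.ord ((g i2 : F) * y i2.1.1 i2.1.2)
      = d i1 * i2.1.1.ord x + (i2.1.2 : ℤ) := by
    rw [hterm i2 hg2, if_pos rfl, hd2]
  -- split the sum
  have hsplit := Finset.add_sum_erase Finset.univ (fun i => g i • y i.1.1 i.1.2)
    (Finset.mem_univ i2)
  rw [hg] at hsplit
  have hrest : (∑ i ∈ Finset.univ.erase i2, g i • y i.1.1 i.1.2)
      = -((g i2 : F) * y i2.1.1 i2.1.2) := by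
    rw [← hsmul i2]
    exact eq_neg_of_add_eq_zero_right hsplit
  have hrest0 : (∑ i ∈ Finset.univ.erase i2, g i • y i.1.1 i.1.2) ≠ 0 := by
    rw [hrest]
    exact neg_ne_zero.mpr hT2
  have hbound := helper1370.ord_sum_ge i2.1.1 (Finset.univ.erase i2)
    (fun i => g i • y i.1.1 i.1.2) (d i1 * i2.1.1.ord x + (i2.1.2 : ℤ) + 1) ?_ hrest0
  · rw [hrest, helper1370.ord_neg, hord2] at hbound
    omega
  · intro i hi
    rw [Finset.mem_erase] at hi
    by_cases hgi : g i = 0
    · left
      rw [hgi, zero_smul]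
    · right
      rw [hsmul i, hterm i hgi]
      have hdi : d i ≤ d i1 := hmax i hgi
      have hmemi := i.2
      rw [Finset.mem_sigma, Finset.mem_range] at hmemi
      by_cases hv : i2.1.1 = i.1.1
      · rw [if_pos hv]
        rcases hdi.lt_or_eq with hlt | heq
        · nlinarith [mul_nonneg (by omega : (0 : ℤ) ≤ e i2.1.1)
            (by omega : (0 : ℤ) ≤ d i1 - d i - 1), Int.natCast_nonneg i.1.2]
        · have hle : i2.1.2 ≤ i.1.2 := hmin i ⟨hgi, heq⟩
          have hne : i.1.2 ≠ i2.1.2 := by
            intro hEq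
            apply hi.1
            apply Subtype.ext
            exact Sigma.ext hv.symm (heq_of_eq hEq)
          rw [heq]
          have : (i2.1.2 : ℤ) < i.1.2 := by
            exact_mod_cast lt_of_le_of_ne hle (Ne.symm hne)
          omega
      · rw [if_neg hv]
        nlinarith [mul_nonneg (by omega : (0 : ℤ) ≤ e i2.1.1)
          (by omega : (0 : ℤ) ≤ d i1 - d i)]

/-- **The pole-degree bound in any characteristic**: if all places have degree one and `F` is
finite over `K(x)`, the pole divisor of `x` has degree at most `[F : K(x)]`. -/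
theorem degree_poleDivisor_le (hdeg : ∀ v : Place K F, v.deg = 1) (x : F)
    [FiniteDimensional K⟮x⟯ F] (B : Divisor K F)
    (hB : ∀ v : Place K F, B v = max 0 (-(v.ord x))) :
    Divisor.degree B ≤ (Module.finrank K⟮x⟯ F : ℤ) := by
  classical
  have hSmem : ∀ v, v ∈ B.support ↔ v.ord x < 0 := by
    intro v
    rw [Finsupp.mem_support_iff, hB v]
    constructor
    · intro h
      by_contra hcon
      exact h (max_eq_left (by omega))
    · intro h
      have := le_max_right 0 (-(v.ord x))
      omega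
  have he : ∀ v ∈ B.support, (((-(v.ord x)).toNat : ℕ) : ℤ) = -(v.ord x) := by
    intro v hv
    have := (hSmem v).1 hv
    omega
  have hy : ∀ (v : Place K F) (a : ℕ), ∃ y : F, y ≠ 0 ∧
      ∀ w ∈ B.support, w.ord y = if w = v then (a : ℤ) else -(w.ord x) :=
    fun v a => helper1070.exists_ord_eq B.support (fun w => if w = v then (a : ℤ) else -(w.ord x))
  choose y hy0 hyord using hy
  have hli := linearIndependent_poleFamily x B.support (fun v hv => (hSmem v).1 hv)
    (fun v => (-(v.ord x)).toNat) he y hy0 hyord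
  have hcard := hli.fintype_card_le_finrank
  rw [Fintype.card_coe, Finset.card_sigma] at hcard
  have hdegB : Divisor.degree B = ∑ v ∈ B.support, (((-(v.ord x)).toNat : ℕ) : ℤ) := by
    rw [Divisor.degree, Finsupp.liftAddHom_apply, Finsupp.sum]
    apply Finset.sum_congr rfl
    intro v hv
    rw [AddMonoidHom.coe_mulRight, hdeg v, he v hv, hB v,
      max_eq_right (by have := (hSmem v).1 hv; omega)]
    simp
  rw [hdegB]
  have : ((∑ v ∈ B.support, (Finset.range (-(v.ord x)).toNat).card : ℕ) : ℤ)
      ≤ (Module.finrank K⟮x⟯ F : ℤ) := by exact_mod_cast hcard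
  simpa using this

end Fermat.Agent.S27.helper6882
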