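import Fermat.Agent.S27.helper6882_PoleDegLe
import Fermat.Agent.S27.helper5747_AlgAsm
import Fermat.Agent.S27.helper1360_CoreClosed

/-!
# S27, algebraic track: the characteristic-`p` core `helper3351.Stmt_CharP`, closed (helper6882)

Wiring of the landed nodes: `helper5747.stmt_CharP_of` (root of the char-`p` core) applied to
`helper6882.stmt_RRD` (Riemann–Roch with duality in any characteristic) and
`helper1360.stmt_Core` (zeta matrix + norm + tower).
-/

set_option autoImplicit false

namespace Fermat.Agent.S27.helper6882

/-- **The characteristic-`p` core**, verbatim and unconditional. -/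
theorem stmt_CharP : Fermat.Agent.S27.helper3351.Stmt_CharP :=
  Fermat.Agent.S27.helper5747.stmt_CharP_of stmt_RRD Fermat.Agent.S27.helper1360.stmt_Core

end Fermat.Agent.S27.helper6882
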