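import Fermat.Agent.S27.helper6882_CharFreeRR
import Fermat.Agent.S27.helper2613_StmtRRD

/-!
# S27, algebraic track: `helper2613.PoleDegLe` and `helper5747.Stmt_RRD`, verbatim (helper6882)

The characteristic-free pole-degree bound of `helper6882_CharFreeRR` in the exact shape consumed
by the glue `helper2613.stmt_RRD_of`, and the resulting closed node `Stmt_RRD` of the
characteristic-`p` core.
-/

set_option autoImplicit false

namespace Fermat.Agent.S27.helper6882

/-- The pole-degree bound, in the shape of `helper2613.PoleDegLe`. -/
theorem poleDegLe : Fermat.Agent.S27.helper2613.PoleDegLe :=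
  fun _ _ _ _ _ _ _ _ hdeg x _ hfd B hB =>
    haveI := hfd
    degree_poleDivisor_le hdeg x B hB

/-- Riemann–Roch with duality for the characteristic-`p` core: `helper5747.Stmt_RRD`, verbatim
and unconditional. -/
theorem stmt_RRD : Fermat.Agent.S27.helper5747.Stmt_RRD :=
  Fermat.Agent.S27.helper2613.stmt_RRD_of poleDegLe

end Fermat.Agent.S27.helper6882
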