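import Fermat.Agent.S27.helper70_Down
import Fermat.Agent.S27.helper8094_Lefschetz

/-!
# S27, module L (Lefschetz transfer): `helper8094.Stmt_Down2` (helper70)

* `isConstExt8094_of_gen_ld` : the generation + linear-disjointness form of a constant field
  extension (the shape of `helper70.exists_countable_model`, of `helper5871.IsConstExt` and of
  the comparison leaf) implies `helper8094.IsConstExt` (injectivity of the multiplication map
  `F0 ⊗[K0] K1 → F1` and every element of `F1` a quotient of two elements of its image).
* `stmt_down2` : `helper8094.Stmt_Down2`, verbatim: every curve `F / K` has countable models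
  `F0 / K0` on which any given finite set of places is nontrivial.
-/

set_option autoImplicit false
set_option linter.unusedSectionVars false
set_option linter.style.haveILetI false

open AlgebraicCurve TensorProduct IntermediateField

namespace Fermat.Agent.S27.helper70

universe u v u' v'

section Adapter

variable {K0 : Type u} {F0 : Type v} {K1 : Type u'} {F1 : Type v'}
  [Field K0] [Field F0] [Field K1] [Field F1]
  [Algebra K0 F0] [Algebra K1 F1] [Algebra K0 K1] [Algebra F0 F1] [Algebra K0 F1]
  [IsScalarTower K0 F0 F1] [IsScalarTower K0 K1 F1]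

/-- Linear disjointness for finite families implies it for arbitrary families. -/
theorem linearIndependent_of_ld
    (ld : ∀ (m : ℕ) (c : Fin m → K1), LinearIndependent K0 c →
      LinearIndependent F0 (fun i => algebraMap K1 F1 (c i)))
    {ι : Type*} (c : ι → K1) (hc : LinearIndependent K0 c) :
    LinearIndependent F0 (fun i => algebraMap K1 F1 (c i)) := by
  rw [linearIndependent_iff_finset_linearIndependent]
  intro s
  have h1 : LinearIndependent K0 (fun k : Fin s.card => c (s.equivFin.symm k)) :=
    hc.comp _ (Subtype.val_injective.comp s.equivFin.symm.injective)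
  have h2 := ld s.card _ h1
  have h3 := h2.comp s.equivFin s.equivFin.injective
  convert h3 using 1
  ext i
  simp

/-- Linear disjointness implies that the multiplication map `F0 ⊗[K0] K1 → F1` is injective. -/
theorem mulMap_injective_of_ld
    (ld : ∀ (m : ℕ) (c : Fin m → K1), LinearIndependent K0 c →
      LinearIndependent F0 (fun i => algebraMap K1 F1 (c i))) :
    Function.Injective (helper8094.mulMap K0 F0 K1 F1) := by
  classical
  let B := Module.Free.chooseBasis K0 K1
  have hB : LinearIndependent F0 (fun i => algebraMap K1 F1 (B i)) :=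
    linearIndependent_of_ld ld _ B.linearIndependent
  let e := TensorProduct.equivFinsuppOfBasisRight (M := F0) B
  rw [injective_iff_map_eq_zero]
  intro z hz
  have hz' : z = (e z).sum fun i m => m ⊗ₜ[K0] B i := by
    rw [← TensorProduct.equivFinsuppOfBasisRight_symm_apply, LinearEquiv.symm_apply_apply]
  have h0 : Finsupp.linearCombination F0 (fun i => algebraMap K1 F1 (B i)) (e z) = 0 := by
    rw [Finsupp.linearCombination_apply, ← hz]
    conv_rhs => rw [hz']
    rw [Finsupp.sum, Finsupp.sum, map_sum]
    refine Finset.sum_congr rfl fun i _ => ?_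
    rw [helper8094.mulMap_tmul, Algebra.smul_def]
  have h1 := linearIndependent_iff.mp hB _ h0
  exact (LinearEquiv.map_eq_zero_iff e).mp h1

/-- Generation implies that every element of `F1` is a quotient of two elements of the image of
`F0 ⊗[K0] K1`. -/
theorem exists_quot_of_gen
    (gen : IntermediateField.adjoin K1 (Set.range (algebraMap F0 F1)) = ⊤) (h : F1) :
    ∃ p q : F0 ⊗[K0] K1, helper8094.mulMap K0 F0 K1 F1 q ≠ 0 ∧
      h * helper8094.mulMap K0 F0 K1 F1 q = helper8094.mulMap K0 F0 K1 F1 p := by
  have hmem : h ∈ IntermediateField.adjoin K1 (Set.range (algebraMap F0 F1)) := by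
    rw [gen]
    trivial
  induction hmem using IntermediateField.adjoin_induction with
  | mem x hx =>
    obtain ⟨f, rfl⟩ := hx
    exact ⟨f ⊗ₜ 1, 1, by simp, by simp⟩
  | algebraMap c => exact ⟨1 ⊗ₜ c, 1, by simp, by simp⟩
  | add x y hx hy ihx ihy =>
    obtain ⟨p1, q1, hq1, h1⟩ := ihx
    obtain ⟨p2, q2, hq2, h2⟩ := ihy
    refine ⟨p1 * q2 + p2 * q1, q1 * q2, ?_, ?_⟩
    · rw [map_mul]
      exact mul_ne_zero hq1 hq2
    · simp only [map_mul, map_add]
      rw [← h1, ← h2]
      ring
  | inv x hx ih =>
    obtain ⟨p, q, hq, h1⟩ := ih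
    by_cases hp : helper8094.mulMap K0 F0 K1 F1 p = 0
    · have hx0 : x = 0 := by
        rw [hp] at h1
        exact (mul_eq_zero.mp h1).resolve_right hq
      exact ⟨0, 1, by simp, by simp [hx0]⟩
    · refine ⟨q, p, hp, ?_⟩
      have hx0 : x ≠ 0 := by
        rintro rfl
        rw [zero_mul] at h1
        exact hp h1.symm
      rw [← h1, ← mul_assoc, inv_mul_cancel₀ hx0, one_mul]
  | mul x y hx hy ihx ihy =>
    obtain ⟨p1, q1, hq1, h1⟩ := ihx
    obtain ⟨p2, q2, hq2, h2⟩ := ihy
    refine ⟨p1 * p2, q1 * q2, ?_, ?_⟩
    · rw [map_mul]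
      exact mul_ne_zero hq1 hq2
    · simp only [map_mul]
      rw [← h1, ← h2]
      ring

/-- **Adapter.** Generation + linear disjointness (finite-family form) imply
`helper8094.IsConstExt`. -/
theorem isConstExt8094_of_gen_ld
    (gen : IntermediateField.adjoin K1 (Set.range (algebraMap F0 F1)) = ⊤)
    (ld : ∀ (m : ℕ) (c : Fin m → K1), LinearIndependent K0 c →
      LinearIndependent F0 (fun i => algebraMap K1 F1 (c i))) :
    helper8094.IsConstExt K0 F0 K1 F1 :=
  ⟨mulMap_injective_of_ld ld, exists_quot_of_gen gen⟩

end Adapter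

/-- **DOWN2**, verbatim: a curve has countable models on which any given finite set of places
is nontrivial. -/
theorem stmt_down2 : helper8094.Stmt_Down2.{u, v} := by
  intro K F _ _ _ _ _ _ _ P
  classical
  obtain ⟨x, hx, hfin⟩ := helper5411.exists_transcendental_finite (K := K) (F := F)
  haveI : FiniteDimensional K⟮x⟯ F := hfin
  -- centres of `x` at the places of `P`
  let cen : Place K F → K := fun w =>
    if h : ∃ c : K, 0 < w.ord (x - algebraMap K F c) then h.choose else 0
  let S : Set K := cen '' (P : Set (Place K F))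
  have hS : S.Countable := (P.finite_toSet.image cen).countable
  obtain ⟨K0, F0, hK0c, hK0a, hSK0, -, -, hx0, htr0, hfin0, hgen, hld⟩ :=
    exists_countable_model x hx S hS ∅ Set.countable_empty
  haveI := hK0a
  haveI : CharZero K0 := (algebraMap K0 K).charZero
  haveI := hfin0
  haveI : IsCurveOver K0 F0 := helper1949.isCurveOver_of_finite (⟨x, hx0⟩ : F0) htr0
  haveI : Algebra.EssFiniteType K0 F0 := helper1949.essFiniteType_of_finite (⟨x, hx0⟩ : F0)
  refine ⟨K0, F0, inferInstance, inferInstance, inferInstance, inferInstance, inferInstance,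
    inferInstance, inferInstance, inferInstance, hK0a, inferInstance, inferInstance, hK0c,
    ?_, ?_⟩
  · apply isConstExt8094_of_gen_ld
    · have hr : Set.range (algebraMap F0 F) = (F0 : Set F) := by
        ext y
        constructor
        · rintro ⟨f, rfl⟩
          exact f.2
        · intro hy
          exact ⟨⟨y, hy⟩, rfl⟩
      rw [hr]
      exact hgen
    · exact hld
  · intro w hw
    have key : ∀ f : F0, w.ord (algebraMap F0 F f) ≠ 0 → f ≠ 0 ∧ w.ord (algebraMap F0 F f) ≠ 0 := by
      intro f hf
      refine ⟨?_, hf⟩
      rintro rfl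
      apply hf
      rw [map_zero]
      exact Place.ord_zero w
    rcases Fermat.Agent.S24.helper483.place_center_of_isAlgebraic x hx w with h | ⟨c, hc, -⟩
    · exact ⟨⟨x, hx0⟩, key _ (ne_of_lt h)⟩
    · have hex : ∃ c : K, 0 < w.ord (x - algebraMap K F c) := ⟨c, hc⟩
      have hcen : 0 < w.ord (x - algebraMap K F (cen w)) := by
        simp only [cen, dif_pos hex]
        exact hex.choose_spec
      have hmem : cen w ∈ K0 := hSK0 ⟨w, hw, rfl⟩
      refine ⟨⟨x, hx0⟩ - algebraMap K0 F0 ⟨cen w, hmem⟩, key _ ?_⟩
      have hmap : algebraMap F0 F ((⟨x, hx0⟩ : F0) - algebraMap K0 F0 ⟨cen w, hmem⟩)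
          = x - algebraMap K F (cen w) := by
        rw [map_sub]
        rfl
      rw [hmap]
      exact ne_of_gt hcen

end Fermat.Agent.S27.helper70
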