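import Mathlib

/-!
# S27 (algebraic track, W1 abstract cores): Dedekind criterion and torsion-class dictionary

`helper8895`: Mathlib-only, Spec-independent.

## (DED) Dedekind criterion
* `isDiscreteValuationRing_atPrime_of_le_span_sup_sq`: local form.
* `isDedekindDomain_of_forall_isMaximal_le_span_sup_sq`: a noetherian domain in which every
  maximal ideal `m` satisfies `m ≤ span {π} ⊔ m ^ 2` for some `π ∈ m` is a Dedekind domain
  (no dimension hypothesis is needed).
* `exists_algHom_ker_eq_of_isMaximal` (NSS), `isDedekindDomain_of_forall_algHom` (DED'): the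
  same for a domain of finite type over an algebraically closed field, in terms of `K`-points.

## (TOR) Torsion classes
`B` a Dedekind domain, `n ≠ 0`, every unit of `B` an `n`-th power.
* `IsPowGen n h`: `h ≠ 0` and `span {h} = I ^ n` for some ideal `I`;
  `PowRel n h h'`: `h * h' ^ (n - 1)` is an `n`-th power in `B`;
  `powClass n h`: the class of the `n`-th root ideal.
* `powRel_iff_mk0_eq`, `powRel_iff_powClass_eq`: `PowRel` is "same class".
* `exists_isPowGen_powClass_eq`: every `n`-torsion class is a `powClass`.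
* `card_torsion_eq_of_reps`, `exists_reps_of_card_torsion`: the two directions of
  "`N` pairwise inequivalent exhaustive representatives exist ↔ `#Cl(B)[n] = N`"
  (the shape of `Tab.Count` in `helper3351_AlgSpec`), with a side condition `S` on representatives.
* `exists_span_eq_pow_iff`, `isPowGen_iff_forall_isMaximal` (LOC): `span {h}` is an `n`-th power
  iff the exact order of `h` at every maximal ideal is divisible by `n`.
-/

namespace Fermat.Agent.S27.helper8895

open IsLocalRing

/-- Local form of the criterion: if `P` is a nonzero prime of a noetherian domain and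
`P ≤ span {π} ⊔ P ^ 2` for some `π ∈ P`, the localization at `P` is a discrete valuation ring. -/
theorem isDiscreteValuationRing_atPrime_of_le_span_sup_sq
    {R : Type*} [CommRing R] [IsDomain R] [IsNoetherianRing R]
    (P : Ideal R) [P.IsPrime] (hP : P ≠ ⊥) (π : R) (hπ : π ∈ P)
    (h : P ≤ Ideal.span {π} ⊔ P ^ 2) :
    IsDiscreteValuationRing (Localization.AtPrime P) := by
  have hnf := IsLocalization.AtPrime.not_isField R hP (Localization.AtPrime P)
  refine ((IsDiscreteValuationRing.TFAE (Localization.AtPrime P) hnf).out 4 0).mp ?_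
  set S := Localization.AtPrime P with hS
  have hmax : P.map (algebraMap R S) = maximalIdeal S :=
    Localization.AtPrime.map_eq_maximalIdeal
  have hle : maximalIdeal S ≤
      Ideal.span {algebraMap R S π} ⊔ maximalIdeal S • maximalIdeal S := by
    calc maximalIdeal S = P.map (algebraMap R S) := hmax.symm
      _ ≤ (Ideal.span {π} ⊔ P ^ 2).map (algebraMap R S) := Ideal.map_mono h
      _ = Ideal.span {algebraMap R S π} ⊔ maximalIdeal S • maximalIdeal S := by
          rw [Ideal.map_sup, Ideal.map_span, Set.image_singleton, Ideal.map_pow, hmax, pow_two,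
            smul_eq_mul]
  have hjac : maximalIdeal S ≤ Ideal.jacobson ⊥ := by
    rw [IsLocalRing.jacobson_eq_maximalIdeal _ bot_ne_top]
  have h1 : maximalIdeal S ≤ Ideal.span {algebraMap R S π} :=
    Submodule.le_of_le_smul_of_le_jacobson_bot (IsNoetherian.noetherian _) hjac hle
  have h2 : Ideal.span {algebraMap R S π} ≤ maximalIdeal S := by
    rw [Ideal.span_singleton_le_iff_mem, ← hmax]
    exact Ideal.mem_map_of_mem _ hπ
  exact ⟨⟨algebraMap R S π, le_antisymm h1 h2⟩⟩

/-- **Dedekind criterion (DED).** A noetherian domain in which every maximal ideal `m` is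
generated by one element modulo `m ^ 2` is a Dedekind domain. -/
theorem isDedekindDomain_of_forall_isMaximal_le_span_sup_sq
    {R : Type*} [CommRing R] [IsDomain R] [IsNoetherianRing R]
    (h : ∀ m : Ideal R, m.IsMaximal → ∃ π ∈ m, m ≤ Ideal.span {π} ⊔ m ^ 2) :
    IsDedekindDomain R := by
  have key : ∀ q : Ideal R, q ≠ ⊥ → ∀ hq : q.IsMaximal,
      IsDiscreteValuationRing (Localization.AtPrime q) := by
    intro q hq0 hq
    obtain ⟨π, hπ, hle⟩ := h q hq
    exact isDiscreteValuationRing_atPrime_of_le_span_sup_sq q hq0 π hπ hle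
  have hdvr : IsDedekindDomainDvr R :=
    { is_dvr_at_nonzero_prime := by
        intro p hp hpp
        rcases p.exists_le_maximal (Ideal.IsPrime.ne_top hpp) with ⟨q, hq, hpq⟩
        have hq0 : q ≠ ⊥ := ne_bot_of_le_ne_bot hp hpq
        have hqdvr := key q hq0 hq
        let f := (IsLocalization.orderIsoOfPrime q.primeCompl (Localization.AtPrime q)).symm
        let P := f ⟨p, hpp, hpq.disjoint_compl_left⟩
        let Q := f ⟨q, hq.isPrime, Set.disjoint_left.mpr fun _ a => a⟩
        have hinj : Function.Injective (algebraMap R (Localization.AtPrime q)) :=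
          IsLocalization.injective (Localization.AtPrime q) q.primeCompl_le_nonZeroDivisors
        have hp1 : P.1 ≠ ⊥ := fun x => hp ((p.map_eq_bot_iff_of_injective hinj).mp x)
        have hq1 : Q.1 ≠ ⊥ := fun x => hq0 ((q.map_eq_bot_iff_of_injective hinj).mp x)
        rcases (IsDiscreteValuationRing.iff_pid_with_one_nonzero_prime
          (Localization.AtPrime q)).mp hqdvr with ⟨_, huq⟩
        have hpq' : p = q := Subtype.val_inj.mpr <| f.injective <|
          Subtype.val_inj.mp (huq.unique ⟨hp1, P.2⟩ ⟨hq1, Q.2⟩)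
        subst hpq'
        exact hqdvr }
  infer_instance

section Torsion

open scoped nonZeroDivisors

variable {B : Type*} [CommRing B] [IsDedekindDomain B]

/-- In a Dedekind domain, taking `n`-th powers of ideals is injective (`n ≠ 0`). -/
theorem ideal_eq_of_pow_eq {n : ℕ} (hn : n ≠ 0) {I J : Ideal B} (h : I ^ n = J ^ n) : I = J := by
  have h1 : I ∣ J := (UniqueFactorizationMonoid.pow_dvd_pow_iff_dvd hn).mp (h ▸ dvd_rfl)
  have h2 : J ∣ I := (UniqueFactorizationMonoid.pow_dvd_pow_iff_dvd hn).mp (h ▸ dvd_rfl)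
  exact le_antisymm (Ideal.dvd_iff_le.mp h2) (Ideal.dvd_iff_le.mp h1)

/-- `h` is a nonzero element generating the `n`-th power of an ideal. -/
def IsPowGen (n : ℕ) (h : B) : Prop := h ≠ 0 ∧ ∃ I : Ideal B, Ideal.span {h} = I ^ n

/-- `h * h' ^ (n - 1)` is an `n`-th power in `B`. -/
def PowRel (n : ℕ) (h h' : B) : Prop := ∃ u : B, u ^ n = h * h' ^ (n - 1)

open Classical in
/-- The ideal class of the `n`-th root of `span {h}` (junk value `1` if there is none). -/
noncomputable def powClass (n : ℕ) (h : B) : ClassGroup B :=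
  if H : ∃ I : (Ideal B)⁰, Ideal.span {h} = (I : Ideal B) ^ n then ClassGroup.mk0 H.choose else 1

theorem powClass_eq_mk0 {n : ℕ} (hn : n ≠ 0) {h : B} (I : (Ideal B)⁰)
    (hI : Ideal.span {h} = (I : Ideal B) ^ n) : powClass n h = ClassGroup.mk0 I := by
  have H : ∃ I : (Ideal B)⁰, Ideal.span {h} = (I : Ideal B) ^ n := ⟨I, hI⟩
  rw [powClass, dif_pos H]
  congr 1
  exact Subtype.ext (ideal_eq_of_pow_eq hn (H.choose_spec.symm.trans hI))

omit [IsDedekindDomain B] in
theorem ne_bot_of_span_eq_pow [IsDomain B] {n : ℕ} {h : B} (hh : h ≠ 0) {I : Ideal B}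
    (hI : Ideal.span {h} = I ^ n) (hn : n ≠ 0) : I ≠ ⊥ := by
  rintro rfl
  rw [Ideal.bot_pow hn] at hI
  exact hh (Ideal.span_singleton_eq_bot.mp hI)

theorem IsPowGen.exists_nonZeroDivisors {n : ℕ} (hn : n ≠ 0) {h : B} (hh : IsPowGen n h) :
    ∃ I : (Ideal B)⁰, Ideal.span {h} = (I : Ideal B) ^ n := by
  obtain ⟨h0, I, hI⟩ := hh
  exact ⟨⟨I, mem_nonZeroDivisors_iff_ne_zero.mpr (ne_bot_of_span_eq_pow h0 hI hn)⟩, hI⟩

theorem mk0_pow_eq_one_of_span_eq {n : ℕ} {h : B} (I : (Ideal B)⁰)
    (hI : Ideal.span {h} = (I : Ideal B) ^ n) : ClassGroup.mk0 I ^ n = 1 := by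
  rw [← map_pow]
  have : I ^ n = ⟨(I : Ideal B) ^ n, (I ^ n).2⟩ := Subtype.ext (by simp)
  rw [this, ClassGroup.mk0_eq_one_iff, ← hI]
  exact ⟨⟨h, rfl⟩⟩

theorem powClass_pow (n : ℕ) (h : B) : powClass n h ^ n = 1 := by
  unfold powClass
  split_ifs with H
  · exact mk0_pow_eq_one_of_span_eq _ H.choose_spec
  · exact one_pow n

/-- **(TOR), key equivalence.** If every unit of `B` is an `n`-th power, then for generators
`h, h'` of `n`-th powers of ideals, `h * h' ^ (n - 1)` is an `n`-th power in `B` iff the two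
`n`-th root ideals have the same class. -/
theorem powRel_iff_mk0_eq {n : ℕ} (hn : n ≠ 0) (hU : ∀ u : Bˣ, ∃ v : B, v ^ n = (u : B))
    {h h' : B} (I I' : (Ideal B)⁰) (hI : Ideal.span {h} = (I : Ideal B) ^ n)
    (hI' : Ideal.span {h'} = (I' : Ideal B) ^ n) :
    PowRel n h h' ↔ ClassGroup.mk0 I = ClassGroup.mk0 I' := by
  have hn1 : n - 1 + 1 = n := Nat.sub_add_cancel (Nat.one_le_iff_ne_zero.mpr hn)
  have hc' : ClassGroup.mk0 I' ^ n = 1 := mk0_pow_eq_one_of_span_eq I' hI'
  -- the ideal `J = I * I' ^ (n - 1)` satisfies `J ^ n = span {h * h' ^ (n - 1)}`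
  have hJ : ((I * I' ^ (n - 1) : (Ideal B)⁰) : Ideal B) ^ n = Ideal.span {h * h' ^ (n - 1)} := by
    rw [← Ideal.span_singleton_mul_span_singleton, ← Ideal.span_singleton_pow, hI, hI']
    simp only [Submonoid.coe_mul, SubmonoidClass.coe_pow, mul_pow]
    rw [← pow_mul, ← pow_mul, mul_comm n (n - 1)]
  have hJc : ClassGroup.mk0 (I * I' ^ (n - 1)) = ClassGroup.mk0 I * (ClassGroup.mk0 I')⁻¹ := by
    rw [map_mul, map_pow]
    congr 1
    apply eq_inv_of_mul_eq_one_left
    rw [← pow_succ, hn1, hc']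
  have hprinc : ClassGroup.mk0 (I * I' ^ (n - 1)) = 1 ↔
      ((I * I' ^ (n - 1) : (Ideal B)⁰) : Ideal B).IsPrincipal :=
    ClassGroup.mk0_eq_one_iff (I * I' ^ (n - 1)).2
  rw [← mul_inv_eq_one, ← hJc, hprinc]
  constructor
  · rintro ⟨u, hu⟩
    refine ⟨⟨u, ?_⟩⟩
    apply ideal_eq_of_pow_eq hn
    rw [hJ, ← hu]
    exact (Ideal.span_singleton_pow u n).symm
  · rintro ⟨⟨w, hw⟩⟩
    have hw' : Ideal.span {w ^ n} = Ideal.span {h * h' ^ (n - 1)} := by
      rw [← hJ, hw, ← Ideal.span_singleton_pow]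
    obtain ⟨e, he⟩ := Ideal.span_singleton_eq_span_singleton.mp hw'
    obtain ⟨v, hv⟩ := hU e
    exact ⟨w * v, by rw [mul_pow, hv, he]⟩

theorem powRel_iff_powClass_eq {n : ℕ} (hn : n ≠ 0) (hU : ∀ u : Bˣ, ∃ v : B, v ^ n = (u : B))
    {h h' : B} (hh : IsPowGen n h) (hh' : IsPowGen n h') :
    PowRel n h h' ↔ powClass n h = powClass n h' := by
  obtain ⟨I, hI⟩ := hh.exists_nonZeroDivisors hn
  obtain ⟨I', hI'⟩ := hh'.exists_nonZeroDivisors hn
  rw [powClass_eq_mk0 hn I hI, powClass_eq_mk0 hn I' hI']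
  exact powRel_iff_mk0_eq hn hU I I' hI hI'

/-- Every `n`-torsion class is the class of the `n`-th root of a principal ideal. -/
theorem exists_isPowGen_powClass_eq {n : ℕ} (hn : n ≠ 0) (c : ClassGroup B) (hc : c ^ n = 1) :
    ∃ h : B, IsPowGen n h ∧ powClass n h = c := by
  obtain ⟨I, rfl⟩ := ClassGroup.mk0_surjective c
  have hIn : I ^ n = ⟨(I : Ideal B) ^ n, (I ^ n).2⟩ := Subtype.ext (by simp)
  rw [← map_pow, hIn, ClassGroup.mk0_eq_one_iff] at hc
  obtain ⟨⟨h, hh⟩⟩ := hc
  have hh' : Ideal.span {h} = (I : Ideal B) ^ n := hh.symm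
  have h0 : h ≠ 0 := by
    rintro rfl
    have : (I : Ideal B) ^ n = ⊥ := by rw [← hh']; simp
    exact (pow_ne_zero n (nonZeroDivisors.ne_zero I.2)) this
  exact ⟨h, ⟨h0, I, hh'⟩, powClass_eq_mk0 hn I hh'⟩

omit [IsDedekindDomain B] in
theorem powRel_refl {n : ℕ} (hn : n ≠ 0) (h : B) : PowRel n h h :=
  ⟨h, by rw [← pow_succ', Nat.sub_add_cancel (Nat.one_le_iff_ne_zero.mpr hn)]⟩

theorem powRel_symm {n : ℕ} (hn : n ≠ 0) (hU : ∀ u : Bˣ, ∃ v : B, v ^ n = (u : B))
    {h h' : B} (hh : IsPowGen n h) (hh' : IsPowGen n h') (H : PowRel n h h') : PowRel n h' h :=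
  (powRel_iff_powClass_eq hn hU hh' hh).mpr ((powRel_iff_powClass_eq hn hU hh hh').mp H).symm

theorem powRel_trans {n : ℕ} (hn : n ≠ 0) (hU : ∀ u : Bˣ, ∃ v : B, v ^ n = (u : B))
    {h h' h'' : B} (hh : IsPowGen n h) (hh' : IsPowGen n h') (hh'' : IsPowGen n h'')
    (H : PowRel n h h') (H' : PowRel n h' h'') : PowRel n h h'' :=
  (powRel_iff_powClass_eq hn hU hh hh'').mpr
    (((powRel_iff_powClass_eq hn hU hh hh').mp H).trans
      ((powRel_iff_powClass_eq hn hU hh' hh'').mp H'))

/-- **(TOR), counting form 1** (the shape of `Tab.Count`, direction used by the dictionary W):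
if `N` pairwise inequivalent elements of `H` represent every element of `H` satisfying a side
condition `S` (e.g. a weight bound), and every `n`-torsion class has a representative in `H`
satisfying `S`, then the `n`-torsion of the class group has exactly `N` elements. -/
theorem card_torsion_eq_of_reps {n : ℕ} (hn : n ≠ 0)
    (hU : ∀ u : Bˣ, ∃ v : B, v ^ n = (u : B)) (S : B → Prop)
    (hS : ∀ c : ClassGroup B, c ^ n = 1 → ∃ h, S h ∧ IsPowGen n h ∧ powClass n h = c)
    {N : ℕ} (hs : Fin N → B) (h1 : ∀ a, IsPowGen n (hs a))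
    (h2 : ∀ a b, a ≠ b → ¬ PowRel n (hs a) (hs b))
    (h3 : ∀ h, S h → IsPowGen n h → ∃ a, PowRel n h (hs a)) :
    Nat.card {c : ClassGroup B // c ^ n = 1} = N := by
  let f : Fin N → {c : ClassGroup B // c ^ n = 1} := fun a => ⟨powClass n (hs a), powClass_pow n _⟩
  have hinj : Function.Injective f := by
    intro a b hab
    by_contra hne
    exact h2 a b hne ((powRel_iff_powClass_eq hn hU (h1 a) (h1 b)).mpr (congrArg Subtype.val hab))
  have hsurj : Function.Surjective f := by
    rintro ⟨c, hc⟩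
    obtain ⟨h, hSh, hh, rfl⟩ := hS c hc
    obtain ⟨a, ha⟩ := h3 h hSh hh
    exact ⟨a, Subtype.ext ((powRel_iff_powClass_eq hn hU hh (h1 a)).mp ha).symm⟩
  rw [← Nat.card_congr (Equiv.ofBijective f ⟨hinj, hsurj⟩), Nat.card_fin]

/-- **(TOR), counting form 2** (direction used for the count over `𝔽̄_p`): if the `n`-torsion of
the class group has exactly `N ≠ 0` elements and every torsion class has a representative in `H`
satisfying the side condition `S`, then there are `N` pairwise inequivalent elements of `H`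
satisfying `S` which represent every element of `H`. -/
theorem exists_reps_of_card_torsion {n : ℕ} (hn : n ≠ 0)
    (hU : ∀ u : Bˣ, ∃ v : B, v ^ n = (u : B)) (S : B → Prop)
    (hS : ∀ c : ClassGroup B, c ^ n = 1 → ∃ h, S h ∧ IsPowGen n h ∧ powClass n h = c)
    {N : ℕ} (hN : N ≠ 0) (hcard : Nat.card {c : ClassGroup B // c ^ n = 1} = N) :
    ∃ hs : Fin N → B, (∀ a, S (hs a) ∧ IsPowGen n (hs a)) ∧
      (∀ a b, a ≠ b → ¬ PowRel n (hs a) (hs b)) ∧
      ∀ h, IsPowGen n h → ∃ a, PowRel n h (hs a) := by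
  have hfin : Finite {c : ClassGroup B // c ^ n = 1} :=
    Nat.finite_of_card_ne_zero (hcard ▸ hN)
  let e : {c : ClassGroup B // c ^ n = 1} ≃ Fin N := Finite.equivFinOfCardEq hcard
  choose r hrS hrH hrc using fun c : {c : ClassGroup B // c ^ n = 1} => hS c.1 c.2
  refine ⟨fun a => r (e.symm a), fun a => ⟨hrS _, hrH _⟩, ?_, ?_⟩
  · intro a b hab hrel
    apply hab
    have := (powRel_iff_powClass_eq hn hU (hrH _) (hrH _)).mp hrel
    rw [hrc, hrc] at this
    exact e.symm.injective (Subtype.ext this)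
  · intro h hh
    refine ⟨e ⟨powClass n h, powClass_pow n h⟩, ?_⟩
    rw [powRel_iff_powClass_eq hn hU hh (hrH _), hrc, Equiv.symm_apply_apply]

/-- For a nonzero element `h` of a noetherian domain and a proper ideal `m`, there is an exact
exponent `j` with `h ∈ m ^ j`, `h ∉ m ^ (j + 1)`. -/
theorem exists_mem_pow_notMem_pow_succ_of_ne_zero {R : Type*} [CommRing R] [IsDomain R]
    [IsNoetherianRing R] {m : Ideal R} (hm : m ≠ ⊤) {h : R} (h0 : h ≠ 0) :
    ∃ j : ℕ, h ∈ m ^ j ∧ h ∉ m ^ (j + 1) := by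
  classical
  have hex : ∃ j : ℕ, h ∉ m ^ j := by
    by_contra hcon
    push Not at hcon
    have : h ∈ (⨅ i : ℕ, m ^ i : Ideal R) := by
      rw [Ideal.mem_iInf]
      exact hcon
    rw [Ideal.iInf_pow_eq_bot_of_isDomain m hm] at this
    exact h0 this
  have hpos : Nat.find hex ≠ 0 := by
    intro h00
    have := Nat.find_spec hex
    rw [h00, pow_zero, Ideal.one_eq_top] at this
    exact this Submodule.mem_top
  obtain ⟨j, hj⟩ := Nat.exists_eq_succ_of_ne_zero hpos
  refine ⟨j, ?_, ?_⟩
  · by_contra hcon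
    exact Nat.find_min hex (by omega : j < Nat.find hex) hcon
  · have := Nat.find_spec hex
    rwa [hj] at this

/-- **(LOC)** Local characterisation of generators of `n`-th powers: `span {h}` is the `n`-th
power of an ideal iff at every maximal ideal the exact order of `h` is divisible by `n`. -/
theorem exists_span_eq_pow_iff {n : ℕ} {h : B} (h0 : h ≠ 0) :
    (∃ I : Ideal B, Ideal.span {h} = I ^ n) ↔
      ∀ m : Ideal B, m.IsMaximal → ∃ j : ℕ, n ∣ j ∧ h ∈ m ^ j ∧ h ∉ m ^ (j + 1) := by
  classical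
  have hspan : Ideal.span {h} ≠ ⊥ := by rwa [Ne, Ideal.span_singleton_eq_bot]
  constructor
  · rintro ⟨I, hI⟩ m hm
    obtain ⟨j, hj1, hj2⟩ := exists_mem_pow_notMem_pow_succ_of_ne_zero hm.ne_top h0
    refine ⟨j, ?_, hj1, hj2⟩
    have hmp : m.IsPrime := hm.isPrime
    have hcount : (UniqueFactorizationMonoid.normalizedFactors (Ideal.span {h})).count m = j :=
      Ideal.count_normalizedFactors_eq ((Ideal.span_singleton_le_iff_mem _).mpr hj1)
        (fun hle => hj2 ((Ideal.span_singleton_le_iff_mem _).mp hle))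
    rw [hI, UniqueFactorizationMonoid.normalizedFactors_pow, Multiset.count_nsmul] at hcount
    exact ⟨_, hcount.symm⟩
  · intro hloc
    have hdvd : ∀ p : Ideal B, p ∈ UniqueFactorizationMonoid.normalizedFactors (Ideal.span {h}) →
        n ∣ Multiset.count p (UniqueFactorizationMonoid.normalizedFactors (Ideal.span {h})) := by
      intro p hp
      have hpp : Prime p := UniqueFactorizationMonoid.prime_of_normalized_factor p hp
      have hpprime : p.IsPrime := Ideal.isPrime_of_prime hpp
      have hpmax : p.IsMaximal := hpprime.isMaximal hpp.ne_zero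
      obtain ⟨j, hnj, hj1, hj2⟩ := hloc p hpmax
      have hcount : (UniqueFactorizationMonoid.normalizedFactors (Ideal.span {h})).count p = j :=
        Ideal.count_normalizedFactors_eq ((Ideal.span_singleton_le_iff_mem _).mpr hj1)
          (fun hle => hj2 ((Ideal.span_singleton_le_iff_mem _).mp hle))
      rwa [hcount]
    obtain ⟨u, hu⟩ := Multiset.exists_smul_of_dvd_count _ hdvd
    refine ⟨u.prod, ?_⟩
    rw [← Multiset.prod_nsmul, ← hu, Ideal.prod_normalizedFactors_eq_self hspan]

/-- `IsPowGen` in local terms. -/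
theorem isPowGen_iff_forall_isMaximal {n : ℕ} {h : B} :
    IsPowGen n h ↔ h ≠ 0 ∧
      ∀ m : Ideal B, m.IsMaximal → ∃ j : ℕ, n ∣ j ∧ h ∈ m ^ j ∧ h ∉ m ^ (j + 1) := by
  unfold IsPowGen
  constructor
  · rintro ⟨h0, hI⟩
    exact ⟨h0, (exists_span_eq_pow_iff h0).mp hI⟩
  · rintro ⟨h0, hloc⟩
    exact ⟨h0, (exists_span_eq_pow_iff h0).mpr hloc⟩

end Torsion

section Points

/-- **(NSS)** Point form of the Nullstellensatz: a maximal ideal of a finitely generated algebra
over an algebraically closed field is the kernel of a `K`-point. -/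
theorem exists_algHom_ker_eq_of_isMaximal {K B : Type*} [Field K] [IsAlgClosed K] [CommRing B]
    [Algebra K B] [Algebra.FiniteType K B] (m : Ideal B) [hm : m.IsMaximal] :
    ∃ φ : B →ₐ[K] K, RingHom.ker (φ : B →+* K) = m := by
  let _ := Ideal.Quotient.field m
  have hfin : Module.Finite K (B ⧸ m) := finite_of_finite_type_of_isJacobsonRing K (B ⧸ m)
  have hbij : Function.Bijective (algebraMap K (B ⧸ m)) :=
    IsAlgClosed.algebraMap_bijective_of_isIntegral
  let e : K ≃ₐ[K] (B ⧸ m) := AlgEquiv.ofBijective (Algebra.ofId K (B ⧸ m)) hbij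
  refine ⟨(e.symm : (B ⧸ m) →ₐ[K] K).comp (Ideal.Quotient.mkₐ K m), ?_⟩
  ext x
  simp [RingHom.mem_ker, Ideal.Quotient.eq_zero_iff_mem]

/-- The kernel of a `K`-point of a `K`-algebra is a maximal ideal. -/
theorem isMaximal_ker_algHom {K B : Type*} [Field K] [CommRing B] [Algebra K B]
    (φ : B →ₐ[K] K) : (RingHom.ker (φ : B →+* K)).IsMaximal :=
  RingHom.ker_isMaximal_of_surjective (φ : B →+* K) (fun a => ⟨algebraMap K B a, by simp⟩)

/-- **Dedekind criterion, point form (DED').** A domain of finite type over an algebraically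
closed field `K` all of whose `K`-points are regular (the kernel `m` of the point is generated by
one element modulo `m ^ 2`) is a Dedekind domain. -/
theorem isDedekindDomain_of_forall_algHom {K B : Type*} [Field K] [IsAlgClosed K] [CommRing B]
    [IsDomain B] [Algebra K B] [Algebra.FiniteType K B]
    (h : ∀ φ : B →ₐ[K] K, ∃ π ∈ RingHom.ker (φ : B →+* K),
      RingHom.ker (φ : B →+* K) ≤ Ideal.span {π} ⊔ RingHom.ker (φ : B →+* K) ^ 2) :
    IsDedekindDomain B := by
  have : IsNoetherianRing B := Algebra.FiniteType.isNoetherianRing K B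
  refine isDedekindDomain_of_forall_isMaximal_le_span_sup_sq fun m hm => ?_
  obtain ⟨φ, rfl⟩ := exists_algHom_ker_eq_of_isMaximal (K := K) m
  exact h φ

end Points

end Fermat.Agent.S27.helper8895
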