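import Fermat.Agent.S27.helper751_OnePoint
import Fermat.Agent.S27.helper456_TableGenus
import Fermat.Agent.S27.helper1017_W1bPoints
import Fermat.Agent.S27.helper1017_InfPlace
import Fermat.Agent.S27.helper8895_DedekindTorsion
import Fermat.Agent.S24.helper483_PlacesFF
import Fermat.Agent.S24.helper204_Places

/-!
# S27, algebraic track, leaf W1d-2: the function field of a table algebra (helper7268)

Setting: `K` a field, `T` a valid table over `K` with Dedekind algebra `B = Tab.Alg T`,
`F = FractionRing B`.  Given a place `Pinf` of `F/K` with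

* `hord`  : `ord_Pinf b = -wt b` for `b ∈ B`,
* `hpole` : every place at which `x` is not regular equals `Pinf`,

we prove the clauses of `helper3351.Stmt_FF` that do not involve the degree of principal
divisors:

* `onePoint` : the places of `F/K` are the maximal ideals of `B` plus `Pinf`
  (`helper751.OnePoint`);
* `residue_surjective`, `finite_residue`, `deg_eq_one` : all residue fields are `K`;
* `constants` : a function without poles is constant;
* `transcendental_x`, `finiteDimensional_x` : `x` is transcendental and `F` is finite over `K(x)`.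
-/

set_option autoImplicit false

noncomputable section

open IsDedekindDomain AlgebraicCurve Polynomial IntermediateField

namespace Fermat.Agent.S27.helper7268

open Fermat.Agent.S27.helper3351 Fermat.Agent.S24

universe u

/-! ### Generic lemmas on Prelude places -/

section Generic

variable {K F : Type*} [Field K] [Field F] [Algebra K F]

/-- If every integral function is congruent to a constant modulo the maximal ideal, the residue
field is `K`. -/
theorem residue_surjective_of_hres (P : Place K F)
    (h : ∀ f : F, P.adicValuation f ≤ 1 →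
      ∃ c : K, P.adicValuation (f - algebraMap K F c) < 1) :
    Function.Surjective (algebraMap K P.ResidueField) := by
  intro y
  obtain ⟨a, rfl⟩ := IsLocalRing.residue_surjective y
  obtain ⟨c, hc⟩ := h (a : F) (P.adicValuation_le_one_of_mem a.2)
  refine ⟨c, ?_⟩
  have hmem : a - algebraMap K P.toValuationSubring c ∈
      IsLocalRing.maximalIdeal P.toValuationSubring := by
    rw [IsLocalRing.mem_maximalIdeal, mem_nonunits_iff]
    intro hu
    have h1 := (P.adicValuation_coe_eq_one_iff (a - algebraMap K P.toValuationSubring c)).2 hu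
    have h2 : ((a - algebraMap K P.toValuationSubring c : P.toValuationSubring) : F)
        = (a : F) - algebraMap K F c := rfl
    rw [h2] at h1
    rw [h1] at hc
    exact lt_irrefl _ hc
  have h3 := (IsLocalRing.residue_eq_zero_iff _).2 hmem
  rw [map_sub, sub_eq_zero] at h3
  rw [h3]
  rfl

/-- A place whose residue field is `K` has degree one. -/
theorem deg_eq_one_of_residue_surjective (P : Place K F)
    (h : Function.Surjective (algebraMap K P.ResidueField)) : P.deg = 1 := by
  rw [Place.deg, finrank_eq_one_iff_of_nonzero' (1 : P.ResidueField) one_ne_zero]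
  intro y
  obtain ⟨c, rfl⟩ := h y
  exact ⟨c, by rw [Algebra.smul_def, mul_one]⟩

/-- A place whose residue field is `K` has a finite residue field. -/
theorem finite_of_residue_surjective (P : Place K F)
    (h : Function.Surjective (algebraMap K P.ResidueField)) : Module.Finite K P.ResidueField :=
  Module.finite_of_finrank_pos (by
    have := deg_eq_one_of_residue_surjective P h
    rw [Place.deg] at this
    omega)

/-- A place of degree one has residue field `K`. -/
theorem residue_surjective_of_deg_eq_one (P : Place K F) (h : P.deg = 1) :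
    Function.Surjective (algebraMap K P.ResidueField) := by
  intro y
  rw [Place.deg, finrank_eq_one_iff_of_nonzero' (1 : P.ResidueField) one_ne_zero] at h
  obtain ⟨c, hc⟩ := h y
  exact ⟨c, by rw [← hc, Algebra.smul_def, mul_one]⟩

end Generic

/-! ### The table algebra -/

section Table

variable {K : Type u} [Field K] {τ : WType} (T : Tab τ K) [Fact T.Valid]

/-- The weight of `x` is `m`. -/
theorem wt_x : T.wt (Tab.Alg.x T).toElt = ((τ.m : ℕ) : WithBot ℕ) := by
  have hG : τ.Good := (Fact.out : T.Valid).good
  have hx : ∀ i : Fin τ.m, (Tab.Alg.x T).toElt i = X * (if (i : ℕ) = 0 then 1 else 0) :=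
    fun i => rfl
  unfold Tab.wt
  apply le_antisymm
  · refine Finset.sup_le fun i _ => ?_
    split_ifs with h
    · exact bot_le
    · rw [hx i] at h
      have hi : (i : ℕ) = 0 := by
        by_contra hi
        exact h (by rw [if_neg hi, mul_zero])
      rw [hx i, if_pos hi, mul_one, natDegree_X, (hG.2 i).2 hi]
      simp
  · have h0 : (Tab.Alg.x T).toElt ⟨0, hG.1⟩ ≠ 0 := by
      rw [hx, if_pos rfl, mul_one]
      exact X_ne_zero
    refine le_trans (le_of_eq ?_) (Finset.le_sup (Finset.mem_univ (⟨0, hG.1⟩ : Fin τ.m)))
    rw [if_neg h0, hx, if_pos rfl, mul_one, natDegree_X, (hG.2 ⟨0, hG.1⟩).2 rfl]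
    simp

variable [IsDedekindDomain T.Alg] (Pinf : Place K (FractionRing T.Alg))

/-- `x` has a pole at the place at infinity. -/
theorem x_not_mem_inf
    (hord : ∀ (b : T.Alg) (t : ℕ), T.wt b.toElt = (t : WithBot ℕ) →
      Pinf.ord (algebraMap T.Alg (FractionRing T.Alg) b) = -(t : ℤ)) :
    algebraMap T.Alg (FractionRing T.Alg) (Tab.Alg.x T) ∉ Pinf.toValuationSubring := by
  intro h
  have h1 := helper204.ord_nonneg_of_mem Pinf h
  rw [hord _ _ (wt_x T)] at h1
  have hm : 0 < τ.m := (Fact.out : T.Valid).good.1
  omega

/-- A place at which `x` is regular contains the whole table algebra. -/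
theorem algebraMap_mem_of_x_mem (P : Place K (FractionRing T.Alg))
    (hx : algebraMap T.Alg (FractionRing T.Alg) (Tab.Alg.x T) ∈ P.toValuationSubring)
    (b : T.Alg) : algebraMap T.Alg (FractionRing T.Alg) b ∈ P.toValuationSubring := by
  have hpoly : ∀ r : K[X], algebraMap K[X] (FractionRing T.Alg) r ∈ P.toValuationSubring := by
    intro r
    rw [IsScalarTower.algebraMap_apply K[X] T.Alg (FractionRing T.Alg),
      helper1017.algebraMap_poly_eq_aeval, ← Polynomial.aeval_algebraMap_apply]
    exact helper483.aeval_mem P hx r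
  have hb : IsIntegral K[X] (algebraMap T.Alg (FractionRing T.Alg) b) :=
    (IsIntegral.of_finite K[X] b).algebraMap
  exact helper483.integral_mem_of_mem P hpoly hb

/-- **(P)** The places of the function field of a table algebra are the maximal ideals of the
algebra plus the place at infinity. -/
theorem onePoint
    (hord : ∀ (b : T.Alg) (t : ℕ), T.wt b.toElt = (t : WithBot ℕ) →
      Pinf.ord (algebraMap T.Alg (FractionRing T.Alg) b) = -(t : ℤ))
    (hpole : ∀ P : Place K (FractionRing T.Alg),
      algebraMap T.Alg (FractionRing T.Alg) (Tab.Alg.x T) ∉ P.toValuationSubring → P = Pinf) :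
    helper751.OnePoint T.Alg Pinf
      (fun w => Place.ofHeightOneSpectrum (K := K) (F := FractionRing T.Alg) w) where
  ne_inf := by
    intro w h
    apply x_not_mem_inf T Pinf hord
    rw [← h]
    exact w.valuation_le_one _
  surj := by
    intro P hP
    have hx : algebraMap T.Alg (FractionRing T.Alg) (Tab.Alg.x T) ∈ P.toValuationSubring := by
      by_contra h
      exact hP (hpole P h)
    exact helper483.exists_plc_eq P (algebraMap_mem_of_x_mem T P hx)
  val := fun w f => helper483.adicValuation_plc w f

/-! ### Residue fields -/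

/-- Over an algebraically closed field the residue field of a maximal ideal of the table algebra
is `K`. -/
theorem quotient_surjective [IsAlgClosed K] (w : HeightOneSpectrum T.Alg) :
    Function.Surjective (algebraMap K (T.Alg ⧸ w.asIdeal)) := by
  have : w.asIdeal.IsMaximal := w.isMaximal
  obtain ⟨φ, hφ⟩ := helper8895.exists_algHom_ker_eq_of_isMaximal (K := K) w.asIdeal
  intro y
  obtain ⟨b, rfl⟩ := Ideal.Quotient.mk_surjective y
  refine ⟨φ b, ?_⟩
  rw [← Ideal.Quotient.mk_algebraMap, Ideal.Quotient.eq, ← hφ, RingHom.mem_ker]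
  simp

/-- **(R)** All residue fields of the function field of a table algebra over an algebraically
closed field are `K`. -/
theorem residue_surjective [IsAlgClosed K]
    (hord : ∀ (b : T.Alg) (t : ℕ), T.wt b.toElt = (t : WithBot ℕ) →
      Pinf.ord (algebraMap T.Alg (FractionRing T.Alg) b) = -(t : ℤ))
    (hpole : ∀ P : Place K (FractionRing T.Alg),
      algebraMap T.Alg (FractionRing T.Alg) (Tab.Alg.x T) ∉ P.toValuationSubring → P = Pinf)
    (v : Place K (FractionRing T.Alg)) : Function.Surjective (algebraMap K v.ResidueField) := by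
  by_cases hv : v = Pinf
  · subst hv
    exact residue_surjective_of_hres v (helper456.table_hres T v hord)
  · obtain ⟨w, rfl⟩ := (onePoint T Pinf hord hpole).surj v hv
    exact residue_surjective_of_deg_eq_one _
      (helper204.deg_ofHeightOneSpectrum_eq_one w (quotient_surjective T w))

/-- **(R)** Clause 2 of `Stmt_FF`: the residue fields are finite over `K`. -/
theorem finite_residue [IsAlgClosed K]
    (hord : ∀ (b : T.Alg) (t : ℕ), T.wt b.toElt = (t : WithBot ℕ) →
      Pinf.ord (algebraMap T.Alg (FractionRing T.Alg) b) = -(t : ℤ))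
    (hpole : ∀ P : Place K (FractionRing T.Alg),
      algebraMap T.Alg (FractionRing T.Alg) (Tab.Alg.x T) ∉ P.toValuationSubring → P = Pinf)
    (v : Place K (FractionRing T.Alg)) : Module.Finite K v.ResidueField :=
  finite_of_residue_surjective v (residue_surjective T Pinf hord hpole v)

/-- **(R)** All places have degree one. -/
theorem deg_eq_one [IsAlgClosed K]
    (hord : ∀ (b : T.Alg) (t : ℕ), T.wt b.toElt = (t : WithBot ℕ) →
      Pinf.ord (algebraMap T.Alg (FractionRing T.Alg) b) = -(t : ℤ))
    (hpole : ∀ P : Place K (FractionRing T.Alg),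
      algebraMap T.Alg (FractionRing T.Alg) (Tab.Alg.x T) ∉ P.toValuationSubring → P = Pinf)
    (v : Place K (FractionRing T.Alg)) : v.deg = 1 :=
  deg_eq_one_of_residue_surjective v (residue_surjective T Pinf hord hpole v)

/-! ### Constants -/

/-- **(C5)** Clause 5 of `Stmt_FF`: a function without poles is constant. -/
theorem constants
    (hord : ∀ (b : T.Alg) (t : ℕ), T.wt b.toElt = (t : WithBot ℕ) →
      Pinf.ord (algebraMap T.Alg (FractionRing T.Alg) b) = -(t : ℤ))
    (f : FractionRing T.Alg) (hf : ∀ v : Place K (FractionRing T.Alg), 0 ≤ v.ord f) :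
    f ∈ Set.range (algebraMap K (FractionRing T.Alg)) := by
  have hwt : ∀ b : T.Alg, b ≠ 0 → ∃ t : ℕ, T.wt b.toElt = (t : WithBot ℕ) := by
    intro b hb
    have h1 : T.wt b.toElt ≠ ⊥ := fun h => hb ((helper4272.wt_eq_bot_iff T b.toElt).1 h)
    obtain ⟨t, ht⟩ := WithBot.ne_bot_iff_exists.1 h1
    exact ⟨t, ht.symm⟩
  have hval : ∀ w : HeightOneSpectrum T.Alg, w.valuation (FractionRing T.Alg) f ≤ 1 := fun w =>
    helper204.mem_of_ord_nonneg (Place.ofHeightOneSpectrum (K := K) w) (hf _)
  obtain ⟨b, rfl⟩ := HeightOneSpectrum.mem_integers_of_valuation_le_one (FractionRing T.Alg) f hval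
  rcases eq_or_ne b 0 with rfl | hb
  · exact ⟨0, by simp⟩
  obtain ⟨t, ht⟩ := hwt b hb
  have h1 := hf Pinf
  rw [hord b t ht] at h1
  have ht0 : t = 0 := by omega
  subst ht0
  -- the weight of `1` is `0`
  obtain ⟨s, hs⟩ := hwt 1 one_ne_zero
  have h2 := hord 1 s hs
  rw [map_one, Place.ord_one] at h2
  have hs0 : s = 0 := by omega
  subst hs0
  obtain ⟨c, -, hc⟩ := (helper4272.stmt_WtBasic K τ T).2.2.2.2 b 1 hb (by rw [ht, hs])
  have hz : b - c • (1 : T.Alg) = 0 := by
    rw [← (helper4272.stmt_WtBasic K τ T).2.1]
    rw [ht] at hc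
    by_contra hne
    obtain ⟨r, hr⟩ := WithBot.ne_bot_iff_exists.1 hne
    rw [← hr] at hc
    have := WithBot.coe_lt_coe.1 hc
    omega
  refine ⟨c, ?_⟩
  rw [sub_eq_zero.1 hz, Algebra.smul_def, mul_one, ← IsScalarTower.algebraMap_apply]

/-! ### `x` is transcendental and `F` is finite over `K(x)` -/

omit [IsDedekindDomain T.Alg] in
/-- `K[X] → Alg T` is injective. -/
theorem algebraMap_poly_injective : Function.Injective (algebraMap K[X] T.Alg) := by
  have hT : T.PreValid := (Fact.out : T.Valid).pre
  rw [injective_iff_map_eq_zero]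
  intro r hr
  rw [Tab.Alg.algebraMap_poly_apply] at hr
  have h0 := congrArg (fun a : T.Alg => a.toElt ⟨0, hT.good.1⟩) hr
  simpa [Tab.Alg.toElt_one, Elt.one] using h0

omit [IsDedekindDomain T.Alg] in
/-- **(C6)** Clause 6 of `Stmt_FF`: `x` is transcendental over `K`. -/
theorem transcendental_x :
    Transcendental K (algebraMap T.Alg (FractionRing T.Alg) (Tab.Alg.x T)) := by
  rw [transcendental_iff_injective]
  have h : ∀ p : K[X], aeval (algebraMap T.Alg (FractionRing T.Alg) (Tab.Alg.x T)) p
      = algebraMap T.Alg (FractionRing T.Alg) (algebraMap K[X] T.Alg p) := by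
    intro p
    rw [helper1017.algebraMap_poly_eq_aeval, Polynomial.aeval_algebraMap_apply]
  intro p q hpq
  rw [h, h] at hpq
  exact algebraMap_poly_injective T (IsFractionRing.injective T.Alg (FractionRing T.Alg) hpq)

/-- **(C7)** Clause 7 of `Stmt_FF`: the function field is finite over `K(x)`. -/
theorem finiteDimensional_x :
    FiniteDimensional K⟮algebraMap T.Alg (FractionRing T.Alg) (Tab.Alg.x T)⟯
      (FractionRing T.Alg) := by
  have hpoly : ∀ p : K[X], aeval (algebraMap T.Alg (FractionRing T.Alg) (Tab.Alg.x T)) p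
      ∈ K⟮algebraMap T.Alg (FractionRing T.Alg) (Tab.Alg.x T)⟯ := fun p =>
    IntermediateField.algebra_adjoin_le_adjoin K _ (Polynomial.aeval_mem_adjoin_singleton K _)
  -- the span of the basis over `K(x)`
  let V : Submodule K⟮algebraMap T.Alg (FractionRing T.Alg) (Tab.Alg.x T)⟯ (FractionRing T.Alg) :=
    Submodule.span _ (Set.range fun i => algebraMap T.Alg (FractionRing T.Alg) (Tab.Alg.ω T i))
  have hB : ∀ b : T.Alg, algebraMap T.Alg (FractionRing T.Alg) b ∈ V := by
    intro b
    have hb := helper1017.alg_eq_sum b
    rw [hb, map_sum]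
    refine Submodule.sum_mem _ fun i _ => ?_
    rw [Algebra.smul_def, map_mul, helper1017.algebraMap_poly_eq_aeval,
      ← Polynomial.aeval_algebraMap_apply]
    have h1 : aeval (algebraMap T.Alg (FractionRing T.Alg) (Tab.Alg.x T)) (b.toElt i)
        * algebraMap T.Alg (FractionRing T.Alg) (Tab.Alg.ω T i)
        = (⟨_, hpoly (b.toElt i)⟩ : K⟮algebraMap T.Alg (FractionRing T.Alg) (Tab.Alg.x T)⟯)
          • algebraMap T.Alg (FractionRing T.Alg) (Tab.Alg.ω T i) := rfl
    rw [h1]
    exact Submodule.smul_mem _ _ (Submodule.subset_span ⟨i, rfl⟩)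
  have hmul : ∀ (b : T.Alg) (v : FractionRing T.Alg), v ∈ V →
      algebraMap T.Alg (FractionRing T.Alg) b * v ∈ V := by
    intro b v hv
    induction hv using Submodule.span_induction with
    | mem y hy =>
      obtain ⟨i, rfl⟩ := hy
      rw [← map_mul]
      exact hB _
    | zero =>
      rw [mul_zero]
      exact V.zero_mem
    | add y z _ _ hy hz =>
      rw [mul_add]
      exact V.add_mem hy hz
    | smul e y _ hy =>
      rw [mul_smul_comm]
      exact V.smul_mem e hy
  have hfin : FiniteDimensional K⟮algebraMap T.Alg (FractionRing T.Alg) (Tab.Alg.x T)⟯ V :=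
    FiniteDimensional.span_of_finite _ (Set.finite_range _)
  have hinv : ∀ b : T.Alg, b ≠ 0 → (algebraMap T.Alg (FractionRing T.Alg) b)⁻¹ ∈ V := by
    intro b hb
    have hb' : algebraMap T.Alg (FractionRing T.Alg) b ≠ 0 := fun h =>
      hb (IsFractionRing.injective T.Alg (FractionRing T.Alg) (by rw [h, map_zero]))
    let μ : V →ₗ[K⟮algebraMap T.Alg (FractionRing T.Alg) (Tab.Alg.x T)⟯] V :=
      (LinearMap.mulLeft _ (algebraMap T.Alg (FractionRing T.Alg) b)).restrict
        (fun v hv => hmul b v hv)
    have hμ : ∀ v : V, ((μ v : V) : FractionRing T.Alg)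
        = algebraMap T.Alg (FractionRing T.Alg) b * (v : FractionRing T.Alg) := fun v => rfl
    have hinj : Function.Injective μ := by
      intro v v' h
      have h2 := congrArg (fun z : V => (z : FractionRing T.Alg)) h
      simp only [hμ] at h2
      exact Subtype.ext (mul_left_cancel₀ hb' h2)
    obtain ⟨v, hv⟩ := LinearMap.surjective_of_injective hinj
      (⟨1, by simpa using hB 1⟩ : V)
    have h3 : algebraMap T.Alg (FractionRing T.Alg) b * (v : FractionRing T.Alg) = 1 := by
      rw [← hμ, hv]
    rw [← eq_inv_of_mul_eq_one_right h3]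
    exact v.2
  have htop : V = ⊤ := by
    rw [eq_top_iff]
    intro f _
    obtain ⟨a, b, hb, rfl⟩ := IsFractionRing.div_surjective (A := T.Alg) f
    rw [div_eq_mul_inv]
    exact hmul a _ (hinv b (nonZeroDivisors.ne_zero hb))
  exact Module.finite_def.2 (htop ▸ Submodule.fg_span (Set.finite_range _))

/-! ### Assembly of `Stmt_FF` from the principal-divisor clause -/

/-- All clauses of `Stmt_FF` for one table, given the place at infinity and the degree formula
for principal divisors. -/
theorem ff_of_principal [IsAlgClosed K]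
    (hord : ∀ (b : T.Alg) (t : ℕ), T.wt b.toElt = (t : WithBot ℕ) →
      Pinf.ord (algebraMap T.Alg (FractionRing T.Alg) b) = -(t : ℤ))
    (hpole : ∀ P : Place K (FractionRing T.Alg),
      algebraMap T.Alg (FractionRing T.Alg) (Tab.Alg.x T) ∉ P.toValuationSubring → P = Pinf)
    (hPD : HasPrincipalDivisors K (FractionRing T.Alg)) :
    HasPrincipalDivisors K (FractionRing T.Alg) ∧
    (∀ v : Place K (FractionRing T.Alg), Module.Finite K v.ResidueField) ∧
    genusFF K (FractionRing T.Alg) = τ.genus ∧
    (∀ n : ℕ, Nat.card (Pic0.torsion K (FractionRing T.Alg) n)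
      = Nat.card {c : ClassGroup T.Alg // c ^ n = 1}) ∧
    (∀ f : FractionRing T.Alg, (∀ v : Place K (FractionRing T.Alg), 0 ≤ v.ord f) →
      f ∈ Set.range (algebraMap K (FractionRing T.Alg))) ∧
    Transcendental K (algebraMap T.Alg (FractionRing T.Alg) (Tab.Alg.x T)) ∧
    FiniteDimensional K⟮algebraMap T.Alg (FractionRing T.Alg) (Tab.Alg.x T)⟯
      (FractionRing T.Alg) := by
  have hOP := onePoint T Pinf hord hpole
  refine ⟨hPD, finite_residue T Pinf hord hpole, ?_, ?_, constants T Pinf hord,
    transcendental_x T, finiteDimensional_x T⟩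
  · exact helper456.table_genusFF T Pinf _ hOP.ne_inf hOP.surj hOP.val hord
  · intro n
    exact hOP.natCard_torsion (deg_eq_one T Pinf hord hpole) n

end Table

/-- The only clause of `Stmt_FF` not proved in this file: principal divisors have degree `0`
(i.e. `∑_w ord_w b = dim_K B/bB = wt b` for `b` in the table algebra). -/
def Stmt_FFPrincipal : Prop :=
  ∀ (K : Type u) [Field K] [IsAlgClosed K] (τ : WType) (T : Tab τ K) [Fact T.Valid]
    [IsDedekindDomain T.Alg], HasPrincipalDivisors K (FractionRing T.Alg)

/-- **Assembly**: `Stmt_FF` from the principal-divisor clause (the place at infinity is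
`helper1017.exists_infPlace`). -/
theorem stmt_FF_of_principal (h : Stmt_FFPrincipal.{u}) : Stmt_FF.{u} := by
  intro K _ _ τ T _ _
  have : IsDomain T.Alg := inferInstance
  obtain ⟨Pinf, hord, hpole⟩ := helper1017.exists_infPlace T
  exact ff_of_principal T Pinf hord hpole (h K τ T)

end Fermat.Agent.S27.helper7268

end
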