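import Fermat.Agent.S27.helper6247_Spec
import Fermat.Agent.S24.helper204_Places

/-!
# S27, Spec leaf M1c: `Stmt_GenericUnram`

A transcendental `u : F` is a local coordinate (`u - c` is a uniformizer for some `c : K`) at all
but finitely many places.  The exceptions are the poles of `u` (finitely many by the landed S24
lemma `exists_finset_poles`) and the ramified places over the `u`-line; the latter correspond to
height-one primes of `B = integralClosure K[u] F` dividing the different ideal of `B / K[u]`
(`pow_sub_one_dvd_differentIdeal`), which is nonzero (`differentIdeal_ne_bot`).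
-/

set_option autoImplicit false

namespace Fermat.Agent.S27.helper7435

open AlgebraicCurve IntermediateField IsDedekindDomain
open Fermat.Agent.S24.helper204

open scoped IntermediateField.algebraAdjoinAdjoin

attribute [local instance] FractionRing.liftAlgebra FractionRing.isScalarTower_liftAlgebra

variable {K : Type*} {F : Type*} [Field K] [Field F] [Algebra K F]

/-- The extension of fraction fields of `K[u] ⊆ integralClosure K[u] F` is separable
(characteristic zero). -/
theorem isSeparable_fractionRing [CharZero K] (u : F) [FiniteDimensional K⟮u⟯ F] :
    Algebra.IsSeparable (FractionRing (Algebra.adjoin K {u}))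
      (FractionRing (integralClosure (Algebra.adjoin K {u}) F)) := by
  have : CharZero (Algebra.adjoin K {u}) :=
    charZero_of_injective_algebraMap (FaithfulSMul.algebraMap_injective K _)
  have : CharZero (FractionRing (Algebra.adjoin K {u})) := IsFractionRing.charZero _
  have : Algebra.IsIntegral (Algebra.adjoin K {u}) (integralClosure (Algebra.adjoin K {u}) F) :=
    inferInstance
  have : Algebra.IsAlgebraic (FractionRing (Algebra.adjoin K {u}))
      (FractionRing (integralClosure (Algebra.adjoin K {u}) F)) := inferInstance
  exact Algebra.IsAlgebraic.isSeparable_of_perfectField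

/-- The ramified places of `F` over the `u`-line (together with the poles of `u`) are finite in
number: `u` is a local coordinate at all other places. -/
theorem finite_not_localCoordinate [IsAlgClosed K] [CharZero K] (u : F) (hu : Transcendental K u)
    [FiniteDimensional K⟮u⟯ F] :
    {P : Place K F | ¬ ∃ c : K, P.ord (u - algebraMap K F c) = 1}.Finite := by
  classical
  obtain ⟨s, hs, -⟩ := exists_finset_poles u hu
  have := isSeparable_fractionRing (K := K) u
  have hD : differentIdeal (Algebra.adjoin K {u}) (integralClosure (Algebra.adjoin K {u}) F) ≠ 0 :=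
    differentIdeal_ne_bot
  have hfin := Ideal.finite_factors hD
  refine Set.Finite.subset ((Finset.finite_toSet s).union
    (hfin.image (Place.ofHeightOneSpectrum (K := K) (F := F)))) ?_
  intro P hP
  rcases place_center u hu P with hneg | ⟨c, hc, -⟩
  · exact Or.inl ((hs P).mpr hneg)
  · right
    obtain ⟨w, -, hw2⟩ := exists_heightOneSpectrum_of_ord_pos hu c P hc
    refine ⟨w, ?_, hw2⟩
    have hord := ord_ofHeightOneSpectrum_eq_ramificationIdx hu c w
    rw [hw2] at hord
    have hne : P.ord (u - algebraMap K F c) ≠ 1 := fun h => hP ⟨c, h⟩
    have h2 : 2 ≤ (pc K u c).ramificationIdx' w.asIdeal := by omega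
    have hp0 := pc_ne_bot hu c
    have := pc_isMaximal hu c
    have hmap0 : Ideal.map (algebraMap (Algebra.adjoin K {u})
        (integralClosure (Algebra.adjoin K {u}) F)) (pc K u c) ≠ ⊥ := by
      rw [Ne, Ideal.map_eq_bot_iff_of_injective (FaithfulSMul.algebraMap_injective _ _)]
      exact hp0
    have hdvd : w.asIdeal ^ ((pc K u c).ramificationIdx' w.asIdeal) ∣
        Ideal.map (algebraMap (Algebra.adjoin K {u})
          (integralClosure (Algebra.adjoin K {u}) F)) (pc K u c) := by
      rw [Ideal.IsDedekindDomain.ramificationIdx'_eq_multiplicity hmap0 w.isPrime]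
      exact pow_multiplicity_dvd _ _
    have h3 := pow_sub_one_dvd_differentIdeal (Algebra.adjoin K {u}) w.asIdeal _ hp0 hdvd
    show w.asIdeal ∣ differentIdeal (Algebra.adjoin K {u})
      (integralClosure (Algebra.adjoin K {u}) F)
    exact (dvd_pow_self w.asIdeal (by omega)).trans h3

/-- Spec leaf M1c of `helper6247_Spec`. -/
theorem genericUnram.{u, v} : helper6247.Stmt_GenericUnram.{u, v} := by
  intro K F _ _ _ _ _ x _ _ u hu
  have : FiniteDimensional K⟮u⟯ F := finiteDimensional_adjoin_of_transcendental (x := x) hu
  exact finite_not_localCoordinate u hu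

end Fermat.Agent.S27.helper7435
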