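import Mathlib
import Fermat.Prelude.Def_AlgebraicCurve_DivisorClassGroup
import Fermat.Prelude.Def_AlgebraicCurve_IsCurveOver
import Fermat.Prelude.Def_AlgebraicCurve_Repartitions
import Fermat.Agent.S27.helper751_OnePoint

/-!
# S27, algebraic track: the one-point dictionary, genus half (helper751)

In the setting `OnePoint B Pinf pl` of `helper751_OnePoint`:

* `OnePoint.h1Equiv : (F ⧸ (h.bSub ⊔ oInf Pinf)) ≃ₗ[K] H1 (0 : Divisor K F)` (strong approximation);
* `OnePoint.genusFF_eq_finrank : genusFF K F = finrank K (F ⧸ (h.bSub ⊔ oInf Pinf))`;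
* `OnePoint.genusFF_eq_card_gaps` : the genus is the number of gaps of the pole orders at
  `Pinf` of the elements of `B` (when `Pinf` has degree one and the gap set is finite).
-/

set_option autoImplicit false

open IsDedekindDomain AlgebraicCurve WithZero
open scoped nonZeroDivisors

namespace Fermat.Agent.S27.helper751

noncomputable section

variable {K F : Type*} [Field K] [Field F] [Algebra K F]
variable {B : Type*} [CommRing B] [IsDedekindDomain B] [Algebra B F] [IsFractionRing B F]

/-! ### Strong approximation in a Dedekind domain -/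

section Approx

/-- The maximal ideals at which a given element of the fraction field has a pole are finite
in number. -/
theorem finite_setOf_not_valuation_le_one (a : F) :
    {m : HeightOneSpectrum B | ¬ m.valuation F a ≤ 1}.Finite := by
  obtain ⟨n, d, rfl⟩ := IsLocalization.exists_mk'_eq B⁰ a
  have hd : (d : B) ≠ 0 := nonZeroDivisors.ne_zero d.2
  have hspan : (Ideal.span {(d : B)} : Ideal B) ≠ 0 := by
    rw [Ne, Ideal.zero_eq_bot, Ideal.span_singleton_eq_bot]
    exact hd
  refine (Ideal.finite_factors hspan).subset fun m hm => ?_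
  change m.asIdeal ∣ Ideal.span {(d : B)}
  rw [Ideal.dvd_span_singleton]
  by_contra hdm
  apply hm
  rw [m.valuation_of_mk']
  have h1 : m.intValuation (d : B) = 1 := by
    rw [HeightOneSpectrum.intValuation_eq_one_iff]
    exact hdm
  rw [h1, div_one]
  exact m.intValuation_le_one n

/-- Strong approximation at one maximal ideal: the polar part of `a` at `m` is realised by an
element that is integral at all other maximal ideals. -/
theorem exists_approx_one (m : HeightOneSpectrum B) (a : F) :
    ∃ f : F, m.valuation F (a - f) ≤ 1 ∧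
      ∀ m' : HeightOneSpectrum B, m' ≠ m → m'.valuation F f ≤ 1 := by
  classical
  rcases eq_or_ne a 0 with rfl | ha
  · exact ⟨0, by simp, fun m' _ => by simp⟩
  let e : HeightOneSpectrum B → ℕ := fun m' => (WithZero.log (m'.valuation F a)).toNat
  have he : ∀ m' : HeightOneSpectrum B, m'.valuation F a ≤ exp ((e m' : ℕ) : ℤ) := by
    intro m'
    have hne : m'.valuation F a ≠ 0 := (Valuation.ne_zero_iff _).mpr ha
    conv_lhs => rw [← WithZero.exp_log hne]
    rw [WithZero.exp_le_exp]
    exact Int.self_le_toNat _
  let S : Finset (HeightOneSpectrum B) :=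
    insert m (finite_setOf_not_valuation_le_one (B := B) a).toFinset
  obtain ⟨w, hw⟩ := IsDedekindDomain.exists_forall_sub_mem_ideal (s := S)
    (fun m' : HeightOneSpectrum B => m'.asIdeal) e (fun m' _ => m'.prime)
    (fun m' _ m'' _ hne hasIdeal => hne (HeightOneSpectrum.ext hasIdeal))
    (fun m' => if (m' : HeightOneSpectrum B) = m then 1 else 0)
  have hmS : m ∈ S := Finset.mem_insert_self _ _
  refine ⟨algebraMap B F w * a, ?_, fun m' hm' => ?_⟩
  · have h1 := hw m hmS
    simp only [if_true] at h1
    have h2 : m.valuation F (algebraMap B F (w - 1)) ≤ exp (-((e m : ℕ) : ℤ)) := by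
      rw [m.valuation_of_algebraMap, m.intValuation_le_pow_iff_mem]
      exact h1
    have h3 : a - algebraMap B F w * a = -(algebraMap B F (w - 1) * a) := by
      rw [map_sub, map_one]
      ring
    rw [h3, Valuation.map_neg, map_mul]
    calc m.valuation F (algebraMap B F (w - 1)) * m.valuation F a
        ≤ exp (-((e m : ℕ) : ℤ)) * exp ((e m : ℕ) : ℤ) := mul_le_mul' h2 (he m)
      _ = 1 := by rw [← WithZero.exp_add, neg_add_cancel, WithZero.exp_zero]
  · rw [map_mul]
    by_cases hS : m' ∈ S
    · have h1 := hw m' hS
      simp only [hm', if_false, sub_zero] at h1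
      have h2 : m'.valuation F (algebraMap B F w) ≤ exp (-((e m' : ℕ) : ℤ)) := by
        rw [m'.valuation_of_algebraMap, m'.intValuation_le_pow_iff_mem]
        exact h1
      calc m'.valuation F (algebraMap B F w) * m'.valuation F a
          ≤ exp (-((e m' : ℕ) : ℤ)) * exp ((e m' : ℕ) : ℤ) := mul_le_mul' h2 (he m')
        _ = 1 := by rw [← WithZero.exp_add, neg_add_cancel, WithZero.exp_zero]
    · have h1 : m'.valuation F a ≤ 1 := by
        by_contra hcon
        apply hS
        rw [Finset.mem_insert]
        right
        rw [Set.Finite.mem_toFinset]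
        exact hcon
      exact mul_le_one' (m'.valuation_le_one w) h1

/-- Strong approximation at finitely many maximal ideals. -/
theorem exists_approx (S : Finset (HeightOneSpectrum B)) (a : HeightOneSpectrum B → F) :
    ∃ f : F, (∀ m ∈ S, m.valuation F (a m - f) ≤ 1) ∧
      ∀ m : HeightOneSpectrum B, m ∉ S → m.valuation F f ≤ 1 := by
  classical
  choose g hg1 hg2 using fun m : HeightOneSpectrum B => exists_approx_one m (a m)
  refine ⟨∑ m ∈ S, g m, fun m hm => ?_, fun m hm => ?_⟩
  · rw [← Finset.add_sum_erase S g hm, ← sub_sub]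
    refine (Valuation.map_sub _ _ _).trans (max_le (hg1 m) ?_)
    refine Valuation.map_sum_le _ fun m' hm' => ?_
    exact hg2 m' m (Finset.ne_of_mem_erase hm').symm
  · refine Valuation.map_sum_le _ fun m' hm' => ?_
    refine hg2 m' m ?_
    rintro rfl
    exact hm hm'

end Approx

/-! ### Repartitions -/

section Repartitions

/-- Under `HasPrincipalDivisors`, every function has finitely many poles. -/
theorem finite_poles_of_function [HasPrincipalDivisors K F] (f : F) :
    {v : Place K F | ¬ v.adicValuation f ≤ 1}.Finite := by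
  rcases eq_or_ne f 0 with rfl | hf
  · simp
  obtain ⟨D, hD, -⟩ := HasPrincipalDivisors.exists_divisor (K := K) f hf
  refine D.support.finite_toSet.subset fun v hv => ?_
  rw [Finset.mem_coe, Finsupp.mem_support_iff, hD v]
  have : v.ord f < 0 := v.not_adicValuation_le_one_iff.mp hv
  exact this.ne

/-- Under `HasPrincipalDivisors`, every repartition has finitely many poles. -/
theorem finite_poles [HasPrincipalDivisors K F] (α : ↥(repartitions K F)) :
    {v : Place K F | ¬ v.adicValuation ((α : Place K F → F) v) ≤ 1}.Finite := by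
  obtain ⟨α, hα⟩ := α
  change {v : Place K F | ¬ v.adicValuation (α v) ≤ 1}.Finite
  unfold repartitions at hα
  induction hα using Algebra.adjoin_induction with
  | mem x hx => exact hx
  | algebraMap f => exact finite_poles_of_function f
  | add x y _ _ hx hy =>
    refine (hx.union hy).subset fun v hv => ?_
    by_contra hcon
    rw [Set.mem_union, not_or] at hcon
    apply hv
    have h1 : v.adicValuation (x v) ≤ 1 := not_not.mp hcon.1
    have h2 : v.adicValuation (y v) ≤ 1 := not_not.mp hcon.2
    exact (Valuation.map_add _ _ _).trans (max_le h1 h2)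
  | mul x y _ _ hx hy =>
    refine (hx.union hy).subset fun v hv => ?_
    by_contra hcon
    rw [Set.mem_union, not_or] at hcon
    apply hv
    have h1 : v.adicValuation (x v) ≤ 1 := not_not.mp hcon.1
    have h2 : v.adicValuation (y v) ≤ 1 := not_not.mp hcon.2
    change v.adicValuation (x v * y v) ≤ 1
    rw [map_mul]
    exact mul_le_one' h1 h2

open Classical in
/-- The repartition with component `f` at `P` and `0` elsewhere. -/
def iota (P : Place K F) : F →ₗ[K] ↥(repartitions K F) where
  toFun f := ⟨fun v => if v = P then f else 0, mem_repartitions_of_finite <| by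
    refine (Set.finite_singleton P).subset fun v hv => ?_
    by_contra hvP
    apply hv
    have hvP' : v ≠ P := fun hh => hvP (Set.mem_singleton_iff.mpr hh)
    rw [if_neg hvP']
    simp⟩
  map_add' f g := by
    apply Subtype.ext
    funext v
    change (if v = P then f + g else 0) = (if v = P then f else 0) + (if v = P then g else 0)
    split_ifs <;> simp
  map_smul' c f := by
    apply Subtype.ext
    funext v
    change (if v = P then c • f else 0) = c • (if v = P then f else 0)
    split_ifs <;> simp

open Classical in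
theorem iota_apply_self (P : Place K F) (f : F) :
    ((iota P f : ↥(repartitions K F)) : Place K F → F) P = f := by
  change (if P = P then f else 0) = f
  rw [if_pos rfl]

open Classical in
theorem iota_apply_of_ne (P : Place K F) (f : F) {v : Place K F} (hv : v ≠ P) :
    ((iota P f : ↥(repartitions K F)) : Place K F → F) v = 0 := by
  change (if v = P then f else 0) = 0
  rw [if_neg hv]

/-- The functions regular at `P`, as a `K`-submodule. -/
def oInf (P : Place K F) : Submodule K F where
  carrier := (P.adicValuation.integer : Set F)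
  zero_mem' := zero_mem _
  add_mem' := fun {f g} hf hg => add_mem hf hg
  smul_mem' := fun c f hf => by
    have hf' : P.adicValuation f ≤ 1 := (Valuation.mem_integer_iff _ _).mp hf
    refine (Valuation.mem_integer_iff _ _).mpr ?_
    rw [Algebra.smul_def, map_mul]
    exact mul_le_one' (P.adicValuation_algebraMap_le_one c) hf'

theorem mem_oInf {P : Place K F} {f : F} : f ∈ oInf P ↔ P.adicValuation f ≤ 1 := by
  change f ∈ P.adicValuation.integer ↔ _
  exact Valuation.mem_integer_iff _ _

end Repartitions

namespace OnePoint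

variable {Pinf : Place K F} {pl : HeightOneSpectrum B → Place K F}

/-- Constants lie in `B`. -/
theorem algebraMap_mem_range (h : OnePoint B Pinf pl) (c : K) :
    algebraMap K F c ∈ Set.range (algebraMap B F) := by
  have := HeightOneSpectrum.mem_integers_of_valuation_le_one (R := B) F (algebraMap K F c)
    fun m => by
      rw [← h.val m]
      exact (pl m).adicValuation_algebraMap_le_one c
  exact this

/-- The image of `B` in `F`, as a `K`-submodule. -/
def bSub (h : OnePoint B Pinf pl) : Submodule K F where
  carrier := Set.range (algebraMap B F)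
  zero_mem' := ⟨0, map_zero _⟩
  add_mem' := by
    rintro _ _ ⟨a, rfl⟩ ⟨b, rfl⟩
    exact ⟨a + b, map_add _ _ _⟩
  smul_mem' := by
    rintro c _ ⟨b, rfl⟩
    obtain ⟨a, ha⟩ := h.algebraMap_mem_range c
    exact ⟨a * b, by rw [map_mul, ha, Algebra.smul_def]⟩

theorem mem_bSub (h : OnePoint B Pinf pl) {f : F} :
    f ∈ h.bSub ↔ ∃ b : B, algebraMap B F b = f := Iff.rfl

/-- The map `F → H¹(0)`, `f ↦` class of the repartition concentrated at `Pinf`. -/
def toH1 (Pinf : Place K F) : F →ₗ[K] H1 (0 : Divisor K F) :=
  (Submodule.mkQ _).comp (iota Pinf)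

theorem toH1_surjective (h : OnePoint B Pinf pl) [HasPrincipalDivisors K F] :
    Function.Surjective (toH1 Pinf) := by
  classical
  intro x
  obtain ⟨α, rfl⟩ := Submodule.Quotient.mk_surjective _ x
  have hfin := finite_poles α
  let S : Finset (HeightOneSpectrum B) :=
    (hfin.preimage (h.pl_injective.injOn)).toFinset
  obtain ⟨f, hf1, hf2⟩ := exists_approx S fun m => (α : Place K F → F) (pl m)
  have hf : ∀ m : HeightOneSpectrum B, m.valuation F ((α : Place K F → F) (pl m) - f) ≤ 1 := by
    intro m
    by_cases hm : m ∈ S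
    · exact hf1 m hm
    · have h1 : (pl m).adicValuation ((α : Place K F → F) (pl m)) ≤ 1 := by
        by_contra hcon
        apply hm
        rw [Set.Finite.mem_toFinset]
        exact hcon
      rw [h.val] at h1
      exact (Valuation.map_sub _ _ _).trans (max_le h1 (hf2 m hm))
  refine ⟨(α : Place K F → F) Pinf - f, ?_⟩
  change Submodule.Quotient.mk (iota Pinf ((α : Place K F → F) Pinf - f)) = Submodule.Quotient.mk α
  rw [Submodule.Quotient.eq]
  -- the difference is `-(β + const f)` with `β ∈ A(0)`
  have hmem : α - iota Pinf ((α : Place K F → F) Pinf - f) - algebraMap F ↥(repartitions K F) f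
      ∈ repartitionsOf (0 : Divisor K F) := by
    intro v
    change v.adicValuation ((α : Place K F → F) v
      - ((iota Pinf ((α : Place K F → F) Pinf - f) : ↥(repartitions K F)) : Place K F → F) v - f)
      ≤ exp ((0 : Divisor K F) v)
    rw [Finsupp.zero_apply, WithZero.exp_zero]
    by_cases hv : v = Pinf
    · subst hv
      rw [iota_apply_self]
      simp
    · obtain ⟨m, rfl⟩ := h.surj v hv
      rw [iota_apply_of_ne _ _ hv, sub_zero, h.val]
      exact hf m
  have hprin : algebraMap F ↥(repartitions K F) f ∈ principalRepartitions K F :=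
    mem_principalRepartitions_iff.mpr ⟨f, rfl⟩
  have : iota Pinf ((α : Place K F → F) Pinf - f) - α
      = -(α - iota Pinf ((α : Place K F → F) Pinf - f) - algebraMap F ↥(repartitions K F) f)
        + -(algebraMap F ↥(repartitions K F) f) := by
    ring
  rw [this]
  exact Submodule.add_mem_sup (Submodule.neg_mem _ hmem) (Submodule.neg_mem _ hprin)

theorem toH1_ker (h : OnePoint B Pinf pl) :
    LinearMap.ker (toH1 Pinf) = h.bSub ⊔ oInf Pinf := by
  ext f
  rw [LinearMap.mem_ker]
  change Submodule.Quotient.mk (iota Pinf f) = 0 ↔ _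
  rw [Submodule.Quotient.mk_eq_zero, Submodule.mem_sup, Submodule.mem_sup]
  constructor
  · rintro ⟨β, hβ, γ, hγ, hsum⟩
    obtain ⟨g, hg⟩ := mem_principalRepartitions_iff.mp hγ
    have hpt : ∀ v : Place K F, (β : Place K F → F) v + g
        = ((iota Pinf f : ↥(repartitions K F)) : Place K F → F) v := by
      intro v
      have := congrArg (fun x : ↥(repartitions K F) => (x : Place K F → F) v) hsum
      change (β : Place K F → F) v + (γ : Place K F → F) v = _ at this
      rw [hg] at this
      exact this
    have hβ' : ∀ v : Place K F, v.adicValuation ((β : Place K F → F) v) ≤ 1 := by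
      intro v
      have := hβ v
      rwa [Finsupp.zero_apply, WithZero.exp_zero] at this
    have hgB : g ∈ Set.range (algebraMap B F) := by
      apply HeightOneSpectrum.mem_integers_of_valuation_le_one (R := B) F g
      intro m
      have h1 := hpt (pl m)
      rw [iota_apply_of_ne _ _ (h.ne_inf m)] at h1
      have h2 : g = -(β : Place K F → F) (pl m) := by
        rw [eq_neg_iff_add_eq_zero, add_comm]
        exact h1
      rw [h2, Valuation.map_neg, ← h.val]
      exact hβ' (pl m)
    refine ⟨g, hgB, f - g, ?_, by ring⟩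
    have h1 := hpt Pinf
    rw [iota_apply_self] at h1
    rw [mem_oInf, ← h1, add_sub_cancel_right]
    exact hβ' Pinf
  · rintro ⟨g, ⟨b, rfl⟩, o, ho, rfl⟩
    refine ⟨iota Pinf (algebraMap B F b + o) - algebraMap F ↥(repartitions K F) (algebraMap B F b),
      ?_, algebraMap F ↥(repartitions K F) (algebraMap B F b),
      mem_principalRepartitions_iff.mpr ⟨_, rfl⟩, by ring⟩
    intro v
    change v.adicValuation
      (((iota Pinf (algebraMap B F b + o) : ↥(repartitions K F)) : Place K F → F) v
        - algebraMap B F b) ≤ exp ((0 : Divisor K F) v)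
    rw [Finsupp.zero_apply, WithZero.exp_zero]
    by_cases hv : v = Pinf
    · subst hv
      rw [iota_apply_self, add_sub_cancel_left]
      exact mem_oInf.mp ho
    · obtain ⟨m, rfl⟩ := h.surj v hv
      rw [iota_apply_of_ne _ _ hv, zero_sub, Valuation.map_neg, h.val]
      exact m.valuation_le_one b

/-- **Strong approximation**: `H¹(0) ≅ F / (B + O_∞)`. -/
def h1Equiv (h : OnePoint B Pinf pl) [HasPrincipalDivisors K F] :
    (F ⧸ (h.bSub ⊔ oInf Pinf)) ≃ₗ[K] H1 (0 : Divisor K F) :=
  (Submodule.quotEquivOfEq _ _ h.toH1_ker.symm).trans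
    ((toH1 Pinf).quotKerEquivOfSurjective h.toH1_surjective)

/-- The genus is the dimension of `F / (B + O_∞)`. -/
theorem genusFF_eq_finrank (h : OnePoint B Pinf pl) [HasPrincipalDivisors K F] :
    genusFF K F = Module.finrank K (F ⧸ (h.bSub ⊔ oInf Pinf)) := by
  unfold genusFF
  exact h.h1Equiv.finrank_eq.symm

end OnePoint

/-! ### The gap count -/

section Gaps

theorem lt_exp_succ_iff (x : ℤᵐ⁰) (n : ℤ) : x < exp (n + 1) ↔ x ≤ exp n := by
  rcases eq_or_ne x 0 with rfl | hx
  · simp
  · rw [← WithZero.exp_log hx, WithZero.exp_lt_exp, WithZero.exp_le_exp, Int.lt_add_one_iff]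

/-- Nonzero constants have valuation one at every place. -/
theorem adicValuation_algebraMap_eq_one (P : Place K F) {c : K} (hc : c ≠ 0) :
    P.adicValuation (algebraMap K F c) = 1 := by
  apply le_antisymm (P.adicValuation_algebraMap_le_one c)
  have h1 := P.adicValuation_algebraMap_le_one c⁻¹
  have h2 : P.adicValuation (algebraMap K F c) * P.adicValuation (algebraMap K F c⁻¹) = 1 := by
    rw [← map_mul, ← map_mul, mul_inv_cancel₀ hc, map_one, map_one]
  calc (1 : ℤᵐ⁰) = P.adicValuation (algebraMap K F c) * P.adicValuation (algebraMap K F c⁻¹) :=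
        h2.symm
    _ ≤ P.adicValuation (algebraMap K F c) * 1 := mul_le_mul' le_rfl h1
    _ = P.adicValuation (algebraMap K F c) := mul_one _

theorem adicValuation_smul (P : Place K F) {c : K} (hc : c ≠ 0) (f : F) :
    P.adicValuation (c • f) = P.adicValuation f := by
  rw [Algebra.smul_def, map_mul, adicValuation_algebraMap_eq_one P hc, one_mul]

/-- An element of valuation one lies in the valuation ring. -/
theorem mem_toValuationSubring_of_adicValuation_eq_one (P : Place K F) {x : F}
    (hx : P.adicValuation x = 1) : x ∈ P.toValuationSubring := by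
  rcases P.toValuationSubring.mem_or_inv_mem x with h | h
  · exact h
  · have h1 : P.adicValuation ((⟨x⁻¹, h⟩ : P.toValuationSubring) : F) = 1 := by
      change P.adicValuation x⁻¹ = 1
      rw [map_inv₀, hx, inv_one]
    have hu : IsUnit (⟨x⁻¹, h⟩ : P.toValuationSubring) := (P.adicValuation_coe_eq_one_iff _).mp h1
    obtain ⟨y, hy⟩ := hu.exists_right_inv
    have hy' : x⁻¹ * (y : F) = 1 := by
      have := congrArg (fun z : P.toValuationSubring => (z : F)) hy
      simpa using this
    have hx0 : x ≠ 0 := by
      rintro rfl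
      simp at hx
    have : (y : F) = x := by
      field_simp at hy'
      exact hy'
    rw [← this]
    exact y.2

/-- **Residue lemma**: at a place of degree one, two functions of the same valuation differ,
up to a constant factor, by a function of smaller valuation. -/
theorem exists_smul_sub_lt (P : Place K F) (hdeg : P.deg = 1) {f g : F} (hg : g ≠ 0)
    (hfg : P.adicValuation f = P.adicValuation g) :
    ∃ c : K, P.adicValuation (f - c • g) < P.adicValuation g := by
  have hvg : P.adicValuation g ≠ 0 := P.adicValuation_ne_zero hg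
  have hx1 : P.adicValuation (f / g) = 1 := by
    rw [map_div₀, hfg, div_self hvg]
  have hx := mem_toValuationSubring_of_adicValuation_eq_one P hx1
  obtain ⟨c, hc⟩ := (finrank_eq_one_iff_of_nonzero' (1 : P.ResidueField) one_ne_zero).mp hdeg
    (IsLocalRing.residue P.toValuationSubring ⟨f / g, hx⟩)
  refine ⟨c, ?_⟩
  have hres : IsLocalRing.residue P.toValuationSubring
      ((⟨f / g, hx⟩ : P.toValuationSubring) - algebraMap K P.toValuationSubring c) = 0 := by
    rw [map_sub, ← hc, Algebra.smul_def, mul_one]
    exact sub_eq_zero.mpr rfl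
  rw [IsLocalRing.residue_eq_zero_iff] at hres
  have hlt : P.adicValuation (f / g - algebraMap K F c) < 1 := by
    have h1 := P.adicValuation_coe
      ((⟨f / g, hx⟩ : P.toValuationSubring) - algebraMap K P.toValuationSubring c)
    have h2 : (((⟨f / g, hx⟩ : P.toValuationSubring) - algebraMap K P.toValuationSubring c
        : P.toValuationSubring) : F) = f / g - algebraMap K F c := rfl
    rw [h2] at h1
    rw [h1, HeightOneSpectrum.intValuation_lt_one_iff_mem]
    exact hres
  have hfac : f - c • g = (f / g - algebraMap K F c) * g := by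
    rw [Algebra.smul_def]
    field_simp
  rw [hfac, map_mul]
  exact mul_lt_of_lt_one_left (zero_lt_iff.mpr hvg) hlt

variable (B) in
/-- The gaps of `B` at `Pinf`: the positive integers that are not pole orders at `Pinf` of
elements of `B`. -/
def gaps (Pinf : Place K F) : Set ℕ :=
  {t | 0 < t ∧ ∀ b : B, b ≠ 0 → Pinf.adicValuation (algebraMap B F b) ≠ exp ((t : ℕ) : ℤ)}

omit [IsDedekindDomain B] [IsFractionRing B F] in
theorem mem_gaps {Pinf : Place K F} {t : ℕ} :
    t ∈ gaps B Pinf ↔
      0 < t ∧ ∀ b : B, b ≠ 0 → Pinf.adicValuation (algebraMap B F b) ≠ exp ((t : ℕ) : ℤ) :=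
  Iff.rfl

omit [IsDedekindDomain B] in
/-- The gaps in terms of `ord`. -/
theorem mem_gaps_iff_ord {Pinf : Place K F} {t : ℕ} :
    t ∈ gaps B Pinf ↔ 0 < t ∧ ∀ b : B, b ≠ 0 → Pinf.ord (algebraMap B F b) ≠ -((t : ℕ) : ℤ) := by
  rw [mem_gaps]
  refine and_congr_right fun _ => forall_congr' fun b => imp_congr_right fun hb => ?_
  have hb' : algebraMap B F b ≠ 0 := by
    rw [Ne, map_eq_zero_iff _ (IsFractionRing.injective B F)]
    exact hb
  rw [Pinf.adicValuation_eq_exp_neg_ord hb', Ne, Ne, WithZero.exp_inj, neg_eq_iff_eq_neg]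

end Gaps

namespace OnePoint

variable {Pinf : Place K F} {pl : HeightOneSpectrum B → Place K F}

/-- The dimension of `F / (B + O_∞)` is the number of gaps. -/
theorem finrank_quot_eq_card_gaps (h : OnePoint B Pinf pl) (hdeg : Pinf.deg = 1)
    (hfin : (gaps B Pinf).Finite) :
    Module.finrank K (F ⧸ (h.bSub ⊔ oInf Pinf)) = hfin.toFinset.card := by
  classical
  set W : Submodule K F := h.bSub ⊔ oInf Pinf with hW
  set G : Finset ℕ := hfin.toFinset with hG
  have hGmem : ∀ t : ℕ, t ∈ G ↔ t ∈ gaps B Pinf := fun t => Set.Finite.mem_toFinset hfin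
  -- a uniformizer and its negative powers
  obtain ⟨π, hπ⟩ := IsDiscreteValuationRing.exists_irreducible Pinf.toValuationSubring
  have hπv : Pinf.adicValuation (π : F) = exp (-1 : ℤ) := Pinf.adicValuation_coe_irreducible hπ
  let u : ℕ → F := fun t => ((π : F)⁻¹) ^ t
  have hu : ∀ t : ℕ, Pinf.adicValuation (u t) = exp ((t : ℕ) : ℤ) := by
    intro t
    change Pinf.adicValuation (((π : F)⁻¹) ^ t) = _
    rw [map_pow, map_inv₀, hπv, ← WithZero.exp_neg, neg_neg, ← WithZero.exp_nsmul, nsmul_eq_mul,
      mul_one]
  let ψ : (G → K) →ₗ[K] F ⧸ W :=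
    (Submodule.mkQ W).comp (Fintype.linearCombination K fun t : G => u (t : ℕ))
  have hψ : ∀ c : G → K, ψ c = Submodule.Quotient.mk (∑ t : G, c t • u (t : ℕ)) := by
    intro c
    change Submodule.mkQ W (Fintype.linearCombination K (fun t : G => u (t : ℕ)) c) = _
    rw [Fintype.linearCombination_apply]
    rfl
  -- injectivity
  have hinj : Function.Injective ψ := by
    rw [← LinearMap.ker_eq_bot, LinearMap.ker_eq_bot']
    intro c hc
    by_contra hc0
    have hne : (Finset.univ.filter fun t : G => c t ≠ 0).Nonempty := by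
      by_contra hemp
      apply hc0
      funext t
      by_contra ht
      exact hemp ⟨t, Finset.mem_filter.mpr ⟨Finset.mem_univ _, ht⟩⟩
    obtain ⟨t0, ht0, hmax⟩ := Finset.exists_max_image _ (fun t : G => (t : ℕ)) hne
    have hct0 : c t0 ≠ 0 := (Finset.mem_filter.mp ht0).2
    have ht0pos : 0 < (t0 : ℕ) := ((hGmem _).mp t0.2).1
    rw [hψ, Submodule.Quotient.mk_eq_zero, ← Finset.add_sum_erase _ _ (Finset.mem_univ t0)] at hc
    have hrest : Pinf.adicValuation (∑ t ∈ Finset.univ.erase t0, c t • u (t : ℕ))
        < exp (((t0 : ℕ) : ℕ) : ℤ) := by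
      refine Valuation.map_sum_lt _ WithZero.exp_ne_zero fun t ht => ?_
      by_cases hct : c t = 0
      · rw [hct, zero_smul, map_zero]
        exact zero_lt_iff.mpr WithZero.exp_ne_zero
      · rw [adicValuation_smul Pinf hct, hu, WithZero.exp_lt_exp]
        have h1 : (t : ℕ) ≤ (t0 : ℕ) := hmax t (Finset.mem_filter.mpr ⟨Finset.mem_univ _, hct⟩)
        have h2 : (t : ℕ) ≠ (t0 : ℕ) := fun hh => (Finset.ne_of_mem_erase ht) (Subtype.ext hh)
        exact_mod_cast lt_of_le_of_ne h1 h2
    have hlead : Pinf.adicValuation (c t0 • u (t0 : ℕ)) = exp (((t0 : ℕ) : ℕ) : ℤ) := by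
      rw [adicValuation_smul Pinf hct0, hu]
    have hx : Pinf.adicValuation (c t0 • u (t0 : ℕ) + ∑ t ∈ Finset.univ.erase t0, c t • u (t : ℕ))
        = exp (((t0 : ℕ) : ℕ) : ℤ) := by
      rw [Valuation.map_add_eq_of_lt_left _ (by rw [hlead]; exact hrest), hlead]
    obtain ⟨g, hg, o, ho, hsum⟩ := Submodule.mem_sup.mp hc
    obtain ⟨b, rfl⟩ := (h.mem_bSub).mp hg
    have ho' : Pinf.adicValuation o < exp (((t0 : ℕ) : ℕ) : ℤ) := by
      refine lt_of_le_of_lt (mem_oInf.mp ho) ?_
      rw [← WithZero.exp_zero, WithZero.exp_lt_exp]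
      exact_mod_cast ht0pos
    have hb : Pinf.adicValuation (algebraMap B F b) = exp (((t0 : ℕ) : ℕ) : ℤ) := by
      have hbo : algebraMap B F b = (c t0 • u (t0 : ℕ) + ∑ t ∈ Finset.univ.erase t0, c t • u (t : ℕ))
          + -o := by
        rw [← hsum]
        ring
      rw [hbo, Valuation.map_add_eq_of_lt_left _ (by rw [Valuation.map_neg, hx]; exact ho'), hx]
    have hb0 : b ≠ 0 := by
      rintro rfl
      rw [map_zero, map_zero] at hb
      exact WithZero.exp_ne_zero hb.symm
    exact ((hGmem _).mp t0.2).2 b hb0 hb
  -- surjectivity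
  have hrange : ∀ (n : ℕ) (f : F), Pinf.adicValuation f ≤ exp ((n : ℕ) : ℤ) →
      (Submodule.Quotient.mk f : F ⧸ W) ∈ LinearMap.range ψ := by
    intro n
    induction n with
    | zero =>
      intro f hf
      have : f ∈ W := by
        rw [hW]
        refine Submodule.mem_sup_right (mem_oInf.mpr ?_)
        simpa using hf
      rw [(Submodule.Quotient.mk_eq_zero W).mpr this]
      exact Submodule.zero_mem _
    | succ n ih =>
      intro f hf
      by_cases hle : Pinf.adicValuation f ≤ exp ((n : ℕ) : ℤ)
      · exact ih f hle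
      have hveq : Pinf.adicValuation f = exp (((n + 1 : ℕ) : ℕ) : ℤ) := by
        refine le_antisymm hf ?_
        by_contra hcon
        apply hle
        rw [← lt_exp_succ_iff]
        have := not_le.mp hcon
        simpa using this
      -- the reduction step, given a comparison function `g`
      have step : ∀ g : F, Pinf.adicValuation g = exp (((n + 1 : ℕ) : ℕ) : ℤ) →
          (Submodule.Quotient.mk g : F ⧸ W) ∈ LinearMap.range ψ →
          (Submodule.Quotient.mk f : F ⧸ W) ∈ LinearMap.range ψ := by
        intro g hgv hgr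
        have hg0 : g ≠ 0 := by
          rintro rfl
          rw [map_zero] at hgv
          exact WithZero.exp_ne_zero hgv.symm
        obtain ⟨c, hc⟩ := exists_smul_sub_lt Pinf hdeg hg0 (hveq.trans hgv.symm)
        have hc' : Pinf.adicValuation (f - c • g) ≤ exp ((n : ℕ) : ℤ) := by
          rw [← lt_exp_succ_iff]
          rw [hgv] at hc
          simpa using hc
        have h1 := ih (f - c • g) hc'
        have h2 : (Submodule.Quotient.mk f : F ⧸ W)
            = Submodule.Quotient.mk (f - c • g) + c • Submodule.Quotient.mk g := by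
          rw [← Submodule.Quotient.mk_smul, ← Submodule.Quotient.mk_add]
          congr 1
          ring
        rw [h2]
        exact Submodule.add_mem _ h1 (Submodule.smul_mem _ c hgr)
      by_cases hgap : (n + 1) ∈ gaps B Pinf
      · have hmemG : (n + 1) ∈ G := (hGmem _).mpr hgap
        refine step (u (n + 1)) (hu (n + 1)) ⟨Pi.single (⟨n + 1, hmemG⟩ : G) 1, ?_⟩
        rw [hψ]
        congr 1
        rw [Finset.sum_eq_single (⟨n + 1, hmemG⟩ : G)]
        · simp
        · intro t _ ht
          rw [Pi.single_eq_of_ne ht, zero_smul]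
        · intro hh
          exact absurd (Finset.mem_univ _) hh
      · rw [mem_gaps, not_and, not_forall] at hgap
        obtain ⟨b, hb⟩ := hgap (Nat.succ_pos n)
        rw [Classical.not_imp, not_not] at hb
        refine step (algebraMap B F b) hb.2 ?_
        have : algebraMap B F b ∈ W := by
          rw [hW]
          exact Submodule.mem_sup_left ((h.mem_bSub).mpr ⟨b, rfl⟩)
        rw [(Submodule.Quotient.mk_eq_zero W).mpr this]
        exact Submodule.zero_mem _
  have hsurj : Function.Surjective ψ := by
    intro x
    obtain ⟨f, rfl⟩ := Submodule.Quotient.mk_surjective W x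
    rcases eq_or_ne f 0 with rfl | hf
    · exact ⟨0, by simp⟩
    · have hvf : Pinf.adicValuation f ≠ 0 := Pinf.adicValuation_ne_zero hf
      refine hrange (WithZero.log (Pinf.adicValuation f)).toNat f ?_
      conv_lhs => rw [← WithZero.exp_log hvf]
      rw [WithZero.exp_le_exp]
      exact Int.self_le_toNat _
  have e : (G → K) ≃ₗ[K] F ⧸ W := LinearEquiv.ofBijective ψ ⟨hinj, hsurj⟩
  rw [← e.finrank_eq, Module.finrank_fintype_fun_eq_card, Fintype.card_coe]

/-- **The genus is the number of gaps** of `B` at the place at infinity. -/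
theorem genusFF_eq_card_gaps (h : OnePoint B Pinf pl) [HasPrincipalDivisors K F]
    (hdeg : Pinf.deg = 1) (hfin : (gaps B Pinf).Finite) :
    genusFF K F = hfin.toFinset.card := by
  rw [h.genusFF_eq_finrank, h.finrank_quot_eq_card_gaps hdeg hfin]

/-- The genus is the number of gaps, `Nat.card` form. -/
theorem genusFF_eq_natCard_gaps (h : OnePoint B Pinf pl) [HasPrincipalDivisors K F]
    (hdeg : Pinf.deg = 1) (hfin : (gaps B Pinf).Finite) :
    genusFF K F = Nat.card (gaps B Pinf) := by
  rw [h.genusFF_eq_card_gaps hdeg hfin, Nat.card_eq_card_finite_toFinset hfin]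

end OnePoint

end

end Fermat.Agent.S27.helper751
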