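import Mathlib
import Fermat.Prelude.Def_AlgebraicCurve_DivisorClassGroup
import Fermat.Agent.S27.helper751_OnePoint
import Fermat.Agent.S27.helper1061_CountCore

/-!
# S27, algebraic track: the one-point dictionary, principal divisors (helper751)

In the setting `OnePoint B Pinf pl` of `helper751_OnePoint` (the places of `F = Frac B` are the
maximal ideals of the Dedekind domain `B` plus one extra place `Pinf`), with `B` a `K`-algebra:

* `finrank_quot_finset_prod`, `finrank_quot_span_eq_sum` — the **sum formula**
  `dim_K B/bB = ∑_w ord_w b` (from `helper1061.finrank_quot_mul`);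
* `finrank_quot_eq_one_of_isAlgClosed` — the residue fields of `B` are `K` when `K` is
  algebraically closed;
* `OnePoint.exists_divisor_algebraMap` — the divisor of `b ∈ B`, of degree `0` as soon as
  `ord_Pinf b = - dim_K B/bB`;
* `OnePoint.hasPrincipalDivisors` — `HasPrincipalDivisors K F` (clause 1 of `Stmt_FF`).
-/

set_option autoImplicit false

open IsDedekindDomain AlgebraicCurve WithZero Module
open scoped nonZeroDivisors

namespace Fermat.Agent.S27.helper751

noncomputable section

variable {K F : Type*} [Field K] [Field F] [Algebra K F]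
variable {B : Type*} [CommRing B] [IsDedekindDomain B] [Algebra B F] [IsFractionRing B F]
variable [Algebra K B]

/-! ### The sum formula -/

section SumFormula

variable (hfin : ∀ b : B, b ≠ 0 → Module.Finite K (B ⧸ Ideal.span {b}))

include hfin

/-- Additivity of the codimension on finite products of nonzero ideals. -/
theorem finrank_quot_finset_prod {ι : Type*} (s : Finset ι) (J : ι → Ideal B)
    (hJ : ∀ i ∈ s, J i ≠ ⊥) :
    finrank K (B ⧸ ∏ i ∈ s, J i) = ∑ i ∈ s, finrank K (B ⧸ J i) := by
  classical
  induction s using Finset.induction_on with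
  | empty =>
    rw [Finset.prod_empty, Finset.sum_empty, Ideal.one_eq_top]
    exact helper1061.finrank_quot_top
  | insert a s ha ih =>
    rw [Finset.prod_insert ha, Finset.sum_insert ha,
      helper1061.finrank_quot_mul hfin (hJ a (Finset.mem_insert_self a s))
        (Finset.prod_ne_zero_iff.2 fun i hi => hJ i (Finset.mem_insert_of_mem hi)),
      ih fun i hi => hJ i (Finset.mem_insert_of_mem hi)]

/-- **Sum formula**: `dim_K B/bB` is the sum of the orders of `b` at the maximal ideals of `B`
(all residue fields being `K`). -/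
theorem finrank_quot_span_eq_sum
    (hres : ∀ w : HeightOneSpectrum B, finrank K (B ⧸ w.asIdeal) = 1) {b : B} (hb : b ≠ 0) :
    ∃ S : Finset (HeightOneSpectrum B), (∀ w ∉ S, w.intValuation b = 1) ∧
      (finrank K (B ⧸ Ideal.span {b}) : ℤ) = ∑ w ∈ S, -(WithZero.log (w.intValuation b)) := by
  classical
  have hI : Ideal.span {b} ≠ (0 : Ideal B) := by
    rw [Ne, Ideal.zero_eq_bot, Ideal.span_singleton_eq_bot]
    exact hb
  have hsupp := Ideal.hasFiniteMulSupport hI
  refine ⟨hsupp.toFinset, fun w hw => ?_, ?_⟩
  · have h1 : w.maxPowDividing (Ideal.span {b}) = 1 := by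
      by_contra hne
      exact hw (hsupp.mem_toFinset.2 hne)
    have h2 : (Associates.mk w.asIdeal).count (Associates.mk (Ideal.span {b})).factors = 0 := by
      unfold HeightOneSpectrum.maxPowDividing at h1
      rw [Ideal.one_eq_top, Ideal.pow_eq_top_iff] at h1
      exact h1.resolve_left w.isPrime.ne_top
    rw [HeightOneSpectrum.intValuation_if_neg w hb, h2]
    simp
  · have hprod : Ideal.span {b} = ∏ w ∈ hsupp.toFinset, w.maxPowDividing (Ideal.span {b}) := by
      rw [← finprod_eq_prod _ hsupp, Ideal.finprod_heightOneSpectrum_factorization hI]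
    have hne : ∀ w ∈ hsupp.toFinset, w.maxPowDividing (Ideal.span {b}) ≠ ⊥ := fun w _ =>
      pow_ne_zero _ w.ne_bot
    have key := finrank_quot_finset_prod hfin hsupp.toFinset
      (fun w => w.maxPowDividing (Ideal.span {b})) hne
    have h3 : ∀ w : HeightOneSpectrum B, finrank K (B ⧸ w.maxPowDividing (Ideal.span {b}))
        = (Associates.mk w.asIdeal).count (Associates.mk (Ideal.span {b})).factors := by
      intro w
      unfold HeightOneSpectrum.maxPowDividing
      rw [helper1061.finrank_quot_pow hfin w.ne_bot, hres w, mul_one]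
    have key2 : finrank K (B ⧸ Ideal.span {b})
        = ∑ w ∈ hsupp.toFinset,
            (Associates.mk w.asIdeal).count (Associates.mk (Ideal.span {b})).factors := by
      rw [← Finset.sum_congr rfl fun w _ => h3 w, ← key, ← hprod]
    rw [key2, Nat.cast_sum]
    refine Finset.sum_congr rfl fun w _ => ?_
    rw [HeightOneSpectrum.intValuation_if_neg w hb, WithZero.log_exp, neg_neg]

/-- Over an algebraically closed field the residue fields of `B` are `K`. -/
theorem finrank_quot_eq_one_of_isAlgClosed [IsAlgClosed K] (w : HeightOneSpectrum B) :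
    finrank K (B ⧸ w.asIdeal) = 1 := by
  have hmax : w.asIdeal.IsMaximal := w.isMaximal
  let : Field (B ⧸ w.asIdeal) := Ideal.Quotient.field w.asIdeal
  have hfd : Module.Finite K (B ⧸ w.asIdeal) := helper1061.finite_quot hfin w.ne_bot
  have hbij : Function.Bijective (algebraMap K (B ⧸ w.asIdeal)) :=
    IsAlgClosed.algebraMap_bijective_of_isIntegral
  have h1 := (LinearEquiv.ofBijective (Algebra.linearMap K (B ⧸ w.asIdeal)) hbij).finrank_eq
  rw [Module.finrank_self] at h1
  exact h1.symm

end SumFormula

/-! ### Principal divisors -/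

section Divisor

variable {Pinf : Place K F} {pl : HeightOneSpectrum B → Place K F}

/-- The divisor of an element of `B`; it has degree `0` when `ord_Pinf b = - dim_K B/bB`. -/
theorem OnePoint.exists_divisor_algebraMap (h : OnePoint B Pinf pl)
    (hdeg : ∀ P : Place K F, P.deg = 1)
    (hfin : ∀ b : B, b ≠ 0 → Module.Finite K (B ⧸ Ideal.span {b}))
    (hres : ∀ w : HeightOneSpectrum B, finrank K (B ⧸ w.asIdeal) = 1)
    (hinf : ∀ b : B, b ≠ 0 →
      Pinf.ord (algebraMap B F b) = -(finrank K (B ⧸ Ideal.span {b}) : ℤ))
    {b : B} (hb : b ≠ 0) :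
    ∃ D : Divisor K F, (∀ v : Place K F, D v = v.ord (algebraMap B F b)) ∧
      Divisor.degree D = 0 := by
  classical
  obtain ⟨S, hS, hsum⟩ := finrank_quot_span_eq_sum hfin hres hb
  have hord : ∀ w : HeightOneSpectrum B,
      (pl w).ord (algebraMap B F b) = -(WithZero.log (w.intValuation b)) := by
    intro w
    rw [h.ord_pl, HeightOneSpectrum.valuation_of_algebraMap]
  refine ⟨∑ w ∈ S, Finsupp.single (pl w) (-(WithZero.log (w.intValuation b)))
      - Finsupp.single Pinf (finrank K (B ⧸ Ideal.span {b}) : ℤ), fun v => ?_, ?_⟩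
  · rw [Finsupp.sub_apply, Finsupp.finsetSum_apply]
    by_cases hv : v = Pinf
    · have h0 : ∑ w ∈ S, (Finsupp.single (pl w) (-(WithZero.log (w.intValuation b))) :
          Divisor K F) v = 0 := by
        refine Finset.sum_eq_zero fun w _ => ?_
        rw [Finsupp.single_apply, if_neg]
        rw [hv]
        exact h.ne_inf w
      rw [h0, zero_sub, hv, Finsupp.single_eq_same, hinf b hb]
    · obtain ⟨w₀, rfl⟩ := h.surj v hv
      have hsumv : ∑ w ∈ S, (Finsupp.single (pl w) (-(WithZero.log (w.intValuation b))) :
          Divisor K F) (pl w₀) = -(WithZero.log (w₀.intValuation b)) := by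
        have hcongr : ∀ w ∈ S, (Finsupp.single (pl w) (-(WithZero.log (w.intValuation b))) :
            Divisor K F) (pl w₀)
              = if w = w₀ then -(WithZero.log (w₀.intValuation b)) else 0 := by
          intro w _
          rw [Finsupp.single_apply]
          by_cases hw : w = w₀
          · subst hw
            rw [if_pos rfl, if_pos rfl]
          · rw [if_neg hw, if_neg fun hpl => hw (h.pl_injective hpl)]
        rw [Finset.sum_congr rfl hcongr, Finset.sum_ite_eq' S w₀]
        split_ifs with hmem
        · rfl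
        · rw [hS w₀ hmem]
          simp
      rw [hsumv, Finsupp.single_apply, if_neg (Ne.symm (h.ne_inf w₀)), sub_zero, hord]
  · rw [map_sub, map_sum, Divisor.degree_single, hdeg Pinf, Nat.cast_one, mul_one]
    have hterm : ∀ w ∈ S, Divisor.degree (K := K) (F := F)
        (Finsupp.single (pl w) (-(WithZero.log (w.intValuation b))))
          = -(WithZero.log (w.intValuation b)) := by
      intro w _
      rw [Divisor.degree_single, hdeg (pl w), Nat.cast_one, mul_one]
    rw [Finset.sum_congr rfl hterm, ← hsum, sub_self]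

/-- **Clause 1 of `Stmt_FF`** in the one-point setting: principal divisors exist and have
degree zero. -/
theorem OnePoint.hasPrincipalDivisors (h : OnePoint B Pinf pl)
    (hdeg : ∀ P : Place K F, P.deg = 1)
    (hfin : ∀ b : B, b ≠ 0 → Module.Finite K (B ⧸ Ideal.span {b}))
    (hres : ∀ w : HeightOneSpectrum B, finrank K (B ⧸ w.asIdeal) = 1)
    (hinf : ∀ b : B, b ≠ 0 →
      Pinf.ord (algebraMap B F b) = -(finrank K (B ⧸ Ideal.span {b}) : ℤ)) :
    HasPrincipalDivisors K F := by
  refine ⟨fun f hf => ?_⟩
  obtain ⟨a, b, hb, rfl⟩ := IsFractionRing.div_surjective (A := B) f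
  have hb0 : b ≠ 0 := nonZeroDivisors.ne_zero hb
  have ha0 : a ≠ 0 := by
    rintro rfl
    simp at hf
  have ha' : algebraMap B F a ≠ 0 := (map_ne_zero_iff _ (IsFractionRing.injective B F)).2 ha0
  have hb' : algebraMap B F b ≠ 0 := (map_ne_zero_iff _ (IsFractionRing.injective B F)).2 hb0
  obtain ⟨Da, hDa, hdega⟩ := h.exists_divisor_algebraMap hdeg hfin hres hinf ha0
  obtain ⟨Db, hDb, hdegb⟩ := h.exists_divisor_algebraMap hdeg hfin hres hinf hb0
  refine ⟨Da - Db, fun v => ?_, by rw [map_sub, hdega, hdegb, sub_zero]⟩
  rw [Finsupp.sub_apply, hDa, hDb, div_eq_mul_inv, v.ord_mul ha' (inv_ne_zero hb'), v.ord_inv]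
  ring

end Divisor

end

end Fermat.Agent.S27.helper751
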