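import Mathlib
import Fermat.Agent.S27.helper3351_AlgSpec

/-!
# S27, algebraic track: first-order definability kit (helper7532)

Formulas in the language of rings are built from *symbolic data* living in `FreeCommRing α`
(`α` = type of free variables).  Every constructor comes with a `realize` lemma whose right
hand side is the corresponding statement about the realised data in an arbitrary field `K`
(any universe).

* `ev v : FreeCommRing α →+* K` : evaluation at a valuation `v : α → K`;
* `wk : FreeCommRing α →+* FreeCommRing (α ⊕ β)`, `nv b` : weakening / new variables, to be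
  used under `Formula.iExs β` / `Formula.iAlls β`;
* `eqZeroF t`, `polyZeroF P`, `dvdPowF j s P` (`(X - C s)^j ∣ P`, via the Taylor coefficients
  of `P(X + s)`: correct in every characteristic), `propF p`, `condF p φ`;
* generic (commutative ring) copies `polyOfR, toEltR, oneR, eR, genEltR, cR, mulR, npowR,
  lprodR, prodGenR` of the definitions of `helper3351_AlgSpec` (which are stated for fields),
  definitionally equal to them over a field, with naturality lemmas under ring homs.
-/

set_option autoImplicit false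

open Polynomial FirstOrder FirstOrder.Language FirstOrder.Ring

namespace Fermat.Agent.S27.helper7532

open Fermat.Agent.S27.helper3351

noncomputable section

/-! ## Evaluation, weakening, new variables -/

section Basic

variable {α β : Type} {K : Type*} [CommRing K]

/-- Evaluation of a symbolic scalar at a valuation. -/
def ev (v : α → K) : FreeCommRing α →+* K := FreeCommRing.lift v

/-- Weakening: a symbolic scalar in the variables `α` seen in the variables `α ⊕ β`. -/
def wk : FreeCommRing α →+* FreeCommRing (α ⊕ β) := FreeCommRing.map Sum.inl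

/-- The new variable `b`. -/
def nv (b : β) : FreeCommRing (α ⊕ β) := FreeCommRing.of (Sum.inr b)

@[simp] theorem ev_wk (v : α → K) (w : β → K) (t : FreeCommRing α) :
    ev (Sum.elim v w) (wk t) = ev v t := by
  have h : (ev (Sum.elim v w)).comp (wk (α := α) (β := β)) = ev v := by
    apply FreeCommRing.hom_ext
    intro x
    simp [ev, wk]
  exact congrArg (fun f : FreeCommRing α →+* K => f t) h

@[simp] theorem ev_nv (v : α → K) (w : β → K) (b : β) :
    ev (Sum.elim v w) (nv b : FreeCommRing (α ⊕ β)) = w b := by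
  simp [ev, nv]

@[simp] theorem ev_of (v : α → K) (a : α) : ev v (FreeCommRing.of a) = v a := by
  simp [ev]

end Basic

/-! ## Atomic formulas -/

section Atoms

variable {α : Type} {K : Type*} [Field K] [CompatibleRing K]

/-- The formula `t = 0`. -/
def eqZeroF (t : FreeCommRing α) : Language.ring.Formula α :=
  Term.equal (termOfFreeCommRing t) 0

@[simp] theorem realize_eqZeroF (v : α → K) (t : FreeCommRing α) :
    (eqZeroF t).Realize v ↔ ev v t = 0 := by
  simp [eqZeroF, Formula.Realize, Term.equal, ev]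

/-- The formula `P = 0` for a symbolic polynomial. -/
def polyZeroF (P : (FreeCommRing α)[X]) : Language.ring.Formula α :=
  Formula.iInf fun e : Fin (P.natDegree + 1) => eqZeroF (P.coeff e)

@[simp] theorem realize_polyZeroF (v : α → K) (P : (FreeCommRing α)[X]) :
    (polyZeroF P).Realize v ↔ P.map (ev v) = 0 := by
  simp only [polyZeroF, Formula.realize_iInf, realize_eqZeroF]
  constructor
  · intro h
    ext e
    simp only [coeff_map, coeff_zero]
    by_cases he : e ≤ P.natDegree
    · exact h ⟨e, Nat.lt_succ_of_le he⟩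
    · rw [coeff_eq_zero_of_natDegree_lt (not_le.mp he), map_zero]
  · intro h e
    have := congrArg (fun q : K[X] => q.coeff (e : ℕ)) h
    simpa [coeff_map] using this

/-- `(X - C a)^j ∣ p` iff the first `j` Taylor coefficients at `a` vanish (any characteristic). -/
theorem X_sub_C_pow_dvd_iff {S : Type*} [CommRing S] (a : S) (j : ℕ) (p : S[X]) :
    (X - C a) ^ j ∣ p ↔ ∀ e < j, (p.comp (X + C a)).coeff e = 0 := by
  rw [← Polynomial.X_pow_dvd_iff]
  have h1 : ((X - C a) ^ j).comp (X + C a) = X ^ j := by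
    simp
  constructor
  · rintro ⟨q, rfl⟩
    refine ⟨q.comp (X + C a), ?_⟩
    rw [mul_comp, h1]
  · rintro ⟨q, hq⟩
    refine ⟨q.comp (X - C a), ?_⟩
    have h2 : (p.comp (X + C a)).comp (X - C a) = p := by
      rw [comp_assoc]
      simp
    rw [← h2, hq, mul_comp]
    simp

/-- The formula `(X - C s)^j ∣ P`. -/
def dvdPowF (j : ℕ) (s : FreeCommRing α) (P : (FreeCommRing α)[X]) : Language.ring.Formula α :=
  Formula.iInf fun e : Fin j => eqZeroF ((P.comp (X + C s)).coeff e)

@[simp] theorem realize_dvdPowF (v : α → K) (j : ℕ) (s : FreeCommRing α)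
    (P : (FreeCommRing α)[X]) :
    (dvdPowF j s P).Realize v ↔ (X - C (ev v s)) ^ j ∣ P.map (ev v) := by
  simp only [dvdPowF, Formula.realize_iInf, realize_eqZeroF]
  rw [X_sub_C_pow_dvd_iff]
  have h : ∀ e : ℕ, ((P.map (ev v)).comp (X + C (ev v s))).coeff e
      = ev v ((P.comp (X + C s)).coeff e) := by
    intro e
    rw [← coeff_map, Polynomial.map_comp]
    simp
  constructor
  · intro hh e he
    rw [h]
    exact hh ⟨e, he⟩
  · intro hh e
    rw [← h]
    exact hh e e.2

open Classical in
/-- A constant formula. -/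
def propF (p : Prop) : Language.ring.Formula α := if p then ⊤ else ⊥

@[simp] theorem realize_propF (v : α → K) (p : Prop) :
    (propF p : Language.ring.Formula α).Realize v ↔ p := by
  by_cases h : p <;> simp [propF, h, Formula.Realize]

open Classical in
/-- `p → φ` for a meta-level condition `p`. -/
def condF (p : Prop) (φ : Language.ring.Formula α) : Language.ring.Formula α :=
  if p then φ else ⊤

@[simp] theorem realize_condF (v : α → K) (p : Prop) (φ : Language.ring.Formula α) :
    (condF p φ).Realize v ↔ (p → φ.Realize v) := by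
  by_cases h : p <;> simp [condF, h, Formula.Realize]

end Atoms

/-! ## Generic copies of the definitions of the Spec -/

section Generic

variable {τ : WType} {R : Type*} [CommRing R]

/-- Generic copy of `polyOf`. -/
def polyOfR {d : ℕ} (a : Fin (d + 1) → R) : R[X] :=
  ∑ e : Fin (d + 1), C (a e) * X ^ (e : ℕ)

/-- Generic copy of `BElt.toElt`. -/
def toEltR {d : ℕ} (b : BElt τ R d) : Elt τ R := fun i => polyOfR (b i)

/-- Generic copy of `Elt.one`. -/
def oneR : Elt τ R := fun i => if (i : ℕ) = 0 then 1 else 0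

/-- Generic copy of `Elt.e`. -/
def eR (i : Fin τ.m) : Elt τ R := fun j => if j = i then 1 else 0

/-- Generic copy of `genElt`. -/
def genEltR (x₀ : R) (ψ : Fin τ.m → R) : Option (Fin τ.m) → Elt τ R
  | none => fun i => if (i : ℕ) = 0 then X - C x₀ else 0
  | some j => fun i => (if i = j then 1 else 0) - (if (i : ℕ) = 0 then C (ψ j) else 0)

/-- Generic copy of `Tab.c`. -/
def cR (T : Tab τ R) (i j k : Fin τ.m) : R[X] := polyOfR (T i j k)

/-- Generic copy of `Tab.mul`. -/
def mulR (T : Tab τ R) (a b : Elt τ R) : Elt τ R :=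
  fun k => ∑ i, ∑ j, a i * b j * cR T i j k

/-- Generic copy of `Tab.npow`. -/
def npowR (T : Tab τ R) (a : Elt τ R) : ℕ → Elt τ R
  | 0 => oneR
  | n + 1 => mulR T (npowR T a n) a

/-- Generic copy of `Tab.lprod`. -/
def lprodR (T : Tab τ R) (l : List (Elt τ R)) : Elt τ R := l.foldl (mulR T) oneR

/-- Generic copy of `Tab.prodGen`. -/
def prodGenR (T : Tab τ R) (x₀ : R) (ψ : Fin τ.m → R) {j : ℕ}
    (a : Fin j → Option (Fin τ.m)) : Elt τ R :=
  lprodR T (List.ofFn fun s => genEltR x₀ ψ (a s))

end Generic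

section GenericField

variable {τ : WType} {K : Type*} [Field K]

theorem polyOf_eq {d : ℕ} (a : Fin (d + 1) → K) : polyOf a = polyOfR a := rfl
theorem toElt_eq {d : ℕ} (b : BElt τ K d) : b.toElt = toEltR b := rfl
theorem one_eq : (Elt.one : Elt τ K) = oneR := rfl
theorem e_eq (i : Fin τ.m) : (Elt.e i : Elt τ K) = eR i := rfl
theorem genElt_eq (x₀ : K) (ψ : Fin τ.m → K) (a : Option (Fin τ.m)) :
    genElt x₀ ψ a = genEltR x₀ ψ a := by
  cases a <;> rfl
theorem c_eq (T : Tab τ K) (i j k : Fin τ.m) : T.c i j k = cR T i j k := rfl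
theorem mul_eq (T : Tab τ K) (a b : Elt τ K) : T.mul a b = mulR T a b := rfl
theorem npow_eq (T : Tab τ K) (a : Elt τ K) (n : ℕ) : T.npow a n = npowR T a n := by
  induction n with
  | zero => rfl
  | succ n ih => show T.mul (T.npow a n) a = mulR T (npowR T a n) a; rw [ih]; rfl
theorem lprod_eq (T : Tab τ K) (l : List (Elt τ K)) : T.lprod l = lprodR T l := rfl
theorem prodGen_eq (T : Tab τ K) (x₀ : K) (ψ : Fin τ.m → K) {j : ℕ}
    (a : Fin j → Option (Fin τ.m)) : T.prodGen x₀ ψ a = prodGenR T x₀ ψ a := by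
  have h : (fun s => genElt x₀ ψ (a s)) = fun s => genEltR x₀ ψ (a s) :=
    funext fun s => genElt_eq x₀ ψ (a s)
  unfold Tab.prodGen prodGenR
  rw [lprod_eq, h]

end GenericField

/-! ## Naturality of the generic definitions -/

section Naturality

variable {τ : WType} {R S : Type*} [CommRing R] [CommRing S] (f : R →+* S)

/-- Map an element coefficientwise. -/
def mapE (a : Elt τ R) : Elt τ S := fun i => (a i).map f

/-- Map a table. -/
def mapTab (T : Tab τ R) : Tab τ S := fun i j k e => f (T i j k e)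

/-- Map a coefficient tuple. -/
def mapB {d : ℕ} (b : BElt τ R d) : BElt τ S d := fun i e => f (b i e)

theorem mapE_apply (a : Elt τ R) (i : Fin τ.m) : (a i).map f = mapE f a i := rfl

theorem map_polyOfR {d : ℕ} (a : Fin (d + 1) → R) :
    (polyOfR a).map f = polyOfR (fun e => f (a e)) := by
  simp [polyOfR, Polynomial.map_sum]

theorem mapE_toEltR {d : ℕ} (b : BElt τ R d) : mapE f (toEltR b) = toEltR (mapB f b) :=
  funext fun i => map_polyOfR f (b i)

theorem mapE_oneR : mapE f (oneR : Elt τ R) = oneR := by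
  funext i
  simp only [mapE, oneR]
  split_ifs <;> simp

theorem mapE_eR (i : Fin τ.m) : mapE f (eR i : Elt τ R) = eR i := by
  funext j
  simp only [mapE, eR]
  split_ifs <;> simp

theorem mapE_genEltR (x₀ : R) (ψ : Fin τ.m → R) (a : Option (Fin τ.m)) :
    mapE f (genEltR x₀ ψ a) = genEltR (f x₀) (fun i => f (ψ i)) a := by
  cases a with
  | none =>
    funext i
    simp only [mapE, genEltR]
    split_ifs <;> simp
  | some j =>
    funext i
    simp only [mapE, genEltR]
    split_ifs <;> simp

theorem map_cR (T : Tab τ R) (i j k : Fin τ.m) : (cR T i j k).map f = cR (mapTab f T) i j k :=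
  map_polyOfR f _

theorem mapE_mulR (T : Tab τ R) (a b : Elt τ R) :
    mapE f (mulR T a b) = mulR (mapTab f T) (mapE f a) (mapE f b) := by
  funext k
  simp [mapE, mulR, Polynomial.map_sum, map_cR]

theorem mapE_npowR (T : Tab τ R) (a : Elt τ R) (n : ℕ) :
    mapE f (npowR T a n) = npowR (mapTab f T) (mapE f a) n := by
  induction n with
  | zero => exact mapE_oneR f
  | succ n ih =>
    show mapE f (mulR T (npowR T a n) a) = mulR _ (npowR _ _ n) _
    rw [mapE_mulR, ih]

theorem mapE_foldl (T : Tab τ R) (l : List (Elt τ R)) (acc : Elt τ R) :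
    mapE f (l.foldl (mulR T) acc)
      = (l.map (mapE f)).foldl (mulR (mapTab f T)) (mapE f acc) := by
  induction l generalizing acc with
  | nil => rfl
  | cons x l ih =>
    simp only [List.foldl_cons, List.map_cons]
    rw [ih, mapE_mulR]

theorem mapE_lprodR (T : Tab τ R) (l : List (Elt τ R)) :
    mapE f (lprodR T l) = lprodR (mapTab f T) (l.map (mapE f)) := by
  unfold lprodR
  rw [mapE_foldl, mapE_oneR]

theorem mapE_prodGenR (T : Tab τ R) (x₀ : R) (ψ : Fin τ.m → R) {j : ℕ}
    (a : Fin j → Option (Fin τ.m)) :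
    mapE f (prodGenR T x₀ ψ a) = prodGenR (mapTab f T) (f x₀) (fun i => f (ψ i)) a := by
  have h : (mapE f ∘ fun s => genEltR x₀ ψ (a s))
      = fun s => genEltR (f x₀) (fun i => f (ψ i)) (a s) :=
    funext fun s => mapE_genEltR f x₀ ψ (a s)
  unfold prodGenR
  rw [mapE_lprodR, List.map_ofFn, h]

theorem mapE_sub (a b : Elt τ R) : mapE f (a - b) = mapE f a - mapE f b := by
  funext i
  simp [mapE]

theorem mapE_sum {ι : Type*} (s : Finset ι) (g : ι → Elt τ R) :
    mapE f (∑ x ∈ s, g x) = ∑ x ∈ s, mapE f (g x) := by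
  funext i
  simp [mapE, Finset.sum_apply, Polynomial.map_sum]

theorem mapE_sum_C_mul {ι : Type*} (s : Finset ι) (c : ι → R) (g : ι → Elt τ R) :
    mapE f (fun i => ∑ x ∈ s, C (c x) * g x i)
      = fun i => ∑ x ∈ s, C (f (c x)) * mapE f (g x) i := by
  funext i
  simp [mapE, Polynomial.map_sum]

theorem map_eval_apply (p : R[X]) (r : R) : f (p.eval r) = (p.map f).eval (f r) := by
  rw [eval_map, eval₂_at_apply]

end Naturality

/-! ## Weakening of symbolic data -/

section Weaken

variable {τ : WType} {α β : Type} {K : Type*} [CommRing K]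

/-- Weakening of a symbolic table. -/
def wkT (T : Tab τ (FreeCommRing α)) : Tab τ (FreeCommRing (α ⊕ β)) :=
  fun i j k e => wk (T i j k e)

/-- Weakening of a symbolic coefficient tuple. -/
def wkB {d : ℕ} (b : BElt τ (FreeCommRing α) d) : BElt τ (FreeCommRing (α ⊕ β)) d :=
  fun i e => wk (b i e)

/-- Weakening of a symbolic vector. -/
def wkV {ι : Type*} (ψ : ι → FreeCommRing α) : ι → FreeCommRing (α ⊕ β) :=
  fun i => wk (ψ i)

@[simp] theorem mapTab_wkT (v : α → K) (w : β → K) (T : Tab τ (FreeCommRing α)) :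
    mapTab (ev (Sum.elim v w)) (wkT T) = mapTab (ev v) T := by
  funext i j k e
  simp [mapTab, wkT]

@[simp] theorem mapB_wkB (v : α → K) (w : β → K) {d : ℕ} (b : BElt τ (FreeCommRing α) d) :
    mapB (ev (Sum.elim v w)) (wkB b) = mapB (ev v) b := by
  funext i e
  simp [mapB, wkB]

@[simp] theorem ev_wkV (v : α → K) (w : β → K) {ι : Type*} (ψ : ι → FreeCommRing α) (i : ι) :
    ev (Sum.elim v w) (wkV ψ i) = ev v (ψ i) := by
  simp [wkV]

/-- A symbolic coefficient tuple of new variables. -/
def nvB {d : ℕ} (g : Fin τ.m → Fin (d + 1) → β) : BElt τ (FreeCommRing (α ⊕ β)) d :=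
  fun i e => nv (g i e)

@[simp] theorem mapB_nvB (v : α → K) (w : β → K) {d : ℕ} (g : Fin τ.m → Fin (d + 1) → β) :
    mapB (ev (Sum.elim v w)) (nvB (α := α) g) = fun i e => w (g i e) := by
  funext i e
  simp [mapB, nvB]

/-- A symbolic table of new variables. -/
def nvT (g : Fin τ.m → Fin τ.m → Fin τ.m → Fin (τ.D + 1) → β) :
    Tab τ (FreeCommRing (α ⊕ β)) :=
  fun i j k e => nv (g i j k e)

@[simp] theorem mapTab_nvT (v : α → K) (w : β → K)
    (g : Fin τ.m → Fin τ.m → Fin τ.m → Fin (τ.D + 1) → β) :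
    mapTab (ev (Sum.elim v w)) (nvT (α := α) g) = fun i j k e => w (g i j k e) := by
  funext i j k e
  simp [mapTab, nvT]

end Weaken

/-! ## Coefficient lemmas for `polyOfR` -/

section Coeff

variable {R : Type*} [CommRing R] {d : ℕ}

theorem coeff_polyOfR (a : Fin (d + 1) → R) (e : Fin (d + 1)) :
    (polyOfR a).coeff e = a e := by
  simp only [polyOfR, finsetSum_coeff, coeff_C_mul, coeff_X_pow]
  rw [Finset.sum_eq_single e]
  · simp
  · intro b _ hb
    rw [if_neg, mul_zero]
    intro h
    exact hb (Fin.ext h.symm)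
  · simp

theorem coeff_polyOfR_of_lt (a : Fin (d + 1) → R) (e : ℕ) (he : d < e) :
    (polyOfR a).coeff e = 0 := by
  simp only [polyOfR, finsetSum_coeff, coeff_C_mul, coeff_X_pow]
  apply Finset.sum_eq_zero
  intro b _
  rw [if_neg, mul_zero]
  have := b.2
  omega

theorem natDegree_polyOfR_le (a : Fin (d + 1) → R) : (polyOfR a).natDegree ≤ d := by
  rw [natDegree_le_iff_coeff_eq_zero]
  intro N hN
  exact coeff_polyOfR_of_lt a N hN

theorem polyOfR_wt_iff (a : Fin (d + 1) → R) (m ρ t : ℕ) :
    (polyOfR a ≠ 0 → m * (polyOfR a).natDegree + ρ ≤ t) ↔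
      ∀ e : Fin (d + 1), ¬ (m * (e : ℕ) + ρ ≤ t) → a e = 0 := by
  constructor
  · intro h e he
    by_contra hne
    have hc : (polyOfR a).coeff e ≠ 0 := by rwa [coeff_polyOfR]
    have hp : polyOfR a ≠ 0 := fun h0 => hc (by rw [h0, coeff_zero])
    have hle : (e : ℕ) ≤ (polyOfR a).natDegree := le_natDegree_of_ne_zero hc
    exact he ((Nat.add_le_add_right (Nat.mul_le_mul_left m hle) ρ).trans (h hp))
  · intro h hp
    by_contra hlt
    have hN : (polyOfR a).natDegree ≤ d := natDegree_polyOfR_le a
    have hc : (polyOfR a).coeff (polyOfR a).natDegree ≠ 0 := by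
      rw [coeff_natDegree]
      exact leadingCoeff_ne_zero.mpr hp
    have h0 := h ⟨(polyOfR a).natDegree, Nat.lt_succ_of_le hN⟩ hlt
    rw [← coeff_polyOfR a ⟨(polyOfR a).natDegree, Nat.lt_succ_of_le hN⟩] at h0
    exact hc h0

theorem polyOfR_lead_iff (a : Fin (d + 1) → R) (m ρ t : ℕ) :
    (polyOfR a ≠ 0 ∧ m * (polyOfR a).natDegree + ρ = t) ↔
      ∃ e₀ : Fin (d + 1), m * (e₀ : ℕ) + ρ = t ∧ a e₀ ≠ 0 ∧
        ∀ e : Fin (d + 1), e₀ < e → a e = 0 := by
  constructor
  · rintro ⟨hp, ht⟩
    have hN : (polyOfR a).natDegree ≤ d := natDegree_polyOfR_le a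
    refine ⟨⟨(polyOfR a).natDegree, Nat.lt_succ_of_le hN⟩, ht, ?_, ?_⟩
    · rw [← coeff_polyOfR a ⟨(polyOfR a).natDegree, Nat.lt_succ_of_le hN⟩]
      show (polyOfR a).coeff (polyOfR a).natDegree ≠ 0
      rw [coeff_natDegree]
      exact leadingCoeff_ne_zero.mpr hp
    · intro e he
      rw [← coeff_polyOfR a e]
      exact coeff_eq_zero_of_natDegree_lt he
  · rintro ⟨e₀, ht, hne, hz⟩
    have hc : (polyOfR a).coeff e₀ ≠ 0 := by rwa [coeff_polyOfR]
    have hp : polyOfR a ≠ 0 := fun h0 => hc (by rw [h0, coeff_zero])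
    refine ⟨hp, ?_⟩
    have h1 : (e₀ : ℕ) ≤ (polyOfR a).natDegree := le_natDegree_of_ne_zero hc
    have h2 : (polyOfR a).natDegree ≤ e₀ := by
      rw [natDegree_le_iff_coeff_eq_zero]
      intro N hN
      by_cases hNd : N < d + 1
      · have := hz ⟨N, hNd⟩ hN
        rw [← coeff_polyOfR a ⟨N, hNd⟩] at this
        exact this
      · exact coeff_polyOfR_of_lt a N (by omega)
    rw [le_antisymm h2 h1]
    exact ht

end Coeff

end

end Fermat.Agent.S27.helper7532
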