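import Mathlib
import Fermat.Agent.S27.helper3351_AlgSpec
import Fermat.Agent.S27.helper7532_FOKit

/-!
# S27, algebraic track: `Spec_FO` (helper7532)

`Tab.Valid` and `Tab.Count n` of `helper3351_AlgSpec` are first-order definable in the
language of rings, uniformly in the field (any universe); hence `Spec_FO`.
-/

set_option autoImplicit false

open Polynomial FirstOrder FirstOrder.Language FirstOrder.Ring

namespace Fermat.Agent.S27.helper7532

open Fermat.Agent.S27.helper3351

noncomputable section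

variable {τ : WType} {α : Type}

/-! ## `IsPoint` -/

/-- The formula for `Tab.IsPoint`. -/
def isPointF (T : Tab τ (FreeCommRing α)) (x₀ : FreeCommRing α)
    (ψ : Fin τ.m → FreeCommRing α) : Language.ring.Formula α :=
  (Formula.iInf fun i : Fin τ.m => condF ((i : ℕ) = 0) (eqZeroF (ψ i - 1))) ⊓
  (Formula.iInf fun i : Fin τ.m => Formula.iInf fun j : Fin τ.m =>
     eqZeroF (ψ i * ψ j - ∑ k, (cR T i j k).eval x₀ * ψ k))

theorem realize_isPointF {K : Type*} [Field K] [CompatibleRing K] (v : α → K)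
    (T : Tab τ (FreeCommRing α)) (x₀ : FreeCommRing α) (ψ : Fin τ.m → FreeCommRing α) :
    (isPointF T x₀ ψ).Realize v ↔
      Tab.IsPoint (mapTab (ev v) T) (ev v x₀) (fun i => ev v (ψ i)) := by
  simp only [isPointF, Formula.realize_inf, Formula.realize_iInf, realize_condF, realize_eqZeroF,
    Tab.IsPoint, map_sub, map_one, map_mul, map_sum, sub_eq_zero, map_eval_apply, map_cR, c_eq]

/-! ## `OrdGE` -/

/-- The symbolic element whose divisibility by `(x - x₀)^j` expresses `OrdGE`. -/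
def ordElt (T : Tab τ (FreeCommRing α)) (x₀ : FreeCommRing α)
    (ψ : Fin τ.m → FreeCommRing α) {d : ℕ} (h : BElt τ (FreeCommRing α) d) (j : ℕ) :
    Elt τ (FreeCommRing (α ⊕ ((Fin j → Option (Fin τ.m)) × Fin τ.m × Fin (j + 1)))) :=
  toEltR (wkB h) -
    ∑ a : Fin j → Option (Fin τ.m),
      mulR (wkT T) (prodGenR (wkT T) (wk x₀) (wkV ψ) a) (toEltR (nvB fun i' e => (a, i', e)))

/-- The formula for `Tab.OrdGE` (the element is given by a symbolic coefficient tuple). -/
def ordGEF (T : Tab τ (FreeCommRing α)) (x₀ : FreeCommRing α)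
    (ψ : Fin τ.m → FreeCommRing α) {d : ℕ} (h : BElt τ (FreeCommRing α) d) (j : ℕ) :
    Language.ring.Formula α :=
  Formula.iExs ((Fin j → Option (Fin τ.m)) × Fin τ.m × Fin (j + 1))
    (Formula.iInf fun i : Fin τ.m => dvdPowF j (wk x₀) (ordElt T x₀ ψ h j i))

theorem map_ordElt {K : Type*} [Field K] (v : α → K)
    (T : Tab τ (FreeCommRing α)) (x₀ : FreeCommRing α) (ψ : Fin τ.m → FreeCommRing α)
    {d : ℕ} (h : BElt τ (FreeCommRing α) d) (j : ℕ)
    (w : (Fin j → Option (Fin τ.m)) × Fin τ.m × Fin (j + 1) → K) (i : Fin τ.m) :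
    (ordElt T x₀ ψ h j i).map (ev (Sum.elim v w))
      = ((BElt.toElt (mapB (ev v) h) -
            ∑ a : Fin j → Option (Fin τ.m),
              Tab.mul (mapTab (ev v) T)
                (Tab.prodGen (mapTab (ev v) T) (ev v x₀) (fun i => ev v (ψ i)) a)
                (BElt.toElt (fun i' e => w (a, i', e))) : Elt τ K)) i := by
  rw [mapE_apply, ordElt, mapE_sub, mapE_sum]
  simp only [mapE_mulR, mapE_prodGenR, mapE_toEltR, mapTab_wkT, mapB_wkB, mapB_nvB, ev_wk,
    ev_wkV, toElt_eq, mul_eq, prodGen_eq]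

theorem realize_ordGEF {K : Type*} [Field K] [CompatibleRing K] (v : α → K)
    (T : Tab τ (FreeCommRing α)) (x₀ : FreeCommRing α) (ψ : Fin τ.m → FreeCommRing α)
    {d : ℕ} (h : BElt τ (FreeCommRing α) d) (j : ℕ) :
    (ordGEF T x₀ ψ h j).Realize v ↔
      Tab.OrdGE (mapTab (ev v) T) (ev v x₀) (fun i => ev v (ψ i))
        (BElt.toElt (mapB (ev v) h)) j := by
  unfold ordGEF Tab.OrdGE
  rw [Formula.realize_iExs]
  simp only [Formula.realize_iInf, realize_dvdPowF, ev_wk, map_ordElt]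
  constructor
  · rintro ⟨w, hw⟩
    exact ⟨fun a i' e => w (a, i', e), hw⟩
  · rintro ⟨b, hb⟩
    exact ⟨fun p => b p.1 p.2.1 p.2.2, hb⟩

/-! ## `RegularAt` -/

/-- Index type of the inner existential block of `RegularAt`. -/
abbrev RegIdx (τ : WType) : Type :=
  (Fin τ.m × Fin 2) ⊕ (Option (Fin τ.m) × Option (Fin τ.m) × Fin τ.m × Fin 2)

/-- The symbolic element whose divisibility by `(x - x₀)^2` expresses `RegularAt`. -/
def regElt (T : Tab τ (FreeCommRing α)) (x₀ : FreeCommRing α)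
    (ψ : Fin τ.m → FreeCommRing α) (a : Option (Fin τ.m)) :
    Elt τ (FreeCommRing ((α ⊕ Option (Fin τ.m)) ⊕ RegIdx τ)) :=
  genEltR (wk (wk x₀)) (wkV (wkV ψ)) a
    - mulR (wkT (wkT T))
        (fun i' => ∑ a' : Option (Fin τ.m),
          C (wk (nv a')) * genEltR (wk (wk x₀)) (wkV (wkV ψ)) a' i')
        (toEltR (nvB fun i' e => Sum.inl (i', e)))
    - ∑ a' : Option (Fin τ.m), ∑ a'' : Option (Fin τ.m),
        mulR (wkT (wkT T))
          (mulR (wkT (wkT T)) (genEltR (wk (wk x₀)) (wkV (wkV ψ)) a')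
            (genEltR (wk (wk x₀)) (wkV (wkV ψ)) a''))
          (toEltR (nvB fun i' e => Sum.inr (a', a'', i', e)))

/-- The formula for `Tab.RegularAt`. -/
def regularAtF (T : Tab τ (FreeCommRing α)) (x₀ : FreeCommRing α)
    (ψ : Fin τ.m → FreeCommRing α) : Language.ring.Formula α :=
  Formula.iExs (Option (Fin τ.m))
    (Formula.iInf fun a : Option (Fin τ.m) =>
      Formula.iExs (RegIdx τ)
        (Formula.iInf fun i : Fin τ.m => dvdPowF 2 (wk (wk x₀)) (regElt T x₀ ψ a i)))

theorem map_regElt {K : Type*} [Field K] (v : α → K)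
    (T : Tab τ (FreeCommRing α)) (x₀ : FreeCommRing α) (ψ : Fin τ.m → FreeCommRing α)
    (a : Option (Fin τ.m)) (lam : Option (Fin τ.m) → K) (w : RegIdx τ → K) (i : Fin τ.m) :
    (regElt T x₀ ψ a i).map (ev (Sum.elim (Sum.elim v lam) w))
      = ((genElt (ev v x₀) (fun i => ev v (ψ i)) a
          - Tab.mul (mapTab (ev v) T)
              (fun i' => ∑ a' : Option (Fin τ.m),
                C (lam a') * genElt (ev v x₀) (fun i => ev v (ψ i)) a' i')
              (BElt.toElt (fun i' e => w (Sum.inl (i', e))))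
          - ∑ a' : Option (Fin τ.m), ∑ a'' : Option (Fin τ.m),
              Tab.mul (mapTab (ev v) T)
                (Tab.mul (mapTab (ev v) T) (genElt (ev v x₀) (fun i => ev v (ψ i)) a')
                  (genElt (ev v x₀) (fun i => ev v (ψ i)) a''))
                (BElt.toElt (fun i' e => w (Sum.inr (a', a'', i', e)))) : Elt τ K)) i := by
  rw [mapE_apply, regElt, mapE_sub, mapE_sub, mapE_sum]
  simp only [mapE_sum, mapE_mulR, mapE_genEltR, mapE_toEltR, mapE_sum_C_mul, mapTab_wkT,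
    mapB_nvB, ev_wk, ev_nv, ev_wkV, toElt_eq, mul_eq, genElt_eq]

theorem realize_regularAtF {K : Type*} [Field K] [CompatibleRing K] (v : α → K)
    (T : Tab τ (FreeCommRing α)) (x₀ : FreeCommRing α) (ψ : Fin τ.m → FreeCommRing α) :
    (regularAtF T x₀ ψ).Realize v ↔
      Tab.RegularAt (mapTab (ev v) T) (ev v x₀) (fun i => ev v (ψ i)) := by
  unfold regularAtF Tab.RegularAt
  simp only [Formula.realize_iExs, Formula.realize_iInf, realize_dvdPowF, ev_wk, map_regElt]
  constructor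
  · rintro ⟨lam, hlam⟩
    refine ⟨lam, fun a => ?_⟩
    obtain ⟨w, hw⟩ := hlam a
    exact ⟨fun i' e => w (Sum.inl (i', e)), fun a' a'' i' e => w (Sum.inr (a', a'', i', e)), hw⟩
  · rintro ⟨lam, hlam⟩
    refine ⟨lam, fun a => ?_⟩
    obtain ⟨b, b2, hb⟩ := hlam a
    exact ⟨Sum.elim (fun p => b p.1 p.2) (fun p => b2 p.1 p.2.1 p.2.2.1 p.2.2.2), hb⟩

/-! ## `Valid` -/

/-- The formula for `Tab.Valid`. -/
def validF (T : Tab τ (FreeCommRing α)) : Language.ring.Formula α :=
  propF τ.Good ⊓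
  (Formula.iInf fun j : Fin τ.m => Formula.iInf fun k : Fin τ.m =>
      polyZeroF (mulR T oneR (eR j) k - eR j k)) ⊓
  (Formula.iInf fun i : Fin τ.m => Formula.iInf fun j : Fin τ.m => Formula.iInf fun k : Fin τ.m =>
      polyZeroF (cR T i j k - cR T j i k)) ⊓
  (Formula.iInf fun i : Fin τ.m => Formula.iInf fun j : Fin τ.m => Formula.iInf fun k : Fin τ.m =>
    Formula.iInf fun l : Fin τ.m =>
      polyZeroF (mulR T (mulR T (eR i) (eR j)) (eR k) l - mulR T (eR i) (mulR T (eR j) (eR k)) l)) ⊓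
  (Formula.iInf fun i : Fin τ.m => Formula.iInf fun j : Fin τ.m => Formula.iInf fun k : Fin τ.m =>
    Formula.iInf fun e : Fin (τ.D + 1) =>
      condF (¬ τ.m * (e : ℕ) + τ.ρ k ≤ τ.ρ i + τ.ρ j) (eqZeroF (T i j k e))) ⊓
  (Formula.iInf fun i : Fin τ.m => Formula.iInf fun j : Fin τ.m => Formula.iInf fun k : Fin τ.m =>
      condF (((i : ℕ) + j) % τ.m = k)
        (Formula.iSup fun e₀ : Fin (τ.D + 1) =>
          propF (τ.m * (e₀ : ℕ) + τ.ρ k = τ.ρ i + τ.ρ j) ⊓ (eqZeroF (T i j k e₀)).not ⊓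
            Formula.iInf fun e : Fin (τ.D + 1) => condF (e₀ < e) (eqZeroF (T i j k e)))) ⊓
  Formula.iAlls (Option (Fin τ.m))
    ((isPointF (wkT T) (nv none) (fun i => nv (some i))).imp
      (regularAtF (wkT T) (nv none) (fun i => nv (some i))))

theorem realize_validF {K : Type*} [Field K] [CompatibleRing K] (v : α → K)
    (T : Tab τ (FreeCommRing α)) :
    (validF T).Realize v ↔ Tab.Valid (mapTab (ev v) T) := by
  have h1 : ∀ j k : Fin τ.m, ((mulR T oneR (eR j) k - eR j k).map (ev v) = 0) ↔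
      Tab.mul (mapTab (ev v) T) Elt.one (Elt.e j) k = (Elt.e j : Elt τ K) k := by
    intro j k
    rw [Polynomial.map_sub, sub_eq_zero, mapE_apply, mapE_apply, mapE_mulR, mapE_oneR, mapE_eR]
    rfl
  have h2 : ∀ i j k : Fin τ.m, ((cR T i j k - cR T j i k).map (ev v) = 0) ↔
      Tab.c (mapTab (ev v) T) i j k = Tab.c (mapTab (ev v) T) j i k := by
    intro i j k
    rw [Polynomial.map_sub, sub_eq_zero, map_cR, map_cR]
    rfl
  have h3 : ∀ i j k l : Fin τ.m,
      ((mulR T (mulR T (eR i) (eR j)) (eR k) l - mulR T (eR i) (mulR T (eR j) (eR k)) l).map (ev v)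
        = 0) ↔
      Tab.mul (mapTab (ev v) T) (Tab.mul (mapTab (ev v) T) (Elt.e i) (Elt.e j)) (Elt.e k) l
        = Tab.mul (mapTab (ev v) T) (Elt.e i) (Tab.mul (mapTab (ev v) T) (Elt.e j) (Elt.e k)) l := by
    intro i j k l
    rw [Polynomial.map_sub, sub_eq_zero, mapE_apply, mapE_apply]
    simp only [mapE_mulR, mapE_eR]
    rfl
  have h4 : ∀ i j k : Fin τ.m,
      (∀ e : Fin (τ.D + 1), ¬ τ.m * (e : ℕ) + τ.ρ k ≤ τ.ρ i + τ.ρ j → ev v (T i j k e) = 0) ↔
      (Tab.c (mapTab (ev v) T) i j k ≠ 0 →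
        τ.m * (Tab.c (mapTab (ev v) T) i j k).natDegree + τ.ρ k ≤ τ.ρ i + τ.ρ j) := by
    intro i j k
    exact (polyOfR_wt_iff (mapTab (ev v) T i j k) τ.m (τ.ρ k) (τ.ρ i + τ.ρ j)).symm
  have h5 : ∀ i j k : Fin τ.m,
      (∃ e₀ : Fin (τ.D + 1), τ.m * (e₀ : ℕ) + τ.ρ k = τ.ρ i + τ.ρ j ∧ ¬ ev v (T i j k e₀) = 0 ∧
        ∀ e : Fin (τ.D + 1), e₀ < e → ev v (T i j k e) = 0) ↔
      (Tab.c (mapTab (ev v) T) i j k ≠ 0 ∧
        τ.m * (Tab.c (mapTab (ev v) T) i j k).natDegree + τ.ρ k = τ.ρ i + τ.ρ j) := by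
    intro i j k
    exact (polyOfR_lead_iff (mapTab (ev v) T i j k) τ.m (τ.ρ k) (τ.ρ i + τ.ρ j)).symm
  have h6 : (∀ w : Option (Fin τ.m) → K,
        Tab.IsPoint (mapTab (ev v) T) (w none) (fun i => w (some i)) →
          Tab.RegularAt (mapTab (ev v) T) (w none) (fun i => w (some i))) ↔
      ∀ (x₀ : K) (ψ : Fin τ.m → K), Tab.IsPoint (mapTab (ev v) T) x₀ ψ →
        Tab.RegularAt (mapTab (ev v) T) x₀ ψ := by
    constructor
    · intro h x₀ ψ
      exact h (fun o => o.elim x₀ ψ)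
    · intro h w
      exact h (w none) (fun i => w (some i))
  unfold validF
  simp only [Formula.realize_inf, Formula.realize_iInf, Formula.realize_iSup, realize_condF,
    realize_propF, realize_polyZeroF, realize_eqZeroF, Formula.realize_not, Formula.realize_iAlls,
    Formula.realize_imp, realize_isPointF, realize_regularAtF, mapTab_wkT, ev_nv, h1, h2, h3, h4,
    h5, h6, and_assoc]
  constructor
  · rintro ⟨hg, ho, hc, ha, hw, hl, hr⟩
    exact ⟨hg, fun j => funext (ho j), hc, fun i j k => funext (ha i j k), hw, hl, hr⟩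
  · rintro ⟨hg, ho, hc, ha, hw, hl, hr⟩
    exact ⟨hg, fun j k => congrFun (ho j) k, hc, fun i j k l => congrFun (ha i j k) l, hw, hl, hr⟩

/-! ## `InH` -/

/-- The formula for `Tab.InH`. -/
def inHF (n : ℕ) (T : Tab τ (FreeCommRing α)) (h : BElt τ (FreeCommRing α) (n * τ.genus)) :
    Language.ring.Formula α :=
  (Formula.iInf fun i : Fin τ.m => polyZeroF (toEltR h i)).not ⊓
  (Formula.iInf fun i : Fin τ.m => Formula.iInf fun e : Fin (n * τ.genus + 1) =>
      condF (¬ τ.m * (e : ℕ) + τ.ρ i ≤ n * τ.genus) (eqZeroF (h i e))) ⊓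
  Formula.iAlls (Option (Fin τ.m))
    ((isPointF (wkT T) (nv none) (fun i => nv (some i))).imp
      (Formula.iSup fun j : Fin (n * τ.genus + 1) =>
        propF (n ∣ (j : ℕ)) ⊓ ordGEF (wkT T) (nv none) (fun i => nv (some i)) (wkB h) j ⊓
          (ordGEF (wkT T) (nv none) (fun i => nv (some i)) (wkB h) (j + 1)).not))

theorem realize_inHF {K : Type*} [Field K] [CompatibleRing K] (v : α → K) (n : ℕ)
    (T : Tab τ (FreeCommRing α)) (h : BElt τ (FreeCommRing α) (n * τ.genus)) :
    (inHF n T h).Realize v ↔ Tab.InH (mapTab (ev v) T) n (mapB (ev v) h) := by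
  have h1 : (∀ i : Fin τ.m, (toEltR h i).map (ev v) = 0) ↔
      BElt.toElt (mapB (ev v) h) = 0 := by
    constructor
    · intro hh
      funext i
      have := hh i
      rw [mapE_apply, mapE_toEltR] at this
      exact this
    · intro hh i
      rw [mapE_apply, mapE_toEltR]
      exact congrFun hh i
  have h2 : (∀ (i : Fin τ.m) (e : Fin (n * τ.genus + 1)),
        ¬ τ.m * (e : ℕ) + τ.ρ i ≤ n * τ.genus → ev v (h i e) = 0) ↔
      wtLE (BElt.toElt (mapB (ev v) h)) (n * τ.genus) := by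
    unfold wtLE
    exact forall_congr' fun i =>
      (polyOfR_wt_iff (mapB (ev v) h i) τ.m (τ.ρ i) (n * τ.genus)).symm
  have h3 : ∀ P : K → (Fin τ.m → K) → Prop,
      (∀ w : Option (Fin τ.m) → K, P (w none) (fun i => w (some i))) ↔
        ∀ (x₀ : K) (ψ : Fin τ.m → K), P x₀ ψ := by
    intro P
    constructor
    · intro hh x₀ ψ
      exact hh (fun o => o.elim x₀ ψ)
    · intro hh w
      exact hh (w none) (fun i => w (some i))
  have h4 : ∀ Q : ℕ → Prop, (∃ j : Fin (n * τ.genus + 1), Q j) ↔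
      ∃ j : ℕ, j ≤ n * τ.genus ∧ Q j := by
    intro Q
    constructor
    · rintro ⟨j, hj⟩
      exact ⟨j, Nat.lt_succ_iff.mp j.2, hj⟩
    · rintro ⟨j, hj, hQ⟩
      exact ⟨⟨j, Nat.lt_succ_of_le hj⟩, hQ⟩
  unfold inHF Tab.InH
  simp only [Formula.realize_inf, Formula.realize_iInf, Formula.realize_iSup, realize_condF,
    realize_propF, realize_polyZeroF, realize_eqZeroF, Formula.realize_not, Formula.realize_iAlls,
    Formula.realize_imp, realize_isPointF, realize_ordGEF, mapTab_wkT, mapB_wkB, ev_nv, h1, h2,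
    and_assoc]
  rw [h3 (fun x₀ ψ => Tab.IsPoint (mapTab (ev v) T) x₀ ψ →
    ∃ j : Fin (n * τ.genus + 1), n ∣ (j : ℕ) ∧
      Tab.OrdGE (mapTab (ev v) T) x₀ ψ (BElt.toElt (mapB (ev v) h)) j ∧
      ¬ Tab.OrdGE (mapTab (ev v) T) x₀ ψ (BElt.toElt (mapB (ev v) h)) (j + 1))]
  refine and_congr Iff.rfl (and_congr Iff.rfl
    (forall_congr' fun x₀ => forall_congr' fun ψ => imp_congr Iff.rfl ?_))
  exact h4 (fun j => n ∣ j ∧ Tab.OrdGE (mapTab (ev v) T) x₀ ψ (BElt.toElt (mapB (ev v) h)) j ∧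
    ¬ Tab.OrdGE (mapTab (ev v) T) x₀ ψ (BElt.toElt (mapB (ev v) h)) (j + 1))

/-! ## `Equiv` -/

/-- The symbolic element expressing `Tab.Equiv`. -/
def equivElt (n : ℕ) (T : Tab τ (FreeCommRing α))
    (h h' : BElt τ (FreeCommRing α) (n * τ.genus)) :
    Elt τ (FreeCommRing (α ⊕ (Fin τ.m × Fin (n * τ.genus + 1)))) :=
  npowR (wkT T) (toEltR (nvB fun i e => (i, e))) n
    - mulR (wkT T) (toEltR (wkB h)) (npowR (wkT T) (toEltR (wkB h')) (n - 1))

/-- The formula for `Tab.Equiv`. -/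
def equivF (n : ℕ) (T : Tab τ (FreeCommRing α))
    (h h' : BElt τ (FreeCommRing α) (n * τ.genus)) : Language.ring.Formula α :=
  Formula.iExs (Fin τ.m × Fin (n * τ.genus + 1))
    (Formula.iInf fun i : Fin τ.m => polyZeroF (equivElt n T h h' i))

theorem realize_equivF {K : Type*} [Field K] [CompatibleRing K] (v : α → K) (n : ℕ)
    (T : Tab τ (FreeCommRing α)) (h h' : BElt τ (FreeCommRing α) (n * τ.genus)) :
    (equivF n T h h').Realize v ↔
      Tab.Equiv (mapTab (ev v) T) n (mapB (ev v) h) (mapB (ev v) h') := by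
  have key : ∀ (w : Fin τ.m × Fin (n * τ.genus + 1) → K),
      (∀ i : Fin τ.m, (equivElt n T h h' i).map (ev (Sum.elim v w)) = 0) ↔
      Tab.npow (mapTab (ev v) T) (BElt.toElt (fun i e => w (i, e))) n
        = Tab.mul (mapTab (ev v) T) (BElt.toElt (mapB (ev v) h))
            (Tab.npow (mapTab (ev v) T) (BElt.toElt (mapB (ev v) h')) (n - 1)) := by
    intro w
    have hmap : mapE (ev (Sum.elim v w)) (equivElt n T h h')
        = Tab.npow (mapTab (ev v) T) (BElt.toElt (fun i e => w (i, e))) n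
          - Tab.mul (mapTab (ev v) T) (BElt.toElt (mapB (ev v) h))
            (Tab.npow (mapTab (ev v) T) (BElt.toElt (mapB (ev v) h')) (n - 1)) := by
      rw [equivElt, mapE_sub]
      simp only [mapE_mulR, mapE_npowR, mapE_toEltR, mapTab_wkT, mapB_wkB, mapB_nvB, toElt_eq,
        mul_eq, npow_eq]
    constructor
    · intro hh
      have h0 : mapE (ev (Sum.elim v w)) (equivElt n T h h') = 0 := funext hh
      rw [hmap] at h0
      exact sub_eq_zero.mp h0
    · intro hh i
      rw [mapE_apply, hmap, hh, sub_self]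
      rfl
  unfold equivF Tab.Equiv
  simp only [Formula.realize_iExs, Formula.realize_iInf, realize_polyZeroF, key]
  constructor
  · rintro ⟨w, hw⟩
    exact ⟨fun i e => w (i, e), hw⟩
  · rintro ⟨u, hu⟩
    exact ⟨fun p => u p.1 p.2, hu⟩

/-! ## `Count` -/

/-- Index type of the block of variables `hs` in `Count`. -/
abbrev HsIdx (τ : WType) (n : ℕ) : Type :=
  Fin (n ^ (2 * τ.genus)) × Fin τ.m × Fin (n * τ.genus + 1)

/-- Index type of the block of variables `h` in `Count`. -/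
abbrev HIdx (τ : WType) (n : ℕ) : Type := Fin τ.m × Fin (n * τ.genus + 1)

/-- The formula for `Tab.Count`. -/
def countF (n : ℕ) (T : Tab τ (FreeCommRing α)) : Language.ring.Formula α :=
  Formula.iExs (HsIdx τ n)
    ((Formula.iInf fun a : Fin (n ^ (2 * τ.genus)) =>
        inHF n (wkT T) (nvB fun i e => (a, i, e))) ⊓
     (Formula.iInf fun a : Fin (n ^ (2 * τ.genus)) =>
        Formula.iInf fun b : Fin (n ^ (2 * τ.genus)) =>
          condF (a ≠ b)
            (equivF n (wkT T) (nvB fun i e => (a, i, e)) (nvB fun i e => (b, i, e))).not) ⊓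
     Formula.iAlls (HIdx τ n)
       ((inHF n (wkT (wkT T)) (nvB fun i e => (i, e))).imp
         (Formula.iSup fun a : Fin (n ^ (2 * τ.genus)) =>
            equivF n (wkT (wkT T)) (nvB fun i e => (i, e)) (wkB (nvB fun i e => (a, i, e))))))

theorem realize_countF {K : Type*} [Field K] [CompatibleRing K] (v : α → K) (n : ℕ)
    (T : Tab τ (FreeCommRing α)) :
    (countF n T).Realize v ↔ Tab.Count (mapTab (ev v) T) n := by
  unfold countF Tab.Count
  simp only [Formula.realize_iExs, Formula.realize_inf, Formula.realize_iInf, Formula.realize_iSup,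
    realize_condF, Formula.realize_not, Formula.realize_iAlls, Formula.realize_imp, realize_inHF,
    realize_equivF, mapTab_wkT, mapB_wkB, mapB_nvB, and_assoc]
  constructor
  · rintro ⟨w, h1, h2, h3⟩
    refine ⟨fun a i e => w (a, i, e), h1, h2, fun h hh => ?_⟩
    exact h3 (fun p => h p.1 p.2) hh
  · rintro ⟨hs, h1, h2, h3⟩
    refine ⟨fun p => hs p.1 p.2.1 p.2.2, h1, h2, fun w' hh => ?_⟩
    exact h3 (fun i e => w' (i, e)) hh

/-! ## The sentence and `Spec_FO` -/

/-- Index type of the variables of a table. -/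
abbrev TabIdx (τ : WType) : Type := Fin τ.m × Fin τ.m × Fin τ.m × Fin (τ.D + 1)

/-- The sentence "every valid table of type `τ` has exactly `n^(2g)` classes of `n`-torsion". -/
def mainSentence (τ : WType) (n : ℕ) : Language.ring.Sentence :=
  Formula.iAlls (TabIdx τ)
    ((validF (nvT fun i j k e => (i, j, k, e))).imp
      (countF n (nvT fun i j k e => (i, j, k, e))))

theorem realize_mainSentence {K : Type*} [Field K] [CompatibleRing K] (τ : WType) (n : ℕ) :
    K ⊨ mainSentence τ n ↔ ∀ T : Tab τ K, T.Valid → T.Count n := by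
  unfold mainSentence
  rw [Sentence.Realize, Formula.realize_iAlls]
  simp only [Formula.realize_imp, realize_validF, realize_countF, mapTab_nvT]
  constructor
  · intro h T
    exact h (fun p => T p.1 p.2.1 p.2.2.1 p.2.2.2)
  · intro h w
    exact h (fun i j k e => w (i, j, k, e))

universe u

/-- **Spec_FO** of `helper3351_AlgSpec`: the count statement is a first-order sentence. -/
theorem spec_FO : Spec_FO.{u} := fun τ n =>
  ⟨mainSentence τ n, fun _ _ _ => realize_mainSentence τ n,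
    fun _ _ _ => realize_mainSentence τ n⟩

end

end Fermat.Agent.S27.helper7532
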