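/-
S27 building block (spec-independent, Mathlib only).

`span_eq_top_of_cover` : a discrete subgroup `Λ` of a finite-dimensional real normed space `V`
such that `V = Λ + (S ∪ N)` with `μ S < ∞` and `μ N = 0` (Haar measure) spans `V` over `ℝ`.

This is the "finite covolume" substitute for the maximum-modulus / compactness step in the
analytic route to S27 (the kernel of the Abel–Jacobi homomorphism has full rank).
Feed the conclusion to `Fermat.Agent.S27.helper1120.natCard_torsionBy_of_lattice`.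
-/
import Mathlib

set_option autoImplicit false

namespace Fermat.Agent.S27.helper7740

open MeasureTheory Module Submodule Metric

section Covolume

/-- Bounded-overlap inequality: if every point lies in at most `K` of the measurable sets
`A i`, then `∑ μ (S ∩ A i) ≤ K * μ S`. -/
theorem tsum_measure_inter_le_mul {V : Type*} [MeasurableSpace V] {ι : Type*} [Countable ι]
    (μ : Measure V) (S : Set V) (A : ι → Set V) (hA : ∀ i, MeasurableSet (A i)) (K : ℕ)
    (hK : ∀ x : V, ∀ F : Finset ι, (∀ i ∈ F, x ∈ A i) → F.card ≤ K) :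
    ∑' i, μ (S ∩ A i) ≤ K * μ S := by
  classical
  have h1 : ∀ i, μ (S ∩ A i) = ∫⁻ x in S, (A i).indicator (fun _ => (1 : ENNReal)) x ∂μ := by
    intro i
    rw [lintegral_indicator (hA i), setLIntegral_one, Measure.restrict_apply (hA i),
      Set.inter_comm]
  simp_rw [h1]
  rw [← lintegral_tsum (fun i => (measurable_const.indicator (hA i)).aemeasurable)]
  calc ∫⁻ x in S, ∑' i, (A i).indicator (fun _ => (1 : ENNReal)) x ∂μ
      ≤ ∫⁻ _ in S, (K : ENNReal) ∂μ := by
        apply lintegral_mono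
        intro x
        beta_reduce
        rw [ENNReal.tsum_eq_iSup_sum]
        apply iSup_le
        intro F
        have hF : ∑ i ∈ F, (A i).indicator (fun _ => (1 : ENNReal)) x
            = ((F.filter fun i => x ∈ A i).card : ENNReal) := by
          rw [Finset.card_eq_sum_ones, Finset.sum_filter]
          push_cast
          refine Finset.sum_congr rfl fun i _ => ?_
          by_cases hx : x ∈ A i <;> simp [hx]
        rw [hF]
        exact_mod_cast hK x (F.filter fun i => x ∈ A i) (fun i hi => (Finset.mem_filter.mp hi).2)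
    _ = K * μ S := by
        rw [setLIntegral_const]

/-- Covering inequality: if `B ⊆ Λ + (S ∪ N)` with `N` null and every translate class
`(s + Λ) ∩ B` has at most `K` points, then `μ B ≤ K * μ S`. -/
theorem measure_le_mul_of_cover {V : Type*} [NormedAddCommGroup V] [MeasurableSpace V]
    [BorelSpace V] (μ : Measure V) [μ.IsAddHaarMeasure] (Λ : AddSubgroup V)
    [Countable Λ] (S N B : Set V) (hN : μ N = 0) (hB : MeasurableSet B)
    (hcov : ∀ v ∈ B, ∃ l ∈ Λ, v - l ∈ S ∪ N) (K : ℕ)
    (hK : ∀ s : V, ∀ F : Finset Λ, (∀ l ∈ F, s + (l : V) ∈ B) → F.card ≤ K) :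
    μ B ≤ K * μ S := by
  have hsub : B ⊆ (⋃ l : Λ, {v | v - (l : V) ∈ S ∧ v ∈ B}) ∪ ⋃ l : Λ, {v | v - (l : V) ∈ N} := by
    intro v hv
    obtain ⟨l, hl, h⟩ := hcov v hv
    rcases h with h | h
    · exact Or.inl (Set.mem_iUnion.mpr ⟨⟨l, hl⟩, h, hv⟩)
    · exact Or.inr (Set.mem_iUnion.mpr ⟨⟨l, hl⟩, h⟩)
  have htr : ∀ (l : V) (T : Set V), μ {v | v - l ∈ T} = μ T := by
    intro l T
    have : {v | v - l ∈ T} = (fun v => v + (-l)) ⁻¹' T := by
      ext v; simp [sub_eq_add_neg]
    rw [this, measure_preimage_add_right]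
  have hnull : μ (⋃ l : Λ, {v | v - (l : V) ∈ N}) = 0 := by
    rw [measure_iUnion_null_iff]
    intro l
    rw [htr, hN]
  have hterm : ∀ l : Λ, μ {v | v - (l : V) ∈ S ∧ v ∈ B} = μ (S ∩ {x | x + (l : V) ∈ B}) := by
    intro l
    have h := htr (l : V) (S ∩ {x | x + (l : V) ∈ B})
    rw [← h]
    congr 1
    ext v
    simp
  calc μ B ≤ μ ((⋃ l : Λ, {v | v - (l : V) ∈ S ∧ v ∈ B}) ∪ ⋃ l : Λ, {v | v - (l : V) ∈ N}) :=
        measure_mono hsub
    _ ≤ μ (⋃ l : Λ, {v | v - (l : V) ∈ S ∧ v ∈ B}) + μ (⋃ l : Λ, {v | v - (l : V) ∈ N}) :=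
        measure_union_le _ _
    _ = μ (⋃ l : Λ, {v | v - (l : V) ∈ S ∧ v ∈ B}) := by rw [hnull, add_zero]
    _ ≤ ∑' l : Λ, μ {v | v - (l : V) ∈ S ∧ v ∈ B} := measure_iUnion_le _
    _ = ∑' l : Λ, μ (S ∩ {x | x + (l : V) ∈ B}) := by simp_rw [hterm]
    _ ≤ K * μ S := by
        refine tsum_measure_inter_le_mul μ S (fun l : Λ => {x | x + (l : V) ∈ B}) ?_ K ?_
        · intro l
          exact (measurable_add_const (l : V)) hB
        · intro x F hF
          exact hK x F hF

variable {V : Type*} [NormedAddCommGroup V] [NormedSpace ℝ V] [FiniteDimensional ℝ V]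
  [MeasurableSpace V] [BorelSpace V]

/-- **Finite covolume ⇒ full rank.** A discrete subgroup `Λ` of a finite-dimensional real
normed space with `V = Λ + (S ∪ N)`, `μ S < ∞`, `μ N = 0`, spans `V` over `ℝ`. -/
theorem span_eq_top_of_cover (μ : Measure V) [μ.IsAddHaarMeasure] (Λ : AddSubgroup V)
    [DiscreteTopology Λ] (S N : Set V) (hS : μ S ≠ ⊤) (hN : μ N = 0)
    (hcov : ∀ v : V, ∃ l ∈ Λ, v - l ∈ S ∪ N) :
    span ℝ (Λ : Set V) = ⊤ := by
  classical
  by_contra hne
  obtain ⟨L, hL0, hLker⟩ := Submodule.exists_le_ker_of_lt_top _ (lt_top_iff_ne_top.mpr hne)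
  have hLΛ : ∀ l ∈ Λ, L l = 0 := fun l hl => hLker (subset_span hl)
  -- a vector with `L u = 1`
  obtain ⟨u₀, hu₀⟩ : ∃ u₀, L u₀ ≠ 0 := by
    by_contra h
    exact hL0 (LinearMap.ext fun x => by
      by_contra hx
      exact h ⟨x, hx⟩)
  set u : V := (L u₀)⁻¹ • u₀ with hu
  have hLu : L u = 1 := by
    rw [hu, map_smul, smul_eq_mul, inv_mul_cancel₀ hu₀]
  -- continuity bound
  set Lc : V →L[ℝ] ℝ := LinearMap.toContinuousLinearMap L with hLc
  set C : ℝ := ‖Lc‖ with hC
  have hC0 : 0 ≤ C := norm_nonneg _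
  have hbound : ∀ x : V, |L x| ≤ C * ‖x‖ := by
    intro x
    have := Lc.le_opNorm x
    simpa [hLc, Real.norm_eq_abs] using this
  set c : ℝ := 2 * C + 1 with hc
  -- the balls
  let Bk : ℕ → Set V := fun k => closedBall ((k * c) • u) 1
  have hLball : ∀ k : ℕ, ∀ x ∈ Bk k, |L x - k * c| ≤ C := by
    intro k x hx
    have h1 : L x - k * c = L (x - (k * c) • u) := by
      rw [map_sub, map_smul, hLu, smul_eq_mul, mul_one]
    rw [h1]
    have h2 : ‖x - (k * c) • u‖ ≤ 1 := by
      have := mem_closedBall.mp hx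
      rwa [dist_eq_norm] at this
    calc |L (x - (k * c) • u)| ≤ C * ‖x - (k * c) • u‖ := hbound _
      _ ≤ C * 1 := by gcongr
      _ = C := mul_one C
  have hsame : ∀ k k' : ℕ, ∀ x ∈ Bk k, ∀ y ∈ Bk k', L x = L y → k = k' := by
    intro k k' x hx y hy hxy
    have h1 := hLball k x hx
    have h2 := hLball k' y hy
    rw [hxy] at h1
    have h3 : |(k : ℝ) * c - k' * c| ≤ 2 * C := by
      have : (k : ℝ) * c - k' * c = (L y - k' * c) - (L y - k * c) := by ring
      rw [this]
      calc |(L y - k' * c) - (L y - k * c)| ≤ |L y - k' * c| + |L y - k * c| := abs_sub _ _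
        _ ≤ C + C := add_le_add h2 h1
        _ = 2 * C := by ring
    have h4 : |(k : ℝ) - k'| * c ≤ 2 * C := by
      have hcpos : 0 < c := by rw [hc]; linarith
      rw [← abs_of_pos hcpos, ← abs_mul, sub_mul]
      simpa [abs_of_pos hcpos] using h3
    have h5 : |(k : ℝ) - k'| < 1 := by
      by_contra hge
      rw [not_lt] at hge
      have : c ≤ |(k : ℝ) - k'| * c := by
        have hcpos : 0 < c := by rw [hc]; linarith
        nlinarith
      rw [hc] at this
      linarith
    have h6 : ((k : ℤ) : ℝ) - ((k' : ℤ) : ℝ) = (((k : ℤ) - (k' : ℤ) : ℤ) : ℝ) := by push_cast; ring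
    have h7 : |((k : ℤ) - (k' : ℤ) : ℤ)| < 1 := by
      have : |(((k : ℤ) - (k' : ℤ) : ℤ) : ℝ)| < 1 := by
        rw [← h6]; simpa using h5
      exact_mod_cast this
    have h8 : (k : ℤ) - (k' : ℤ) = 0 := Int.abs_lt_one_iff.mp h7
    exact_mod_cast sub_eq_zero.mp h8
  have hdisj : Pairwise (Function.onFun Disjoint Bk) := by
    intro k k' hkk'
    rw [Function.onFun, Set.disjoint_left]
    intro x hx hx'
    exact hkk' (hsame k k' x hx x hx' rfl)
  -- countability and local finiteness of `Λ`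
  have hcount : Countable Λ := countable_of_Lindelof_of_discrete
  have hclosed : IsClosed (Λ : Set V) := AddSubgroup.isClosed_of_discrete
  have hfin : (closedBall (0 : V) 2 ∩ (Λ : Set V)).Finite :=
    Metric.finite_isBounded_inter_isClosed (isDiscrete_iff_discreteTopology.mpr inferInstance)
      isBounded_closedBall hclosed
  set K : ℕ := hfin.toFinset.card with hKdef
  set β : ENNReal := μ (closedBall (0 : V) 1) with hβ
  have hβpos : β ≠ 0 := (measure_closedBall_pos μ (0 : V) one_pos).ne'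
  -- the key inequality for every `m`
  have key : ∀ m : ℕ, (m : ENNReal) * β ≤ K * μ S := by
    intro m
    set B : Set V := ⋃ k ∈ Finset.range m, Bk k with hBdef
    have hBm : MeasurableSet B :=
      Finset.measurableSet_biUnion _ fun k _ => measurableSet_closedBall
    have hμB : μ B = m * β := by
      rw [hBdef, measure_biUnion_finset (fun k _ k' _ hkk' => hdisj hkk')
        (fun k _ => measurableSet_closedBall)]
      simp [Bk, Measure.addHaar_closedBall_center, hβ]
    rw [← hμB]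
    refine measure_le_mul_of_cover μ Λ S N B hN hBm (fun v _ => hcov v) K ?_
    intro s F hF
    rcases F.eq_empty_or_nonempty with rfl | ⟨l₀, hl₀⟩
    · simp
    -- all `s + l`, `l ∈ F`, lie in the same ball
    have hk : ∀ l ∈ F, ∃ k, s + (l : V) ∈ Bk k := by
      intro l hl
      have := hF l hl
      rw [hBdef] at this
      obtain ⟨k, -, hk⟩ := Set.mem_iUnion₂.mp this
      exact ⟨k, hk⟩
    obtain ⟨k₀, hk₀⟩ := hk l₀ hl₀
    have hall : ∀ l ∈ F, s + (l : V) ∈ Bk k₀ := by
      intro l hl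
      obtain ⟨k, hk'⟩ := hk l hl
      have : k = k₀ := by
        refine hsame k k₀ _ hk' _ hk₀ ?_
        rw [map_add, map_add, hLΛ l l.2, hLΛ l₀ l₀.2]
      rwa [this] at hk'
    -- injection of `F` into `closedBall 0 2 ∩ Λ`
    have hmaps : ∀ l ∈ F, ((l : V) - (l₀ : V)) ∈ hfin.toFinset := by
      intro l hl
      rw [Set.Finite.mem_toFinset]
      refine ⟨?_, Λ.sub_mem l.2 l₀.2⟩
      rw [mem_closedBall, dist_zero_right]
      have h1 := mem_closedBall.mp (hall l hl)
      have h2 := mem_closedBall.mp (hall l₀ hl₀)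
      rw [dist_eq_norm] at h1 h2
      have : (l : V) - (l₀ : V) = (s + (l : V) - (k₀ * c) • u) - (s + (l₀ : V) - (k₀ * c) • u) := by
        abel
      rw [this]
      calc ‖(s + (l : V) - (k₀ * c) • u) - (s + (l₀ : V) - (k₀ * c) • u)‖
          ≤ ‖s + (l : V) - (k₀ * c) • u‖ + ‖s + (l₀ : V) - (k₀ * c) • u‖ := norm_sub_le _ _
        _ ≤ 1 + 1 := add_le_add h1 h2
        _ = 2 := by norm_num
    refine Finset.card_le_card_of_injOn (fun l : Λ => (l : V) - (l₀ : V)) hmaps ?_
    intro l _ l' _ hll'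
    have : (l : V) = (l' : V) := by
      have := congrArg (fun x => x + (l₀ : V)) hll'
      simpa using this
    exact Subtype.ext this
  -- contradiction
  obtain ⟨m, hm⟩ := ENNReal.exists_nat_mul_gt hβpos
    (ENNReal.mul_ne_top (ENNReal.natCast_ne_top K) hS)
  exact absurd (key m) (not_le.mpr hm)

/-- Version for the kernel of an additive map `E : V →+ A`: if `ker E` is discrete and every
value of `E` is attained on `S ∪ N` with `μ S < ∞`, `μ N = 0`, then `ker E` spans `V`. -/
theorem span_ker_eq_top_of_cover {A : Type*} [AddCommGroup A] (μ : Measure V)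
    [μ.IsAddHaarMeasure] (E : V →+ A) (hdisc : DiscreteTopology E.ker) (S N : Set V)
    (hS : μ S ≠ ⊤) (hN : μ N = 0) (hcov : ∀ v : V, ∃ w ∈ S ∪ N, E w = E v) :
    span ℝ (E.ker : Set V) = ⊤ := by
  refine span_eq_top_of_cover μ E.ker S N hS hN ?_
  intro v
  obtain ⟨w, hw, hwv⟩ := hcov v
  refine ⟨v - w, ?_, ?_⟩
  · rw [AddMonoidHom.mem_ker, map_sub, hwv, sub_self]
  · rwa [sub_sub_cancel]

end Covolume

end Fermat.Agent.S27.helper7740
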