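import Fermat.Agent.S27.helper6247_Spec
import Fermat.Agent.S24.helper204_Places

/-!
# S27, module M5d: `Stmt_Connected` (helper7884)

Connectedness of the curve in the chart language of `helper6247_Spec`:
a nonempty set of places that is saturated under all charts is everything.

Proof (as in the Spec docstring).  Let `P₁ ∈ S` and let `f` be a nonconstant function whose
only possible pole is `P₁` (Riemann).  Let `V ⊆ ℂ` be the set of values of `f` at the places
outside `S`.  Then

* `V` is open: open mapping theorem along a chart centred at a place outside `S`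
  (all points of such a chart are outside `S` by saturation);
* `V` is closed: `Stmt_LocalFibre` for `f - a` (zeros of `f - b`, `b` near `a`, lie in charts
  centred at the zeros of `f - a`, and saturation moves non-membership in `S` to the centre);
* `V` is bounded: `Stmt_LocalFibre` for `f⁻¹` with the chart at `P₁`.

A clopen bounded subset of `ℂ` is empty, so every place lies in `S`.

Main result: `connected_of`.
-/

set_option autoImplicit false

open AlgebraicCurve IntermediateField
open scoped Topology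

namespace Fermat.Agent.S27.helper7884

open Fermat.Agent.S27.helper6247
open Fermat.Agent.S24

section Generic

variable {K F : Type*} [Field K] [Field F] [Algebra K F]

/-- Every place has a uniformizer. -/
theorem exists_ord_eq_one (P : Place K F) : ∃ u : F, P.ord u = 1 := by
  obtain ⟨π, hπ⟩ := IsDiscreteValuationRing.exists_irreducible P.toValuationSubring
  exact ⟨π, P.ord_coe_irreducible hπ⟩

/-- A nonzero function has finitely many zeros. -/
theorem finite_zeros [HasPrincipalDivisors K F] {h : F} (hh : h ≠ 0) :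
    {v : Place K F | 0 < v.ord h}.Finite := by
  obtain ⟨D, hD, -⟩ := HasPrincipalDivisors.exists_divisor (K := K) h hh
  refine D.support.finite_toSet.subset fun v hv => ?_
  rw [Finset.mem_coe, Finsupp.mem_support_iff, hD v]
  exact ne_of_gt hv

/-- Enumeration of the zeros of a nonzero function. -/
theorem exists_enum_zeros [HasPrincipalDivisors K F] {h : F} (hh : h ≠ 0) :
    ∃ (m : ℕ) (vz : Fin m → Place K F), (∀ k, 0 < (vz k).ord h) ∧
      ∀ v : Place K F, 0 < v.ord h → ∃ k, v = vz k := by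
  classical
  have hfin := finite_zeros (K := K) hh
  refine ⟨hfin.toFinset.card, fun k => ((hfin.toFinset.equivFin).symm k : Place K F), ?_, ?_⟩
  · intro k
    have := ((hfin.toFinset.equivFin).symm k).2
    rw [Set.Finite.mem_toFinset] at this
    exact this
  · intro v hv
    have hmem : v ∈ hfin.toFinset := by
      rw [Set.Finite.mem_toFinset]
      exact hv
    refine ⟨hfin.toFinset.equivFin ⟨v, hmem⟩, ?_⟩
    show v = ((hfin.toFinset.equivFin).symm (hfin.toFinset.equivFin ⟨v, hmem⟩) : Place K F)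
    rw [Equiv.symm_apply_apply]

end Generic

section Complex

variable {F : Type} [Field F] [Algebra ℂ F]

/-- If `f` is regular at `P` and not the constant `ev P f`, then `f - ev P f` vanishes at
`P`. -/
theorem ord_sub_ev_pos (hEv : Stmt_Ev.{0, 0}) (x : F) (hx : Transcendental ℂ x)
    [FiniteDimensional ℂ⟮x⟯ F] (P : Place ℂ F) {f : F} (hf : 0 ≤ P.ord f)
    (hne : f ≠ algebraMap ℂ F (ev P f)) :
    0 < P.ord (f - algebraMap ℂ F (ev P f)) := by
  obtain ⟨h1, h2, h3, -⟩ := hEv ℂ F x hx P
  have hc : 0 ≤ P.ord (algebraMap ℂ F (-ev P f)) := by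
    rw [helper204.ord_algebraMap_eq_zero]
  have hadd := (h2 f (algebraMap ℂ F (-ev P f)) hf hc).1
  rw [h1, add_neg_cancel] at hadd
  have heq : f + algebraMap ℂ F (-ev P f) = f - algebraMap ℂ F (ev P f) := by
    rw [map_neg, sub_eq_add_neg]
  rw [heq] at hadd
  have hreg : 0 ≤ P.ord (f - algebraMap ℂ F (ev P f)) := by
    rw [helper204.ord_nonneg_iff]
    exact sub_mem ((helper204.ord_nonneg_iff P).mp hf) (P.algebraMap_mem' _)
  rcases (h3 _ hreg).mp hadd with h0 | hpos
  · exact absurd (sub_eq_zero.mp h0) hne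
  · exact hpos

/-- The chart coordinate has value `s` at the chart point `Q s`. -/
theorem ev_chart (hEv : Stmt_Ev.{0, 0}) (x : F) (hx : Transcendental ℂ x)
    [FiniteDimensional ℂ⟮x⟯ F] {u : F} {Q : ℂ → Place ℂ F} {r : ℝ} (hQ : IsChart u Q r)
    {s : ℂ} (hs : s ∈ Metric.ball (0 : ℂ) r) : ev (Q s) u = s := by
  obtain ⟨-, -, -, h4⟩ := hEv ℂ F x hx (Q s)
  apply h4 u s
  rw [hQ.unif s hs]
  exact Int.one_pos

/-- Distinct parameters of a chart give distinct places. -/
theorem chart_injOn (hEv : Stmt_Ev.{0, 0}) (x : F) (hx : Transcendental ℂ x)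
    [FiniteDimensional ℂ⟮x⟯ F] {u : F} {Q : ℂ → Place ℂ F} {r : ℝ} (hQ : IsChart u Q r) :
    Set.InjOn Q (Metric.ball (0 : ℂ) r) := by
  intro s hs s' hs' h
  rw [← ev_chart hEv x hx hQ hs, ← ev_chart hEv x hx hQ hs', h]

/-- Riemann: a nonconstant function that is regular away from a given place. -/
theorem exists_regular_off (hR : Stmt_Riemann.{0, 0}) (x : F) (hx : Transcendental ℂ x)
    [FiniteDimensional ℂ⟮x⟯ F] (P₁ : Place ℂ F) :
    ∃ f : F, f ∉ Set.range (algebraMap ℂ F) ∧ ∀ v : Place ℂ F, v ≠ P₁ → 0 ≤ v.ord f := by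
  classical
  obtain ⟨hfin, hrr, -⟩ := hR ℂ F x hx
  set D : Divisor ℂ F := Finsupp.single P₁ ((genusFF ℂ F : ℤ) + 1) with hD
  have hdeg : Divisor.degree D = (genusFF ℂ F : ℤ) + 1 := by
    rw [hD, Divisor.degree_single, helper204.place_deg_eq_one x hx P₁]
    simp
  have h2 : 2 ≤ Module.finrank ℂ (riemannRochSpace D) := by
    have h := hrr D
    rw [hdeg] at h
    have h1 : (0 : ℤ) ≤ (Module.finrank ℂ (H1 D) : ℤ) := Int.natCast_nonneg _
    omega
  have h1mem : (1 : F) ∈ riemannRochSpace D := by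
    rw [mem_riemannRochSpace_iff]
    intro v
    right
    rw [Place.ord_one, hD, Finsupp.single_apply]
    split_ifs
    · have : (0 : ℤ) ≤ (genusFF ℂ F : ℤ) := Int.natCast_nonneg _
      omega
    · simp
  by_contra hcon
  push Not at hcon
  have hDv : ∀ v : Place ℂ F, v ≠ P₁ → D v = 0 := by
    intro v hv
    rw [hD, Finsupp.single_apply, if_neg (Ne.symm hv)]
  have hle : Module.finrank ℂ (riemannRochSpace D) ≤ 1 := by
    apply finrank_le_one (⟨1, h1mem⟩ : riemannRochSpace D)
    intro w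
    by_cases hw : (w : F) ∈ Set.range (algebraMap ℂ F)
    · obtain ⟨c, hc⟩ := hw
      refine ⟨c, Subtype.ext ?_⟩
      rw [Submodule.coe_smul, ← hc, Algebra.smul_def, mul_one]
    · exfalso
      obtain ⟨v, hv, hlt⟩ := hcon w hw
      rcases (mem_riemannRochSpace_iff.mp w.2) v with h0 | h
      · rw [h0, Place.ord_zero] at hlt
        exact lt_irrefl _ hlt
      · rw [hDv v hv] at h
        omega
  omega

/-- **M5d.** Connectedness: a nonempty set of places saturated under all charts is
everything. -/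
theorem connected_of (hEv : Stmt_Ev.{0, 0}) (hR : Stmt_Riemann.{0, 0})
    (hCh : Stmt_ChartExists) (hLF : Stmt_LocalFibre) : Stmt_Connected := by
  intro F _ _ x hx _ S hSne hsat
  by_contra hne
  obtain ⟨P₁, hP₁⟩ := hSne
  obtain ⟨P₂, hP₂⟩ : ∃ P₂, P₂ ∉ S := by
    by_contra h
    push Not at h
    exact hne (Set.eq_univ_of_forall h)
  have : HasPrincipalDivisors ℂ F := helper204.hasPrincipalDivisors x hx
  obtain ⟨f, hfK, hfreg⟩ := exists_regular_off hR x hx P₁
  have hft : Transcendental ℂ f := helper204.transcendental_of_not_mem_range hfK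
  have hfc : ∀ c : ℂ, f ≠ algebraMap ℂ F c := fun c h => hfK ⟨c, h.symm⟩
  have hsub0 : ∀ c : ℂ, f - algebraMap ℂ F c ≠ 0 := fun c h => hfc c (sub_eq_zero.mp h)
  have hreg : ∀ P, P ∉ S → 0 ≤ P.ord f := fun P hP => hfreg P (fun h => hP (h ▸ hP₁))
  have hzero : ∀ P, P ∉ S → 0 < P.ord (f - algebraMap ℂ F (ev P f)) := fun P hP =>
    ord_sub_ev_pos hEv x hx P (hreg P hP) (hfc _)
  set V : Set ℂ := {a | ∃ P, P ∉ S ∧ ev P f = a} with hV
  -- `V` is open
  have hopen : IsOpen V := by
    rw [isOpen_iff_mem_nhds]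
    rintro _ ⟨P, hPS, rfl⟩
    obtain ⟨u, hu⟩ := exists_ord_eq_one P
    obtain ⟨Q, r, hQ, hQ0⟩ := hCh F x hx P u hu
    have hoff : ∀ s ∈ Metric.ball (0 : ℂ) r, Q s ∉ S := fun s hs h =>
      hPS (hQ0 ▸ (hsat u Q r hQ s hs).mpr h)
    have hball : Metric.ball (0 : ℂ) r ∈ 𝓝 (0 : ℂ) := Metric.ball_mem_nhds 0 hQ.pos
    obtain ⟨-, han⟩ := hQ.analytic f 0 (Metric.mem_ball_self hQ.pos)
      (by rw [hQ0]; exact hreg P hPS)
    rcases han.eventually_constant_or_nhds_le_map_nhds with hconst | hmap
    · exfalso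
      have hT : {s : ℂ | s ∈ Metric.ball (0 : ℂ) r ∧ ev (Q s) f = ev (Q 0) f} ∈ 𝓝 (0 : ℂ) :=
        Filter.inter_mem hball hconst
      have hTinf := infinite_of_mem_nhds (0 : ℂ) hT
      apply hTinf
      refine Set.Finite.of_finite_image
        ((finite_zeros (K := ℂ) (hsub0 (ev (Q 0) f))).subset ?_)
        ((chart_injOn hEv x hx hQ).mono fun s hs => hs.1)
      rintro _ ⟨s, ⟨hs, hsev⟩, rfl⟩
      have := hzero (Q s) (hoff s hs)
      rw [hsev] at this
      exact this
    · have hVmem : V ∈ Filter.map (fun s => ev (Q s) f) (𝓝 (0 : ℂ)) :=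
        Filter.mem_map.mpr (Filter.mem_of_superset hball fun s hs => ⟨Q s, hoff s hs, rfl⟩)
      have := hmap hVmem
      rwa [hQ0] at this
  -- `V` is closed
  have hclosed : IsClosed V := by
    rw [← closure_subset_iff_isClosed]
    intro a ha
    obtain ⟨m, vz, hvz, hvzall⟩ := exists_enum_zeros (K := ℂ) (hsub0 a)
    have hht : Transcendental ℂ (f - algebraMap ℂ F a) := by
      intro halg
      apply hft
      have := halg.add (isAlgebraic_algebraMap (R := ℂ) (A := F) a)
      rwa [sub_add_cancel] at this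
    choose u hu using fun k => exists_ord_eq_one (vz k)
    choose Q r hQ hQ0 using fun k => hCh F x hx (vz k) (u k) (hu k)
    obtain ⟨δ, hδ, hfib⟩ := hLF F x hx (f - algebraMap ℂ F a) hht m u Q r r hQ
      (fun k => (hQ k).pos) (fun v hv => by
        obtain ⟨k, hk⟩ := hvzall v hv
        exact ⟨k, by rw [hQ0 k, hk]⟩)
    obtain ⟨b, hbV, hdist⟩ := Metric.mem_closure_iff.mp ha δ hδ
    obtain ⟨P, hPS, rfl⟩ := hbV
    have hpos : 0 < P.ord (f - algebraMap ℂ F a - algebraMap ℂ F (ev P f - a)) := by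
      have heq : f - algebraMap ℂ F a - algebraMap ℂ F (ev P f - a)
          = f - algebraMap ℂ F (ev P f) := by
        rw [map_sub]
        ring
      rw [heq]
      exact hzero P hPS
    have hnorm : ‖ev P f - a‖ < δ := by
      rw [← dist_eq_norm, dist_comm]
      exact hdist
    obtain ⟨k, s, -, hsr, hPk⟩ := hfib (ev P f - a) hnorm P hpos
    have hs : s ∈ Metric.ball (0 : ℂ) (r k) := by
      rw [Metric.mem_ball, dist_zero_right]
      exact hsr
    have hk : Q k 0 ∉ S := fun hmem =>
      hPS (hPk ▸ (hsat (u k) (Q k) (r k) (hQ k) s hs).mp hmem)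
    refine ⟨Q k 0, hk, ?_⟩
    obtain ⟨-, -, -, h4⟩ := hEv ℂ F x hx (Q k 0)
    apply h4 f a
    rw [hQ0 k]
    exact hvz k
  -- `V` is bounded
  have hbdd : ∃ R : ℝ, ∀ a ∈ V, ‖a‖ ≤ R := by
    have hht : Transcendental ℂ f⁻¹ := helper204.transcendental_inv hft
    obtain ⟨u, hu⟩ := exists_ord_eq_one P₁
    obtain ⟨Q, r, hQ, hQ0⟩ := hCh F x hx P₁ u hu
    obtain ⟨δ, hδ, hfib⟩ := hLF F x hx f⁻¹ hht 1 (fun _ => u) (fun _ => Q) (fun _ => r)
      (fun _ => r) (fun _ => hQ) (fun _ => hQ.pos) (fun v hv => by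
        refine ⟨0, ?_⟩
        rw [Place.ord_inv] at hv
        by_contra hvne
        have := hfreg v (by rw [hQ0] at hvne; exact hvne)
        omega)
    refine ⟨δ⁻¹, ?_⟩
    rintro _ ⟨P, hPS, rfl⟩
    by_contra hgt
    push Not at hgt
    have hb0 : ev P f ≠ 0 := by
      intro hb
      rw [hb, norm_zero] at hgt
      exact absurd hgt (not_lt.mpr (inv_nonneg.mpr hδ.le))
    have hnorm : ‖(ev P f)⁻¹‖ < δ := by
      rw [norm_inv]
      exact inv_lt_of_inv_lt₀ hδ hgt
    have hf0 : f ≠ 0 := fun h => hfc 0 (by rw [h, map_zero])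
    have hordf : P.ord f = 0 := by
      obtain ⟨-, -, h3, -⟩ := hEv ℂ F x hx P
      have h := h3 f (hreg P hPS)
      have hnot : ¬ 0 < P.ord f := fun hp => hb0 (h.mpr (Or.inr hp))
      have := hreg P hPS
      omega
    have hcne : algebraMap ℂ F (-(ev P f)⁻¹) ≠ 0 := by
      rw [Ne, map_eq_zero, neg_eq_zero, inv_eq_zero]
      exact hb0
    have hpos : 0 < P.ord (f⁻¹ - algebraMap ℂ F (ev P f)⁻¹) := by
      have heq : f⁻¹ - algebraMap ℂ F (ev P f)⁻¹
          = (f - algebraMap ℂ F (ev P f)) * (algebraMap ℂ F (-(ev P f)⁻¹) * f⁻¹) := by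
        have hc0 : algebraMap ℂ F (ev P f) ≠ 0 := by
          rw [Ne, map_eq_zero]
          exact hb0
        rw [map_neg, map_inv₀]
        field_simp
        ring
      rw [heq, P.ord_mul (hsub0 _) (mul_ne_zero hcne (inv_ne_zero hf0)),
        P.ord_mul hcne (inv_ne_zero hf0), helper204.ord_algebraMap_eq_zero, Place.ord_inv,
        hordf]
      have := hzero P hPS
      omega
    obtain ⟨k, s, -, hsr, hPk⟩ := hfib (ev P f)⁻¹ hnorm P hpos
    have hs : s ∈ Metric.ball (0 : ℂ) r := by
      rw [Metric.mem_ball, dist_zero_right]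
      exact hsr
    exact hPS (hPk ▸ (hsat u Q r hQ s hs).mp (hQ0 ▸ hP₁))
  -- conclusion
  have hclopen : IsClopen V := ⟨hclosed, hopen⟩
  rcases isClopen_iff.mp hclopen with h | h
  · have hmem : ev P₂ f ∈ V := ⟨P₂, hP₂, rfl⟩
    rw [h] at hmem
    exact hmem
  · obtain ⟨R, hRb⟩ := hbdd
    have hmem : (((|R| + 1 : ℝ)) : ℂ) ∈ V := by
      rw [h]
      trivial
    have hle := hRb _ hmem
    rw [Complex.norm_real, Real.norm_eq_abs, abs_of_nonneg (by positivity)] at hle
    have := le_abs_self R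
    linarith

end Complex

end Fermat.Agent.S27.helper7884
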