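import Mathlib
import Fermat.Prelude.Def_AlgebraicCurve_DivisorClassGroup
import Fermat.Prelude.Def_AlgebraicCurve_IsCurveOver
import Fermat.Prelude.Def_AlgebraicCurve_Repartitions

/-!
# S27, step E4 ("ker E spans over ℝ") by the fibre-sum trick

No analysis at special places is needed: only a one-point local Abel statement at an infinite
set of good places, the weak Riemann-Roch theorem, and compactness of the place space.
-/

set_option autoImplicit false

namespace Fermat.Agent.S27.helper79

open AlgebraicCurve WithZero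

section Basics

variable {K F : Type*} [Field K] [Field F] [Algebra K F]

/-- `v(g) < 1` iff `g = 0` or `g` has positive order. -/
theorem val_lt_one_iff (v : Place K F) {g : F} :
    v.adicValuation g < 1 ↔ g = 0 ∨ 0 < v.ord g := by
  rcases eq_or_ne g 0 with rfl | hg
  · simp
  · rw [v.adicValuation_eq_exp_neg_ord hg, ← exp_zero, exp_lt_exp]
    simp [hg]

theorem val_le_one_iff_mem (v : Place K F) {f : F} :
    v.adicValuation f ≤ 1 ↔ f ∈ v.toValuationSubring := by
  constructor
  · intro h
    rcases eq_or_ne f 0 with rfl | hf0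
    · exact zero_mem _
    have hf : 0 ≤ v.ord f := by
      rcases v.adicValuation_le_one_iff.mp h with h0 | h0
      · exact absurd h0 hf0
      · exact h0
    obtain ⟨π, hπ⟩ := IsDiscreteValuationRing.exists_irreducible v.toValuationSubring
    obtain ⟨u, hu⟩ := v.exists_unit_mul_zpow hf0 hπ
    rw [hu]
    refine mul_mem u.1.2 ?_
    obtain ⟨n, hn⟩ := Int.eq_ofNat_of_zero_le hf
    rw [hn, zpow_natCast]
    exact pow_mem π.2 n
  · exact v.adicValuation_le_one_of_mem

theorem val_algebraMap (v : Place K F) {c : K} (hc : c ≠ 0) :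
    v.adicValuation (algebraMap K F c) = 1 := by
  have h1 := v.adicValuation_algebraMap_le_one c
  have h2 := v.adicValuation_algebraMap_le_one c⁻¹
  rw [map_inv₀, map_inv₀] at h2
  have hne : v.adicValuation (algebraMap K F c) ≠ 0 :=
    v.adicValuation_ne_zero (by simpa using hc)
  exact le_antisymm h1 ((inv_le_one₀ (zero_lt_iff.mpr hne)).mp h2)

theorem val_lt_one_iff_mem_maximalIdeal (v : Place K F) (a : v.toValuationSubring) :
    v.adicValuation (a : F) < 1 ↔ a ∈ IsLocalRing.maximalIdeal v.toValuationSubring := by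
  rw [v.adicValuation_coe, IsDedekindDomain.HeightOneSpectrum.intValuation_lt_one_iff_mem,
    Place.heightOneSpectrum_asIdeal]

/-- Over an algebraically closed constant field every function regular at a place has a value
there. -/
theorem exists_value [IsAlgClosed K] [IsCurveOver K F] (v : Place K F) {f : F}
    (hf : v.adicValuation f ≤ 1) : ∃ c : K, v.adicValuation (f - algebraMap K F c) < 1 := by
  have hmem : f ∈ v.toValuationSubring := (val_le_one_iff_mem v).mp hf
  have : Module.Finite K v.ResidueField := IsCurveOver.finiteResidue v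
  have : Algebra.IsIntegral K v.ResidueField := Algebra.IsIntegral.of_finite K v.ResidueField
  have hbij : Function.Bijective (algebraMap K v.ResidueField) :=
    IsAlgClosed.algebraMap_bijective_of_isIntegral
  obtain ⟨c, hc⟩ := hbij.2 (IsLocalRing.residue v.toValuationSubring ⟨f, hmem⟩)
  refine ⟨c, ?_⟩
  have h1 : IsLocalRing.residue v.toValuationSubring
      (⟨f, hmem⟩ - algebraMap K v.toValuationSubring c) = 0 := by
    rw [map_sub, sub_eq_zero]
    exact hc.symm
  rw [IsLocalRing.residue_eq_zero_iff] at h1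
  have h2 := (val_lt_one_iff_mem_maximalIdeal v _).mpr h1
  simpa using h2

theorem value_unique (v : Place K F) {f : F} {c c' : K}
    (h : v.adicValuation (f - algebraMap K F c) < 1)
    (h' : v.adicValuation (f - algebraMap K F c') < 1) : c = c' := by
  by_contra hne
  have h3 : v.adicValuation (algebraMap K F (c' - c)) < 1 := by
    have : algebraMap K F (c' - c) = (f - algebraMap K F c) - (f - algebraMap K F c') := by
      rw [map_sub]; ring
    rw [this]
    exact lt_of_le_of_lt (Valuation.map_sub _ _ _) (max_lt h h')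
  rw [val_algebraMap v (sub_ne_zero.mpr (Ne.symm hne))] at h3
  exact lt_irrefl _ h3

theorem val_eq_one_iff_ord (v : Place K F) {g : F} (hg : g ≠ 0) :
    v.adicValuation g = 1 ↔ v.ord g = 0 := by
  rw [v.adicValuation_eq_exp_neg_ord hg, ← exp_zero, exp_inj]
  omega

theorem ord_le_ord_iff (v : Place K F) {f g : F} (hf : f ≠ 0) (hg : g ≠ 0) :
    v.ord f ≤ v.ord g ↔ v.adicValuation g ≤ v.adicValuation f := by
  rw [v.adicValuation_eq_exp_neg_ord hf, v.adicValuation_eq_exp_neg_ord hg, exp_le_exp]
  omega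

theorem ord_nonpos_iff (v : Place K F) {g : F} (hg : g ≠ 0) :
    v.ord g ≤ 0 ↔ 1 ≤ v.adicValuation g := by
  rw [v.adicValuation_eq_exp_neg_ord hg, ← exp_zero, exp_le_exp]
  omega

/-- If `v(f - c) < 1` for a nonzero constant `c` then `v f = 1`. -/
theorem val_eq_one_of_val_sub_lt (v : Place K F) {f : F} {c : K} (hc : c ≠ 0)
    (h : v.adicValuation (f - algebraMap K F c) < 1) : v.adicValuation f = 1 := by
  have h1 : v.adicValuation (algebraMap K F c) = 1 := val_algebraMap v hc
  have h2 : f = (f - algebraMap K F c) + algebraMap K F c := by ring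
  rw [h2, Valuation.map_add_eq_of_lt_right _ (by rw [h1]; exact h), h1]

/-- If `v f < 1` and `c ≠ 0` is a constant then `v(f - c) = 1`. -/
theorem val_sub_eq_one_of_val_lt (v : Place K F) {f : F} {c : K} (hc : c ≠ 0)
    (h : v.adicValuation f < 1) : v.adicValuation (f - algebraMap K F c) = 1 := by
  have h1 : v.adicValuation (algebraMap K F c) = 1 := val_algebraMap v hc
  rw [Valuation.map_sub_eq_of_lt_right _ (by rw [h1]; exact h), h1]

end Basics

section Divisors

variable {K F : Type*} [Field K] [Field F] [Algebra K F]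

open Classical in
theorem sum_single_one_apply (S : Finset (Place K F)) (v : Place K F) :
    (∑ y ∈ S, Finsupp.single y (1 : ℤ) : Divisor K F) v = if v ∈ S then 1 else 0 := by
  rw [Finsupp.finsetSum_apply]
  simp [Finsupp.single_apply]

variable [IsAlgClosed K] [IsCurveOver K F]

theorem degree_single_one (v : Place K F) :
    Divisor.degree (Finsupp.single v (1 : ℤ)) = 1 := by
  rw [Divisor.degree_single, IsCurveOver.deg_eq_one_of_isAlgClosed]
  simp

theorem degree_sum_single_one (S : Finset (Place K F)) :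
    Divisor.degree (∑ y ∈ S, Finsupp.single y (1 : ℤ) : Divisor K F) = S.card := by
  rw [map_sum, Finset.sum_congr rfl (fun y _ => degree_single_one y)]
  simp

theorem degree_eq_sum (D : Divisor K F) : Divisor.degree D = ∑ v ∈ D.support, D v := by
  conv_lhs => rw [← Finsupp.sum_single D]
  rw [Finsupp.sum, map_sum]
  refine Finset.sum_congr rfl fun v _ => ?_
  rw [Divisor.degree_single, IsCurveOver.deg_eq_one_of_isAlgClosed]
  simp

/-- An effective divisor of degree zero is zero. -/
theorem eq_zero_of_nonneg_of_degree_eq_zero (D : Divisor K F) (h0 : ∀ v, 0 ≤ D v)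
    (hd : Divisor.degree D = 0) : D = 0 := by
  rw [degree_eq_sum] at hd
  have h := (Finset.sum_eq_zero_iff_of_nonneg (fun v _ => h0 v)).mp hd
  ext v
  by_cases hv : v ∈ D.support
  · simpa using h v hv
  · simpa using hv

/-- The degree-zero divisor `Q - R`. -/
noncomputable def pdiff (Q R : Place K F) : Divisor.degZero (K := K) (F := F) :=
  ⟨Finsupp.single Q 1 - Finsupp.single R 1, by
    rw [Divisor.mem_degZero, map_sub, degree_single_one, degree_single_one, sub_self]⟩

@[simp]
theorem coe_pdiff (Q R : Place K F) :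
    ((pdiff Q R : Divisor.degZero (K := K) (F := F)) : Divisor K F)
      = Finsupp.single Q 1 - Finsupp.single R 1 := rfl

theorem pdiff_self (Q : Place K F) : pdiff Q Q = 0 := by
  apply Subtype.ext
  simp

theorem pdiff_add_pdiff (Q R P : Place K F) : pdiff Q R + pdiff R P = pdiff Q P := by
  apply Subtype.ext
  simp

omit [IsAlgClosed K] [IsCurveOver K F] in
theorem mk_eq_zero_of_principal (D : Divisor.degZero (K := K) (F := F))
    (h : (D : Divisor K F) ∈ Divisor.principal (K := K) (F := F)) : Pic0.mk D = 0 :=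
  (QuotientAddGroup.eq_zero_iff D).mpr (AddSubgroup.mem_addSubgroupOf.mpr h)

end Divisors

section Existence

variable {K F : Type*} [Field K] [Field F] [Algebra K F] [IsAlgClosed K] [IsCurveOver K F]

/-- The weak Riemann-Roch input: in degree `≥ c` every point imposes a condition. -/
def RRGap (K F : Type*) [Field K] [Field F] [Algebra K F] (c : ℤ) : Prop :=
  ∀ D : Divisor K F, c ≤ Divisor.degree D → ∀ P : Place K F,
    ∃ f ∈ riemannRochSpace D, f ∉ riemannRochSpace (D - Finsupp.single P 1)

open Classical in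
/-- A function with simple zeros exactly on `Z`, and a unit at the places of `S0 \ Z`. -/
theorem exists_function_with_zeros {c : ℤ} (hRR : RRGap K F c) (Z S0 : Finset (Place K F))
    (hZ : c ≤ Z.card) :
    ∃ t : F, t ≠ 0 ∧ (∀ v ∈ Z, v.ord t = 1) ∧ (∀ v, v ∉ Z → v.ord t ≤ 0) ∧
      (∀ v ∈ S0, v ∉ Z → v.ord t = 0) := by
  set D : Divisor K F := ∑ y ∈ Z, Finsupp.single y (1 : ℤ) with hD
  have hDv : ∀ v, D v = if v ∈ Z then 1 else 0 := fun v => by
    rw [hD, sum_single_one_apply]
  have hdeg : Divisor.degree D = Z.card := degree_sum_single_one Z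
  set V : Submodule K F := riemannRochSpace D with hV
  let W : Place K F → Submodule K V := fun P =>
    (riemannRochSpace (D - Finsupp.single P 1)).comap V.subtype
  have hW : ∀ P, W P ≠ ⊤ := by
    intro P htop
    obtain ⟨f, hf, hf'⟩ := hRR D (by rw [hdeg]; exact hZ) P
    have : (⟨f, hf⟩ : V) ∈ W P := by rw [htop]; trivial
    exact hf' this
  have hs : (⊤ : Submodule K V) ∉ (Z ∪ S0).image W := by
    intro h
    obtain ⟨P, -, hP⟩ := Finset.mem_image.mp h
    exact hW P hP
  have hcov := Subspace.biUnion_ne_univ_of_top_notMem hs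
  obtain ⟨h, hh⟩ : ∃ h : V, h ∉ ⋃ p ∈ (Z ∪ S0).image W, (p : Set V) := by
    by_contra hcon
    push Not at hcon
    exact hcov (Set.eq_univ_of_forall hcon)
  have hh' : ∀ P ∈ Z ∪ S0, (h : F) ∉ riemannRochSpace (D - Finsupp.single P 1) := by
    intro P hP hmem
    apply hh
    simp only [Set.mem_iUnion]
    exact ⟨W P, Finset.mem_image_of_mem W hP, hmem⟩
  by_cases hne : (Z ∪ S0).Nonempty
  · obtain ⟨P0, hP0⟩ := hne
    have hh0 : (h : F) ≠ 0 := by
      intro h0
      apply hh' P0 hP0
      rw [h0]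
      exact zero_mem _
    have hL : ∀ v : Place K F, -D v ≤ v.ord (h : F) := by
      intro v
      rcases (mem_riemannRochSpace_iff.mp h.2) v with h0 | h1
      · exact absurd h0 hh0
      · exact h1
    have hord : ∀ P ∈ Z ∪ S0, P.ord (h : F) = -D P := by
      intro P hP
      have h1 := hh' P hP
      rw [mem_riemannRochSpace_iff] at h1
      push Not at h1
      obtain ⟨v, -, hv⟩ := h1
      by_cases hvP : v = P
      · subst hvP
        have h2 := hL v
        simp only [Finsupp.coe_sub, Pi.sub_apply, Finsupp.single_eq_same] at hv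
        omega
      · have h2 := hL v
        simp only [Finsupp.coe_sub, Pi.sub_apply, Finsupp.single_apply] at hv
        rw [if_neg (fun h => hvP h.symm)] at hv
        omega
    refine ⟨(h : F)⁻¹, inv_ne_zero hh0, ?_, ?_, ?_⟩
    · intro v hv
      rw [Place.ord_inv, hord v (Finset.mem_union_left _ hv), hDv, if_pos hv]
      simp
    · intro v hv
      rw [Place.ord_inv]
      have := hL v
      rw [hDv, if_neg hv] at this
      omega
    · intro v hv hvZ
      rw [Place.ord_inv, hord v (Finset.mem_union_right _ hv), hDv, if_neg hvZ]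
      simp
  · rw [Finset.not_nonempty_iff_eq_empty, Finset.union_eq_empty] at hne
    refine ⟨1, one_ne_zero, ?_, ?_, ?_⟩
    · intro v hv
      rw [hne.1] at hv
      simp at hv
    · intro v _
      simp
    · intro v hv
      rw [hne.2] at hv
      simp at hv

end Existence

section FibreBound

/-- A positive lower bound for finitely many positive reals. -/
theorem exists_pos_le_finset {α : Type*} (s : Finset α) (f : α → ℝ) (hf : ∀ i ∈ s, 0 < f i) :
    ∃ r : ℝ, 0 < r ∧ ∀ i ∈ s, r ≤ f i := by
  classical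
  induction s using Finset.induction_on with
  | empty => exact ⟨1, one_pos, by simp⟩
  | insert a s ha ih =>
    obtain ⟨r, hr, hrs⟩ := ih (fun i hi => hf i (Finset.mem_insert_of_mem hi))
    refine ⟨min r (f a), lt_min hr (hf a (Finset.mem_insert_self a s)), ?_⟩
    intro i hi
    rcases Finset.mem_insert.mp hi with rfl | hi
    · exact min_le_right _ _
    · exact (min_le_left _ _).trans (hrs i hi)

variable {F : Type*} [Field F] [Algebra ℂ F] [IsCurveOver ℂ F]
variable {V : Type*} [SeminormedAddCommGroup V]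

omit [IsCurveOver ℂ F] in
theorem mk_sum {ι : Type*} (s : Finset ι) (f : ι → Divisor.degZero (K := ℂ) (F := F)) :
    Pic0.mk (∑ i ∈ s, f i) = ∑ i ∈ s, Pic0.mk (f i) :=
  map_sum (QuotientAddGroup.mk' _) f s

open Classical in
/-- **The fibre-sum bound.**  Let `t` have simple zeros exactly at `P` and at the good places
`R ∈ T` (with pairwise distinct centres `a R`).  Then every place `Q` at which `t` takes a
small value `ε` satisfies `[Q - P] = E v` with `v` uniformly bounded.  No information at `P`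
is used. -/
theorem fibre_bound (E : V →+ Pic0 ℂ F) (x : F) (P : Place ℂ F) (T : Finset (Place ℂ F))
    (hPT : P ∉ T) (t : F) (htP : P.ord t = 1) (htT : ∀ R ∈ T, R.ord t = 1)
    (htoff : ∀ v, v ≠ P → v ∉ T → v.ord t ≤ 0)
    (a : Place ℂ F → ℂ) (ρ M : Place ℂ F → ℝ) (q : Place ℂ F → ℂ → Place ℂ F)
    (ha : Set.InjOn a (T : Set (Place ℂ F)))
    (hq : ∀ R ∈ T, ∀ s ∈ Metric.ball (a R) (ρ R),
      (q R s).adicValuation (x - algebraMap ℂ F s) < 1 ∧
        ∃ v : V, ‖v‖ ≤ M R ∧ E v = Pic0.mk (pdiff (q R s) R))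
    (hc : ∀ R ∈ T, ∀ ρ' : ℝ, 0 < ρ' → ∃ δ : ℝ, 0 < δ ∧ ∀ ε : ℂ, ‖ε‖ < δ →
      ∃ s ∈ Metric.ball (a R) (min (ρ R) ρ'),
        (q R s).adicValuation (t - algebraMap ℂ F ε) < 1)
    (w : Place ℂ F → V) (hw : ∀ R ∈ T, E (w R) = Pic0.mk (pdiff R P)) :
    ∃ δ : ℝ, 0 < δ ∧ ∃ M' : ℝ, ∀ (Q : Place ℂ F) (ε : ℂ), ‖ε‖ < δ →
      Q.adicValuation (t - algebraMap ℂ F ε) < 1 →
        ∃ v : V, ‖v‖ ≤ M' ∧ E v = Pic0.mk (pdiff Q P) := by
  have ht0 : t ≠ 0 := by rintro rfl; simp at htP
  -- separation radius
  obtain ⟨ρ', hρ', hsep⟩ : ∃ ρ' : ℝ, 0 < ρ' ∧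
      ∀ R ∈ T, ∀ R' ∈ T, R ≠ R' → 2 * ρ' ≤ dist (a R) (a R') := by
    obtain ⟨r, hr, hrs⟩ := exists_pos_le_finset ((T ×ˢ T).filter (fun p => p.1 ≠ p.2))
      (fun p => dist (a p.1) (a p.2)) (by
        intro p hp
        simp only [Finset.mem_filter, Finset.mem_product] at hp
        exact dist_pos.mpr (fun h => hp.2 (ha hp.1.1 hp.1.2 h)))
    refine ⟨r / 2, by positivity, fun R hR R' hR' hne => ?_⟩
    have := hrs (R, R') (by simp [hR, hR', hne])
    simp only at this
    linarith
  choose! δ0 hδ0 hδ0' using fun R (hR : R ∈ T) => hc R hR ρ' hρ'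
  obtain ⟨δ, hδ, hδle⟩ := exists_pos_le_finset T δ0 hδ0
  refine ⟨δ, hδ, ∑ R ∈ T, |M R| + ∑ R ∈ T, ‖w R‖, ?_⟩
  intro Q ε hε hQ
  have hMnonneg : 0 ≤ ∑ R ∈ T, |M R| := Finset.sum_nonneg (fun _ _ => abs_nonneg _)
  have hwnonneg : 0 ≤ ∑ R ∈ T, ‖w R‖ := Finset.sum_nonneg (fun _ _ => norm_nonneg _)
  choose! s hs hsval using fun R (hR : R ∈ T) => hδ0' R hR ε (lt_of_lt_of_le hε (hδle R hR))
  have hsball : ∀ R ∈ T, s R ∈ Metric.ball (a R) (ρ R) := fun R hR =>
    Metric.ball_subset_ball (min_le_left _ _) (hs R hR)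
  have hsball' : ∀ R ∈ T, dist (s R) (a R) < ρ' := fun R hR =>
    lt_of_lt_of_le (Metric.mem_ball.mp (hs R hR)) (min_le_right _ _)
  choose! u hu huE using fun R (hR : R ∈ T) => (hq R hR (s R) (hsball R hR)).2
  have hxval : ∀ R ∈ T, (q R (s R)).adicValuation (x - algebraMap ℂ F (s R)) < 1 :=
    fun R hR => (hq R hR (s R) (hsball R hR)).1
  have hinj : Set.InjOn (fun R => q R (s R)) (T : Set (Place ℂ F)) := by
    intro R hR R' hR' hqq
    by_contra hne
    have h1 := hxval R hR
    have h2 := hxval R' hR'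
    simp only at hqq
    rw [← hqq] at h2
    have hss : s R = s R' := value_unique _ h1 h2
    have h3 := hsep R hR R' hR' hne
    have d1 := hsball' R hR
    have d2 := hsball' R' hR'
    have h4 : dist (a R) (a R') ≤ dist (a R) (s R) + dist (s R) (a R') := dist_triangle _ _ _
    rw [dist_comm (a R) (s R), hss] at h4
    rw [hss] at d1
    linarith
  by_cases hε0 : ε = 0
  · subst hε0
    simp only [map_zero, sub_zero] at hQ
    have hQpos : 0 < Q.ord t := ((val_lt_one_iff Q).mp hQ).resolve_left ht0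
    by_cases hQP : Q = P
    · subst hQP
      exact ⟨0, by simpa using add_nonneg hMnonneg hwnonneg, by rw [map_zero, pdiff_self]; rfl⟩
    · have hQT : Q ∈ T := by
        by_contra hQT
        have := htoff Q hQP hQT
        omega
      refine ⟨w Q, ?_, hw Q hQT⟩
      have : ‖w Q‖ ≤ ∑ R ∈ T, ‖w R‖ :=
        Finset.single_le_sum (f := fun R => ‖w R‖) (fun _ _ => norm_nonneg _) hQT
      linarith
  · by_cases hQim : ∃ R ∈ T, Q = q R (s R)
    · obtain ⟨R, hR, rfl⟩ := hQim
      refine ⟨u R + w R, ?_, ?_⟩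
      · have h1 : ‖u R‖ ≤ ∑ R ∈ T, |M R| :=
          ((hu R hR).trans (le_abs_self _)).trans
            (Finset.single_le_sum (f := fun R => |M R|) (fun _ _ => abs_nonneg _) hR)
        have h2 : ‖w R‖ ≤ ∑ R ∈ T, ‖w R‖ :=
          Finset.single_le_sum (f := fun R => ‖w R‖) (fun _ _ => norm_nonneg _) hR
        exact (norm_add_le _ _).trans (add_le_add h1 h2)
      · rw [map_add, huE R hR, hw R hR, ← Pic0.mk_add, pdiff_add_pdiff]
    · push Not at hQim
      have htε : t - algebraMap ℂ F ε ≠ 0 := by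
        intro h
        have h1 : t = algebraMap ℂ F ε := sub_eq_zero.mp h
        have h2 := (val_eq_one_iff_ord P (g := algebraMap ℂ F ε) (by simpa using hε0)).mp
          (val_algebraMap P hε0)
        rw [h1] at htP
        omega
      obtain ⟨Dε, hDε, hdegε⟩ :=
        HasPrincipalDivisors.exists_divisor (K := ℂ) (t - algebraMap ℂ F ε) htε
      obtain ⟨D0, hD0, hdeg0⟩ := HasPrincipalDivisors.exists_divisor (K := ℂ) t ht0
      set T' : Finset (Place ℂ F) := T.image (fun R => q R (s R)) with hT'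
      have hT'card : T'.card = T.card := Finset.card_image_of_injOn hinj
      set W : Divisor ℂ F := Dε - D0 + Finsupp.single P 1 + ∑ y ∈ T, Finsupp.single y (1 : ℤ)
        - Finsupp.single Q 1 - ∑ y ∈ T', Finsupp.single y (1 : ℤ) with hW
      have hWdeg : Divisor.degree W = 0 := by
        rw [hW]
        simp only [map_sub, map_add]
        rw [hdegε, hdeg0, degree_single_one, degree_single_one, degree_sum_single_one,
          degree_sum_single_one, hT'card]
        ring
      have hvalQ : ∀ v, v = Q ∨ v ∈ T' → v.adicValuation (t - algebraMap ℂ F ε) < 1 := by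
        rintro v (rfl | hv)
        · exact hQ
        · obtain ⟨R, hR, rfl⟩ := Finset.mem_image.mp hv
          exact hsval R hR
      have hWnonneg : ∀ v, 0 ≤ W v := by
        intro v
        have hWv : W v = v.ord (t - algebraMap ℂ F ε) - v.ord t + (if v = P then 1 else 0)
            + (if v ∈ T then 1 else 0) - (if v = Q then 1 else 0)
            - (if v ∈ T' then 1 else 0) := by
          rw [hW]
          simp only [Finsupp.coe_sub, Finsupp.coe_add, Pi.sub_apply, Pi.add_apply,
            sum_single_one_apply, hDε, hD0, Finsupp.single_apply, eq_comm (a := v)]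
        by_cases hvY : v = Q ∨ v ∈ T'
        · have h1 := hvalQ v hvY
          have h2 : v.adicValuation t = 1 := val_eq_one_of_val_sub_lt v hε0 h1
          have h3 : v.ord t = 0 := (val_eq_one_iff_ord v ht0).mp h2
          have h4 : 0 < v.ord (t - algebraMap ℂ F ε) :=
            ((val_lt_one_iff v).mp h1).resolve_left htε
          have h5 : v ≠ P := by rintro rfl; omega
          have h6 : v ∉ T := fun h => by have := htT v h; omega
          have h7 : ¬ (v = Q ∧ v ∈ T') := by
            rintro ⟨rfl, hv⟩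
            obtain ⟨R, hR, hRv⟩ := Finset.mem_image.mp hv
            exact hQim R hR hRv.symm
          rw [hWv, if_neg h5, if_neg h6]
          split_ifs <;> first | omega | (exfalso; tauto)
        · push Not at hvY
          rw [hWv, if_neg hvY.1, if_neg hvY.2]
          by_cases hvZ : v = P ∨ v ∈ T
          · have h1 : v.ord t = 1 := by
              rcases hvZ with rfl | h
              exacts [htP, htT v h]
            have h2 : v.adicValuation t < 1 := (val_lt_one_iff v).mpr (Or.inr (by omega))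
            have h3 : v.adicValuation (t - algebraMap ℂ F ε) = 1 :=
              val_sub_eq_one_of_val_lt v hε0 h2
            have h4 : v.ord (t - algebraMap ℂ F ε) = 0 := (val_eq_one_iff_ord v htε).mp h3
            have h5 : ¬ (v = P ∧ v ∈ T) := by rintro ⟨rfl, h⟩; exact hPT h
            split_ifs <;> first | omega | (exfalso; tauto)
          · push Not at hvZ
            rw [if_neg hvZ.1, if_neg hvZ.2]
            have h1 : v.ord t ≤ 0 := htoff v hvZ.1 hvZ.2
            have h2 : 1 ≤ v.adicValuation t := (ord_nonpos_iff v ht0).mp h1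
            have h3 : v.adicValuation (t - algebraMap ℂ F ε) ≤ v.adicValuation t := by
              refine (Valuation.map_sub _ _ _).trans (max_le le_rfl ?_)
              rw [val_algebraMap v hε0]
              exact h2
            have h4 := (ord_le_ord_iff v ht0 htε).mpr h3
            omega
      have hW0 : W = 0 := eq_zero_of_nonneg_of_degree_eq_zero W hWnonneg hWdeg
      have hsum : ((pdiff Q P + ∑ R ∈ T, pdiff (q R (s R)) R :
          Divisor.degZero (K := ℂ) (F := F)) : Divisor ℂ F) = Dε - D0 := by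
        have e1 : ∑ R ∈ T, (Finsupp.single (q R (s R)) (1 : ℤ) : Divisor ℂ F)
            = ∑ y ∈ T', Finsupp.single y (1 : ℤ) := by
          rw [hT', Finset.sum_image hinj]
        rw [AddSubgroup.coe_add, AddSubmonoidClass.coe_finsetSum]
        simp only [coe_pdiff, Finset.sum_sub_distrib]
        rw [e1]
        have h := hW0
        rw [hW] at h
        symm
        rw [← sub_eq_zero, ← h]
        abel
      have hprin : Pic0.mk (pdiff Q P + ∑ R ∈ T, pdiff (q R (s R)) R) = 0 := by
        apply mk_eq_zero_of_principal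
        rw [hsum]
        exact (Divisor.principal).sub_mem ⟨_, htε, hDε⟩ ⟨_, ht0, hD0⟩
      refine ⟨-∑ R ∈ T, u R, ?_, ?_⟩
      · rw [norm_neg]
        calc ‖∑ R ∈ T, u R‖ ≤ ∑ R ∈ T, ‖u R‖ := norm_sum_le _ _
          _ ≤ ∑ R ∈ T, |M R| :=
            Finset.sum_le_sum (fun R hR => (hu R hR).trans (le_abs_self _))
          _ ≤ _ := by linarith
      · rw [Pic0.mk_add, mk_sum] at hprin
        rw [map_neg, map_sum, Finset.sum_congr rfl huE]
        exact (eq_neg_of_add_eq_zero_left hprin).symm

end FibreBound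

section Span

/-- If every element of `J` is the image of a vector of norm `≤ B`, the kernel of `E` spans
the real vector space `V`. -/
theorem span_ker_eq_top_of_bounded {V J : Type*} [NormedAddCommGroup V] [NormedSpace ℝ V]
    [FiniteDimensional ℝ V] [AddCommGroup J] (E : V →+ J) (B : ℝ)
    (hB : ∀ T : J, ∃ v : V, ‖v‖ ≤ B ∧ E v = T) :
    Submodule.span ℝ (E.ker : Set V) = ⊤ := by
  by_contra hne
  obtain ⟨L, hL0, hL⟩ := Submodule.exists_le_ker_of_lt_top _ (lt_top_iff_ne_top.mpr hne)
  set L' : V →L[ℝ] ℝ := LinearMap.toContinuousLinearMap L with hL'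
  have hbound : ∀ v : V, |L v| ≤ ‖L'‖ * |B| := by
    intro v
    obtain ⟨w, hw, hEw⟩ := hB (E v)
    have hker : v - w ∈ E.ker := by
      rw [AddMonoidHom.mem_ker, map_sub, hEw, sub_self]
    have h0 : L (v - w) = 0 := hL (Submodule.subset_span hker)
    have h1 : L v = L w := by
      rw [map_sub] at h0
      exact sub_eq_zero.mp h0
    rw [h1]
    have h2 : |L w| ≤ ‖L'‖ * ‖w‖ := by
      have := L'.le_opNorm w
      rwa [Real.norm_eq_abs] at this
    exact h2.trans (mul_le_mul_of_nonneg_left (hw.trans (le_abs_self B)) (norm_nonneg _))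
  apply hL0
  ext v
  by_contra hv
  have hv' : 0 < |L v| := abs_pos.mpr hv
  obtain ⟨n, hn⟩ := exists_nat_gt ((‖L'‖ * |B|) / |L v|)
  have h1 := hbound ((n : ℝ) • v)
  rw [map_smul, smul_eq_mul, abs_mul, Nat.abs_cast] at h1
  rw [div_lt_iff₀ hv'] at hn
  linarith

end Span

section Main

variable {F : Type*} [Field F] [Algebra ℂ F] [IsCurveOver ℂ F]

/-- The places at which `g ≠ 0` has valuation `< 1` (its zeros) are finitely many. -/
theorem finite_setOf_val_lt_one {g : F} (hg : g ≠ 0) :
    {v : Place ℂ F | v.adicValuation g < 1}.Finite := by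
  obtain ⟨D, hD, -⟩ := HasPrincipalDivisors.exists_divisor (K := ℂ) g hg
  refine D.support.finite_toSet.subset fun v hv => ?_
  have h1 : 0 < v.ord g := ((val_lt_one_iff v).mp hv).resolve_left hg
  rw [Finset.mem_coe, Finsupp.mem_support_iff, hD]
  omega

/-- The poles of `g ≠ 0` are finitely many. -/
theorem finite_setOf_one_lt_val {g : F} (hg : g ≠ 0) :
    {v : Place ℂ F | 1 < v.adicValuation g}.Finite := by
  obtain ⟨D, hD, -⟩ := HasPrincipalDivisors.exists_divisor (K := ℂ) g hg
  refine D.support.finite_toSet.subset fun v hv => ?_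
  rw [Finset.mem_coe, Finsupp.mem_support_iff, hD]
  intro h0
  have h1 := (val_eq_one_iff_ord v hg).mpr h0
  have hv' : 1 < v.adicValuation g := hv
  rw [h1] at hv'
  exact lt_irrefl _ hv'

open Classical in
/-- Arbitrarily many good places with pairwise distinct centres, avoiding a finite set. -/
theorem exists_good_finset {x : F} (hx : ∀ c : ℂ, x ≠ algebraMap ℂ F c)
    (G : Set (Place ℂ F)) (hG : G.Infinite) (a : Place ℂ F → ℂ)
    (haG : ∀ R ∈ G, R.adicValuation (x - algebraMap ℂ F (a R)) < 1)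
    (B : Finset (Place ℂ F)) (n : ℕ) :
    ∃ T : Finset (Place ℂ F), (↑T ⊆ G) ∧ Disjoint T B ∧ T.card = n ∧
      Set.InjOn a (T : Set (Place ℂ F)) := by
  obtain ⟨R0, -⟩ := hG.nonempty
  have : Nonempty (Place ℂ F) := ⟨R0⟩
  have hG' : (G \ ↑B).Infinite := hG.sdiff B.finite_toSet
  have himg : (a '' (G \ ↑B)).Infinite := by
    intro hfin
    apply hG'
    refine Set.Finite.of_finite_fibers a hfin fun c _ => ?_
    refine (finite_setOf_val_lt_one (sub_ne_zero.mpr (hx c))).subset ?_
    rintro R ⟨hR, hRc⟩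
    have := haG R hR.1
    rw [Set.mem_preimage, Set.mem_singleton_iff] at hRc
    rwa [hRc] at this
  obtain ⟨A0, hA0, hcard⟩ := himg.exists_subset_card_eq n
  have hex : ∀ c ∈ A0, ∃ R, R ∈ G \ ↑B ∧ a R = c := fun c hc => hA0 hc
  choose! r hr hra using hex
  have hrinj : Set.InjOn r (A0 : Set ℂ) := by
    intro c hc c' hc' h
    rw [← hra c hc, ← hra c' hc', h]
  refine ⟨A0.image r, ?_, ?_, ?_, ?_⟩
  · intro R hR
    rw [Finset.coe_image] at hR
    obtain ⟨c, hc, rfl⟩ := hR
    exact (hr c hc).1
  · rw [Finset.disjoint_left]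
    intro R hR hRB
    obtain ⟨c, hc, rfl⟩ := Finset.mem_image.mp hR
    exact (hr c hc).2 hRB
  · rw [Finset.card_image_of_injOn hrinj, hcard]
  · intro R hR R' hR' h
    rw [Finset.coe_image] at hR hR'
    obtain ⟨c, hc, rfl⟩ := hR
    obtain ⟨c', hc', rfl⟩ := hR'
    rw [hra c hc, hra c' hc'] at h
    rw [h]

variable {V : Type*} [NormedAddCommGroup V]

/-- One-point local Abel data at a good place `R` with respect to the coordinate `x`:
a branch `q` through `R` over a disc around `a = x(R)` such that the classes `[q s - R]` are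
images under `E` of uniformly bounded vectors, and such that every function with a simple
zero at `R` takes all small values along arbitrarily small sub-discs of the branch. -/
def GoodChart (E : V →+ Pic0 ℂ F) (x : F) (R : Place ℂ F) : Prop :=
  ∃ (a : ℂ) (ρ M : ℝ) (q : ℂ → Place ℂ F), 0 < ρ ∧ q a = R ∧
    (∀ s ∈ Metric.ball a ρ, (q s).adicValuation (x - algebraMap ℂ F s) < 1 ∧
      ∃ v : V, ‖v‖ ≤ M ∧ E v = Pic0.mk (pdiff (q s) R)) ∧
    (∀ f : F, R.ord f = 1 → ∀ ρ' : ℝ, 0 < ρ' → ∃ δ : ℝ, 0 < δ ∧ ∀ ε : ℂ, ‖ε‖ < δ →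
      ∃ s ∈ Metric.ball a (min ρ ρ'), (q s).adicValuation (f - algebraMap ℂ F ε) < 1)

/-- `P` and `P'` lie in the same fibre of `x` (a common finite value, or both poles). -/
def SameFibre (x : F) (P P' : Place ℂ F) : Prop :=
  (∃ c : ℂ, P.adicValuation (x - algebraMap ℂ F c) < 1 ∧
    P'.adicValuation (x - algebraMap ℂ F c) < 1) ∨
  (1 < P.adicValuation x ∧ 1 < P'.adicValuation x)

/-- Compactness of the place space, in covering form: finitely many of the "discs"
`{Q | |t_P(Q)| < δ_P}` cover all places, for families `t_P` vanishing at `P` and regular on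
the `x`-fibre of `P`. -/
def PlaceCompact (x : F) : Prop :=
  ∀ (t : Place ℂ F → F) (δ : Place ℂ F → ℝ),
    (∀ P, 0 < δ P ∧ P.adicValuation (t P) < 1) →
    (∀ P P', SameFibre x P P' → P'.adicValuation (t P) ≤ 1) →
    ∃ S : Finset (Place ℂ F), ∀ Q : Place ℂ F, ∃ P ∈ S, ∃ ε : ℂ, ‖ε‖ < δ P ∧
      Q.adicValuation (t P - algebraMap ℂ F ε) < 1

open Classical in
/-- Every place has a function `t` vanishing at it, regular on its `x`-fibre, such that the
"disc" `{Q | |t(Q)| < δ}` is `E`-bounded relative to `P`. -/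
theorem exists_local_bound (E : V →+ Pic0 ℂ F) (hE : Function.Surjective E) (x : F)
    (hx : ∀ c : ℂ, x ≠ algebraMap ℂ F c) {c : ℤ} (hRR : RRGap ℂ F c)
    (G : Set (Place ℂ F)) (hG : G.Infinite) (hchart : ∀ R ∈ G, GoodChart E x R)
    (P : Place ℂ F) :
    ∃ (t : F) (δ M' : ℝ), 0 < δ ∧ P.adicValuation t < 1 ∧
      (∀ P', SameFibre x P P' → P'.adicValuation t ≤ 1) ∧
      ∀ (Q : Place ℂ F) (ε : ℂ), ‖ε‖ < δ → Q.adicValuation (t - algebraMap ℂ F ε) < 1 →
        ∃ v : V, ‖v‖ ≤ M' ∧ E v = Pic0.mk (pdiff Q P) := by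
  choose! a ρ M q hρ hqa hq hc using hchart
  have haG : ∀ R ∈ G, R.adicValuation (x - algebraMap ℂ F (a R)) < 1 := by
    intro R hR
    have := (hq R hR (a R) (Metric.mem_ball_self (hρ R hR))).1
    rwa [hqa R hR] at this
  -- the fibre of `P`
  obtain ⟨S0, hS0⟩ : ∃ S0 : Finset (Place ℂ F), ∀ P', SameFibre x P P' → P' ∈ S0 := by
    by_cases hPx : P.adicValuation x ≤ 1
    · obtain ⟨c0, hc0⟩ := exists_value P hPx
      refine ⟨(finite_setOf_val_lt_one (sub_ne_zero.mpr (hx c0))).toFinset, ?_⟩
      rintro P' (⟨c1, h1, h2⟩ | ⟨h1, -⟩)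
      · have : c0 = c1 := value_unique P hc0 h1
        subst this
        simpa using h2
      · exact absurd hPx (not_le.mpr h1)
    · have hx0 : x ≠ 0 := by
        have := hx 0
        simpa using this
      refine ⟨(finite_setOf_one_lt_val hx0).toFinset, ?_⟩
      rintro P' (⟨c1, h1, -⟩ | ⟨-, h2⟩)
      · exfalso
        apply hPx
        have h3 : x = (x - algebraMap ℂ F c1) + algebraMap ℂ F c1 := by ring
        rw [h3]
        exact (Valuation.map_add _ _ _).trans
          (max_le h1.le (P.adicValuation_algebraMap_le_one c1))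
      · simpa using h2
  obtain ⟨T, hTG, hTdisj, hTcard, hTinj⟩ :=
    exists_good_finset hx G hG a haG (insert P S0) c.toNat
  have hPT : P ∉ T := fun h => Finset.disjoint_left.mp hTdisj h (Finset.mem_insert_self _ _)
  obtain ⟨t, ht0, htZ, htoff, htS0⟩ := exists_function_with_zeros hRR (insert P T) S0 (by
    rw [Finset.card_insert_of_notMem hPT, hTcard]
    push_cast
    have := Int.self_le_toNat c
    omega)
  have htP : P.ord t = 1 := htZ P (Finset.mem_insert_self _ _)
  have htT : ∀ R ∈ T, R.ord t = 1 := fun R hR => htZ R (Finset.mem_insert_of_mem hR)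
  choose w hw using fun R : Place ℂ F => hE (Pic0.mk (pdiff R P))
  obtain ⟨δ, hδ, M', hM'⟩ := fibre_bound E x P T hPT t htP htT
    (fun v hvP hvT => htoff v (by simp [hvP, hvT])) a ρ M q hTinj
    (fun R hR => hq R (hTG hR)) (fun R hR => hc R (hTG hR) t (htT R hR)) w (fun R _ => hw R)
  refine ⟨t, δ, M', hδ, (val_lt_one_iff P).mpr (Or.inr (by omega)), ?_, hM'⟩
  intro P' hP'
  by_cases hP'P : P' = P
  · rw [hP'P]
    exact ((val_lt_one_iff P).mpr (Or.inr (by omega))).le
  · have h1 : P' ∈ S0 := hS0 P' hP'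
    have h2 : P' ∉ insert P T := by
      intro h
      rcases Finset.mem_insert.mp h with h | h
      · exact hP'P h
      · exact Finset.disjoint_left.mp hTdisj h (Finset.mem_insert_of_mem h1)
    have h3 := htS0 P' h1 h2
    exact ((val_eq_one_iff_ord P' ht0).mpr h3).le

/-- All places are `E`-bounded relative to a base place. -/
theorem exists_global_bound (E : V →+ Pic0 ℂ F) (hE : Function.Surjective E) (x : F)
    (hx : ∀ c : ℂ, x ≠ algebraMap ℂ F c) {c : ℤ} (hRR : RRGap ℂ F c)
    (G : Set (Place ℂ F)) (hG : G.Infinite) (hchart : ∀ R ∈ G, GoodChart E x R)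
    (hcompact : PlaceCompact x) (P0 : Place ℂ F) :
    ∃ B : ℝ, ∀ Q : Place ℂ F, ∃ v : V, ‖v‖ ≤ B ∧ E v = Pic0.mk (pdiff Q P0) := by
  choose t δ M' hδ htP hfib hbd using exists_local_bound E hE x hx hRR G hG hchart
  obtain ⟨S, hS⟩ := hcompact t δ (fun P => ⟨hδ P, htP P⟩) hfib
  choose w0 hw0 using fun P : Place ℂ F => hE (Pic0.mk (pdiff P P0))
  refine ⟨∑ P ∈ S, (|M' P| + ‖w0 P‖), fun Q => ?_⟩
  obtain ⟨P, hPS, ε, hε, hQ⟩ := hS Q
  obtain ⟨v, hv, hEv⟩ := hbd P Q ε hε hQ
  refine ⟨v + w0 P, ?_, ?_⟩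
  · have h1 : |M' P| + ‖w0 P‖ ≤ ∑ P ∈ S, (|M' P| + ‖w0 P‖) :=
      Finset.single_le_sum (f := fun P => |M' P| + ‖w0 P‖) (fun _ _ => by positivity) hPS
    exact (norm_add_le _ _).trans ((add_le_add (hv.trans (le_abs_self _)) le_rfl).trans h1)
  · rw [map_add, hEv, hw0, ← Pic0.mk_add, pdiff_add_pdiff]

/-- Jacobi inversion in the weak form given by Riemann's inequality: every class is a sum of
`N` point differences, hence the image of a vector of norm `≤ N * B`. -/
theorem exists_class_bound (E : V →+ Pic0 ℂ F) (P0 : Place ℂ F) (B : ℝ)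
    (hB : ∀ Q : Place ℂ F, ∃ v : V, ‖v‖ ≤ B ∧ E v = Pic0.mk (pdiff Q P0))
    (N : ℕ) (hJ : ∀ D : Divisor ℂ F, Divisor.degree D = N →
      ∃ f : F, f ≠ 0 ∧ f ∈ riemannRochSpace D) :
    ∀ T : Pic0 ℂ F, ∃ v : V, ‖v‖ ≤ N * B ∧ E v = T := by
  intro T
  obtain ⟨D0, rfl⟩ := Pic0.mk_surjective T
  set D : Divisor ℂ F := (D0 : Divisor ℂ F) + (N : ℤ) • Finsupp.single P0 1 with hD
  have hdegD : Divisor.degree D = N := by
    rw [hD, map_add, map_zsmul, degree_single_one, Divisor.mem_degZero.mp D0.2]
    simp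
  obtain ⟨f, hf0, hf⟩ := hJ D hdegD
  obtain ⟨Df, hDf, hdegf⟩ := HasPrincipalDivisors.exists_divisor (K := ℂ) f hf0
  set D' : Divisor ℂ F := D + Df with hD'
  have hD'nonneg : ∀ v, 0 ≤ D' v := by
    intro v
    rcases (mem_riemannRochSpace_iff.mp hf) v with h | h
    · exact absurd h hf0
    · rw [hD', Finsupp.add_apply, hDf]
      omega
  have hdegD' : Divisor.degree D' = N := by rw [hD', map_add, hdegD, hdegf, add_zero]
  have hsumD' : ∑ v ∈ D'.support, D' v = N := by rw [← degree_eq_sum, hdegD']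
  choose u hu huE using hB
  refine ⟨∑ v ∈ D'.support, (D' v) • u v, ?_, ?_⟩
  · calc ‖∑ v ∈ D'.support, (D' v) • u v‖
        ≤ ∑ v ∈ D'.support, ‖(D' v) • u v‖ := norm_sum_le _ _
      _ ≤ ∑ v ∈ D'.support, (D' v : ℝ) * B := by
          refine Finset.sum_le_sum fun v _ => ?_
          have h0 : (0 : ℝ) ≤ (D' v : ℝ) := by exact_mod_cast hD'nonneg v
          have h1 : ‖(D' v) • u v‖ ≤ ‖D' v‖ * ‖u v‖ := norm_zsmul_le _ _
          have h2 : ‖D' v‖ = (D' v : ℝ) := by
            rw [Int.norm_eq_abs, abs_of_nonneg h0]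
          rw [h2] at h1
          exact h1.trans (mul_le_mul_of_nonneg_left (hu v) h0)
      _ = N * B := by
          rw [← Finset.sum_mul]
          congr 1
          exact_mod_cast hsumD'
  · have hDfmem : Df ∈ Divisor.degZero (K := ℂ) (F := F) := by
      rw [Divisor.mem_degZero]
      exact hdegf
    have key : D0 = (∑ v ∈ D'.support, (D' v) • pdiff v P0) - ⟨Df, hDfmem⟩ := by
      apply Subtype.ext
      rw [AddSubgroup.coe_sub, AddSubmonoidClass.coe_finsetSum]
      simp only [AddSubgroup.coe_zsmul, coe_pdiff, smul_sub, Finset.sum_sub_distrib]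
      have e1 : ∑ v ∈ D'.support, D' v • (Finsupp.single v (1 : ℤ) : Divisor ℂ F) = D' := by
        conv_rhs => rw [← Finsupp.sum_single D']
        rw [Finsupp.sum]
        refine Finset.sum_congr rfl fun v _ => ?_
        rw [Finsupp.smul_single, smul_eq_mul, mul_one]
      have e2 : ∑ v ∈ D'.support, D' v • (Finsupp.single P0 (1 : ℤ) : Divisor ℂ F)
          = (N : ℤ) • Finsupp.single P0 1 := by
        rw [← Finset.sum_smul, hsumD']
      rw [e1, e2, hD', hD]
      abel
    have hmk : Pic0.mk D0 = ∑ v ∈ D'.support, (D' v) • Pic0.mk (pdiff v P0) := by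
      have h0 : Pic0.mk (⟨Df, hDfmem⟩ : Divisor.degZero (K := ℂ) (F := F)) = 0 :=
        mk_eq_zero_of_principal _ ⟨f, hf0, hDf⟩
      conv_lhs => rw [key]
      show QuotientAddGroup.mk' _ _ = _
      rw [map_sub, map_sum]
      simp only [map_zsmul]
      show _ - Pic0.mk (⟨Df, hDfmem⟩ : Divisor.degZero (K := ℂ) (F := F)) = _
      rw [h0, sub_zero]
      rfl
    rw [map_sum, hmk]
    refine Finset.sum_congr rfl fun v _ => ?_
    rw [map_zsmul, huE]

/-- **Spanning of the kernel by the fibre-sum trick.**  Inputs: `E` onto; weak Riemann-Roch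
(`RRGap` and Riemann's inequality in degree `N`); one-point local Abel data at an infinite set
of good places; compactness of the place space. -/
theorem span_ker_eq_top_of_goodCharts [NormedSpace ℝ V] [FiniteDimensional ℝ V]
    (E : V →+ Pic0 ℂ F) (hE : Function.Surjective E) (x : F)
    (hx : ∀ c : ℂ, x ≠ algebraMap ℂ F c)
    (hRR : ∃ c : ℤ, RRGap ℂ F c)
    (hJ : ∃ N : ℕ, ∀ D : Divisor ℂ F, Divisor.degree D = N →
      ∃ f : F, f ≠ 0 ∧ f ∈ riemannRochSpace D)
    (G : Set (Place ℂ F)) (hG : G.Infinite) (hchart : ∀ R ∈ G, GoodChart E x R)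
    (hcompact : PlaceCompact x) :
    Submodule.span ℝ (E.ker : Set V) = ⊤ := by
  obtain ⟨c, hRR⟩ := hRR
  obtain ⟨N, hJ⟩ := hJ
  obtain ⟨P0, -⟩ := hG.nonempty
  obtain ⟨B, hB⟩ := exists_global_bound E hE x hx hRR G hG hchart hcompact P0
  exact span_ker_eq_top_of_bounded E (N * B) (exists_class_bound E P0 B hB N hJ)

end Main

end Fermat.Agent.S27.helper79
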