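import Mathlib

/-!
# S27, leaf M6a (helper8010): analytic core of the moving lemma `MOVE`

Mathlib-only.  One implicit function theorem for the square system

  `∑ k, v k * β (inl i) k (s i) = 0`  (`i : ι`, vanishing at the moving points),
  `∑ k, v k * β (inr j) k (γ j) = 0`  (`j : τ`, the residual zeros),
  `v k0 = v0 k0`                       (normalisation),

in the unknowns `(v, γ)`, with parameter `s`, followed by the "infinitesimal Abel" step:
the abelian sum `∑ i, J (inl i) (s i) + ∑ j, J (inr j) (γ j)` has vanishing derivative,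
by the residue hypothesis `hres`.
-/

set_option autoImplicit false

open Metric Topology

namespace Fermat.Agent.S27.helper8010

section Core

variable {ι τ : Type*} [Fintype ι] [Fintype τ] {N : ℕ}

/-- The implicit system of `MOVE`. -/
noncomputable def sysFun (β : ι ⊕ τ → Fin N → ℂ → ℂ) (k0 : Fin N) :
    (ι → ℂ) × ((Fin N → ℂ) × (τ → ℂ)) → (ι → ℂ) × (τ → ℂ) × ℂ :=
  fun p => (fun i => ∑ k, p.2.1 k * β (Sum.inl i) k (p.1 i),
            fun j => ∑ k, p.2.1 k * β (Sum.inr j) k (p.2.2 j),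
            p.2.1 k0)

theorem contDiffAt_sysFun (β : ι ⊕ τ → Fin N → ℂ → ℂ) (k0 : Fin N)
    (hβ : ∀ a k, AnalyticAt ℂ (β a k) 0) (v0 : Fin N → ℂ) :
    ContDiffAt ℂ 1 (sysFun β k0) ((0 : ι → ℂ), (v0, (0 : τ → ℂ))) := by
  unfold sysFun
  refine ContDiffAt.prodMk ?_ (ContDiffAt.prodMk ?_ ?_)
  · refine contDiffAt_pi.2 fun i => ContDiffAt.sum fun k _ => ContDiffAt.mul ?_ ?_
    · fun_prop
    · exact ContDiffAt.comp (g := β (Sum.inl i) k) (f := fun p : (ι → ℂ) × ((Fin N → ℂ) × (τ → ℂ)) => p.1 i)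
        _ (hβ _ k).contDiffAt (by fun_prop)
  · refine contDiffAt_pi.2 fun j => ContDiffAt.sum fun k _ => ContDiffAt.mul ?_ ?_
    · fun_prop
    · exact ContDiffAt.comp (g := β (Sum.inr j) k)
        (f := fun p : (ι → ℂ) × ((Fin N → ℂ) × (τ → ℂ)) => p.2.2 j)
        _ (hβ _ k).contDiffAt (by fun_prop)
  · fun_prop


/-- The partial derivative of the system in the unknowns `(v, γ)` is injective at the base. -/
theorem sysFun_partial_injective {δ : ℝ} (hδ : 0 < δ) (β : ι ⊕ τ → Fin N → ℂ → ℂ) (k0 : Fin N)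
    (hβ : ∀ a k, AnalyticAt ℂ (β a k) 0) (v0 : Fin N → ℂ) (hk0 : v0 k0 ≠ 0)
    (hline : ∀ v : Fin N → ℂ, (∀ i, ∑ k, v k * β (Sum.inl i) k 0 = 0) → ∃ c : ℂ, v = c • v0)
    (hres0 : ∀ j, ∀ z ∈ ball (0 : ℂ) δ, ∑ k, v0 k * β (Sum.inr j) k z = z)
    (d : (Fin N → ℂ) × (τ → ℂ))
    (hd : fderiv ℂ (sysFun β k0) ((0 : ι → ℂ), (v0, (0 : τ → ℂ))) (0, d) = 0) : d = 0 := by
  set u : (ι → ℂ) × ((Fin N → ℂ) × (τ → ℂ)) := ((0 : ι → ℂ), (v0, (0 : τ → ℂ))) with hu
  have hf : HasFDerivAt (sysFun β k0) (fderiv ℂ (sysFun β k0) u) u :=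
    ((contDiffAt_sysFun β k0 hβ v0).differentiableAt one_ne_zero).hasFDerivAt
  have hc : HasDerivAt (fun t : ℂ => sysFun β k0 (u + t • (0, d))) 0 0 := by
    have := hf.hasLineDerivAt (0, d)
    rw [hd] at this
    exact this
  obtain ⟨vd, gd⟩ := d
  -- first component
  have h1 : ∀ i, ∑ k, vd k * β (Sum.inl i) k 0 = 0 := by
    intro i
    have hΛ := ((ContinuousLinearMap.proj (R := ℂ) (φ := fun _ : ι => ℂ) i).comp
      (ContinuousLinearMap.fst ℂ (ι → ℂ) ((τ → ℂ) × ℂ))).hasFDerivAt.comp_hasDerivAt (0 : ℂ) hc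
    have hexp : HasDerivAt (fun t : ℂ => ∑ k, (v0 k + t * vd k) * β (Sum.inl i) k 0)
        (∑ k, vd k * β (Sum.inl i) k 0) 0 := by
      refine HasDerivAt.fun_sum fun k _ => ?_
      have := (((hasDerivAt_id (0 : ℂ)).mul_const (vd k)).const_add (v0 k)).mul_const
        (β (Sum.inl i) k 0)
      simpa using this
    have heq : (fun t : ℂ => ∑ k, (v0 k + t * vd k) * β (Sum.inl i) k 0) =
        (⇑((ContinuousLinearMap.proj (R := ℂ) (φ := fun _ : ι => ℂ) i).comp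
          (ContinuousLinearMap.fst ℂ (ι → ℂ) ((τ → ℂ) × ℂ))) ∘
          fun t : ℂ => sysFun β k0 (u + t • (0, (vd, gd)))) := by
      funext t
      simp [sysFun, hu]
    rw [heq] at hexp
    have := hexp.unique hΛ
    simpa using this
  obtain ⟨c, hcv⟩ := hline vd h1
  -- third component
  have h3 : vd k0 = 0 := by
    have hΛ := ((ContinuousLinearMap.snd ℂ (τ → ℂ) ℂ).comp
      (ContinuousLinearMap.snd ℂ (ι → ℂ) ((τ → ℂ) × ℂ))).hasFDerivAt.comp_hasDerivAt (0 : ℂ) hc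
    have hexp : HasDerivAt (fun t : ℂ => v0 k0 + t * vd k0) (vd k0) 0 := by
      have := ((hasDerivAt_id (0 : ℂ)).mul_const (vd k0)).const_add (v0 k0)
      simpa using this
    have heq : (fun t : ℂ => v0 k0 + t * vd k0) =
        (⇑((ContinuousLinearMap.snd ℂ (τ → ℂ) ℂ).comp
          (ContinuousLinearMap.snd ℂ (ι → ℂ) ((τ → ℂ) × ℂ))) ∘
          fun t : ℂ => sysFun β k0 (u + t • (0, (vd, gd)))) := by
      funext t
      simp [sysFun, hu]
    rw [heq] at hexp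
    have := hexp.unique hΛ
    simpa using this
  have hvd : vd = 0 := by
    have hc0 : c = 0 := by
      have := congrFun hcv k0
      rw [h3] at this
      simp only [Pi.smul_apply, smul_eq_mul] at this
      rcases mul_eq_zero.mp this.symm with h | h
      · exact h
      · exact absurd h hk0
    rw [hcv, hc0, zero_smul]
  subst hvd
  -- second component
  have h2 : ∀ j, gd j = 0 := by
    intro j
    have hΛ := ((ContinuousLinearMap.proj (R := ℂ) (φ := fun _ : τ => ℂ) j).comp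
      ((ContinuousLinearMap.fst ℂ (τ → ℂ) ℂ).comp
      (ContinuousLinearMap.snd ℂ (ι → ℂ) ((τ → ℂ) × ℂ)))).hasFDerivAt.comp_hasDerivAt (0 : ℂ) hc
    have hexp : HasDerivAt (fun t : ℂ => t * gd j) (gd j) 0 := by
      have := (hasDerivAt_id (0 : ℂ)).mul_const (gd j)
      simpa using this
    have hev : ∀ᶠ t : ℂ in 𝓝 0, t * gd j ∈ ball (0 : ℂ) δ := by
      have hcont : ContinuousAt (fun t : ℂ => t * gd j) 0 := by fun_prop
      have h0 : (fun t : ℂ => t * gd j) 0 ∈ ball (0 : ℂ) δ := by simpa using hδ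
      exact hcont.preimage_mem_nhds (isOpen_ball.mem_nhds h0)
    have heq : (fun t : ℂ => t * gd j) =ᶠ[𝓝 0]
        (⇑((ContinuousLinearMap.proj (R := ℂ) (φ := fun _ : τ => ℂ) j).comp
          ((ContinuousLinearMap.fst ℂ (τ → ℂ) ℂ).comp
          (ContinuousLinearMap.snd ℂ (ι → ℂ) ((τ → ℂ) × ℂ)))) ∘
          fun t : ℂ => sysFun β k0 (u + t • (0, ((0 : Fin N → ℂ), gd)))) := by
      filter_upwards [hev] with t ht
      have := hres0 j _ ht
      simp [sysFun, hu, this]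
    have := (hexp.congr_of_eventuallyEq heq.symm).unique hΛ
    simpa using this
  have : gd = 0 := funext h2
  rw [this]
  rfl


theorem sysFun_isInvertible {δ : ℝ} (hδ : 0 < δ) (β : ι ⊕ τ → Fin N → ℂ → ℂ) (k0 : Fin N)
    (hβ : ∀ a k, AnalyticAt ℂ (β a k) 0) (v0 : Fin N → ℂ) (hk0 : v0 k0 ≠ 0)
    (hN : N = Fintype.card ι + 1)
    (hline : ∀ v : Fin N → ℂ, (∀ i, ∑ k, v k * β (Sum.inl i) k 0 = 0) → ∃ c : ℂ, v = c • v0)
    (hres0 : ∀ j, ∀ z ∈ ball (0 : ℂ) δ, ∑ k, v0 k * β (Sum.inr j) k z = z) :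
    (fderiv ℂ (sysFun β k0) ((0 : ι → ℂ), (v0, (0 : τ → ℂ))) ∘L
      ContinuousLinearMap.inr ℂ (ι → ℂ) ((Fin N → ℂ) × (τ → ℂ))).IsInvertible := by
  set L := fderiv ℂ (sysFun β k0) ((0 : ι → ℂ), (v0, (0 : τ → ℂ))) ∘L
      ContinuousLinearMap.inr ℂ (ι → ℂ) ((Fin N → ℂ) × (τ → ℂ)) with hL
  have hinj : Function.Injective (L : (Fin N → ℂ) × (τ → ℂ) →ₗ[ℂ] (ι → ℂ) × (τ → ℂ) × ℂ) := by
    rw [← LinearMap.ker_eq_bot, LinearMap.ker_eq_bot']
    intro d hd
    refine sysFun_partial_injective hδ β k0 hβ v0 hk0 hline hres0 d ?_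
    have : L d = 0 := hd
    simpa [hL] using this
  have hfr : Module.finrank ℂ ((Fin N → ℂ) × (τ → ℂ)) =
      Module.finrank ℂ ((ι → ℂ) × (τ → ℂ) × ℂ) := by
    simp [Module.finrank_prod, hN]
    ring
  have hsurj : Function.Surjective (L : (Fin N → ℂ) × (τ → ℂ) →ₗ[ℂ] (ι → ℂ) × (τ → ℂ) × ℂ) :=
    (LinearMap.injective_iff_surjective_of_finrank_eq_finrank hfr).1 hinj
  exact ⟨ContinuousLinearEquiv.ofBijective L (LinearMap.ker_eq_bot.2 hinj)
    (LinearMap.range_eq_top.2 hsurj), by ext x <;> rfl⟩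

/-- Differentiating a vanishing identity `∑ k, w k s * b k (p s) = 0`. -/
theorem vanishing_deriv {E : Type*} [NormedAddCommGroup E] [NormedSpace ℂ E]
    (b : Fin N → ℂ → ℂ) (w : Fin N → E → ℂ) (w' : Fin N → E →L[ℂ] ℂ) (p : E → ℂ)
    (p' : E →L[ℂ] ℂ) (s : E) (hb : ∀ k, DifferentiableAt ℂ (b k) (p s))
    (hw : ∀ k, HasFDerivAt (w k) (w' k) s) (hp : HasFDerivAt p p' s)
    (hvan : ∀ᶠ s' in 𝓝 s, ∑ k, w k s' * b k (p s') = 0) (d : E) :
    ∑ k, w' k d * b k (p s) + p' d * ∑ k, w k s * deriv (b k) (p s) = 0 := by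
  have h1 : HasFDerivAt (fun s' => ∑ k, w k s' * b k (p s'))
      (∑ k, (w k s • (deriv (b k) (p s) • p') + b k (p s) • w' k)) s := by
    refine HasFDerivAt.fun_sum fun k _ => ?_
    exact (hw k).mul ((hb k).hasDerivAt.comp_hasFDerivAt s hp)
  have h2 : HasFDerivAt (fun s' => ∑ k, w k s' * b k (p s')) (0 : E →L[ℂ] ℂ) s :=
    (hasFDerivAt_const (0 : ℂ) s).congr_of_eventuallyEq hvan
  have h3 := DFunLike.congr_fun (h1.unique h2) d
  simp only [sum_apply, add_apply, smul_apply, smul_eq_mul, zero_apply] at h3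
  rw [Finset.mul_sum, ← Finset.sum_add_distrib]
  rw [← h3]
  refine Finset.sum_congr rfl fun k _ => ?_
  ring


/-- **Analytic core of `MOVE`.** -/
theorem move_analytic {V : Type*} [NormedAddCommGroup V] [NormedSpace ℂ V]
    {δ : ℝ} (hδ : 0 < δ) (β : ι ⊕ τ → Fin N → ℂ → ℂ)
    (hβ : ∀ a k, ∀ z ∈ ball (0 : ℂ) δ, AnalyticAt ℂ (β a k) z)
    (v0 : Fin N → ℂ) (hN : N = Fintype.card ι + 1) (hv0ne : v0 ≠ 0)
    (hv0 : ∀ i, ∑ k, v0 k * β (Sum.inl i) k 0 = 0)
    (hline : ∀ v : Fin N → ℂ, (∀ i, ∑ k, v k * β (Sum.inl i) k 0 = 0) → ∃ c : ℂ, v = c • v0)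
    (hres0 : ∀ j, ∀ z ∈ ball (0 : ℂ) δ, ∑ k, v0 k * β (Sum.inr j) k z = z)
    (ω J : ι ⊕ τ → ℂ → V)
    (hJ : ∀ a, ∀ z ∈ ball (0 : ℂ) δ, HasDerivAt (J a) (ω a z) z) (hJ0 : ∀ a, J a 0 = 0)
    (hres : ∀ (z : ι ⊕ τ → ℂ) (v v' : Fin N → ℂ) (ρ : ι ⊕ τ → ℂ), (∀ a, ‖z a‖ < δ) → v ≠ 0 →
      (∀ a, ∑ k, v k * β a k (z a) = 0) →
      (∀ a, ∑ k, v' k * β a k (z a) + ρ a * ∑ k, v k * deriv (β a k) (z a) = 0) →
      ∑ a, ρ a • ω a (z a) = 0)
    (ρ₀ : ℝ) (hρ₀ : 0 < ρ₀) :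
    ∃ ε > 0, ∀ s : ι → ℂ, (∀ i, ‖s i‖ < ε) →
      ∃ (γ : τ → ℂ) (v : Fin N → ℂ), (∀ j, ‖γ j‖ < ρ₀) ∧ v ≠ 0 ∧
        (∀ i, ∑ k, v k * β (Sum.inl i) k (s i) = 0) ∧
        (∀ j, ∑ k, v k * β (Sum.inr j) k (γ j) = 0) ∧
        ∑ i, J (Sum.inl i) (s i) + ∑ j, J (Sum.inr j) (γ j) = 0 := by
  classical
  obtain ⟨k0, hk0⟩ : ∃ k0, v0 k0 ≠ 0 := by
    by_contra h
    simp only [not_exists, not_not] at h
    exact hv0ne (funext h)
  have h0mem : (0 : ℂ) ∈ ball (0 : ℂ) δ := mem_ball_self hδ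
  have hβ0 : ∀ a k, AnalyticAt ℂ (β a k) 0 := fun a k => hβ a k 0 h0mem
  have hcd := contDiffAt_sysFun (ι := ι) (τ := τ) β k0 hβ0 v0
  have hinv := sysFun_isInvertible (ι := ι) (τ := τ) hδ β k0 hβ0 v0 hk0 hN hline hres0
  set ψ := hcd.implicitFunction one_ne_zero hinv with hψ
  have hψ0 : ψ 0 = (v0, 0) := hcd.implicitFunction_apply_self one_ne_zero hinv
  have hψeq : ∀ᶠ s in 𝓝 (0 : ι → ℂ),
      sysFun β k0 (s, ψ s) = sysFun β k0 ((0 : ι → ℂ), (v0, (0 : τ → ℂ))) :=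
    hcd.eventually_apply_implicitFunction one_ne_zero hinv
  have hψcd : ContDiffAt ℂ 1 ψ 0 := hcd.contDiffAt_implicitFunction one_ne_zero hinv
  have hψdiff : ∀ᶠ s in 𝓝 (0 : ι → ℂ), DifferentiableAt ℂ ψ s :=
    (hψcd.eventually (by simp)).mono fun s hs => hs.differentiableAt one_ne_zero
  have hψcont : ContinuousAt ψ 0 := hψcd.continuousAt
  have hγsmall : ∀ᶠ s in 𝓝 (0 : ι → ℂ), ∀ j, ‖(ψ s).2 j‖ < min δ ρ₀ := by
    have hcont2 : ContinuousAt (fun s => (ψ s).2) 0 := hψcont.snd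
    have h0 : (fun s => (ψ s).2) 0 ∈ ball (0 : τ → ℂ) (min δ ρ₀) := by
      simp only [hψ0]
      exact mem_ball_self (lt_min hδ hρ₀)
    filter_upwards [hcont2.preimage_mem_nhds (isOpen_ball.mem_nhds h0)] with s hs j
    have hs' : ‖(ψ s).2‖ < min δ ρ₀ := by simpa using hs
    exact (pi_norm_lt_iff (lt_min hδ hρ₀)).1 hs' j
  obtain ⟨ε, hε, hball⟩ := Metric.eventually_nhds_iff_ball.1 (hψeq.and (hψdiff.and hγsmall))
  have hε' : 0 < min ε δ := lt_min hε hδ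
  -- the base value of the system
  have hbase : sysFun β k0 ((0 : ι → ℂ), (v0, (0 : τ → ℂ))) = (0, 0, v0 k0) := by
    unfold sysFun
    refine Prod.ext ?_ (Prod.ext ?_ rfl)
    · funext i
      simpa using hv0 i
    · funext j
      simpa using hres0 j 0 h0mem
  -- the three families of identities on the ball
  have hE : ∀ s ∈ ball (0 : ι → ℂ) ε,
      (∀ i, ∑ k, (ψ s).1 k * β (Sum.inl i) k (s i) = 0) ∧
      (∀ j, ∑ k, (ψ s).1 k * β (Sum.inr j) k ((ψ s).2 j) = 0) ∧ (ψ s).1 k0 = v0 k0 := by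
    intro s hs
    have h := (hball s hs).1
    rw [hbase] at h
    unfold sysFun at h
    simp only [Prod.mk.injEq] at h
    exact ⟨fun i => congrFun h.1 i, fun j => congrFun h.2.1 j, h.2.2⟩
  set B := ball (0 : ι → ℂ) (min ε δ) with hB
  have hBsub : B ⊆ ball (0 : ι → ℂ) ε := ball_subset_ball (min_le_left _ _)
  have hsδ : ∀ s ∈ B, ∀ i, ‖s i‖ < δ := by
    intro s hs i
    have : ‖s‖ < min ε δ := by simpa [hB] using hs
    exact ((pi_norm_lt_iff hε').1 this i).trans_le (min_le_right _ _)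
  set Ψ : (ι → ℂ) → V := fun s => ∑ i, J (Sum.inl i) (s i) + ∑ j, J (Sum.inr j) ((ψ s).2 j)
    with hΨ
  have hΨder : ∀ s ∈ B, HasFDerivAt Ψ (0 : (ι → ℂ) →L[ℂ] V) s := by
    intro s hs
    have hsε := hBsub hs
    have hDψ : HasFDerivAt ψ (fderiv ℂ ψ s) s := (hball s hsε).2.1.hasFDerivAt
    set Dψ := fderiv ℂ ψ s with hDψdef
    have hγs : ∀ j, ‖(ψ s).2 j‖ < δ := fun j =>
      ((hball s hsε).2.2 j).trans_le (min_le_left _ _)
    -- derivatives of the coordinate functions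
    have hv : ∀ k, HasFDerivAt (fun s' => (ψ s').1 k)
        (((ContinuousLinearMap.proj (R := ℂ) (φ := fun _ : Fin N => ℂ) k).comp
          (ContinuousLinearMap.fst ℂ (Fin N → ℂ) (τ → ℂ))).comp Dψ) s := fun k =>
      ((ContinuousLinearMap.proj (R := ℂ) (φ := fun _ : Fin N => ℂ) k).comp
          (ContinuousLinearMap.fst ℂ (Fin N → ℂ) (τ → ℂ))).hasFDerivAt.comp s hDψ
    have hg : ∀ j, HasFDerivAt (fun s' => (ψ s').2 j)
        (((ContinuousLinearMap.proj (R := ℂ) (φ := fun _ : τ => ℂ) j).comp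
          (ContinuousLinearMap.snd ℂ (Fin N → ℂ) (τ → ℂ))).comp Dψ) s := fun j =>
      ((ContinuousLinearMap.proj (R := ℂ) (φ := fun _ : τ => ℂ) j).comp
          (ContinuousLinearMap.snd ℂ (Fin N → ℂ) (τ → ℂ))).hasFDerivAt.comp s hDψ
    have hpi : ∀ i, HasFDerivAt (fun s' : ι → ℂ => s' i)
        (ContinuousLinearMap.proj (R := ℂ) (φ := fun _ : ι => ℂ) i) s := fun i =>
      (ContinuousLinearMap.proj (R := ℂ) (φ := fun _ : ι => ℂ) i).hasFDerivAt
    have hnhds : ball (0 : ι → ℂ) ε ∈ 𝓝 s := isOpen_ball.mem_nhds hsε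
    -- explicit derivative of Ψ
    have hΨ1 : HasFDerivAt Ψ
        (∑ i, (ContinuousLinearMap.smulRight (1 : ℂ →L[ℂ] ℂ) (ω (Sum.inl i) (s i))).comp
            (ContinuousLinearMap.proj (R := ℂ) (φ := fun _ : ι => ℂ) i) +
          ∑ j, (ContinuousLinearMap.smulRight (1 : ℂ →L[ℂ] ℂ) (ω (Sum.inr j) ((ψ s).2 j))).comp
            (((ContinuousLinearMap.proj (R := ℂ) (φ := fun _ : τ => ℂ) j).comp
              (ContinuousLinearMap.snd ℂ (Fin N → ℂ) (τ → ℂ))).comp Dψ)) s := by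
      refine HasFDerivAt.add (HasFDerivAt.fun_sum fun i _ => ?_) (HasFDerivAt.fun_sum fun j _ => ?_)
      · exact (hJ (Sum.inl i) (s i) (by simpa using hsδ s hs i)).hasFDerivAt.comp s (hpi i)
      · exact (hJ (Sum.inr j) ((ψ s).2 j) (by simpa using hγs j)).hasFDerivAt.comp s (hg j)
    have hzero : (∑ i, (ContinuousLinearMap.smulRight (1 : ℂ →L[ℂ] ℂ) (ω (Sum.inl i) (s i))).comp
            (ContinuousLinearMap.proj (R := ℂ) (φ := fun _ : ι => ℂ) i) +
          ∑ j, (ContinuousLinearMap.smulRight (1 : ℂ →L[ℂ] ℂ) (ω (Sum.inr j) ((ψ s).2 j))).comp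
            (((ContinuousLinearMap.proj (R := ℂ) (φ := fun _ : τ => ℂ) j).comp
              (ContinuousLinearMap.snd ℂ (Fin N → ℂ) (τ → ℂ))).comp Dψ)) =
        (0 : (ι → ℂ) →L[ℂ] V) := by
      ext d
      have key := hres (Sum.elim s (ψ s).2) (ψ s).1 (Dψ d).1 (Sum.elim d (Dψ d).2) ?_ ?_ ?_ ?_
      · rw [Fintype.sum_sum_type] at key
        simpa using key
      · rintro (i | j)
        · exact hsδ s hs i
        · exact hγs j
      · intro h0
        have := (hE s hsε).2.2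
        rw [h0] at this
        exact hk0 this.symm
      · rintro (i | j)
        · exact (hE s hsε).1 i
        · exact (hE s hsε).2.1 j
      · rintro (i | j)
        · have := vanishing_deriv (β (Sum.inl i)) (fun k s' => (ψ s').1 k) _
            (fun s' : ι → ℂ => s' i) _ s
            (fun k => (hβ _ k _ (by simpa using hsδ s hs i)).differentiableAt) hv (hpi i)
            (Filter.eventually_of_mem hnhds fun s' hs' => (hE s' hs').1 i) d
          simpa using this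
        · have := vanishing_deriv (β (Sum.inr j)) (fun k s' => (ψ s').1 k) _
            (fun s' : ι → ℂ => (ψ s').2 j) _ s
            (fun k => (hβ _ k _ (by simpa using hγs j)).differentiableAt) hv (hg j)
            (Filter.eventually_of_mem hnhds fun s' hs' => (hE s' hs').2.1 j) d
          simpa using this
    rw [hzero] at hΨ1
    exact hΨ1
  refine ⟨min ε δ, hε', fun s hs => ?_⟩
  have hsB : s ∈ B := by
    have : ‖s‖ < min ε δ := (pi_norm_lt_iff hε').2 hs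
    simpa [hB] using this
  have hsε := hBsub hsB
  refine ⟨(ψ s).2, (ψ s).1, fun j => ((hball s hsε).2.2 j).trans_le (min_le_right _ _), ?_,
    (hE s hsε).1, (hE s hsε).2.1, ?_⟩
  · intro h0
    have := (hE s hsε).2.2
    rw [h0] at this
    exact hk0 this.symm
  · have h0B : (0 : ι → ℂ) ∈ B := mem_ball_self hε'
    have hconst : Ψ s = Ψ 0 := by
      refine (convex_ball (0 : ι → ℂ) (min ε δ)).is_const_of_fderivWithin_eq_zero (𝕜 := ℂ)
        (fun x hx => (hΨder x hx).differentiableAt.differentiableWithinAt) (fun x hx => ?_)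
        hsB h0B
      rw [fderivWithin_of_isOpen isOpen_ball hx]
      exact (hΨder x hx).fderiv
    have hΨ0 : Ψ 0 = 0 := by
      simp [hΨ, hψ0, hJ0]
    rw [← hΨ0, ← hconst]

end Core

end Fermat.Agent.S27.helper8010
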