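/-
S27 brick (statement-agnostic, Mathlib + Prelude defs only), helper8066.

LATTICE TORSION COUNT.  If `E : V →+ J` is a surjective additive map from a finite-dimensional
real normed space onto an abelian group `J` whose kernel is discrete and spans `V` over `ℝ`,
then `J[n]` has exactly `n ^ dim_ℝ V` elements (`n ≠ 0`).
Corollary in the frozen S27 vocabulary: a surjection `(Fin g → ℂ) →+ Pic0 K F` (or from any
finite-dimensional complex normed space of dimension `g`) with discrete spanning kernel gives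
`Nat.card (Pic0.torsion K F n) = n ^ (2 * g)` and the `ℓ ^ k` form of S27.
-/
import Mathlib
import Fermat.Prelude.Def_AlgebraicCurve_DivisorClassGroup

set_option autoImplicit false

namespace Fermat.Agent.S27.helper8066

open Module

section Abstract

variable {V : Type*} [NormedAddCommGroup V] [NormedSpace ℝ V] [FiniteDimensional ℝ V]
variable {J : Type*} [AddCommGroup J]

/-- The kernel of `E` as a `ℤ`-submodule of `V`. -/
def kerLattice (E : V →+ J) : Submodule ℤ V := AddSubgroup.toIntSubmodule E.ker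

omit [NormedSpace ℝ V] [FiniteDimensional ℝ V] in
theorem mem_kerLattice {E : V →+ J} {v : V} : v ∈ kerLattice E ↔ E v = 0 := Iff.rfl

/-- Abstract count: free `ℤ`-module `L` of finite rank, an additive surjection onto `T`
with kernel `n • L` gives `Nat.card T = n ^ rank L`. -/
theorem natCard_of_surjective_ker_eq_smul
    {L : Type*} [AddCommGroup L] [Module.Free ℤ L] [Module.Finite ℤ L]
    {T : Type*} [AddCommGroup T] (φ : L →+ T) (hφ : Function.Surjective φ)
    (n : ℕ) (hn : n ≠ 0)
    (hker : ∀ x : L, φ x = 0 ↔ ∃ y : L, x = n • y) :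
    Nat.card T = n ^ finrank ℤ L := by
  classical
  have : NeZero n := ⟨hn⟩
  set d := finrank ℤ L with hd
  let b : Basis (Fin d) ℤ L := Module.finBasis ℤ L
  -- the coordinate map mod n
  let ψ : L →+ (Fin d → ZMod n) :=
    { toFun := fun x i => ((b.repr x i : ℤ) : ZMod n)
      map_zero' := by ext i; simp
      map_add' := fun x y => by ext i; simp }
  have hψ : Function.Surjective ψ := by
    intro f
    refine ⟨b.equivFun.symm (fun i => ((f i).val : ℤ)), ?_⟩
    ext i
    show ((b.repr (b.equivFun.symm fun i => ((f i).val : ℤ)) i : ℤ) : ZMod n) = f i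
    have : b.repr (b.equivFun.symm fun i => ((f i).val : ℤ)) i = ((f i).val : ℤ) := by
      have h := congrFun (b.equivFun.apply_symm_apply (fun i => ((f i).val : ℤ))) i
      rw [Basis.equivFun_apply] at h
      exact h
    rw [this]
    simp
  have hψker : ∀ x : L, ψ x = 0 ↔ ∃ y : L, x = n • y := by
    intro x
    constructor
    · intro h
      have hdiv : ∀ i, (n : ℤ) ∣ b.repr x i := by
        intro i
        have := congrFun h i
        exact (ZMod.intCast_zmod_eq_zero_iff_dvd _ _).mp this
      choose c hc using hdiv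
      refine ⟨b.equivFun.symm c, ?_⟩
      apply b.repr.injective
      ext i
      have h1 : b.repr (b.equivFun.symm c) i = c i := by
        have h := congrFun (b.equivFun.apply_symm_apply c) i
        rw [Basis.equivFun_apply] at h
        exact h
      rw [map_nsmul, Finsupp.smul_apply, h1, hc i]
      simp
    · rintro ⟨y, rfl⟩
      ext i
      show ((b.repr (n • y) i : ℤ) : ZMod n) = 0
      rw [map_nsmul, Finsupp.smul_apply]
      simp
  have hkereq : φ.ker = ψ.ker := by
    ext x
    rw [AddMonoidHom.mem_ker, AddMonoidHom.mem_ker, hker, hψker]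
  have e1 : L ⧸ φ.ker ≃+ T := QuotientAddGroup.quotientKerEquivOfSurjective φ hφ
  have e2 : L ⧸ ψ.ker ≃+ (Fin d → ZMod n) := QuotientAddGroup.quotientKerEquivOfSurjective ψ hψ
  have e3 : L ⧸ φ.ker ≃+ L ⧸ ψ.ker := QuotientAddGroup.quotientAddEquivOfEq hkereq
  calc Nat.card T = Nat.card (L ⧸ φ.ker) := (Nat.card_congr e1.toEquiv).symm
    _ = Nat.card (L ⧸ ψ.ker) := Nat.card_congr e3.toEquiv
    _ = Nat.card (Fin d → ZMod n) := Nat.card_congr e2.toEquiv
    _ = n ^ d := by
      rw [Nat.card_fun, Nat.card_zmod, Nat.card_fin]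

/-- **Lattice torsion count.** -/
theorem natCard_torsionBy_of_lattice_kernel
    (E : V →+ J) (hE : Function.Surjective E)
    (hdisc : DiscreteTopology (kerLattice E))
    (hspan : Submodule.span ℝ ((kerLattice E : Submodule ℤ V) : Set V) = ⊤)
    (n : ℕ) (hn : n ≠ 0) :
    Nat.card (Submodule.torsionBy ℤ J (n : ℤ)) = n ^ finrank ℝ V := by
  classical
  set L : Submodule ℤ V := kerLattice E with hL
  have : DiscreteTopology L := hdisc
  have : IsZLattice ℝ L := ⟨hspan⟩
  have : Module.Free ℤ L := ZLattice.module_free ℝ L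
  have : Module.Finite ℤ L := ZLattice.module_finite ℝ L
  have hrank : finrank ℤ L = finrank ℝ V := ZLattice.rank ℝ L
  have hn' : (n : ℝ) ≠ 0 := Nat.cast_ne_zero.mpr hn
  -- φ : L → J[n], λ ↦ E (λ / n)
  have hmem : ∀ x : L, E ((n : ℝ)⁻¹ • (x : V)) ∈ Submodule.torsionBy ℤ J (n : ℤ) := by
    intro x
    rw [Submodule.mem_torsionBy_iff, ← map_zsmul]
    have : ((n : ℤ) • ((n : ℝ)⁻¹ • (x : V))) = (x : V) := by
      rw [natCast_zsmul, ← Nat.cast_smul_eq_nsmul ℝ, smul_smul, mul_inv_cancel₀ hn', one_smul]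
    rw [this]
    exact x.2
  let φ : L →+ Submodule.torsionBy ℤ J (n : ℤ) :=
    { toFun := fun x => ⟨E ((n : ℝ)⁻¹ • (x : V)), hmem x⟩
      map_zero' := by
        apply Subtype.ext
        simp
      map_add' := fun x y => by
        apply Subtype.ext
        simp [smul_add] }
  have hφ : Function.Surjective φ := by
    rintro ⟨x, hx⟩
    obtain ⟨v, rfl⟩ := hE x
    rw [Submodule.mem_torsionBy_iff, ← map_zsmul] at hx
    refine ⟨⟨(n : ℤ) • v, hx⟩, ?_⟩
    apply Subtype.ext
    show E ((n : ℝ)⁻¹ • ((n : ℤ) • v)) = E v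
    congr 1
    rw [natCast_zsmul, ← Nat.cast_smul_eq_nsmul ℝ, smul_smul, inv_mul_cancel₀ hn', one_smul]
  have hker : ∀ x : L, φ x = 0 ↔ ∃ y : L, x = n • y := by
    intro x
    constructor
    · intro h
      have h0 : E ((n : ℝ)⁻¹ • (x : V)) = 0 := congrArg Subtype.val h
      refine ⟨⟨(n : ℝ)⁻¹ • (x : V), h0⟩, ?_⟩
      apply Subtype.ext
      show (x : V) = ((n • (⟨(n : ℝ)⁻¹ • (x : V), h0⟩ : L) : L) : V)
      rw [AddSubmonoidClass.coe_nsmul]
      show (x : V) = n • ((n : ℝ)⁻¹ • (x : V))
      rw [← Nat.cast_smul_eq_nsmul ℝ, smul_smul, mul_inv_cancel₀ hn', one_smul]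
    · rintro ⟨y, rfl⟩
      apply Subtype.ext
      show E ((n : ℝ)⁻¹ • ((n • y : L) : V)) = 0
      rw [AddSubmonoidClass.coe_nsmul, ← Nat.cast_smul_eq_nsmul ℝ, smul_smul, inv_mul_cancel₀ hn',
        one_smul]
      exact y.2
  rw [natCard_of_surjective_ker_eq_smul φ hφ n hn hker, hrank]

/-- Complex version: `V` a complex normed space of complex dimension `g`. -/
theorem natCard_torsionBy_of_lattice_kernel_complex
    {W : Type*} [NormedAddCommGroup W] [NormedSpace ℂ W] [FiniteDimensional ℂ W]
    (E : W →+ J) (hE : Function.Surjective E)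
    (hdisc : DiscreteTopology (kerLattice E))
    (hspan : Submodule.span ℝ ((kerLattice E : Submodule ℤ W) : Set W) = ⊤)
    (n : ℕ) (hn : n ≠ 0) :
    Nat.card (Submodule.torsionBy ℤ J (n : ℤ)) = n ^ (2 * finrank ℂ W) := by
  have : FiniteDimensional ℝ W := FiniteDimensional.complexToReal W
  rw [natCard_torsionBy_of_lattice_kernel E hE hdisc hspan n hn, finrank_real_of_complex]

end Abstract

section Pic0

open AlgebraicCurve

variable (K F : Type*) [Field K] [Field F] [Algebra K F]

/-- S27 endgame, general `n`: a surjection from a `g`-dimensional complex normed space onto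
`Pic0 K F` with discrete kernel spanning over `ℝ` gives `#Pic0[n] = n ^ (2 g)`. -/
theorem natCard_pic0_torsion_of_lattice_kernel
    {W : Type*} [NormedAddCommGroup W] [NormedSpace ℂ W] [FiniteDimensional ℂ W]
    (E : W →+ Pic0 K F) (hE : Function.Surjective E)
    (hdisc : DiscreteTopology (kerLattice E))
    (hspan : Submodule.span ℝ ((kerLattice E : Submodule ℤ W) : Set W) = ⊤)
    (n : ℕ) (hn : n ≠ 0) :
    Nat.card (Pic0.torsion K F n) = n ^ (2 * finrank ℂ W) :=
  natCard_torsionBy_of_lattice_kernel_complex E hE hdisc hspan n hn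

/-- S27 endgame in the exact frozen shape (`ℓ ^ k`-torsion, exponent `2 * g * k`). -/
theorem natCard_pic0_torsion_pow_of_lattice_kernel
    {W : Type*} [NormedAddCommGroup W] [NormedSpace ℂ W] [FiniteDimensional ℂ W]
    (E : W →+ Pic0 K F) (hE : Function.Surjective E)
    (hdisc : DiscreteTopology (kerLattice E))
    (hspan : Submodule.span ℝ ((kerLattice E : Submodule ℤ W) : Set W) = ⊤)
    (g : ℕ) (hg : finrank ℂ W = g)
    (ℓ : ℕ) (hℓ : ℓ ≠ 0) (k : ℕ) :
    Nat.card (Pic0.torsion K F (ℓ ^ k)) = ℓ ^ (2 * g * k) := by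
  rw [natCard_pic0_torsion_of_lattice_kernel K F E hE hdisc hspan (ℓ ^ k) (pow_ne_zero k hℓ),
    hg, ← pow_mul]
  congr 1
  ring

end Pic0

end Fermat.Agent.S27.helper8066
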