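import Mathlib
import Fermat.Prelude.Def_AlgebraicCurve_Repartitions

/-!
# S27 / L-CMP (backup): a discrete valuation subring from a "primitive factorisation"

`φ : R →+* L` injective with `L = Frac (φ R)`, `ρ : R →+* k` a ring hom to a field, `τ : R`
with `ρ τ = 0`, and every nonzero `z : R` is `τ ^ n * u` with `ρ u ≠ 0`.  Then
`{a / u | ρ u ≠ 0}` is a discrete valuation subring of `L` with uniformizer `φ τ`.
-/

set_option autoImplicit false

namespace Fermat.Agent.S27.helper823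

open AlgebraicCurve

/-- Primitive factorisation datum. -/
structure PrimFact {R L k : Type*} [CommRing R] [Field L] [Field k]
    (φ : R →+* L) (ρ : R →+* k) (τ : R) : Prop where
  inj : Function.Injective φ
  frac : ∀ g : L, ∃ a b : R, b ≠ 0 ∧ g * φ b = φ a
  tau_ne : τ ≠ 0
  rho_tau : ρ τ = 0
  fact : ∀ z : R, z ≠ 0 → ∃ (n : ℕ) (u : R), ρ u ≠ 0 ∧ z = τ ^ n * u

namespace PrimFact

variable {R L k : Type*} [CommRing R] [Field L] [Field k]
  {φ : R →+* L} {ρ : R →+* k} {τ : R}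

theorem ne_zero_of_rho (_h : PrimFact φ ρ τ) {u : R} (hu : ρ u ≠ 0) : u ≠ 0 := by
  rintro rfl
  exact hu (map_zero ρ)

theorem phi_ne_zero (h : PrimFact φ ρ τ) {u : R} (hu : u ≠ 0) : φ u ≠ 0 := fun h0 =>
  hu (h.inj (h0.trans (map_zero φ).symm))

theorem phi_ne_zero_of_rho (h : PrimFact φ ρ τ) {u : R} (hu : ρ u ≠ 0) : φ u ≠ 0 :=
  h.phi_ne_zero (h.ne_zero_of_rho hu)

theorem phi_tau_ne (h : PrimFact φ ρ τ) : φ τ ≠ 0 := h.phi_ne_zero h.tau_ne

/-- The subring `{a / u | ρ u ≠ 0}`. -/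
def subring (_h : PrimFact φ ρ τ) : Subring L where
  carrier := {g | ∃ a u : R, ρ u ≠ 0 ∧ g * φ u = φ a}
  zero_mem' := ⟨0, 1, by simp, by simp⟩
  one_mem' := ⟨1, 1, by simp, by simp⟩
  add_mem' := by
    rintro g g' ⟨a, u, hu, e⟩ ⟨a', u', hu', e'⟩
    refine ⟨a * u' + a' * u, u * u', by simp [hu, hu'], ?_⟩
    simp only [map_mul, map_add, ← e, ← e']
    ring
  mul_mem' := by
    rintro g g' ⟨a, u, hu, e⟩ ⟨a', u', hu', e'⟩
    refine ⟨a * a', u * u', by simp [hu, hu'], ?_⟩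
    simp only [map_mul, ← e, ← e']
    ring
  neg_mem' := by
    rintro g ⟨a, u, hu, e⟩
    exact ⟨-a, u, hu, by simp [← e]⟩

theorem mem_subring (h : PrimFact φ ρ τ) {g : L} :
    g ∈ h.subring ↔ ∃ a u : R, ρ u ≠ 0 ∧ g * φ u = φ a := Iff.rfl

theorem mem_or_inv_mem (h : PrimFact φ ρ τ) (g : L) : g ∈ h.subring ∨ g⁻¹ ∈ h.subring := by
  rcases eq_or_ne g 0 with rfl | hg
  · exact Or.inl (zero_mem _)
  obtain ⟨a, b, hb, e⟩ := h.frac g
  have hφb := h.phi_ne_zero hb
  have ha : a ≠ 0 := by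
    rintro rfl
    rw [map_zero] at e
    exact (mul_ne_zero hg hφb) e
  obtain ⟨n, u, hu, rfl⟩ := h.fact a ha
  obtain ⟨m, w, hw, rfl⟩ := h.fact b hb
  have hτ := h.phi_tau_ne
  have hφu := h.phi_ne_zero_of_rho hu
  have hφw := h.phi_ne_zero_of_rho hw
  simp only [map_mul, map_pow] at e
  rcases le_total m n with hmn | hnm
  · left
    refine ⟨τ ^ (n - m) * u, w, hw, ?_⟩
    simp only [map_mul, map_pow]
    have : φ τ ^ n = φ τ ^ m * φ τ ^ (n - m) := by rw [← pow_add, Nat.add_sub_cancel' hmn]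
    rw [this] at e
    have h2 : φ τ ^ m * (g * φ w) = φ τ ^ m * (φ τ ^ (n - m) * φ u) := by
      rw [← mul_assoc (φ τ ^ m) (φ τ ^ (n - m)), ← e]; ring
    exact mul_left_cancel₀ (pow_ne_zero m hτ) h2
  · right
    refine ⟨τ ^ (m - n) * w, u, hu, ?_⟩
    simp only [map_mul, map_pow]
    have : φ τ ^ m = φ τ ^ n * φ τ ^ (m - n) := by rw [← pow_add, Nat.add_sub_cancel' hnm]
    rw [this] at e
    have h2 : g * (φ τ ^ n * (g⁻¹ * φ u)) = g * (φ τ ^ n * (φ τ ^ (m - n) * φ w)) := by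
      have : g * (φ τ ^ n * (g⁻¹ * φ u)) = φ τ ^ n * φ u := by
        field_simp
      rw [this, ← e]; ring
    exact mul_left_cancel₀ (pow_ne_zero n hτ) (mul_left_cancel₀ hg h2)

/-- The valuation subring attached to a primitive factorisation. -/
def valSub (h : PrimFact φ ρ τ) : ValuationSubring L :=
  ValuationSubring.ofSubring h.subring h.mem_or_inv_mem

theorem mem_valSub (h : PrimFact φ ρ τ) {g : L} :
    g ∈ h.valSub ↔ ∃ a u : R, ρ u ≠ 0 ∧ g * φ u = φ a := Iff.rfl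

theorem phi_mem (h : PrimFact φ ρ τ) (a : R) : φ a ∈ h.valSub :=
  ⟨a, 1, by simp, by simp⟩

theorem inv_phi_mem (h : PrimFact φ ρ τ) {u : R} (hu : ρ u ≠ 0) : (φ u)⁻¹ ∈ h.valSub :=
  ⟨1, u, hu, by simp [h.phi_ne_zero_of_rho hu]⟩

theorem div_mem (h : PrimFact φ ρ τ) (a : R) {u : R} (hu : ρ u ≠ 0) : φ a / φ u ∈ h.valSub := by
  rw [div_eq_mul_inv]
  exact mul_mem (h.phi_mem a) (h.inv_phi_mem hu)

/-- `(φ τ)⁻¹` is not in the valuation subring. -/
theorem inv_tau_not_mem (h : PrimFact φ ρ τ) : (φ τ)⁻¹ ∉ h.valSub := by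
  rintro ⟨a, u, hu, e⟩
  have hτ := h.phi_tau_ne
  have : φ u = φ (τ * a) := by
    rw [map_mul, ← e]; field_simp
  have := h.inj this
  apply hu
  rw [this, map_mul, h.rho_tau, zero_mul]

theorem valSub_ne_top (h : PrimFact φ ρ τ) : h.valSub ≠ ⊤ := fun e =>
  h.inv_tau_not_mem (e ▸ ValuationSubring.mem_top _)

/-- The uniformizer as an element of the valuation subring. -/
def unif (h : PrimFact φ ρ τ) : h.valSub := ⟨φ τ, h.phi_mem τ⟩

/-- A unit of the valuation subring from a quotient of two primitive elements. -/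
def unitOf (h : PrimFact φ ρ τ) {u w : R} (hu : ρ u ≠ 0) (hw : ρ w ≠ 0) : (h.valSub)ˣ where
  val := ⟨φ u / φ w, h.div_mem u hw⟩
  inv := ⟨φ w / φ u, h.div_mem w hu⟩
  val_inv := by
    ext
    simp only [MulMemClass.coe_mul, OneMemClass.coe_one]
    field_simp [h.phi_ne_zero_of_rho hu, h.phi_ne_zero_of_rho hw]
  inv_val := by
    ext
    simp only [MulMemClass.coe_mul, OneMemClass.coe_one]
    field_simp [h.phi_ne_zero_of_rho hu, h.phi_ne_zero_of_rho hw]

theorem coe_unitOf (h : PrimFact φ ρ τ) {u w : R} (hu : ρ u ≠ 0) (hw : ρ w ≠ 0) :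
    (((h.unitOf hu hw : (h.valSub)ˣ) : h.valSub) : L) = φ u / φ w := rfl

/-- Every nonzero element of the valuation subring is a power of the uniformizer times a
unit. -/
theorem exists_pow_mul_unit (h : PrimFact φ ρ τ) (x : h.valSub) (hx : x ≠ 0) :
    ∃ (n : ℕ) (e : (h.valSub)ˣ), x = h.unif ^ n * e := by
  obtain ⟨a, u, hu, e⟩ := x.2
  have hφu := h.phi_ne_zero_of_rho hu
  have hx' : (x : L) ≠ 0 := fun h0 => hx (Subtype.ext h0)
  have ha : a ≠ 0 := by
    rintro rfl
    rw [map_zero] at e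
    exact (mul_ne_zero hx' hφu) e
  obtain ⟨n, w, hw, rfl⟩ := h.fact a ha
  refine ⟨n, h.unitOf hw hu, Subtype.ext ?_⟩
  simp only [MulMemClass.coe_mul, SubmonoidClass.coe_pow, coe_unitOf]
  show (x : L) = φ τ ^ n * (φ w / φ u)
  rw [map_mul, map_pow] at e
  field_simp
  exact e

/-- Uniqueness of the exponent. -/
theorem pow_mul_unit_injective (h : PrimFact φ ρ τ) {n m : ℕ} {e e' : (h.valSub)ˣ}
    (heq : h.unif ^ n * (e : h.valSub) = h.unif ^ m * e') : n = m := by
  by_contra hne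
  wlog hlt : n < m generalizing n m e e'
  · exact this heq.symm (Ne.symm hne) (lt_of_le_of_ne (not_lt.mp hlt) (Ne.symm hne))
  have hτ : h.unif ≠ 0 := fun h0 => h.phi_tau_ne (congrArg Subtype.val h0)
  have h1 : h.unif ^ m = h.unif ^ n * h.unif ^ (m - n) := by
    rw [← pow_add, Nat.add_sub_cancel' hlt.le]
  rw [h1, mul_assoc] at heq
  have h2 : (e : h.valSub) = h.unif ^ (m - n) * e' := mul_left_cancel₀ (pow_ne_zero n hτ) heq
  have h3 : h.unif ^ (m - n) = e * (e'⁻¹ : (h.valSub)ˣ) := by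
    rw [h2, mul_assoc, Units.mul_inv, mul_one]
  have h4 : IsUnit (h.unif ^ (m - n)) := by
    rw [h3]; exact (e * e'⁻¹).isUnit
  have h5 : IsUnit h.unif := by
    have : m - n ≠ 0 := by omega
    exact (isUnit_pow_iff this).mp h4
  obtain ⟨v, hv⟩ := h5
  apply h.inv_tau_not_mem
  have : (φ τ)⁻¹ = ((v⁻¹ : (h.valSub)ˣ) : h.valSub) := by
    have h6 : (h.unif : L) * (((v⁻¹ : (h.valSub)ˣ) : h.valSub) : L) = 1 := by
      rw [← hv]
      have := congrArg (fun z : h.valSub => (z : L)) v.mul_inv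
      simpa only [MulMemClass.coe_mul, OneMemClass.coe_one] using this
    have h7 : (h.unif : L) = φ τ := rfl
    rw [h7] at h6
    exact (eq_inv_of_mul_eq_one_right h6).symm
  rw [this]
  exact Subtype.mem _

theorem not_isUnit_unif (h : PrimFact φ ρ τ) : ¬ IsUnit h.unif := by
  rintro ⟨v, hv⟩
  apply h.inv_tau_not_mem
  have h6 : (h.unif : L) * (((v⁻¹ : (h.valSub)ˣ) : h.valSub) : L) = 1 := by
    rw [← hv]
    have := congrArg (fun z : h.valSub => (z : L)) v.mul_inv
    simpa only [MulMemClass.coe_mul, OneMemClass.coe_one] using this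
  have h7 : (h.unif : L) = φ τ := rfl
  rw [h7] at h6
  rw [← eq_inv_of_mul_eq_one_right h6]
  exact Subtype.mem _

instance isPrincipalIdealRing_valSub (h : PrimFact φ ρ τ) : IsPrincipalIdealRing h.valSub := by
  classical
  refine ⟨fun I => ?_⟩
  by_cases hI : I = ⊥
  · rw [hI]; exact ⟨0, by simp⟩
  have hex : ∃ n : ℕ, h.unif ^ n ∈ I := by
    obtain ⟨x, hxI, hx0⟩ := Submodule.exists_mem_ne_zero_of_ne_bot hI
    obtain ⟨n, e, rfl⟩ := h.exists_pow_mul_unit x hx0
    refine ⟨n, ?_⟩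
    have : h.unif ^ n = h.unif ^ n * (e : h.valSub) * ((e⁻¹ : (h.valSub)ˣ) : h.valSub) := by
      rw [mul_assoc, Units.mul_inv, mul_one]
    rw [this]
    exact I.mul_mem_right _ hxI
  refine ⟨h.unif ^ Nat.find hex, ?_⟩
  apply le_antisymm
  · intro x hx
    rcases eq_or_ne x 0 with rfl | hx0
    · exact Submodule.zero_mem _
    obtain ⟨n, e, rfl⟩ := h.exists_pow_mul_unit x hx0
    have hn : h.unif ^ n ∈ I := by
      have : h.unif ^ n = h.unif ^ n * (e : h.valSub) * ((e⁻¹ : (h.valSub)ˣ) : h.valSub) := by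
        rw [mul_assoc, Units.mul_inv, mul_one]
      rw [this]
      exact I.mul_mem_right _ hx
    have hle := Nat.find_min' hex hn
    rw [Submodule.mem_span_singleton]
    refine ⟨h.unif ^ (n - Nat.find hex) * e, ?_⟩
    rw [smul_eq_mul, mul_right_comm, ← pow_add, Nat.sub_add_cancel hle]
  · rw [Submodule.span_singleton_le_iff_mem]
    exact Nat.find_spec hex

theorem irreducible_unif (h : PrimFact φ ρ τ) : Irreducible h.unif := by
  refine ⟨h.not_isUnit_unif, ?_⟩
  intro a b hab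
  have hτ : h.unif ≠ 0 := fun h0 => h.phi_tau_ne (congrArg Subtype.val h0)
  have ha : a ≠ 0 := by rintro rfl; rw [zero_mul] at hab; exact hτ hab
  have hb : b ≠ 0 := by rintro rfl; rw [mul_zero] at hab; exact hτ hab
  obtain ⟨n, e, rfl⟩ := h.exists_pow_mul_unit a ha
  obtain ⟨m, e', rfl⟩ := h.exists_pow_mul_unit b hb
  have h1 : h.unif ^ 1 * ((1 : (h.valSub)ˣ) : h.valSub)
      = h.unif ^ (n + m) * ((e * e' : (h.valSub)ˣ) : h.valSub) := by
    calc h.unif ^ 1 * ((1 : (h.valSub)ˣ) : h.valSub) = h.unif := by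
          rw [pow_one, Units.val_one, mul_one]
      _ = h.unif ^ n * ↑e * (h.unif ^ m * ↑e') := hab
      _ = h.unif ^ (n + m) * ((e * e' : (h.valSub)ˣ) : h.valSub) := by
          rw [Units.val_mul, pow_add]; ring
  have h2 := h.pow_mul_unit_injective h1
  rcases Nat.eq_zero_or_pos n with hn | hn
  · left; rw [hn, pow_zero, one_mul]; exact e.isUnit
  · right
    have : m = 0 := by omega
    rw [this, pow_zero, one_mul]; exact e'.isUnit

/-- The place attached to a primitive factorisation whose ring contains the constants. -/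
def place {K : Type*} [Field K] [Algebra K L] (h : PrimFact φ ρ τ)
    (hK : ∀ c : K, ∃ a u : R, ρ u ≠ 0 ∧ algebraMap K L c * φ u = φ a) : Place K L where
  toValuationSubring := h.valSub
  algebraMap_mem' := hK
  ne_top' := h.valSub_ne_top
  isPrincipalIdealRing' := h.isPrincipalIdealRing_valSub

section PlaceOrd

variable {K : Type*} [Field K] [Algebra K L] (h : PrimFact φ ρ τ)
  (hK : ∀ c : K, ∃ a u : R, ρ u ≠ 0 ∧ algebraMap K L c * φ u = φ a)

theorem mem_place_iff {g : L} :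
    g ∈ (h.place hK).toValuationSubring ↔ ∃ a u : R, ρ u ≠ 0 ∧ g * φ u = φ a := Iff.rfl

theorem ord_place_of_rho {u : R} (hu : ρ u ≠ 0) : (h.place hK).ord (φ u) = 0 := by
  have h1 : ρ (1 : R) ≠ 0 := by simp
  have := Place.ord_coe_unit (h.place hK) (h.unitOf hu h1)
  have e : (((h.unitOf hu h1 : (h.valSub)ˣ) : h.valSub) : L) = φ u := by
    rw [coe_unitOf, map_one, div_one]
  rw [← e]
  exact this

theorem ord_place_tau : (h.place hK).ord (φ τ) = 1 :=
  Place.ord_coe_irreducible (h.place hK) h.irreducible_unif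

theorem ord_place_pow_mul {u : R} (hu : ρ u ≠ 0) (n : ℕ) :
    (h.place hK).ord (φ (τ ^ n * u)) = n := by
  rw [map_mul, map_pow, Place.ord_mul _ (pow_ne_zero n h.phi_tau_ne) (h.phi_ne_zero_of_rho hu),
    h.ord_place_of_rho hK hu, add_zero, ← zpow_natCast, Place.ord_zpow, h.ord_place_tau hK,
    mul_one]

end PlaceOrd

end PrimFact

end Fermat.Agent.S27.helper823
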