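import Mathlib
import Fermat.Prelude.Def_AlgebraicCurve_DivisorClassGroup
import Fermat.Prelude.Def_AlgebraicCurve_IsCurveOver
import Fermat.Prelude.Def_AlgebraicCurve_Repartitions
import Fermat.Agent.S24.helper204_Places
import Fermat.Agent.S24.helper1370_PlaceBasics
import Fermat.Agent.S27.helper8094_LefSpec
import Fermat.Agent.S27.helper823_AbsDVR

set_option autoImplicit false

noncomputable section

open AlgebraicCurve TensorProduct

namespace Fermat.Agent.S27.helper823

open Fermat.Agent.S27.helper8094 Fermat.Agent.S24.helper1370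

universe u v u' v'

section Ext

variable {K0 : Type u} {F0 : Type v} {K1 : Type u'} {F1 : Type v'}
  [Field K0] [Field F0] [Field K1] [Field F1]
  [Algebra K0 F0] [Algebra K1 F1] [Algebra K0 K1] [Algebra F0 F1] [Algebra K0 F1]
  [IsScalarTower K0 F0 F1] [IsScalarTower K0 K1 F1]

variable (v : Place K0 F0)

/-- The residue map `𝒪_v → K0` when the residue field of `v` is `K0`. -/
def resHom (hres : Function.Bijective (algebraMap K0 v.ResidueField)) :
    v.toValuationSubring →ₐ[K0] K0 :=
  ((AlgEquiv.ofBijective (Algebra.ofId K0 v.ResidueField) hres).symm :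
      v.ResidueField →ₐ[K0] K0).comp
    (IsScalarTower.toAlgHom K0 v.toValuationSubring v.ResidueField)

theorem resHom_eq_zero_iff (hres : Function.Bijective (algebraMap K0 v.ResidueField))
    (a : v.toValuationSubring) :
    resHom v hres a = 0 ↔ a ∈ IsLocalRing.maximalIdeal v.toValuationSubring := by
  show (AlgEquiv.ofBijective (Algebra.ofId K0 v.ResidueField) hres).symm
    (IsLocalRing.residue _ a) = 0 ↔ _
  rw [EmbeddingLike.map_eq_zero_iff]
  exact IsLocalRing.residue_eq_zero_iff a

theorem resHom_surjective (hres : Function.Bijective (algebraMap K0 v.ResidueField)) :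
    Function.Surjective (resHom v hres) := fun c =>
  ⟨algebraMap K0 _ c, (resHom v hres).commutes c⟩

theorem ker_resHom (hres : Function.Bijective (algebraMap K0 v.ResidueField)) :
    RingHom.ker (resHom v hres) = IsLocalRing.maximalIdeal v.toValuationSubring := by
  ext a
  rw [RingHom.mem_ker]
  exact resHom_eq_zero_iff v hres a

/-- A chosen uniformizer of `v`. -/
def unifA : v.toValuationSubring :=
  Classical.choose (IsDiscreteValuationRing.exists_irreducible v.toValuationSubring)

theorem irreducible_unifA : Irreducible (unifA v) :=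
  Classical.choose_spec (IsDiscreteValuationRing.exists_irreducible v.toValuationSubring)

variable (K1) in
/-- The inclusion `𝒪_v ⊗ K1 → F0 ⊗ K1`. -/
def inclT : v.toValuationSubring ⊗[K0] K1 →ₐ[K0] F0 ⊗[K0] K1 :=
  Algebra.TensorProduct.map (IsScalarTower.toAlgHom K0 v.toValuationSubring F0) (AlgHom.id K0 K1)

@[simp]
theorem inclT_tmul (a : v.toValuationSubring) (c : K1) :
    inclT K1 v (a ⊗ₜ[K0] c) = (a : F0) ⊗ₜ[K0] c := rfl

theorem inclT_injective : Function.Injective (inclT K1 v) := by
  have h : Function.Injective (LinearMap.rTensor K1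
      (IsScalarTower.toAlgHom K0 v.toValuationSubring F0).toLinearMap) :=
    Module.Flat.rTensor_preserves_injective_linearMap _ (fun a b h => Subtype.ext h)
  exact h

variable (K1 F1) in
/-- The map `𝒪_v ⊗ K1 → F1`. -/
def phiT : v.toValuationSubring ⊗[K0] K1 →ₐ[K0] F1 :=
  (mulMap K0 F0 K1 F1).comp (inclT K1 v)

@[simp]
theorem phiT_tmul (a : v.toValuationSubring) (c : K1) :
    phiT K1 F1 v (a ⊗ₜ[K0] c) = algebraMap F0 F1 (a : F0) * algebraMap K1 F1 c := by
  simp [phiT]

variable (K1) in
/-- The residue map `𝒪_v ⊗ K1 → K1`. -/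
def rhoT (hres : Function.Bijective (algebraMap K0 v.ResidueField)) :
    v.toValuationSubring ⊗[K0] K1 →ₐ[K0] K1 :=
  (Algebra.TensorProduct.lid K0 K1 : K0 ⊗[K0] K1 →ₐ[K0] K1).comp
    (Algebra.TensorProduct.map (resHom v hres) (AlgHom.id K0 K1))

@[simp]
theorem rhoT_tmul (hres : Function.Bijective (algebraMap K0 v.ResidueField))
    (a : v.toValuationSubring) (c : K1) :
    rhoT K1 v hres (a ⊗ₜ[K0] c) = resHom v hres a • c := by
  simp [rhoT]

variable (K1) in
/-- The uniformizer of `𝒪_v ⊗ K1`. -/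
def tauT : v.toValuationSubring ⊗[K0] K1 := unifA v ⊗ₜ[K0] (1 : K1)

theorem ker_rhoT (hres : Function.Bijective (algebraMap K0 v.ResidueField)) :
    RingHom.ker (rhoT K1 v hres) = Ideal.span {tauT K1 v} := by
  have h1 : RingHom.ker (rhoT K1 v hres)
      = RingHom.ker (Algebra.TensorProduct.map (resHom v hres) (AlgHom.id K0 K1)) := by
    ext z
    simp only [RingHom.mem_ker, rhoT, AlgHom.comp_apply]
    exact EmbeddingLike.map_eq_zero_iff (f := Algebra.TensorProduct.lid K0 K1)
  rw [h1, Algebra.TensorProduct.rTensor_ker _ (resHom_surjective v hres), ker_resHom,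
    (irreducible_unifA v).maximalIdeal_eq, Ideal.map_span, Set.image_singleton]
  rfl

theorem finiteMultiplicity_tauT (z : v.toValuationSubring ⊗[K0] K1) (hz : z ≠ 0) :
    FiniteMultiplicity (tauT K1 v) z := by
  classical
  let B := Module.Free.chooseBasis v.toValuationSubring (v.toValuationSubring ⊗[K0] K1)
  have hex : ∃ i, B.repr z i ≠ 0 := by
    by_contra hcon
    push Not at hcon
    apply hz
    apply B.repr.injective
    ext i
    simp [hcon i]
  obtain ⟨i, hi⟩ := hex
  obtain ⟨N, hN⟩ := FiniteMultiplicity.of_not_isUnit (irreducible_unifA v).not_isUnit hi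
  refine ⟨N, fun ⟨u, hu⟩ => hN ?_⟩
  have h2 : z = (unifA v) ^ (N + 1) • u := by
    rw [hu, Algebra.smul_def]
    congr 1
    simp [tauT, Algebra.TensorProduct.tmul_pow]
  rw [h2, map_smul, Finsupp.smul_apply, smul_eq_mul]
  exact dvd_mul_right _ _

theorem fact_T (hres : Function.Bijective (algebraMap K0 v.ResidueField))
    (z : v.toValuationSubring ⊗[K0] K1) (hz : z ≠ 0) :
    ∃ (n : ℕ) (u : v.toValuationSubring ⊗[K0] K1),
      rhoT K1 v hres u ≠ 0 ∧ z = tauT K1 v ^ n * u := by
  obtain ⟨u, hu, hdvd⟩ := (finiteMultiplicity_tauT v z hz).exists_eq_pow_mul_and_not_dvd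
  refine ⟨_, u, fun h0 => hdvd ?_, hu⟩
  have h1 : u ∈ RingHom.ker (rhoT K1 v hres) := h0
  rw [ker_rhoT, Ideal.mem_span_singleton] at h1
  exact h1

theorem exists_clear (p : F0 ⊗[K0] K1) :
    ∃ (d : v.toValuationSubring) (a : v.toValuationSubring ⊗[K0] K1),
      d ≠ 0 ∧ inclT K1 v a = ((d : F0) ⊗ₜ[K0] (1 : K1)) * p := by
  induction p using TensorProduct.induction_on with
  | zero => exact ⟨1, 0, one_ne_zero, by simp⟩
  | tmul f c =>
    rcases v.toValuationSubring.mem_or_inv_mem f with hf | hf
    · exact ⟨1, ⟨f, hf⟩ ⊗ₜ c, one_ne_zero, by simp [Algebra.TensorProduct.tmul_mul_tmul]⟩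
    · by_cases hf0 : f = 0
      · subst hf0
        exact ⟨1, 0, one_ne_zero, by simp⟩
      · refine ⟨⟨f⁻¹, hf⟩, (1 : v.toValuationSubring) ⊗ₜ c, ?_, ?_⟩
        · intro h
          exact inv_ne_zero hf0 (congrArg Subtype.val h)
        · simp [Algebra.TensorProduct.tmul_mul_tmul, inv_mul_cancel₀ hf0]
  | add p q hp hq =>
    obtain ⟨d, a, hd, ha⟩ := hp
    obtain ⟨d', a', hd', ha'⟩ := hq
    refine ⟨d * d', (d' ⊗ₜ 1) * a + (d ⊗ₜ 1) * a', mul_ne_zero hd hd', ?_⟩
    have h3 : ((d * d' : v.toValuationSubring) : F0) ⊗ₜ[K0] (1 : K1)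
        = ((d : F0) ⊗ₜ[K0] (1 : K1)) * ((d' : F0) ⊗ₜ[K0] (1 : K1)) := by
      simp [Algebra.TensorProduct.tmul_mul_tmul]
    rw [h3, map_add, map_mul, map_mul, inclT_tmul, inclT_tmul, ha, ha']
    ring

theorem primFact (hce : IsConstExt K0 F0 K1 F1)
    (hres : Function.Bijective (algebraMap K0 v.ResidueField)) :
    PrimFact (phiT K1 F1 v : v.toValuationSubring ⊗[K0] K1 →+* F1)
      (rhoT K1 v hres : v.toValuationSubring ⊗[K0] K1 →+* K1) (tauT K1 v) where
  inj := hce.inj.comp (inclT_injective v)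
  frac := by
    intro g
    obtain ⟨p, q, hq, e⟩ := hce.gen g
    obtain ⟨d, a, hd, ha⟩ := exists_clear (K1 := K1) v p
    obtain ⟨d', b, hd', hb⟩ := exists_clear (K1 := K1) v q
    have hdF : algebraMap F0 F1 (d : F0) ≠ 0 := by
      rw [Ne, map_eq_zero]
      exact fun h => hd (Subtype.ext h)
    have hdF' : algebraMap F0 F1 (d' : F0) ≠ 0 := by
      rw [Ne, map_eq_zero]
      exact fun h => hd' (Subtype.ext h)
    have hA : phiT K1 F1 v ((d' ⊗ₜ 1) * a)
        = algebraMap F0 F1 (d' : F0) * algebraMap F0 F1 (d : F0) * mulMap K0 F0 K1 F1 p := by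
      simp only [phiT, AlgHom.comp_apply, map_mul, ha, inclT_tmul, mulMap_tmul, map_one, mul_one]
      ring
    have hB : phiT K1 F1 v ((d ⊗ₜ 1) * b)
        = algebraMap F0 F1 (d' : F0) * algebraMap F0 F1 (d : F0) * mulMap K0 F0 K1 F1 q := by
      simp only [phiT, AlgHom.comp_apply, map_mul, hb, inclT_tmul, mulMap_tmul, map_one, mul_one]
      ring
    refine ⟨(d' ⊗ₜ 1) * a, (d ⊗ₜ 1) * b, ?_, ?_⟩
    · intro h0
      have : phiT K1 F1 v ((d ⊗ₜ 1) * b) = 0 := by rw [h0, map_zero]
      rw [hB] at this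
      exact mul_ne_zero (mul_ne_zero hdF' hdF) hq this
    · show g * phiT K1 F1 v ((d ⊗ₜ 1) * b) = phiT K1 F1 v ((d' ⊗ₜ 1) * a)
      rw [hA, hB, ← e]
      ring
  tau_ne := by
    intro h0
    have h1 : phiT K1 F1 v (tauT K1 v) = 0 := by rw [h0, map_zero]
    rw [tauT, phiT_tmul, map_one, mul_one, map_eq_zero] at h1
    exact (irreducible_unifA v).ne_zero (Subtype.ext h1)
  rho_tau := by
    show rhoT K1 v hres (tauT K1 v) = 0
    rw [tauT, rhoT_tmul]
    have : resHom v hres (unifA v) = 0 := by
      rw [resHom_eq_zero_iff, (irreducible_unifA v).maximalIdeal_eq]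
      exact Ideal.mem_span_singleton_self _
    rw [this, zero_smul]
  fact := fact_T v hres

/-- The extension of the place `v` of `F0` to `F1`. -/
def extPlace (hce : IsConstExt K0 F0 K1 F1)
    (hres : Function.Bijective (algebraMap K0 v.ResidueField)) : Place K1 F1 :=
  (primFact v hce hres).place (fun c => ⟨1 ⊗ₜ c, 1, by simp, by simp⟩)

end Ext

section ExtOrd

variable {K0 : Type u} {F0 : Type v} {K1 : Type u'} {F1 : Type v'}
  [Field K0] [Field F0] [Field K1] [Field F1]
  [Algebra K0 F0] [Algebra K1 F1] [Algebra K0 K1] [Algebra F0 F1] [Algebra K0 F1]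
  [IsScalarTower K0 F0 F1] [IsScalarTower K0 K1 F1]

theorem adicValuation_lt_one_iff {K F : Type*} [Field K] [Field F] [Algebra K F]
    (w : Place K F) {f : F} : w.adicValuation f < 1 ↔ f = 0 ∨ 0 < w.ord f := by
  rcases eq_or_ne f 0 with rfl | hf
  · simp
  · rw [w.adicValuation_eq_exp_neg_ord hf, ← WithZero.exp_zero, WithZero.exp_lt_exp]
    simp [hf]

theorem adicValuation_algebraMap_eq_one {K F : Type*} [Field K] [Field F] [Algebra K F]
    (w : Place K F) {c : K} (hc : c ≠ 0) : w.adicValuation (algebraMap K F c) = 1 := by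
  rw [w.adicValuation_eq_exp_neg_ord ((map_ne_zero _).mpr hc), ord_algebraMap, neg_zero,
    WithZero.exp_zero]

variable (v : Place K0 F0) (hce : IsConstExt K0 F0 K1 F1)
  (hres : Function.Bijective (algebraMap K0 v.ResidueField))

theorem mem_extPlace_iff {g : F1} :
    g ∈ (extPlace v hce hres).toValuationSubring ↔
      ∃ a u : v.toValuationSubring ⊗[K0] K1,
        rhoT K1 v hres u ≠ 0 ∧ g * phiT K1 F1 v u = phiT K1 F1 v a := Iff.rfl

theorem ord_extPlace_of_rho {u : v.toValuationSubring ⊗[K0] K1} (hu : rhoT K1 v hres u ≠ 0) :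
    (extPlace v hce hres).ord (phiT K1 F1 v u) = 0 :=
  (primFact v hce hres).ord_place_of_rho _ hu

include hce in
theorem phiT_ne_zero_of_rho {u : v.toValuationSubring ⊗[K0] K1} (hu : rhoT K1 v hres u ≠ 0) :
    phiT K1 F1 v u ≠ 0 :=
  (primFact v hce hres).phi_ne_zero_of_rho hu

theorem ord_extPlace_unif :
    (extPlace v hce hres).ord (algebraMap F0 F1 (unifA v : F0)) = 1 := by
  have h := (primFact v hce hres).ord_place_tau
    (K := K1) (fun c => ⟨1 ⊗ₜ c, 1, by simp, by simp⟩)
  have e : phiT K1 F1 v (tauT K1 v) = algebraMap F0 F1 (unifA v : F0) := by simp [tauT]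
  rw [← e]
  exact h

theorem resHom_ne_zero_of_isUnit {a : v.toValuationSubring} (ha : IsUnit a) :
    resHom v hres a ≠ 0 := by
  rw [Ne, resHom_eq_zero_iff, IsLocalRing.mem_maximalIdeal, mem_nonunits_iff, not_not]
  exact ha

/-- The extended place restricts to `v` on `F0`. -/
theorem ord_extPlace_algebraMap (f : F0) :
    (extPlace v hce hres).ord (algebraMap F0 F1 f) = v.ord f := by
  rcases eq_or_ne f 0 with rfl | hf
  · simp
  obtain ⟨e, he⟩ := v.exists_unit_mul_zpow hf (irreducible_unifA v)
  have hπ0 : (unifA v : F0) ≠ 0 := coe_irreducible_ne_zero v (irreducible_unifA v)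
  have he0 : ((e : v.toValuationSubring) : F0) ≠ 0 := by
    intro h0
    exact e.ne_zero (Subtype.ext h0)
  have h1 : algebraMap F0 F1 ((e : v.toValuationSubring) : F0)
      = phiT K1 F1 v ((e : v.toValuationSubring) ⊗ₜ 1) := by simp
  have h2 : rhoT K1 v hres ((e : v.toValuationSubring) ⊗ₜ[K0] (1 : K1)) ≠ 0 := by
    rw [rhoT_tmul]
    exact smul_ne_zero (resHom_ne_zero_of_isUnit v hres e.isUnit) one_ne_zero
  conv_lhs => rw [he]
  rw [map_mul, map_zpow₀, Place.ord_mul _ ((map_ne_zero _).mpr he0)
    (zpow_ne_zero _ ((map_ne_zero _).mpr hπ0)), Place.ord_zpow, ord_extPlace_unif, mul_one, h1,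
    ord_extPlace_of_rho v hce hres h2, zero_add]

theorem isExtOf_extPlace : IsExtOf (extPlace v hce hres) v :=
  fun f => ord_extPlace_algebraMap v hce hres f

/-- A place of `F1` whose ring contains `𝒪_v` and whose maximal ideal contains `𝔪_v` is the
extension of `v`. -/
theorem extPlace_eq_of (w : Place K1 F1)
    (h1 : ∀ x : F0, x ∈ v.toValuationSubring → algebraMap F0 F1 x ∈ w.toValuationSubring)
    (h2 : ∀ x : F0, 0 < v.ord x → 0 < w.ord (algebraMap F0 F1 x)) :
    extPlace v hce hres = w := by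
  apply eq_of_le
  intro g hg
  obtain ⟨a, u, hu, e⟩ := hg
  have hmem : ∀ a : v.toValuationSubring ⊗[K0] K1,
      w.adicValuation (phiT K1 F1 v a) ≤ 1 := by
    intro a
    induction a using TensorProduct.induction_on with
    | zero => simp
    | tmul x c =>
      rw [phiT_tmul]
      exact w.adicValuation_le_one_of_mem (mul_mem (h1 _ x.2) (w.algebraMap_mem' c))
    | add a b ha hb =>
      rw [map_add]
      exact (Valuation.map_add _ _ _).trans (max_le ha hb)
  have hdiff : ∀ a : v.toValuationSubring ⊗[K0] K1,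
      w.adicValuation (phiT K1 F1 v a - algebraMap K1 F1 (rhoT K1 v hres a)) < 1 := by
    intro a
    induction a using TensorProduct.induction_on with
    | zero => simp
    | tmul x c =>
      have e1 : phiT K1 F1 v (x ⊗ₜ[K0] c) - algebraMap K1 F1 (rhoT K1 v hres (x ⊗ₜ[K0] c))
          = algebraMap F0 F1 ((x - algebraMap K0 _ (resHom v hres x) : v.toValuationSubring) : F0)
            * algebraMap K1 F1 c := by
        have e0 : ((x - algebraMap K0 _ (resHom v hres x) : v.toValuationSubring) : F0)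
            = (x : F0) - algebraMap K0 F0 (resHom v hres x) := rfl
        rw [phiT_tmul, rhoT_tmul, Algebra.smul_def, map_mul,
          ← IsScalarTower.algebraMap_apply K0 K1 F1, IsScalarTower.algebraMap_apply K0 F0 F1,
          e0, map_sub]
        ring
      rw [e1, map_mul]
      set y : v.toValuationSubring := x - algebraMap K0 _ (resHom v hres x) with hy
      have hymem : y ∈ IsLocalRing.maximalIdeal v.toValuationSubring := by
        rw [← resHom_eq_zero_iff v hres, hy, map_sub, AlgHom.commutes]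
        simp
      have hy1 : w.adicValuation (algebraMap F0 F1 (y : F0)) < 1 := by
        rw [adicValuation_lt_one_iff]
        rcases eq_or_ne y 0 with h0 | h0
        · left
          rw [h0]
          simp
        · right
          exact h2 _ ((ord_pos_iff_mem_maximalIdeal v h0).mpr hymem)
      calc w.adicValuation (algebraMap F0 F1 (y : F0)) * w.adicValuation (algebraMap K1 F1 c)
          ≤ w.adicValuation (algebraMap F0 F1 (y : F0)) * 1 :=
            mul_le_mul' le_rfl (w.adicValuation_algebraMap_le_one c)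
        _ < 1 := by rwa [mul_one]
    | add a b ha hb =>
      have e1 : phiT K1 F1 v (a + b) - algebraMap K1 F1 (rhoT K1 v hres (a + b))
          = (phiT K1 F1 v a - algebraMap K1 F1 (rhoT K1 v hres a))
            + (phiT K1 F1 v b - algebraMap K1 F1 (rhoT K1 v hres b)) := by
        rw [map_add, map_add, map_add]
        ring
      rw [e1]
      exact Valuation.map_add_lt _ ha hb
  have hu' : rhoT K1 v hres u ≠ 0 := hu
  have hu1 : w.adicValuation (phiT K1 F1 v u) = 1 := by
    have e2 : phiT K1 F1 v u = (phiT K1 F1 v u - algebraMap K1 F1 (rhoT K1 v hres u))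
        + algebraMap K1 F1 (rhoT K1 v hres u) := by ring
    rw [e2, Valuation.map_add_eq_of_lt_right]
    · exact adicValuation_algebraMap_eq_one w hu'
    · rw [adicValuation_algebraMap_eq_one w hu']
      exact hdiff u
  have hφu : phiT K1 F1 v u ≠ 0 := phiT_ne_zero_of_rho v hce hres hu'
  have e' : g * phiT K1 F1 v u = phiT K1 F1 v a := e
  have hg1 : w.adicValuation g ≤ 1 := by
    have e3 : g = phiT K1 F1 v a * (phiT K1 F1 v u)⁻¹ := by
      rw [← e']
      field_simp
    rw [e3, map_mul, map_inv₀, hu1, inv_one, mul_one]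
    exact hmem a
  rcases (w.adicValuation_le_one_iff).mp hg1 with h0 | h0
  · rw [h0]
    exact zero_mem _
  · exact mem_of_ord_nonneg w h0

/-- Uniqueness of the extension. -/
theorem eq_extPlace_of_isExtOf (w : Place K1 F1) (hw : IsExtOf w v) :
    w = extPlace v hce hres := by
  symm
  apply extPlace_eq_of
  · intro x hx
    apply mem_of_ord_nonneg
    rw [hw x]
    exact ord_nonneg_of_mem v hx
  · intro x hx
    rw [hw x]
    exact hx

/-- A place of `F1` which is nontrivial on `F0` is an extension of a place of `F0`. -/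
theorem exists_isExtOf_of_ord_ne_zero (hce : IsConstExt K0 F0 K1 F1)
    (hres : ∀ v : Place K0 F0, Function.Bijective (algebraMap K0 v.ResidueField))
    (w : Place K1 F1) (f : F0) (hf : f ≠ 0) (hw : w.ord (algebraMap F0 F1 f) ≠ 0) :
    ∃ v : Place K0 F0, IsExtOf w v := by
  let ι : F0 →ₐ[K0] F1 := IsScalarTower.toAlgHom K0 F0 F1
  have hK : ∀ a : K0, a ≠ 0 → ordAddValuation w (algebraMap K0 F1 a) = 0 := by
    intro a ha
    rw [IsScalarTower.algebraMap_apply K0 K1 F1]
    exact ordAddValuation_algebraMap w ((map_ne_zero _).mpr ha)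
  have hι : ∀ x : F0, ι x = algebraMap F0 F1 x := fun x => rfl
  have hnt : ∃ f : F0, f ≠ 0 ∧ ordAddValuation w (ι f) ≠ 0 := by
    refine ⟨f, hf, ?_⟩
    rw [hι, ordAddValuation_apply w ((map_ne_zero _).mpr hf)]
    exact_mod_cast hw
  let v : Place K0 F0 := ofAlgHom (ordAddValuation w) hK ι hnt
  refine ⟨v, ?_⟩
  have key : extPlace v hce (hres v) = w := by
    apply extPlace_eq_of
    · intro x hx
      have h1 : 0 ≤ ordAddValuation w (ι x) := (mem_ofAlgHom_iff (ordAddValuation w) hK ι hnt).mp hx
      exact (ordAddValuation_nonneg_iff w).mp h1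
    · intro x hx
      have hx0 : x ≠ 0 := by
        rintro rfl
        simp at hx
      have h1 : 0 < ordAddValuation w (ι x) :=
        (ofAlgHom_ord_pos_iff (ordAddValuation w) hK ι hnt hx0).mp hx
      rw [hι, ordAddValuation_apply w ((map_ne_zero _).mpr hx0)] at h1
      exact_mod_cast h1
  intro g
  rw [← key]
  exact ord_extPlace_algebraMap v hce (hres v) g

/-- The Gauss formula at the extended place. -/
theorem gauss_extPlace (v : Place K0 F0) (hce : IsConstExt K0 F0 K1 F1)
    (hres : Function.Bijective (algebraMap K0 v.ResidueField))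
    (n : ℕ) (a : Fin n → F0) (c : Fin n → K1) (hc : LinearIndependent K0 c) (m : ℤ) :
    ((∑ i, algebraMap F0 F1 (a i) * algebraMap K1 F1 (c i) = 0 ∨
        m ≤ (extPlace v hce hres).ord (∑ i, algebraMap F0 F1 (a i) * algebraMap K1 F1 (c i))) ↔
      ∀ i, a i = 0 ∨ m ≤ v.ord (a i)) := by
  classical
  constructor
  · intro hS
    by_contra hcon
    push Not at hcon
    obtain ⟨i1, hi1, hi1m⟩ := hcon
    let s : Finset (Fin n) := Finset.univ.filter (fun i => a i ≠ 0)
    have hs : s.Nonempty := ⟨i1, by simp [s, hi1]⟩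
    obtain ⟨i0, hi0s, hmin⟩ := Finset.exists_min_image s (fun i => v.ord (a i)) hs
    have hi0 : a i0 ≠ 0 := (Finset.mem_filter.mp hi0s).2
    obtain ⟨m0, hm0def⟩ : ∃ m0 : ℤ, m0 = v.ord (a i0) := ⟨_, rfl⟩
    have hm0 : m0 < m := by
      have := hmin i1 (by simp [s, hi1])
      omega
    obtain ⟨π, hπdef⟩ : ∃ π : F0, π = (unifA v : F0) := ⟨_, rfl⟩
    have hπ : v.ord π = 1 := by
      rw [hπdef]
      exact v.ord_coe_irreducible (irreducible_unifA v)
    have hπ0 : π ≠ 0 := uniformizer_ne_zero v hπ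
    have hπ1 : algebraMap F0 F1 π ≠ 0 := (map_ne_zero _).mpr hπ0
    have hmem : ∀ i, a i * π ^ (-m0) ∈ v.toValuationSubring := by
      intro i
      by_cases hi : a i = 0
      · rw [hi, zero_mul]
        exact zero_mem _
      · apply mem_of_ord_nonneg
        rw [ord_mul_zpow_uniformizer v hπ hi]
        have := hmin i (by simp [s, hi])
        omega
    let a' : Fin n → v.toValuationSubring := fun i => ⟨a i * π ^ (-m0), hmem i⟩
    let z : v.toValuationSubring ⊗[K0] K1 := ∑ i, a' i ⊗ₜ[K0] c i
    have hφz : phiT K1 F1 v z = algebraMap F0 F1 π ^ (-m0)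
        * ∑ i, algebraMap F0 F1 (a i) * algebraMap K1 F1 (c i) := by
      simp only [z, map_sum, phiT_tmul, a', Finset.mul_sum]
      refine Finset.sum_congr rfl fun i _ => ?_
      rw [map_mul, map_zpow₀]
      ring
    have hρz : rhoT K1 v hres z ≠ 0 := by
      intro h0
      simp only [z, map_sum, rhoT_tmul] at h0
      have h1 := Fintype.linearIndependent_iff.mp hc (fun i => resHom v hres (a' i)) h0 i0
      rw [resHom_eq_zero_iff] at h1
      have e : v.ord ((a' i0 : v.toValuationSubring) : F0) = 0 := by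
        show v.ord (a i0 * π ^ (-m0)) = 0
        rw [ord_mul_zpow_uniformizer v hπ hi0]
        omega
      have ha'0 : a' i0 ≠ 0 := by
        intro h2
        have h3 : a i0 * π ^ (-m0) = 0 := congrArg Subtype.val h2
        exact (mul_ne_zero hi0 (zpow_ne_zero _ hπ0)) h3
      have h4 := (ord_pos_iff_mem_maximalIdeal v ha'0).mpr h1
      omega
    have hord : (extPlace v hce hres).ord (phiT K1 F1 v z) = 0 :=
      ord_extPlace_of_rho v hce hres hρz
    have hne : phiT K1 F1 v z ≠ 0 := phiT_ne_zero_of_rho v hce hres hρz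
    have hS' : ∑ i, algebraMap F0 F1 (a i) * algebraMap K1 F1 (c i)
        = algebraMap F0 F1 π ^ m0 * phiT K1 F1 v z := by
      rw [hφz, ← mul_assoc, ← zpow_add₀ hπ1]
      simp
    have hunif : (extPlace v hce hres).ord (algebraMap F0 F1 π) = 1 := by
      rw [hπdef]
      exact ord_extPlace_unif v hce hres
    rw [hS'] at hS
    rcases hS with h | h
    · exact (mul_ne_zero (zpow_ne_zero _ hπ1) hne) h
    · rw [Place.ord_mul _ (zpow_ne_zero _ hπ1) hne, Place.ord_zpow, hunif, hord] at h
      omega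
  · intro h
    by_cases hS : ∑ i, algebraMap F0 F1 (a i) * algebraMap K1 F1 (c i) = 0
    · left
      exact hS
    · right
      apply ord_sum_ge (extPlace v hce hres) Finset.univ _ m _ hS
      intro i _
      by_cases hi : a i = 0
      · left
        simp [hi]
      · rcases eq_or_ne (c i) 0 with hci | hci
        · left
          simp [hci]
        · right
          rw [Place.ord_mul _ ((map_ne_zero _).mpr hi) ((map_ne_zero _).mpr hci),
            ord_extPlace_algebraMap, ord_algebraMap, add_zero]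
          exact (h i).resolve_left hi

end ExtOrd

/-- **`Stmt_CFE1`** (helper8094_LefSpec), verbatim. -/
theorem stmt_CFE1 : Stmt_CFE1.{u, v, u', v'} := by
  intro K0 F0 K1 F1 _ _ _ _ _ _ _ _ _ _ _ _ _ _ _ _ _ _ _ hce
  have hres : ∀ v : Place K0 F0, Function.Bijective (algebraMap K0 v.ResidueField) := by
    intro v
    have : Module.Finite K0 v.ResidueField := IsCurveOver.finiteResidue v
    have : Algebra.IsIntegral K0 v.ResidueField := Algebra.IsIntegral.of_finite K0 v.ResidueField
    exact IsAlgClosed.algebraMap_bijective_of_isIntegral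
  refine ⟨fun v => ⟨extPlace v hce (hres v), isExtOf_extPlace v hce (hres v),
    fun w hw => eq_extPlace_of_isExtOf v hce (hres v) w hw⟩, ?_, ?_⟩
  · rintro w ⟨f, hf, hw⟩
    exact exists_isExtOf_of_ord_ne_zero hce hres w f hf hw
  · intro v w hw n a c hc m
    rw [eq_extPlace_of_isExtOf v hce (hres v) w hw]
    exact gauss_extPlace v hce (hres v) n a c hc m

end Fermat.Agent.S27.helper823
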