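import Fermat.Agent.S27.helper8094_LefSpec
import Fermat.Agent.S27.helper1618_AutFixed
import Fermat.Agent.S27.helper7214_Transport

/-!
# S27 / module L: the small leaves of `helper8094_LefSpec`, verbatim

`Stmt_AUT` (from `helper1618_AutFixed`) and `Stmt_T1`, `Stmt_T1b`, `Stmt_T2`, `Stmt_T3`
(from `helper7214_Transport`).
-/

set_option autoImplicit false

open AlgebraicCurve

namespace Fermat.Agent.S27.helper823

open Fermat.Agent.S27.helper8094

universe u v u' v'

/-- **`Stmt_AUT`** (helper8094_LefSpec), verbatim. -/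
theorem stmt_AUT : Stmt_AUT.{u, u'} := by
  intro K0 K1 _ _ _ _ _ a ha hfin
  exact ha (Fermat.Agent.S27.helper1618.mem_range_algebraMap_of_finite_orbit a hfin)

/-- The compatibility datum of `helper7214_Transport` attached to an isomorphism of pairs. -/
theorem compat_of_pairIso {K : Type u} {F : Type v} {K' : Type u'} {F' : Type v'}
    [Field K] [Field F] [Algebra K F] [Field K'] [Field F'] [Algebra K' F']
    (P : PairIso K F K' F') : Fermat.Agent.S27.helper7214.Compat P.e P.φ :=
  ⟨P.comm⟩

/-- **`Stmt_T1`** (helper8094_LefSpec), verbatim. -/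
theorem stmt_T1 : Stmt_T1.{u, v, u', v'} := by
  intro K F K' F' _ _ _ _ _ _ P
  exact ⟨Fermat.Agent.S27.helper7214.placeEquiv (compat_of_pairIso P), fun w f =>
    Fermat.Agent.S27.helper7214.ord_placeMap (compat_of_pairIso P) w f⟩

/-- **`Stmt_T1b`** (helper8094_LefSpec), verbatim. -/
theorem stmt_T1b : Stmt_T1b.{u, v, u', v'} := by
  intro K F K' F' _ _ _ _ _ _ P n
  exact Fermat.Agent.S27.helper7214.natCard_torsion_eq (compat_of_pairIso P) n

/-- **`Stmt_T2`** (helper8094_LefSpec), verbatim. -/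
theorem stmt_T2 : Stmt_T2.{u, v, u', v'} := by
  intro K F K' F' _ _ _ _ _ _ P
  exact Fermat.Agent.S27.helper7214.genusFF_eq (compat_of_pairIso P)

/-- **`Stmt_T3`** (helper8094_LefSpec), verbatim. -/
theorem stmt_T3 : Stmt_T3.{u, v, u', v'} := by
  intro K F K' F' _ _ _ _ _ _ _ _ _ _ P
  exact ⟨Fermat.Agent.S27.helper7214.isCurveOver (compat_of_pairIso P),
    Fermat.Agent.S27.helper7214.essFiniteType (compat_of_pairIso P)⟩

end Fermat.Agent.S27.helper823
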