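import Mathlib

/-!
# S27-E4-COVOL: finite-covolume kit (variant (B) of the "ker E spans over ℝ" step)

Mathlib-only. `V := Fin g → ℂ`.
-/

set_option autoImplicit false

namespace Fermat.Agent.S27.helper8368

open MeasureTheory Set Metric
open scoped ENNReal NNReal Topology

noncomputable section

/-- The complex derivative of `x ↦ ∑ i, Φ i (x (e i))` when `Φ i` has derivative `w i`
at `x (e i)`. -/
def sumDeriv {r g : ℕ} (e : Fin r → Fin g) (w : Fin r → (Fin g → ℂ)) :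
    (Fin g → ℂ) →L[ℂ] (Fin g → ℂ) :=
  ∑ i, (ContinuousLinearMap.smulRight (1 : ℂ →L[ℂ] ℂ) (w i)).comp
    (ContinuousLinearMap.proj (R := ℂ) (φ := fun _ : Fin g => ℂ) (e i))

theorem sumDeriv_apply {r g : ℕ} (e : Fin r → Fin g) (w : Fin r → (Fin g → ℂ))
    (h : Fin g → ℂ) : sumDeriv e w h = ∑ i, h (e i) • w i := by
  simp [sumDeriv]

theorem hasFDerivAt_sum_comp {r g : ℕ} (e : Fin r → Fin g) (Φ f : Fin r → ℂ → (Fin g → ℂ))
    (x : Fin g → ℂ) (h : ∀ i, HasDerivAt (Φ i) (f i (x (e i))) (x (e i))) :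
    HasFDerivAt (fun y : Fin g → ℂ => ∑ i, Φ i (y (e i)))
      (sumDeriv e (fun i => f i (x (e i)))) x := by
  unfold sumDeriv
  refine HasFDerivAt.fun_sum fun i _ => ?_
  have h1 : HasFDerivAt (fun y : Fin g → ℂ => y (e i))
      (ContinuousLinearMap.proj (R := ℂ) (φ := fun _ : Fin g => ℂ) (e i)) x :=
    (ContinuousLinearMap.proj (R := ℂ) (φ := fun _ : Fin g => ℂ) (e i)).hasFDerivAt
  exact (h i).hasFDerivAt.comp x h1

theorem sumDeriv_id_toMatrix {g : ℕ} (w : Fin g → (Fin g → ℂ)) (i j : Fin g) :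
    LinearMap.toMatrix' ((sumDeriv id w : (Fin g → ℂ) →L[ℂ] (Fin g → ℂ)) :
      (Fin g → ℂ) →ₗ[ℂ] (Fin g → ℂ)) j i = w i j := by
  rw [LinearMap.toMatrix'_apply]
  show (sumDeriv id w (Pi.single i 1)) j = w i j
  rw [sumDeriv_apply, Finset.sum_apply, Finset.sum_eq_single i]
  · simp
  · intro b _ hb
    simp [hb]
  · intro h
    exact absurd (Finset.mem_univ i) h

theorem norm_det_sumDeriv_le {g : ℕ} (w : Fin g → (Fin g → ℂ)) :
    ‖LinearMap.det ((sumDeriv id w : (Fin g → ℂ) →L[ℂ] (Fin g → ℂ)) :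
      (Fin g → ℂ) →ₗ[ℂ] (Fin g → ℂ))‖ ≤ (g.factorial : ℝ) * ∏ i, ‖w i‖ := by
  rw [← LinearMap.det_toMatrix', Matrix.det_apply]
  refine (norm_sum_le _ _).trans ?_
  have hb : ∀ σ ∈ (Finset.univ : Finset (Equiv.Perm (Fin g))),
      ‖Equiv.Perm.sign σ • ∏ i, LinearMap.toMatrix' ((sumDeriv id w :
        (Fin g → ℂ) →L[ℂ] (Fin g → ℂ)) : (Fin g → ℂ) →ₗ[ℂ] (Fin g → ℂ)) (σ i) i‖
        ≤ ∏ i, ‖w i‖ := by
    intro σ _
    have hs : ‖Equiv.Perm.sign σ • ∏ i, LinearMap.toMatrix' ((sumDeriv id w :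
        (Fin g → ℂ) →L[ℂ] (Fin g → ℂ)) : (Fin g → ℂ) →ₗ[ℂ] (Fin g → ℂ)) (σ i) i‖
        = ‖∏ i, LinearMap.toMatrix' ((sumDeriv id w :
        (Fin g → ℂ) →L[ℂ] (Fin g → ℂ)) : (Fin g → ℂ) →ₗ[ℂ] (Fin g → ℂ)) (σ i) i‖ := by
      rcases Int.units_eq_one_or (Equiv.Perm.sign σ) with h | h <;> simp [h]
    rw [hs, norm_prod]
    refine Finset.prod_le_prod (fun i _ => norm_nonneg _) fun i _ => ?_
    rw [sumDeriv_id_toMatrix]
    exact norm_le_pi_norm (w i) (σ i)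
  refine (Finset.sum_le_sum hb).trans ?_
  simp [Finset.card_univ, Fintype.card_perm]

theorem abs_det_restrictScalars_sumDeriv_le {g : ℕ} (w : Fin g → (Fin g → ℂ)) :
    |((sumDeriv id w).restrictScalars ℝ : (Fin g → ℂ) →L[ℝ] (Fin g → ℂ)).det|
      ≤ (g.factorial : ℝ) ^ 2 * ∏ i, ‖w i‖ ^ 2 := by
  have h1 : ((sumDeriv id w).restrictScalars ℝ : (Fin g → ℂ) →L[ℝ] (Fin g → ℂ)).det
      = Complex.normSq (LinearMap.det ((sumDeriv id w : (Fin g → ℂ) →L[ℂ] (Fin g → ℂ)) :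
      (Fin g → ℂ) →ₗ[ℂ] (Fin g → ℂ))) := by
    rw [← Algebra.norm_complex_apply, ← LinearMap.det_restrictScalars]
    rfl
  rw [h1, abs_of_nonneg (Complex.normSq_nonneg _), Complex.normSq_eq_norm_sq,
    Finset.prod_pow, ← mul_pow]
  exact pow_le_pow_left₀ (norm_nonneg _) (norm_det_sumDeriv_le w) 2

/-- Core volume bound: the image of a product of measurable pieces under a sum of one-variable
primitives has volume at most `(g!)² ∏ ∫_{B i} ψ`. -/
theorem volume_image_sum_le {g : ℕ} (Φ f : Fin g → ℂ → (Fin g → ℂ)) (B : Fin g → Set ℂ)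
    (hB : ∀ i, MeasurableSet (B i)) (ψ : ℂ → ℝ) (hψ : Integrable ψ)
    (hder : ∀ i, ∀ t ∈ B i, HasDerivAt (Φ i) (f i t) t)
    (hbd : ∀ i, ∀ t ∈ B i, ‖f i t‖ ^ 2 ≤ ψ t) :
    volume ((fun x : Fin g → ℂ => ∑ i, Φ i (x i)) '' (Set.pi univ B))
      ≤ ENNReal.ofReal ((g.factorial : ℝ) ^ 2 * ∏ i, ∫ t in B i, ψ t) := by
  set P : Set (Fin g → ℂ) := Set.pi univ B with hP
  have hPm : MeasurableSet P := MeasurableSet.univ_pi hB
  have hmem : ∀ x ∈ P, ∀ i, x i ∈ B i := fun x hx i => hx i (mem_univ i)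
  have h1 := addHaar_image_le_lintegral_abs_det_fderiv (μ := volume) (s := P)
    (f := fun x : Fin g → ℂ => ∑ i, Φ i (x i))
    (f' := fun x => (sumDeriv id (fun i => f i (x i))).restrictScalars ℝ) hPm
    (fun x hx => ((hasFDerivAt_sum_comp id Φ f x
      (fun i => hder i (x i) (hmem x hx i))).restrictScalars ℝ).hasFDerivWithinAt)
  refine h1.trans ?_
  set C : ℝ := (g.factorial : ℝ) ^ 2 with hC
  have hC0 : 0 ≤ C := by positivity
  have hnn : ∀ i t, 0 ≤ (B i).indicator ψ t := by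
    intro i t
    by_cases ht : t ∈ B i
    · rw [indicator_of_mem ht]
      exact (sq_nonneg _).trans (hbd i t ht)
    · rw [indicator_of_notMem ht]
  have h2 : ∫⁻ x in P, ENNReal.ofReal
      |((sumDeriv id (fun i => f i (x i))).restrictScalars ℝ :
        (Fin g → ℂ) →L[ℝ] (Fin g → ℂ)).det|
      ≤ ∫⁻ x in P, ENNReal.ofReal (C * ∏ i, ψ (x i)) := by
    refine setLIntegral_mono' hPm fun x hx => ENNReal.ofReal_le_ofReal ?_
    refine (abs_det_restrictScalars_sumDeriv_le _).trans ?_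
    refine mul_le_mul_of_nonneg_left ?_ hC0
    exact Finset.prod_le_prod (fun i _ => sq_nonneg _) fun i _ => hbd i (x i) (hmem x hx i)
  refine h2.trans ?_
  have h3 : ∫⁻ x in P, ENNReal.ofReal (C * ∏ i, ψ (x i))
      = ∫⁻ x : Fin g → ℂ, ENNReal.ofReal (C * ∏ i, (B i).indicator ψ (x i)) := by
    rw [← lintegral_indicator hPm]
    refine lintegral_congr fun x => ?_
    by_cases hx : x ∈ P
    · rw [indicator_of_mem hx]
      congr 2
      exact Finset.prod_congr rfl fun i _ => (indicator_of_mem (hmem x hx i) ψ).symm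
    · rw [indicator_of_notMem hx]
      have : ∃ i, x i ∉ B i := by
        by_contra hcon
        exact hx fun i _ => not_not.mp (not_exists.mp hcon i)
      obtain ⟨i, hi⟩ := this
      rw [Finset.prod_eq_zero (Finset.mem_univ i) (indicator_of_notMem hi ψ), mul_zero,
        ENNReal.ofReal_zero]
  rw [h3]
  have hint : Integrable (fun x : Fin g → ℂ => C * ∏ i, (B i).indicator ψ (x i)) := by
    have := Integrable.fintype_prod (μ := fun _ : Fin g => (volume : Measure ℂ))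
      (f := fun i => (B i).indicator ψ) (fun i => hψ.indicator (hB i))
    exact this.const_mul C
  rw [← ofReal_integral_eq_lintegral_ofReal hint
    (Filter.Eventually.of_forall fun x =>
      mul_nonneg hC0 (Finset.prod_nonneg fun i _ => hnn i (x i)))]
  refine ENNReal.ofReal_le_ofReal (le_of_eq ?_)
  rw [integral_const_mul, integral_fintype_prod_volume_eq_prod]
  congr 1
  exact Finset.prod_congr rfl fun i _ => integral_indicator (hB i)

theorem det_restrictScalars_sumDeriv_eq_zero {r g : ℕ} (hr : r < g)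
    (w : Fin r → (Fin g → ℂ)) :
    ((sumDeriv (Fin.castLE hr.le) w).restrictScalars ℝ :
      (Fin g → ℂ) →L[ℝ] (Fin g → ℂ)).det = 0 := by
  have h1 : ((sumDeriv (Fin.castLE hr.le) w).restrictScalars ℝ :
      (Fin g → ℂ) →L[ℝ] (Fin g → ℂ)).det
      = Complex.normSq (LinearMap.det ((sumDeriv (Fin.castLE hr.le) w :
        (Fin g → ℂ) →L[ℂ] (Fin g → ℂ)) : (Fin g → ℂ) →ₗ[ℂ] (Fin g → ℂ))) := by
    rw [← Algebra.norm_complex_apply, ← LinearMap.det_restrictScalars]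
    rfl
  rw [h1, Complex.normSq_eq_zero, LinearMap.det_eq_zero_iff_ker_ne_bot]
  intro hker
  have hv : (Pi.single (⟨r, hr⟩ : Fin g) (1 : ℂ) : Fin g → ℂ) ∈ LinearMap.ker
      ((sumDeriv (Fin.castLE hr.le) w :
        (Fin g → ℂ) →L[ℂ] (Fin g → ℂ)) : (Fin g → ℂ) →ₗ[ℂ] (Fin g → ℂ)) := by
    rw [LinearMap.mem_ker]
    show sumDeriv (Fin.castLE hr.le) w (Pi.single (⟨r, hr⟩ : Fin g) (1 : ℂ)) = 0
    rw [sumDeriv_apply]
    refine Finset.sum_eq_zero fun i _ => ?_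
    have hne : Fin.castLE hr.le i ≠ (⟨r, hr⟩ : Fin g) := by
      intro h
      have := congrArg Fin.val h
      simp at this
      exact absurd this (ne_of_lt i.2)
    rw [Pi.single_eq_of_ne hne, zero_smul]
  rw [hker, Submodule.mem_bot] at hv
  have := congrFun hv (⟨r, hr⟩ : Fin g)
  simp at this

/-- Null image: a sum of `r < g` one-variable primitives has a null image in `ℂ^g`. -/
theorem volume_image_sum_null {r g : ℕ} (hr : r < g) (Φ f : Fin r → ℂ → (Fin g → ℂ))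
    (U : Fin r → Set ℂ) (hder : ∀ i, ∀ t ∈ U i, HasDerivAt (Φ i) (f i t) t) :
    volume ((fun x : Fin r → ℂ => ∑ i, Φ i (x i)) '' (Set.pi univ U)) = 0 := by
  have himg : (fun x : Fin r → ℂ => ∑ i, Φ i (x i)) '' (Set.pi univ U)
      ⊆ (fun y : Fin g → ℂ => ∑ i, Φ i (y (Fin.castLE hr.le i))) ''
        {x : Fin g → ℂ | ∀ i, x (Fin.castLE hr.le i) ∈ U i} := by
    rintro _ ⟨x, hx, rfl⟩
    have hy : ∀ i : Fin r, (fun j : Fin g => if h : (j : ℕ) < r then x ⟨j, h⟩ else 0)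
        (Fin.castLE hr.le i) = x i := by
      intro i
      simp
    refine ⟨fun j => if h : (j : ℕ) < r then x ⟨j, h⟩ else 0, ?_, ?_⟩
    · intro i
      rw [hy i]
      exact hx i (mem_univ i)
    · exact Finset.sum_congr rfl fun i _ => by rw [hy i]
  refine measure_mono_null himg ?_
  have hd : ∀ x ∈ {x : Fin g → ℂ | ∀ i, x (Fin.castLE hr.le i) ∈ U i},
      HasFDerivWithinAt (fun y : Fin g → ℂ => ∑ i, Φ i (y (Fin.castLE hr.le i)))
        ((sumDeriv (Fin.castLE hr.le)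
          (fun i => f i (x (Fin.castLE hr.le i)))).restrictScalars ℝ :
            (Fin g → ℂ) →L[ℝ] (Fin g → ℂ))
        {x : Fin g → ℂ | ∀ i, x (Fin.castLE hr.le i) ∈ U i} x := by
    intro x hx
    have h0 := hasFDerivAt_sum_comp (Fin.castLE hr.le) Φ f x (fun i => hder i _ (hx i))
    exact (h0.restrictScalars ℝ).hasFDerivWithinAt
  have hz : ∀ x ∈ {x : Fin g → ℂ | ∀ i, x (Fin.castLE hr.le i) ∈ U i},
      ((sumDeriv (Fin.castLE hr.le)
          (fun i => f i (x (Fin.castLE hr.le i)))).restrictScalars ℝ :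
            (Fin g → ℂ) →L[ℝ] (Fin g → ℂ)).det = 0 :=
    fun x _ => det_restrictScalars_sumDeriv_eq_zero hr _
  exact addHaar_image_eq_zero_of_det_fderivWithin_eq_zero (μ := volume) hd hz

theorem tsum_pi_prod {ι : Type*} (I : ι → ℝ≥0∞) (g : ℕ) :
    ∑' k : Fin g → ι, ∏ i, I (k i) = (∑' k, I k) ^ g := by
  induction g with
  | zero => simp
  | succ g ih =>
    rw [← (Fin.consEquiv (fun _ : Fin (g + 1) => ι)).tsum_eq]
    have h1 : ∀ p : ι × (Fin g → ι),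
        ∏ i, I ((Fin.consEquiv (fun _ : Fin (g + 1) => ι)) p i) = I p.1 * ∏ i, I (p.2 i) := by
      intro p
      rw [Fin.prod_univ_succ]
      simp [Fin.consEquiv]
    simp_rw [h1]
    rw [ENNReal.tsum_prod (f := fun (a : ι) (b : Fin g → ι) => I a * ∏ i, I (b i))]
    simp_rw [ENNReal.tsum_mul_left, ih]
    rw [ENNReal.tsum_mul_right, pow_succ']

/-- Finite-volume cover from countably many charts (enumerated form, `ψ ≥ 0`). -/
theorem exists_finite_volume_cover_aux {g n : ℕ} {J : Type*} [AddCommGroup J]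
    (E : (Fin g → ℂ) →+ J) {X : Type*} (π : X → ℂ) (c : X → J)
    (ψ : ℂ → ℝ) (hψ : Integrable ψ) (hψ0 : ∀ t, 0 ≤ ψ t)
    (U : ℕ → Set ℂ) (hU : ∀ m, MeasurableSet (U m))
    (Φ f : ℕ → Fin n → ℂ → (Fin g → ℂ))
    (hcov : ∀ q, ∃ m, π q ∈ U m)
    (hch : ∀ m, ∀ t ∈ U m,
      (∀ i, HasDerivAt (Φ m i) (f m i t) t ∧ ‖f m i t‖ ^ 2 ≤ ψ t) ∧
      (∀ q : X, π q = t → ∃ i, c q = E (Φ m i t))) :
    ∃ S : Set (Fin g → ℂ), MeasurableSet S ∧ volume S < ∞ ∧
      ∀ q : Fin g → X, ∃ v ∈ S, E v = ∑ i, c (q i) := by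
  classical
  set B : ℕ → Set ℂ := disjointed U with hBdef
  have hBm : ∀ m, MeasurableSet (B m) := fun m => MeasurableSet.disjointed hU m
  have hBU : ∀ m, B m ⊆ U m := fun m => disjointed_subset U m
  have hdisj : Pairwise (Function.onFun Disjoint B) := disjoint_disjointed U
  have hcovB : ∀ q, ∃ m, π q ∈ B m := by
    intro q
    obtain ⟨m, hm⟩ := hcov q
    have : π q ∈ ⋃ m, B m := by
      rw [hBdef, iUnion_disjointed]
      exact mem_iUnion.mpr ⟨m, hm⟩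
    exact mem_iUnion.mp this
  set S₀ : Set (Fin g → ℂ) := ⋃ k : Fin g → ℕ × Fin n,
    (fun x : Fin g → ℂ => ∑ i, Φ (k i).1 (k i).2 (x i)) '' (Set.pi univ fun i => B (k i).1)
    with hS₀
  refine ⟨toMeasurable volume S₀, measurableSet_toMeasurable _ _, ?_, ?_⟩
  · rw [measure_toMeasurable]
    set C : ℝ := (g.factorial : ℝ) ^ 2 with hC
    have hC0 : 0 ≤ C := by positivity
    have hI0 : ∀ m, 0 ≤ ∫ t in B m, ψ t := fun m => integral_nonneg fun t => hψ0 t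
    have h1 : volume S₀ ≤ ∑' k : Fin g → ℕ × Fin n,
        ENNReal.ofReal C * ∏ i, ENNReal.ofReal (∫ t in B (k i).1, ψ t) := by
      refine (measure_iUnion_le _).trans (ENNReal.tsum_le_tsum fun k => ?_)
      have := volume_image_sum_le (fun i => Φ (k i).1 (k i).2) (fun i => f (k i).1 (k i).2)
        (fun i => B (k i).1) (fun i => hBm _) ψ hψ
        (fun i t ht => ((hch (k i).1 t (hBU _ ht)).1 (k i).2).1)
        (fun i t ht => ((hch (k i).1 t (hBU _ ht)).1 (k i).2).2)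
      refine this.trans (le_of_eq ?_)
      rw [ENNReal.ofReal_mul hC0, ENNReal.ofReal_prod_of_nonneg fun i _ => hI0 _]
    refine h1.trans_lt ?_
    rw [ENNReal.tsum_mul_left,
      tsum_pi_prod (fun k : ℕ × Fin n => ENNReal.ofReal (∫ t in B k.1, ψ t)) g]
    have h2 : ∑' k : ℕ × Fin n, ENNReal.ofReal (∫ t in B k.1, ψ t)
        = (n : ℝ≥0∞) * ∑' m, ENNReal.ofReal (∫ t in B m, ψ t) := by
      rw [ENNReal.tsum_prod (f := fun (m : ℕ) (_ : Fin n) => ENNReal.ofReal (∫ t in B m, ψ t))]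
      simp [ENNReal.tsum_mul_left]
    have h3 : ∑' m, ENNReal.ofReal (∫ t in B m, ψ t) ≤ ∫⁻ t, ENNReal.ofReal (ψ t) := by
      have h4 : ∀ m, ENNReal.ofReal (∫ t in B m, ψ t) = ∫⁻ t in B m, ENNReal.ofReal (ψ t) :=
        fun m => ofReal_integral_eq_lintegral_ofReal hψ.integrableOn
          (Filter.Eventually.of_forall fun t => hψ0 t)
      simp_rw [h4]
      rw [← lintegral_iUnion hBm hdisj]
      exact setLIntegral_le_lintegral _ _
    have h5 : ∫⁻ t, ENNReal.ofReal (ψ t) < ∞ := hψ.lintegral_lt_top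
    rw [h2]
    exact ENNReal.mul_lt_top ENNReal.ofReal_lt_top
      (ENNReal.pow_lt_top (ENNReal.mul_lt_top (ENNReal.natCast_lt_top n) (h3.trans_lt h5)))
  · intro q
    choose m hm using fun i => hcovB (q i)
    choose s hs using fun i => (hch (m i) (π (q i)) (hBU _ (hm i))).2 (q i) rfl
    refine ⟨∑ i, Φ (m i) (s i) (π (q i)), subset_toMeasurable _ _ ?_, ?_⟩
    · rw [hS₀]
      refine mem_iUnion.mpr ⟨fun i => (m i, s i), ⟨fun i => π (q i), ?_, rfl⟩⟩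
      intro i _
      exact hm i
    · rw [map_sum]
      exact Finset.sum_congr rfl fun i _ => (hs i).symm

/-- Null cover by `r < g` points (enumerated form). -/
theorem exists_null_cover_aux {g n r : ℕ} (hr : r < g) {J : Type*} [AddCommGroup J]
    (E : (Fin g → ℂ) →+ J) {X : Type*} (π : X → ℂ) (c : X → J)
    (U : ℕ → Set ℂ) (Φ f : ℕ → Fin n → ℂ → (Fin g → ℂ))
    (hcov : ∀ q, ∃ m, π q ∈ U m)
    (hch : ∀ m, ∀ t ∈ U m,
      (∀ i, HasDerivAt (Φ m i) (f m i t) t) ∧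
      (∀ q : X, π q = t → ∃ i, c q = E (Φ m i t))) :
    ∃ N : Set (Fin g → ℂ), volume N = 0 ∧
      ∀ q : Fin r → X, ∃ v ∈ N, E v = ∑ i, c (q i) := by
  classical
  refine ⟨⋃ k : Fin r → ℕ × Fin n,
    (fun x : Fin r → ℂ => ∑ i, Φ (k i).1 (k i).2 (x i)) '' (Set.pi univ fun i => U (k i).1),
    ?_, ?_⟩
  · rw [measure_iUnion_null_iff]
    intro k
    exact volume_image_sum_null hr (fun i => Φ (k i).1 (k i).2) (fun i => f (k i).1 (k i).2)
      (fun i => U (k i).1) (fun i t ht => (hch (k i).1 t ht).1 (k i).2)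
  · intro q
    choose m hm using fun i => hcov (q i)
    choose s hs using fun i => (hch (m i) (π (q i)) (hm i)).2 (q i) rfl
    refine ⟨∑ i, Φ (m i) (s i) (π (q i)), ?_, ?_⟩
    · refine mem_iUnion.mpr ⟨fun i => (m i, s i), ⟨fun i => π (q i), ?_, rfl⟩⟩
      intro i _
      exact hm i
    · rw [map_sum]
      exact Finset.sum_congr rfl fun i _ => (hs i).symm

/-- Lindelöf: countably many chart discs suffice. -/
theorem exists_enumerated_charts {g n : ℕ} {J : Type*} [AddCommGroup J]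
    (E : (Fin g → ℂ) →+ J) {X : Type*} (π : X → ℂ) (c : X → J) (Ω : Set ℂ) (ψ : ℂ → ℝ)
    (hΩ : ∀ q, π q ∈ Ω)
    (hch : ∀ a ∈ Ω, ∃ r > 0, ∃ Φ f : Fin n → ℂ → (Fin g → ℂ), ∀ t ∈ ball a r,
      (∀ i, HasDerivAt (Φ i) (f i t) t ∧ ‖f i t‖ ^ 2 ≤ ψ t) ∧
      (∀ q : X, π q = t → ∃ i, c q = E (Φ i t))) :
    ∃ (U : ℕ → Set ℂ) (Φ f : ℕ → Fin n → ℂ → (Fin g → ℂ)),
      (∀ m, MeasurableSet (U m)) ∧ (∀ q, ∃ m, π q ∈ U m) ∧
      ∀ m, ∀ t ∈ U m, (∀ i, HasDerivAt (Φ m i) (f m i t) t ∧ ‖f m i t‖ ^ 2 ≤ ψ t) ∧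
        (∀ q : X, π q = t → ∃ i, c q = E (Φ m i t)) := by
  classical
  by_cases hne : Ω.Nonempty
  · choose! r hr Φ f h using hch
    obtain ⟨T, hTΩ, hTc, hTcov⟩ := TopologicalSpace.countable_cover_nhdsWithin
      (f := fun a => ball a (r a)) (s := Ω)
      (fun a ha => mem_nhdsWithin_of_mem_nhds (ball_mem_nhds a (hr a ha)))
    have hTne : T.Nonempty := by
      obtain ⟨a, ha⟩ := hne
      obtain ⟨b, hb, -⟩ := mem_iUnion₂.mp (hTcov ha)
      exact ⟨b, hb⟩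
    obtain ⟨u, hu⟩ := hTc.exists_eq_range hTne
    have huΩ : ∀ m, u m ∈ Ω := fun m => hTΩ (hu ▸ mem_range_self m)
    refine ⟨fun m => ball (u m) (r (u m)), fun m => Φ (u m), fun m => f (u m),
      fun m => measurableSet_ball, ?_, ?_⟩
    · intro q
      obtain ⟨b, hb, hqb⟩ := mem_iUnion₂.mp (hTcov (hΩ q))
      rw [hu] at hb
      obtain ⟨m, rfl⟩ := hb
      exact ⟨m, hqb⟩
    · intro m t ht
      exact h (u m) (huΩ m) t ht
  · have hX : ∀ q : X, False := fun q => hne ⟨π q, hΩ q⟩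
    refine ⟨fun _ => ∅, fun _ _ _ => 0, fun _ _ _ => 0, fun _ => MeasurableSet.empty, ?_, ?_⟩
    · intro q
      exact (hX q).elim
    · intro m t ht
      exact (notMem_empty t ht).elim

/-- **(FV)** finite-volume cover of the classes of `g`-tuples of generic points. -/
theorem exists_finite_volume_cover {g n : ℕ} {J : Type*} [AddCommGroup J]
    (E : (Fin g → ℂ) →+ J) {X : Type*} (π : X → ℂ) (c : X → J) (Ω : Set ℂ)
    (ψ : ℂ → ℝ) (hψ : Integrable ψ)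
    (hΩ : ∀ q, π q ∈ Ω)
    (hch : ∀ a ∈ Ω, ∃ r > 0, ∃ Φ f : Fin n → ℂ → (Fin g → ℂ), ∀ t ∈ ball a r,
      (∀ i, HasDerivAt (Φ i) (f i t) t ∧ ‖f i t‖ ^ 2 ≤ ψ t) ∧
      (∀ q : X, π q = t → ∃ i, c q = E (Φ i t))) :
    ∃ S : Set (Fin g → ℂ), MeasurableSet S ∧ volume S < ∞ ∧
      ∀ q : Fin g → X, ∃ v ∈ S, E v = ∑ i, c (q i) := by
  obtain ⟨U, Φ, f, hU, hcov, h⟩ := exists_enumerated_charts E π c Ω ψ hΩ hch
  refine exists_finite_volume_cover_aux E π c (fun t => |ψ t|) hψ.abs (fun t => abs_nonneg _)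
    U hU Φ f hcov fun m t ht => ⟨fun i => ⟨((h m t ht).1 i).1, ?_⟩, (h m t ht).2⟩
  exact ((h m t ht).1 i).2.trans (le_abs_self _)

/-- **(NULL)** null cover of the classes of `r`-tuples of generic points, `r < g`. -/
theorem exists_null_cover {g n r : ℕ} (hr : r < g) {J : Type*} [AddCommGroup J]
    (E : (Fin g → ℂ) →+ J) {X : Type*} (π : X → ℂ) (c : X → J) (Ω : Set ℂ)
    (ψ : ℂ → ℝ)
    (hΩ : ∀ q, π q ∈ Ω)
    (hch : ∀ a ∈ Ω, ∃ r > 0, ∃ Φ f : Fin n → ℂ → (Fin g → ℂ), ∀ t ∈ ball a r,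
      (∀ i, HasDerivAt (Φ i) (f i t) t ∧ ‖f i t‖ ^ 2 ≤ ψ t) ∧
      (∀ q : X, π q = t → ∃ i, c q = E (Φ i t))) :
    ∃ N : Set (Fin g → ℂ), volume N = 0 ∧
      ∀ q : Fin r → X, ∃ v ∈ N, E v = ∑ i, c (q i) := by
  obtain ⟨U, Φ, f, -, hcov, h⟩ := exists_enumerated_charts E π c Ω ψ hΩ hch
  exact exists_null_cover_aux hr E π c U Φ f hcov
    fun m t ht => ⟨fun i => ((h m t ht).1 i).1, (h m t ht).2⟩

/-- **(COVER)** `ℂ^g = (ker E + S) ∪ N` with `vol S < ∞`, `vol N = 0`. -/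
theorem exists_cover_of_charts {g n : ℕ} {J : Type*} [AddCommGroup J]
    (E : (Fin g → ℂ) →+ J) {X : Type*} (π : X → ℂ) (c : X → J) (Ω : Set ℂ)
    (ψ : ℂ → ℝ) (hψ : Integrable ψ)
    (hΩ : ∀ q, π q ∈ Ω)
    (hch : ∀ a ∈ Ω, ∃ r > 0, ∃ Φ f : Fin n → ℂ → (Fin g → ℂ), ∀ t ∈ ball a r,
      (∀ i, HasDerivAt (Φ i) (f i t) t ∧ ‖f i t‖ ^ 2 ≤ ψ t) ∧
      (∀ q : X, π q = t → ∃ i, c q = E (Φ i t)))
    (hker : (E.ker : Set (Fin g → ℂ)).Countable)
    (Z : Set J) (hZ : Z.Countable)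
    (hjac : ∀ x : J, (∃ q : Fin g → X, x = ∑ i, c (q i)) ∨
      (∃ z ∈ Z, ∃ r < g, ∃ q : Fin r → X, x = z + ∑ i, c (q i))) :
    ∃ S N : Set (Fin g → ℂ), MeasurableSet S ∧ volume S < ∞ ∧ volume N = 0 ∧
      ∀ v, v ∈ N ∨ ∃ l ∈ E.ker, ∃ s ∈ S, v = l + s := by
  classical
  obtain ⟨S, hSm, hSv, hS⟩ := exists_finite_volume_cover E π c Ω ψ hψ hΩ hch
  have hN : ∀ r : Fin g, ∃ N : Set (Fin g → ℂ), volume N = 0 ∧
      ∀ q : Fin r → X, ∃ v ∈ N, E v = ∑ i, c (q i) :=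
    fun r => exists_null_cover r.2 E π c Ω ψ hΩ hch
  choose N hN0 hN using hN
  set vz : J → (Fin g → ℂ) := fun z => if h : ∃ v, E v = z then h.choose else 0 with hvzdef
  have hvz : ∀ z, (∃ v, E v = z) → E (vz z) = z := by
    intro z hz
    simp only [hvzdef, dif_pos hz]
    exact hz.choose_spec
  refine ⟨S, ⋃ z ∈ Z, ⋃ r : Fin g, ⋃ l ∈ (E.ker : Set (Fin g → ℂ)),
    (fun v => (vz z + l) + v) '' N r, hSm, hSv, ?_, ?_⟩
  · refine (measure_biUnion_null_iff hZ).mpr fun z _ => ?_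
    refine measure_iUnion_null_iff.mpr fun r => ?_
    refine (measure_biUnion_null_iff hker).mpr fun l _ => ?_
    rw [image_add_left, measure_preimage_add, hN0]
  · intro v
    rcases hjac (E v) with ⟨q, hq⟩ | ⟨z, hz, r, hr, q, hq⟩
    · obtain ⟨s, hs, hEs⟩ := hS q
      refine Or.inr ⟨v - s, ?_, s, hs, by abel⟩
      rw [AddMonoidHom.mem_ker, map_sub, hEs, hq, sub_self]
    · obtain ⟨w, hw, hEw⟩ := hN ⟨r, hr⟩ q
      have hz' : ∃ u, E u = z := ⟨v - w, by rw [map_sub, hEw, hq]; abel⟩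
      have hl : v - w - vz z ∈ E.ker := by
        rw [AddMonoidHom.mem_ker, map_sub, map_sub, hEw, hq, hvz z hz']
        abel
      refine Or.inl ?_
      refine mem_iUnion₂.mpr ⟨z, hz, mem_iUnion.mpr ⟨⟨r, hr⟩, mem_iUnion₂.mpr
        ⟨v - w - vz z, hl, w, hw, ?_⟩⟩⟩
      show vz z + (v - w - vz z) + w = v
      abel

/-- **Abstract criterion (B)**: a discrete subgroup `Λ` with `V = (Λ + S) ∪ N`,
`μ S < ∞`, `μ N = 0` spans `V` over `ℝ`. -/
theorem span_eq_top_of_cover {V : Type*} [NormedAddCommGroup V] [NormedSpace ℝ V]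
    [FiniteDimensional ℝ V] [MeasurableSpace V] [BorelSpace V] (μ : Measure V)
    [μ.IsAddHaarMeasure] (Λ : AddSubgroup V) [DiscreteTopology Λ] (S N : Set V)
    (hS : μ S < ∞) (hN : μ N = 0)
    (hcov : ∀ v, v ∈ N ∨ ∃ l ∈ Λ, ∃ s ∈ S, v = l + s) :
    Submodule.span ℝ (Λ : Set V) = ⊤ := by
  classical
  by_contra hne
  obtain ⟨L, hL0, hLk⟩ := Submodule.exists_le_ker_of_lt_top _ (lt_top_iff_ne_top.mpr hne)
  have hLΛ : ∀ l ∈ Λ, L l = 0 := fun l hl =>
    LinearMap.mem_ker.mp (hLk (Submodule.subset_span hl))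
  obtain ⟨v1, hv1⟩ : ∃ v, L v ≠ 0 := by
    by_contra h
    exact hL0 (LinearMap.ext fun v => by simpa using not_not.mp (not_exists.mp h v))
  set v0 : V := (L v1)⁻¹ • v1 with hv0def
  have hv0 : L v0 = 1 := by
    rw [hv0def, map_smul, smul_eq_mul, inv_mul_cancel₀ hv1]
  have hLc : Continuous L := L.continuous_of_finiteDimensional
  obtain ⟨δ, hδ, hδΛ⟩ : ∃ δ > 0, ∀ l ∈ Λ, ‖l‖ < δ → l = 0 := by
    have h0 := isOpen_discrete ({0} : Set Λ)
    rw [Metric.isOpen_singleton_iff] at h0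
    obtain ⟨ε, hε, h⟩ := h0
    refine ⟨ε, hε, fun l hl hlt => ?_⟩
    have h1 := h ⟨l, hl⟩ (by
      rw [Subtype.dist_eq, dist_eq_norm]
      simpa using hlt)
    exact congrArg Subtype.val h1
  have hcnt : Countable Λ := TopologicalSpace.separableSpace_iff_countable.mp inferInstance
  set A : Set V := {v | 0 ≤ L v} ∩ ({v | L v < 1} ∩ {v | ‖v - L v • v0‖ < δ / 2}) with hA
  have hnormc : Continuous fun v : V => ‖v - L v • v0‖ :=
    continuous_norm.comp (continuous_id.sub (hLc.smul continuous_const))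
  have hAm : MeasurableSet A :=
    (isClosed_le continuous_const hLc).measurableSet.inter
      ((isOpen_lt hLc continuous_const).measurableSet.inter
        (isOpen_lt hnormc continuous_const).measurableSet)
  have hApos : 0 < μ A := by
    have hopen : IsOpen ({v | 0 < L v} ∩ ({v | L v < 1} ∩ {v | ‖v - L v • v0‖ < δ / 2})) :=
      (isOpen_lt continuous_const hLc).inter
        ((isOpen_lt hLc continuous_const).inter (isOpen_lt hnormc continuous_const))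
    have hmem : (1 / 2 : ℝ) • v0 ∈
        ({v | 0 < L v} ∩ ({v | L v < 1} ∩ {v | ‖v - L v • v0‖ < δ / 2})) := by
      have h12 : L ((1 / 2 : ℝ) • v0) = 1 / 2 := by
        rw [map_smul, hv0, smul_eq_mul, mul_one]
      refine ⟨?_, ?_, ?_⟩
      · show 0 < L ((1 / 2 : ℝ) • v0)
        rw [h12]; norm_num
      · show L ((1 / 2 : ℝ) • v0) < 1
        rw [h12]; norm_num
      · show ‖(1 / 2 : ℝ) • v0 - L ((1 / 2 : ℝ) • v0) • v0‖ < δ / 2
        rw [h12, sub_self, norm_zero]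
        positivity
    refine (hopen.measure_pos μ ⟨_, hmem⟩).trans_le (measure_mono ?_)
    rintro v ⟨h1, h2⟩
    exact ⟨show 0 ≤ L v from le_of_lt h1, h2⟩
  set T : ℕ × Λ → Set V := fun p => (fun v => v + ((p.2 : V) - (p.1 : ℝ) • v0)) ⁻¹' A with hT
  have hTm : ∀ p, MeasurableSet (T p) := fun p => (measurable_add_const _) hAm
  have hLT : ∀ (p : ℕ × Λ) (v : V), L (v + ((p.2 : V) - (p.1 : ℝ) • v0)) = L v - p.1 := by
    intro p v
    rw [map_add, map_sub, map_smul, hLΛ _ p.2.2, hv0, smul_eq_mul, mul_one]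
    ring
  have hTd : Pairwise (Function.onFun Disjoint T) := by
    intro p p' hpp'
    rw [Function.onFun, Set.disjoint_left]
    intro v hv hv'
    apply hpp'
    have h1 : 0 ≤ L (v + ((p.2 : V) - (p.1 : ℝ) • v0)) := hv.1
    have h2 : L (v + ((p.2 : V) - (p.1 : ℝ) • v0)) < 1 := hv.2.1
    have h3 : ‖v + ((p.2 : V) - (p.1 : ℝ) • v0)
        - L (v + ((p.2 : V) - (p.1 : ℝ) • v0)) • v0‖ < δ / 2 := hv.2.2
    have h1' : 0 ≤ L (v + ((p'.2 : V) - (p'.1 : ℝ) • v0)) := hv'.1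
    have h2' : L (v + ((p'.2 : V) - (p'.1 : ℝ) • v0)) < 1 := hv'.2.1
    have h3' : ‖v + ((p'.2 : V) - (p'.1 : ℝ) • v0)
        - L (v + ((p'.2 : V) - (p'.1 : ℝ) • v0)) • v0‖ < δ / 2 := hv'.2.2
    rw [hLT] at h1 h2 h3 h1' h2' h3'
    have hj : p.1 = p'.1 := by
      have ha : (p.1 : ℝ) < p'.1 + 1 := by linarith
      have hb : (p'.1 : ℝ) < p.1 + 1 := by linarith
      have ha' : p.1 < p'.1 + 1 := by exact_mod_cast ha
      have hb' : p'.1 < p.1 + 1 := by exact_mod_cast hb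
      omega
    have hl : (p.2 : V) - (p'.2 : V) = 0 := by
      refine hδΛ _ (Λ.sub_mem p.2.2 p'.2.2) ?_
      have e : (p.2 : V) - (p'.2 : V)
          = (v + ((p.2 : V) - (p.1 : ℝ) • v0) - (L v - (p.1 : ℝ)) • v0)
            - (v + ((p'.2 : V) - (p'.1 : ℝ) • v0) - (L v - (p'.1 : ℝ)) • v0) := by
        rw [hj]; abel
      rw [e]
      calc ‖(v + ((p.2 : V) - (p.1 : ℝ) • v0) - (L v - (p.1 : ℝ)) • v0)
            - (v + ((p'.2 : V) - (p'.1 : ℝ) • v0) - (L v - (p'.1 : ℝ)) • v0)‖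
          ≤ ‖v + ((p.2 : V) - (p.1 : ℝ) • v0) - (L v - (p.1 : ℝ)) • v0‖
            + ‖v + ((p'.2 : V) - (p'.1 : ℝ) • v0) - (L v - (p'.1 : ℝ)) • v0‖ := norm_sub_le _ _
        _ < δ / 2 + δ / 2 := add_lt_add h3 h3'
        _ = δ := by ring
    exact Prod.ext hj (Subtype.ext (sub_eq_zero.mp hl))
  have hkey : ∀ j : ℕ, μ A ≤ ∑' l : Λ, μ.restrict S (T (j, l)) := by
    intro j
    have h1 : μ ((fun v => v + (-((j : ℝ) • v0))) ⁻¹' A) = μ A :=
      measure_preimage_add_right μ _ A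
    rw [← h1]
    have hsub : (fun v => v + (-((j : ℝ) • v0))) ⁻¹' A
        ⊆ N ∪ ⋃ l : Λ, (fun s => s + (l : V)) '' (T (j, l) ∩ S) := by
      intro a ha
      rcases hcov a with hN' | ⟨l, hl, s, hs, rfl⟩
      · exact Or.inl hN'
      · refine Or.inr (mem_iUnion.mpr ⟨⟨l, hl⟩, s, ⟨?_, hs⟩, add_comm _ _⟩)
        show s + ((l : V) - (j : ℝ) • v0) ∈ A
        have e : s + ((l : V) - (j : ℝ) • v0) = l + s + (-((j : ℝ) • v0)) := by abel
        rw [e]
        exact ha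
    refine (measure_mono hsub).trans ((measure_union_le _ _).trans ?_)
    rw [hN, zero_add]
    refine (measure_iUnion_le _).trans (ENNReal.tsum_le_tsum fun l => le_of_eq ?_)
    rw [image_add_right, measure_preimage_add_right, Measure.restrict_apply (hTm _)]
  have hinf : (∑' _ : ℕ, μ A) = ∞ := ENNReal.tsum_const_eq_top_of_ne_zero hApos.ne'
  have hle : (∑' _ : ℕ, μ A) ≤ μ S := by
    calc (∑' _ : ℕ, μ A) ≤ ∑' j : ℕ, ∑' l : Λ, μ.restrict S (T (j, l)) :=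
          ENNReal.tsum_le_tsum hkey
      _ = ∑' p : ℕ × Λ, μ.restrict S (T p) :=
          (ENNReal.tsum_prod (f := fun (j : ℕ) (l : Λ) => μ.restrict S (T (j, l)))).symm
      _ = μ.restrict S (⋃ p, T p) := (measure_iUnion hTd hTm).symm
      _ ≤ μ.restrict S univ := measure_mono (subset_univ _)
      _ = μ S := by rw [Measure.restrict_apply MeasurableSet.univ, univ_inter]
  rw [hinf] at hle
  exact absurd hS (not_lt.mpr hle)

/-- **(SPAN)**, abstract Jacobi-inversion form: charts with an integrable majorant, `ker E`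
discrete, and every class of `J` is either a sum of `g` generic point classes or
`z +` a sum of `r < g` generic point classes with `z` in a countable set. Then `ker E`
spans `ℂ^g` over `ℝ`. -/
theorem span_ker_eq_top_of_charts {g n : ℕ} {J : Type*} [AddCommGroup J]
    (E : (Fin g → ℂ) →+ J) (hd : DiscreteTopology E.ker)
    {X : Type*} (π : X → ℂ) (c : X → J) (Ω : Set ℂ)
    (ψ : ℂ → ℝ) (hψ : Integrable ψ)
    (hΩ : ∀ q, π q ∈ Ω)
    (hch : ∀ a ∈ Ω, ∃ r > 0, ∃ Φ f : Fin n → ℂ → (Fin g → ℂ), ∀ t ∈ ball a r,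
      (∀ i, HasDerivAt (Φ i) (f i t) t ∧ ‖f i t‖ ^ 2 ≤ ψ t) ∧
      (∀ q : X, π q = t → ∃ i, c q = E (Φ i t)))
    (Z : Set J) (hZ : Z.Countable)
    (hjac : ∀ x : J, (∃ q : Fin g → X, x = ∑ i, c (q i)) ∨
      (∃ z ∈ Z, ∃ r < g, ∃ q : Fin r → X, x = z + ∑ i, c (q i))) :
    Submodule.span ℝ (E.ker : Set (Fin g → ℂ)) = ⊤ := by
  have hcnt : Countable E.ker := TopologicalSpace.separableSpace_iff_countable.mp inferInstance
  have hker : (E.ker : Set (Fin g → ℂ)).Countable := Set.countable_coe_iff.mp hcnt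
  obtain ⟨S, N, -, hSv, hN0, hcov⟩ :=
    exists_cover_of_charts E π c Ω ψ hψ hΩ hch hker Z hZ hjac
  exact span_eq_top_of_cover volume E.ker S N hSv hN0 hcov

/-- **(SPAN')**, consumer form: `Y` = all points (places), `G ⊆ Y` the generic ones with
countable (e.g. finite) complement, `c P` = class of `P - Q₀`, and Jacobi inversion
"every class is a sum of `g` point classes". -/
theorem span_ker_eq_top_of_charts' {g n : ℕ} {J : Type*} [AddCommGroup J]
    (E : (Fin g → ℂ) →+ J) (hd : DiscreteTopology E.ker)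
    {Y : Type*} (G : Set Y) (hG : Gᶜ.Countable) (π : Y → ℂ) (c : Y → J) (Ω : Set ℂ)
    (ψ : ℂ → ℝ) (hψ : Integrable ψ)
    (hΩ : ∀ q ∈ G, π q ∈ Ω)
    (hch : ∀ a ∈ Ω, ∃ r > 0, ∃ Φ f : Fin n → ℂ → (Fin g → ℂ), ∀ t ∈ ball a r,
      (∀ i, HasDerivAt (Φ i) (f i t) t ∧ ‖f i t‖ ^ 2 ≤ ψ t) ∧
      (∀ q ∈ G, π q = t → ∃ i, c q = E (Φ i t)))
    (hjac : ∀ x : J, ∃ P : Fin g → Y, x = ∑ i, c (P i)) :
    Submodule.span ℝ (E.ker : Set (Fin g → ℂ)) = ⊤ := by
  classical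
  have hGc : Countable ↥(Gᶜ) := hG.to_subtype
  refine span_ker_eq_top_of_charts (n := n) E hd (X := ↥G) (fun q => π q.1) (fun q => c q.1) Ω ψ hψ
    (fun q => hΩ q.1 q.2) ?_
    (Set.range fun p : (Σ k : ℕ, Fin k → ↥(Gᶜ)) => ∑ i, c (p.2 i).1)
    (Set.countable_range _) ?_
  · intro a ha
    obtain ⟨r, hr, Φ, f, h⟩ := hch a ha
    exact ⟨r, hr, Φ, f, fun t ht => ⟨(h t ht).1, fun q hq => (h t ht).2 q.1 q.2 hq⟩⟩
  · intro x
    obtain ⟨P, rfl⟩ := hjac x
    set T : Finset (Fin g) := Finset.univ.filter fun i => P i ∈ G with hT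
    have hTmem : ∀ i, i ∈ T ↔ P i ∈ G := fun i => by simp [hT]
    by_cases hall : ∀ i, P i ∈ G
    · exact Or.inl ⟨fun i => ⟨P i, hall i⟩, rfl⟩
    · refine Or.inr ⟨∑ i ∈ Tᶜ, c (P i), ?_, T.card, ?_,
        fun j => ⟨P (T.equivFin.symm j).1, (hTmem _).mp (T.equivFin.symm j).2⟩, ?_⟩
      · refine ⟨⟨Tᶜ.card, fun j => ⟨P (Tᶜ.equivFin.symm j).1, ?_⟩⟩, ?_⟩
        · have := (Tᶜ.equivFin.symm j).2
          rw [Finset.mem_compl, hTmem] at this
          exact this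
        · show ∑ j : Fin Tᶜ.card, c (P (Tᶜ.equivFin.symm j).1) = ∑ i ∈ Tᶜ, c (P i)
          rw [← Finset.sum_coe_sort Tᶜ (fun i => c (P i))]
          exact Equiv.sum_comp Tᶜ.equivFin.symm (fun i : ↥Tᶜ => c (P i.1))
      · obtain ⟨i, hi⟩ := not_forall.mp hall
        have hlt : T.card < (Finset.univ : Finset (Fin g)).card :=
          Finset.card_lt_card ⟨Finset.subset_univ _, fun h =>
            hi ((hTmem i).mp (h (Finset.mem_univ i)))⟩
        simpa using hlt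
      · show ∑ i, c (P i) = ∑ i ∈ Tᶜ, c (P i) + ∑ j : Fin T.card, c (P (T.equivFin.symm j).1)
        have h1 : ∑ j : Fin T.card, c (P (T.equivFin.symm j).1) = ∑ i ∈ T, c (P i) := by
          rw [← Finset.sum_coe_sort T (fun i => c (P i))]
          exact Equiv.sum_comp T.equivFin.symm (fun i : ↥T => c (P i.1))
        rw [h1, add_comm, Finset.sum_add_sum_compl]

end

end Fermat.Agent.S27.helper8368
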