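import Fermat.Agent.S27.helper6247_Spec
import Fermat.Agent.S24.helper483_PlacesFF
import Fermat.Agent.S27.helper1070_Approx

/-!
# S27, leaf M5b' : `Stmt_FibreUnram` of `helper6247_Spec` (helper8392)

If all zeros of `f` are centres of charts with coordinate `f` itself, then for small `t` the
zeros of `f - t` are exactly the chart points `Q k t`.

Proof.  If `f` is algebraic over `ℂ` it is a constant and `f - t` has no zero at all.
Otherwise `F` is finite over `ℂ(f)` of degree `n`, and for every `t` the orders of the zeros of
`f - t` sum to `n` (fundamental identity, landed S24 module `helper483_PlacesFF`).  The zeros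
of `f` are simple (chart property at `s = 0`), so there are exactly `n` of them, and they are
the centres `Q k 0`.  Two chart points `Q k t`, `Q k' t` with distinct centres stay distinct
for small `t`: separate the centres by a function `g` (weak approximation,
`helper1070_Approx`) and use the continuity of `s ↦ g(Q k s)`.  Hence for small `t` the
`Q k t` are at least `n` distinct simple zeros of `f - t`, i.e. all of them.

Main results (namespace `Fermat.Agent.S27.helper8392`):
* `ev_eq_zero_of_ord_pos`, `ev_ne_zero_of_ord_eq_zero` : the two facts on `helper6247.ev`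
  that are used;
* `eventually_chart_ne` : chart points with distinct centres are eventually distinct;
* `fibreUnram` : `helper6247.Stmt_FibreUnram` (no hypotheses).
-/

set_option autoImplicit false

open AlgebraicCurve IntermediateField
open scoped Topology

namespace Fermat.Agent.S27.helper8392

open Fermat.Agent.S27.helper6247
open Fermat.Agent.S24

section EvFacts

variable {K F : Type*} [Field K] [Field F] [Algebra K F]

/-- The value of `ev` is characterised by `adicValuation (f - c) < 1`. -/
theorem ev_eq_of_adicValuation_lt_one (P : Place K F) {g : F} {c : K}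
    (hc : P.adicValuation (g - algebraMap K F c) < 1) : ev P g = c := by
  classical
  have hex : ∃ c : K, P.adicValuation (g - algebraMap K F c) < 1 := ⟨c, hc⟩
  have hev : ev P g = hex.choose := by
    unfold ev
    rw [dif_pos hex]
  rw [hev]
  by_contra hne
  have h1 := hex.choose_spec
  have h2 : algebraMap K F (c - hex.choose)
      = (g - algebraMap K F hex.choose) - (g - algebraMap K F c) := by
    rw [map_sub]; ring
  have h3 : P.adicValuation (algebraMap K F (c - hex.choose)) = 1 :=
    helper483.adicValuation_algebraMap P (sub_ne_zero.mpr (Ne.symm hne))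
  rw [h2] at h3
  have h4 := Valuation.map_sub P.adicValuation (g - algebraMap K F hex.choose)
    (g - algebraMap K F c)
  rw [h3] at h4
  exact absurd h4 (not_le.mpr (max_lt h1 hc))

/-- `ev P g = 0` at a zero of `g`. -/
theorem ev_eq_zero_of_ord_pos (P : Place K F) {g : F} (hg : 0 < P.ord g) : ev P g = 0 := by
  have hg0 : g ≠ 0 := by
    rintro rfl
    simp at hg
  apply ev_eq_of_adicValuation_lt_one
  rw [map_zero, sub_zero]
  exact (helper483.ord_pos_iff_adicValuation_lt_one P hg0).mp hg

/-- `ev P g ≠ 0` if `g` is a unit at `P` (residue field `K`). -/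
theorem ev_ne_zero_of_ord_eq_zero [IsAlgClosed K] (x : F) [Algebra.IsAlgebraic K⟮x⟯ F]
    (P : Place K F) {g : F} (hg0 : g ≠ 0) (hg : P.ord g = 0) : ev P g ≠ 0 := by
  have hmem : g ∈ P.toValuationSubring := helper483.mem_of_ord_nonneg P hg.ge
  obtain ⟨c, hc⟩ := helper483.exists_sub_mem_maximalIdeal x P ⟨g, hmem⟩
  have h1 := P.adicValuation_coe ((⟨g, hmem⟩ : P.toValuationSubring)
    - algebraMap K P.toValuationSubring c)
  rw [show (((⟨g, hmem⟩ : P.toValuationSubring) - algebraMap K P.toValuationSubring c
      : P.toValuationSubring) : F) = g - algebraMap K F c from rfl] at h1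
  have h2 : P.adicValuation (g - algebraMap K F c) < 1 := by
    rw [h1, IsDedekindDomain.HeightOneSpectrum.intValuation_lt_one_iff_mem,
      Place.heightOneSpectrum_asIdeal]
    exact hc
  rw [ev_eq_of_adicValuation_lt_one P h2]
  rintro rfl
  rw [map_zero, sub_zero] at h2
  have h3 : 0 < P.ord g := (helper483.ord_pos_iff_adicValuation_lt_one P hg0).mpr h2
  omega

end EvFacts

section Charts

variable {F : Type*} [Field F] [Algebra ℂ F]

/-- Chart points with distinct centres are eventually distinct. -/
theorem eventually_chart_ne (x : F) [FiniteDimensional ℂ⟮x⟯ F] {u u' : F}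
    {Q Q' : ℂ → Place ℂ F} {r r' : ℝ} (hQ : IsChart u Q r) (hQ' : IsChart u' Q' r')
    (hne : Q 0 ≠ Q' 0) : ∀ᶠ s in 𝓝 (0 : ℂ), Q s ≠ Q' s := by
  classical
  have halg : Algebra.IsAlgebraic ℂ⟮x⟯ F := Algebra.IsAlgebraic.of_finite _ _
  obtain ⟨g, hg0, hg⟩ := helper1070.exists_ord_eq ({Q 0, Q' 0} : Finset (Place ℂ F))
    (fun v => if v = Q 0 then 1 else 0)
  have hgQ : (Q 0).ord g = 1 := by
    have := hg (Q 0) (by simp)
    simpa using this
  have hgQ' : (Q' 0).ord g = 0 := by
    have := hg (Q' 0) (by simp)
    rw [this, if_neg (Ne.symm hne)]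
  have h0 : (0 : ℂ) ∈ Metric.ball (0 : ℂ) r := Metric.mem_ball_self hQ.pos
  have h0' : (0 : ℂ) ∈ Metric.ball (0 : ℂ) r' := Metric.mem_ball_self hQ'.pos
  have hc : ContinuousAt (fun s => ev (Q s) g) 0 :=
    (hQ.analytic g 0 h0 (by omega)).2.continuousAt
  have hc' : ContinuousAt (fun s => ev (Q' s) g) 0 :=
    (hQ'.analytic g 0 h0' (by omega)).2.continuousAt
  have hv : ev (Q 0) g = 0 := ev_eq_zero_of_ord_pos (Q 0) (by omega)
  have hv' : ev (Q' 0) g ≠ 0 := ev_ne_zero_of_ord_eq_zero x (Q' 0) hg0 hgQ'
  have hcd : ContinuousAt (fun s => ev (Q s) g - ev (Q' s) g) 0 := hc.sub hc'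
  have hd0 : (fun s => ev (Q s) g - ev (Q' s) g) 0 ≠ 0 := by
    simp only [hv, zero_sub, ne_eq, neg_eq_zero]
    exact hv'
  filter_upwards [hcd.eventually_ne hd0] with s hs heq
  apply hs
  simp only [heq, sub_self]

end Charts

section Counting

/-- If `g k = g k' → h k = h k'`, the image of `h` is not larger than the image of `g`. -/
theorem card_image_le_card_image {ι α β : Type*} [Fintype ι] [DecidableEq α] [DecidableEq β]
    (g : ι → α) (h : ι → β) (hgh : ∀ k k', g k = g k' → h k = h k') :
    (Finset.univ.image h).card ≤ (Finset.univ.image g).card := by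
  classical
  by_cases hι : Nonempty ι
  · have := hι
    -- a map from the image of `g` onto the image of `h`
    let φ : α → β := fun a =>
      if ha : ∃ k, g k = a then h ha.choose else h (Classical.arbitrary ι)
    have hφ : ∀ k, φ (g k) = h k := by
      intro k
      have hk : ∃ k', g k' = g k := ⟨k, rfl⟩
      show (if ha : ∃ k', g k' = g k then h ha.choose else h (Classical.arbitrary ι)) = h k
      rw [dif_pos hk]
      exact hgh _ _ hk.choose_spec
    have himg : Finset.univ.image h = (Finset.univ.image g).image φ := by
      rw [Finset.image_image]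
      congr 1
      funext k
      exact (hφ k).symm
    rw [himg]
    exact Finset.card_image_le
  · have : IsEmpty ι := not_nonempty_iff.mp hι
    simp

end Counting

/-- **M5b'** of `helper6247_Spec`: the unramified fibre statement. -/
theorem fibreUnram : Stmt_FibreUnram := by
  classical
  intro F _ _ x hx _ f m Q r hQ hzero
  by_cases hf : Transcendental ℂ f
  · -- the main case
    have : FiniteDimensional ℂ⟮f⟯ F :=
      helper483.finiteDimensional_adjoin_simple_of_transcendental x hf
    set n : ℕ := Module.finrank ℂ⟮f⟯ F with hn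
    -- zeros of `f`
    obtain ⟨s0, hs0, hsum0⟩ := helper483.exists_finset_zeros f hf (0 : ℂ)
    have hball : ∀ k, (0 : ℂ) ∈ Metric.ball (0 : ℂ) (r k) := fun k =>
      Metric.mem_ball_self (hQ k).pos
    -- the zeros of `f` are exactly the centres, all simple
    have hs0img : s0 = Finset.univ.image (fun k => Q k 0) := by
      ext v
      rw [hs0 v, Finset.mem_image]
      constructor
      · intro hv
        have hv' : 0 < v.ord f := by simpa using hv
        obtain ⟨k, hk⟩ := hzero v hv'
        exact ⟨k, Finset.mem_univ _, hk.symm⟩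
      · rintro ⟨k, -, rfl⟩
        rw [(hQ k).unif 0 (hball k)]
        exact one_pos
    have hcard0 : (s0.card : ℤ) = n := by
      rw [← hsum0, Finset.card_eq_sum_ones, Nat.cast_sum]
      refine Finset.sum_congr rfl fun v hv => ?_
      rw [hs0img, Finset.mem_image] at hv
      obtain ⟨k, -, rfl⟩ := hv
      rw [(hQ k).unif 0 (hball k)]
      simp
    -- eventually: all charts contain `t`, and distinct centres give distinct chart points
    have hev1 : ∀ᶠ t in 𝓝 (0 : ℂ), ∀ k, t ∈ Metric.ball (0 : ℂ) (r k) := by
      rw [Filter.eventually_all]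
      intro k
      exact Metric.isOpen_ball.mem_nhds (hball k)
    have hev2 : ∀ᶠ t in 𝓝 (0 : ℂ), ∀ k k', Q k 0 ≠ Q k' 0 → Q k t ≠ Q k' t := by
      rw [Filter.eventually_all]
      intro k
      rw [Filter.eventually_all]
      intro k'
      by_cases hne : Q k 0 = Q k' 0
      · exact Filter.Eventually.of_forall fun t h => absurd hne h
      · filter_upwards [eventually_chart_ne x (hQ k) (hQ k') hne] with t ht _ using ht
    obtain ⟨δ, hδ, hδ'⟩ := Metric.eventually_nhds_iff.mp (hev1.and hev2)
    refine ⟨δ, hδ, fun t ht v hv => ?_⟩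
    obtain ⟨ht1, ht2⟩ := hδ' (y := t) (by simpa [dist_eq_norm] using ht)
    -- zeros of `f - t`
    obtain ⟨st, hst, hsumt⟩ := helper483.exists_finset_zeros f hf t
    have hsub : Finset.univ.image (fun k => Q k t) ⊆ st := by
      intro w hw
      obtain ⟨k, -, rfl⟩ := Finset.mem_image.mp hw
      rw [hst, (hQ k).unif t (ht1 k)]
      exact one_pos
    have hle1 : s0.card ≤ (Finset.univ.image (fun k => Q k t)).card := by
      rw [hs0img]
      refine card_image_le_card_image (fun k => Q k t) (fun k => Q k 0) ?_
      intro k k' hkk'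
      by_contra hne
      exact ht2 k k' hne hkk'
    have hle2 : (st.card : ℤ) ≤ n := by
      rw [← hsumt, Finset.card_eq_sum_ones, Nat.cast_sum]
      refine Finset.sum_le_sum fun w hw => ?_
      have := (hst w).mp hw
      simp only [Nat.cast_one]
      omega
    have hle3 : st.card ≤ (Finset.univ.image (fun k => Q k t)).card := by
      have : (st.card : ℤ) ≤ s0.card := by rw [hcard0]; exact hle2
      exact le_trans (by exact_mod_cast this) hle1
    have heq : Finset.univ.image (fun k => Q k t) = st :=
      Finset.eq_of_subset_of_card_le hsub hle3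
    have hvst : v ∈ st := (hst v).mpr hv
    rw [← heq] at hvst
    obtain ⟨k, -, hk⟩ := Finset.mem_image.mp hvst
    exact ⟨k, hk.symm⟩
  · -- `f` is a constant: `f - t` has no zeros
    rw [Transcendental, not_not] at hf
    obtain ⟨c, hc⟩ := helper483.exists_algebraMap_eq_of_isAlgebraic hf
    refine ⟨1, one_pos, fun t _ v hv => ?_⟩
    exfalso
    rw [← hc, ← map_sub, helper483.ord_algebraMap] at hv
    exact lt_irrefl _ hv

end Fermat.Agent.S27.helper8392
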