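import Fermat.Agent.S27.helper6247_Spec
import Fermat.Agent.S27.helper3645_EvUnram
import Fermat.Agent.S27.helper4996_Riemann
import Fermat.Agent.S27.helper5175_LocalFibre
import Fermat.Agent.S27.helper3430_ChartExists
import Fermat.Agent.S27.helper7884_Connected
import Fermat.Agent.S27.helper8629_Compact
import Fermat.Agent.S27.helper3807_ChartInt
import Fermat.Agent.S27.helper4604_Complex

/-!
# S27: integration checkpoint of the analytic route (seat helper8629)

Composition of the Spec nodes of `helper6247_Spec` that are already proved on main.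
`s27_of_open` derives the frozen statement (`Stmt_S27`) from exactly the nodes that were still
open when this file was written:

* `Stmt_SimplePoint`, `Stmt_SepCoord`  (charts),
* `Stmt_WeilCoeff`                      (integrand of the abelian integrals),
* `Stmt_Key` (or `Stmt_AJ`)             (the Abel–Jacobi homomorphism),
* `Stmt_Transfer`                       (Lefschetz transfer).

Everything else (`Stmt_Ev`, `Stmt_Riemann`, `Stmt_LocalFibre`, `Stmt_ChartExists`,
`Stmt_Compact`, `Stmt_Connected`, `Stmt_IntChartExists`, `Stmt_LatticeCount`, `Stmt_Reduce`,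
`Stmt_Complex`) is discharged here from landed modules.
-/

set_option autoImplicit false

namespace Fermat.Agent.S27.helper8629

open Fermat.Agent.S27.helper6247

/-- Charts exist, from the two open chart nodes. -/
theorem chartExists_of_open (hSP : Stmt_SimplePoint.{0, 0}) (hSC : Stmt_SepCoord.{0, 0}) :
    Stmt_ChartExists :=
  Fermat.Agent.S27.helper3430.chartExists_of Fermat.Agent.S27.helper3645.ev_holds hSC hSP

/-- Compactness, from the two open chart nodes. -/
theorem compact_of_open (hSP : Stmt_SimplePoint.{0, 0}) (hSC : Stmt_SepCoord.{0, 0}) :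
    Stmt_Compact :=
  compact_of (chartExists_of_open hSP hSC)
    (Fermat.Agent.S27.helper5175.localFibre Fermat.Agent.S27.helper3645.ev_holds)

/-- Connectedness, from the two open chart nodes. -/
theorem connected_of_open (hSP : Stmt_SimplePoint.{0, 0}) (hSC : Stmt_SepCoord.{0, 0}) :
    Stmt_Connected :=
  Fermat.Agent.S27.helper7884.connected_of Fermat.Agent.S27.helper3645.ev_holds
    Fermat.Agent.S27.helper4996.stmt_Riemann (chartExists_of_open hSP hSC)
    (Fermat.Agent.S27.helper5175.localFibre Fermat.Agent.S27.helper3645.ev_holds)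

/-- The complex case from the core interface `Stmt_AJ` and the two open chart nodes. -/
theorem complex_of_open_aj (hSP : Stmt_SimplePoint.{0, 0}) (hSC : Stmt_SepCoord.{0, 0})
    (hAJ : Stmt_AJ) : Stmt_Complex :=
  Fermat.Agent.S27.helper4604.complex_of_aj Fermat.Agent.S27.helper4996.stmt_Riemann hAJ
    (compact_of_open hSP hSC) (connected_of_open hSP hSC)
    Fermat.Agent.S27.helper3807.stmt_LatticeCount

/-- The complex case from core A (`Stmt_Key` + `Stmt_WeilCoeff`) and the two open chart nodes. -/
theorem complex_of_open (hSP : Stmt_SimplePoint.{0, 0}) (hSC : Stmt_SepCoord.{0, 0})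
    (hW : Stmt_WeilCoeff.{0, 0}) (hKey : Stmt_Key) : Stmt_Complex :=
  complex_of_open_aj hSP hSC
    (aj_of_key Fermat.Agent.S27.helper4996.stmt_Riemann
      (Fermat.Agent.S27.helper3807.intChartExists_of_weilCoeff hW) hKey)

/-- **Integration checkpoint**: the frozen statement from the open nodes (core interface). -/
theorem s27_of_open_aj.{u, v} (hSP : Stmt_SimplePoint.{0, 0}) (hSC : Stmt_SepCoord.{0, 0})
    (hAJ : Stmt_AJ) (hT : Stmt_Transfer.{u, v}) : Stmt_S27.{u, v} :=
  s27_of Fermat.Agent.S27.helper3807.stmt_Reduce (complex_of_open_aj hSP hSC hAJ) hT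

/-- **Integration checkpoint**: the frozen statement from the open nodes (core A). -/
theorem s27_of_open.{u, v} (hSP : Stmt_SimplePoint.{0, 0}) (hSC : Stmt_SepCoord.{0, 0})
    (hW : Stmt_WeilCoeff.{0, 0}) (hKey : Stmt_Key) (hT : Stmt_Transfer.{u, v}) :
    Stmt_S27.{u, v} :=
  s27_of Fermat.Agent.S27.helper3807.stmt_Reduce (complex_of_open hSP hSC hW hKey) hT

end Fermat.Agent.S27.helper8629
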