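import Mathlib

/-!
# S27, CORE B, piece (LOG): the Koenigs logarithm of a local analytic commutative group chunk

Mathlib-only, statement-agnostic.  Nothing here mentions curves.
-/

namespace Fermat.Agent.S27.helper8746

open Metric Set Filter Topology

set_option linter.unusedSectionVars false

section Schwarz

variable {E F : Type*} [NormedAddCommGroup E] [NormedSpace ℂ E]
  [NormedAddCommGroup F] [NormedSpace ℂ F]

/-- A bounded holomorphic map on a ball is Lipschitz on the concentric ball of quarter radius,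
with constant `4 M / R` (Schwarz lemma). -/
theorem norm_sub_le_of_bounded_differentiableOn {G : E → F} {c : E} {R M : ℝ}
    (hG : DifferentiableOn ℂ G (ball c R)) (hM : ∀ x ∈ ball c R, ‖G x‖ ≤ M)
    {x y : E} (hx : x ∈ ball c (R / 4)) (hy : y ∈ ball c (R / 4)) :
    ‖G x - G y‖ ≤ 4 * M / R * ‖x - y‖ := by
  have hR : 0 < R := by
    have := nonempty_ball.mp ⟨x, hx⟩
    linarith
  have hsub : ball y (R / 2) ⊆ ball c R := by
    intro z hz
    rw [mem_ball] at hz hy ⊢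
    calc dist z c ≤ dist z y + dist y c := dist_triangle _ _ _
      _ < R / 2 + R / 4 := add_lt_add hz hy
      _ ≤ R := by linarith
  have hxy : x ∈ ball y (R / 2) := by
    rw [mem_ball] at hx hy ⊢
    calc dist x y ≤ dist x c + dist c y := dist_triangle _ _ _
      _ < R / 4 + R / 4 := add_lt_add hx (by rwa [dist_comm])
      _ = R / 2 := by ring
  have hmaps : MapsTo G (ball y (R / 2)) (closedBall (G y) (2 * M)) := by
    intro z hz
    rw [mem_closedBall, dist_eq_norm]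
    calc ‖G z - G y‖ ≤ ‖G z‖ + ‖G y‖ := norm_sub_le _ _
      _ ≤ M + M := add_le_add (hM z (hsub hz)) (hM y (hsub (mem_ball_self (by linarith))))
      _ = 2 * M := by ring
  have key := Complex.dist_le_div_mul_dist_of_mapsTo_ball (hG.mono hsub) hmaps hxy
  rw [dist_eq_norm, dist_eq_norm] at key
  calc ‖G x - G y‖ ≤ 2 * M / (R / 2) * ‖x - y‖ := key
    _ = 4 * M / R * ‖x - y‖ := by field_simp; ring

end Schwarz

section Bilinear

variable {E₁ E₂ F : Type*} [NormedAddCommGroup E₁] [NormedSpace ℂ E₁]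
  [NormedAddCommGroup E₂] [NormedSpace ℂ E₂] [NormedAddCommGroup F] [NormedSpace ℂ F]

/-- A separately holomorphic map on a bidisc, bounded by `1` and vanishing for `b = 0`,
is Lipschitz in `a` with constant `O(‖b‖)` on the bidisc of quarter radius. -/
theorem norm_sub_le_of_separately_differentiableOn {f : E₁ → E₂ → F} {s : ℝ}
    (h1 : ∀ a ∈ ball (0 : E₁) s, DifferentiableOn ℂ (fun b => f a b) (ball 0 s))
    (h2 : ∀ b ∈ ball (0 : E₂) s, DifferentiableOn ℂ (fun a => f a b) (ball 0 s))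
    (hbd : ∀ a ∈ ball (0 : E₁) s, ∀ b ∈ ball (0 : E₂) s, ‖f a b‖ ≤ 1)
    (h0 : ∀ a ∈ ball (0 : E₁) s, f a 0 = 0)
    {a a' : E₁} {b : E₂} (ha : a ∈ ball (0 : E₁) (s / 4)) (ha' : a' ∈ ball (0 : E₁) (s / 4))
    (hb : b ∈ ball (0 : E₂) (s / 4)) :
    ‖f a b - f a' b‖ ≤ 16 / s ^ 2 * ‖b‖ * ‖a - a'‖ := by
  have hs : 0 < s := by
    have := nonempty_ball.mp ⟨a, ha⟩
    linarith
  have step1 : ∀ x ∈ ball (0 : E₁) s, ‖f x b‖ ≤ 4 / s * ‖b‖ := by
    intro x hx
    have key := norm_sub_le_of_bounded_differentiableOn (h1 x hx) (fun y hy => hbd x hx y hy) hb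
      (mem_ball_self (by linarith) : (0 : E₂) ∈ ball 0 (s / 4))
    rw [h0 x hx, sub_zero, sub_zero] at key
    calc ‖f x b‖ ≤ 4 * 1 / s * ‖b‖ := key
      _ = 4 / s * ‖b‖ := by ring
  have key := norm_sub_le_of_bounded_differentiableOn
    (h2 b (ball_subset_ball (by linarith) hb)) step1 ha ha'
  calc ‖f a b - f a' b‖ ≤ 4 * (4 / s * ‖b‖) / s * ‖a - a'‖ := key
    _ = 16 / s ^ 2 * ‖b‖ * ‖a - a'‖ := by field_simp; ring

variable {V : Type*} [NormedAddCommGroup V] [NormedSpace ℂ V]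

/-- **Bilinear control of a holomorphic group chunk.** If `m` is holomorphic near `(0,0)` with
`m a 0 = a` and `m 0 b = b`, then `f a b = m a b - a - b` is Lipschitz in each variable with
constant proportional to the norm of the other one. -/
theorem exists_bilinear_bounds {m : V → V → V} {r1 : ℝ} (hr1 : 0 < r1)
    (hm : DifferentiableOn ℂ (fun p : V × V => m p.1 p.2) (ball 0 r1 ×ˢ ball 0 r1))
    (hm0r : ∀ a ∈ ball (0 : V) r1, m a 0 = a) (hm0l : ∀ b ∈ ball (0 : V) r1, m 0 b = b) :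
    ∃ r C : ℝ, 0 < r ∧ r ≤ r1 ∧ 0 ≤ C ∧
      (∀ a ∈ ball (0 : V) r, ∀ a' ∈ ball (0 : V) r, ∀ b ∈ ball (0 : V) r,
        ‖(m a b - a - b) - (m a' b - a' - b)‖ ≤ C * ‖b‖ * ‖a - a'‖) ∧
      (∀ a ∈ ball (0 : V) r, ∀ b ∈ ball (0 : V) r, ∀ b' ∈ ball (0 : V) r,
        ‖(m a b - a - b) - (m a b' - a - b')‖ ≤ C * ‖a‖ * ‖b - b'‖) := by
  set f : V → V → V := fun a b => m a b - a - b with hf
  have hfd : DifferentiableOn ℂ (fun p : V × V => f p.1 p.2) (ball 0 r1 ×ˢ ball 0 r1) :=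
    (hm.sub differentiableOn_fst).sub differentiableOn_snd
  have hopen : IsOpen (ball (0 : V) r1 ×ˢ ball (0 : V) r1) := isOpen_ball.prod isOpen_ball
  have h00 : ((0 : V), (0 : V)) ∈ ball (0 : V) r1 ×ˢ ball (0 : V) r1 :=
    ⟨mem_ball_self hr1, mem_ball_self hr1⟩
  have hcont : ContinuousAt (fun p : V × V => f p.1 p.2) (0, 0) :=
    hfd.continuousOn.continuousAt (hopen.mem_nhds h00)
  have hf00 : f 0 0 = 0 := by simp [hf, hm0r 0 (mem_ball_self hr1)]
  obtain ⟨s', hs', hs'b⟩ := Metric.continuousAt_iff.mp hcont 1 one_pos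
  set s : ℝ := min s' r1 with hs
  have hs_pos : 0 < s := lt_min hs' hr1
  have hs_r1 : s ≤ r1 := min_le_right _ _
  have hs_s' : s ≤ s' := min_le_left _ _
  have hbd : ∀ a ∈ ball (0 : V) s, ∀ b ∈ ball (0 : V) s, ‖f a b‖ ≤ 1 := by
    intro a ha b hb
    have hd : dist (a, b) ((0 : V), (0 : V)) < s' := by
      rw [Prod.dist_eq]
      exact max_lt (lt_of_lt_of_le (mem_ball.mp ha) hs_s') (lt_of_lt_of_le (mem_ball.mp hb) hs_s')
    have := hs'b hd
    simp only [hf00, dist_zero_right] at this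
    exact this.le
  have hsub : ball (0 : V) s ⊆ ball (0 : V) r1 := ball_subset_ball hs_r1
  have h1 : ∀ a ∈ ball (0 : V) s, DifferentiableOn ℂ (fun b => f a b) (ball 0 s) := by
    intro a ha
    have hmaps : MapsTo (fun b : V => (a, b)) (ball 0 s) (ball 0 r1 ×ˢ ball 0 r1) :=
      fun b hb => ⟨hsub ha, hsub hb⟩
    exact hfd.comp ((differentiableOn_const a).prodMk differentiableOn_id) hmaps
  have h2 : ∀ b ∈ ball (0 : V) s, DifferentiableOn ℂ (fun a => f a b) (ball 0 s) := by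
    intro b hb
    have hmaps : MapsTo (fun a : V => (a, b)) (ball 0 s) (ball 0 r1 ×ˢ ball 0 r1) :=
      fun a ha => ⟨hsub ha, hsub hb⟩
    exact hfd.comp (differentiableOn_id.prodMk (differentiableOn_const b)) hmaps
  have hfa0 : ∀ a ∈ ball (0 : V) s, f a 0 = 0 := by
    intro a ha
    simp [hf, hm0r a (hsub ha)]
  have hf0b : ∀ b ∈ ball (0 : V) s, f 0 b = 0 := by
    intro b hb
    simp [hf, hm0l b (hsub hb)]
  refine ⟨s / 4, 16 / s ^ 2, by positivity, by linarith, by positivity, ?_, ?_⟩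
  · intro a ha a' ha' b hb
    exact norm_sub_le_of_separately_differentiableOn h1 h2 hbd hfa0 ha ha' hb
  · intro a ha b hb b' hb'
    exact norm_sub_le_of_separately_differentiableOn (f := fun b a => f a b) h2 h1
      (fun b hb a ha => hbd a ha b hb) hf0b hb hb' ha

end Bilinear

section Real

variable {V : Type*} [NormedAddCommGroup V] [NormedSpace ℝ V]

/-- A local commutative group chunk `m` on the ball of radius `r` in a real normed space, with the
bilinear control `m a b = a + b + O(‖a‖ ‖b‖)` (in Lipschitz form) and the doubling identity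
`2 (u + w) = 2 u + 2 w`. -/
structure IsChunk (m : V → V → V) (r C : ℝ) : Prop where
  r_pos : 0 < r
  C_nonneg : 0 ≤ C
  zero_right : ∀ a ∈ ball (0 : V) r, m a 0 = a
  zero_left : ∀ b ∈ ball (0 : V) r, m 0 b = b
  dbl : ∀ u ∈ ball (0 : V) r, ∀ w ∈ ball (0 : V) r, m u w ∈ ball (0 : V) r →
    m u u ∈ ball (0 : V) r → m w w ∈ ball (0 : V) r → m (m u w) (m u w) = m (m u u) (m w w)
  lip1 : ∀ a ∈ ball (0 : V) r, ∀ a' ∈ ball (0 : V) r, ∀ b ∈ ball (0 : V) r,
    ‖(m a b - a - b) - (m a' b - a' - b)‖ ≤ C * ‖b‖ * ‖a - a'‖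
  lip2 : ∀ a ∈ ball (0 : V) r, ∀ b ∈ ball (0 : V) r, ∀ b' ∈ ball (0 : V) r,
    ‖(m a b - a - b) - (m a b' - a - b')‖ ≤ C * ‖a‖ * ‖b - b'‖

namespace IsChunk

variable {m : V → V → V} {r C : ℝ}

theorem zero_zero (h : IsChunk m r C) : m 0 0 = 0 := h.zero_right 0 (mem_ball_self h.r_pos)

theorem norm_f_le (h : IsChunk m r C) {a b : V} (ha : a ∈ ball (0 : V) r)
    (hb : b ∈ ball (0 : V) r) : ‖m a b - a - b‖ ≤ C * ‖a‖ * ‖b‖ := by
  have key := h.lip1 a ha 0 (mem_ball_self h.r_pos) b hb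
  rw [h.zero_left b hb] at key
  simp only [sub_zero, sub_self] at key
  calc ‖m a b - a - b‖ ≤ C * ‖b‖ * ‖a‖ := key
    _ = C * ‖a‖ * ‖b‖ := by ring

theorem norm_m_le (h : IsChunk m r C) {a b : V} (ha : a ∈ ball (0 : V) r)
    (hb : b ∈ ball (0 : V) r) : ‖m a b‖ ≤ ‖a‖ + ‖b‖ + C * ‖a‖ * ‖b‖ := by
  have key := h.norm_f_le ha hb
  have e : m a b = (m a b - a - b) + (a + b) := by abel
  calc ‖m a b‖ = ‖(m a b - a - b) + (a + b)‖ := by rw [← e]
    _ ≤ ‖m a b - a - b‖ + ‖a + b‖ := norm_add_le _ _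
    _ ≤ C * ‖a‖ * ‖b‖ + (‖a‖ + ‖b‖) := add_le_add key (norm_add_le _ _)
    _ = ‖a‖ + ‖b‖ + C * ‖a‖ * ‖b‖ := by ring

theorem norm_q_sub_le (h : IsChunk m r C) {x y : V} (hx : x ∈ ball (0 : V) r)
    (hy : y ∈ ball (0 : V) r) :
    ‖(m x x - x - x) - (m y y - y - y)‖ ≤ C * (‖x‖ + ‖y‖) * ‖x - y‖ := by
  have k1 := h.lip1 x hx y hy x hx
  have k2 := h.lip2 y hy x hx y hy
  have e : (m x x - x - x) - (m y y - y - y)
      = ((m x x - x - x) - (m y x - y - x)) + ((m y x - y - x) - (m y y - y - y)) := by abel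
  calc ‖(m x x - x - x) - (m y y - y - y)‖
      = ‖((m x x - x - x) - (m y x - y - x)) + ((m y x - y - x) - (m y y - y - y))‖ := by rw [← e]
    _ ≤ ‖(m x x - x - x) - (m y x - y - x)‖ + ‖(m y x - y - x) - (m y y - y - y)‖ :=
        norm_add_le _ _
    _ ≤ C * ‖x‖ * ‖x - y‖ + C * ‖y‖ * ‖x - y‖ := add_le_add k1 k2
    _ = C * (‖x‖ + ‖y‖) * ‖x - y‖ := by ring

/-- **Halving.** Near `0` the doubling map `x ↦ m x x` has an inverse `η`, which contracts with
ratio `2/3`. -/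
theorem exists_halving [CompleteSpace V] (h : IsChunk m r C) :
    ∃ (ρ : ℝ) (η : V → V), 0 < ρ ∧ ρ ≤ r ∧ 32 * C * ρ ≤ 1 ∧
      (∀ a ∈ ball (0 : V) ρ, m (η a) (η a) = a ∧ ‖η a‖ ≤ 2 / 3 * ‖a‖) ∧
      (∀ a ∈ ball (0 : V) ρ, ∀ a' ∈ ball (0 : V) ρ, ‖η a - η a'‖ ≤ 2 / 3 * ‖a - a'‖) ∧
      (∀ x ∈ ball (0 : V) ρ, η (m x x) = x) := by
  have hr := h.r_pos
  have hC := h.C_nonneg
  set s0 : ℝ := min r (1 / (32 * (C + 1))) with hs0
  have hs0_pos : 0 < s0 := lt_min hr (by positivity)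
  have hs0_r : s0 ≤ r := min_le_left _ _
  have hCs0 : 32 * C * s0 ≤ 1 := by
    have h1 : s0 ≤ 1 / (32 * (C + 1)) := min_le_right _ _
    have h2 : 32 * C * s0 ≤ 32 * C * (1 / (32 * (C + 1))) := by gcongr
    have h3 : 32 * C * (1 / (32 * (C + 1))) = C / (C + 1) := by field_simp
    have h4 : C / (C + 1) ≤ 1 := by rw [div_le_one (by positivity)]; linarith
    linarith
  set q : V → V := fun x => m x x - x - x with hq
  have hq0 : q 0 = 0 := by simp [hq, h.zero_zero]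
  have hqlip : ∀ x ∈ ball (0 : V) s0, ∀ y ∈ ball (0 : V) s0, ‖q x - q y‖ ≤ 1 / 2 * ‖x - y‖ := by
    intro x hx y hy
    have key := h.norm_q_sub_le (ball_subset_ball hs0_r hx) (ball_subset_ball hs0_r hy)
    have hxn : ‖x‖ < s0 := mem_ball_zero_iff.mp hx
    have hyn : ‖y‖ < s0 := mem_ball_zero_iff.mp hy
    have hc : C * (‖x‖ + ‖y‖) ≤ 1 / 2 := by nlinarith
    calc ‖q x - q y‖ ≤ C * (‖x‖ + ‖y‖) * ‖x - y‖ := key
      _ ≤ 1 / 2 * ‖x - y‖ := by gcongr
  set g : V → V := fun x => (1 / 2 : ℝ) • m x x with hg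
  have happ : ApproximatesLinearOn g ((ContinuousLinearEquiv.refl ℝ V : V ≃L[ℝ] V) : V →L[ℝ] V)
      (ball 0 s0) (1 / 4 : NNReal) := by
    intro x hx y hy
    have e1 : g x - g y - ((ContinuousLinearEquiv.refl ℝ V : V ≃L[ℝ] V) : V →L[ℝ] V) (x - y)
        = (1 / 2 : ℝ) • (q x - q y) := by
      show (1 / 2 : ℝ) • m x x - (1 / 2 : ℝ) • m y y - (x - y)
        = (1 / 2 : ℝ) • ((m x x - x - x) - (m y y - y - y))
      module
    rw [e1, norm_smul]
    have key := hqlip x hx y hy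
    have hn : ‖(1 / 2 : ℝ)‖ = 1 / 2 := by norm_num
    rw [hn]
    have hc : ((1 / 4 : NNReal) : ℝ) = 1 / 4 := by norm_num
    rw [hc]
    nlinarith [norm_nonneg (x - y)]
  have hc : Subsingleton V ∨ (1 / 4 : NNReal)
      < ‖((ContinuousLinearEquiv.refl ℝ V : V ≃L[ℝ] V).symm : V →L[ℝ] V)‖₊⁻¹ := by
    rcases subsingleton_or_nontrivial V with hV | hV
    · exact Or.inl hV
    · right
      have hnn : ‖((ContinuousLinearEquiv.refl ℝ V : V ≃L[ℝ] V).symm : V →L[ℝ] V)‖₊ = 1 := by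
        rw [ContinuousLinearEquiv.refl_symm, ContinuousLinearEquiv.coe_refl]
        exact ContinuousLinearMap.nnnorm_id
      rw [hnn, inv_one]
      norm_num
  set e := happ.toOpenPartialHomeomorph g (ball 0 s0) hc isOpen_ball with he
  have he_coe : ∀ x, e x = g x := fun x => rfl
  have hg0 : g 0 = 0 := by simp [hg, h.zero_zero]
  have h0src : (0 : V) ∈ e.source := mem_ball_self hs0_pos
  have h0tgt : (0 : V) ∈ e.target := by
    have key := e.map_source h0src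
    rwa [he_coe, hg0] at key
  obtain ⟨t, ht, htsub⟩ := Metric.isOpen_iff.mp e.open_target 0 h0tgt
  set η : V → V := fun a => e.symm ((1 / 2 : ℝ) • a) with hη
  set ρ : ℝ := min (2 * t) s0 with hρ
  have hρ_pos : 0 < ρ := lt_min (by linarith) hs0_pos
  have hρ_s0 : ρ ≤ s0 := min_le_right _ _
  have hρ_t : ρ ≤ 2 * t := min_le_left _ _
  have hhalf : ∀ a ∈ ball (0 : V) ρ, (1 / 2 : ℝ) • a ∈ e.target := by
    intro a ha
    apply htsub
    rw [mem_ball_zero_iff] at ha ⊢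
    rw [norm_smul]
    have hn : ‖(1 / 2 : ℝ)‖ = 1 / 2 := by norm_num
    rw [hn]
    linarith
  have hηsrc : ∀ a ∈ ball (0 : V) ρ, η a ∈ ball (0 : V) s0 := fun a ha =>
    e.map_target (hhalf a ha)
  have hηm : ∀ a ∈ ball (0 : V) ρ, m (η a) (η a) = a := by
    intro a ha
    have h1 : e (η a) = (1 / 2 : ℝ) • a := e.right_inv (hhalf a ha)
    rw [he_coe] at h1
    exact smul_right_injective V (show (1 / 2 : ℝ) ≠ 0 by norm_num) h1
  have hrel : ∀ a ∈ ball (0 : V) ρ, η a + η a + q (η a) = a := by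
    intro a ha
    simp only [hq]
    rw [hηm a ha]
    abel
  have hηnorm : ∀ a ∈ ball (0 : V) ρ, ‖η a‖ ≤ 2 / 3 * ‖a‖ := by
    intro a ha
    have h1 := hqlip (η a) (hηsrc a ha) 0 (mem_ball_self hs0_pos)
    rw [hq0, sub_zero, sub_zero] at h1
    have h2 : ‖η a + η a‖ ≤ ‖a‖ + ‖q (η a)‖ := by
      have e2 : η a + η a = a - q (η a) := by
        rw [eq_sub_iff_add_eq]
        exact hrel a ha
      rw [e2]
      exact norm_sub_le _ _
    have h3 : ‖η a + η a‖ = 2 * ‖η a‖ := by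
      rw [← two_smul ℝ (η a), norm_smul]
      norm_num
    linarith
  have hηlip : ∀ a ∈ ball (0 : V) ρ, ∀ a' ∈ ball (0 : V) ρ,
      ‖η a - η a'‖ ≤ 2 / 3 * ‖a - a'‖ := by
    intro a ha a' ha'
    have h1 := hqlip (η a) (hηsrc a ha) (η a') (hηsrc a' ha')
    have e2 : (2 : ℝ) • (η a - η a') = (a - a') - (q (η a) - q (η a')) := by
      have k1 := hrel a ha
      have k2 := hrel a' ha'
      calc (2 : ℝ) • (η a - η a')
          = (η a + η a + q (η a)) - (η a' + η a' + q (η a')) - (q (η a) - q (η a')) := by module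
        _ = (a - a') - (q (η a) - q (η a')) := by rw [k1, k2]
    have h2 : ‖(2 : ℝ) • (η a - η a')‖ ≤ ‖a - a'‖ + ‖q (η a) - q (η a')‖ := by
      rw [e2]
      exact norm_sub_le _ _
    have h3 : ‖(2 : ℝ) • (η a - η a')‖ = 2 * ‖η a - η a'‖ := by
      rw [norm_smul]
      norm_num
    linarith
  have hηleft : ∀ x ∈ ball (0 : V) ρ, η (m x x) = x := by
    intro x hx
    have hxs : x ∈ e.source := ball_subset_ball hρ_s0 hx
    have key := e.left_inv hxs
    rw [he_coe] at key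
    exact key
  refine ⟨ρ, η, hρ_pos, hρ_s0.trans hs0_r, ?_, fun a ha => ⟨hηm a ha, hηnorm a ha⟩, hηlip,
    hηleft⟩
  calc 32 * C * ρ ≤ 32 * C * s0 := by gcongr
    _ ≤ 1 := hCs0

/-- **The Koenigs logarithm** of a group chunk: `L = lim 2^k η^k`, a Lipschitz-small perturbation
of the identity near `0` which turns `m` into addition. -/
theorem exists_log [CompleteSpace V] (h : IsChunk m r C) :
    ∃ (ρ : ℝ) (L : V → V), 0 < ρ ∧ ρ ≤ r ∧ L 0 = 0 ∧
      (∀ x ∈ ball (0 : V) ρ, ∀ y ∈ ball (0 : V) ρ, ‖L x - L y - (x - y)‖ ≤ 1 / 4 * ‖x - y‖) ∧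
      (∀ a ∈ ball (0 : V) (ρ / 3), ∀ b ∈ ball (0 : V) (ρ / 3),
        m a b ∈ ball (0 : V) ρ ∧ L (m a b) = L a + L b) := by
  obtain ⟨ρ, η, hρ, hρr, hCρ, hη, hηlip, hηleft⟩ := h.exists_halving
  have hC := h.C_nonneg
  have hsub : ball (0 : V) ρ ⊆ ball (0 : V) r := ball_subset_ball hρr
  have hη0 : η 0 = 0 := by
    have key := hηleft 0 (mem_ball_self hρ)
    rwa [h.zero_zero] at key
  have hit : ∀ k : ℕ, ∀ a ∈ ball (0 : V) ρ,
      η^[k] a ∈ ball (0 : V) ρ ∧ ‖η^[k] a‖ ≤ (2 / 3) ^ k * ‖a‖ := by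
    intro k
    induction k with
    | zero => intro a ha; simpa using ha
    | succ k ih =>
      intro a ha
      obtain ⟨h1, h2⟩ := ih a ha
      rw [Function.iterate_succ_apply']
      have h3 := (hη _ h1).2
      have h4 : ‖η (η^[k] a)‖ ≤ (2 / 3) ^ (k + 1) * ‖a‖ := by
        calc ‖η (η^[k] a)‖ ≤ 2 / 3 * ‖η^[k] a‖ := h3
          _ ≤ 2 / 3 * ((2 / 3) ^ k * ‖a‖) := by gcongr
          _ = (2 / 3) ^ (k + 1) * ‖a‖ := by ring
      refine ⟨?_, h4⟩
      rw [mem_ball_zero_iff] at h1 ⊢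
      calc ‖η (η^[k] a)‖ ≤ 2 / 3 * ‖η^[k] a‖ := h3
        _ ≤ ‖η^[k] a‖ := by nlinarith [norm_nonneg (η^[k] a)]
        _ < ρ := h1
  have hitlip : ∀ k : ℕ, ∀ a ∈ ball (0 : V) ρ, ∀ a' ∈ ball (0 : V) ρ,
      ‖η^[k] a - η^[k] a'‖ ≤ (2 / 3) ^ k * ‖a - a'‖ := by
    intro k
    induction k with
    | zero => intro a _ a' _; simp
    | succ k ih =>
      intro a ha a' ha'
      rw [Function.iterate_succ_apply', Function.iterate_succ_apply']
      calc ‖η (η^[k] a) - η (η^[k] a')‖ ≤ 2 / 3 * ‖η^[k] a - η^[k] a'‖ :=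
            hηlip _ (hit k a ha).1 _ (hit k a' ha').1
        _ ≤ 2 / 3 * ((2 / 3) ^ k * ‖a - a'‖) := by gcongr; exact ih a ha a' ha'
        _ = (2 / 3) ^ (k + 1) * ‖a - a'‖ := by ring
  set Lk : ℕ → V → V := fun k a => (2 : ℝ) ^ k • η^[k] a with hLk
  have hLk0 : ∀ k, Lk k 0 = 0 := by
    intro k
    have e0 : η^[k] 0 = 0 := Function.iterate_fixed hη0 k
    simp [hLk, e0]
  have hstep : ∀ k : ℕ, ∀ a ∈ ball (0 : V) ρ, Lk (k + 1) a - Lk k a
      = -((2 : ℝ) ^ k • (m (η^[k + 1] a) (η^[k + 1] a) - η^[k + 1] a - η^[k + 1] a)) := by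
    intro k a ha
    have h1 := (hη _ (hit k a ha).1).1
    simp only [hLk]
    rw [Function.iterate_succ_apply', h1, pow_succ]
    module
  have h89 : ∀ k : ℕ, (8 / 9 : ℝ) ^ k = 2 ^ k * ((2 / 3) ^ k * (2 / 3) ^ k) := by
    intro k
    rw [← mul_pow, ← mul_pow]
    norm_num
  have hdiff : ∀ a ∈ ball (0 : V) ρ, ∀ a' ∈ ball (0 : V) ρ, ∀ k : ℕ,
      dist (Lk k a - Lk k a') (Lk (k + 1) a - Lk (k + 1) a')
        ≤ (8 * C * ρ * ‖a - a'‖ / 9) * (8 / 9) ^ k := by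
    intro a ha a' ha' k
    obtain ⟨hx, hxn⟩ := hit (k + 1) a ha
    obtain ⟨hy, hyn⟩ := hit (k + 1) a' ha'
    have hxy := hitlip (k + 1) a ha a' ha'
    have hq := h.norm_q_sub_le (hsub hx) (hsub hy)
    have e1 : (Lk k a - Lk k a') - (Lk (k + 1) a - Lk (k + 1) a')
        = (2 : ℝ) ^ k • ((m (η^[k + 1] a) (η^[k + 1] a) - η^[k + 1] a - η^[k + 1] a)
          - (m (η^[k + 1] a') (η^[k + 1] a') - η^[k + 1] a' - η^[k + 1] a')) := by
      have s1 := hstep k a ha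
      have s2 := hstep k a' ha'
      calc (Lk k a - Lk k a') - (Lk (k + 1) a - Lk (k + 1) a')
          = -(Lk (k + 1) a - Lk k a) + (Lk (k + 1) a' - Lk k a') := by abel
        _ = _ := by rw [s1, s2]; module
    rw [dist_eq_norm, e1, norm_smul, norm_pow, Real.norm_ofNat]
    have han : ‖a‖ ≤ ρ := (mem_ball_zero_iff.mp ha).le
    have han' : ‖a'‖ ≤ ρ := (mem_ball_zero_iff.mp ha').le
    have hxρ : ‖η^[k + 1] a‖ ≤ (2 / 3) ^ (k + 1) * ρ := hxn.trans (by gcongr)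
    have hyρ : ‖η^[k + 1] a'‖ ≤ (2 / 3) ^ (k + 1) * ρ := hyn.trans (by gcongr)
    calc 2 ^ k * ‖(m (η^[k + 1] a) (η^[k + 1] a) - η^[k + 1] a - η^[k + 1] a)
          - (m (η^[k + 1] a') (η^[k + 1] a') - η^[k + 1] a' - η^[k + 1] a')‖
        ≤ 2 ^ k * (C * (‖η^[k + 1] a‖ + ‖η^[k + 1] a'‖) * ‖η^[k + 1] a - η^[k + 1] a'‖) := by
          gcongr
      _ ≤ 2 ^ k * (C * ((2 / 3) ^ (k + 1) * ρ + (2 / 3) ^ (k + 1) * ρ)
            * ((2 / 3) ^ (k + 1) * ‖a - a'‖)) := by gcongr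
      _ = (8 * C * ρ * ‖a - a'‖ / 9) * (8 / 9) ^ k := by
          rw [h89 k, pow_succ]
          ring
  have hcauchy : ∀ a ∈ ball (0 : V) ρ, CauchySeq (fun k => Lk k a) := by
    intro a ha
    have key := cauchySeq_of_le_geometric (8 / 9) (8 * C * ρ * ‖a - 0‖ / 9) (by norm_num)
      (hdiff a ha 0 (mem_ball_self hρ))
    simpa [hLk0] using key
  set L : V → V := fun a => limUnder atTop (fun k => Lk k a) with hL
  have hlim : ∀ a ∈ ball (0 : V) ρ, Tendsto (fun k => Lk k a) atTop (𝓝 (L a)) :=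
    fun a ha => (hcauchy a ha).tendsto_limUnder
  have hL0 : L 0 = 0 := by
    have h1 := hlim 0 (mem_ball_self hρ)
    have h2 : Tendsto (fun k => Lk k (0 : V)) atTop (𝓝 0) := by
      simp only [hLk0]
      exact tendsto_const_nhds
    exact tendsto_nhds_unique h1 h2
  have happrox : ∀ x ∈ ball (0 : V) ρ, ∀ y ∈ ball (0 : V) ρ,
      ‖L x - L y - (x - y)‖ ≤ 1 / 4 * ‖x - y‖ := by
    intro x hx y hy
    have ht : Tendsto (fun k => Lk k x - Lk k y) atTop (𝓝 (L x - L y)) :=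
      (hlim x hx).sub (hlim y hy)
    have key := dist_le_of_le_geometric_of_tendsto₀ (8 / 9) (8 * C * ρ * ‖x - y‖ / 9)
      (by norm_num) (hdiff x hx y hy) ht
    have e0 : Lk 0 x - Lk 0 y = x - y := by simp [hLk]
    rw [e0, dist_eq_norm] at key
    have e1 : L x - L y - (x - y) = -(x - y - (L x - L y)) := by abel
    rw [e1, norm_neg]
    calc ‖x - y - (L x - L y)‖ ≤ 8 * C * ρ * ‖x - y‖ / 9 / (1 - 8 / 9) := key
      _ = (8 * C * ρ) * ‖x - y‖ := by ring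
      _ ≤ 1 / 4 * ‖x - y‖ := by gcongr; linarith
  have hρ3 : ball (0 : V) (ρ / 3) ⊆ ball (0 : V) ρ := ball_subset_ball (by linarith)
  have hmball : ∀ a ∈ ball (0 : V) (ρ / 3), ∀ b ∈ ball (0 : V) (ρ / 3),
      m a b ∈ ball (0 : V) ρ := by
    intro a ha b hb
    have key := h.norm_m_le (hsub (hρ3 ha)) (hsub (hρ3 hb))
    rw [mem_ball_zero_iff] at ha hb ⊢
    have h1 : C * ‖a‖ * ‖b‖ ≤ C * (ρ / 3) * (ρ / 3) := by gcongr
    have h2 : C * (ρ / 3) * (ρ / 3) ≤ ρ / 3 := by nlinarith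
    linarith
  have hηsmall : ∀ a ∈ ball (0 : V) (ρ / 3), η a ∈ ball (0 : V) (ρ / 3) := by
    intro a ha
    have key := (hη a (hρ3 ha)).2
    rw [mem_ball_zero_iff] at ha ⊢
    nlinarith [norm_nonneg a]
  have hηhom : ∀ a ∈ ball (0 : V) (ρ / 3), ∀ b ∈ ball (0 : V) (ρ / 3),
      η (m a b) = m (η a) (η b) := by
    intro a ha b hb
    have hua := hηsmall a ha
    have hwb := hηsmall b hb
    have hmu := (hη a (hρ3 ha)).1
    have hmw := (hη b (hρ3 hb)).1
    have huw := hmball _ hua _ hwb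
    have hd := h.dbl (η a) (hsub (hρ3 hua)) (η b) (hsub (hρ3 hwb)) (hsub huw)
      (by rw [hmu]; exact hsub (hρ3 ha)) (by rw [hmw]; exact hsub (hρ3 hb))
    rw [hmu, hmw] at hd
    have key := hηleft _ huw
    rw [hd] at key
    exact key
  have hithom : ∀ k : ℕ, ∀ a ∈ ball (0 : V) (ρ / 3), ∀ b ∈ ball (0 : V) (ρ / 3),
      η^[k] (m a b) = m (η^[k] a) (η^[k] b) := by
    intro k
    induction k with
    | zero => intro a _ b _; rfl
    | succ k ih =>
      intro a ha b hb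
      rw [Function.iterate_succ_apply, Function.iterate_succ_apply, Function.iterate_succ_apply,
        hηhom a ha b hb]
      exact ih _ (hηsmall a ha) _ (hηsmall b hb)
  refine ⟨ρ, L, hρ, hρr, hL0, happrox, fun a ha b hb => ⟨hmball a ha b hb, ?_⟩⟩
  have hab := hmball a ha b hb
  have t1 := hlim _ hab
  have t2 := (hlim a (hρ3 ha)).add (hlim b (hρ3 hb))
  have t3 : Tendsto (fun k => Lk k (m a b) - (Lk k a + Lk k b)) atTop (𝓝 0) := by
    apply squeeze_zero_norm (a := fun k => C * ‖a‖ * ‖b‖ * (8 / 9) ^ k)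
    · intro k
      obtain ⟨hx, hxn⟩ := hit k a (hρ3 ha)
      obtain ⟨hy, hyn⟩ := hit k b (hρ3 hb)
      have e1 : Lk k (m a b) - (Lk k a + Lk k b)
          = (2 : ℝ) ^ k • (m (η^[k] a) (η^[k] b) - η^[k] a - η^[k] b) := by
        simp only [hLk]
        rw [hithom k a ha b hb]
        module
      rw [e1, norm_smul, norm_pow, Real.norm_ofNat]
      have key := h.norm_f_le (hsub hx) (hsub hy)
      calc 2 ^ k * ‖m (η^[k] a) (η^[k] b) - η^[k] a - η^[k] b‖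
          ≤ 2 ^ k * (C * ‖η^[k] a‖ * ‖η^[k] b‖) := by gcongr
        _ ≤ 2 ^ k * (C * ((2 / 3) ^ k * ‖a‖) * ((2 / 3) ^ k * ‖b‖)) := by gcongr
        _ = C * ‖a‖ * ‖b‖ * (8 / 9) ^ k := by
            rw [h89 k]
            ring
    · have key := tendsto_pow_atTop_nhds_zero_of_lt_one (r := (8 / 9 : ℝ)) (by norm_num)
        (by norm_num)
      simpa using key.const_mul (C * ‖a‖ * ‖b‖)
  have t4 : Tendsto (fun k => Lk k (m a b) - (Lk k a + Lk k b)) atTop
      (𝓝 (L (m a b) - (L a + L b))) := t1.sub t2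
  exact sub_eq_zero.mp (tendsto_nhds_unique t4 t3)

end IsChunk

end Real

section Main

variable {V : Type*} [NormedAddCommGroup V] [NormedSpace ℂ V]
  {J : Type*} [AddCommGroup J]

/-- A holomorphic map `m` near `(0,0)` which is turned into addition by a map `ψ` into an abstract
commutative group, injective near `0`, is a group chunk in the sense of `IsChunk`: the unit laws,
the doubling identity and the bilinear control are all consequences. -/
theorem isChunk_of_injOn {ψ : V → J} {m : V → V → V} {r0 r1 : ℝ} (hr1 : 0 < r1) (hr10 : r1 ≤ r0)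
    (hψ0 : ψ 0 = 0) (hinj : InjOn ψ (ball (0 : V) r0))
    (hm : DifferentiableOn ℂ (fun p : V × V => m p.1 p.2) (ball 0 r1 ×ˢ ball 0 r1))
    (hmaps : ∀ a ∈ ball (0 : V) r1, ∀ b ∈ ball (0 : V) r1, m a b ∈ ball (0 : V) r0)
    (hadd : ∀ a ∈ ball (0 : V) r1, ∀ b ∈ ball (0 : V) r1, ψ (m a b) = ψ a + ψ b) :
    ∃ r C : ℝ, r ≤ r1 ∧ IsChunk m r C := by
  have h0 : (0 : V) ∈ ball (0 : V) r1 := mem_ball_self hr1
  have hsub : ball (0 : V) r1 ⊆ ball (0 : V) r0 := ball_subset_ball hr10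
  have hm0r : ∀ a ∈ ball (0 : V) r1, m a 0 = a := by
    intro a ha
    apply hinj (hmaps a ha 0 h0) (hsub ha)
    rw [hadd a ha 0 h0, hψ0, add_zero]
  have hm0l : ∀ b ∈ ball (0 : V) r1, m 0 b = b := by
    intro b hb
    apply hinj (hmaps 0 h0 b hb) (hsub hb)
    rw [hadd 0 h0 b hb, hψ0, zero_add]
  obtain ⟨r, C, hr, hrr1, hC, hl1, hl2⟩ := exists_bilinear_bounds hr1 hm hm0r hm0l
  have hsub' : ball (0 : V) r ⊆ ball (0 : V) r1 := ball_subset_ball hrr1
  refine ⟨r, C, hrr1, ⟨hr, hC, fun a ha => hm0r a (hsub' ha), fun b hb => hm0l b (hsub' hb), ?_,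
    hl1, hl2⟩⟩
  intro u hu w hw huw huu hww
  apply hinj (hmaps _ (hsub' huw) _ (hsub' huw)) (hmaps _ (hsub' huu) _ (hsub' hww))
  rw [hadd _ (hsub' huw) _ (hsub' huw), hadd _ (hsub' huu) _ (hsub' hww),
    hadd u (hsub' hu) w (hsub' hw), hadd u (hsub' hu) u (hsub' hu),
    hadd w (hsub' hw) w (hsub' hw)]
  abel

variable [CompleteSpace V]

/-- **(LOG), local form: additive coordinates for a local analytic group chunk.**

Let `ψ : V → J` be a map from a complex Banach space to an abstract commutative group, injective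
on `ball 0 r0` with `ψ 0 = 0`, and let `m` be holomorphic on `ball 0 r1 ×ˢ ball 0 r1` with values
in `ball 0 r0` and `ψ (m a b) = ψ a + ψ b`.  Then there are an open neighbourhood `U` of `0`
inside `ball 0 r1`, a radius `ρ > 0` and mutually inverse continuous maps `L : U → ball 0 ρ`,
`Linv : ball 0 ρ → U` with `L 0 = 0` such that `ψ ∘ Linv` is additive on `ball 0 ρ`
(and injective there). -/
theorem exists_local_additive {ψ : V → J} {m : V → V → V} {r0 r1 : ℝ} (hr1 : 0 < r1)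
    (hr10 : r1 ≤ r0) (hψ0 : ψ 0 = 0) (hinj : InjOn ψ (ball (0 : V) r0))
    (hm : DifferentiableOn ℂ (fun p : V × V => m p.1 p.2) (ball 0 r1 ×ˢ ball 0 r1))
    (hmaps : ∀ a ∈ ball (0 : V) r1, ∀ b ∈ ball (0 : V) r1, m a b ∈ ball (0 : V) r0)
    (hadd : ∀ a ∈ ball (0 : V) r1, ∀ b ∈ ball (0 : V) r1, ψ (m a b) = ψ a + ψ b) :
    ∃ (ρ : ℝ) (U : Set V) (L Linv : V → V), 0 < ρ ∧ IsOpen U ∧ (0 : V) ∈ U ∧
      U ⊆ ball (0 : V) r1 ∧ L 0 = 0 ∧ Linv 0 = 0 ∧
      ContinuousOn L U ∧ ContinuousOn Linv (ball (0 : V) ρ) ∧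
      MapsTo L U (ball (0 : V) ρ) ∧ MapsTo Linv (ball (0 : V) ρ) U ∧
      (∀ a ∈ U, Linv (L a) = a) ∧ (∀ v ∈ ball (0 : V) ρ, L (Linv v) = v) ∧
      (∀ v ∈ ball (0 : V) ρ, ∀ w ∈ ball (0 : V) ρ,
        ψ (Linv (v + w)) = ψ (Linv v) + ψ (Linv w)) ∧
      InjOn (fun v => ψ (Linv v)) (ball (0 : V) ρ) := by
  obtain ⟨r, C, hrr1, hchunk⟩ := isChunk_of_injOn hr1 hr10 hψ0 hinj hm hmaps hadd
  obtain ⟨ρ, L, hρ, hρr, hL0, happrox, hLadd⟩ := hchunk.exists_log
  have hsubr1 : ball (0 : V) ρ ⊆ ball (0 : V) r1 := ball_subset_ball (hρr.trans hrr1)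
  have hsubr0 : ball (0 : V) r1 ⊆ ball (0 : V) r0 := ball_subset_ball hr10
  have happ : ApproximatesLinearOn L
      ((ContinuousLinearEquiv.refl ℝ V : V ≃L[ℝ] V) : V →L[ℝ] V) (ball 0 ρ) (1 / 4 : NNReal) := by
    intro x hx y hy
    have key := happrox x hx y hy
    have hc : ((1 / 4 : NNReal) : ℝ) = 1 / 4 := by norm_num
    rw [hc]
    exact key
  have hc : Subsingleton V ∨ (1 / 4 : NNReal)
      < ‖((ContinuousLinearEquiv.refl ℝ V : V ≃L[ℝ] V).symm : V →L[ℝ] V)‖₊⁻¹ := by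
    rcases subsingleton_or_nontrivial V with hV | hV
    · exact Or.inl hV
    · right
      have hnn : ‖((ContinuousLinearEquiv.refl ℝ V : V ≃L[ℝ] V).symm : V →L[ℝ] V)‖₊ = 1 := by
        rw [ContinuousLinearEquiv.refl_symm, ContinuousLinearEquiv.coe_refl]
        exact ContinuousLinearMap.nnnorm_id
      rw [hnn, inv_one]
      norm_num
  set Λ := happ.toOpenPartialHomeomorph L (ball 0 ρ) hc isOpen_ball with hΛ
  have hΛcoe : ∀ x, Λ x = L x := fun x => rfl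
  have h0src : (0 : V) ∈ Λ.source := mem_ball_self hρ
  have h0tgt : (0 : V) ∈ Λ.target := by
    have key := Λ.map_source h0src
    rwa [hΛcoe, hL0] at key
  obtain ⟨t, ht, htsub⟩ := Metric.isOpen_iff.mp Λ.open_target 0 h0tgt
  set ρ2 : ℝ := min t (ρ / 8) with hρ2
  have hρ2_pos : 0 < ρ2 := lt_min ht (by linarith)
  have hρ2_t : ρ2 ≤ t := min_le_left _ _
  have hρ2_ρ : ρ2 ≤ ρ / 8 := min_le_right _ _
  have htgt : ∀ v ∈ ball (0 : V) ρ2, v ∈ Λ.target := fun v hv =>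
    htsub (ball_subset_ball hρ2_t hv)
  have hLnorm : ∀ a ∈ ball (0 : V) ρ, ‖a‖ ≤ 4 / 3 * ‖L a‖ := by
    intro a ha
    have key := happrox a ha 0 (mem_ball_self hρ)
    rw [hL0, sub_zero, sub_zero] at key
    have h2 : ‖a‖ ≤ ‖L a‖ + ‖L a - a‖ := by
      have e : a = L a - (L a - a) := by abel
      calc ‖a‖ = ‖L a - (L a - a)‖ := by rw [← e]
        _ ≤ ‖L a‖ + ‖L a - a‖ := norm_sub_le _ _
    linarith
  have hsymm_src : ∀ v ∈ ball (0 : V) ρ2, Λ.symm v ∈ ball (0 : V) ρ := fun v hv =>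
    Λ.map_target (htgt v hv)
  have hsymm_right : ∀ v ∈ ball (0 : V) ρ2, L (Λ.symm v) = v := fun v hv =>
    Λ.right_inv (htgt v hv)
  have hsymm_small : ∀ v ∈ ball (0 : V) ρ2, Λ.symm v ∈ ball (0 : V) (ρ / 3) := by
    intro v hv
    have h1 := hLnorm _ (hsymm_src v hv)
    rw [hsymm_right v hv] at h1
    rw [mem_ball_zero_iff] at hv ⊢
    linarith
  have hsymm0 : Λ.symm 0 = 0 := by
    have key := Λ.left_inv h0src
    rwa [hΛcoe, hL0] at key
  refine ⟨ρ2, Λ.source ∩ Λ ⁻¹' ball (0 : V) ρ2, L, Λ.symm, hρ2_pos,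
    Λ.isOpen_inter_preimage isOpen_ball, ⟨h0src, ?_⟩, ?_, hL0, hsymm0, ?_, ?_, ?_, ?_, ?_, ?_, ?_,
    ?_⟩
  · show Λ 0 ∈ ball (0 : V) ρ2
    rw [hΛcoe, hL0]
    exact mem_ball_self hρ2_pos
  · exact fun a ha => hsubr1 ha.1
  · exact Λ.continuousOn.mono inter_subset_left
  · exact Λ.continuousOn_symm.mono htgt
  · exact fun a ha => ha.2
  · intro v hv
    refine ⟨Λ.map_target (htgt v hv), ?_⟩
    show Λ (Λ.symm v) ∈ ball (0 : V) ρ2
    rw [Λ.right_inv (htgt v hv)]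
    exact hv
  · exact fun a ha => Λ.left_inv ha.1
  · exact hsymm_right
  · intro v hv w hw
    have ha := hsymm_small v hv
    have hb := hsymm_small w hw
    obtain ⟨hmab, hLab⟩ := hLadd _ ha _ hb
    rw [hsymm_right v hv, hsymm_right w hw] at hLab
    have key : Λ.symm (Λ (m (Λ.symm v) (Λ.symm w))) = m (Λ.symm v) (Λ.symm w) := Λ.left_inv hmab
    rw [hΛcoe, hLab] at key
    rw [key]
    exact hadd _ (hsubr1 (hsymm_src v hv)) _ (hsubr1 (hsymm_src w hw))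
  · intro v hv w hw hvw
    have h1 : Λ.symm v = Λ.symm w :=
      hinj (hsubr0 (hsubr1 (hsymm_src v hv))) (hsubr0 (hsubr1 (hsymm_src w hw))) hvw
    rw [← hsymm_right v hv, ← hsymm_right w hw, h1]

/-- **(LOG), chart form** (the shape of `helper3813` #149(3), with `m` holomorphic).

`ψ : V → J` injective on `ball 0 r`, `m` holomorphic on `ball 0 r ×ˢ ball 0 r` with `m 0 0 = 0`
and `ψ (m a b) = ψ a + ψ b`.  Then there are `eps > 0` and a local chart `e : V → J`, additive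
and injective at `0` on `ball 0 eps`, with values in `ψ (ball 0 r)`, and a continuous change of
coordinates `G` near `0` with `ψ a = e (G a)`. -/
theorem exists_local_chart {ψ : V → J} {m : V → V → V} {r : ℝ} (hr : 0 < r)
    (hm : DifferentiableOn ℂ (fun p : V × V => m p.1 p.2) (ball 0 r ×ˢ ball 0 r))
    (hm00 : m 0 0 = 0)
    (hadd : ∀ a ∈ ball (0 : V) r, ∀ b ∈ ball (0 : V) r, ψ (m a b) = ψ a + ψ b)
    (hinj : InjOn ψ (ball (0 : V) r)) :
    ∃ eps > 0, ∃ e : V → J,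
      (∀ v w : V, ‖v‖ < eps → ‖w‖ < eps → ‖v + w‖ < eps → e (v + w) = e v + e w) ∧
      (∀ v : V, ‖v‖ < eps → e v = 0 → v = 0) ∧
      (∀ v : V, ‖v‖ < eps → ∃ a ∈ ball (0 : V) r, e v = ψ a) ∧
      ∃ delta > 0, delta ≤ r ∧ ∃ G : V → V, ContinuousOn G (ball (0 : V) delta) ∧ G 0 = 0 ∧
        ∀ a ∈ ball (0 : V) delta, ‖G a‖ < eps ∧ ψ a = e (G a) := by
  have h0 : (0 : V) ∈ ball (0 : V) r := mem_ball_self hr
  have hψ0 : ψ 0 = 0 := by
    have key := hadd 0 h0 0 h0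
    rw [hm00] at key
    exact left_eq_add.mp key
  -- shrink so that `m` maps into `ball 0 r`
  have hopen : IsOpen (ball (0 : V) r ×ˢ ball (0 : V) r) := isOpen_ball.prod isOpen_ball
  have hcont : ContinuousAt (fun p : V × V => m p.1 p.2) (0, 0) :=
    hm.continuousOn.continuousAt (hopen.mem_nhds ⟨h0, h0⟩)
  obtain ⟨s', hs', hs'b⟩ := Metric.continuousAt_iff.mp hcont r hr
  set r1 : ℝ := min s' r with hr1
  have hr1_pos : 0 < r1 := lt_min hs' hr
  have hr1_r : r1 ≤ r := min_le_right _ _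
  have hr1_s' : r1 ≤ s' := min_le_left _ _
  have hsub : ball (0 : V) r1 ⊆ ball (0 : V) r := ball_subset_ball hr1_r
  have hmaps : ∀ a ∈ ball (0 : V) r1, ∀ b ∈ ball (0 : V) r1, m a b ∈ ball (0 : V) r := by
    intro a ha b hb
    have hd : dist (a, b) ((0 : V), (0 : V)) < s' := by
      rw [Prod.dist_eq]
      exact max_lt (lt_of_lt_of_le (mem_ball.mp ha) hr1_s') (lt_of_lt_of_le (mem_ball.mp hb) hr1_s')
    have key := hs'b hd
    simp only [hm00] at key
    exact key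
  obtain ⟨ρ, U, L, Linv, hρ, hUo, h0U, hUsub, hL0, hLinv0, hLc, -, hLmaps, hLinvmaps, hleft, -,
    haddL, hinjL⟩ := exists_local_additive hr1_pos hr1_r hψ0 hinj
      (hm.mono (prod_mono hsub hsub)) hmaps (fun a ha b hb => hadd a (hsub ha) b (hsub hb))
  refine ⟨ρ, hρ, fun v => ψ (Linv v), ?_, ?_, ?_, ?_⟩
  · intro v w hv hw _
    exact haddL v (mem_ball_zero_iff.mpr hv) w (mem_ball_zero_iff.mpr hw)
  · intro v hv hev
    have h0ρ : (0 : V) ∈ ball (0 : V) ρ := mem_ball_self hρ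
    apply hinjL (mem_ball_zero_iff.mpr hv) h0ρ
    show ψ (Linv v) = ψ (Linv 0)
    rw [hLinv0, hψ0]
    exact hev
  · intro v hv
    exact ⟨Linv v, hsub (hUsub (hLinvmaps (mem_ball_zero_iff.mpr hv))), rfl⟩
  · obtain ⟨d, hd, hdU⟩ := Metric.isOpen_iff.mp hUo 0 h0U
    refine ⟨min d r, lt_min hd hr, min_le_right _ _, L, hLc.mono ?_, hL0, ?_⟩
    · exact (ball_subset_ball (min_le_left _ _)).trans hdU
    · intro a ha
      have haU : a ∈ U := hdU (ball_subset_ball (min_le_left _ _) ha)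
      refine ⟨mem_ball_zero_iff.mp (hLmaps haU), ?_⟩
      show ψ a = ψ (Linv (L a))
      rw [hleft a haU]

end Main

end Fermat.Agent.S27.helper8746
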