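import Mathlib
import Fermat.Prelude.Def_AlgebraicCurve_Repartitions

/-!
# Semilinear descent for subspaces (S27, Lefschetz transfer, step C4)

`helper9138`: a different-proof backup of the step "`L'(D')` is the `K'`-span of `L(D)`" of the
constant-field-extension comparison core.  Everything is abstract and hypothesis-passing.

* `descent_lc`: the minimal-support lemma.  A subspace stable under a family of semilinear maps
  fixing a family `v` is spanned by its combinations of `v` with fixed coefficients.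
-/

set_option autoImplicit false

namespace Fermat.Agent.S27.helper9138

section Core

variable {K N ι I : Type*} [Field K] [AddCommGroup N] [Module K N]

/-- The set of vectors of `U` that are combinations of the family `v` with coefficients fixed
by all `σ j`. -/
def fixedCombos (v : ι → N) (σ : I → K →+* K) (U : Submodule K N) : Set N :=
  {u | u ∈ U ∧ ∃ l' : ι →₀ K, (∀ j i, σ j (l' i) = l' i) ∧
      u = Finsupp.linearCombination K v l'}

/-- **Minimal-support descent lemma.** -/
theorem descent_lc (v : ι → N) (σ : I → K →+* K) (τ : I → N →+ N)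
    (hsemi : ∀ j c y, τ j (c • y) = σ j c • τ j y)
    (hv : ∀ j i, τ j (v i) = v i)
    (U : Submodule K N) (hU : ∀ j, ∀ u ∈ U, τ j u ∈ U) :
    ∀ (n : ℕ) (l : ι →₀ K), l.support.card ≤ n → Finsupp.linearCombination K v l ∈ U →
      Finsupp.linearCombination K v l ∈ Submodule.span K (fixedCombos v σ U) := by
  classical
  intro n
  induction n with
  | zero =>
    intro l hl _
    have h0 : l = 0 :=
      Finsupp.support_eq_empty.mp (Finset.card_eq_zero.mp (Nat.le_zero.mp hl))
    subst h0
    simp
  | succ n ih =>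
    intro l hl hlU
    by_cases h0 : l = 0
    · subst h0; simp
    obtain ⟨i0, hi0⟩ : ∃ i0, l i0 ≠ 0 := by
      by_contra hcon
      exact h0 (Finsupp.ext fun i => by simpa using not_exists.mp hcon i)
    obtain ⟨l1, hl1⟩ : ∃ l1 : ι →₀ K, l1 = (l i0)⁻¹ • l := ⟨_, rfl⟩
    have hl1i0 : l1 i0 = 1 := by simp [hl1, hi0]
    have hsupp1 : l1.support = l.support := by
      rw [hl1]; exact Finsupp.support_smul_eq (inv_ne_zero hi0)
    have hu1U : Finsupp.linearCombination K v l1 ∈ U := by
      rw [hl1, map_smul]; exact U.smul_mem _ hlU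
    suffices h1 : Finsupp.linearCombination K v l1 ∈ Submodule.span K (fixedCombos v σ U) by
      have : Finsupp.linearCombination K v l = l i0 • Finsupp.linearCombination K v l1 := by
        rw [hl1, map_smul, smul_smul, mul_inv_cancel₀ hi0, one_smul]
      rw [this]; exact Submodule.smul_mem _ _ h1
    by_cases hfix : ∀ j i, σ j (l1 i) = l1 i
    · exact Submodule.subset_span ⟨hu1U, l1, hfix, rfl⟩
    · obtain ⟨j, i1, hji1⟩ : ∃ j i1, σ j (l1 i1) ≠ l1 i1 := by
        by_contra hcon
        exact hfix fun j i => by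
          by_contra h
          exact hcon ⟨j, i, h⟩
      have hτ : ∀ m : ι →₀ K, τ j (Finsupp.linearCombination K v m) =
          Finsupp.linearCombination K v (Finsupp.mapRange (σ j) (map_zero _) m) := by
        intro m
        rw [Finsupp.linearCombination_apply, Finsupp.linearCombination_apply,
          Finsupp.sum_mapRange_index (by intro i; simp)]
        rw [Finsupp.sum, map_sum]
        refine Finset.sum_congr rfl (fun i _ => ?_)
        rw [hsemi, hv]
      obtain ⟨lw, hlw⟩ : ∃ lw : ι →₀ K,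
          lw = Finsupp.mapRange (σ j) (map_zero _) l1 - l1 := ⟨_, rfl⟩
      have hlw_apply : ∀ i, lw i = σ j (l1 i) - l1 i := by
        intro i; rw [hlw]; simp
      have hwU : Finsupp.linearCombination K v lw ∈ U := by
        rw [hlw, map_sub, ← hτ]; exact U.sub_mem (hU j _ hu1U) hu1U
      have hlw_i0 : lw i0 = 0 := by rw [hlw_apply, hl1i0, map_one, sub_self]
      have hmem1 : i0 ∈ l1.support := by
        rw [Finsupp.mem_support_iff, hl1i0]; exact one_ne_zero
      have hlw_supp : lw.support ⊆ l1.support.erase i0 := by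
        intro i hi
        rw [Finsupp.mem_support_iff] at hi
        rw [Finset.mem_erase, Finsupp.mem_support_iff]
        refine ⟨fun h => hi (h ▸ hlw_i0), fun h => hi ?_⟩
        rw [hlw_apply, h, map_zero, sub_self]
      have hcard_w : lw.support.card ≤ n := by
        have h := Finset.card_le_card hlw_supp
        rw [Finset.card_erase_of_mem hmem1, hsupp1] at h
        omega
      have hwS := ih lw hcard_w hwU
      have hlw_i1 : lw i1 ≠ 0 := by
        rw [hlw_apply]
        exact sub_ne_zero.mpr hji1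
      have hl1_i1 : l1 i1 ≠ 0 := by
        intro h; apply hji1; rw [h, map_zero]
      obtain ⟨l2, hl2⟩ : ∃ l2 : ι →₀ K, l2 = l1 - (l1 i1 / lw i1) • lw := ⟨_, rfl⟩
      have hl2_apply : ∀ i, l2 i = l1 i - (l1 i1 / lw i1) * lw i := by
        intro i; rw [hl2]; simp
      have hu2U : Finsupp.linearCombination K v l2 ∈ U := by
        rw [hl2, map_sub, map_smul]; exact U.sub_mem hu1U (U.smul_mem _ hwU)
      have hmem2 : i1 ∈ l1.support := by
        rw [Finsupp.mem_support_iff]; exact hl1_i1
      have hl2_supp : l2.support ⊆ l1.support.erase i1 := by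
        intro i hi
        rw [Finsupp.mem_support_iff] at hi
        rw [Finset.mem_erase, Finsupp.mem_support_iff]
        constructor
        · rintro rfl
          apply hi
          rw [hl2_apply, div_mul_cancel₀ _ hlw_i1, sub_self]
        · intro h
          apply hi
          have hw0 : lw i = 0 := by rw [hlw_apply, h, map_zero, sub_self]
          rw [hl2_apply, hw0, h, mul_zero, sub_self]
      have hcard2 : l2.support.card ≤ n := by
        have h := Finset.card_le_card hl2_supp
        rw [Finset.card_erase_of_mem hmem2, hsupp1] at h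
        omega
      have hu2S := ih l2 hcard2 hu2U
      have : Finsupp.linearCombination K v l1 = Finsupp.linearCombination K v l2 +
          (l1 i1 / lw i1) • Finsupp.linearCombination K v lw := by
        rw [hl2, map_sub, map_smul]; abel
      rw [this]
      exact Submodule.add_mem _ hu2S (Submodule.smul_mem _ _ hwS)

end Core

section Compositum

universe u1 u2 u3 u4 u5

variable (K1 : Type u1) (F1 : Type u2) (K2 : Type u3) (F2 : Type u4)
  [Field K1] [Field F1] [Field K2] [Field F2]
  [Algebra K1 F1] [Algebra K2 F2] [Algebra K1 K2] [Algebra F1 F2] [Algebra K1 F2]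
  [IsScalarTower K1 K2 F2] [IsScalarTower K1 F1 F2]

/-- The compositum ring `K2 · F1` inside `F2`. -/
def compRing : Subalgebra K2 F2 := Algebra.adjoin K2 (Set.range (algebraMap F1 F2))

variable {K1 F1 K2 F2}

omit [Field K1] [Algebra K1 F1] [Algebra K1 K2] [Algebra K1 F2] [IsScalarTower K1 K2 F2]
  [IsScalarTower K1 F1 F2] in
theorem algebraMap_mem_compRing (f : F1) : algebraMap F1 F2 f ∈ compRing F1 K2 F2 :=
  Algebra.subset_adjoin (Set.mem_range_self f)

omit [Field K1] [Algebra K1 F1] [Algebra K1 K2] [Algebra K1 F2] [IsScalarTower K1 K2 F2]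
  [IsScalarTower K1 F1 F2] in
theorem compRing_toSubmodule :
    Subalgebra.toSubmodule (compRing F1 K2 F2) =
      Submodule.span K2 (Set.range (algebraMap F1 F2)) := by
  have h : Submonoid.closure (Set.range (algebraMap F1 F2)) =
      MonoidHom.mrange ((algebraMap F1 F2 : F1 →+* F2) : F1 →* F2) := by
    rw [← Submonoid.closure_eq (MonoidHom.mrange ((algebraMap F1 F2 : F1 →+* F2) : F1 →* F2))]
    congr 1
  rw [compRing, Algebra.adjoin_eq_span, h]
  rfl

omit [IsScalarTower K1 K2 F2] in
/-- `algebraMap F1 F2` is `K1`-semilinear in the obvious sense. -/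
theorem algebraMap_smul_eq (k : K1) (f : F1) :
    algebraMap F1 F2 (k • f) = k • algebraMap F1 F2 f := by
  rw [Algebra.smul_def, Algebra.smul_def, map_mul, ← IsScalarTower.algebraMap_apply]

/-- A combination of elements of `F1` with coefficients in `K1` lies in the image of `F1`. -/
theorem linearCombination_mem_range (l : F1 →₀ K2)
    (hl : ∀ f, l f ∈ Set.range (algebraMap K1 K2)) :
    Finsupp.linearCombination K2 (fun f : F1 => algebraMap F1 F2 f) l ∈
      (algebraMap F1 F2).range := by
  rw [Finsupp.linearCombination_apply, Finsupp.sum]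
  refine Subring.sum_mem _ (fun f _ => ?_)
  obtain ⟨k, hk⟩ := hl f
  refine ⟨k • f, ?_⟩
  rw [algebraMap_smul_eq, ← hk, algebraMap_smul]

variable {I : Type u5} (τ : I → F2 ≃+* F2) (σ : I → K2 →+* K2)

omit [Field K1] [Algebra K1 F1] [Algebra K1 K2] [Algebra K1 F2] [IsScalarTower K1 K2 F2]
  [IsScalarTower K1 F1 F2] in
theorem semilinear_of (hτK : ∀ j c, τ j (algebraMap K2 F2 c) = algebraMap K2 F2 (σ j c))
    (j : I) (c : K2) (y : F2) : τ j (c • y) = σ j c • τ j y := by
  rw [Algebra.smul_def, Algebra.smul_def, map_mul, hτK]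

omit [Field K1] [Algebra K1 F1] [Algebra K1 K2] [Algebra K1 F2] [IsScalarTower K1 K2 F2]
  [IsScalarTower K1 F1 F2] in
/-- The semilinear automorphisms preserve the compositum ring. -/
theorem map_mem_compRing (hτK : ∀ j c, τ j (algebraMap K2 F2 c) = algebraMap K2 F2 (σ j c))
    (hτF : ∀ j f, τ j (algebraMap F1 F2 f) = algebraMap F1 F2 f)
    (j : I) {r : F2} (hr : r ∈ compRing F1 K2 F2) : τ j r ∈ compRing F1 K2 F2 := by
  induction hr using Algebra.adjoin_induction with
  | mem x hx =>
    obtain ⟨f, rfl⟩ := hx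
    rw [hτF]; exact algebraMap_mem_compRing f
  | algebraMap c => rw [hτK]; exact Subalgebra.algebraMap_mem _ _
  | add x y _ _ hx hy => rw [map_add]; exact add_mem hx hy
  | mul x y _ _ hx hy => rw [map_mul]; exact mul_mem hx hy

/-- **(SD2) Semilinear descent inside the compositum ring.**  A `K2`-subspace of `K2 · F1`
stable under a family of semilinear automorphisms with fixed field `K1` is spanned by its
elements coming from `F1`. -/
theorem le_span_inter (hτK : ∀ j c, τ j (algebraMap K2 F2 c) = algebraMap K2 F2 (σ j c))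
    (hτF : ∀ j f, τ j (algebraMap F1 F2 f) = algebraMap F1 F2 f)
    (hfix : ∀ c : K2, (∀ j, σ j c = c) → c ∈ Set.range (algebraMap K1 K2))
    (U : Submodule K2 F2) (hUR : U ≤ Subalgebra.toSubmodule (compRing F1 K2 F2))
    (hU : ∀ j, ∀ u ∈ U, τ j u ∈ U) :
    U ≤ Submodule.span K2 {u | u ∈ U ∧ u ∈ Set.range (algebraMap F1 F2)} := by
  intro u hu
  have huR := hUR hu
  rw [compRing_toSubmodule, Finsupp.mem_span_range_iff_exists_finsupp] at huR
  obtain ⟨l, rfl⟩ := huR
  have key := descent_lc (K := K2) (N := F2) (fun f : F1 => algebraMap F1 F2 f) σ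
    (fun j => ((τ j : F2 →+* F2) : F2 →+ F2))
    (fun j c y => semilinear_of τ σ hτK j c y) (fun j f => hτF j f) U
    (fun j u hu => hU j u hu) l.support.card l le_rfl
    (by rw [Finsupp.linearCombination_apply]; exact hu)
  rw [Finsupp.linearCombination_apply] at key
  refine Submodule.span_mono ?_ key
  rintro x ⟨hxU, l', hl', rfl⟩
  exact ⟨hxU, linearCombination_mem_range l' (fun f => hfix _ (fun j => hl' j f))⟩

omit [Field K1] [Algebra K1 F1] [Algebra K1 K2] [Algebra K1 F2] [IsScalarTower K1 K2 F2]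
  [IsScalarTower K1 F1 F2] in
/-- A finitely generated subspace of `F2` has a common denominator in the compositum ring. -/
theorem exists_common_denominator
    (hgen : ∀ z : F2, ∃ r ∈ compRing F1 K2 F2, ∃ s ∈ compRing F1 K2 F2, s ≠ 0 ∧ z * s = r)
    (V : Submodule K2 F2) (hfg : V.FG) :
    ∃ s ∈ compRing F1 K2 F2, s ≠ 0 ∧ ∀ v ∈ V, s * v ∈ compRing F1 K2 F2 := by
  classical
  obtain ⟨S, rfl⟩ := hfg
  have hS : ∃ s ∈ compRing F1 K2 F2, s ≠ 0 ∧ ∀ v ∈ S, s * v ∈ compRing F1 K2 F2 := by
    induction S using Finset.induction_on with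
    | empty => exact ⟨1, one_mem _, one_ne_zero, by simp⟩
    | insert a S _ ih =>
      obtain ⟨s, hs, hs0, hsS⟩ := ih
      obtain ⟨r, hr, t, ht, ht0, hat⟩ := hgen a
      refine ⟨s * t, mul_mem hs ht, mul_ne_zero hs0 ht0, ?_⟩
      intro v hv
      rcases Finset.mem_insert.mp hv with rfl | hv
      · have : s * t * v = s * r := by rw [← hat]; ring
        rw [this]; exact mul_mem hs hr
      · have : s * t * v = t * (s * v) := by ring
        rw [this]; exact mul_mem ht (hsS v hv)
  obtain ⟨s, hs, hs0, hsS⟩ := hS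
  refine ⟨s, hs, hs0, ?_⟩
  intro v hv
  induction hv using Submodule.span_induction with
  | mem x hx => exact hsS x hx
  | zero => rw [mul_zero]; exact zero_mem _
  | add x y _ _ hx hy => rw [mul_add]; exact add_mem hx hy
  | smul c x _ hx =>
    rw [mul_smul_comm]
    exact Subalgebra.smul_mem _ hx c

/-- **(SD3) Denominators.**  A finitely generated `K2`-subspace of `F2` stable under the
semilinear automorphisms is contained in the compositum ring `K2 · F1`. -/
theorem le_compRing_of_stable
    (hτK : ∀ j c, τ j (algebraMap K2 F2 c) = algebraMap K2 F2 (σ j c))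
    (hτF : ∀ j f, τ j (algebraMap F1 F2 f) = algebraMap F1 F2 f)
    (hfix : ∀ c : K2, (∀ j, σ j c = c) → c ∈ Set.range (algebraMap K1 K2))
    (hgen : ∀ z : F2, ∃ r ∈ compRing F1 K2 F2, ∃ s ∈ compRing F1 K2 F2, s ≠ 0 ∧ z * s = r)
    (V : Submodule K2 F2) (hfg : V.FG) (hV : ∀ j z, z ∈ V ↔ τ j z ∈ V) :
    V ≤ Subalgebra.toSubmodule (compRing F1 K2 F2) := by
  obtain ⟨s, hs, hs0, hsV⟩ := exists_common_denominator hgen V hfg
  -- the denominator ideal
  let J : Submodule K2 F2 :=
    { carrier := {r | r ∈ compRing F1 K2 F2 ∧ ∀ v ∈ V, r * v ∈ compRing F1 K2 F2}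
      add_mem' := by
        rintro a b ⟨ha, ha'⟩ ⟨hb, hb'⟩
        exact ⟨add_mem ha hb, fun v hv => by rw [add_mul]; exact add_mem (ha' v hv) (hb' v hv)⟩
      zero_mem' := ⟨zero_mem _, fun v _ => by rw [zero_mul]; exact zero_mem _⟩
      smul_mem' := by
        rintro c a ⟨ha, ha'⟩
        exact ⟨Subalgebra.smul_mem _ ha c, fun v hv => by
          rw [smul_mul_assoc]; exact Subalgebra.smul_mem _ (ha' v hv) c⟩ }
  have hJR : J ≤ Subalgebra.toSubmodule (compRing F1 K2 F2) := fun r hr => hr.1
  have hJstab : ∀ j, ∀ u ∈ J, τ j u ∈ J := by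
    rintro j u ⟨hu, hu'⟩
    refine ⟨map_mem_compRing τ σ hτK hτF j hu, fun v hv => ?_⟩
    have hv' : (τ j).symm v ∈ V := by
      rw [hV j]; simpa using hv
    have := map_mem_compRing τ σ hτK hτF j (hu' _ hv')
    rwa [map_mul, RingEquiv.apply_symm_apply] at this
  have hsJ : s ∈ J := ⟨hs, hsV⟩
  have hspan := le_span_inter τ σ hτK hτF hfix J hJR hJstab hsJ
  -- a nonzero element of `F1` in `J`
  obtain ⟨f, hf0, hfJ⟩ : ∃ f : F1, algebraMap F1 F2 f ≠ 0 ∧ algebraMap F1 F2 f ∈ J := by
    by_contra hcon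
    have hbot : Submodule.span K2 {u | u ∈ J ∧ u ∈ Set.range (algebraMap F1 F2)} = ⊥ := by
      rw [Submodule.span_eq_bot]
      rintro x ⟨hxJ, f, rfl⟩
      by_contra hx0
      exact hcon ⟨f, hx0, hxJ⟩
    rw [hbot, Submodule.mem_bot] at hspan
    exact hs0 hspan
  intro v hv
  have h1 : algebraMap F1 F2 f * v ∈ compRing F1 K2 F2 := hfJ.2 v hv
  have h2 : v = algebraMap F1 F2 f⁻¹ * (algebraMap F1 F2 f * v) := by
    rw [← mul_assoc, ← map_mul, inv_mul_cancel₀ (fun h => hf0 (by rw [h, map_zero])), map_one,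
      one_mul]
  rw [h2, Subalgebra.mem_toSubmodule]
  exact mul_mem (algebraMap_mem_compRing f⁻¹) h1

/-- **(SD3') Descent for stable finite-dimensional subspaces of `F2`.** -/
theorem eq_span_inter_of_stable
    (hτK : ∀ j c, τ j (algebraMap K2 F2 c) = algebraMap K2 F2 (σ j c))
    (hτF : ∀ j f, τ j (algebraMap F1 F2 f) = algebraMap F1 F2 f)
    (hfix : ∀ c : K2, (∀ j, σ j c = c) → c ∈ Set.range (algebraMap K1 K2))
    (hgen : ∀ z : F2, ∃ r ∈ compRing F1 K2 F2, ∃ s ∈ compRing F1 K2 F2, s ≠ 0 ∧ z * s = r)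
    (V : Submodule K2 F2) (hfg : V.FG) (hV : ∀ j z, z ∈ V ↔ τ j z ∈ V) :
    V = Submodule.span K2 {u | u ∈ V ∧ u ∈ Set.range (algebraMap F1 F2)} :=
  le_antisymm
    (le_span_inter τ σ hτK hτF hfix V
      (le_compRing_of_stable τ σ hτK hτF hfix hgen V hfg hV) (fun j u hu => (hV j u).mp hu))
    (Submodule.span_le.mpr fun _ hu => hu.1)

variable (K1 F1) in
/-- The `K1`-subspace of `F1` of the elements whose image in `F2` lies in `V`. -/
def descendSubmodule (V : Submodule K2 F2) : Submodule K1 F1 :=
  (V.restrictScalars K1).comap (IsScalarTower.toAlgHom K1 F1 F2).toLinearMap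

omit [IsScalarTower K1 F1 F2] in
theorem mem_descendSubmodule [IsScalarTower K1 F1 F2] {V : Submodule K2 F2} {f : F1} :
    f ∈ descendSubmodule K1 F1 V ↔ algebraMap F1 F2 f ∈ V := Iff.rfl

/-- If `V` is spanned by its elements coming from `F1` and `F1`, `K2` are linearly disjoint
over `K1`, then `V` and its descent have the same dimension. -/
theorem finrank_eq_of_eq_span
    (hld : ∀ {ι : Type u2} (w : ι → F1), LinearIndependent K1 w →
      LinearIndependent K2 (fun i => algebraMap F1 F2 (w i)))
    (V : Submodule K2 F2)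
    (hV : V = Submodule.span K2 {u | u ∈ V ∧ u ∈ Set.range (algebraMap F1 F2)}) :
    Module.finrank K2 V = Module.finrank K1 (descendSubmodule K1 F1 V) := by
  classical
  obtain ⟨ι, ⟨e⟩⟩ : ∃ ι : Type u2, Nonempty (Module.Basis ι K1 ↥(descendSubmodule K1 F1 V)) :=
    ⟨_, ⟨Module.Basis.ofVectorSpace K1 _⟩⟩
  obtain ⟨w, hwdef⟩ : ∃ w : ι → F1, ∀ a, w a = (e a : F1) := ⟨fun a => (e a : F1), fun _ => rfl⟩
  have hw : LinearIndependent K1 w := by
    have h := e.linearIndependent.map' (descendSubmodule K1 F1 V).subtype (Submodule.ker_subtype _)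
    have hfun : w = (descendSubmodule K1 F1 V).subtype ∘ e := funext fun a => hwdef a
    rw [hfun]; exact h
  have hw2 : LinearIndependent K2 (fun a => algebraMap F1 F2 (w a)) := hld w hw
  have hspanw : Submodule.span K1 (Set.range w) = descendSubmodule K1 F1 V := by
    have h1 : Set.range w = (descendSubmodule K1 F1 V).subtype '' Set.range e := by
      rw [← Set.range_comp]
      exact congrArg Set.range (funext fun a => hwdef a)
    rw [h1, Submodule.span_image, e.span_eq, Submodule.map_top, Submodule.range_subtype]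
  have hVspan : V = Submodule.span K2 (Set.range fun a => algebraMap F1 F2 (w a)) := by
    apply le_antisymm
    · refine (le_of_eq hV).trans (Submodule.span_le.mpr ?_)
      rintro x ⟨hxV, f, rfl⟩
      have hf : f ∈ Submodule.span K1 (Set.range w) := by
        rw [hspanw]; exact hxV
      clear hxV
      induction hf using Submodule.span_induction with
      | mem y hy =>
        obtain ⟨a, rfl⟩ := hy
        exact Submodule.subset_span ⟨a, rfl⟩
      | zero => rw [map_zero]; exact zero_mem _
      | add y z _ _ hy hz => rw [map_add]; exact add_mem hy hz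
      | smul k y _ hy =>
        rw [algebraMap_smul_eq, ← algebraMap_smul K2 k (algebraMap F1 F2 y)]
        exact Submodule.smul_mem _ _ hy
    · refine Submodule.span_le.mpr ?_
      rintro x ⟨a, rfl⟩
      show algebraMap F1 F2 (w a) ∈ V
      rw [hwdef]
      exact (e a).2
  have h2 : ∀ V' : Submodule K2 F2,
      V' = Submodule.span K2 (Set.range fun a => algebraMap F1 F2 (w a)) →
      Module.finrank K2 V' = Nat.card ι := by
    rintro V' rfl
    exact Module.finrank_eq_nat_card_basis (Module.Basis.span hw2)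
  rw [h2 V hVspan]
  exact (Module.finrank_eq_nat_card_basis e).symm

end Compositum

section RiemannRoch

open AlgebraicCurve

universe u1 u2 u3 u4 u5

variable {K1 : Type u1} {F1 : Type u2} {K2 : Type u3} {F2 : Type u4}
  [Field K1] [Field F1] [Field K2] [Field F2]
  [Algebra K1 F1] [Algebra K2 F2] [Algebra K1 K2] [Algebra F1 F2] [Algebra K1 F2]
  [IsScalarTower K1 K2 F2] [IsScalarTower K1 F1 F2]
  {I : Type u5} (τ : I → F2 ≃+* F2) (σ : I → K2 →+* K2)

/-- **(C4), abstract form.**  If `L(D')` is finite-dimensional, stable under the semilinear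
automorphisms, and meets `F1` in `L(D)`, then `L(D')` is the `K2`-span of `L(D)`. -/
theorem riemannRochSpace_eq_span
    (hτK : ∀ j c, τ j (algebraMap K2 F2 c) = algebraMap K2 F2 (σ j c))
    (hτF : ∀ j f, τ j (algebraMap F1 F2 f) = algebraMap F1 F2 f)
    (hfix : ∀ c : K2, (∀ j, σ j c = c) → c ∈ Set.range (algebraMap K1 K2))
    (hgen : ∀ z : F2, ∃ r ∈ compRing F1 K2 F2, ∃ s ∈ compRing F1 K2 F2, s ≠ 0 ∧ z * s = r)
    (D : Divisor K1 F1) (D' : Divisor K2 F2)
    (h1 : ∀ f : F1, algebraMap F1 F2 f ∈ riemannRochSpace D' ↔ f ∈ riemannRochSpace D)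
    (h2 : ∀ j z, z ∈ riemannRochSpace D' ↔ τ j z ∈ riemannRochSpace D')
    (h3 : (riemannRochSpace D').FG) :
    riemannRochSpace D' =
      Submodule.span K2 (algebraMap F1 F2 '' (riemannRochSpace D : Set F1)) := by
  have h := eq_span_inter_of_stable τ σ hτK hτF hfix hgen (riemannRochSpace D') h3 h2
  have hset : {u | u ∈ riemannRochSpace D' ∧ u ∈ Set.range (algebraMap F1 F2)} =
      algebraMap F1 F2 '' (riemannRochSpace D : Set F1) := by
    ext u
    constructor
    · rintro ⟨hu, f, rfl⟩
      exact ⟨f, (h1 f).mp hu, rfl⟩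
    · rintro ⟨f, hf, rfl⟩
      exact ⟨(h1 f).mpr hf, f, rfl⟩
  rw [← hset]
  exact h

/-- **(C4), abstract form, dimensions.** -/
theorem finrank_riemannRochSpace_eq
    (hτK : ∀ j c, τ j (algebraMap K2 F2 c) = algebraMap K2 F2 (σ j c))
    (hτF : ∀ j f, τ j (algebraMap F1 F2 f) = algebraMap F1 F2 f)
    (hfix : ∀ c : K2, (∀ j, σ j c = c) → c ∈ Set.range (algebraMap K1 K2))
    (hgen : ∀ z : F2, ∃ r ∈ compRing F1 K2 F2, ∃ s ∈ compRing F1 K2 F2, s ≠ 0 ∧ z * s = r)
    (hld : ∀ {ι : Type u2} (w : ι → F1), LinearIndependent K1 w →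
      LinearIndependent K2 (fun i => algebraMap F1 F2 (w i)))
    (D : Divisor K1 F1) (D' : Divisor K2 F2)
    (h1 : ∀ f : F1, algebraMap F1 F2 f ∈ riemannRochSpace D' ↔ f ∈ riemannRochSpace D)
    (h2 : ∀ j z, z ∈ riemannRochSpace D' ↔ τ j z ∈ riemannRochSpace D')
    (h3 : (riemannRochSpace D').FG) :
    Module.finrank K2 (riemannRochSpace D') = Module.finrank K1 (riemannRochSpace D) := by
  have h := eq_span_inter_of_stable τ σ hτK hτF hfix hgen (riemannRochSpace D') h3 h2
  have hdesc : descendSubmodule K1 F1 (riemannRochSpace D') = riemannRochSpace D :=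
    Submodule.ext fun f => h1 f
  rw [finrank_eq_of_eq_span hld (riemannRochSpace D') h, hdesc]

end RiemannRoch

section PullbackPlace

open AlgebraicCurve

variable {K F : Type*} [Field K] [Field F] [Algebra K F]

/-- The restriction of a ring automorphism `ρ` of `F` to the preimage of a valuation subring. -/
def comapRingEquiv (ρ : F ≃+* F) (A : ValuationSubring F) :
    (A.comap (ρ : F →+* F)) ≃+* A where
  toFun x := ⟨ρ x, x.2⟩
  invFun y := ⟨ρ.symm y, by
    show ρ (ρ.symm y) ∈ A
    rw [RingEquiv.apply_symm_apply]; exact y.2⟩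
  left_inv x := by ext; simp
  right_inv y := by ext; simp
  map_mul' x y := by ext; simp
  map_add' x y := by ext; simp

@[simp]
theorem coe_comapRingEquiv_apply (ρ : F ≃+* F) (A : ValuationSubring F)
    (x : A.comap (ρ : F →+* F)) : ((comapRingEquiv ρ A x : A) : F) = ρ x := rfl

/-- The pullback of a place along a ring automorphism of `F` preserving the constants. -/
def pullbackPlace (ρ : F ≃+* F)
    (hρ : ∀ c : K, ∃ c' : K, ρ (algebraMap K F c) = algebraMap K F c') (w : Place K F) :
    Place K F where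
  toValuationSubring := w.toValuationSubring.comap (ρ : F →+* F)
  algebraMap_mem' := fun a => by
    obtain ⟨c', hc'⟩ := hρ a
    show ρ (algebraMap K F a) ∈ w.toValuationSubring
    rw [hc']; exact w.algebraMap_mem' c'
  ne_top' := fun h => w.ne_top' <| by
    refine SetLike.ext fun x => ⟨fun _ => ValuationSubring.mem_top x, fun _ => ?_⟩
    have hx : ρ.symm x ∈ w.toValuationSubring.comap (ρ : F →+* F) := by
      rw [h]; exact ValuationSubring.mem_top _
    have hx' : ρ (ρ.symm x) ∈ w.toValuationSubring := hx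
    rwa [RingEquiv.apply_symm_apply] at hx'
  isPrincipalIdealRing' :=
    IsPrincipalIdealRing.of_surjective
      ((comapRingEquiv ρ w.toValuationSubring).symm : _ ≃+* _)
      (comapRingEquiv ρ w.toValuationSubring).symm.surjective

theorem ord_pullbackPlace (ρ : F ≃+* F)
    (hρ : ∀ c : K, ∃ c' : K, ρ (algebraMap K F c) = algebraMap K F c') (w : Place K F) (z : F) :
    (pullbackPlace ρ hρ w).ord z = w.ord (ρ z) := by
  rcases eq_or_ne z 0 with rfl | hz
  · simp
  obtain ⟨π, hπ⟩ := IsDiscreteValuationRing.exists_irreducible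
    (pullbackPlace ρ hρ w).toValuationSubring
  obtain ⟨u, hu⟩ := (pullbackPlace ρ hρ w).exists_unit_mul_zpow hz hπ
  have hπ' : Irreducible (comapRingEquiv ρ w.toValuationSubring π) :=
    (MulEquiv.irreducible_iff (comapRingEquiv ρ w.toValuationSubring)).mpr hπ
  have hu' : IsUnit (comapRingEquiv ρ w.toValuationSubring
      (u : (pullbackPlace ρ hρ w).toValuationSubring)) :=
    u.isUnit.map (comapRingEquiv ρ w.toValuationSubring)
  have hcoeu : ((hu'.unit : w.toValuationSubring) : F)
      = ρ ((u : (pullbackPlace ρ hρ w).toValuationSubring) : F) := by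
    rw [IsUnit.unit_spec]
    rfl
  have key : ρ z = ((hu'.unit : w.toValuationSubring) : F) *
      (((comapRingEquiv ρ w.toValuationSubring π : w.toValuationSubring) : F) ^
        ((pullbackPlace ρ hρ w).ord z)) := by
    have hcoeπ : ((comapRingEquiv ρ w.toValuationSubring π : w.toValuationSubring) : F)
        = ρ (π : F) := rfl
    rw [hcoeu, hcoeπ]
    conv_lhs => rw [hu]
    rw [map_mul, map_zpow₀]
  rw [key, w.ord_unit_smul_zpow hu'.unit hπ' _]

end PullbackPlace

section OldPlaces

open AlgebraicCurve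

universe u1 u2 u3 u4 u5

variable {K1 : Type u1} {F1 : Type u2} {K2 : Type u3} {F2 : Type u4}
  [Field K1] [Field F1] [Field K2] [Field F2]
  [Algebra K1 F1] [Algebra K2 F2] [Algebra F1 F2]

/-- A divisor pushed forward from `F1` is invariant under pullback along a ring automorphism
fixing `F1`. -/
theorem mapDomain_pullbackPlace (ρ : F2 ≃+* F2)
    (hρK : ∀ c : K2, ∃ c' : K2, ρ (algebraMap K2 F2 c) = algebraMap K2 F2 c')
    (hρF : ∀ f : F1, ρ (algebraMap F1 F2 f) = algebraMap F1 F2 f)
    (e : Place K1 F1 → Place K2 F2)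
    (he : ∀ v f, (e v).ord (algebraMap F1 F2 f) = v.ord f)
    (huniq : ∀ (w : Place K2 F2) (v : Place K1 F1),
      (∀ f, w.ord (algebraMap F1 F2 f) = v.ord f) → w = e v)
    (D : Divisor K1 F1) (w : Place K2 F2) :
    (Finsupp.mapDomain e D : Divisor K2 F2) (pullbackPlace ρ hρK w) =
      (Finsupp.mapDomain e D : Divisor K2 F2) w := by
  by_cases hw : w ∈ Set.range e
  · obtain ⟨v, rfl⟩ := hw
    have : pullbackPlace ρ hρK (e v) = e v := by
      apply huniq
      intro f
      rw [ord_pullbackPlace, hρF, he]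
    rw [this]
  · have hw' : pullbackPlace ρ hρK w ∉ Set.range e := by
      rintro ⟨v, hv⟩
      apply hw
      refine ⟨v, (huniq w v fun f => ?_).symm⟩
      have h := he v f
      rw [hv, ord_pullbackPlace, hρF] at h
      exact h
    rw [Finsupp.mapDomain_of_notMem_range _ _ hw, Finsupp.mapDomain_of_notMem_range _ _ hw']

/-- `L(D')` for a divisor `D'` pushed forward from `F1` is stable under `ρ⁻¹`. -/
theorem mem_riemannRochSpace_of_map_mem (ρ : F2 ≃+* F2)
    (hρK : ∀ c : K2, ∃ c' : K2, ρ.symm (algebraMap K2 F2 c) = algebraMap K2 F2 c')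
    (hρF : ∀ f : F1, ρ.symm (algebraMap F1 F2 f) = algebraMap F1 F2 f)
    (e : Place K1 F1 → Place K2 F2)
    (he : ∀ v f, (e v).ord (algebraMap F1 F2 f) = v.ord f)
    (huniq : ∀ (w : Place K2 F2) (v : Place K1 F1),
      (∀ f, w.ord (algebraMap F1 F2 f) = v.ord f) → w = e v)
    (D : Divisor K1 F1) {z : F2}
    (hz : ρ z ∈ riemannRochSpace (Finsupp.mapDomain e D : Divisor K2 F2)) :
    z ∈ riemannRochSpace (Finsupp.mapDomain e D : Divisor K2 F2) := by
  rw [mem_riemannRochSpace_iff] at hz ⊢
  intro w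
  rcases hz (pullbackPlace ρ.symm hρK w) with h | h
  · left
    simpa using h
  · right
    rw [mapDomain_pullbackPlace ρ.symm hρK hρF e he huniq D w, ord_pullbackPlace,
      RingEquiv.symm_apply_apply] at h
    exact h

variable {I : Type u5} (τ : I → F2 ≃+* F2) (σ : I → K2 →+* K2)

/-- **(h2) from the place data C1/C2.** -/
theorem mem_riemannRochSpace_mapDomain_iff
    (hτK : ∀ j c, τ j (algebraMap K2 F2 c) = algebraMap K2 F2 (σ j c))
    (hτF : ∀ j f, τ j (algebraMap F1 F2 f) = algebraMap F1 F2 f)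
    (hσ : ∀ j, Function.Surjective (σ j))
    (e : Place K1 F1 → Place K2 F2)
    (he : ∀ v f, (e v).ord (algebraMap F1 F2 f) = v.ord f)
    (huniq : ∀ (w : Place K2 F2) (v : Place K1 F1),
      (∀ f, w.ord (algebraMap F1 F2 f) = v.ord f) → w = e v)
    (D : Divisor K1 F1) (j : I) (z : F2) :
    z ∈ riemannRochSpace (Finsupp.mapDomain e D : Divisor K2 F2) ↔
      τ j z ∈ riemannRochSpace (Finsupp.mapDomain e D : Divisor K2 F2) := by
  have hsymmK : ∀ c : K2, ∃ c' : K2, (τ j).symm (algebraMap K2 F2 c) = algebraMap K2 F2 c' := by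
    intro c
    obtain ⟨c', rfl⟩ := hσ j c
    exact ⟨c', by rw [← hτK, RingEquiv.symm_apply_apply]⟩
  have hsymmF : ∀ f : F1, (τ j).symm (algebraMap F1 F2 f) = algebraMap F1 F2 f := by
    intro f
    rw [RingEquiv.symm_apply_eq, hτF]
  constructor
  · intro hz
    refine mem_riemannRochSpace_of_map_mem (τ j).symm (fun c => ⟨σ j c, ?_⟩) (fun f => ?_) e he
      huniq D ?_
    · rw [RingEquiv.symm_symm]; exact hτK j c
    · rw [RingEquiv.symm_symm]; exact hτF j f
    · rwa [RingEquiv.symm_apply_apply]
  · intro hz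
    exact mem_riemannRochSpace_of_map_mem (τ j) hsymmK hsymmF e he huniq D hz

/-- **(h1) from the place data C1/C2.** -/
theorem algebraMap_mem_riemannRochSpace_mapDomain_iff
    (e : Place K1 F1 → Place K2 F2) (he_inj : Function.Injective e)
    (he : ∀ v f, (e v).ord (algebraMap F1 F2 f) = v.ord f)
    (hnew : ∀ w, w ∉ Set.range e → ∀ f : F1, w.ord (algebraMap F1 F2 f) = 0)
    (D : Divisor K1 F1) (f : F1) :
    algebraMap F1 F2 f ∈ riemannRochSpace (Finsupp.mapDomain e D : Divisor K2 F2) ↔
      f ∈ riemannRochSpace D := by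
  rw [mem_riemannRochSpace_iff, mem_riemannRochSpace_iff]
  constructor
  · intro h v
    rcases h (e v) with h | h
    · left; exact (map_eq_zero _).mp h
    · right
      rwa [Finsupp.mapDomain_apply he_inj, he] at h
  · intro h w
    by_cases hw : w ∈ Set.range e
    · obtain ⟨v, rfl⟩ := hw
      rcases h v with h | h
      · left; rw [h, map_zero]
      · right
        rwa [Finsupp.mapDomain_apply he_inj, he]
    · right
      rw [Finsupp.mapDomain_of_notMem_range _ _ hw, hnew w hw f]
      simp

/-- **(C4) from the place data C1/C2 (packaged).**  `K1 ⊆ K2`, `F1 ⊆ F2` with `F2` generated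
by `K2` and `F1`; a family of ring automorphisms `τ j` of `F2`, trivial on `F1`, inducing
automorphisms `σ j` of `K2` with common fixed field `K1`; `e` the extension of places.  Then for
every divisor `D` of `F1` whose push-forward has a finite-dimensional Riemann–Roch space,
`L(e_* D)` is the `K2`-span of `L(D)`, and the dimensions agree. -/
theorem riemannRochSpace_mapDomain_eq_span_and_finrank
    [Algebra K1 K2] [Algebra K1 F2] [IsScalarTower K1 K2 F2] [IsScalarTower K1 F1 F2]
    (hτK : ∀ j c, τ j (algebraMap K2 F2 c) = algebraMap K2 F2 (σ j c))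
    (hτF : ∀ j f, τ j (algebraMap F1 F2 f) = algebraMap F1 F2 f)
    (hσ : ∀ j, Function.Surjective (σ j))
    (hfix : ∀ c : K2, (∀ j, σ j c = c) → c ∈ Set.range (algebraMap K1 K2))
    (hgen : ∀ z : F2, ∃ r ∈ compRing F1 K2 F2, ∃ s ∈ compRing F1 K2 F2, s ≠ 0 ∧ z * s = r)
    (hld : ∀ {ι : Type u2} (w : ι → F1), LinearIndependent K1 w →
      LinearIndependent K2 (fun i => algebraMap F1 F2 (w i)))
    (e : Place K1 F1 → Place K2 F2) (he_inj : Function.Injective e)
    (he : ∀ v f, (e v).ord (algebraMap F1 F2 f) = v.ord f)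
    (huniq : ∀ (w : Place K2 F2) (v : Place K1 F1),
      (∀ f, w.ord (algebraMap F1 F2 f) = v.ord f) → w = e v)
    (hnew : ∀ w, w ∉ Set.range e → ∀ f : F1, w.ord (algebraMap F1 F2 f) = 0)
    (D : Divisor K1 F1)
    (hfin : (riemannRochSpace (Finsupp.mapDomain e D : Divisor K2 F2)).FG) :
    riemannRochSpace (Finsupp.mapDomain e D : Divisor K2 F2) =
        Submodule.span K2 (algebraMap F1 F2 '' (riemannRochSpace D : Set F1)) ∧
      Module.finrank K2 (riemannRochSpace (Finsupp.mapDomain e D : Divisor K2 F2)) =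
        Module.finrank K1 (riemannRochSpace D) :=
  ⟨riemannRochSpace_eq_span τ σ hτK hτF hfix hgen D _
      (algebraMap_mem_riemannRochSpace_mapDomain_iff e he_inj he hnew D)
      (mem_riemannRochSpace_mapDomain_iff τ σ hτK hτF hσ e he huniq D) hfin,
    finrank_riemannRochSpace_eq τ σ hτK hτF hfix hgen hld D _
      (algebraMap_mem_riemannRochSpace_mapDomain_iff e he_inj he hnew D)
      (mem_riemannRochSpace_mapDomain_iff τ σ hτK hτF hσ e he huniq D) hfin⟩

end OldPlaces

end Fermat.Agent.S27.helper9138
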