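import Fermat.Agent.S27.helper3351_WSpec
import Fermat.Agent.S27.helper4272_W1aWeight
import Fermat.Agent.S27.helper975_Frob
import Fermat.Agent.S24.helper204_Places

/-!
# S27, algebraic route, W1d-1 (backup of board row 1194): the place at infinity of a table algebra

`B = Tab.Alg T`, `F = FractionRing B`.  The weight `wt` of the table extends to a valuation
`v∞(a/b) = exp (wt a - wt b)` of `F`, whose valuation ring is the place at infinity `Pinf`.
-/

set_option autoImplicit false

noncomputable section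

open Polynomial AlgebraicCurve IsDedekindDomain WithZero

namespace Fermat.Agent.S27.helper9185

open Fermat.Agent.S27.helper3351

universe u

/-! ### Exponential of a weight -/

/-- `exp` of a weight in `WithBot ℕ`, with `⊥ ↦ 0`. -/
def wexp (a : WithBot ℕ) : ℤᵐ⁰ := WithBot.recBotCoe 0 (fun n : ℕ => exp (n : ℤ)) a

@[simp] theorem wexp_bot : wexp ⊥ = 0 := rfl

@[simp] theorem wexp_some (n : ℕ) : wexp (WithBot.some n) = exp (n : ℤ) := rfl

@[simp] theorem wexp_natCast (n : ℕ) : wexp (n : WithBot ℕ) = exp (n : ℤ) := rfl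

theorem wexp_add (a b : WithBot ℕ) : wexp (a + b) = wexp a * wexp b := by
  induction a using WithBot.recBotCoe with
  | bot => simp
  | coe a =>
    induction b using WithBot.recBotCoe with
    | bot => simp
    | coe b =>
      rw [← WithBot.coe_add, wexp_some, wexp_some, wexp_some, ← exp_add]
      push_cast
      rfl

theorem wexp_le_wexp {a b : WithBot ℕ} : wexp a ≤ wexp b ↔ a ≤ b := by
  induction a using WithBot.recBotCoe with
  | bot => simp
  | coe a =>
    induction b using WithBot.recBotCoe with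
    | bot => simp [exp_ne_zero]
    | coe b => simp [exp_le_exp]

theorem wexp_eq_zero {a : WithBot ℕ} : wexp a = 0 ↔ a = ⊥ := by
  induction a using WithBot.recBotCoe with
  | bot => simp
  | coe a => simp [exp_ne_zero]

theorem wexp_zero : wexp (0 : WithBot ℕ) = 1 := by
  show wexp ((0 : ℕ) : WithBot ℕ) = 1
  rw [wexp_natCast]
  simp


/-! ### Weight computations (directly from the definition of `wt`) -/

section Weight

variable {K : Type u} [Field K] {τ : WType} (T : Tab τ K)

theorem le_wt (a : Elt τ K) (i : Fin τ.m) (hi : a i ≠ 0) :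
    ((τ.m * (a i).natDegree + τ.ρ i : ℕ) : WithBot ℕ) ≤ T.wt a := by
  classical
  unfold Tab.wt
  have h := Finset.le_sup (f := fun i : Fin τ.m =>
    if a i = 0 then (⊥ : WithBot ℕ) else ((τ.m * (a i).natDegree + τ.ρ i : ℕ) : WithBot ℕ))
    (Finset.mem_univ i)
  simp only [hi, if_false] at h
  convert h

theorem wt_le_iff (a : Elt τ K) (t : ℕ) : T.wt a ≤ (t : WithBot ℕ) ↔ wtLE a t := by
  classical
  unfold Tab.wt wtLE
  rw [Finset.sup_le_iff]
  constructor
  · intro h i hi
    have := h i (Finset.mem_univ i)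
    simp only [hi, if_false] at this
    exact_mod_cast this
  · intro h i _
    by_cases hi : a i = 0
    · simp [hi]
    · simp only [hi, if_false]
      exact_mod_cast h i hi

theorem wt_eq_bot_iff (a : Elt τ K) : T.wt a = ⊥ ↔ a = 0 := by
  classical
  constructor
  · intro h
    funext i
    by_contra hi
    have := le_wt T a i hi
    rw [h] at this
    exact WithBot.natCast_ne_bot _ (le_bot_iff.1 this)
  · rintro rfl
    unfold Tab.wt
    simp

/-- The weight of a single term `r ω_i`. -/
theorem wt_single (r : K[X]) (hr : r ≠ 0) (i : Fin τ.m) :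
    T.wt (fun j => if j = i then r else 0) = ((τ.m * r.natDegree + τ.ρ i : ℕ) : WithBot ℕ) := by
  classical
  apply le_antisymm
  · rw [wt_le_iff]
    intro j hj
    by_cases hji : j = i
    · subst hji
      simp
    · simp [hji] at hj
  · have := le_wt T (fun j => if j = i then r else 0) i (by simpa using hr)
    simpa using this

end Weight


/-! ### The weight valuation on the algebra and on its fraction field -/

section Val

variable {K : Type u} [Field K] {τ : WType} (T : Tab τ K) [hT : Fact T.PreValid]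

include hT in
theorem m_pos : 0 < τ.m := hT.out.good.1

/-- The index `0` of the unit `ω_0 = 1`. -/
def i0 : Fin τ.m := ⟨0, m_pos T⟩

theorem rho_i0 : τ.ρ (i0 T) = 0 := (hT.out.good.2 (i0 T)).2 rfl

theorem toElt_algebraMap_poly (r : K[X]) :
    (algebraMap K[X] T.Alg r).toElt = fun j => if j = i0 T then r else 0 := by
  rw [Tab.Alg.algebraMap_poly_apply, Tab.Alg.toElt_smul, Tab.Alg.toElt_one]
  funext j
  simp only [Pi.smul_apply, Elt.one, smul_eq_mul, mul_ite, mul_one, mul_zero]
  have : ((j : ℕ) = 0) ↔ j = i0 T := by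
    rw [Fin.ext_iff]
    rfl
  simp only [this]

theorem wt_algebraMap_poly (r : K[X]) (hr : r ≠ 0) :
    T.wt (algebraMap K[X] T.Alg r).toElt = ((τ.m * r.natDegree : ℕ) : WithBot ℕ) := by
  rw [toElt_algebraMap_poly, wt_single T r hr, rho_i0, add_zero]

theorem wt_one : T.wt (1 : T.Alg).toElt = 0 := by
  have h := wt_algebraMap_poly T (1 : K[X]) one_ne_zero
  rw [map_one, natDegree_one, mul_zero] at h
  exact h

theorem wt_x : T.wt (Tab.Alg.x T).toElt = (τ.m : WithBot ℕ) := by
  rw [Tab.Alg.x_eq_algebraMap, wt_algebraMap_poly T X X_ne_zero, natDegree_X, mul_one]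

omit hT in
theorem wt_omega (i : Fin τ.m) : T.wt (Tab.Alg.ω T i).toElt = (τ.ρ i : WithBot ℕ) := by
  have h := wt_single T (1 : K[X]) one_ne_zero i
  rw [natDegree_one, mul_zero, zero_add] at h
  exact h

theorem algebraMap_K_eq (c : K) : algebraMap K T.Alg c = algebraMap K[X] T.Alg (C c) := rfl

theorem wt_algebraMap_K (c : K) (hc : c ≠ 0) : T.wt (algebraMap K T.Alg c).toElt = 0 := by
  rw [algebraMap_K_eq, wt_algebraMap_poly T (C c) (by simpa using hc), natDegree_C, mul_zero]
  rfl

theorem wt_add_le (a b : T.Alg) :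
    T.wt (a + b).toElt ≤ max (T.wt a.toElt) (T.wt b.toElt) := by
  induction h : max (T.wt a.toElt) (T.wt b.toElt) using WithBot.recBotCoe with
  | bot =>
    have ha : T.wt a.toElt = ⊥ := le_bot_iff.1 (le_of_le_of_eq (le_max_left _ _) h)
    have hb : T.wt b.toElt = ⊥ := le_bot_iff.1 (le_of_le_of_eq (le_max_right _ _) h)
    rw [wt_eq_bot_iff] at ha hb
    have : (a + b).toElt = 0 := by rw [Tab.Alg.toElt_add, ha, hb, add_zero]
    rw [this, (wt_eq_bot_iff T 0).2 rfl]
  | coe n =>
    have ha : a ∈ T.Lspace n :=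
      (wt_le_iff T a.toElt n).1 (le_of_le_of_eq (le_max_left _ _) h)
    have hb : b ∈ T.Lspace n :=
      (wt_le_iff T b.toElt n).1 (le_of_le_of_eq (le_max_right _ _) h)
    exact (wt_le_iff T (a + b).toElt n).2 ((T.Lspace n).add_mem ha hb)

variable (hM : Stmt_WtMul.{u})

/-- The weight as a valuation of the algebra: `b ↦ exp (wt b)`. -/
def wtVal : Valuation T.Alg ℤᵐ⁰ where
  toFun a := wexp (T.wt a.toElt)
  map_zero' := by
    rw [wexp_eq_zero, wt_eq_bot_iff]
    rfl
  map_one' := by rw [wt_one, wexp_zero]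
  map_mul' a b := by rw [hM K τ T a b, wexp_add]
  map_add_le_max' a b := by
    have h := wexp_le_wexp.2 (wt_add_le T a b)
    rcases le_total (T.wt a.toElt) (T.wt b.toElt) with h1 | h1
    · rw [max_eq_right h1] at h
      exact le_max_of_le_right h
    · rw [max_eq_left h1] at h
      exact le_max_of_le_left h

@[simp] theorem wtVal_apply (a : T.Alg) : wtVal T hM a = wexp (T.wt a.toElt) := rfl

variable [IsDomain T.Alg]

theorem nonZeroDivisors_le_supp :
    nonZeroDivisors T.Alg ≤ (wtVal T hM).supp.primeCompl := by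
  intro s hs
  rw [Ideal.mem_primeCompl_iff, Valuation.mem_supp_iff, wtVal_apply, wexp_eq_zero,
    wt_eq_bot_iff]
  exact fun h0 => nonZeroDivisors.ne_zero hs (show s = 0 from h0)

/-- The valuation at infinity of the function field: `a/b ↦ exp (wt a - wt b)`. -/
def valInf : Valuation (FractionRing T.Alg) ℤᵐ⁰ :=
  (wtVal T hM).extendToLocalization (nonZeroDivisors_le_supp T hM) (FractionRing T.Alg)

theorem valInf_algebraMap (a : T.Alg) :
    valInf T hM (algebraMap T.Alg (FractionRing T.Alg) a) = wexp (T.wt a.toElt) :=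
  Valuation.extendToLocalization_apply_map_apply _ _ _ a

end Val


/-! ### `ord` of a place whose valuation ring is cut out by a `ℤᵐ⁰`-valued valuation -/

section General

variable {K F : Type*} [Field K] [Field F] [Algebra K F]

theorem ord_eq_zero_of_val_eq_one (P : Place K F) (v : Valuation F ℤᵐ⁰)
    (hmem : ∀ a : F, a ∈ P.toValuationSubring ↔ v a ≤ 1) {g : F} (hg : v g = 1) :
    P.ord g = 0 := by
  have hg0 : g ≠ 0 := by
    rintro rfl
    simp at hg
  have h1 : g ∈ P.toValuationSubring := by rw [hmem, hg]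
  have h2 : g⁻¹ ∈ P.toValuationSubring := by rw [hmem, map_inv₀, hg, inv_one]
  let u : P.toValuationSubringˣ := ⟨⟨g, h1⟩, ⟨g⁻¹, h2⟩, by ext; simp [hg0], by ext; simp [hg0]⟩
  exact P.ord_coe_unit u

theorem ord_eq_one_of_val_eq (P : Place K F) (v : Valuation F ℤᵐ⁰)
    (hmem : ∀ a : F, a ∈ P.toValuationSubring ↔ v a ≤ 1) {π : F}
    (hπ : v π = exp (-1 : ℤ)) : P.ord π = 1 := by
  have hπ0 : π ≠ 0 := by
    rintro rfl
    rw [map_zero] at hπ
    exact exp_ne_zero hπ.symm
  have hπmem : π ∈ P.toValuationSubring := by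
    rw [hmem, hπ, ← exp_zero, exp_le_exp]; norm_num
  have hirr : Irreducible (⟨π, hπmem⟩ : P.toValuationSubring) := by
    rw [IsDiscreteValuationRing.irreducible_iff_uniformizer]
    ext a
    rw [Ideal.mem_span_singleton, IsLocalRing.mem_maximalIdeal, mem_nonunits_iff]
    constructor
    · intro ha
      have ha1 : v (a : F) ≤ 1 := (hmem _).mp a.2
      have ha2 : v (a : F) ≠ 1 := by
        intro h
        apply ha
        have h2 : (a : F)⁻¹ ∈ P.toValuationSubring := by
          rw [hmem, map_inv₀, h, inv_one]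
        have ha0 : (a : F) ≠ 0 := by
          intro h0; rw [h0] at h; simp at h
        exact ⟨⟨a, ⟨(a : F)⁻¹, h2⟩, by ext; simp [ha0], by ext; simp [ha0]⟩, rfl⟩
      have ha3 : v (a : F) < 1 := lt_of_le_of_ne ha1 ha2
      have ha4 : v (a : F) ≤ exp (-1 : ℤ) := by
        rcases eq_or_ne (v (a : F)) 0 with h0 | h0
        · rw [h0]; exact zero_le
        · rw [← log_le_iff_le_exp h0]
          have : log (v (a : F)) < 0 := by
            rw [log_lt_iff_lt_exp h0, exp_zero]; exact ha3
          omega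
      have hq : (a : F) / π ∈ P.toValuationSubring := by
        rw [hmem, map_div₀, hπ]
        exact div_le_one_of_le₀ ha4 zero_le
      exact ⟨⟨(a : F) / π, hq⟩, by ext; simp; field_simp⟩
    · rintro ⟨b, rfl⟩ hu
      obtain ⟨c, hc⟩ := hu.exists_right_inv
      have hb : v (b : F) ≤ 1 := (hmem _).mp b.2
      have hc' : v (c : F) ≤ 1 := (hmem _).mp c.2
      have h1 : v ((π : F) * b * c) = 1 := by
        have := congrArg (fun z : P.toValuationSubring => (z : F)) hc
        simp only [MulMemClass.coe_mul, OneMemClass.coe_one] at this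
        rw [this, map_one]
      rw [map_mul, map_mul, hπ] at h1
      have h2 : exp (-1 : ℤ) * v (b : F) * v (c : F) ≤ exp (-1 : ℤ) := by
        calc exp (-1 : ℤ) * v (b : F) * v (c : F)
            ≤ exp (-1 : ℤ) * 1 * 1 := by gcongr
          _ = exp (-1 : ℤ) := by simp
      rw [h1] at h2
      rw [← exp_zero, exp_le_exp] at h2
      omega
  exact P.ord_coe_irreducible hirr

/-- If the valuation ring of a place is the valuation ring of a `ℤᵐ⁰`-valued valuation `v` which
takes the value `exp (-1)`, then `ord = -log v`. -/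
theorem ord_eq_neg_log (P : Place K F) (v : Valuation F ℤᵐ⁰)
    (hmem : ∀ a : F, a ∈ P.toValuationSubring ↔ v a ≤ 1)
    (hex : ∃ π : F, v π = exp (-1 : ℤ)) (f : F) : P.ord f = -(log (v f)) := by
  rcases eq_or_ne f 0 with rfl | hf
  · simp
  obtain ⟨π, hπ⟩ := hex
  have hπ0 : π ≠ 0 := by
    rintro rfl
    rw [map_zero] at hπ
    exact exp_ne_zero hπ.symm
  set n : ℤ := -(log (v f)) with hn
  have hvf : v f ≠ 0 := (Valuation.ne_zero_iff _).mpr hf
  set g : F := f * π ^ (-n) with hg
  have hg0 : g ≠ 0 := mul_ne_zero hf (zpow_ne_zero _ hπ0)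
  have hvg0 : v g ≠ 0 := (Valuation.ne_zero_iff _).mpr hg0
  have hvg : v g = 1 := by
    have h1 : log (v g) = 0 := by
      rw [hg, map_mul, map_zpow₀, log_mul hvf (zpow_ne_zero _ ((Valuation.ne_zero_iff _).mpr hπ0)),
        log_zpow, hπ, log_exp]
      simp only [smul_eq_mul]
      omega
    rw [← exp_log hvg0, h1, exp_zero]
  have hfg : f = g * π ^ n := by
    rw [hg, mul_assoc, ← zpow_add₀ hπ0]
    simp
  have h1 := ord_eq_zero_of_val_eq_one P v hmem hvg
  have h2 := ord_eq_one_of_val_eq P v hmem hπ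
  rw [hfg, P.ord_mul hg0 (zpow_ne_zero _ hπ0), P.ord_zpow, h1, h2]
  ring

end General

/-! ### The place at infinity -/

section PlaceInf

variable {K : Type u} [Field K] {τ : WType} (T : Tab τ K) [hT : Fact T.PreValid]
  [IsDomain T.Alg] (hM : Stmt_WtMul.{u})

theorem valInf_algebraMap_K (c : K) (hc : c ≠ 0) :
    valInf T hM (algebraMap K (FractionRing T.Alg) c) = 1 := by
  rw [IsScalarTower.algebraMap_apply K T.Alg (FractionRing T.Alg), valInf_algebraMap,
    wt_algebraMap_K T c hc, wexp_zero]

theorem valInf_x :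
    valInf T hM (algebraMap T.Alg (FractionRing T.Alg) (Tab.Alg.x T)) = exp (τ.m : ℤ) := by
  rw [valInf_algebraMap, wt_x, wexp_natCast]

theorem valInf_nontrivial :
    Nontrivial (MonoidWithZeroHom.valueGroup (MonoidWithZeroHom.ofClass (valInf T hM))) := by
  have hx := valInf_x T hM
  let u : (ℤᵐ⁰)ˣ := Units.mk0 (exp (τ.m : ℤ)) exp_ne_zero
  have hu : u ∈ MonoidWithZeroHom.valueGroup (MonoidWithZeroHom.ofClass (valInf T hM)) :=
    MonoidWithZeroHom.mem_valueGroup _ ⟨_, hx⟩
  refine ⟨⟨⟨u, hu⟩, 1, fun h => ?_⟩⟩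
  have h1 : u = 1 := congrArg Subtype.val h
  have h2 : exp (τ.m : ℤ) = (1 : ℤᵐ⁰) := congrArg Units.val h1
  rw [exp_eq_one] at h2
  have := m_pos T
  omega

/-- **The place at infinity** of the function field of a table: its valuation ring is
`{a/b | wt a ≤ wt b}`. -/
def placeInf : Place K (FractionRing T.Alg) where
  toValuationSubring := (valInf T hM).valuationSubring
  algebraMap_mem' a := by
    rw [Valuation.mem_valuationSubring_iff]
    rcases eq_or_ne a 0 with rfl | ha
    · simp
    · exact (valInf_algebraMap_K T hM a ha).le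
  ne_top' := by
    intro h
    have hx : algebraMap T.Alg (FractionRing T.Alg) (Tab.Alg.x T) ∈
        (valInf T hM).valuationSubring := by
      rw [h]
      exact ValuationSubring.mem_top _
    rw [Valuation.mem_valuationSubring_iff, valInf_x, ← exp_zero, exp_le_exp] at hx
    have := m_pos T
    omega
  isPrincipalIdealRing' :=
    haveI := valInf_nontrivial T hM
    Valuation.valuationSubring_isPrincipalIdealRing (valInf T hM)

theorem mem_placeInf_iff (f : FractionRing T.Alg) :
    f ∈ (placeInf T hM).toValuationSubring ↔ valInf T hM f ≤ 1 := Iff.rfl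

end PlaceInf


/-! ### Residue field of a place cut out by a valuation -/

section GeneralResidue

variable {K F : Type*} [Field K] [Field F] [Algebra K F]

theorem mem_maximalIdeal_of_val_lt_one (P : Place K F) (v : Valuation F ℤᵐ⁰)
    (hmem : ∀ a : F, a ∈ P.toValuationSubring ↔ v a ≤ 1) (a : P.toValuationSubring)
    (ha : v (a : F) < 1) : a ∈ IsLocalRing.maximalIdeal P.toValuationSubring := by
  rw [IsLocalRing.mem_maximalIdeal, mem_nonunits_iff]
  intro hu
  obtain ⟨b, hb⟩ := hu.exists_right_inv
  have hb1 : v (b : F) ≤ 1 := (hmem _).1 b.2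
  have h1 : v ((a : F) * (b : F)) = 1 := by
    have := congrArg (fun z : P.toValuationSubring => (z : F)) hb
    simp only [MulMemClass.coe_mul, OneMemClass.coe_one] at this
    rw [this, map_one]
  rw [map_mul] at h1
  have h2 : v (a : F) * v (b : F) < 1 := by
    calc v (a : F) * v (b : F) ≤ v (a : F) * 1 := by gcongr
      _ = v (a : F) := mul_one _
      _ < 1 := ha
  exact absurd h1 h2.ne

/-- If every element of the valuation ring is congruent to a constant, the place has degree
one. -/
theorem deg_eq_one_of_val (P : Place K F) (v : Valuation F ℤᵐ⁰)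
    (hmem : ∀ a : F, a ∈ P.toValuationSubring ↔ v a ≤ 1)
    (hres : ∀ f : F, v f ≤ 1 → ∃ c : K, v (f - algebraMap K F c) < 1) : P.deg = 1 := by
  rw [Place.deg, finrank_eq_one_iff_of_nonzero' (1 : P.ResidueField) one_ne_zero]
  intro y
  obtain ⟨t, rfl⟩ := IsLocalRing.residue_surjective y
  obtain ⟨c, hc⟩ := hres (t : F) ((hmem _).1 t.2)
  refine ⟨c, ?_⟩
  have hsub : (t : F) - algebraMap K F c ∈ P.toValuationSubring := (hmem _).2 hc.le
  have h1 := mem_maximalIdeal_of_val_lt_one P v hmem ⟨_, hsub⟩ hc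
  rw [← IsLocalRing.residue_eq_zero_iff] at h1
  have h2 : (⟨(t : F) - algebraMap K F c, hsub⟩ : P.toValuationSubring)
      = t - algebraMap K P.toValuationSubring c := by
    apply Subtype.ext
    simp only [AddSubgroupClass.coe_sub, Place.coe_algebraMap]
  rw [h2, map_sub, sub_eq_zero] at h1
  rw [Algebra.smul_def, mul_one, h1]
  rfl

theorem finite_residueField_of_deg_eq_one (P : Place K F) (h : P.deg = 1) :
    Module.Finite K P.ResidueField :=
  Module.finite_of_finrank_pos (by
    have : Module.finrank K P.ResidueField = 1 := h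
    omega)

end GeneralResidue

/-! ### Properties of the place at infinity -/

section PlaceInfProps

variable {K : Type u} [Field K] {τ : WType} (T : Tab τ K) [hT : Fact T.PreValid]
  [IsDomain T.Alg] (hM : Stmt_WtMul.{u})

omit [IsDomain T.Alg] in
theorem wexp_wt_ne_zero {b : T.Alg} (hb : b ≠ 0) : wexp (T.wt b.toElt) ≠ 0 := by
  rw [Ne, wexp_eq_zero, wt_eq_bot_iff]
  exact hb

theorem valInf_div (a b : T.Alg) :
    valInf T hM (algebraMap T.Alg (FractionRing T.Alg) a / algebraMap T.Alg (FractionRing T.Alg) b)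
      = wexp (T.wt a.toElt) / wexp (T.wt b.toElt) := by
  rw [map_div₀, valInf_algebraMap, valInf_algebraMap]

/-- The valuation ring at infinity is `{a/b | wt a ≤ wt b}`. -/
theorem mem_placeInf_div_iff (a b : T.Alg) (hb : b ≠ 0) :
    algebraMap T.Alg (FractionRing T.Alg) a / algebraMap T.Alg (FractionRing T.Alg) b
        ∈ (placeInf T hM).toValuationSubring ↔ T.wt a.toElt ≤ T.wt b.toElt := by
  rw [mem_placeInf_iff, valInf_div, div_le_one₀ (zero_lt_iff.2 (wexp_wt_ne_zero T hb)),
    wexp_le_wexp]

theorem exists_valInf_eq_exp_neg_one :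
    ∃ π : FractionRing T.Alg, valInf T hM π = exp (-1 : ℤ) := by
  have hm := m_pos T
  by_cases h1 : τ.m = 1
  · refine ⟨(algebraMap T.Alg _ (Tab.Alg.x T))⁻¹, ?_⟩
    rw [map_inv₀, valInf_x, h1]
    rfl
  · have hm2 : 1 < τ.m := by omega
    set i1 : Fin τ.m := ⟨1, hm2⟩ with hi1
    have hρ : τ.ρ i1 % τ.m = 1 := (hT.out.good.2 i1).1
    refine ⟨(algebraMap T.Alg _ (Tab.Alg.x T)) ^ (τ.ρ i1 / τ.m)
      / algebraMap T.Alg _ (Tab.Alg.ω T i1), ?_⟩
    rw [map_div₀, map_pow, valInf_x, valInf_algebraMap, wt_omega, wexp_natCast, ← exp_nsmul,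
      ← exp_sub, exp_inj]
    have h : ((τ.ρ i1 / τ.m : ℕ) : ℤ) * (τ.m : ℤ) + 1 = (τ.ρ i1 : ℤ) := by
      have := Nat.div_add_mod (τ.ρ i1) τ.m
      rw [hρ] at this
      have h2 : τ.ρ i1 / τ.m * τ.m + 1 = τ.ρ i1 := by rw [mul_comm]; exact this
      exact_mod_cast h2
    simp only [nsmul_eq_mul]
    linarith

/-- `ord` at infinity is `-log` of the weight valuation. -/
theorem ord_placeInf (f : FractionRing T.Alg) :
    (placeInf T hM).ord f = -(log (valInf T hM f)) :=
  ord_eq_neg_log (placeInf T hM) (valInf T hM) (mem_placeInf_iff T hM)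
    (exists_valInf_eq_exp_neg_one T hM) f

/-- On the algebra, `ord` at infinity is minus the weight. -/
theorem ord_placeInf_algebraMap (b : T.Alg) (n : ℕ) (hn : T.wt b.toElt = (n : WithBot ℕ)) :
    (placeInf T hM).ord (algebraMap T.Alg (FractionRing T.Alg) b) = -(n : ℤ) := by
  rw [ord_placeInf, valInf_algebraMap, hn, wexp_natCast, log_exp]

variable (hB : Stmt_WtBasic.{u})

include hB in
theorem exists_const_valInf_sub_lt (f : FractionRing T.Alg) (hf : valInf T hM f ≤ 1) :
    ∃ c : K, valInf T hM (f - algebraMap K (FractionRing T.Alg) c) < 1 := by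
  obtain ⟨a, b, hb, rfl⟩ := IsFractionRing.div_surjective (A := T.Alg) f
  have hb0 : b ≠ 0 := nonZeroDivisors.ne_zero hb
  have hle : T.wt a.toElt ≤ T.wt b.toElt := (mem_placeInf_div_iff T hM a b hb0).1 hf
  have hpos : 0 < wexp (T.wt b.toElt) := zero_lt_iff.2 (wexp_wt_ne_zero T hb0)
  rcases lt_or_eq_of_le hle with hlt | heq
  · refine ⟨0, ?_⟩
    rw [map_zero, sub_zero, valInf_div, div_lt_one₀ hpos]
    exact lt_of_le_of_ne (wexp_le_wexp.2 hlt.le) fun h =>
      hlt.ne (le_antisymm (wexp_le_wexp.1 h.le) (wexp_le_wexp.1 h.ge))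
  · have ha0 : a ≠ 0 := by
      rintro rfl
      rw [eq_comm, show T.wt (0 : T.Alg).toElt = ⊥ from (wt_eq_bot_iff T 0).2 rfl,
        wt_eq_bot_iff] at heq
      exact hb0 heq
    obtain ⟨c, -, hc⟩ := (hB K τ T).2.2.2.2 a b ha0 heq
    refine ⟨c, ?_⟩
    have hfb : algebraMap T.Alg (FractionRing T.Alg) b ≠ 0 := by
      simpa using hb0
    have e : algebraMap T.Alg (FractionRing T.Alg) a / algebraMap T.Alg (FractionRing T.Alg) b
        - algebraMap K (FractionRing T.Alg) c
        = algebraMap T.Alg (FractionRing T.Alg) (a - c • b)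
          / algebraMap T.Alg (FractionRing T.Alg) b := by
      rw [IsScalarTower.algebraMap_apply K T.Alg (FractionRing T.Alg), Algebra.smul_def, map_sub,
        map_mul]
      field_simp
    rw [e, valInf_div, div_lt_one₀ hpos]
    rw [heq] at hc
    exact lt_of_le_of_ne (wexp_le_wexp.2 hc.le) fun h =>
      hc.ne (le_antisymm (wexp_le_wexp.1 h.le) (wexp_le_wexp.1 h.ge))

include hB in
/-- The place at infinity is rational. -/
theorem deg_placeInf : (placeInf T hM).deg = 1 :=
  deg_eq_one_of_val (placeInf T hM) (valInf T hM) (mem_placeInf_iff T hM)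
    (exists_const_valInf_sub_lt T hM hB)

end PlaceInfProps

/-! ### Hypothesis-free statements (weight lemmas of helper4272 plugged in) -/

section Final

variable {K : Type u} [Field K] {τ : WType} (T : Tab τ K) [Fact T.PreValid] [IsDomain T.Alg]

/-- **The place at infinity** of the function field of a table (any field `K`, `PreValid` table
with `Alg T` a domain). -/
def pinf : Place K (FractionRing T.Alg) := placeInf T helper4272.stmt_WtMul

/-- Membership form: `a / b` is regular at infinity iff `wt a ≤ wt b`. -/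
theorem mem_pinf_div_iff (a b : T.Alg) (hb : b ≠ 0) :
    algebraMap T.Alg (FractionRing T.Alg) a / algebraMap T.Alg (FractionRing T.Alg) b
        ∈ (pinf T).toValuationSubring ↔ T.wt a.toElt ≤ T.wt b.toElt :=
  mem_placeInf_div_iff T _ a b hb

/-- Order form: `ord_∞ b = - wt b` on the algebra. -/
theorem ord_pinf_algebraMap (b : T.Alg) (t : ℕ) (ht : T.wt b.toElt = (t : WithBot ℕ)) :
    (pinf T).ord (algebraMap T.Alg (FractionRing T.Alg) b) = -(t : ℤ) :=
  ord_placeInf_algebraMap T _ b t ht

/-- The place at infinity is rational. -/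
theorem deg_pinf : (pinf T).deg = 1 :=
  deg_placeInf T _ helper4272.stmt_WtBasic

theorem finite_residueField_pinf : Module.Finite K (pinf T).ResidueField :=
  finite_residueField_of_deg_eq_one _ (deg_pinf T)

/-- `x` has a pole at infinity. -/
theorem x_not_mem_pinf :
    algebraMap T.Alg (FractionRing T.Alg) (Tab.Alg.x T) ∉ (pinf T).toValuationSubring := by
  intro hx
  have h1 : valInf T helper4272.stmt_WtMul
      (algebraMap T.Alg (FractionRing T.Alg) (Tab.Alg.x T)) ≤ 1 := hx
  rw [valInf_x, ← exp_zero, exp_le_exp] at h1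
  have := m_pos T
  omega

end Final

/-- W1d-1, membership form of helper975 (verbatim). -/
theorem stmt_InfPlace : helper975.Stmt_InfPlace := fun _ _ _ _ T _ _ =>
  ⟨pinf T, mem_pinf_div_iff T⟩

/-- W1d-1, order form of helper975 (verbatim). -/
theorem stmt_InfPlaceOrd : helper975.Stmt_InfPlaceOrd := fun _ _ _ _ T _ _ =>
  ⟨pinf T, ord_pinf_algebraMap T⟩

/-- **`Stmt_Frob`** of the algebraic-route Spec, unconditionally. -/
theorem stmt_Frob : helper3351.Stmt_Frob := helper975.stmt_Frob stmt_InfPlace

end Fermat.Agent.S27.helper9185
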