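import Fermat.Agent.S27.helper931_Transport
import Fermat.Agent.S27.helper6247_Spec

/-!
# S27-L-ISO, part 2: the Spec-shaped reduction to `ℂ` in universe `0`

In the vocabulary of `helper6247_Spec`:

* `transcendental_of_compat`, `finiteDimensional_adjoin_of_compat`: the hypotheses
  "`x` transcendental, `F` finite over `K⟮x⟯`" are invariant under transport;
* `TorsionCountAll K F`: `#Pic⁰[n] = n^(2g)` for all `n > 0`; invariant under transport;
* `complex_all_universes`: `Stmt_Complex` (stated for `F : Type`) gives the count over `ℂ` for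
  function fields in every universe;
* `transfer_of_card_eq_continuum`: `Stmt_Complex` gives the conclusion of `Stmt_Transfer` for
  every algebraically closed field of characteristic zero and cardinality continuum;
* `transfer_of_ringEquiv`: change of the constant field along a ring isomorphism.
-/

set_option autoImplicit false

noncomputable section

open AlgebraicCurve IntermediateField

namespace Fermat.Agent.S27.helper931

universe u v u' v'

variable {K : Type u} {F : Type v} {K' : Type u'} {F' : Type v'}
  [Field K] [Field F] [Algebra K F] [Field K'] [Field F'] [Algebra K' F']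
  {σ : K ≃+* K'} {e : F ≃+* F'}

theorem isAlgebraic_of_compat (h : Compat σ e) {x : F} (hx : IsAlgebraic K x) :
    IsAlgebraic K' (e x) := by
  obtain ⟨p, hp0, hp⟩ := hx
  refine ⟨p.map (σ : K →+* K'), ?_, ?_⟩
  · exact (Polynomial.map_ne_zero_iff σ.injective).mpr hp0
  · have h1 : (algebraMap K' F').comp (σ : K →+* K') = (e : F →+* F').comp (algebraMap K F) := by
      ext a
      exact (h a).symm
    have h2 : Polynomial.eval₂ ((e : F →+* F').comp (algebraMap K F)) ((e : F →+* F') x) p
        = (e : F →+* F') (Polynomial.eval₂ (algebraMap K F) x p) :=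
      (Polynomial.hom_eval₂ p (algebraMap K F) (e : F →+* F') x).symm
    rw [Polynomial.aeval_def, Polynomial.eval₂_map, h1]
    refine h2.trans ?_
    rw [← Polynomial.aeval_def, hp, map_zero]

theorem transcendental_of_compat (h : Compat σ e) {x : F} (hx : Transcendental K x) :
    Transcendental K' (e x) := by
  intro halg
  apply hx
  have := isAlgebraic_of_compat h.symm halg
  rwa [RingEquiv.symm_apply_apply] at this

theorem mem_adjoin_of_compat (h : Compat σ e) (x : F) {a : F} (ha : a ∈ K⟮x⟯) :
    e a ∈ K'⟮e x⟯ := by
  induction ha using IntermediateField.adjoin_induction with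
  | mem y hy =>
    have : y = x := hy
    rw [this]
    exact IntermediateField.mem_adjoin_simple_self K' (e x)
  | algebraMap c =>
    rw [h c]
    exact IntermediateField.algebraMap_mem _ _
  | add y z _ _ hy hz =>
    rw [map_add]
    exact add_mem hy hz
  | inv y _ hy =>
    rw [map_inv₀]
    exact inv_mem hy
  | mul y z _ _ hy hz =>
    rw [map_mul]
    exact mul_mem hy hz

/-- The bijection `K⟮x⟯ → K'⟮e x⟯` induced by a compatible pair. -/
def adjoinMap (h : Compat σ e) (x : F) (a : K⟮x⟯) : K'⟮e x⟯ :=
  ⟨e a, mem_adjoin_of_compat h x a.2⟩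

theorem adjoinMap_bijective (h : Compat σ e) (x : F) : Function.Bijective (adjoinMap h x) := by
  constructor
  · intro a b hab
    have := congrArg Subtype.val hab
    exact Subtype.ext (e.injective this)
  · intro b
    have hb := mem_adjoin_of_compat h.symm (e x) b.2
    rw [RingEquiv.symm_apply_apply] at hb
    exact ⟨⟨e.symm b, hb⟩, Subtype.ext (RingEquiv.apply_symm_apply e _)⟩

theorem finiteDimensional_adjoin_of_compat (h : Compat σ e) (x : F)
    [FiniteDimensional K⟮x⟯ F] : FiniteDimensional K'⟮e x⟯ F' := by
  have h1 := lift_rank_eq_of_equiv_equiv (adjoinMap h x) e.toAddEquiv (adjoinMap_bijective h x)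
    (fun r m => by
      show e (r • m) = adjoinMap h x r • e m
      rw [Algebra.smul_def, Algebra.smul_def, map_mul]
      rfl)
  have : Module.Free K'⟮e x⟯ F' := Module.Free.of_divisionRing _ _
  rw [FiniteDimensional, ← Module.rank_lt_aleph0_iff]
  have h2 : Module.rank K⟮x⟯ F < Cardinal.aleph0 := Module.rank_lt_aleph0 _ _
  have h3 : Cardinal.lift.{v} (Module.rank K'⟮e x⟯ F') < Cardinal.aleph0 := by
    rw [← h1]
    exact Cardinal.lift_lt_aleph0.mpr h2
  exact Cardinal.lift_lt_aleph0.mp h3

/-- A field finite over `K⟮x⟯` is essentially of finite type over `K`. -/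
theorem essFiniteType_of_finiteDimensional_adjoin (x : F) [FiniteDimensional K⟮x⟯ F] :
    Algebra.EssFiniteType K F := by
  have h1 : Algebra.EssFiniteType K K⟮x⟯ := by
    rw [IntermediateField.essFiniteType_iff]
    exact ⟨{x}, by simp⟩
  have h2 : Algebra.EssFiniteType K⟮x⟯ F := inferInstance
  exact Algebra.EssFiniteType.comp K K⟮x⟯ F

/-- The conclusion of `Stmt_Complex` / `Stmt_Transfer` for a pair `K`, `F`. -/
def TorsionCountAll (K : Type u) (F : Type v) [Field K] [Field F] [Algebra K F] : Prop :=
  ∀ n : ℕ, 0 < n → Nat.card (Pic0.torsion K F n) = n ^ (2 * genusFF K F)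

theorem TorsionCountAll.of_compat (h : Compat σ e) (H : TorsionCountAll K F) :
    TorsionCountAll K' F' := by
  intro n hn
  rw [← natCard_torsion_eq h, ← genusFF_eq h]
  exact H n hn

theorem torsionCountAll_iff (h : Compat σ e) : TorsionCountAll K F ↔ TorsionCountAll K' F' :=
  ⟨TorsionCountAll.of_compat h, TorsionCountAll.of_compat h.symm⟩

theorem TorsionCountAll.torsionCount (H : TorsionCountAll K F) : TorsionCount K F := by
  intro ℓ hℓ k
  rw [H (ℓ ^ k) (pow_pos hℓ.out.pos k), ← pow_mul]
  congr 1
  ring

/-- `Stmt_Complex` (stated for `F : Type`) holds for function fields over `ℂ` in every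
universe. -/
theorem complex_all_universes (hC : helper6247.Stmt_Complex)
    (F : Type v) [Field F] [Algebra ℂ F] (x : F) (hx : Transcendental ℂ x)
    [FiniteDimensional ℂ⟮x⟯ F] : TorsionCountAll ℂ F := by
  have : Algebra.EssFiniteType ℂ F := essFiniteType_of_finiteDimensional_adjoin x
  have : Small.{0} F := small_of_essFiniteType ℂ F
  have h : Compat (RingEquiv.refl ℂ) (Shrink.algEquiv ℂ F).symm.toRingEquiv :=
    Compat.of_algEquiv _
  have hx' := transcendental_of_compat h hx
  have hfin := finiteDimensional_adjoin_of_compat h x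
  exact (torsionCountAll_iff h).mpr (fun n hn => hC (Shrink.{0} F) _ hx' n hn)

/-- Change of the constant field along a ring isomorphism, in the shape of the Spec. -/
theorem transfer_of_ringEquiv {K₁ : Type u} {K₂ : Type u'} [Field K₁] [Field K₂]
    (σ : K₁ ≃+* K₂)
    (hC : ∀ (F : Type v) [Field F] [Algebra K₁ F] (x : F), Transcendental K₁ x →
      ∀ [FiniteDimensional K₁⟮x⟯ F], TorsionCountAll K₁ F)
    (F : Type v) [Field F] [Algebra K₂ F] (x : F) (hx : Transcendental K₂ x)
    [FiniteDimensional K₂⟮x⟯ F] : TorsionCountAll K₂ F := by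
  let _ : Algebra K₁ F := ((algebraMap K₂ F).comp σ.toRingHom).toAlgebra
  have h : Compat (K := K₁) (F := F) (K' := K₂) (F' := F) σ (RingEquiv.refl F) := fun _ => rfl
  have hx' : Transcendental K₁ x := transcendental_of_compat h.symm hx
  have hfin : FiniteDimensional K₁⟮x⟯ F := finiteDimensional_adjoin_of_compat h.symm x
  exact (torsionCountAll_iff h).mp (hC F x hx')

/-- **`Stmt_Complex` implies the conclusion of `Stmt_Transfer` for every algebraically closed
field of characteristic zero and cardinality continuum** (all universes). -/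
theorem transfer_of_card_eq_continuum (hC : helper6247.Stmt_Complex)
    (K : Type u) [Field K] [IsAlgClosed K] [CharZero K]
    (hK : Cardinal.mk K = Cardinal.continuum)
    (F : Type v) [Field F] [Algebra K F] (x : F) (hx : Transcendental K x)
    [FiniteDimensional K⟮x⟯ F] (n : ℕ) (hn : 0 < n) :
    Nat.card (Pic0.torsion K F n) = n ^ (2 * genusFF K F) := by
  have h1 : Cardinal.aleph0 < Cardinal.mk ℂ := by
    rw [Cardinal.mk_complex]; exact Cardinal.aleph0_lt_continuum
  have h2 : Nonempty (ℂ ≃ K) := by
    rw [← Cardinal.lift_mk_eq', Cardinal.mk_complex, hK, Cardinal.lift_continuum,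
      Cardinal.lift_continuum]
  obtain ⟨σ⟩ := IsAlgClosed.ringEquiv_of_equiv_of_charZero h1 h2
  exact transfer_of_ringEquiv σ (fun F' _ _ x' hx' _ => complex_all_universes hC F' x' hx')
    F x hx n hn

end Fermat.Agent.S27.helper931
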