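import Fermat.Agent.S27.helper3372_WeakRRMain

/-!
# S27: the genus from the dimensions of `L(t·P)` at one place (helper9352)

`genusFF_eq_of_finrank_single`: if `P` is a place of degree one and
`dim L(t·P) + g = t + 1` for all large `t`, then `genusFF K F = g`.

This is a two-line consequence of the (char-free) weak Riemann–Roch theorem of
`helper3372_WeakRRMain`: the hypothesis itself is a `RiemannData` (with `B = P`, `n = 1`),
and `H¹(t·P) = 0` for large `t`.  It gives `genusFF = number of gaps` for the function field
of a table algebra (`L(t·P∞) = Lspace t`, `dim = nongaps t`) without any computation with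
repartitions.
-/

set_option autoImplicit false

open AlgebraicCurve

namespace Fermat.Agent.S27.helper9352

universe u v

variable {K : Type u} {F : Type v} [Field K] [Field F] [Algebra K F]

/-- The hypothesis "`dim L(t·P) + g = t + 1` for `t ≥ t₀`" is a `RiemannData`. -/
theorem riemannData_of_finrank_single
    (hdeg : ∀ v : Place K F, v.deg = 1) (P : Place K F) (g t₀ : ℕ)
    (h : ∀ t : ℕ, t₀ ≤ t →
      Module.finrank K (riemannRochSpace (Finsupp.single P (t : ℤ) : Divisor K F)) + g = t + 1) :
    helper3372.RiemannData K F := by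
  refine ⟨Finsupp.single P 1, Finsupp.single P ((t₀ + g : ℕ) : ℤ), 1, Nat.one_pos, ?_, ?_, ?_, ?_⟩
  · exact Finsupp.single_nonneg.mpr zero_le_one
  · exact Finsupp.single_nonneg.mpr (Int.natCast_nonneg _)
  · rw [Divisor.degree_single, hdeg P]
    simp
  · intro l
    have hD : (l • (Finsupp.single P 1 : Divisor K F) + Finsupp.single P ((t₀ + g : ℕ) : ℤ))
        = Finsupp.single P ((l + t₀ + g : ℕ) : ℤ) := by
      rw [Finsupp.smul_single, ← Finsupp.single_add]
      congr 1
      push_cast
      simp
      ring
    rw [hD]
    have := h (l + t₀ + g) (by omega)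
    omega

/-- **Genus from one point**: if `dim L(t·P) + g = t + 1` for all `t ≥ t₀`, then the
(repartition) genus of `F` is `g`. -/
theorem genusFF_eq_of_finrank_single (hP : HasPrincipalDivisors K F)
    (hres : ∀ v : Place K F, Function.Surjective (algebraMap K v.ResidueField))
    (hdeg : ∀ v : Place K F, v.deg = 1) (P : Place K F) (g t₀ : ℕ)
    (h : ∀ t : ℕ, t₀ ≤ t →
      Module.finrank K (riemannRochSpace (Finsupp.single P (t : ℤ) : Divisor K F)) + g = t + 1) :
    genusFF K F = g := by
  have hR := riemannData_of_finrank_single hdeg P g t₀ h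
  have hne : Nonempty (Place K F) := ⟨P⟩
  obtain ⟨c, hc⟩ := helper3372.exists_H1_subsingleton hP hres hdeg hne hR
  set t : ℕ := max t₀ c.toNat with ht
  have h1 := helper3372.weak_rr hP hres hdeg hne hR (Finsupp.single P (t : ℤ))
  have hdegD : Divisor.degree (Finsupp.single P (t : ℤ) : Divisor K F) = t := by
    rw [Divisor.degree_single, hdeg P]
    simp
  have hct : c ≤ (t : ℤ) := by
    have : c ≤ (c.toNat : ℤ) := Int.self_le_toNat c
    have h2 : (c.toNat : ℤ) ≤ (t : ℤ) := by exact_mod_cast le_max_right t₀ c.toNat
    exact this.trans h2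
  have hsub : Subsingleton (H1 (Finsupp.single P (t : ℤ) : Divisor K F)) :=
    hc _ (by rw [hdegD]; exact hct)
  have h0 : Module.finrank K (H1 (Finsupp.single P (t : ℤ) : Divisor K F)) = 0 :=
    Module.finrank_zero_of_subsingleton
  have h2 := h t (le_max_left t₀ c.toNat)
  rw [h0, hdegD] at h1
  have h3 : (Module.finrank K (riemannRochSpace (Finsupp.single P (t : ℤ) : Divisor K F)) : ℤ)
      + g = t + 1 := by exact_mod_cast h2
  have : (genusFF K F : ℤ) = g := by
    push_cast at h1
    linarith
  exact_mod_cast this

end Fermat.Agent.S27.helper9352
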