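import Mathlib
import Fermat.Agent.S27.helper9531_Branch

set_option autoImplicit false

open scoped Polynomial.Bivariate Topology
open Polynomial

namespace Fermat.Agent.S27.helper9531

noncomputable section

/-! ### Algebra: Bezout identity over `ℂ[X]` with cleared denominators -/

theorem gauss_bezout_aux {R K : Type*} [CommRing R] [IsDomain R] [IsGCDMonoid R] [Field K]
    [Algebra R K] [IsFractionRing R K] (p Q : R[X]) (hp : Irreducible p) (hQ : Q ≠ 0)
    (hdeg : Q.natDegree < p.natDegree) :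
    ∃ (u v : R[X]) (w : R), w ≠ 0 ∧ u * p + v * Q = C w := by
  have hinj : Function.Injective (algebraMap R K) := IsFractionRing.injective R K
  have hprim : p.IsPrimitive := hp.isPrimitive (by omega)
  have hirr : Irreducible (p.map (algebraMap R K)) :=
    (hprim.irreducible_iff_irreducible_map_fraction_map).1 hp
  have hQ' : Q.map (algebraMap R K) ≠ 0 := (Polynomial.map_ne_zero_iff hinj).mpr hQ
  have hnd : ¬ p.map (algebraMap R K) ∣ Q.map (algebraMap R K) := by
    intro h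
    have := natDegree_le_of_dvd h hQ'
    rw [natDegree_map_eq_of_injective hinj, natDegree_map_eq_of_injective hinj] at this
    omega
  have hcop : IsCoprime (p.map (algebraMap R K)) (Q.map (algebraMap R K)) :=
    hirr.coprime_iff_not_dvd.2 hnd
  obtain ⟨u', v', huv⟩ := hcop
  obtain ⟨b₁, hb₁, hu⟩ := IsLocalization.integerNormalization_spec (nonZeroDivisors R) u'
  obtain ⟨b₂, hb₂, hv⟩ := IsLocalization.integerNormalization_spec (nonZeroDivisors R) v'
  refine ⟨C b₂ * IsLocalization.integerNormalization (nonZeroDivisors R) u',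
    C b₁ * IsLocalization.integerNormalization (nonZeroDivisors R) v', b₁ * b₂, ?_, ?_⟩
  · exact mul_ne_zero (nonZeroDivisors.ne_zero hb₁) (nonZeroDivisors.ne_zero hb₂)
  · apply Polynomial.map_injective (algebraMap R K) hinj
    have hu' : b₁ • u' = C (algebraMap R K b₁) * u' := by
      rw [← algebraMap_smul K b₁ u', smul_eq_C_mul]
    have hv' : b₂ • v' = C (algebraMap R K b₂) * v' := by
      rw [← algebraMap_smul K b₂ v', smul_eq_C_mul]
    simp only [Polynomial.map_add, Polynomial.map_mul, Polynomial.map_C, hu, hv, hu', hv',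
      map_mul]
    linear_combination (C (algebraMap R K b₁) * C (algebraMap R K b₂)) * huv

/-- If `p ∈ ℂ[X][Y]` is irreducible and `Q ≠ 0` has smaller `Y`-degree, then some nonzero
`w ∈ ℂ[X]` is a `ℂ[X][Y]`-combination of `p` and `Q`. -/
theorem gauss_bezout (p Q : ℂ[X][Y]) (hp : Irreducible p) (hQ : Q ≠ 0)
    (hdeg : Q.natDegree < p.natDegree) :
    ∃ (u v : ℂ[X][Y]) (w : ℂ[X]), w ≠ 0 ∧ u * p + v * Q = C w :=
  gauss_bezout_aux (K := RatFunc ℂ) p Q hp hQ hdeg

/-- `S` contains all the bad parameter values of `p`: outside `S` the leading coefficient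
does not vanish and the fibre polynomial `p(t, ·)` is separable. -/
def IsGeneric (p : ℂ[X][Y]) (S : Set ℂ) : Prop :=
  ∀ t ∉ S, p.leadingCoeff.eval t ≠ 0 ∧ (p.map (evalRingHom t)).Separable

theorem IsGeneric.mono {p : ℂ[X][Y]} {S S' : Set ℂ} (h : IsGeneric p S) (hSS' : S ⊆ S') :
    IsGeneric p S' := fun t ht => h t fun hS => ht (hSS' hS)

/-- **BR0**: an irreducible `p` of positive `Y`-degree has a finite bad set. -/
theorem exists_finite_isGeneric (p : ℂ[X][Y]) (hp : Irreducible p) (hdeg : p.natDegree ≠ 0) :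
    ∃ S : Set ℂ, S.Finite ∧ IsGeneric p S := by
  have hder : derivative p ≠ 0 := by
    intro h
    exact hdeg (Polynomial.derivative_eq_zero.mp h)
  obtain ⟨u, v, w, hw, huv⟩ := gauss_bezout p (derivative p) hp hder (natDegree_derivative_lt hdeg)
  have hlc : p.leadingCoeff ≠ 0 := leadingCoeff_ne_zero.mpr hp.ne_zero
  refine ⟨{t | (w * p.leadingCoeff).IsRoot t}, finite_setOfPred_isRoot (mul_ne_zero hw hlc), ?_⟩
  intro t ht
  have ht' : w.eval t ≠ 0 ∧ p.leadingCoeff.eval t ≠ 0 := by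
    simp only [Set.mem_ofPred_eq, IsRoot.def, eval_mul, mul_eq_zero, not_or] at ht
    exact ht
  refine ⟨ht'.2, ?_⟩
  rw [separable_def]
  have h := congrArg (Polynomial.map (evalRingHom t)) huv
  simp only [Polynomial.map_add, Polynomial.map_mul, Polynomial.map_C, coe_evalRingHom] at h
  refine ⟨C (w.eval t)⁻¹ * u.map (evalRingHom t), C (w.eval t)⁻¹ * v.map (evalRingHom t), ?_⟩
  have hc : C (w.eval t)⁻¹ * C (w.eval t) = (1 : ℂ[X]) := by
    rw [← C_mul, inv_mul_cancel₀ ht'.1, C_1]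
  rw [← hc, ← h, derivative_map]
  ring

/-! ### Analysis: entire functions of polynomial growth -/

/-- An entire function of polynomial growth is a polynomial. -/
theorem exists_polynomial_of_growth (d : ℕ) :
    ∀ (f : ℂ → ℂ), Differentiable ℂ f → ∀ (A : ℝ), (∀ z, ‖f z‖ ≤ A * (1 + ‖z‖) ^ d) →
      ∃ P : ℂ[X], ∀ z, f z = P.eval z := by
  induction d with
  | zero =>
    intro f hf A hA
    have hb : Bornology.IsBounded (Set.range f) := by
      rw [isBounded_iff_forall_norm_le]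
      refine ⟨A, ?_⟩
      rintro _ ⟨z, rfl⟩
      simpa using hA z
    refine ⟨C (f 0), fun z => ?_⟩
    rw [eval_C]
    exact hf.apply_eq_apply_of_bounded hb z 0
  | succ d ih =>
    intro f hf A hA
    have hA0 : 0 ≤ A := by
      have := hA 0
      simp only [norm_zero, add_zero, one_pow, mul_one] at this
      exact le_trans (norm_nonneg _) this
    set g : ℂ → ℂ := dslope f 0 with hg
    have hgd : Differentiable ℂ g := by
      rw [← differentiableOn_univ]
      exact (Complex.differentiableOn_dslope Filter.univ_mem).mpr hf.differentiableOn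
    have hfg : ∀ z, f z = f 0 + z * g z := by
      intro z
      have := sub_smul_dslope f 0 z
      rw [sub_zero, smul_eq_mul] at this
      rw [hg, this]; ring
    obtain ⟨M, hM⟩ := (isCompact_closedBall (0 : ℂ) 1).exists_bound_of_continuousOn
      hgd.continuous.continuousOn
    have hbound : ∀ z, ‖g z‖ ≤ (max M 0 + 2 * A + ‖f 0‖) * (1 + ‖z‖) ^ d := by
      intro z
      have h1 : (1 : ℝ) ≤ (1 + ‖z‖) ^ d := one_le_pow₀ (by linarith [norm_nonneg z])
      have hM0 : 0 ≤ max M 0 := le_max_right _ _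
      have hf0 : 0 ≤ ‖f 0‖ := norm_nonneg _
      by_cases hz : ‖z‖ ≤ 1
      · have hzM : ‖g z‖ ≤ M := hM z (by simpa [Metric.mem_closedBall] using hz)
        calc ‖g z‖ ≤ max M 0 := le_trans hzM (le_max_left _ _)
          _ ≤ (max M 0 + 2 * A + ‖f 0‖) * 1 := by linarith
          _ ≤ (max M 0 + 2 * A + ‖f 0‖) * (1 + ‖z‖) ^ d :=
            mul_le_mul_of_nonneg_left h1 (by linarith)
      · have hz : 1 < ‖z‖ := not_le.mp hz
        have hzpos : 0 < ‖z‖ := by linarith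
        have hz0 : z ≠ 0 := norm_pos_iff.mp hzpos
        have hgz : g z = (f z - f 0) / z := by
          rw [hfg z]; field_simp; ring
        have hnum : ‖f z - f 0‖ ≤ A * (1 + ‖z‖) ^ (d + 1) + ‖f 0‖ :=
          le_trans (norm_sub_le _ _) (add_le_add (hA z) le_rfl)
        rw [hgz, norm_div, div_le_iff₀ hzpos]
        have h2 : (1 + ‖z‖) ≤ 2 * ‖z‖ := by linarith
        have hpow : 0 ≤ (1 + ‖z‖) ^ d := by positivity
        calc ‖f z - f 0‖ ≤ A * (1 + ‖z‖) ^ (d + 1) + ‖f 0‖ := hnum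
          _ = A * ((1 + ‖z‖) ^ d * (1 + ‖z‖)) + ‖f 0‖ := by rw [pow_succ]
          _ ≤ A * ((1 + ‖z‖) ^ d * (2 * ‖z‖)) + ‖f 0‖ * ((1 + ‖z‖) ^ d * ‖z‖) := by
            have h3 : ‖f 0‖ * 1 ≤ ‖f 0‖ * ((1 + ‖z‖) ^ d * ‖z‖) := by
              apply mul_le_mul_of_nonneg_left _ hf0
              nlinarith
            have h4 : A * ((1 + ‖z‖) ^ d * (1 + ‖z‖)) ≤ A * ((1 + ‖z‖) ^ d * (2 * ‖z‖)) :=
              mul_le_mul_of_nonneg_left (mul_le_mul_of_nonneg_left h2 hpow) hA0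
            linarith
          _ ≤ (max M 0 + 2 * A + ‖f 0‖) * (1 + ‖z‖) ^ d * ‖z‖ := by
            have h5 : 0 ≤ max M 0 * ((1 + ‖z‖) ^ d * ‖z‖) := by positivity
            nlinarith
    obtain ⟨Q, hQ⟩ := ih g hgd _ hbound
    refine ⟨C (f 0) + X * Q, fun z => ?_⟩
    rw [eval_add, eval_C, eval_mul, eval_X, ← hQ z, hfg z]

/-- A function holomorphic off a finite set and bounded by a continuous function extends to an
entire function satisfying the same bound. -/
theorem exists_entire_extension (S : Set ℂ) (hS : S.Finite) (f : ℂ → ℂ)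
    (hd : DifferentiableOn ℂ f Sᶜ) (G : ℂ → ℝ) (hG : Continuous G)
    (hb : ∀ z ∉ S, ‖f z‖ ≤ G z) :
    ∃ F : ℂ → ℂ, Differentiable ℂ F ∧ (∀ z ∉ S, F z = f z) ∧ ∀ z, ‖F z‖ ≤ G z := by
  have hSo : IsOpen Sᶜ := hS.isClosed.isOpen_compl
  set F : ℂ → ℂ := fun z => Filter.limUnder (𝓝[≠] z) f with hF
  have hFeq : ∀ z ∉ S, F z = f z := by
    intro z hz
    have hcont : ContinuousAt f z :=
      (hd.differentiableAt (hSo.mem_nhds hz)).continuousAt
    exact (hcont.tendsto.mono_left nhdsWithin_le_nhds).limUnder_eq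
  have hFd : Differentiable ℂ F := by
    intro c
    by_cases hc : c ∈ S
    · -- isolated point of `S`
      have hfin : (S \ {c}).Finite := hS.subset Set.sdiff_subset
      have hopen : IsOpen (S \ {c})ᶜ := hfin.isClosed.isOpen_compl
      have hcmem : c ∈ (S \ {c})ᶜ := by simp
      obtain ⟨ρ₁, hρ₁, hball₁⟩ := Metric.isOpen_iff.mp hopen c hcmem
      have hGc : ∀ᶠ z in 𝓝 c, G z < G c + 1 :=
        hG.continuousAt.eventually_lt continuousAt_const (by simp)
      obtain ⟨ρ₂, hρ₂, hball₂⟩ := Metric.eventually_nhds_iff.mp hGc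
      set ρ := min ρ₁ ρ₂ with hρ
      have hρpos : 0 < ρ := lt_min hρ₁ hρ₂
      have hsub : Metric.ball c ρ \ {c} ⊆ Sᶜ := by
        rintro z ⟨hz, hzc⟩ hzS
        have hz1 : z ∈ Metric.ball c ρ₁ := Metric.ball_subset_ball (min_le_left _ _) hz
        exact hball₁ hz1 ⟨hzS, hzc⟩
      have hd' : DifferentiableOn ℂ f (Metric.ball c ρ \ {c}) := hd.mono hsub
      have hbdd : BddAbove (norm ∘ f '' (Metric.ball c ρ \ {c})) := by
        refine ⟨G c + 1, ?_⟩
        rintro _ ⟨z, hz, rfl⟩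
        have hz2 : dist z c < ρ₂ := lt_of_lt_of_le (Metric.mem_ball.mp hz.1) (min_le_right _ _)
        exact le_trans (hb z (hsub hz)) (hball₂ hz2).le
      have hupd := Complex.differentiableOn_update_limUnder_of_bddAbove
        (Metric.ball_mem_nhds c hρpos) hd' hbdd
      have hEq : ∀ z ∈ Metric.ball c ρ, F z = Function.update f c (Filter.limUnder (𝓝[≠] c) f) z := by
        intro z hz
        by_cases hzc : z = c
        · subst hzc; simp [hF]
        · rw [Function.update_of_ne hzc]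
          exact hFeq z (hsub ⟨hz, hzc⟩)
      have hda := hupd.differentiableAt (Metric.ball_mem_nhds c hρpos)
      refine hda.congr_of_eventuallyEq ?_
      exact Filter.eventually_of_mem (Metric.ball_mem_nhds c hρpos) hEq
    · have hda : DifferentiableAt ℂ f c := hd.differentiableAt (hSo.mem_nhds hc)
      refine hda.congr_of_eventuallyEq ?_
      exact Filter.eventually_of_mem (hSo.mem_nhds hc) fun z hz => hFeq z hz
  refine ⟨F, hFd, hFeq, ?_⟩
  intro c
  by_cases hc : c ∈ S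
  · have hfin : (S \ {c}).Finite := hS.subset Set.sdiff_subset
    have hopen : IsOpen (S \ {c})ᶜ := hfin.isClosed.isOpen_compl
    have hcmem : c ∈ (S \ {c})ᶜ := by simp
    have h1 : Filter.Tendsto (fun z => ‖F z‖) (𝓝[≠] c) (𝓝 ‖F c‖) :=
      ((hFd c).continuousAt.norm.tendsto).mono_left nhdsWithin_le_nhds
    have h2 : Filter.Tendsto G (𝓝[≠] c) (𝓝 (G c)) :=
      (hG.continuousAt.tendsto).mono_left nhdsWithin_le_nhds
    refine le_of_tendsto_of_tendsto h1 h2 ?_
    have hmem : (S \ {c})ᶜ ∩ {c}ᶜ ∈ 𝓝[≠] c :=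
      Filter.inter_mem (nhdsWithin_le_nhds (hopen.mem_nhds hcmem)) self_mem_nhdsWithin
    refine Filter.eventually_of_mem hmem ?_
    rintro z ⟨hz1, hz2⟩
    have hzS : z ∉ S := fun hzS => hz1 ⟨hzS, hz2⟩
    show ‖F z‖ ≤ G z
    rw [hFeq z hzS]
    exact hb z hzS
  · rw [hFeq c hc]; exact hb c hc

/-! ### Polynomial growth -/

/-- Polynomial growth of a real-valued function on `ℂ`. -/
def PolyGrowth (G : ℂ → ℝ) : Prop := ∃ (A : ℝ) (d : ℕ), 0 ≤ A ∧ ∀ t, G t ≤ A * (1 + ‖t‖) ^ d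

theorem PolyGrowth.add {G₁ G₂ : ℂ → ℝ} (h₁ : PolyGrowth G₁) (h₂ : PolyGrowth G₂) :
    PolyGrowth (fun t => G₁ t + G₂ t) := by
  obtain ⟨A₁, d₁, hA₁, h₁⟩ := h₁
  obtain ⟨A₂, d₂, hA₂, h₂⟩ := h₂
  refine ⟨A₁ + A₂, d₁ + d₂, add_nonneg hA₁ hA₂, fun t => ?_⟩
  have hbase : (1 : ℝ) ≤ 1 + ‖t‖ := by linarith [norm_nonneg t]
  have e1 : (1 + ‖t‖) ^ d₁ ≤ (1 + ‖t‖) ^ (d₁ + d₂) := pow_le_pow_right₀ hbase (by omega)
  have e2 : (1 + ‖t‖) ^ d₂ ≤ (1 + ‖t‖) ^ (d₁ + d₂) := pow_le_pow_right₀ hbase (by omega)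
  calc G₁ t + G₂ t ≤ A₁ * (1 + ‖t‖) ^ d₁ + A₂ * (1 + ‖t‖) ^ d₂ := add_le_add (h₁ t) (h₂ t)
    _ ≤ A₁ * (1 + ‖t‖) ^ (d₁ + d₂) + A₂ * (1 + ‖t‖) ^ (d₁ + d₂) :=
      add_le_add (mul_le_mul_of_nonneg_left e1 hA₁) (mul_le_mul_of_nonneg_left e2 hA₂)
    _ = (A₁ + A₂) * (1 + ‖t‖) ^ (d₁ + d₂) := by ring

theorem PolyGrowth.zero : PolyGrowth (fun _ => (0 : ℝ)) :=
  ⟨0, 0, le_rfl, fun t => by simp⟩

theorem PolyGrowth.sum {ι : Type*} (I : Finset ι) (G : ι → ℂ → ℝ)
    (h : ∀ i ∈ I, PolyGrowth (G i)) : PolyGrowth (fun t => ∑ i ∈ I, G i t) := by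
  classical
  induction I using Finset.induction_on with
  | empty => simpa using PolyGrowth.zero
  | insert i I hi ih =>
    have h1 : PolyGrowth (G i) := h i (Finset.mem_insert_self i I)
    have h2 : PolyGrowth (fun t => ∑ j ∈ I, G j t) :=
      ih fun j hj => h j (Finset.mem_insert_of_mem hj)
    have := h1.add h2
    simpa [Finset.sum_insert hi] using this

theorem PolyGrowth.const_mul_pow {G : ℂ → ℝ} (h : PolyGrowth G) (hG : ∀ t, 0 ≤ G t) (c : ℝ)
    (hc : 0 ≤ c) (k : ℕ) : PolyGrowth (fun t => (c * G t) ^ k) := by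
  obtain ⟨A, d, hA, h⟩ := h
  refine ⟨(c * A) ^ k, d * k, by positivity, fun t => ?_⟩
  have h1 : c * G t ≤ c * A * (1 + ‖t‖) ^ d := by
    rw [mul_assoc]; exact mul_le_mul_of_nonneg_left (h t) hc
  calc (c * G t) ^ k ≤ (c * A * (1 + ‖t‖) ^ d) ^ k :=
        pow_le_pow_left₀ (mul_nonneg hc (hG t)) h1 k
    _ = (c * A) ^ k * (1 + ‖t‖) ^ (d * k) := by rw [mul_pow, ← pow_mul]

theorem polyGrowth_norm_eval (Q : ℂ[X]) : PolyGrowth (fun t => ‖Q.eval t‖) := by
  refine ⟨∑ i ∈ Finset.range (Q.natDegree + 1), ‖Q.coeff i‖, Q.natDegree,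
    Finset.sum_nonneg fun i _ => norm_nonneg _, fun t => ?_⟩
  have hbase : (1 : ℝ) ≤ 1 + ‖t‖ := by linarith [norm_nonneg t]
  show ‖Q.eval t‖ ≤ _
  rw [eval_eq_sum_range, Finset.sum_mul]
  refine le_trans (norm_sum_le _ _) (Finset.sum_le_sum fun i hi => ?_)
  rw [norm_mul, norm_pow]
  have hi' : i ≤ Q.natDegree := by
    have := Finset.mem_range.mp hi; omega
  have e1 : ‖t‖ ^ i ≤ (1 + ‖t‖) ^ i :=
    pow_le_pow_left₀ (norm_nonneg t) (by linarith) i
  have e2 : (1 + ‖t‖) ^ i ≤ (1 + ‖t‖) ^ Q.natDegree := pow_le_pow_right₀ hbase hi'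
  exact mul_le_mul_of_nonneg_left (e1.trans e2) (norm_nonneg _)

/-! ### Products of linear factors -/

theorem coeff_X_sub_C_mul_zero (c : ℂ) (P : ℂ[X]) :
    ((X - C c) * P).coeff 0 = -(c * P.coeff 0) := by
  simp [sub_mul]

theorem coeff_X_sub_C_mul_succ (c : ℂ) (P : ℂ[X]) (j : ℕ) :
    ((X - C c) * P).coeff (j + 1) = P.coeff j - c * P.coeff (j + 1) := by
  simp [sub_mul, coeff_X_mul]

theorem differentiableOn_coeff_prod {ι : Type*} (I : Finset ι) (b : ι → ℂ → ℂ) (s : Set ℂ)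
    (hb : ∀ i ∈ I, DifferentiableOn ℂ (b i) s) :
    ∀ j : ℕ, DifferentiableOn ℂ (fun t => (∏ i ∈ I, (X - C (b i t))).coeff j) s := by
  classical
  induction I using Finset.induction_on with
  | empty =>
    intro j
    simp only [Finset.prod_empty]
    exact differentiableOn_const _
  | insert i I hi ih =>
    have hbi : DifferentiableOn ℂ (b i) s := hb i (Finset.mem_insert_self i I)
    have ih' := ih fun j hj => hb j (Finset.mem_insert_of_mem hj)
    intro j
    cases j with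
    | zero =>
      have : (fun t => (∏ l ∈ insert i I, (X - C (b l t))).coeff 0) =
          fun t => -(b i t * (∏ l ∈ I, (X - C (b l t))).coeff 0) := by
        funext t; rw [Finset.prod_insert hi, coeff_X_sub_C_mul_zero]
      rw [this]
      exact (hbi.mul (ih' 0)).neg
    | succ j =>
      have : (fun t => (∏ l ∈ insert i I, (X - C (b l t))).coeff (j + 1)) =
          fun t => (∏ l ∈ I, (X - C (b l t))).coeff j -
            b i t * (∏ l ∈ I, (X - C (b l t))).coeff (j + 1) := by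
        funext t; rw [Finset.prod_insert hi, coeff_X_sub_C_mul_succ]
      rw [this]
      exact (ih' j).sub (hbi.mul (ih' (j + 1)))

theorem norm_coeff_prod_le {ι : Type*} (I : Finset ι) (z : ι → ℂ) (R : ℝ) (hR : 0 ≤ R)
    (hz : ∀ i ∈ I, ‖z i‖ ≤ R) :
    ∀ j : ℕ, ‖(∏ i ∈ I, (X - C (z i))).coeff j‖ ≤ (1 + R) ^ I.card := by
  classical
  induction I using Finset.induction_on with
  | empty =>
    intro j
    simp only [Finset.prod_empty, Finset.card_empty, pow_zero, coeff_one]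
    split_ifs <;> simp
  | insert i I hi ih =>
    have hzi : ‖z i‖ ≤ R := hz i (Finset.mem_insert_self i I)
    have ih' := ih fun j hj => hz j (Finset.mem_insert_of_mem hj)
    have hpow : 0 ≤ (1 + R) ^ I.card := by positivity
    intro j
    rw [Finset.prod_insert hi, Finset.card_insert_of_notMem hi, pow_succ]
    cases j with
    | zero =>
      rw [coeff_X_sub_C_mul_zero, norm_neg, norm_mul]
      calc ‖z i‖ * ‖(∏ l ∈ I, (X - C (z l))).coeff 0‖ ≤ R * (1 + R) ^ I.card :=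
            mul_le_mul hzi (ih' 0) (norm_nonneg _) hR
        _ ≤ (1 + R) ^ I.card * (1 + R) := by nlinarith
    | succ j =>
      rw [coeff_X_sub_C_mul_succ]
      calc ‖(∏ l ∈ I, (X - C (z l))).coeff j - z i * (∏ l ∈ I, (X - C (z l))).coeff (j + 1)‖
          ≤ ‖(∏ l ∈ I, (X - C (z l))).coeff j‖ +
              ‖z i * (∏ l ∈ I, (X - C (z l))).coeff (j + 1)‖ := norm_sub_le _ _
        _ ≤ (1 + R) ^ I.card + R * (1 + R) ^ I.card := by
            rw [norm_mul]
            exact add_le_add (ih' j) (mul_le_mul hzi (ih' (j + 1)) (norm_nonneg _) hR)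
        _ = (1 + R) ^ I.card * (1 + R) := by ring

/-- Cauchy-type bound for the roots of a complex polynomial. -/
theorem norm_leadingCoeff_mul_root_le (P : ℂ[X]) (β : ℂ) (hβ : P.eval β = 0) :
    ‖P.leadingCoeff‖ * ‖β‖ ≤ ∑ i ∈ Finset.range (P.natDegree + 1), ‖P.coeff i‖ := by
  have hsum_nonneg : ∀ i ∈ Finset.range (P.natDegree + 1), 0 ≤ ‖P.coeff i‖ :=
    fun i _ => norm_nonneg _
  have hlc_le : ‖P.leadingCoeff‖ ≤ ∑ i ∈ Finset.range (P.natDegree + 1), ‖P.coeff i‖ :=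
    Finset.single_le_sum hsum_nonneg (Finset.self_mem_range_succ P.natDegree)
  by_cases h1 : ‖β‖ ≤ 1
  · calc ‖P.leadingCoeff‖ * ‖β‖ ≤ ‖P.leadingCoeff‖ * 1 :=
        mul_le_mul_of_nonneg_left h1 (norm_nonneg _)
      _ ≤ _ := by rw [mul_one]; exact hlc_le
  · have h1 : 1 < ‖β‖ := not_le.mp h1
    set n := P.natDegree with hn
    rcases Nat.eq_zero_or_pos n with h0 | hpos
    · -- constant polynomial with a root is zero
      have hP : P = C (P.coeff 0) := eq_C_of_natDegree_eq_zero (hn ▸ h0)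
      have : P.coeff 0 = 0 := by
        rw [hP, eval_C] at hβ; exact hβ
      have hP0 : P = 0 := by rw [hP, this, C_0]
      rw [hP0]; simp
    · have hev := hβ
      rw [eval_eq_sum_range, Finset.sum_range_succ] at hev
      have hkey : P.coeff n * β ^ n = -∑ i ∈ Finset.range n, P.coeff i * β ^ i := by
        rw [eq_neg_iff_add_eq_zero, add_comm]; exact hev
      have hnorm : ‖P.leadingCoeff‖ * ‖β‖ ^ n ≤
          (∑ i ∈ Finset.range n, ‖P.coeff i‖) * ‖β‖ ^ (n - 1) := by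
        have : ‖P.coeff n * β ^ n‖ = ‖P.leadingCoeff‖ * ‖β‖ ^ n := by
          rw [norm_mul, norm_pow]; rfl
        rw [← this, hkey, norm_neg, Finset.sum_mul]
        refine le_trans (norm_sum_le _ _) (Finset.sum_le_sum fun i hi => ?_)
        rw [norm_mul, norm_pow]
        have hi' : i ≤ n - 1 := by have := Finset.mem_range.mp hi; omega
        exact mul_le_mul_of_nonneg_left (pow_le_pow_right₀ h1.le hi') (norm_nonneg _)
      have hpow : 0 < ‖β‖ ^ (n - 1) := by positivity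
      have hsplit : ‖β‖ ^ n = ‖β‖ * ‖β‖ ^ (n - 1) := by
        rw [← pow_succ']; congr 1; omega
      rw [hsplit, ← mul_assoc] at hnorm
      have h2 := le_of_mul_le_mul_right hnorm hpow
      refine le_trans h2 ?_
      rw [Finset.sum_range_succ]
      linarith [norm_nonneg (P.coeff n)]

/-! ### The generic part and its fibres -/

/-- The generic part of the plane curve `p = 0`: the points whose first coordinate avoids `S`. -/
def genericPart (p : ℂ[X][Y]) (S : Set ℂ) : Set (ℂ × ℂ) :=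
  {q | q.1 ∉ S ∧ p.evalEval q.1 q.2 = 0}

theorem mem_genericPart {p : ℂ[X][Y]} {S : Set ℂ} {q : ℂ × ℂ} :
    q ∈ genericPart p S ↔ q.1 ∉ S ∧ p.evalEval q.1 q.2 = 0 := Iff.rfl

/-- The roots of `p(t, ·)`. -/
def fibre (p : ℂ[X][Y]) (t : ℂ) : Finset ℂ := (p.map (evalRingHom t)).roots.toFinset

theorem mem_fibre {p : ℂ[X][Y]} {t β : ℂ} (ht : p.leadingCoeff.eval t ≠ 0) :
    β ∈ fibre p t ↔ p.evalEval t β = 0 := by
  rw [fibre, Multiset.mem_toFinset, mem_roots (map_evalRingHom_ne_zero p t ht), IsRoot.def,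
    map_evalRingHom_eval]

theorem card_fibre_le (p : ℂ[X][Y]) (t : ℂ) : (fibre p t).card ≤ p.natDegree :=
  calc (fibre p t).card ≤ Multiset.card (p.map (evalRingHom t)).roots :=
        Multiset.toFinset_card_le _
    _ ≤ (p.map (evalRingHom t)).natDegree := card_roots' _
    _ ≤ p.natDegree := natDegree_map_le

open Classical in
/-- The roots `β` of `p(t, ·)` with `(t, β) ∈ U`. -/
def fibreIn (p : ℂ[X][Y]) (U : Set (ℂ × ℂ)) (t : ℂ) : Finset ℂ :=
  (fibre p t).filter fun β => (t, β) ∈ U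

theorem mem_fibreIn {p : ℂ[X][Y]} {U : Set (ℂ × ℂ)} {t β : ℂ} :
    β ∈ fibreIn p U t ↔ β ∈ fibre p t ∧ (t, β) ∈ U := by
  classical
  simp [fibreIn]

/-- Local structure of the `U`-part of the fibres when `U, V` separate the generic part. -/
theorem fibreIn_local (p : ℂ[X][Y]) (S : Set ℂ) (hS : S.Finite) (hgen : IsGeneric p S)
    (U V : Set (ℂ × ℂ)) (hUo : IsOpen U) (hVo : IsOpen V) (hcov : genericPart p S ⊆ U ∪ V)
    (hdisj : ¬ (genericPart p S ∩ (U ∩ V)).Nonempty) (a : ℂ) (ha : a ∉ S) :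
    ∃ (r : ℝ) (b : Fin p.natDegree → ℂ → ℂ) (I : Finset (Fin p.natDegree)), 0 < r ∧
      Metric.ball a r ⊆ Sᶜ ∧
      (∀ i, DifferentiableOn ℂ (b i) (Metric.ball a r)) ∧
      (∀ t ∈ Metric.ball a r, Function.Injective (fun i => b i t)) ∧
      (∀ t ∈ Metric.ball a r, fibreIn p U t = I.image (fun i => b i t)) := by
  classical
  obtain ⟨r₀, b, hr₀, hbd, hlc, hinj, hfac⟩ := exists_branches p a (hgen a ha).1 (hgen a ha).2
  have hSo : IsOpen Sᶜ := hS.isClosed.isOpen_compl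
  obtain ⟨r₁, hr₁, hball₁⟩ := Metric.isOpen_iff.mp hSo a ha
  set r := min r₀ r₁ with hr
  have hrpos : 0 < r := lt_min hr₀ hr₁
  have hsub0 : Metric.ball a r ⊆ Metric.ball a r₀ := Metric.ball_subset_ball (min_le_left _ _)
  have hsubS : Metric.ball a r ⊆ Sᶜ :=
    (Metric.ball_subset_ball (min_le_right _ _)).trans hball₁
  have hroot : ∀ t ∈ Metric.ball a r, ∀ y, p.evalEval t y = 0 ↔ ∃ i, y = b i t := by
    intro t ht y
    rw [← map_evalRingHom_eval, hfac t (hsub0 ht), eval_mul, eval_C, eval_prod]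
    simp only [eval_sub, eval_X, eval_C, mul_eq_zero, Finset.prod_eq_zero_iff, Finset.mem_univ,
      true_and, sub_eq_zero]
    constructor
    · rintro (h | h)
      · exact absurd h (hlc t (hsub0 ht))
      · exact h
    · exact Or.inr
  have hgraph : ∀ i, ∀ t ∈ Metric.ball a r, ∀ t' ∈ Metric.ball a r,
      (t, b i t) ∈ U → (t', b i t') ∈ U := by
    intro i t ht t' ht' hU
    set Γ : Set (ℂ × ℂ) := (fun t => (t, b i t)) '' Metric.ball a r with hΓ
    have hΓpre : IsPreconnected Γ := by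
      refine (convex_ball a r).isPreconnected.image _ ?_
      exact continuousOn_id.prodMk (((hbd i).mono hsub0).continuousOn)
    have hΓX : Γ ⊆ genericPart p S := by
      rintro _ ⟨s, hs, rfl⟩
      exact ⟨hsubS hs, (hroot s hs _).mpr ⟨i, rfl⟩⟩
    by_contra hnot
    have hV : (t', b i t') ∈ V := by
      rcases hcov (hΓX ⟨t', ht', rfl⟩) with h | h
      · exact absurd h hnot
      · exact h
    obtain ⟨x, hxΓ, hxUV⟩ := hΓpre U V hUo hVo (hΓX.trans hcov) ⟨_, ⟨t, ht, rfl⟩, hU⟩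
      ⟨_, ⟨t', ht', rfl⟩, hV⟩
    exact hdisj ⟨x, hΓX hxΓ, hxUV⟩
  refine ⟨r, b, Finset.univ.filter (fun i => (a, b i a) ∈ U), hrpos, hsubS,
    fun i => (hbd i).mono hsub0, fun t ht => hinj t (hsub0 ht), ?_⟩
  intro t ht
  ext β
  rw [mem_fibreIn, mem_fibre (hlc t (hsub0 ht)), hroot t ht, Finset.mem_image]
  constructor
  · rintro ⟨⟨i, rfl⟩, hU⟩
    exact ⟨i, Finset.mem_filter.mpr ⟨Finset.mem_univ _,
      hgraph i t ht a (Metric.mem_ball_self hrpos) hU⟩, rfl⟩
  · rintro ⟨i, hi, rfl⟩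
    exact ⟨⟨i, rfl⟩, hgraph i a (Metric.mem_ball_self hrpos) t ht (Finset.mem_filter.mp hi).2⟩

/-- **BR3** (connectedness of the generic part).  For an irreducible `p ∈ ℂ[X][Y]` and a finite
set `S` containing the bad parameter values, the generic part of the curve `p = 0` is
preconnected. -/
theorem isPreconnected_genericPart (p : ℂ[X][Y]) (hp : Irreducible p) (S : Set ℂ)
    (hS : S.Finite) (hgen : IsGeneric p S) : IsPreconnected (genericPart p S) := by
  classical
  intro U V hUo hVo hcov hU hV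
  by_contra hdisj
  have hloc := fibreIn_local p S hS hgen U V hUo hVo hcov hdisj
  set n := p.natDegree with hn
  have hSo : IsOpen Sᶜ := hS.isClosed.isOpen_compl
  have hSconn : IsPreconnected Sᶜ :=
    (hS.countable.isConnected_compl_of_one_lt_rank
      (by rw [Complex.rank_real_complex]; norm_num)).isPreconnected
  let N : ℂ → ℕ := fun t => (fibreIn p U t).card
  have hNcont : ContinuousOn N Sᶜ := by
    intro a ha
    obtain ⟨r, b, I, hr, hsub, hbd, hinj, himg⟩ := hloc a ha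
    have hEq : ∀ t ∈ Metric.ball a r, N t = I.card := by
      intro t ht
      show (fibreIn p U t).card = I.card
      rw [himg t ht, Finset.card_image_of_injective _ (hinj t ht)]
    have hev : (fun _ => I.card) =ᶠ[𝓝 a] N :=
      Filter.eventually_of_mem (Metric.ball_mem_nhds a hr) fun t ht => (hEq t ht).symm
    exact (continuousAt_const.congr hev).continuousWithinAt
  obtain ⟨⟨t₀, β₀⟩, ⟨ht₀S, ht₀z⟩, ht₀U⟩ := hU
  obtain ⟨⟨t₁, β₁⟩, ⟨ht₁S, ht₁z⟩, ht₁V⟩ := hV
  simp only at ht₀S ht₀z ht₁S ht₁z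
  set k := N t₀ with hk
  have hNk : ∀ t ∉ S, (fibreIn p U t).card = k := fun t ht =>
    hSconn.constant hNcont ht ht₀S
  have hkpos : 0 < k := by
    rw [hk]
    exact Finset.card_pos.mpr
      ⟨β₀, mem_fibreIn.mpr ⟨(mem_fibre (hgen t₀ ht₀S).1).mpr ht₀z, ht₀U⟩⟩
  have hkn : k < n := by
    rw [← hNk t₁ ht₁S]
    have h1 : β₁ ∈ fibre p t₁ := (mem_fibre (hgen t₁ ht₁S).1).mpr ht₁z
    have h2 : β₁ ∉ fibreIn p U t₁ := fun h =>
      hdisj ⟨(t₁, β₁), ⟨ht₁S, ht₁z⟩, (mem_fibreIn.mp h).2, ht₁V⟩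
    have h3 : fibreIn p U t₁ ⊂ fibre p t₁ :=
      Finset.ssubset_iff_subset_ne.mpr
        ⟨fun β hβ => (mem_fibreIn.mp hβ).1, fun heq => h2 (heq ▸ h1)⟩
    exact lt_of_lt_of_le (Finset.card_lt_card h3) (card_fibre_le p t₁)
  let q : ℂ → ℂ[X] := fun t => ∏ β ∈ fibreIn p U t, (X - C β)
  let h : ℕ → ℂ → ℂ := fun j t => (p.leadingCoeff.eval t) ^ k * (q t).coeff j
  let G₀ : ℂ → ℝ := fun t => ∑ i ∈ Finset.range (n + 1), ‖(p.coeff i).eval t‖
  have hG₀cont : Continuous G₀ :=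
    continuous_finsetSum _ fun i _ => ((p.coeff i).continuous).norm
  have hG₀nn : ∀ t, 0 ≤ G₀ t := fun t => Finset.sum_nonneg fun i _ => norm_nonneg _
  have hG₀pg : PolyGrowth G₀ := PolyGrowth.sum _ _ fun i _ => polyGrowth_norm_eval _
  have hGpg : PolyGrowth (fun t => (2 * G₀ t) ^ k) :=
    hG₀pg.const_mul_pow hG₀nn 2 (by norm_num) k
  have hGcont : Continuous (fun t => (2 * G₀ t) ^ k) := (continuous_const.mul hG₀cont).pow k
  have hhd : ∀ j, DifferentiableOn ℂ (h j) Sᶜ := by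
    intro j a ha
    obtain ⟨r, b, I, hr, hsub, hbd, hinj, himg⟩ := hloc a ha
    have hEq : ∀ t ∈ Metric.ball a r, h j t =
        (p.leadingCoeff.eval t) ^ k * (∏ i ∈ I, (X - C (b i t))).coeff j := by
      intro t ht
      show (p.leadingCoeff.eval t) ^ k * (∏ β ∈ fibreIn p U t, (X - C β)).coeff j = _
      rw [himg t ht, Finset.prod_image (fun i _ i' _ hii' => hinj t ht hii')]
    have hd1 : DifferentiableOn ℂ (fun t => (p.leadingCoeff.eval t) ^ k *
        (∏ i ∈ I, (X - C (b i t))).coeff j) (Metric.ball a r) :=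
      ((p.leadingCoeff.differentiable.differentiableOn).pow k).mul
        (differentiableOn_coeff_prod I b _ (fun i _ => hbd i) j)
    have hda := hd1.differentiableAt (Metric.ball_mem_nhds a hr)
    exact (hda.congr_of_eventuallyEq
      (Filter.eventually_of_mem (Metric.ball_mem_nhds a hr) hEq)).differentiableWithinAt
  have hhb : ∀ j, ∀ t ∉ S, ‖h j t‖ ≤ (2 * G₀ t) ^ k := by
    intro j t ht
    have hlc : p.leadingCoeff.eval t ≠ 0 := (hgen t ht).1
    have hlcpos : 0 < ‖p.leadingCoeff.eval t‖ := norm_pos_iff.mpr hlc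
    set R := G₀ t / ‖p.leadingCoeff.eval t‖ with hR
    have hR0 : 0 ≤ R := div_nonneg (hG₀nn t) hlcpos.le
    have hroots : ∀ β ∈ fibreIn p U t, ‖β‖ ≤ R := by
      intro β hβ
      have hβz : (p.map (evalRingHom t)).eval β = 0 := by
        rw [map_evalRingHom_eval]; exact (mem_fibre hlc).mp (mem_fibreIn.mp hβ).1
      have hb := norm_leadingCoeff_mul_root_le (p.map (evalRingHom t)) β hβz
      rw [leadingCoeff_map_evalRingHom p t hlc, natDegree_map_evalRingHom p t hlc] at hb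
      simp only [coeff_map, coe_evalRingHom] at hb
      rw [hR, le_div_iff₀ hlcpos, mul_comm]
      exact hb
    have hco := norm_coeff_prod_le (fibreIn p U t) (fun β => β) R hR0 hroots j
    rw [hNk t ht] at hco
    show ‖(p.leadingCoeff.eval t) ^ k * (q t).coeff j‖ ≤ _
    rw [norm_mul, norm_pow]
    have hlcG : ‖p.leadingCoeff.eval t‖ ≤ G₀ t :=
      Finset.single_le_sum (f := fun i => ‖(p.coeff i).eval t‖) (fun i _ => norm_nonneg _)
        (Finset.self_mem_range_succ n)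
    calc ‖p.leadingCoeff.eval t‖ ^ k * ‖(q t).coeff j‖
        ≤ ‖p.leadingCoeff.eval t‖ ^ k * (1 + R) ^ k :=
          mul_le_mul_of_nonneg_left hco (by positivity)
      _ = (‖p.leadingCoeff.eval t‖ * (1 + R)) ^ k := (mul_pow _ _ _).symm
      _ = (‖p.leadingCoeff.eval t‖ + G₀ t) ^ k := by
          rw [hR]; congr 1; field_simp
      _ ≤ (2 * G₀ t) ^ k := pow_le_pow_left₀ (by positivity) (by linarith) k
  have hpoly : ∀ j, ∃ Pj : ℂ[X], ∀ t ∉ S, Pj.eval t = h j t := by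
    intro j
    obtain ⟨F, hFd, hFeq, hFb⟩ :=
      exists_entire_extension S hS (h j) (hhd j) _ hGcont (hhb j)
    obtain ⟨A, d, hA, hAd⟩ := hGpg
    obtain ⟨Pj, hPj⟩ :=
      exists_polynomial_of_growth d F hFd A (fun z => (hFb z).trans (hAd z))
    exact ⟨Pj, fun t ht => by rw [← hPj t, hFeq t ht]⟩
  choose Pj hPj using hpoly
  set Q : ℂ[X][Y] := ∑ j ∈ Finset.range (k + 1), monomial j (Pj j) with hQ
  have hQmap : ∀ t ∉ S, Q.map (evalRingHom t) = C ((p.leadingCoeff.eval t) ^ k) * q t := by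
    intro t ht
    have hqdeg : (q t).natDegree = k := by
      show (∏ β ∈ fibreIn p U t, (X - C β)).natDegree = k
      rw [natDegree_finsetProd_X_sub_C_eq_card, hNk t ht]
    have hq := (q t).as_sum_range' (k + 1) (by omega)
    rw [hQ, Polynomial.map_sum]
    conv_rhs => rw [hq, Finset.mul_sum]
    refine Finset.sum_congr rfl fun j _ => ?_
    rw [map_monomial, coe_evalRingHom, hPj j t ht, C_mul_monomial]
  have hQ0 : Q ≠ 0 := by
    intro hQz
    have h1 := hQmap t₀ ht₀S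
    rw [hQz, Polynomial.map_zero] at h1
    have hmonic : (q t₀).Monic := monic_prod_of_monic _ _ fun β _ => monic_X_sub_C β
    have hne : C ((p.leadingCoeff.eval t₀) ^ k) * q t₀ ≠ 0 :=
      mul_ne_zero (C_ne_zero.mpr (pow_ne_zero _ (hgen t₀ ht₀S).1)) hmonic.ne_zero
    exact hne h1.symm
  have hQdeg : Q.natDegree < p.natDegree := by
    refine lt_of_le_of_lt ?_ hkn
    rw [hQ]
    refine natDegree_sum_le_of_forall_le _ _ fun j hj => ?_
    exact (natDegree_monomial_le _).trans (by have := Finset.mem_range.mp hj; omega)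
  obtain ⟨u, v, w, hw, huv⟩ := gauss_bezout p Q hp hQ0 hQdeg
  have hfin : (S ∪ {t | w.IsRoot t}).Finite := hS.union (finite_setOfPred_isRoot hw)
  obtain ⟨t₂, ht₂⟩ := hfin.infinite_compl.nonempty
  have ht₂S : t₂ ∉ S := fun h => ht₂ (Or.inl h)
  have ht₂w : w.eval t₂ ≠ 0 := fun h => ht₂ (Or.inr h)
  have hcard₂ : (fibreIn p U t₂).card = k := hNk t₂ ht₂S
  obtain ⟨β₂, hβ₂⟩ := Finset.card_pos.mp (hcard₂ ▸ hkpos)
  have hpz : p.evalEval t₂ β₂ = 0 :=
    (mem_fibre (hgen t₂ ht₂S).1).mp (mem_fibreIn.mp hβ₂).1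
  have hQz : Q.evalEval t₂ β₂ = 0 := by
    rw [← map_evalRingHom_eval, hQmap t₂ ht₂S, eval_mul]
    have h1 : (q t₂).eval β₂ = 0 := by
      show (∏ β ∈ fibreIn p U t₂, (X - C β)).eval β₂ = 0
      rw [eval_prod]
      exact Finset.prod_eq_zero hβ₂ (by simp)
    rw [h1, mul_zero]
  have hfinal := congrArg (evalEval t₂ β₂) huv
  rw [evalEval_add, evalEval_mul, evalEval_mul, hpz, hQz, mul_zero, mul_zero, add_zero,
    evalEval_C] at hfinal
  exact ht₂w hfinal.symm

theorem genericPart_nonempty (p : ℂ[X][Y]) (hdeg : p.natDegree ≠ 0) (S : Set ℂ)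
    (hS : S.Finite) (hgen : IsGeneric p S) : (genericPart p S).Nonempty := by
  obtain ⟨t, ht⟩ := hS.infinite_compl.nonempty
  have hlc := (hgen t ht).1
  have hd : (p.map (evalRingHom t)).degree ≠ 0 := by
    intro h
    have := natDegree_eq_zero_iff_degree_le_zero.mpr h.le
    rw [natDegree_map_evalRingHom p t hlc] at this
    exact hdeg this
  obtain ⟨β, hβ⟩ := IsAlgClosed.exists_root (p.map (evalRingHom t)) hd
  refine ⟨(t, β), ht, ?_⟩
  show p.evalEval t β = 0
  rw [← map_evalRingHom_eval]; exact hβ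

/-- **BR3**, connected form. -/
theorem isConnected_genericPart (p : ℂ[X][Y]) (hp : Irreducible p) (hdeg : p.natDegree ≠ 0)
    (S : Set ℂ) (hS : S.Finite) (hgen : IsGeneric p S) : IsConnected (genericPart p S) :=
  ⟨genericPart_nonempty p hdeg S hS hgen, isPreconnected_genericPart p hp S hS hgen⟩

/-- A locally constant property on a preconnected set that holds somewhere holds everywhere. -/
theorem subset_of_locally_constant_mem {α : Type*} [TopologicalSpace α] {Z T : Set α}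
    (hZ : IsPreconnected Z) (hne : (Z ∩ T).Nonempty)
    (hloc : ∀ x ∈ Z, ∃ W ∈ 𝓝 x, ∀ y ∈ W ∩ Z, (y ∈ T ↔ x ∈ T)) : Z ⊆ T := by
  classical
  by_contra hnot
  obtain ⟨x₁, hx₁Z, hx₁T⟩ := Set.not_subset.mp hnot
  choose! W hW hWT using hloc
  set U : Set α := ⋃ x ∈ Z ∩ T, interior (W x) with hU
  set V : Set α := ⋃ x ∈ Z \ T, interior (W x) with hV
  have hUo : IsOpen U := isOpen_biUnion fun x _ => isOpen_interior
  have hVo : IsOpen V := isOpen_biUnion fun x _ => isOpen_interior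
  have hself : ∀ x ∈ Z, x ∈ interior (W x) := fun x hx => mem_interior_iff_mem_nhds.mpr (hW x hx)
  have hcov : Z ⊆ U ∪ V := by
    intro x hx
    by_cases hxT : x ∈ T
    · exact Or.inl (Set.mem_biUnion (⟨hx, hxT⟩ : x ∈ Z ∩ T) (hself x hx))
    · exact Or.inr (Set.mem_biUnion (⟨hx, hxT⟩ : x ∈ Z \ T) (hself x hx))
  obtain ⟨x₀, hx₀Z, hx₀T⟩ := hne
  have hZU : (Z ∩ U).Nonempty :=
    ⟨x₀, hx₀Z, Set.mem_biUnion (⟨hx₀Z, hx₀T⟩ : x₀ ∈ Z ∩ T) (hself x₀ hx₀Z)⟩
  have hZV : (Z ∩ V).Nonempty :=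
    ⟨x₁, hx₁Z, Set.mem_biUnion (⟨hx₁Z, hx₁T⟩ : x₁ ∈ Z \ T) (hself x₁ hx₁Z)⟩
  obtain ⟨y, hyZ, hyU, hyV⟩ := hZ U V hUo hVo hcov hZU hZV
  obtain ⟨x, hx, hyx⟩ := Set.mem_iUnion₂.mp hyU
  obtain ⟨x', hx', hyx'⟩ := Set.mem_iUnion₂.mp hyV
  have h1 : y ∈ T := (hWT x hx.1 y ⟨interior_subset hyx, hyZ⟩).mpr hx.2
  have h2 : y ∉ T := fun h => hx'.2 ((hWT x' hx'.1 y ⟨interior_subset hyx', hyZ⟩).mp h)
  exact h2 h1

/-- Chain form of **BR3**: a subset of the generic part that is nonempty and locally saturated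
is everything. -/
theorem genericPart_induction (p : ℂ[X][Y]) (hp : Irreducible p) (S : Set ℂ) (hS : S.Finite)
    (hgen : IsGeneric p S) (T : Set (ℂ × ℂ)) (hne : (genericPart p S ∩ T).Nonempty)
    (hloc : ∀ x ∈ genericPart p S, ∃ W ∈ 𝓝 x, ∀ y ∈ W ∩ genericPart p S, (y ∈ T ↔ x ∈ T)) :
    genericPart p S ⊆ T :=
  subset_of_locally_constant_mem (isPreconnected_genericPart p hp S hS hgen) hne hloc

/-- Every point of the generic part is a simple point. -/
theorem derivative_evalEval_ne_zero_of_mem_genericPart (p : ℂ[X][Y]) (S : Set ℂ)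
    (hgen : IsGeneric p S) {x : ℂ × ℂ} (hx : x ∈ genericPart p S) :
    (derivative p).evalEval x.1 x.2 ≠ 0 := by
  have hsep := (hgen x.1 hx.1).2
  have hroot : (p.map (evalRingHom x.1)).eval x.2 = 0 := by
    rw [map_evalRingHom_eval]; exact hx.2
  have h := hsep.eval₂_derivative_ne_zero (RingHom.id ℂ) (x := x.2)
    (by rw [eval₂_id]; exact hroot)
  rw [eval₂_id] at h
  rw [← map_evalRingHom_eval, ← derivative_map]
  exact h

/-- **BR1** with a prescribed bound on the size of the bidisc. -/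
theorem exists_branch_small (p : ℂ[X][Y]) (a β : ℂ) (h0 : p.evalEval a β = 0)
    (h1 : (derivative p).evalEval a β ≠ 0) (ε₀ : ℝ) (hε₀ : 0 < ε₀) :
    ∃ (r ε : ℝ) (b : ℂ → ℂ), 0 < r ∧ r ≤ ε₀ ∧ 0 < ε ∧ ε ≤ ε₀ ∧
      DifferentiableOn ℂ b (Metric.ball a r) ∧ b a = β ∧
      (∀ t ∈ Metric.ball a r, p.evalEval t (b t) = 0 ∧ b t ∈ Metric.ball β ε) ∧
      (∀ t ∈ Metric.ball a r, ∀ y ∈ Metric.ball β ε, p.evalEval t y = 0 → y = b t) := by
  obtain ⟨r, ε, b, hr, hε, hbd, hba, hb1, hb2⟩ := exists_branch p a β h0 h1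
  set ε' := min ε ε₀ with hε'
  have hε'pos : 0 < ε' := lt_min hε hε₀
  have hcont : ContinuousAt b a := (hbd.differentiableAt (Metric.ball_mem_nhds a hr)).continuousAt
  have hev : ∀ᶠ t in 𝓝 a, b t ∈ Metric.ball β ε' := by
    have : Metric.ball β ε' ∈ 𝓝 (b a) := by rw [hba]; exact Metric.ball_mem_nhds β hε'pos
    exact hcont this
  obtain ⟨r₁, hr₁, hr₁P⟩ := Metric.eventually_nhds_iff.mp hev
  refine ⟨min (min r r₁) ε₀, ε', b, lt_min (lt_min hr hr₁) hε₀, min_le_right _ _, hε'pos,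
    min_le_right _ _, ?_, hba, ?_, ?_⟩
  · exact hbd.mono (Metric.ball_subset_ball ((min_le_left _ _).trans (min_le_left _ _)))
  · intro t ht
    have ht1 : t ∈ Metric.ball a r :=
      Metric.ball_subset_ball ((min_le_left _ _).trans (min_le_left _ _)) ht
    have ht2 : dist t a < r₁ :=
      lt_of_lt_of_le (Metric.mem_ball.mp ht) ((min_le_left _ _).trans (min_le_right _ _))
    exact ⟨(hb1 t ht1).1, hr₁P ht2⟩
  · intro t ht y hy hty
    have ht1 : t ∈ Metric.ball a r :=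
      Metric.ball_subset_ball ((min_le_left _ _).trans (min_le_left _ _)) ht
    exact hb2 t ht1 y (Metric.ball_subset_ball (min_le_left _ _) hy) hty

/-- Local description of the generic part: near each of its points it is the graph of a
holomorphic branch over a disc avoiding `S`. -/
theorem genericPart_local (p : ℂ[X][Y]) (S : Set ℂ) (hS : S.Finite) (hgen : IsGeneric p S)
    {x : ℂ × ℂ} (hx : x ∈ genericPart p S) (ε₀ : ℝ) (hε₀ : 0 < ε₀) :
    ∃ (r ε : ℝ) (b : ℂ → ℂ), 0 < r ∧ r ≤ ε₀ ∧ 0 < ε ∧ ε ≤ ε₀ ∧ Metric.ball x.1 r ⊆ Sᶜ ∧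
      DifferentiableOn ℂ b (Metric.ball x.1 r) ∧ b x.1 = x.2 ∧
      genericPart p S ∩ (Metric.ball x.1 r ×ˢ Metric.ball x.2 ε) =
        (fun t => (t, b t)) '' Metric.ball x.1 r := by
  have hSo : IsOpen Sᶜ := hS.isClosed.isOpen_compl
  obtain ⟨r₁, hr₁, hball₁⟩ := Metric.isOpen_iff.mp hSo x.1 hx.1
  obtain ⟨r, ε, b, hr, hrle, hε, hεle, hbd, hba, hb1, hb2⟩ :=
    exists_branch_small p x.1 x.2 hx.2
      (derivative_evalEval_ne_zero_of_mem_genericPart p S hgen hx) (min ε₀ r₁) (lt_min hε₀ hr₁)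
  have hsubS : Metric.ball x.1 r ⊆ Sᶜ :=
    (Metric.ball_subset_ball (hrle.trans (min_le_right _ _))).trans hball₁
  refine ⟨r, ε, b, hr, hrle.trans (min_le_left _ _), hε, hεle.trans (min_le_left _ _), hsubS,
    hbd, hba, ?_⟩
  ext ⟨t, y⟩
  constructor
  · rintro ⟨⟨-, hz⟩, ht, hy⟩
    exact ⟨t, ht, by rw [hb2 t ht y hy hz]⟩
  · rintro ⟨s, hs, hsy⟩
    obtain ⟨rfl, rfl⟩ := Prod.mk.inj hsy
    exact ⟨⟨hsubS hs, (hb1 s hs).1⟩, hs, (hb1 s hs).2⟩

end

end Fermat.Agent.S27.helper9531
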