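import Mathlib
import Fermat.Agent.S27.helper3351_AlgSpec

/-!
# S27: hybrid glue between the analytic track and the algebraic (table) track

The theory `ACF₀` is complete, so the first-order interface `Spec_FO` of
`helper3351_AlgSpec` alone transfers the statement "every valid table has exactly
`n^(2g)` classes" between `ℂ` and any algebraically closed field of characteristic `0`.
Consequently the Lefschetz step of the analytic route can be replaced by the table dictionary,
and the zeta-function step of the algebraic route can be replaced by the analytic theorem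
over `ℂ`:

`Spec_FO + Spec_W + Spec_An + Spec_Wconv ⟹ S27`.

* `Spec_An`    : the analytic theorem (S27 for `K = ℂ`, `F : Type`);
* `Spec_Wconv` : converse dictionary over `ℂ`: a valid table over `ℂ` is the table of a
  function field of genus `τ.genus`, whose torsion count implies the table count;
* `Spec_C`     : the table count over `ℂ` (consequence of the two).
-/

set_option autoImplicit false

open FirstOrder AlgebraicCurve

namespace Fermat.Agent.S27.helper9553

open Fermat.Agent.S27.helper3351

universe u u₁ u₂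

/-- **An**: the analytic theorem, i.e. S27 for `K = ℂ` and `F : Type`. -/
def Spec_An : Prop :=
  ∀ (F : Type) [Field F] [Algebra ℂ F] [IsCurveOver ℂ F] [Algebra.EssFiniteType ℂ F]
    (ℓ : ℕ) [Fact ℓ.Prime] (k : ℕ),
    Nat.card (Pic0.torsion ℂ F (ℓ ^ k)) = ℓ ^ (2 * genusFF ℂ F * k)

/-- **Wconv** (converse dictionary over `ℂ`): every valid table over `ℂ` comes from a function
field of the right genus, and the torsion count of that field gives the table count. -/
def Spec_Wconv : Prop :=
  ∀ (τ : WType) (T : Tab τ ℂ), T.Valid →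
    ∃ (F : Type) (_ : Field F) (_ : Algebra ℂ F) (_ : IsCurveOver ℂ F)
      (_ : Algebra.EssFiniteType ℂ F),
      genusFF ℂ F = τ.genus ∧
        ∀ n : ℕ, 0 < n → Nat.card (Pic0.torsion ℂ F n) = n ^ (2 * τ.genus) → T.Count n

/-- **C**: the table count over `ℂ` for prime powers. -/
def Spec_C : Prop :=
  ∀ (τ : WType) (ℓ : ℕ) [Fact ℓ.Prime] (k : ℕ) (T : Tab τ ℂ), T.Valid → T.Count (ℓ ^ k)

/-- The analytic theorem and the converse dictionary give the table count over `ℂ`. -/
theorem spec_C_of_an (hAn : Spec_An) (hWc : Spec_Wconv) : Spec_C := by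
  intro τ ℓ hℓ k T hT
  obtain ⟨F, _, _, _, _, hg, hcount⟩ := hWc τ T hT
  have hpos : 0 < ℓ ^ k := pow_pos (Fact.out : ℓ.Prime).pos k
  refine hcount (ℓ ^ k) hpos ?_
  rw [hAn F ℓ k, hg, ← pow_mul]
  congr 1
  ring

/-- Transfer by completeness of `ACF₀`: from `Spec_FO` and the table count over `ℂ`, the count
holds for every valid table over every algebraically closed field of characteristic `0`. -/
theorem count_of_complex (hFO : Spec_FO.{u}) (hC : Spec_C)
    (K : Type u) [Field K] [IsAlgClosed K] [CharZero K]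
    (τ : WType) (ℓ : ℕ) [hℓ : Fact ℓ.Prime] (k : ℕ) (T : Tab τ K) (hT : T.Valid) :
    T.Count (ℓ ^ k) := by
  obtain ⟨φ, hφu, hφ0⟩ := hFO τ (ℓ ^ k)
  let _ := Ring.compatibleRingOfRing K
  let _ := Ring.compatibleRingOfRing ℂ
  have : CharP K 0 := CharP.ofCharZero K
  have : CharP ℂ 0 := CharP.ofCharZero ℂ
  have h1 : ℂ ⊨ φ := (hφ0 ℂ).2 fun T hT => hC τ ℓ k T hT
  have key : Language.Theory.ACF 0 ⊨ᵇ φ :=
    ((Field.ACF_isComplete (Or.inr rfl)).realize_sentence_iff φ ℂ).1 h1
  exact (hφu K).1 (key.realize_sentence K) T hT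

/-- **Hybrid assembly**: the statement of S27 from `Spec_FO`, the dictionary `Spec_W`, the
analytic theorem over `ℂ` and the converse dictionary over `ℂ`. -/
theorem S27_of_specs_hybrid (hFO : Spec_FO.{u₁}) (hAn : Spec_An) (hWc : Spec_Wconv)
    (hW : Spec_W.{u₁, u₂})
    (K : Type u₁) (F : Type u₂) [Field K] [Field F] [Algebra K F] [IsAlgClosed K] [CharZero K]
    [IsCurveOver K F] [Algebra.EssFiniteType K F]
    (ℓ : ℕ) [Fact ℓ.Prime] (k : ℕ) :
    Nat.card (Pic0.torsion K F (ℓ ^ k)) = ℓ ^ (2 * genusFF K F * k) := by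
  obtain ⟨τ, T, hT, hg, hcount⟩ := hW K F
  have hpos : 0 < ℓ ^ k := pow_pos (Fact.out : ℓ.Prime).pos k
  rw [hcount (ℓ ^ k) hpos
    (count_of_complex hFO (spec_C_of_an hAn hWc) K τ ℓ k T hT), hg, ← pow_mul]
  congr 1
  ring

/-- Variant: the same assembly from the table count over `ℂ` directly. -/
theorem S27_of_specs_complex (hFO : Spec_FO.{u₁}) (hC : Spec_C) (hW : Spec_W.{u₁, u₂})
    (K : Type u₁) (F : Type u₂) [Field K] [Field F] [Algebra K F] [IsAlgClosed K] [CharZero K]
    [IsCurveOver K F] [Algebra.EssFiniteType K F]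
    (ℓ : ℕ) [Fact ℓ.Prime] (k : ℕ) :
    Nat.card (Pic0.torsion K F (ℓ ^ k)) = ℓ ^ (2 * genusFF K F * k) := by
  obtain ⟨τ, T, hT, hg, hcount⟩ := hW K F
  have hpos : 0 < ℓ ^ k := pow_pos (Fact.out : ℓ.Prime).pos k
  rw [hcount (ℓ ^ k) hpos (count_of_complex hFO hC K τ ℓ k T hT), hg, ← pow_mul]
  congr 1
  ring

end Fermat.Agent.S27.helper9553
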