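import Mathlib
import Fermat.Agent.S27.helper9553_Hybrid
import Fermat.Agent.S27.helper6247_Spec
import Fermat.Agent.S27.helper1949_CurveOfFinite
import Fermat.Agent.S27.helper5411_Reduce

/-!
# S27: the Lefschetz transfer `Stmt_Transfer` (M4 of `helper6247_Spec`) from the table dictionary

`Stmt_Transfer` of the analytic Spec (`helper6247_Spec`) follows from three interfaces of the
algebraic track, with no Galois descent, no constant field extension and no characteristic `p`:

* `helper3351.Spec_FO`   (the table count is a first-order sentence),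
* `helper3351.Spec_W`    (every curve has a valid table computing its torsion),
* `helper9553.Spec_Wconv` (every valid table over `ℂ` is the table of a curve over `ℂ`),

because `ACF₀` is complete.  This is a second, independent proof of box M4.
-/

set_option autoImplicit false

open FirstOrder AlgebraicCurve IntermediateField

namespace Fermat.Agent.S27.helper9553

open Fermat.Agent.S27.helper3351 Fermat.Agent.S27.helper6247

universe u v

/-- The table count over `ℂ` for every `n > 0`. -/
def Spec_Cn : Prop :=
  ∀ (τ : WType) (n : ℕ), 0 < n → ∀ T : Tab τ ℂ, T.Valid → T.Count n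

/-- `Stmt_Complex` (analytic Spec) and the converse dictionary give the table count over `ℂ`. -/
theorem spec_Cn_of_complex (hC : Stmt_Complex) (hWc : Spec_Wconv) : Spec_Cn := by
  intro τ n hn T hT
  obtain ⟨F, _, _, _, _, hg, hcount⟩ := hWc τ T hT
  obtain ⟨x, hx, hfin⟩ := helper5411.exists_transcendental_finite (K := ℂ) (F := F)
  refine hcount n hn ?_
  rw [← hg]
  exact hC F x hx n hn

/-- `Spec_Cn` restricted to prime powers is `Spec_C`. -/
theorem spec_C_of_spec_Cn (h : Spec_Cn) : Spec_C := by
  intro τ ℓ hℓ k T hT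
  exact h τ (ℓ ^ k) (pow_pos hℓ.out.pos k) T hT

/-- `Stmt_Complex` together with `Stmt_Reduce` in universe `0` is the interface `Spec_An`. -/
theorem spec_An_of_complex (hC : Stmt_Complex) : Spec_An := by
  intro F _ _ _ _ ℓ hℓ k
  obtain ⟨x, hx, hfin⟩ := helper5411.exists_transcendental_finite (K := ℂ) (F := F)
  rw [hC F x hx (ℓ ^ k) (pow_pos hℓ.out.pos k), ← pow_mul]
  congr 1
  ring

/-- Transfer by completeness of `ACF₀`, for arbitrary `n > 0`. -/
theorem count_of_complex_nat (hFO : Spec_FO.{u}) (hC : Spec_Cn)
    (K : Type u) [Field K] [IsAlgClosed K] [CharZero K]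
    (τ : WType) (n : ℕ) (hn : 0 < n) (T : Tab τ K) (hT : T.Valid) :
    T.Count n := by
  obtain ⟨φ, hφu, hφ0⟩ := hFO τ n
  let _ := Ring.compatibleRingOfRing K
  let _ := Ring.compatibleRingOfRing ℂ
  have : CharP K 0 := CharP.ofCharZero K
  have : CharP ℂ 0 := CharP.ofCharZero ℂ
  have h1 : ℂ ⊨ φ := (hφ0 ℂ).2 fun T hT => hC τ n hn T hT
  have key : Language.Theory.ACF 0 ⊨ᵇ φ :=
    ((Field.ACF_isComplete (Or.inr rfl)).realize_sentence_iff φ ℂ).1 h1
  exact (hφu K).1 (key.realize_sentence K) T hT

/-- **M4 from tables**: `Stmt_Transfer` of `helper6247_Spec` from `Spec_FO`, `Spec_W` and the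
converse dictionary over `ℂ`. -/
theorem transfer_of_tables (hFO : Spec_FO.{u}) (hW : Spec_W.{u, v}) (hWc : Spec_Wconv) :
    Stmt_Transfer.{u, v} := by
  intro hC K F _ _ _ _ _ x hx _ n hn
  have : IsCurveOver K F := helper1949.isCurveOver_of_finite x hx
  have : Algebra.EssFiniteType K F := helper1949.essFiniteType_of_finite (K := K) x
  obtain ⟨τ, T, hT, hg, hcount⟩ := hW K F
  rw [hcount n hn (count_of_complex_nat hFO (spec_Cn_of_complex hC hWc) K τ n hn T hT), hg]

/-- The frozen statement from the analytic complex case and the table dictionary. -/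
theorem s27_of_complex_and_tables (h0 : Stmt_Reduce.{u, v}) (hC : Stmt_Complex)
    (hFO : Spec_FO.{u}) (hW : Spec_W.{u, v}) (hWc : Spec_Wconv) : Stmt_S27.{u, v} :=
  s27_of h0 hC (transfer_of_tables hFO hW hWc)

/-- `Stmt_Reduce` holds (landed module `helper5411_Reduce`). -/
theorem stmt_reduce : Stmt_Reduce.{u, v} := by
  intro K F _ _ _ _ _ _ _
  exact helper5411.exists_transcendental_finite

end Fermat.Agent.S27.helper9553
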