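import Mathlib
import Fermat.Agent.S27.helper9553_HybridTransfer
import Fermat.Agent.S27.helper3351_WSpec

/-!
# S27: the converse dictionary `Spec_Wconv` and the Lefschetz box M4 from the table library

The second-level interfaces of the table track (`helper3351_WSpec`) are stated for an arbitrary
algebraically closed field, so at `K = ℂ` they give the converse dictionary `Spec_Wconv` of
`helper9553_Hybrid`:

`spec_Wconv_of : Stmt_Dedekind.{0} → Stmt_CountIff.{0} → Stmt_FF.{0} → Spec_Wconv`.

Consequently the Lefschetz transfer `Stmt_Transfer` (box M4 of `helper6247_Spec`) follows from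
`Spec_FO` and the W-side interfaces `Stmt_Dedekind`, `Stmt_CountIff`, `Stmt_FF`,
`Stmt_Transport`, `Stmt_W0` alone (`transfer_of_wspec`): no characteristic `p`, no Frobenius,
no zeta function, no constant field extension, no Galois descent.
-/

set_option autoImplicit false

open FirstOrder AlgebraicCurve IntermediateField

namespace Fermat.Agent.S27.helper9553

open Fermat.Agent.S27.helper3351 Fermat.Agent.S27.helper6247

universe u v

/-- The converse dictionary over `ℂ` from the table-algebra library (universe `0` instances). -/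
theorem spec_Wconv_of (hDed : Stmt_Dedekind.{0}) (hCount : Stmt_CountIff.{0})
    (hFF : Stmt_FF.{0}) : Spec_Wconv := by
  intro τ T hT
  have : Fact T.Valid := ⟨hT⟩
  have : IsDedekindDomain T.Alg := hDed ℂ τ T
  obtain ⟨_, _, hgen, hpic, _, hx, hfin⟩ := hFF ℂ τ T
  have hcurve : IsCurveOver ℂ (FractionRing T.Alg) :=
    helper1949.isCurveOver_of_finite
      (algebraMap T.Alg (FractionRing T.Alg) (Tab.Alg.x T)) hx
  have hess : Algebra.EssFiniteType ℂ (FractionRing T.Alg) :=
    helper1949.essFiniteType_of_finite (K := ℂ)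
      (algebraMap T.Alg (FractionRing T.Alg) (Tab.Alg.x T))
  refine ⟨FractionRing T.Alg, inferInstance, inferInstance, hcurve, hess, hgen, ?_⟩
  intro n hn hc
  refine (hCount ℂ τ T n hn).2 ?_
  rw [← hpic n]
  exact hc

/-- **M4 from the W-side**: `Stmt_Transfer` of `helper6247_Spec` from `Spec_FO` and the W-side
interfaces of `helper3351_WSpec` (in the universe of `K` and in universe `0`). -/
theorem transfer_of_wspec (hFO : Spec_FO.{u})
    (hDed : Stmt_Dedekind.{u}) (hCount : Stmt_CountIff.{u}) (hFF : Stmt_FF.{u})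
    (hTr : Stmt_Transport.{u, v, u}) (hW0 : Stmt_W0.{u, v})
    (hDed0 : Stmt_Dedekind.{0}) (hCount0 : Stmt_CountIff.{0}) (hFF0 : Stmt_FF.{0}) :
    Stmt_Transfer.{u, v} :=
  transfer_of_tables hFO (spec_W_of hDed hCount hFF hTr hW0) (spec_Wconv_of hDed0 hCount0 hFF0)

/-- The frozen statement from the analytic complex case, `Spec_FO` and the W-side interfaces. -/
theorem s27_of_complex_and_wspec (hC : Stmt_Complex) (hFO : Spec_FO.{u})
    (hDed : Stmt_Dedekind.{u}) (hCount : Stmt_CountIff.{u}) (hFF : Stmt_FF.{u})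
    (hTr : Stmt_Transport.{u, v, u}) (hW0 : Stmt_W0.{u, v})
    (hDed0 : Stmt_Dedekind.{0}) (hCount0 : Stmt_CountIff.{0}) (hFF0 : Stmt_FF.{0}) :
    Stmt_S27.{u, v} :=
  s27_of stmt_reduce hC (transfer_of_wspec hFO hDed hCount hFF hTr hW0 hDed0 hCount0 hFF0)

end Fermat.Agent.S27.helper9553
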