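import Mathlib
import Fermat.Agent.S27.helper9553_Wconv
import Fermat.Agent.S27.helper6247_Assembly
import Fermat.Agent.S27.helper7532_FO
import Fermat.Agent.S27.helper7028_W1bDedekind
import Fermat.Agent.S27.helper4272_W1aWeight
import Fermat.Agent.S27.helper1913_W1aDim
import Fermat.Agent.S27.helper1017_W1bPoints
import Fermat.Agent.S27.helper4551_W1bOrd
import Fermat.Agent.S27.helper1061_W1cCount
import Fermat.Agent.S27.helper3600_Transport
import Fermat.Agent.S27.helper3528_W0

/-!
# S27: integration chain ("what is still open"), table route

`s27_of_open` derives the final statement `Stmt_S27` from the boxes of the two Spec files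
(`helper6247_Spec`, `helper3351_WSpec`) that are NOT yet proved on main, using only landed
leaves.  Route: analytic complex case (`helper6247.asm_Complex`, unconditional) + `Spec_FO` +
table dictionary (no Lefschetz leaves, no characteristic `p`).  The hypothesis list of
`s27_of_open` is the current list of open boxes of this route: only `Stmt_FF` (in the universe
of `K` and in universe `0`).
-/

set_option autoImplicit false

namespace Fermat.Agent.S27.helper9553

open Fermat.Agent.S27.helper3351 Fermat.Agent.S27.helper6247

universe u v

/-- `Stmt_Dedekind` is closed. -/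
theorem stmt_Dedekind : Stmt_Dedekind.{u} :=
  helper7028.stmt_Dedekind helper4272.stmt_Domain helper1017.stmt_PtIdeal
    helper1017.stmt_MaxIdeal helper4551.stmt_RegularAt

/-- `Stmt_CountIff` is closed. -/
theorem stmt_CountIff : Stmt_CountIff.{u} :=
  helper1061.stmt_CountIff helper4272.stmt_WtBasic
    (helper1913.stmt_WtDim helper4272.stmt_WtBasic helper4272.stmt_WtMul helper4272.stmt_Nongaps)
    helper4272.stmt_Nongaps helper1017.stmt_PtIdeal helper1017.stmt_MaxIdeal
    helper4551.stmt_OrdGE

/-- The Lefschetz box M4 from the only table box still open, `Stmt_FF`. -/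
theorem transfer_of_open (hFF : Stmt_FF.{u}) (hFF0 : Stmt_FF.{0}) : Stmt_Transfer.{u, v} :=
  transfer_of_wspec helper7532.spec_FO stmt_Dedekind stmt_CountIff hFF
    helper3600.stmt_Transport helper3528.stmt_W0 stmt_Dedekind stmt_CountIff hFF0

/-- The final statement from the only box still open on the table route: `Stmt_FF`. -/
theorem s27_of_open (hFF : Stmt_FF.{u}) (hFF0 : Stmt_FF.{0}) : Stmt_S27.{u, v} :=
  s27_of_transfer (transfer_of_open hFF hFF0)

end Fermat.Agent.S27.helper9553
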