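import Mathlib
import Fermat.Agent.S27.helper3351_AlgSpec

/-!
# S27, algebraic route: first-order kit for `Spec_FO` (helper9618)

Explicit ring-language formulas with universe-polymorphic realisation lemmas.
Symbolic data live in `FreeCommRing α` (`α` = the type of free variables); a valuation
`v : α → K` realises them through the ring hom `FreeCommRing.lift v`.  All operations of the
specification file are natural in the coefficient ring, so no degree bounds are needed.
-/

set_option autoImplicit false

open Polynomial FirstOrder FirstOrder.Language FirstOrder.Ring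

namespace Fermat.Agent.S27.helper9618

open Fermat.Agent.S27.helper3351

universe u

variable {α β : Type}

/-! ## Weakening of symbolic data -/

/-- Weakening of symbolic ring elements along `Sum.inl`. -/
noncomputable def wk : FreeCommRing α →+* FreeCommRing (α ⊕ β) := FreeCommRing.map Sum.inl

@[simp]
theorem lift_elim_comp_wk {K : Type u} [CommRing K] (v : α → K) (w : β → K) :
    (FreeCommRing.lift (Sum.elim v w)).comp (wk (α := α) (β := β)) = FreeCommRing.lift v := by
  apply FreeCommRing.hom_ext
  intro x
  simp [wk]

@[simp]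
theorem lift_elim_comp_wk_comp {K : Type u} [CommRing K] {γ : Type} (v : α → K) (w : β → K)
    (g : FreeCommRing γ →+* FreeCommRing α) :
    (FreeCommRing.lift (Sum.elim v w)).comp ((wk (α := α) (β := β)).comp g) =
      (FreeCommRing.lift v).comp g := by
  rw [← RingHom.comp_assoc, lift_elim_comp_wk]

@[simp]
theorem lift_elim_wk {K : Type u} [CommRing K] (v : α → K) (w : β → K) (p : FreeCommRing α) :
    FreeCommRing.lift (Sum.elim v w) (wk (β := β) p) = FreeCommRing.lift v p := by
  rw [← lift_elim_comp_wk v w]
  rfl

/-! ## Atomic formulas -/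

/-- The formula `p = q`. -/
noncomputable def eqF (p q : FreeCommRing α) : Language.ring.Formula α :=
  (termOfFreeCommRing p).equal (termOfFreeCommRing q)

@[simp]
theorem realize_eqF {K : Type u} [CommRing K] [CompatibleRing K] (p q : FreeCommRing α)
    (v : α → K) :
    (eqF p q).Realize v ↔ FreeCommRing.lift v p = FreeCommRing.lift v q := by
  simp [eqF, Formula.Realize, Term.equal]

/-- A meta-level proposition as a formula. -/
noncomputable def propF (c : Prop) : Language.ring.Formula α := by
  classical exact if c then ⊤ else ⊥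

@[simp]
theorem realize_propF {K : Type u} [CommRing K] [CompatibleRing K] (c : Prop) (v : α → K) :
    (propF c : Language.ring.Formula α).Realize v ↔ c := by
  classical
  by_cases h : c <;> simp [propF, h]


/-! ## Naturality of the operations of the specification file -/

section Naturality

variable {τ : WType} {R S S' : Type*} [CommRing R] [CommRing S] [CommRing S']
  (f : R →+* S) (g : S →+* S')

/-- Image of a table under a ring hom. -/
def mapT (T : Tab τ R) : Tab τ S := fun i j k e => f (T i j k e)

/-- Image of an element under a ring hom (coefficientwise). -/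
noncomputable def mapE (a : Elt τ R) : Elt τ S := fun i => (a i).map f

/-- Image of a coefficient tuple under a ring hom. -/
def mapB {d : ℕ} (b : BElt τ R d) : BElt τ S d := fun i e => f (b i e)

theorem mapE_apply (a : Elt τ R) (i : Fin τ.m) : mapE f a i = (a i).map f := rfl

theorem mapB_def {d : ℕ} (b : BElt τ R d) : mapB f b = fun i e => f (b i e) := rfl

theorem mapT_def (T : Tab τ R) : mapT f T = fun i j k e => f (T i j k e) := rfl

@[simp] theorem mapT_mapT (T : Tab τ R) : mapT g (mapT f T) = mapT (g.comp f) T := rfl

@[simp] theorem mapB_mapB {d : ℕ} (b : BElt τ R d) : mapB g (mapB f b) = mapB (g.comp f) b := rfl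

@[simp] theorem mapE_mapE (a : Elt τ R) : mapE g (mapE f a) = mapE (g.comp f) a := by
  funext i
  simp [mapE, Polynomial.map_map]

theorem map_polyOf {d : ℕ} (a : Fin (d + 1) → R) :
    (polyOf a).map f = polyOf (fun e => f (a e)) := by
  simp [polyOf, Polynomial.map_sum]

@[simp] theorem mapE_toElt {d : ℕ} (b : BElt τ R d) : mapE f b.toElt = (mapB f b).toElt := by
  funext i
  simp only [mapE, BElt.toElt, map_polyOf]
  rfl

@[simp] theorem mapE_one : mapE f (Elt.one : Elt τ R) = Elt.one := by
  funext i
  simp only [mapE, Elt.one]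
  split_ifs <;> simp

@[simp] theorem mapE_e (i : Fin τ.m) : mapE f (Elt.e i : Elt τ R) = Elt.e i := by
  funext j
  simp only [mapE, Elt.e]
  split_ifs <;> simp

@[simp] theorem mapE_zero : mapE f (0 : Elt τ R) = 0 := by
  funext i
  simp [mapE]

@[simp] theorem mapE_sub (a b : Elt τ R) : mapE f (a - b) = mapE f a - mapE f b := by
  funext i
  simp [mapE]

@[simp] theorem mapE_sum {ι : Type*} (s : Finset ι) (F : ι → Elt τ R) :
    mapE f (∑ i ∈ s, F i) = ∑ i ∈ s, mapE f (F i) := by
  funext i
  simp [mapE, Finset.sum_apply, Polynomial.map_sum]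

@[simp] theorem mapE_genElt (x : R) (ψ : Fin τ.m → R) (a : Option (Fin τ.m)) :
    mapE f (genElt x ψ a) = genElt (f x) (fun i => f (ψ i)) a := by
  funext i
  cases a with
  | none =>
    simp only [mapE, genElt]
    split_ifs <;> simp
  | some j =>
    simp only [mapE, genElt]
    split_ifs <;> simp

@[simp] theorem map_c (T : Tab τ R) (i j k : Fin τ.m) :
    (T.c i j k).map f = (mapT f T).c i j k := by
  simp only [Tab.c, map_polyOf]
  rfl

@[simp] theorem mapE_mul (T : Tab τ R) (a b : Elt τ R) :
    mapE f (T.mul a b) = (mapT f T).mul (mapE f a) (mapE f b) := by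
  funext k
  simp [mapE, Tab.mul, Polynomial.map_sum]

@[simp] theorem mapE_npow (T : Tab τ R) (a : Elt τ R) (n : ℕ) :
    mapE f (T.npow a n) = (mapT f T).npow (mapE f a) n := by
  induction n with
  | zero => simp [Tab.npow]
  | succ n ih => simp [Tab.npow, ih]

theorem mapE_foldl (T : Tab τ R) (l : List (Elt τ R)) (a : Elt τ R) :
    mapE f (l.foldl T.mul a) = (l.map (mapE f)).foldl (mapT f T).mul (mapE f a) := by
  induction l generalizing a with
  | nil => simp
  | cons b l ih => simp [ih]

@[simp] theorem mapE_lprod (T : Tab τ R) (l : List (Elt τ R)) :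
    mapE f (T.lprod l) = (mapT f T).lprod (l.map (mapE f)) := by
  simp [Tab.lprod, mapE_foldl]

@[simp] theorem mapE_prodGen (T : Tab τ R) (x : R) (ψ : Fin τ.m → R) {j : ℕ}
    (a : Fin j → Option (Fin τ.m)) :
    mapE f (T.prodGen x ψ a) = (mapT f T).prodGen (f x) (fun i => f (ψ i)) a := by
  simp [Tab.prodGen, List.map_ofFn, Function.comp_def]

theorem eval_c_map (T : Tab τ R) (i j k : Fin τ.m) (x : R) :
    ((mapT f T).c i j k).eval (f x) = f ((T.c i j k).eval x) := by
  rw [← map_c, Polynomial.eval_map, Polynomial.eval₂_at_apply]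

end Naturality


/-! ## Formulas about symbolic polynomials -/

section PolyFormulas

variable {K : Type u} [CommRing K] [CompatibleRing K]

/-- `P = 0` (after realisation). -/
noncomputable def polyZeroF (P : (FreeCommRing α)[X]) : Language.ring.Formula α :=
  Formula.iInf fun e : Fin (P.natDegree + 1) => eqF (P.coeff e) 0

@[simp]
theorem realize_polyZeroF (P : (FreeCommRing α)[X]) (v : α → K) :
    (polyZeroF P).Realize v ↔ P.map (FreeCommRing.lift v) = 0 := by
  simp only [polyZeroF, Formula.realize_iInf, realize_eqF, map_zero]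
  constructor
  · intro h
    ext e
    simp only [coeff_map, coeff_zero]
    by_cases he : e ≤ P.natDegree
    · exact h ⟨e, Nat.lt_succ_of_le he⟩
    · rw [coeff_eq_zero_of_natDegree_lt (not_le.mp he), map_zero]
  · intro h e
    have := congrArg (fun Q => Q.coeff (e : ℕ)) h
    simpa [coeff_map] using this

/-- `(X - C x) ^ j ∣ P` (after realisation), via the Taylor shift. -/
noncomputable def dvdF (x : FreeCommRing α) (j : ℕ) (P : (FreeCommRing α)[X]) :
    Language.ring.Formula α :=
  Formula.iInf fun e : Fin j => eqF ((P.comp (X + C x)).coeff e) 0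

@[simp]
theorem realize_dvdF (x : FreeCommRing α) (j : ℕ) (P : (FreeCommRing α)[X]) (v : α → K) :
    (dvdF x j P).Realize v ↔
      (X - C (FreeCommRing.lift v x)) ^ j ∣ P.map (FreeCommRing.lift v) := by
  simp only [dvdF, Formula.realize_iInf, realize_eqF, map_zero]
  rw [X_sub_C_pow_dvd_iff, X_pow_dvd_iff]
  have hc : (P.map (FreeCommRing.lift v)).comp (X + C (FreeCommRing.lift v x)) =
      (P.comp (X + C x)).map (FreeCommRing.lift v) := by
    simp [Polynomial.map_comp]
  rw [hc]
  simp only [coeff_map]
  exact ⟨fun h d hd => h ⟨d, hd⟩, fun h e => h e e.2⟩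

/-- `P ≠ 0 → m * natDegree P + r ≤ t` (after realisation). -/
noncomputable def wtF (m r t : ℕ) (P : (FreeCommRing α)[X]) : Language.ring.Formula α :=
  Formula.iInf fun e : Fin (P.natDegree + 1) => propF (m * (e : ℕ) + r ≤ t) ⊔ eqF (P.coeff e) 0

@[simp]
theorem realize_wtF (m r t : ℕ) (P : (FreeCommRing α)[X]) (v : α → K) :
    (wtF m r t P).Realize v ↔
      (P.map (FreeCommRing.lift v) ≠ 0 →
        m * (P.map (FreeCommRing.lift v)).natDegree + r ≤ t) := by
  simp only [wtF, Formula.realize_iInf, Formula.realize_sup, realize_propF, realize_eqF, map_zero]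
  constructor
  · intro h hQ
    have hd : (P.map (FreeCommRing.lift v)).natDegree ≤ P.natDegree := natDegree_map_le
    rcases h ⟨_, Nat.lt_succ_of_le hd⟩ with h1 | h1
    · exact h1
    · exfalso
      apply hQ
      rw [← leadingCoeff_eq_zero, leadingCoeff, coeff_map]
      exact h1
  · intro h e
    by_cases he : FreeCommRing.lift v (P.coeff e) = 0
    · exact Or.inr he
    · left
      have hQ : P.map (FreeCommRing.lift v) ≠ 0 := by
        intro h0
        apply he
        rw [← coeff_map, h0, coeff_zero]
      have hle : (e : ℕ) ≤ (P.map (FreeCommRing.lift v)).natDegree :=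
        le_natDegree_of_ne_zero (by rwa [coeff_map])
      have := h hQ
      have h2 : m * (e : ℕ) ≤ m * (P.map (FreeCommRing.lift v)).natDegree :=
        Nat.mul_le_mul_left m hle
      omega

/-- `P ≠ 0 ∧ m * natDegree P + r = s` (after realisation). -/
noncomputable def leadF (m r s : ℕ) (P : (FreeCommRing α)[X]) : Language.ring.Formula α :=
  Formula.iSup fun d : Fin (P.natDegree + 1) =>
    propF (m * (d : ℕ) + r = s) ⊓ ∼(eqF (P.coeff d) 0) ⊓
      Formula.iInf fun e : Fin (P.natDegree + 1) => propF ((e : ℕ) ≤ d) ⊔ eqF (P.coeff e) 0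

@[simp]
theorem realize_leadF (m r s : ℕ) (P : (FreeCommRing α)[X]) (v : α → K) :
    (leadF m r s P).Realize v ↔
      (P.map (FreeCommRing.lift v) ≠ 0 ∧
        m * (P.map (FreeCommRing.lift v)).natDegree + r = s) := by
  simp only [leadF, Formula.realize_iSup, Formula.realize_iInf, Formula.realize_inf,
    Formula.realize_sup, Formula.realize_not, realize_propF, realize_eqF, map_zero]
  constructor
  · rintro ⟨d, ⟨hd1, hd2⟩, hd3⟩
    have hQ : P.map (FreeCommRing.lift v) ≠ 0 := by
      intro h0
      apply hd2
      rw [← coeff_map, h0, coeff_zero]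
    have hdeg : (P.map (FreeCommRing.lift v)).natDegree = d := by
      apply le_antisymm
      · rw [natDegree_le_iff_coeff_eq_zero]
        intro N hN
        rw [coeff_map]
        by_cases hNP : N ≤ P.natDegree
        · rcases hd3 ⟨N, Nat.lt_succ_of_le hNP⟩ with h1 | h1
          · exact absurd h1 (not_le.mpr hN)
          · exact h1
        · rw [coeff_eq_zero_of_natDegree_lt (not_le.mp hNP), map_zero]
      · exact le_natDegree_of_ne_zero (by rwa [coeff_map])
    exact ⟨hQ, by rw [hdeg]; exact hd1⟩
  · rintro ⟨hQ, hs⟩
    have hd : (P.map (FreeCommRing.lift v)).natDegree ≤ P.natDegree := natDegree_map_le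
    refine ⟨⟨_, Nat.lt_succ_of_le hd⟩, ⟨hs, ?_⟩, ?_⟩
    · intro h0
      apply hQ
      rw [← leadingCoeff_eq_zero, leadingCoeff, coeff_map]
      exact h0
    · intro e
      by_cases he : (e : ℕ) ≤ (P.map (FreeCommRing.lift v)).natDegree
      · exact Or.inl he
      · right
        rw [← coeff_map]
        exact coeff_eq_zero_of_natDegree_lt (not_le.mp he)

variable {τ : WType}

/-- Equality of two symbolic elements (after realisation). -/
noncomputable def eltEqF (a b : Elt τ (FreeCommRing α)) : Language.ring.Formula α :=
  Formula.iInf fun i : Fin τ.m => polyZeroF (a i - b i)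

@[simp]
theorem realize_eltEqF (a b : Elt τ (FreeCommRing α)) (v : α → K) :
    (eltEqF a b).Realize v ↔
      mapE (FreeCommRing.lift v) a = mapE (FreeCommRing.lift v) b := by
  simp only [eltEqF, Formula.realize_iInf, realize_polyZeroF, Polynomial.map_sub, sub_eq_zero]
  exact ⟨fun h => funext h, fun h i => congrFun h i⟩

/-- Componentwise divisibility by `(X - C x) ^ j` (after realisation). -/
noncomputable def eltDvdF (x : FreeCommRing α) (j : ℕ) (a : Elt τ (FreeCommRing α)) :
    Language.ring.Formula α :=
  Formula.iInf fun i : Fin τ.m => dvdF x j (a i)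

@[simp]
theorem realize_eltDvdF (x : FreeCommRing α) (j : ℕ) (a : Elt τ (FreeCommRing α)) (v : α → K) :
    (eltDvdF x j a).Realize v ↔
      ∀ i, (X - C (FreeCommRing.lift v x)) ^ j ∣ mapE (FreeCommRing.lift v) a i := by
  simp only [eltDvdF, Formula.realize_iInf, realize_dvdF]
  rfl

/-- `wtLE a t` (after realisation). -/
noncomputable def wtLEF (a : Elt τ (FreeCommRing α)) (t : ℕ) : Language.ring.Formula α :=
  Formula.iInf fun i : Fin τ.m => wtF τ.m (τ.ρ i) t (a i)

@[simp]
theorem realize_wtLEF (a : Elt τ (FreeCommRing α)) (t : ℕ) (v : α → K) :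
    (wtLEF a t).Realize v ↔ wtLE (mapE (FreeCommRing.lift v) a) t := by
  simp only [wtLEF, Formula.realize_iInf, realize_wtF]
  rfl

end PolyFormulas

end Fermat.Agent.S27.helper9618
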