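import Mathlib
import Fermat.Agent.S27.helper3351_AlgSpec
import Fermat.Agent.S27.helper9618_FODef

/-!
# S27, algebraic route: `Spec_FO` (helper9618)

The predicates of the specification file as explicit ring-language formulas, and the proof of
`Spec_FO`.
-/

set_option autoImplicit false

open Polynomial FirstOrder FirstOrder.Language FirstOrder.Ring

namespace Fermat.Agent.S27.helper9618

open Fermat.Agent.S27.helper3351

universe u

variable {α : Type} {τ : WType} {K : Type u} [CommRing K] [CompatibleRing K]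

/-- `Tab.IsPoint` as a formula. -/
noncomputable def isPointF (T : Tab τ (FreeCommRing α)) (x : FreeCommRing α)
    (ψ : Fin τ.m → FreeCommRing α) : Language.ring.Formula α :=
  (Formula.iInf fun i : Fin τ.m => propF ((i : ℕ) ≠ 0) ⊔ eqF (ψ i) 1) ⊓
    Formula.iInf fun i : Fin τ.m => Formula.iInf fun j : Fin τ.m =>
      eqF (ψ i * ψ j) (∑ k, (T.c i j k).eval x * ψ k)

@[simp]
theorem realize_isPointF (T : Tab τ (FreeCommRing α)) (x : FreeCommRing α)
    (ψ : Fin τ.m → FreeCommRing α) (v : α → K) :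
    (isPointF T x ψ).Realize v ↔
      (mapT (FreeCommRing.lift v) T).IsPoint (FreeCommRing.lift v x)
        (fun i => FreeCommRing.lift v (ψ i)) := by
  simp only [isPointF, Formula.realize_inf, Formula.realize_iInf, Formula.realize_sup,
    realize_propF, realize_eqF, map_one, map_mul, map_sum, Tab.IsPoint, eval_c_map]
  refine and_congr (forall_congr' fun i => ?_) Iff.rfl
  tauto

/-- `Tab.OrdGE` as a formula. -/
noncomputable def ordGEF (T : Tab τ (FreeCommRing α)) (x : FreeCommRing α)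
    (ψ : Fin τ.m → FreeCommRing α) (h : Elt τ (FreeCommRing α)) (j : ℕ) :
    Language.ring.Formula α :=
  Formula.iExs ((Fin j → Option (Fin τ.m)) × Fin τ.m × Fin (j + 1))
    (eltDvdF (wk x) j
      (mapE wk h - ∑ a : Fin j → Option (Fin τ.m),
        (mapT wk T).mul ((mapT wk T).prodGen (wk x) (fun i => wk (ψ i)) a)
          (BElt.toElt fun i e => FreeCommRing.of (Sum.inr (a, i, e)))))

@[simp]
theorem realize_ordGEF (T : Tab τ (FreeCommRing α)) (x : FreeCommRing α)
    (ψ : Fin τ.m → FreeCommRing α) (h : Elt τ (FreeCommRing α)) (j : ℕ) (v : α → K) :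
    (ordGEF T x ψ h j).Realize v ↔
      (mapT (FreeCommRing.lift v) T).OrdGE (FreeCommRing.lift v x)
        (fun i => FreeCommRing.lift v (ψ i)) (mapE (FreeCommRing.lift v) h) j := by
  simp only [ordGEF, Formula.realize_iExs, realize_eltDvdF, mapE_sub, mapE_sum, mapE_mul,
    mapE_prodGen, mapE_toElt, mapE_mapE, mapT_mapT, lift_elim_comp_wk, lift_elim_wk,
    mapB_def, FreeCommRing.lift_of, Sum.elim_inr]
  exact ⟨fun ⟨w, hw⟩ => ⟨fun a i e => w (a, i, e), hw⟩,
    fun ⟨b, hb⟩ => ⟨fun p => b p.1 p.2.1 p.2.2, hb⟩⟩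


/-- The linear combination `∑ a', lam a' • gen a'` appearing in `Tab.RegularAt`. -/
noncomputable def linGen {R : Type*} [CommRing R] (lam : Option (Fin τ.m) → R) (x : R)
    (ψ : Fin τ.m → R) : Elt τ R :=
  fun i' => ∑ a', C (lam a') * genElt x ψ a' i'

@[simp]
theorem mapE_linGen {R S : Type*} [CommRing R] [CommRing S] (f : R →+* S)
    (lam : Option (Fin τ.m) → R) (x : R) (ψ : Fin τ.m → R) :
    mapE f (linGen lam x ψ) = linGen (fun a => f (lam a)) (f x) (fun i => f (ψ i)) := by
  funext i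
  simp only [mapE, linGen, Polynomial.map_sum, Polynomial.map_mul, Polynomial.map_C]
  refine Finset.sum_congr rfl fun a _ => ?_
  rw [← mapE_apply, mapE_genElt]

/-- `Tab.RegularAt` as a formula. -/
noncomputable def regularAtF (T : Tab τ (FreeCommRing α)) (x : FreeCommRing α)
    (ψ : Fin τ.m → FreeCommRing α) : Language.ring.Formula α :=
  Formula.iExs (Option (Fin τ.m))
    (Formula.iInf fun a : Option (Fin τ.m) =>
      Formula.iExs ((Fin τ.m × Fin (1 + 1)) ⊕
          (Option (Fin τ.m) × Option (Fin τ.m) × Fin τ.m × Fin (1 + 1)))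
        (eltDvdF (wk (wk x)) 2
          (genElt (wk (wk x)) (fun i => wk (wk (ψ i))) a
            - (mapT wk (mapT wk T)).mul
                (linGen (fun a' => wk (FreeCommRing.of (Sum.inr a'))) (wk (wk x))
                  (fun i => wk (wk (ψ i))))
                (BElt.toElt fun i e => FreeCommRing.of (Sum.inr (Sum.inl (i, e))))
            - ∑ a', ∑ a'', (mapT wk (mapT wk T)).mul
                ((mapT wk (mapT wk T)).mul (genElt (wk (wk x)) (fun i => wk (wk (ψ i))) a')
                  (genElt (wk (wk x)) (fun i => wk (wk (ψ i))) a''))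
                (BElt.toElt fun i e => FreeCommRing.of (Sum.inr (Sum.inr (a', a'', i, e)))))))

@[simp]
theorem realize_regularAtF (T : Tab τ (FreeCommRing α)) (x : FreeCommRing α)
    (ψ : Fin τ.m → FreeCommRing α) (v : α → K) :
    (regularAtF T x ψ).Realize v ↔
      (mapT (FreeCommRing.lift v) T).RegularAt (FreeCommRing.lift v x)
        (fun i => FreeCommRing.lift v (ψ i)) := by
  simp only [regularAtF, Formula.realize_iExs, Formula.realize_iInf, realize_eltDvdF, mapE_sub,
    mapE_sum, mapE_mul, mapE_genElt, mapE_linGen, mapE_toElt, mapT_mapT, lift_elim_comp_wk,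
    lift_elim_comp_wk_comp, lift_elim_wk, mapB_def, FreeCommRing.lift_of, Sum.elim_inr]
  constructor
  · rintro ⟨lam, h⟩
    refine ⟨lam, fun a => ?_⟩
    obtain ⟨w, hw⟩ := h a
    exact ⟨fun i e => w (Sum.inl (i, e)), fun a' a'' i e => w (Sum.inr (a', a'', i, e)), hw⟩
  · rintro ⟨lam, h⟩
    refine ⟨lam, fun a => ?_⟩
    obtain ⟨b, b2, hb⟩ := h a
    exact ⟨Sum.elim (fun p => b p.1 p.2) (fun p => b2 p.1 p.2.1 p.2.2.1 p.2.2.2), hb⟩


/-- `Tab.Valid` as a formula. -/
noncomputable def validF (T : Tab τ (FreeCommRing α)) : Language.ring.Formula α :=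
  propF τ.Good ⊓
  (Formula.iInf fun j : Fin τ.m => eltEqF (T.mul Elt.one (Elt.e j)) (Elt.e j)) ⊓
  (Formula.iInf fun i : Fin τ.m => Formula.iInf fun j : Fin τ.m => Formula.iInf fun k : Fin τ.m =>
    polyZeroF (T.c i j k - T.c j i k)) ⊓
  (Formula.iInf fun i : Fin τ.m => Formula.iInf fun j : Fin τ.m => Formula.iInf fun k : Fin τ.m =>
    eltEqF (T.mul (T.mul (Elt.e i) (Elt.e j)) (Elt.e k))
      (T.mul (Elt.e i) (T.mul (Elt.e j) (Elt.e k)))) ⊓
  (Formula.iInf fun i : Fin τ.m => Formula.iInf fun j : Fin τ.m => Formula.iInf fun k : Fin τ.m =>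
    wtF τ.m (τ.ρ k) (τ.ρ i + τ.ρ j) (T.c i j k)) ⊓
  (Formula.iInf fun i : Fin τ.m => Formula.iInf fun j : Fin τ.m => Formula.iInf fun k : Fin τ.m =>
    propF (((i : ℕ) + j) % τ.m ≠ k) ⊔ leadF τ.m (τ.ρ k) (τ.ρ i + τ.ρ j) (T.c i j k)) ⊓
  Formula.iAlls (Option (Fin τ.m))
    (isPointF (mapT wk T) (FreeCommRing.of (Sum.inr none))
        (fun i => FreeCommRing.of (Sum.inr (some i))) ⟹
      regularAtF (mapT wk T) (FreeCommRing.of (Sum.inr none))
        (fun i => FreeCommRing.of (Sum.inr (some i))))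

@[simp]
theorem realize_validF (T : Tab τ (FreeCommRing α)) (v : α → K) :
    (validF T).Realize v ↔ (mapT (FreeCommRing.lift v) T).Valid := by
  simp only [validF, Formula.realize_inf, Formula.realize_iInf, Formula.realize_sup,
    Formula.realize_imp, Formula.realize_iAlls, realize_propF, realize_eltEqF, realize_polyZeroF,
    realize_wtF, realize_leadF, realize_isPointF, realize_regularAtF, mapE_mul, mapE_one, mapE_e,
    map_c, Polynomial.map_sub, sub_eq_zero, mapT_mapT, lift_elim_comp_wk, FreeCommRing.lift_of,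
    Sum.elim_inr]
  constructor
  · rintro ⟨⟨⟨⟨⟨⟨h1, h2⟩, h3⟩, h4⟩, h5⟩, h6⟩, h7⟩
    exact ⟨h1, h2, h3, h4, h5, fun i j k hk => (h6 i j k).resolve_left (not_not.mpr hk),
      fun x₀ ψ hp => h7 (fun o => o.elim x₀ ψ) hp⟩
  · intro h
    refine ⟨⟨⟨⟨⟨⟨h.good, h.one_mul⟩, h.comm⟩, h.assoc⟩, h.wt⟩, fun i j k => ?_⟩,
      fun w hp => h.regular _ _ hp⟩
    by_cases hk : ((i : ℕ) + j) % τ.m = k
    · exact Or.inr (h.lead i j k hk)
    · exact Or.inl hk


/-- `Tab.InH` as a formula. -/
noncomputable def inHF (T : Tab τ (FreeCommRing α)) (n : ℕ)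
    (h : BElt τ (FreeCommRing α) (n * τ.genus)) : Language.ring.Formula α :=
  ∼(eltEqF h.toElt 0) ⊓ wtLEF h.toElt (n * τ.genus) ⊓
    Formula.iAlls (Option (Fin τ.m))
      (isPointF (mapT wk T) (FreeCommRing.of (Sum.inr none))
          (fun i => FreeCommRing.of (Sum.inr (some i))) ⟹
        Formula.iSup fun j : Fin (n * τ.genus + 1) =>
          propF (n ∣ (j : ℕ)) ⊓
            ordGEF (mapT wk T) (FreeCommRing.of (Sum.inr none))
              (fun i => FreeCommRing.of (Sum.inr (some i))) (mapE wk h.toElt) j ⊓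
            ∼(ordGEF (mapT wk T) (FreeCommRing.of (Sum.inr none))
              (fun i => FreeCommRing.of (Sum.inr (some i))) (mapE wk h.toElt) (j + 1)))

@[simp]
theorem realize_inHF (T : Tab τ (FreeCommRing α)) (n : ℕ)
    (h : BElt τ (FreeCommRing α) (n * τ.genus)) (v : α → K) :
    (inHF T n h).Realize v ↔
      (mapT (FreeCommRing.lift v) T).InH n (mapB (FreeCommRing.lift v) h) := by
  simp only [inHF, Formula.realize_inf, Formula.realize_not, Formula.realize_iSup,
    Formula.realize_imp, Formula.realize_iAlls, realize_propF, realize_eltEqF, realize_wtLEF,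
    realize_isPointF, realize_ordGEF, mapE_toElt, mapE_zero, mapB_mapB, mapT_mapT,
    lift_elim_comp_wk, FreeCommRing.lift_of, Sum.elim_inr]
  unfold Tab.InH
  constructor
  · rintro ⟨⟨h1, h2⟩, h3⟩
    refine ⟨h1, h2, fun x₀ ψ hp => ?_⟩
    obtain ⟨j, ⟨hj1, hj2⟩, hj3⟩ := h3 (fun o => o.elim x₀ ψ) hp
    exact ⟨j, Nat.lt_succ_iff.mp j.2, hj1, hj2, hj3⟩
  · rintro ⟨h1, h2, h3⟩
    refine ⟨⟨h1, h2⟩, fun w hp => ?_⟩
    obtain ⟨j, hj0, hj1, hj2, hj3⟩ := h3 _ _ hp
    exact ⟨⟨j, Nat.lt_succ_of_le hj0⟩, ⟨hj1, hj2⟩, hj3⟩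

/-- `Tab.Equiv` as a formula. -/
noncomputable def equivF (T : Tab τ (FreeCommRing α)) (n : ℕ)
    (h h' : BElt τ (FreeCommRing α) (n * τ.genus)) : Language.ring.Formula α :=
  Formula.iExs (Fin τ.m × Fin (n * τ.genus + 1))
    (eltEqF
      ((mapT wk T).npow
        (BElt.toElt (d := n * τ.genus) fun i e => FreeCommRing.of (Sum.inr (i, e))) n)
      ((mapT wk T).mul (mapE wk h.toElt) ((mapT wk T).npow (mapE wk h'.toElt) (n - 1))))

@[simp]
theorem realize_equivF (T : Tab τ (FreeCommRing α)) (n : ℕ)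
    (h h' : BElt τ (FreeCommRing α) (n * τ.genus)) (v : α → K) :
    (equivF T n h h').Realize v ↔
      (mapT (FreeCommRing.lift v) T).Equiv n (mapB (FreeCommRing.lift v) h)
        (mapB (FreeCommRing.lift v) h') := by
  simp only [equivF, Formula.realize_iExs, realize_eltEqF, mapE_npow, mapE_mul, mapE_toElt,
    mapB_mapB, mapT_mapT, lift_elim_comp_wk]
  simp only [mapB_def, FreeCommRing.lift_of, Sum.elim_inr]
  exact ⟨fun ⟨w, hw⟩ => ⟨fun i e => w (i, e), hw⟩, fun ⟨u, hu⟩ => ⟨fun p => u p.1 p.2, hu⟩⟩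

/-- `Tab.Count` as a formula. -/
noncomputable def countF (T : Tab τ (FreeCommRing α)) (n : ℕ) : Language.ring.Formula α :=
  Formula.iExs (Fin (n ^ (2 * τ.genus)) × Fin τ.m × Fin (n * τ.genus + 1))
    ((Formula.iInf fun a : Fin (n ^ (2 * τ.genus)) =>
        inHF (mapT wk T) n (fun i e => FreeCommRing.of (Sum.inr (a, i, e)))) ⊓
      (Formula.iInf fun a : Fin (n ^ (2 * τ.genus)) =>
        Formula.iInf fun b : Fin (n ^ (2 * τ.genus)) =>
          propF (a = b) ⊔ ∼(equivF (mapT wk T) n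
            (fun i e => FreeCommRing.of (Sum.inr (a, i, e)))
            (fun i e => FreeCommRing.of (Sum.inr (b, i, e))))) ⊓
      Formula.iAlls (Fin τ.m × Fin (n * τ.genus + 1))
        (inHF (mapT wk (mapT wk T)) n (fun i e => FreeCommRing.of (Sum.inr (i, e))) ⟹
          Formula.iSup fun a : Fin (n ^ (2 * τ.genus)) =>
            equivF (mapT wk (mapT wk T)) n (fun i e => FreeCommRing.of (Sum.inr (i, e)))
              (fun i e => wk (FreeCommRing.of (Sum.inr (a, i, e))))))

@[simp]
theorem realize_countF (T : Tab τ (FreeCommRing α)) (n : ℕ) (v : α → K) :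
    (countF T n).Realize v ↔ (mapT (FreeCommRing.lift v) T).Count n := by
  simp only [countF, Formula.realize_iExs, Formula.realize_inf, Formula.realize_iInf,
    Formula.realize_sup, Formula.realize_not, Formula.realize_iSup, Formula.realize_imp,
    Formula.realize_iAlls, realize_propF, realize_inHF, realize_equivF, mapT_mapT,
    lift_elim_comp_wk, lift_elim_comp_wk_comp, lift_elim_wk, mapB_def, FreeCommRing.lift_of,
    Sum.elim_inr]
  unfold Tab.Count
  constructor
  · rintro ⟨w, ⟨h1, h2⟩, h3⟩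
    refine ⟨fun a i e => w (a, i, e), h1, fun a b hab => (h2 a b).resolve_left hab, fun h hh => ?_⟩
    exact h3 (fun p => h p.1 p.2) hh
  · rintro ⟨hs, h1, h2, h3⟩
    refine ⟨fun p => hs p.1 p.2.1 p.2.2, ⟨h1, fun a b => ?_⟩, fun w hw => h3 _ hw⟩
    by_cases hab : a = b
    · exact Or.inl hab
    · exact Or.inr (h2 a b hab)

/-- The sentence "every valid table of type `τ` has exactly `n^(2g)` classes". -/
noncomputable def sentenceF (τ : WType) (n : ℕ) : Language.ring.Sentence :=
  Formula.iAlls (Fin τ.m × Fin τ.m × Fin τ.m × Fin (τ.D + 1))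
    (validF (τ := τ) (fun i j k e => FreeCommRing.of (Sum.inr (i, j, k, e))) ⟹
      countF (τ := τ) (fun i j k e => FreeCommRing.of (Sum.inr (i, j, k, e))) n)

theorem realize_sentenceF (τ : WType) (n : ℕ) :
    K ⊨ sentenceF τ n ↔ ∀ T : Tab τ K, T.Valid → T.Count n := by
  simp only [Sentence.Realize, sentenceF, Formula.realize_iAlls, Formula.realize_imp,
    realize_validF, realize_countF, mapT_def, FreeCommRing.lift_of, Sum.elim_inr]
  exact ⟨fun h T => h (fun p => T p.1 p.2.1 p.2.2.1 p.2.2.2), fun h w => h _⟩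

/-- **Spec_FO** of the algebraic route: "every valid table has exactly `n^(2g)` classes of
`n`-torsion" is a first-order sentence in the language of rings, uniformly in the field. -/
theorem spec_FO : Spec_FO.{u} := fun τ n =>
  ⟨sentenceF τ n, fun _ _ _ => realize_sentenceF τ n, fun _ _ _ => realize_sentenceF τ n⟩

end Fermat.Agent.S27.helper9618
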