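/-
S27-ALG-RRD (helper9786): Riemann–Roch with duality in the Prelude repartition language.
Weil differentials = functionals on repartitions vanishing on `A(D) + F`; `dim_F Ω = 1`;
canonical divisor; `L(W - D) ≃ Ω(D)`; hence `l(D) = deg D + 1 - g + l(W - D)`.
Hypothesis-passing on the weak Riemann–Roch package (finiteness of `H1 D`, Riemann's equality
`l(D) - h1(D) = deg D + 1 - g`, vanishing of `H1 D` in large degree).  Characteristic free.
-/
import Mathlib
import Fermat.Prelude.Def_AlgebraicCurve_Repartitions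

set_option autoImplicit false

open AlgebraicCurve Module

namespace Fermat.Agent.S27.helper9786

noncomputable section

variable {K F : Type*} [Field K] [Field F] [Algebra K F]

/-! ### Repartitions: basic API -/

/-- The repartition (adele) space of the Prelude, as a type. -/
abbrev Rep (K F : Type*) [Field K] [Field F] [Algebra K F] : Type _ := ↥(repartitions K F)

@[simp]
theorem coe_smul_apply (x : F) (α : Rep K F) (v : Place K F) :
    ((x • α : Rep K F) : Place K F → F) v = x * (α : Place K F → F) v := rfl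

@[simp]
theorem coe_add_apply (α β : Rep K F) (v : Place K F) :
    ((α + β : Rep K F) : Place K F → F) v =
      (α : Place K F → F) v + (β : Place K F → F) v := rfl

@[simp]
theorem coe_sub_apply (α β : Rep K F) (v : Place K F) :
    ((α - β : Rep K F) : Place K F → F) v =
      (α : Place K F → F) v - (β : Place K F → F) v := rfl

open Classical in
/-- The repartition with value `f` at the place `Q` and `0` elsewhere. -/
def single (Q : Place K F) (f : F) : Rep K F :=
  ⟨fun v => if v = Q then f else 0, mem_repartitions_of_finite <| by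
    refine (Set.finite_singleton Q).subset fun v hv => ?_
    by_contra hne
    have hne' : v ≠ Q := hne
    apply hv
    simp [hne']⟩

theorem single_apply_self (Q : Place K F) (f : F) :
    ((single Q f : Rep K F) : Place K F → F) Q = f := by
  simp [single]

theorem single_apply_of_ne (Q : Place K F) (f : F) {v : Place K F} (h : v ≠ Q) :
    ((single Q f : Rep K F) : Place K F → F) v = 0 := by
  simp [single, h]


/-! ### Principal divisors -/

section Principal

variable [HasPrincipalDivisors K F]

open Classical in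
/-- The divisor of a function (`0` for `x = 0`). -/
def divOf (x : F) : Divisor K F :=
  if hx : x = 0 then 0
  else Classical.choose (HasPrincipalDivisors.exists_divisor (K := K) x hx)

@[simp]
theorem divOf_apply (x : F) (v : Place K F) : divOf (K := K) x v = v.ord x := by
  unfold divOf
  split_ifs with hx
  · subst hx; simp
  · exact (Classical.choose_spec (HasPrincipalDivisors.exists_divisor (K := K) x hx)).1 v

@[simp]
theorem degree_divOf (x : F) : Divisor.degree (divOf (K := K) x) = 0 := by
  unfold divOf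
  split_ifs with hx
  · simp
  · exact (Classical.choose_spec (HasPrincipalDivisors.exists_divisor (K := K) x hx)).2

end Principal

/-! ### Degrees of effective divisors -/

theorem degree_nonneg {D : Divisor K F} (hD : 0 ≤ D) : 0 ≤ Divisor.degree D := by
  have h : Divisor.degree D = D.sum fun v n => n * (v.deg : ℤ) := by
    simp [Divisor.degree, Finsupp.liftAddHom_apply]
  rw [h]
  refine Finset.sum_nonneg fun v _ => ?_
  exact mul_nonneg (Finsupp.le_def.mp hD v) (Int.natCast_nonneg _)

theorem degree_le_of_le {D E : Divisor K F} (h : D ≤ E) :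
    Divisor.degree D ≤ Divisor.degree E := by
  have h0 : 0 ≤ E - D := sub_nonneg.mpr h
  have := degree_nonneg h0
  rw [map_sub] at this
  linarith

/-! ### Membership in `A(D)` and `L(D)` in terms of `ord` -/

theorem smul_mem_repartitionsOf_iff [HasPrincipalDivisors K F] {x : F} (hx : x ≠ 0)
    (D : Divisor K F) (α : Rep K F) :
    x • α ∈ repartitionsOf D ↔ α ∈ repartitionsOf (D + divOf x) := by
  rw [mem_repartitionsOf_iff, mem_repartitionsOf_iff]
  refine forall_congr' fun v => ?_
  rw [coe_smul_apply, Finsupp.add_apply, divOf_apply]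
  by_cases h0 : (α : Place K F → F) v = 0
  · simp [h0]
  · rw [v.ord_mul hx h0]
    simp only [mul_eq_zero, hx, h0, or_self, false_or]
    constructor <;> intro h <;> linarith

theorem mem_riemannRochSpace_iff_le [HasPrincipalDivisors K F] {x : F} (hx : x ≠ 0)
    (D : Divisor K F) : x ∈ riemannRochSpace D ↔ -D ≤ divOf x := by
  rw [mem_riemannRochSpace_iff, Finsupp.le_def]
  refine forall_congr' fun v => ?_
  simp [hx]

theorem riemannRochSpace_eq_bot_of_degree_neg [HasPrincipalDivisors K F] {D : Divisor K F}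
    (hD : Divisor.degree D < 0) : riemannRochSpace D = ⊥ := by
  rw [eq_bot_iff]
  intro x hx
  rw [Submodule.mem_bot]
  by_contra h0
  have h1 := (mem_riemannRochSpace_iff_le (K := K) h0 D).mp hx
  have h2 := degree_le_of_le h1
  rw [map_neg, degree_divOf] at h2
  linarith


/-! ### The `F`-action on functionals on repartitions -/

/-- Multiplication by `x : F` on repartitions, as a `K`-linear map. -/
def mulRep (x : F) : Rep K F →ₗ[K] Rep K F :=
  (LinearMap.lsmul F (Rep K F) x).restrictScalars K

@[simp]
theorem mulRep_apply (x : F) (α : Rep K F) : mulRep (K := K) x α = x • α := rfl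

/-- `(x • ω)(α) = ω(x α)`. -/
def smulDual (x : F) (ω : Dual K (Rep K F)) : Dual K (Rep K F) := ω.comp (mulRep x)

@[simp]
theorem smulDual_apply (x : F) (ω : Dual K (Rep K F)) (α : Rep K F) :
    smulDual x ω α = ω (x • α) := rfl

@[simp]
theorem smulDual_one (ω : Dual K (Rep K F)) : smulDual (1 : F) ω = ω := by
  ext α; simp

theorem smulDual_smulDual (x y : F) (ω : Dual K (Rep K F)) :
    smulDual x (smulDual y ω) = smulDual (x * y) ω := by
  ext α
  simp only [smulDual_apply]
  rw [smul_smul, mul_comm]

@[simp]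
theorem smulDual_zero_right (x : F) : smulDual x (0 : Dual K (Rep K F)) = 0 := by
  ext α; simp

/-- `x ↦ x • ω`, as a `K`-linear map. -/
def smulDualₗ (ω : Dual K (Rep K F)) : F →ₗ[K] Dual K (Rep K F) where
  toFun x := smulDual x ω
  map_add' x y := by
    ext α
    simp only [smulDual_apply, LinearMap.add_apply, add_smul, map_add]
  map_smul' c x := by
    ext α
    simp only [smulDual_apply, RingHom.id_apply, LinearMap.smul_apply, smul_assoc, map_smul]

@[simp]
theorem smulDualₗ_apply (ω : Dual K (Rep K F)) (x : F) : smulDualₗ ω x = smulDual x ω := rfl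

theorem smulDual_eq_zero_iff {x : F} (hx : x ≠ 0) (ω : Dual K (Rep K F)) :
    smulDual x ω = 0 ↔ ω = 0 := by
  constructor
  · intro h
    have := congrArg (smulDual x⁻¹) h
    rwa [smulDual_smulDual, inv_mul_cancel₀ hx, smulDual_one, smulDual_zero_right] at this
  · rintro rfl; simp

theorem smulDualₗ_injective {ω : Dual K (Rep K F)} (hω : ω ≠ 0) :
    Function.Injective (smulDualₗ ω) := by
  rw [← LinearMap.ker_eq_bot, LinearMap.ker_eq_bot']
  intro x hx
  by_contra h0
  exact hω ((smulDual_eq_zero_iff h0 ω).mp hx)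

/-! ### Weil differentials -/

/-- `Ω(D)`: the functionals on repartitions vanishing on `A(D) + F`. -/
def Om (D : Divisor K F) : Submodule K (Dual K (Rep K F)) :=
  (repartitionsOf D ⊔ principalRepartitions K F).dualAnnihilator

theorem mem_Om {D : Divisor K F} {ω : Dual K (Rep K F)} :
    ω ∈ Om D ↔ (∀ α ∈ repartitionsOf D, ω α = 0) ∧ ∀ α ∈ principalRepartitions K F, ω α = 0 := by
  unfold Om
  rw [Submodule.dualAnnihilator_sup_eq, Submodule.mem_inf, Submodule.mem_dualAnnihilator,
    Submodule.mem_dualAnnihilator]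

theorem Om_anti {D D' : Divisor K F} (h : D ≤ D') : Om D' ≤ Om D := by
  intro ω hω
  rw [mem_Om] at hω ⊢
  exact ⟨fun α hα => hω.1 α (repartitionsOf_mono h hα), hω.2⟩

theorem smul_mem_principalRepartitions (x : F) {α : Rep K F}
    (hα : α ∈ principalRepartitions K F) : x • α ∈ principalRepartitions K F := by
  rw [mem_principalRepartitions_iff] at hα ⊢
  obtain ⟨f, hf⟩ := hα
  refine ⟨x * f, ?_⟩
  funext v
  rw [coe_smul_apply, hf]

theorem smulDual_mem_Om_iff [HasPrincipalDivisors K F] {x : F} (hx : x ≠ 0) (D : Divisor K F)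
    (ω : Dual K (Rep K F)) : smulDual x ω ∈ Om D ↔ ω ∈ Om (D - divOf x) := by
  rw [mem_Om, mem_Om]
  constructor
  · rintro ⟨h1, h2⟩
    refine ⟨fun β hβ => ?_, fun β hβ => ?_⟩
    · have hβ' : x⁻¹ • β ∈ repartitionsOf D := by
        have : x • (x⁻¹ • β) ∈ repartitionsOf (D - divOf x) := by
          rwa [smul_smul, mul_inv_cancel₀ hx, one_smul]
        rw [smul_mem_repartitionsOf_iff hx] at this
        simpa using this
      have := h1 _ hβ'
      rwa [smulDual_apply, smul_smul, mul_inv_cancel₀ hx, one_smul] at this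
    · have := h2 _ (smul_mem_principalRepartitions x⁻¹ hβ)
      rwa [smulDual_apply, smul_smul, mul_inv_cancel₀ hx, one_smul] at this
  · rintro ⟨h1, h2⟩
    refine ⟨fun α hα => ?_, fun α hα => ?_⟩
    · rw [smulDual_apply]
      apply h1
      rw [smul_mem_repartitionsOf_iff hx]
      simpa using hα
    · rw [smulDual_apply]
      exact h2 _ (smul_mem_principalRepartitions x hα)

/-- For `x ≠ 0`: `x • ω ∈ Ω(D)` with `ω ∈ Ω(E)` as soon as `x ∈ L(E - D)`. -/
theorem smulDual_mem_Om_of_mem [HasPrincipalDivisors K F] {x : F} {D E : Divisor K F}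
    {ω : Dual K (Rep K F)} (hω : ω ∈ Om E) (hx : x ∈ riemannRochSpace (E - D)) :
    smulDual x ω ∈ Om D := by
  rcases eq_or_ne x 0 with rfl | h0
  · have : smulDual (0 : F) ω = 0 := by ext α; simp
    rw [this]; exact Submodule.zero_mem _
  · rw [smulDual_mem_Om_iff h0]
    refine Om_anti ?_ hω
    have := (mem_riemannRochSpace_iff_le (K := K) h0 (E - D)).mp hx
    rw [Finsupp.le_def] at this ⊢
    intro v
    have := this v
    simp only [Finsupp.neg_apply, Finsupp.sub_apply, divOf_apply] at this ⊢
    linarith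


/-! ### Dimension of `Ω(D)` -/

theorem finrank_Om (D : Divisor K F) : finrank K (Om D) = finrank K (H1 D) := by
  unfold Om
  rw [← (Submodule.dualQuotEquivDualAnnihilator
    (repartitionsOf D ⊔ principalRepartitions K F)).finrank_eq, Subspace.dual_finrank_eq]

theorem finite_Om (D : Divisor K F) [Module.Finite K (H1 D)] : Module.Finite K (Om D) :=
  Module.Finite.equiv (Submodule.dualQuotEquivDualAnnihilator
    (repartitionsOf D ⊔ principalRepartitions K F))

theorem Om_eq_bot_of_top (D : Divisor K F)
    (htop : repartitionsOf D ⊔ principalRepartitions K F = ⊤) : Om D = ⊥ := by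
  unfold Om
  rw [htop, Submodule.dualAnnihilator_top]

theorem Om_eq_bot_of_subsingleton (D : Divisor K F) (h : Subsingleton (H1 D)) : Om D = ⊥ :=
  Om_eq_bot_of_top D (Submodule.Quotient.subsingleton_iff.mp h)

/-! ### The weak Riemann–Roch package (input) -/

/-- The weak Riemann–Roch package for the Prelude repartition genus: finiteness of `H1 D`,
Riemann's equality and vanishing of `H1 D` in large degree. -/
structure WeakRR (K F : Type*) [Field K] [Field F] [Algebra K F] : Prop where
  finite_H1 : ∀ D : Divisor K F, Module.Finite K (H1 D)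
  riemann : ∀ D : Divisor K F,
    (finrank K (riemannRochSpace D) : ℤ) - finrank K (H1 D)
      = Divisor.degree D + 1 - genusFF K F
  vanish : ∃ c : ℤ, ∀ D : Divisor K F, c ≤ Divisor.degree D →
    repartitionsOf D ⊔ principalRepartitions K F = ⊤

/-- The weak Riemann–Roch package from the `Subsingleton (H1 D)` form of the vanishing. -/
theorem WeakRR.of_subsingleton
    (hfin : ∀ D : Divisor K F, Module.Finite K (H1 D))
    (hRR : ∀ D : Divisor K F, (finrank K (riemannRochSpace D) : ℤ) - finrank K (H1 D)
      = Divisor.degree D + 1 - genusFF K F)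
    (hvan : ∃ c : ℤ, ∀ D : Divisor K F, c ≤ Divisor.degree D → Subsingleton (H1 D)) :
    WeakRR K F :=
  ⟨hfin, hRR, hvan.imp fun _ hc D hD => Submodule.Quotient.subsingleton_iff.mp (hc D hD)⟩

namespace WeakRR

variable (h : WeakRR K F)
include h

theorem finrank_Om_eq (D : Divisor K F) :
    (finrank K (Om D) : ℤ)
      = finrank K (riemannRochSpace D) - Divisor.degree D - 1 + genusFF K F := by
  rw [finrank_Om]
  have := h.riemann D
  linarith

theorem finrank_L_zero : finrank K (riemannRochSpace (0 : Divisor K F)) = 1 := by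
  have := h.riemann (0 : Divisor K F)
  rw [map_zero] at this
  have hg : finrank K (H1 (0 : Divisor K F)) = genusFF K F := rfl
  rw [hg] at this
  omega

end WeakRR


/-! ### Existence and one-dimensionality of Weil differentials -/

namespace WeakRR

variable (h : WeakRR K F)
include h

theorem exists_ne_zero_mem_Om [HasPrincipalDivisors K F] (hdeg : ∀ v : Place K F, v.deg = 1) (P : Place K F) :
    ∃ ω ∈ Om (Finsupp.single P (-2 : ℤ) : Divisor K F), ω ≠ 0 := by
  set D₀ : Divisor K F := Finsupp.single P (-2 : ℤ) with hD₀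
  have hdegD : Divisor.degree D₀ = -2 := by simp [hD₀, hdeg]
  have hL : finrank K (riemannRochSpace D₀) = 0 := by
    rw [riemannRochSpace_eq_bot_of_degree_neg (by rw [hdegD]; norm_num)]
    simp
  have hpos : 0 < finrank K (Om D₀) := by
    have h1 := h.finrank_Om_eq D₀
    rw [hL, hdegD] at h1
    push_cast at h1
    omega
  have : Nontrivial (Om D₀) := Module.nontrivial_of_finrank_pos hpos
  obtain ⟨⟨ω, hω⟩, hne⟩ := exists_ne (0 : Om D₀)
  exact ⟨ω, hω, fun h0 => hne (Subtype.ext h0)⟩

/-- `dim_F Ω = 1`: any Weil differential is an `F`-multiple of a fixed nonzero one. -/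
theorem exists_smulDual_eq [HasPrincipalDivisors K F] (hdeg : ∀ v : Place K F, v.deg = 1) (P : Place K F)
    {D₁ D₂ : Divisor K F} {ω₁ ω₂ : Dual K (Rep K F)}
    (h₁ : ω₁ ∈ Om D₁) (hne₁ : ω₁ ≠ 0) (h₂ : ω₂ ∈ Om D₂) :
    ∃ z : F, ω₂ = smulDual z ω₁ := by
  by_cases hne₂ : ω₂ = 0
  · refine ⟨0, ?_⟩
    rw [hne₂]; ext α; simp
  -- the auxiliary divisor `B = N • P`
  set g : ℤ := (genusFF K F : ℤ) with hg
  set N : ℤ := max 1 (3 * g - Divisor.degree D₁ - Divisor.degree D₂) with hN
  have hN1 : 1 ≤ N := le_max_left _ _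
  have hN2 : 3 * g - Divisor.degree D₁ - Divisor.degree D₂ ≤ N := le_max_right _ _
  set B : Divisor K F := Finsupp.single P N with hB
  have hdegB : Divisor.degree B = N := by simp [hB, hdeg]
  have := h.finite_H1 (-B)
  have := finite_Om (K := K) (F := F) (-B)
  -- dimension of `Ω(-B)`
  have hLB : finrank K (riemannRochSpace (-B)) = 0 := by
    rw [riemannRochSpace_eq_bot_of_degree_neg (by rw [map_neg, hdegB]; linarith)]
    simp
  have hOm : (finrank K (Om (-B)) : ℤ) = N - 1 + g := by
    have := h.finrank_Om_eq (-B)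
    rw [hLB, map_neg, hdegB] at this
    push_cast at this
    linarith
  -- the two subspaces
  set S₁ : Submodule K (Dual K (Rep K F)) :=
    (riemannRochSpace (D₁ + B)).map (smulDualₗ ω₁) with hS₁
  set S₂ : Submodule K (Dual K (Rep K F)) :=
    (riemannRochSpace (D₂ + B)).map (smulDualₗ ω₂) with hS₂
  have hS₁le : S₁ ≤ Om (-B) := by
    rintro η ⟨x, hx, rfl⟩
    exact smulDual_mem_Om_of_mem h₁ (by rwa [sub_neg_eq_add])
  have hS₂le : S₂ ≤ Om (-B) := by
    rintro η ⟨x, hx, rfl⟩
    exact smulDual_mem_Om_of_mem h₂ (by rwa [sub_neg_eq_add])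
  have : FiniteDimensional K S₁ := Submodule.finiteDimensional_of_le hS₁le
  have : FiniteDimensional K S₂ := Submodule.finiteDimensional_of_le hS₂le
  have hfr₁ : finrank K S₁ = finrank K (riemannRochSpace (D₁ + B)) :=
    ((riemannRochSpace (D₁ + B)).equivMapOfInjective _ (smulDualₗ_injective hne₁)).finrank_eq.symm
  have hfr₂ : finrank K S₂ = finrank K (riemannRochSpace (D₂ + B)) :=
    ((riemannRochSpace (D₂ + B)).equivMapOfInjective _ (smulDualₗ_injective hne₂)).finrank_eq.symm
  have hl₁ : Divisor.degree D₁ + N + 1 - g ≤ (finrank K S₁ : ℤ) := by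
    have := h.riemann (D₁ + B)
    rw [map_add, hdegB] at this
    rw [hfr₁]
    have h0 : (0 : ℤ) ≤ finrank K (H1 (D₁ + B)) := Int.natCast_nonneg _
    linarith
  have hl₂ : Divisor.degree D₂ + N + 1 - g ≤ (finrank K S₂ : ℤ) := by
    have := h.riemann (D₂ + B)
    rw [map_add, hdegB] at this
    rw [hfr₂]
    have h0 : (0 : ℤ) ≤ finrank K (H1 (D₂ + B)) := Int.natCast_nonneg _
    linarith
  have hsup : finrank K ↥(S₁ ⊔ S₂) ≤ finrank K (Om (-B)) :=
    Submodule.finrank_mono (sup_le hS₁le hS₂le)
  have hdim := Submodule.finrank_sup_add_finrank_inf_eq S₁ S₂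
  have hpos : 0 < finrank K ↥(S₁ ⊓ S₂) := by
    have e1 : (finrank K ↥(S₁ ⊔ S₂) : ℤ) + finrank K ↥(S₁ ⊓ S₂)
        = finrank K S₁ + finrank K S₂ := by exact_mod_cast hdim
    have e2 : (finrank K ↥(S₁ ⊔ S₂) : ℤ) ≤ finrank K (Om (-B)) := by exact_mod_cast hsup
    have : (0 : ℤ) < finrank K ↥(S₁ ⊓ S₂) := by linarith
    exact_mod_cast this
  have : Nontrivial ↥(S₁ ⊓ S₂) := Module.nontrivial_of_finrank_pos hpos
  obtain ⟨⟨η, hη⟩, hηne⟩ := exists_ne (0 : ↥(S₁ ⊓ S₂))
  have hη0 : η ≠ 0 := fun h0 => hηne (Subtype.ext h0)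
  obtain ⟨⟨x₁, -, hx₁⟩, ⟨x₂, -, hx₂⟩⟩ := hη
  rw [smulDualₗ_apply] at hx₁ hx₂
  have hx₂0 : x₂ ≠ 0 := by
    rintro rfl
    apply hη0
    rw [← hx₂]; ext α; simp
  refine ⟨x₂⁻¹ * x₁, ?_⟩
  rw [← smulDual_smulDual, hx₁, ← hx₂, smulDual_smulDual, inv_mul_cancel₀ hx₂0, smulDual_one]

/-- The divisor of a nonzero Weil differential: the maximum of `{D | ω ∈ Ω(D)}`. -/
theorem exists_divisor_of_ne_zero (hdeg : ∀ v : Place K F, v.deg = 1)
    {ω : Dual K (Rep K F)} (hω : ω ≠ 0) {D₀ : Divisor K F} (h₀ : ω ∈ Om D₀) :
    ∃ W : Divisor K F, ∀ D : Divisor K F, ω ∈ Om D ↔ D ≤ W := by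
  obtain ⟨c, hc⟩ := h.vanish
  have hbdd : ∃ b : ℤ, ∀ z : ℤ, (∃ D : Divisor K F, ω ∈ Om D ∧ Divisor.degree D = z) → z ≤ b := by
    refine ⟨c, ?_⟩
    rintro z ⟨D, hD, rfl⟩
    by_contra hlt
    have hlt' := not_le.mp hlt
    have := Om_eq_bot_of_top D (hc D hlt'.le)
    rw [this, Submodule.mem_bot] at hD
    exact hω hD
  obtain ⟨ub, ⟨W, hW, hWdeg⟩, hmax⟩ :=
    Int.exists_greatest_of_bdd hbdd ⟨Divisor.degree D₀, D₀, h₀, rfl⟩
  refine ⟨W, fun D => ⟨fun hD => ?_, fun hD => Om_anti hD hW⟩⟩
  by_contra hle
  rw [Finsupp.le_def, not_forall] at hle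
  obtain ⟨Q, hQ'⟩ := hle
  have hQ := not_le.mp hQ'
  -- then `ω ∈ Ω(W + Q)`, contradicting maximality of the degree
  have hmem : ω ∈ Om (W + Finsupp.single Q (1 : ℤ)) := by
    rw [mem_Om]
    refine ⟨fun α hα => ?_, (mem_Om.mp hW).2⟩
    have hsplit : α = single Q ((α : Place K F → F) Q) + (α - single Q ((α : Place K F → F) Q)) := by
      abel
    have h1 : single Q ((α : Place K F → F) Q) ∈ repartitionsOf D := by
      rw [mem_repartitionsOf_iff] at hα ⊢
      intro v
      by_cases hv : v = Q
      · subst hv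
        rw [single_apply_self]
        rcases hα v with h0 | h0
        · exact Or.inl h0
        · right
          rw [Finsupp.add_apply, Finsupp.single_eq_same] at h0
          linarith
      · left
        exact single_apply_of_ne Q _ hv
    have h2 : α - single Q ((α : Place K F → F) Q) ∈ repartitionsOf W := by
      rw [mem_repartitionsOf_iff] at hα ⊢
      intro v
      by_cases hv : v = Q
      · subst hv
        left
        rw [coe_sub_apply, single_apply_self, sub_self]
      · rw [coe_sub_apply, single_apply_of_ne Q _ hv, sub_zero]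
        rcases hα v with h0 | h0
        · exact Or.inl h0
        · right
          rw [Finsupp.add_apply, Finsupp.single_eq_of_ne hv, add_zero] at h0
          exact h0
    rw [hsplit, map_add, (mem_Om.mp hD).1 _ h1, (mem_Om.mp hW).1 _ h2, add_zero]
  have := hmax _ ⟨_, hmem, rfl⟩
  rw [map_add, hWdeg, Divisor.degree_single, hdeg] at this
  simp at this

end WeakRR


/-! ### Duality and the Riemann–Roch theorem -/

namespace WeakRR

variable [HasPrincipalDivisors K F] (h : WeakRR K F)
include h

/-- Duality: if `W` is the divisor of the nonzero Weil differential `ω`, then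
`x ↦ x • ω` is an isomorphism `L(W - D) ≃ Ω(D)`. -/
theorem finrank_L_sub_eq_finrank_Om (hdeg : ∀ v : Place K F, v.deg = 1) (P : Place K F)
    {ω : Dual K (Rep K F)} (hω : ω ≠ 0) {W : Divisor K F}
    (hW : ∀ D : Divisor K F, ω ∈ Om D ↔ D ≤ W) (D : Divisor K F) :
    finrank K (riemannRochSpace (W - D)) = finrank K (Om D) := by
  have hωW : ω ∈ Om W := (hW W).mpr le_rfl
  -- the map `x ↦ x • ω`
  let f : riemannRochSpace (W - D) →ₗ[K] Om D :=
    ((smulDualₗ ω).comp (riemannRochSpace (W - D)).subtype).codRestrict (Om D)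
      (fun x => smulDual_mem_Om_of_mem hωW x.2)
  have hf_apply : ∀ x : riemannRochSpace (W - D), ((f x : Om D) : Dual K (Rep K F))
      = smulDual (x : F) ω := fun x => rfl
  have hinj : Function.Injective f := by
    intro x y hxy
    have := congrArg (fun z : Om D => (z : Dual K (Rep K F))) hxy
    simp only [hf_apply] at this
    exact Subtype.ext (smulDualₗ_injective hω this)
  have hsurj : Function.Surjective f := by
    rintro ⟨ω', hω'⟩
    obtain ⟨z, rfl⟩ := h.exists_smulDual_eq hdeg P hωW hω hω'
    by_cases hz0 : z = 0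
    · refine ⟨0, Subtype.ext ?_⟩
      rw [hf_apply]
      subst hz0
      rfl
    · have hmem : z ∈ riemannRochSpace (W - D) := by
        rw [mem_riemannRochSpace_iff_le (K := K) hz0]
        have hω'' := hω'
        rw [smulDual_mem_Om_iff hz0, hW] at hω''
        rw [Finsupp.le_def] at hω'' ⊢
        intro v
        have := hω'' v
        simp only [Finsupp.neg_apply, Finsupp.sub_apply, divOf_apply] at this ⊢
        linarith
      exact ⟨⟨z, hmem⟩, Subtype.ext (hf_apply _)⟩
  exact (LinearEquiv.ofBijective f ⟨hinj, hsurj⟩).finrank_eq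

/-- **Riemann–Roch with duality** (canonical divisor form). -/
theorem exists_canonical (hdeg : ∀ v : Place K F, v.deg = 1) (hne : Nonempty (Place K F)) :
    ∃ W : Divisor K F,
      (∀ D : Divisor K F, finrank K (H1 D) = finrank K (riemannRochSpace (W - D))) ∧
      (∀ D : Divisor K F, (finrank K (riemannRochSpace D) : ℤ)
        = Divisor.degree D + 1 - genusFF K F + finrank K (riemannRochSpace (W - D))) ∧
      Divisor.degree W = 2 * (genusFF K F : ℤ) - 2 ∧
      finrank K (riemannRochSpace W) = genusFF K F := by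
  obtain ⟨P⟩ := hne
  obtain ⟨ω, hωmem, hω⟩ := h.exists_ne_zero_mem_Om hdeg P
  obtain ⟨W, hW⟩ := h.exists_divisor_of_ne_zero hdeg hω hωmem
  have hdual : ∀ D : Divisor K F, finrank K (H1 D) = finrank K (riemannRochSpace (W - D)) :=
    fun D => by rw [h.finrank_L_sub_eq_finrank_Om hdeg P hω hW D, finrank_Om]
  have hRR : ∀ D : Divisor K F, (finrank K (riemannRochSpace D) : ℤ)
      = Divisor.degree D + 1 - genusFF K F + finrank K (riemannRochSpace (W - D)) := by
    intro D
    have := h.riemann D
    rw [hdual D] at this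
    linarith
  have h0 := hRR 0
  rw [h.finrank_L_zero, map_zero, sub_zero] at h0
  have hLW : finrank K (riemannRochSpace W) = genusFF K F := by
    have : (finrank K (riemannRochSpace W) : ℤ) = genusFF K F := by push_cast at h0; linarith
    exact_mod_cast this
  refine ⟨W, hdual, hRR, ?_, hLW⟩
  have hWW := hRR W
  rw [sub_self, h.finrank_L_zero, hLW] at hWW
  push_cast at hWW
  linarith

end WeakRR

namespace WeakRR

variable [HasPrincipalDivisors K F] (h : WeakRR K F)
include h

/-- `h¹(D) = 0` as soon as `deg D > 2g - 2` (sharp bound, from duality). -/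
theorem eq_top_of_degree_gt (hdeg : ∀ v : Place K F, v.deg = 1) (hne : Nonempty (Place K F))
    {D : Divisor K F} (hD : 2 * (genusFF K F : ℤ) - 2 < Divisor.degree D) :
    repartitionsOf D ⊔ principalRepartitions K F = ⊤ := by
  obtain ⟨W, hdual, -, hW, -⟩ := h.exists_canonical hdeg hne
  have h0 : finrank K (H1 D) = 0 := by
    rw [hdual D, riemannRochSpace_eq_bot_of_degree_neg (by rw [map_sub, hW]; linarith)]
    simp
  have := h.finite_H1 D
  have hsub : Subsingleton (H1 D) := Module.finrank_zero_iff.mp h0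
  exact Submodule.Quotient.subsingleton_iff.mp hsub

/-- Riemann's theorem with the sharp bound: `l(D) = deg D + 1 - g` for `deg D > 2g - 2`. -/
theorem finrank_L_of_degree_gt (hdeg : ∀ v : Place K F, v.deg = 1) (hne : Nonempty (Place K F))
    {D : Divisor K F} (hD : 2 * (genusFF K F : ℤ) - 2 < Divisor.degree D) :
    (finrank K (riemannRochSpace D) : ℤ) = Divisor.degree D + 1 - genusFF K F := by
  obtain ⟨W, -, hRR, hW, -⟩ := h.exists_canonical hdeg hne
  have := hRR D
  rw [riemannRochSpace_eq_bot_of_degree_neg (D := W - D) (by rw [map_sub, hW]; linarith)] at this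
  simpa using this

end WeakRR

/-- **Riemann–Roch with duality**, explicit-hypothesis form (inputs = the weak Riemann–Roch
package: finiteness of `H1 D`, Riemann's equality, vanishing of `H1 D` in large degree in the
form `A(D) + F = ⊤`). -/
theorem rr_duality (K F : Type*) [Field K] [Field F] [Algebra K F] [HasPrincipalDivisors K F]
    (hdeg : ∀ v : Place K F, v.deg = 1) (hne : Nonempty (Place K F))
    (hfin : ∀ D : Divisor K F, Module.Finite K (H1 D))
    (hRR : ∀ D : Divisor K F, (finrank K (riemannRochSpace D) : ℤ) - finrank K (H1 D)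
      = Divisor.degree D + 1 - genusFF K F)
    (hvan : ∃ c : ℤ, ∀ D : Divisor K F, c ≤ Divisor.degree D →
      repartitionsOf D ⊔ principalRepartitions K F = ⊤) :
    ∃ W : Divisor K F, Divisor.degree W = 2 * (genusFF K F : ℤ) - 2 ∧
      ∀ D : Divisor K F, (finrank K (riemannRochSpace D) : ℤ)
        = Divisor.degree D + 1 - genusFF K F + finrank K (riemannRochSpace (W - D)) := by
  obtain ⟨W, -, h2, h3, -⟩ := (WeakRR.mk hfin hRR hvan).exists_canonical hdeg hne
  exact ⟨W, h3, h2⟩

/-- **Riemann–Roch with duality**, with the vanishing hypothesis in the form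
`Subsingleton (H1 D)`. -/
theorem rr_duality' (K F : Type*) [Field K] [Field F] [Algebra K F] [HasPrincipalDivisors K F]
    (hdeg : ∀ v : Place K F, v.deg = 1) (hne : Nonempty (Place K F))
    (hfin : ∀ D : Divisor K F, Module.Finite K (H1 D))
    (hRR : ∀ D : Divisor K F, (finrank K (riemannRochSpace D) : ℤ) - finrank K (H1 D)
      = Divisor.degree D + 1 - genusFF K F)
    (hvan : ∃ c : ℤ, ∀ D : Divisor K F, c ≤ Divisor.degree D → Subsingleton (H1 D)) :
    ∃ W : Divisor K F, Divisor.degree W = 2 * (genusFF K F : ℤ) - 2 ∧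
      ∀ D : Divisor K F, (finrank K (riemannRochSpace D) : ℤ)
        = Divisor.degree D + 1 - genusFF K F + finrank K (riemannRochSpace (W - D)) := by
  obtain ⟨W, -, h2, h3, -⟩ := (WeakRR.of_subsingleton hfin hRR hvan).exists_canonical hdeg hne
  exact ⟨W, h3, h2⟩

end

end Fermat.Agent.S27.helper9786
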